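import Mathlib
import Fermat.Prelude.Def_AlgebraicCurve_DivisorClassGroup

/-!
# S37 / S18: the abstract torsion core

A divisor `D` on a valued function field whose specialisation is zero and such that `m • D`
is principal (`m` a unit of the residue field) is principal.  Only the conservation law
`sp (div y) = div (red y)`, one non-special reduced divisor on the special fibre and Riemann's
inequality on the generic fibre are used.  See findings #2509 for the paper proof.
-/

set_option autoImplicit false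

namespace Fermat.Agent.S37.helper126

open AlgebraicCurve

section PlaceBasics

variable {K F : Type*} [Field K] [Field F] [Algebra K F]

/-- Membership in the valuation ring of a place in terms of `ord`. -/
theorem mem_of_ord_nonneg (v : Place K F) {f : F} (hf : 0 ≤ v.ord f) :
    f ∈ v.toValuationSubring := by
  rcases eq_or_ne f 0 with rfl | hf0
  · exact zero_mem _
  obtain ⟨π, hπ⟩ := IsDiscreteValuationRing.exists_irreducible v.toValuationSubring
  obtain ⟨u, hu⟩ := v.exists_unit_mul_zpow hf0 hπ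
  rw [hu]
  refine mul_mem u.1.2 ?_
  obtain ⟨n, hn⟩ := Int.eq_ofNat_of_zero_le hf
  rw [hn, zpow_natCast]
  exact pow_mem π.2 n

theorem ord_nonneg_of_mem (v : Place K F) {f : F} (hf : f ∈ v.toValuationSubring) :
    0 ≤ v.ord f := by
  rcases eq_or_ne f 0 with rfl | hf0
  · simp
  obtain ⟨π, hπ⟩ := IsDiscreteValuationRing.exists_irreducible v.toValuationSubring
  obtain ⟨u, hu⟩ := v.exists_unit_mul_zpow hf0 hπ
  by_contra hneg
  push Not at hneg
  -- `π ^ (-ord f) * f = u`, so `π` would be a unit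
  obtain ⟨n, hn⟩ : ∃ n : ℕ, v.ord f = -((n + 1 : ℕ) : ℤ) :=
    ⟨(-v.ord f - 1).toNat, by push_cast; omega⟩
  have hπF : (π : F) ≠ 0 := by
    simpa [ne_eq, ZeroMemClass.coe_eq_zero] using hπ.ne_zero
  have h1 : (π : F) ^ (n + 1) * f = ((u : v.toValuationSubring) : F) := by
    rw [hu, hn, zpow_neg, zpow_natCast]
    field_simp
  have h2 : π ^ (n + 1) * (⟨f, hf⟩ : v.toValuationSubring) = (u : v.toValuationSubring) := by
    apply Subtype.ext
    simpa using h1
  have h3 : IsUnit (π ^ (n + 1) * (⟨f, hf⟩ : v.toValuationSubring)) := h2 ▸ u.isUnit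
  have h4 : IsUnit (π ^ (n + 1)) := isUnit_of_mul_isUnit_left h3
  exact hπ.not_isUnit ((isUnit_pow_succ_iff).mp h4)

theorem ord_nonneg_iff (v : Place K F) {f : F} : 0 ≤ v.ord f ↔ f ∈ v.toValuationSubring :=
  ⟨mem_of_ord_nonneg v, ord_nonneg_of_mem v⟩

/-- Nonzero constants are units at every place. -/
theorem ord_algebraMap (v : Place K F) (a : K) : v.ord (algebraMap K F a) = 0 := by
  rcases eq_or_ne a 0 with rfl | ha
  · simp
  have h1 : 0 ≤ v.ord (algebraMap K F a) := ord_nonneg_of_mem v (v.algebraMap_mem' a)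
  have h2 : 0 ≤ v.ord (algebraMap K F a⁻¹) := ord_nonneg_of_mem v (v.algebraMap_mem' a⁻¹)
  rw [map_inv₀, v.ord_inv] at h2
  omega

/-- `1 ≤ ord f` iff `f` is a nonzero element of the maximal ideal. -/
theorem one_le_ord_iff (v : Place K F) {f : F} (hf0 : f ≠ 0) :
    1 ≤ v.ord f ↔ f ∈ v.toValuationSubring.nonunits := by
  rw [ValuationSubring.mem_nonunits_iff_exists_mem_maximalIdeal]
  constructor
  · intro h
    have hmem : f ∈ v.toValuationSubring := mem_of_ord_nonneg v (by omega)
    refine ⟨hmem, ?_⟩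
    rw [IsLocalRing.mem_maximalIdeal, mem_nonunits_iff]
    intro hu
    have := v.ord_coe_unit hu.unit
    simp only [IsUnit.unit_spec] at this
    omega
  · rintro ⟨hmem, hmax⟩
    have h0 : 0 ≤ v.ord f := ord_nonneg_of_mem v hmem
    by_contra hlt
    have h1 : v.ord f = 0 := by omega
    have hinv : f⁻¹ ∈ v.toValuationSubring := by
      apply mem_of_ord_nonneg
      rw [v.ord_inv, h1]
      simp
    rw [IsLocalRing.mem_maximalIdeal, mem_nonunits_iff] at hmax
    apply hmax
    refine IsUnit.of_mul_eq_one (⟨f⁻¹, hinv⟩ : v.toValuationSubring) ?_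
    apply Subtype.ext
    simp [hf0]

end PlaceBasics


section ValTools

variable {F : Type*} [Field F] (A : ValuationSubring F)

theorem mem_of_mem_nonunits {x : F} (hx : x ∈ A.nonunits) : x ∈ A :=
  (A.valuation_le_one_iff x).mp (le_of_lt ((A.mem_nonunits_iff).mp hx))

theorem zero_mem_nonunits' : (0 : F) ∈ A.nonunits := by
  rw [A.mem_nonunits_iff, map_zero]
  exact zero_lt_one

theorem one_notMem_nonunits : (1 : F) ∉ A.nonunits := by
  rw [A.mem_nonunits_iff, map_one]
  exact lt_irrefl _

theorem mul_mem_nonunits_of_mem {x y : F} (hx : x ∈ A.nonunits) (hy : y ∈ A) :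
    x * y ∈ A.nonunits := by
  rw [A.mem_nonunits_iff] at hx ⊢
  rw [map_mul]
  have hy' := (A.valuation_le_one_iff y).mpr hy
  calc A.valuation x * A.valuation y ≤ A.valuation x * 1 := mul_le_mul_right hy' _
    _ = A.valuation x := mul_one _
    _ < 1 := hx

theorem mul_mem_nonunits_of_mem' {x y : F} (hx : x ∈ A) (hy : y ∈ A.nonunits) :
    x * y ∈ A.nonunits := by
  rw [mul_comm]
  exact mul_mem_nonunits_of_mem A hy hx

theorem add_mem_nonunits {x y : F} (hx : x ∈ A.nonunits) (hy : y ∈ A.nonunits) :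
    x + y ∈ A.nonunits := by
  rw [A.mem_nonunits_iff] at hx hy ⊢
  exact lt_of_le_of_lt (A.valuation.map_add x y) (max_lt hx hy)

theorem sub_mem_nonunits {x y : F} (hx : x ∈ A.nonunits) (hy : y ∈ A.nonunits) :
    x - y ∈ A.nonunits := by
  rw [A.mem_nonunits_iff] at hx hy ⊢
  exact lt_of_le_of_lt (A.valuation.map_sub x y) (max_lt hx hy)

theorem neg_mem_nonunits {x : F} (hx : x ∈ A.nonunits) : -x ∈ A.nonunits := by
  rw [A.mem_nonunits_iff] at hx ⊢
  rwa [Valuation.map_neg]

/-- An element of `A` which is not in the maximal ideal has its inverse in `A`. -/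
theorem inv_mem_of_notMem_nonunits {x : F} (hx : x ∈ A) (h : x ∉ A.nonunits) : x⁻¹ ∈ A := by
  rw [A.mem_nonunits_iff, not_lt] at h
  have hx' := (A.valuation_le_one_iff x).mpr hx
  have h1 : A.valuation x = 1 := le_antisymm hx' h
  rw [← A.valuation_le_one_iff, map_inv₀, h1, inv_one]

theorem notMem_nonunits_of_inv_mem {x : F} (hx0 : x ≠ 0) (hinv : x⁻¹ ∈ A) :
    x ∉ A.nonunits := by
  intro h
  have h1 := mul_mem_nonunits_of_mem A h hinv
  rw [mul_inv_cancel₀ hx0] at h1
  exact one_notMem_nonunits A h1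

/-- If `x ∉ A` then `x⁻¹` lies in the maximal ideal. -/
theorem inv_mem_nonunits_of_notMem {x : F} (h : x ∉ A) : x⁻¹ ∈ A.nonunits := by
  rw [← A.valuation_le_one_iff, not_le] at h
  rw [A.mem_nonunits_iff, map_inv₀]
  have hne : A.valuation x ≠ 0 := (lt_trans zero_lt_one h).ne'
  exact (inv_lt_one₀ (zero_lt_iff.mpr hne)).mpr h

theorem pow_mem_nonunits {x : F} (hx : x ∈ A.nonunits) {n : ℕ} (hn : n ≠ 0) :
    x ^ n ∈ A.nonunits := by
  obtain ⟨n, rfl⟩ := Nat.exists_eq_succ_of_ne_zero hn
  rw [pow_succ]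
  exact mul_mem_nonunits_of_mem' A (pow_mem (mem_of_mem_nonunits A hx) n) hx

end ValTools

section MapDomain

variable {α β : Type*} (sp : α → β)

open Classical in
theorem mapDomain_apply_eq_sum (D : α →₀ ℤ) (s : β) :
    Finsupp.mapDomain sp D s = ∑ P ∈ D.support, if sp P = s then D P else 0 := by
  rw [Finsupp.mapDomain, Finsupp.sum_apply, Finsupp.sum]
  refine Finset.sum_congr rfl fun P _ => ?_
  rw [Finsupp.single_apply]

/-- Partial sums over the fibre are bounded by the value of the push-forward. -/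
theorem sum_le_mapDomain_apply (D : α →₀ ℤ) (s : β) (hnn : ∀ P, sp P = s → 0 ≤ D P)
    (T : Finset α) (hT : ∀ P ∈ T, sp P = s) :
    ∑ P ∈ T, D P ≤ Finsupp.mapDomain sp D s := by
  classical
  rw [mapDomain_apply_eq_sum]
  have h1 : ∑ P ∈ T, D P = ∑ P ∈ T, if sp P = s then D P else 0 :=
    Finset.sum_congr rfl fun P hP => by rw [if_pos (hT P hP)]
  have h2 : ∑ P ∈ D.support, (if sp P = s then D P else 0)
      = ∑ P ∈ D.support ∪ T, if sp P = s then D P else 0 := by
    refine Finset.sum_subset Finset.subset_union_left fun P _ hP => ?_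
    rw [Finsupp.mem_support_iff, not_not] at hP
    rw [hP, ite_self]
  rw [h1, h2]
  refine Finset.sum_le_sum_of_subset_of_nonneg Finset.subset_union_right fun P _ _ => ?_
  split_ifs with h
  · exact hnn P h
  · exact le_rfl

theorem mapDomain_apply_nonneg (D : α →₀ ℤ) (s : β) (hnn : ∀ P, sp P = s → 0 ≤ D P) :
    0 ≤ Finsupp.mapDomain sp D s := by
  simpa using sum_le_mapDomain_apply sp D s hnn ∅ (by simp)

theorem le_mapDomain_apply (D : α →₀ ℤ) (s : β) (hnn : ∀ P, sp P = s → 0 ≤ D P)
    (P₀ : α) (hP₀ : sp P₀ = s) : D P₀ ≤ Finsupp.mapDomain sp D s := by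
  simpa using sum_le_mapDomain_apply sp D s hnn {P₀} (by simpa using hP₀)

theorem add_le_mapDomain_apply (D : α →₀ ℤ) (s : β) (hnn : ∀ P, sp P = s → 0 ≤ D P)
    (P₀ P₁ : α) (hP₀ : sp P₀ = s) (hP₁ : sp P₁ = s) (hne : P₀ ≠ P₁) :
    D P₀ + D P₁ ≤ Finsupp.mapDomain sp D s := by
  classical
  have := sum_le_mapDomain_apply sp D s hnn {P₀, P₁} (by
    intro P hP
    rw [Finset.mem_insert, Finset.mem_singleton] at hP
    rcases hP with rfl | rfl <;> assumption)
  rwa [Finset.sum_pair hne] at this

theorem exists_pos_of_mapDomain_apply_pos (D : α →₀ ℤ) (s : β)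
    (h : 0 < Finsupp.mapDomain sp D s) : ∃ P, sp P = s ∧ 0 < D P := by
  classical
  by_contra hcon
  push Not at hcon
  rw [mapDomain_apply_eq_sum] at h
  have : ∑ P ∈ D.support, (if sp P = s then D P else 0) ≤ 0 := by
    refine Finset.sum_nonpos fun P _ => ?_
    split_ifs with hP
    · exact hcon P hP
    · exact le_rfl
  omega

end MapDomain


section Core

variable {K F k Fk : Type*} [Field K] [Field F] [Algebra K F] [Field k] [Field Fk] [Algebra k Fk]
variable (O : ValuationSubring F) (red : O →+* Fk) (sp : Place K F → Place k Fk)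

open Classical in
/-- The reduction map, extended by zero outside the valuation ring. -/
noncomputable def rd (x : F) : Fk := if h : x ∈ O then red ⟨x, h⟩ else 0

theorem rd_of_mem {x : F} (h : x ∈ O) : rd O red x = red ⟨x, h⟩ := dif_pos h

theorem rd_zero : rd O red 0 = 0 := by
  rw [rd_of_mem O red (zero_mem O)]
  exact map_zero red

theorem rd_one : rd O red 1 = 1 := by
  rw [rd_of_mem O red (one_mem O)]
  exact map_one red

theorem rd_add {x y : F} (hx : x ∈ O) (hy : y ∈ O) :
    rd O red (x + y) = rd O red x + rd O red y := by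
  rw [rd_of_mem O red (add_mem hx hy), rd_of_mem O red hx, rd_of_mem O red hy, ← map_add]
  rfl

theorem rd_sub {x y : F} (hx : x ∈ O) (hy : y ∈ O) :
    rd O red (x - y) = rd O red x - rd O red y := by
  rw [rd_of_mem O red (sub_mem hx hy), rd_of_mem O red hx, rd_of_mem O red hy, ← map_sub]
  rfl

theorem rd_mul {x y : F} (hx : x ∈ O) (hy : y ∈ O) :
    rd O red (x * y) = rd O red x * rd O red y := by
  rw [rd_of_mem O red (mul_mem hx hy), rd_of_mem O red hx, rd_of_mem O red hy, ← map_mul]
  rfl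

theorem rd_pow {x : F} (hx : x ∈ O) (n : ℕ) : rd O red (x ^ n) = rd O red x ^ n := by
  rw [rd_of_mem O red (pow_mem hx n), rd_of_mem O red hx, ← map_pow]
  rfl

theorem rd_natCast (n : ℕ) : rd O red (n : F) = (n : Fk) := by
  rw [rd_of_mem O red (natCast_mem O n)]
  have : (⟨(n : F), natCast_mem O n⟩ : O) = (n : O) := rfl
  rw [this, map_natCast]

/-- `red` kills exactly the maximal ideal. -/
def RedKer : Prop := ∀ x : O, red x = 0 ↔ (x : F) ∈ O.nonunits

variable (K k) in
/-- `red` sends constants to constants. -/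
def RedConst : Prop :=
  ∀ (a : K) (ha : algebraMap K F a ∈ O), red ⟨algebraMap K F a, ha⟩ ∈ Set.range (algebraMap k Fk)

variable (K) in
/-- The value group of `O` is that of its restriction to the constants. -/
def ValueGroupConst : Prop :=
  ∀ f : F, f ≠ 0 → ∃ c : K, c ≠ 0 ∧ f * (algebraMap K F c)⁻¹ ∈ O ∧ (f * (algebraMap K F c)⁻¹)⁻¹ ∈ O

/-- Conservation law: `sp (div y) = div (red y)`. -/
def Conservation : Prop :=
  ∀ y : O, red y ≠ 0 → ∀ D : Divisor K F, (∀ P, D P = P.ord (y : F)) →
    ∀ s, Finsupp.mapDomain sp D s = s.ord (red y)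

variable (K F) in
/-- Every place of `F / K` has residue field `K`. -/
def ResidueTrivial : Prop :=
  ∀ (P : Place K F) (f : F), f ∈ P.toValuationSubring →
    ∃ a : K, f - algebraMap K F a ∈ P.toValuationSubring.nonunits

variable {O red sp}

theorem rd_eq_zero_iff (hker : RedKer O red) {x : F} (hx : x ∈ O) :
    rd O red x = 0 ↔ x ∈ O.nonunits := by
  rw [rd_of_mem O red hx]
  exact hker ⟨x, hx⟩

theorem rd_inv {x : F} (hx : x ∈ O) (hx' : x⁻¹ ∈ O) (hx0 : x ≠ 0) :
    rd O red x⁻¹ = (rd O red x)⁻¹ := by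
  have h1 : rd O red x * rd O red x⁻¹ = 1 := by
    rw [← rd_mul O red hx hx', mul_inv_cancel₀ hx0, rd_one]
  exact eq_inv_of_mul_eq_one_right h1

theorem const_eq_zero_of_mem_nonunits (s : Place k Fk) (κ : k)
    (h : algebraMap k Fk κ ∈ s.toValuationSubring.nonunits) : κ = 0 := by
  by_contra hκ
  have hne : algebraMap k Fk κ ≠ 0 := by simpa using hκ
  refine notMem_nonunits_of_inv_mem s.toValuationSubring hne ?_ h
  rw [← map_inv₀]
  exact s.algebraMap_mem' κ⁻¹

variable [HasPrincipalDivisors K F]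

/-- (A) A Gauss-integral function which is regular over `s` has regular reduction at `s`. -/
theorem rd_mem_of_regular (hcons : Conservation O red sp) {w : F} (hw : w ∈ O)
    (s : Place k Fk) (hreg : ∀ P, sp P = s → w ∈ P.toValuationSubring) :
    rd O red w ∈ s.toValuationSubring := by
  by_cases h0 : rd O red w = 0
  · rw [h0]; exact zero_mem _
  have hw0 : w ≠ 0 := by
    rintro rfl
    exact h0 (rd_zero O red)
  obtain ⟨D, hD, -⟩ := HasPrincipalDivisors.exists_divisor (K := K) w hw0
  rw [rd_of_mem O red hw] at h0 ⊢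
  have hc := hcons ⟨w, hw⟩ h0 D hD s
  apply mem_of_ord_nonneg
  rw [← hc]
  exact mapDomain_apply_nonneg sp D s fun P hP => by
    rw [hD P]
    exact ord_nonneg_of_mem P (hreg P hP)

/-- (A') If moreover the function vanishes at a place over `s`, its reduction vanishes at `s`. -/
theorem rd_mem_nonunits_of_regular (hcons : Conservation O red sp) {w : F} (hw : w ∈ O)
    (s : Place k Fk) (hreg : ∀ P, sp P = s → w ∈ P.toValuationSubring)
    (P₀ : Place K F) (hP₀ : sp P₀ = s) (hz : w ∈ P₀.toValuationSubring.nonunits) :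
    rd O red w ∈ s.toValuationSubring.nonunits := by
  by_cases h0 : rd O red w = 0
  · rw [h0]; exact zero_mem_nonunits' _
  have hw0 : w ≠ 0 := by
    rintro rfl
    exact h0 (rd_zero O red)
  obtain ⟨D, hD, -⟩ := HasPrincipalDivisors.exists_divisor (K := K) w hw0
  have h0' := h0
  rw [rd_of_mem O red hw] at h0 ⊢
  have hc := hcons ⟨w, hw⟩ h0 D hD s
  rw [← one_le_ord_iff s h0, ← hc]
  have h1 : 1 ≤ D P₀ := by
    rw [hD P₀]
    exact (one_le_ord_iff P₀ hw0).mpr hz
  refine le_trans h1 (le_mapDomain_apply sp D s (fun P hP => ?_) P₀ hP₀)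
  rw [hD P]
  exact ord_nonneg_of_mem P (hreg P hP)

/-- (B) Evaluation at a place commutes with reduction. -/
theorem eval_rd (hker : RedKer O red) (hcons : Conservation O red sp) {w : F} (hw : w ∈ O)
    (s : Place k Fk) (hreg : ∀ P, sp P = s → w ∈ P.toValuationSubring)
    (P₀ : Place K F) (hP₀ : sp P₀ = s) (a : K)
    (ha : w - algebraMap K F a ∈ P₀.toValuationSubring.nonunits) :
    algebraMap K F a ∈ O ∧
      rd O red w - rd O red (algebraMap K F a) ∈ s.toValuationSubring.nonunits := by
  have haO : algebraMap K F a ∈ O := by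
    by_contra hna
    have hb := inv_mem_nonunits_of_notMem O hna
    have ha0 : algebraMap K F a ≠ 0 := by
      rintro h
      exact hna (h ▸ zero_mem O)
    have hbO := mem_of_mem_nonunits O hb
    have hw'O : 1 - w * (algebraMap K F a)⁻¹ ∈ O := sub_mem (one_mem O) (mul_mem hw hbO)
    have hrd : rd O red (1 - w * (algebraMap K F a)⁻¹) = 1 := by
      rw [rd_sub O red (one_mem O) (mul_mem hw hbO), rd_one, rd_mul O red hw hbO,
        (rd_eq_zero_iff hker hbO).mpr hb, mul_zero, sub_zero]
    have hbP : ∀ P : Place K F, (algebraMap K F a)⁻¹ ∈ P.toValuationSubring := fun P => by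
      rw [← map_inv₀]
      exact P.algebraMap_mem' a⁻¹
    have hreg' : ∀ P, sp P = s → 1 - w * (algebraMap K F a)⁻¹ ∈ P.toValuationSubring :=
      fun P hP => sub_mem (one_mem _) (mul_mem (hreg P hP) (hbP P))
    have hz : 1 - w * (algebraMap K F a)⁻¹ ∈ P₀.toValuationSubring.nonunits := by
      have e : 1 - w * (algebraMap K F a)⁻¹
          = -((w - algebraMap K F a) * (algebraMap K F a)⁻¹) := by
        field_simp
        ring
      rw [e]
      exact neg_mem_nonunits _ (mul_mem_nonunits_of_mem _ ha (hbP P₀))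
    have := rd_mem_nonunits_of_regular hcons hw'O s hreg' P₀ hP₀ hz
    rw [hrd] at this
    exact one_notMem_nonunits _ this
  refine ⟨haO, ?_⟩
  have hreg' : ∀ P, sp P = s → w - algebraMap K F a ∈ P.toValuationSubring :=
    fun P hP => sub_mem (hreg P hP) (P.algebraMap_mem' a)
  have := rd_mem_nonunits_of_regular hcons (sub_mem hw haO) s hreg' P₀ hP₀ ha
  rwa [rd_sub O red hw haO] at this

omit [HasPrincipalDivisors K F] in
theorem rd_const (hconst : RedConst K k O red) (a : K) (ha : algebraMap K F a ∈ O) :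
    ∃ κ : k, rd O red (algebraMap K F a) = algebraMap k Fk κ := by
  obtain ⟨κ, hκ⟩ := hconst a ha
  exact ⟨κ, by rw [rd_of_mem O red ha, hκ]⟩

/-- (C) On the residue disc of `s` the coordinate `t - a` has exactly one zero, and it is simple. -/
theorem coord_ord (hker : RedKer O red) (hcons : Conservation O red sp) (s : Place k Fk)
    {t : F} (htO : t ∈ O) (ht_reg : ∀ P, sp P = s → t ∈ P.toValuationSubring)
    (ht_ord : s.ord (rd O red t) = 1) (a : K) (ha : algebraMap K F a ∈ O.nonunits)
    (P : Place K F) (hP : sp P = s)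
    (hPz : t - algebraMap K F a ∈ P.toValuationSubring.nonunits) :
    P.ord (t - algebraMap K F a) = 1 ∧
      ∀ P', sp P' = s → P' ≠ P → P'.ord (t - algebraMap K F a) = 0 := by
  have haO := mem_of_mem_nonunits O ha
  have hyO : t - algebraMap K F a ∈ O := sub_mem htO haO
  have hrd : rd O red (t - algebraMap K F a) = rd O red t := by
    rw [rd_sub O red htO haO, (rd_eq_zero_iff hker haO).mpr ha, sub_zero]
  have hrt0 : rd O red t ≠ 0 := by
    intro h
    rw [h, Place.ord_zero] at ht_ord
    exact zero_ne_one ht_ord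
  have hy0 : t - algebraMap K F a ≠ 0 := by
    intro h
    rw [h, rd_zero] at hrd
    exact hrt0 hrd.symm
  obtain ⟨D, hD, -⟩ := HasPrincipalDivisors.exists_divisor (K := K) _ hy0
  have hred0 : red ⟨t - algebraMap K F a, hyO⟩ ≠ 0 := by
    rw [← rd_of_mem O red hyO, hrd]
    exact hrt0
  have hc := hcons ⟨t - algebraMap K F a, hyO⟩ hred0 D hD s
  rw [← rd_of_mem O red hyO, hrd, ht_ord] at hc
  have hnn : ∀ P', sp P' = s → 0 ≤ D P' := fun P' hP' => by
    rw [hD P']
    exact ord_nonneg_of_mem P' (sub_mem (ht_reg P' hP') (P'.algebraMap_mem' a))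
  have h1 : 1 ≤ D P := by
    rw [hD P]
    exact (one_le_ord_iff P hy0).mpr hPz
  have h2 : D P ≤ 1 := hc ▸ le_mapDomain_apply sp D s hnn P hP
  refine ⟨by rw [← hD P]; omega, fun P' hP' hne => ?_⟩
  have h3 := add_le_mapDomain_apply sp D s hnn P P' hP hP' (Ne.symm hne)
  have h4 := hnn P' hP'
  rw [← hD P']
  omega

/-- (C') The value of the coordinate at a place of the disc lies in the maximal ideal. -/
theorem coord_value_mem_nonunits (hker : RedKer O red) (hconst : RedConst K k O red)
    (hcons : Conservation O red sp) (s : Place k Fk)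
    {t : F} (htO : t ∈ O) (ht_reg : ∀ P, sp P = s → t ∈ P.toValuationSubring)
    (ht_ord : s.ord (rd O red t) = 1) (P : Place K F) (hP : sp P = s) (a : K)
    (hPz : t - algebraMap K F a ∈ P.toValuationSubring.nonunits) :
    algebraMap K F a ∈ O.nonunits := by
  obtain ⟨haO, h⟩ := eval_rd hker hcons htO s ht_reg P hP a hPz
  have hrt0 : rd O red t ≠ 0 := by
    intro h
    rw [h, Place.ord_zero] at ht_ord
    exact zero_ne_one ht_ord
  have ht : rd O red t ∈ s.toValuationSubring.nonunits :=
    (one_le_ord_iff s hrt0).mp (by rw [ht_ord])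
  have h2 := sub_mem_nonunits _ ht h
  rw [sub_sub_cancel] at h2
  obtain ⟨κ, hκ⟩ := rd_const hconst a haO
  rw [hκ] at h2
  have := const_eq_zero_of_mem_nonunits s κ h2
  rw [this, map_zero] at hκ
  exact (rd_eq_zero_iff hker haO).mp hκ


omit [HasPrincipalDivisors K F] in
theorem ord_mul_const_inv (P : Place K F) {f : F} (hf : f ≠ 0) {c : K} (hc : c ≠ 0) :
    P.ord (f * (algebraMap K F c)⁻¹) = P.ord f := by
  have hc' : (algebraMap K F c)⁻¹ ≠ 0 := inv_ne_zero (by simpa using hc)
  rw [P.ord_mul hf hc', P.ord_inv, ord_algebraMap, neg_zero, add_zero]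

omit [HasPrincipalDivisors K F] in
theorem ord_pow' (P : Place K F) (f : F) (n : ℕ) : P.ord (f ^ n) = n * P.ord f := by
  rw [← zpow_natCast, P.ord_zpow]

omit [Algebra K F] [Algebra k Fk] [HasPrincipalDivisors K F] in
/-- `(1 - z)^m = 1 - m z + z^2 q` with `q` integral. -/
theorem exists_binom (O : ValuationSubring F) {z : F} (hz : z ∈ O) (m : ℕ) :
    ∃ q ∈ O, (1 - z) ^ m = 1 - m * z + z ^ 2 * q := by
  induction m with
  | zero => exact ⟨0, zero_mem O, by simp⟩
  | succ m ih =>
    obtain ⟨q, hq, h⟩ := ih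
    refine ⟨m + q - z * q, sub_mem (add_mem (natCast_mem O m) hq) (mul_mem hz hq), ?_⟩
    rw [pow_succ, h]
    push_cast
    ring

section Families

variable {ι : Type*} [Fintype ι] {β : Type*}

omit [Fintype ι] in
theorem sum_single_apply_self [Fintype ι] (S : ι → β) (hS : Function.Injective S) (i : ι) :
    (∑ j, Finsupp.single (S j) (1 : ℤ)) (S i) = 1 := by
  classical
  rw [Finsupp.finsetSum_apply, Finset.sum_eq_single i]
  · simp
  · intro j _ hj
    rw [Finsupp.single_apply, if_neg]
    exact fun h => hj (hS h)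
  · intro h
    exact absurd (Finset.mem_univ i) h

omit [Fintype ι] in
theorem sum_single_apply_of_ne [Fintype ι] (S : ι → β) (b : β) (hb : ∀ j, S j ≠ b) :
    (∑ j, Finsupp.single (S j) (1 : ℤ)) b = 0 := by
  classical
  rw [Finsupp.finsetSum_apply]
  refine Finset.sum_eq_zero fun j _ => ?_
  rw [Finsupp.single_apply, if_neg (hb j)]

end Families

variable {ι : Type*} [Fintype ι]

/-- (D) Canonical representative: a divisor of degree zero specialising to zero is linearly
equivalent to `∑ Pt i - ∑ R i` with `Pt i` in the residue disc of `R i`. -/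
theorem exists_canonical (hker : RedKer O red) (hvg : ValueGroupConst K O)
    (hcons : Conservation O red sp)
    (R : ι → Place K F) (hinj : Function.Injective fun i => sp (R i))
    (hNS : ∀ w : Fk, w ≠ 0 → (∀ s, (∀ i, s ≠ sp (R i)) → 0 ≤ s.ord w) →
      (∀ i, -1 ≤ (sp (R i)).ord w) → w ∈ Set.range (algebraMap k Fk))
    (hRR : ∀ D : Divisor K F, Divisor.degree D = 0 → ∃ h : F, h ≠ 0 ∧
      ∀ P, 0 ≤ P.ord h + D P + (∑ i, Finsupp.single (R i) (1 : ℤ)) P)
    (D : Divisor K F) (hdeg : Divisor.degree D = 0) (hsp : Finsupp.mapDomain sp D = 0) :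
    ∃ (h : F) (Pt : ι → Place K F), h ≠ 0 ∧ (∀ i, sp (Pt i) = sp (R i)) ∧
      ∀ P, P.ord h + D P + (∑ i, Finsupp.single (R i) (1 : ℤ)) P
        = (∑ i, Finsupp.single (Pt i) (1 : ℤ)) P := by
  classical
  obtain ⟨h₀, hh₀, hE₀⟩ := hRR D hdeg
  obtain ⟨c, hc0, huO, huinvO⟩ := hvg h₀ hh₀
  set u := h₀ * (algebraMap K F c)⁻¹ with hu_def
  have hu0 : u ≠ 0 := mul_ne_zero hh₀ (inv_ne_zero (by simpa using hc0))
  have hordu : ∀ P : Place K F, P.ord u = P.ord h₀ := fun P => ord_mul_const_inv P hh₀ hc0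
  obtain ⟨H, hH, -⟩ := HasPrincipalDivisors.exists_divisor (K := K) u hu0
  set E : Divisor K F := H + D + ∑ i, Finsupp.single (R i) (1 : ℤ) with hE_def
  have hEapp : ∀ P, E P = P.ord u + D P + (∑ i, Finsupp.single (R i) (1 : ℤ)) P := fun P => by
    rw [hE_def, Finsupp.add_apply, Finsupp.add_apply, hH P]
  have hEnn : ∀ P, 0 ≤ E P := fun P => by
    rw [hEapp, hordu]
    exact hE₀ P
  have hru : rd O red u ≠ 0 := fun h =>
    notMem_nonunits_of_inv_mem O hu0 huinvO ((rd_eq_zero_iff hker huO).mp h)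
  have hred0 : red ⟨u, huO⟩ ≠ 0 := by rwa [← rd_of_mem O red huO]
  have hc := hcons ⟨u, huO⟩ hred0 H hH
  have hmapE : ∀ s, Finsupp.mapDomain sp E s
      = s.ord (rd O red u) + (∑ i, Finsupp.single (sp (R i)) (1 : ℤ)) s := fun s => by
    rw [hE_def, Finsupp.mapDomain_add, Finsupp.mapDomain_add, hsp, add_zero,
      Finsupp.mapDomain_finsetSum, Finsupp.add_apply, hc s, rd_of_mem O red huO]
    simp only [Finsupp.mapDomain_single]
  have hmapnn : ∀ s, 0 ≤ Finsupp.mapDomain sp E s := fun s =>
    mapDomain_apply_nonneg sp E s fun P _ => hEnn P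
  have hS : Function.Injective fun i => sp (R i) := hinj
  obtain ⟨κ, hκ⟩ := hNS (rd O red u) hru
    (fun s hs => by
      have h1 := hmapnn s
      rw [hmapE, sum_single_apply_of_ne (fun i => sp (R i)) s (fun j => (hs j).symm)] at h1
      omega)
    (fun i => by
      have h1 := hmapnn (sp (R i))
      rw [hmapE, sum_single_apply_self (fun i => sp (R i)) hS i] at h1
      omega)
  have hord0 : ∀ s : Place k Fk, s.ord (rd O red u) = 0 := fun s => by
    rw [← hκ]
    exact ord_algebraMap s κ
  have hmapE' : ∀ s, Finsupp.mapDomain sp E s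
      = (∑ i, Finsupp.single (sp (R i)) (1 : ℤ)) s := fun s => by
    rw [hmapE, hord0, zero_add]
  have hex : ∀ i, ∃ P, sp P = sp (R i) ∧ 0 < E P := fun i =>
    exists_pos_of_mapDomain_apply_pos sp E (sp (R i)) (by
      rw [hmapE', sum_single_apply_self (fun i => sp (R i)) hS i]
      exact zero_lt_one)
  choose Pt hPt hPtpos using hex
  have hEPt : ∀ i, E (Pt i) = 1 := fun i => by
    have h1 := le_mapDomain_apply sp E (sp (R i)) (fun P _ => hEnn P) (Pt i) (hPt i)
    rw [hmapE', sum_single_apply_self (fun i => sp (R i)) hS i] at h1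
    have h2 := hPtpos i
    omega
  have hEother : ∀ i P, sp P = sp (R i) → P ≠ Pt i → E P = 0 := fun i P hP hne => by
    have h1 := add_le_mapDomain_apply sp E (sp (R i)) (fun P _ => hEnn P) P (Pt i) hP (hPt i) hne
    rw [hmapE', sum_single_apply_self (fun i => sp (R i)) hS i, hEPt i] at h1
    have h2 := hEnn P
    omega
  have hEoff : ∀ P, (∀ i, sp P ≠ sp (R i)) → E P = 0 := fun P hP => by
    have h1 := le_mapDomain_apply sp E (sp P) (fun P _ => hEnn P) P rfl
    rw [hmapE', sum_single_apply_of_ne (fun i => sp (R i)) (sp P) (fun j => (hP j).symm)] at h1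
    have h2 := hEnn P
    omega
  have hPtinj : Function.Injective Pt := fun i j hij => hS (by
    show sp (R i) = sp (R j)
    rw [← hPt i, ← hPt j, hij])
  refine ⟨u, Pt, hu0, hPt, fun P => ?_⟩
  rw [← hEapp]
  by_cases hP : ∃ i, sp P = sp (R i)
  · obtain ⟨i, hi⟩ := hP
    by_cases hPi : P = Pt i
    · rw [hPi, hEPt i, sum_single_apply_self Pt hPtinj i]
    · rw [hEother i P hi hPi, sum_single_apply_of_ne Pt P]
      intro j hj
      by_cases hji : j = i
      · exact hPi (hji ▸ hj.symm)
      · apply hji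
        apply hS
        show sp (R j) = sp (R i)
        rw [← hPt j, hj, hi]
  · push Not at hP
    rw [hEoff P hP, sum_single_apply_of_ne Pt P]
    intro j hj
    exact hP j (by rw [← hj, hPt j])


/-- (E) The first-order argument: a function with divisor `m (∑ Pt i - ∑ R i)`, normalised at a
base place `Q₀` off the discs, is `1`. -/
theorem eq_one_of_normalised (hker : RedKer O red) (hconst : RedConst K k O red)
    (hvg : ValueGroupConst K O) (hcons : Conservation O red sp) (hdeg1 : ResidueTrivial K F)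
    (R : ι → Place K F) (hinj : Function.Injective fun i => sp (R i))
    (t : ι → F) (Q₀ : Place K F) (hQ₀ : ∀ i, sp Q₀ ≠ sp (R i))
    (htO : ∀ i, t i ∈ O) (ht_reg : ∀ i P, sp P = sp (R i) → t i ∈ P.toValuationSubring)
    (ht_zero : ∀ i, t i ∈ (R i).toValuationSubring.nonunits)
    (ht_ord : ∀ i, (sp (R i)).ord (rd O red (t i)) = 1)
    (hNS : ∀ w : Fk, w ≠ 0 → (∀ s, (∀ i, s ≠ sp (R i)) → 0 ≤ s.ord w) →
      (∀ i, -1 ≤ (sp (R i)).ord w) → w ∈ Set.range (algebraMap k Fk))
    (m : ℕ) (hm : (m : Fk) ≠ 0)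
    (Pt : ι → Place K F) (hPt : ∀ i, sp (Pt i) = sp (R i))
    (f : F) (hf0 : f ≠ 0)
    (hf : ∀ P, P.ord f = m * ((∑ i, Finsupp.single (Pt i) (1 : ℤ)) P
      - (∑ i, Finsupp.single (R i) (1 : ℤ)) P))
    (hfQ : f - 1 ∈ Q₀.toValuationSubring.nonunits) : f = 1 := by
  classical
  by_contra hf1
  have hS : Function.Injective fun i => sp (R i) := hinj
  have hRinj : Function.Injective R := fun i j hij => hS (by show sp (R i) = sp (R j); rw [hij])
  have hPtinj : Function.Injective Pt := fun i j hij => hS (by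
    show sp (R i) = sp (R j)
    rw [← hPt i, ← hPt j, hij])
  -- off the discs `f` has order zero
  have hoff : ∀ P, (∀ i, sp P ≠ sp (R i)) → P.ord f = 0 := fun P hP => by
    rw [hf P, sum_single_apply_of_ne Pt P (fun j hj => hP j (by rw [← hj, hPt j])),
      sum_single_apply_of_ne R P (fun j hj => hP j (by rw [← hj]))]
    simp
  -- (E1) `f` is a unit of `O` with reduction `1`
  obtain ⟨c₀, hc₀0, hu₀O, hu₀invO⟩ := hvg f hf0
  set u₀ := f * (algebraMap K F c₀)⁻¹ with hu₀_def
  have hC₀ : algebraMap K F c₀ ≠ 0 := by simpa using hc₀0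
  have hu₀0 : u₀ ≠ 0 := mul_ne_zero hf0 (inv_ne_zero hC₀)
  have hordu₀ : ∀ P : Place K F, P.ord u₀ = P.ord f := fun P => ord_mul_const_inv P hf0 hc₀0
  have hru₀ : rd O red u₀ ≠ 0 := fun h =>
    notMem_nonunits_of_inv_mem O hu₀0 hu₀invO ((rd_eq_zero_iff hker hu₀O).mp h)
  have hfO_and : f ∈ O ∧ rd O red f = 1 := by
    have hred0 : red ⟨u₀, hu₀O⟩ ≠ 0 := by rwa [← rd_of_mem O red hu₀O]
    set Dv : Divisor K F :=
      (m : ℤ) • ((∑ i, Finsupp.single (Pt i) (1 : ℤ)) - ∑ i, Finsupp.single (R i) (1 : ℤ))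
      with hDv_def
    have hDv : ∀ P, Dv P = P.ord ((⟨u₀, hu₀O⟩ : O) : F) := fun P => by
      show Dv P = P.ord u₀
      rw [hordu₀, hf P, hDv_def, Finsupp.smul_apply, Finsupp.sub_apply, smul_eq_mul]
    have hc := hcons ⟨u₀, hu₀O⟩ hred0 Dv hDv
    have hmap : Finsupp.mapDomain sp Dv = 0 := by
      rw [hDv_def, Finsupp.mapDomain_smul, Finsupp.mapDomain_sub, Finsupp.mapDomain_finsetSum,
        Finsupp.mapDomain_finsetSum]
      simp only [Finsupp.mapDomain_single, hPt, sub_self, smul_zero]
    have hord0 : ∀ s : Place k Fk, s.ord (rd O red u₀) = 0 := fun s => by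
      rw [rd_of_mem O red hu₀O, ← hc s, hmap, Finsupp.zero_apply]
    obtain ⟨κ₀, hκ₀⟩ := hNS (rd O red u₀) hru₀ (fun s _ => by rw [hord0 s])
      (fun i => by rw [hord0]; norm_num)
    have hreg₀ : ∀ P, sp P = sp Q₀ → u₀ ∈ P.toValuationSubring := fun P hP => by
      apply mem_of_ord_nonneg
      rw [hordu₀, hoff P (fun i => by rw [hP]; exact hQ₀ i)]
    have hz : u₀ - algebraMap K F c₀⁻¹ ∈ Q₀.toValuationSubring.nonunits := by
      have e : u₀ - algebraMap K F c₀⁻¹ = (f - 1) * (algebraMap K F c₀)⁻¹ := by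
        rw [hu₀_def, map_inv₀]
        ring
      rw [e]
      refine mul_mem_nonunits_of_mem _ hfQ ?_
      rw [← map_inv₀]
      exact Q₀.algebraMap_mem' _
    obtain ⟨haO, hdiff⟩ := eval_rd hker hcons hu₀O (sp Q₀) hreg₀ Q₀ rfl c₀⁻¹ hz
    obtain ⟨κ', hκ'⟩ := rd_const hconst c₀⁻¹ haO
    rw [← hκ₀, hκ', ← map_sub] at hdiff
    have hκeq : κ₀ = κ' := sub_eq_zero.mp (const_eq_zero_of_mem_nonunits (sp Q₀) _ hdiff)
    have hrdc : rd O red (algebraMap K F c₀⁻¹) = rd O red u₀ := by rw [hκ', ← hκeq, hκ₀]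
    have hcnu : algebraMap K F c₀⁻¹ ∉ O.nonunits := fun h =>
      hru₀ (hrdc ▸ (rd_eq_zero_iff hker haO).mpr h)
    have hC₀O : algebraMap K F c₀ ∈ O := by
      have := inv_mem_of_notMem_nonunits O haO hcnu
      rwa [map_inv₀, inv_inv] at this
    have hfe : f = u₀ * algebraMap K F c₀ := by
      rw [hu₀_def, mul_assoc, inv_mul_cancel₀ hC₀, mul_one]
    refine ⟨hfe ▸ mul_mem hu₀O hC₀O, ?_⟩
    rw [hfe, rd_mul O red hu₀O hC₀O, ← hrdc, ← rd_mul O red haO hC₀O, map_inv₀,
      inv_mul_cancel₀ hC₀, rd_one]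
  obtain ⟨hfO, hrf⟩ := hfO_and
  -- (E2) `f - 1 = u * c` with `u` a unit of `O` and `c` in the maximal ideal
  have hg0 : f - 1 ≠ 0 := sub_ne_zero.mpr hf1
  have hgO : f - 1 ∈ O := sub_mem hfO (one_mem O)
  have hgnu : f - 1 ∈ O.nonunits := by
    rw [← rd_eq_zero_iff hker hgO, rd_sub O red hfO (one_mem O), hrf, rd_one, sub_self]
  obtain ⟨c, hc0, huO, huinvO⟩ := hvg (f - 1) hg0
  set C := algebraMap K F c with hC_def
  have hC0 : C ≠ 0 := by rw [hC_def]; simpa using hc0
  set u := (f - 1) * C⁻¹ with hu_def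
  have hu0 : u ≠ 0 := mul_ne_zero hg0 (inv_ne_zero hC0)
  have hru : rd O red u ≠ 0 := fun h =>
    notMem_nonunits_of_inv_mem O hu0 huinvO ((rd_eq_zero_iff hker huO).mp h)
  have hfe : f = 1 + C * u := by
    rw [hu_def, mul_comm (f - 1), ← mul_assoc, mul_inv_cancel₀ hC0, one_mul]
    ring
  have hCnu : C ∈ O.nonunits := by
    have e : C = (f - 1) * u⁻¹ := by
      rw [hu_def, mul_inv, inv_inv, ← mul_assoc, mul_inv_cancel₀ hg0, one_mul]
    rw [e]
    exact mul_mem_nonunits_of_mem O hgnu huinvO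
  have hCO : C ∈ O := mem_of_mem_nonunits O hCnu
  have hCinvP : ∀ P : Place K F, C⁻¹ ∈ P.toValuationSubring := fun P => by
    rw [hC_def, ← map_inv₀]
    exact P.algebraMap_mem' _
  -- `u` is regular wherever `f` has order zero
  have hureg : ∀ P : Place K F, P.ord f = 0 → u ∈ P.toValuationSubring := fun P hP => by
    have hfP : f ∈ P.toValuationSubring := mem_of_ord_nonneg P (by rw [hP])
    exact mul_mem (sub_mem hfP (one_mem _)) (hCinvP P)
  -- (E3) the reduction of `u` lies in `L(∑ sᵢ)`
  obtain ⟨κ₁, hκ₁⟩ := hNS (rd O red u) hru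
    (fun s hs => by
      apply ord_nonneg_of_mem
      exact rd_mem_of_regular hcons huO s fun P hP =>
        hureg P (hoff P fun i => by rw [hP]; exact hs i))
    (fun i => by
      -- local analysis at `sᵢ`
      have hrT0 : rd O red (t i) ≠ 0 := by
        intro h
        have := ht_ord i
        rw [h, Place.ord_zero] at this
        exact zero_ne_one this
      have hT0 : t i ≠ 0 := by
        rintro h
        rw [h, rd_zero] at hrT0
        exact hrT0 rfl
      have hTnu : t i ∉ O.nonunits := fun h => hrT0 ((rd_eq_zero_iff hker (htO i)).mpr h)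
      have hTinvO : (t i)⁻¹ ∈ O := inv_mem_of_notMem_nonunits O (htO i) hTnu
      have hτmem : rd O red (t i) ∈ (sp (R i)).toValuationSubring.nonunits :=
        (one_le_ord_iff _ hrT0).mp (by rw [ht_ord i])
      obtain ⟨a, haP⟩ := hdeg1 (Pt i) (t i) (ht_reg i (Pt i) (hPt i))
      have hAnu : algebraMap K F a ∈ O.nonunits :=
        coord_value_mem_nonunits hker hconst hcons (sp (R i)) (htO i) (ht_reg i) (ht_ord i)
          (Pt i) (hPt i) a haP
      set A := algebraMap K F a with hA_def
      have hAO : A ∈ O := mem_of_mem_nonunits O hAnu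
      obtain ⟨hc1, hc2⟩ := coord_ord hker hcons (sp (R i)) (htO i) (ht_reg i) (ht_ord i) a hAnu
        (Pt i) (hPt i) haP
      have h0nu : algebraMap K F (0 : K) ∈ O.nonunits := by
        rw [map_zero]; exact zero_mem_nonunits' O
      have hRz : t i - algebraMap K F (0 : K) ∈ (R i).toValuationSubring.nonunits := by
        rw [map_zero, sub_zero]; exact ht_zero i
      obtain ⟨hr1, hr2⟩ := coord_ord hker hcons (sp (R i)) (htO i) (ht_reg i) (ht_ord i) 0 h0nu
        (R i) rfl hRz
      rw [map_zero, sub_zero] at hr1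
      simp only [map_zero, sub_zero] at hr2
      have hTA0 : t i - A ≠ 0 := by
        intro h
        rw [h, Place.ord_zero] at hc1
        exact zero_ne_one hc1
      -- `z = A / T`, `1 - z = (T - A) / T`
      set z := A * (t i)⁻¹ with hz_def
      have hznu : z ∈ O.nonunits := mul_mem_nonunits_of_mem O hAnu hTinvO
      have hzO : z ∈ O := mem_of_mem_nonunits O hznu
      have h1z : 1 - z = (t i - A) * (t i)⁻¹ := by
        rw [hz_def, sub_mul, mul_inv_cancel₀ hT0]
      have h1z0 : 1 - z ≠ 0 := by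
        rw [h1z]; exact mul_ne_zero hTA0 (inv_ne_zero hT0)
      have h1zO : 1 - z ∈ O := sub_mem (one_mem O) hzO
      have hrz : rd O red z = 0 := (rd_eq_zero_iff hker hzO).mpr hznu
      have hr1z : rd O red (1 - z) = 1 := by
        rw [rd_sub O red (one_mem O) hzO, rd_one, hrz, sub_zero]
      have h1znu : 1 - z ∉ O.nonunits := fun h => by
        rw [← rd_eq_zero_iff hker h1zO, hr1z] at h
        exact one_ne_zero h
      set V := ((1 - z) ^ m)⁻¹ with hV_def
      have hpowO : (1 - z) ^ m ∈ O := pow_mem h1zO m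
      have hpow0 : (1 - z) ^ m ≠ 0 := pow_ne_zero m h1z0
      have hVO : V ∈ O := by
        rw [hV_def, ← inv_pow]
        exact pow_mem (inv_mem_of_notMem_nonunits O h1zO h1znu) m
      have hrV : rd O red V = 1 := by
        rw [hV_def, rd_inv hpowO (hV_def ▸ hVO) hpow0, rd_pow O red h1zO, hr1z, one_pow, inv_one]
      -- `ε = f / (1 - z)^m` is a unit at every place over `sᵢ`
      have hεreg : ∀ P, sp P = sp (R i) → f * V - 1 ∈ P.toValuationSubring := fun P hP => by
        refine sub_mem (mem_of_ord_nonneg P ?_) (one_mem _)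
        have e1 : (∑ j, Finsupp.single (Pt j) (1 : ℤ)) P = P.ord (t i - A) := by
          by_cases hPi : P = Pt i
          · rw [hPi, hc1, sum_single_apply_self Pt hPtinj i]
          · rw [hc2 P hP hPi, sum_single_apply_of_ne Pt P]
            intro j hj
            by_cases hji : j = i
            · exact hPi (hji ▸ hj.symm)
            · apply hji
              apply hS
              show sp (R j) = sp (R i)
              rw [← hPt j, hj, hP]
        have e2 : (∑ j, Finsupp.single (R j) (1 : ℤ)) P = P.ord (t i) := by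
          by_cases hPi : P = R i
          · rw [hPi, hr1, sum_single_apply_self R hRinj i]
          · rw [hr2 P hP hPi, sum_single_apply_of_ne R P]
            intro j hj
            by_cases hji : j = i
            · exact hPi (hji ▸ hj.symm)
            · apply hji
              apply hS
              show sp (R j) = sp (R i)
              rw [hj, hP]
        have e3 : P.ord (1 - z) = P.ord (t i - A) - P.ord (t i) := by
          rw [h1z, P.ord_mul hTA0 (inv_ne_zero hT0), P.ord_inv]
          ring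
        rw [hV_def, P.ord_mul hf0 (inv_ne_zero hpow0), P.ord_inv, ord_pow', hf P, e1, e2, e3]
        ring_nf
        exact le_rfl
      obtain ⟨q, hqO, hq⟩ := exists_binom O hzO m
      have hrA : rd O red A = 0 := (rd_eq_zero_iff hker hAO).mpr hAnu
      have hτO : rd O red (t i) ∈ (sp (R i)).toValuationSubring := mem_of_mem_nonunits _ hτmem
      have hmk : (m : Fk) = algebraMap k Fk (m : k) := (map_natCast (algebraMap k Fk) m).symm
      by_cases hac : A * C⁻¹ ∈ O
      · -- `|a| ≤ |c|`
        set β := A * C⁻¹ with hβ_def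
        have hβe : β = algebraMap K F (a * c⁻¹) := by
          rw [hβ_def, hA_def, hC_def, map_mul, map_inv₀]
        obtain ⟨κβ, hκβ⟩ := rd_const hconst (a * c⁻¹) (hβe ▸ hac)
        rw [← hβe] at hκβ
        set w := (u + m * (β * (t i)⁻¹) - β * A * (t i)⁻¹ ^ 2 * q) * V with hw_def
        have hwO : w ∈ O :=
          mul_mem (sub_mem (add_mem huO (mul_mem (natCast_mem O m) (mul_mem hac hTinvO)))
            (mul_mem (mul_mem (mul_mem hac hAO) (pow_mem hTinvO 2)) hqO)) hVO
        have hwe : w = (f * V - 1) * C⁻¹ := by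
          have hV1 : (1 - z) ^ m * V = 1 := by rw [hV_def, mul_inv_cancel₀ hpow0]
          have e : f * V - 1 = (f - (1 - z) ^ m) * V := by
            rw [sub_mul, hV1]
          rw [e, hq, hfe, hw_def, hβ_def, hz_def]
          field_simp
          ring
        have hwreg : ∀ P, sp P = sp (R i) → w ∈ P.toValuationSubring := fun P hP => by
          rw [hwe]
          exact mul_mem (hεreg P hP) (hCinvP P)
        have hW := rd_mem_of_regular hcons hwO (sp (R i)) hwreg
        have hrw : rd O red w = rd O red u + m * (rd O red β * (rd O red (t i))⁻¹) := by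
          rw [hw_def, rd_mul O red
            (sub_mem (add_mem huO (mul_mem (natCast_mem O m) (mul_mem hac hTinvO)))
            (mul_mem (mul_mem (mul_mem hac hAO) (pow_mem hTinvO 2)) hqO)) hVO, hrV, mul_one,
            rd_sub O red (add_mem huO (mul_mem (natCast_mem O m) (mul_mem hac hTinvO)))
              (mul_mem (mul_mem (mul_mem hac hAO) (pow_mem hTinvO 2)) hqO),
            rd_add O red huO (mul_mem (natCast_mem O m) (mul_mem hac hTinvO)),
            rd_mul O red (natCast_mem O m) (mul_mem hac hTinvO), rd_natCast,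
            rd_mul O red hac hTinvO, rd_inv (htO i) hTinvO hT0,
            rd_mul O red (mul_mem (mul_mem hac hAO) (pow_mem hTinvO 2)) hqO,
            rd_mul O red (mul_mem hac hAO) (pow_mem hTinvO 2), rd_mul O red hac hAO, hrA]
          ring
        -- multiply by the uniformiser `τ = rd t`
        have hprod : rd O red (t i) * rd O red u ∈ (sp (R i)).toValuationSubring := by
          have e : rd O red (t i) * rd O red u
              = rd O red (t i) * rd O red w - m * rd O red β := by
            rw [hrw]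
            field_simp
            ring
          rw [e, hκβ, hmk]
          exact sub_mem (mul_mem hτO hW)
            (mul_mem ((sp (R i)).algebraMap_mem' _) ((sp (R i)).algebraMap_mem' _))
        have h1 := ord_nonneg_of_mem _ hprod
        rw [(sp (R i)).ord_mul hrT0 hru, ht_ord i] at h1
        omega
      · -- `|a| > |c|` is impossible
        exfalso
        have hA0 : A ≠ 0 := by
          intro h
          apply hac
          rw [h, zero_mul]
          exact zero_mem O
        have hγnu : (A * C⁻¹)⁻¹ ∈ O.nonunits := inv_mem_nonunits_of_notMem O hac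
        set γ := (A * C⁻¹)⁻¹ with hγ_def
        have hγO : γ ∈ O := mem_of_mem_nonunits O hγnu
        set w := (γ * u + m * (t i)⁻¹ - A * (t i)⁻¹ ^ 2 * q) * V with hw_def
        have hwO : w ∈ O :=
          mul_mem (sub_mem (add_mem (mul_mem hγO huO) (mul_mem (natCast_mem O m) hTinvO))
            (mul_mem (mul_mem hAO (pow_mem hTinvO 2)) hqO)) hVO
        have hwe : w = (f * V - 1) * A⁻¹ := by
          have hV1 : (1 - z) ^ m * V = 1 := by rw [hV_def, mul_inv_cancel₀ hpow0]
          have e : f * V - 1 = (f - (1 - z) ^ m) * V := by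
            rw [sub_mul, hV1]
          rw [e, hq, hfe, hw_def, hγ_def, hz_def]
          field_simp
          ring
        have hwreg : ∀ P, sp P = sp (R i) → w ∈ P.toValuationSubring := fun P hP => by
          rw [hwe]
          refine mul_mem (hεreg P hP) ?_
          rw [hA_def, ← map_inv₀]
          exact P.algebraMap_mem' _
        have hW := rd_mem_of_regular hcons hwO (sp (R i)) hwreg
        have hrw : rd O red w = m * (rd O red (t i))⁻¹ := by
          rw [hw_def, rd_mul O red
            (sub_mem (add_mem (mul_mem hγO huO) (mul_mem (natCast_mem O m) hTinvO))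
            (mul_mem (mul_mem hAO (pow_mem hTinvO 2)) hqO)) hVO, hrV, mul_one,
            rd_sub O red (add_mem (mul_mem hγO huO) (mul_mem (natCast_mem O m) hTinvO))
              (mul_mem (mul_mem hAO (pow_mem hTinvO 2)) hqO),
            rd_add O red (mul_mem hγO huO) (mul_mem (natCast_mem O m) hTinvO),
            rd_mul O red hγO huO, (rd_eq_zero_iff hker hγO).mpr hγnu,
            rd_mul O red (natCast_mem O m) hTinvO, rd_natCast, rd_inv (htO i) hTinvO hT0,
            rd_mul O red (mul_mem hAO (pow_mem hTinvO 2)) hqO,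
            rd_mul O red hAO (pow_mem hTinvO 2), hrA]
          ring
        rw [hrw] at hW
        have h2 := mul_mem_nonunits_of_mem' _ hW hτmem
        rw [mul_assoc, inv_mul_cancel₀ hrT0, mul_one, hmk] at h2
        have h3 := const_eq_zero_of_mem_nonunits (sp (R i)) _ h2
        rw [hmk, h3, map_zero] at hm
        exact hm rfl)
  -- (E4) evaluate at `Q₀`
  have huQ : u ∈ Q₀.toValuationSubring.nonunits :=
    mul_mem_nonunits_of_mem _ hfQ (hCinvP Q₀)
  have hregQ : ∀ P, sp P = sp Q₀ → u ∈ P.toValuationSubring := fun P hP =>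
    hureg P (hoff P fun i => by rw [hP]; exact hQ₀ i)
  have h4 := rd_mem_nonunits_of_regular hcons huO (sp Q₀) hregQ Q₀ rfl huQ
  rw [← hκ₁] at h4
  have h5 := const_eq_zero_of_mem_nonunits (sp Q₀) κ₁ h4
  rw [h5, map_zero] at hκ₁
  exact hru hκ₁.symm


/-- (E') Without the normalisation: the two reduced divisors coincide. -/
theorem eq_of_torsion (hker : RedKer O red) (hconst : RedConst K k O red)
    (hvg : ValueGroupConst K O) (hcons : Conservation O red sp) (hdeg1 : ResidueTrivial K F)
    (R : ι → Place K F) (hinj : Function.Injective fun i => sp (R i))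
    (t : ι → F) (Q₀ : Place K F) (hQ₀ : ∀ i, sp Q₀ ≠ sp (R i))
    (htO : ∀ i, t i ∈ O) (ht_reg : ∀ i P, sp P = sp (R i) → t i ∈ P.toValuationSubring)
    (ht_zero : ∀ i, t i ∈ (R i).toValuationSubring.nonunits)
    (ht_ord : ∀ i, (sp (R i)).ord (rd O red (t i)) = 1)
    (hNS : ∀ w : Fk, w ≠ 0 → (∀ s, (∀ i, s ≠ sp (R i)) → 0 ≤ s.ord w) →
      (∀ i, -1 ≤ (sp (R i)).ord w) → w ∈ Set.range (algebraMap k Fk))
    (m : ℕ) (hm : (m : Fk) ≠ 0)
    (Pt : ι → Place K F) (hPt : ∀ i, sp (Pt i) = sp (R i))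
    (f : F) (hf0 : f ≠ 0)
    (hf : ∀ P, P.ord f = m * ((∑ i, Finsupp.single (Pt i) (1 : ℤ)) P
      - (∑ i, Finsupp.single (R i) (1 : ℤ)) P)) :
    ∀ P, (∑ i, Finsupp.single (Pt i) (1 : ℤ)) P = (∑ i, Finsupp.single (R i) (1 : ℤ)) P := by
  have hm0 : (m : ℤ) ≠ 0 := by
    intro h
    have : m = 0 := by exact_mod_cast h
    rw [this, Nat.cast_zero] at hm
    exact hm rfl
  have hQord : Q₀.ord f = 0 := by
    rw [hf Q₀, sum_single_apply_of_ne Pt Q₀ (fun j hj => hQ₀ j (by rw [← hj, hPt j])),
      sum_single_apply_of_ne R Q₀ (fun j hj => hQ₀ j (by rw [← hj]))]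
    simp
  have hfQ : f ∈ Q₀.toValuationSubring := mem_of_ord_nonneg Q₀ (by rw [hQord])
  obtain ⟨l, hl⟩ := hdeg1 Q₀ f hfQ
  have hl0 : l ≠ 0 := by
    rintro rfl
    rw [map_zero, sub_zero] at hl
    have := (one_le_ord_iff Q₀ hf0).mpr hl
    omega
  set f₁ := f * (algebraMap K F l)⁻¹ with hf₁_def
  have hL0 : algebraMap K F l ≠ 0 := by simpa using hl0
  have hf₁0 : f₁ ≠ 0 := mul_ne_zero hf0 (inv_ne_zero hL0)
  have hf₁ : ∀ P : Place K F, P.ord f₁ = P.ord f := fun P => ord_mul_const_inv P hf0 hl0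
  have hf₁Q : f₁ - 1 ∈ Q₀.toValuationSubring.nonunits := by
    have e : f₁ - 1 = (f - algebraMap K F l) * (algebraMap K F l)⁻¹ := by
      rw [hf₁_def, sub_mul, mul_inv_cancel₀ hL0]
    rw [e]
    refine mul_mem_nonunits_of_mem _ hl ?_
    rw [← map_inv₀]
    exact Q₀.algebraMap_mem' _
  have h1 := eq_one_of_normalised hker hconst hvg hcons hdeg1 R hinj t Q₀ hQ₀ htO ht_reg ht_zero
    ht_ord hNS m hm Pt hPt f₁ hf₁0 (fun P => by rw [hf₁ P, hf P]) hf₁Q
  intro P
  have h2 := hf P
  rw [← hf₁ P, h1, Place.ord_one] at h2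
  have h3 := (mul_eq_zero.mp h2.symm).resolve_left hm0
  exact sub_eq_zero.mp h3

/-- **Abstract torsion core.**  Let `(F, O)` be a valued function field over `K` with residue
function field `Fk / k` and a specialisation map `sp` on places satisfying the conservation law.
Assume one non-special reduced divisor `∑ sp (R i)` on the special fibre (with lifts `R i`,
coordinates `t i` and a base place `Q₀` off it) and Riemann's inequality `l(D + ∑ R i) ≥ 1` for
divisors of degree zero on the generic fibre.  If `m` is a unit of the residue field, `D` has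
degree zero, specialises to zero and `m • D` is principal, then `D` is principal. -/
theorem isPrincipal_of_specialises_zero (hker : RedKer O red) (hconst : RedConst K k O red)
    (hvg : ValueGroupConst K O) (hcons : Conservation O red sp) (hdeg1 : ResidueTrivial K F)
    (R : ι → Place K F) (hinj : Function.Injective fun i => sp (R i))
    (t : ι → F) (Q₀ : Place K F) (hQ₀ : ∀ i, sp Q₀ ≠ sp (R i))
    (htO : ∀ i, t i ∈ O) (ht_reg : ∀ i P, sp P = sp (R i) → t i ∈ P.toValuationSubring)
    (ht_zero : ∀ i, t i ∈ (R i).toValuationSubring.nonunits)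
    (ht_ord : ∀ i, (sp (R i)).ord (rd O red (t i)) = 1)
    (hNS : ∀ w : Fk, w ≠ 0 → (∀ s, (∀ i, s ≠ sp (R i)) → 0 ≤ s.ord w) →
      (∀ i, -1 ≤ (sp (R i)).ord w) → w ∈ Set.range (algebraMap k Fk))
    (hRR : ∀ D : Divisor K F, Divisor.degree D = 0 → ∃ h : F, h ≠ 0 ∧
      ∀ P, 0 ≤ P.ord h + D P + (∑ i, Finsupp.single (R i) (1 : ℤ)) P)
    (m : ℕ) (hm : (m : Fk) ≠ 0) (D : Divisor K F) (hdeg : Divisor.degree D = 0)
    (hsp : Finsupp.mapDomain sp D = 0) (hmD : (m • D).IsPrincipal) : D.IsPrincipal := by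
  obtain ⟨h, Pt, hh0, hPt, hE⟩ := exists_canonical hker hvg hcons R hinj hNS hRR D hdeg hsp
  obtain ⟨f₀, hf₀0, hf₀⟩ := hmD
  have hf0 : f₀ * h ^ m ≠ 0 := mul_ne_zero hf₀0 (pow_ne_zero m hh0)
  have hf : ∀ P : Place K F, P.ord (f₀ * h ^ m) = m * ((∑ i, Finsupp.single (Pt i) (1 : ℤ)) P
      - (∑ i, Finsupp.single (R i) (1 : ℤ)) P) := fun P => by
    rw [P.ord_mul hf₀0 (pow_ne_zero m hh0), ord_pow', ← hf₀ P, ← hE P, Finsupp.smul_apply,
      nsmul_eq_mul]
    ring
  have hEq := eq_of_torsion hker hconst hvg hcons hdeg1 R hinj t Q₀ hQ₀ htO ht_reg ht_zero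
    ht_ord hNS m hm Pt hPt (f₀ * h ^ m) hf0 hf
  refine ⟨h⁻¹, inv_ne_zero hh0, fun P => ?_⟩
  have h1 := hE P
  rw [hEq P] at h1
  rw [P.ord_inv]
  omega

end Core

end Fermat.Agent.S37.helper126
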