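/-
S37-LATRED (helper5413): place reduction with `sp(div f) = div(f̄)` from lattices.

Abstract setting: `F/L` and `Fk/k` function fields (Prelude vocabulary `Place`, `Divisor`,
`riemannRochSpace`), `O : ValuationSubring F` (the Gauss ring), `red : O →+* Fk` killing the
maximal ideal.  From a lattice form of Riemann's inequality on `F`, Riemann's theorem on `Fk`
with the same constant `g`, and one anchor divisor, we construct
`r : Place L F → Place k Fk` with `Finsupp.mapDomain r (div f) = div (red f)` for every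
Gauss unit `f`.  No smooth model, no local analysis.
-/
import Mathlib
import Fermat.Prelude.Def_AlgebraicCurve_Repartitions

set_option autoImplicit false

noncomputable section

open AlgebraicCurve

namespace Fermat.Agent.S37.helper5413

section Basics

variable {K F : Type*} [Field K] [Field F] [Algebra K F]

theorem degree_eq_sum (D : Divisor K F) :
    Divisor.degree D = D.sum fun v n => n * (v.deg : ℤ) := by
  simp [Divisor.degree, Finsupp.liftAddHom_apply]

theorem degree_nonneg_of_nonneg {D : Divisor K F} (hD : 0 ≤ D) : 0 ≤ Divisor.degree D := by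
  rw [degree_eq_sum]
  exact Finsupp.sum_nonneg fun v _ => mul_nonneg (hD v) (Int.natCast_nonneg _)

theorem degree_mono {D D' : Divisor K F} (h : D ≤ D') : Divisor.degree D ≤ Divisor.degree D' := by
  have h0 : 0 ≤ D' - D := sub_nonneg.mpr h
  have := degree_nonneg_of_nonneg h0
  rw [map_sub] at this
  linarith

theorem eq_zero_of_nonneg_of_degree_eq_zero (hdeg : ∀ v : Place K F, v.deg = 1)
    {D : Divisor K F} (hD : 0 ≤ D) (h0 : Divisor.degree D = 0) : D = 0 := by
  rw [degree_eq_sum, Finsupp.sum] at h0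
  have hterm : ∀ v ∈ D.support, 0 ≤ D v * (v.deg : ℤ) := fun v _ =>
    mul_nonneg (hD v) (Int.natCast_nonneg _)
  have hz := (Finset.sum_eq_zero_iff_of_nonneg hterm).mp h0
  ext v
  by_cases hv : v ∈ D.support
  · have := hz v hv
    rw [hdeg v] at this
    simpa using this
  · simpa using Finsupp.notMem_support_iff.mp hv

theorem eq_of_le_of_degree_eq (hdeg : ∀ v : Place K F, v.deg = 1)
    {D D' : Divisor K F} (h : D ≤ D') (hd : Divisor.degree D = Divisor.degree D') : D = D' := by
  have h0 : 0 ≤ D' - D := sub_nonneg.mpr h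
  have h1 : Divisor.degree (D' - D) = 0 := by rw [map_sub, hd, sub_self]
  have := eq_zero_of_nonneg_of_degree_eq_zero hdeg h0 h1
  exact (sub_eq_zero.mp this).symm

theorem exists_eq_single_of_nonneg_of_degree_eq_one (hdeg : ∀ v : Place K F, v.deg = 1)
    {D : Divisor K F} (hD : 0 ≤ D) (h1 : Divisor.degree D = 1) :
    ∃ Q : Place K F, D = Finsupp.single Q 1 := by
  classical
  have hne : D ≠ 0 := by
    rintro rfl
    simp at h1
  obtain ⟨Q, hQ⟩ := Finsupp.support_nonempty_iff.mpr hne
  have hQ0 : D Q ≠ 0 := Finsupp.mem_support_iff.mp hQ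
  have hQ1 : 1 ≤ D Q := by
    have := hD Q
    simp only [Finsupp.coe_zero, Pi.zero_apply] at this
    omega
  refine ⟨Q, ?_⟩
  have hle : Finsupp.single Q 1 ≤ D := by
    intro v
    by_cases hv : v = Q
    · subst hv
      simpa using hQ1
    · rw [Finsupp.single_apply, if_neg (Ne.symm hv)]
      exact hD v
  refine (eq_of_le_of_degree_eq hdeg hle ?_).symm
  rw [Divisor.degree_single, hdeg, h1]
  simp

theorem mem_rr_iff {D : Divisor K F} {f : F} :
    f ∈ riemannRochSpace D ↔ f = 0 ∨ ∀ v : Place K F, -D v ≤ v.ord f := by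
  rw [mem_riemannRochSpace_iff]
  constructor
  · intro h
    by_cases hf : f = 0
    · exact Or.inl hf
    · exact Or.inr fun v => (h v).resolve_left hf
  · rintro (h | h) v
    · exact Or.inl h
    · exact Or.inr (h v)

theorem rr_mono {D D' : Divisor K F} (h : D ≤ D') :
    riemannRochSpace D ≤ riemannRochSpace D' := by
  intro f hf
  rw [mem_rr_iff] at hf ⊢
  rcases hf with hf | hf
  · exact Or.inl hf
  · exact Or.inr fun v => le_trans (neg_le_neg (h v)) (hf v)

theorem mul_mem_rr {D D' : Divisor K F} {f f' : F} (hf : f ∈ riemannRochSpace D)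
    (hf' : f' ∈ riemannRochSpace D') : f * f' ∈ riemannRochSpace (D + D') := by
  rw [mem_rr_iff] at hf hf' ⊢
  rcases hf with hf | hf
  · left; rw [hf, zero_mul]
  rcases hf' with hf' | hf'
  · left; rw [hf', mul_zero]
  by_cases h0 : f = 0
  · left; rw [h0, zero_mul]
  by_cases h0' : f' = 0
  · left; rw [h0', mul_zero]
  right
  intro v
  rw [v.ord_mul h0 h0', Finsupp.add_apply]
  have := hf v
  have := hf' v
  omega

end Basics


section Main

variable {L F k Fk : Type*} [Field L] [Field F] [Algebra L F] [Field k] [Field Fk] [Algebra k Fk]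

/-- Hypotheses of the lattice reduction theorem.  `O` is the Gauss valuation ring of `F`,
`red` the reduction map to the residue function field `Fk`. -/
structure LatHyp (O : ValuationSubring F) (red : O →+* Fk) (g c : ℤ)
    (E₀ : Divisor L F) (E₀k : Divisor k Fk) : Prop where
  red_nonunit : ∀ x : O, ¬ IsUnit x → red x = 0
  degL : ∀ P : Place L F, P.deg = 1
  degk : ∀ Q : Place k Fk, Q.deg = 1
  finite_ord : ∀ y : Fk, y ≠ 0 → {Q : Place k Fk | Q.ord y ≠ 0}.Finite
  deg0 : ∀ f : F, f ≠ 0 → ∀ D : Divisor L F, (∀ P, D P = P.ord f) → Divisor.degree D = 0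
  lat : ∀ (E : Divisor L F) (n : ℕ), (n : ℤ) ≤ Divisor.degree E + 1 - g →
    ∃ u : Fin n → O, (∀ i, (u i : F) ∈ riemannRochSpace E) ∧
      LinearIndependent k (fun i => red (u i))
  rk : ∀ (D : Divisor k Fk) (n : ℕ) (v : Fin n → Fk), LinearIndependent k v →
    (∀ i, v i ∈ riemannRochSpace D) →
      (n : ℤ) ≤ max 0 (Divisor.degree D + 1) ∧
        (c ≤ Divisor.degree D → (n : ℤ) ≤ Divisor.degree D + 1 - g)
  E₀_pos : 0 < Divisor.degree E₀
  E₀k_le : Divisor.degree E₀k ≤ Divisor.degree E₀
  anchor : ∀ (m : ℕ) (f : O), (f : F) ∈ riemannRochSpace (m • E₀) →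
    red f ∈ riemannRochSpace (m • E₀k)

variable (k) in
/-- Pole orders at `Q` of the reductions of the Gauss-integral elements of `L(E)`. -/
def poleSet (O : ValuationSubring F) (red : O →+* Fk) (E : Divisor L F) (Q : Place k Fk) :
    Set ℤ :=
  {n | ∃ f : O, (f : F) ∈ riemannRochSpace E ∧ red f ≠ 0 ∧ n = -Q.ord (red f)}

/-- `R` is the pointwise supremum of the pole divisors of the reductions of `L(E) ∩ O`. -/
def IsRho (O : ValuationSubring F) (red : O →+* Fk) (E : Divisor L F) (R : Divisor k Fk) :
    Prop :=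
  ∀ Q : Place k Fk, IsGreatest (poleSet k O red E Q) (R Q)

variable (k) in
open Classical in
/-- The reduction of the divisor `E` (meaningful for `g ≤ deg E`). -/
def rho (O : ValuationSubring F) (red : O →+* Fk) (E : Divisor L F) : Divisor k Fk :=
  if h : ∃ R : Divisor k Fk, IsRho O red E R then h.choose else 0

variable {O : ValuationSubring F} {red : O →+* Fk} {g c : ℤ}
  {E₀ : Divisor L F} {E₀k : Divisor k Fk}

namespace LatHyp

variable (H : LatHyp O red g c E₀ E₀k)
include H

theorem isUnit_of_red_ne_zero {f : O} (hf : red f ≠ 0) : IsUnit f := by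
  by_contra h
  exact hf (H.red_nonunit f h)

omit [Field L] [Algebra L F] [Field k] [Algebra k Fk] H in
theorem coe_ne_zero_of_red_ne_zero {f : O} (hf : red f ≠ 0) : (f : F) ≠ 0 := by
  intro h
  apply hf
  have : f = 0 := Subtype.ext h
  rw [this, map_zero]

theorem exists_mem_red_ne_zero {E : Divisor L F} (hE : g ≤ Divisor.degree E) :
    ∃ f : O, (f : F) ∈ riemannRochSpace E ∧ red f ≠ 0 := by
  obtain ⟨u, hu, hli⟩ := H.lat E 1 (by push_cast; linarith)
  exact ⟨u 0, hu 0, hli.ne_zero 0⟩

theorem exists_divk (y : Fk) : ∃ D : Divisor k Fk, ∀ Q, D Q = Q.ord y := by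
  by_cases hy : y = 0
  · exact ⟨0, fun Q => by rw [hy, Place.ord_zero]; rfl⟩
  · exact ⟨Finsupp.ofSupportFinite (fun Q => Q.ord y) (H.finite_ord y hy), fun Q => rfl⟩

theorem degree_nsmul_E₀_ge (m : ℕ) : (m : ℤ) ≤ Divisor.degree (m • E₀) := by
  rw [map_nsmul, nsmul_eq_mul]
  have := H.E₀_pos
  nlinarith [Int.natCast_nonneg m]

theorem exists_upper (E : Divisor L F) :
    ∃ U : Divisor k Fk, ∀ f : O, (f : F) ∈ riemannRochSpace E → red f ≠ 0 →
      ∀ Q, -Q.ord (red f) ≤ U Q := by
  set m : ℕ := (g + Divisor.degree E).toNat with hm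
  have hmE : g ≤ Divisor.degree (m • E₀ - E) := by
    rw [map_sub]
    have h1 := H.degree_nsmul_E₀_ge m
    have h2 : g + Divisor.degree E ≤ (m : ℤ) := Int.self_le_toNat _
    linarith
  obtain ⟨w, hw, hwne⟩ := H.exists_mem_red_ne_zero hmE
  obtain ⟨Dw, hDw⟩ := H.exists_divk (red w)
  refine ⟨m • E₀k + Dw, fun f hf hfne Q => ?_⟩
  have hfw : ((f * w : O) : F) ∈ riemannRochSpace (m • E₀) := by
    have := mul_mem_rr hf hw
    rwa [add_sub_cancel] at this
  have hred := H.anchor m (f * w) hfw
  rw [map_mul, mem_rr_iff] at hred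
  rcases hred with h0 | h
  · exact absurd h0 (mul_ne_zero hfne hwne)
  · have := h Q
    rw [Place.ord_mul _ hfne hwne] at this
    rw [Finsupp.add_apply, hDw Q]
    linarith

theorem exists_isRho {E : Divisor L F} (hE : g ≤ Divisor.degree E) :
    ∃ R : Divisor k Fk, IsRho O red E R := by
  classical
  obtain ⟨f₀, hf₀, hf₀ne⟩ := H.exists_mem_red_ne_zero hE
  obtain ⟨U, hU⟩ := H.exists_upper E
  obtain ⟨D₀, hD₀⟩ := H.exists_divk (red f₀)
  have hne : ∀ Q : Place k Fk, (poleSet k O red E Q).Nonempty := fun Q =>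
    ⟨_, f₀, hf₀, hf₀ne, rfl⟩
  have hbdd : ∀ Q : Place k Fk, BddAbove (poleSet k O red E Q) := fun Q =>
    ⟨U Q, by rintro n ⟨f, hf, hfne, rfl⟩; exact hU f hf hfne Q⟩
  refine ⟨Finsupp.onFinset (U.support ∪ D₀.support) (fun Q => sSup (poleSet k O red E Q)) ?_,
    fun Q => ⟨Int.csSup_mem (hne Q) (hbdd Q), fun n hn => le_csSup (hbdd Q) hn⟩⟩
  intro Q hQ
  by_contra hmem
  rw [Finset.mem_union, not_or, Finsupp.notMem_support_iff, Finsupp.notMem_support_iff] at hmem
  apply hQ
  apply le_antisymm
  · refine csSup_le (hne Q) ?_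
    rintro n ⟨f, hf, hfne, rfl⟩
    exact (hU f hf hfne Q).trans_eq hmem.1
  · refine le_csSup (hbdd Q) ⟨f₀, hf₀, hf₀ne, ?_⟩
    rw [← hD₀ Q, hmem.2, neg_zero]

theorem rho_spec {E : Divisor L F} (hE : g ≤ Divisor.degree E) :
    IsRho O red E (rho k O red E) := by
  have h := H.exists_isRho hE
  rw [rho, dif_pos h]
  exact h.choose_spec

theorem neg_ord_le_rho {E : Divisor L F} (hE : g ≤ Divisor.degree E) {f : O}
    (hf : (f : F) ∈ riemannRochSpace E) (hfne : red f ≠ 0) (Q : Place k Fk) :
    -Q.ord (red f) ≤ rho k O red E Q :=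
  (H.rho_spec hE Q).2 ⟨f, hf, hfne, rfl⟩

theorem exists_rho_eq {E : Divisor L F} (hE : g ≤ Divisor.degree E) (Q : Place k Fk) :
    ∃ f : O, (f : F) ∈ riemannRochSpace E ∧ red f ≠ 0 ∧ rho k O red E Q = -Q.ord (red f) :=
  (H.rho_spec hE Q).1

theorem red_mem_rr_rho {E : Divisor L F} (hE : g ≤ Divisor.degree E) {f : O}
    (hf : (f : F) ∈ riemannRochSpace E) (hfne : red f ≠ 0) :
    red f ∈ riemannRochSpace (rho k O red E) := by
  rw [mem_rr_iff]
  right
  intro Q
  have := H.neg_ord_le_rho hE hf hfne Q
  linarith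

theorem rho_add_le {E₁ E₂ : Divisor L F} (h₁ : g ≤ Divisor.degree E₁)
    (h₂ : g ≤ Divisor.degree E₂) (h₁₂ : g ≤ Divisor.degree (E₁ + E₂)) :
    rho k O red E₁ + rho k O red E₂ ≤ rho k O red (E₁ + E₂) := by
  intro Q
  obtain ⟨f₁, hf₁, hne₁, e₁⟩ := H.exists_rho_eq h₁ Q
  obtain ⟨f₂, hf₂, hne₂, e₂⟩ := H.exists_rho_eq h₂ Q
  have hmem : ((f₁ * f₂ : O) : F) ∈ riemannRochSpace (E₁ + E₂) := mul_mem_rr hf₁ hf₂
  have hne : red (f₁ * f₂) ≠ 0 := by rw [map_mul]; exact mul_ne_zero hne₁ hne₂
  have := H.neg_ord_le_rho h₁₂ hmem hne Q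
  rw [map_mul, Place.ord_mul _ hne₁ hne₂] at this
  rw [Finsupp.add_apply, e₁, e₂]
  linarith

theorem rho_mono {E E' : Divisor L F} (hE : g ≤ Divisor.degree E) (h : E ≤ E') :
    rho k O red E ≤ rho k O red E' := by
  intro Q
  obtain ⟨f, hf, hne, e⟩ := H.exists_rho_eq hE Q
  rw [e]
  exact H.neg_ord_le_rho (hE.trans (degree_mono h)) (rr_mono h hf) hne Q


/-- Multiplying by a Gauss unit `f` with divisor `D` shifts `rho` by `div (red f)`. -/
theorem rho_sub_div {T D : Divisor L F} (hT : g ≤ Divisor.degree T) {f : O} (hfne : red f ≠ 0)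
    (hD : ∀ P, D P = P.ord (f : F)) (Q : Place k Fk) :
    rho k O red (T - D) Q = rho k O red T Q - Q.ord (red f) := by
  have hf0 : (f : F) ≠ 0 := coe_ne_zero_of_red_ne_zero hfne
  have hdegD : Divisor.degree D = 0 := H.deg0 (f : F) hf0 D hD
  have hT' : g ≤ Divisor.degree (T - D) := by rw [map_sub, hdegD, sub_zero]; exact hT
  obtain ⟨fi, hfi⟩ := (H.isUnit_of_red_ne_zero hfne).exists_right_inv
  have hredfi : red f * red fi = 1 := by rw [← map_mul, hfi, map_one]
  have hfine : red fi ≠ 0 := right_ne_zero_of_mul_eq_one hredfi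
  have hfiF : (fi : F) = (f : F)⁻¹ := by
    have h1 : (f : F) * (fi : F) = 1 := by
      have := congrArg (fun x : O => (x : F)) hfi
      simpa using this
    exact eq_inv_of_mul_eq_one_right h1
  have hordfi : Q.ord (red fi) = -Q.ord (red f) := by
    have : red fi = (red f)⁻¹ := eq_inv_of_mul_eq_one_right hredfi
    rw [this, Place.ord_inv]
  have hf_mem : (f : F) ∈ riemannRochSpace (-D) := by
    rw [mem_rr_iff]
    right
    intro P
    rw [Finsupp.neg_apply, neg_neg, hD P]
  have hfi_mem : (fi : F) ∈ riemannRochSpace D := by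
    rw [mem_rr_iff]
    right
    intro P
    rw [hfiF, Place.ord_inv, hD P]
  apply le_antisymm
  · obtain ⟨h, hh, hhne, e⟩ := H.exists_rho_eq hT' Q
    have hmem : ((h * fi : O) : F) ∈ riemannRochSpace T := by
      have := mul_mem_rr hh hfi_mem
      rwa [sub_add_cancel] at this
    have hne : red (h * fi) ≠ 0 := by rw [map_mul]; exact mul_ne_zero hhne hfine
    have := H.neg_ord_le_rho hT hmem hne Q
    rw [map_mul, Place.ord_mul _ hhne hfine, hordfi] at this
    rw [e]
    linarith
  · obtain ⟨h, hh, hhne, e⟩ := H.exists_rho_eq hT Q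
    have hmem : ((h * f : O) : F) ∈ riemannRochSpace (T - D) := by
      have := mul_mem_rr hh hf_mem
      rwa [← sub_eq_add_neg] at this
    have hne : red (h * f) ≠ 0 := by rw [map_mul]; exact mul_ne_zero hhne hfne
    have := H.neg_ord_le_rho hT' hmem hne Q
    rw [map_mul, Place.ord_mul _ hhne hfne] at this
    rw [e]
    linarith

/-- The degree threshold above which `rho` is additive and degree preserving. -/
def thr (g c : ℤ) : ℤ := max 0 (max g (c + g))

omit H in
theorem thr_nonneg : 0 ≤ thr g c := le_max_left _ _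

omit H in
theorem g_le_thr : g ≤ thr g c := (le_max_left _ _).trans (le_max_right _ _)

omit H in
theorem cg_le_thr : c + g ≤ thr g c := (le_max_right _ _).trans (le_max_right _ _)

theorem degree_le_degree_rho {E : Divisor L F} (hE : thr g c ≤ Divisor.degree E) :
    Divisor.degree E ≤ Divisor.degree (rho k O red E) := by
  have hgE : g ≤ Divisor.degree E := g_le_thr.trans hE
  have hcE : c + g ≤ Divisor.degree E := cg_le_thr.trans hE
  set n : ℕ := (Divisor.degree E + 1 - g).toNat with hn
  have hn' : (n : ℤ) = Divisor.degree E + 1 - g := Int.toNat_of_nonneg (by linarith)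
  obtain ⟨u, hu, hli⟩ := H.lat E n hn'.le
  have hmem : ∀ i, red (u i) ∈ riemannRochSpace (rho k O red E) := fun i =>
    H.red_mem_rr_rho hgE (hu i) (hli.ne_zero i)
  obtain ⟨h1, h2⟩ := H.rk (rho k O red E) n (fun i => red (u i)) hli hmem
  have h3 : (n : ℤ) ≤ Divisor.degree (rho k O red E) + 1 := by
    rcases le_max_iff.mp h1 with h | h
    · linarith
    · exact h
  have h4 := h2 (by linarith)
  linarith

theorem rho_nsmul_E₀_le {m : ℕ} (hm : g ≤ Divisor.degree (m • E₀)) :
    rho k O red (m • E₀) ≤ m • E₀k := by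
  intro Q
  obtain ⟨f, hf, hne, e⟩ := H.exists_rho_eq hm Q
  have hred := H.anchor m f hf
  rw [mem_rr_iff] at hred
  rcases hred with h0 | h
  · exact absurd h0 hne
  · have := h Q
    rw [e]
    linarith

theorem degree_rho_le_degree {E : Divisor L F} (hE : thr g c ≤ Divisor.degree E) :
    Divisor.degree (rho k O red E) ≤ Divisor.degree E := by
  have hgE : g ≤ Divisor.degree E := g_le_thr.trans hE
  set m : ℕ := (thr g c + Divisor.degree E).toNat with hm
  have hmE : thr g c ≤ Divisor.degree (m • E₀ - E) := by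
    rw [map_sub]
    have h1 := H.degree_nsmul_E₀_ge m
    have h2 : thr g c + Divisor.degree E ≤ (m : ℤ) := Int.self_le_toNat _
    linarith
  have hgm : g ≤ Divisor.degree (m • E₀ - E) := g_le_thr.trans hmE
  have hsum : E + (m • E₀ - E) = m • E₀ := by abel
  have hgm0 : g ≤ Divisor.degree (m • E₀) := by
    rw [← hsum, map_add]
    have := thr_nonneg (g := g) (c := c)
    linarith
  have h1 : rho k O red E + rho k O red (m • E₀ - E) ≤ rho k O red (m • E₀) := by
    have := H.rho_add_le hgE hgm (by rw [hsum]; exact hgm0)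
    rwa [hsum] at this
  have h2 := H.rho_nsmul_E₀_le hgm0
  have h3 := degree_mono (h1.trans h2)
  rw [map_add, map_nsmul, nsmul_eq_mul] at h3
  have h4 := H.degree_le_degree_rho hmE
  rw [map_sub, map_nsmul, nsmul_eq_mul] at h4
  have h5 : (m : ℤ) * Divisor.degree E₀k ≤ (m : ℤ) * Divisor.degree E₀ :=
    mul_le_mul_of_nonneg_left H.E₀k_le (Int.natCast_nonneg m)
  linarith

theorem degree_rho {E : Divisor L F} (hE : thr g c ≤ Divisor.degree E) :
    Divisor.degree (rho k O red E) = Divisor.degree E :=
  le_antisymm (H.degree_rho_le_degree hE) (H.degree_le_degree_rho hE)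

theorem rho_add {E₁ E₂ : Divisor L F} (h₁ : thr g c ≤ Divisor.degree E₁)
    (h₂ : thr g c ≤ Divisor.degree E₂) :
    rho k O red (E₁ + E₂) = rho k O red E₁ + rho k O red E₂ := by
  have h₁₂ : thr g c ≤ Divisor.degree (E₁ + E₂) := by
    rw [map_add]
    have := thr_nonneg (g := g) (c := c)
    linarith
  refine (eq_of_le_of_degree_eq H.degk
    (H.rho_add_le (g_le_thr.trans h₁) (g_le_thr.trans h₂) (g_le_thr.trans h₁₂)) ?_).symm
  rw [map_add, H.degree_rho h₁, H.degree_rho h₂, H.degree_rho h₁₂, map_add]

theorem exists_rho_add_single {T : Divisor L F} (hT : thr g c ≤ Divisor.degree T)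
    (P : Place L F) :
    ∃ Q : Place k Fk, rho k O red (T + Finsupp.single P 1) = rho k O red T + Finsupp.single Q 1 := by
  classical
  have hdegP : Divisor.degree (Finsupp.single P (1 : ℤ)) = 1 := by
    rw [Divisor.degree_single, H.degL]; simp
  have hT' : thr g c ≤ Divisor.degree (T + Finsupp.single P 1) := by
    rw [map_add, hdegP]; linarith
  have hle : T ≤ T + Finsupp.single P 1 := by
    intro v
    rw [Finsupp.add_apply, Finsupp.single_apply]
    split_ifs <;> simp
  have hmono := H.rho_mono (g_le_thr.trans hT) hle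
  have h0 : 0 ≤ rho k O red (T + Finsupp.single P 1) - rho k O red T := sub_nonneg.mpr hmono
  have h1 : Divisor.degree (rho k O red (T + Finsupp.single P 1) - rho k O red T) = 1 := by
    rw [map_sub, H.degree_rho hT', H.degree_rho hT, map_add, hdegP]; ring
  obtain ⟨Q, hQ⟩ := exists_eq_single_of_nonneg_of_degree_eq_one H.degk h0 h1
  exact ⟨Q, by rw [← hQ]; abel⟩

theorem exists_thr_le : ∃ T : Divisor L F, thr g c ≤ Divisor.degree T :=
  ⟨(thr g c).toNat • E₀, (Int.self_le_toNat _).trans (H.degree_nsmul_E₀_ge _)⟩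

theorem exists_place (P : Place L F) :
    ∃ Q : Place k Fk, ∀ T : Divisor L F, thr g c ≤ Divisor.degree T →
      rho k O red (T + Finsupp.single P 1) = rho k O red T + Finsupp.single Q 1 := by
  obtain ⟨T₀, hT₀⟩ := H.exists_thr_le
  obtain ⟨Q, hQ⟩ := H.exists_rho_add_single hT₀ P
  refine ⟨Q, fun T hT => ?_⟩
  have hdegP : Divisor.degree (Finsupp.single P (1 : ℤ)) = 1 := by
    rw [Divisor.degree_single, H.degL]; simp
  have hTP : thr g c ≤ Divisor.degree (T + Finsupp.single P 1) := by
    rw [map_add, hdegP]; linarith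
  have hT₀P : thr g c ≤ Divisor.degree (T₀ + Finsupp.single P 1) := by
    rw [map_add, hdegP]; linarith
  have e1 : rho k O red ((T + Finsupp.single P 1) + T₀) =
      rho k O red (T + Finsupp.single P 1) + rho k O red T₀ := H.rho_add hTP hT₀
  have e2 : rho k O red (T + (T₀ + Finsupp.single P 1)) =
      rho k O red T + rho k O red (T₀ + Finsupp.single P 1) := H.rho_add hT hT₀P
  have e3 : (T + Finsupp.single P 1) + T₀ = T + (T₀ + Finsupp.single P 1) := by abel
  rw [e3, e2, hQ] at e1
  have : rho k O red (T + Finsupp.single P 1) + rho k O red T₀ =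
      (rho k O red T + Finsupp.single Q 1) + rho k O red T₀ := by rw [← e1]; abel
  exact add_right_cancel this

/-- **The place reduction map.** -/
def placeRed (P : Place L F) : Place k Fk := (H.exists_place P).choose

theorem rho_add_single {T : Divisor L F} (hT : thr g c ≤ Divisor.degree T) (P : Place L F) :
    rho k O red (T + Finsupp.single P 1) = rho k O red T + Finsupp.single (H.placeRed P) 1 :=
  (H.exists_place P).choose_spec T hT

theorem placeRed_eq_of {T : Divisor L F} (hT : thr g c ≤ Divisor.degree T) {P : Place L F}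
    {Q : Place k Fk}
    (h : rho k O red (T + Finsupp.single P 1) = rho k O red T + Finsupp.single Q 1) :
    H.placeRed P = Q := by
  rw [H.rho_add_single hT P] at h
  have := add_left_cancel h
  exact Finsupp.single_left_injective one_ne_zero this

theorem deg_placeRed (P : Place L F) : (H.placeRed P).deg = P.deg := by
  rw [H.degk, H.degL]


omit H in
/-- Effective divisors as `ℕ`-valued finsupps. -/
def up : (Place L F →₀ ℕ) →+ Divisor L F :=
  Finsupp.mapRange.addMonoidHom (Nat.castAddMonoidHom ℤ)

omit H in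
theorem up_apply (X : Place L F →₀ ℕ) (P : Place L F) : up X P = (X P : ℤ) := rfl

omit H in
theorem up_single (P : Place L F) (n : ℕ) :
    up (Finsupp.single P n) = Finsupp.single P (n : ℤ) := by
  rw [up, Finsupp.mapRange.addMonoidHom_apply, Finsupp.mapRange_single]
  rfl

omit H in
theorem up_nonneg (X : Place L F →₀ ℕ) : 0 ≤ up X := fun P => by
  rw [up_apply]
  exact Int.natCast_nonneg _

omit H in
theorem degree_up_nonneg (X : Place L F →₀ ℕ) : 0 ≤ Divisor.degree (up X) :=
  degree_nonneg_of_nonneg (up_nonneg X)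

theorem rho_add_up (X : Place L F →₀ ℕ) :
    ∀ T : Divisor L F, thr g c ≤ Divisor.degree T →
      rho k O red (T + up X) = rho k O red T + Finsupp.mapDomain H.placeRed (up X) := by
  induction X using Finsupp.induction_linear with
  | zero =>
    intro T _
    simp
  | add X Y hX hY =>
    intro T hT
    have hTX : thr g c ≤ Divisor.degree (T + up X) := by
      rw [map_add]
      have := degree_up_nonneg X
      linarith
    rw [map_add, ← add_assoc, hY _ hTX, hX T hT, Finsupp.mapDomain_add, add_assoc]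
  | single P n =>
    induction n with
    | zero =>
      intro T _
      simp
    | succ n ih =>
      intro T hT
      have hTn : thr g c ≤ Divisor.degree (T + up (Finsupp.single P n)) := by
        rw [map_add]
        have := degree_up_nonneg (Finsupp.single P n)
        linarith
      have e : up (Finsupp.single P (n + 1)) = up (Finsupp.single P n) + Finsupp.single P 1 := by
        rw [up_single, up_single, ← Finsupp.single_add]
        push_cast
        rfl
      rw [e, ← add_assoc, H.rho_add_single hTn, ih T hT, Finsupp.mapDomain_add,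
        Finsupp.mapDomain_single, add_assoc]

/-- **Compatibility with principal divisors**: for a Gauss unit `f` (`red f ≠ 0`) with divisor
`D`, the image of `D` under the place reduction is the divisor of `red f`. -/
theorem mapDomain_placeRed_div {f : O} (hfne : red f ≠ 0) {D : Divisor L F}
    (hD : ∀ P, D P = P.ord (f : F)) (Q : Place k Fk) :
    Finsupp.mapDomain H.placeRed D Q = Q.ord (red f) := by
  set X : Place L F →₀ ℕ := D.mapRange Int.toNat rfl with hX
  set Y : Place L F →₀ ℕ := (-D).mapRange Int.toNat rfl with hY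
  have hXY : D = up X - up Y := by
    ext P
    rw [Finsupp.sub_apply, up_apply, up_apply, hX, hY, Finsupp.mapRange_apply,
      Finsupp.mapRange_apply, Finsupp.neg_apply, Int.toNat_sub_toNat_neg]
  obtain ⟨T₀, hT₀⟩ := H.exists_thr_le
  have hT : thr g c ≤ Divisor.degree (T₀ + up X) := by
    rw [map_add]
    have := degree_up_nonneg X
    linarith
  have hsub : T₀ + up X - D = T₀ + up Y := by
    rw [hXY]; abel
  have h1 := H.rho_sub_div (g_le_thr.trans hT) hfne hD Q
  rw [hsub, H.rho_add_up Y T₀ hT₀, H.rho_add_up X T₀ hT₀, Finsupp.add_apply,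
    Finsupp.add_apply] at h1
  rw [hXY, Finsupp.mapDomain_sub, Finsupp.sub_apply]
  linarith

omit H in
theorem degree_mapDomain_equiv (hdeg : ∀ P : Place L F, P.deg = 1)
    (a : Place L F ≃ Place L F) (E : Divisor L F) :
    Divisor.degree (Finsupp.mapDomain a E) = Divisor.degree E := by
  induction E using Finsupp.induction_linear with
  | zero => simp
  | add X Y hX hY => rw [Finsupp.mapDomain_add, map_add, map_add, hX, hY]
  | single P n => rw [Finsupp.mapDomain_single, Divisor.degree_single, Divisor.degree_single,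
      hdeg, hdeg]

/-- **Equivariance**: the place reduction commutes with every pair of automorphisms of
`(F, O)` and `Fk` compatible with `red` and with the orders at places. -/
theorem placeRed_equivariant (θ : F ≃+* F) (θk : Fk ≃+* Fk)
    (a : Place L F ≃ Place L F) (ak : Place k Fk ≃ Place k Fk)
    (hO : ∀ f : F, f ∈ O → θ f ∈ O) (hO' : ∀ f : F, f ∈ O → θ.symm f ∈ O)
    (hred : ∀ (f : O) (hf : θ (f : F) ∈ O), red ⟨θ (f : F), hf⟩ = θk (red f))
    (hordL : ∀ (P : Place L F) (f : F), (a P).ord (θ f) = P.ord f)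
    (hordk : ∀ (Q : Place k Fk) (y : Fk), (ak Q).ord (θk y) = Q.ord y)
    (P : Place L F) : H.placeRed (a P) = ak (H.placeRed P) := by
  have hpole : ∀ (E : Divisor L F) (Q : Place k Fk),
      poleSet k O red (Finsupp.mapDomain a E) (ak Q) = poleSet k O red E Q := by
    intro E Q
    ext n
    constructor
    · rintro ⟨f', hf', hne', rfl⟩
      have hfO : θ.symm (f' : F) ∈ O := hO' _ f'.2
      have hθ : θ ((⟨θ.symm (f' : F), hfO⟩ : O) : F) = (f' : F) := θ.apply_symm_apply _
      have hredf : red f' = θk (red ⟨θ.symm (f' : F), hfO⟩) := by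
        rw [← hred ⟨θ.symm (f' : F), hfO⟩ (by rw [hθ]; exact f'.2)]
        congr 1
        exact Subtype.ext hθ.symm
      refine ⟨⟨θ.symm (f' : F), hfO⟩, ?_, ?_, ?_⟩
      · rw [mem_rr_iff] at hf' ⊢
        rcases hf' with h0 | h
        · left
          show θ.symm (f' : F) = 0
          rw [h0, map_zero]
        · right
          intro P'
          have := h (a P')
          rw [Finsupp.mapDomain_apply a.injective] at this
          have e := hordL P' (θ.symm (f' : F))
          rw [θ.apply_symm_apply] at e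
          show -E P' ≤ P'.ord (θ.symm (f' : F))
          rw [← e]
          exact this
      · intro h0
        apply hne'
        rw [hredf, h0, map_zero]
      · rw [hredf, hordk]
    · rintro ⟨f, hf, hne, rfl⟩
      have hfO : θ (f : F) ∈ O := hO _ f.2
      refine ⟨⟨θ (f : F), hfO⟩, ?_, ?_, ?_⟩
      · rw [mem_rr_iff] at hf ⊢
        rcases hf with h0 | h
        · left
          show θ (f : F) = 0
          rw [h0, map_zero]
        · right
          intro P'
          obtain ⟨P'', rfl⟩ := a.surjective P'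
          rw [Finsupp.mapDomain_apply a.injective]
          show -E P'' ≤ (a P'').ord (θ (f : F))
          rw [hordL]
          exact h P''
      · rw [hred f hfO]
        exact (map_ne_zero_iff θk θk.injective).mpr hne
      · rw [hred f hfO, hordk]
  have hrho : ∀ (E : Divisor L F), g ≤ Divisor.degree E → ∀ Q : Place k Fk,
      rho k O red (Finsupp.mapDomain a E) (ak Q) = rho k O red E Q := by
    intro E hE Q
    have hE' : g ≤ Divisor.degree (Finsupp.mapDomain a E) := by
      rw [degree_mapDomain_equiv H.degL]; exact hE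
    have h1 := H.rho_spec hE' (ak Q)
    have h2 := H.rho_spec hE Q
    rw [hpole E Q] at h1
    exact h1.unique h2
  obtain ⟨T, hT⟩ := H.exists_thr_le
  have hT' : thr g c ≤ Divisor.degree (Finsupp.mapDomain a T) := by
    rw [degree_mapDomain_equiv H.degL]; exact hT
  apply H.placeRed_eq_of hT'
  have hdegP : Divisor.degree (Finsupp.single P (1 : ℤ)) = 1 := by
    rw [Divisor.degree_single, H.degL]; simp
  have hTP : thr g c ≤ Divisor.degree (T + Finsupp.single P 1) := by
    rw [map_add, hdegP]; linarith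
  ext Q'
  obtain ⟨Q, rfl⟩ := ak.surjective Q'
  have e1 : Finsupp.mapDomain a T + Finsupp.single (a P) 1 =
      Finsupp.mapDomain a (T + Finsupp.single P 1) := by
    rw [Finsupp.mapDomain_add, Finsupp.mapDomain_single]
  rw [e1, hrho _ (g_le_thr.trans hTP) Q, H.rho_add_single hT P, Finsupp.add_apply,
    Finsupp.add_apply, hrho _ (g_le_thr.trans hT) Q]
  congr 1
  classical
  rw [Finsupp.single_apply, Finsupp.single_apply]
  simp only [ak.apply_eq_iff_eq]

/-- **Main theorem (existential form).** -/
theorem exists_placeReduction :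
    ∃ r : Place L F → Place k Fk, (∀ P, (r P).deg = P.deg) ∧
      (∀ f : O, red f ≠ 0 → ∀ D : Divisor L F, (∀ P, D P = P.ord (f : F)) →
        ∀ Q, Finsupp.mapDomain r D Q = Q.ord (red f)) ∧
      (∀ (θ : F ≃+* F) (θk : Fk ≃+* Fk) (a : Place L F ≃ Place L F)
        (ak : Place k Fk ≃ Place k Fk),
        (∀ f : F, f ∈ O → θ f ∈ O) → (∀ f : F, f ∈ O → θ.symm f ∈ O) →
        (∀ (f : O) (hf : θ (f : F) ∈ O), red ⟨θ (f : F), hf⟩ = θk (red f)) →
        (∀ (P : Place L F) (f : F), (a P).ord (θ f) = P.ord f) →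
        (∀ (Q : Place k Fk) (y : Fk), (ak Q).ord (θk y) = Q.ord y) →
        ∀ P, r (a P) = ak (r P)) :=
  ⟨H.placeRed, H.deg_placeRed, fun _ hfne _ hD Q => H.mapDomain_placeRed_div hfne hD Q,
    fun θ θk a ak hO hO' hred hordL hordk P =>
      H.placeRed_equivariant θ θk a ak hO hO' hred hordL hordk P⟩


/-- On divisors of large degree, `rho` IS the push-forward along the place reduction. -/
theorem rho_eq_mapDomain {E : Divisor L F} (hE : thr g c ≤ Divisor.degree E) :
    rho k O red E = Finsupp.mapDomain H.placeRed E := by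
  have heff : ∀ X : Place L F →₀ ℕ, thr g c ≤ Divisor.degree (up X) →
      rho k O red (up X) = Finsupp.mapDomain H.placeRed (up X) := by
    intro X hX
    have h1 := H.rho_add_up X (up X) hX
    rw [H.rho_add hX hX] at h1
    exact add_left_cancel h1
  set X : Place L F →₀ ℕ := E.mapRange Int.toNat rfl with hX
  set Y : Place L F →₀ ℕ := (-E).mapRange Int.toNat rfl with hY
  have hXY : E = up X - up Y := by
    ext P
    rw [Finsupp.sub_apply, up_apply, up_apply, hX, hY, Finsupp.mapRange_apply,
      Finsupp.mapRange_apply, Finsupp.neg_apply, Int.toNat_sub_toNat_neg]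
  have hEY : E + up Y = up X := by rw [hXY]; abel
  have hdX : thr g c ≤ Divisor.degree (up X) := by
    rw [← hEY, map_add]
    have := degree_up_nonneg Y
    linarith
  have h2 := H.rho_add_up Y E hE
  rw [hEY, heff X hdX] at h2
  have h3 : Finsupp.mapDomain H.placeRed E =
      Finsupp.mapDomain H.placeRed (up X) - Finsupp.mapDomain H.placeRed (up Y) := by
    conv_lhs => rw [hXY]
    exact Finsupp.mapDomain_sub
  rw [h3, h2]
  abel

/-- The lattice characterisation of the place reduction (shape requested by KRONDIV):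
for every divisor `E` of large degree and every place `Q` of `Fk`, the coefficient of
`Finsupp.mapDomain placeRed E` at `Q` is the largest pole order at `Q` of the reductions of
the Gauss-integral elements of `L(E)`, and it is attained. -/
theorem isLatticeReduction {E : Divisor L F} (hE : thr g c ≤ Divisor.degree E)
    (Q : Place k Fk) :
    (∀ (f : F) (hf : f ∈ O), f ∈ riemannRochSpace E → red ⟨f, hf⟩ ≠ 0 →
        -(Finsupp.mapDomain H.placeRed E Q) ≤ Q.ord (red ⟨f, hf⟩)) ∧
      (∃ (f : F) (hf : f ∈ O), f ∈ riemannRochSpace E ∧ red ⟨f, hf⟩ ≠ 0 ∧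
        Q.ord (red ⟨f, hf⟩) = -(Finsupp.mapDomain H.placeRed E Q)) := by
  have hgE : g ≤ Divisor.degree E := g_le_thr.trans hE
  rw [← H.rho_eq_mapDomain hE]
  refine ⟨fun f hf hmem hne => ?_, ?_⟩
  · have := H.neg_ord_le_rho hgE (f := ⟨f, hf⟩) hmem hne Q
    linarith
  · obtain ⟨f, hmem, hne, e⟩ := H.exists_rho_eq hgE Q
    exact ⟨(f : F), f.2, hmem, hne, by rw [e, neg_neg]⟩

/-- Every place of `Fk` at which some reduction `red f` (`f` a Gauss unit) vanishes is the
reduction of a zero of `f`: in particular `placeRed` is surjective as soon as every place of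
`Fk` is a zero of the reduction of some Gauss unit. -/
theorem exists_placeRed_eq_of_ord_pos {f : O} (hfne : red f ≠ 0) {D : Divisor L F}
    (hD : ∀ P, D P = P.ord (f : F)) {Q : Place k Fk} (hQ : 0 < Q.ord (red f)) :
    ∃ P : Place L F, H.placeRed P = Q ∧ 0 < P.ord (f : F) := by
  classical
  have h := H.mapDomain_placeRed_div hfne hD Q
  rw [Finsupp.mapDomain, Finsupp.sum_apply] at h
  by_contra hcon
  push Not at hcon
  have hle : (D.sum fun P n => (Finsupp.single (H.placeRed P) n) Q) ≤ 0 := by
    apply Finset.sum_nonpos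
    intro P _
    show (Finsupp.single (H.placeRed P) (D P)) Q ≤ 0
    rw [Finsupp.single_apply]
    split_ifs with hP
    · rw [hD P]
      exact hcon P hP
    · exact le_rfl
  linarith

end LatHyp

end Main

end Fermat.Agent.S37.helper5413

end
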