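/-
S37/S18-NS (helper6835): existence of NON-SPECIAL REDUCED DIVISORS from Riemann's theorem.

Abstract, any characteristic; Prelude vocabulary (`AlgebraicCurve.Place`, `Divisor`,
`riemannRochSpace`).  No canonical divisor, no duality.

Main results:
* `finrank_add_card_le`: `n` places `P` with `L(D+P) ≠ L(D)` give `l(D) + n ≤ l(D + ∑ P)`.
* `finite_setOf_riemannRochSpace_add_single_ne`: if `deg D + 1 - g < l(D)` then only finitely
  many places `P` have `L(D + P) ≠ L(D)`.
* `exists_nonspecial`: for every finite set `S` of places there are `g` pairwise distinct places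
  outside `S` with `L(s_1 + ... + s_g) = L(0)`.
-/
import Mathlib
import Fermat.Prelude.Def_AlgebraicCurve_Repartitions

set_option autoImplicit false

noncomputable section

open AlgebraicCurve WithZero Module

namespace Fermat.Agent.S37.helper6835

variable {k F : Type*} [Field k] [Field F] [Algebra k F]

theorem mem_rrSpace_iff {D : Divisor k F} {f : F} :
    f ∈ riemannRochSpace D ↔ ∀ v : Place k F, v.adicValuation f ≤ exp (D v) :=
  Iff.rfl

theorem rrSpace_mono {D E : Divisor k F} (h : D ≤ E) :
    riemannRochSpace D ≤ riemannRochSpace E := fun _ hf v =>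
  (hf v).trans (exp_le_exp.mpr (Finsupp.le_def.mp h v))

theorem adicValuation_algebraMap_eq_one (v : Place k F) {a : k} (ha : a ≠ 0) :
    v.adicValuation (algebraMap k F a) = 1 := by
  have h1 := v.adicValuation_algebraMap_le_one a
  have h2 := v.adicValuation_algebraMap_le_one a⁻¹
  have h3 : v.adicValuation (algebraMap k F a) * v.adicValuation (algebraMap k F a⁻¹) = 1 := by
    rw [← map_mul, ← map_mul, mul_inv_cancel₀ ha, map_one, map_one]
  refine le_antisymm h1 ?_
  calc (1 : ℤᵐ⁰) = v.adicValuation (algebraMap k F a) * v.adicValuation (algebraMap k F a⁻¹) :=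
        h3.symm
    _ ≤ v.adicValuation (algebraMap k F a) * 1 := mul_le_mul' le_rfl h2
    _ = v.adicValuation (algebraMap k F a) := mul_one _

theorem adicValuation_smul (v : Place k F) {a : k} (ha : a ≠ 0) (f : F) :
    v.adicValuation (a • f) = v.adicValuation f := by
  rw [Algebra.smul_def, map_mul, adicValuation_algebraMap_eq_one v ha, one_mul]

theorem adicValuation_smul_le (v : Place k F) (a : k) (f : F) :
    v.adicValuation (a • f) ≤ v.adicValuation f := by
  rw [Algebra.smul_def, map_mul]
  exact mul_le_of_le_one_left' (v.adicValuation_algebraMap_le_one a)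

/-- Pole-order independence: functions `f i ∈ L(D + P i) \ L(D)` at pairwise distinct places
`P i` are linearly independent modulo `L(D)`. -/
theorem eq_zero_of_sum_smul_mem {ι : Type*} (s : Finset ι) (D : Divisor k F)
    (P : ι → Place k F) (hP : Set.InjOn P s) (f : ι → F)
    (hf : ∀ i ∈ s, f i ∈ riemannRochSpace (D + Finsupp.single (P i) 1))
    (hf' : ∀ i ∈ s, f i ∉ riemannRochSpace D) (c : ι → k)
    (h : ∑ i ∈ s, c i • f i ∈ riemannRochSpace D) : ∀ i ∈ s, c i = 0 := by
  classical
  intro i0 hi0
  by_contra hc
  set v := P i0 with hv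
  -- the pole of `f i0` sits at `v`
  have hbig : exp (D v) < v.adicValuation (f i0) := by
    have hnot := hf' i0 hi0
    rw [mem_rrSpace_iff] at hnot
    push Not at hnot
    obtain ⟨w, hw⟩ := hnot
    by_cases hwv : w = v
    · rw [← hwv]; exact hw
    · exfalso
      have h1 := hf i0 hi0 w
      rw [Finsupp.add_apply, Finsupp.single_apply, if_neg (fun h => hwv h.symm), add_zero] at h1
      exact absurd h1 (not_le.mpr hw)
  have hrest : v.adicValuation (∑ i ∈ s.erase i0, c i • f i) ≤ exp (D v) := by
    refine Valuation.map_sum_le _ fun i hi => ?_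
    have hi' := Finset.mem_erase.mp hi
    refine (adicValuation_smul_le v (c i) (f i)).trans ?_
    have h1 := hf i hi'.2 v
    have hne : P i ≠ v := fun h => hi'.1 (hP hi'.2 hi0 h)
    rwa [Finsupp.add_apply, Finsupp.single_apply, if_neg hne, add_zero] at h1
  have hsplit : ∑ i ∈ s, c i • f i = c i0 • f i0 + ∑ i ∈ s.erase i0, c i • f i :=
    (Finset.add_sum_erase s (fun i => c i • f i) hi0).symm
  have hval : v.adicValuation (∑ i ∈ s, c i • f i) = v.adicValuation (f i0) := by
    rw [hsplit, Valuation.map_add_eq_of_lt_left, adicValuation_smul v hc]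
    rw [adicValuation_smul v hc]
    exact lt_of_le_of_lt hrest hbig
  have := h v
  rw [hval] at this
  exact absurd this (not_le.mpr hbig)

theorem single_le_sum_single (T : Finset (Place k F)) {P : Place k F} (hP : P ∈ T) :
    (Finsupp.single P 1 : Divisor k F) ≤ ∑ Q ∈ T, Finsupp.single Q 1 := by
  classical
  rw [← Finset.add_sum_erase T _ hP]
  refine le_add_of_nonneg_right (Finset.sum_nonneg fun Q _ => ?_)
  exact Finsupp.single_nonneg.mpr zero_le_one

/-- `n` places `P` with `L(D+P) ≠ L(D)` raise the dimension by at least `n`. -/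
theorem finrank_add_card_le (D : Divisor k F) (T : Finset (Place k F))
    (hfd : ∀ E : Divisor k F, FiniteDimensional k (riemannRochSpace E))
    (hT : ∀ P ∈ T, riemannRochSpace (D + Finsupp.single P 1) ≠ riemannRochSpace D) :
    finrank k (riemannRochSpace D) + T.card
      ≤ finrank k (riemannRochSpace (D + ∑ P ∈ T, Finsupp.single P 1)) := by
  classical
  have hex : ∀ P : T, ∃ f : F, f ∈ riemannRochSpace (D + Finsupp.single P.1 1) ∧
      f ∉ riemannRochSpace D := by
    intro P
    have hle : riemannRochSpace D ≤ riemannRochSpace (D + Finsupp.single P.1 1) :=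
      rrSpace_mono (le_add_of_nonneg_right (Finsupp.single_nonneg.mpr zero_le_one))
    have hlt : riemannRochSpace D < riemannRochSpace (D + Finsupp.single P.1 1) :=
      lt_of_le_of_ne hle (hT P.1 P.2).symm
    obtain ⟨f, hf, hf'⟩ := SetLike.exists_of_lt hlt
    exact ⟨f, hf, hf'⟩
  choose f hf hf' using hex
  set E : Divisor k F := D + ∑ P ∈ T, Finsupp.single P 1 with hE
  have hkey : ∀ (s : Finset T) (c : T → k),
      ∑ i ∈ s, c i • f i ∈ riemannRochSpace D → ∀ i ∈ s, c i = 0 := fun s c h =>
    eq_zero_of_sum_smul_mem s D (fun P : T => P.1) (Subtype.val_injective.injOn) f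
      (fun i _ => hf i) (fun i _ => hf' i) c h
  have hli : LinearIndependent k f := by
    rw [linearIndependent_iff']
    intro s c h
    exact hkey s c (h ▸ Submodule.zero_mem _)
  set W : Submodule k F := Submodule.span k (Set.range f) with hW
  have hdisj : riemannRochSpace D ⊓ W = ⊥ := by
    rw [eq_bot_iff]
    rintro x ⟨hxD, hxW⟩
    rw [SetLike.mem_coe, hW, Submodule.mem_span_range_iff_exists_fun] at hxW
    obtain ⟨c, rfl⟩ := hxW
    have hc := hkey Finset.univ c hxD
    rw [Submodule.mem_bot]
    exact Finset.sum_eq_zero fun i hi => by rw [hc i hi, zero_smul]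
  have hWE : W ≤ riemannRochSpace E := by
    rw [hW, Submodule.span_le]
    rintro _ ⟨P, rfl⟩
    exact rrSpace_mono (add_le_add le_rfl (single_le_sum_single T P.2)) (hf P)
  have hDE : riemannRochSpace D ≤ riemannRochSpace E :=
    rrSpace_mono (le_add_of_nonneg_right (Finset.sum_nonneg fun Q _ =>
      Finsupp.single_nonneg.mpr zero_le_one))
  have := hfd D
  have := hfd E
  have : FiniteDimensional k W := FiniteDimensional.span_of_finite k (Set.finite_range f)
  have hWrank : finrank k W = T.card := by
    rw [hW, finrank_span_eq_card hli, Fintype.card_coe]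
  have hsup := Submodule.finrank_sup_add_finrank_inf_eq (riemannRochSpace D) W
  rw [hdisj, finrank_bot, add_zero, hWrank] at hsup
  rw [← hsup]
  exact Submodule.finrank_mono (sup_le hDE hWE)

theorem degree_add_sum_single (D : Divisor k F) (T : Finset (Place k F))
    (hdeg : ∀ v : Place k F, v.deg = 1) :
    Divisor.degree (D + ∑ P ∈ T, Finsupp.single P 1) = Divisor.degree D + T.card := by
  rw [map_add, map_sum]
  simp only [Divisor.degree_single, hdeg, Nat.cast_one, mul_one, Finset.sum_const,
    nsmul_eq_mul]

/-- If `D` is "special" (`deg D + 1 - g < l(D)`), then only finitely many places `P` have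
`L(D + P) ≠ L(D)`. -/
theorem finite_setOf_riemannRochSpace_add_single_ne (g : ℕ) (c : ℤ)
    (hfd : ∀ E : Divisor k F, FiniteDimensional k (riemannRochSpace E))
    (hdeg : ∀ v : Place k F, v.deg = 1)
    (hRe : ∀ E : Divisor k F, c ≤ Divisor.degree E →
      (finrank k (riemannRochSpace E) : ℤ) = Divisor.degree E + 1 - g)
    (D : Divisor k F) (hD : Divisor.degree D + 1 - g < finrank k (riemannRochSpace D)) :
    {P : Place k F | riemannRochSpace (D + Finsupp.single P 1) ≠ riemannRochSpace D}.Finite := by
  by_contra hinf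
  rw [Set.not_finite] at hinf
  obtain ⟨T, hTsub, hTcard⟩ := hinf.exists_subset_card_eq (c - Divisor.degree D).toNat
  have h1 := finrank_add_card_le D T hfd (fun P hP => hTsub hP)
  have h2 := degree_add_sum_single D T hdeg
  have h3 := hRe (D + ∑ P ∈ T, Finsupp.single P 1) (by
    rw [h2, hTcard]
    have := Int.self_le_toNat (c - Divisor.degree D)
    omega)
  rw [h2] at h3
  have h1' : (finrank k (riemannRochSpace D) : ℤ) + T.card
      ≤ finrank k (riemannRochSpace (D + ∑ P ∈ T, Finsupp.single P 1)) := by
    exact_mod_cast h1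
  omega

theorem one_mem_rrSpace_zero : (1 : F) ∈ riemannRochSpace (0 : Divisor k F) := by
  intro v
  simp

theorem one_le_finrank_rrSpace_zero
    (hfd : ∀ E : Divisor k F, FiniteDimensional k (riemannRochSpace E)) :
    1 ≤ finrank k (riemannRochSpace (0 : Divisor k F)) := by
  have := hfd 0
  rw [Nat.succ_le_iff, finrank_pos_iff_exists_ne_zero]
  exact ⟨⟨1, one_mem_rrSpace_zero⟩, fun h => one_ne_zero (congrArg Subtype.val h)⟩

/-- **Non-special reduced divisors exist.** From Riemann's theorem with constant `g`
(inequality for all divisors, equality in large degree), for every finite set `S` of places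
there are `j ≤ g` pairwise distinct places outside `S` with `L(s_1 + ... + s_j) = L(0)`. -/
theorem exists_nonspecial_le (g : ℕ) (c : ℤ)
    (hfd : ∀ E : Divisor k F, FiniteDimensional k (riemannRochSpace E))
    (hdeg : ∀ v : Place k F, v.deg = 1)
    (hRe : ∀ E : Divisor k F, c ≤ Divisor.degree E →
      (finrank k (riemannRochSpace E) : ℤ) = Divisor.degree E + 1 - g)
    (hinf : (Set.univ : Set (Place k F)).Infinite) (S : Finset (Place k F)) :
    ∀ j : ℕ, j ≤ g → ∃ s : Fin j → Place k F, Function.Injective s ∧ (∀ i, s i ∉ S) ∧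
      riemannRochSpace (∑ i, Finsupp.single (s i) 1) = riemannRochSpace (0 : Divisor k F) := by
  classical
  intro j
  induction j with
  | zero =>
    intro _
    exact ⟨Fin.elim0, fun i => i.elim0, fun i => i.elim0, by simp⟩
  | succ j ih =>
    intro hj
    obtain ⟨s, hsinj, hsS, hsL⟩ := ih (Nat.le_of_succ_le hj)
    set D : Divisor k F := ∑ i, Finsupp.single (s i) 1 with hD
    have hdegD : Divisor.degree D = j := by
      rw [hD, map_sum]
      simp [Divisor.degree_single, hdeg]
    have hspecial : Divisor.degree D + 1 - g < finrank k (riemannRochSpace D) := by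
      rw [hsL, hdegD]
      have h1 : (1 : ℤ) ≤ finrank k (riemannRochSpace (0 : Divisor k F)) := by
        exact_mod_cast one_le_finrank_rrSpace_zero hfd
      have h2 : (j : ℤ) + 1 ≤ g := by exact_mod_cast hj
      omega
    have hbad := finite_setOf_riemannRochSpace_add_single_ne g c hfd hdeg hRe D hspecial
    have hfin : ({P : Place k F | riemannRochSpace (D + Finsupp.single P 1) ≠ riemannRochSpace D}
        ∪ (S : Set (Place k F)) ∪ Set.range s).Finite :=
      (hbad.union S.finite_toSet).union (Set.finite_range s)
    obtain ⟨P, -, hP⟩ := (hinf.sdiff hfin).nonempty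
    simp only [Set.mem_union, Set.mem_ofPred_eq, Finset.mem_coe, Set.mem_range, not_or,
      not_not, not_exists] at hP
    obtain ⟨⟨hP1, hP2⟩, hP3⟩ := hP
    refine ⟨Fin.snoc s P, ?_, ?_, ?_⟩
    · intro a b hab
      induction a using Fin.lastCases with
      | last =>
        induction b using Fin.lastCases with
        | last => rfl
        | cast b =>
          rw [Fin.snoc_last, Fin.snoc_castSucc] at hab
          exact absurd hab.symm (hP3 b)
      | cast a =>
        induction b using Fin.lastCases with
        | last =>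
          rw [Fin.snoc_last, Fin.snoc_castSucc] at hab
          exact absurd hab (hP3 a)
        | cast b =>
          rw [Fin.snoc_castSucc, Fin.snoc_castSucc] at hab
          rw [hsinj hab]
    · intro i
      induction i using Fin.lastCases with
      | last => rw [Fin.snoc_last]; exact hP2
      | cast i => rw [Fin.snoc_castSucc]; exact hsS i
    · rw [Fin.sum_univ_castSucc]
      simp only [Fin.snoc_castSucc, Fin.snoc_last]
      rw [← hD, hP1, hsL]

/-- **Non-special reduced divisor of degree `g`** avoiding a given finite set of places. -/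
theorem exists_nonspecial (g : ℕ) (c : ℤ)
    (hfd : ∀ E : Divisor k F, FiniteDimensional k (riemannRochSpace E))
    (hdeg : ∀ v : Place k F, v.deg = 1)
    (hRe : ∀ E : Divisor k F, c ≤ Divisor.degree E →
      (finrank k (riemannRochSpace E) : ℤ) = Divisor.degree E + 1 - g)
    (hinf : (Set.univ : Set (Place k F)).Infinite) (S : Finset (Place k F)) :
    ∃ s : Fin g → Place k F, Function.Injective s ∧ (∀ i, s i ∉ S) ∧
      riemannRochSpace (∑ i, Finsupp.single (s i) 1) = riemannRochSpace (0 : Divisor k F) :=
  exists_nonspecial_le g c hfd hdeg hRe hinf S g le_rfl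

/-! ### `L(0)` consists of constants -/

theorem residue_surjective_of_deg_eq_one (v : Place k F) (hv : v.deg = 1) :
    Function.Surjective (algebraMap k v.ResidueField) := by
  intro w
  have h := (finrank_eq_one_iff_of_nonzero' (1 : v.ResidueField) one_ne_zero).mp hv w
  obtain ⟨c, hc⟩ := h
  exact ⟨c, by rw [← hc, Algebra.smul_def, mul_one]⟩

/-- A function in `O_v` differs from a constant by an element of positive order (`deg v = 1`). -/
theorem exists_sub_algebraMap_ord_pos (v : Place k F) (hv : v.deg = 1) {f : F}
    (hf : f ∈ v.toValuationSubring) :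
    ∃ a : k, f - algebraMap k F a = 0 ∨ 0 < v.ord (f - algebraMap k F a) := by
  obtain ⟨a, ha⟩ := residue_surjective_of_deg_eq_one v hv
    (IsLocalRing.residue v.toValuationSubring ⟨f, hf⟩)
  refine ⟨a, ?_⟩
  by_cases h0 : f - algebraMap k F a = 0
  · exact Or.inl h0
  right
  have hmem : (⟨f, hf⟩ : v.toValuationSubring) - algebraMap k v.toValuationSubring a
      ∈ IsLocalRing.maximalIdeal v.toValuationSubring := by
    rw [← IsLocalRing.residue_eq_zero_iff, map_sub, sub_eq_zero]
    exact ha.symm
  have hnu : ¬ IsUnit ((⟨f, hf⟩ : v.toValuationSubring) - algebraMap k v.toValuationSubring a) :=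
    (IsLocalRing.mem_maximalIdeal _).mp hmem
  have hne1 : v.adicValuation (f - algebraMap k F a) ≠ 1 := by
    intro h1
    apply hnu
    rw [← v.adicValuation_coe_eq_one_iff]
    simpa using h1
  have hle : v.adicValuation (f - algebraMap k F a) ≤ 1 :=
    v.adicValuation_le_one_of_mem (sub_mem hf (v.algebraMap_mem' a))
  have hlt : v.adicValuation (f - algebraMap k F a) < 1 := lt_of_le_of_ne hle hne1
  rw [v.adicValuation_eq_exp_neg_ord h0, ← exp_zero, exp_lt_exp] at hlt
  omega

theorem ord_nonneg_of_mem_rrSpace_zero {f : F} (hf : f ∈ riemannRochSpace (0 : Divisor k F))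
    (hf0 : f ≠ 0) (v : Place k F) : 0 ≤ v.ord f := by
  have h := (mem_riemannRochSpace_iff.mp hf v).resolve_left hf0
  simpa using h

/-- On a function field with principal divisors of degree `0` and all places of degree `1`,
a function without poles is constant. -/
theorem exists_algebraMap_eq_of_mem_rrSpace_zero [HasPrincipalDivisors k F]
    (hdeg : ∀ v : Place k F, v.deg = 1) (v0 : Place k F) {f : F}
    (hf : f ∈ riemannRochSpace (0 : Divisor k F)) : ∃ a : k, f = algebraMap k F a := by
  classical
  have hf0 : f ∈ v0.toValuationSubring := by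
    have h := hf v0
    rw [Finsupp.zero_apply, exp_zero] at h
    by_cases hz : f = 0
    · rw [hz]; exact zero_mem _
    · have h2 := (v0.adicValuation_le_one_iff).mp h
      rcases h2 with h2 | h2
      · exact absurd h2 hz
      · obtain ⟨π, hπ⟩ := IsDiscreteValuationRing.exists_irreducible v0.toValuationSubring
        obtain ⟨u, hu⟩ := v0.exists_unit_mul_zpow hz hπ
        rw [hu]
        lift v0.ord f to ℕ using h2 with n hn
        rw [zpow_natCast]
        exact mul_mem (u : v0.toValuationSubring).2 (pow_mem π.2 n)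
  obtain ⟨a, ha⟩ := exists_sub_algebraMap_ord_pos v0 (hdeg v0) hf0
  refine ⟨a, ?_⟩
  rcases ha with ha | ha
  · exact sub_eq_zero.mp ha
  exfalso
  set h := f - algebraMap k F a with hh
  have hh0 : h ≠ 0 := fun h0 => by rw [h0] at ha; simp at ha
  have hhL : h ∈ riemannRochSpace (0 : Divisor k F) := by
    refine Submodule.sub_mem _ hf ?_
    intro v
    rw [Finsupp.zero_apply, exp_zero]
    exact v.adicValuation_algebraMap_le_one a
  obtain ⟨D, hD, hD0⟩ := HasPrincipalDivisors.exists_divisor (K := k) h hh0
  have hnn : ∀ v : Place k F, 0 ≤ D v := fun v => by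
    rw [hD v]; exact ord_nonneg_of_mem_rrSpace_zero hhL hh0 v
  have hdegD : Divisor.degree D = D.sum fun v n => n := by
    rw [Divisor.degree, Finsupp.liftAddHom_apply]
    refine Finsupp.sum_congr fun v _ => ?_
    simp [hdeg v]
  have hpos : 0 < D.sum fun v n => n := by
    rw [Finsupp.sum]
    have hv0 : v0 ∈ D.support := by
      rw [Finsupp.mem_support_iff, hD v0]; omega
    calc (0 : ℤ) < D v0 := by rw [hD v0]; exact ha
      _ ≤ ∑ v ∈ D.support, D v :=
        Finset.single_le_sum (f := fun v => D v) (fun v _ => hnn v) hv0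
  omega

/-- Consumer form of (NS): every function in `L(s_1 + ... + s_g)` is constant. -/
theorem exists_nonspecial_const [HasPrincipalDivisors k F] (g : ℕ) (c : ℤ)
    (hfd : ∀ E : Divisor k F, FiniteDimensional k (riemannRochSpace E))
    (hdeg : ∀ v : Place k F, v.deg = 1)
    (hRe : ∀ E : Divisor k F, c ≤ Divisor.degree E →
      (finrank k (riemannRochSpace E) : ℤ) = Divisor.degree E + 1 - g)
    (hinf : (Set.univ : Set (Place k F)).Infinite) (S : Finset (Place k F)) :
    ∃ s : Fin g → Place k F, Function.Injective s ∧ (∀ i, s i ∉ S) ∧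
      ∀ w ∈ riemannRochSpace (∑ i, Finsupp.single (s i) (1 : ℤ)), ∃ a : k, w = algebraMap k F a := by
  obtain ⟨s, hs1, hs2, hs3⟩ := exists_nonspecial g c hfd hdeg hRe hinf S
  obtain ⟨v0, -⟩ := hinf.nonempty
  exact ⟨s, hs1, hs2, fun w hw =>
    exists_algebraMap_eq_of_mem_rrSpace_zero hdeg v0 (hs3 ▸ hw)⟩

/-! ### Infinitely many places -/

theorem adicValuation_lt_one_of_ord_pos (v : Place k F) {f : F} (hf : 0 < v.ord f) :
    v.adicValuation f < 1 := by
  have hf0 : f ≠ 0 := fun h => by rw [h] at hf; simp at hf
  rw [v.adicValuation_eq_exp_neg_ord hf0, ← exp_zero, exp_lt_exp]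
  omega

/-- A non-constant function has a zero. -/
theorem exists_ord_pos_of_not_const [HasPrincipalDivisors k F]
    (hdeg : ∀ v : Place k F, v.deg = 1) (v0 : Place k F) {h : F}
    (hh : ∀ a : k, h ≠ algebraMap k F a) : ∃ v : Place k F, 0 < v.ord h := by
  classical
  by_contra hcon
  push Not at hcon
  have hh0 : h ≠ 0 := fun h0 => hh 0 (by rw [h0, map_zero])
  obtain ⟨D, hD, hD0⟩ := HasPrincipalDivisors.exists_divisor (K := k) h hh0
  have hdegD : Divisor.degree D = ∑ v ∈ D.support, D v := by
    rw [Divisor.degree, Finsupp.liftAddHom_apply, Finsupp.sum]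
    refine Finset.sum_congr rfl fun v _ => ?_
    simp [hdeg v]
  have hall : ∀ v ∈ D.support, D v = 0 := by
    have hnp : ∀ v ∈ D.support, D v ≤ 0 := fun v _ => by rw [hD v]; exact hcon v
    have hsum : ∑ v ∈ D.support, D v = 0 := by rw [← hdegD, hD0]
    exact (Finset.sum_eq_zero_iff_of_nonpos hnp).mp hsum
  have hzero : ∀ v : Place k F, v.ord h = 0 := by
    intro v
    rw [← hD v]
    by_cases hv : v ∈ D.support
    · exact hall v hv
    · exact Finsupp.notMem_support_iff.mp hv
  have hL : h ∈ riemannRochSpace (0 : Divisor k F) := by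
    rw [mem_riemannRochSpace_iff]
    intro v
    right
    rw [hzero v]
    simp
  obtain ⟨a, ha⟩ := exists_algebraMap_eq_of_mem_rrSpace_zero hdeg v0 hL
  exact hh a ha

/-- A function field with a non-constant function over an infinite constant field has
infinitely many places. -/
theorem infinite_places_of_not_const [HasPrincipalDivisors k F] [Infinite k]
    (hdeg : ∀ v : Place k F, v.deg = 1) (v0 : Place k F) (x : F)
    (hx : ∀ a : k, x ≠ algebraMap k F a) : (Set.univ : Set (Place k F)).Infinite := by
  have hex : ∀ a : k, ∃ v : Place k F, 0 < v.ord (x - algebraMap k F a) := fun a =>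
    exists_ord_pos_of_not_const hdeg v0 (fun b hb => hx (b + a) (by
      rw [map_add, ← hb, sub_add_cancel]))
  choose φ hφ using hex
  refine Set.infinite_of_injective_forall_mem (f := φ) ?_ (fun _ => Set.mem_univ _)
  intro a b hab
  by_contra hne
  have h1 := adicValuation_lt_one_of_ord_pos (φ a) (hφ a)
  have h2 := adicValuation_lt_one_of_ord_pos (φ b) (hφ b)
  rw [← hab] at h2
  have h3 : (φ a).adicValuation (algebraMap k F (b - a)) < 1 := by
    have : algebraMap k F (b - a) = (x - algebraMap k F a) - (x - algebraMap k F b) := by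
      rw [map_sub]; ring
    rw [this]
    exact lt_of_le_of_lt (Valuation.map_sub _ _ _) (max_lt h1 h2)
  rw [adicValuation_algebraMap_eq_one (φ a) (sub_ne_zero.mpr (Ne.symm hne))] at h3
  exact lt_irrefl _ h3

end Fermat.Agent.S37.helper6835

end
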