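/-
S37/S18-NS part 2 (helper6835): PRODUCER of the hypotheses (NS) + (Q0) + (COORD) of the abstract
torsion core (TOR-ABS, findings #2509), from

* the conservation law `sp_*(div y) = div(red y)` (`Cons`, the Prelude `IsPlaceReductionAlong`
  shape),
* Riemann's theorem on the special fibre (via `exists_nonspecial_const`),
* one coordinate `x` whose poles specialise to poles and which is unramified outside a finite set.

Abstract setting: `K ⊆ F` (generic fibre), `k ⊆ Fk` (special fibre), `O : ValuationSubring F`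
(the Gauss ring), `red : O →+* Fk`, `sp : Place K F → Place k Fk`.
-/
import Fermat.Agent.S37.helper6835_NonSpecial

set_option autoImplicit false

noncomputable section

open AlgebraicCurve WithZero Module

namespace Fermat.Agent.S37.helper6835

section Basic

variable {K F : Type*} [Field K] [Field F] [Algebra K F]

theorem ord_algebraMap (v : Place K F) (a : K) : v.ord (algebraMap K F a) = 0 := by
  by_cases ha : a = 0
  · simp [ha]
  · simp [Place.ord, adicValuation_algebraMap_eq_one v ha]

theorem ord_nonneg_of_mem (v : Place K F) {f : F} (hf : f ∈ v.toValuationSubring) :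
    0 ≤ v.ord f := by
  by_cases hf0 : f = 0
  · simp [hf0]
  · exact ((v.adicValuation_le_one_iff).mp (v.adicValuation_le_one_of_mem hf)).resolve_left hf0

theorem mem_of_ord_nonneg (v : Place K F) {f : F} (hf : 0 ≤ v.ord f) :
    f ∈ v.toValuationSubring := by
  by_cases hz : f = 0
  · rw [hz]; exact zero_mem _
  · obtain ⟨π, hπ⟩ := IsDiscreteValuationRing.exists_irreducible v.toValuationSubring
    obtain ⟨u, hu⟩ := v.exists_unit_mul_zpow hz hπ
    rw [hu]
    lift v.ord f to ℕ using hf with n hn
    rw [zpow_natCast]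
    exact mul_mem (u : v.toValuationSubring).2 (pow_mem π.2 n)

theorem ord_neg (v : Place K F) (f : F) : v.ord (-f) = v.ord f := by
  simp [Place.ord]

theorem mapDomain_apply_eq_sum {α β : Type*} [DecidableEq β] (f : α → β) (x : α →₀ ℤ) (b : β) :
    Finsupp.mapDomain f x b = ∑ a ∈ x.support, if f a = b then x a else 0 := by
  rw [Finsupp.mapDomain, Finsupp.sum, Finsupp.finsetSum_apply]
  refine Finset.sum_congr rfl fun a _ => ?_
  rw [Finsupp.single_apply]

end Basic

section Spec

variable {K F k Fk : Type*} [Field K] [Field F] [Algebra K F] [Field k] [Field Fk] [Algebra k Fk]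
variable (O : ValuationSubring F) (red : O →+* Fk) (sp : Place K F → Place k Fk)

/-- Conservation of number (Prelude `IsPlaceReductionAlong` shape): for a Gauss unit `y`,
`sp_*(div y) = div(red y)`. -/
def Cons : Prop :=
  ∀ y : O, red y ≠ 0 → ∀ D : Divisor K F, (∀ P, D P = P.ord (y : F)) →
    ∀ s : Place k Fk, Finsupp.mapDomain sp D s = s.ord (red y)

variable {O red sp}

theorem coe_ne_zero_of_red_ne_zero {y : O} (hy : red y ≠ 0) : (y : F) ≠ 0 := by
  intro h
  apply hy
  have : y = 0 := Subtype.ext h
  rw [this, map_zero]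

/-- (A) of #2509: regular on the class of `s` ⟹ the reduction is regular at `s`. -/
theorem Cons.ord_red_nonneg [HasPrincipalDivisors K F] (hC : Cons O red sp) {y : O}
    (hy : red y ≠ 0) (s : Place k Fk) (hreg : ∀ P, sp P = s → 0 ≤ P.ord (y : F)) :
    0 ≤ s.ord (red y) := by
  classical
  obtain ⟨D, hD, -⟩ := HasPrincipalDivisors.exists_divisor (K := K) (y : F)
    (coe_ne_zero_of_red_ne_zero hy)
  rw [← hC y hy D hD s, mapDomain_apply_eq_sum]
  refine Finset.sum_nonneg fun P _ => ?_
  split_ifs with h
  · rw [hD P]; exact hreg P h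
  · exact le_rfl

/-- Regular on the class of `s` with a zero in the class ⟹ the reduction vanishes at `s`. -/
theorem Cons.ord_red_pos [HasPrincipalDivisors K F] (hC : Cons O red sp) {y : O}
    (hy : red y ≠ 0) (s : Place k Fk) (hreg : ∀ P, sp P = s → 0 ≤ P.ord (y : F))
    (P0 : Place K F) (hP0 : sp P0 = s) (hpos : 0 < P0.ord (y : F)) :
    0 < s.ord (red y) := by
  classical
  obtain ⟨D, hD, -⟩ := HasPrincipalDivisors.exists_divisor (K := K) (y : F)
    (coe_ne_zero_of_red_ne_zero hy)
  rw [← hC y hy D hD s, mapDomain_apply_eq_sum]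
  have hmem : P0 ∈ D.support := by
    rw [Finsupp.mem_support_iff, hD P0]; omega
  have hnn : ∀ P ∈ D.support, 0 ≤ (if sp P = s then D P else 0) := fun P _ => by
    split_ifs with h
    · rw [hD P]; exact hreg P h
    · exact le_rfl
  calc (0 : ℤ) < D P0 := by rw [hD P0]; exact hpos
    _ = (if sp P0 = s then D P0 else 0) := by rw [if_pos hP0]
    _ ≤ ∑ P ∈ D.support, if sp P = s then D P else 0 :=
      Finset.single_le_sum (f := fun P => if sp P = s then D P else 0) hnn hmem

/-- `sp` is surjective on places: every place of the special fibre is the specialisation of a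
place of the generic fibre. -/
theorem Cons.sp_surjective [HasPrincipalDivisors K F] (hC : Cons O red sp)
    (hsurj : Function.Surjective red) : Function.Surjective sp := by
  classical
  intro s
  obtain ⟨π, hπ⟩ := IsDiscreteValuationRing.exists_irreducible s.toValuationSubring
  obtain ⟨y, hy⟩ := hsurj (π : Fk)
  have hπ0 : (π : Fk) ≠ 0 := by
    simpa [ne_eq, ZeroMemClass.coe_eq_zero] using hπ.ne_zero
  have hy0 : red y ≠ 0 := by rw [hy]; exact hπ0
  obtain ⟨D, hD, -⟩ := HasPrincipalDivisors.exists_divisor (K := K) (y : F)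
    (coe_ne_zero_of_red_ne_zero hy0)
  have h1 : Finsupp.mapDomain sp D s = 1 := by
    rw [hC y hy0 D hD s, hy, s.ord_coe_irreducible hπ]
  have hmem : s ∈ (Finsupp.mapDomain sp D).support := by
    rw [Finsupp.mem_support_iff, h1]; exact one_ne_zero
  obtain ⟨P, -, hP⟩ := Finset.mem_image.mp (Finsupp.mapDomain_support hmem)
  exact ⟨P, hP⟩

/-- (B) of #2509, first half: the value at a point of a function regular on its residue class
lies in the valuation ring of the constants. -/
theorem Cons.algebraMap_mem_of_ord_pos [HasPrincipalDivisors K F] (hC : Cons O red sp)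
    (hker : ∀ y : O, ¬ IsUnit y → red y = 0)
    (w : O) (s : Place k Fk) (hreg : ∀ P, sp P = s → 0 ≤ P.ord (w : F))
    (P0 : Place K F) (hP0 : sp P0 = s) (a : K)
    (ha : (w : F) - algebraMap K F a = 0 ∨ 0 < P0.ord ((w : F) - algebraMap K F a)) :
    algebraMap K F a ∈ O := by
  by_contra hna
  have ha0 : algebraMap K F a ≠ 0 := fun h => hna (h ▸ O.zero_mem)
  have hinv : (algebraMap K F a)⁻¹ ∈ O := (O.mem_or_inv_mem _).resolve_left hna
  set b : O := ⟨(algebraMap K F a)⁻¹, hinv⟩ with hb
  have hbnu : ¬ IsUnit b := by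
    rintro ⟨u, hu⟩
    apply hna
    have h1 : (b : F) * ((u⁻¹ : Oˣ) : O) = 1 := by
      have := congrArg (Subtype.val) (show b * ((u⁻¹ : Oˣ) : O) = 1 by rw [← hu]; simp)
      simpa using this
    have h2 : (((u⁻¹ : Oˣ) : O) : F) = algebraMap K F a := by
      have hb' : (b : F) = (algebraMap K F a)⁻¹ := rfl
      rw [hb'] at h1
      field_simp at h1
      exact h1
    rw [← h2]
    exact ((u⁻¹ : Oˣ) : O).2
  have hredb : red b = 0 := hker b hbnu
  set u : O := 1 - b * w with hu
  have hredu : red u = 1 := by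
    rw [hu, map_sub, map_one, map_mul, hredb, zero_mul, sub_zero]
  have hu0 : red u ≠ 0 := by rw [hredu]; exact one_ne_zero
  have hucoe : (u : F) = -(algebraMap K F a)⁻¹ * ((w : F) - algebraMap K F a) := by
    have : (u : F) = 1 - (algebraMap K F a)⁻¹ * (w : F) := rfl
    rw [this]
    field_simp
    ring
  have hreg' : ∀ P, sp P = s → 0 ≤ P.ord (u : F) := by
    intro P hP
    apply ord_nonneg_of_mem
    have h1 : (u : F) = 1 - algebraMap K F a⁻¹ * (w : F) := by
      rw [map_inv₀]; rfl
    rw [h1]
    exact sub_mem (one_mem _) (mul_mem (P.algebraMap_mem' _) (mem_of_ord_nonneg P (hreg P hP)))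
  have hpos : 0 < P0.ord (u : F) := by
    rcases ha with ha | ha
    · exfalso
      rw [ha, mul_zero] at hucoe
      exact coe_ne_zero_of_red_ne_zero hu0 hucoe
    · have hne : (w : F) - algebraMap K F a ≠ 0 := fun h => by rw [h] at ha; simp at ha
      rw [hucoe, P0.ord_mul (neg_ne_zero.mpr (inv_ne_zero ha0)) hne, ord_neg, ← map_inv₀,
        ord_algebraMap, zero_add]
      exact ha
  have := hC.ord_red_pos hu0 s hreg' P0 hP0 hpos
  rw [hredu] at this
  simp at this

/-- (B) of #2509, second half: evaluation commutes with reduction. -/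
theorem Cons.ord_red_sub_pos [HasPrincipalDivisors K F] (hC : Cons O red sp)
    (w : O) (s : Place k Fk) (hreg : ∀ P, sp P = s → 0 ≤ P.ord (w : F))
    (P0 : Place K F) (hP0 : sp P0 = s) (a : K) (ha' : algebraMap K F a ∈ O)
    (ha : (w : F) - algebraMap K F a = 0 ∨ 0 < P0.ord ((w : F) - algebraMap K F a)) :
    red (w - ⟨algebraMap K F a, ha'⟩) = 0 ∨ 0 < s.ord (red (w - ⟨algebraMap K F a, ha'⟩)) := by
  by_cases h0 : red (w - ⟨algebraMap K F a, ha'⟩) = 0
  · exact Or.inl h0
  right
  have hcoe : ((w - ⟨algebraMap K F a, ha'⟩ : O) : F) = (w : F) - algebraMap K F a := rfl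
  refine hC.ord_red_pos h0 s (fun P hP => ?_) P0 hP0 ?_
  · apply ord_nonneg_of_mem
    rw [hcoe]
    exact sub_mem (mem_of_ord_nonneg P (hreg P hP)) (P.algebraMap_mem' _)
  · rw [hcoe]
    rcases ha with ha | ha
    · exfalso
      exact coe_ne_zero_of_red_ne_zero h0 (hcoe.trans ha)
    · exact ha

/-- **(COORD)**: for a coordinate `x` regular on the residue class of `s` and unramified at `s`,
`t := x - x(R)` is regular on the class, vanishes at `R` and its reduction is a uniformiser
at `s`. -/
theorem Cons.exists_coord [HasPrincipalDivisors K F] (hC : Cons O red sp)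
    (hker : ∀ y : O, ¬ IsUnit y → red y = 0)
    (hRK : ∀ (a : K) (h : algebraMap K F a ∈ O),
      ∃ b : k, red ⟨algebraMap K F a, h⟩ = algebraMap k Fk b)
    (x : O) (hxnc : ∀ b : k, red x ≠ algebraMap k Fk b)
    (s : Place k Fk) (hreg : ∀ P, sp P = s → 0 ≤ P.ord (x : F))
    (hunr : ∀ b : k, s.ord (red x - algebraMap k Fk b) ≤ 1)
    (R : Place K F) (hR : sp R = s) (hRdeg : R.deg = 1) :
    ∃ t : O, (∀ P, sp P = s → 0 ≤ P.ord (t : F)) ∧ 0 < R.ord (t : F) ∧ s.ord (red t) = 1 := by
  obtain ⟨a, ha⟩ := exists_sub_algebraMap_ord_pos R hRdeg (mem_of_ord_nonneg R (hreg R hR))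
  have ha' : algebraMap K F a ∈ O := hC.algebraMap_mem_of_ord_pos hker x s hreg R hR a ha
  obtain ⟨b, hb⟩ := hRK a ha'
  set t : O := x - ⟨algebraMap K F a, ha'⟩ with ht
  have hcoe : (t : F) = (x : F) - algebraMap K F a := rfl
  have hredt : red t = red x - algebraMap k Fk b := by rw [ht, map_sub, hb]
  have hredt0 : red t ≠ 0 := by
    rw [hredt]; exact sub_ne_zero.mpr (hxnc b)
  have ht0 : (t : F) ≠ 0 := coe_ne_zero_of_red_ne_zero hredt0
  have hRpos : 0 < R.ord (t : F) := by
    rw [hcoe]
    rcases ha with ha | ha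
    · exact absurd (hcoe.trans ha) ht0
    · exact ha
  have hregt : ∀ P, sp P = s → 0 ≤ P.ord (t : F) := by
    intro P hP
    apply ord_nonneg_of_mem
    rw [hcoe]
    exact sub_mem (mem_of_ord_nonneg P (hreg P hP)) (P.algebraMap_mem' _)
  refine ⟨t, hregt, hRpos, le_antisymm ?_ ?_⟩
  · rw [hredt]; exact hunr b
  · have := hC.ord_red_pos hredt0 s hregt R hR hRpos
    omega

/-- **Producer of (NS) + (Q0) + (COORD)** for the abstract torsion core (#2509).

Inputs: conservation of number `Cons`; `red` surjective with kernel the non-units; constants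
reduce to constants; all places of degree one on both fibres; Riemann's theorem on the special
fibre with constant `g`; infinitely many places on the special fibre; one coordinate `x` whose
poles specialise to poles and which is unramified at every place outside a finite set `S0`.

Output: places `R i` (`i < g`) and `Q0` of the generic fibre, functions `t i ∈ O`, with
* the `sp (R i)` pairwise distinct, `sp Q0` different from all of them,
* every function in `L(∑ sp (R i))` on the special fibre is constant,
* `t i` regular on the whole residue class of `sp (R i)`, `t i (R i) = 0`, and `red (t i)` a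
  uniformiser at `sp (R i)`. -/
theorem Cons.exists_ns_data [HasPrincipalDivisors K F] [HasPrincipalDivisors k Fk]
    (hC : Cons O red sp) (hsurj : Function.Surjective red)
    (hker : ∀ y : O, ¬ IsUnit y → red y = 0)
    (hRK : ∀ (a : K) (h : algebraMap K F a ∈ O),
      ∃ b : k, red ⟨algebraMap K F a, h⟩ = algebraMap k Fk b)
    (hdegK : ∀ P : Place K F, P.deg = 1) (hdegk : ∀ s : Place k Fk, s.deg = 1)
    (g : ℕ) (c : ℤ)
    (hfd : ∀ E : Divisor k Fk, FiniteDimensional k (riemannRochSpace E))
    (hRe : ∀ E : Divisor k Fk, c ≤ Divisor.degree E →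
      (finrank k (riemannRochSpace E) : ℤ) = Divisor.degree E + 1 - g)
    (hinf : (Set.univ : Set (Place k Fk)).Infinite)
    (x : O) (hxnc : ∀ b : k, red x ≠ algebraMap k Fk b)
    (hpole : ∀ P : Place K F, P.ord (x : F) < 0 → (sp P).ord (red x) < 0)
    (S0 : Finset (Place k Fk))
    (hS0 : ∀ s : Place k Fk, s ∉ S0 →
      0 ≤ s.ord (red x) ∧ ∀ b : k, s.ord (red x - algebraMap k Fk b) ≤ 1) :
    ∃ (R : Fin g → Place K F) (Q0 : Place K F) (t : Fin g → O),
      Function.Injective (fun i => sp (R i)) ∧
      (∀ i, sp Q0 ≠ sp (R i)) ∧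
      (∀ w ∈ riemannRochSpace (∑ i, Finsupp.single (sp (R i)) (1 : ℤ)),
        ∃ a : k, w = algebraMap k Fk a) ∧
      (∀ i, ∀ P, sp P = sp (R i) → 0 ≤ P.ord ((t i : O) : F)) ∧
      (∀ i, 0 < (R i).ord ((t i : O) : F)) ∧
      (∀ i, (sp (R i)).ord (red (t i)) = 1) := by
  classical
  obtain ⟨s, hsinj, hsS, hsL⟩ := exists_nonspecial_const g c hfd hdegk hRe hinf S0
  have hspsurj := hC.sp_surjective hsurj
  choose R hR using fun i => hspsurj (s i)
  obtain ⟨s0, -, hs0⟩ := (hinf.sdiff (Set.finite_range s)).nonempty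
  obtain ⟨Q0, hQ0⟩ := hspsurj s0
  have hcoord : ∀ i, ∃ t : O, (∀ P, sp P = s i → 0 ≤ P.ord (t : F)) ∧ 0 < (R i).ord (t : F) ∧
      (s i).ord (red t) = 1 := by
    intro i
    have hreg : ∀ P, sp P = s i → 0 ≤ P.ord (x : F) := by
      intro P hP
      by_contra hneg
      have := hpole P (not_le.mp hneg)
      rw [hP] at this
      exact absurd (hS0 (s i) (hsS i)).1 (not_le.mpr this)
    exact hC.exists_coord hker hRK x hxnc (s i) hreg (hS0 (s i) (hsS i)).2 (R i) (hR i)
      (hdegK (R i))
  choose t ht1 ht2 ht3 using hcoord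
  have hRs : (fun i => sp (R i)) = s := funext hR
  refine ⟨R, Q0, t, ?_, ?_, ?_, ?_, ?_, ?_⟩
  · rw [hRs]; exact hsinj
  · intro i h
    apply hs0
    rw [← hQ0, h, hR i]
    exact Set.mem_range_self i
  · have : (∑ i, Finsupp.single (sp (R i)) (1 : ℤ)) = ∑ i, Finsupp.single (s i) (1 : ℤ) :=
      Finset.sum_congr rfl fun i _ => by rw [hR i]
    rw [this]
    exact hsL
  · intro i P hP
    exact ht1 i P (hP.trans (hR i))
  · exact ht2
  · intro i
    rw [hR i]
    exact ht3 i

/-- **Poles specialise to poles** (hypothesis `hpole` of `Cons.exists_ns_data`) from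
conservation of number and a degree inequality: if the pole divisor of `x` has degree at most
the degree of the pole divisor of `red x` (e.g. both equal `[F : K(x)] = [Fk : k(red x)]`),
then every pole of `x` specialises to a pole of `red x`.  Degrees are written as sums of pole
orders (all places have degree one in the applications). -/
theorem Cons.pole_of_pole (hC : Cons O red sp) (x : O) (hx : red x ≠ 0)
    (D : Divisor K F) (hD : ∀ P, D P = P.ord (x : F))
    (Dk : Divisor k Fk) (hDk : ∀ s, Dk s = s.ord (red x))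
    (hle : ∑ P ∈ D.support, max 0 (-D P) ≤ ∑ s ∈ Dk.support, max 0 (-Dk s)) :
    ∀ P : Place K F, P.ord (x : F) < 0 → (sp P).ord (red x) < 0 := by
  classical
  set T : Finset (Place k Fk) := D.support.image sp ∪ Dk.support with hT
  set A : Place k Fk → ℤ := fun s => ∑ P ∈ D.support, if sp P = s then max 0 (-D P) else 0
    with hA
  have hAnn : ∀ s, 0 ≤ A s := fun s => Finset.sum_nonneg fun P _ => by
    split_ifs
    · exact le_max_left _ _
    · exact le_rfl
  have hcons : ∀ s, (∑ P ∈ D.support, if sp P = s then D P else 0) = Dk s := fun s => by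
    rw [← mapDomain_apply_eq_sum, hC x hx D hD s, hDk s]
  have hAge : ∀ s, max 0 (-Dk s) ≤ A s := by
    intro s
    refine max_le (hAnn s) ?_
    have h1 : -Dk s = ∑ P ∈ D.support, if sp P = s then -D P else 0 := by
      rw [← hcons s, ← Finset.sum_neg_distrib]
      refine Finset.sum_congr rfl fun P _ => ?_
      split_ifs <;> simp
    rw [h1]
    refine Finset.sum_le_sum fun P _ => ?_
    split_ifs
    · exact le_max_right _ _
    · exact le_rfl
  have hsumA : ∑ s ∈ T, A s = ∑ P ∈ D.support, max 0 (-D P) := by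
    rw [hA, Finset.sum_comm]
    refine Finset.sum_congr rfl fun P hP => ?_
    rw [Finset.sum_ite_eq, if_pos]
    exact Finset.mem_union_left _ (Finset.mem_image_of_mem sp hP)
  have hsumB : ∑ s ∈ T, max 0 (-Dk s) = ∑ s ∈ Dk.support, max 0 (-Dk s) := by
    symm
    refine Finset.sum_subset Finset.subset_union_right fun s _ hs => ?_
    rw [Finsupp.notMem_support_iff.mp hs]
    simp
  have heq : ∑ s ∈ T, max 0 (-Dk s) = ∑ s ∈ T, A s := by
    refine le_antisymm (Finset.sum_le_sum fun s _ => hAge s) ?_
    rw [hsumA, hsumB]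
    exact hle
  have hall := (Finset.sum_eq_sum_iff_of_le (fun s _ => hAge s)).mp heq
  intro P hP
  by_contra hnn
  rw [not_lt] at hnn
  have hPs : P ∈ D.support := by
    rw [Finsupp.mem_support_iff, hD P]; omega
  have hsT : sp P ∈ T := Finset.mem_union_left _ (Finset.mem_image_of_mem sp hPs)
  have h0 : A (sp P) = 0 := by
    rw [← hall (sp P) hsT, hDk (sp P)]
    exact max_eq_left (by omega)
  have hpos : 0 < A (sp P) := by
    have hterm : ∀ Q ∈ D.support, 0 ≤ (if sp Q = sp P then max 0 (-D Q) else 0) := fun Q _ => by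
      split_ifs
      · exact le_max_left _ _
      · exact le_rfl
    calc (0 : ℤ) < max 0 (-D P) := by rw [hD P]; exact lt_max_of_lt_right (by omega)
      _ = (if sp P = sp P then max 0 (-D P) else 0) := by rw [if_pos rfl]
      _ ≤ A (sp P) :=
        Finset.single_le_sum (f := fun Q => if sp Q = sp P then max 0 (-D Q) else 0) hterm hPs
  omega

end Spec

end Fermat.Agent.S37.helper6835

end
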