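/-
S37-TOR-GLUE (helper126): the torsion clause (R3) for the kernel of a place reduction, as a pure
glue of three landed files:

* `helper126_TorsionCore`  (`isPrincipal_of_specialises_zero`, the abstract torsion core),
* `helper6835_NSData`      (`Cons.exists_ns_data`: non-special points, base point, coordinates),
* `helper5413_LatticeReduction` (`LatHyp`, `LatHyp.placeRed`, conservation of number).

Main results (all hypothesis-passing, no new mathematics):

* `isPrincipal_of_cons`: conservation law + Riemann's theorem on the special fibre with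
  constant `g` + Riemann's inequality on the generic fibre with the same `g` + one separating
  coordinate  ==>  a degree-zero divisor specialising to zero with `m • D` principal
  (`m` invertible in the residue field) is principal.
* `LatHyp.finiteDimensional_rr`, `LatHyp.placeRed_surjective`, `LatHyp.finrank_rr_eq`:
  the lattice hypotheses give Riemann's theorem (with EQUALITY in large degree) on the special
  fibre.
* `LatHyp.isPrincipal_of_placeRed_eq_zero`: the torsion clause for `sp := H.placeRed` from the
  single bundle `LatHyp` and a separating coordinate.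
-/
import Fermat.Agent.S37.helper126_TorsionCore
import Fermat.Agent.S37.helper5413_LatticeReduction
import Fermat.Agent.S37.helper6835_NSData

set_option autoImplicit false

noncomputable section

open AlgebraicCurve Module

namespace Fermat.Agent.S37.helper126

section ConsGlue

variable {K F k Fk : Type*} [Field K] [Field F] [Algebra K F] [Field k] [Field Fk] [Algebra k Fk]
variable {O : ValuationSubring F} {red : O →+* Fk} {sp : Place K F → Place k Fk}

/-- Places of degree one have residue field the constants. -/
theorem residueTrivial_of_deg_eq_one (hdeg : ∀ P : Place K F, P.deg = 1) :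
    ResidueTrivial K F := by
  intro P f hf
  obtain ⟨a, ha⟩ := helper6835.exists_sub_algebraMap_ord_pos P (hdeg P) hf
  refine ⟨a, ?_⟩
  rcases ha with ha | ha
  · rw [ha]
    exact zero_mem_nonunits' _
  · have h0 : f - algebraMap K F a ≠ 0 := by
      intro h
      rw [h, Place.ord_zero] at ha
      exact lt_irrefl _ ha
    exact (one_le_ord_iff P h0).mp (by omega)

/-- `red` kills exactly the maximal ideal as soon as it kills the non-units. -/
theorem redKer_of_nonunit (hker : ∀ y : O, ¬ IsUnit y → red y = 0) : RedKer O red := by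
  intro x
  rw [ValuationSubring.coe_mem_nonunits_iff, IsLocalRing.mem_maximalIdeal, mem_nonunits_iff]
  constructor
  · intro h hu
    exact (hu.map red).ne_zero h
  · exact hker x

theorem degree_single_one (hdeg : ∀ P : Place K F, P.deg = 1) (P : Place K F) :
    Divisor.degree (Finsupp.single P (1 : ℤ)) = 1 := by
  rw [helper5413.degree_eq_sum, Finsupp.sum_single_index (by simp), hdeg P]
  simp

theorem degree_sum_single_one (hdeg : ∀ P : Place K F, P.deg = 1) {g : ℕ}
    (R : Fin g → Place K F) :
    Divisor.degree (∑ i, Finsupp.single (R i) (1 : ℤ)) = g := by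
  rw [map_sum]
  simp [degree_single_one hdeg]

theorem degree_single (hdeg : ∀ P : Place K F, P.deg = 1) (P : Place K F) (n : ℤ) :
    Divisor.degree (Finsupp.single P n) = n := by
  rw [helper5413.degree_eq_sum, Finsupp.sum_single_index (by simp), hdeg P]
  simp

/-- **Torsion clause from explicit (NS) + (Q0) + (COORD) data** (the output shape of
`helper6835.Cons.exists_ns_data`), the conservation law and Riemann's inequality on the generic
fibre in degree `g`. -/
theorem isPrincipal_of_ns_data [HasPrincipalDivisors K F]
    (hC : helper6835.Cons O red sp)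
    (hker : ∀ y : O, ¬ IsUnit y → red y = 0)
    (hRK : ∀ (a : K) (h : algebraMap K F a ∈ O),
      ∃ b : k, red ⟨algebraMap K F a, h⟩ = algebraMap k Fk b)
    (hvg : ValueGroupConst K O)
    (hdegK : ∀ P : Place K F, P.deg = 1)
    {g : ℕ} (R : Fin g → Place K F) (Q0 : Place K F) (t : Fin g → O)
    (hinj : Function.Injective (fun i => sp (R i)))
    (hQ0 : ∀ i, sp Q0 ≠ sp (R i))
    (hNS : ∀ w ∈ riemannRochSpace (∑ i, Finsupp.single (sp (R i)) (1 : ℤ)),
        ∃ a : k, w = algebraMap k Fk a)
    (htreg : ∀ i, ∀ P, sp P = sp (R i) → 0 ≤ P.ord ((t i : O) : F))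
    (htzero : ∀ i, 0 < (R i).ord ((t i : O) : F))
    (htord : ∀ i, (sp (R i)).ord (red (t i)) = 1)
    (hRR : ∀ E : Divisor K F, Divisor.degree E = g →
      ∃ h : F, h ≠ 0 ∧ ∀ P, 0 ≤ P.ord h + E P)
    (m : ℕ) (hm : (m : Fk) ≠ 0) (D : Divisor K F) (hdeg : Divisor.degree D = 0)
    (hsp : Finsupp.mapDomain sp D = 0) (hmD : (m • D).IsPrincipal) : D.IsPrincipal := by
  classical
  have hcons : Conservation O red sp := hC
  refine isPrincipal_of_specialises_zero (redKer_of_nonunit hker)
    (fun a ha => ?_) hvg hcons (residueTrivial_of_deg_eq_one hdegK) R hinj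
    (fun i => ((t i : O) : F)) Q0 hQ0 (fun i => (t i).2)
    (fun i P hP => mem_of_ord_nonneg P (htreg i P hP)) (fun i => ?_) (fun i => ?_) ?_ ?_
    m hm D hdeg hsp hmD
  · obtain ⟨b, hb⟩ := hRK a ha
    exact ⟨b, hb.symm⟩
  · have h0 : ((t i : O) : F) ≠ 0 := by
      intro h
      have := htzero i
      rw [h, Place.ord_zero] at this
      exact lt_irrefl _ this
    exact (one_le_ord_iff (R i) h0).mp (by have := htzero i; omega)
  · rw [rd_of_mem O red (t i).2]
    exact htord i
  · intro w _ hoff hon
    obtain ⟨a, ha⟩ := hNS w (by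
      rw [helper5413.mem_rr_iff]
      right
      intro s
      by_cases hs : ∃ i, s = sp (R i)
      · obtain ⟨i, rfl⟩ := hs
        rw [sum_single_apply_self (fun i => sp (R i)) hinj i]
        exact hon i
      · push Not at hs
        rw [sum_single_apply_of_ne (fun i => sp (R i)) s (fun j h => hs j h.symm)]
        simpa using hoff s hs)
    exact ⟨a, ha.symm⟩
  · intro D' hD'
    obtain ⟨h, hh0, hh⟩ := hRR (D' + ∑ i, Finsupp.single (R i) (1 : ℤ)) (by
      rw [map_add, hD', degree_sum_single_one hdegK, zero_add])
    refine ⟨h, hh0, fun P => ?_⟩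
    have := hh P
    rw [Finsupp.add_apply] at this
    omega

/-- **Torsion clause from the conservation law.**  Hypotheses: conservation of number for
`(O, red, sp)`; `red` onto with kernel the non-units; constants reduce to constants; value group
of `O` generated by constants; all places of degree one on both fibres; Riemann's theorem on the
special fibre with constant `g`; Riemann's inequality on the generic fibre in degree `g`;
infinitely many places on the special fibre; one coordinate `x` whose poles specialise to poles
and which is unramified outside a finite set.  Conclusion: a degree-zero divisor `D` with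
`sp_* D = 0` and `m • D` principal, `m` a unit of the residue field, is principal. -/
theorem isPrincipal_of_cons [HasPrincipalDivisors K F] [HasPrincipalDivisors k Fk]
    (hC : helper6835.Cons O red sp) (hsurj : Function.Surjective red)
    (hker : ∀ y : O, ¬ IsUnit y → red y = 0)
    (hRK : ∀ (a : K) (h : algebraMap K F a ∈ O),
      ∃ b : k, red ⟨algebraMap K F a, h⟩ = algebraMap k Fk b)
    (hvg : ValueGroupConst K O)
    (hdegK : ∀ P : Place K F, P.deg = 1) (hdegk : ∀ s : Place k Fk, s.deg = 1)
    (g : ℕ) (c : ℤ)
    (hfd : ∀ E : Divisor k Fk, FiniteDimensional k (riemannRochSpace E))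
    (hRe : ∀ E : Divisor k Fk, c ≤ Divisor.degree E →
      (finrank k (riemannRochSpace E) : ℤ) = Divisor.degree E + 1 - g)
    (hinf : (Set.univ : Set (Place k Fk)).Infinite)
    (x : O) (hxnc : ∀ b : k, red x ≠ algebraMap k Fk b)
    (hpole : ∀ P : Place K F, P.ord (x : F) < 0 → (sp P).ord (red x) < 0)
    (S0 : Finset (Place k Fk))
    (hS0 : ∀ s : Place k Fk, s ∉ S0 →
      0 ≤ s.ord (red x) ∧ ∀ b : k, s.ord (red x - algebraMap k Fk b) ≤ 1)
    (hRR : ∀ E : Divisor K F, Divisor.degree E = g →
      ∃ h : F, h ≠ 0 ∧ ∀ P, 0 ≤ P.ord h + E P)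
    (m : ℕ) (hm : (m : Fk) ≠ 0) (D : Divisor K F) (hdeg : Divisor.degree D = 0)
    (hsp : Finsupp.mapDomain sp D = 0) (hmD : (m • D).IsPrincipal) : D.IsPrincipal := by
  obtain ⟨R, Q0, t, hinj, hQ0, hNS, htreg, htzero, htord⟩ :=
    hC.exists_ns_data hsurj hker hRK hdegK hdegk g c hfd hRe hinf x hxnc hpole S0 hS0
  exact isPrincipal_of_ns_data hC hker hRK hvg hdegK R Q0 t hinj hQ0 hNS htreg htzero htord hRR
    m hm D hdeg hsp hmD

end ConsGlue

section LatGlue

variable {L F k Fk : Type*} [Field L] [Field F] [Algebra L F] [Field k] [Field Fk] [Algebra k Fk]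
variable {O : ValuationSubring F} {red : O →+* Fk} {g c : ℤ}
  {E₀ : Divisor L F} {E₀k : Divisor k Fk}

namespace LatHypGlue

open helper5413

variable (H : LatHyp O red g c E₀ E₀k)
include H

/-- The lattice hypotheses contain the conservation law for `H.placeRed`. -/
theorem cons : helper6835.Cons O red H.placeRed :=
  fun _ hy _ hD s => H.mapDomain_placeRed_div hy hD s

/-- Riemann-Roch spaces of the special fibre are finite-dimensional (from the trivial bound
in `LatHyp.rk`). -/
theorem finiteDimensional_rr (E : Divisor k Fk) :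
    FiniteDimensional k (riemannRochSpace E) := by
  classical
  have hbound : Module.rank k (riemannRochSpace E)
      ≤ ((max 0 (Divisor.degree E + 1)).toNat : ℕ) := by
    apply _root_.rank_le
    intro s hs
    have hs' : LinearIndependent k
        (fun i : Fin s.card => ((s.equivFin.symm i : riemannRochSpace E) : Fk)) := by
      have h1 := hs.comp s.equivFin.symm s.equivFin.symm.injective
      exact h1.map' (riemannRochSpace E).subtype (Submodule.ker_subtype _)
    have := (H.rk E s.card _ hs' (fun i => (s.equivFin.symm i : riemannRochSpace E).2)).1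
    omega
  exact Module.rank_lt_aleph0_iff.mp (lt_of_le_of_lt hbound (Cardinal.natCast_lt_aleph0))

/-- Upper half of Riemann's theorem on the special fibre. -/
theorem finrank_rr_le (E : Divisor k Fk) (hE : c ≤ Divisor.degree E) :
    (finrank k (riemannRochSpace E) : ℤ) ≤ Divisor.degree E + 1 - g := by
  classical
  have := finiteDimensional_rr H E
  set n := finrank k (riemannRochSpace E) with hn
  have b := Module.finBasis k (riemannRochSpace E)
  have hli : LinearIndependent k (fun i : Fin n => ((b i : riemannRochSpace E) : Fk)) :=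
    b.linearIndependent.map' (riemannRochSpace E).subtype (Submodule.ker_subtype _)
  exact (H.rk E n _ hli (fun i => (b i).2)).2 hE

/-- The place reduction is onto as soon as `red` is. -/
theorem placeRed_surjective [HasPrincipalDivisors L F] (hsurj : Function.Surjective red) :
    Function.Surjective H.placeRed :=
  (cons H).sp_surjective hsurj

/-- Every divisor of the special fibre is the image of a divisor of the generic fibre of the
same degree. -/
theorem exists_mapDomain_eq [HasPrincipalDivisors L F] (hsurj : Function.Surjective red)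
    (E : Divisor k Fk) :
    ∃ E' : Divisor L F, Finsupp.mapDomain H.placeRed E' = E ∧
      Divisor.degree E' = Divisor.degree E := by
  classical
  have hs := placeRed_surjective H hsurj
  refine ⟨Finsupp.mapDomain (Function.surjInv hs) E, ?_, ?_⟩
  · rw [← Finsupp.mapDomain_comp]
    have : H.placeRed ∘ Function.surjInv hs = id := funext (Function.surjInv_eq hs)
    rw [this, Finsupp.mapDomain_id]
  · rw [degree_eq_sum, degree_eq_sum,
      Finsupp.sum_mapDomain_index (by simp) (by intros; ring)]
    refine Finsupp.sum_congr fun Q _ => ?_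
    rw [H.degL, H.degk]

/-- **Riemann's theorem on the special fibre, with equality in large degree**, from the
lattice hypotheses and surjectivity of `red`. -/
theorem finrank_rr_eq [HasPrincipalDivisors L F] (hsurj : Function.Surjective red)
    (E : Divisor k Fk) (hE : max c (LatHyp.thr g c) ≤ Divisor.degree E) :
    (finrank k (riemannRochSpace E) : ℤ) = Divisor.degree E + 1 - g := by
  classical
  have := finiteDimensional_rr H E
  refine le_antisymm (finrank_rr_le H E ((le_max_left _ _).trans hE)) ?_
  obtain ⟨E', hE', hdeg'⟩ := exists_mapDomain_eq H hsurj E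
  have hthr : LatHyp.thr g c ≤ Divisor.degree E' := by rw [hdeg']; exact (le_max_right _ _).trans hE
  have hgE' : g ≤ Divisor.degree E' := LatHyp.g_le_thr.trans hthr
  set n : ℕ := (Divisor.degree E' + 1 - g).toNat with hn
  obtain ⟨u, hu, hli⟩ := H.lat E' n (by rw [hn]; omega)
  have hmem : ∀ i, red (u i) ∈ riemannRochSpace E := by
    intro i
    have := H.red_mem_rr_rho hgE' (hu i) (hli.ne_zero i)
    rwa [H.rho_eq_mapDomain hthr, hE'] at this
  have hli' : LinearIndependent k
      (fun i : Fin n => (⟨red (u i), hmem i⟩ : riemannRochSpace E)) := by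
    apply LinearIndependent.of_comp (riemannRochSpace E).subtype
    exact hli
  have := hli'.fintype_card_le_finrank
  rw [Fintype.card_fin] at this
  rw [← hdeg']
  have h2 : (n : ℤ) = Divisor.degree E' + 1 - g := by rw [hn]; omega
  omega

/-- The place reduction preserves degrees of divisors. -/
theorem degree_mapDomain_placeRed (E : Divisor L F) :
    Divisor.degree (Finsupp.mapDomain H.placeRed E) = Divisor.degree E := by
  classical
  rw [degree_eq_sum, degree_eq_sum, Finsupp.sum_mapDomain_index (by simp) (by intros; ring)]
  refine Finsupp.sum_congr fun Q _ => ?_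
  rw [H.degL, H.degk]

/-- **Reduction is onto Riemann-Roch spaces in large degree**: every element of
`L_k(sp_* E)` is the reduction of a Gauss-integral element of `L(E)`, provided the constants of
`O` surject onto `k`. -/
theorem exists_lift_rr [HasPrincipalDivisors L F] (hsurj : Function.Surjective red)
    (hksurj : ∀ b : k, ∃ (a : L) (h : algebraMap L F a ∈ O),
      red ⟨algebraMap L F a, h⟩ = algebraMap k Fk b)
    (E : Divisor L F) (hE : max c (LatHyp.thr g c) ≤ Divisor.degree E) {y : Fk}
    (hy : y ∈ riemannRochSpace (Finsupp.mapDomain H.placeRed E)) :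
    ∃ u : O, (u : F) ∈ riemannRochSpace E ∧ red u = y := by
  classical
  set Ek := Finsupp.mapDomain H.placeRed E with hEk
  have hdegk : Divisor.degree Ek = Divisor.degree E := degree_mapDomain_placeRed H E
  have hfin := finiteDimensional_rr H Ek
  have hthr : LatHyp.thr g c ≤ Divisor.degree E := (le_max_right _ _).trans hE
  have hgE : g ≤ Divisor.degree E := LatHyp.g_le_thr.trans hthr
  have hfr := finrank_rr_eq H hsurj Ek (by rw [hdegk]; exact hE)
  set n : ℕ := (Divisor.degree E + 1 - g).toNat with hn
  obtain ⟨u, hu, hli⟩ := H.lat E n (by rw [hn]; omega)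
  have hmem : ∀ i, red (u i) ∈ riemannRochSpace Ek := by
    intro i
    have := H.red_mem_rr_rho hgE (hu i) (hli.ne_zero i)
    rwa [H.rho_eq_mapDomain hthr] at this
  set v : Fin n → riemannRochSpace Ek := fun i => ⟨red (u i), hmem i⟩ with hv
  have hli' : LinearIndependent k v := by
    apply LinearIndependent.of_comp (riemannRochSpace Ek).subtype
    exact hli
  have hcard : Fintype.card (Fin n) = finrank k (riemannRochSpace Ek) := by
    rw [Fintype.card_fin]
    have h2 : (n : ℤ) = Divisor.degree E + 1 - g := by rw [hn]; omega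
    omega
  have hspan := hli'.span_eq_top_of_card_eq_finrank' hcard
  have hy' : (⟨y, hy⟩ : riemannRochSpace Ek) ∈ Submodule.span k (Set.range v) := by
    rw [hspan]; exact Submodule.mem_top
  obtain ⟨b, hb⟩ := (Submodule.mem_span_range_iff_exists_fun k).mp hy'
  choose a ha hred using hksurj
  refine ⟨∑ i, (⟨algebraMap L F (a (b i)), ha (b i)⟩ : O) * u i, ?_, ?_⟩
  · have hcoe : ((∑ i, (⟨algebraMap L F (a (b i)), ha (b i)⟩ : O) * u i : O) : F)
        = ∑ i, a (b i) • ((u i : O) : F) := by
      rw [← O.subtype_apply, map_sum]
      refine Finset.sum_congr rfl fun i _ => ?_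
      rw [map_mul, Algebra.smul_def]
      rfl
    rw [hcoe]
    exact Submodule.sum_mem _ fun i _ => Submodule.smul_mem _ _ (hu i)
  · have h1 := congrArg (fun z : riemannRochSpace Ek => (z : Fk)) hb
    simp only [Submodule.coe_sum, Submodule.coe_smul, hv] at h1
    rw [map_sum, ← h1]
    refine Finset.sum_congr rfl fun i _ => ?_
    rw [map_mul, hred, Algebra.smul_def]

/-- On the special fibre: for two distinct places `s ≠ q` and `n` large there is a function
with poles only at `q` (of order at most `n`) and a simple zero at `s`. -/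
theorem exists_simple_zero [HasPrincipalDivisors L F] (hsurj : Function.Surjective red)
    (s q : Place k Fk) (hsq : s ≠ q) (n : ℤ) (hn : max c (LatHyp.thr g c) + 2 ≤ n) :
    ∃ y ∈ riemannRochSpace (Finsupp.single q n : Divisor k Fk), s.ord y = 1 := by
  classical
  set E1 : Divisor k Fk := Finsupp.single q n - Finsupp.single s 1 with hE1
  set E2 : Divisor k Fk := Finsupp.single q n - Finsupp.single s 2 with hE2
  have hd1 : Divisor.degree E1 = n - 1 := by
    rw [hE1, map_sub, degree_single H.degk, degree_single H.degk]
  have hd2 : Divisor.degree E2 = n - 2 := by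
    rw [hE2, map_sub, degree_single H.degk, degree_single H.degk]
  have h1 := finrank_rr_eq H hsurj E1 (by rw [hd1]; omega)
  have h2 := finrank_rr_eq H hsurj E2 (by rw [hd2]; omega)
  have hfin1 := finiteDimensional_rr H E1
  have hfin2 := finiteDimensional_rr H E2
  have hnot : ¬ (riemannRochSpace E1 ≤ riemannRochSpace E2) := by
    intro hle
    have := Submodule.finrank_mono hle
    omega
  obtain ⟨y, hy1, hy2⟩ := SetLike.not_le_iff_exists.mp hnot
  have hy0 : y ≠ 0 := fun h => hy2 (h ▸ zero_mem _)
  have hord := (mem_rr_iff.mp hy1).resolve_left hy0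
  have hqs : q ≠ s := fun h => hsq h.symm
  refine ⟨y, ?_, ?_⟩
  · rw [mem_rr_iff]
    right
    intro v
    have := hord v
    rw [hE1, Finsupp.sub_apply] at this
    have hnn : (0 : ℤ) ≤ (Finsupp.single s (1 : ℤ)) v := by
      rw [Finsupp.single_apply]; split_ifs <;> simp
    omega
  · have hs1 := hord s
    rw [hE1, Finsupp.sub_apply, Finsupp.single_apply, if_neg hqs, Finsupp.single_apply,
      if_pos rfl] at hs1
    by_contra hne
    apply hy2
    rw [mem_rr_iff]
    right
    intro v
    by_cases hv : v = s
    · subst hv
      rw [hE2, Finsupp.sub_apply, Finsupp.single_apply, if_neg hqs, Finsupp.single_apply,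
        if_pos rfl]
      omega
    · have := hord v
      rw [hE1, Finsupp.sub_apply, Finsupp.single_apply (a := s), if_neg (Ne.symm hv)] at this
      rw [hE2, Finsupp.sub_apply, Finsupp.single_apply (a := s), if_neg (Ne.symm hv)]
      exact this

/-- **(COORD) from the lattice hypotheses alone** (no separating coordinate needed): for places
`R`, `Q` of the generic fibre with distinct reductions there is `t ∈ O`, regular on the whole
residue class of `R`, vanishing at `R`, whose reduction is a uniformiser at the reduction of
`R`. -/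
theorem exists_coord [HasPrincipalDivisors L F] [HasPrincipalDivisors k Fk]
    (hsurj : Function.Surjective red)
    (hRK : ∀ (a : L) (h : algebraMap L F a ∈ O),
      ∃ b : k, red ⟨algebraMap L F a, h⟩ = algebraMap k Fk b)
    (hksurj : ∀ b : k, ∃ (a : L) (h : algebraMap L F a ∈ O),
      red ⟨algebraMap L F a, h⟩ = algebraMap k Fk b)
    (R Q : Place L F) (hRQ : H.placeRed R ≠ H.placeRed Q) :
    ∃ t : O, (∀ P, H.placeRed P = H.placeRed R → 0 ≤ P.ord (t : F)) ∧ 0 < R.ord (t : F) ∧
      (H.placeRed R).ord (red t) = 1 := by
  classical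
  set n : ℤ := max c (LatHyp.thr g c) + 2 with hn
  obtain ⟨yb, hyb, hord⟩ := exists_simple_zero H hsurj (H.placeRed R) (H.placeRed Q) hRQ n le_rfl
  have hmap : Finsupp.mapDomain H.placeRed (Finsupp.single Q n : Divisor L F)
      = Finsupp.single (H.placeRed Q) n := Finsupp.mapDomain_single
  obtain ⟨y, hyE, hyred⟩ := exists_lift_rr H hsurj hksurj (Finsupp.single Q n)
    (by rw [degree_single H.degL]; omega) (y := yb) (by rw [hmap]; exact hyb)
  have hyb0 : yb ≠ 0 := by
    rintro rfl
    rw [Place.ord_zero] at hord
    omega
  have hy0 : (y : F) ≠ 0 := LatHyp.coe_ne_zero_of_red_ne_zero (by rw [hyred]; exact hyb0)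
  have hreg : ∀ P, H.placeRed P = H.placeRed R → 0 ≤ P.ord (y : F) := by
    intro P hP
    have := (mem_rr_iff.mp hyE).resolve_left hy0 P
    have hPQ : Q ≠ P := by
      rintro rfl
      exact hRQ hP.symm
    rw [Finsupp.single_apply, if_neg hPQ] at this
    omega
  have hmem1 : yb ∈ (H.placeRed R).toValuationSubring.nonunits :=
    (one_le_ord_iff _ hyb0).mp (by omega)
  refine (cons H).exists_coord H.red_nonunit hRK y (fun b hb => ?_) (H.placeRed R) hreg
    (fun b => ?_) R rfl (H.degL R)
  · rw [hyred] at hb
    rw [hb, helper126.ord_algebraMap] at hord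
    omega
  · rw [hyred]
    by_contra hlt
    push Not at hlt
    have hz : yb - algebraMap k Fk b ≠ 0 := by
      intro h
      rw [h, Place.ord_zero] at hlt
      omega
    have hmem2 : yb - algebraMap k Fk b ∈ (H.placeRed R).toValuationSubring.nonunits :=
      (one_le_ord_iff _ hz).mp (by omega)
    have hb : algebraMap k Fk b ∈ (H.placeRed R).toValuationSubring.nonunits := by
      have := sub_mem_nonunits _ hmem1 hmem2
      rwa [sub_sub_cancel] at this
    have hb0 : b = 0 := const_eq_zero_of_mem_nonunits _ b hb
    rw [hb0, map_zero, sub_zero] at hlt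
    omega


/-- The generic fibre has a place (the anchor divisor has positive degree). -/
theorem exists_place_generic : ∃ P : Place L F, P ∈ E₀.support := by
  by_contra hne
  push Not at hne
  have h0 : E₀ = 0 := by
    ext P
    simpa using Finsupp.notMem_support_iff.mp (hne P)
  have := H.E₀_pos
  rw [h0, map_zero] at this
  exact lt_irrefl _ this

/-- **Constants reduce to constants** — a consequence of the lattice bundle (conservation law
for the unit `a`, and `L_k(0) = k`). -/
theorem redConst [HasPrincipalDivisors k Fk] (a : L) (h : algebraMap L F a ∈ O) :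
    ∃ b : k, red ⟨algebraMap L F a, h⟩ = algebraMap k Fk b := by
  classical
  by_cases h0 : red ⟨algebraMap L F a, h⟩ = 0
  · exact ⟨0, by rw [h0, map_zero]⟩
  obtain ⟨P0, -⟩ := exists_place_generic H
  refine helper6835.exists_algebraMap_eq_of_mem_rrSpace_zero H.degk (H.placeRed P0) ?_
  rw [mem_rr_iff]
  right
  intro s
  have := cons H ⟨algebraMap L F a, h⟩ h0 0
    (fun P => by rw [Finsupp.zero_apply]; exact (helper126.ord_algebraMap P a).symm) s
  rw [Finsupp.mapDomain_zero, Finsupp.zero_apply] at this
  rw [← this, Finsupp.zero_apply]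
  simp

/-- **The special fibre has infinitely many places** when the residue constant field is
infinite (there is a non-constant reduction in `L(m E₀)` for `m` large). -/
theorem infinite_places [HasPrincipalDivisors k Fk] [Infinite k] :
    (Set.univ : Set (Place k Fk)).Infinite := by
  classical
  obtain ⟨P0, -⟩ := exists_place_generic H
  set m : ℕ := (g + 1).toNat with hm
  have hdeg := H.degree_nsmul_E₀_ge m
  obtain ⟨u, -, hli⟩ := H.lat (m • E₀) 2 (by push_cast; omega)
  have hex : ∃ i : Fin 2, ∀ b : k, red (u i) ≠ algebraMap k Fk b := by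
    by_contra hcon
    push Not at hcon
    obtain ⟨b0, hb0⟩ := hcon 0
    obtain ⟨b1, hb1⟩ := hcon 1
    have hne0 : b0 ≠ 0 := by
      rintro rfl
      exact hli.ne_zero 0 (by rw [hb0, map_zero])
    have hdep := Fintype.linearIndependent_iff.mp hli ![b1, -b0] (by
      rw [Fin.sum_univ_two]
      simp only [Matrix.cons_val_zero, Matrix.cons_val_one, hb0, hb1, Algebra.smul_def, map_neg]
      ring) 1
    have hdep' : -b0 = 0 := by simpa using hdep
    exact hne0 (neg_eq_zero.mp hdep')
  obtain ⟨i, hi⟩ := hex
  exact helper6835.infinite_places_of_not_const H.degk (H.placeRed P0) (red (u i)) hi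


end LatHypGlue

open helper5413 in
/-- **Torsion clause (R3) for the kernel of the lattice place reduction**, from the single
hypothesis bundle `LatHyp` (with a natural-number `g`) and one separating coordinate.

`H.placeRed` is the place reduction of `helper5413`; the conclusion is the clause (D3)/(K3) of
the top assemblies for `Wd := {D | deg D = 0 ∧ mapDomain H.placeRed D = 0}`. -/
theorem isPrincipal_of_placeRed_eq_zero [HasPrincipalDivisors L F] [HasPrincipalDivisors k Fk]
    {g : ℕ} (H : LatHyp O red (g : ℤ) c E₀ E₀k)
    (hsurj : Function.Surjective red)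
    (hRK : ∀ (a : L) (h : algebraMap L F a ∈ O),
      ∃ b : k, red ⟨algebraMap L F a, h⟩ = algebraMap k Fk b)
    (hvg : ValueGroupConst L O)
    (hinf : (Set.univ : Set (Place k Fk)).Infinite)
    (x : O) (hxnc : ∀ b : k, red x ≠ algebraMap k Fk b)
    (hpole : ∀ P : Place L F, P.ord (x : F) < 0 → (H.placeRed P).ord (red x) < 0)
    (S0 : Finset (Place k Fk))
    (hS0 : ∀ s : Place k Fk, s ∉ S0 →
      0 ≤ s.ord (red x) ∧ ∀ b : k, s.ord (red x - algebraMap k Fk b) ≤ 1)
    (m : ℕ) (hm : (m : Fk) ≠ 0) (D : Divisor L F) (hdeg : Divisor.degree D = 0)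
    (hsp : Finsupp.mapDomain H.placeRed D = 0) (hmD : (m • D).IsPrincipal) :
    D.IsPrincipal := by
  refine isPrincipal_of_cons (LatHypGlue.cons H) hsurj H.red_nonunit hRK hvg H.degL H.degk g
    (max c (LatHyp.thr (g : ℤ) c)) (LatHypGlue.finiteDimensional_rr H)
    (fun E hE => LatHypGlue.finrank_rr_eq H hsurj E hE) hinf x hxnc hpole S0 hS0 ?_
    m hm D hdeg hsp hmD
  intro E hE
  obtain ⟨u, hu, hli⟩ := H.lat E 1 (by rw [hE]; simp)
  have h0 : ((u 0 : O) : F) ≠ 0 := LatHyp.coe_ne_zero_of_red_ne_zero (hli.ne_zero 0)
  refine ⟨(u 0 : O), h0, fun P => ?_⟩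
  have := (mem_rr_iff.mp (hu 0)).resolve_left h0 P
  omega

open helper5413 in
/-- **Torsion clause (R3) for the kernel of the lattice place reduction, from the lattice
bundle ALONE** (no separating coordinate, no ramification statement).

Hypotheses beyond `LatHyp` (with a natural-number `g`): `red` is onto, constants reduce to
constants and onto the constants, the value group of `O` is that of the constants, and the
special fibre has infinitely many places.  Conclusion: the clause (D3)/(K3) of the top
assemblies for `Wd := {D | deg D = 0 ∧ mapDomain H.placeRed D = 0}`. -/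
theorem isPrincipal_of_latHyp [HasPrincipalDivisors L F] [HasPrincipalDivisors k Fk]
    {g : ℕ} (H : LatHyp O red (g : ℤ) c E₀ E₀k)
    (hsurj : Function.Surjective red)
    (hRK : ∀ (a : L) (h : algebraMap L F a ∈ O),
      ∃ b : k, red ⟨algebraMap L F a, h⟩ = algebraMap k Fk b)
    (hksurj : ∀ b : k, ∃ (a : L) (h : algebraMap L F a ∈ O),
      red ⟨algebraMap L F a, h⟩ = algebraMap k Fk b)
    (hvg : ValueGroupConst L O)
    (hinf : (Set.univ : Set (Place k Fk)).Infinite)
    (m : ℕ) (hm : (m : Fk) ≠ 0) (D : Divisor L F) (hdeg : Divisor.degree D = 0)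
    (hsp : Finsupp.mapDomain H.placeRed D = 0) (hmD : (m • D).IsPrincipal) :
    D.IsPrincipal := by
  classical
  obtain ⟨s, hsinj, -, hsL⟩ := helper6835.exists_nonspecial_const g
    (max c (LatHyp.thr (g : ℤ) c)) (LatHypGlue.finiteDimensional_rr H) H.degk
    (fun E hE => LatHypGlue.finrank_rr_eq H hsurj E hE) hinf ∅
  have hspsurj := LatHypGlue.placeRed_surjective H hsurj
  choose R hR using fun i => hspsurj (s i)
  obtain ⟨s0, -, hs0⟩ := (hinf.sdiff (Set.finite_range s)).nonempty
  obtain ⟨Q0, hQ0⟩ := hspsurj s0
  have hRQ : ∀ i, H.placeRed (R i) ≠ H.placeRed Q0 := by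
    intro i h
    apply hs0
    rw [← hQ0, ← h, hR i]
    exact Set.mem_range_self i
  choose t ht1 ht2 ht3 using fun i =>
    LatHypGlue.exists_coord H hsurj hRK hksurj (R i) Q0 (hRQ i)
  have hRs : (fun i => H.placeRed (R i)) = s := funext hR
  refine isPrincipal_of_ns_data (LatHypGlue.cons H) H.red_nonunit hRK hvg H.degL R Q0 t
    (by rw [hRs]; exact hsinj) (fun i h => hRQ i h.symm) ?_ ht1 ht2 ht3 ?_ m hm D hdeg hsp hmD
  · have : (∑ i, Finsupp.single (H.placeRed (R i)) (1 : ℤ)) = ∑ i, Finsupp.single (s i) (1 : ℤ) :=
      Finset.sum_congr rfl fun i _ => by rw [hR i]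
    rw [this]
    exact hsL
  · intro E hE
    obtain ⟨u, hu, hli⟩ := H.lat E 1 (by rw [hE]; simp)
    have h0 : ((u 0 : O) : F) ≠ 0 := LatHyp.coe_ne_zero_of_red_ne_zero (hli.ne_zero 0)
    refine ⟨(u 0 : O), h0, fun P => ?_⟩
    have := (mem_rr_iff.mp (hu 0)).resolve_left h0 P
    omega


/-- The value-group hypothesis of `helper126.isPrincipal_of_latHyp` from the valuation form used
by the S18 track-A suppliers (`hVG` of `kummer_ff` / `helper3441.latHyp_of_supply`). -/
theorem valueGroupConst_of_valuation
    (hVG : ∀ f : F, f ≠ 0 → ∃ c : L, O.valuation (algebraMap L F c) = O.valuation f) :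
    ValueGroupConst L O := by
  intro f hf
  obtain ⟨c, hc⟩ := hVG f hf
  have hc0 : c ≠ 0 := by
    rintro rfl
    rw [map_zero, map_zero] at hc
    exact hf ((map_eq_zero _).mp hc.symm)
  have hcF : algebraMap L F c ≠ 0 := by simpa using hc0
  have hval : O.valuation (f * (algebraMap L F c)⁻¹) = 1 := by
    rw [map_mul, map_inv₀, hc]
    exact mul_inv_cancel₀ ((map_ne_zero _).mpr hf)
  refine ⟨c, hc0, ?_, ?_⟩
  · exact (O.valuation_le_one_iff _).mp hval.le
  · apply (O.valuation_le_one_iff _).mp
    rw [map_inv₀, hval, inv_one]

open helper5413 in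
/-- **Torsion clause (R3) of the lattice track, minimal hypotheses.**  Beyond the bundle
`LatHyp` (natural-number `g`): `red` is onto, the constants of `O` surject onto `k`, the value
group of `O` is that of the constants, and `k` is infinite.  (`hRK` and `hinf` of
`isPrincipal_of_latHyp` are derived from the bundle.)  With `H := helper3441.latHyp_of_supply …`
every hypothesis except `hsurj` is one of the S18 track-A supplier hypotheses. -/
theorem isPrincipal_of_latHyp' [HasPrincipalDivisors L F] [HasPrincipalDivisors k Fk]
    [Infinite k] {g : ℕ} (H : LatHyp O red (g : ℤ) c E₀ E₀k)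
    (hsurj : Function.Surjective red)
    (hksurj : ∀ b : k, ∃ (a : L) (h : algebraMap L F a ∈ O),
      red ⟨algebraMap L F a, h⟩ = algebraMap k Fk b)
    (hVG : ∀ f : F, f ≠ 0 → ∃ c : L, O.valuation (algebraMap L F c) = O.valuation f)
    (m : ℕ) (hm : (m : Fk) ≠ 0) (D : Divisor L F) (hdeg : Divisor.degree D = 0)
    (hsp : Finsupp.mapDomain H.placeRed D = 0) (hmD : (m • D).IsPrincipal) :
    D.IsPrincipal :=
  isPrincipal_of_latHyp H hsurj (LatHypGlue.redConst H) hksurj
    (valueGroupConst_of_valuation hVG) (LatHypGlue.infinite_places H) m hm D hdeg hsp hmD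


end LatGlue

end Fermat.Agent.S37.helper126

end
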