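/-
S37-LATSUP (helper3441, board #1659): PRODUCER of node (L) of the S37 lattice track.

`helper5413.LatHyp O red γ cK Xinf Yinf` is derived from EXACTLY the supplier hypotheses of the
landed S18 track-A closing theorem `Fermat.Agent.S18.helper2030.kummer_ff`
(`hVG`, `hred`, `hredk_surj`; `Xinf`, `Yinf` of equal degree `d > 0`; `hRC`; `hcart` for all
divisors; `hRiemF` for all divisors; `hfink` and `hRiemk` for all divisors, with ONE `γ`),
together with the place basics of both fibres (`HasPrincipalDivisors`, all places of degree one).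

Consequence: the S37 lattice track needs no modular instantiation of its own; whatever
S18 track A supplies at the auxiliary level discharges (L), hence yields the place reduction
`r` with `r_*(div f) = div (red f)` of `helper5413`.
-/
import Mathlib
import Fermat.Prelude.Def_AlgebraicCurve_Repartitions
import Fermat.Agent.S37.helper5413_LatticeReduction
import Fermat.Agent.S18.helper981_Riemann

set_option autoImplicit false

noncomputable section

open AlgebraicCurve

namespace Fermat.Agent.S37.helper3441

variable {L F k Fk : Type*} [Field L] [Field F] [Algebra L F] [Field k] [Field Fk] [Algebra k Fk]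

section Ortho

variable (O : ValuationSubring F)

/-- Members of an orthonormal family are integral. -/
theorem orth_mem {r : ℕ} {e : Fin r → F}
    (he_orth : ∀ c : Fin r → L, (∑ i, c i • e i ∈ O ↔ ∀ i, algebraMap L F (c i) ∈ O))
    (i : Fin r) : e i ∈ O := by
  classical
  have h := (he_orth (Pi.single i 1)).mpr (fun j => by
    by_cases hj : j = i
    · subst hj; rw [Pi.single_eq_same, map_one]; exact O.one_mem
    · rw [Pi.single_eq_of_ne hj, map_zero]; exact O.zero_mem)
  have h2 : ∑ j, (Pi.single i (1 : L) : Fin r → L) j • e j = e i := by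
    rw [Finset.sum_eq_single i]
    · rw [Pi.single_eq_same, one_smul]
    · intro j _ hj
      rw [Pi.single_eq_of_ne hj, zero_smul]
    · intro h; exact absurd (Finset.mem_univ i) h
  rwa [h2] at h

/-- In an orthonormal family, coordinates are bounded by the norm. -/
theorem orth_le
    (hVG : ∀ f : F, f ≠ 0 → ∃ c : L, O.valuation (algebraMap L F c) = O.valuation f)
    {r : ℕ} {e : Fin r → F} (he_li : LinearIndependent L e)
    (he_orth : ∀ c : Fin r → L, (∑ i, c i • e i ∈ O ↔ ∀ i, algebraMap L F (c i) ∈ O))
    (c : Fin r → L) (i : Fin r) :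
    O.valuation (algebraMap L F (c i)) ≤ O.valuation (∑ i, c i • e i) := by
  by_cases hf0 : ∑ i, c i • e i = 0
  · have := Fintype.linearIndependent_iff.mp he_li c hf0 i
    rw [this, map_zero, map_zero]
    exact zero_le
  · obtain ⟨l, hl⟩ := hVG _ hf0
    have hl0 : l ≠ 0 := by
      intro h
      rw [h, map_zero, map_zero] at hl
      exact hf0 ((map_eq_zero _).mp hl.symm)
    have hlF : algebraMap L F l ≠ 0 := (map_ne_zero _).mpr hl0
    have hvl : O.valuation (algebraMap L F l) ≠ 0 := (map_ne_zero _).mpr hlF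
    have key : ∑ i, (l⁻¹ * c i) • e i ∈ O := by
      have h1 : ∑ i, (l⁻¹ * c i) • e i = algebraMap L F l⁻¹ * ∑ i, c i • e i := by
        rw [Finset.mul_sum]
        refine Finset.sum_congr rfl fun i _ => ?_
        rw [mul_smul, Algebra.smul_def]
      rw [h1, ← O.valuation_le_one_iff, map_mul, map_inv₀, map_inv₀, hl, inv_mul_cancel₀]
      rw [← hl]; exact hvl
    have h2 := (he_orth _).mp key i
    rw [← O.valuation_le_one_iff, map_mul, map_mul, map_inv₀, map_inv₀] at h2
    rw [← hl]
    calc O.valuation (algebraMap L F (c i))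
        = O.valuation (algebraMap L F l) *
          ((O.valuation (algebraMap L F l))⁻¹ * O.valuation (algebraMap L F (c i))) := by
          rw [← mul_assoc, mul_inv_cancel₀ hvl, one_mul]
      _ ≤ O.valuation (algebraMap L F l) * 1 := mul_le_mul' le_rfl h2
      _ = O.valuation (algebraMap L F l) := mul_one _

variable {O}

/-- Reduction of an integral linear combination. -/
theorem red_sum (red : O →+* Fk) {r : ℕ} (e : Fin r → F) (he : ∀ i, e i ∈ O) (c : Fin r → L)
    (hc : ∀ i, algebraMap L F (c i) ∈ O) (hf : ∑ i, c i • e i ∈ O) :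
    red ⟨∑ i, c i • e i, hf⟩ =
      ∑ i, red ⟨algebraMap L F (c i), hc i⟩ * red ⟨e i, he i⟩ := by
  have h1 : (⟨∑ i, c i • e i, hf⟩ : O) =
      ∑ i, (⟨algebraMap L F (c i), hc i⟩ : O) * ⟨e i, he i⟩ := by
    apply Subtype.ext
    show ∑ i, c i • e i =
      O.subtype (∑ i, (⟨algebraMap L F (c i), hc i⟩ : O) * ⟨e i, he i⟩)
    rw [map_sum]
    refine Finset.sum_congr rfl fun i _ => ?_
    rw [Algebra.smul_def]
    rfl
  rw [h1, map_sum]
  simp only [map_mul]

/-- The reductions of an orthonormal family are linearly independent over `k`. -/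
theorem red_linearIndependent
    (hVG : ∀ f : F, f ≠ 0 → ∃ c : L, O.valuation (algebraMap L F c) = O.valuation f)
    (red : O →+* Fk) (hred : ∀ f : O, red f = 0 ↔ O.valuation (f : F) < 1)
    (hredk_surj : ∀ c' : k, ∃ (c : L) (hc : algebraMap L F c ∈ O),
      red ⟨algebraMap L F c, hc⟩ = algebraMap k Fk c')
    {r : ℕ} {e : Fin r → F} (he_li : LinearIndependent L e)
    (he_orth : ∀ c : Fin r → L, (∑ i, c i • e i ∈ O ↔ ∀ i, algebraMap L F (c i) ∈ O)) :
    LinearIndependent k (fun i => red ⟨e i, orth_mem O he_orth i⟩) := by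
  rw [Fintype.linearIndependent_iff]
  intro g hg i
  choose c hc hcred using fun i => hredk_surj (g i)
  have hfO : ∑ i, c i • e i ∈ O := (he_orth c).mpr hc
  have hredf : red ⟨∑ i, c i • e i, hfO⟩ =
      ∑ i, g i • red ⟨e i, orth_mem O he_orth i⟩ := by
    rw [red_sum red e (orth_mem O he_orth) c hc hfO]
    refine Finset.sum_congr rfl fun i _ => ?_
    rw [hcred i, Algebra.smul_def]
  rw [hg] at hredf
  have hlt : O.valuation (∑ i, c i • e i) < 1 := (hred _).mp hredf
  have hci : O.valuation (algebraMap L F (c i)) < 1 :=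
    lt_of_le_of_lt (orth_le O hVG he_li he_orth c i) hlt
  have h1 : red ⟨algebraMap L F (c i), hc i⟩ = 0 := (hred _).mpr hci
  rw [hcred i] at h1
  exact (map_eq_zero (algebraMap k Fk)).mp h1

end Ortho

section Supply

variable [HasPrincipalDivisors L F] [HasPrincipalDivisors k Fk]

/-- **Node (L) of the S37 lattice track from the S18 track-A supplier hypotheses.**
All hypotheses from `hVG` to `hRiemk` are, verbatim, hypotheses of
`Fermat.Agent.S18.helper2030.kummer_ff`. -/
theorem latHyp_of_supply
    (O : ValuationSubring F)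
    (hVG : ∀ f : F, f ≠ 0 → ∃ c : L, O.valuation (algebraMap L F c) = O.valuation f)
    (red : O →+* Fk)
    (hred : ∀ f : O, red f = 0 ↔ O.valuation (f : F) < 1)
    (hredk_surj : ∀ c' : k, ∃ (c : L) (hc : algebraMap L F c ∈ O),
      red ⟨algebraMap L F c, hc⟩ = algebraMap k Fk c')
    (Xinf : Divisor L F) (Yinf : Divisor k Fk)
    (d : ℤ) (hdpos : 0 < d)
    (hdX : Divisor.degree Xinf = d) (hdY : Divisor.degree Yinf = d)
    (hRC : ∀ (n : ℕ) (f : F) (hf : f ∈ O), f ∈ riemannRochSpace (n • Xinf) →
      red ⟨f, hf⟩ ∈ riemannRochSpace (n • Yinf))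
    (hcart : ∀ E : Divisor L F, ∃ (r : ℕ) (e : Fin r → F), LinearIndependent L e ∧
      Submodule.span L (Set.range e) = riemannRochSpace E ∧
      ∀ c : Fin r → L, (∑ i, c i • e i ∈ O ↔ ∀ i, algebraMap L F (c i) ∈ O))
    (γ : ℤ)
    (hRiemF : ∀ D : Divisor L F,
      Divisor.degree D + 1 - γ ≤ (Module.finrank L (riemannRochSpace D) : ℤ))
    (hfink : ∀ E : Divisor k Fk, Module.Finite k (riemannRochSpace E))
    (cK : ℤ)
    (hRiemk : ∀ E : Divisor k Fk, cK ≤ Divisor.degree E →
      (Module.finrank k (riemannRochSpace E) : ℤ) ≤ Divisor.degree E + 1 - γ)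
    (degL : ∀ P : Place L F, P.deg = 1) (degk : ∀ Q : Place k Fk, Q.deg = 1) :
    helper5413.LatHyp O red γ cK Xinf Yinf := by
  classical
  -- a place of `Fk`
  have hYne : Yinf ≠ 0 := by
    rintro rfl
    rw [map_zero] at hdY
    omega
  obtain ⟨Q₀, -⟩ := Finsupp.support_nonempty_iff.mpr hYne
  refine
    { red_nonunit := ?_, degL := degL, degk := degk, finite_ord := ?_, deg0 := ?_, lat := ?_,
      rk := ?_, E₀_pos := by rw [hdX]; exact hdpos, E₀k_le := by rw [hdX, hdY],
      anchor := fun m f hf => hRC m (f : F) f.2 hf }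
  · -- red_nonunit
    intro x hx
    rw [hred]
    have hx' : x ∈ IsLocalRing.maximalIdeal O := by
      rw [IsLocalRing.mem_maximalIdeal]
      exact hx
    exact (O.valuation_lt_one_iff x).mp hx'
  · -- finite_ord
    intro y hy
    obtain ⟨D, hD, -⟩ := HasPrincipalDivisors.exists_divisor (K := k) y hy
    refine D.support.finite_toSet.subset ?_
    intro Q hQ
    have hQ' : Q.ord y ≠ 0 := hQ
    rw [← hD Q] at hQ'
    exact Finsupp.mem_support_iff.mpr hQ'
  · -- deg0
    intro f hf D hD
    obtain ⟨D', hD', hdeg'⟩ := HasPrincipalDivisors.exists_divisor (K := L) f hf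
    have : D = D' := by
      ext P
      rw [hD P, hD' P]
    rw [this, hdeg']
  · -- lat
    intro E n hn
    obtain ⟨r, e, he_li, he_span, he_orth⟩ := hcart E
    have hfin : Module.finrank L (riemannRochSpace E) = r := by
      rw [← he_span, finrank_span_eq_card he_li, Fintype.card_fin]
    have hnr : n ≤ r := by
      have h1 := hRiemF E
      rw [hfin] at h1
      have h2 : (n : ℤ) ≤ (r : ℤ) := le_trans hn h1
      exact_mod_cast h2
    have hli := red_linearIndependent hVG red hred hredk_surj he_li he_orth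
    refine ⟨fun i => ⟨e (Fin.castLE hnr i), orth_mem O he_orth _⟩, fun i => ?_, ?_⟩
    · show e (Fin.castLE hnr i) ∈ riemannRochSpace E
      rw [← he_span]
      exact Submodule.subset_span (Set.mem_range_self _)
    · exact hli.comp (Fin.castLE hnr) (Fin.castLE_injective hnr)
  · -- rk
    intro D n v hv hmem
    have := hfink D
    have hcard : n ≤ Module.finrank k (riemannRochSpace D) := by
      have hv' : LinearIndependent k (fun i => (⟨v i, hmem i⟩ : riemannRochSpace D)) := by
        apply LinearIndependent.of_comp (riemannRochSpace D).subtype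
        exact hv
      have := hv'.fintype_card_le_finrank
      rwa [Fintype.card_fin] at this
    have hcardZ : (n : ℤ) ≤ (Module.finrank k (riemannRochSpace D) : ℤ) := by
      exact_mod_cast hcard
    refine ⟨?_, fun hc => le_trans hcardZ (hRiemk D hc)⟩
    by_cases hD : Divisor.degree D < 0
    · have hbot := Fermat.Agent.S18.helper981.riemannRochSpace_eq_bot_of_degree_neg degk hD
      rw [hbot, finrank_bot] at hcardZ
      exact le_trans hcardZ (le_max_left _ _)
    · have h1 := Fermat.Agent.S18.helper981.finrank_le_degree_add_one degk Q₀ (not_lt.mp hD)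
      exact le_trans (le_trans hcardZ h1) (le_max_right _ _)

/-- **Place reduction with conservation of number from the S18 track-A supplier hypotheses.**
Existential form of `helper5413.LatHyp.exists_placeReduction` under the inputs of
`latHyp_of_supply`: a degree-preserving `r : Place L F → Place k Fk` with
`r_*(div f) = div (red f)` for every Gauss unit `f`. -/
theorem exists_placeReduction_of_supply
    (O : ValuationSubring F)
    (hVG : ∀ f : F, f ≠ 0 → ∃ c : L, O.valuation (algebraMap L F c) = O.valuation f)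
    (red : O →+* Fk)
    (hred : ∀ f : O, red f = 0 ↔ O.valuation (f : F) < 1)
    (hredk_surj : ∀ c' : k, ∃ (c : L) (hc : algebraMap L F c ∈ O),
      red ⟨algebraMap L F c, hc⟩ = algebraMap k Fk c')
    (Xinf : Divisor L F) (Yinf : Divisor k Fk)
    (d : ℤ) (hdpos : 0 < d)
    (hdX : Divisor.degree Xinf = d) (hdY : Divisor.degree Yinf = d)
    (hRC : ∀ (n : ℕ) (f : F) (hf : f ∈ O), f ∈ riemannRochSpace (n • Xinf) →
      red ⟨f, hf⟩ ∈ riemannRochSpace (n • Yinf))
    (hcart : ∀ E : Divisor L F, ∃ (r : ℕ) (e : Fin r → F), LinearIndependent L e ∧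
      Submodule.span L (Set.range e) = riemannRochSpace E ∧
      ∀ c : Fin r → L, (∑ i, c i • e i ∈ O ↔ ∀ i, algebraMap L F (c i) ∈ O))
    (γ : ℤ)
    (hRiemF : ∀ D : Divisor L F,
      Divisor.degree D + 1 - γ ≤ (Module.finrank L (riemannRochSpace D) : ℤ))
    (hfink : ∀ E : Divisor k Fk, Module.Finite k (riemannRochSpace E))
    (cK : ℤ)
    (hRiemk : ∀ E : Divisor k Fk, cK ≤ Divisor.degree E →
      (Module.finrank k (riemannRochSpace E) : ℤ) ≤ Divisor.degree E + 1 - γ)
    (degL : ∀ P : Place L F, P.deg = 1) (degk : ∀ Q : Place k Fk, Q.deg = 1) :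
    ∃ r : Place L F → Place k Fk, (∀ P, (r P).deg = P.deg) ∧
      ∀ f : O, red f ≠ 0 → ∀ D : Divisor L F, (∀ P, D P = P.ord (f : F)) →
        ∀ Q, Finsupp.mapDomain r D Q = Q.ord (red f) := by
  have H := latHyp_of_supply O hVG red hred hredk_surj Xinf Yinf d hdpos hdX hdY hRC hcart γ
    hRiemF hfink cK hRiemk degL degk
  exact ⟨H.placeRed, H.deg_placeRed, fun f hfne D hD Q => H.mapDomain_placeRed_div hfne hD Q⟩

end Supply

end Fermat.Agent.S37.helper3441

end
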