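/-
S37-LATMOD (helper5413): the CONCRETE instance of node (L) of the lattice track.

For a level `N`, a prime `ℓ ∤ N`, an algebraically closed field `L ⊇ ℚ` (e.g. `AlgebraicClosure ℚ`)
and a valuation subring `A` of `L` over `ℓ`, the landed Gauss pair of `S18/helper508_GaussMod`

  `O   := helper508.gaussValuationSubring N ℓ hℓN A hA`  (valuation subring of `F̄_N`),
  `red := helper508.gaussResidue N ℓ hℓN A hA`           (onto `F_{k,N}`, `k` = residue field of `A`)

satisfies the hypothesis bundle `LatHyp` of `helper5413_LatticeReduction`, with everything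
discharged from landed bricks except ONE input: the genus inequality `g(F̄_N) ≤ g(F_{k,N})`
(in the vocabulary of `S18/helper981_Riemann`), equivalently Riemann's inequality on the generic
fibre and Riemann's upper bound on the special fibre with one common `γ`.

Contents:
* place theory of both fibres (principal divisors, degree-one places, Riemann bounds);
* the supplier facts of the Gauss pair in the shapes of `helper2030.kummer_ff` /
  `helper3441.latHyp_of_supply` / `helper126.isPrincipal_of_latHyp`
  (`hred`, `hVG`, `hredk_surj`, value group, cartesian property, anchor at `x = j`);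
* `latHyp_gauss`, `latHyp_gauss_of_gamma`: the bundle;
* `exists_placeReduction_gauss`: the place reduction with conservation `r_*(div f) = div(red f)`.
-/
import Mathlib
import Fermat.Agent.S18.helper1733_GaussOrtho
import Fermat.Agent.S18.helper6381_HLine
import Fermat.Agent.S18.helper9392_Separable
import Fermat.Agent.S18.helper6458_PrincipalDegSep
import Fermat.Agent.S18.helper7885_PlacesFF
import Fermat.Agent.S18.helper981_FundEq
import Fermat.Agent.Lib.helper6879_ResidueQbar
import Fermat.Agent.S37.helper5413_LatticeRiemann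
import Fermat.Agent.S37.helper3441_LatticeSupply
import Fermat.Agent.S37.helper126_TorsionGlue

set_option autoImplicit false
set_option synthInstance.maxHeartbeats 400000
set_option linter.unusedSectionVars false

noncomputable section

open AlgebraicCurve ModularCurve IntermediateField Module

namespace Fermat.Agent.S37.helper5413

open Fermat.Agent.S18

/-! ### The special fibre: `F_{k,N}` over any field `k : Type` with `N` invertible -/

section SpecialFibre

variable (k : Type) [Field k] (N : ℕ) [NeZero N]

omit [NeZero N] in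
/-- `j̄` is transcendental over `k`. -/
theorem transcendental_jbarC : Transcendental k (helper9392.jbarC k N) := by
  rw [← transcendental_algebraMap_iff
    (FaithfulSMul.algebraMap_injective ↥(modularFunctionFieldFullC k N) (LaurentSeries k))]
  exact helper6381.transcendental_jqModC k

/-- `[F_{k,N} : k(j̄)] = ψ(N)` when the primes dividing `N` are invertible in `k`. -/
theorem finrank_jbarC (hNk : ∀ p : ℕ, p.Prime → p ∣ N → (p : k) ≠ 0) :
    Module.finrank k⟮helper9392.jbarC k N⟯ ↥(modularFunctionFieldFullC k N) = dedekindPsi N := by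
  rw [helper6381.finrank_subtype_eq_relfinrank, relfinrank_eq_toNat_relrank]
  have h := helper6381.relrank_full_eq_psi k N hNk
  show Cardinal.toNat ((k⟮jqModC k⟯).relrank (modularFunctionFieldFullC k N)) = dedekindPsi N
  rw [h, Cardinal.toNat_natCast]

/-- `F_{k,N}` is finite over `k(j̄)`. -/
theorem finiteDimensional_jbarC (hNk : ∀ p : ℕ, p.Prime → p ∣ N → (p : k) ≠ 0) :
    FiniteDimensional k⟮helper9392.jbarC k N⟯ ↥(modularFunctionFieldFullC k N) := by
  apply FiniteDimensional.of_finrank_pos
  rw [finrank_jbarC k N hNk]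
  exact Fermat.Agent.S28.helper1595.dedekindPsi_pos (NeZero.pos N)

end SpecialFibre

/-! ### Place theory of the special fibre (`k` algebraically closed of characteristic `p ∤ N`) -/

section SpecialPlaces

variable (k : Type) [Field k] [IsAlgClosed k] (p : ℕ) [Fact p.Prime] [CharP k p]
  (N : ℕ) [NeZero N] (hNk : ∀ q : ℕ, q.Prime → q ∣ N → (q : k) ≠ 0)

include p hNk

/-- Principal divisors of the special fibre have degree zero. -/
theorem hasPrincipalDivisors_fullC :
    HasPrincipalDivisors k ↥(modularFunctionFieldFullC k N) := by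
  have := finiteDimensional_jbarC k N hNk
  have := helper9392.isSeparable_modularFunctionFieldFullC_of_isAlgClosed k p N
  exact helper6458.hasPrincipalDivisors_of_isSeparable (helper9392.jbarC k N)
    (transcendental_jbarC k N)

omit p [Fact p.Prime] [CharP k p] in
/-- All places of the special fibre have degree one. -/
theorem place_deg_eq_one_fullC (Q : Place k ↥(modularFunctionFieldFullC k N)) : Q.deg = 1 := by
  have := finiteDimensional_jbarC k N hNk
  exact helper7885.place_deg_eq_one (helper9392.jbarC k N) Q

omit p [Fact p.Prime] [CharP k p] in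
/-- The special fibre has a place. -/
theorem nonempty_place_fullC : Nonempty (Place k ↥(modularFunctionFieldFullC k N)) := by
  have := finiteDimensional_jbarC k N hNk
  obtain ⟨v, -⟩ := helper7885.exists_place_adicValuation_lt_one (helper9392.jbarC k N)
    (transcendental_jbarC k N)
  exact ⟨v⟩

/-- Riemann's inequality holds on the special fibre (with its own Riemann genus). -/
theorem hasRiemannBound_fullC :
    helper981.HasRiemannBound k ↥(modularFunctionFieldFullC k N) := by
  have := finiteDimensional_jbarC k N hNk
  have := hasPrincipalDivisors_fullC k p N hNk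
  obtain ⟨Q₀⟩ := nonempty_place_fullC k N hNk
  exact helper981.hasRiemannBound_of_transcendental' (helper9392.jbarC k N)
    (transcendental_jbarC k N) Q₀ (place_deg_eq_one_fullC k N hNk)

/-- The special fibre has infinitely many places. -/
theorem infinite_places_fullC :
    (Set.univ : Set (Place k ↥(modularFunctionFieldFullC k N))).Infinite := by
  have := hasPrincipalDivisors_fullC k p N hNk
  obtain ⟨Q₀⟩ := nonempty_place_fullC k N hNk
  refine helper6835.infinite_places_of_not_const (place_deg_eq_one_fullC k N hNk) Q₀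
    (helper9392.jbarC k N) (fun a ha => ?_)
  exact helper7885.not_mem_range_of_transcendental (transcendental_jbarC k N) ⟨a, ha.symm⟩

end SpecialPlaces

/-! ### The Gauss pair: supplier facts -/

section Gauss

variable (N : ℕ) [NeZero N] (ℓ : ℕ) [Fact ℓ.Prime] (hℓN : ¬ ℓ ∣ N)
variable {L : Type} [Field L] [Algebra ℚ L] (A : ValuationSubring L) (hA : (ℓ : L) ∈ A.nonunits)

omit [NeZero N] in
/-- `j` is transcendental over `L`. -/
theorem transcendental_gaussJ : Transcendental L (helper1733.gaussJ L N) := by
  rw [← transcendental_algebraMap_iff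
    (FaithfulSMul.algebraMap_injective ↥(laurentBaseChange L (modularFunctionFieldFull N))
      (LaurentSeries L))]
  exact helper6381.transcendental_jqModC L

include hℓN hA in
omit [NeZero N] [Algebra ℚ L] in
/-- The primes dividing `N` are invertible in the residue field of `A`. -/
theorem natCast_ne_zero_residueField (q : ℕ) (hq : q.Prime) (hqN : q ∣ N) :
    (q : IsLocalRing.ResidueField A) ≠ 0 := by
  have : CharP (IsLocalRing.ResidueField A) ℓ := helper508.charP_residueField ℓ A hA
  intro h0
  have hdvd : ℓ ∣ q := (CharP.cast_eq_zero_iff (IsLocalRing.ResidueField A) ℓ q).mp h0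
  have hEq : ℓ = q := (Nat.prime_dvd_prime_iff_eq (Fact.out : ℓ.Prime) hq).mp hdvd
  exact hℓN (hEq ▸ hqN)

include ℓ hℓN A hA in
/-- `F̄_N` is finite over `L(j)`. -/
theorem finiteDimensional_gaussJ :
    FiniteDimensional L⟮helper1733.gaussJ L N⟯
      ↥(laurentBaseChange L (modularFunctionFieldFull N)) :=
  Module.Finite.of_basis
    (Module.Basis.mk (helper1733.gauss_isOrtho N ℓ hℓN A hA).linearIndependent
      (helper1733.gauss_span_eq_top N ℓ hℓN A hA).ge)

/-- The residue of `j` is `j̄`. -/
theorem gaussResidue_gaussJ :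
    helper508.gaussResidue N ℓ hℓN A hA
        ⟨helper1733.gaussJ L N, helper1733.gaussJ_mem N ℓ hℓN A hA⟩ =
      helper9392.jbarC (IsLocalRing.ResidueField A) N := by
  apply Subtype.ext
  rw [helper1733.gaussResidue_of_eq N ℓ hℓN A hA _ (jqModC A) (coeffMap_jqModC _).symm,
    coeffMap_jqModC]
  rfl

/-- `red f = 0` iff `f` has Gauss valuation `< 1`. -/
theorem gaussResidue_eq_zero_iff_valuation
    (f : ↥(helper508.gaussValuationSubring N ℓ hℓN A hA)) :
    helper508.gaussResidue N ℓ hℓN A hA f = 0 ↔
      (helper508.gaussValuationSubring N ℓ hℓN A hA).valuation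
        (f : ↥(laurentBaseChange L (modularFunctionFieldFull N))) < 1 := by
  rw [helper508.gaussResidue_eq_zero_iff, ← ValuationSubring.valuation_lt_one_iff,
    IsLocalRing.mem_maximalIdeal, mem_nonunits_iff]

/-- The residue map kills the non-units. -/
theorem gaussResidue_nonunit (f : ↥(helper508.gaussValuationSubring N ℓ hℓN A hA))
    (hf : ¬ IsUnit f) : helper508.gaussResidue N ℓ hℓN A hA f = 0 :=
  (helper508.gaussResidue_eq_zero_iff N ℓ hℓN A hA f).mpr hf

/-- The value group of the Gauss valuation is that of the constants (`hVG` of `kummer_ff`). -/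
theorem gauss_valuation_eq_const (f : ↥(laurentBaseChange L (modularFunctionFieldFull N)))
    (hf : f ≠ 0) :
    ∃ c : L, (helper508.gaussValuationSubring N ℓ hℓN A hA).valuation
        (algebraMap L ↥(laurentBaseChange L (modularFunctionFieldFull N)) c) =
      (helper508.gaussValuationSubring N ℓ hℓN A hA).valuation f := by
  obtain ⟨c, w, -, hfw, hw, hwi⟩ := helper508.exists_const_mul_unit N ℓ hℓN A hA f hf
  refine ⟨c, ?_⟩
  have h1 : (helper508.gaussValuationSubring N ℓ hℓN A hA).valuation w ≤ 1 :=
    (ValuationSubring.valuation_le_one_iff _ _).mpr hw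
  have h2 : (helper508.gaussValuationSubring N ℓ hℓN A hA).valuation w⁻¹ ≤ 1 :=
    (ValuationSubring.valuation_le_one_iff _ _).mpr hwi
  have hw1 : (helper508.gaussValuationSubring N ℓ hℓN A hA).valuation w = 1 := by
    refine le_antisymm h1 ?_
    rw [map_inv₀] at h2
    by_contra hlt
    rw [not_le] at hlt
    have hw0 : (helper508.gaussValuationSubring N ℓ hℓN A hA).valuation w ≠ 0 := by
      intro h0
      rw [h0, inv_zero] at h2
      rw [h0] at hlt
      have hw00 : w = 0 := (map_eq_zero _).mp h0
      rw [hw00, mul_zero] at hfw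
      exact hf hfw
    have : 1 < ((helper508.gaussValuationSubring N ℓ hℓN A hA).valuation w)⁻¹ :=
      (one_lt_inv₀ (zero_lt_iff.mpr hw0)).mpr hlt
    exact absurd h2 (not_le.mpr this)
  rw [hfw, map_mul, hw1, mul_one]

/-- The value group of the Gauss valuation is that of the constants, in the shape
`helper126.ValueGroupConst`. -/
theorem gauss_valueGroupConst :
    helper126.ValueGroupConst L (helper508.gaussValuationSubring N ℓ hℓN A hA) := by
  intro f hf
  obtain ⟨c, w, hc, hfw, hw, hwi⟩ := helper508.exists_const_mul_unit N ℓ hℓN A hA f hf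
  have hcF : algebraMap L ↥(laurentBaseChange L (modularFunctionFieldFull N)) c ≠ 0 :=
    (map_ne_zero _).mpr hc
  have hEq : f * (algebraMap L ↥(laurentBaseChange L (modularFunctionFieldFull N)) c)⁻¹ = w := by
    rw [hfw, mul_comm (algebraMap L _ c) w, mul_assoc, mul_inv_cancel₀ hcF, mul_one]
  refine ⟨c, hc, ?_, ?_⟩
  · rw [hEq]; exact hw
  · rw [hEq]; exact hwi

/-- Every constant of the residue field is the residue of a constant (`hredk_surj` of
`kummer_ff`). -/
theorem gaussResidue_const_surj (c' : IsLocalRing.ResidueField A) :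
    ∃ (c : L) (hc : algebraMap L ↥(laurentBaseChange L (modularFunctionFieldFull N)) c ∈
        helper508.gaussValuationSubring N ℓ hℓN A hA),
      helper508.gaussResidue N ℓ hℓN A hA ⟨_, hc⟩ =
        algebraMap (IsLocalRing.ResidueField A)
          ↥(modularFunctionFieldFullC (IsLocalRing.ResidueField A) N) c' := by
  obtain ⟨a, rfl⟩ := IsLocalRing.residue_surjective (R := A) c'
  have hc : algebraMap L ↥(laurentBaseChange L (modularFunctionFieldFull N)) (a : L) ∈
      helper508.gaussValuationSubring N ℓ hℓN A hA :=
    (helper508.algebraMap_mem_gaussValuationSubring_iff N ℓ hℓN A hA _).mpr a.2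
  exact ⟨(a : L), hc, helper1733.gaussResidue_algebraMap N ℓ hℓN A hA (a : L) hc⟩

end Gauss

/-! ### Cartesian property and anchor of the Gauss pair (no hypothesis) -/

section Cartesian

variable (N : ℕ) [NeZero N] (ℓ : ℕ) [Fact ℓ.Prime] (hℓN : ¬ ℓ ∣ N)
variable {L : Type} [Field L] [Algebra ℚ L] (A : ValuationSubring L) (hA : (ℓ : L) ∈ A.nonunits)

/-- An orthonormal family for the Gauss valuation, in the membership form used by
`helper2030.kummer_ff` / `helper3441.latHyp_of_supply`. -/
theorem gauss_orth_iff {n : ℕ} {e : Fin n → ↥(laurentBaseChange L (modularFunctionFieldFull N))}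
    (he : helper1733.IsOrtho (helper508.gaussValuationSubring N ℓ hℓN A hA).valuation L e)
    (c : Fin n → L) :
    (∑ i, c i • e i ∈ helper508.gaussValuationSubring N ℓ hℓN A hA ↔
      ∀ i, algebraMap L ↥(laurentBaseChange L (modularFunctionFieldFull N)) (c i) ∈
        helper508.gaussValuationSubring N ℓ hℓN A hA) := by
  constructor
  · intro h i
    rw [← ValuationSubring.valuation_le_one_iff] at h ⊢
    exact (he.coeff_le_univ c i).trans h
  · intro h
    refine sum_mem fun i _ => ?_
    rw [Algebra.smul_def]
    exact mul_mem (h i) ((ValuationSubring.valuation_le_one_iff _ _).mp (he.le_one i))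

/-- **(CART)** Every finite-dimensional `L`-subspace of `F̄_N` has a basis which is orthonormal
for the Gauss valuation (membership form, indexed by a prescribed `Fin n`). -/
theorem gauss_exists_orth_basis
    (V : Submodule L ↥(laurentBaseChange L (modularFunctionFieldFull N)))
    [FiniteDimensional L V] (n : ℕ) (hn : Module.finrank L V = n) :
    ∃ e : Fin n → ↥(laurentBaseChange L (modularFunctionFieldFull N)),
      LinearIndependent L e ∧ Submodule.span L (Set.range e) = V ∧
      ∀ c : Fin n → L,
        (∑ i, c i • e i ∈ helper508.gaussValuationSubring N ℓ hℓN A hA ↔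
          ∀ i, algebraMap L ↥(laurentBaseChange L (modularFunctionFieldFull N)) (c i) ∈
            helper508.gaussValuationSubring N ℓ hℓN A hA) := by
  subst hn
  obtain ⟨e, -, heO, hspan⟩ := helper1733.gauss_exists_isOrtho_basis N ℓ hℓN A hA V
  exact ⟨e, heO.linearIndependent, hspan, gauss_orth_iff N ℓ hℓN A hA heO⟩

/-- **The Gauss pair is cartesian** (`IsCartesian` of `helper5413_LatticeRiemann`). -/
theorem gauss_isCartesian :
    IsCartesian (L := L) (IsLocalRing.ResidueField A)
      (helper508.gaussValuationSubring N ℓ hℓN A hA) (helper508.gaussResidue N ℓ hℓN A hA) := by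
  intro E n v hv hmem
  have hfin : FiniteDimensional L (Submodule.span L (Set.range v)) :=
    FiniteDimensional.span_of_finite L (Set.finite_range v)
  have hfr : Module.finrank L (Submodule.span L (Set.range v)) = n := by
    rw [finrank_span_eq_card hv, Fintype.card_fin]
  obtain ⟨e, he_li, he_span, he_orth⟩ :=
    gauss_exists_orth_basis N ℓ hℓN A hA (Submodule.span L (Set.range v)) n hfr
  have hVE : Submodule.span L (Set.range v) ≤ riemannRochSpace E :=
    Submodule.span_le.mpr (by rintro _ ⟨i, rfl⟩; exact hmem i)
  refine ⟨fun i => ⟨e i, helper3441.orth_mem _ he_orth i⟩, fun i => ?_, ?_⟩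
  · apply hVE
    rw [← he_span]
    exact Submodule.subset_span (Set.mem_range_self i)
  · exact helper3441.red_linearIndependent (gauss_valuation_eq_const N ℓ hℓN A hA) _
      (gaussResidue_eq_zero_iff_valuation N ℓ hℓN A hA)
      (gaussResidue_const_surj N ℓ hℓN A hA) he_li he_orth

/-- **Anchor** at `x = j`: for `f ∈ L(n • X) ∩ O`, `X` the pole divisor of `j`, the residue of
`f` lies in `L_k(n • Xb)`, `Xb` the pole divisor of `j̄`. -/
theorem gauss_anchor
    {X : Divisor L ↥(laurentBaseChange L (modularFunctionFieldFull N))}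
    (hX : helper6292.IsPoleDivisor (helper1733.gaussJ L N) X)
    {Xb : Divisor (IsLocalRing.ResidueField A)
      ↥(modularFunctionFieldFullC (IsLocalRing.ResidueField A) N)}
    (hXb : helper6292.IsPoleDivisor (helper9392.jbarC (IsLocalRing.ResidueField A) N) Xb)
    (n : ℕ) (f : ↥(helper508.gaussValuationSubring N ℓ hℓN A hA))
    (hf : (f : ↥(laurentBaseChange L (modularFunctionFieldFull N))) ∈ riemannRochSpace (n • X)) :
    helper508.gaussResidue N ℓ hℓN A hA f ∈ riemannRochSpace (n • Xb) := by
  have : CharZero L := algebraRat.charZero L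
  have hXb' : helper6292.IsPoleDivisor
      (helper508.gaussResidue N ℓ hℓN A hA
        ⟨helper1733.gaussJ L N, helper1733.gaussJ_mem N ℓ hℓN A hA⟩) Xb := by
    rw [gaussResidue_gaussJ]
    exact hXb
  exact helper1733.red_mem_riemannRochSpace_of_isOrtho
    (helper508.gaussValuationSubring N ℓ hℓN A hA) (helper508.gaussResidue N ℓ hℓN A hA)
    (helper1733.gauss_compat N ℓ hℓN A hA) (helper1733.gaussJ_mem N ℓ hℓN A hA)
    (helper1733.gauss_resTranscendental N ℓ hℓN A hA) (helper1733.gauss_isOrtho N ℓ hℓN A hA)
    (helper1733.gauss_span_eq_top N ℓ hℓN A hA) hX hXb' n f.2 hf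

end Cartesian

/-! ### Place theory of both fibres of the Gauss pair -/

section Places

variable (N : ℕ) [NeZero N] (ℓ : ℕ) [Fact ℓ.Prime] (hℓN : ¬ ℓ ∣ N)
variable {L : Type} [Field L] [Algebra ℚ L] [IsAlgClosed L] (A : ValuationSubring L)
  (hA : (ℓ : L) ∈ A.nonunits)

include ℓ hℓN A hA

/-- Principal divisors of the generic fibre. -/
theorem hasPrincipalDivisors_bar :
    HasPrincipalDivisors L ↥(laurentBaseChange L (modularFunctionFieldFull N)) := by
  have := finiteDimensional_gaussJ N ℓ hℓN A hA
  have : CharZero L := algebraRat.charZero L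
  exact Fermat.Agent.S24.helper204.hasPrincipalDivisors (helper1733.gaussJ L N)
    (transcendental_gaussJ N)

/-- All places of the generic fibre have degree one. -/
theorem place_deg_eq_one_bar
    (P : Place L ↥(laurentBaseChange L (modularFunctionFieldFull N))) : P.deg = 1 := by
  have := finiteDimensional_gaussJ N ℓ hℓN A hA
  exact helper7885.place_deg_eq_one (helper1733.gaussJ L N) P

/-- The generic fibre has a place. -/
theorem nonempty_place_bar :
    Nonempty (Place L ↥(laurentBaseChange L (modularFunctionFieldFull N))) := by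
  have := finiteDimensional_gaussJ N ℓ hℓN A hA
  obtain ⟨v, -⟩ := helper7885.exists_place_adicValuation_lt_one (helper1733.gaussJ L N)
    (transcendental_gaussJ (L := L) N)
  exact ⟨v⟩

/-- Riemann's inequality on the generic fibre (with its own Riemann genus). -/
theorem hasRiemannBound_bar :
    helper981.HasRiemannBound L ↥(laurentBaseChange L (modularFunctionFieldFull N)) := by
  have := finiteDimensional_gaussJ N ℓ hℓN A hA
  have := hasPrincipalDivisors_bar N ℓ hℓN A hA
  obtain ⟨P₀⟩ := nonempty_place_bar N ℓ hℓN A hA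
  exact helper981.hasRiemannBound_of_transcendental' (helper1733.gaussJ L N)
    (transcendental_gaussJ N) P₀ (place_deg_eq_one_bar N ℓ hℓN A hA)

/-- Principal divisors of the special fibre over the residue field of `A`. -/
theorem hasPrincipalDivisors_res :
    HasPrincipalDivisors (IsLocalRing.ResidueField A)
      ↥(modularFunctionFieldFullC (IsLocalRing.ResidueField A) N) := by
  have : IsAlgClosed (IsLocalRing.ResidueField A) :=
    Fermat.Agent.Lib.helper6879.isAlgClosed_residueField A
  have : CharP (IsLocalRing.ResidueField A) ℓ := helper508.charP_residueField ℓ A hA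
  exact hasPrincipalDivisors_fullC _ ℓ N (natCast_ne_zero_residueField N ℓ hℓN A hA)

/-- All places of the special fibre have degree one. -/
theorem place_deg_eq_one_res
    (Q : Place (IsLocalRing.ResidueField A)
      ↥(modularFunctionFieldFullC (IsLocalRing.ResidueField A) N)) : Q.deg = 1 := by
  have : IsAlgClosed (IsLocalRing.ResidueField A) :=
    Fermat.Agent.Lib.helper6879.isAlgClosed_residueField A
  exact place_deg_eq_one_fullC _ N (natCast_ne_zero_residueField N ℓ hℓN A hA) Q

/-- The special fibre has a place. -/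
theorem nonempty_place_res :
    Nonempty (Place (IsLocalRing.ResidueField A)
      ↥(modularFunctionFieldFullC (IsLocalRing.ResidueField A) N)) := by
  have : IsAlgClosed (IsLocalRing.ResidueField A) :=
    Fermat.Agent.Lib.helper6879.isAlgClosed_residueField A
  exact nonempty_place_fullC _ N (natCast_ne_zero_residueField N ℓ hℓN A hA)

/-- Riemann's inequality on the special fibre (with its own Riemann genus). -/
theorem hasRiemannBound_res :
    helper981.HasRiemannBound (IsLocalRing.ResidueField A)
      ↥(modularFunctionFieldFullC (IsLocalRing.ResidueField A) N) := by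
  have : IsAlgClosed (IsLocalRing.ResidueField A) :=
    Fermat.Agent.Lib.helper6879.isAlgClosed_residueField A
  have : CharP (IsLocalRing.ResidueField A) ℓ := helper508.charP_residueField ℓ A hA
  exact hasRiemannBound_fullC _ ℓ N (natCast_ne_zero_residueField N ℓ hℓN A hA)

/-- The special fibre has infinitely many places. -/
theorem infinite_places_res :
    (Set.univ : Set (Place (IsLocalRing.ResidueField A)
      ↥(modularFunctionFieldFullC (IsLocalRing.ResidueField A) N))).Infinite := by
  have : IsAlgClosed (IsLocalRing.ResidueField A) :=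
    Fermat.Agent.Lib.helper6879.isAlgClosed_residueField A
  have : CharP (IsLocalRing.ResidueField A) ℓ := helper508.charP_residueField ℓ A hA
  exact infinite_places_fullC _ ℓ N (natCast_ne_zero_residueField N ℓ hℓN A hA)

/-- **(CART)** in the shape `hcart` of `helper2030.kummer_ff`: every Riemann–Roch space of the
generic fibre has a basis orthonormal for the Gauss valuation. -/
theorem gauss_hcart (E : Divisor L ↥(laurentBaseChange L (modularFunctionFieldFull N))) :
    ∃ (r : ℕ) (e : Fin r → ↥(laurentBaseChange L (modularFunctionFieldFull N))),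
      LinearIndependent L e ∧ Submodule.span L (Set.range e) = riemannRochSpace E ∧
      ∀ c : Fin r → L,
        (∑ i, c i • e i ∈ helper508.gaussValuationSubring N ℓ hℓN A hA ↔
          ∀ i, algebraMap L ↥(laurentBaseChange L (modularFunctionFieldFull N)) (c i) ∈
            helper508.gaussValuationSubring N ℓ hℓN A hA) := by
  have := hasPrincipalDivisors_bar N ℓ hℓN A hA
  obtain ⟨P₀⟩ := nonempty_place_bar N ℓ hℓN A hA
  have : Module.Finite L (riemannRochSpace E) :=
    helper981.finite_riemannRochSpace (place_deg_eq_one_bar N ℓ hℓN A hA) P₀ E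
  obtain ⟨e, h1, h2, h3⟩ :=
    gauss_exists_orth_basis N ℓ hℓN A hA (riemannRochSpace E) _ rfl
  exact ⟨_, e, h1, h2, h3⟩

/-- The pole divisors of `j` and `j̄` exist and both have degree `ψ(N)`. -/
theorem exists_poleDivisors :
    ∃ (X : Divisor L ↥(laurentBaseChange L (modularFunctionFieldFull N)))
      (Xb : Divisor (IsLocalRing.ResidueField A)
        ↥(modularFunctionFieldFullC (IsLocalRing.ResidueField A) N)),
      helper6292.IsPoleDivisor (helper1733.gaussJ L N) X ∧
      helper6292.IsPoleDivisor (helper9392.jbarC (IsLocalRing.ResidueField A) N) Xb ∧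
      Divisor.degree X = (dedekindPsi N : ℤ) ∧ Divisor.degree Xb = (dedekindPsi N : ℤ) := by
  have hPL := hasPrincipalDivisors_bar N ℓ hℓN A hA
  have hPk := hasPrincipalDivisors_res N ℓ hℓN A hA
  obtain ⟨P₀⟩ := nonempty_place_bar N ℓ hℓN A hA
  obtain ⟨Q₀⟩ := nonempty_place_res N ℓ hℓN A hA
  have hx := transcendental_gaussJ (L := L) N
  have hxb := transcendental_jbarC (IsLocalRing.ResidueField A) N
  have hx0 : helper1733.gaussJ L N ≠ 0 := fun h => hx (h ▸ isAlgebraic_zero)
  have hxb0 : helper9392.jbarC (IsLocalRing.ResidueField A) N ≠ 0 :=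
    fun h => hxb (h ▸ isAlgebraic_zero)
  obtain ⟨X, hX⟩ := helper981.exists_poleDivisor (K := L) hx0
  obtain ⟨Xb, hXb⟩ := helper981.exists_poleDivisor (K := IsLocalRing.ResidueField A) hxb0
  have hfdL := finiteDimensional_gaussJ N ℓ hℓN A hA
  have hNk := natCast_ne_zero_residueField N ℓ hℓN A hA
  have hfdk := finiteDimensional_jbarC (IsLocalRing.ResidueField A) N hNk
  refine ⟨X, Xb, hX, hXb, ?_, ?_⟩
  · rw [helper981.degree_poleDivisor_eq_finrank (place_deg_eq_one_bar N ℓ hℓN A hA) P₀ _ hx X hX,
      helper1733.gauss_finrank N ℓ hℓN A hA]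
  · rw [helper981.degree_poleDivisor_eq_finrank (place_deg_eq_one_res N ℓ hℓN A hA) Q₀ _ hxb Xb
      hXb, finrank_jbarC (IsLocalRing.ResidueField A) N hNk]

end Places

/-! ### The lattice bundle for the Gauss pair -/

section Main

variable (N : ℕ) [NeZero N] (ℓ : ℕ) [Fact ℓ.Prime] (hℓN : ¬ ℓ ∣ N)
variable {L : Type} [Field L] [Algebra ℚ L] [IsAlgClosed L] (A : ValuationSubring L)
  (hA : (ℓ : L) ∈ A.nonunits)

/-- **Node (L) of the lattice track, concrete instance (genus form).**
For the Gauss pair at level `N`, `ℓ ∤ N`, the ONLY input is the genus inequality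
`g(F̄_N) ≤ g(F_{k,N})` between the Riemann genera of the two fibres. -/
theorem latHyp_gauss
    (hgenus : helper981.riemannGenus L ↥(laurentBaseChange L (modularFunctionFieldFull N)) ≤
      helper981.riemannGenus (IsLocalRing.ResidueField A)
        ↥(modularFunctionFieldFullC (IsLocalRing.ResidueField A) N)) :
    ∃ (c : ℤ) (E₀ : Divisor L ↥(laurentBaseChange L (modularFunctionFieldFull N)))
      (E₀k : Divisor (IsLocalRing.ResidueField A)
        ↥(modularFunctionFieldFullC (IsLocalRing.ResidueField A) N)),
      helper6292.IsPoleDivisor (helper1733.gaussJ L N) E₀ ∧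
      helper6292.IsPoleDivisor (helper9392.jbarC (IsLocalRing.ResidueField A) N) E₀k ∧
      LatHyp (helper508.gaussValuationSubring N ℓ hℓN A hA)
        (helper508.gaussResidue N ℓ hℓN A hA)
        (helper981.riemannGenus (IsLocalRing.ResidueField A)
          ↥(modularFunctionFieldFullC (IsLocalRing.ResidueField A) N) : ℤ) c E₀ E₀k := by
  have hPL := hasPrincipalDivisors_bar N ℓ hℓN A hA
  have hPk := hasPrincipalDivisors_res N ℓ hℓN A hA
  obtain ⟨P₀⟩ := nonempty_place_bar N ℓ hℓN A hA
  obtain ⟨Q₀⟩ := nonempty_place_res N ℓ hℓN A hA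
  obtain ⟨X, Xb, hX, hXb, hdX, hdXb⟩ := exists_poleDivisors N ℓ hℓN A hA
  have hpos : (0 : ℤ) < (dedekindPsi N : ℤ) := by
    exact_mod_cast Fermat.Agent.S28.helper1595.dedekindPsi_pos (NeZero.pos N)
  obtain ⟨c, hc⟩ := latHyp_of_riemann (place_deg_eq_one_bar N ℓ hℓN A hA)
    (place_deg_eq_one_res N ℓ hℓN A hA) P₀ Q₀ (hasRiemannBound_bar N ℓ hℓN A hA)
    (hasRiemannBound_res N ℓ hℓN A hA) hgenus
    (helper508.gaussValuationSubring N ℓ hℓN A hA) (helper508.gaussResidue N ℓ hℓN A hA)
    (gaussResidue_nonunit N ℓ hℓN A hA) (gauss_isCartesian N ℓ hℓN A hA) X Xb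
    (by rw [hdX]; exact hpos) (by rw [hdX, hdXb])
    (fun m f hf => gauss_anchor N ℓ hℓN A hA hX hXb m f hf)
  exact ⟨c, X, Xb, hX, hXb, hc⟩

/-- **Node (L), concrete instance (one-`γ` form)**: the same bundle from Riemann's inequality on
the generic fibre and Riemann's upper bound on the special fibre with ONE common `γ`
(= the two halves `hRiemF`, `hRiemk` of `helper2030.kummer_ff`). -/
theorem latHyp_gauss_of_gamma (γ : ℤ)
    (hRiemF : ∀ D : Divisor L ↥(laurentBaseChange L (modularFunctionFieldFull N)),
      Divisor.degree D + 1 - γ ≤ (Module.finrank L (riemannRochSpace D) : ℤ))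
    (cK : ℤ)
    (hRiemk : ∀ E : Divisor (IsLocalRing.ResidueField A)
        ↥(modularFunctionFieldFullC (IsLocalRing.ResidueField A) N),
      cK ≤ Divisor.degree E →
        (Module.finrank (IsLocalRing.ResidueField A) (riemannRochSpace E) : ℤ) ≤
          Divisor.degree E + 1 - γ) :
    ∃ (E₀ : Divisor L ↥(laurentBaseChange L (modularFunctionFieldFull N)))
      (E₀k : Divisor (IsLocalRing.ResidueField A)
        ↥(modularFunctionFieldFullC (IsLocalRing.ResidueField A) N)),
      helper6292.IsPoleDivisor (helper1733.gaussJ L N) E₀ ∧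
      helper6292.IsPoleDivisor (helper9392.jbarC (IsLocalRing.ResidueField A) N) E₀k ∧
      LatHyp (helper508.gaussValuationSubring N ℓ hℓN A hA)
        (helper508.gaussResidue N ℓ hℓN A hA) γ cK E₀ E₀k := by
  have hPL := hasPrincipalDivisors_bar N ℓ hℓN A hA
  have hPk := hasPrincipalDivisors_res N ℓ hℓN A hA
  obtain ⟨Q₀⟩ := nonempty_place_res N ℓ hℓN A hA
  obtain ⟨X, Xb, hX, hXb, hdX, hdXb⟩ := exists_poleDivisors N ℓ hℓN A hA
  have hpos : (0 : ℤ) < (dedekindPsi N : ℤ) := by
    exact_mod_cast Fermat.Agent.S28.helper1595.dedekindPsi_pos (NeZero.pos N)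
  refine ⟨X, Xb, hX, hXb, ?_⟩
  exact helper3441.latHyp_of_supply (helper508.gaussValuationSubring N ℓ hℓN A hA)
    (gauss_valuation_eq_const N ℓ hℓN A hA) (helper508.gaussResidue N ℓ hℓN A hA)
    (gaussResidue_eq_zero_iff_valuation N ℓ hℓN A hA) (gaussResidue_const_surj N ℓ hℓN A hA)
    X Xb (dedekindPsi N : ℤ) hpos hdX hdXb
    (fun n f hf hfL => gauss_anchor N ℓ hℓN A hA hX hXb n ⟨f, hf⟩ hfL)
    (gauss_hcart N ℓ hℓN A hA) γ hRiemF
    (fun E => helper981.finite_riemannRochSpace (place_deg_eq_one_res N ℓ hℓN A hA) Q₀ E)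
    cK hRiemk (place_deg_eq_one_bar N ℓ hℓN A hA) (place_deg_eq_one_res N ℓ hℓN A hA)

/-- **Place reduction with conservation of number for the Gauss pair**, from the genus
inequality alone: a degree-preserving `r` from the places of `F̄_N` to the places of `F_{k,N}`
with `r_*(div f) = div (red f)` for every `f` of the Gauss valuation ring with `red f ≠ 0`. -/
theorem exists_placeReduction_gauss
    (hgenus : helper981.riemannGenus L ↥(laurentBaseChange L (modularFunctionFieldFull N)) ≤
      helper981.riemannGenus (IsLocalRing.ResidueField A)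
        ↥(modularFunctionFieldFullC (IsLocalRing.ResidueField A) N)) :
    ∃ r : Place L ↥(laurentBaseChange L (modularFunctionFieldFull N)) →
        Place (IsLocalRing.ResidueField A)
          ↥(modularFunctionFieldFullC (IsLocalRing.ResidueField A) N),
      (∀ P, (r P).deg = P.deg) ∧
      ∀ f : ↥(helper508.gaussValuationSubring N ℓ hℓN A hA),
        helper508.gaussResidue N ℓ hℓN A hA f ≠ 0 →
        ∀ D : Divisor L ↥(laurentBaseChange L (modularFunctionFieldFull N)),
          (∀ P, D P = P.ord (f : ↥(laurentBaseChange L (modularFunctionFieldFull N)))) →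
          ∀ Q, Finsupp.mapDomain r D Q = Q.ord (helper508.gaussResidue N ℓ hℓN A hA f) := by
  obtain ⟨c, E₀, E₀k, -, -, H⟩ := latHyp_gauss N ℓ hℓN A hA hgenus
  obtain ⟨r, h1, h2, -⟩ := H.exists_placeReduction
  exact ⟨r, h1, h2⟩

/-- **(R3) of the lattice track at the concrete level**: for ANY lattice bundle `H` of the Gauss
pair, a degree-zero divisor of `F̄_N` whose push-forward along `H.placeRed` vanishes and some
multiple `m • D`, `ℓ ∤ m`, of which is principal, is principal.  (All side hypotheses of
`helper126.isPrincipal_of_latHyp` are discharged here.) -/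
theorem isPrincipal_of_placeRed_gauss {g : ℕ} {c : ℤ}
    {E₀ : Divisor L ↥(laurentBaseChange L (modularFunctionFieldFull N))}
    {E₀k : Divisor (IsLocalRing.ResidueField A)
      ↥(modularFunctionFieldFullC (IsLocalRing.ResidueField A) N)}
    (H : LatHyp (helper508.gaussValuationSubring N ℓ hℓN A hA)
      (helper508.gaussResidue N ℓ hℓN A hA) (g : ℤ) c E₀ E₀k)
    (m : ℕ) (hm : ¬ ℓ ∣ m)
    (D : Divisor L ↥(laurentBaseChange L (modularFunctionFieldFull N)))
    (hdeg : Divisor.degree D = 0) (hsp : Finsupp.mapDomain H.placeRed D = 0)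
    (hmD : (m • D).IsPrincipal) : D.IsPrincipal := by
  have hPL := hasPrincipalDivisors_bar N ℓ hℓN A hA
  have hPk := hasPrincipalDivisors_res N ℓ hℓN A hA
  have hchar : CharP (IsLocalRing.ResidueField A) ℓ := helper508.charP_residueField ℓ A hA
  have hmk : (m : IsLocalRing.ResidueField A) ≠ 0 := fun h0 =>
    hm ((CharP.cast_eq_zero_iff (IsLocalRing.ResidueField A) ℓ m).mp h0)
  have hmF : (m : ↥(modularFunctionFieldFullC (IsLocalRing.ResidueField A) N)) ≠ 0 := by
    rw [← map_natCast (algebraMap (IsLocalRing.ResidueField A)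
      ↥(modularFunctionFieldFullC (IsLocalRing.ResidueField A) N)) m]
    exact (map_ne_zero _).mpr hmk
  exact helper126.isPrincipal_of_latHyp H (helper508.gaussResidue_surjective N ℓ hℓN A hA)
    (helper1733.gauss_compat N ℓ hℓN A hA)
    (fun b => by
      obtain ⟨a, ha, h⟩ := gaussResidue_const_surj N ℓ hℓN A hA b
      exact ⟨a, ha, h⟩)
    (gauss_valueGroupConst N ℓ hℓN A hA) (infinite_places_res N ℓ hℓN A hA) m hmF D hdeg hsp hmD

end Main

end Fermat.Agent.S37.helper5413

end
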