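import Fermat.Prelude.Def_ModularCurve_HeckeOperatorTotal
import Fermat.Agent.S24.helper1200_Final
import Fermat.Agent.S24.helper204_Places

/-!
# S37 / HI wiring (helper1478)

Prelude-vocabulary inputs of `ModularCurve.HeckeInputsAlong (AlgebraicClosure ℚ) N ℓ` that are
pure wiring of landed S24 modules, for ALL `N ℓ` with `[NeZero N] [NeZero ℓ]`:

* `heckeAlphaBarIntegral`, `heckeBetaBarIntegral`;
* `finiteAlong_heckeAlphaBar`, `finiteAlong_heckeBetaBar`;
* `hasPrincipalDivisors_level` (`HasPrincipalDivisors` for every level).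

and the resulting reduction `heckeInputsAlong_of`: only the fundamental identity along `β` and
the norm formula along `α` remain.
-/

set_option autoImplicit false

open ModularCurve AlgebraicCurve IntermediateField

namespace Fermat.Agent.S37.helper1478

open Fermat.Agent.S24 Fermat.Agent.S24.helper24

/-! ## A generic finiteness lemma -/

/-- If `C` is finite over a subfield `B` that is contained in the range of `φ : A →ₐ[K] C`,
then `C` is finite over `A` along `φ`. -/
theorem finite_along_of_le_fieldRange {K A C : Type*} [Field K] [Field A] [Field C]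
    [Algebra K A] [Algebra K C] (φ : A →ₐ[K] C) (B : IntermediateField K C)
    [Module.Finite B C] (hB : B ≤ φ.fieldRange) :
    letI := φ.toRingHom.toAlgebra
    Module.Finite A C := by
  letI := φ.toRingHom.toAlgebra
  obtain ⟨S, hS⟩ := (Module.Finite.fg_top : (⊤ : Submodule B C).FG)
  refine ⟨⟨S, ?_⟩⟩
  rw [eq_top_iff]
  rintro x -
  have hx : x ∈ Submodule.span B (S : Set C) := by rw [hS]; trivial
  induction hx using Submodule.span_induction with
  | mem y hy => exact Submodule.subset_span hy
  | zero => exact zero_mem _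
  | add y z _ _ hy hz => exact add_mem hy hz
  | smul b y _ hy =>
      obtain ⟨a, ha⟩ := hB b.2
      have ha' : φ a = (b : C) := ha
      have : b • y = a • y := by
        show (b : C) * y = φ a * y
        rw [ha']
      rw [this]
      exact Submodule.smul_mem _ a hy

/-- Transcendence is preserved by `K`-algebra homomorphisms of fields. -/
theorem transcendental_algHom {K A C : Type*} [Field K] [Field A] [Field C]
    [Algebra K A] [Algebra K C] (φ : A →ₐ[K] C) {x : A} (hx : Transcendental K x) :
    Transcendental K (φ x) := by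
  intro h
  apply hx
  obtain ⟨p, hp0, hp⟩ := h
  refine ⟨p, hp0, ?_⟩
  have : φ (Polynomial.aeval x p) = 0 := by rw [← Polynomial.aeval_algHom_apply]; exact hp
  exact (map_eq_zero_iff φ φ.toRingHom.injective).mp this

/-! ## The S24 inputs -/

/-- `[F_M : ℚ̄(j)] < ∞` and `= [SL₂(ℤ) : Γ₀(M)]` (S24, landed). -/
theorem stmt_JFinrank : Stmt_JFinrank :=
  helper167.stmt_JFinrank_of (fun N _ => helper6180.evDatum N) helper1200.stmt_LocalInf

theorem finiteDimensional_level (M : ℕ) [NeZero M] : FiniteDimensional Kbar⟮jBar M⟯ (FN M) :=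
  (stmt_JFinrank M).1

theorem transcendental_jBar (M : ℕ) [NeZero M] : Transcendental Kbar (jBar M) :=
  leaf_JTranscendental M

/-- **Principal divisors exist at every level.** -/
theorem hasPrincipalDivisors_level (M : ℕ) [NeZero M] :
    HasPrincipalDivisors (AlgebraicClosure ℚ)
      (laurentBaseChange (AlgebraicClosure ℚ) (modularFunctionFieldFull M)) :=
  haveI := finiteDimensional_level M
  helper204.hasPrincipalDivisors (jBar M) (transcendental_jBar M)

/-! ## Finiteness and integrality of the two degeneracy maps -/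

variable (N ℓ : ℕ) [NeZero N] [NeZero ℓ]

theorem heckeAlphaBar_jBar : heckeAlphaBar Kbar N ℓ (jBar N) = jBar (N * ℓ) := by
  apply Subtype.ext
  rw [coe_heckeAlphaBar, coe_jBar, coe_jBar]

/-- **`α` is finite.** -/
theorem finiteAlong_heckeAlphaBar :
    FiniteAlong (AlgebraicClosure ℚ) (heckeAlphaBar (AlgebraicClosure ℚ) N ℓ) := by
  haveI := finiteDimensional_level (N * ℓ)
  refine finite_along_of_le_fieldRange (heckeAlphaBar Kbar N ℓ) Kbar⟮jBar (N * ℓ)⟯ ?_
  rw [IntermediateField.adjoin_le_iff]
  rintro x hx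
  rw [Set.mem_singleton_iff] at hx
  subst hx
  exact ⟨jBar N, heckeAlphaBar_jBar N ℓ⟩

/-- **`β` is finite.** -/
theorem finiteAlong_heckeBetaBar :
    FiniteAlong (AlgebraicClosure ℚ) (heckeBetaBar (AlgebraicClosure ℚ) N ℓ) := by
  haveI := finiteDimensional_level (N * ℓ)
  have htr : Transcendental Kbar (heckeBetaBar Kbar N ℓ (jBar N)) :=
    transcendental_algHom _ (transcendental_jBar N)
  haveI : FiniteDimensional Kbar⟮heckeBetaBar Kbar N ℓ (jBar N)⟯ (FN (N * ℓ)) :=
    helper204.finiteDimensional_adjoin_of_transcendental (x := jBar (N * ℓ)) htr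
  refine finite_along_of_le_fieldRange (heckeBetaBar Kbar N ℓ)
    Kbar⟮heckeBetaBar Kbar N ℓ (jBar N)⟯ ?_
  rw [IntermediateField.adjoin_le_iff]
  rintro x hx
  rw [Set.mem_singleton_iff] at hx
  subst hx
  exact ⟨jBar N, rfl⟩

/-- **`α` is integral.** -/
theorem heckeAlphaBarIntegral : HeckeAlphaBarIntegral (AlgebraicClosure ℚ) N ℓ := by
  letI := algebraAlong (heckeAlphaBar (AlgebraicClosure ℚ) N ℓ)
  haveI : Module.Finite (FN N) (FN (N * ℓ)) := finiteAlong_heckeAlphaBar N ℓ
  exact fun x => Algebra.IsIntegral.isIntegral (R := FN N) x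

/-- **`β` is integral.** -/
theorem heckeBetaBarIntegral : HeckeBetaBarIntegral (AlgebraicClosure ℚ) N ℓ := by
  letI := algebraAlong (heckeBetaBar (AlgebraicClosure ℚ) N ℓ)
  haveI : Module.Finite (FN N) (FN (N * ℓ)) := finiteAlong_heckeBetaBar N ℓ
  exact fun x => Algebra.IsIntegral.isIntegral (R := FN N) x

/-- **Reduction of `HeckeInputsAlong`** to the two generic function-field statements. -/
theorem heckeInputsAlong_of
    (hFI : haveI := hasPrincipalDivisors_level (N * ℓ)
      FundamentalIdentityAlong (AlgebraicClosure ℚ) (heckeBetaBar (AlgebraicClosure ℚ) N ℓ)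
        (heckeBetaBarIntegral N ℓ))
    (hNF : NormFormulaAlong (AlgebraicClosure ℚ) (heckeAlphaBar (AlgebraicClosure ℚ) N ℓ)
        (finiteAlong_heckeAlphaBar N ℓ)) :
    HeckeInputsAlong (AlgebraicClosure ℚ) N ℓ :=
  ⟨heckeAlphaBarIntegral N ℓ, heckeBetaBarIntegral N ℓ, hasPrincipalDivisors_level (N * ℓ),
    finiteAlong_heckeAlphaBar N ℓ, hFI, hNF⟩

end Fermat.Agent.S37.helper1478
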