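/-
S37 — the KRONECKER CONGRUENCE at SERIES level, in the root-of-unity-free `secMat` form.
Author: helper6826.  No sorry.

Vocabulary (all existing; nothing new is defined for the substitutions):
* `V = ModularCurve.qExpand R ℓ`  : `q ↦ q^ℓ` on `LaurentSeries R` (Prelude);
* `ModularCurve.coeffMap φ`       : coefficientwise ring hom (Prelude);
* `twist ζ`                       : `q ↦ ζ q` (`Fermat.Agent.S28.helper328`);
* `secMat ℓ h`                    : the matrix of multiplication by `h(s)` on `R((s))` over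
                                    `R((s^ℓ))` (`Fermat.Agent.S28.helper2082`); its entries lie in
                                    `LaurentSeries R` for EVERY commutative ring `R`.
New definitions (`R` any commutative ring, no roots of unity needed):
* `heckePoly ℓ h = (X - C (V h)) * (secMat ℓ h).charpoly`  (monic, degree `ℓ + 1`);
* `heckeNorm ℓ h = V h * (secMat ℓ h).det`.

Main results:
* `laurent_pow_char`       : char `ℓ`:  `f ^ ℓ = V (Fr f)`  (`Fr` = coefficientwise Frobenius);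
* `charpoly_secMat_char`   : char `ℓ` (any commutative ring):
                             `(secMat ℓ h).charpoly = X ^ ℓ - C (Fr h)`;
* `det_secMat_char`        : char `ℓ`:  `(secMat ℓ h).det = Fr h`;
* `heckePoly_coeffMap`, `heckeNorm_coeffMap` : base change;
* `heckePoly_map_qExpand`  : over a field with a primitive `ℓ`-th root `ω`:
      `(heckePoly ℓ h).map V = (X - C (h(q^(ℓ*ℓ)))) * ∏ c : Fin ℓ, (X - C (twist (ω ^ c) h))`;
  `qExpand_heckeNorm`      : `V (heckeNorm ℓ h) = h(q^(ℓ*ℓ)) * ∏ c, twist (ω ^ c) h`;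
  `eq_heckePoly_of_map_qExpand_eq`, `eq_heckeNorm_of_qExpand_eq` : the converse characterisations;
* `heckePoly_char`         : char `ℓ`:  `heckePoly ℓ h = (X - C (V h)) * (X ^ ℓ - C (Fr h))`;
  `heckeNorm_char`         : char `ℓ`:  `heckeNorm ℓ h = V h * Fr h`;
* `kronecker_heckePoly`, `kronecker_of_map_qExpand_eq`, `kronecker_norm_of_qExpand_eq` :
      the packaged integral forms for `ι : A →+* K`, `π : A →+* k`, `y : LaurentSeries A`;
* `qExpand_eq_pow_frobeniusEquiv_symm` : `k` perfect:  `V h = (Fr⁻¹ h) ^ ℓ`;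
* `prod_twist_eq_qExpand_det`, `prod_range_twist_eq_qExpand_det` : domain with primitive `ζ`:
      `∏ c, twist (ζ ^ c) h = V (det (secMat ℓ h))`;
* `coeff_det_secMat_sub_pow_mem`, `coeff_det_secMat_sub_pow_mem_span` : the coefficientwise
      congruence `g_n ≡ (h_n)^ℓ` modulo any ideal containing `ℓ`, e.g. `(ζ - 1)`;
* `charpoly_secMat_map_of_isDomain`, `heckePoly_map_qExpand_of_isDomain`.
-/
import Mathlib
import Fermat.Prelude.Def_ModularCurve_X0ModL
import Fermat.Agent.S28.helper328_PrimeSpec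
import Fermat.Agent.S28.helper2082_SecMat

set_option autoImplicit false

namespace Fermat.Agent.S37.helper6826

open Polynomial ModularCurve Matrix
open Fermat.Agent.S28.helper328 (twist twist_coeff)
open Fermat.Agent.S28.helper2082

noncomputable section

/-! ### 1. Frobenius on power series and Laurent series in characteristic `ℓ` -/

section Frobenius

variable (k : Type*) [CommRing k] (ℓ : ℕ) [Fact ℓ.Prime] [CharP k ℓ]

/-- Coefficients of the `ℓ`-th power of a power series in characteristic `ℓ`. -/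
theorem coeff_powerSeries_pow_char (g : PowerSeries k) (n : ℕ) :
    PowerSeries.coeff n (g ^ ℓ) = if ℓ ∣ n then (PowerSeries.coeff (n / ℓ) g) ^ ℓ else 0 := by
  have hℓ : ℓ ≠ 0 := (Fact.out : ℓ.Prime).ne_zero
  have h : (PowerSeries.expand ℓ hℓ g).map (frobenius k ℓ) = g ^ ℓ :=
    MvPowerSeries.map_frobenius_expand ℓ hℓ
  rw [← h, PowerSeries.coeff_map, PowerSeries.coeff_expand]
  split_ifs
  · rfl
  · exact map_zero _

/-- **Frobenius on Laurent series**: in characteristic `ℓ`, `f(q)^ℓ = (Fr f)(q^ℓ)` where `Fr` is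
the coefficientwise Frobenius. -/
theorem laurent_pow_char [NeZero ℓ] (f : LaurentSeries k) :
    f ^ ℓ = qExpand k ℓ (coeffMap (frobenius k ℓ) f) := by
  have hℓ : ℓ ≠ 0 := (Fact.out : ℓ.Prime).ne_zero
  have hℓ0 : (0 : ℤ) < ℓ := by exact_mod_cast Nat.pos_of_ne_zero hℓ
  -- power series part
  have hps : ∀ g : PowerSeries k,
      (HahnSeries.ofPowerSeries ℤ k g) ^ ℓ =
        qExpand k ℓ (coeffMap (frobenius k ℓ) (HahnSeries.ofPowerSeries ℤ k g)) := by
    intro g
    rw [← map_pow]
    ext n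
    by_cases hn : (ℓ : ℤ) ∣ n
    · obtain ⟨m, rfl⟩ := hn
      rw [qExpand_coeff_mul, coeffMap_coeff]
      rcases lt_or_ge m 0 with hm | hm
      · have h1 : (ℓ : ℤ) * m < 0 := mul_neg_of_pos_of_neg hℓ0 hm
        rw [PowerSeries.coeff_coe, if_pos h1, PowerSeries.coeff_coe, if_pos hm, map_zero]
      · lift m to ℕ using hm
        have h1 : ¬ ((ℓ : ℤ) * (m : ℤ) < 0) := not_lt.mpr (by positivity)
        have h2 : ¬ ((m : ℤ) < 0) := not_lt.mpr (by positivity)
        rw [PowerSeries.coeff_coe, if_neg h1, PowerSeries.coeff_coe, if_neg h2]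
        have h3 : ((ℓ : ℤ) * (m : ℤ)).natAbs = ℓ * m := by
          rw [Int.natAbs_mul]; simp
        rw [h3, Int.natAbs_natCast, coeff_powerSeries_pow_char, if_pos (dvd_mul_right _ _),
          Nat.mul_div_cancel_left _ (Nat.pos_of_ne_zero hℓ)]
        rfl
    · rw [qExpand_coeff_of_not_dvd ℓ _ hn, PowerSeries.coeff_coe]
      split_ifs with h1
      · rfl
      · rw [coeff_powerSeries_pow_char, if_neg]
        intro hdvd
        apply hn
        have h2 : ((n.natAbs : ℕ) : ℤ) = n := Int.natAbs_of_nonneg (not_lt.mp h1)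
        rw [← h2]
        exact_mod_cast hdvd
  -- monomial part
  have hmon : ∀ a : ℤ, (HahnSeries.single a (1 : k)) ^ ℓ =
      qExpand k ℓ (coeffMap (frobenius k ℓ) (HahnSeries.single a (1 : k))) := by
    intro a
    rw [HahnSeries.single_pow, coeffMap_single, qExpand_single, map_one, one_pow, nsmul_eq_mul]
  rw [← LaurentSeries.single_order_mul_powerSeriesPart f, mul_pow, map_mul, map_mul, hmon, hps]

end Frobenius

/-! ### 2. Characteristic polynomials in characteristic `p` -/

section CharpolyChar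

variable {S : Type*} [CommRing S] (p : ℕ) [Fact p.Prime] [CharP S p]
variable {n : Type*} [DecidableEq n] [Fintype n]

/-- In characteristic `p`: `charpoly(M)(X)^p = charpoly(M^p)(X^p)`. -/
theorem charpoly_pow_char (M : Matrix n n S) :
    M.charpoly ^ p = expand S p (M ^ p).charpoly := by
  cases (isEmpty_or_nonempty n).symm
  · unfold charpoly
    rw [AlgHom.map_det, ← coe_detMonoidHom, ← (detMonoidHom : Matrix n n S[X] →* S[X]).map_pow]
    apply congr_arg det
    refine matPolyEquiv.injective ?_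
    rw [map_pow, matPolyEquiv_charmatrix, sub_pow_char_of_commute, ← C_pow]
    · exact (id (matPolyEquiv_eq_X_pow_sub_C p M) :).symm
    · exact (C M).commute_X
  · simp [Matrix.charpoly]

end CharpolyChar

/-! ### 3. The Kronecker congruence for the section matrix -/

/-- Laurent series over a ring of characteristic `p` have characteristic `p`. -/
instance charP_laurentSeries (k : Type*) [CommRing k] (p : ℕ) [CharP k p] :
    CharP (LaurentSeries k) p :=
  charP_of_injective_ringHom (f := (HahnSeries.C : k →+* LaurentSeries k))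
    HahnSeries.C_injective p

section Kronecker

variable (k : Type*) [CommRing k] (ℓ : ℕ) [NeZero ℓ] [Fact ℓ.Prime] [CharP k ℓ]

/-- In characteristic `ℓ` the `ℓ`-th power of the section matrix is the scalar `Fr h`. -/
theorem secMat_pow_char (h : LaurentSeries k) :
    secMat ℓ h ^ ℓ =
      coeffMap (frobenius k ℓ) h • (1 : Matrix (Fin ℓ) (Fin ℓ) (LaurentSeries k)) := by
  rw [← secMat_pow, laurent_pow_char, ← mul_one (qExpand k ℓ _), secMat_qExpand_mul, secMat_one]

/-- **Kronecker congruence, section-matrix form** (domain case): in characteristic `ℓ` the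
characteristic polynomial of multiplication by `h(s)` over `k((s^ℓ))` is `X^ℓ - Fr h`. -/
theorem charpoly_secMat_char_of_isDomain [IsDomain k] (h : LaurentSeries k) :
    (secMat ℓ h).charpoly = X ^ ℓ - C (coeffMap (frobenius k ℓ) h) := by
  have h1 := charpoly_pow_char ℓ (secMat ℓ h)
  rw [secMat_pow_char, smul_one_eq_diagonal, charpoly_diagonal, Finset.prod_const,
    Finset.card_univ, Fintype.card_fin, map_pow, map_sub, expand_X, expand_C] at h1
  exact frobenius_inj (LaurentSeries k)[X] ℓ h1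

/-- Coefficientwise lift of a Laurent series along a surjective ring hom. -/
theorem exists_coeffMap_eq {P : Type*} [CommRing P] {k : Type*} [CommRing k] (φ : P →+* k)
    (hφ : Function.Surjective φ) (h : LaurentSeries k) :
    ∃ g : LaurentSeries P, coeffMap φ g = h := by
  classical
  choose s hs using hφ
  refine ⟨⟨fun n => if h.coeff n = 0 then 0 else s (h.coeff n), h.isPWO_support.mono ?_⟩, ?_⟩
  · intro n hn
    simp only [Function.mem_support, ne_eq] at hn ⊢
    exact fun h0 => hn (if_pos h0)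
  · ext n
    rw [coeffMap_coeff]
    show φ (if h.coeff n = 0 then 0 else s (h.coeff n)) = h.coeff n
    split_ifs with h0
    · rw [map_zero, h0]
    · exact hs _

/-- **Kronecker congruence, section-matrix form**: for EVERY commutative ring `k` of
characteristic `ℓ` and every `h ∈ k((s))`, the characteristic polynomial of multiplication by
`h(s)` on `k((s))` over `k((s^ℓ))` is `X^ℓ - Fr h` (`Fr` = coefficientwise Frobenius). -/
theorem charpoly_secMat_char (h : LaurentSeries k) :
    (secMat ℓ h).charpoly = X ^ ℓ - C (coeffMap (frobenius k ℓ) h) := by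
  let _ : Algebra (ZMod ℓ) k := ZMod.algebra k ℓ
  let φ : MvPolynomial k (ZMod ℓ) →+* k :=
    (MvPolynomial.aeval (R := ZMod ℓ) (fun a : k => a)).toRingHom
  have hφ : Function.Surjective φ := fun a => ⟨MvPolynomial.X a, by simp [φ]⟩
  obtain ⟨g, rfl⟩ := exists_coeffMap_eq φ hφ h
  rw [secMat_coeffMap, Matrix.charpoly_map,
    charpoly_secMat_char_of_isDomain (MvPolynomial k (ZMod ℓ)) ℓ g, Polynomial.map_sub,
    Polynomial.map_pow, map_X, map_C, coeffMap_coeffMap, coeffMap_coeffMap]
  rw [coeffMap_congr (f := φ.comp (frobenius _ ℓ)) (g := (frobenius k ℓ).comp φ)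
    (RingHom.ext fun x => φ.map_frobenius ℓ x) g]

/-- Determinant form: `det (secMat ℓ h) = Fr h` in characteristic `ℓ`. -/
theorem det_secMat_char (h : LaurentSeries k) :
    (secMat ℓ h).det = coeffMap (frobenius k ℓ) h := by
  have hℓ : ℓ ≠ 0 := (Fact.out : ℓ.Prime).ne_zero
  rw [Matrix.det_eq_sign_charpoly_coeff, charpoly_secMat_char, Fintype.card_fin,
    neg_one_pow_char (LaurentSeries k) ℓ, coeff_sub, coeff_X_pow, if_neg (Ne.symm hℓ),
    coeff_C_zero]
  ring

end Kronecker

/-! ### 4. The Hecke polynomial and the norm series of a Laurent series -/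

section Hecke

variable {R : Type*} [CommRing R] (ℓ : ℕ) [NeZero ℓ]

/-- The **Hecke polynomial** at `ℓ` of `h ∈ R((q))`: a monic polynomial of degree `ℓ + 1` with
coefficients in `R((q))` whose image under `q ↦ q^ℓ` is
`(X - h(q^(ℓ^2))) * ∏_{c<ℓ} (X - h(ω^c q))` (`heckePoly_map_qExpand`).  It is defined for every
commutative ring `R`, without roots of unity, and commutes with base change
(`heckePoly_coeffMap`). -/
def heckePoly (h : LaurentSeries R) : (LaurentSeries R)[X] :=
  (X - C (qExpand R ℓ h)) * (secMat ℓ h).charpoly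

/-- The **norm series** at `ℓ` of `h ∈ R((q))`: its image under `q ↦ q^ℓ` is
`h(q^(ℓ^2)) * ∏_{c<ℓ} h(ω^c q)` (`qExpand_heckeNorm`). -/
def heckeNorm (h : LaurentSeries R) : LaurentSeries R :=
  qExpand R ℓ h * (secMat ℓ h).det

theorem heckePoly_monic (h : LaurentSeries R) : (heckePoly ℓ h).Monic :=
  (monic_X_sub_C _).mul (Matrix.charpoly_monic _)

theorem heckePoly_natDegree [Nontrivial R] (h : LaurentSeries R) :
    (heckePoly ℓ h).natDegree = ℓ + 1 := by
  rw [heckePoly, Monic.natDegree_mul (monic_X_sub_C _) (Matrix.charpoly_monic _),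
    natDegree_X_sub_C, Matrix.charpoly_natDegree_eq_dim, Fintype.card_fin, add_comm]

/-- Base change of the Hecke polynomial. -/
theorem heckePoly_coeffMap {S : Type*} [CommRing S] (φ : R →+* S) (h : LaurentSeries R) :
    heckePoly ℓ (coeffMap φ h) = (heckePoly ℓ h).map (coeffMap φ) := by
  rw [heckePoly, heckePoly, Polynomial.map_mul, Polynomial.map_sub, map_X, map_C,
    coeffMap_qExpand, secMat_coeffMap, Matrix.charpoly_map]

/-- Base change of the norm series. -/
theorem heckeNorm_coeffMap {S : Type*} [CommRing S] (φ : R →+* S) (h : LaurentSeries R) :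
    heckeNorm ℓ (coeffMap φ h) = coeffMap φ (heckeNorm ℓ h) := by
  rw [heckeNorm, heckeNorm, map_mul, coeffMap_qExpand, secMat_coeffMap, RingHom.map_det]
  rfl

/-- The constant coefficient of the Hecke polynomial is `± ` the norm series. -/
theorem heckePoly_coeff_zero (h : LaurentSeries R) :
    (heckePoly ℓ h).coeff 0 = (-1) ^ (ℓ + 1) * heckeNorm ℓ h := by
  have h1 : (secMat ℓ h).charpoly.coeff 0 = (-1) ^ ℓ * (secMat ℓ h).det := by
    rw [Matrix.det_eq_sign_charpoly_coeff, Fintype.card_fin, ← mul_assoc, ← pow_add,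
      ← two_mul, pow_mul, neg_one_sq, one_pow, one_mul]
  rw [heckePoly, mul_coeff_zero, h1, coeff_sub, coeff_X_zero, coeff_C_zero, heckeNorm]
  ring

section Field

variable {K : Type*} [Field K]

/-- **Root formula** for the Hecke polynomial over a field with a primitive `ℓ`-th root of unity:
after `q ↦ q^ℓ` its roots are `h(q^(ℓ^2))` and `h(ω^c q)`, `c < ℓ`. -/
theorem heckePoly_map_qExpand (ω : Kˣ) (hω : IsPrimitiveRoot ω ℓ) (h : LaurentSeries K) :
    (heckePoly ℓ h).map (qExpand K ℓ) =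
      (X - C (qExpand K (ℓ * ℓ) h)) * ∏ c : Fin ℓ, (X - C (twist (ω ^ (c : ℕ)) h)) := by
  rw [heckePoly, Polynomial.map_mul, Polynomial.map_sub, map_X, map_C, qExpand_qExpand,
    charpoly_secMat_map ℓ ω hω]

/-- `det (secMat ℓ h)(q^ℓ) = ∏_{c<ℓ} h(ω^c q)`. -/
theorem qExpand_det_secMat (ω : Kˣ) (hω : IsPrimitiveRoot ω ℓ) (h : LaurentSeries K) :
    qExpand K ℓ (secMat ℓ h).det = ∏ c : Fin ℓ, twist (ω ^ (c : ℕ)) h := by
  rw [RingHom.map_det]
  show ((secMat ℓ h).map (qExpand K ℓ)).det = _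
  rw [secMat_map_eq_conj ℓ ω hω, Matrix.det_conj' (isUnit_vand ℓ ω hω), Matrix.det_diagonal]

/-- **Root formula** for the norm series. -/
theorem qExpand_heckeNorm (ω : Kˣ) (hω : IsPrimitiveRoot ω ℓ) (h : LaurentSeries K) :
    qExpand K ℓ (heckeNorm ℓ h) =
      qExpand K (ℓ * ℓ) h * ∏ c : Fin ℓ, twist (ω ^ (c : ℕ)) h := by
  rw [heckeNorm, map_mul, qExpand_qExpand, qExpand_det_secMat ℓ ω hω]

/-- Characterisation: a polynomial whose image under `q ↦ q^ℓ` has the roots `h(q^(ℓ^2))`,
`h(ω^c q)` IS the Hecke polynomial. -/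
theorem eq_heckePoly_of_map_qExpand_eq (ω : Kˣ) (hω : IsPrimitiveRoot ω ℓ) (h : LaurentSeries K)
    (P : (LaurentSeries K)[X])
    (hP : P.map (qExpand K ℓ) =
      (X - C (qExpand K (ℓ * ℓ) h)) * ∏ c : Fin ℓ, (X - C (twist (ω ^ (c : ℕ)) h))) :
    P = heckePoly ℓ h :=
  Polynomial.map_injective (qExpand K ℓ) (qExpand_injective ℓ)
    (hP.trans (heckePoly_map_qExpand ℓ ω hω h).symm)

/-- Characterisation of the norm series. -/
theorem eq_heckeNorm_of_qExpand_eq (ω : Kˣ) (hω : IsPrimitiveRoot ω ℓ) (h g : LaurentSeries K)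
    (hg : qExpand K ℓ g = qExpand K (ℓ * ℓ) h * ∏ c : Fin ℓ, twist (ω ^ (c : ℕ)) h) :
    g = heckeNorm ℓ h :=
  qExpand_injective ℓ (hg.trans (qExpand_heckeNorm ℓ ω hω h).symm)

end Field

section Char

variable (k : Type*) [CommRing k] [Fact ℓ.Prime] [CharP k ℓ]

/-- **Kronecker congruence, Hecke-polynomial form**: in characteristic `ℓ`,
`heckePoly ℓ h = (X - h(q^ℓ)) * (X^ℓ - Fr h)`. -/
theorem heckePoly_char (h : LaurentSeries k) :
    heckePoly ℓ h = (X - C (qExpand k ℓ h)) * (X ^ ℓ - C (coeffMap (frobenius k ℓ) h)) := by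
  rw [heckePoly, charpoly_secMat_char]

/-- **Kronecker congruence, norm form**: in characteristic `ℓ`,
`heckeNorm ℓ h = h(q^ℓ) * Fr h`. -/
theorem heckeNorm_char (h : LaurentSeries k) :
    heckeNorm ℓ h = qExpand k ℓ h * coeffMap (frobenius k ℓ) h := by
  rw [heckeNorm, det_secMat_char]

end Char

end Hecke

/-! ### 5. Integral forms for the consumers -/

section Integral

variable (ℓ : ℕ) [NeZero ℓ]

theorem coeffMap_injective {R S : Type*} [CommRing R] [CommRing S] (φ : R →+* S)
    (hφ : Function.Injective φ) : Function.Injective (coeffMap φ) := by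
  intro x y hxy
  ext n
  apply hφ
  rw [← coeffMap_coeff, ← coeffMap_coeff, hxy]

/-- **Kronecker congruence (integral Hecke-polynomial form).**  `A` any commutative ring (the
valuation ring), `ι : A → K` into a field with a primitive `ℓ`-th root of unity `ω`,
`π : A → k` onto/into a ring of characteristic `ℓ`, `y ∈ A((q))`.  The polynomial
`G = heckePoly ℓ y ∈ A((q))[X]` is monic of degree `ℓ + 1`, its image over `K` has (after
`q ↦ q^ℓ`) the roots `h(q^(ℓ^2))`, `h(ω^c q)` (`h = ι y`), and its reduction is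
`(X - ybar(q^ℓ)) * (X^ℓ - Fr ybar)`. -/
theorem kronecker_heckePoly {A K k : Type*} [CommRing A] [Field K] [CommRing k]
    [Fact ℓ.Prime] [CharP k ℓ] (ι : A →+* K) (π : A →+* k) (ω : Kˣ)
    (hω : IsPrimitiveRoot ω ℓ) (y : LaurentSeries A) :
    (heckePoly ℓ y).Monic ∧
    ((heckePoly ℓ y).map (coeffMap ι)).map (qExpand K ℓ) =
      (X - C (qExpand K (ℓ * ℓ) (coeffMap ι y))) *
        ∏ c : Fin ℓ, (X - C (twist (ω ^ (c : ℕ)) (coeffMap ι y))) ∧
    (heckePoly ℓ y).map (coeffMap π) =
      (X - C (qExpand k ℓ (coeffMap π y))) *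
        (X ^ ℓ - C (coeffMap (frobenius k ℓ) (coeffMap π y))) := by
  refine ⟨heckePoly_monic ℓ y, ?_, ?_⟩
  · rw [← heckePoly_coeffMap, heckePoly_map_qExpand ℓ ω hω]
  · rw [← heckePoly_coeffMap, heckePoly_char]

/-- **Kronecker congruence for an abstractly given Hecke polynomial.**  If `P ∈ K((q))[X]` has
(after `q ↦ q^ℓ`) the roots `h(q^(ℓ^2))`, `h(ω^c q)`, `c < ℓ`, where `h = ι y` has coefficients
in `A`, then `P` has coefficients in `A((q))` and reduces to `(X - ybar(q^ℓ)) * (X^ℓ - Fr ybar)`.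
(This is the form to use with the characteristic polynomial of `α(h)` over `β(F_N)`.) -/
theorem kronecker_of_map_qExpand_eq {A K k : Type*} [CommRing A] [Field K] [CommRing k]
    [Fact ℓ.Prime] [CharP k ℓ] (ι : A →+* K) (π : A →+* k) (ω : Kˣ)
    (hω : IsPrimitiveRoot ω ℓ) (y : LaurentSeries A) (P : (LaurentSeries K)[X])
    (hP : P.map (qExpand K ℓ) =
      (X - C (qExpand K (ℓ * ℓ) (coeffMap ι y))) *
        ∏ c : Fin ℓ, (X - C (twist (ω ^ (c : ℕ)) (coeffMap ι y)))) :
    ∃ G : (LaurentSeries A)[X], G.Monic ∧ G.map (coeffMap ι) = P ∧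
      G.map (coeffMap π) =
        (X - C (qExpand k ℓ (coeffMap π y))) *
          (X ^ ℓ - C (coeffMap (frobenius k ℓ) (coeffMap π y))) := by
  refine ⟨heckePoly ℓ y, heckePoly_monic ℓ y, ?_, (kronecker_heckePoly ℓ ι π ω hω y).2.2⟩
  rw [← heckePoly_coeffMap]
  exact (eq_heckePoly_of_map_qExpand_eq ℓ ω hω _ P hP).symm

/-- **Kronecker congruence, norm form, for an abstractly given norm.**  If `g ∈ K((q))` satisfies
`g(q^ℓ) = h(q^(ℓ^2)) * ∏_{c<ℓ} h(ω^c q)` with `h = ι y`, then `g = ι y₁` with `y₁ ∈ A((q))` and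
`y₁bar = ybar(q^ℓ) * Fr ybar`. -/
theorem kronecker_norm_of_qExpand_eq {A K k : Type*} [CommRing A] [Field K] [CommRing k]
    [Fact ℓ.Prime] [CharP k ℓ] (ι : A →+* K) (π : A →+* k) (ω : Kˣ)
    (hω : IsPrimitiveRoot ω ℓ) (y : LaurentSeries A) (g : LaurentSeries K)
    (hg : qExpand K ℓ g =
      qExpand K (ℓ * ℓ) (coeffMap ι y) * ∏ c : Fin ℓ, twist (ω ^ (c : ℕ)) (coeffMap ι y)) :
    ∃ y₁ : LaurentSeries A, coeffMap ι y₁ = g ∧
      coeffMap π y₁ = qExpand k ℓ (coeffMap π y) * coeffMap (frobenius k ℓ) (coeffMap π y) := by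
  refine ⟨heckeNorm ℓ y, ?_, ?_⟩
  · rw [← heckeNorm_coeffMap]
    exact (eq_heckeNorm_of_qExpand_eq ℓ ω hω _ g hg).symm
  · rw [← heckeNorm_coeffMap, heckeNorm_char]

/-- Perfect residue ring: `ybar(q^ℓ) = (Fr⁻¹ ybar)^ℓ`, so the reduced Hecke polynomial is
`(X - (Fr⁻¹ ybar)^ℓ) * (X^ℓ - Fr ybar)` and the reduced norm is `(Fr⁻¹ ybar)^ℓ * Fr ybar`. -/
theorem qExpand_eq_pow_frobeniusEquiv_symm (k : Type*) [CommRing k] [Fact ℓ.Prime] [CharP k ℓ]
    [PerfectRing k ℓ] (h : LaurentSeries k) :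
    qExpand k ℓ h = (coeffMap ((frobeniusEquiv k ℓ).symm : k →+* k) h) ^ ℓ := by
  rw [laurent_pow_char, coeffMap_coeffMap]
  congr 1
  ext n
  rw [coeffMap_coeff]
  simp

end Integral

/-! ### 6. Product of the twists over a domain, and the congruence modulo an ideal -/

section Domain

variable {R : Type*} [CommRing R] (ℓ : ℕ) [NeZero ℓ]

/-- Over a domain with a primitive `ℓ`-th root of unity `ζ`:
`∏_{c<ℓ} h(ζ^c q) = g(q^ℓ)` with the explicit `g = det (secMat ℓ h) ∈ R((q))`. -/
theorem prod_twist_eq_qExpand_det [IsDomain R] (ζ : Rˣ) (hζ : IsPrimitiveRoot ζ ℓ)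
    (h : LaurentSeries R) :
    ∏ c : Fin ℓ, twist (ζ ^ (c : ℕ)) h = qExpand R ℓ (secMat ℓ h).det := by
  let ι : R →+* FractionRing R := algebraMap R (FractionRing R)
  have hι : Function.Injective ι := IsFractionRing.injective R (FractionRing R)
  have hω : IsPrimitiveRoot (Units.map (ι : R →* FractionRing R) ζ) ℓ :=
    hζ.map_of_injective (Units.map_injective hι)
  apply coeffMap_injective ι hι
  rw [map_prod, coeffMap_qExpand, RingHom.map_det]
  have h1 : (coeffMap ι).mapMatrix (secMat ℓ h) = secMat ℓ (coeffMap ι h) :=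
    (secMat_coeffMap ι ℓ h).symm
  rw [h1, qExpand_det_secMat ℓ _ hω]
  refine Finset.prod_congr rfl fun c _ => ?_
  rw [twist_coeffMap, map_pow]

/-- The same with the product over `Finset.range ℓ`. -/
theorem prod_range_twist_eq_qExpand_det [IsDomain R] (ζ : Rˣ) (hζ : IsPrimitiveRoot ζ ℓ)
    (h : LaurentSeries R) :
    ∏ b ∈ Finset.range ℓ, twist (ζ ^ b) h = qExpand R ℓ (secMat ℓ h).det := by
  rw [← prod_twist_eq_qExpand_det ℓ ζ hζ h, Fin.prod_univ_eq_prod_range (fun b => twist (ζ ^ b) h)]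

/-- **Coefficientwise Kronecker congruence**: for every ideal `I` containing `ℓ`, the series
`g = det (secMat ℓ h)` (for which `g(q^ℓ) = ∏_{c<ℓ} h(ζ^c q)`) satisfies
`g_n ≡ (h_n)^ℓ mod I` for all `n`. -/
theorem coeff_det_secMat_sub_pow_mem [Fact ℓ.Prime] (I : Ideal R) (hI : (ℓ : R) ∈ I)
    (h : LaurentSeries R) (n : ℤ) :
    (secMat ℓ h).det.coeff n - (h.coeff n) ^ ℓ ∈ I := by
  by_cases htop : I = ⊤
  · rw [htop]; exact Submodule.mem_top
  have : Nontrivial (R ⧸ I) := Ideal.Quotient.nontrivial_iff.mpr htop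
  have : CharP (R ⧸ I) ℓ := by
    obtain ⟨c, hc⟩ := CharP.exists (R ⧸ I)
    have h0 : ((ℓ : ℕ) : R ⧸ I) = 0 := by
      have : (Ideal.Quotient.mk I) (ℓ : R) = 0 := Ideal.Quotient.eq_zero_iff_mem.mpr hI
      simpa using this
    have hdvd : c ∣ ℓ := (CharP.cast_eq_zero_iff (R ⧸ I) c ℓ).mp h0
    rcases (Nat.dvd_prime (Fact.out : ℓ.Prime)).mp hdvd with h1 | h1
    · exact absurd h1 (CharP.char_ne_one (R ⧸ I) c)
    · rwa [h1] at hc
  have key := det_secMat_char (R ⧸ I) ℓ (coeffMap (Ideal.Quotient.mk I) h)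
  rw [secMat_coeffMap, ← RingHom.mapMatrix_apply, ← RingHom.map_det] at key
  have key2 := congrArg (fun x : LaurentSeries (R ⧸ I) => x.coeff n) key
  simp only [coeffMap_coeff, frobenius_def] at key2
  rw [← map_pow] at key2
  exact Ideal.Quotient.eq.mp key2

omit [NeZero ℓ] in
/-- `ℓ ∈ (ζ - 1)` as soon as `1 + ζ + ⋯ + ζ^(ℓ-1) = 0`. -/
theorem natCast_mem_span_sub_one (ζ : R) (hζ : ∑ i ∈ Finset.range ℓ, ζ ^ i = 0) :
    (ℓ : R) ∈ Ideal.span {ζ - 1} := by
  have h1 : (ℓ : R) = -∑ i ∈ Finset.range ℓ, (ζ ^ i - 1) := by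
    rw [Finset.sum_sub_distrib, hζ]
    simp
  rw [h1]
  refine neg_mem (Ideal.sum_mem _ fun i _ => ?_)
  exact Ideal.mem_span_singleton.mpr (sub_one_dvd_pow_sub_one ζ i)

/-- Coefficientwise Kronecker congruence modulo `(ζ - 1)`, `ζ` a primitive `ℓ`-th root of unity
in a domain: the unique `g` with `g(q^ℓ) = ∏_{b<ℓ} h(ζ^b q)` (namely `det (secMat ℓ h)`) has
`g_n ≡ (h_n)^ℓ mod (ζ - 1)`. -/
theorem coeff_det_secMat_sub_pow_mem_span [IsDomain R] [Fact ℓ.Prime] (ζ : Rˣ)
    (hζ : IsPrimitiveRoot ζ ℓ) (h : LaurentSeries R) (n : ℤ) :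
    (secMat ℓ h).det.coeff n - (h.coeff n) ^ ℓ ∈ Ideal.span {(ζ : R) - 1} := by
  refine coeff_det_secMat_sub_pow_mem ℓ _ (natCast_mem_span_sub_one ℓ (ζ : R) ?_) h n
  have h1 : IsPrimitiveRoot (ζ : R) ℓ := hζ.map_of_injective (f := Units.coeHom R) Units.val_injective
  exact h1.geom_sum_eq_zero (Fact.out : ℓ.Prime).one_lt

/-- Reduction of `g = det (secMat ℓ y)`: for `π : A → k`, `k` of characteristic `ℓ`,
`π g = Fr (π y)`. -/
theorem coeffMap_det_secMat {k : Type*} [CommRing k] [Fact ℓ.Prime] [CharP k ℓ] (π : R →+* k)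
    (y : LaurentSeries R) :
    coeffMap π (secMat ℓ y).det = coeffMap (frobenius k ℓ) (coeffMap π y) := by
  rw [← det_secMat_char, secMat_coeffMap, RingHom.map_det]
  rfl

/-- Root formula for the section matrix over a domain with a primitive `ℓ`-th root of unity. -/
theorem charpoly_secMat_map_of_isDomain [IsDomain R] (ζ : Rˣ) (hζ : IsPrimitiveRoot ζ ℓ)
    (h : LaurentSeries R) :
    ((secMat ℓ h).charpoly).map (qExpand R ℓ) =
      ∏ c : Fin ℓ, (X - C (twist (ζ ^ (c : ℕ)) h)) := by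
  let ι : R →+* FractionRing R := algebraMap R (FractionRing R)
  have hι : Function.Injective ι := IsFractionRing.injective R (FractionRing R)
  have hω : IsPrimitiveRoot (Units.map (ι : R →* FractionRing R) ζ) ℓ :=
    hζ.map_of_injective (Units.map_injective hι)
  apply Polynomial.map_injective (coeffMap ι) (coeffMap_injective ι hι)
  have hcomm : (coeffMap ι).comp (qExpand R ℓ) = (qExpand (FractionRing R) ℓ).comp (coeffMap ι) :=
    RingHom.ext fun x => coeffMap_qExpand ι ℓ x
  rw [Polynomial.map_map, hcomm, ← Polynomial.map_map, ← Matrix.charpoly_map, ← secMat_coeffMap,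
    charpoly_secMat_map ℓ _ hω, Polynomial.map_prod]
  refine Finset.prod_congr rfl fun c _ => ?_
  rw [Polynomial.map_sub, map_X, map_C, twist_coeffMap, map_pow]

/-- Root formula for the Hecke polynomial over a domain with a primitive `ℓ`-th root of unity. -/
theorem heckePoly_map_qExpand_of_isDomain [IsDomain R] (ζ : Rˣ) (hζ : IsPrimitiveRoot ζ ℓ)
    (h : LaurentSeries R) :
    (heckePoly ℓ h).map (qExpand R ℓ) =
      (X - C (qExpand R (ℓ * ℓ) h)) * ∏ c : Fin ℓ, (X - C (twist (ζ ^ (c : ℕ)) h)) := by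
  rw [heckePoly, Polynomial.map_mul, Polynomial.map_sub, map_X, map_C, qExpand_qExpand,
    charpoly_secMat_map_of_isDomain ℓ ζ hζ]

end Domain

end

end Fermat.Agent.S37.helper6826
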