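/-
S37, board row 714 "S37-HI-MOD" (helper5162): the MODULAR-SPECIFIC half of
`ModularCurve.HeckeInputsAlong (AlgebraicClosure ℚ) N ℓ`.

For `K = ℚ̄` and all levels `N`, `ℓ` (only `NeZero`, no primality or coprimality needed):

* `finiteDimensional_jBar`   : `F_N` is finite over `ℚ̄(j)` (re-export of S24, `Stmt_JFinrank`);
* `hasPrincipalDivisors_FN`  : instance `HasPrincipalDivisors ℚ̄ F_M` at every level `M`;
* `finiteAlong_heckeAlphaBar`, `finiteAlong_heckeBetaBar` : `F_{Nℓ}` is finite over `F_N` along
  both degeneracy maps `α` (inclusion) and `β` (`q ↦ q^ℓ`);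
* `heckeAlphaBarIntegral`, `heckeBetaBarIntegral` : both maps are integral;
* `residueField_surjective`, `place_deg_eq_one` : every place of `F_M` has residue field `ℚ̄`;
* `heckeInputsAlong_of` : `HeckeInputsAlong ℚ̄ N ℓ` from the two remaining GENERIC facts
  (fundamental identity along `β`, norm formula along `α`);
* `heckeInputsAlong_of_stmt` : the same from the generic statements `Stmt_FIAlong`, `Stmt_NFAlong`
  (any finite extension of function fields over an algebraically closed field of char. 0).

Generic lemmas (any fields): `finiteAlong_of_finiteDimensional`, `isIntegral_of_finiteAlong`.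
-/
import Fermat.Statements.S37
import Fermat.Agent.S24.helper167_JFinrank
import Fermat.Agent.S24.helper6180_EvDatum
import Fermat.Agent.S24.helper1200_StmtLocalInf
import Fermat.Agent.S24.helper3176_FieldAlg
import Fermat.Agent.S24.helper2549_Exchange
import Fermat.Agent.S24.helper204_Places
import Fermat.Agent.S24.helper489_Residue

set_option autoImplicit false

open ModularCurve AlgebraicCurve IntermediateField

namespace Fermat.Agent.S37.helper5162

open Fermat.Agent.S24.helper24

/-! ## Generic: finiteness and integrality along an algebra hom -/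

section Generic

variable {K F F' : Type*} [Field K] [Field F] [Field F'] [Algebra K F] [Algebra K F']

/-- If `F'` is finite over `K(φ x)` for some `x : F`, then `F'` is finite over `F` along `φ`. -/
theorem finiteAlong_of_finiteDimensional (φ : F →ₐ[K] F') (x : F)
    [FiniteDimensional K⟮φ x⟯ F'] : FiniteAlong K φ := by
  letI := algebraAlong φ
  show Module.Finite F F'
  obtain ⟨s, hs⟩ := (Module.Finite.fg_top : (⊤ : Submodule K⟮φ x⟯ F').FG)
  refine ⟨⟨s, ?_⟩⟩
  rw [eq_top_iff]
  intro y _
  have hy : y ∈ Submodule.span K⟮φ x⟯ (s : Set F') := by rw [hs]; trivial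
  have hle : K⟮φ x⟯ ≤ φ.fieldRange :=
    adjoin_simple_le_iff.mpr ⟨x, rfl⟩
  refine Submodule.span_induction (p := fun z _ => z ∈ Submodule.span F (s : Set F'))
    ?_ ?_ ?_ ?_ hy
  · intro z hz
    exact Submodule.subset_span hz
  · exact Submodule.zero_mem _
  · intro a b _ _ ha hb
    exact Submodule.add_mem _ ha hb
  · intro c z _ hz
    obtain ⟨c', hc'⟩ : ∃ c' : F, φ c' = (c : F') := hle c.2
    have h1 : c • z = c' • z := by
      rw [Algebra.smul_def, Algebra.smul_def]
      show (c : F') * z = φ c' * z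
      rw [hc']
    rw [h1]
    exact Submodule.smul_mem _ _ hz

/-- Finite along `φ` implies integral. -/
theorem isIntegral_of_finiteAlong (φ : F →ₐ[K] F') (h : FiniteAlong K φ) :
    φ.toRingHom.IsIntegral := by
  letI := algebraAlong φ
  haveI : Module.Finite F F' := h
  intro y
  exact Algebra.IsIntegral.isIntegral (R := F) y

/-- Transcendence is preserved by algebra homs of fields. -/
theorem transcendental_algHom (φ : F →ₐ[K] F') {x : F} (hx : Transcendental K x) :
    Transcendental K (φ x) := fun h =>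
  hx ((isAlgebraic_algHom_iff φ φ.toRingHom.injective).mp h)

end Generic

/-! ## The modular function fields -/

section Modular

/-- `[F_N : ℚ̄(j)] = [SL₂(ℤ) : Γ₀(N)]` (S24), from modules of the landed S24 closure. -/
theorem stmt_JFinrank : Stmt_JFinrank :=
  Fermat.Agent.S24.helper167.stmt_JFinrank_of
    (fun N _ => Fermat.Agent.S24.helper6180.evDatum N) Fermat.Agent.S24.helper1200.stmt_LocalInf

instance finiteDimensional_jBar (N : ℕ) [NeZero N] : FiniteDimensional Kbar⟮jBar N⟯ (FN N) :=
  (stmt_JFinrank N).1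

/-- Principal divisors exist (and have degree zero) on every modular function field. -/
instance hasPrincipalDivisors_FN (N : ℕ) [NeZero N] : HasPrincipalDivisors Kbar (FN N) :=
  Fermat.Agent.S24.helper204.hasPrincipalDivisors (jBar N)
    (Fermat.Agent.S24.helper3176.transcendental_jBar N)

/-- The residue field of every place of a modular function field is `ℚ̄` (S24 `Stmt_ResidueK`). -/
theorem residueField_surjective (N : ℕ) [NeZero N] (w : Place Kbar (FN N)) :
    Function.Surjective (algebraMap Kbar w.ResidueField) :=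
  Fermat.Agent.S24.helper489.stmt_ResidueK Kbar (FN N) (jBar N)
    (Fermat.Agent.S24.helper3176.transcendental_jBar N) w

/-- Every place of a modular function field has degree one. -/
theorem place_deg_eq_one (N : ℕ) [NeZero N] (w : Place Kbar (FN N)) : w.deg = 1 :=
  Fermat.Agent.S24.helper204.place_deg_eq_one (jBar N)
    (Fermat.Agent.S24.helper3176.transcendental_jBar N) w

variable (N ℓ : ℕ) [NeZero N] [NeZero ℓ]

theorem heckeAlphaBar_jBar : heckeAlphaBar Kbar N ℓ (jBar N) = jBar (N * ℓ) := by
  apply Subtype.ext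
  rw [coe_heckeAlphaBar, coe_jBar, coe_jBar]

theorem heckeBetaBar_jBar :
    heckeBetaBar Kbar N ℓ (jBar N) = jBarD (N * ℓ) ℓ (dvd_mul_left ℓ N) := by
  apply Subtype.ext
  rw [coe_heckeBetaBar, coe_jBar, Fermat.Agent.S24.helper3176.coe_jBarD,
    Fermat.Agent.S24.helper3176.jSeries_eq_qExpand]

/-- `j(q^ℓ)` is transcendental over `ℚ̄`. -/
theorem transcendental_heckeBetaBar_jBar :
    Transcendental Kbar (heckeBetaBar Kbar N ℓ (jBar N)) :=
  transcendental_algHom _ (Fermat.Agent.S24.helper3176.transcendental_jBar N)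

instance finiteDimensional_heckeAlphaBar_jBar :
    FiniteDimensional Kbar⟮heckeAlphaBar Kbar N ℓ (jBar N)⟯ (FN (N * ℓ)) := by
  rw [heckeAlphaBar_jBar]
  infer_instance

instance finiteDimensional_heckeBetaBar_jBar :
    FiniteDimensional Kbar⟮heckeBetaBar Kbar N ℓ (jBar N)⟯ (FN (N * ℓ)) :=
  Fermat.Agent.S24.helper2549.exchange (jBar (N * ℓ)) _ (transcendental_heckeBetaBar_jBar N ℓ)

/-- `F_{Nℓ}` is finite over `F_N` along the inclusion `α`. -/
theorem finiteAlong_heckeAlphaBar : FiniteAlong Kbar (heckeAlphaBar Kbar N ℓ) :=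
  finiteAlong_of_finiteDimensional _ (jBar N)

/-- `F_{Nℓ}` is finite over `F_N` along `β : q ↦ q^ℓ`. -/
theorem finiteAlong_heckeBetaBar : FiniteAlong Kbar (heckeBetaBar Kbar N ℓ) :=
  finiteAlong_of_finiteDimensional _ (jBar N)

theorem heckeAlphaBarIntegral : HeckeAlphaBarIntegral Kbar N ℓ :=
  isIntegral_of_finiteAlong _ (finiteAlong_heckeAlphaBar N ℓ)

theorem heckeBetaBarIntegral : HeckeBetaBarIntegral Kbar N ℓ :=
  isIntegral_of_finiteAlong _ (finiteAlong_heckeBetaBar N ℓ)

/-- `HeckeInputsAlong ℚ̄ N ℓ` from the two remaining generic facts. -/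
theorem heckeInputsAlong_of
    (hFI : FundamentalIdentityAlong Kbar (heckeBetaBar Kbar N ℓ) (heckeBetaBarIntegral N ℓ))
    (hNF : NormFormulaAlong Kbar (heckeAlphaBar Kbar N ℓ) (finiteAlong_heckeAlphaBar N ℓ)) :
    HeckeInputsAlong Kbar N ℓ :=
  ⟨heckeAlphaBarIntegral N ℓ, heckeBetaBarIntegral N ℓ, inferInstance,
    finiteAlong_heckeAlphaBar N ℓ, hFI, hNF⟩

end Modular

/-! ## Assembly from the generic statements -/

/-- Generic fundamental identity along a finite algebra hom of function fields over an
algebraically closed field of characteristic zero (`x` transcendental, `F` finite over `K(x)`,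
`F'` finite over `F` along `φ`, and finite over `K(φ x)`). -/
def Stmt_FIAlong : Prop :=
  ∀ (K F F' : Type) [Field K] [Field F] [Field F'] [Algebra K F] [Algebra K F']
    [IsAlgClosed K] [CharZero K] (x : F), Transcendental K x → ∀ [FiniteDimensional K⟮x⟯ F]
    (φ : F →ₐ[K] F') [FiniteDimensional K⟮φ x⟯ F'] [HasPrincipalDivisors K F]
    [HasPrincipalDivisors K F'] (hφ : φ.toRingHom.IsIntegral), FiniteAlong K φ →
    FundamentalIdentityAlong K φ hφ

/-- Generic norm formula along a finite algebra hom of function fields (same setting). -/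
def Stmt_NFAlong : Prop :=
  ∀ (K F F' : Type) [Field K] [Field F] [Field F'] [Algebra K F] [Algebra K F']
    [IsAlgClosed K] [CharZero K] (x : F), Transcendental K x → ∀ [FiniteDimensional K⟮x⟯ F]
    (φ : F →ₐ[K] F') [FiniteDimensional K⟮φ x⟯ F'] [HasPrincipalDivisors K F]
    [HasPrincipalDivisors K F'] (hfin : FiniteAlong K φ), NormFormulaAlong K φ hfin

/-- **`HeckeInputsAlong ℚ̄ N ℓ` for all `N`, `ℓ`**, from the two generic statements. -/
theorem heckeInputsAlong_of_stmt (hFI : Stmt_FIAlong) (hNF : Stmt_NFAlong)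
    (N ℓ : ℕ) [NeZero N] [NeZero ℓ] : HeckeInputsAlong Kbar N ℓ :=
  heckeInputsAlong_of N ℓ
    (hFI Kbar (FN N) (FN (N * ℓ)) (jBar N) (Fermat.Agent.S24.helper3176.transcendental_jBar N)
      (heckeBetaBar Kbar N ℓ) (heckeBetaBarIntegral N ℓ) (finiteAlong_heckeBetaBar N ℓ))
    (hNF Kbar (FN N) (FN (N * ℓ)) (jBar N) (Fermat.Agent.S24.helper3176.transcendental_jBar N)
      (heckeAlphaBar Kbar N ℓ) (finiteAlong_heckeAlphaBar N ℓ))

/-- With the inputs, the Hecke operator of the Prelude is the honest correspondence. -/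
theorem heckeOperatorAlong_eq_of (N ℓ : ℕ) [NeZero N] [NeZero ℓ]
    (hFI : FundamentalIdentityAlong Kbar (heckeBetaBar Kbar N ℓ) (heckeBetaBarIntegral N ℓ))
    (hNF : NormFormulaAlong Kbar (heckeAlphaBar Kbar N ℓ) (finiteAlong_heckeAlphaBar N ℓ)) :
    heckeOperatorAlong Kbar N ℓ =
      heckePic0Bar (heckeAlphaBarIntegral N ℓ) (heckeBetaBarIntegral N ℓ) hFI
        (finiteAlong_heckeAlphaBar N ℓ) hNF :=
  heckeOperatorAlong_eq _ _ hFI _ hNF

end Fermat.Agent.S37.helper5162
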