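import Fermat.Agent.S37.helper8426_RelNorm
import Fermat.Agent.S37.helper5162_HeckeInputsModular

/-!
# S37 (helper8426, board row 694): `HeckeInputsAlong ℚ̄ N ℓ` for all `N`, `ℓ`

Assembly of the modular half (`helper5162_HeckeInputsModular`: integrality, finiteness,
principal divisors, residue fields) with the generic relative facts
(`helper8426_RelNorm`: fundamental identity and norm formula).
-/

set_option autoImplicit false

open ModularCurve AlgebraicCurve

namespace Fermat.Agent.S37.helper8426

/-- **All inputs of the Hecke correspondence `T_ℓ` on `X₀(N)` over `ℚ̄`**, for every level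
`N` and every `ℓ` (only `NeZero`; no primality or coprimality). -/
theorem heckeInputsAlong (N ℓ : ℕ) [NeZero N] [NeZero ℓ] :
    HeckeInputsAlong (AlgebraicClosure ℚ) N ℓ :=
  Fermat.Agent.S37.helper5162.heckeInputsAlong_of N ℓ
    (fundamentalIdentityAlong _ _ (Fermat.Agent.S37.helper5162.finiteAlong_heckeBetaBar N ℓ)
      (Fermat.Agent.S37.helper5162.residueField_surjective (N * ℓ)))
    (normFormulaAlong _ _ (Fermat.Agent.S37.helper5162.residueField_surjective (N * ℓ)))

/-- The fundamental identity along `β : q ↦ q^ℓ`. -/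
theorem fundamentalIdentityAlong_heckeBetaBar (N ℓ : ℕ) [NeZero N] [NeZero ℓ] :
    FundamentalIdentityAlong (AlgebraicClosure ℚ) (heckeBetaBar (AlgebraicClosure ℚ) N ℓ)
      (Fermat.Agent.S37.helper5162.heckeBetaBarIntegral N ℓ) :=
  fundamentalIdentityAlong _ _ (Fermat.Agent.S37.helper5162.finiteAlong_heckeBetaBar N ℓ)
    (Fermat.Agent.S37.helper5162.residueField_surjective (N * ℓ))

/-- The fundamental identity along the inclusion `α`. -/
theorem fundamentalIdentityAlong_heckeAlphaBar (N ℓ : ℕ) [NeZero N] [NeZero ℓ] :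
    FundamentalIdentityAlong (AlgebraicClosure ℚ) (heckeAlphaBar (AlgebraicClosure ℚ) N ℓ)
      (Fermat.Agent.S37.helper5162.heckeAlphaBarIntegral N ℓ) :=
  fundamentalIdentityAlong _ _ (Fermat.Agent.S37.helper5162.finiteAlong_heckeAlphaBar N ℓ)
    (Fermat.Agent.S37.helper5162.residueField_surjective (N * ℓ))

/-- The norm formula along the inclusion `α`. -/
theorem normFormulaAlong_heckeAlphaBar (N ℓ : ℕ) [NeZero N] [NeZero ℓ] :
    NormFormulaAlong (AlgebraicClosure ℚ) (heckeAlphaBar (AlgebraicClosure ℚ) N ℓ)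
      (Fermat.Agent.S37.helper5162.finiteAlong_heckeAlphaBar N ℓ) :=
  normFormulaAlong _ _ (Fermat.Agent.S37.helper5162.residueField_surjective (N * ℓ))

/-- The norm formula along `β : q ↦ q^ℓ`. -/
theorem normFormulaAlong_heckeBetaBar (N ℓ : ℕ) [NeZero N] [NeZero ℓ] :
    NormFormulaAlong (AlgebraicClosure ℚ) (heckeBetaBar (AlgebraicClosure ℚ) N ℓ)
      (Fermat.Agent.S37.helper5162.finiteAlong_heckeBetaBar N ℓ) :=
  normFormulaAlong _ _ (Fermat.Agent.S37.helper5162.residueField_surjective (N * ℓ))

end Fermat.Agent.S37.helper8426
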