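/-
S37, board row 845 "S37-BETA-ADAPT" (helper9343): the modular adapter for the generic
Picard-injectivity leaf.

`Kbar = ℚ̄`, `FN M = modularFunctionFieldBar M`, `β = heckeBetaBar Kbar N m` (`q ↦ q^m`).

* `qPlace M : Place Kbar (FN M)` : the `q`-adic place (the cusp `∞`), with
  `qPlace_ord : (qPlace M).ord f = (f : LaurentSeries Kbar).order` for `f ≠ 0`;
* `qPlace_ord_heckeBetaBar : (qPlace (N * m)).ord (β f) = m * (qPlace N).ord f`;
* `ramificationIndexAlong_heckeBetaBar : (qPlace (N * m)).ramificationIndexAlong β = m`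
  (all `N`, all `m ≠ 0`).

The degree bound `finrankAlong β < 2 * m` for `m ∈ {4, 9}` lives in `helper9343_BetaDegree`.
-/
import Fermat.Agent.S37.helper5162_HeckeInputsModular
import Fermat.Agent.S24.helper1370_PlaceBasics

set_option autoImplicit false

open ModularCurve AlgebraicCurve IntermediateField

namespace Fermat.Agent.S37.helper9343

open Fermat.Agent.S24.helper24

/-! ## The `q`-adic valuation of `ℚ̄((q))` -/

/-- The `q`-adic valuation of `ℚ̄((q))`. -/
noncomputable def qVal : AddValuation (LaurentSeries Kbar) (WithTop ℤ) :=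
  HahnSeries.addVal ℤ Kbar

theorem qVal_apply (x : LaurentSeries Kbar) : qVal x = x.orderTop := HahnSeries.addVal_apply

theorem qVal_apply_of_ne {x : LaurentSeries Kbar} (hx : x ≠ 0) :
    qVal x = ((x.order : ℤ) : WithTop ℤ) := HahnSeries.addVal_apply_of_ne hx

theorem qVal_algebraMap (a : Kbar) (ha : a ≠ 0) :
    qVal (algebraMap Kbar (LaurentSeries Kbar) a) = 0 := by
  rw [qVal_apply, algebraMap_laurentSeries_eq_single]
  exact HahnSeries.orderTop_single ha

/-- The `q`-order of `qExpand m x` is `m` times the `q`-order of `x`. -/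
theorem orderTop_qExpand (m : ℕ) [NeZero m] (x : LaurentSeries Kbar) :
    (qExpand Kbar m x).orderTop = WithTop.map (fun k : ℤ => (m : ℤ) * k) x.orderTop :=
  HahnSeries.orderTop_embDomain

theorem order_qExpand (m : ℕ) [NeZero m] {x : LaurentSeries Kbar} (hx : x ≠ 0) :
    (qExpand Kbar m x).order = (m : ℤ) * x.order := by
  have hx' : qExpand Kbar m x ≠ 0 := (map_ne_zero_iff _ (qExpand_injective m)).mpr hx
  have h1 := orderTop_qExpand m x
  rw [← HahnSeries.order_eq_orderTop_of_ne_zero hx',
    ← HahnSeries.order_eq_orderTop_of_ne_zero hx, WithTop.map_coe] at h1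
  exact_mod_cast h1

/-- The formal `j` has a simple pole at `q = 0`. -/
theorem orderTop_coeffEmb_jq : (coeffEmb Kbar jq).orderTop = ((-1 : ℤ) : WithTop ℤ) := by
  apply HahnSeries.orderTop_eq_of_le
  · rw [HahnSeries.mem_support, coeffEmb_coeff, coeff_jq_neg_one, map_one]
    exact one_ne_zero
  · intro k hk
    by_contra hlt
    push Not at hlt
    rw [HahnSeries.mem_support, coeffEmb_coeff, coeff_jq_of_lt hlt, map_zero] at hk
    exact hk rfl

theorem coeffEmb_jq_ne_zero : coeffEmb Kbar jq ≠ 0 := by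
  intro h
  have h1 := orderTop_coeffEmb_jq
  rw [h, HahnSeries.orderTop_zero] at h1
  exact WithTop.top_ne_coe h1

/-! ## The `q`-adic place of the modular function field -/

variable (M : ℕ)

theorem jBar_ne_zero : jBar M ≠ 0 := by
  intro h
  apply coeffEmb_jq_ne_zero
  rw [← coe_jBar M, h]
  rfl

theorem qVal_jBar : qVal ((modularFunctionFieldBar M).val (jBar M)) = ((-1 : ℤ) : WithTop ℤ) := by
  show qVal ((jBar M : FN M) : LaurentSeries Kbar) = _
  rw [coe_jBar, qVal_apply, orderTop_coeffEmb_jq]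

theorem qPlace_nontrivial :
    ∃ f : FN M, f ≠ 0 ∧ qVal ((modularFunctionFieldBar M).val f) ≠ 0 := by
  refine ⟨jBar M, jBar_ne_zero M, ?_⟩
  rw [qVal_jBar]
  exact WithTop.coe_ne_zero.mpr (by norm_num)

/-- **The `q`-adic place** (the cusp `∞`) of the modular function field of level `M`. -/
noncomputable def qPlace : Place Kbar (FN M) :=
  Fermat.Agent.S24.helper1370.ofAlgHom qVal qVal_algebraMap (modularFunctionFieldBar M).val
    (qPlace_nontrivial M)

theorem qPlace_index :
    Fermat.Agent.S24.helper1370.algHomIndex qVal (modularFunctionFieldBar M).val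
      (qPlace_nontrivial M) = 1 := by
  have h := Fermat.Agent.S24.helper1370.algHomIndex_mul_ord qVal qVal_algebraMap
    (modularFunctionFieldBar M).val (qPlace_nontrivial M) (jBar_ne_zero M) (qVal_jBar M)
  have hpos := Fermat.Agent.S24.helper1370.algHomIndex_pos qVal (modularFunctionFieldBar M).val
    (qPlace_nontrivial M)
  have hdvd : ((Fermat.Agent.S24.helper1370.algHomIndex qVal (modularFunctionFieldBar M).val
      (qPlace_nontrivial M) : ℕ) : ℤ) ∣ -1 := ⟨_, h.symm⟩
  have h1 : ((Fermat.Agent.S24.helper1370.algHomIndex qVal (modularFunctionFieldBar M).val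
      (qPlace_nontrivial M) : ℕ) : ℤ) ∣ 1 := (dvd_neg).mp hdvd
  have h2 := Int.natCast_dvd_natCast.mp (by exact_mod_cast h1 :
    ((Fermat.Agent.S24.helper1370.algHomIndex qVal (modularFunctionFieldBar M).val
      (qPlace_nontrivial M) : ℕ) : ℤ) ∣ ((1 : ℕ) : ℤ))
  exact Nat.dvd_one.mp h2

/-- The order at the `q`-adic place is the `q`-order of the `q`-expansion. -/
theorem qPlace_ord_orderTop {f : FN M} (hf : f ≠ 0) :
    (((qPlace M).ord f : ℤ) : WithTop ℤ) = (f : LaurentSeries Kbar).orderTop := by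
  have h := Fermat.Agent.S24.helper1370.ofAlgHom_apply qVal qVal_algebraMap
    (modularFunctionFieldBar M).val (qPlace_nontrivial M) hf
  rw [qPlace_index, Nat.cast_one, one_mul] at h
  rw [← qVal_apply]
  exact h.symm

theorem coe_ne_zero {f : FN M} (hf : f ≠ 0) : (f : LaurentSeries Kbar) ≠ 0 := fun h =>
  hf (Subtype.ext h)

/-- The order at the `q`-adic place is the `q`-order of the `q`-expansion. -/
theorem qPlace_ord {f : FN M} (hf : f ≠ 0) :
    (qPlace M).ord f = (f : LaurentSeries Kbar).order := by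
  have h := qPlace_ord_orderTop M hf
  rw [← HahnSeries.order_eq_orderTop_of_ne_zero (coe_ne_zero M hf)] at h
  exact_mod_cast h

theorem qPlace_ord_jBar : (qPlace M).ord (jBar M) = -1 := by
  have h := qPlace_ord_orderTop M (jBar_ne_zero M)
  rw [coe_jBar, orderTop_coeffEmb_jq] at h
  exact_mod_cast h

theorem qPlace_ord_jBar_inv : (qPlace M).ord (jBar M)⁻¹ = 1 := by
  rw [Place.ord_inv, qPlace_ord_jBar]
  norm_num

/-! ## Ramification of `β : q ↦ q^m` at the `q`-adic place -/

variable (N m : ℕ) [NeZero N] [NeZero m]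

omit [NeZero N] in
/-- `ord_∞(β f) = m · ord_∞(f)`. -/
theorem qPlace_ord_heckeBetaBar {f : FN N} (hf : f ≠ 0) :
    (qPlace (N * m)).ord (heckeBetaBar Kbar N m f) = (m : ℤ) * (qPlace N).ord f := by
  have hβ : heckeBetaBar Kbar N m f ≠ 0 :=
    (map_ne_zero_iff _ (heckeBetaBar Kbar N m).toRingHom.injective).mpr hf
  rw [qPlace_ord (N * m) hβ, qPlace_ord N hf, coe_heckeBetaBar,
    order_qExpand m (coe_ne_zero N hf)]

omit [NeZero N] in
/-- **The cusp `∞` is totally ramified along `β : q ↦ q^m`**: its ramification index is `m`. -/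
theorem ramificationIndexAlong_heckeBetaBar :
    (qPlace (N * m)).ramificationIndexAlong (heckeBetaBar Kbar N m) = m := by
  let _ := algebraAlong (heckeBetaBar Kbar N m)
  show (qPlace (N * m)).ramificationIndex (FN N) = m
  unfold Place.ramificationIndex
  have hm : 0 < m := Nat.pos_of_ne_zero (NeZero.ne m)
  apply le_antisymm
  · apply Nat.sInf_le
    refine ⟨hm, (jBar N)⁻¹, inv_ne_zero (jBar_ne_zero N), ?_⟩
    show (qPlace (N * m)).ord (heckeBetaBar Kbar N m (jBar N)⁻¹) = m
    rw [qPlace_ord_heckeBetaBar N m (inv_ne_zero (jBar_ne_zero N)), qPlace_ord_jBar_inv, mul_one]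
  · apply le_csInf
    · refine ⟨m, hm, (jBar N)⁻¹, inv_ne_zero (jBar_ne_zero N), ?_⟩
      show (qPlace (N * m)).ord (heckeBetaBar Kbar N m (jBar N)⁻¹) = m
      rw [qPlace_ord_heckeBetaBar N m (inv_ne_zero (jBar_ne_zero N)), qPlace_ord_jBar_inv,
        mul_one]
    · rintro n ⟨hn, f, hf, hord⟩
      have hord' : (qPlace (N * m)).ord (heckeBetaBar Kbar N m f) = n := hord
      rw [qPlace_ord_heckeBetaBar N m hf] at hord'
      have hpos : 0 < (qPlace N).ord f := by
        by_contra hle
        push Not at hle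
        have : (m : ℤ) * (qPlace N).ord f ≤ 0 :=
          mul_nonpos_of_nonneg_of_nonpos (by positivity) hle
        omega
      have : (m : ℤ) ≤ (m : ℤ) * (qPlace N).ord f := by nlinarith
      omega

end Fermat.Agent.S37.helper9343
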