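/-
S37, board row 845 "S37-BETA-ADAPT", part 2 (helper9343): the DEGREE of `β : q ↦ q^m`.

`Kbar = ℚ̄`, `FN M = modularFunctionFieldBar M ⊆ ℚ̄((q))`, `β = heckeBetaBar Kbar N m`.

* `finrankAlong_eq_relfinrank` : `finrankAlong Kbar β = [F_{Nm} : V_m F_N]` as a relative rank of
  intermediate fields of `ℚ̄((q))` (`V_m = qExpandAlgHomC Kbar m`);
* `relfinrank_J` : `[F_M : ℚ̄(j)] = ψ(M)` in the same language (S24 + index of `Γ₀(M)`);
* `finrankAlong_prime_mul_le` : `finrankAlong Kbar (β_p) * ψ(N) ≤ ψ(N p)` for `p` prime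
  (the `V_p`-trick: `[ℚ̄(j, j_p) : ℚ̄(j_p)] ≤ p + 1 = [ℚ̄(j, j_p) : ℚ̄(j)]`, from the transposed
  modular equation `Φ_p(j_p, j) = 0` of S28);
* `finrankAlong_prime_sq_mul_le` : `finrankAlong Kbar (β_{p²}) * ψ(N) ≤ ψ(N p²)`;
* `finrankAlong_prime_sq_lt` : `finrankAlong Kbar (β_{p²}) < 2 p²`;
* `exists_place_finrankAlong_lt` (and the instances `m = 4`, `m = 9`):
  `∃ w : Place Kbar (FN (N * m)), finrankAlong Kbar β < 2 * w.ramificationIndexAlong β`,
  the hypothesis shape of the generic Picard-injectivity leaf (`w` is the cusp `∞`).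
-/
import Fermat.Agent.S37.helper9343_BetaAdapter
import Fermat.Agent.S28.helper508_FormalPrime
import Fermat.Agent.S28.helper28_PrimeIrr
import Fermat.Agent.Lib.helper1356_Gamma0Index

set_option autoImplicit false

open ModularCurve AlgebraicCurve IntermediateField Polynomial

namespace Fermat.Agent.S37.helper9343

open Fermat.Agent.S24.helper24

noncomputable section

/-! ## Generic toolkit -/

section Toolkit

variable {F E : Type*} [Field F] [Field E] [Algebra F E]

/-- Upper bound for a simple extension by a root of a monic polynomial over `S`. -/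
theorem relfinrank_sup_simple_le (S : IntermediateField F E) {x : E} {P : (S : Type _)[X]}
    (hP : P.Monic) (hroot : Polynomial.aeval x P = 0) :
    S.relfinrank (S ⊔ F⟮x⟯) ≤ P.natDegree := by
  have hint : IsIntegral S x := ⟨P, hP, by rw [← Polynomial.aeval_def]; exact hroot⟩
  have h : S ≤ S ⊔ F⟮x⟯ := le_sup_left
  rw [relfinrank_eq_finrank_of_le h]
  have e : extendScalars h = IntermediateField.adjoin S {x} := by
    apply IntermediateField.restrictScalars_injective F
    rw [extendScalars_restrictScalars, restrictScalars_adjoin_eq_sup]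
  rw [e, adjoin.finrank hint]
  exact Polynomial.natDegree_le_of_dvd (minpoly.dvd S x hroot) hP.ne_zero

variable {K F' : Type*} [Field K] [Field F'] [Algebra K E] [Algebra K F']

/-- The degree along an algebra hom is the degree over its range. -/
theorem finrankAlong_eq_finrank_fieldRange (φ : E →ₐ[K] F') :
    finrankAlong K φ = Module.finrank ↥φ.fieldRange F' := by
  let _ := algebraAlong φ
  show Module.finrank E F' = _
  refine Algebra.finrank_eq_of_equiv_equiv
    (show E ≃+* ↥φ.fieldRange from (AlgEquiv.ofInjectiveField φ).toRingEquiv)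
    (RingEquiv.refl F') ?_
  ext x
  rfl

end Toolkit

/-! ## The lattice of modular function fields inside `ℚ̄((q))` -/

/-- The formal `j` with coefficients in `ℚ̄`. -/
def JK : LaurentSeries Kbar := coeffEmb Kbar jq

theorem JK_eq_jqModC : JK = jqModC Kbar := coeffMap_jqModC (algebraMap ℚ Kbar)

/-- `V_m : q ↦ q^m` as a `ℚ̄`-algebra endomorphism of `ℚ̄((q))`. -/
abbrev Vm (m : ℕ) [NeZero m] : LaurentSeries Kbar →ₐ[Kbar] LaurentSeries Kbar :=
  qExpandAlgHomC Kbar m

theorem jSeries_one : jSeries 1 = JK := by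
  show coeffEmb Kbar (qExpand ℚ 1 jq) = coeffEmb Kbar jq
  rw [qExpand_one_apply]

theorem jSeries_eq (d : ℕ) [NeZero d] : jSeries d = qExpand Kbar d JK :=
  Fermat.Agent.S24.helper3176.jSeries_eq_qExpand d

theorem JK_mem (M : ℕ) : JK ∈ modularFunctionFieldBar M := by
  rw [← jSeries_one]
  exact jSeries_mem M 1 (one_dvd M)

theorem adjoin_JK_le (M : ℕ) : Kbar⟮JK⟯ ≤ modularFunctionFieldBar M := by
  rw [adjoin_le_iff]
  rintro x rfl
  exact JK_mem M

theorem qExpand_JK_mem {M d : ℕ} [NeZero d] (hd : d ∣ M) :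
    qExpand Kbar d JK ∈ modularFunctionFieldBar M := by
  rw [← jSeries_eq]
  exact jSeries_mem M d hd

/-- `F_d ⊆ F_M` for `d ∣ M`. -/
theorem modularFunctionFieldBar_mono {d M : ℕ} (h : d ∣ M) :
    modularFunctionFieldBar d ≤ modularFunctionFieldBar M := by
  show laurentBaseChange Kbar (modularFunctionFieldFull d)
    ≤ laurentBaseChange Kbar (modularFunctionFieldFull M)
  rw [Fermat.Agent.S24.helper3176.laurentBaseChange_full_eq_adjoin,
    Fermat.Agent.S24.helper3176.laurentBaseChange_full_eq_adjoin]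
  apply adjoin.mono
  intro x hx
  rw [Fermat.Agent.S24.helper3176.mem_genSet_iff] at hx ⊢
  obtain ⟨e, he0, he, rfl⟩ := hx
  exact ⟨e, he0, he.trans h, rfl⟩

/-- `V_m F_N ⊆ F_{N m}`. -/
theorem map_Vm_le (N m : ℕ) [NeZero m] :
    (modularFunctionFieldBar N).map (Vm m) ≤ modularFunctionFieldBar (N * m) := by
  rintro _ ⟨x, hx, rfl⟩
  exact (heckeBetaBar Kbar N m ⟨x, hx⟩).2

theorem map_Vm_adjoin_JK (m : ℕ) [NeZero m] :
    (Kbar⟮JK⟯).map (Vm m) = Kbar⟮qExpand Kbar m JK⟯ := by
  rw [adjoin_map, Set.image_singleton]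
  rfl

/-- **S24 in the lattice language**: `[F_M : ℚ̄(j)] = ψ(M)`. -/
theorem relfinrank_J (M : ℕ) [NeZero M] :
    (Kbar⟮JK⟯).relfinrank (modularFunctionFieldBar M) = dedekindPsi M := by
  have h := (Fermat.Agent.S37.helper5162.stmt_JFinrank M).2
  rw [Fermat.Agent.Lib.helper1356.card_quotient_Gamma0] at h
  have hmap : (Kbar⟮jBar M⟯).map (modularFunctionFieldBar M).val = Kbar⟮JK⟯ := by
    rw [adjoin_map, Set.image_singleton]
    congr 2
    exact coe_jBar M
  have hcomap : (Kbar⟮JK⟯).comap (modularFunctionFieldBar M).val = Kbar⟮jBar M⟯ := by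
    rw [← hmap, comap_map]
  have h2 := finrank_comap (Kbar⟮JK⟯) (modularFunctionFieldBar M).val
  rw [fieldRange_val, hcomap] at h2
  rw [← h2, h]

/-- The degree of `β : q ↦ q^m` is `[F_{N m} : V_m F_N]`. -/
theorem finrankAlong_eq_relfinrank (N m : ℕ) [NeZero m] :
    finrankAlong Kbar (heckeBetaBar Kbar N m)
      = ((modularFunctionFieldBar N).map (Vm m)).relfinrank (modularFunctionFieldBar (N * m)) := by
  rw [finrankAlong_eq_finrank_fieldRange]
  have hrange : (heckeBetaBar Kbar N m).fieldRange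
      = ((modularFunctionFieldBar N).map (Vm m)).comap (modularFunctionFieldBar (N * m)).val := by
    ext y
    rw [AlgHom.mem_fieldRange]
    show _ ↔ (y : LaurentSeries Kbar) ∈ (modularFunctionFieldBar N).map (Vm m)
    constructor
    · rintro ⟨x, rfl⟩
      exact ⟨x.1, x.2, rfl⟩
    · rintro ⟨x, hx, hxy⟩
      exact ⟨⟨x, hx⟩, Subtype.ext hxy⟩
  have h2 := finrank_comap ((modularFunctionFieldBar N).map (Vm m))
    (modularFunctionFieldBar (N * m)).val
  rw [fieldRange_val, ← hrange] at h2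
  exact h2

/-! ## The prime step (`V_p`-trick) -/

section Prime

variable (p : ℕ) [NeZero p] (hp : p.Prime)

include hp in
/-- `F_p = ℚ̄(j_p)(j)`. -/
theorem modularFunctionFieldBar_prime :
    modularFunctionFieldBar p = Kbar⟮qExpand Kbar p JK⟯ ⊔ Kbar⟮JK⟯ := by
  apply le_antisymm
  · show laurentBaseChange Kbar (modularFunctionFieldFull p) ≤ _
    rw [Fermat.Agent.S24.helper3176.laurentBaseChange_full_eq_adjoin, adjoin_le_iff]
    intro x hx
    rw [Fermat.Agent.S24.helper3176.mem_genSet_iff] at hx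
    obtain ⟨d, hd0, hd, rfl⟩ := hx
    rcases (Nat.dvd_prime hp).mp hd with h1 | h1
    · subst h1
      have : coeffEmb Kbar (qExpand ℚ 1 jq) = JK := jSeries_one
      rw [this]
      exact (le_sup_right : Kbar⟮JK⟯ ≤ _) (mem_adjoin_simple_self Kbar JK)
    · subst h1
      have : coeffEmb Kbar (qExpand ℚ d jq) = qExpand Kbar d JK := jSeries_eq d
      rw [this]
      exact (le_sup_left : Kbar⟮qExpand Kbar d JK⟯ ≤ _) (mem_adjoin_simple_self Kbar _)
  · refine sup_le ?_ (adjoin_JK_le p)
    rw [adjoin_le_iff]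
    rintro x rfl
    exact qExpand_JK_mem dvd_rfl

include hp in
/-- The transposed modular equation `Φ_p(j_p, j) = 0` gives `[F_p : ℚ̄(j_p)] ≤ p + 1`. -/
theorem relfinrank_prime_swap_le :
    (Kbar⟮qExpand Kbar p JK⟯).relfinrank (modularFunctionFieldBar p) ≤ p + 1 := by
  have : Fact p.Prime := ⟨hp⟩
  obtain ⟨Φ, hΦm, hΦdeg, hrel⟩ :=
    Fermat.Agent.S28.helper28.primeRel p (Fermat.Agent.S28.helper508.stmt_FormalPrime p)
  obtain ⟨-, hF2⟩ := hrel Kbar
  rw [← JK_eq_jqModC] at hF2
  let y : ↥(Kbar⟮qExpand Kbar p JK⟯) := ⟨qExpand Kbar p JK, mem_adjoin_simple_self Kbar _⟩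
  let f : Polynomial ℤ →+* ↥(Kbar⟮qExpand Kbar p JK⟯) :=
    Polynomial.eval₂RingHom (Int.castRingHom ↥(Kbar⟮qExpand Kbar p JK⟯)) y
  have hcomp : (algebraMap ↥(Kbar⟮qExpand Kbar p JK⟯) (LaurentSeries Kbar)).comp f
      = Fermat.Agent.S28.helper328.evalJ (qExpand Kbar p JK) := by
    apply Polynomial.ringHom_ext
    · intro a
      simp [f, Fermat.Agent.S28.helper328.evalJ]
    · simp [f, y, Fermat.Agent.S28.helper328.evalJ]
  have hroot : Polynomial.aeval JK (Φ.map f) = 0 := by
    rw [Polynomial.aeval_def, Polynomial.eval₂_map, hcomp, ← Polynomial.eval_map]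
    exact hF2
  have h := relfinrank_sup_simple_le (Kbar⟮qExpand Kbar p JK⟯) (hΦm.map f) hroot
  rw [hΦm.natDegree_map f, hΦdeg] at h
  rw [modularFunctionFieldBar_prime p hp]
  exact h

omit [NeZero p] in
include hp in
theorem dedekindPsi_prime_eq : dedekindPsi p = p + 1 := by
  have h := Fermat.Agent.Lib.helper1356.dedekindPsi_mul_prime_of_not_dvd hp one_ne_zero
    (by rw [Nat.dvd_one]; exact hp.ne_one)
  rwa [one_mul, dedekindPsi_one, mul_one] at h

include hp in
/-- **The `V_p`-trick**: `[F_{M p} : V_p F_M] * ψ(M) ≤ ψ(M p)`. -/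
theorem relfinrank_map_Vm_prime_mul_le (M : ℕ) [NeZero M] :
    ((modularFunctionFieldBar M).map (Vm p)).relfinrank (modularFunctionFieldBar (M * p))
      * dedekindPsi M ≤ dedekindPsi (M * p) := by
  have hA'Ep : Kbar⟮qExpand Kbar p JK⟯ ≤ modularFunctionFieldBar p := by
    rw [adjoin_le_iff]
    rintro x rfl
    exact qExpand_JK_mem dvd_rfl
  have hEpEMp : modularFunctionFieldBar p ≤ modularFunctionFieldBar (M * p) :=
    modularFunctionFieldBar_mono (dvd_mul_left p M)
  have hAEp : Kbar⟮JK⟯ ≤ modularFunctionFieldBar p := adjoin_JK_le p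
  have hA'V : Kbar⟮qExpand Kbar p JK⟯ ≤ (modularFunctionFieldBar M).map (Vm p) := by
    rw [← map_Vm_adjoin_JK]
    exact IntermediateField.map_mono _ (adjoin_JK_le M)
  have hVEMp : (modularFunctionFieldBar M).map (Vm p) ≤ modularFunctionFieldBar (M * p) :=
    map_Vm_le M p
  have t1 := relfinrank_mul_relfinrank hA'Ep hEpEMp
  have t2 := relfinrank_mul_relfinrank hAEp hEpEMp
  have t3 := relfinrank_mul_relfinrank hA'V hVEMp
  have e1 : (Kbar⟮JK⟯).relfinrank (modularFunctionFieldBar p) = p + 1 := by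
    rw [relfinrank_J p, dedekindPsi_prime_eq p hp]
  have e2 : (Kbar⟮JK⟯).relfinrank (modularFunctionFieldBar (M * p)) = dedekindPsi (M * p) :=
    relfinrank_J (M * p)
  have e3 : (Kbar⟮qExpand Kbar p JK⟯).relfinrank ((modularFunctionFieldBar M).map (Vm p))
      = dedekindPsi M := by
    rw [← map_Vm_adjoin_JK p, relfinrank_map_map]
    exact relfinrank_J M
  have e4 := relfinrank_prime_swap_le p hp
  rw [e1, e2] at t2
  rw [e3] at t3
  calc ((modularFunctionFieldBar M).map (Vm p)).relfinrank (modularFunctionFieldBar (M * p))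
        * dedekindPsi M
      = (Kbar⟮qExpand Kbar p JK⟯).relfinrank (modularFunctionFieldBar (M * p)) := by
        rw [mul_comm]; exact t3
    _ = (Kbar⟮qExpand Kbar p JK⟯).relfinrank (modularFunctionFieldBar p)
          * (modularFunctionFieldBar p).relfinrank (modularFunctionFieldBar (M * p)) := t1.symm
    _ ≤ (p + 1) * (modularFunctionFieldBar p).relfinrank (modularFunctionFieldBar (M * p)) :=
        Nat.mul_le_mul_right _ e4
    _ = dedekindPsi (M * p) := t2

include hp in
/-- `deg(β_p) * ψ(M) ≤ ψ(M p)` for `p` prime (in fact an equality). -/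
theorem finrankAlong_prime_mul_le (M : ℕ) [NeZero M] :
    finrankAlong Kbar (heckeBetaBar Kbar M p) * dedekindPsi M ≤ dedekindPsi (M * p) := by
  rw [finrankAlong_eq_relfinrank]
  exact relfinrank_map_Vm_prime_mul_le p hp M

theorem Vm_comp_Vm (a b : ℕ) [NeZero a] [NeZero b] : (Vm a).comp (Vm b) = Vm (a * b) := by
  ext1 x
  exact qExpand_qExpand b a x

include hp in
/-- `[F_{N p²} : V_{p²} F_N] * ψ(N) ≤ ψ(N p²)`. -/
theorem relfinrank_map_Vm_prime_sq_mul_le (N : ℕ) [NeZero N] :
    ((modularFunctionFieldBar N).map (Vm (p * p))).relfinrank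
        (modularFunctionFieldBar (N * (p * p))) * dedekindPsi N ≤ dedekindPsi (N * (p * p)) := by
  have hVV : (modularFunctionFieldBar N).map (Vm (p * p))
      = ((modularFunctionFieldBar N).map (Vm p)).map (Vm p) := by
    rw [IntermediateField.map_map, Vm_comp_Vm]
  have hassoc : N * (p * p) = N * p * p := (Nat.mul_assoc N p p).symm
  rw [hVV, hassoc]
  have h1 : ((modularFunctionFieldBar N).map (Vm p)).map (Vm p)
      ≤ (modularFunctionFieldBar (N * p)).map (Vm p) :=
    IntermediateField.map_mono _ (map_Vm_le N p)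
  have h2 : (modularFunctionFieldBar (N * p)).map (Vm p) ≤ modularFunctionFieldBar (N * p * p) :=
    map_Vm_le (N * p) p
  have t := relfinrank_mul_relfinrank h1 h2
  rw [relfinrank_map_map] at t
  have ha := relfinrank_map_Vm_prime_mul_le p hp N
  have hb := relfinrank_map_Vm_prime_mul_le p hp (N * p)
  rw [← t]
  calc ((modularFunctionFieldBar N).map (Vm p)).relfinrank (modularFunctionFieldBar (N * p))
        * ((modularFunctionFieldBar (N * p)).map (Vm p)).relfinrank
            (modularFunctionFieldBar (N * p * p)) * dedekindPsi N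
      = ((modularFunctionFieldBar (N * p)).map (Vm p)).relfinrank
            (modularFunctionFieldBar (N * p * p))
          * (((modularFunctionFieldBar N).map (Vm p)).relfinrank (modularFunctionFieldBar (N * p))
            * dedekindPsi N) := by ring
    _ ≤ ((modularFunctionFieldBar (N * p)).map (Vm p)).relfinrank
            (modularFunctionFieldBar (N * p * p)) * dedekindPsi (N * p) :=
        Nat.mul_le_mul_left _ ha
    _ ≤ dedekindPsi (N * p * p) := hb

include hp in
/-- `deg(β_{p²}) * ψ(N) ≤ ψ(N p²)` for `p` prime (in fact an equality). -/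
theorem finrankAlong_prime_sq_mul_le (N : ℕ) [NeZero N] :
    finrankAlong Kbar (heckeBetaBar Kbar N (p * p)) * dedekindPsi N
      ≤ dedekindPsi (N * (p * p)) := by
  rw [finrankAlong_eq_relfinrank]
  exact relfinrank_map_Vm_prime_sq_mul_le p hp N

omit [NeZero p] in
include hp in
/-- `ψ(N p²) ≤ p (p + 1) ψ(N)`. -/
theorem dedekindPsi_mul_prime_sq_le (N : ℕ) (hN : N ≠ 0) :
    dedekindPsi (N * (p * p)) ≤ p * (p + 1) * dedekindPsi N := by
  rw [← Nat.mul_assoc,
    Fermat.Agent.Lib.helper1356.dedekindPsi_mul_prime_of_dvd hp (Nat.mul_ne_zero hN hp.ne_zero)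
      (dvd_mul_left p N),
    Fermat.Agent.Lib.helper1356.dedekindPsi_mul_prime hp hN, mul_assoc]
  apply Nat.mul_le_mul_left
  apply Nat.mul_le_mul_right
  split_ifs <;> omega

theorem dedekindPsi_pos' (N : ℕ) (hN : N ≠ 0) : 0 < dedekindPsi N := by
  classical
  unfold dedekindPsi
  refine Finset.sum_pos' (fun _ _ => Nat.zero_le _) ⟨1, ?_, ?_⟩
  · rw [Finset.mem_filter, Nat.mem_divisors]
    exact ⟨⟨one_dvd N, hN⟩, squarefree_one⟩
  · simpa using Nat.pos_of_ne_zero hN

include hp in
/-- `deg(β_{p²}) ≤ p (p + 1)`. -/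
theorem finrankAlong_prime_sq_le (N : ℕ) [NeZero N] :
    finrankAlong Kbar (heckeBetaBar Kbar N (p * p)) ≤ p * (p + 1) := by
  have h1 := finrankAlong_prime_sq_mul_le p hp N
  have h2 := dedekindPsi_mul_prime_sq_le p hp N (NeZero.ne N)
  exact Nat.le_of_mul_le_mul_right (h1.trans h2) (dedekindPsi_pos' N (NeZero.ne N))

include hp in
/-- **Degree bound**: `deg(β_{p²}) < 2 p²`. -/
theorem finrankAlong_prime_sq_lt (N : ℕ) [NeZero N] :
    finrankAlong Kbar (heckeBetaBar Kbar N (p * p)) < 2 * (p * p) := by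
  have h := finrankAlong_prime_sq_le p hp N
  have h2 : 2 ≤ p := hp.two_le
  nlinarith

end Prime

/-! ## The adapter: the hypothesis of the generic Picard-injectivity leaf -/

/-- **(B3)** for `m = p²`: `deg(β_m) < 2 m`. -/
theorem finrankAlong_heckeBetaBar_lt (N m : ℕ) [NeZero N] [NeZero m] (p : ℕ) (hp : p.Prime)
    (hm : m = p * p) : finrankAlong Kbar (heckeBetaBar Kbar N m) < 2 * m := by
  subst hm
  have : NeZero p := ⟨hp.ne_zero⟩
  exact finrankAlong_prime_sq_lt p hp N

/-- **(B4)** for `m = p²`: there is a place of `F_{N m}` (the cusp `∞`) whose ramification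
index along `β_m : q ↦ q^m` exceeds half the degree of `β_m`. -/
theorem exists_place_finrankAlong_lt (N m : ℕ) [NeZero N] [NeZero m] (p : ℕ) (hp : p.Prime)
    (hm : m = p * p) :
    ∃ w : Place Kbar (FN (N * m)),
      finrankAlong Kbar (heckeBetaBar Kbar N m)
        < 2 * w.ramificationIndexAlong (heckeBetaBar Kbar N m) :=
  ⟨qPlace (N * m), by
    rw [ramificationIndexAlong_heckeBetaBar]
    exact finrankAlong_heckeBetaBar_lt N m p hp hm⟩

/-- **(B4)** for `m = 4`. -/
theorem exists_place_finrankAlong_lt_four (N : ℕ) [NeZero N] :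
    ∃ w : Place Kbar (FN (N * 4)),
      finrankAlong Kbar (heckeBetaBar Kbar N 4)
        < 2 * w.ramificationIndexAlong (heckeBetaBar Kbar N 4) :=
  exists_place_finrankAlong_lt N 4 2 Nat.prime_two rfl

/-- **(B4)** for `m = 9`. -/
theorem exists_place_finrankAlong_lt_nine (N : ℕ) [NeZero N] :
    ∃ w : Place Kbar (FN (N * 9)),
      finrankAlong Kbar (heckeBetaBar Kbar N 9)
        < 2 * w.ramificationIndexAlong (heckeBetaBar Kbar N 9) :=
  exists_place_finrankAlong_lt N 9 3 Nat.prime_three rfl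

end

end Fermat.Agent.S37.helper9343
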