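/-
S37 (also usable by S29/S18) -- Kronecker congruence at the level of formal Laurent series.
Author: helper5666.  All proofs complete.  Spec-independent: only Mathlib and the Prelude operators
`ModularCurve.qExpand` (`X ↦ X ^ l`) and `ModularCurve.coeffMap` (coefficientwise ring hom).

Notation in comments: `V = qExpand _ l`, `rot u h = h(u X)`, `Fr` = coefficientwise Frobenius.
For a root of unity `ζ` with `ζ ^ l = 1`:
* `kronProd ζ l h = ∏_{b<l} h(ζ^b X)`, `kronNorm ζ l h` = the series `g` with `g(X^l) = kronProd`;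
* modulo any ring hom `π` with `π ζ = 1` into a ring of characteristic `l`:
  `kronNorm` reduces to `Fr (π h)`; coefficientwise: `g_n ≡ h_n ^ l  mod (ζ - 1)`;
* `kronPoly ζ l h = ∏_{b<l} (T - h(ζ^b X))` descends to `kronPoly0 ζ l h` (a polynomial over series
  in `X^l`) which reduces to `T^l - Fr (π h)`; the degree `l+1` Hecke polynomial
  `heckePoly ζ l h = (T - h(X^l)) * kronPoly0` reduces to `(T - V (π h)) * (T^l - Fr (π h))`.
-/
import Mathlib
import Fermat.Prelude.Def_ModularCurve_X0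
import Fermat.Prelude.Def_ModularCurve_LaurentCoeff
import Fermat.Prelude.Thm_ModularCurve_coeffMap_qExpand

set_option autoImplicit false

namespace Fermat.Agent.S37.helper5666

open Polynomial ModularCurve

noncomputable section

variable {A : Type*} [CommRing A]

/-! ### The rotation `h(X) ↦ h(u X)` -/

/-- `h(X) ↦ h(u X)` on Laurent series, as a function. -/
def rotFun (u : Aˣ) (x : LaurentSeries A) : LaurentSeries A where
  coeff n := ((u ^ n : Aˣ) : A) * x.coeff n
  isPWO_support' := x.isPWO_support.mono (fun n hn => by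
    simp only [Function.mem_support, ne_eq] at hn ⊢
    exact fun h => hn (by rw [h, mul_zero]))

@[simp] theorem rotFun_coeff (u : Aˣ) (x : LaurentSeries A) (n : ℤ) :
    (rotFun u x).coeff n = ((u ^ n : Aˣ) : A) * x.coeff n := rfl

theorem rotFun_support (u : Aˣ) (x : LaurentSeries A) :
    (rotFun u x).support = x.support := by
  ext n
  simp only [HahnSeries.mem_support, rotFun_coeff, ne_eq]
  exact not_congr (Units.mul_right_eq_zero _)

/-- `h(X) ↦ h(u X)` on Laurent series, as a ring homomorphism. -/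
def rot (u : Aˣ) : LaurentSeries A →+* LaurentSeries A where
  toFun := rotFun u
  map_one' := by
    ext n
    rw [rotFun_coeff, HahnSeries.coeff_one]
    split_ifs with h
    · subst h; simp
    · simp
  map_zero' := by ext n; simp
  map_add' x y := by ext n; simp [mul_add]
  map_mul' x y := by
    ext a
    rw [rotFun_coeff, HahnSeries.coeff_mul,
      HahnSeries.coeff_mul_left' (x := rotFun u x) (y := rotFun u y) x.isPWO_support
        (rotFun_support u x).subset,
      Finset.mul_sum]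
    have hy : (rotFun u y).support = y.support := rotFun_support u y
    refine Finset.sum_congr ?_ ?_
    · ext ij
      simp only [Finset.mem_antidiagonal, hy]
    · intro ij hij
      have hsum : ij.1 + ij.2 = a := (Finset.mem_antidiagonal.mp hij).2.2
      rw [rotFun_coeff, rotFun_coeff, ← hsum, zpow_add, Units.val_mul]
      ring

@[simp] theorem rot_coeff (u : Aˣ) (x : LaurentSeries A) (n : ℤ) :
    (rot u x).coeff n = ((u ^ n : Aˣ) : A) * x.coeff n := rfl

@[simp] theorem rot_one (x : LaurentSeries A) : rot (1 : Aˣ) x = x := by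
  ext n; simp

theorem rot_rot (u v : Aˣ) (x : LaurentSeries A) : rot u (rot v x) = rot (u * v) x := by
  ext n
  simp only [rot_coeff, mul_zpow, Units.val_mul]
  ring

theorem rot_single (u : Aˣ) (n : ℤ) (a : A) :
    rot u (HahnSeries.single n a) = HahnSeries.single n (((u ^ n : Aˣ) : A) * a) := by
  ext m
  rcases eq_or_ne m n with rfl | hm
  · simp [HahnSeries.coeff_single_same]
  · simp [HahnSeries.coeff_single_of_ne hm]

/-- `rot` commutes with coefficientwise ring homomorphisms. -/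
theorem coeffMap_rot {B : Type*} [CommRing B] (f : A →+* B) (u : Aˣ) (x : LaurentSeries A) :
    coeffMap f (rot u x) = rot (Units.map (f : A →* B) u) (coeffMap f x) := by
  ext n
  simp only [coeffMap_coeff, rot_coeff, map_mul]
  congr 1
  rw [← map_zpow, Units.coe_map]
  rfl

/-- A coefficientwise ring homomorphism killing `u - 1` kills the rotation by `u`. -/
theorem coeffMap_rot_of_map_eq_one {B : Type*} [CommRing B] (f : A →+* B) (u : Aˣ)
    (hu : f (u : A) = 1) (x : LaurentSeries A) :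
    coeffMap f (rot u x) = coeffMap f x := by
  have h1 : Units.map (f : A →* B) u = 1 := by
    ext
    simpa using hu
  rw [coeffMap_rot, h1, rot_one]

/-- `(V x)(u X) = V (x(u^N X))`. -/
theorem rot_qExpand (N : ℕ) [NeZero N] (u : Aˣ) (x : LaurentSeries A) :
    rot u (qExpand A N x) = qExpand A N (rot (u ^ N) x) := by
  ext n
  by_cases hn : (N : ℤ) ∣ n
  · obtain ⟨k, rfl⟩ := hn
    rw [rot_coeff, qExpand_coeff_mul, qExpand_coeff_mul, rot_coeff, zpow_mul, zpow_natCast]
  · rw [rot_coeff, qExpand_coeff_of_not_dvd N x hn, qExpand_coeff_of_not_dvd N _ hn, mul_zero]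

/-- Series in `X ^ N` are invariant under rotation by an `N`-th root of unity. -/
theorem rot_qExpand_of_pow_eq_one (N : ℕ) [NeZero N] (u : Aˣ) (hu : u ^ N = 1)
    (x : LaurentSeries A) : rot u (qExpand A N x) = qExpand A N x := by
  rw [rot_qExpand, hu, rot_one]

/-! ### Descent along `V = qExpand _ N` -/

/-- The series `n ↦ x_{N n}`: the inverse of `V = qExpand _ N` on its image. -/
def descend (N : ℕ) [NeZero N] (x : LaurentSeries A) : LaurentSeries A :=
  HahnSeries.ofSuppBddBelow (fun n : ℤ => x.coeff ((N : ℤ) * n))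
    ⟨min x.order 0, fun m hm => not_lt.mp (fun hlt => hm (by
      have hm0 : m < 0 := lt_of_lt_of_le hlt (min_le_right _ _)
      have hmo : m < x.order := lt_of_lt_of_le hlt (min_le_left _ _)
      have hN : (1 : ℤ) ≤ (N : ℤ) := by
        exact_mod_cast Nat.one_le_iff_ne_zero.mpr (NeZero.ne N)
      refine HahnSeries.coeff_eq_zero_of_lt_order (lt_of_le_of_lt ?_ hmo)
      nlinarith))⟩

@[simp] theorem descend_coeff (N : ℕ) [NeZero N] (x : LaurentSeries A) (n : ℤ) :
    (descend N x).coeff n = x.coeff ((N : ℤ) * n) :=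
  congrFun HahnSeries.coeff_ofSuppBddBelow n

@[simp] theorem descend_qExpand (N : ℕ) [NeZero N] (x : LaurentSeries A) :
    descend N (qExpand A N x) = x := by
  ext n
  rw [descend_coeff, qExpand_coeff_mul]

/-- A series supported on multiples of `N` is `V` of its descent. -/
theorem qExpand_descend (N : ℕ) [NeZero N] (x : LaurentSeries A)
    (hx : ∀ n : ℤ, ¬ (N : ℤ) ∣ n → x.coeff n = 0) : qExpand A N (descend N x) = x := by
  ext n
  by_cases hn : (N : ℤ) ∣ n
  · obtain ⟨k, rfl⟩ := hn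
    rw [qExpand_coeff_mul, descend_coeff]
  · rw [qExpand_coeff_of_not_dvd N _ hn, hx n hn]

theorem descend_zero (N : ℕ) [NeZero N] : descend N (0 : LaurentSeries A) = 0 := by
  ext n; simp

theorem descend_add (N : ℕ) [NeZero N] (x y : LaurentSeries A) :
    descend N (x + y) = descend N x + descend N y := by
  ext n; simp

theorem coeffMap_descend {B : Type*} [CommRing B] (f : A →+* B) (N : ℕ) [NeZero N]
    (x : LaurentSeries A) : coeffMap f (descend N x) = descend N (coeffMap f x) := by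
  ext n; simp

/-- A series fixed by the rotation by `ζ`, where `ζ ^ n - 1` is a non-zero-divisor for `l ∤ n`,
is a series in `X ^ l`. -/
theorem qExpand_descend_of_rot_eq (l : ℕ) [NeZero l] (ζ : Aˣ)
    (hreg : ∀ n : ℤ, ¬ (l : ℤ) ∣ n → ∀ a : A, ((ζ ^ n : Aˣ) : A) * a = a → a = 0)
    (x : LaurentSeries A) (hx : rot ζ x = x) : qExpand A l (descend l x) = x := by
  refine qExpand_descend l x (fun n hn => hreg n hn _ ?_)
  have h := congrArg (fun y : LaurentSeries A => y.coeff n) hx
  simpa using h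

/-- In a domain, a primitive `l`-th root of unity satisfies the regularity hypothesis. -/
theorem hreg_of_isPrimitiveRoot [IsDomain A] (l : ℕ) (ζ : Aˣ) (hζ : IsPrimitiveRoot ζ l) :
    ∀ n : ℤ, ¬ (l : ℤ) ∣ n → ∀ a : A, ((ζ ^ n : Aˣ) : A) * a = a → a = 0 := by
  intro n hn a ha
  have h1 : (((ζ ^ n : Aˣ) : A) - 1) * a = 0 := by rw [sub_mul, ha, one_mul, sub_self]
  rcases mul_eq_zero.mp h1 with h | h
  · exfalso
    apply hn
    rw [← hζ.zpow_eq_one_iff_dvd]
    ext
    rw [Units.val_one]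
    exact sub_eq_zero.mp h
  · exact h

/-! ### Frobenius on Laurent series in characteristic `l` -/

theorem coeffMap_ofPowerSeries {B : Type*} [CommRing B] (f : A →+* B) (p : PowerSeries A) :
    coeffMap f (HahnSeries.ofPowerSeries ℤ A p) =
      HahnSeries.ofPowerSeries ℤ B (PowerSeries.map f p) := by
  ext n
  rw [coeffMap_coeff, PowerSeries.coeff_coe, PowerSeries.coeff_coe]
  split_ifs with h
  · simp
  · simp

theorem qExpand_ofPowerSeries (N : ℕ) [NeZero N] (p : PowerSeries A) :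
    qExpand A N (HahnSeries.ofPowerSeries ℤ A p) =
      HahnSeries.ofPowerSeries ℤ A (PowerSeries.expand N (NeZero.ne N) p) := by
  ext n
  by_cases hn : (N : ℤ) ∣ n
  · obtain ⟨k, rfl⟩ := hn
    rw [qExpand_coeff_mul]
    rcases lt_or_ge k 0 with hk | hk
    · have hN : (0 : ℤ) < (N : ℤ) := by
        exact_mod_cast Nat.pos_of_ne_zero (NeZero.ne N)
      rw [PowerSeries.coeff_coe, PowerSeries.coeff_coe, if_pos hk,
        if_pos (mul_neg_of_pos_of_neg hN hk)]
    · lift k to ℕ using hk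
      rw [← Nat.cast_mul, HahnSeries.ofPowerSeries_apply_coeff,
        HahnSeries.ofPowerSeries_apply_coeff, PowerSeries.coeff_expand_mul]
  · rw [qExpand_coeff_of_not_dvd N _ hn]
    rcases lt_or_ge n 0 with hk | hk
    · rw [PowerSeries.coeff_coe, if_pos hk]
    · lift n to ℕ using hk
      rw [HahnSeries.ofPowerSeries_apply_coeff, PowerSeries.coeff_expand_of_not_dvd]
      exact fun h => hn (Int.natCast_dvd_natCast.mpr h)

/-- **Frobenius on Laurent series**: in characteristic `l`, `H ^ l = (Fr H)(X ^ l)`. -/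
theorem pow_expChar_eq_qExpand (k : Type*) [CommRing k] (l : ℕ) [NeZero l] [ExpChar k l]
    (H : LaurentSeries k) : H ^ l = qExpand k l (coeffMap (frobenius k l) H) := by
  have hps : ∀ f : PowerSeries k, (HahnSeries.ofPowerSeries ℤ k f) ^ l =
      qExpand k l (coeffMap (frobenius k l) (HahnSeries.ofPowerSeries ℤ k f)) := by
    intro f
    rw [coeffMap_ofPowerSeries, qExpand_ofPowerSeries, ← map_pow, ← PowerSeries.map_expand]
    congr 1
    exact (MvPowerSeries.map_frobenius_expand l (NeZero.ne l)).symm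
  have hH := LaurentSeries.single_order_mul_powerSeriesPart H
  conv_lhs => rw [← hH]
  conv_rhs => rw [← hH]
  rw [mul_pow, map_mul, map_mul, hps, HahnSeries.single_pow, coeffMap_single, qExpand_single,
    map_one, one_pow, nsmul_eq_mul]

/-- Coefficient form of Frobenius on Laurent series. -/
theorem coeff_pow_expChar_mul (k : Type*) [CommRing k] (l : ℕ) [NeZero l] [ExpChar k l]
    (H : LaurentSeries k) (n : ℤ) : (H ^ l).coeff ((l : ℤ) * n) = H.coeff n ^ l := by
  rw [pow_expChar_eq_qExpand, qExpand_coeff_mul, coeffMap_coeff, frobenius_def]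

theorem descend_pow_expChar (k : Type*) [CommRing k] (l : ℕ) [NeZero l] [ExpChar k l]
    (H : LaurentSeries k) : descend l (H ^ l) = coeffMap (frobenius k l) H := by
  rw [pow_expChar_eq_qExpand, descend_qExpand]

/-- Over a perfect ring of characteristic `l`: `h(X ^ l) = (Fr⁻¹ h) ^ l`. -/
theorem qExpand_eq_pow_of_perfect (k : Type*) [CommRing k] (l : ℕ) [NeZero l] [ExpChar k l]
    [PerfectRing k l] (H : LaurentSeries k) :
    qExpand k l H = (coeffMap ((frobeniusEquiv k l).symm : k →+* k) H) ^ l := by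
  rw [pow_expChar_eq_qExpand, coeffMap_coeffMap]
  congr 1
  ext n
  simp

/-! ### The Kronecker product `∏_{b<l} h(ζ^b X)` and its descent -/

theorem prod_range_shift {M : Type*} [CommMonoid M] (l : ℕ) (f : ℕ → M) (hf : f l = f 0) :
    ∏ b ∈ Finset.range l, f (b + 1) = ∏ b ∈ Finset.range l, f b := by
  rcases l with _ | m
  · simp
  · rw [Finset.prod_range_succ, Finset.prod_range_succ' f, hf]

/-- `∏_{b<l} h(ζ^b X)`. -/
def kronProd (ζ : Aˣ) (l : ℕ) (h : LaurentSeries A) : LaurentSeries A :=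
  ∏ b ∈ Finset.range l, rot (ζ ^ b) h

/-- The Kronecker product is invariant under `X ↦ ζ X` when `ζ ^ l = 1`. -/
theorem rot_kronProd (ζ : Aˣ) (l : ℕ) (hζ : ζ ^ l = 1) (h : LaurentSeries A) :
    rot ζ (kronProd ζ l h) = kronProd ζ l h := by
  unfold kronProd
  rw [map_prod]
  simp only [rot_rot, ← pow_succ']
  exact prod_range_shift l (fun b => rot (ζ ^ b) h) (by rw [hζ, pow_zero])

/-- The series `g` with `g(X ^ l) = ∏_{b<l} h(ζ^b X)` (see `qExpand_kronNorm`). -/
def kronNorm (ζ : Aˣ) (l : ℕ) [NeZero l] (h : LaurentSeries A) : LaurentSeries A :=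
  descend l (kronProd ζ l h)

/-- (K2) `(kronNorm ζ l h)(X ^ l) = ∏_{b<l} h(ζ^b X)`. -/
theorem qExpand_kronNorm (ζ : Aˣ) (l : ℕ) [NeZero l] (hζ : ζ ^ l = 1)
    (hreg : ∀ n : ℤ, ¬ (l : ℤ) ∣ n → ∀ a : A, ((ζ ^ n : Aˣ) : A) * a = a → a = 0)
    (h : LaurentSeries A) : qExpand A l (kronNorm ζ l h) = kronProd ζ l h :=
  qExpand_descend_of_rot_eq l ζ hreg _ (rot_kronProd ζ l hζ h)

/-- (K2), domain form: existence and uniqueness of the descent. -/
theorem existsUnique_qExpand_eq_kronProd [IsDomain A] (ζ : Aˣ) (l : ℕ) [NeZero l]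
    (hζ : IsPrimitiveRoot ζ l) (h : LaurentSeries A) :
    ∃! g : LaurentSeries A, qExpand A l g = kronProd ζ l h :=
  ⟨kronNorm ζ l h, qExpand_kronNorm ζ l hζ.pow_eq_one (hreg_of_isPrimitiveRoot l ζ hζ) h,
    fun _ hg => qExpand_injective l
      (hg.trans (qExpand_kronNorm ζ l hζ.pow_eq_one (hreg_of_isPrimitiveRoot l ζ hζ) h).symm)⟩

variable {k : Type*} [CommRing k]

/-- Modulo `ζ - 1` the Kronecker product is the `l`-th power. -/
theorem coeffMap_kronProd (π : A →+* k) (ζ : Aˣ) (hπ : π (ζ : A) = 1) (l : ℕ)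
    (h : LaurentSeries A) : coeffMap π (kronProd ζ l h) = (coeffMap π h) ^ l := by
  unfold kronProd
  rw [map_prod, Finset.prod_congr rfl (fun b _ =>
    coeffMap_rot_of_map_eq_one π (ζ ^ b) (by rw [Units.val_pow_eq_pow_val, map_pow, hπ, one_pow]) h)]
  simp

/-- (K4) **Kronecker congruence, norm form**: modulo `ζ - 1`, in characteristic `l`,
the descended product `∏_{b<l} h(ζ^b X)` is the coefficientwise Frobenius twist of `h`. -/
theorem coeffMap_kronNorm (π : A →+* k) (ζ : Aˣ) (hπ : π (ζ : A) = 1) (l : ℕ) [NeZero l]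
    [ExpChar k l] (h : LaurentSeries A) :
    coeffMap π (kronNorm ζ l h) = coeffMap (frobenius k l) (coeffMap π h) := by
  rw [kronNorm, coeffMap_descend, coeffMap_kronProd π ζ hπ, descend_pow_expChar]

/-- (K4) full norm `h(X^l) * g(X)` of the `l + 1` conjugates, perfect residue ring:
it reduces to `(Fr⁻¹ h̄) ^ l * Fr h̄`. -/
theorem coeffMap_qExpand_mul_kronNorm (π : A →+* k) (ζ : Aˣ) (hπ : π (ζ : A) = 1) (l : ℕ)
    [NeZero l] [ExpChar k l] [PerfectRing k l] (h : LaurentSeries A) :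
    coeffMap π (qExpand A l h * kronNorm ζ l h) =
      (coeffMap ((frobeniusEquiv k l).symm : k →+* k) (coeffMap π h)) ^ l *
        coeffMap (frobenius k l) (coeffMap π h) := by
  rw [map_mul, coeffMap_kronNorm π ζ hπ, coeffMap_qExpand, qExpand_eq_pow_of_perfect]

/-- (K3) coefficientwise Kronecker congruence modulo an ideal containing `ζ - 1` and `l`. -/
theorem kronNorm_coeff_sub_pow_mem (ζ : Aˣ) (l : ℕ) [NeZero l] (hl : l.Prime) (I : Ideal A)
    (hζI : (ζ : A) - 1 ∈ I) (hlI : (l : A) ∈ I) (h : LaurentSeries A) (n : ℤ) :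
    (kronNorm ζ l h).coeff n - h.coeff n ^ l ∈ I := by
  by_cases hI : I = ⊤
  · rw [hI]; exact Submodule.mem_top
  have : Nontrivial (A ⧸ I) := Ideal.Quotient.nontrivial_iff.mpr hI
  have : CharP (A ⧸ I) l := (CharP.charP_iff_prime_eq_zero hl).mpr (by
    rw [← map_natCast (Ideal.Quotient.mk I)]
    exact Ideal.Quotient.eq_zero_iff_mem.mpr hlI)
  have : ExpChar (A ⧸ I) l := ExpChar.prime hl
  have hπ : Ideal.Quotient.mk I (ζ : A) = 1 := by
    rw [← sub_eq_zero, ← map_one (Ideal.Quotient.mk I), ← map_sub]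
    exact Ideal.Quotient.eq_zero_iff_mem.mpr hζI
  have key := congrArg (fun y : LaurentSeries (A ⧸ I) => y.coeff n)
    (coeffMap_kronNorm (Ideal.Quotient.mk I) ζ hπ l h)
  simp only [coeffMap_coeff, frobenius_def] at key
  rw [← Ideal.Quotient.eq_zero_iff_mem, map_sub, map_pow, key, sub_self]

/-- `l ∈ (ζ - 1)` for a primitive `l`-th root of unity in a domain, `1 < l`. -/
theorem natCast_mem_span_sub_one [IsDomain A] (ζ : Aˣ) (l : ℕ) (hζ : IsPrimitiveRoot ζ l)
    (hl : 1 < l) : (l : A) ∈ Ideal.span {(ζ : A) - 1} := by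
  have hζ' : IsPrimitiveRoot (ζ : A) l := IsPrimitiveRoot.coe_units_iff.mpr hζ
  have hsum := hζ'.geom_sum_eq_zero hl
  have h1 : (l : A) = ∑ i ∈ Finset.range l, ((1 : A) - (ζ : A) ^ i) := by
    rw [Finset.sum_sub_distrib, hsum, sub_zero]
    simp
  rw [h1]
  refine Ideal.sum_mem _ (fun i _ => ?_)
  rw [Ideal.mem_span_singleton]
  have h2 : (ζ : A) - 1 ∣ (ζ : A) ^ i - 1 ^ i := sub_dvd_pow_sub_pow _ _ i
  rw [one_pow] at h2
  have h3 : (1 : A) - (ζ : A) ^ i = -((ζ : A) ^ i - 1) := by ring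
  rw [h3]
  exact (dvd_neg).mpr h2

/-- (K3), domain form: `g_n ≡ h_n ^ l  mod (ζ - 1)`. -/
theorem kronNorm_coeff_sub_pow_mem_span [IsDomain A] (ζ : Aˣ) (l : ℕ) [NeZero l] (hl : l.Prime)
    (hζ : IsPrimitiveRoot ζ l) (h : LaurentSeries A) (n : ℤ) :
    (kronNorm ζ l h).coeff n - h.coeff n ^ l ∈ Ideal.span {(ζ : A) - 1} :=
  kronNorm_coeff_sub_pow_mem ζ l hl _ (Ideal.subset_span (Set.mem_singleton _))
    (natCast_mem_span_sub_one ζ l hζ hl.one_lt) h n

/-! ### Polynomial form: `∏_{b<l} (T - h(ζ^b X))` -/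

/-- Coefficientwise descent of a polynomial over Laurent series. -/
def descendPoly (N : ℕ) [NeZero N] (P : Polynomial (LaurentSeries A)) :
    Polynomial (LaurentSeries A) :=
  ∑ i ∈ P.support, monomial i (descend N (P.coeff i))

@[simp] theorem descendPoly_coeff (N : ℕ) [NeZero N] (P : Polynomial (LaurentSeries A)) (i : ℕ) :
    (descendPoly N P).coeff i = descend N (P.coeff i) := by
  rw [descendPoly, finsetSum_coeff]
  simp only [coeff_monomial]
  rw [Finset.sum_ite_eq']
  split_ifs with hi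
  · rfl
  · rw [notMem_support_iff.mp hi, descend_zero]

@[simp] theorem descendPoly_map_qExpand (N : ℕ) [NeZero N] (P : Polynomial (LaurentSeries A)) :
    descendPoly N (P.map (qExpand A N)) = P := by
  ext i : 1
  rw [descendPoly_coeff, coeff_map, descend_qExpand]

theorem map_qExpand_descendPoly (N : ℕ) [NeZero N] (P : Polynomial (LaurentSeries A))
    (hP : ∀ i, qExpand A N (descend N (P.coeff i)) = P.coeff i) :
    (descendPoly N P).map (qExpand A N) = P := by
  ext i : 1
  rw [coeff_map, descendPoly_coeff, hP]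

theorem map_coeffMap_descendPoly (π : A →+* k) (N : ℕ) [NeZero N]
    (P : Polynomial (LaurentSeries A)) :
    (descendPoly N P).map (coeffMap π) = descendPoly N (P.map (coeffMap π)) := by
  ext i : 1
  rw [coeff_map, descendPoly_coeff, descendPoly_coeff, coeff_map, coeffMap_descend]

theorem descendPoly_natDegree_le (N : ℕ) [NeZero N] (P : Polynomial (LaurentSeries A)) :
    (descendPoly N P).natDegree ≤ P.natDegree := by
  refine natDegree_le_iff_coeff_eq_zero.mpr (fun i hi => ?_)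
  rw [descendPoly_coeff, coeff_eq_zero_of_natDegree_lt hi, descend_zero]

theorem descend_one (N : ℕ) [NeZero N] : descend N (1 : LaurentSeries A) = 1 := by
  conv_lhs => rw [← map_one (qExpand A N)]
  exact descend_qExpand N 1

theorem descendPoly_monic (N : ℕ) [NeZero N] (P : Polynomial (LaurentSeries A)) (hP : P.Monic) :
    (descendPoly N P).Monic := by
  refine monic_of_natDegree_le_of_coeff_eq_one P.natDegree (descendPoly_natDegree_le N P) ?_
  rw [descendPoly_coeff, hP.coeff_natDegree, descend_one]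

/-- `∏_{b<l} (T - h(ζ^b X))`, a polynomial over Laurent series in `X`. -/
def kronPoly (ζ : Aˣ) (l : ℕ) (h : LaurentSeries A) : Polynomial (LaurentSeries A) :=
  ∏ b ∈ Finset.range l, (X - C (rot (ζ ^ b) h))

theorem kronPoly_monic (ζ : Aˣ) (l : ℕ) (h : LaurentSeries A) : (kronPoly ζ l h).Monic :=
  monic_prod_of_monic _ _ (fun _ _ => monic_X_sub_C _)

theorem kronPoly_natDegree [Nontrivial A] (ζ : Aˣ) (l : ℕ) (h : LaurentSeries A) :
    (kronPoly ζ l h).natDegree = l := by
  rw [kronPoly, natDegree_prod_of_monic _ _ (fun _ _ => monic_X_sub_C _)]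
  simp

theorem kronPoly_eval_rot (ζ : Aˣ) (l : ℕ) (h : LaurentSeries A) {b : ℕ} (hb : b < l) :
    (kronPoly ζ l h).eval (rot (ζ ^ b) h) = 0 := by
  rw [kronPoly, eval_prod]
  exact Finset.prod_eq_zero (Finset.mem_range.mpr hb) (by simp)

theorem kronPoly_coeff_zero (ζ : Aˣ) (l : ℕ) (h : LaurentSeries A) :
    (kronPoly ζ l h).coeff 0 = (-1) ^ l * kronProd ζ l h := by
  rw [coeff_zero_eq_eval_zero, kronPoly, eval_prod, kronProd]
  simp [Finset.prod_neg]

/-- `kronPoly` is invariant under `X ↦ ζ X` (acting on coefficients) when `ζ ^ l = 1`. -/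
theorem map_rot_kronPoly (ζ : Aˣ) (l : ℕ) (hζ : ζ ^ l = 1) (h : LaurentSeries A) :
    (kronPoly ζ l h).map (rot ζ) = kronPoly ζ l h := by
  unfold kronPoly
  rw [Polynomial.map_prod]
  simp only [Polynomial.map_sub, map_X, map_C, rot_rot, ← pow_succ']
  exact prod_range_shift l (fun b => (X - C (rot (ζ ^ b) h) : Polynomial (LaurentSeries A)))
    (by rw [hζ, pow_zero])

/-- The polynomial over series in `X ^ l` whose image under `V` is `kronPoly`
(see `map_qExpand_kronPoly0`). -/
def kronPoly0 (ζ : Aˣ) (l : ℕ) [NeZero l] (h : LaurentSeries A) : Polynomial (LaurentSeries A) :=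
  descendPoly l (kronPoly ζ l h)

theorem kronPoly0_monic (ζ : Aˣ) (l : ℕ) [NeZero l] (h : LaurentSeries A) :
    (kronPoly0 ζ l h).Monic :=
  descendPoly_monic l _ (kronPoly_monic ζ l h)

/-- (K5) `kronPoly0(T)` with coefficients expanded `X ↦ X ^ l` is `∏_{b<l} (T - h(ζ^b X))`. -/
theorem map_qExpand_kronPoly0 (ζ : Aˣ) (l : ℕ) [NeZero l] (hζ : ζ ^ l = 1)
    (hreg : ∀ n : ℤ, ¬ (l : ℤ) ∣ n → ∀ a : A, ((ζ ^ n : Aˣ) : A) * a = a → a = 0)
    (h : LaurentSeries A) : (kronPoly0 ζ l h).map (qExpand A l) = kronPoly ζ l h := by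
  refine map_qExpand_descendPoly l _ (fun i => qExpand_descend_of_rot_eq l ζ hreg _ ?_)
  conv_rhs => rw [← map_rot_kronPoly ζ l hζ h]
  rw [coeff_map]

theorem kronPoly0_natDegree [Nontrivial A] (ζ : Aˣ) (l : ℕ) [NeZero l] (hζ : ζ ^ l = 1)
    (hreg : ∀ n : ℤ, ¬ (l : ℤ) ∣ n → ∀ a : A, ((ζ ^ n : Aˣ) : A) * a = a → a = 0)
    (h : LaurentSeries A) : (kronPoly0 ζ l h).natDegree = l := by
  rw [← natDegree_map_eq_of_injective (qExpand_injective l) (kronPoly0 ζ l h),
    map_qExpand_kronPoly0 ζ l hζ hreg, kronPoly_natDegree]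

theorem kronPoly0_coeff_zero (ζ : Aˣ) (l : ℕ) [NeZero l] (h : LaurentSeries A) :
    (kronPoly0 ζ l h).coeff 0 = descend l ((-1) ^ l * kronProd ζ l h) := by
  rw [kronPoly0, descendPoly_coeff, kronPoly_coeff_zero]

/-- Modulo `ζ - 1`: `∏_{b<l} (T - h(ζ^b X)) ≡ (T - h̄) ^ l`. -/
theorem map_coeffMap_kronPoly (π : A →+* k) (ζ : Aˣ) (hπ : π (ζ : A) = 1) (l : ℕ)
    (h : LaurentSeries A) :
    (kronPoly ζ l h).map (coeffMap π) = (X - C (coeffMap π h)) ^ l := by
  unfold kronPoly
  rw [Polynomial.map_prod]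
  simp only [Polynomial.map_sub, map_X, map_C]
  rw [Finset.prod_congr rfl (fun b _ => by
    rw [coeffMap_rot_of_map_eq_one π (ζ ^ b)
      (by rw [Units.val_pow_eq_pow_val, map_pow, hπ, one_pow]) h])]
  simp

/-- Modulo `ζ - 1`, characteristic `l`: `∏_{b<l} (T - h(ζ^b X)) ≡ T^l - (Fr h̄)(X^l)`. -/
theorem map_coeffMap_kronPoly_expChar (π : A →+* k) (ζ : Aˣ) (hπ : π (ζ : A) = 1) (l : ℕ)
    [NeZero l] [ExpChar k l] (h : LaurentSeries A) :
    (kronPoly ζ l h).map (coeffMap π) =
      X ^ l - C (qExpand k l (coeffMap (frobenius k l) (coeffMap π h))) := by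
  have : ExpChar (LaurentSeries k) l :=
    expChar_of_injective_ringHom (f := (HahnSeries.C : k →+* LaurentSeries k))
      HahnSeries.C_injective l
  rw [map_coeffMap_kronPoly π ζ hπ, sub_pow_expChar, ← C_pow, pow_expChar_eq_qExpand]

/-- (K5) **Kronecker congruence, polynomial form**: modulo `ζ - 1`, in characteristic `l`,
the descended polynomial `∏_{b<l} (T - h(ζ^b X))` is `T ^ l - Fr h̄`. -/
theorem map_coeffMap_kronPoly0 (π : A →+* k) (ζ : Aˣ) (hπ : π (ζ : A) = 1) (l : ℕ)
    [NeZero l] [ExpChar k l] (h : LaurentSeries A) :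
    (kronPoly0 ζ l h).map (coeffMap π) =
      X ^ l - C (coeffMap (frobenius k l) (coeffMap π h)) := by
  rw [kronPoly0, map_coeffMap_descendPoly, map_coeffMap_kronPoly_expChar π ζ hπ]
  have h1 : (X ^ l - C (qExpand k l (coeffMap (frobenius k l) (coeffMap π h))) :
      Polynomial (LaurentSeries k)) =
      (X ^ l - C (coeffMap (frobenius k l) (coeffMap π h))).map (qExpand k l) := by
    simp
  rw [h1, descendPoly_map_qExpand]

/-- The degree `l + 1` Hecke polynomial `(T - h(X^l)) * ∏_{b<l} (T - h(ζ^b X^{1/l}))`,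
as a polynomial over Laurent series (in the variable `q = X ^ l`). -/
def heckePoly (ζ : Aˣ) (l : ℕ) [NeZero l] (h : LaurentSeries A) : Polynomial (LaurentSeries A) :=
  (X - C (qExpand A l h)) * kronPoly0 ζ l h

theorem heckePoly_monic (ζ : Aˣ) (l : ℕ) [NeZero l] (h : LaurentSeries A) :
    (heckePoly ζ l h).Monic :=
  (monic_X_sub_C _).mul (kronPoly0_monic ζ l h)

theorem heckePoly_natDegree [Nontrivial A] (ζ : Aˣ) (l : ℕ) [NeZero l] (hζ : ζ ^ l = 1)
    (hreg : ∀ n : ℤ, ¬ (l : ℤ) ∣ n → ∀ a : A, ((ζ ^ n : Aˣ) : A) * a = a → a = 0)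
    (h : LaurentSeries A) : (heckePoly ζ l h).natDegree = l + 1 := by
  rw [heckePoly, (monic_X_sub_C _).natDegree_mul (kronPoly0_monic ζ l h),
    kronPoly0_natDegree ζ l hζ hreg, natDegree_X_sub_C, add_comm]

/-- In the variable `X = q^{1/l}`: the roots of the Hecke polynomial are `h(X^{l^2})` and
`h(ζ^b X)`, `b < l`. -/
theorem map_qExpand_heckePoly (ζ : Aˣ) (l : ℕ) [NeZero l] (hζ : ζ ^ l = 1)
    (hreg : ∀ n : ℤ, ¬ (l : ℤ) ∣ n → ∀ a : A, ((ζ ^ n : Aˣ) : A) * a = a → a = 0)
    (h : LaurentSeries A) :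
    (heckePoly ζ l h).map (qExpand A l) =
      (X - C (qExpand A l (qExpand A l h))) * ∏ b ∈ Finset.range l, (X - C (rot (ζ ^ b) h)) := by
  rw [heckePoly, Polynomial.map_mul, map_qExpand_kronPoly0 ζ l hζ hreg, kronPoly]
  simp

theorem heckePoly_eval_qExpand (ζ : Aˣ) (l : ℕ) [NeZero l] (h : LaurentSeries A) :
    (heckePoly ζ l h).eval (qExpand A l h) = 0 := by
  simp [heckePoly]

/-- (K5) **Kronecker congruence for the Hecke polynomial**: modulo `ζ - 1`, characteristic `l`,
`heckePoly ≡ (T - h̄(X^l)) * (T^l - Fr h̄)`. -/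
theorem map_coeffMap_heckePoly (π : A →+* k) (ζ : Aˣ) (hπ : π (ζ : A) = 1) (l : ℕ)
    [NeZero l] [ExpChar k l] (h : LaurentSeries A) :
    (heckePoly ζ l h).map (coeffMap π) =
      (X - C (qExpand k l (coeffMap π h))) *
        (X ^ l - C (coeffMap (frobenius k l) (coeffMap π h))) := by
  rw [heckePoly, Polynomial.map_mul, map_coeffMap_kronPoly0 π ζ hπ, Polynomial.map_sub, map_X,
    map_C, coeffMap_qExpand]

/-- Kronecker congruence when the reduction of `h` has Frobenius-fixed coefficients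
(e.g. `h = j`): `heckePoly ≡ (T - h̄^l) * (T^l - h̄)`. -/
theorem map_coeffMap_heckePoly_of_frobenius_fixed (π : A →+* k) (ζ : Aˣ) (hπ : π (ζ : A) = 1)
    (l : ℕ) [NeZero l] [ExpChar k l] (h : LaurentSeries A)
    (hF : coeffMap (frobenius k l) (coeffMap π h) = coeffMap π h) :
    (heckePoly ζ l h).map (coeffMap π) =
      (X - C ((coeffMap π h) ^ l)) * (X ^ l - C (coeffMap π h)) := by
  rw [map_coeffMap_heckePoly π ζ hπ, pow_expChar_eq_qExpand, hF]

/-- Kronecker congruence, perfect residue ring: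
`heckePoly ≡ (T - (Fr⁻¹ h̄)^l) * (T^l - Fr h̄)`. -/
theorem map_coeffMap_heckePoly_of_perfect (π : A →+* k) (ζ : Aˣ) (hπ : π (ζ : A) = 1)
    (l : ℕ) [NeZero l] [ExpChar k l] [PerfectRing k l] (h : LaurentSeries A) :
    (heckePoly ζ l h).map (coeffMap π) =
      (X - C ((coeffMap ((frobeniusEquiv k l).symm : k →+* k) (coeffMap π h)) ^ l)) *
        (X ^ l - C (coeffMap (frobenius k l) (coeffMap π h))) := by
  rw [map_coeffMap_heckePoly π ζ hπ, qExpand_eq_pow_of_perfect]

/-! ### Convenience forms for consumers (norm, trace, `ζ ≡ 1`) -/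

/-- A root of unity of order dividing `l` reduces to `1` in a reduced ring of characteristic `l`. -/
theorem map_unit_eq_one_of_pow_eq_one (π : A →+* k) [IsReduced k] (l : ℕ) [ExpChar k l]
    (ζ : Aˣ) (hζ : ζ ^ l = 1) : π (ζ : A) = 1 := by
  have h : (π (ζ : A) - 1) ^ l = 0 := by
    rw [sub_pow_expChar, ← map_pow, ← Units.val_pow_eq_pow_val, hζ, Units.val_one, map_one,
      one_pow, sub_self]
  exact sub_eq_zero.mp (IsNilpotent.eq_zero ⟨l, h⟩)

/-- Norm of the `l + 1` conjugates, in the variable `X = q^{1/l}`: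
`(h(q^l) * g(q))(X^l) = h(X^{l²}) * ∏_{b<l} h(ζ^b X)`. -/
theorem qExpand_qExpand_mul_kronNorm (ζ : Aˣ) (l : ℕ) [NeZero l] (hζ : ζ ^ l = 1)
    (hreg : ∀ n : ℤ, ¬ (l : ℤ) ∣ n → ∀ a : A, ((ζ ^ n : Aˣ) : A) * a = a → a = 0)
    (h : LaurentSeries A) :
    qExpand A l (qExpand A l h * kronNorm ζ l h) =
      qExpand A l (qExpand A l h) * kronProd ζ l h := by
  rw [map_mul, qExpand_kronNorm ζ l hζ hreg]

/-- (K4) reduction of the norm, any ring of characteristic `l`: `≡ h̄(q^l) * Fr h̄`. -/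
theorem coeffMap_qExpand_mul_kronNorm_expChar (π : A →+* k) (ζ : Aˣ) (hπ : π (ζ : A) = 1)
    (l : ℕ) [NeZero l] [ExpChar k l] (h : LaurentSeries A) :
    coeffMap π (qExpand A l h * kronNorm ζ l h) =
      qExpand k l (coeffMap π h) * coeffMap (frobenius k l) (coeffMap π h) := by
  rw [map_mul, coeffMap_kronNorm π ζ hπ, coeffMap_qExpand]

/-- (K4) reduction of the norm in the shape `ḡ(q^l) = h̄(q^{l²}) * h̄(q)^l`. -/
theorem qExpand_coeffMap_qExpand_mul_kronNorm (π : A →+* k) (ζ : Aˣ) (hπ : π (ζ : A) = 1)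
    (l : ℕ) [NeZero l] [ExpChar k l] (h : LaurentSeries A) :
    qExpand k l (coeffMap π (qExpand A l h * kronNorm ζ l h)) =
      qExpand k l (qExpand k l (coeffMap π h)) * (coeffMap π h) ^ l := by
  rw [coeffMap_qExpand_mul_kronNorm_expChar π ζ hπ, map_mul, pow_expChar_eq_qExpand]

theorem descend_neg (N : ℕ) [NeZero N] (x : LaurentSeries A) : descend N (-x) = -descend N x := by
  ext n; simp

theorem descend_neg_one_pow_mul (N : ℕ) [NeZero N] (m : ℕ) (x : LaurentSeries A) :
    descend N ((-1) ^ m * x) = (-1) ^ m * descend N x := by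
  rcases neg_one_pow_eq_or (LaurentSeries A) m with h | h
  · rw [h, one_mul, one_mul]
  · rw [h, neg_one_mul, neg_one_mul, descend_neg]

theorem kronPoly0_coeff_zero_eq (ζ : Aˣ) (l : ℕ) [NeZero l] (h : LaurentSeries A) :
    (kronPoly0 ζ l h).coeff 0 = (-1) ^ l * kronNorm ζ l h := by
  rw [kronPoly0_coeff_zero, descend_neg_one_pow_mul, kronNorm]

/-- The constant coefficient of the Hecke polynomial is `(-1)^(l+1)` times the norm
`h(q^l) * kronNorm`. -/
theorem heckePoly_coeff_zero (ζ : Aˣ) (l : ℕ) [NeZero l] (h : LaurentSeries A) :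
    (heckePoly ζ l h).coeff 0 = (-1) ^ (l + 1) * (qExpand A l h * kronNorm ζ l h) := by
  rw [heckePoly, mul_coeff_zero, kronPoly0_coeff_zero_eq, coeff_sub, coeff_X_zero, coeff_C_zero]
  ring

/-- Trace form (`U_l`): `∑_{b<l} h(ζ^b X) = l * (∑_n h_{l n} X^{l n})`. -/
theorem sum_rot (ζ : Aˣ) (l : ℕ) [NeZero l] (hζ : ζ ^ l = 1)
    (hreg : ∀ n : ℤ, ¬ (l : ℤ) ∣ n → ∀ a : A, ((ζ ^ n : Aˣ) : A) * a = a → a = 0)
    (h : LaurentSeries A) :
    ∑ b ∈ Finset.range l, rot (ζ ^ b) h = (l : A) • qExpand A l (descend l h) := by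
  ext n
  rw [HahnSeries.coeff_sum, HahnSeries.coeff_smul, smul_eq_mul]
  simp only [rot_coeff]
  rw [← Finset.sum_mul]
  by_cases hn : (l : ℤ) ∣ n
  · obtain ⟨m, rfl⟩ := hn
    rw [qExpand_coeff_mul, descend_coeff]
    congr 1
    have h1 : ∀ b ∈ Finset.range l, (((ζ ^ b) ^ ((l : ℤ) * m) : Aˣ) : A) = 1 := by
      intro b _
      rw [← zpow_natCast ζ b, ← zpow_mul, mul_comm (b : ℤ), mul_assoc, zpow_mul, zpow_natCast, hζ,
        one_zpow, Units.val_one]
    rw [Finset.sum_congr rfl h1]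
    simp
  · rw [qExpand_coeff_of_not_dvd l _ hn, mul_zero]
    have hS : ∑ b ∈ Finset.range l, (((ζ ^ b) ^ n : Aˣ) : A) = 0 := by
      refine hreg n hn _ ?_
      rw [Finset.mul_sum]
      have h2 : ∀ b ∈ Finset.range l,
          ((ζ ^ n : Aˣ) : A) * (((ζ ^ b) ^ n : Aˣ) : A) = (((ζ ^ (b + 1)) ^ n : Aˣ) : A) := by
        intro b _
        rw [← Units.val_mul, pow_succ, mul_zpow, mul_comm]
      rw [Finset.sum_congr rfl h2]
      rcases Nat.exists_eq_succ_of_ne_zero (NeZero.ne l) with ⟨m, rfl⟩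
      rw [Finset.sum_range_succ, Finset.sum_range_succ' (fun b => (((ζ ^ b) ^ n : Aˣ) : A)), hζ,
        pow_zero]
    rw [hS, zero_mul]

end

end Fermat.Agent.S37.helper5666
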