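/-
S37 (also usable by S29/S18) -- Kronecker congruence, base-change and valuation-ring forms.
Author: helper5666.  All proofs complete.  Continues `helper5666_KroneckerSeries`.

* naturality of `kronProd`, `kronNorm`, `kronPoly`, `kronPoly0`, `heckePoly` under a coefficient
  ring hom `f : A →+* B` (with `ζ ↦ Units.map f ζ`);
* one-shot integral form: `ι : A →+* L` injective into a field, `π : A →+* k` with `k` reduced of
  characteristic `l`; a series `y` over `A`, `h = ι y`:
  the Hecke polynomial of `h` over `L` has coefficients in `A((q))` and reduces to Kronecker's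
  `(T - ȳ(q^l)) * (T^l - Fr ȳ)`;
* the instance `A : ValuationSubring L`, `π` = residue map.
-/
import Fermat.Agent.S37.helper5666_KroneckerSeries

set_option autoImplicit false

namespace Fermat.Agent.S37.helper5666

open Polynomial ModularCurve

noncomputable section

variable {A B : Type*} [CommRing A] [CommRing B]

/-! ### Naturality in the coefficient ring -/

theorem coeffMap_kronProd_map (f : A →+* B) (ζ : Aˣ) (l : ℕ) (h : LaurentSeries A) :
    coeffMap f (kronProd ζ l h) = kronProd (Units.map (f : A →* B) ζ) l (coeffMap f h) := by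
  unfold kronProd
  rw [map_prod]
  refine Finset.prod_congr rfl (fun b _ => ?_)
  rw [coeffMap_rot, map_pow]

theorem coeffMap_kronNorm_map (f : A →+* B) (ζ : Aˣ) (l : ℕ) [NeZero l] (h : LaurentSeries A) :
    coeffMap f (kronNorm ζ l h) = kronNorm (Units.map (f : A →* B) ζ) l (coeffMap f h) := by
  rw [kronNorm, coeffMap_descend, coeffMap_kronProd_map, kronNorm]

theorem map_coeffMap_kronPoly_map (f : A →+* B) (ζ : Aˣ) (l : ℕ) (h : LaurentSeries A) :
    (kronPoly ζ l h).map (coeffMap f) =
      kronPoly (Units.map (f : A →* B) ζ) l (coeffMap f h) := by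
  unfold kronPoly
  rw [Polynomial.map_prod]
  refine Finset.prod_congr rfl (fun b _ => ?_)
  rw [Polynomial.map_sub, map_X, map_C, coeffMap_rot, map_pow]

theorem map_coeffMap_kronPoly0_map (f : A →+* B) (ζ : Aˣ) (l : ℕ) [NeZero l]
    (h : LaurentSeries A) :
    (kronPoly0 ζ l h).map (coeffMap f) =
      kronPoly0 (Units.map (f : A →* B) ζ) l (coeffMap f h) := by
  rw [kronPoly0, map_coeffMap_descendPoly, map_coeffMap_kronPoly_map, kronPoly0]

theorem map_coeffMap_heckePoly_map (f : A →+* B) (ζ : Aˣ) (l : ℕ) [NeZero l]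
    (h : LaurentSeries A) :
    (heckePoly ζ l h).map (coeffMap f) =
      heckePoly (Units.map (f : A →* B) ζ) l (coeffMap f h) := by
  rw [heckePoly, Polynomial.map_mul, map_coeffMap_kronPoly0_map, Polynomial.map_sub, map_X, map_C,
    coeffMap_qExpand, heckePoly]

/-! ### One-shot integral Kronecker congruence -/

section OneShot

variable {L k : Type*} [Field L] [CommRing k]

/-- **Integral Kronecker congruence.**  `ι : A →+* L` an injective ring hom into a field
containing a primitive `l`-th root of unity `ζ = ι ζA`; `π : A →+* k`, `k` reduced of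
characteristic `l`.  For `y ∈ A((q))` with `h = ι y`:

* the Hecke polynomial `heckePoly ζ l h ∈ L((q))[T]` (whose roots in the variable `X = q^{1/l}` are
  `h(X^{l²})` and `h(ζ^b X)`, `b < l`) is the image of `heckePoly ζA l y ∈ A((q))[T]`;
* the latter reduces under `π` to `(T - ȳ(q^l)) * (T^l - Fr ȳ)`. -/
theorem kronecker_integral (ι : A →+* L) (hι : Function.Injective ι) (π : A →+* k) [IsReduced k]
    (l : ℕ) [NeZero l] [ExpChar k l] (ζA : Aˣ)
    (hζ : IsPrimitiveRoot (Units.map (ι : A →* L) ζA) l) (y : LaurentSeries A) :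
    (heckePoly ζA l y).Monic ∧
    (heckePoly ζA l y).map (coeffMap ι) = heckePoly (Units.map (ι : A →* L) ζA) l (coeffMap ι y) ∧
    (heckePoly (Units.map (ι : A →* L) ζA) l (coeffMap ι y)).map (qExpand L l) =
      (X - C (qExpand L l (qExpand L l (coeffMap ι y)))) *
        ∏ b ∈ Finset.range l, (X - C (rot ((Units.map (ι : A →* L) ζA) ^ b) (coeffMap ι y))) ∧
    (heckePoly ζA l y).map (coeffMap π) =
      (X - C (qExpand k l (coeffMap π y))) *
        (X ^ l - C (coeffMap (frobenius k l) (coeffMap π y))) := by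
  have hζA : ζA ^ l = 1 := by
    have h1 : Units.map (ι : A →* L) (ζA ^ l) = Units.map (ι : A →* L) 1 := by
      rw [map_pow, hζ.pow_eq_one, map_one]
    exact Units.map_injective (f := (ι : A →* L)) hι h1
  refine ⟨heckePoly_monic ζA l y, map_coeffMap_heckePoly_map ι ζA l y, ?_, ?_⟩
  · exact map_qExpand_heckePoly _ l hζ.pow_eq_one (hreg_of_isPrimitiveRoot l _ hζ) _
  · exact map_coeffMap_heckePoly π ζA (map_unit_eq_one_of_pow_eq_one π l ζA hζA) l y

/-- Norm form of `kronecker_integral`: the norm `h(q^l) * kronNorm ζ l h` of the `l + 1`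
conjugates is the image of `y(q^l) * kronNorm ζA l y ∈ A((q))`, which reduces to
`ȳ(q^l) * Fr ȳ`. -/
theorem kronecker_integral_norm (ι : A →+* L) (hι : Function.Injective ι) (π : A →+* k)
    [IsReduced k] (l : ℕ) [NeZero l] [ExpChar k l] (ζA : Aˣ)
    (hζ : IsPrimitiveRoot (Units.map (ι : A →* L) ζA) l) (y : LaurentSeries A) :
    coeffMap ι (qExpand A l y * kronNorm ζA l y) =
      qExpand L l (coeffMap ι y) * kronNorm (Units.map (ι : A →* L) ζA) l (coeffMap ι y) ∧
    qExpand L l (qExpand L l (coeffMap ι y) *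
        kronNorm (Units.map (ι : A →* L) ζA) l (coeffMap ι y)) =
      qExpand L l (qExpand L l (coeffMap ι y)) *
        ∏ b ∈ Finset.range l, rot ((Units.map (ι : A →* L) ζA) ^ b) (coeffMap ι y) ∧
    coeffMap π (qExpand A l y * kronNorm ζA l y) =
      qExpand k l (coeffMap π y) * coeffMap (frobenius k l) (coeffMap π y) := by
  have hζA : ζA ^ l = 1 := by
    have h1 : Units.map (ι : A →* L) (ζA ^ l) = Units.map (ι : A →* L) 1 := by
      rw [map_pow, hζ.pow_eq_one, map_one]
    exact Units.map_injective (f := (ι : A →* L)) hι h1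
  refine ⟨?_, ?_, ?_⟩
  · rw [map_mul, coeffMap_qExpand, coeffMap_kronNorm_map]
  · exact qExpand_qExpand_mul_kronNorm _ l hζ.pow_eq_one (hreg_of_isPrimitiveRoot l _ hζ) _
  · exact coeffMap_qExpand_mul_kronNorm_expChar π ζA
      (map_unit_eq_one_of_pow_eq_one π l ζA hζA) l y

end OneShot

/-! ### Valuation subrings -/

section Valuation

variable {L : Type*} [Field L]

/-- A root of unity of a field lies in every valuation subring, as a unit. -/
theorem exists_unit_of_pow_eq_one (O : ValuationSubring L) (ζ : Lˣ) (l : ℕ) (hl : l ≠ 0)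
    (hζ : ζ ^ l = 1) : ∃ u : Oˣ, Units.map (O.subtype : O →* L) u = ζ := by
  have hmem : ∀ x : Lˣ, x ^ l = 1 → (x : L) ∈ O := by
    intro x hx
    rcases O.mem_or_inv_mem (x : L) with h | h
    · exact h
    · have h2 : (x : L) = ((x : L)⁻¹) ^ (l - 1) := by
        have h3 : (x : L) ^ l = 1 := by
          rw [← Units.val_pow_eq_pow_val, hx, Units.val_one]
        have h4 : (x : L) ^ (l - 1) * (x : L) = 1 := by
          rw [← pow_succ, Nat.sub_add_cancel (Nat.one_le_iff_ne_zero.mpr hl), h3]
        rw [inv_pow]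
        exact (eq_inv_of_mul_eq_one_right h4)
      rw [h2]
      exact pow_mem h _
  have h1 : (ζ : L) ∈ O := hmem ζ hζ
  have h2 : ((ζ⁻¹ : Lˣ) : L) ∈ O := hmem ζ⁻¹ (by rw [inv_pow, hζ, inv_one])
  refine ⟨⟨⟨ζ, h1⟩, ⟨((ζ⁻¹ : Lˣ) : L), h2⟩, ?_, ?_⟩, ?_⟩
  · apply Subtype.ext
    simp
  · apply Subtype.ext
    simp
  · ext
    rfl

/-- **Kronecker congruence over a valuation subring** `O` of a field `L` whose residue field has
characteristic `l`, `ζ ∈ L` a primitive `l`-th root of unity.  For `y ∈ O((q))`, `h = y` read in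
`L((q))`: there is a monic `P ∈ O((q))[T]` mapping to the Hecke polynomial of `h` (roots
`h(X^{l²})`, `h(ζ^b X)` in the variable `X = q^{1/l}`) and reducing to
`(T - ȳ(q^l)) * (T^l - Fr ȳ)` over the residue field. -/
theorem kronecker_valuationSubring (O : ValuationSubring L) (l : ℕ) [NeZero l]
    [ExpChar (IsLocalRing.ResidueField O) l] (ζ : Lˣ) (hζ : IsPrimitiveRoot ζ l)
    (y : LaurentSeries O) :
    ∃ P : Polynomial (LaurentSeries O), P.Monic ∧
      P.map (coeffMap O.subtype) = heckePoly ζ l (coeffMap O.subtype y) ∧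
      (P.map (coeffMap O.subtype)).map (qExpand L l) =
        (X - C (qExpand L l (qExpand L l (coeffMap O.subtype y)))) *
          ∏ b ∈ Finset.range l, (X - C (rot (ζ ^ b) (coeffMap O.subtype y))) ∧
      P.map (coeffMap (IsLocalRing.residue O)) =
        (X - C (qExpand (IsLocalRing.ResidueField O) l (coeffMap (IsLocalRing.residue O) y))) *
          (X ^ l - C (coeffMap (frobenius (IsLocalRing.ResidueField O) l)
            (coeffMap (IsLocalRing.residue O) y))) := by
  obtain ⟨u, hu⟩ := exists_unit_of_pow_eq_one O ζ l (NeZero.ne l) hζ.pow_eq_one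
  have hζ' : IsPrimitiveRoot (Units.map ((O.subtype : O →+* L) : O →* L) u) l := by
    have : Units.map ((O.subtype : O →+* L) : O →* L) u = ζ := hu
    rw [this]; exact hζ
  obtain ⟨h1, h2, h3, h4⟩ := kronecker_integral (O.subtype : O →+* L)
    Subtype.val_injective (IsLocalRing.residue O) l u hζ' y
  have hu' : Units.map ((O.subtype : O →+* L) : O →* L) u = ζ := hu
  rw [hu'] at h2 h3
  exact ⟨heckePoly u l y, h1, h2, by rw [h2]; exact h3, h4⟩

end Valuation

end

end Fermat.Agent.S37.helper5666
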