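import Mathlib
import Fermat.Prelude.Def_AlgebraicCurve_Correspondence
import Fermat.Prelude.Def_ModularCurve_HeckeOperator
import Fermat.Agent.S18.helper3054_Kummer
import Fermat.Agent.S18.helper8991_GaussInst
import Fermat.Agent.S18.helper2557_LevelKummer
import Fermat.Agent.S18.helper508_GaussMod

/-!
# S37, plan module E6 (TORS): assembly of the torsion clause (R3)

## Concrete part (route of `team_s37_chat` #152: Kummer field form AT LEVEL `N`)

`A` a valuation subring of `ℚ̄` over `ℓ`, `ℓ ∤ N`, `Kd` a subgroup of divisors of `F_N`.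
* `LocFormula A N Kd` (E2): `a b : IntegralFn A N`, `div a - div b ∈ Kd` ⟹ `ā = κ · b̄`, `κ ≠ 0`.
* `k3_of_kf` : `Stmt_KF N ℓ` + `LocFormula A N Kd` ⟹
  `∀ q prime ≠ ℓ, ∀ D ∈ Kd, (q • D).IsPrincipal → D.IsPrincipal`   (shape (K3) of module A2).
* `isPrincipal_of_kf`, `pic0_eq_zero_of_kf`, `r3_of_kf` : same for every `m` with `ℓ ∤ m`,
  divisor form / `Pic0` form / subgroup `W ≤ J₀(N)` form (clause (R3) of `Stmt_Kernel`).
* `locFormula_of_level`, `locFormula_of_alpha` : the local formula may be proved at an auxiliary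
  level `N' = N r` (E1 XFER `pull-back Kd ⊆ Kd'` is the only extra input).
* `k3_of_kf_of_alpha`, `r3_of_kf_of_alpha` : the combination.
* `redMem_of_liesOverPrime`, `normalForm_of_liesOverPrime` : the normal form `U = c · a / b`
  with `a b : IntegralFn A N` is unconditional (landed GAUSS-INST + GAUSSMOD).

## Generic part (norm-trick variant, any finite extension `φ : F →ₐ[K] F'`)

* `isPrincipal_of_transfer` (T0): if a subgroup `Kd` of divisors of `F` is pulled back into a
  subgroup `Kd'` of divisors of `F'` (XFER), if `Kd'` has no `q`-power torsion classes (TORS'),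
  if "pull-back principal ⟹ `[F':F] • D` principal" (NORMTRICK) and `q` is prime to `[F':F]`,
  then `Kd` has no `q`-power torsion classes.
* `tors_clause_of_transfer`, `pic0_eq_zero_of_transfer`: the same in `Pic0` form.
-/

set_option autoImplicit false

noncomputable section

namespace Fermat.Agent.S37.helper872

open AlgebraicCurve

section Generic

variable {K F F' : Type*} [Field K] [Field F] [Field F'] [Algebra K F] [Algebra K F']

/-- The class of a degree-zero divisor vanishes iff the divisor is principal. -/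
theorem pic0_mk_eq_zero_iff (D : Divisor.degZero (K := K) (F := F)) :
    Pic0.mk D = 0 ↔ (D : Divisor K F).IsPrincipal := by
  rw [Pic0.mk, QuotientAddGroup.eq_zero_iff, AddSubgroup.mem_addSubgroupOf]
  rfl

/-- `n • [D] = 0` iff `n • D` is principal. -/
theorem nsmul_pic0_mk_eq_zero_iff (n : ℕ) (D : Divisor.degZero (K := K) (F := F)) :
    n • Pic0.mk D = 0 ↔ (n • (D : Divisor K F)).IsPrincipal := by
  have h : n • Pic0.mk D = Pic0.mk (n • D) := (QuotientAddGroup.mk_nsmul _ D n).symm
  rw [h, pic0_mk_eq_zero_iff, AddSubgroupClass.coe_nsmul]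

/-- If `a • D` and `b • D` are principal with `a`, `b` coprime, then `D` is principal. -/
theorem isPrincipal_of_coprime_nsmul {D : Divisor K F} {a b : ℕ} (hab : Nat.Coprime a b)
    (ha : (a • D).IsPrincipal) (hb : (b • D).IsPrincipal) : D.IsPrincipal := by
  have h1 : a • D ∈ Divisor.principal (K := K) (F := F) := ha
  have h2 : b • D ∈ Divisor.principal (K := K) (F := F) := hb
  have hbez : ((a : ℤ) * Int.gcdA a b + (b : ℤ) * Int.gcdB a b) = 1 := by
    have h := Int.gcd_eq_gcd_ab (a : ℤ) (b : ℤ)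
    rw [Int.gcd_natCast_natCast, hab] at h
    exact_mod_cast h.symm
  have hD : D = Int.gcdA a b • (a • D) + Int.gcdB a b • (b • D) := by
    rw [← natCast_zsmul D a, ← natCast_zsmul D b, smul_smul, smul_smul, ← add_smul,
      mul_comm (Int.gcdA _ _), mul_comm (Int.gcdB _ _), hbez, one_smul]
  have hmem : Int.gcdA a b • (a • D) + Int.gcdB a b • (b • D) ∈
      Divisor.principal (K := K) (F := F) :=
    add_mem (zsmul_mem h1 _) (zsmul_mem h2 _)
  rw [← hD] at hmem
  exact hmem

variable [HasPrincipalDivisors K F'] (φ : F →ₐ[K] F') (hφ : φ.toRingHom.IsIntegral)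

/-- **(T0) Torsion transfer.**  `Kd`, `Kd'` subgroups of divisors downstairs / upstairs.
* `hX` (XFER): pull-back maps `Kd` into `Kd'`;
* `hT'` (TORS'): a degree-zero divisor of `Kd'` some `q`-power multiple of which is principal
  is principal;
* `hNT` (NORMTRICK): if the pull-back of `D` is principal then `[F':F] • D` is principal;
* `q` is prime to `[F':F]`.
Then a degree-zero divisor of `Kd` some `q`-power multiple of which is principal is principal. -/
theorem isPrincipal_of_transfer
    (Kd : AddSubgroup (Divisor K F)) (Kd' : AddSubgroup (Divisor K F'))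
    (hFI : FundamentalIdentityAlong K φ hφ)
    (hX : ∀ D ∈ Kd, Divisor.pullbackAlong φ hφ D ∈ Kd')
    (q : ℕ)
    (hT' : ∀ D' ∈ Kd', Divisor.degree D' = 0 → ∀ n : ℕ, (q ^ n • D').IsPrincipal →
      D'.IsPrincipal)
    (hNT : ∀ D : Divisor K F, (Divisor.pullbackAlong φ hφ D).IsPrincipal →
      (finrankAlong K φ • D).IsPrincipal)
    (hcop : Nat.Coprime q (finrankAlong K φ))
    {D : Divisor K F} (hD : D ∈ Kd) (hdeg : Divisor.degree D = 0) (n : ℕ)
    (hq : (q ^ n • D).IsPrincipal) : D.IsPrincipal := by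
  have h1 : (Divisor.pullbackAlong φ hφ D).IsPrincipal := by
    refine hT' _ (hX D hD) ?_ n ?_
    · rw [Divisor.degree_pullbackAlong φ hφ hFI, hdeg, mul_zero]
    · rw [← map_nsmul]
      exact Divisor.isPrincipal_pullbackAlong φ hφ hq
  exact isPrincipal_of_coprime_nsmul (Nat.Coprime.pow_left n hcop) hq (hNT D h1)

/-- **(T0), `Pic0` form** = the torsion clause consumed by the divisor-level assemblies of the
top reduction: every degree-zero divisor of `Kd` whose class is killed by a power of `p` is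
principal. -/
theorem tors_clause_of_transfer
    (Kd : AddSubgroup (Divisor K F)) (Kd' : AddSubgroup (Divisor K F'))
    (hFI : FundamentalIdentityAlong K φ hφ)
    (hX : ∀ D ∈ Kd, Divisor.pullbackAlong φ hφ D ∈ Kd')
    (p : ℕ)
    (hT' : ∀ D' ∈ Kd', Divisor.degree D' = 0 → ∀ n : ℕ, (p ^ n • D').IsPrincipal →
      D'.IsPrincipal)
    (hNT : ∀ D : Divisor K F, (Divisor.pullbackAlong φ hφ D).IsPrincipal →
      (finrankAlong K φ • D).IsPrincipal)
    (hcop : Nat.Coprime p (finrankAlong K φ)) :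
    ∀ D : Divisor.degZero (K := K) (F := F), (D : Divisor K F) ∈ Kd →
      (∃ n : ℕ, p ^ n • Pic0.mk D = 0) → (D : Divisor K F).IsPrincipal := by
  rintro D hD ⟨n, hn⟩
  rw [nsmul_pic0_mk_eq_zero_iff] at hn
  exact isPrincipal_of_transfer φ hφ Kd Kd' hFI hX p hT' hNT hcop hD
    (Divisor.mem_degZero.mp D.2) n hn

/-- The same conclusion as an equality of classes. -/
theorem pic0_eq_zero_of_transfer
    (Kd : AddSubgroup (Divisor K F)) (Kd' : AddSubgroup (Divisor K F'))
    (hFI : FundamentalIdentityAlong K φ hφ)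
    (hX : ∀ D ∈ Kd, Divisor.pullbackAlong φ hφ D ∈ Kd')
    (p : ℕ)
    (hT' : ∀ D' ∈ Kd', Divisor.degree D' = 0 → ∀ n : ℕ, (p ^ n • D').IsPrincipal →
      D'.IsPrincipal)
    (hNT : ∀ D : Divisor K F, (Divisor.pullbackAlong φ hφ D).IsPrincipal →
      (finrankAlong K φ • D).IsPrincipal)
    (hcop : Nat.Coprime p (finrankAlong K φ))
    (D : Divisor.degZero (K := K) (F := F)) (hD : (D : Divisor K F) ∈ Kd)
    (hp : ∃ n : ℕ, p ^ n • Pic0.mk D = 0) : Pic0.mk D = 0 :=
  (pic0_mk_eq_zero_iff D).mpr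
    (tors_clause_of_transfer φ hφ Kd Kd' hFI hX p hT' hNT hcop D hD hp)

end Generic

/-! ## Concrete part: the torsion clause at level `N` from the S18 Kummer field form

Vocabulary of the landed S18 interface `Fermat.Agent.S18.helper3054` (`IntegralFn A N`,
`Stmt_KF N ℓ`).  The route is the one of `team_s37_chat` #152:

* `NormalForm A N` — every nonzero `U ∈ F_N` is `c · a / b` with `a b : IntegralFn A N`
  (from the landed normal form `helper8991.exists_normal_form` and `RedMem A N`, the statement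
  that the reduction of an `A`-integral series of `F_N` lies in the characteristic-`ℓ`
  function field — the Igusa degree equality);
* `LocFormula A N Kd` — the local formula (E2): if `div a - div b ∈ Kd` then `ā = κ · b̄` with a
  nonzero constant `κ`;  it may be proved at any auxiliary level `N'` with `N ∣ N'`
  (`locFormula_of_level`, using the transfer (E1) `pull-back Kd ⊆ Kd'`);
* `Stmt_KF N ℓ` — the S18 Kummer field form AT LEVEL `N`.

Then every `D ∈ Kd` with `m • D` principal, `ℓ ∤ m`, is principal (`isPrincipal_of_kf`); no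
norm trick, no primality of `m`, no degree hypothesis.
-/

section Concrete

open ModularCurve HahnSeries
open Fermat.Agent.S18.helper3054

variable (A : ValuationSubring (AlgebraicClosure ℚ))

/-- (RES) The reduction of an `A`-integral series lying in the characteristic-zero function
field of level `N` lies in the characteristic-`ℓ` function field of level `N`
(the residue field of the Gauss valuation of `F_N` is `F_{N,k}`: Igusa degree equality). -/
def RedMem (N : ℕ) : Prop :=
  ∀ y : LaurentSeries A, coeffMap A.subtype y ∈ modularFunctionFieldBar N →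
    coeffMap (IsLocalRing.residue A) y ∈
      modularFunctionFieldFullC (IsLocalRing.ResidueField A) N

/-- (NF) Normal form: every nonzero function of level `N` is a constant times a quotient of two
integral functions. -/
def NormalForm (N : ℕ) : Prop :=
  ∀ U : modularFunctionFieldBar N, U ≠ 0 →
    ∃ (c : AlgebraicClosure ℚ) (a b : IntegralFn A N), c ≠ 0 ∧
      U * b.gen = algebraMap (AlgebraicClosure ℚ) (modularFunctionFieldBar N) c * a.gen

/-- (LOCF) The local formula on a subgroup `Kd` of divisors of level `N`: a quotient of integral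
functions whose divisor lies in `Kd` has constant reduction. -/
def LocFormula (N : ℕ)
    (Kd : AddSubgroup (Divisor (AlgebraicClosure ℚ) (modularFunctionFieldBar N))) : Prop :=
  ∀ (a b : IntegralFn A N) (E : Divisor (AlgebraicClosure ℚ) (modularFunctionFieldBar N)),
    E ∈ Kd → (∀ P, E P = P.ord a.gen - P.ord b.gen) →
    ∃ κ : IsLocalRing.ResidueField A, κ ≠ 0 ∧
      a.red = algebraMap (IsLocalRing.ResidueField A)
        (modularFunctionFieldFullC (IsLocalRing.ResidueField A) N) κ * b.red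

variable {A}

/-- The normal form from the landed Gauss normal form and (RES). -/
theorem normalForm_of_redMem {N : ℕ} (h : RedMem A N) : NormalForm A N := by
  intro U hU
  have hU' : (U : LaurentSeries (AlgebraicClosure ℚ)) ≠ 0 := fun h0 => hU (Subtype.ext h0)
  obtain ⟨c, X, Y, hc, hX, hY, hXm, hYm, hrel⟩ :=
    Fermat.Agent.S18.helper8991.exists_normal_form A (IsLocalRing.residue A) N U.2 hU'
  refine ⟨c, ⟨X, hXm, h X hXm, hX⟩, ⟨Y, hYm, h Y hYm, hY⟩, hc, Subtype.ext ?_⟩
  rw [Fermat.Agent.S18.helper8991.C_eq_algebraMap] at hrel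
  exact hrel

/-- **(T1) Torsion clause at level `N`, divisor form.**  From the Kummer field form at level
`N`, the normal form and the local formula on `Kd`: a divisor of `Kd` a multiple `m • D`
(`ℓ ∤ m`) of which is principal is principal. -/
theorem isPrincipal_of_kf {N : ℕ} [NeZero N] {ℓ : ℕ} (hKF : Stmt_KF N ℓ)
    (hA : A.LiesOverPrime ℓ)
    (Kd : AddSubgroup (Divisor (AlgebraicClosure ℚ) (modularFunctionFieldBar N)))
    (hNF : NormalForm A N) (hLF : LocFormula A N Kd)
    {D : Divisor (AlgebraicClosure ℚ) (modularFunctionFieldBar N)} (hD : D ∈ Kd)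
    {m : ℕ} (hm : ¬ ℓ ∣ m) (hmD : (m • D).IsPrincipal) : D.IsPrincipal := by
  obtain ⟨U, hU0, hU⟩ := hmD
  obtain ⟨c, a, b, hc, hrel⟩ := hNF U hU0
  have hm0 : m ≠ 0 := by
    rintro rfl
    exact hm (dvd_zero ℓ)
  have hcF : algebraMap (AlgebraicClosure ℚ) (modularFunctionFieldBar N) c ≠ 0 := by
    rw [Ne, map_eq_zero]; exact hc
  have hord : ∀ P : Place (AlgebraicClosure ℚ) (modularFunctionFieldBar N),
      (m • D) P = P.ord a.gen - P.ord b.gen := by
    intro P
    have h1 := congrArg P.ord hrel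
    rw [P.ord_mul hU0 b.gen_ne_zero, P.ord_mul hcF a.gen_ne_zero,
      ord_algebraMap_eq_zero P hc, zero_add] at h1
    rw [hU P]
    linarith
  obtain ⟨κ, hκ, hred⟩ := hLF a b (m • D) (Kd.nsmul_mem hD m) hord
  have hdvd : ∀ P : Place (AlgebraicClosure ℚ) (modularFunctionFieldBar N),
      (m : ℤ) ∣ P.ord a.gen - P.ord b.gen := by
    intro P
    refine ⟨D P, ?_⟩
    rw [← hord P, Finsupp.smul_apply, nsmul_eq_mul]
  obtain ⟨V, c', hgen⟩ := hKF A hA m hm a b hdvd 1 κ one_ne_zero hκ
    (by rw [one_pow, mul_one]; exact hred)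
  have hc'V : algebraMap (AlgebraicClosure ℚ) (modularFunctionFieldBar N) c' * V ^ m ≠ 0 := by
    intro h0
    rw [h0, zero_mul] at hgen
    exact a.gen_ne_zero hgen
  have hc' : c' ≠ 0 := by
    rintro rfl
    rw [map_zero, zero_mul] at hc'V
    exact hc'V rfl
  have hV : V ≠ 0 := by
    rintro rfl
    rw [zero_pow hm0, mul_zero] at hc'V
    exact hc'V rfl
  have hc'F : algebraMap (AlgebraicClosure ℚ) (modularFunctionFieldBar N) c' ≠ 0 := by
    rw [Ne, map_eq_zero]; exact hc'
  refine ⟨V, hV, fun P => ?_⟩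
  have h2 := hord P
  rw [hgen, P.ord_mul hc'V b.gen_ne_zero, P.ord_mul hc'F (pow_ne_zero m hV),
    ord_algebraMap_eq_zero P hc', zero_add, ord_pow, Finsupp.smul_apply, nsmul_eq_mul] at h2
  have h3 : (m : ℤ) * D P = (m : ℤ) * P.ord V := by linarith
  exact mul_left_cancel₀ (by exact_mod_cast hm0) h3

/-- **(T1), `Pic0` form.**  The class of a degree-zero divisor of `Kd` killed by some `m` prime
to `ℓ` is trivial. -/
theorem pic0_eq_zero_of_kf {N : ℕ} [NeZero N] {ℓ : ℕ} (hKF : Stmt_KF N ℓ)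
    (hA : A.LiesOverPrime ℓ)
    (Kd : AddSubgroup (Divisor (AlgebraicClosure ℚ) (modularFunctionFieldBar N)))
    (hNF : NormalForm A N) (hLF : LocFormula A N Kd)
    (D : Divisor.degZero (K := AlgebraicClosure ℚ) (F := modularFunctionFieldBar N))
    (hD : (D : Divisor (AlgebraicClosure ℚ) (modularFunctionFieldBar N)) ∈ Kd)
    {m : ℕ} (hm : ¬ ℓ ∣ m) (hmD : m • Pic0.mk D = 0) : Pic0.mk D = 0 := by
  rw [nsmul_pic0_mk_eq_zero_iff] at hmD
  exact (pic0_mk_eq_zero_iff D).mpr (isPrincipal_of_kf hKF hA Kd hNF hLF hD hm hmD)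

/-- **(R3) for a subgroup of `J₀(N)`.**  If every element of `W ≤ J₀(N)` is the class of a
degree-zero divisor of `Kd`, then `W` has no prime-to-`ℓ` torsion; in particular no `q`-torsion
for the primes `q ≠ ℓ` — clause (R3) of `helper8353.Stmt_Kernel`. -/
theorem r3_of_kf {N : ℕ} [NeZero N] {ℓ : ℕ} (hKF : Stmt_KF N ℓ)
    (hA : A.LiesOverPrime ℓ)
    (Kd : AddSubgroup (Divisor (AlgebraicClosure ℚ) (modularFunctionFieldBar N)))
    (hNF : NormalForm A N) (hLF : LocFormula A N Kd)
    (W : AddSubgroup (JZero N))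
    (hW : ∀ x ∈ W, ∃ D : Divisor.degZero (K := AlgebraicClosure ℚ)
      (F := modularFunctionFieldBar N),
      (D : Divisor (AlgebraicClosure ℚ) (modularFunctionFieldBar N)) ∈ Kd ∧ Pic0.mk D = x) :
    (∀ m : ℕ, ¬ ℓ ∣ m → ∀ x ∈ W, m • x = 0 → x = 0) ∧
    (ℓ.Prime → ∀ q : ℕ, q.Prime → q ≠ ℓ → ∀ x ∈ W, q • x = 0 → x = 0) := by
  have h1 : ∀ m : ℕ, ¬ ℓ ∣ m → ∀ x ∈ W, m • x = 0 → x = 0 := by
    intro m hm x hx hmx
    obtain ⟨D, hD, rfl⟩ := hW x hx
    exact pic0_eq_zero_of_kf hKF hA Kd hNF hLF D hD hm hmx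
  refine ⟨h1, fun hℓ q hq hqℓ => h1 q ?_⟩
  intro hdvd
  rcases (Nat.dvd_prime hq).mp hdvd with h | h
  · exact hℓ.one_lt.ne' h
  · exact hqℓ h.symm

/-- (RES) holds at every level `N` prime to `ℓ` (landed GAUSSMOD, `helper508`). -/
theorem redMem_of_liesOverPrime {N : ℕ} [NeZero N] {ℓ : ℕ} (hℓ : ℓ.Prime) (hℓN : ¬ ℓ ∣ N)
    (hA : A.LiesOverPrime ℓ) : RedMem A N := by
  have : Fact ℓ.Prime := ⟨hℓ⟩
  exact fun y hy => Fermat.Agent.S18.helper508.coeffMap_residue_mem_fullC N ℓ hℓN A hA y hy

/-- (NF) holds at every level `N` prime to `ℓ`. -/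
theorem normalForm_of_liesOverPrime {N : ℕ} [NeZero N] {ℓ : ℕ} (hℓ : ℓ.Prime) (hℓN : ¬ ℓ ∣ N)
    (hA : A.LiesOverPrime ℓ) : NormalForm A N :=
  normalForm_of_redMem (redMem_of_liesOverPrime hℓ hℓN hA)

/-- **(K3) in the shape of the divisor-level assemblies (plan module A2).**  Inputs: the S18
Kummer field form at level `N` and the local formula on `Kd` at level `N`. -/
theorem k3_of_kf {N : ℕ} [NeZero N] {ℓ : ℕ} (hℓ : ℓ.Prime) (hℓN : ¬ ℓ ∣ N)
    (hKF : Stmt_KF N ℓ) (hA : A.LiesOverPrime ℓ)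
    (Kd : AddSubgroup (Divisor (AlgebraicClosure ℚ) (modularFunctionFieldBar N)))
    (hLF : LocFormula A N Kd) :
    ∀ q : ℕ, q.Prime → q ≠ ℓ → ∀ D ∈ Kd, (q • D).IsPrincipal → D.IsPrincipal := by
  intro q hq hqℓ D hD hqD
  refine isPrincipal_of_kf hKF hA Kd (normalForm_of_liesOverPrime hℓ hℓN hA) hLF hD ?_ hqD
  intro hdvd
  rcases (Nat.dvd_prime hq).mp hdvd with h | h
  · exact hℓ.one_lt.ne' h
  · exact hqℓ h.symm

/-! ### Level change for the local formula -/

/-- **(T2) The local formula descends along a level inclusion.**  `φ : F_N → F_{N'}` an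
inclusion of function fields (`N ∣ N'`, same `q`-expansions), `Kd`, `Kd'` subgroups of divisors
at levels `N`, `N'` with pull-back `Kd ⊆ Kd'` (XFER, plan module E1).  Then the local formula
on `Kd'` at level `N'` gives the local formula on `Kd` at level `N`: the reductions of `a`, `b`
are the same series at both levels. -/
theorem locFormula_of_level {N N' : ℕ} (hNN' : N ∣ N')
    [HasPrincipalDivisors (AlgebraicClosure ℚ) (modularFunctionFieldBar N')]
    (φ : modularFunctionFieldBar N →ₐ[AlgebraicClosure ℚ] modularFunctionFieldBar N')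
    (hφ : φ.toRingHom.IsIntegral)
    (hcoe : ∀ x : modularFunctionFieldBar N,
      ((φ x : modularFunctionFieldBar N') : LaurentSeries (AlgebraicClosure ℚ)) = x)
    (Kd : AddSubgroup (Divisor (AlgebraicClosure ℚ) (modularFunctionFieldBar N)))
    (Kd' : AddSubgroup (Divisor (AlgebraicClosure ℚ) (modularFunctionFieldBar N')))
    (hX : ∀ D ∈ Kd, Divisor.pullbackAlong φ hφ D ∈ Kd')
    (hLF' : LocFormula A N' Kd') : LocFormula A N Kd := by
  intro a b E hE hEab
  have hgen : ∀ x : IntegralFn A N,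
      (Fermat.Agent.S18.helper2557.liftLevel hNN' x).gen = φ x.gen := fun x =>
    Subtype.ext (hcoe x.gen).symm
  obtain ⟨κ, hκ, hred⟩ := hLF' (Fermat.Agent.S18.helper2557.liftLevel hNN' a)
    (Fermat.Agent.S18.helper2557.liftLevel hNN' b) (Divisor.pullbackAlong φ hφ E) (hX E hE)
    (fun w => by
      rw [Divisor.pullbackAlong_apply, hEab, hgen, hgen, Place.ord_restrictAlong φ hφ,
        Place.ord_restrictAlong φ hφ, mul_sub])
  refine ⟨κ, hκ, Subtype.ext ?_⟩
  have h1 := congrArg Subtype.val hred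
  simp only [IntermediateField.coe_mul] at h1 ⊢
  rw [Fermat.Agent.S18.helper2557.coe_liftLevel_red,
    Fermat.Agent.S18.helper2557.coe_liftLevel_red] at h1
  exact h1

/-- (T2) for the Prelude inclusion `heckeAlphaBar ℚ̄ N r : F_N → F_{N r}`. -/
theorem locFormula_of_alpha (N r : ℕ) [NeZero N] [NeZero r]
    [HasPrincipalDivisors (AlgebraicClosure ℚ) (modularFunctionFieldBar (N * r))]
    (hα : (heckeAlphaBar (AlgebraicClosure ℚ) N r).toRingHom.IsIntegral)
    (Kd : AddSubgroup (Divisor (AlgebraicClosure ℚ) (modularFunctionFieldBar N)))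
    (Kd' : AddSubgroup (Divisor (AlgebraicClosure ℚ) (modularFunctionFieldBar (N * r))))
    (hX : ∀ D ∈ Kd, Divisor.pullbackAlong (heckeAlphaBar (AlgebraicClosure ℚ) N r) hα D ∈ Kd')
    (hLF' : LocFormula A (N * r) Kd') : LocFormula A N Kd :=
  locFormula_of_level (dvd_mul_right N r) (heckeAlphaBar (AlgebraicClosure ℚ) N r) hα
    (fun x => coe_heckeAlphaBar N r x) Kd Kd' hX hLF'

/-- **(E6) Torsion clause (R3) at level `N` through an auxiliary level `N r`.**
Inputs: the S18 Kummer field form at level `N`; (RES) at level `N`; the transfer (E1)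
`pull-back Kd ⊆ Kd'` along `F_N ⊆ F_{N r}`; the local formula (E2) on `Kd'` at level `N r`. -/
theorem r3_of_kf_of_alpha (N r : ℕ) [NeZero N] [NeZero r] {ℓ : ℕ} (hKF : Stmt_KF N ℓ)
    (hA : A.LiesOverPrime ℓ) (hRM : RedMem A N)
    [HasPrincipalDivisors (AlgebraicClosure ℚ) (modularFunctionFieldBar (N * r))]
    (hα : (heckeAlphaBar (AlgebraicClosure ℚ) N r).toRingHom.IsIntegral)
    (Kd : AddSubgroup (Divisor (AlgebraicClosure ℚ) (modularFunctionFieldBar N)))
    (Kd' : AddSubgroup (Divisor (AlgebraicClosure ℚ) (modularFunctionFieldBar (N * r))))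
    (hX : ∀ D ∈ Kd, Divisor.pullbackAlong (heckeAlphaBar (AlgebraicClosure ℚ) N r) hα D ∈ Kd')
    (hLF' : LocFormula A (N * r) Kd')
    (W : AddSubgroup (JZero N))
    (hW : ∀ x ∈ W, ∃ D : Divisor.degZero (K := AlgebraicClosure ℚ)
      (F := modularFunctionFieldBar N),
      (D : Divisor (AlgebraicClosure ℚ) (modularFunctionFieldBar N)) ∈ Kd ∧ Pic0.mk D = x) :
    (∀ m : ℕ, ¬ ℓ ∣ m → ∀ x ∈ W, m • x = 0 → x = 0) ∧
    (ℓ.Prime → ∀ q : ℕ, q.Prime → q ≠ ℓ → ∀ x ∈ W, q • x = 0 → x = 0) :=
  r3_of_kf hKF hA Kd (normalForm_of_redMem hRM)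
    (locFormula_of_alpha N r hα Kd Kd' hX hLF') W hW

/-- (XFER) on generators suffices: if `Kd` is generated by a set `S` whose pull-backs lie in
`Kd'`, then pull-back maps `Kd` into `Kd'`. -/
theorem pullbackAlong_mem_of_closure {K F F' : Type*} [Field K] [Field F] [Field F']
    [Algebra K F] [Algebra K F'] [HasPrincipalDivisors K F'] (φ : F →ₐ[K] F')
    (hφ : φ.toRingHom.IsIntegral) (S : Set (Divisor K F)) (Kd' : AddSubgroup (Divisor K F'))
    (hS : ∀ D ∈ S, Divisor.pullbackAlong φ hφ D ∈ Kd') :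
    ∀ D ∈ AddSubgroup.closure S, Divisor.pullbackAlong φ hφ D ∈ Kd' := by
  intro D hD
  have hle : AddSubgroup.closure S ≤ Kd'.comap (Divisor.pullbackAlong φ hφ) :=
    (AddSubgroup.closure_le _).mpr fun E hE => hS E hE
  exact hle hD

/-- **(E6), shape (K3) of plan module A2, through the auxiliary level `N r`.**
Inputs: the S18 Kummer field form at level `N` (`ℓ ∤ N`); the transfer (E1)
`pull-back Kd ⊆ Kd'` along `F_N ⊆ F_{N r}`; the local formula (E2) on `Kd'` at level `N r`.
Output: `Kd` has no `q`-torsion classes for the primes `q ≠ ℓ`. -/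
theorem k3_of_kf_of_alpha (N r : ℕ) [NeZero N] [NeZero r] {ℓ : ℕ} (hℓ : ℓ.Prime)
    (hℓN : ¬ ℓ ∣ N) (hKF : Stmt_KF N ℓ) (hA : A.LiesOverPrime ℓ)
    [HasPrincipalDivisors (AlgebraicClosure ℚ) (modularFunctionFieldBar (N * r))]
    (hα : (heckeAlphaBar (AlgebraicClosure ℚ) N r).toRingHom.IsIntegral)
    (Kd : AddSubgroup (Divisor (AlgebraicClosure ℚ) (modularFunctionFieldBar N)))
    (Kd' : AddSubgroup (Divisor (AlgebraicClosure ℚ) (modularFunctionFieldBar (N * r))))
    (hX : ∀ D ∈ Kd, Divisor.pullbackAlong (heckeAlphaBar (AlgebraicClosure ℚ) N r) hα D ∈ Kd')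
    (hLF' : LocFormula A (N * r) Kd') :
    ∀ q : ℕ, q.Prime → q ≠ ℓ → ∀ D ∈ Kd, (q • D).IsPrincipal → D.IsPrincipal :=
  k3_of_kf hℓ hℓN hKF hA Kd (locFormula_of_alpha N r hα Kd Kd' hX hLF')

end Concrete

end Fermat.Agent.S37.helper872

end
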