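import Mathlib
import Fermat.Prelude.Def_AlgebraicCurve_Correspondence
import Fermat.Prelude.Def_AlgebraicCurve_Repartitions

/-!
# S37 / S18: the bounded-difference principle (helper6267)

Let `F / K` be a function field in the Prelude vocabulary (`Place`, `Divisor`), and let
`δ : Divisor K F →+ (X →₀ ℤ)` be an additive map into a free abelian group such that

* `δ` kills principal divisors, and
* the coefficients of `δ (single P 1)` are bounded independently of the place `P`.

If moreover the function field satisfies a Riemann-type bound (every divisor of degree `0`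
becomes effective after adding a fixed divisor `D0` and a principal divisor: the hypothesis
`(RRg)` of the torsion core), then `δ` kills every divisor of degree `0`.

Reason: every degree-zero `Z` is `E - D0 - (principal)` with `E ≥ 0` of degree `deg D0`, so the
coefficients of `δ Z` are bounded independently of `Z`; apply this to `n • Z`.

No divisibility of `Pic0`, no conservation of number at individual points and no second
valuation are needed.  Consequences (all hypothesis-passing, Prelude vocabulary):

* `eq_or_const_of_agree_on_principal` : two place maps `r₁ r₂ : Place K F → Y` whose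
  push-forwards agree on principal divisors are equal (or `r₁` is constant).  This is the
  Prelude lemma `IsPlaceReductionAlong.eq_or_const_of_agree` with the divisibility hypothesis
  `hdiv` replaced by the Riemann bound; it gives Galois-equivariance of a place-reduction map
  (inertia acts trivially, Frobenius acts as the coefficient Frobenius) from the conservation
  law alone.
* `intertwine_on_degZero` : if `r_* ∘ T = S ∘ r_*` on principal divisors, for a bounded
  correspondence `T` on `Div(F)` and a bounded endomorphism `S` of the target, then the same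
  holds on all divisors of degree `0`.  With `T = T_ℓ`, `S = Fr_* + ℓ Fr⁻¹_*` this is the
  Eichler–Shimura congruence on all of `Div⁰` from the multiplicative Kronecker congruence
  for norms of functions.
* `eq_on_degZero_of_bounded` : two bounded additive maps on `Div(F)` that agree on principal
  divisors agree on `Div⁰` (e.g. `π^* ∘ T_ℓ^N = T_ℓ^{N'} ∘ π^*`, or `T_ℓ = T_ℓ^t`).
-/

set_option autoImplicit false

noncomputable section

namespace Fermat.Agent.S37.helper6267

open AlgebraicCurve

variable {K F : Type*} [Field K] [Field F] [Algebra K F]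

/-- The Riemann-type bound (shape `(RRg)` of the torsion core): every divisor of degree zero
becomes effective after adding the fixed divisor `D0` and a suitable principal divisor. -/
def RiemannBound (D0 : Divisor K F) : Prop :=
  ∀ Z : Divisor K F, Divisor.degree Z = 0 →
    ∃ P ∈ Divisor.principal (K := K) (F := F), 0 ≤ P + Z + D0

/-- The function form of the Riemann bound implies the divisor form. -/
theorem riemannBound_of_exists_function [HasPrincipalDivisors K F] (D0 : Divisor K F)
    (h : ∀ Z : Divisor K F, Divisor.degree Z = 0 →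
      ∃ f : F, f ≠ 0 ∧ ∀ v : Place K F, 0 ≤ v.ord f + Z v + D0 v) :
    RiemannBound (K := K) (F := F) D0 := by
  intro Z hZ
  obtain ⟨f, hf, hfv⟩ := h Z hZ
  obtain ⟨P, hP, -⟩ := HasPrincipalDivisors.exists_divisor (K := K) f hf
  refine ⟨P, ⟨f, hf, hP⟩, ?_⟩
  intro v
  simp only [Finsupp.coe_zero, Pi.zero_apply, Finsupp.coe_add, Pi.add_apply]
  rw [hP v]
  exact hfv v

/-- Bridge from Riemann's inequality in the weak form (`deg D - l(D)` bounded above; this is
verbatim the body of `Fermat.Agent.S18.helper981.HasRiemannBound K F`, so `h` can be passed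
as is) to the divisor form `RiemannBound`, given one place of positive degree. -/
theorem exists_riemannBound_of_finrank_bound [HasPrincipalDivisors K F]
    (h : ∃ γ : ℤ, ∀ D : Divisor K F,
      Divisor.degree D - (Module.finrank K (riemannRochSpace D) : ℤ) ≤ γ)
    (P₀ : Place K F) (hP₀ : 1 ≤ P₀.deg) :
    ∃ D0 : Divisor K F, RiemannBound (K := K) (F := F) D0 := by
  obtain ⟨γ, hγ⟩ := h
  set m : ℤ := max (γ + 1) 0 with hm
  refine ⟨Finsupp.single P₀ m, riemannBound_of_exists_function _ fun Z hZ => ?_⟩
  have h1 := hγ (Z + Finsupp.single P₀ m)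
  rw [map_add, hZ, zero_add, Divisor.degree_single] at h1
  have hm1 : γ + 1 ≤ m := le_max_left _ _
  have hm0 : 0 ≤ m := le_max_right _ _
  have hdeg : (1 : ℤ) ≤ (P₀.deg : ℤ) := by exact_mod_cast hP₀
  have hmul : m ≤ m * (P₀.deg : ℤ) := by nlinarith
  have hpos : 0 < Module.finrank K (riemannRochSpace (Z + Finsupp.single P₀ m)) := by
    have : (0 : ℤ) < (Module.finrank K (riemannRochSpace (Z + Finsupp.single P₀ m)) : ℤ) := by
      linarith
    exact_mod_cast this
  obtain ⟨x, hx⟩ : ∃ x : ↥(riemannRochSpace (Z + Finsupp.single P₀ m)), x ≠ 0 := by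
    by_contra hall
    push Not at hall
    haveI : Subsingleton ↥(riemannRochSpace (Z + Finsupp.single P₀ m)) :=
      ⟨fun a b => by rw [hall a, hall b]⟩
    have h0 := Module.finrank_zero_of_subsingleton (R := K)
      (M := ↥(riemannRochSpace (Z + Finsupp.single P₀ m)))
    omega
  refine ⟨(x : F), fun h0 => hx (Subtype.ext h0), fun v => ?_⟩
  have hmem := (mem_riemannRochSpace_iff (K := K) (F := F)).mp x.2 v
  rcases hmem with h0 | h0
  · exact absurd (Subtype.ext h0) hx
  · simp only [Finsupp.coe_add, Pi.add_apply] at h0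
    linarith

/-- Principal divisors have degree zero (from `HasPrincipalDivisors`). -/
theorem degree_eq_zero_of_mem_principal [HasPrincipalDivisors K F] {D : Divisor K F}
    (hD : D ∈ Divisor.principal (K := K) (F := F)) : Divisor.degree D = 0 := by
  obtain ⟨f, hf, hDf⟩ := hD
  obtain ⟨D', hD', hdeg⟩ := HasPrincipalDivisors.exists_divisor (K := K) f hf
  have : D = D' := by
    ext v
    rw [hDf v, hD' v]
  rw [this, hdeg]

theorem degree_eq_sum (D : Divisor K F) :
    Divisor.degree D = D.sum fun v n => n * (v.deg : ℤ) := by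
  induction D using Finsupp.induction with
  | zero => simp
  | single_add v n D hv hn ih =>
    rw [map_add, ih, Divisor.degree_single, Finsupp.sum_add_index' (by simp)
      (by intro a b c; ring), Finsupp.sum_single_index (by simp)]

/-- Coefficient bound for the image of an effective divisor. -/
theorem abs_apply_le_of_nonneg {X : Type*} (δ : Divisor K F →+ (X →₀ ℤ)) (C : ℤ)
    (hC : ∀ (P : Place K F) (x : X), |δ (Finsupp.single P 1) x| ≤ C)
    (hdeg : ∀ P : Place K F, 1 ≤ P.deg) (E : Divisor K F) (hE : 0 ≤ E) (x : X) :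
    |δ E x| ≤ Divisor.degree E * C := by
  classical
  by_cases hne : Nonempty (Place K F)
  · obtain ⟨P₀⟩ := hne
    have hC0 : 0 ≤ C := le_trans (abs_nonneg _) (hC P₀ x)
    have key : ∀ (s : Finset (Place K F)) (E : Divisor K F), E.support ⊆ s → 0 ≤ E →
        |δ E x| ≤ Divisor.degree E * C := by
      intro s
      induction s using Finset.induction_on with
      | empty =>
        intro E hs _
        have : E = 0 := by
          rw [← Finsupp.support_eq_empty]
          exact Finset.subset_empty.mp hs
        subst this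
        simp
      | insert a s ha ih =>
        intro E hs hE
        have hdecomp : E = Finsupp.single a (E a) + E.erase a := by
          rw [Finsupp.single_add_erase]
        have hEa : 0 ≤ E a := hE a
        have herase_supp : (E.erase a).support ⊆ s := by
          intro v hv
          rw [Finsupp.support_erase, Finset.mem_erase] at hv
          have := hs hv.2
          rw [Finset.mem_insert] at this
          rcases this with h | h
          · exact absurd h hv.1
          · exact h
        have herase_nonneg : 0 ≤ E.erase a := by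
          intro v
          by_cases hva : v = a
          · subst hva; simp
          · rw [Finsupp.erase_ne hva]; exact hE v
        have h1 := ih (E.erase a) herase_supp herase_nonneg
        have hsingle : Finsupp.single a (E a) = (E a) • Finsupp.single a (1 : ℤ) := by
          rw [Finsupp.smul_single, smul_eq_mul, mul_one]
        have h2 : |δ (Finsupp.single a (E a)) x| ≤ E a * (a.deg : ℤ) * C := by
          rw [hsingle, map_zsmul, Finsupp.smul_apply, smul_eq_mul, abs_mul, abs_of_nonneg hEa]
          have hd : (1 : ℤ) ≤ (a.deg : ℤ) := by exact_mod_cast hdeg a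
          calc E a * |δ (Finsupp.single a 1) x| ≤ E a * C :=
                mul_le_mul_of_nonneg_left (hC a x) hEa
            _ = E a * 1 * C := by ring
            _ ≤ E a * (a.deg : ℤ) * C :=
                mul_le_mul_of_nonneg_right (mul_le_mul_of_nonneg_left hd hEa) hC0
        calc |δ E x| = |δ (Finsupp.single a (E a)) x + δ (E.erase a) x| := by
              conv_lhs => rw [hdecomp, map_add, Finsupp.add_apply]
          _ ≤ |δ (Finsupp.single a (E a)) x| + |δ (E.erase a) x| := abs_add_le _ _
          _ ≤ E a * (a.deg : ℤ) * C + Divisor.degree (E.erase a) * C := add_le_add h2 h1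
          _ = Divisor.degree E * C := by
              conv_rhs => rw [hdecomp, map_add, Divisor.degree_single]
              ring
    exact key E.support E (Finset.Subset.refl _) hE
  · have : E = 0 := by
      ext v
      exact absurd ⟨v⟩ hne
    subst this
    simp

/-- **Bounded-difference principle.** An additive map from divisors to a free abelian group
which kills principal divisors and has uniformly bounded coefficients on places kills every
divisor of degree zero, provided the Riemann bound holds. -/
theorem eq_zero_of_bounded [HasPrincipalDivisors K F] {X : Type*}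
    (δ : Divisor K F →+ (X →₀ ℤ)) (C : ℤ)
    (hC : ∀ (P : Place K F) (x : X), |δ (Finsupp.single P 1) x| ≤ C)
    (hprin : ∀ D ∈ Divisor.principal (K := K) (F := F), δ D = 0)
    (hdeg : ∀ P : Place K F, 1 ≤ P.deg)
    (D0 : Divisor K F) (hRR : RiemannBound (K := K) (F := F) D0)
    (Z : Divisor K F) (hZ : Divisor.degree Z = 0) : δ Z = 0 := by
  -- uniform bound for all degree-zero divisors
  have hbound : ∀ (Z' : Divisor K F), Divisor.degree Z' = 0 → ∀ x : X,
      |δ Z' x| ≤ Divisor.degree D0 * C + |δ D0 x| := by
    intro Z' hZ' x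
    obtain ⟨P, hP, hE⟩ := hRR Z' hZ'
    have hdegE : Divisor.degree (P + Z' + D0) = Divisor.degree D0 := by
      rw [map_add, map_add, degree_eq_zero_of_mem_principal hP, hZ', zero_add, zero_add]
    have h1 := abs_apply_le_of_nonneg δ C hC hdeg (P + Z' + D0) hE x
    rw [hdegE] at h1
    have h2 : δ Z' x = δ (P + Z' + D0) x - δ D0 x := by
      rw [map_add, map_add, hprin P hP, zero_add, Finsupp.add_apply]
      ring
    rw [h2]
    calc |δ (P + Z' + D0) x - δ D0 x| ≤ |δ (P + Z' + D0) x| + |δ D0 x| := abs_sub _ _
      _ ≤ Divisor.degree D0 * C + |δ D0 x| := by linarith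
  ext x
  rw [Finsupp.zero_apply]
  by_contra hne
  set B : ℤ := Divisor.degree D0 * C + |δ D0 x| with hB
  have hpos : 0 < |δ Z x| := abs_pos.mpr hne
  have h1 : (1 : ℤ) ≤ |δ Z x| := hpos
  have hB0 : 0 ≤ B := le_trans (abs_nonneg _) (hbound Z hZ x)
  -- apply the bound to `(B + 1) • Z`
  have hn : Divisor.degree ((B + 1) • Z) = 0 := by
    rw [map_zsmul, hZ, smul_zero]
  have h2 := hbound ((B + 1) • Z) hn x
  rw [map_zsmul, Finsupp.smul_apply, smul_eq_mul, abs_mul, abs_of_nonneg (by linarith : (0 : ℤ) ≤ B + 1)] at h2
  nlinarith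

/-- Two place maps whose push-forwards agree on principal divisors are equal, unless the first
one is constant.  (The Prelude lemma `IsPlaceReductionAlong.eq_or_const_of_agree` with the
divisibility hypothesis replaced by the Riemann bound.) -/
theorem eq_or_const_of_agree_on_principal [HasPrincipalDivisors K F] {Y : Type*}
    (r₁ r₂ : Place K F → Y)
    (hagree : ∀ D ∈ Divisor.principal (K := K) (F := F),
      Finsupp.mapDomain r₁ D = Finsupp.mapDomain r₂ D)
    (hdeg : ∀ P : Place K F, P.deg = 1)
    (D0 : Divisor K F) (hRR : RiemannBound (K := K) (F := F) D0) :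
    r₁ = r₂ ∨ ∀ P Q, r₁ P = r₁ Q := by
  classical
  set δ : Divisor K F →+ (Y →₀ ℤ) :=
    Finsupp.mapDomain.addMonoidHom r₁ - Finsupp.mapDomain.addMonoidHom r₂ with hδ
  have hδapp : ∀ D, δ D = Finsupp.mapDomain r₁ D - Finsupp.mapDomain r₂ D := fun D => rfl
  have hC : ∀ (P : Place K F) (y : Y), |δ (Finsupp.single P 1) y| ≤ 1 := by
    intro P y
    rw [hδapp, Finsupp.mapDomain_single, Finsupp.mapDomain_single, Finsupp.sub_apply,
      Finsupp.single_apply, Finsupp.single_apply]
    split_ifs <;> simp
  have hprin : ∀ D ∈ Divisor.principal (K := K) (F := F), δ D = 0 := by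
    intro D hD
    rw [hδapp, hagree D hD, sub_self]
  have hdeg' : ∀ P : Place K F, 1 ≤ P.deg := fun P => (hdeg P).ge
  have hconst : ∀ P Q : Place K F,
      Finsupp.single (r₁ P) (1 : ℤ) - Finsupp.single (r₂ P) 1 =
        Finsupp.single (r₁ Q) 1 - Finsupp.single (r₂ Q) 1 := by
    intro P Q
    have hPQ : Divisor.degree (Finsupp.single P (1 : ℤ) - Finsupp.single Q 1) = 0 := by
      rw [map_sub, Divisor.degree_single, Divisor.degree_single, hdeg, hdeg, sub_self]
    have h := eq_zero_of_bounded δ 1 hC hprin hdeg' D0 hRR _ hPQ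
    rw [hδapp, Finsupp.mapDomain_sub, Finsupp.mapDomain_sub, Finsupp.mapDomain_single,
      Finsupp.mapDomain_single, Finsupp.mapDomain_single, Finsupp.mapDomain_single,
      sub_eq_zero] at h
    exact sub_eq_sub_iff_sub_eq_sub.mpr h
  rw [or_iff_not_imp_left]
  intro hne
  obtain ⟨P₀, hP₀⟩ : ∃ P₀, r₁ P₀ ≠ r₂ P₀ := by
    by_contra hall
    push Not at hall
    exact hne (funext hall)
  have hr₁const : ∀ Q, r₁ Q = r₁ P₀ := by
    intro Q
    have h := congrArg (fun E => E (r₁ P₀)) (hconst Q P₀)
    simp only [Finsupp.sub_apply, Finsupp.single_apply, if_neg (Ne.symm hP₀)] at h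
    by_contra hQ
    rw [if_neg hQ] at h
    split_ifs at h <;> omega
  exact fun P Q => (hr₁const P).trans (hr₁const Q).symm

/-- Two place maps whose push-forwards agree on principal divisors are equal as soon as the
first one takes two different values. -/
theorem eq_of_agree_on_principal [HasPrincipalDivisors K F] {Y : Type*}
    (r₁ r₂ : Place K F → Y)
    (hagree : ∀ D ∈ Divisor.principal (K := K) (F := F),
      Finsupp.mapDomain r₁ D = Finsupp.mapDomain r₂ D)
    (hdeg : ∀ P : Place K F, P.deg = 1)
    (D0 : Divisor K F) (hRR : RiemannBound (K := K) (F := F) D0)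
    (hnc : ∃ P Q, r₁ P ≠ r₁ Q) : r₁ = r₂ := by
  rcases eq_or_const_of_agree_on_principal r₁ r₂ hagree hdeg D0 hRR with h | h
  · exact h
  · obtain ⟨P, Q, hPQ⟩ := hnc
    exact absurd (h P Q) hPQ

/-- Two additive maps on divisors with values in a free abelian group, both with uniformly
bounded coefficients on places, which agree on principal divisors, agree on all divisors of
degree zero. -/
theorem eq_on_degZero_of_bounded [HasPrincipalDivisors K F] {X : Type*}
    (δ₁ δ₂ : Divisor K F →+ (X →₀ ℤ)) (C₁ C₂ : ℤ)
    (hC₁ : ∀ (P : Place K F) (x : X), |δ₁ (Finsupp.single P 1) x| ≤ C₁)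
    (hC₂ : ∀ (P : Place K F) (x : X), |δ₂ (Finsupp.single P 1) x| ≤ C₂)
    (hprin : ∀ D ∈ Divisor.principal (K := K) (F := F), δ₁ D = δ₂ D)
    (hdeg : ∀ P : Place K F, 1 ≤ P.deg)
    (D0 : Divisor K F) (hRR : RiemannBound (K := K) (F := F) D0)
    (Z : Divisor K F) (hZ : Divisor.degree Z = 0) : δ₁ Z = δ₂ Z := by
  have h := eq_zero_of_bounded (δ₁ - δ₂) (C₁ + C₂)
    (fun P x => by
      rw [AddMonoidHom.sub_apply, Finsupp.sub_apply]
      exact le_trans (abs_sub _ _) (add_le_add (hC₁ P x) (hC₂ P x)))
    (fun D hD => by rw [AddMonoidHom.sub_apply, hprin D hD, sub_self])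
    hdeg D0 hRR Z hZ
  rwa [AddMonoidHom.sub_apply, sub_eq_zero] at h

/-- Coefficients of a push-forward along a map of index types are bounded by the total mass
of a nonnegative finitely supported function. -/
theorem abs_mapDomain_apply_le {α β : Type*} (r : α → β) (E : α →₀ ℤ) (hE : 0 ≤ E) (y : β) :
    |Finsupp.mapDomain r E y| ≤ E.sum fun _ n => n := by
  classical
  have hnonneg : 0 ≤ Finsupp.mapDomain r E y := by
    rw [Finsupp.mapDomain, Finsupp.sum_apply]
    refine Finset.sum_nonneg fun a _ => ?_
    beta_reduce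
    rw [Finsupp.single_apply]
    split_ifs
    · exact hE a
    · exact le_rfl
  rw [abs_of_nonneg hnonneg, Finsupp.mapDomain, Finsupp.sum_apply]
  refine Finset.sum_le_sum fun a _ => ?_
  beta_reduce
  rw [Finsupp.single_apply]
  split_ifs
  · exact le_rfl
  · exact hE a

/-- **Intertwining on degree zero.** Let `T` be an additive endomorphism of `Div(F)` sending
every place to an effective divisor of total mass at most `d`, let `r` be a map from places
to a type `Y`, and let `S` be an additive endomorphism of `Y →₀ ℤ` with bounded coefficients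
on the basis.  If `r_* (T D) = S (r_* D)` for every principal divisor `D`, then the same
holds for every divisor of degree zero.

With `T = T_ℓ` (the Hecke correspondence), `r` a place-reduction map and
`S = Fr_* + ℓ • Fr⁻¹_*` this turns the multiplicative Kronecker congruence for functions into
the Eichler–Shimura congruence on all divisors of degree zero. -/
theorem intertwine_on_degZero [HasPrincipalDivisors K F] {Y : Type*}
    (T : Divisor K F →+ Divisor K F) (r : Place K F → Y) (S : (Y →₀ ℤ) →+ (Y →₀ ℤ))
    (d : ℤ)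
    (hT : ∀ P : Place K F, 0 ≤ T (Finsupp.single P 1) ∧
      ((T (Finsupp.single P 1)).sum fun _ n => n) ≤ d)
    (c : ℤ) (hS : ∀ y y' : Y, |S (Finsupp.single y 1) y'| ≤ c)
    (hprin : ∀ D ∈ Divisor.principal (K := K) (F := F),
      Finsupp.mapDomain r (T D) = S (Finsupp.mapDomain r D))
    (hdeg : ∀ P : Place K F, 1 ≤ P.deg)
    (D0 : Divisor K F) (hRR : RiemannBound (K := K) (F := F) D0)
    (Z : Divisor K F) (hZ : Divisor.degree Z = 0) :
    Finsupp.mapDomain r (T Z) = S (Finsupp.mapDomain r Z) := by
  have h := eq_on_degZero_of_bounded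
    ((Finsupp.mapDomain.addMonoidHom r).comp T)
    (S.comp (Finsupp.mapDomain.addMonoidHom r)) d c
    (fun P y => by
      rw [AddMonoidHom.comp_apply, Finsupp.mapDomain.addMonoidHom_apply]
      exact le_trans (abs_mapDomain_apply_le r _ (hT P).1 y) (hT P).2)
    (fun P y => by
      rw [AddMonoidHom.comp_apply, Finsupp.mapDomain.addMonoidHom_apply,
        Finsupp.mapDomain_single]
      exact hS (r P) y)
    (fun D hD => by
      rw [AddMonoidHom.comp_apply, AddMonoidHom.comp_apply,
        Finsupp.mapDomain.addMonoidHom_apply, Finsupp.mapDomain.addMonoidHom_apply]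
      exact hprin D hD)
    hdeg D0 hRR Z hZ
  rwa [AddMonoidHom.comp_apply, AddMonoidHom.comp_apply,
    Finsupp.mapDomain.addMonoidHom_apply, Finsupp.mapDomain.addMonoidHom_apply] at h

/-- The endomorphism `Fr_* + ℓ • Fr⁻¹_*` of a free abelian group attached to two maps
`a b : Y → Y` of the basis (for Eichler–Shimura: `a = Frobenius`, `b = Frobenius⁻¹`). -/
def twoMapSum {Y : Type*} (a b : Y → Y) (ℓ : ℤ) : (Y →₀ ℤ) →+ (Y →₀ ℤ) :=
  Finsupp.mapDomain.addMonoidHom a + ℓ • Finsupp.mapDomain.addMonoidHom b

theorem twoMapSum_apply {Y : Type*} (a b : Y → Y) (ℓ : ℤ) (D : Y →₀ ℤ) :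
    twoMapSum a b ℓ D = Finsupp.mapDomain a D + ℓ • Finsupp.mapDomain b D := rfl

theorem abs_twoMapSum_single_apply_le {Y : Type*} (a b : Y → Y) (ℓ : ℤ) (y y' : Y) :
    |twoMapSum a b ℓ (Finsupp.single y 1) y'| ≤ 1 + |ℓ| := by
  classical
  rw [twoMapSum_apply, Finsupp.mapDomain_single, Finsupp.mapDomain_single, Finsupp.add_apply,
    Finsupp.smul_apply, Finsupp.single_apply, Finsupp.single_apply, smul_eq_mul]
  split_ifs
  · calc |1 + ℓ * 1| ≤ |(1 : ℤ)| + |ℓ * 1| := abs_add_le _ _
      _ = 1 + |ℓ| := by simp
  · simp
  · simp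
  · simp; positivity

/-- **Eichler–Shimura on degree zero from the congruence on principal divisors.**
`r` a place map, `φ` the action of a Frobenius element on places, `Fr` the induced map on the
target (`r (φ P) = Fr (r P)`), `Fr'` an inverse of `Fr`.  If `T` is a bounded effective
correspondence with `r_*(T D) = Fr_*(r_* D) + ℓ Fr'_*(r_* D)` on principal divisors, then for
every divisor `Z` of degree zero

`r_* (φ φ Z - T (φ Z) + ℓ Z) = 0`. -/
theorem eichlerShimura_on_degZero [HasPrincipalDivisors K F] {Y : Type*}
    (T : Divisor K F →+ Divisor K F) (r : Place K F → Y)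
    (φ : Place K F → Place K F) (Fr Fr' : Y → Y) (ℓ : ℤ)
    (hφ : ∀ P, r (φ P) = Fr (r P)) (hφdeg : ∀ P, (φ P).deg = P.deg)
    (hFr : ∀ y, Fr' (Fr y) = y)
    (d : ℤ)
    (hT : ∀ P : Place K F, 0 ≤ T (Finsupp.single P 1) ∧
      ((T (Finsupp.single P 1)).sum fun _ n => n) ≤ d)
    (hprin : ∀ D ∈ Divisor.principal (K := K) (F := F),
      Finsupp.mapDomain r (T D) =
        Finsupp.mapDomain Fr (Finsupp.mapDomain r D) +
          ℓ • Finsupp.mapDomain Fr' (Finsupp.mapDomain r D))
    (hdeg : ∀ P : Place K F, 1 ≤ P.deg)
    (D0 : Divisor K F) (hRR : RiemannBound (K := K) (F := F) D0)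
    (Z : Divisor K F) (hZ : Divisor.degree Z = 0) :
    Finsupp.mapDomain r
      (Finsupp.mapDomain φ (Finsupp.mapDomain φ Z) - T (Finsupp.mapDomain φ Z) + ℓ • Z) = 0 := by
  have hdegφ : ∀ D : Divisor K F, Divisor.degree (Finsupp.mapDomain φ D) = Divisor.degree D := by
    intro D
    induction D using Finsupp.induction with
    | zero => simp
    | single_add P n D _ _ ih =>
      rw [Finsupp.mapDomain_add, map_add, map_add, ih, Finsupp.mapDomain_single,
        Divisor.degree_single, Divisor.degree_single, hφdeg]
  have hrφ : ∀ D : Divisor K F,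
      Finsupp.mapDomain r (Finsupp.mapDomain φ D) = Finsupp.mapDomain Fr (Finsupp.mapDomain r D) := by
    intro D
    rw [← Finsupp.mapDomain_comp, ← Finsupp.mapDomain_comp]
    congr 1
    funext P
    exact hφ P
  have hZφ : Divisor.degree (Finsupp.mapDomain φ Z) = 0 := by rw [hdegφ, hZ]
  have hES := intertwine_on_degZero T r (twoMapSum Fr Fr' ℓ) d hT (1 + |ℓ|)
    (abs_twoMapSum_single_apply_le Fr Fr' ℓ)
    (fun D hD => by rw [twoMapSum_apply]; exact hprin D hD) hdeg D0 hRR
    (Finsupp.mapDomain φ Z) hZφ
  rw [twoMapSum_apply] at hES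
  have hinv : ∀ E : Y →₀ ℤ, Finsupp.mapDomain Fr' (Finsupp.mapDomain Fr E) = E := by
    intro E
    rw [← Finsupp.mapDomain_comp]
    have : Fr' ∘ Fr = id := funext hFr
    rw [this, Finsupp.mapDomain_id]
  rw [Finsupp.mapDomain_add, Finsupp.mapDomain_sub, hES, hrφ, hrφ, hinv,
    Finsupp.mapDomain_smul]
  abel

/-! ## The Prelude correspondence is bounded and effective on places -/

section Correspondence

variable {F' : Type*} [Field F'] [Algebra K F'] [HasPrincipalDivisors K F']
variable (φ ψ : F →ₐ[K] F') (hφ : φ.toRingHom.IsIntegral) (hψ : ψ.toRingHom.IsIntegral)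

/-- Explicit formula for the Prelude correspondence on a single place. -/
theorem correspondence_single (P : Place K F) :
    Divisor.correspondence φ ψ hφ hψ (Finsupp.single P 1) =
      ∑ W ∈ Place.fiberAlong φ hφ P,
        Finsupp.single (W.restrictAlong ψ hψ)
          ((W.ramificationIndexAlong φ : ℤ) * (W.inertiaDegAlong ψ hψ : ℤ)) := by
  rw [Divisor.correspondence_apply, Divisor.pullbackAlong_single, map_sum]
  refine Finset.sum_congr rfl fun W _ => ?_
  rw [Divisor.pushforwardAlong_single, one_mul]

theorem correspondence_single_nonneg (P : Place K F) :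
    0 ≤ Divisor.correspondence φ ψ hφ hψ (Finsupp.single P 1) := by
  classical
  rw [correspondence_single]
  intro v
  rw [Finsupp.coe_zero, Pi.zero_apply, Finsupp.coe_finset_sum, Finset.sum_apply]
  refine Finset.sum_nonneg fun W _ => ?_
  rw [Finsupp.single_apply]
  split_ifs
  · positivity
  · exact le_rfl

theorem inertiaDegAlong_le_deg (hdeg : ∀ P : Place K F, 1 ≤ P.deg) (W : Place K F') :
    W.inertiaDegAlong ψ hψ ≤ W.deg := by
  letI := algebraAlong ψ
  haveI := isScalarTower_along ψ
  haveI := isIntegral_along ψ hψ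
  have h := W.deg_restrict_mul_inertiaDeg (F := F)
  have h1 : 1 ≤ (W.restrict F).deg := hdeg _
  show W.inertiaDeg F ≤ W.deg
  calc W.inertiaDeg F = 1 * W.inertiaDeg F := (one_mul _).symm
    _ ≤ (W.restrict F).deg * W.inertiaDeg F := Nat.mul_le_mul_right _ h1
    _ = W.deg := h

theorem sum_ramificationIndexAlong_mul_deg (hFI : FundamentalIdentityAlong K φ hφ)
    (P : Place K F) :
    ∑ W ∈ Place.fiberAlong φ hφ P, (W.ramificationIndexAlong φ : ℤ) * (W.deg : ℤ)
      = (finrankAlong K φ : ℤ) * (P.deg : ℤ) := by
  letI := algebraAlong φ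
  haveI := isScalarTower_along φ
  haveI := isIntegral_along φ hφ
  haveI : FundamentalIdentity K F F' := hFI
  exact FundamentalIdentity.sum_ramificationIndex_mul_deg (K := K) (F := F) (F' := F') P

/-- The total mass of the correspondence applied to a place is at most `[F' : φ F] * deg P`. -/
theorem correspondence_single_mass_le (hFI : FundamentalIdentityAlong K φ hφ)
    (hdeg : ∀ P : Place K F, 1 ≤ P.deg) (P : Place K F) :
    ((Divisor.correspondence φ ψ hφ hψ (Finsupp.single P 1)).sum fun _ n => n)
      ≤ (finrankAlong K φ : ℤ) * (P.deg : ℤ) := by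
  classical
  have hmass : ∀ E : Divisor K F, (E.sum fun _ n => n) =
      Finsupp.liftAddHom (fun _ : Place K F => AddMonoidHom.id ℤ) E := by
    intro E
    rw [Finsupp.liftAddHom_apply]
    rfl
  rw [hmass, correspondence_single, map_sum, ← sum_ramificationIndexAlong_mul_deg φ hφ hFI P]
  refine Finset.sum_le_sum fun W _ => ?_
  rw [Finsupp.liftAddHom_apply_single, AddMonoidHom.id_apply]
  have h1 : (W.inertiaDegAlong ψ hψ : ℤ) ≤ (W.deg : ℤ) := by
    exact_mod_cast inertiaDegAlong_le_deg ψ hψ hdeg W
  exact mul_le_mul_of_nonneg_left h1 (by positivity)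

/-- **Eichler–Shimura for the Prelude correspondence.**  Specialisation of
`eichlerShimura_on_degZero` to `T = Divisor.correspondence φ ψ` (for `T_ℓ`: `φ = heckeBetaBar`,
`ψ = heckeAlphaBar`), all places of degree one. -/
theorem eichlerShimura_correspondence [HasPrincipalDivisors K F] {Y : Type*}
    (hFI : FundamentalIdentityAlong K φ hφ)
    (r : Place K F → Y) (σ : Place K F → Place K F) (Fr Fr' : Y → Y) (ℓ : ℤ)
    (hσ : ∀ P, r (σ P) = Fr (r P)) (hFr : ∀ y, Fr' (Fr y) = y)
    (hprin : ∀ D ∈ Divisor.principal (K := K) (F := F),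
      Finsupp.mapDomain r (Divisor.correspondence φ ψ hφ hψ D) =
        Finsupp.mapDomain Fr (Finsupp.mapDomain r D) +
          ℓ • Finsupp.mapDomain Fr' (Finsupp.mapDomain r D))
    (hdeg : ∀ P : Place K F, P.deg = 1)
    (D0 : Divisor K F) (hRR : RiemannBound (K := K) (F := F) D0)
    (Z : Divisor K F) (hZ : Divisor.degree Z = 0) :
    Finsupp.mapDomain r
      (Finsupp.mapDomain σ (Finsupp.mapDomain σ Z)
        - Divisor.correspondence φ ψ hφ hψ (Finsupp.mapDomain σ Z) + ℓ • Z) = 0 := by
  have hdeg' : ∀ P : Place K F, 1 ≤ P.deg := fun P => (hdeg P).ge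
  refine eichlerShimura_on_degZero (Divisor.correspondence φ ψ hφ hψ) r σ Fr Fr' ℓ hσ
    (fun P => by rw [hdeg, hdeg]) hFr (finrankAlong K φ : ℤ) (fun P => ⟨?_, ?_⟩) hprin hdeg' D0 hRR
    Z hZ
  · exact correspondence_single_nonneg φ ψ hφ hψ P
  · have h := correspondence_single_mass_le φ ψ hφ hψ hFI hdeg' P
    rwa [hdeg, Nat.cast_one, mul_one] at h

/-- Two Prelude correspondences that agree on principal divisors agree on all divisors of
degree zero, after push-forward along any map of places (e.g. `r = id`: `T_ℓ = T_ℓ^t` on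
`Div⁰`). -/
theorem correspondence_eq_on_degZero [HasPrincipalDivisors K F] {Y : Type*}
    {F'' : Type*} [Field F''] [Algebra K F''] [HasPrincipalDivisors K F'']
    (φ' ψ' : F →ₐ[K] F'') (hφ' : φ'.toRingHom.IsIntegral) (hψ' : ψ'.toRingHom.IsIntegral)
    (hFI : FundamentalIdentityAlong K φ hφ) (hFI' : FundamentalIdentityAlong K φ' hφ')
    (r : Place K F → Y)
    (hprin : ∀ D ∈ Divisor.principal (K := K) (F := F),
      Finsupp.mapDomain r (Divisor.correspondence φ ψ hφ hψ D) =
        Finsupp.mapDomain r (Divisor.correspondence φ' ψ' hφ' hψ' D))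
    (hdeg : ∀ P : Place K F, P.deg = 1)
    (D0 : Divisor K F) (hRR : RiemannBound (K := K) (F := F) D0)
    (Z : Divisor K F) (hZ : Divisor.degree Z = 0) :
    Finsupp.mapDomain r (Divisor.correspondence φ ψ hφ hψ Z) =
      Finsupp.mapDomain r (Divisor.correspondence φ' ψ' hφ' hψ' Z) := by
  have hdeg' : ∀ P : Place K F, 1 ≤ P.deg := fun P => (hdeg P).ge
  have h := eq_on_degZero_of_bounded
    ((Finsupp.mapDomain.addMonoidHom r).comp (Divisor.correspondence φ ψ hφ hψ))
    ((Finsupp.mapDomain.addMonoidHom r).comp (Divisor.correspondence φ' ψ' hφ' hψ'))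
    (finrankAlong K φ : ℤ) (finrankAlong K φ' : ℤ)
    (fun P y => by
      rw [AddMonoidHom.comp_apply, Finsupp.mapDomain.addMonoidHom_apply]
      refine le_trans (abs_mapDomain_apply_le r _ (correspondence_single_nonneg φ ψ hφ hψ P) y) ?_
      have h := correspondence_single_mass_le φ ψ hφ hψ hFI hdeg' P
      rwa [hdeg, Nat.cast_one, mul_one] at h)
    (fun P y => by
      rw [AddMonoidHom.comp_apply, Finsupp.mapDomain.addMonoidHom_apply]
      refine le_trans
        (abs_mapDomain_apply_le r _ (correspondence_single_nonneg φ' ψ' hφ' hψ' P) y) ?_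
      have h := correspondence_single_mass_le φ' ψ' hφ' hψ' hFI' hdeg' P
      rwa [hdeg, Nat.cast_one, mul_one] at h)
    (fun D hD => by
      rw [AddMonoidHom.comp_apply, AddMonoidHom.comp_apply,
        Finsupp.mapDomain.addMonoidHom_apply, Finsupp.mapDomain.addMonoidHom_apply]
      exact hprin D hD)
    hdeg' D0 hRR Z hZ
  rwa [AddMonoidHom.comp_apply, AddMonoidHom.comp_apply,
    Finsupp.mapDomain.addMonoidHom_apply, Finsupp.mapDomain.addMonoidHom_apply] at h

end Correspondence

end Fermat.Agent.S37.helper6267
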