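import Mathlib
import Fermat.Prelude.Def_AlgebraicCurve_Repartitions
import Fermat.Agent.S18.helper981_Riemann
import Fermat.Agent.S37.helper6267_Bounded

/-!
# S37-FRIG: function-level rigidity (abstract core)

`K ⊆ F` is a function field all of whose places have degree one, `k ⊆ Fk` a second pair of
fields (the "special fibre").  `S ⊆ F × Fk` is a submonoid of "integral pairs" `(f, f̄)`: an
integral function together with its reduction.  The hypotheses `IntegralPairs K k S` say: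

* both components of an integral pair are nonzero;
* a nontrivial `K`-linear relation among first components of integral pairs yields a nontrivial
  `k`-linear relation among the second components;
* `k` is algebraically closed in `Fk`.

A *one-unit* is a quotient of two integral functions with the SAME reduction.  A divisor `E` is
`Good` if every multiple `n • E` is, up to the divisor of a one-unit, a difference of two
effective divisors whose degrees are bounded independently of `n`.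

* `exists_const_of_good`: if `E` is good and `m • E = div (x / y)` for integral pairs `(x, ξ)`,
  `(y, η)` and `m ≥ 1`, then `ξ = c • η` for a constant `c : k`.  (If not, the monomials
  `u ^ i * w ^ j`, `u = x / y`, `w = u ^ n / H ^ m`, `i < n`, `j ≤ t`, are linearly independent
  and lie in a Riemann–Roch space of degree `(n - 1) deg (u)_∞ + t m C`; for `n > m C` and `t`
  large this contradicts `l(D) ≤ deg D + 1`.)
* `good_of_companion`: a Riemann bound, the normal form "every function is a quotient of integral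
  functions up to a constant" and an additive endomorphism `Λ` of the divisor group which has
  bounded positive and negative parts and maps the divisor of a quotient of integral functions to
  the divisor of a one-unit, give `Good (Λ E)` for every `E` of degree zero.
-/

set_option autoImplicit false

noncomputable section

namespace Fermat.Agent.S37.helper117

open AlgebraicCurve Module

/-- The hypotheses on a submonoid `S ⊆ F × Fk` of integral pairs. -/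
structure IntegralPairs (K k : Type*) {F Fk : Type*} [Field K] [Field F] [Algebra K F]
    [Field k] [Field Fk] [Algebra k Fk] (S : Submonoid (F × Fk)) : Prop where
  ne_zero : ∀ p ∈ S, p.1 ≠ 0 ∧ p.2 ≠ 0
  lin : ∀ {ι : Type} [Fintype ι] (p : ι → F × Fk), (∀ i, p i ∈ S) → ∀ c : ι → K, c ≠ 0 →
    ∑ i, c i • (p i).1 = 0 → ∃ d : ι → k, d ≠ 0 ∧ ∑ i, d i • (p i).2 = 0
  alg : ∀ x : Fk, IsAlgebraic k x → ∃ c : k, x = algebraMap k Fk c

/-- The monomial identity behind the clearing of denominators. -/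
theorem monomial_identity {R : Type*} [Field R] (x y f₁ f₂ : R) (hy : y ≠ 0) (hf₁ : f₁ ≠ 0)
    (hf₂ : f₂ ≠ 0) (n m t i j : ℕ) (hi : i + 1 ≤ n) (hj : j ≤ t) :
    x ^ i * y ^ (n - 1 - i) * (x ^ n * f₂ ^ m) ^ j * (y ^ n * f₁ ^ m) ^ (t - j) =
      (x / y) ^ i * ((x / y) ^ n / (f₁ / f₂) ^ m) ^ j * (y ^ (n - 1) * (y ^ n * f₁ ^ m) ^ t) := by
  have h1 : y ^ (n - 1) = y ^ i * y ^ (n - 1 - i) := by
    rw [← pow_add]; congr 1; omega
  have h2 : (y ^ n * f₁ ^ m) ^ t = (y ^ n * f₁ ^ m) ^ j * (y ^ n * f₁ ^ m) ^ (t - j) := by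
    rw [← pow_add]; congr 1; omega
  have e1 : (x / y) ^ i * y ^ i = x ^ i := by rw [← mul_pow, div_mul_cancel₀ x hy]
  have e2 : ((x / y) ^ n / (f₁ / f₂) ^ m) ^ j * (y ^ n * f₁ ^ m) ^ j = (x ^ n * f₂ ^ m) ^ j := by
    rw [← mul_pow]
    congr 1
    rw [div_pow, div_pow]
    field_simp
  rw [h1, h2, ← e1, ← e2]
  ring

variable {K F k Fk : Type*} [Field K] [Field F] [Algebra K F] [Field k] [Field Fk] [Algebra k Fk]

/-- If the reductions of `p` and `q` are not proportional, the monomials `u ^ i * w ^ j`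
(`i < n`, `j ≤ t`) in `u = p / q` and `w = u ^ n / H ^ m`, `H` a one-unit, are linearly
independent. -/
theorem linearIndependent_monomials {S : Submonoid (F × Fk)} (hS : IntegralPairs K k S)
    {p q : F × Fk} (hp : p ∈ S) (hq : q ∈ S) {f₁ f₂ : F} {ρ : Fk} (h₁ : (f₁, ρ) ∈ S)
    (h₂ : (f₂, ρ) ∈ S) (hnc : ¬ ∃ c : k, p.2 = algebraMap k Fk c * q.2) (n m t : ℕ) :
    LinearIndependent K (fun ij : Fin n × Fin (t + 1) =>
      (p.1 / q.1) ^ (ij.1 : ℕ) * ((p.1 / q.1) ^ n / (f₁ / f₂) ^ m) ^ (ij.2 : ℕ)) := by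
  rw [Fintype.linearIndependent_iff]
  intro g hg
  by_contra hne
  have hg0 : g ≠ 0 := fun h => hne (fun i => by rw [h]; rfl)
  obtain ⟨hx, hξ⟩ := hS.ne_zero p hp
  obtain ⟨hy, hη⟩ := hS.ne_zero q hq
  obtain ⟨hf₁, hρ⟩ := hS.ne_zero _ h₁
  obtain ⟨hf₂, -⟩ := hS.ne_zero _ h₂
  simp only at hf₁ hf₂ hρ
  let P : Fin n × Fin (t + 1) → F × Fk := fun ij =>
    p ^ (ij.1 : ℕ) * q ^ (n - 1 - (ij.1 : ℕ)) * (p ^ n * (f₂, ρ) ^ m) ^ (ij.2 : ℕ) *
      (q ^ n * (f₁, ρ) ^ m) ^ (t - (ij.2 : ℕ))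
  have hPS : ∀ ij, P ij ∈ S := fun ij =>
    S.mul_mem (S.mul_mem (S.mul_mem (S.pow_mem hp _) (S.pow_mem hq _))
      (S.pow_mem (S.mul_mem (S.pow_mem hp _) (S.pow_mem h₂ _)) _))
      (S.pow_mem (S.mul_mem (S.pow_mem hq _) (S.pow_mem h₁ _)) _)
  have hP1 : ∀ ij, (P ij).1 = (p.1 / q.1) ^ (ij.1 : ℕ) *
      ((p.1 / q.1) ^ n / (f₁ / f₂) ^ m) ^ (ij.2 : ℕ) *
        (q.1 ^ (n - 1) * (q.1 ^ n * f₁ ^ m) ^ t) := by
    intro ij
    simp only [P, Prod.fst_mul, Prod.pow_fst]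
    exact monomial_identity p.1 q.1 f₁ f₂ hy hf₁ hf₂ n m t ij.1 ij.2
      (Nat.succ_le_of_lt ij.1.isLt) (Nat.lt_succ_iff.mp ij.2.isLt)
  have hP2 : ∀ ij, (P ij).2 = (p.2 / q.2) ^ ((ij.1 : ℕ) + n * (ij.2 : ℕ)) *
      (q.2 ^ (n - 1) * (q.2 ^ n * ρ ^ m) ^ t) := by
    intro ij
    simp only [P, Prod.snd_mul, Prod.pow_snd]
    rw [monomial_identity p.2 q.2 ρ ρ hη hρ hρ n m t ij.1 ij.2
      (Nat.succ_le_of_lt ij.1.isLt) (Nat.lt_succ_iff.mp ij.2.isLt)]
    rw [div_self hρ, one_pow, div_one, ← pow_mul, ← pow_add]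
  have hsum : ∑ ij, g ij • (P ij).1 = 0 := by
    have : ∑ ij, g ij • (P ij).1 = (∑ ij, g ij • ((p.1 / q.1) ^ (ij.1 : ℕ) *
        ((p.1 / q.1) ^ n / (f₁ / f₂) ^ m) ^ (ij.2 : ℕ))) *
          (q.1 ^ (n - 1) * (q.1 ^ n * f₁ ^ m) ^ t) := by
      rw [Finset.sum_mul]
      refine Finset.sum_congr rfl fun ij _ => ?_
      rw [hP1, smul_mul_assoc]
    rw [this, hg, zero_mul]
  obtain ⟨d, hd0, hd⟩ := hS.lin P hPS g hg0 hsum
  have hden : q.2 ^ (n - 1) * (q.2 ^ n * ρ ^ m) ^ t ≠ 0 :=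
    mul_ne_zero (pow_ne_zero _ hη) (pow_ne_zero _ (mul_ne_zero (pow_ne_zero _ hη)
      (pow_ne_zero _ hρ)))
  have hsum2 : ∑ ij : Fin n × Fin (t + 1), d ij • (p.2 / q.2) ^ ((ij.1 : ℕ) + n * (ij.2 : ℕ))
      = 0 := by
    have : (∑ ij : Fin n × Fin (t + 1), d ij • (p.2 / q.2) ^ ((ij.1 : ℕ) + n * (ij.2 : ℕ))) *
        (q.2 ^ (n - 1) * (q.2 ^ n * ρ ^ m) ^ t) = 0 := by
      rw [Finset.sum_mul, ← hd]
      refine Finset.sum_congr rfl fun ij _ => ?_
      rw [hP2, smul_mul_assoc]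
    exact (mul_eq_zero.mp this).resolve_right hden
  let Q : Polynomial k := ∑ ij : Fin n × Fin (t + 1),
    Polynomial.monomial ((ij.1 : ℕ) + n * (ij.2 : ℕ)) (d ij)
  have hQeval : Polynomial.aeval (p.2 / q.2) Q = 0 := by
    simp only [Q]
    rw [map_sum, ← hsum2]
    refine Finset.sum_congr rfl fun ij _ => ?_
    rw [Polynomial.aeval_monomial, Algebra.smul_def]
  have hinj : Function.Injective
      (fun ij : Fin n × Fin (t + 1) => (ij.1 : ℕ) + n * (ij.2 : ℕ)) := by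
    rintro ⟨i, j⟩ ⟨i', j'⟩ h
    simp only at h
    have hi : (i : ℕ) = i' := by
      have := congrArg (· % n) h
      simpa [Nat.add_mul_mod_self_left, Nat.mod_eq_of_lt i.isLt, Nat.mod_eq_of_lt i'.isLt]
        using this
    have hn : 0 < n := lt_of_le_of_lt (Nat.zero_le _) i.isLt
    have hj : (j : ℕ) = j' := by
      have : n * (j : ℕ) = n * j' := by omega
      exact Nat.eq_of_mul_eq_mul_left hn this
    exact Prod.ext (Fin.ext hi) (Fin.ext hj)
  have hQ0 : Q ≠ 0 := by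
    obtain ⟨ij₀, hij₀⟩ : ∃ ij, d ij ≠ 0 := by
      by_contra h
      exact hd0 (funext fun ij => not_not.mp (not_exists.mp h ij))
    intro hQz
    have h0 := congrArg (fun Q => Polynomial.coeff Q ((ij₀.1 : ℕ) + n * (ij₀.2 : ℕ))) hQz
    simp only [Q, Polynomial.finsetSum_coeff, Polynomial.coeff_monomial,
      Polynomial.coeff_zero] at h0
    rw [Finset.sum_eq_single ij₀] at h0
    · rw [if_pos rfl] at h0
      exact hij₀ h0
    · intro ij _ hne'
      rw [if_neg]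
      intro h
      exact hne' (hinj h)
    · intro h
      exact absurd (Finset.mem_univ _) h
  obtain ⟨c, hc⟩ := hS.alg _ ⟨Q, hQ0, hQeval⟩
  exact hnc ⟨c, by rw [← hc, div_mul_cancel₀ _ hη]⟩


/-! ### One-units and good divisors -/

/-- A one-unit: a quotient of two integral functions with the same reduction. -/
def OneUnit (S : Submonoid (F × Fk)) (H : F) : Prop :=
  ∃ (f₁ f₂ : F) (ρ : Fk), (f₁, ρ) ∈ S ∧ (f₂, ρ) ∈ S ∧ H = f₁ / f₂

theorem OneUnit.one (S : Submonoid (F × Fk)) : OneUnit S (1 : F) :=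
  ⟨1, 1, 1, S.one_mem, S.one_mem, (div_one 1).symm⟩

theorem OneUnit.mul {S : Submonoid (F × Fk)} {H₁ H₂ : F} (h₁ : OneUnit S H₁)
    (h₂ : OneUnit S H₂) : OneUnit S (H₁ * H₂) := by
  obtain ⟨f₁, f₂, ρ, hf₁, hf₂, rfl⟩ := h₁
  obtain ⟨g₁, g₂, ρ', hg₁, hg₂, rfl⟩ := h₂
  exact ⟨f₁ * g₁, f₂ * g₂, ρ * ρ', S.mul_mem hf₁ hg₁, S.mul_mem hf₂ hg₂, div_mul_div_comm _ _ _ _⟩

theorem OneUnit.inv {S : Submonoid (F × Fk)} {H : F} (h : OneUnit S H) : OneUnit S H⁻¹ := by
  obtain ⟨f₁, f₂, ρ, hf₁, hf₂, rfl⟩ := h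
  exact ⟨f₂, f₁, ρ, hf₂, hf₁, inv_div _ _⟩

theorem OneUnit.ne_zero {S : Submonoid (F × Fk)} (hS : IntegralPairs K k S) {H : F}
    (h : OneUnit S H) : H ≠ 0 := by
  obtain ⟨f₁, f₂, ρ, hf₁, hf₂, rfl⟩ := h
  exact div_ne_zero (hS.ne_zero _ hf₁).1 (hS.ne_zero _ hf₂).1

variable (K) in
/-- A divisor all of whose multiples are bounded up to divisors of one-units. -/
def Good (S : Submonoid (F × Fk)) (E : Divisor K F) : Prop :=
  ∃ C : ℤ, ∀ n : ℕ, ∃ (Bp Bn : Divisor K F) (H : F), OneUnit S H ∧ 0 ≤ Bp ∧ 0 ≤ Bn ∧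
    Divisor.degree Bp ≤ C ∧ Divisor.degree Bn ≤ C ∧
    ∀ v : Place K F, (n : ℤ) * E v = Bp v - Bn v + v.ord H

theorem Good.zero (S : Submonoid (F × Fk)) : Good K S (0 : Divisor K F) :=
  ⟨0, fun n => ⟨0, 0, 1, OneUnit.one S, le_rfl, le_rfl, by simp, by simp, fun v => by simp⟩⟩

theorem Good.add {S : Submonoid (F × Fk)} (hS : IntegralPairs K k S) {E₁ E₂ : Divisor K F}
    (h₁ : Good K S E₁) (h₂ : Good K S E₂) : Good K S (E₁ + E₂) := by
  obtain ⟨C₁, hC₁⟩ := h₁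
  obtain ⟨C₂, hC₂⟩ := h₂
  refine ⟨C₁ + C₂, fun n => ?_⟩
  obtain ⟨Bp₁, Bn₁, H₁, hH₁, hp₁, hn₁, hdp₁, hdn₁, he₁⟩ := hC₁ n
  obtain ⟨Bp₂, Bn₂, H₂, hH₂, hp₂, hn₂, hdp₂, hdn₂, he₂⟩ := hC₂ n
  refine ⟨Bp₁ + Bp₂, Bn₁ + Bn₂, H₁ * H₂, hH₁.mul hH₂, add_nonneg hp₁ hp₂, add_nonneg hn₁ hn₂,
    ?_, ?_, fun v => ?_⟩
  · rw [map_add]; exact add_le_add hdp₁ hdp₂
  · rw [map_add]; exact add_le_add hdn₁ hdn₂
  · rw [v.ord_mul (hH₁.ne_zero hS) (hH₂.ne_zero hS), Finsupp.add_apply, Finsupp.add_apply,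
      Finsupp.add_apply, mul_add, he₁ v, he₂ v]
    ring

theorem Good.neg {S : Submonoid (F × Fk)} {E : Divisor K F}
    (h : Good K S E) : Good K S (-E) := by
  obtain ⟨C, hC⟩ := h
  refine ⟨C, fun n => ?_⟩
  obtain ⟨Bp, Bn, H, hH, hp, hn, hdp, hdn, he⟩ := hC n
  refine ⟨Bn, Bp, H⁻¹, hH.inv, hn, hp, hdn, hdp, fun v => ?_⟩
  rw [v.ord_inv, Finsupp.neg_apply, mul_neg, he v]
  ring

/-- The subgroup of good divisors. -/
def goodSubgroup {S : Submonoid (F × Fk)} (hS : IntegralPairs K k S) :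
    AddSubgroup (Divisor K F) where
  carrier := {E | Good K S E}
  zero_mem' := Good.zero S
  add_mem' := fun h₁ h₂ => Good.add hS h₁ h₂
  neg_mem' := fun h => Good.neg h

theorem mem_goodSubgroup {S : Submonoid (F × Fk)} (hS : IntegralPairs K k S) {E : Divisor K F} :
    E ∈ goodSubgroup hS ↔ Good K S E := Iff.rfl

/-! ### The counting argument -/

theorem ord_npow (v : Place K F) (f : F) (n : ℕ) : v.ord (f ^ n) = (n : ℤ) * v.ord f := by
  have := v.ord_zpow f (n : ℤ)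
  rwa [zpow_natCast] at this

/-- Membership of the monomials in a Riemann–Roch space. -/
theorem monomial_mem_riemannRochSpace {u w : F} (hu : u ≠ 0) (hw : w ≠ 0)
    {Nd Md : Divisor K F} (hNd : 0 ≤ Nd) (hMd : 0 ≤ Md)
    (hNu : ∀ v : Place K F, -(Nd v) ≤ v.ord u) (hMw : ∀ v : Place K F, -(Md v) ≤ v.ord w)
    {a t i j : ℕ} (hi : i ≤ a) (hj : j ≤ t) :
    u ^ i * w ^ j ∈ riemannRochSpace (a • Nd + t • Md) := by
  rw [mem_riemannRochSpace_iff]
  intro v
  right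
  rw [v.ord_mul (pow_ne_zero _ hu) (pow_ne_zero _ hw), ord_npow, ord_npow, Finsupp.add_apply,
    Finsupp.smul_apply, Finsupp.smul_apply, nsmul_eq_mul, nsmul_eq_mul]
  have h1 : (0 : ℤ) ≤ Nd v := hNd v
  have h2 : (0 : ℤ) ≤ Md v := hMd v
  have h3 := hNu v
  have h4 := hMw v
  have hi' : (i : ℤ) ≤ a := by exact_mod_cast hi
  have hj' : (j : ℤ) ≤ t := by exact_mod_cast hj
  have hi0 : (0 : ℤ) ≤ i := by positivity
  have hj0 : (0 : ℤ) ≤ j := by positivity
  have e1 : -((a : ℤ) * Nd v) ≤ (i : ℤ) * v.ord u := by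
    have : -((i : ℤ) * Nd v) ≤ (i : ℤ) * v.ord u := by
      have := mul_le_mul_of_nonneg_left h3 hi0
      linarith
    have : (i : ℤ) * Nd v ≤ (a : ℤ) * Nd v := mul_le_mul_of_nonneg_right hi' h1
    linarith
  have e2 : -((t : ℤ) * Md v) ≤ (j : ℤ) * v.ord w := by
    have : -((j : ℤ) * Md v) ≤ (j : ℤ) * v.ord w := by
      have := mul_le_mul_of_nonneg_left h4 hj0
      linarith
    have : (j : ℤ) * Md v ≤ (t : ℤ) * Md v := mul_le_mul_of_nonneg_right hj' h2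
    linarith
  linarith

/-- **Function-level rigidity.**  If `E` is good and `m • E` is the divisor of `x / y` for two
integral pairs `(x, ξ)`, `(y, η)`, then `ξ` and `η` are proportional. -/
theorem exists_const_of_good [HasPrincipalDivisors K F] (hdeg : ∀ v : Place K F, v.deg = 1)
    (P₀ : Place K F) {S : Submonoid (F × Fk)} (hS : IntegralPairs K k S)
    {E : Divisor K F} (hE : Good K S E) {m : ℕ} (hm : 0 < m)
    {p q : F × Fk} (hp : p ∈ S) (hq : q ∈ S)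
    (hdiv : ∀ v : Place K F, (m : ℤ) * E v = v.ord p.1 - v.ord q.1) :
    ∃ c : k, p.2 = algebraMap k Fk c * q.2 := by
  by_contra hnc
  obtain ⟨C, hC⟩ := hE
  obtain ⟨hx, -⟩ := hS.ne_zero p hp
  obtain ⟨hy, -⟩ := hS.ne_zero q hq
  have hC0 : 0 ≤ C := by
    obtain ⟨Bp, Bn, H, -, -, hBn, -, hBnC, -⟩ := hC 0
    exact (Fermat.Agent.S18.helper981.degree_nonneg hdeg hBn).trans hBnC
  -- the pole bound of `u = x / y`
  let Nd : Divisor K F := E.mapRange (fun z => (m : ℤ) * |z|) (by simp)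
  have hNd0 : 0 ≤ Nd := by
    intro v
    simp only [Nd, Finsupp.mapRange_apply, Finsupp.coe_zero, Pi.zero_apply]
    positivity
  have hu0 : p.1 / q.1 ≠ 0 := div_ne_zero hx hy
  have hordu : ∀ v : Place K F, v.ord (p.1 / q.1) = (m : ℤ) * E v := by
    intro v
    rw [div_eq_mul_inv, v.ord_mul hx (inv_ne_zero hy), v.ord_inv, hdiv v]
    ring
  have hNu : ∀ v : Place K F, -(Nd v) ≤ v.ord (p.1 / q.1) := by
    intro v
    rw [hordu v]
    simp only [Nd, Finsupp.mapRange_apply]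
    have h1 := neg_abs_le (E v)
    have h2 : (0 : ℤ) ≤ m := by positivity
    have := mul_le_mul_of_nonneg_left h1 h2
    linarith
  have he0 : 0 ≤ Divisor.degree Nd := Fermat.Agent.S18.helper981.degree_nonneg hdeg hNd0
  obtain ⟨Cn, hCn⟩ := Int.eq_ofNat_of_zero_le hC0
  obtain ⟨en, hen⟩ := Int.eq_ofNat_of_zero_le he0
  -- the choice of `n` and `t`
  obtain ⟨Bp, Bn, H, ⟨f₁, f₂, ρ, h₁, h₂, rfl⟩, hBp, hBn, hBpC, hBnC, hH⟩ := hC (m * Cn + 1)
  have hLI := linearIndependent_monomials hS hp hq h₁ h₂ hnc (m * Cn + 1) m (m * Cn * en + 1)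
  have hH0 : f₁ / f₂ ≠ 0 := div_ne_zero (hS.ne_zero _ h₁).1 (hS.ne_zero _ h₂).1
  have hw0 : (p.1 / q.1) ^ (m * Cn + 1) / (f₁ / f₂) ^ m ≠ 0 :=
    div_ne_zero (pow_ne_zero _ hu0) (pow_ne_zero _ hH0)
  have hMw : ∀ v : Place K F,
      -((m • Bn) v) ≤ v.ord ((p.1 / q.1) ^ (m * Cn + 1) / (f₁ / f₂) ^ m) := by
    intro v
    rw [div_eq_mul_inv, v.ord_mul (pow_ne_zero _ hu0) (inv_ne_zero (pow_ne_zero _ hH0)),
      v.ord_inv, ord_npow, ord_npow, hordu v, Finsupp.smul_apply, nsmul_eq_mul]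
    have h1 := hH v
    have h2 : (0 : ℤ) ≤ Bp v := hBp v
    have h3 : (0 : ℤ) ≤ m := by positivity
    have h4 : ((m * Cn + 1 : ℕ) : ℤ) * ((m : ℤ) * E v) - (m : ℤ) * v.ord (f₁ / f₂)
        = (m : ℤ) * (Bp v - Bn v) := by
      rw [show ((m * Cn + 1 : ℕ) : ℤ) * ((m : ℤ) * E v) = (m : ℤ) * (((m * Cn + 1 : ℕ) : ℤ) * E v)
        by ring, h1]
      ring
    have h5 := mul_nonneg h3 h2
    linarith
  have hmem : ∀ ij : Fin (m * Cn + 1) × Fin (m * Cn * en + 1 + 1),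
      (p.1 / q.1) ^ (ij.1 : ℕ) * ((p.1 / q.1) ^ (m * Cn + 1) / (f₁ / f₂) ^ m) ^ (ij.2 : ℕ) ∈
        riemannRochSpace ((m * Cn) • Nd + (m * Cn * en + 1) • (m • Bn)) := fun ij =>
    monomial_mem_riemannRochSpace hu0 hw0 hNd0 (smul_nonneg (Nat.zero_le m) hBn) hNu hMw
      (Nat.lt_succ_iff.mp ij.1.isLt) (Nat.lt_succ_iff.mp ij.2.isLt)
  have hfin := Fermat.Agent.S18.helper981.finite_riemannRochSpace hdeg P₀
    ((m * Cn) • Nd + (m * Cn * en + 1) • (m • Bn))
  have hLI' : LinearIndependent K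
      (fun ij : Fin (m * Cn + 1) × Fin (m * Cn * en + 1 + 1) =>
        (⟨_, hmem ij⟩ : riemannRochSpace ((m * Cn) • Nd + (m * Cn * en + 1) • (m • Bn)))) :=
    LinearIndependent.of_comp
      (riemannRochSpace ((m * Cn) • Nd + (m * Cn * en + 1) • (m • Bn))).subtype hLI
  have hcard := hLI'.fintype_card_le_finrank
  rw [Fintype.card_prod, Fintype.card_fin, Fintype.card_fin] at hcard
  have hBn0 : 0 ≤ Divisor.degree Bn := Fermat.Agent.S18.helper981.degree_nonneg hdeg hBn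
  have hdegD : Divisor.degree ((m * Cn) • Nd + (m * Cn * en + 1) • (m • Bn))
      = ((m * Cn : ℕ) : ℤ) * en + ((m * Cn * en + 1 : ℕ) : ℤ) * ((m : ℤ) * Divisor.degree Bn) := by
    rw [map_add, map_nsmul, map_nsmul, map_nsmul, hen, nsmul_eq_mul, nsmul_eq_mul, nsmul_eq_mul]
  have hD0 : 0 ≤ Divisor.degree ((m * Cn) • Nd + (m * Cn * en + 1) • (m • Bn)) := by
    rw [hdegD]
    positivity
  have hfr := Fermat.Agent.S18.helper981.finrank_le_degree_add_one hdeg P₀ hD0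
  rw [hdegD] at hfr
  have hcard' : (((m * Cn + 1) * (m * Cn * en + 1 + 1) : ℕ) : ℤ) ≤
      (finrank K (riemannRochSpace ((m * Cn) • Nd + (m * Cn * en + 1) • (m • Bn))) : ℤ) := by
    exact_mod_cast hcard
  have hmB : (m : ℤ) * Divisor.degree Bn ≤ ((m * Cn : ℕ) : ℤ) := by
    push_cast
    rw [← hCn]
    exact mul_le_mul_of_nonneg_left hBnC (by positivity)
  have ht0 : (0 : ℤ) ≤ ((m * Cn * en + 1 : ℕ) : ℤ) := by positivity
  have hkey := mul_le_mul_of_nonneg_left hmB ht0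
  have hfinal := hcard'.trans hfr
  push_cast at hfinal hkey
  nlinarith [hfinal, hkey]

/-! ### Producing good divisors -/


/-- Every divisor is bounded above by an effective divisor. -/
theorem exists_effective_ge (D0 : Divisor K F) : ∃ D1 : Divisor K F, 0 ≤ D1 ∧ D0 ≤ D1 := by
  refine ⟨D0.mapRange (fun z => |z|) abs_zero, ?_, ?_⟩
  · intro v
    simp only [Finsupp.mapRange_apply, Finsupp.coe_zero, Pi.zero_apply]
    positivity
  · intro v
    simp only [Finsupp.mapRange_apply]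
    exact le_abs_self _

/-- **Producer of good divisors.**  `Λ` is an additive endomorphism of the divisor group with
bounded positive and negative parts (`hΛb`) which maps the divisor of a quotient of integral
functions to the divisor of a one-unit (`hΛc`).  Then `Λ E` is good for every `E` of degree
zero. -/
theorem good_of_companion [HasPrincipalDivisors K F] {S : Submonoid (F × Fk)}
    (hnf : ∀ f : F, f ≠ 0 → ∃ p q : F × Fk, p ∈ S ∧ q ∈ S ∧
      ∀ v : Place K F, v.ord f = v.ord p.1 - v.ord q.1)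
    {D0 : Divisor K F} (hRB : Fermat.Agent.S37.helper6267.RiemannBound D0)
    (Λ : Divisor K F →+ Divisor K F) (c : ℤ)
    (hΛb : ∀ D : Divisor K F, 0 ≤ D → ∃ Bp Bn : Divisor K F, 0 ≤ Bp ∧ 0 ≤ Bn ∧
      Λ D = Bp - Bn ∧ Divisor.degree Bp ≤ c * Divisor.degree D ∧
      Divisor.degree Bn ≤ c * Divisor.degree D)
    (hΛc : ∀ p q : F × Fk, p ∈ S → q ∈ S → ∀ D : Divisor K F,
      (∀ v : Place K F, D v = v.ord p.1 - v.ord q.1) →
      ∃ H : F, OneUnit S H ∧ ∀ v : Place K F, Λ D v = v.ord H)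
    (E : Divisor K F) (hE : Divisor.degree E = 0) : Good K S (Λ E) := by
  -- enlarge `D0` to an effective divisor
  obtain ⟨D1, hD1, hD01⟩ := exists_effective_ge D0
  obtain ⟨Dp, Dn, hDp, hDn, hΛD1, hDpd, hDnd⟩ := hΛb D1 hD1
  refine ⟨2 * (c * Divisor.degree D1), fun n => ?_⟩
  have hZ : Divisor.degree (n • E) = 0 := by rw [map_nsmul, hE, smul_zero]
  obtain ⟨P, hP, hPZ⟩ := hRB (n • E) hZ
  have hB : 0 ≤ P + n • E + D1 := le_trans hPZ (add_le_add_right hD01 (P + n • E))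
  have hBdeg : Divisor.degree (P + n • E + D1) = Divisor.degree D1 := by
    rw [map_add, map_add, hZ, Fermat.Agent.S37.helper6267.degree_eq_zero_of_mem_principal hP]
    ring
  obtain ⟨Bp, Bn, hBp, hBn, hΛB, hBpd, hBnd⟩ := hΛb _ hB
  rw [hBdeg] at hBpd hBnd
  obtain ⟨f, hf, hPf⟩ := hP
  obtain ⟨p, q, hp, hq, hpq⟩ := hnf f hf
  obtain ⟨H, hH, hΛP⟩ := hΛc p q hp hq P (fun v => by rw [hPf v, hpq v])
  refine ⟨Bp + Dn, Bn + Dp, H⁻¹, hH.inv, add_nonneg hBp hDn, add_nonneg hBn hDp, ?_, ?_,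
    fun v => ?_⟩
  · rw [map_add]; linarith
  · rw [map_add]; linarith
  · have h1 : Λ (n • E) = Λ (P + n • E + D1) - Λ P - Λ D1 := by
      rw [map_add, map_add]
      abel
    have h2 : (n : ℤ) * Λ E v = Λ (n • E) v := by
      rw [map_nsmul, Finsupp.smul_apply, nsmul_eq_mul]
    rw [h2, h1, hΛB, hΛD1, v.ord_inv, ← hΛP v]
    simp only [Finsupp.sub_apply, Finsupp.add_apply]
    ring

end Fermat.Agent.S37.helper117

end
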