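import Mathlib
import Fermat.Prelude.Def_AlgebraicCurve_Repartitions
import Fermat.Agent.S24.helper204_Places
import Fermat.Agent.S18.helper6458_PrincipalDegSep
import Fermat.Agent.S18.helper981_Riemann
import Fermat.Agent.S37.helper6267_Bounded

/-!
# S37-RB: the weak Riemann inequality for a function field with a separating element
(helper6267)

`K` algebraically closed, `x : F` transcendental over `K`, `F` finite separable over `K(x)`.
Then

* `degree_poleDivisor` : the pole divisor of `x` has degree `[F : K(x)]`
  (from `helper6458.sum_poles_ord` applied to `a = x`);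
* `hasRiemannBound_of_isSeparable` : `helper981.HasRiemannBound K F`, i.e. `deg D - l(D)` is
  bounded above (no genus is computed);
* `exists_riemannBound_of_isSeparable` : `∃ D0, RiemannBound D0` in the shape consumed by the
  rigidity lemma `eq_zero_of_bounded` of `helper6267_Bounded`.
-/

set_option autoImplicit false

noncomputable section

namespace Fermat.Agent.S37.helper6267

open AlgebraicCurve IntermediateField Polynomial Module
open Fermat.Agent.S24.helper204 Fermat.Agent.S18.helper6458 Fermat.Agent.S18.helper981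
open scoped IntermediateField.algebraAdjoinAdjoin

section Generic

variable {K F : Type*} [Field K] [Field F] [Algebra K F] [IsAlgClosed K]

section Instances

variable {x : F} [FiniteDimensional K⟮x⟯ F]
  [IsDedekindDomain (integralClosure (Algebra.adjoin K {x}) F)]
  [Module.Finite (Algebra.adjoin K {x}) (integralClosure (Algebra.adjoin K {x}) F)]
  [FiniteDimensional K⟮x⁻¹⟯ F]
  [IsDedekindDomain (integralClosure (Algebra.adjoin K {x⁻¹}) F)]
  [Module.Finite (Algebra.adjoin K {x⁻¹}) (integralClosure (Algebra.adjoin K {x⁻¹}) F)]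

/-- The orders of `x` at its poles add up to `-[F : K(x)]`. -/
theorem sum_poles_ord_self (hx : Transcendental K x) :
    ∑ v ∈ (finite_zeros (x := x⁻¹) (transcendental_inv hx) (0 : K)).toFinset, v.ord x
      = -(finrank K⟮x⟯ F : ℤ) := by
  classical
  set a : integralClosure (Algebra.adjoin K {x}) F :=
    algebraMap (Algebra.adjoin K {x}) (integralClosure (Algebra.adjoin K {x}) F) (gen K x)
    with ha
  have haF : (a : F) = x := rfl
  have hx0 : x ≠ 0 := by
    rintro rfl
    exact hx isAlgebraic_zero
  have ha0 : a ≠ 0 := by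
    intro h
    exact hx0 (by rw [← haF, h]; rfl)
  obtain ⟨q, hq⟩ := aeval_gen_surjective K x
    (Algebra.intNorm (Algebra.adjoin K {x}) (integralClosure (Algebra.adjoin K {x}) F) a)
  have h := sum_poles_ord hx a ha0 q hq.symm
  rw [haF] at h
  rw [h]
  -- `q = X ^ n`
  have h3 : Polynomial.aeval x q = algebraMap K⟮x⟯ F (Algebra.norm K⟮x⟯ (a : F)) := by
    rw [← coe_intNorm a, ← hq, Polynomial.aeval_subalgebra_coe, coe_gen]
  have hgen : (a : F) = algebraMap K⟮x⟯ F (AdjoinSimple.gen K x) := by
    rw [haF, AdjoinSimple.algebraMap_gen]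
  rw [hgen, Algebra.norm_algebraMap, map_pow, AdjoinSimple.algebraMap_gen] at h3
  have hq' : q = X ^ finrank K⟮x⟯ F := by
    apply transcendental_iff_injective.mp hx
    rw [h3, map_pow, Polynomial.aeval_X]
  rw [hq', Polynomial.natDegree_X_pow]

/-- The pole divisor of `x` exists and has degree `[F : K(x)]`. -/
theorem exists_poleDivisor (hx : Transcendental K x) :
    ∃ B : Divisor K F, (∀ v : Place K F, B v = max 0 (-(v.ord x))) ∧
      Divisor.degree B = (finrank K⟮x⟯ F : ℤ) := by
  classical
  have hx' : Transcendental K x⁻¹ := transcendental_inv hx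
  set Zinf : Finset (Place K F) := (finite_zeros hx' (0 : K)).toFinset with hZinf
  have hmemZinf : ∀ v, v ∈ Zinf ↔ v.ord x < 0 := fun v => mem_zeros_inv hx v
  have hsupp : ∀ v : Place K F, max 0 (-(v.ord x)) ≠ 0 → v ∈ Zinf := by
    intro v hv
    rw [hmemZinf]
    by_contra hneg
    push Not at hneg
    exact hv (max_eq_left (by omega))
  refine ⟨Finsupp.onFinset Zinf (fun v => max 0 (-(v.ord x))) hsupp, fun v => rfl, ?_⟩
  have hdeg : ∀ v : Place K F, v.deg = 1 := Fermat.Agent.S18.helper6458.place_deg_eq_one hx
  rw [Divisor.degree, Finsupp.liftAddHom_apply, Finsupp.onFinset_sum]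
  · simp only [AddMonoidHom.coe_mulRight, hdeg, Nat.cast_one, mul_one]
    have hsum := sum_poles_ord_self (F := F) hx
    rw [← hZinf] at hsum
    have : ∑ v ∈ Zinf, max 0 (-(v.ord x)) = ∑ v ∈ Zinf, -(v.ord x) := by
      refine Finset.sum_congr rfl fun v hv => ?_
      have := (hmemZinf v).mp hv
      exact max_eq_right (by omega)
    rw [this, Finset.sum_neg_distrib, hsum, neg_neg]
  · intro v
    simp

/-- There is at least one place. -/
theorem nonempty_place (hx : Transcendental K x) : Nonempty (Place K F) := by
  classical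
  by_contra hne
  rw [not_nonempty_iff] at hne
  have hsum := sum_poles_ord_self (F := F) hx
  rw [Finset.sum_eq_zero (fun v _ => (hne.false v).elim)] at hsum
  have hpos : 0 < finrank K⟮x⟯ F := Module.finrank_pos
  omega

/-- Weak Riemann inequality, instance-passing form. -/
theorem hasRiemannBound_aux (hx : Transcendental K x) : HasRiemannBound K F := by
  haveI : HasPrincipalDivisors K F := hasPrincipalDivisors_aux hx
  obtain ⟨P₀⟩ := nonempty_place (F := F) hx
  obtain ⟨B, hB, hBdeg⟩ := exists_poleDivisor (F := F) hx
  exact hasRiemannBound_of_transcendental x hx P₀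
    (Fermat.Agent.S18.helper6458.place_deg_eq_one hx) B hB hBdeg.le

end Instances

/-- **Weak Riemann inequality** (`deg D - l(D)` is bounded above) for a function field over an
algebraically closed field with a separating transcendental element.  Any characteristic; no
genus is computed. -/
theorem hasRiemannBound_of_isSeparable (x : F) (hx : Transcendental K x)
    [FiniteDimensional K⟮x⟯ F] [Algebra.IsSeparable K⟮x⟯ F] : HasRiemannBound K F := by
  haveI : IsDedekindDomain (integralClosure (Algebra.adjoin K {x}) F) :=
    integralClosure.isDedekindDomain (Algebra.adjoin K {x}) K⟮x⟯ F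
  haveI : Module.Finite (Algebra.adjoin K {x}) (integralClosure (Algebra.adjoin K {x}) F) :=
    IsIntegralClosure.finite (Algebra.adjoin K {x}) K⟮x⟯ F _
  haveI : FiniteDimensional K⟮x⁻¹⟯ F := finiteDimensional_adjoin_inv
  haveI : Algebra.IsSeparable K⟮x⁻¹⟯ F := by
    rw [adjoin_inv_eq]
    infer_instance
  haveI : IsDedekindDomain (integralClosure (Algebra.adjoin K {x⁻¹}) F) :=
    integralClosure.isDedekindDomain (Algebra.adjoin K {x⁻¹}) K⟮x⁻¹⟯ F
  haveI : Module.Finite (Algebra.adjoin K {x⁻¹}) (integralClosure (Algebra.adjoin K {x⁻¹}) F) :=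
    IsIntegralClosure.finite (Algebra.adjoin K {x⁻¹}) K⟮x⁻¹⟯ F _
  exact hasRiemannBound_aux hx

/-- The pole divisor of a separating element has degree `[F : K(x)]`. -/
theorem exists_poleDivisor_of_isSeparable (x : F) (hx : Transcendental K x)
    [FiniteDimensional K⟮x⟯ F] [Algebra.IsSeparable K⟮x⟯ F] :
    ∃ B : Divisor K F, (∀ v : Place K F, B v = max 0 (-(v.ord x))) ∧
      Divisor.degree B = (finrank K⟮x⟯ F : ℤ) := by
  haveI : IsDedekindDomain (integralClosure (Algebra.adjoin K {x}) F) :=
    integralClosure.isDedekindDomain (Algebra.adjoin K {x}) K⟮x⟯ F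
  haveI : Module.Finite (Algebra.adjoin K {x}) (integralClosure (Algebra.adjoin K {x}) F) :=
    IsIntegralClosure.finite (Algebra.adjoin K {x}) K⟮x⟯ F _
  haveI : FiniteDimensional K⟮x⁻¹⟯ F := finiteDimensional_adjoin_inv
  haveI : Algebra.IsSeparable K⟮x⁻¹⟯ F := by
    rw [adjoin_inv_eq]
    infer_instance
  haveI : IsDedekindDomain (integralClosure (Algebra.adjoin K {x⁻¹}) F) :=
    integralClosure.isDedekindDomain (Algebra.adjoin K {x⁻¹}) K⟮x⁻¹⟯ F
  haveI : Module.Finite (Algebra.adjoin K {x⁻¹}) (integralClosure (Algebra.adjoin K {x⁻¹}) F) :=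
    IsIntegralClosure.finite (Algebra.adjoin K {x⁻¹}) K⟮x⁻¹⟯ F _
  exact exists_poleDivisor hx

/-- The Riemann bound in the shape consumed by the rigidity lemma `eq_zero_of_bounded`:
some fixed divisor `D0` makes every degree-zero divisor effective up to a principal divisor. -/
theorem exists_riemannBound_of_isSeparable (x : F) (hx : Transcendental K x)
    [FiniteDimensional K⟮x⟯ F] [Algebra.IsSeparable K⟮x⟯ F] :
    ∃ D0 : Divisor K F, RiemannBound (K := K) (F := F) D0 := by
  haveI : HasPrincipalDivisors K F := hasPrincipalDivisors_of_isSeparable x hx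
  obtain ⟨B, hB, hBdeg⟩ := exists_poleDivisor_of_isSeparable (K := K) (F := F) x hx
  have hne : Nonempty (Place K F) := by
    by_contra hne
    rw [not_nonempty_iff] at hne
    have h0 : B = 0 := Subsingleton.elim _ _
    rw [h0, map_zero] at hBdeg
    have hpos : 0 < finrank K⟮x⟯ F := Module.finrank_pos
    omega
  obtain ⟨P₀⟩ := hne
  exact exists_riemannBound_of_finrank_bound (hasRiemannBound_of_isSeparable x hx) P₀
    (place_deg_eq_one_of_isSeparable x hx P₀).ge

end Generic

end Fermat.Agent.S37.helper6267
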