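import Fermat.Agent.S37.helper5162_HeckeInputsModular
import Fermat.Agent.S37.helper6267_RiemannFN

/-!
# S37-RB, modular instance (helper6267)

The weak Riemann inequality and the Riemann bound `(iii)` of the rigidity lemma for the
modular function fields `F_N = modularFunctionFieldBar N` over `ℚ̄`, at every level `N ≥ 1`.
-/

set_option autoImplicit false

namespace Fermat.Agent.S37.helper6267

open ModularCurve AlgebraicCurve IntermediateField
open Fermat.Agent.S24.helper24

/-- Weak Riemann inequality on `F_N / ℚ̄`: `deg D - l(D)` is bounded above. -/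
theorem hasRiemannBound_FN (N : ℕ) [NeZero N] :
    Fermat.Agent.S18.helper981.HasRiemannBound Kbar (FN N) :=
  hasRiemannBound_of_isSeparable (jBar N) (Fermat.Agent.S24.helper3176.transcendental_jBar N)

/-- The Riemann bound on `F_N / ℚ̄` in the shape consumed by `eq_zero_of_bounded`. -/
theorem exists_riemannBound_FN (N : ℕ) [NeZero N] :
    ∃ D0 : Divisor (AlgebraicClosure ℚ) ↥(modularFunctionFieldBar N),
      RiemannBound (K := AlgebraicClosure ℚ) (F := ↥(modularFunctionFieldBar N)) D0 :=
  exists_riemannBound_of_isSeparable (jBar N)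
    (Fermat.Agent.S24.helper3176.transcendental_jBar N)

/-- The pole divisor of `j` on `F_N` has degree `[F_N : ℚ̄(j)]`. -/
theorem exists_poleDivisor_jBar (N : ℕ) [NeZero N] :
    ∃ B : Divisor Kbar (FN N), (∀ v : Place Kbar (FN N), B v = max 0 (-(v.ord (jBar N)))) ∧
      Divisor.degree B = (Module.finrank Kbar⟮jBar N⟯ (FN N) : ℤ) :=
  exists_poleDivisor_of_isSeparable (jBar N) (Fermat.Agent.S24.helper3176.transcendental_jBar N)

/-- **Rigidity on the modular function field** (the lemma of `helper6267_Bounded` with the
Riemann bound discharged): an additive map on `Div(F_N)` that kills principal divisors and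
has bounded coefficients on single places kills every divisor of degree zero. -/
theorem eq_zero_of_bounded_FN (N : ℕ) [NeZero N] {X : Type*}
    (δ : Divisor (AlgebraicClosure ℚ) ↥(modularFunctionFieldBar N) →+ (X →₀ ℤ)) (C : ℤ)
    (hC : ∀ (P : Place (AlgebraicClosure ℚ) ↥(modularFunctionFieldBar N)) (x : X),
      |δ (Finsupp.single P 1) x| ≤ C)
    (hprin : ∀ D ∈ Divisor.principal (K := AlgebraicClosure ℚ)
      (F := ↥(modularFunctionFieldBar N)), δ D = 0)
    (Z : Divisor (AlgebraicClosure ℚ) ↥(modularFunctionFieldBar N))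
    (hZ : Divisor.degree Z = 0) : δ Z = 0 := by
  obtain ⟨D0, hD0⟩ := exists_riemannBound_FN N
  exact eq_zero_of_bounded δ C hC hprin
    (fun P => (Fermat.Agent.S37.helper5162.place_deg_eq_one N P).ge) D0 hD0 Z hZ

end Fermat.Agent.S37.helper6267
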