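import Mathlib
import Fermat.Agent.S37.helper117_FunctionRigidity
import Fermat.Agent.S18.helper3054_Top
import Fermat.Agent.S37.helper6267_RiemannModular
import Fermat.Agent.Lib.helper6879_ResidueQbar

/-!
# S37-FRIG: the function-level rigidity core on `F_N` (`FrigCore`)

The abstract core `helper117_FunctionRigidity` is instantiated with

* `K = ℚ̄`, `F = F_N = modularFunctionFieldBar N`,
* `k` the residue field of a valuation subring `A` of `ℚ̄`, `Fk = modularFunctionFieldFullC k N`,
* `S = {(a.gen, a.red) | a : IntegralFn A N}`.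

The linear independence hypothesis is the Gauss scaling of a coefficient vector; `k` is
algebraically closed, so it is algebraically closed in `Fk`.
-/

set_option autoImplicit false
set_option synthInstance.maxHeartbeats 400000

noncomputable section

namespace Fermat.Agent.S37.helper117

open ModularCurve AlgebraicCurve HahnSeries
open Fermat.Agent.S18.helper3054 (IntegralFn)

variable (A : ValuationSubring (AlgebraicClosure ℚ)) (N : ℕ)

/-- The submonoid of integral pairs `(a.gen, a.red)`. -/
def intPairs : Submonoid (↥(modularFunctionFieldBar N) ×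
    ↥(modularFunctionFieldFullC (IsLocalRing.ResidueField A) N)) where
  carrier := {p | ∃ a : IntegralFn A N, p = (a.gen, a.red)}
  one_mem' := ⟨IntegralFn.one, by rw [IntegralFn.gen_one, IntegralFn.red_one]; rfl⟩
  mul_mem' := by
    rintro _ _ ⟨a, rfl⟩ ⟨b, rfl⟩
    exact ⟨a.mul b, by simp⟩

variable {A N}

theorem mem_intPairs {p : ↥(modularFunctionFieldBar N) ×
    ↥(modularFunctionFieldFullC (IsLocalRing.ResidueField A) N)} :
    p ∈ intPairs A N ↔ ∃ a : IntegralFn A N, p = (a.gen, a.red) := Iff.rfl

theorem mk_mem_intPairs (a : IntegralFn A N) : (a.gen, a.red) ∈ intPairs A N := ⟨a, rfl⟩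

/-- An algebraic element of a field extension of an algebraically closed field is a constant. -/
theorem exists_eq_algebraMap_of_isAlgebraic {k Fk : Type*} [Field k] [Field Fk] [Algebra k Fk]
    [IsAlgClosed k] (x : Fk) (hx : IsAlgebraic k x) : ∃ c : k, x = algebraMap k Fk c := by
  have hint : IsIntegral k x := hx.isIntegral
  have hdeg := IsAlgClosed.degree_eq_one_of_irreducible k (minpoly.irreducible hint)
  obtain ⟨c, hc⟩ := minpoly.mem_range_of_degree_eq_one k x hdeg
  exact ⟨c, hc.symm⟩

/-- The coefficients of a scalar multiple in an intermediate field of Laurent series. -/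
theorem coeff_smul_coe {L : Type*} [Field L] (F : IntermediateField L (LaurentSeries L)) (c : L)
    (x : F) (n : ℤ) :
    ((c • x : F) : LaurentSeries L).coeff n = c * (x : LaurentSeries L).coeff n := by
  rw [Algebra.smul_def, IntermediateField.coe_mul, IntermediateField.coe_algebraMap_apply,
    algebraMap_laurentSeries_eq_single, HahnSeries.coeff_single_zero_mul]

/-- The coefficients of a linear combination in an intermediate field of Laurent series. -/
theorem coeff_sum_smul_coe {L : Type*} [Field L] (F : IntermediateField L (LaurentSeries L))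
    {ι : Type*} [Fintype ι] (c : ι → L) (x : ι → F) (n : ℤ) :
    ((∑ i, c i • x i : F) : LaurentSeries L).coeff n
      = ∑ i, c i * ((x i : F) : LaurentSeries L).coeff n := by
  rw [IntermediateField.coe_sum, HahnSeries.coeff_sum]
  exact Finset.sum_congr rfl fun i _ => coeff_smul_coe F (c i) (x i) n

/-- **Gauss scaling.**  A nontrivial `ℚ̄`-linear relation among integral functions reduces to a
nontrivial linear relation among their reductions. -/
theorem exists_relation_red {ι : Type} [Fintype ι] (a : ι → IntegralFn A N)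
    (c : ι → AlgebraicClosure ℚ) (hc : c ≠ 0) (hsum : ∑ i, c i • (a i).gen = 0) :
    ∃ d : ι → IsLocalRing.ResidueField A, d ≠ 0 ∧ ∑ i, d i • (a i).red = 0 := by
  classical
  obtain ⟨i₁, hi₁⟩ : ∃ i, c i ≠ 0 := by
    by_contra h
    exact hc (funext fun i => not_not.mp (not_exists.mp h i))
  obtain ⟨i₀, -, hmax⟩ := Finset.exists_max_image Finset.univ (fun i => A.valuation (c i))
    ⟨i₁, Finset.mem_univ _⟩
  have hc0 : c i₀ ≠ 0 := by
    intro h
    have h1 := hmax i₁ (Finset.mem_univ _)
    rw [h, map_zero] at h1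
    exact hi₁ ((Valuation.zero_iff _).mp (le_antisymm h1 zero_le))
  have hv0 : A.valuation (c i₀) ≠ 0 := (Valuation.ne_zero_iff _).mpr hc0
  have hmem : ∀ i, c i / c i₀ ∈ A := by
    intro i
    rw [← A.valuation_le_one_iff, map_div₀]
    exact (div_le_one₀ (zero_lt_iff.mpr hv0)).mpr (hmax i (Finset.mem_univ _))
  -- the relation, coefficient by coefficient
  have hcoef : ∀ n : ℤ, ∑ i, c i * (((a i).y.coeff n : A) : AlgebraicClosure ℚ) = 0 := by
    intro n
    have h0 := coeff_sum_smul_coe (modularFunctionFieldBar N) c (fun i => (a i).gen) n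
    rw [hsum] at h0
    exact h0.symm
  have hcoefA : ∀ n : ℤ, ∑ i, (⟨c i / c i₀, hmem i⟩ : A) * (a i).y.coeff n = 0 := by
    intro n
    apply Subtype.ext
    have h1 : ((∑ i, (⟨c i / c i₀, hmem i⟩ : A) * (a i).y.coeff n : A) : AlgebraicClosure ℚ)
        = ∑ i, (c i / c i₀) * (((a i).y.coeff n : A) : AlgebraicClosure ℚ) := by
      push_cast
      rfl
    rw [h1]
    have h2 : ∑ i, (c i / c i₀) * (((a i).y.coeff n : A) : AlgebraicClosure ℚ)
        = (∑ i, c i * (((a i).y.coeff n : A) : AlgebraicClosure ℚ)) / c i₀ := by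
      rw [Finset.sum_div]
      exact Finset.sum_congr rfl fun i _ => by ring
    rw [h2, hcoef n, zero_div]
    rfl
  refine ⟨fun i => IsLocalRing.residue A ⟨c i / c i₀, hmem i⟩, ?_, ?_⟩
  · intro h
    have h0 := congrFun h i₀
    simp only [Pi.zero_apply] at h0
    have h1 : (⟨c i₀ / c i₀, hmem i₀⟩ : A) = 1 := Subtype.ext (div_self hc0)
    rw [h1, map_one] at h0
    exact one_ne_zero h0
  · apply Subtype.ext
    ext n
    have h1 := congrArg (IsLocalRing.residue A) (hcoefA n)
    rw [map_sum, map_zero] at h1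
    simp only [map_mul] at h1
    rw [coeff_sum_smul_coe]
    exact h1

/-- The integral pairs on `F_N` satisfy the hypotheses of the abstract core. -/
theorem integralPairs (A : ValuationSubring (AlgebraicClosure ℚ)) (N : ℕ) :
    IntegralPairs (AlgebraicClosure ℚ) (IsLocalRing.ResidueField A) (intPairs A N) where
  ne_zero := by
    rintro _ ⟨a, rfl⟩
    exact ⟨a.gen_ne_zero, a.red_ne_zero⟩
  lin := by
    intro ι _ p hp c hc hsum
    choose a ha using hp
    have h1 : ∀ i, (p i).1 = (a i).gen := fun i => by rw [ha i]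
    have h2 : ∀ i, (p i).2 = (a i).red := fun i => by rw [ha i]
    simp_rw [h1] at hsum
    simp_rw [h2]
    exact exists_relation_red a c hc hsum
  alg := by
    have := Fermat.Agent.Lib.helper6879.isAlgClosed_residueField A
    exact exists_eq_algebraMap_of_isAlgebraic

/-! ### The absolute-value form of goodness -/

section Abs

variable {K F k Fk : Type*} [Field K] [Field F] [Algebra K F] [Field k] [Field Fk] [Algebra k Fk]

/-- A divisor `E` is good as soon as every multiple `n • E` differs from the divisor of a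
one-unit by at most an effective divisor of bounded degree. -/
theorem good_of_abs_le [HasPrincipalDivisors K F] (hdeg : ∀ v : Place K F, v.deg = 1)
    {S : Submonoid (F × Fk)} (hS : IntegralPairs K k S) {E : Divisor K F} (C : ℤ)
    (h : ∀ n : ℕ, ∃ (H : F) (Bn : Divisor K F), OneUnit S H ∧ 0 ≤ Bn ∧ Divisor.degree Bn ≤ C ∧
      ∀ v : Place K F, |(n : ℤ) * E v - v.ord H| ≤ Bn v) : Good K S E := by
  refine ⟨C, fun n => ?_⟩
  obtain ⟨H, Bn, hH, hBn, hBnC, habs⟩ := h n
  obtain ⟨DH, hDH, -⟩ := HasPrincipalDivisors.exists_divisor (K := K) H (hH.ne_zero hS)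
  let R : Divisor K F := n • E - DH
  have hR : ∀ v : Place K F, R v = (n : ℤ) * E v - v.ord H := fun v => by
    simp only [R, Finsupp.sub_apply, Finsupp.smul_apply, nsmul_eq_mul, hDH v]
  refine ⟨R.mapRange (fun z => max z 0) (by simp), R.mapRange (fun z => max (-z) 0) (by simp),
    H, hH, ?_, ?_, ?_, ?_, fun v => ?_⟩
  · intro v
    simp only [Finsupp.mapRange_apply, Finsupp.coe_zero, Pi.zero_apply]
    exact le_max_right _ _
  · intro v
    simp only [Finsupp.mapRange_apply, Finsupp.coe_zero, Pi.zero_apply]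
    exact le_max_right _ _
  · refine (Fermat.Agent.S18.helper981.degree_mono hdeg ?_).trans hBnC
    intro v
    simp only [Finsupp.mapRange_apply]
    have h1 := habs v
    rw [← hR v] at h1
    exact max_le ((le_abs_self _).trans h1) (hBn v)
  · refine (Fermat.Agent.S18.helper981.degree_mono hdeg ?_).trans hBnC
    intro v
    simp only [Finsupp.mapRange_apply]
    have h1 := habs v
    rw [← hR v] at h1
    exact max_le ((neg_le_abs _).trans h1) (hBn v)
  · simp only [Finsupp.mapRange_apply]
    have h1 := hR v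
    rcases le_total 0 (R v) with h0 | h0
    · rw [max_eq_left h0, max_eq_right (by linarith)]
      linarith
    · rw [max_eq_right h0, max_eq_left (by linarith)]
      linarith

end Abs

/-! ### `FrigCore` -/

/-- `F_N` has a place. -/
theorem nonempty_place_FNb (N : ℕ) [NeZero N] :
    Nonempty (Place (AlgebraicClosure ℚ) ↥(modularFunctionFieldBar N)) := by
  by_contra hne
  rw [not_nonempty_iff] at hne
  obtain ⟨B, -, hBdeg⟩ := Fermat.Agent.S37.helper6267.exists_poleDivisor_jBar N
  have h0 : B = 0 := Subsingleton.elim _ _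
  rw [h0, map_zero] at hBdeg
  have hpos : 0 < Module.finrank
      (IntermediateField.adjoin (AlgebraicClosure ℚ) {Fermat.Agent.S24.helper24.jBar N})
      ↥(modularFunctionFieldBar N) := Module.finrank_pos
  have hpos' : (0 : ℤ) < (Module.finrank
      (IntermediateField.adjoin (AlgebraicClosure ℚ) {Fermat.Agent.S24.helper24.jBar N})
      ↥(modularFunctionFieldBar N) : ℤ) := by exact_mod_cast hpos
  exact absurd hBdeg.symm hpos'.ne'

variable (A N) in
/-- **The function-level rigidity core** (node F-CORE of the T-FRIG chain): if every multiple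
of `div (a / b)` differs from the divisor of a quotient `X / Y` of integral functions with the
same reduction by at most an effective divisor of bounded degree, then the reductions of `a`
and `b` are proportional. -/
def FrigCore : Prop :=
  ∀ (a b : IntegralFn A N) (C : ℤ),
    (∀ n : ℕ, ∃ (X Y : IntegralFn A N)
        (Bn : Divisor (AlgebraicClosure ℚ) ↥(modularFunctionFieldBar N)),
      X.red = Y.red ∧ 0 ≤ Bn ∧ Divisor.degree Bn ≤ C ∧
      ∀ P : Place (AlgebraicClosure ℚ) ↥(modularFunctionFieldBar N),
        |(n : ℤ) * (P.ord a.gen - P.ord b.gen) - (P.ord X.gen - P.ord Y.gen)| ≤ Bn P) →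
    ∃ κ : IsLocalRing.ResidueField A, κ ≠ 0 ∧
      a.red = algebraMap (IsLocalRing.ResidueField A)
        (modularFunctionFieldFullC (IsLocalRing.ResidueField A) N) κ * b.red

/-- `FrigCore` holds for every valuation subring of `ℚ̄` and every level. -/
theorem frigCore_of_valuationSubring (A : ValuationSubring (AlgebraicClosure ℚ)) (N : ℕ)
    [NeZero N] : FrigCore A N := by
  intro a b C h
  have hdeg : ∀ P : Place (AlgebraicClosure ℚ) ↥(modularFunctionFieldBar N), P.deg = 1 :=
    fun P => Fermat.Agent.S37.helper5162.place_deg_eq_one N P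
  obtain ⟨P₀⟩ := nonempty_place_FNb N
  obtain ⟨E, hE, -⟩ := HasPrincipalDivisors.exists_divisor (K := AlgebraicClosure ℚ)
    (a.gen / b.gen) (div_ne_zero a.gen_ne_zero b.gen_ne_zero)
  have hEv : ∀ v : Place (AlgebraicClosure ℚ) ↥(modularFunctionFieldBar N),
      E v = v.ord a.gen - v.ord b.gen := by
    intro v
    rw [hE v, div_eq_mul_inv, v.ord_mul a.gen_ne_zero (inv_ne_zero b.gen_ne_zero), v.ord_inv]
    ring
  have hgood : Good (AlgebraicClosure ℚ) (intPairs A N) E := by
    refine good_of_abs_le hdeg (integralPairs A N) C fun n => ?_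
    obtain ⟨X, Y, Bn, hXY, hBn, hBnC, habs⟩ := h n
    refine ⟨X.gen / Y.gen, Bn, ⟨X.gen, Y.gen, X.red, mk_mem_intPairs X, ?_, rfl⟩, hBn, hBnC,
      fun v => ?_⟩
    · rw [hXY]
      exact mk_mem_intPairs Y
    · rw [hEv v, div_eq_mul_inv, v.ord_mul X.gen_ne_zero (inv_ne_zero Y.gen_ne_zero), v.ord_inv,
        ← sub_eq_add_neg]
      exact habs v
  obtain ⟨c, hc⟩ := exists_const_of_good hdeg P₀ (integralPairs A N) hgood (m := 1) one_pos
    (mk_mem_intPairs a) (mk_mem_intPairs b) (fun v => by rw [Nat.cast_one, one_mul, hEv v])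
  refine ⟨c, ?_, hc⟩
  rintro rfl
  rw [map_zero, zero_mul] at hc
  exact a.red_ne_zero hc

/-- **F-CORE** in the shape of the T-FRIG plan. -/
theorem frigCore (N : ℕ) [NeZero N] {ℓ : ℕ} (_hℓ : ℓ.Prime) (_hℓN : ¬ ℓ ∣ N)
    (A : ValuationSubring (AlgebraicClosure ℚ)) (_hA : A.LiesOverPrime ℓ) : FrigCore A N :=
  frigCore_of_valuationSubring A N

/-! ### The good subgroup on `F_N` in `IntegralFn` vocabulary -/

/-- **(LOCF) on the good subgroup**: a quotient of integral functions whose divisor is good has
constant reduction.  This is, verbatim, `helper872.LocFormula A N (goodSubgroup (integralPairs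
A N))`. -/
theorem locFormula_goodSubgroup (A : ValuationSubring (AlgebraicClosure ℚ)) (N : ℕ) [NeZero N] :
    ∀ (a b : IntegralFn A N) (E : Divisor (AlgebraicClosure ℚ) (modularFunctionFieldBar N)),
      E ∈ goodSubgroup (integralPairs A N) → (∀ P, E P = P.ord a.gen - P.ord b.gen) →
      ∃ κ : IsLocalRing.ResidueField A, κ ≠ 0 ∧
        a.red = algebraMap (IsLocalRing.ResidueField A)
          (modularFunctionFieldFullC (IsLocalRing.ResidueField A) N) κ * b.red := by
  intro a b E hE hEv
  have hdeg : ∀ P : Place (AlgebraicClosure ℚ) ↥(modularFunctionFieldBar N), P.deg = 1 :=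
    fun P => Fermat.Agent.S37.helper5162.place_deg_eq_one N P
  obtain ⟨P₀⟩ := nonempty_place_FNb N
  obtain ⟨c, hc⟩ := exists_const_of_good hdeg P₀ (integralPairs A N) hE (m := 1) one_pos
    (mk_mem_intPairs a) (mk_mem_intPairs b) (fun v => by rw [Nat.cast_one, one_mul, hEv v])
  refine ⟨c, ?_, hc⟩
  rintro rfl
  rw [map_zero, zero_mul] at hc
  exact a.red_ne_zero hc

/-- A nonzero constant has order zero at every place. -/
theorem ord_algebraMap_eq_zero' {K F : Type*} [Field K] [Field F] [Algebra K F] (P : Place K F)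
    {c : K} (hc : c ≠ 0) : P.ord (algebraMap K F c) = 0 := by
  let u : P.toValuationSubringˣ :=
    { val := ⟨algebraMap K F c, P.algebraMap_mem' c⟩
      inv := ⟨algebraMap K F c⁻¹, P.algebraMap_mem' c⁻¹⟩
      val_inv := Subtype.ext (by
        show algebraMap K F c * algebraMap K F c⁻¹ = 1
        rw [← map_mul, mul_inv_cancel₀ hc, map_one])
      inv_val := Subtype.ext (by
        show algebraMap K F c⁻¹ * algebraMap K F c = 1
        rw [← map_mul, inv_mul_cancel₀ hc, map_one]) }
  exact P.ord_coe_unit u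

/-- **Membership in the good subgroup from a companion** (the instance of `good_of_companion`
on `F_N`, in `IntegralFn` vocabulary).  `hnf` is, verbatim, `helper872.NormalForm A N`; `hΛb`
is the degree bound of `Λ`; `hΛc` says that `Λ` maps the divisor of a quotient `a / b` of
integral functions to the divisor of a quotient `X / Y` of integral functions with the same
reduction. -/
theorem mem_goodSubgroup_of_companion (A : ValuationSubring (AlgebraicClosure ℚ)) (N : ℕ)
    [NeZero N]
    (hnf : ∀ U : modularFunctionFieldBar N, U ≠ 0 →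
      ∃ (c : AlgebraicClosure ℚ) (a b : IntegralFn A N), c ≠ 0 ∧
        U * b.gen = algebraMap (AlgebraicClosure ℚ) (modularFunctionFieldBar N) c * a.gen)
    (Λ : Divisor (AlgebraicClosure ℚ) ↥(modularFunctionFieldBar N) →+
      Divisor (AlgebraicClosure ℚ) ↥(modularFunctionFieldBar N)) (c : ℤ)
    (hΛb : ∀ D : Divisor (AlgebraicClosure ℚ) ↥(modularFunctionFieldBar N), 0 ≤ D →
      ∃ Bp Bn : Divisor (AlgebraicClosure ℚ) ↥(modularFunctionFieldBar N), 0 ≤ Bp ∧ 0 ≤ Bn ∧
        Λ D = Bp - Bn ∧ Divisor.degree Bp ≤ c * Divisor.degree D ∧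
        Divisor.degree Bn ≤ c * Divisor.degree D)
    (hΛc : ∀ (a b : IntegralFn A N)
      (D : Divisor (AlgebraicClosure ℚ) ↥(modularFunctionFieldBar N)),
      (∀ P, D P = P.ord a.gen - P.ord b.gen) →
      ∃ X Y : IntegralFn A N, X.red = Y.red ∧ ∀ P, Λ D P = P.ord X.gen - P.ord Y.gen)
    (E : Divisor (AlgebraicClosure ℚ) ↥(modularFunctionFieldBar N))
    (hE : Divisor.degree E = 0) : Λ E ∈ goodSubgroup (integralPairs A N) := by
  obtain ⟨D0, hD0⟩ := Fermat.Agent.S37.helper6267.exists_riemannBound_FN N
  refine good_of_companion (S := intPairs A N) ?_ hD0 Λ c hΛb ?_ E hE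
  · intro f hf
    obtain ⟨c₀, a, b, hc₀, hU⟩ := hnf f hf
    refine ⟨(a.gen, a.red), (b.gen, b.red), mk_mem_intPairs a, mk_mem_intPairs b, fun v => ?_⟩
    have h1 := congrArg v.ord hU
    rw [v.ord_mul hf b.gen_ne_zero,
      v.ord_mul ((map_ne_zero (algebraMap (AlgebraicClosure ℚ) ↥(modularFunctionFieldBar N))).mpr
        hc₀) a.gen_ne_zero, ord_algebraMap_eq_zero' v hc₀] at h1
    show v.ord f = v.ord a.gen - v.ord b.gen
    linarith
  · rintro _ _ ⟨a, rfl⟩ ⟨b, rfl⟩ D hD
    obtain ⟨X, Y, hXY, hord⟩ := hΛc a b D hD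
    refine ⟨X.gen / Y.gen, ⟨X.gen, Y.gen, X.red, mk_mem_intPairs X, ?_, rfl⟩, fun v => ?_⟩
    · rw [hXY]
      exact mk_mem_intPairs Y
    · rw [hord v, div_eq_mul_inv, v.ord_mul X.gen_ne_zero (inv_ne_zero Y.gen_ne_zero), v.ord_inv]
      ring

end Fermat.Agent.S37.helper117

end
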