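/-
S37 (helper5162): UNFOLDING of the Prelude Hecke operator `heckeOperatorBar N ℓ` on `JZero N`,
now that `HeckeInputsAlong ℚ̄ N ℓ` is on main (`helper8426_HeckeInputs`, board row 694).

Consumer-facing adapter for the point-level Kronecker assembly / level descent:

* `heckeOperatorAlong_eq'`  : the Prelude operator is the honest correspondence `heckePic0Bar`;
* `heckeOperatorAlong_mk`, `heckeOperatorBar_mk` : `T_ℓ (Pic0.mk D) = Pic0.mk (T_ℓ D)` where on
  divisors `T_ℓ = heckeDivBar = Divisor.correspondence β α = pushforwardAlong α ∘ pullbackAlong β`;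
* `inertiaDegAlong_heckeAlphaBar`, `inertiaDegAlong_heckeBetaBar` : all inertia degrees are `1`;
* `heckeDivBar_single` : for a place `P` of `F_N`,
  `T_ℓ [P] = ∑_{W | P along β} e_β(W) • [W restricted along α]`;
* `degree_heckeDivBar` : `deg (T_ℓ D) = [F_{Nℓ} : β F_N] * deg D`.
-/
import Fermat.Agent.S37.helper8426_HeckeInputs

set_option autoImplicit false

open ModularCurve AlgebraicCurve

namespace Fermat.Agent.S37.helper5162

open Fermat.Agent.S24.helper24

variable (N ℓ : ℕ) [NeZero N] [NeZero ℓ]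

/-- The Prelude Hecke operator is the honest correspondence. -/
theorem heckeOperatorAlong_eq' :
    heckeOperatorAlong (AlgebraicClosure ℚ) N ℓ =
      heckePic0Bar (heckeAlphaBarIntegral N ℓ) (heckeBetaBarIntegral N ℓ)
        (Fermat.Agent.S37.helper8426.fundamentalIdentityAlong_heckeBetaBar N ℓ)
        (finiteAlong_heckeAlphaBar N ℓ)
        (Fermat.Agent.S37.helper8426.normFormulaAlong_heckeAlphaBar N ℓ) :=
  heckeOperatorAlong_eq_of N ℓ _ _

/-- `T_ℓ` on divisor classes: the class of `α_* β^* D`. -/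
theorem heckeOperatorAlong_mk (D : Divisor.degZero (K := Kbar) (F := FN N)) :
    heckeOperatorAlong (AlgebraicClosure ℚ) N ℓ (Pic0.mk D) =
      Pic0.mk (Pic0.degZeroCorrespondence (heckeBetaBar Kbar N ℓ) (heckeAlphaBar Kbar N ℓ)
        (heckeBetaBarIntegral N ℓ) (heckeAlphaBarIntegral N ℓ)
        (Fermat.Agent.S37.helper8426.fundamentalIdentityAlong_heckeBetaBar N ℓ) D) := by
  rw [heckeOperatorAlong_eq']
  rfl

/-- `T_ℓ` (Prelude `heckeOperatorBar`, `ℓ` prime) on divisor classes. -/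
theorem heckeOperatorBar_mk (N : ℕ) [NeZero N] (ℓ : Nat.Primes)
    (D : Divisor.degZero (K := Kbar) (F := FN N)) :
    haveI : NeZero (ℓ : ℕ) := ⟨ℓ.2.ne_zero⟩
    heckeOperatorBar N ℓ (Pic0.mk D) =
      Pic0.mk (Pic0.degZeroCorrespondence (heckeBetaBar Kbar N ℓ) (heckeAlphaBar Kbar N ℓ)
        (heckeBetaBarIntegral N ℓ) (heckeAlphaBarIntegral N ℓ)
        (Fermat.Agent.S37.helper8426.fundamentalIdentityAlong_heckeBetaBar N ℓ) D) := by
  haveI : NeZero (ℓ : ℕ) := ⟨ℓ.2.ne_zero⟩
  rw [heckeOperatorBar_apply]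
  exact heckeOperatorAlong_mk N ℓ D

/-- The divisor underlying `T_ℓ D` is `heckeDivBar D = α_* β^* D`. -/
theorem coe_degZeroCorrespondence_hecke (D : Divisor.degZero (K := Kbar) (F := FN N)) :
    ((Pic0.degZeroCorrespondence (heckeBetaBar Kbar N ℓ) (heckeAlphaBar Kbar N ℓ)
        (heckeBetaBarIntegral N ℓ) (heckeAlphaBarIntegral N ℓ)
        (Fermat.Agent.S37.helper8426.fundamentalIdentityAlong_heckeBetaBar N ℓ) D :
          Divisor.degZero (K := Kbar) (F := FN N)) : Divisor Kbar (FN N)) =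
      heckeDivBar (heckeAlphaBarIntegral N ℓ) (heckeBetaBarIntegral N ℓ)
        (D : Divisor Kbar (FN N)) :=
  rfl

/-- `heckeDivBar` is push-forward along `α` after pull-back along `β`. -/
theorem heckeDivBar_apply (D : Divisor Kbar (FN N)) :
    heckeDivBar (heckeAlphaBarIntegral N ℓ) (heckeBetaBarIntegral N ℓ) D =
      Divisor.pushforwardAlong (heckeAlphaBar Kbar N ℓ) (heckeAlphaBarIntegral N ℓ)
        (Divisor.pullbackAlong (heckeBetaBar Kbar N ℓ) (heckeBetaBarIntegral N ℓ) D) :=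
  rfl

/-- Inertia degrees along an integral algebra hom into a modular function field are `1`. -/
theorem inertiaDegAlong_eq_one (M : ℕ) [NeZero M] {F : Type} [Field F] [Algebra Kbar F]
    (φ : F →ₐ[Kbar] FN M) (hφ : φ.toRingHom.IsIntegral) (W : Place Kbar (FN M)) :
    W.inertiaDegAlong φ hφ = 1 := by
  letI := algebraAlong φ
  haveI := isScalarTower_along φ
  haveI := isIntegral_along φ hφ
  exact Fermat.Agent.S37.helper8426.place_inertiaDeg_eq_one (F := F)
    (residueField_surjective M) W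

theorem inertiaDegAlong_heckeAlphaBar (W : Place Kbar (FN (N * ℓ))) :
    W.inertiaDegAlong (heckeAlphaBar Kbar N ℓ) (heckeAlphaBarIntegral N ℓ) = 1 :=
  inertiaDegAlong_eq_one (N * ℓ) _ _ W

theorem inertiaDegAlong_heckeBetaBar (W : Place Kbar (FN (N * ℓ))) :
    W.inertiaDegAlong (heckeBetaBar Kbar N ℓ) (heckeBetaBarIntegral N ℓ) = 1 :=
  inertiaDegAlong_eq_one (N * ℓ) _ _ W

/-- **`T_ℓ` on a single place**: `T_ℓ [P] = ∑_{W | P along β} e_β(W) • [W restricted along α]`. -/
theorem heckeDivBar_single (P : Place Kbar (FN N)) (n : ℤ) :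
    heckeDivBar (heckeAlphaBarIntegral N ℓ) (heckeBetaBarIntegral N ℓ) (Finsupp.single P n) =
      ∑ W ∈ Place.fiberAlong (heckeBetaBar Kbar N ℓ) (heckeBetaBarIntegral N ℓ) P,
        Finsupp.single (W.restrictAlong (heckeAlphaBar Kbar N ℓ) (heckeAlphaBarIntegral N ℓ))
          (n * (W.ramificationIndexAlong (heckeBetaBar Kbar N ℓ) : ℤ)) := by
  rw [heckeDivBar_apply, Divisor.pullbackAlong_single, map_sum]
  refine Finset.sum_congr rfl fun W _ => ?_
  rw [Divisor.pushforwardAlong_single, inertiaDegAlong_heckeAlphaBar, Nat.cast_one, mul_one]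

/-- Degrees: `deg (T_ℓ D) = [F_{Nℓ} : β F_N] * deg D`. -/
theorem degree_heckeDivBar (D : Divisor Kbar (FN N)) :
    Divisor.degree (heckeDivBar (heckeAlphaBarIntegral N ℓ) (heckeBetaBarIntegral N ℓ) D) =
      (finrankAlong Kbar (heckeBetaBar Kbar N ℓ) : ℤ) * Divisor.degree D :=
  Divisor.degree_correspondence _ _ _ _
    (Fermat.Agent.S37.helper8426.fundamentalIdentityAlong_heckeBetaBar N ℓ) D

end Fermat.Agent.S37.helper5162
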