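import Fermat.Agent.S37.helper137_KroneckerFF
import Fermat.Agent.S37.helper5666_KroneckerVal

/-!
# S37 (helper137): norm and characteristic polynomial of the Hecke correspondence

`ℓ` prime, `ℓ ∤ N`, `F = F_N`, `F' = F_{Nℓ}`, `α, β : F → F'` (Prelude `heckeAlphaBar`,
`heckeBetaBar`), `V = qExpand _ ℓ`, `ζ` a primitive `ℓ`-th root of unity in `ℚ̄`.

Generic part (Mathlib only):
* `norm_eq_prod_of_embeddings`, `charpoly_eq_prod_of_embeddings`: norm and characteristic
  polynomial of a finite separable extension through ANY full family of embeddings into a field.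
* `norm_charpoly_of_rot`: the case of the `ℓ + 1` embeddings `w₀`, `rot (ζ^b) ∘ ρ` into Laurent
  series.

Modular part (vocabulary of `helper5666_KroneckerSeries`: `rot`, `kronProd`, `kronNorm`,
`kronPoly`, `heckePoly`):
* `norm_beta_alpha`, `charpoly_beta_alpha`: for `h : F_N`, over `β(F_N)`,
  `Norm(α h) = h(q^ℓ) * kronNorm ζ ℓ h` and `charpoly(α h) = heckePoly ζ ℓ h` (q-expansions).
* `norm_alpha_beta`, `charpoly_alpha_beta`: the same over `α(F_N)` for `β u`.
* `norm_alpha_beta_eq_norm_beta_alpha`.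
* `charpoly_beta_alpha_integral`, `norm_beta_alpha_integral` (and the `alpha_beta` versions):
  integrality over a valuation subring of `ℚ̄` with residue characteristic `ℓ` and the Kronecker
  congruence `≡ (T - h̄(q^ℓ)) (T^ℓ - Fr h̄)`.
-/

set_option autoImplicit false

open ModularCurve AlgebraicCurve Polynomial

namespace Fermat.Agent.S37.helper137

open Fermat.Agent.S24.helper24
open Fermat.Agent.S24.helper137
open Fermat.Agent.S37.helper5666

/-! ## Norm and characteristic polynomial through a full family of embeddings -/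

section Generic

variable {K L Ω : Type*} [Field K] [Field L] [Field Ω] [Algebra K L] [Algebra K Ω]
  [FiniteDimensional K L]

/-- The characteristic polynomial of multiplication by `x`, evaluated at a scalar, is a norm. -/
theorem eval_charpoly_lmul (x : L) (t : K) :
    (Algebra.lmul K L x).charpoly.eval t = Algebra.norm K (algebraMap K L t - x) := by
  classical
  let b := Module.finBasis K L
  rw [← LinearMap.charpoly_toMatrix (Algebra.lmul K L x) b, Matrix.eval_charpoly,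
    Algebra.norm_eq_matrix_det b, Algebra.leftMulMatrix_apply, map_sub, map_sub]
  congr 2
  rw [← Algebra.leftMulMatrix_apply, AlgHom.commutes]
  rfl

variable [Algebra.IsSeparable K L]

/-- Norm as a product over a full family of embeddings into an arbitrary field. -/
theorem norm_eq_prod_of_embeddings {ι : Type*} [Fintype ι] (emb : ι → L →ₐ[K] Ω)
    (hinj : Function.Injective emb) (hcard : Fintype.card ι = Module.finrank K L) (x : L) :
    algebraMap K Ω (Algebra.norm K x) = ∏ i, emb i x := by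
  classical
  let E := AlgebraicClosure Ω
  let emb' : ι → L →ₐ[K] E := fun i => (IsScalarTower.toAlgHom K Ω E).comp (emb i)
  have hinj' : Function.Injective emb' := by
    intro i j hij
    apply hinj
    ext y
    have := congrArg (fun φ : L →ₐ[K] E => φ y) hij
    exact (algebraMap Ω E).injective this
  have hbij : Function.Bijective emb' := by
    rw [Fintype.bijective_iff_injective_and_card]
    exact ⟨hinj', by rw [hcard, AlgHom.card]⟩
  have h1 := Algebra.norm_eq_prod_embeddings K E x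
  rw [← Fintype.prod_bijective emb' hbij (fun i => emb' i x) (fun σ => σ x) (fun _ => rfl)] at h1
  apply (algebraMap Ω E).injective
  rw [map_prod, ← IsScalarTower.algebraMap_apply, h1]
  rfl

/-- Characteristic polynomial as a product over a full family of embeddings. -/
theorem charpoly_eq_prod_of_embeddings [Infinite K] {ι : Type*} [Fintype ι] (emb : ι → L →ₐ[K] Ω)
    (hinj : Function.Injective emb) (hcard : Fintype.card ι = Module.finrank K L) (x : L) :
    (Algebra.lmul K L x).charpoly.map (algebraMap K Ω) = ∏ i, (X - C (emb i x)) := by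
  apply Polynomial.eq_of_infinite_eval_eq
  refine Set.Infinite.mono ?_ (Set.infinite_range_of_injective (algebraMap K Ω).injective)
  rintro _ ⟨t, rfl⟩
  show eval _ _ = eval _ _
  rw [eval_map_algebraMap, aeval_algebraMap_apply, coe_aeval_eq_eval, eval_charpoly_lmul,
    norm_eq_prod_of_embeddings emb hinj hcard, eval_prod]
  refine Finset.prod_congr rfl fun i _ => ?_
  rw [eval_sub, eval_X, eval_C, map_sub, AlgHom.commutes]

end Generic

/-! ## The `ℓ + 1` embeddings `w₀`, `rot (ζ^b) ∘ ρ` -/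

section Rot

/-- An extension `F'/F` of degree `ℓ + 1` with an embedding `ι` of `F` into Laurent series whose
image is fixed by `q ↦ ζ q`, and two extensions `ρ`, `w₀` of `ι` to `F'` which are separated by
the coefficient of `q⁻¹` of one element: the norm is `w₀ x * ∏_b (ρ x)(ζ^b q)` and the
characteristic polynomial is `(T - w₀ x) * ∏_b (T - (ρ x)(ζ^b q))`. -/
theorem norm_charpoly_of_rot {R F F' : Type*} [Field R] [Field F] [Field F'] [Algebra F F']
    [FiniteDimensional F F'] [Algebra.IsSeparable F F'] [Infinite F]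
    (ℓ : ℕ) (hdeg : Module.finrank F F' = ℓ + 1)
    (ι : F →+* LaurentSeries R) (ρ w₀ : F' →+* LaurentSeries R)
    (hρ : ∀ f, ρ (algebraMap F F' f) = ι f) (hw₀ : ∀ f, w₀ (algebraMap F F' f) = ι f)
    (ζ : Rˣ) (hζ : IsPrimitiveRoot ζ ℓ) (hι : ∀ f, rot ζ (ι f) = ι f)
    (x₀ : F') (hx₀ : (ρ x₀).coeff (-1) ≠ 0) (hx₀' : (w₀ x₀).coeff (-1) = 0) (x : F') :
    ι (Algebra.norm F x) = w₀ x * kronProd ζ ℓ (ρ x) ∧
    ((Algebra.lmul F F' x).charpoly).map ι = (X - C (w₀ x)) * kronPoly ζ ℓ (ρ x) := by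
  classical
  letI : Algebra F (LaurentSeries R) := ι.toAlgebra
  have hιb : ∀ (b : ℕ) f, rot (ζ ^ b) (ι f) = ι f := by
    intro b f
    induction b with
    | zero => rw [pow_zero, rot_one]
    | succ b ih => rw [pow_succ, ← rot_rot, hι, ih]
  let embN : F' →ₐ[F] LaurentSeries R := { w₀ with commutes' := hw₀ }
  let embS : Fin ℓ → (F' →ₐ[F] LaurentSeries R) := fun b =>
    { (rot (ζ ^ (b : ℕ))).comp ρ with
      commutes' := fun f => by
        show rot (ζ ^ (b : ℕ)) (ρ (algebraMap F F' f)) = ι f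
        rw [hρ, hιb] }
  let emb : Option (Fin ℓ) → (F' →ₐ[F] LaurentSeries R) := fun o => o.elim embN embS
  have hnone : ∀ y, emb none y = w₀ y := fun y => rfl
  have hsome : ∀ (b : Fin ℓ) y, emb (some b) y = rot (ζ ^ (b : ℕ)) (ρ y) := fun b y => rfl
  have hne : ∀ b : Fin ℓ, emb none ≠ emb (some b) := by
    intro b h
    have h0 := congrArg (fun φ : F' →ₐ[F] LaurentSeries R => (φ x₀).coeff (-1)) h
    rw [hnone, hsome, hx₀', rot_coeff] at h0
    exact hx₀ ((Units.mul_right_eq_zero _).mp h0.symm)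
  have hinj : Function.Injective emb := by
    intro o o' h
    cases o with
    | none =>
      cases o' with
      | none => rfl
      | some b => exact absurd h (hne b)
    | some b =>
      cases o' with
      | none => exact absurd h.symm (hne b)
      | some b' =>
        have h0 := congrArg (fun φ : F' →ₐ[F] LaurentSeries R => (φ x₀).coeff (-1)) h
        rw [hsome, hsome, rot_coeff, rot_coeff] at h0
        have h1 := mul_right_cancel₀ hx₀ h0
        have h2 : (ζ ^ (b : ℕ)) ^ (-1 : ℤ) = (ζ ^ (b' : ℕ)) ^ (-1 : ℤ) := Units.ext h1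
        have h3 : ζ ^ (b : ℕ) = ζ ^ (b' : ℕ) := by
          rw [zpow_neg_one, zpow_neg_one] at h2
          exact inv_injective h2
        exact congrArg some (Fin.ext (hζ.pow_inj b.2 b'.2 h3))
  have hcard : Fintype.card (Option (Fin ℓ)) = Module.finrank F F' := by
    rw [Fintype.card_option, Fintype.card_fin, hdeg]
  constructor
  · have h := norm_eq_prod_of_embeddings emb hinj hcard x
    rw [Fintype.prod_option] at h
    simp only [hnone, hsome] at h
    rw [Fin.prod_univ_eq_prod_range (fun b => rot (ζ ^ b) (ρ x)) ℓ] at h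
    exact h
  · have h := charpoly_eq_prod_of_embeddings emb hinj hcard x
    rw [Fintype.prod_option] at h
    simp only [hnone, hsome] at h
    rw [Fin.prod_univ_eq_prod_range (fun b => X - C (rot (ζ ^ b) (ρ x))) ℓ] at h
    exact h

end Rot

/-! ## The modular case -/

section Modular

variable {N ℓ : ℕ} [NeZero N] [NeZero ℓ]

theorem qExpand_congr {R : Type*} [CommRing R] {a b : ℕ} [NeZero a] [NeZero b] (h : a = b)
    (f : LaurentSeries R) : qExpand R a f = qExpand R b f := by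
  subst h
  rfl

theorem qExpand_sq (f : LaurentSeries Kbar) :
    qExpand Kbar (ℓ ^ 2) f = qExpand Kbar ℓ (qExpand Kbar ℓ f) := by
  rw [qExpand_qExpand]
  exact qExpand_congr (sq ℓ) f

/-- `ℚ̄` contains a primitive `ℓ`-th root of unity (as a unit). -/
theorem exists_primitiveRoot_unit (ℓ : ℕ) [NeZero ℓ] : ∃ ζ : Kbarˣ, IsPrimitiveRoot ζ ℓ := by
  obtain ⟨z, hz⟩ := HasEnoughRootsOfUnity.exists_primitiveRoot Kbar ℓ
  exact ⟨(hz.isUnit (NeZero.ne ℓ)).unit, IsPrimitiveRoot.coe_units_iff.mp hz⟩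

theorem coeff_jBar_neg_one (M : ℕ) :
    ((jBar M : FN M) : LaurentSeries Kbar).coeff (-1) = 1 := by
  rw [coe_jBar, coeffEmb_coeff, coeff_jq_neg_one, map_one]

theorem not_natCast_dvd_neg_one {m : ℕ} (hm : 1 < m) : ¬ ((m : ℕ) : ℤ) ∣ (-1 : ℤ) := by
  intro h
  have h1 : m ∣ 1 := by
    have := Int.natCast_dvd.mp h
    simpa using this
  exact absurd (Nat.dvd_one.mp h1) (Nat.ne_of_gt hm)

/-- `F_{Nℓ}` is finite over `β(F_N)`. -/
theorem finiteAlong_beta (hℓ : ℓ.Prime) (hN : Nat.Coprime ℓ N) :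
    FiniteAlong Kbar (heckeBetaBar Kbar N ℓ) := by
  letI := algebraAlong (heckeBetaBar Kbar N ℓ)
  letI : Module (FN N) (FN (N * ℓ)) := Algebra.toModule
  have hdeg : Module.finrank (FN N) (FN (N * ℓ)) = ℓ + 1 := finrankAlong_beta hℓ hN
  show Module.Finite (FN N) (FN (N * ℓ))
  exact Module.finite_of_finrank_pos (by rw [hdeg]; exact Nat.succ_pos ℓ)

/-- `F_{Nℓ}` is finite over `α(F_N)`. -/
theorem finiteAlong_alpha (hℓ : ℓ.Prime) (hN : Nat.Coprime ℓ N) :
    FiniteAlong Kbar (heckeAlphaBar Kbar N ℓ) := by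
  letI := algebraAlong (heckeAlphaBar Kbar N ℓ)
  letI : Module (FN N) (FN (N * ℓ)) := Algebra.toModule
  have hdeg : Module.finrank (FN N) (FN (N * ℓ)) = ℓ + 1 := finrankAlong_alpha hℓ hN
  show Module.Finite (FN N) (FN (N * ℓ))
  exact Module.finite_of_finrank_pos (by rw [hdeg]; exact Nat.succ_pos ℓ)

omit [NeZero N] [NeZero ℓ] in
/-- `norm_charpoly_of_rot` at the function fields `F_N ⊂ F_{Nℓ}`, along any `φ` of degree
`ℓ + 1`. -/
theorem norm_charpoly_aux (φ : FN N →ₐ[Kbar] FN (N * ℓ)) (hfin : FiniteAlong Kbar φ)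
    (hdeg : finrankAlong Kbar φ = ℓ + 1)
    (ι : FN N →+* LaurentSeries Kbar) (ρ w₀ : FN (N * ℓ) →+* LaurentSeries Kbar)
    (hρ : ∀ f, ρ (φ f) = ι f) (hw₀ : ∀ f, w₀ (φ f) = ι f)
    (ζ : Kbarˣ) (hζ : IsPrimitiveRoot ζ ℓ) (hι : ∀ f, rot ζ (ι f) = ι f)
    (x₀ : FN (N * ℓ)) (hx₀ : (ρ x₀).coeff (-1) ≠ 0) (hx₀' : (w₀ x₀).coeff (-1) = 0)
    (x : FN (N * ℓ)) :
    letI := algebraAlong φ
    letI : Module (FN N) (FN (N * ℓ)) := Algebra.toModule
    haveI : Module.Finite (FN N) (FN (N * ℓ)) := hfin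
    haveI : Module.Free (FN N) (FN (N * ℓ)) := Module.Free.of_divisionRing _ _
    ι (Algebra.norm (FN N) x) = w₀ x * kronProd ζ ℓ (ρ x) ∧
    ((Algebra.lmul (FN N) (FN (N * ℓ)) x).charpoly).map ι
      = (X - C (w₀ x)) * kronPoly ζ ℓ (ρ x) := by
  letI := algebraAlong φ
  letI : Module (FN N) (FN (N * ℓ)) := Algebra.toModule
  haveI : Module.Finite (FN N) (FN (N * ℓ)) := hfin
  exact norm_charpoly_of_rot ℓ hdeg ι ρ w₀ hρ hw₀ ζ hζ hι x₀ hx₀ hx₀' x

/-! ### Over `β(F_N)` -/

/-- Norm and characteristic polynomial of `α h` over `β(F_N)`, in the variable `X = q^(1/ℓ)`: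
the conjugates are `h(X^(ℓ²))` and `h(ζ^b X)`, `b < ℓ`. -/
theorem norm_charpoly_beta_alpha_aux (hℓ : ℓ.Prime) (hN : Nat.Coprime ℓ N)
    (ζ : Kbarˣ) (hζ : IsPrimitiveRoot ζ ℓ) (h : FN N) :
    letI := algebraAlong (heckeBetaBar Kbar N ℓ)
    letI : Module (FN N) (FN (N * ℓ)) := Algebra.toModule
    haveI : Module.Finite (FN N) (FN (N * ℓ)) := finiteAlong_beta hℓ hN
    haveI : Module.Free (FN N) (FN (N * ℓ)) := Module.Free.of_divisionRing _ _
    qExpand Kbar ℓ ((Algebra.norm (FN N) (heckeAlphaBar Kbar N ℓ h) : FN N) : LaurentSeries Kbar)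
        = qExpand Kbar ℓ (qExpand Kbar ℓ (h : LaurentSeries Kbar))
          * kronProd ζ ℓ (h : LaurentSeries Kbar) ∧
    (((Algebra.lmul (FN N) (FN (N * ℓ)) (heckeAlphaBar Kbar N ℓ h)).charpoly).map
        (algebraMap (FN N) (LaurentSeries Kbar))).map (qExpand Kbar ℓ)
      = (X - C (qExpand Kbar ℓ (qExpand Kbar ℓ (h : LaurentSeries Kbar))))
          * kronPoly ζ ℓ (h : LaurentSeries Kbar) := by
  obtain ⟨w, hw⟩ := exists_swap hℓ hN
  have hρ : ∀ f : FN N, (algebraMap (FN (N * ℓ)) (LaurentSeries Kbar)) (heckeBetaBar Kbar N ℓ f)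
      = ((qExpand Kbar ℓ).comp (algebraMap (FN N) (LaurentSeries Kbar))) f := fun f => by
    rw [RingHom.comp_apply, IntermediateField.algebraMap_apply, IntermediateField.algebraMap_apply,
      coe_heckeBetaBar]
  have hw₀ : ∀ f : FN N, (w : FN (N * ℓ) →+* LaurentSeries Kbar) (heckeBetaBar Kbar N ℓ f)
      = ((qExpand Kbar ℓ).comp (algebraMap (FN N) (LaurentSeries Kbar))) f := fun f => by
    rw [RingHom.comp_apply, IntermediateField.algebraMap_apply, RingHom.coe_coe, swap_beta hℓ hw]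
  have hι : ∀ f : FN N, rot ζ (((qExpand Kbar ℓ).comp (algebraMap (FN N) (LaurentSeries Kbar))) f)
      = ((qExpand Kbar ℓ).comp (algebraMap (FN N) (LaurentSeries Kbar))) f := fun f => by
    rw [RingHom.comp_apply, rot_qExpand_of_pow_eq_one ℓ ζ hζ.pow_eq_one]
  have h1 : ((algebraMap (FN (N * ℓ)) (LaurentSeries Kbar)) (jBar (N * ℓ))).coeff (-1) ≠ 0 := by
    rw [IntermediateField.algebraMap_apply, coeff_jBar_neg_one]
    exact one_ne_zero
  have h2 : ((w : FN (N * ℓ) →+* LaurentSeries Kbar) (jBar (N * ℓ))).coeff (-1) = 0 := by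
    rw [RingHom.coe_coe, ← alpha_jBar, swap_alpha hℓ hN hw]
    exact qExpand_coeff_of_not_dvd _ _
      (not_natCast_dvd_neg_one (Nat.one_lt_pow (by norm_num) hℓ.one_lt))
  have key := norm_charpoly_aux (heckeBetaBar Kbar N ℓ) (finiteAlong_beta hℓ hN)
    (finrankAlong_beta hℓ hN) ((qExpand Kbar ℓ).comp (algebraMap (FN N) (LaurentSeries Kbar)))
    (algebraMap (FN (N * ℓ)) (LaurentSeries Kbar)) (w : FN (N * ℓ) →+* LaurentSeries Kbar)
    hρ hw₀ ζ hζ hι (jBar (N * ℓ)) h1 h2 (heckeAlphaBar Kbar N ℓ h)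
  rw [RingHom.comp_apply, IntermediateField.algebraMap_apply, IntermediateField.algebraMap_apply,
    RingHom.coe_coe, swap_alpha hℓ hN hw, coe_heckeAlphaBar, qExpand_sq, ← Polynomial.map_map] at key
  exact key

/-- **(F3, norm) over `β(F_N)`**: the q-expansion of `Norm_{F_{Nℓ}/β(F_N)}(α h)` is
`h(q^ℓ) * kronNorm ζ ℓ h`, i.e. the series `g` with `g(q^ℓ) = h(q^(ℓ²)) * ∏_{b<ℓ} h(ζ^b q)`. -/
theorem norm_beta_alpha (hℓ : ℓ.Prime) (hN : Nat.Coprime ℓ N)
    (ζ : Kbarˣ) (hζ : IsPrimitiveRoot ζ ℓ) (h : FN N) :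
    letI := algebraAlong (heckeBetaBar Kbar N ℓ)
    ((Algebra.norm (FN N) (heckeAlphaBar Kbar N ℓ h) : FN N) : LaurentSeries Kbar)
      = qExpand Kbar ℓ (h : LaurentSeries Kbar) * kronNorm ζ ℓ (h : LaurentSeries Kbar) := by
  have key := (norm_charpoly_beta_alpha_aux hℓ hN ζ hζ h).1
  exact qExpand_injective ℓ (key.trans (qExpand_qExpand_mul_kronNorm ζ ℓ hζ.pow_eq_one
    (hreg_of_isPrimitiveRoot ℓ ζ hζ) _).symm)

/-- **(F3, characteristic polynomial) over `β(F_N)`**: the characteristic polynomial of `α h`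
on `F_{Nℓ}` over `β(F_N)`, read on q-expansions, is the Hecke polynomial of `h`. -/
theorem charpoly_beta_alpha (hℓ : ℓ.Prime) (hN : Nat.Coprime ℓ N)
    (ζ : Kbarˣ) (hζ : IsPrimitiveRoot ζ ℓ) (h : FN N) :
    letI := algebraAlong (heckeBetaBar Kbar N ℓ)
    letI : Module (FN N) (FN (N * ℓ)) := Algebra.toModule
    haveI : Module.Finite (FN N) (FN (N * ℓ)) := finiteAlong_beta hℓ hN
    haveI : Module.Free (FN N) (FN (N * ℓ)) := Module.Free.of_divisionRing _ _
    ((Algebra.lmul (FN N) (FN (N * ℓ)) (heckeAlphaBar Kbar N ℓ h)).charpoly).map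
        (algebraMap (FN N) (LaurentSeries Kbar))
      = heckePoly ζ ℓ (h : LaurentSeries Kbar) := by
  have key := (norm_charpoly_beta_alpha_aux hℓ hN ζ hζ h).2
  exact Polynomial.map_injective (qExpand Kbar ℓ) (qExpand_injective ℓ)
    (key.trans (map_qExpand_heckePoly ζ ℓ hζ.pow_eq_one (hreg_of_isPrimitiveRoot ℓ ζ hζ) _).symm)

/-! ### Over `α(F_N)` -/

/-- Norm and characteristic polynomial of `β u` over `α(F_N)`, in the variable `X = q^(1/ℓ)`:
the conjugates are `u(X^(ℓ²))` and `u(ζ^b X)`, `b < ℓ`. -/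
theorem norm_charpoly_alpha_beta_aux (hℓ : ℓ.Prime) (hN : Nat.Coprime ℓ N)
    (ζ : Kbarˣ) (hζ : IsPrimitiveRoot ζ ℓ) (u : FN N) :
    letI := algebraAlong (heckeAlphaBar Kbar N ℓ)
    letI : Module (FN N) (FN (N * ℓ)) := Algebra.toModule
    haveI : Module.Finite (FN N) (FN (N * ℓ)) := finiteAlong_alpha hℓ hN
    haveI : Module.Free (FN N) (FN (N * ℓ)) := Module.Free.of_divisionRing _ _
    qExpand Kbar ℓ ((Algebra.norm (FN N) (heckeBetaBar Kbar N ℓ u) : FN N) : LaurentSeries Kbar)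
        = qExpand Kbar ℓ (qExpand Kbar ℓ (u : LaurentSeries Kbar))
          * kronProd ζ ℓ (u : LaurentSeries Kbar) ∧
    (((Algebra.lmul (FN N) (FN (N * ℓ)) (heckeBetaBar Kbar N ℓ u)).charpoly).map
        (algebraMap (FN N) (LaurentSeries Kbar))).map (qExpand Kbar ℓ)
      = (X - C (qExpand Kbar ℓ (qExpand Kbar ℓ (u : LaurentSeries Kbar))))
          * kronPoly ζ ℓ (u : LaurentSeries Kbar) := by
  obtain ⟨w', hw'⟩ := exists_involution hℓ hN
  have hαβ : ∀ f : FN N, w' (heckeAlphaBar Kbar N ℓ f) = heckeBetaBar Kbar N ℓ f := fun f =>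
    congrArg (fun φ : FN N →ₐ[Kbar] FN (N * ℓ) => φ f) (involution_comp_alpha hℓ hN hw')
  have hself : ∀ y : FN (N * ℓ), w' (w' y) = y := fun y =>
    congrArg (fun φ : FN (N * ℓ) →ₐ[Kbar] FN (N * ℓ) => φ y) (involution_comp_self hℓ hN hw')
  have hβα : ∀ f : FN N, w' (heckeBetaBar Kbar N ℓ f) = heckeAlphaBar Kbar N ℓ f := fun f => by
    rw [← hαβ, hself]
  have hρ : ∀ f : FN N, ((algebraMap (FN (N * ℓ)) (LaurentSeries Kbar)).comp
        (w' : FN (N * ℓ) →+* FN (N * ℓ))) (heckeAlphaBar Kbar N ℓ f)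
      = ((qExpand Kbar ℓ).comp (algebraMap (FN N) (LaurentSeries Kbar))) f := fun f => by
    rw [RingHom.comp_apply, RingHom.comp_apply, IntermediateField.algebraMap_apply,
      IntermediateField.algebraMap_apply, RingHom.coe_coe, hαβ, coe_heckeBetaBar]
  have hw₀ : ∀ f : FN N, ((qExpand Kbar ℓ).comp (algebraMap (FN (N * ℓ)) (LaurentSeries Kbar)))
        (heckeAlphaBar Kbar N ℓ f)
      = ((qExpand Kbar ℓ).comp (algebraMap (FN N) (LaurentSeries Kbar))) f := fun f => by
    rw [RingHom.comp_apply, RingHom.comp_apply, IntermediateField.algebraMap_apply,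
      IntermediateField.algebraMap_apply, coe_heckeAlphaBar]
  have hι : ∀ f : FN N, rot ζ (((qExpand Kbar ℓ).comp (algebraMap (FN N) (LaurentSeries Kbar))) f)
      = ((qExpand Kbar ℓ).comp (algebraMap (FN N) (LaurentSeries Kbar))) f := fun f => by
    rw [RingHom.comp_apply, rot_qExpand_of_pow_eq_one ℓ ζ hζ.pow_eq_one]
  have h1 : (((algebraMap (FN (N * ℓ)) (LaurentSeries Kbar)).comp
      (w' : FN (N * ℓ) →+* FN (N * ℓ))) (heckeBetaBar Kbar N ℓ (jBar N))).coeff (-1) ≠ 0 := by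
    rw [RingHom.comp_apply, IntermediateField.algebraMap_apply, RingHom.coe_coe, hβα, alpha_jBar,
      coeff_jBar_neg_one]
    exact one_ne_zero
  have h2 : (((qExpand Kbar ℓ).comp (algebraMap (FN (N * ℓ)) (LaurentSeries Kbar)))
      (heckeBetaBar Kbar N ℓ (jBar N))).coeff (-1) = 0 := by
    rw [RingHom.comp_apply]
    exact qExpand_coeff_of_not_dvd _ _ (not_natCast_dvd_neg_one hℓ.one_lt)
  have key := norm_charpoly_aux (heckeAlphaBar Kbar N ℓ) (finiteAlong_alpha hℓ hN)
    (finrankAlong_alpha hℓ hN) ((qExpand Kbar ℓ).comp (algebraMap (FN N) (LaurentSeries Kbar)))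
    ((algebraMap (FN (N * ℓ)) (LaurentSeries Kbar)).comp (w' : FN (N * ℓ) →+* FN (N * ℓ)))
    ((qExpand Kbar ℓ).comp (algebraMap (FN (N * ℓ)) (LaurentSeries Kbar)))
    hρ hw₀ ζ hζ hι (heckeBetaBar Kbar N ℓ (jBar N)) h1 h2 (heckeBetaBar Kbar N ℓ u)
  rw [RingHom.comp_apply, RingHom.comp_apply, RingHom.comp_apply,
    IntermediateField.algebraMap_apply, IntermediateField.algebraMap_apply,
    IntermediateField.algebraMap_apply, RingHom.coe_coe, hβα, coe_heckeAlphaBar, coe_heckeBetaBar,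
    ← Polynomial.map_map] at key
  exact key

/-- **(F3, norm) over `α(F_N)`**: the q-expansion of `Norm_{F_{Nℓ}/α(F_N)}(β u)` is
`u(q^ℓ) * kronNorm ζ ℓ u`, i.e. the series `g` with `g(q^ℓ) = u(q^(ℓ²)) * ∏_{b<ℓ} u(ζ^b q)`. -/
theorem norm_alpha_beta (hℓ : ℓ.Prime) (hN : Nat.Coprime ℓ N)
    (ζ : Kbarˣ) (hζ : IsPrimitiveRoot ζ ℓ) (u : FN N) :
    letI := algebraAlong (heckeAlphaBar Kbar N ℓ)
    ((Algebra.norm (FN N) (heckeBetaBar Kbar N ℓ u) : FN N) : LaurentSeries Kbar)
      = qExpand Kbar ℓ (u : LaurentSeries Kbar) * kronNorm ζ ℓ (u : LaurentSeries Kbar) := by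
  have key := (norm_charpoly_alpha_beta_aux hℓ hN ζ hζ u).1
  exact qExpand_injective ℓ (key.trans (qExpand_qExpand_mul_kronNorm ζ ℓ hζ.pow_eq_one
    (hreg_of_isPrimitiveRoot ℓ ζ hζ) _).symm)

/-- **(F3, characteristic polynomial) over `α(F_N)`**: the characteristic polynomial of `β u`
on `F_{Nℓ}` over `α(F_N)`, read on q-expansions, is the Hecke polynomial of `u`. -/
theorem charpoly_alpha_beta (hℓ : ℓ.Prime) (hN : Nat.Coprime ℓ N)
    (ζ : Kbarˣ) (hζ : IsPrimitiveRoot ζ ℓ) (u : FN N) :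
    letI := algebraAlong (heckeAlphaBar Kbar N ℓ)
    letI : Module (FN N) (FN (N * ℓ)) := Algebra.toModule
    haveI : Module.Finite (FN N) (FN (N * ℓ)) := finiteAlong_alpha hℓ hN
    haveI : Module.Free (FN N) (FN (N * ℓ)) := Module.Free.of_divisionRing _ _
    ((Algebra.lmul (FN N) (FN (N * ℓ)) (heckeBetaBar Kbar N ℓ u)).charpoly).map
        (algebraMap (FN N) (LaurentSeries Kbar))
      = heckePoly ζ ℓ (u : LaurentSeries Kbar) := by
  have key := (norm_charpoly_alpha_beta_aux hℓ hN ζ hζ u).2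
  exact Polynomial.map_injective (qExpand Kbar ℓ) (qExpand_injective ℓ)
    (key.trans (map_qExpand_heckePoly ζ ℓ hζ.pow_eq_one (hreg_of_isPrimitiveRoot ℓ ζ hζ) _).symm)

/-- The two norms agree: `Norm_α(β u) = Norm_β(α u)`. -/
theorem norm_alpha_beta_eq_norm_beta_alpha (hℓ : ℓ.Prime) (hN : Nat.Coprime ℓ N) (u : FN N) :
    (letI := algebraAlong (heckeAlphaBar Kbar N ℓ)
     (Algebra.norm (FN N) (heckeBetaBar Kbar N ℓ u) : FN N))
      = (letI := algebraAlong (heckeBetaBar Kbar N ℓ)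
         (Algebra.norm (FN N) (heckeAlphaBar Kbar N ℓ u) : FN N)) := by
  obtain ⟨ζ, hζ⟩ := exists_primitiveRoot_unit ℓ
  exact Subtype.ext ((norm_alpha_beta hℓ hN ζ hζ u).trans (norm_beta_alpha hℓ hN ζ hζ u).symm)

/-! ### Integral forms over a valuation subring of `ℚ̄` with residue characteristic `ℓ` -/

section Integral

variable (O : ValuationSubring Kbar) [ExpChar (IsLocalRing.ResidueField O) ℓ]

omit [NeZero N] in
/-- Series level: for `y ∈ O((q))` the series `y(q^ℓ) * kronNorm ζ ℓ y` has coefficients in `O`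
and reduces to `ȳ(q^ℓ) * Fr ȳ`. -/
theorem exists_integral_kronNorm (ζ : Kbarˣ) (hζ : IsPrimitiveRoot ζ ℓ) (y : LaurentSeries O) :
    ∃ y₁ : LaurentSeries O,
      coeffMap O.subtype y₁
        = qExpand Kbar ℓ (coeffMap O.subtype y) * kronNorm ζ ℓ (coeffMap O.subtype y) ∧
      coeffMap (IsLocalRing.residue O) y₁
        = qExpand (IsLocalRing.ResidueField O) ℓ (coeffMap (IsLocalRing.residue O) y)
          * coeffMap (frobenius (IsLocalRing.ResidueField O) ℓ)
              (coeffMap (IsLocalRing.residue O) y) := by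
  obtain ⟨u, hu⟩ := exists_unit_of_pow_eq_one O ζ ℓ (NeZero.ne ℓ) hζ.pow_eq_one
  have hu' : Units.map ((O.subtype : O →+* Kbar) : O →* Kbar) u = ζ := hu
  have hζ' : IsPrimitiveRoot (Units.map ((O.subtype : O →+* Kbar) : O →* Kbar) u) ℓ := by
    rw [hu']; exact hζ
  obtain ⟨h1, -, h3⟩ := kronecker_integral_norm (O.subtype : O →+* Kbar)
    Subtype.val_injective (IsLocalRing.residue O) ℓ u hζ' y
  rw [hu'] at h1
  exact ⟨qExpand O ℓ y * kronNorm u ℓ y, h1, h3⟩

/-- **(F4, norm) over `β(F_N)`**: if `h` has q-expansion coefficients in `O` (`h = y`), so has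
`Norm_{F_{Nℓ}/β(F_N)}(α h)`, and it reduces to `ȳ(q^ℓ) * Fr ȳ` (`= Fr(ȳ) * (Fr⁻¹ ȳ)^ℓ`). -/
theorem norm_beta_alpha_integral (hℓ : ℓ.Prime) (hN : Nat.Coprime ℓ N) (h : FN N)
    (y : LaurentSeries O) (hy : coeffMap O.subtype y = (h : LaurentSeries Kbar)) :
    letI := algebraAlong (heckeBetaBar Kbar N ℓ)
    ∃ y₁ : LaurentSeries O,
      coeffMap O.subtype y₁
        = ((Algebra.norm (FN N) (heckeAlphaBar Kbar N ℓ h) : FN N) : LaurentSeries Kbar) ∧
      coeffMap (IsLocalRing.residue O) y₁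
        = qExpand (IsLocalRing.ResidueField O) ℓ (coeffMap (IsLocalRing.residue O) y)
          * coeffMap (frobenius (IsLocalRing.ResidueField O) ℓ)
              (coeffMap (IsLocalRing.residue O) y) := by
  obtain ⟨ζ, hζ⟩ := exists_primitiveRoot_unit ℓ
  obtain ⟨y₁, h1, h2⟩ := exists_integral_kronNorm O ζ hζ y
  refine ⟨y₁, ?_, h2⟩
  rw [h1, hy]
  exact (norm_beta_alpha hℓ hN ζ hζ h).symm

/-- **(F4, norm) over `α(F_N)`**: the same for `Norm_{F_{Nℓ}/α(F_N)}(β u)`. -/
theorem norm_alpha_beta_integral (hℓ : ℓ.Prime) (hN : Nat.Coprime ℓ N) (u : FN N)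
    (y : LaurentSeries O) (hy : coeffMap O.subtype y = (u : LaurentSeries Kbar)) :
    letI := algebraAlong (heckeAlphaBar Kbar N ℓ)
    ∃ y₁ : LaurentSeries O,
      coeffMap O.subtype y₁
        = ((Algebra.norm (FN N) (heckeBetaBar Kbar N ℓ u) : FN N) : LaurentSeries Kbar) ∧
      coeffMap (IsLocalRing.residue O) y₁
        = qExpand (IsLocalRing.ResidueField O) ℓ (coeffMap (IsLocalRing.residue O) y)
          * coeffMap (frobenius (IsLocalRing.ResidueField O) ℓ)
              (coeffMap (IsLocalRing.residue O) y) := by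
  obtain ⟨ζ, hζ⟩ := exists_primitiveRoot_unit ℓ
  obtain ⟨y₁, h1, h2⟩ := exists_integral_kronNorm O ζ hζ y
  refine ⟨y₁, ?_, h2⟩
  rw [h1, hy]
  exact (norm_alpha_beta hℓ hN ζ hζ u).symm

/-- **(F4, characteristic polynomial) over `β(F_N)`** = Kronecker's congruence: if `h` has
q-expansion coefficients in `O` (`h = y`), the characteristic polynomial of `α h` over `β(F_N)`
has coefficients with q-expansions in `O((q))`, and it reduces to
`(T - ȳ(q^ℓ)) * (T^ℓ - Fr ȳ)`. -/
theorem charpoly_beta_alpha_integral (hℓ : ℓ.Prime) (hN : Nat.Coprime ℓ N) (h : FN N)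
    (y : LaurentSeries O) (hy : coeffMap O.subtype y = (h : LaurentSeries Kbar)) :
    letI := algebraAlong (heckeBetaBar Kbar N ℓ)
    letI : Module (FN N) (FN (N * ℓ)) := Algebra.toModule
    haveI : Module.Finite (FN N) (FN (N * ℓ)) := finiteAlong_beta hℓ hN
    haveI : Module.Free (FN N) (FN (N * ℓ)) := Module.Free.of_divisionRing _ _
    ∃ P : Polynomial (LaurentSeries O), P.Monic ∧
      P.map (coeffMap O.subtype)
        = ((Algebra.lmul (FN N) (FN (N * ℓ)) (heckeAlphaBar Kbar N ℓ h)).charpoly).map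
            (algebraMap (FN N) (LaurentSeries Kbar)) ∧
      P.map (coeffMap (IsLocalRing.residue O))
        = (X - C (qExpand (IsLocalRing.ResidueField O) ℓ (coeffMap (IsLocalRing.residue O) y)))
          * (X ^ ℓ - C (coeffMap (frobenius (IsLocalRing.ResidueField O) ℓ)
              (coeffMap (IsLocalRing.residue O) y))) := by
  obtain ⟨ζ, hζ⟩ := exists_primitiveRoot_unit ℓ
  obtain ⟨P, hP1, hP2, -, hP4⟩ := kronecker_valuationSubring O ℓ ζ hζ y
  refine ⟨P, hP1, ?_, hP4⟩
  rw [hP2, hy]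
  exact (charpoly_beta_alpha hℓ hN ζ hζ h).symm

/-- **(F4, characteristic polynomial) over `α(F_N)`**: the same for `β u` over `α(F_N)`. -/
theorem charpoly_alpha_beta_integral (hℓ : ℓ.Prime) (hN : Nat.Coprime ℓ N) (u : FN N)
    (y : LaurentSeries O) (hy : coeffMap O.subtype y = (u : LaurentSeries Kbar)) :
    letI := algebraAlong (heckeAlphaBar Kbar N ℓ)
    letI : Module (FN N) (FN (N * ℓ)) := Algebra.toModule
    haveI : Module.Finite (FN N) (FN (N * ℓ)) := finiteAlong_alpha hℓ hN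
    haveI : Module.Free (FN N) (FN (N * ℓ)) := Module.Free.of_divisionRing _ _
    ∃ P : Polynomial (LaurentSeries O), P.Monic ∧
      P.map (coeffMap O.subtype)
        = ((Algebra.lmul (FN N) (FN (N * ℓ)) (heckeBetaBar Kbar N ℓ u)).charpoly).map
            (algebraMap (FN N) (LaurentSeries Kbar)) ∧
      P.map (coeffMap (IsLocalRing.residue O))
        = (X - C (qExpand (IsLocalRing.ResidueField O) ℓ (coeffMap (IsLocalRing.residue O) y)))
          * (X ^ ℓ - C (coeffMap (frobenius (IsLocalRing.ResidueField O) ℓ)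
              (coeffMap (IsLocalRing.residue O) y))) := by
  obtain ⟨ζ, hζ⟩ := exists_primitiveRoot_unit ℓ
  obtain ⟨P, hP1, hP2, -, hP4⟩ := kronecker_valuationSubring O ℓ ζ hζ y
  refine ⟨P, hP1, ?_, hP4⟩
  rw [hP2, hy]
  exact (charpoly_alpha_beta hℓ hN ζ hζ u).symm

end Integral

end Modular

end Fermat.Agent.S37.helper137
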