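import Mathlib
import Fermat.Prelude.Def_ModularCurve_ArithmeticGalois
import Fermat.Prelude.Def_FLTPrelim_Ramification
import Fermat.Prelude.Def_EllipticCurve_FrobeniusTrace

/-!
# Point-level specialisation versus Galois (helper2025, S37-GALPT)

Spec-independent brick for S37 (and S18/S29-type rows).

* `HasValueAt v f a` : the function `f` takes the value `a` at the place `v`.
* semilinear equivariance of values, rational functions are Galois-fixed,
* inertia / Frobenius act on values as expected modulo the maximal ideal of `A`,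
* `relSubgroup r` : the subgroup of `Pic0` generated by the classes `[v] - [w]`, `r v w`,
  and the statement `g • x - x ∈ relSubgroup r` as soon as `r (g • v) v` for all `v`.
-/

set_option autoImplicit false

noncomputable section

open AlgebraicCurve ModularCurve

namespace Fermat.Agent.S37.helper2025

section ValSub

variable {F : Type*} [Field F]

/-- elementary description of the maximal ideal of a valuation subring. -/
theorem valuation_lt_one_iff_inv_not_mem (A : ValuationSubring F) (x : F) :
    A.valuation x < 1 ↔ (x = 0 ∨ x⁻¹ ∉ A) := by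
  rw [← ValuationSubring.mem_nonunits_iff, ValuationSubring.mem_nonunits_iff_or]

end ValSub

section Value

variable {K F : Type*} [Field K] [Field F] [Algebra K F]

/-- The function `f` takes the value `a` at the place `v`: `f - a` lies in the maximal ideal
of the valuation ring of `v`.  (Relational form: no identification of the residue field with `K`
is needed to state it.) -/
def HasValueAt (v : Place K F) (f : F) (a : K) : Prop :=
  v.toValuationSubring.valuation (f - algebraMap K F a) < 1

theorem hasValueAt_iff_mem_nonunits {v : Place K F} {f : F} {a : K} :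
    HasValueAt v f a ↔ f - algebraMap K F a ∈ v.toValuationSubring.nonunits :=
  (ValuationSubring.mem_nonunits_iff _).symm

theorem HasValueAt.mem {v : Place K F} {f : F} {a : K} (h : HasValueAt v f a) :
    f ∈ v.toValuationSubring := by
  have h1 : f - algebraMap K F a ∈ v.toValuationSubring :=
    (v.toValuationSubring.valuation_le_one_iff _).mp (le_of_lt h)
  have h2 := v.toValuationSubring.add_mem _ _ h1 (v.algebraMap_mem' a)
  simpa using h2

/-- residue-field form of `HasValueAt`. -/
theorem hasValueAt_iff_residue {v : Place K F} {f : F} {a : K} :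
    HasValueAt v f a ↔ ∃ hf : f ∈ v.toValuationSubring,
      IsLocalRing.residue v.toValuationSubring ⟨f, hf⟩ = algebraMap K v.ResidueField a := by
  have key : ∀ hf : f ∈ v.toValuationSubring,
      (IsLocalRing.residue v.toValuationSubring ⟨f, hf⟩ = algebraMap K v.ResidueField a ↔
        v.toValuationSubring.valuation (f - algebraMap K F a) < 1) := by
    intro hf
    have h0 : algebraMap K v.ResidueField a
        = IsLocalRing.residue v.toValuationSubring (algebraMap K v.toValuationSubring a) := rfl
    rw [h0, ← sub_eq_zero, ← map_sub, IsLocalRing.residue_eq_zero_iff,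
      ValuationSubring.valuation_lt_one_iff]
    rfl
  constructor
  · intro h
    exact ⟨h.mem, (key h.mem).mpr h⟩
  · rintro ⟨hf, h⟩
    exact (key hf).mp h

theorem hasValueAt_algebraMap (v : Place K F) (a : K) : HasValueAt v (algebraMap K F a) a := by
  simp [HasValueAt]

theorem hasValueAt_zero (v : Place K F) : HasValueAt v (0 : F) (0 : K) := by
  simp [HasValueAt]

theorem hasValueAt_one (v : Place K F) : HasValueAt v (1 : F) (1 : K) := by
  simp [HasValueAt]

theorem HasValueAt.add {v : Place K F} {f g : F} {a b : K} (hf : HasValueAt v f a)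
    (hg : HasValueAt v g b) : HasValueAt v (f + g) (a + b) := by
  rw [hasValueAt_iff_residue] at hf hg ⊢
  obtain ⟨hf, hfa⟩ := hf
  obtain ⟨hg, hgb⟩ := hg
  refine ⟨v.toValuationSubring.add_mem _ _ hf hg, ?_⟩
  rw [map_add, ← hfa, ← hgb, ← map_add]
  rfl

theorem HasValueAt.mul {v : Place K F} {f g : F} {a b : K} (hf : HasValueAt v f a)
    (hg : HasValueAt v g b) : HasValueAt v (f * g) (a * b) := by
  rw [hasValueAt_iff_residue] at hf hg ⊢
  obtain ⟨hf, hfa⟩ := hf
  obtain ⟨hg, hgb⟩ := hg
  refine ⟨v.toValuationSubring.mul_mem _ _ hf hg, ?_⟩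
  rw [map_mul, ← hfa, ← hgb, ← map_mul]
  rfl

theorem HasValueAt.neg {v : Place K F} {f : F} {a : K} (hf : HasValueAt v f a) :
    HasValueAt v (-f) (-a) := by
  unfold HasValueAt at *
  have h : -f - algebraMap K F (-a) = -(f - algebraMap K F a) := by
    rw [map_neg]; ring
  rw [h, Valuation.map_neg]
  exact hf

theorem HasValueAt.sub {v : Place K F} {f g : F} {a b : K} (hf : HasValueAt v f a)
    (hg : HasValueAt v g b) : HasValueAt v (f - g) (a - b) := by
  rw [sub_eq_add_neg, sub_eq_add_neg]
  exact hf.add hg.neg

theorem HasValueAt.pow {v : Place K F} {f : F} {a : K} (hf : HasValueAt v f a) (n : ℕ) :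
    HasValueAt v (f ^ n) (a ^ n) := by
  induction n with
  | zero => simpa using hasValueAt_one v
  | succ n ih => rw [pow_succ, pow_succ]; exact ih.mul hf

/-- the value of a function at a place is unique. -/
theorem HasValueAt.unique {v : Place K F} {f : F} {a b : K} (ha : HasValueAt v f a)
    (hb : HasValueAt v f b) : a = b := by
  rw [hasValueAt_iff_residue] at ha hb
  obtain ⟨hf, hfa⟩ := ha
  obtain ⟨_, hfb⟩ := hb
  exact (algebraMap K v.ResidueField).injective (hfa.symm.trans hfb)

/-- a function with nonzero value at `v` is a unit at `v`, and its inverse has the inverse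
value. -/
theorem HasValueAt.inv {v : Place K F} {f : F} {a : K} (hf : HasValueAt v f a) (ha : a ≠ 0) :
    HasValueAt v f⁻¹ a⁻¹ := by
  have hf0 : f ≠ 0 := by
    rintro rfl
    exact ha (hf.unique (hasValueAt_zero v))
  have haF : algebraMap K F a ≠ 0 := by
    simpa using ha
  -- `a` is a unit of the valuation ring
  have hval_a : v.toValuationSubring.valuation (algebraMap K F a) = 1 := by
    apply le_antisymm ((v.toValuationSubring.valuation_le_one_iff _).mpr (v.algebraMap_mem' a))
    have h1 : v.toValuationSubring.valuation (algebraMap K F a)⁻¹ ≤ 1 := by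
      rw [← map_inv₀]
      exact (v.toValuationSubring.valuation_le_one_iff _).mpr (v.algebraMap_mem' a⁻¹)
    rw [map_inv₀] at h1
    exact (inv_le_one₀ (zero_lt_iff.mpr ((Valuation.ne_zero_iff _).mpr haF))).mp h1
  -- hence so is `f`
  have hval_f : v.toValuationSubring.valuation f = 1 := by
    have h2 : f = algebraMap K F a + (f - algebraMap K F a) := by ring
    rw [h2, Valuation.map_add_eq_of_lt_left]
    · exact hval_a
    · rw [hval_a]; exact hf
  unfold HasValueAt at *
  have h3 : f⁻¹ - algebraMap K F a⁻¹ = -(f - algebraMap K F a) * (f⁻¹ * (algebraMap K F a)⁻¹) := by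
    rw [map_inv₀]
    field_simp
    ring
  rw [h3, map_mul, Valuation.map_neg, map_mul, map_inv₀, map_inv₀, hval_f, hval_a]
  simpa using hf

/-- existence of values when the residue field of `v` is `K` (e.g. `K` algebraically closed and
`F` a function field in one variable over `K`). -/
theorem exists_hasValueAt {v : Place K F}
    (hv : Function.Surjective (algebraMap K v.ResidueField)) {f : F}
    (hf : f ∈ v.toValuationSubring) : ∃ a : K, HasValueAt v f a := by
  obtain ⟨a, ha⟩ := hv (IsLocalRing.residue v.toValuationSubring ⟨f, hf⟩)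
  exact ⟨a, hasValueAt_iff_residue.mpr ⟨hf, ha.symm⟩⟩

/-- a function outside the valuation ring of `v` has a pole at `v`: its inverse has value `0`. -/
theorem hasValueAt_inv_zero_of_not_mem {v : Place K F} {f : F}
    (hf : f ∉ v.toValuationSubring) : HasValueAt v f⁻¹ 0 := by
  unfold HasValueAt
  rw [map_zero, sub_zero, valuation_lt_one_iff_inv_not_mem]
  right
  simpa using hf

end Value

section Semilinear

open scoped Pointwise

variable {K F : Type*} [Field K] [Field F] [Algebra K F]

/-- the maximal ideal of the translate `g • A` of a valuation subring. -/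
theorem valuation_smul_lt_one_iff {G : Type*} [Group G] [MulSemiringAction G F] (g : G)
    (A : ValuationSubring F) (x : F) :
    (g • A).valuation (g • x) < 1 ↔ A.valuation x < 1 := by
  rw [valuation_lt_one_iff_inv_not_mem, valuation_lt_one_iff_inv_not_mem, ← smul_inv'',
    ValuationSubring.mem_pointwise_smul_iff_inv_smul_mem, inv_smul_smul, smul_eq_zero_iff_eq]

/-- (G1) SEMILINEAR EQUIVARIANCE OF VALUES: the value of `g • f` at `g • v` is the image of the
value of `f` at `v` under the base automorphism of `g`. -/
theorem hasValueAt_smul_iff (g : SemilinearAut K F) (v : Place K F) (f : F) (a : K) :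
    HasValueAt (g • v) (g • f) (SemilinearAut.baseAut g a) ↔ HasValueAt v f a := by
  unfold HasValueAt
  rw [SemilinearAut.smul_toValuationSubring, ← SemilinearAut.smul_algebraMap, ← smul_sub,
    valuation_smul_lt_one_iff]

theorem HasValueAt.smul {v : Place K F} {f : F} {a : K} (h : HasValueAt v f a)
    (g : SemilinearAut K F) : HasValueAt (g • v) (g • f) (SemilinearAut.baseAut g a) :=
  (hasValueAt_smul_iff g v f a).mpr h

/-- membership in the valuation ring of a translated place. -/
theorem mem_smul_place_iff (g : SemilinearAut K F) (v : Place K F) (f : F) :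
    g • f ∈ (g • v).toValuationSubring ↔ f ∈ v.toValuationSubring := by
  rw [SemilinearAut.smul_toValuationSubring,
    ValuationSubring.mem_pointwise_smul_iff_inv_smul_mem, inv_smul_smul]

end Semilinear

section Arithmetic

variable {L : Type*} [Field L] [Algebra ℚ L]
variable (F₀ : IntermediateField ℚ (LaurentSeries ℚ))

/-- an element of `laurentBaseChange L F₀` with rational coefficients. -/
def IsRational (f : laurentBaseChange L F₀) : Prop :=
  ∃ x : LaurentSeries ℚ, coeffEmb L x = (f : LaurentSeries L)

variable {F₀}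

theorem isRational_of_mem {x : LaurentSeries ℚ} (hx : x ∈ F₀) :
    IsRational F₀ (⟨coeffEmb L x, coeffEmb_mem_laurentBaseChange L hx⟩ :
      laurentBaseChange L F₀) :=
  ⟨x, rfl⟩

theorem IsRational.add {f g : laurentBaseChange L F₀} (hf : IsRational F₀ f)
    (hg : IsRational F₀ g) : IsRational F₀ (f + g) := by
  obtain ⟨x, hx⟩ := hf
  obtain ⟨y, hy⟩ := hg
  exact ⟨x + y, by rw [map_add, hx, hy]; rfl⟩

theorem IsRational.mul {f g : laurentBaseChange L F₀} (hf : IsRational F₀ f)
    (hg : IsRational F₀ g) : IsRational F₀ (f * g) := by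
  obtain ⟨x, hx⟩ := hf
  obtain ⟨y, hy⟩ := hg
  exact ⟨x * y, by rw [map_mul, hx, hy]; rfl⟩

theorem IsRational.neg {f : laurentBaseChange L F₀} (hf : IsRational F₀ f) :
    IsRational F₀ (-f) := by
  obtain ⟨x, hx⟩ := hf
  exact ⟨-x, by rw [map_neg, hx]; rfl⟩

theorem IsRational.inv {f : laurentBaseChange L F₀} (hf : IsRational F₀ f) :
    IsRational F₀ f⁻¹ := by
  obtain ⟨x, hx⟩ := hf
  exact ⟨x⁻¹, by rw [map_inv₀, hx]; rfl⟩

theorem isRational_one : IsRational F₀ (1 : laurentBaseChange L F₀) :=
  ⟨1, by rw [map_one]; rfl⟩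

theorem isRational_zero : IsRational F₀ (0 : laurentBaseChange L F₀) :=
  ⟨0, by rw [map_zero]; rfl⟩

/-- (G2) functions with rational coefficients are fixed by the arithmetic Galois action. -/
theorem arithmeticGalois_smul_eq_self (σ : L ≃ₐ[ℚ] L) {f : laurentBaseChange L F₀}
    (hf : IsRational F₀ f) : arithmeticGalois F₀ σ • f = f := by
  obtain ⟨x, hx⟩ := hf
  apply Subtype.ext
  rw [coe_arithmeticGalois_smul, ← hx, coeffMap_coeffEmb]

/-- (G2) the value of a rational function at the conjugate place is the conjugate value. -/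
theorem hasValueAt_galois_iff (σ : L ≃ₐ[ℚ] L) (v : Place L (laurentBaseChange L F₀))
    {f : laurentBaseChange L F₀} (hf : IsRational F₀ f) (a : L) :
    HasValueAt (arithmeticGalois F₀ σ • v) f (σ a) ↔ HasValueAt v f a := by
  have h := hasValueAt_smul_iff (arithmeticGalois F₀ σ) v f a
  rw [arithmeticGalois_smul_eq_self σ hf] at h
  exact h

theorem HasValueAt.galois {v : Place L (laurentBaseChange L F₀)} {f : laurentBaseChange L F₀}
    {a : L} (h : HasValueAt v f a) (hf : IsRational F₀ f) (σ : L ≃ₐ[ℚ] L) :
    HasValueAt (arithmeticGalois F₀ σ • v) f (σ a) :=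
  (hasValueAt_galois_iff σ v hf a).mpr h

/-- regularity of a rational function is preserved by the Galois action on places. -/
theorem mem_galois_smul_place_iff (σ : L ≃ₐ[ℚ] L) (v : Place L (laurentBaseChange L F₀))
    {f : laurentBaseChange L F₀} (hf : IsRational F₀ f) :
    f ∈ (arithmeticGalois F₀ σ • v).toValuationSubring ↔ f ∈ v.toValuationSubring := by
  have h := mem_smul_place_iff (arithmeticGalois F₀ σ) v f
  rw [arithmeticGalois_smul_eq_self σ hf] at h
  exact h

end Arithmetic

section Inertia

open scoped Pointwise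

variable {K L : Type*} [Field K] [Field L] [Algebra K L]

/-- the decomposition group preserves the valuation ring. -/
theorem apply_mem_of_mem_decomposition (A : ValuationSubring L) {σ : L ≃ₐ[K] L}
    (hσ : σ ∈ A.decompositionSubgroup K) {a : L} : σ a ∈ A ↔ a ∈ A := by
  have h1 : σ • A = A := hσ
  constructor
  · intro h
    have h2 : σ a ∈ σ • A := by rw [h1]; exact h
    have h3 := (ValuationSubring.mem_pointwise_smul_iff_inv_smul_mem (g := σ) (S := A)
      (x := σ a)).mp h2
    have h4 : σ⁻¹ • σ a = a := by
      show σ⁻¹ • (σ • a) = a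
      rw [inv_smul_smul]
    rwa [h4] at h3
  · intro h
    have h2 : σ • a ∈ σ • A := ValuationSubring.smul_mem_pointwise_smul σ a A h
    rw [h1] at h2
    exact h2

/-- the decomposition group preserves the maximal ideal. -/
theorem valuation_apply_lt_one_iff (A : ValuationSubring L) {σ : L ≃ₐ[K] L}
    (hσ : σ ∈ A.decompositionSubgroup K) {a : L} :
    A.valuation (σ a) < 1 ↔ A.valuation a < 1 := by
  have h1 : σ • A = A := hσ
  have h := valuation_smul_lt_one_iff σ A a
  rw [h1] at h
  exact h

theorem mem_decomposition_of_mem_inertiaSubgroupIn (A : ValuationSubring L) {τ : L ≃ₐ[K] L}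
    (hτ : τ ∈ A.inertiaSubgroupIn K) : τ ∈ A.decompositionSubgroup K := by
  obtain ⟨g, _, rfl⟩ := hτ
  exact g.2

/-- (G3) inertia acts trivially modulo the maximal ideal. -/
theorem inertia_apply_sub (A : ValuationSubring L) {τ : L ≃ₐ[K] L}
    (hτ : τ ∈ A.inertiaSubgroupIn K) {a : L} (ha : a ∈ A) :
    A.valuation (τ a - a) < 1 := by
  obtain ⟨g, hg, rfl⟩ := hτ
  have hker : MulSemiringAction.toRingAut (A.decompositionSubgroup K)
      (IsLocalRing.ResidueField A) g = 1 := hg
  have h1 : g • (IsLocalRing.residue A ⟨a, ha⟩) = IsLocalRing.residue A ⟨a, ha⟩ := by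
    have := congrArg (fun e : RingAut (IsLocalRing.ResidueField A) =>
      e (IsLocalRing.residue A ⟨a, ha⟩)) hker
    exact this
  have h2 : g • (IsLocalRing.residue A ⟨a, ha⟩) = IsLocalRing.residue A (g • ⟨a, ha⟩) := rfl
  rw [h2, ← sub_eq_zero, ← map_sub, IsLocalRing.residue_eq_zero_iff,
    ValuationSubring.valuation_lt_one_iff] at h1
  exact h1

/-- (G3) a Frobenius element acts as the `q`-th power modulo the maximal ideal. -/
theorem frobenius_apply_sub (A : ValuationSubring L) {σ : L ≃ₐ[K] L} {q : ℕ}
    (hσ : A.IsFrobeniusAt σ q) {a : L} (ha : a ∈ A) :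
    A.valuation (σ a - a ^ q) < 1 := by
  have h1 := hσ.smul_residue_eq (IsLocalRing.residue A ⟨a, ha⟩)
  have h2 : (⟨σ, hσ.mem_decompositionSubgroup⟩ : A.decompositionSubgroup K) •
      (IsLocalRing.residue A ⟨a, ha⟩)
        = IsLocalRing.residue A ((⟨σ, hσ.mem_decompositionSubgroup⟩ :
            A.decompositionSubgroup K) • ⟨a, ha⟩) := rfl
  rw [h2, ← map_pow, ← sub_eq_zero, ← map_sub, IsLocalRing.residue_eq_zero_iff,
    ValuationSubring.valuation_lt_one_iff] at h1
  exact h1

end Inertia

section Charts

variable {K F : Type*} [Field K] [Field F] [Algebra K F]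

/-- `v` lies in the `A`-integral locus of the chart `R` (a set of functions, e.g. a chart
algebra): every function of `R` has an `A`-integral value at `v`. -/
def InChart (A : ValuationSubring K) (R : Set F) (v : Place K F) : Prop :=
  ∀ f ∈ R, ∃ a ∈ A, HasValueAt v f a

/-- `v` and `w` lie in the chart `R` and induce the same residue map `R → k_A`:
the values of every `f ∈ R` at `v` and `w` are congruent modulo the maximal ideal of `A`. -/
def SameResidueOn (A : ValuationSubring K) (R : Set F) (v w : Place K F) : Prop :=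
  InChart A R v ∧ InChart A R w ∧
    ∀ f ∈ R, ∀ a b : K, HasValueAt v f a → HasValueAt w f b → A.valuation (a - b) < 1

theorem InChart.mono {A : ValuationSubring K} {R R' : Set F} (h : R' ⊆ R) {v : Place K F}
    (hv : InChart A R v) : InChart A R' v :=
  fun f hf => hv f (h hf)

theorem InChart.value_mem {A : ValuationSubring K} {R : Set F} {v : Place K F}
    (hv : InChart A R v) {f : F} (hf : f ∈ R) {a : K} (ha : HasValueAt v f a) : a ∈ A := by
  obtain ⟨a', ha', h⟩ := hv f hf
  rwa [ha.unique h]

theorem SameResidueOn.refl {A : ValuationSubring K} {R : Set F} {v : Place K F}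
    (hv : InChart A R v) : SameResidueOn A R v v :=
  ⟨hv, hv, fun f _ a b ha hb => by rw [ha.unique hb, sub_self]; simp⟩

theorem SameResidueOn.symm {A : ValuationSubring K} {R : Set F} {v w : Place K F}
    (h : SameResidueOn A R v w) : SameResidueOn A R w v :=
  ⟨h.2.1, h.1, fun f hf a b ha hb => by
    have := h.2.2 f hf b a hb ha
    rwa [← neg_sub, Valuation.map_neg]⟩

theorem SameResidueOn.trans {A : ValuationSubring K} {R : Set F} {u v w : Place K F}
    (h₁ : SameResidueOn A R u v) (h₂ : SameResidueOn A R v w) : SameResidueOn A R u w := by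
  refine ⟨h₁.1, h₂.2.1, fun f hf a c ha hc => ?_⟩
  obtain ⟨b, _, hb⟩ := h₁.2.1 f hf
  have e : a - c = (a - b) + (b - c) := by ring
  rw [e]
  exact lt_of_le_of_lt (Valuation.map_add _ _ _)
    (max_lt (h₁.2.2 f hf a b ha hb) (h₂.2.2 f hf b c hb hc))

theorem SameResidueOn.mono {A : ValuationSubring K} {R R' : Set F} (h : R' ⊆ R)
    {v w : Place K F} (hvw : SameResidueOn A R v w) : SameResidueOn A R' v w :=
  ⟨hvw.1.mono h, hvw.2.1.mono h, fun f hf => hvw.2.2 f (h hf)⟩

/-- the relation "`v` and `w` have the same reduction in one of the charts of the family". -/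
def ChartRel (A : ValuationSubring K) (𝓡 : Set (Set F)) (v w : Place K F) : Prop :=
  ∃ R ∈ 𝓡, SameResidueOn A R v w

end Charts

section RelSubgroup

variable {K F : Type*} [Field K] [Field F] [Algebra K F]

/-- the divisor `[v] - [w]`. -/
def pointDiff (v w : Place K F) : Divisor K F :=
  Finsupp.single v 1 - Finsupp.single w 1

theorem pointDiff_mem_degZero {v w : Place K F} (h : v.deg = w.deg) :
    pointDiff v w ∈ Divisor.degZero (K := K) (F := F) := by
  rw [Divisor.mem_degZero, pointDiff, map_sub, Divisor.degree_single, Divisor.degree_single, h,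
    sub_self]

/-- The subgroup of `Pic0` generated by the classes `[v] - [w]` of pairs of places of the same
degree related by `r`. -/
def relSubgroup (r : Place K F → Place K F → Prop) : AddSubgroup (Pic0 K F) :=
  AddSubgroup.closure {x | ∃ (v w : Place K F) (h : v.deg = w.deg), r v w ∧
    x = Pic0.mk ⟨pointDiff v w, pointDiff_mem_degZero h⟩}

theorem mk_pointDiff_mem_relSubgroup {r : Place K F → Place K F → Prop} {v w : Place K F}
    (h : v.deg = w.deg) (hr : r v w) :
    Pic0.mk ⟨pointDiff v w, pointDiff_mem_degZero h⟩ ∈ relSubgroup r :=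
  AddSubgroup.subset_closure ⟨v, w, h, hr, rfl⟩

theorem relSubgroup_mono {r r' : Place K F → Place K F → Prop} (h : ∀ v w, r v w → r' v w) :
    relSubgroup r ≤ relSubgroup r' := by
  apply AddSubgroup.closure_mono
  rintro x ⟨v, w, hd, hr, rfl⟩
  exact ⟨v, w, hd, h v w hr, rfl⟩

/-- the additive map `D ↦ class of (g • D - D)` from ALL divisors to `Pic0`. -/
def smulSubHom (g : SemilinearAut K F) : Divisor K F →+ Pic0 K F :=
  (QuotientAddGroup.mk' _).comp
    ((DistribSMul.toAddMonoidHom (Divisor K F) g - AddMonoidHom.id _).codRestrict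
      (Divisor.degZero (K := K) (F := F)) (fun D => by
        rw [Divisor.mem_degZero]
        show Divisor.degree (g • D - D) = 0
        rw [map_sub, SemilinearAut.degree_smul, sub_self]))

theorem smulSubHom_apply (g : SemilinearAut K F) (D : Divisor K F)
    (h : g • D - D ∈ Divisor.degZero (K := K) (F := F)) :
    smulSubHom g D = Pic0.mk ⟨g • D - D, h⟩ := rfl

theorem smulSubHom_coe (g : SemilinearAut K F) (D : Divisor.degZero (K := K) (F := F)) :
    smulSubHom g (D : Divisor K F) = g • Pic0.mk D - Pic0.mk D := by
  rw [SemilinearAut.pic0_smul_mk]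
  rfl

theorem smulSubHom_single (g : SemilinearAut K F) (v : Place K F) (n : ℤ) :
    smulSubHom g (Finsupp.single v n)
      = n • Pic0.mk ⟨pointDiff (g • v) v, pointDiff_mem_degZero (SemilinearAut.deg_smul g v)⟩ := by
  have h1 : (g • Finsupp.single v n - Finsupp.single v n : Divisor K F)
      = n • pointDiff (g • v) v := by
    rw [SemilinearAut.smul_single, pointDiff, smul_sub, Finsupp.smul_single,
      Finsupp.smul_single, smul_eq_mul, mul_one]
  have h2 : (n • (⟨pointDiff (g • v) v, pointDiff_mem_degZero (SemilinearAut.deg_smul g v)⟩ :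
      Divisor.degZero (K := K) (F := F)) : Divisor.degZero (K := K) (F := F))
      = ⟨g • Finsupp.single v n - Finsupp.single v n, by
          rw [h1]; exact AddSubgroup.zsmul_mem _
            (pointDiff_mem_degZero (SemilinearAut.deg_smul g v)) n⟩ :=
    Subtype.ext (by rw [AddSubgroup.coe_zsmul]; exact h1.symm)
  rw [smulSubHom_apply g _ (by
    rw [h1]; exact AddSubgroup.zsmul_mem _ (pointDiff_mem_degZero (SemilinearAut.deg_smul g v)) n),
    ← h2]
  exact map_zsmul (QuotientAddGroup.mk' _) n _

/-- (G5) If every place is `r`-related to its translate under `g`, then `g` acts trivially on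
`Pic0` modulo `relSubgroup r`. -/
theorem smul_sub_mem_relSubgroup (g : SemilinearAut K F) {r : Place K F → Place K F → Prop}
    (hr : ∀ v : Place K F, r (g • v) v) (x : Pic0 K F) : g • x - x ∈ relSubgroup r := by
  obtain ⟨D, rfl⟩ := Pic0.mk_surjective x
  rw [← smulSubHom_coe]
  generalize (D : Divisor K F) = E
  induction E using Finsupp.induction with
  | zero => rw [map_zero]; exact zero_mem _
  | single_add v n E _ _ ih =>
      rw [map_add, smulSubHom_single]
      exact add_mem (AddSubgroup.zsmul_mem _
        (mk_pointDiff_mem_relSubgroup (SemilinearAut.deg_smul g v) (hr v)) n) ih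

/-- (G5') a relation preserved by `g` gives a `g`-stable subgroup. -/
theorem smul_mem_relSubgroup (g : SemilinearAut K F) {r : Place K F → Place K F → Prop}
    (hr : ∀ v w : Place K F, r v w → r (g • v) (g • w)) {x : Pic0 K F}
    (hx : x ∈ relSubgroup r) : g • x ∈ relSubgroup r := by
  induction hx using AddSubgroup.closure_induction with
  | mem x hx =>
      obtain ⟨v, w, hd, hvw, rfl⟩ := hx
      have hd' : (g • v).deg = (g • w).deg := by
        rw [SemilinearAut.deg_smul, SemilinearAut.deg_smul, hd]
      have e : g • Pic0.mk ⟨pointDiff v w, pointDiff_mem_degZero hd⟩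
          = Pic0.mk ⟨pointDiff (g • v) (g • w), pointDiff_mem_degZero hd'⟩ := by
        rw [SemilinearAut.pic0_smul_mk]
        congr 1
        apply Subtype.ext
        rw [SemilinearAut.coe_degZeroSMulHom]
        show g • pointDiff v w = pointDiff (g • v) (g • w)
        rw [pointDiff, pointDiff, smul_sub, SemilinearAut.smul_single, SemilinearAut.smul_single]
      rw [e]
      exact mk_pointDiff_mem_relSubgroup hd' (hr v w hvw)
  | zero =>
      have e : g • (0 : Pic0 K F) = 0 := smul_zero (A := Pic0 K F) g
      rw [e]; exact zero_mem _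
  | add x y _ _ hx hy =>
      have e : g • (x + y) = g • x + g • y := smul_add (A := Pic0 K F) g x y
      rw [e]; exact add_mem hx hy
  | neg x _ hx =>
      have e : g • (-x) = -(g • x) := smul_neg (A := Pic0 K F) g x
      rw [e]; exact neg_mem hx

end RelSubgroup

section Composite

variable {K F : Type*} [Field K] [Field F] [Algebra K F]

/-- the subring `{f | f(v) ∈ A}` of `F`: functions regular at `v` with `A`-integral value. -/
def compositeSubring (A : ValuationSubring K) (v : Place K F) : Subring F where
  carrier := {f | ∃ a ∈ A, HasValueAt v f a}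
  mul_mem' := by
    rintro f g ⟨a, ha, hf⟩ ⟨b, hb, hg⟩
    exact ⟨a * b, A.mul_mem _ _ ha hb, hf.mul hg⟩
  one_mem' := ⟨1, A.one_mem, hasValueAt_one v⟩
  add_mem' := by
    rintro f g ⟨a, ha, hf⟩ ⟨b, hb, hg⟩
    exact ⟨a + b, A.add_mem _ _ ha hb, hf.add hg⟩
  zero_mem' := ⟨0, A.zero_mem, hasValueAt_zero v⟩
  neg_mem' := by
    rintro f ⟨a, ha, hf⟩
    exact ⟨-a, A.neg_mem _ ha, hf.neg⟩

theorem mem_compositeSubring {A : ValuationSubring K} {v : Place K F} {f : F} :
    f ∈ compositeSubring A v ↔ ∃ a ∈ A, HasValueAt v f a := Iff.rfl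

theorem algebraMap_mem_compositeSubring {A : ValuationSubring K} (v : Place K F) {a : K}
    (ha : a ∈ A) : algebraMap K F a ∈ compositeSubring A v :=
  ⟨a, ha, hasValueAt_algebraMap v a⟩

/-- The COMPOSITE VALUATION RING of a place `v` of `F/K` with residue field `K` and a valuation
ring `A` of `K`: `{f | f(v) ∈ A}`.  Its residue map restricted to a chart algebra is the
specialisation of the point `v` modulo `A`. -/
def compositeValuationSubring (A : ValuationSubring K) (v : Place K F)
    (hv : Function.Surjective (algebraMap K v.ResidueField)) : ValuationSubring F :=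
  { compositeSubring A v with
    mem_or_inv_mem' := fun f => by
      by_cases hf : f ∈ v.toValuationSubring
      · obtain ⟨a, ha⟩ := exists_hasValueAt hv hf
        rcases A.mem_or_inv_mem a with h | h
        · exact Or.inl ⟨a, h, ha⟩
        · by_cases ha0 : a = 0
          · exact Or.inl ⟨a, by rw [ha0]; exact A.zero_mem, ha⟩
          · exact Or.inr ⟨a⁻¹, h, ha.inv ha0⟩
      · exact Or.inr ⟨0, A.zero_mem, hasValueAt_inv_zero_of_not_mem hf⟩ }

theorem mem_compositeValuationSubring {A : ValuationSubring K} {v : Place K F}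
    {hv : Function.Surjective (algebraMap K v.ResidueField)} {f : F} :
    f ∈ compositeValuationSubring A v hv ↔ ∃ a ∈ A, HasValueAt v f a := Iff.rfl

/-- INTEGRALITY OF VALUES: if all functions of a subring `R` have `A`-integral values at `v`,
so does every function integral over `R` (valuation rings are integrally closed). -/
theorem exists_value_of_isIntegral (A : ValuationSubring K) (v : Place K F)
    (hv : Function.Surjective (algebraMap K v.ResidueField)) (R : Subring F)
    (hR : ∀ f ∈ R, ∃ a ∈ A, HasValueAt v f a) {f : F} (hf : IsIntegral R f) :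
    ∃ a ∈ A, HasValueAt v f a := by
  set V := compositeValuationSubring A v hv with hV
  have hle : R ≤ V.toSubring := fun g hg => hR g hg
  have hint : IsIntegral V f := by
    obtain ⟨p, hp, hpx⟩ := hf
    refine ⟨p.map (Subring.inclusion hle), hp.map _, ?_⟩
    rw [Polynomial.eval₂_map]
    exact hpx
  obtain ⟨y, hy⟩ := IsIntegrallyClosed.isIntegral_iff.mp hint
  rw [← hy]
  exact y.2

/-- generator form of `exists_value_of_isIntegral`. -/
theorem inChart_of_isIntegral_closure (A : ValuationSubring K) (v : Place K F)
    (hv : Function.Surjective (algebraMap K v.ResidueField)) (G : Set F)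
    (hG : ∀ g ∈ G, ∃ a ∈ A, HasValueAt v g a) (S : Set F)
    (hS : ∀ f ∈ S, IsIntegral (Subring.closure G) f) : InChart A S v := by
  intro f hf
  refine exists_value_of_isIntegral A v hv (Subring.closure G) ?_ (hS f hf)
  have hle : Subring.closure G ≤ compositeSubring A v :=
    (Subring.closure_le).mpr (fun g hg => hG g hg)
  exact fun g hg => hle hg

/-- THE TWO STANDARD CHARTS COVER: let `C` be a set of functions with `A`-integral values at
`v` (e.g. `A`-integral constants), `R₀` integral over `C[t]` and `R₁` integral over `C[1/t]`.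
Then `v` lies in the chart `R₀` or in the chart `R₁`. -/
theorem inChart_or_inChart (A : ValuationSubring K) (v : Place K F)
    (hv : Function.Surjective (algebraMap K v.ResidueField)) (t : F) (C : Set F)
    (hC : ∀ c ∈ C, ∃ a ∈ A, HasValueAt v c a) (R₀ R₁ : Set F)
    (h₀ : ∀ f ∈ R₀, IsIntegral (Subring.closure (C ∪ {t})) f)
    (h₁ : ∀ f ∈ R₁, IsIntegral (Subring.closure (C ∪ {t⁻¹})) f) :
    InChart A R₀ v ∨ InChart A R₁ v := by
  rcases (compositeValuationSubring A v hv).mem_or_inv_mem t with ht | ht
  · left
    refine inChart_of_isIntegral_closure A v hv _ ?_ R₀ h₀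
    rintro g (hg | hg)
    · exact hC g hg
    · rw [Set.mem_singleton_iff] at hg
      rw [hg]
      exact ht
  · right
    refine inChart_of_isIntegral_closure A v hv _ ?_ R₁ h₁
    rintro g (hg | hg)
    · exact hC g hg
    · rw [Set.mem_singleton_iff] at hg
      rw [hg]
      exact ht

end Composite

section GaloisCharts

open scoped Pointwise

variable {L : Type*} [Field L] [Algebra ℚ L]
variable {F₀ : IntermediateField ℚ (LaurentSeries ℚ)}

/-- the decomposition group of `A` preserves every chart with rational coordinate functions. -/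
theorem InChart.galois {A : ValuationSubring L} {R : Set (laurentBaseChange L F₀)}
    (hR : ∀ f ∈ R, IsRational F₀ f) {σ : L ≃ₐ[ℚ] L} (hσ : σ ∈ A.decompositionSubgroup ℚ)
    {v : Place L (laurentBaseChange L F₀)} (hv : InChart A R v) :
    InChart A R (arithmeticGalois F₀ σ • v) := by
  intro f hf
  obtain ⟨a, ha, h⟩ := hv f hf
  exact ⟨σ a, (apply_mem_of_mem_decomposition A hσ).mpr ha, h.galois (hR f hf) σ⟩

/-- the decomposition group of `A` preserves the relation "same residue map on the chart `R`". -/
theorem SameResidueOn.galois {A : ValuationSubring L} {R : Set (laurentBaseChange L F₀)}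
    (hR : ∀ f ∈ R, IsRational F₀ f) {σ : L ≃ₐ[ℚ] L} (hσ : σ ∈ A.decompositionSubgroup ℚ)
    {v w : Place L (laurentBaseChange L F₀)} (h : SameResidueOn A R v w) :
    SameResidueOn A R (arithmeticGalois F₀ σ • v) (arithmeticGalois F₀ σ • w) := by
  refine ⟨h.1.galois hR hσ, h.2.1.galois hR hσ, fun f hf a' b' ha' hb' => ?_⟩
  obtain ⟨a, _, ha⟩ := h.1 f hf
  obtain ⟨b, _, hb⟩ := h.2.1 f hf
  rw [ha'.unique (ha.galois (hR f hf) σ), hb'.unique (hb.galois (hR f hf) σ), ← map_sub]
  exact (valuation_apply_lt_one_iff A hσ).mpr (h.2.2 f hf a b ha hb)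

/-- INERTIA DOES NOT MOVE REDUCTIONS: for `τ` in the inertia group of `A` and a place `v` in a
chart with rational coordinate functions, `τ • v` and `v` have the same residue map. -/
theorem sameResidueOn_inertia {A : ValuationSubring L} {R : Set (laurentBaseChange L F₀)}
    (hR : ∀ f ∈ R, IsRational F₀ f) {τ : L ≃ₐ[ℚ] L} (hτ : τ ∈ A.inertiaSubgroupIn ℚ)
    {v : Place L (laurentBaseChange L F₀)} (hv : InChart A R v) :
    SameResidueOn A R (arithmeticGalois F₀ τ • v) v := by
  have hD := mem_decomposition_of_mem_inertiaSubgroupIn A hτ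
  refine ⟨hv.galois hR hD, hv, fun f hf a' b ha' hb => ?_⟩
  rw [ha'.unique (hb.galois (hR f hf) τ)]
  exact inertia_apply_sub A hτ (hv.value_mem hf hb)

/-- FROBENIUS ON VALUES: for a Frobenius element `σ` at `A` (residue cardinality `q`) and a
rational function `f` with `A`-integral value `a` at `v`, the value of `f` at `σ • v` is
`A`-integral and congruent to `a ^ q`. -/
theorem frobenius_value {A : ValuationSubring L} {σ : L ≃ₐ[ℚ] L} {q : ℕ}
    (hσ : A.IsFrobeniusAt σ q) {v : Place L (laurentBaseChange L F₀)}
    {f : laurentBaseChange L F₀} (hf : IsRational F₀ f) {a : L} (ha : a ∈ A)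
    (h : HasValueAt v f a) :
    ∃ a' ∈ A, HasValueAt (arithmeticGalois F₀ σ • v) f a' ∧ A.valuation (a' - a ^ q) < 1 :=
  ⟨σ a, (apply_mem_of_mem_decomposition A hσ.mem_decompositionSubgroup).mpr ha, h.galois hf σ,
    frobenius_apply_sub A hσ ha⟩

/-- The SPECIALISATION KERNEL attached to a family of charts: the subgroup of `Pic0` generated
by the classes `[v] - [w]` of places having the same residue map on one chart of the family. -/
def specKernel (A : ValuationSubring L) (𝓡 : Set (Set (laurentBaseChange L F₀))) :
    AddSubgroup (Pic0 L (laurentBaseChange L F₀)) :=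
  relSubgroup (ChartRel A 𝓡)

/-- **(R1)** for every specialisation kernel of chart type: if the charts have rational
coordinate functions and cover all places, then inertia acts trivially on `Pic0` modulo the
specialisation kernel. -/
theorem inertia_smul_sub_mem_specKernel {A : ValuationSubring L}
    {𝓡 : Set (Set (laurentBaseChange L F₀))}
    (hrat : ∀ R ∈ 𝓡, ∀ f ∈ R, IsRational F₀ f)
    (hcov : ∀ v : Place L (laurentBaseChange L F₀), ∃ R ∈ 𝓡, InChart A R v)
    {τ : L ≃ₐ[ℚ] L} (hτ : τ ∈ A.inertiaSubgroupIn ℚ) (x : Pic0 L (laurentBaseChange L F₀)) :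
    τ • x - x ∈ specKernel A 𝓡 := by
  rw [galois_smul_pic0_def]
  refine smul_sub_mem_relSubgroup (arithmeticGalois F₀ τ) (fun v => ?_) x
  obtain ⟨R, hR, hv⟩ := hcov v
  exact ⟨R, hR, sameResidueOn_inertia (hrat R hR) hτ hv⟩

/-- the specialisation kernel is stable under the decomposition group of `A` (in particular
under every Frobenius element at `A`). -/
theorem decomposition_smul_mem_specKernel {A : ValuationSubring L}
    {𝓡 : Set (Set (laurentBaseChange L F₀))}
    (hrat : ∀ R ∈ 𝓡, ∀ f ∈ R, IsRational F₀ f)
    {σ : L ≃ₐ[ℚ] L} (hσ : σ ∈ A.decompositionSubgroup ℚ)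
    {x : Pic0 L (laurentBaseChange L F₀)} (hx : x ∈ specKernel A 𝓡) :
    σ • x ∈ specKernel A 𝓡 := by
  rw [galois_smul_pic0_def]
  refine smul_mem_relSubgroup (arithmeticGalois F₀ σ) (fun v w hvw => ?_) hx
  obtain ⟨R, hR, h⟩ := hvw
  exact ⟨R, hR, h.galois (hrat R hR) hσ⟩

/-- the instance at the modular Jacobian `JZero N` (what the top reductions of S37 consume). -/
theorem jZero_inertia_smul_sub_mem (N : ℕ) {A : ValuationSubring (AlgebraicClosure ℚ)}
    {𝓡 : Set (Set (modularFunctionFieldBar N))}
    (hrat : ∀ R ∈ 𝓡, ∀ f ∈ R, IsRational (modularFunctionFieldFull N) f)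
    (hcov : ∀ v : Place (AlgebraicClosure ℚ) (modularFunctionFieldBar N), ∃ R ∈ 𝓡, InChart A R v)
    {τ : AlgebraicClosure ℚ ≃ₐ[ℚ] AlgebraicClosure ℚ} (hτ : τ ∈ A.inertiaSubgroupIn ℚ)
    (x : JZero N) : τ • x - x ∈ specKernel A 𝓡 :=
  inertia_smul_sub_mem_specKernel hrat hcov hτ x

end GaloisCharts

end Fermat.Agent.S37.helper2025
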