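import Mathlib
import Fermat.Prelude.Def_ModularCurve_HeckeModule
import Fermat.Agent.Lib.helper54_Frobenius

/-!
# S37, top reduction (helper8353)

The frozen statement S37 asks, for every prime `ℓ ∤ N p` and every valuation subring `A` of `ℚ̄`
over `ℓ`, for a "specialisation" `sp : J₀(N) → J'` to some Hecke module `J'` together with an
endomorphism `F` of `J'` such that `sp` is Hecke equivariant, kills inertia at `A`, intertwines
every Frobenius at `A` with `F`, is injective on `p`-power torsion, and `F² - T_ℓ F + ℓ = 0` on `J'`.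

This file proves that it is enough to have the following **core** statement, in which no Hecke
module structure on the target, no `F` and no compatibility with Hecke operators other than `T_ℓ`
appear:

for every such `ℓ`, `A` there are ONE Frobenius element `σ` at `A` and an additive map
`r : J₀(N) →+ G` into some abelian group such that
* `r (τ • x) = r x` for `τ` in the inertia group of `A`,
* `r (σ • σ • x - T_ℓ (σ • x) + ℓ • x) = 0`,
* `r` is injective on `p`-power torsion.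

Equivalently (`Stmt_Core`): the subgroup generated by all `τ • x - x` and all
`σ • σ • x - T_ℓ (σ • x) + ℓ • x` contains no nonzero `p`-power torsion element.

The witness is the universal one: `J' := J ⧸ M`, `sp := mkQ`, `F :=` the map induced by `σ`.
-/

set_option autoImplicit false

noncomputable section

namespace Fermat.Agent.S37.helper8353

open ModularCurve

/-! ### Frobenius elements and inertia -/

section Galois

variable {K L : Type*} [Field K] [Field L] [Algebra K L]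

/-- Two Frobenius elements at `A` differ by an element of the inertia group. -/
theorem frobenius_mul_inv_mem_inertia {A : ValuationSubring L} {σ σ₀ : L ≃ₐ[K] L} {q : ℕ}
    (h : A.IsFrobeniusAt σ q) (h₀ : A.IsFrobeniusAt σ₀ q) :
    σ * σ₀⁻¹ ∈ A.inertiaSubgroupIn K := by
  obtain ⟨hσ, hfr⟩ := h
  obtain ⟨hσ₀, hfr₀⟩ := h₀
  refine ⟨⟨σ, hσ⟩ * ⟨σ₀, hσ₀⟩⁻¹, ?_, rfl⟩
  rw [SetLike.mem_coe, ValuationSubring.inertiaSubgroup, MonoidHom.mem_ker]
  ext y
  show ((⟨σ, hσ⟩ * ⟨σ₀, hσ₀⟩⁻¹ : A.decompositionSubgroup K)) • y = y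
  rw [mul_smul, hfr, ← hfr₀, smul_inv_smul]

/-- The inertia group is normalised by the decomposition group. -/
theorem conj_mem_inertia {A : ValuationSubring L} {σ τ : L ≃ₐ[K] L}
    (hσ : σ ∈ A.decompositionSubgroup K) (hτ : τ ∈ A.inertiaSubgroupIn K) :
    σ * τ * σ⁻¹ ∈ A.inertiaSubgroupIn K := by
  obtain ⟨t, ht, rfl⟩ := hτ
  have hn : (A.inertiaSubgroup K).Normal := by
    rw [ValuationSubring.inertiaSubgroup]
    exact MonoidHom.normal_ker _
  have hmem := hn.conj_mem t ht ⟨σ, hσ⟩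
  refine Subgroup.mem_map.mpr ⟨_, hmem, ?_⟩
  simp only [Subgroup.subtype_apply, Subgroup.coe_mul, Subgroup.coe_inv]

end Galois

/-! ### The universal witness, abstractly -/

section Abstract

variable {K L : Type*} [Field K] [Field L] [Algebra K L]
variable (J : Type) [AddCommGroup J] [Module HeckeAlg J] [DistribMulAction (L ≃ₐ[K] L) J]

/-- The Eichler–Shimura element `σ² - T_ℓ σ + ℓ` applied to `x`. -/
def esElt (ℓ : Nat.Primes) (σ : L ≃ₐ[K] L) (x : J) : J :=
  σ • σ • x - heckeGen ℓ • (σ • x) + (ℓ : ℕ) • x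

/-- Generators of the relation subgroup. -/
def relGen (A : ValuationSubring L) (ℓ : Nat.Primes) (σ : L ≃ₐ[K] L) : Set J :=
  {y | ∃ τ ∈ A.inertiaSubgroupIn K, ∃ x : J, y = τ • x - x} ∪ Set.range (esElt J ℓ σ)

/-- The relation subgroup `(I_A - 1) J + (σ² - T_ℓ σ + ℓ) J`. -/
def relAddSubgroup (A : ValuationSubring L) (ℓ : Nat.Primes) (σ : L ≃ₐ[K] L) : AddSubgroup J :=
  AddSubgroup.closure (relGen J A ℓ σ)

variable {J}
variable [SMulCommClass (L ≃ₐ[K] L) HeckeAlg J]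

theorem hecke_smul_esElt (ℓ : Nat.Primes) (σ : L ≃ₐ[K] L) (c : HeckeAlg) (x : J) :
    c • esElt J ℓ σ x = esElt J ℓ σ (c • x) := by
  unfold esElt
  rw [smul_add, smul_sub, ← smul_comm σ c (σ • x), ← smul_comm σ c x,
    smul_comm c (heckeGen ℓ) (σ • x), ← smul_comm σ c x, smul_comm c (ℓ : ℕ) x]

theorem galois_smul_esElt (ℓ : Nat.Primes) (σ : L ≃ₐ[K] L) (x : J) :
    σ • esElt J ℓ σ x = esElt J ℓ σ (σ • x) := by
  unfold esElt
  rw [smul_add, smul_sub, smul_comm σ (heckeGen ℓ) (σ • x), smul_comm σ (ℓ : ℕ) x]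

theorem hecke_smul_mem_relAddSubgroup (A : ValuationSubring L) (ℓ : Nat.Primes)
    (σ : L ≃ₐ[K] L) (c : HeckeAlg) {y : J} (hy : y ∈ relAddSubgroup J A ℓ σ) :
    c • y ∈ relAddSubgroup J A ℓ σ := by
  unfold relAddSubgroup at hy ⊢
  induction hy using AddSubgroup.closure_induction with
  | mem y hy =>
    apply AddSubgroup.subset_closure
    rcases hy with ⟨τ, hτ, x, rfl⟩ | ⟨x, rfl⟩
    · exact Or.inl ⟨τ, hτ, c • x, by rw [smul_sub, smul_comm τ c x]⟩
    · exact Or.inr ⟨c • x, (hecke_smul_esElt ℓ σ c x).symm⟩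
  | zero => rw [smul_zero]; exact zero_mem _
  | add x y _ _ hx hy => rw [smul_add]; exact add_mem hx hy
  | neg x _ hx => rw [smul_neg]; exact neg_mem hx

theorem galois_smul_mem_relAddSubgroup {A : ValuationSubring L} (ℓ : Nat.Primes)
    {σ : L ≃ₐ[K] L} (hσ : σ ∈ A.decompositionSubgroup K) {y : J}
    (hy : y ∈ relAddSubgroup J A ℓ σ) : σ • y ∈ relAddSubgroup J A ℓ σ := by
  unfold relAddSubgroup at hy ⊢
  induction hy using AddSubgroup.closure_induction with
  | mem y hy =>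
    apply AddSubgroup.subset_closure
    rcases hy with ⟨τ, hτ, x, rfl⟩ | ⟨x, rfl⟩
    · refine Or.inl ⟨σ * τ * σ⁻¹, conj_mem_inertia hσ hτ, σ • x, ?_⟩
      rw [smul_sub, mul_smul, mul_smul, inv_smul_smul]
    · exact Or.inr ⟨σ • x, (galois_smul_esElt ℓ σ x).symm⟩
  | zero => rw [smul_zero]; exact zero_mem _
  | add x y _ _ hx hy => rw [smul_add]; exact add_mem hx hy
  | neg x _ hx => rw [smul_neg]; exact neg_mem hx

variable (J)

/-- The relation subgroup as a Hecke submodule. -/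
def relSubmodule (A : ValuationSubring L) (ℓ : Nat.Primes) (σ : L ≃ₐ[K] L) :
    Submodule HeckeAlg J :=
  { relAddSubgroup J A ℓ σ with
    smul_mem' := fun c _ hy => hecke_smul_mem_relAddSubgroup A ℓ σ c hy }

variable {J}

theorem mem_relSubmodule {A : ValuationSubring L} {ℓ : Nat.Primes} {σ : L ≃ₐ[K] L} {y : J} :
    y ∈ relSubmodule J A ℓ σ ↔ y ∈ relAddSubgroup J A ℓ σ :=
  Iff.rfl

/-- **Universal witness.**  If `σ` is a Frobenius element at `A` and the relation subgroup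
contains no nonzero `p`-power torsion, then a specialisation datum exists. -/
theorem exists_specialization_of_relAddSubgroup (p : ℕ) (A : ValuationSubring L)
    (ℓ : ℕ) (hℓ : ℓ.Prime) (σ : L ≃ₐ[K] L) (hσ : A.IsFrobeniusAt σ ℓ)
    (hM : ∀ x ∈ relAddSubgroup J A ⟨ℓ, hℓ⟩ σ, (∃ n : ℕ, p ^ n • x = 0) → x = 0) :
    ∃ (J' : Type) (_ : AddCommGroup J') (_ : Module HeckeAlg J') (sp : J →+ J')
      (F : J' →+ J'),
      IsSpecialization (K := K) p J J' A ℓ sp F ∧ SpecialFibreRelation J' ℓ hℓ F := by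
  set M : Submodule HeckeAlg J := relSubmodule J A ⟨ℓ, hℓ⟩ σ with hMdef
  have hσd : σ ∈ A.decompositionSubgroup K := hσ.mem_decompositionSubgroup
  have hle : M ≤ M.comap (DistribSMul.toLinearMap HeckeAlg J σ) := fun y hy =>
    galois_smul_mem_relAddSubgroup ⟨ℓ, hℓ⟩ hσd hy
  refine ⟨J ⧸ M, inferInstance, inferInstance, M.mkQ.toAddMonoidHom,
    (M.mapQ M (DistribSMul.toLinearMap HeckeAlg J σ) hle).toAddMonoidHom, ⟨?_, ?_, ?_, ?_⟩, ?_⟩
  · intro T x
    rfl
  · intro τ hτ x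
    show M.mkQ (τ • x) = M.mkQ x
    rw [← sub_eq_zero, ← map_sub, Submodule.mkQ_apply, Submodule.Quotient.mk_eq_zero]
    exact AddSubgroup.subset_closure (Or.inl ⟨τ, hτ, x, rfl⟩)
  · intro σ' hσ' x
    show M.mkQ (σ' • x) = M.mkQ (σ • x)
    rw [← sub_eq_zero, ← map_sub, Submodule.mkQ_apply, Submodule.Quotient.mk_eq_zero]
    refine AddSubgroup.subset_closure
      (Or.inl ⟨σ' * σ⁻¹, frobenius_mul_inv_mem_inertia hσ' hσ, σ • x, ?_⟩)
    rw [mul_smul, inv_smul_smul]
  · intro x hx hsp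
    have hxM : x ∈ M := by
      have : M.mkQ x = 0 := hsp
      rwa [Submodule.mkQ_apply, Submodule.Quotient.mk_eq_zero] at this
    exact hM x hxM hx
  · intro y
    obtain ⟨x, rfl⟩ := M.mkQ_surjective y
    show M.mkQ (σ • σ • x) - heckeGen ⟨ℓ, hℓ⟩ • M.mkQ (σ • x) + ℓ • M.mkQ x = 0
    rw [← map_smul, ← map_nsmul, ← map_sub, ← map_add, Submodule.mkQ_apply,
      Submodule.Quotient.mk_eq_zero]
    exact AddSubgroup.subset_closure (Or.inr ⟨x, rfl⟩)

/-- Version with an additive map `r` into an arbitrary abelian group. -/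
theorem exists_specialization_of_hom {G : Type*} [AddCommGroup G] (p : ℕ)
    (A : ValuationSubring L) (ℓ : ℕ) (hℓ : ℓ.Prime) (σ : L ≃ₐ[K] L)
    (hσ : A.IsFrobeniusAt σ ℓ) (r : J →+ G)
    (hI : ∀ τ ∈ A.inertiaSubgroupIn K, ∀ x : J, r (τ • x) = r x)
    (hES : ∀ x : J, r (esElt J ⟨ℓ, hℓ⟩ σ x) = 0)
    (hinj : ∀ x : J, (∃ n : ℕ, p ^ n • x = 0) → r x = 0 → x = 0) :
    ∃ (J' : Type) (_ : AddCommGroup J') (_ : Module HeckeAlg J') (sp : J →+ J')
      (F : J' →+ J'),
      IsSpecialization (K := K) p J J' A ℓ sp F ∧ SpecialFibreRelation J' ℓ hℓ F := by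
  refine exists_specialization_of_relAddSubgroup p A ℓ hℓ σ hσ fun x hx htor => hinj x htor ?_
  have hle : relAddSubgroup J A ⟨ℓ, hℓ⟩ σ ≤ r.ker := by
    unfold relAddSubgroup
    rw [AddSubgroup.closure_le]
    rintro y (⟨τ, hτ, x, rfl⟩ | ⟨x, rfl⟩)
    · show r (τ • x - x) = 0
      rw [map_sub, hI τ hτ x, sub_self]
    · exact hES x
  exact hle hx

end Abstract

/-! ### The modular instance -/

section Modular

/-- `ℚ̄`. -/
abbrev Qb : Type := AlgebraicClosure ℚ

/-- `Gal(ℚ̄/ℚ)`. -/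
abbrev GQ : Type := Qb ≃ₐ[ℚ] Qb

variable (N : ℕ) [NeZero N]

/-- The Eichler–Shimura element on `J₀(N)`, written with the Prelude operator
`heckeOperatorBar` (no module structure involved). -/
def esBar (ℓ : Nat.Primes) (σ : GQ) (x : JZero N) : JZero N :=
  σ • σ • x - heckeOperatorBar N ℓ (σ • x) + (ℓ : ℕ) • x

/-- The relation subgroup `(I_A - 1) J₀(N) + (σ² - T_ℓ σ + ℓ) J₀(N)`. -/
def relBar (A : ValuationSubring Qb) (ℓ : Nat.Primes) (σ : GQ) : AddSubgroup (JZero N) :=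
  AddSubgroup.closure
    ({y | ∃ τ ∈ A.inertiaSubgroupIn ℚ, ∃ x : JZero N, y = τ • x - x} ∪ Set.range (esBar N ℓ σ))

/-- **Core statement for S37** (subgroup form): for every prime `ℓ ∤ N p` and every `A` over
`ℓ` there is a Frobenius `σ` at `A` such that the relation subgroup has no `p`-power torsion. -/
def Stmt_Core (p : ℕ) : Prop :=
  ∀ ℓ : ℕ, ∀ hℓ : ℓ.Prime, ¬ ℓ ∣ N * p →
    ∀ A : ValuationSubring Qb, A.LiesOverPrime ℓ →
      ∃ σ : GQ, A.IsFrobeniusAt σ ℓ ∧
        ∀ x ∈ relBar N A ⟨ℓ, hℓ⟩ σ, (∃ n : ℕ, p ^ n • x = 0) → x = 0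

/-- **Core statement for S37** (reduction-map form, one Frobenius). -/
def Stmt_CoreHom (p : ℕ) : Prop :=
  ∀ ℓ : ℕ, ∀ hℓ : ℓ.Prime, ¬ ℓ ∣ N * p →
    ∀ A : ValuationSubring Qb, A.LiesOverPrime ℓ →
      ∃ σ : GQ, A.IsFrobeniusAt σ ℓ ∧
        ∃ (G : Type) (_ : AddCommGroup G) (r : JZero N →+ G),
          (∀ τ ∈ A.inertiaSubgroupIn ℚ, ∀ x : JZero N, r (τ • x) = r x) ∧
          (∀ x : JZero N, r (σ • σ • x) - r (heckeOperatorBar N ⟨ℓ, hℓ⟩ (σ • x)) + ℓ • r x = 0) ∧
          (∀ x : JZero N, (∃ n : ℕ, p ^ n • x = 0) → r x = 0 → x = 0)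

/-- **Core statement for S37** (reduction-map form, all Frobenius elements). -/
def Stmt_CoreHomAll (p : ℕ) : Prop :=
  ∀ ℓ : ℕ, ∀ hℓ : ℓ.Prime, ¬ ℓ ∣ N * p →
    ∀ A : ValuationSubring Qb, A.LiesOverPrime ℓ →
      ∃ (G : Type) (_ : AddCommGroup G) (r : JZero N →+ G),
        (∀ τ ∈ A.inertiaSubgroupIn ℚ, ∀ x : JZero N, r (τ • x) = r x) ∧
        (∀ σ : GQ, A.IsFrobeniusAt σ ℓ → ∀ x : JZero N,
          r (σ • σ • x) - r (heckeOperatorBar N ⟨ℓ, hℓ⟩ (σ • x)) + ℓ • r x = 0) ∧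
        (∀ x : JZero N, (∃ n : ℕ, p ^ n • x = 0) → r x = 0 → x = 0)

variable {N}

/-- One-place version, with the target group in an arbitrary universe: a reduction map `r`
killing inertia and the Eichler–Shimura element and injective on `p`-power torsion shows that the
relation subgroup has no `p`-power torsion. -/
theorem relBar_torsion_eq_zero_of_hom {G : Type*} [AddCommGroup G] {p : ℕ}
    {A : ValuationSubring Qb} {ℓ : Nat.Primes} {σ : GQ} (r : JZero N →+ G)
    (hI : ∀ τ ∈ A.inertiaSubgroupIn ℚ, ∀ x : JZero N, r (τ • x) = r x)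
    (hES : ∀ x : JZero N,
      r (σ • σ • x) - r (heckeOperatorBar N ℓ (σ • x)) + (ℓ : ℕ) • r x = 0)
    (hinj : ∀ x : JZero N, (∃ n : ℕ, p ^ n • x = 0) → r x = 0 → x = 0) :
    ∀ x ∈ relBar N A ℓ σ, (∃ n : ℕ, p ^ n • x = 0) → x = 0 := by
  intro x hx htor
  refine hinj x htor ?_
  have hle : relBar N A ℓ σ ≤ r.ker := by
    unfold relBar
    rw [AddSubgroup.closure_le]
    rintro y (⟨τ, hτ, x, rfl⟩ | ⟨x, rfl⟩)
    · show r (τ • x - x) = 0
      rw [map_sub, hI τ hτ x, sub_self]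
    · show r (esBar N ℓ σ x) = 0
      unfold esBar
      rw [map_add, map_sub, map_nsmul]
      exact hES x
  exact hle hx

theorem stmt_Core_of_hom {p : ℕ} (h : Stmt_CoreHom N p) : Stmt_Core N p := by
  intro ℓ hℓ hℓN A hA
  obtain ⟨σ, hσ, G, _, r, hI, hES, hinj⟩ := h ℓ hℓ hℓN A hA
  exact ⟨σ, hσ, relBar_torsion_eq_zero_of_hom r hI hES hinj⟩

theorem stmt_CoreHom_of_all {p : ℕ} (h : Stmt_CoreHomAll N p) : Stmt_CoreHom N p := by
  intro ℓ hℓ hℓN A hA
  obtain ⟨G, _, r, hI, hES, hinj⟩ := h ℓ hℓ hℓN A hA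
  obtain ⟨σ, hσ⟩ := Fermat.Agent.Lib.helper54.exists_isFrobeniusAt hℓ A hA
  exact ⟨σ, hσ, G, inferInstance, r, hI, hES σ hσ, hinj⟩

theorem esElt_eq_esBar (hcomm : HeckeOperatorsCommuteBar N) (ℓ : Nat.Primes) (σ : GQ)
    (x : JZero N) :
    letI := heckeModuleBar N
    esElt (K := ℚ) (JZero N) ℓ σ x = esBar N ℓ σ x :=
  congrArg (fun t => σ • σ • x - t + (ℓ : ℕ) • x) (heckeModuleBar_heckeGen_smul hcomm ℓ (σ • x))

theorem relAddSubgroup_eq_relBar (hcomm : HeckeOperatorsCommuteBar N) (A : ValuationSubring Qb)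
    (ℓ : Nat.Primes) (σ : GQ) :
    letI := heckeModuleBar N
    relAddSubgroup (K := ℚ) (JZero N) A ℓ σ = relBar N A ℓ σ := by
  have h : (letI := heckeModuleBar N; esElt (K := ℚ) (JZero N) ℓ σ) = esBar N ℓ σ :=
    funext fun x => esElt_eq_esBar hcomm ℓ σ x
  unfold relAddSubgroup relBar relGen
  rw [h]

/-- **Top reduction for S37**: the core statement implies the frozen statement. -/
theorem result_of_core (p : ℕ) (hcomm : HeckeOperatorsCommuteBar N) (hcore : Stmt_Core N p) :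
    letI := heckeModuleBar N
    ∀ (_ : SMulCommClass GQ HeckeAlg (JZero N)),
      SpecializationExists (K := ℚ) (L := Qb) N p (JZero N) := by
  intro inst ℓ hℓ hℓN A hA
  obtain ⟨σ, hσ, hM⟩ := hcore ℓ hℓ hℓN A hA
  exact @exists_specialization_of_relAddSubgroup ℚ Qb _ _ _ (JZero N) _ (heckeModuleBar N) _ inst
    p A ℓ hℓ σ hσ fun x hx htor =>
      hM x ((SetLike.ext_iff.mp (relAddSubgroup_eq_relBar hcomm A ⟨ℓ, hℓ⟩ σ) x).mp hx) htor

theorem result_of_coreHom (p : ℕ) (hcomm : HeckeOperatorsCommuteBar N)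
    (hcore : Stmt_CoreHom N p) :
    letI := heckeModuleBar N
    ∀ (_ : SMulCommClass GQ HeckeAlg (JZero N)),
      SpecializationExists (K := ℚ) (L := Qb) N p (JZero N) :=
  result_of_core p hcomm (stmt_Core_of_hom hcore)

theorem result_of_coreHomAll (p : ℕ) (hcomm : HeckeOperatorsCommuteBar N)
    (hcore : Stmt_CoreHomAll N p) :
    letI := heckeModuleBar N
    ∀ (_ : SMulCommClass GQ HeckeAlg (JZero N)),
      SpecializationExists (K := ℚ) (L := Qb) N p (JZero N) :=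
  result_of_coreHom p hcomm (stmt_CoreHom_of_all hcore)

end Modular

end Fermat.Agent.S37.helper8353

end
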