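import Mathlib
import Fermat.Agent.S37.helper8353_Top

/-!
# S37, top reduction: `p`-free kernel form with PRIME torsion only (helper8353)

Adapter on top of `helper8353_Top`: the geometric back-end only has to produce, for every prime
`ℓ ∤ N` and every valuation subring `A` of `ℚ̄` over `ℓ`, ONE Frobenius `σ` at `A` and ONE
subgroup `W` of `J₀(N)` (independent of `p`) with

* (R1) `τ • x - x ∈ W` for `τ` in the inertia group of `A`,
* (R2) `σ • σ • x - T_ℓ (σ • x) + ℓ • x ∈ W`,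
* (R3) `W` has no `q`-torsion for every PRIME `q ≠ ℓ`.

`Stmt_Kernel N → ∀ p, Stmt_Core N p`, hence the frozen S37 for all `p`.
-/

set_option autoImplicit false

noncomputable section

namespace Fermat.Agent.S37.helper8353

open ModularCurve

/-- An element of an additive group killed by `m` is zero as soon as the group has no `q`-torsion
for the primes `q ∣ m`. -/
theorem eq_zero_of_nsmul_eq_zero_of_prime_torsion {G : Type*} [AddCommGroup G]
    (W : AddSubgroup G) :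
    ∀ (m : ℕ), m ≠ 0 → (∀ q : ℕ, q.Prime → q ∣ m → ∀ x ∈ W, q • x = 0 → x = 0) →
      ∀ x ∈ W, m • x = 0 → x = 0 := by
  intro m
  induction m using Nat.strong_induction_on with
  | _ m ih =>
    intro hm0 hq x hx hmx
    by_cases hm1 : m = 1
    · subst hm1
      simpa using hmx
    obtain ⟨q, hqp, hqm⟩ := Nat.exists_prime_and_dvd hm1
    obtain ⟨m', rfl⟩ := hqm
    have hm'0 : m' ≠ 0 := by
      rintro rfl
      exact hm0 (by simp)
    have hlt : m' < q * m' := by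
      have := hqp.one_lt
      nlinarith [Nat.pos_of_ne_zero hm'0]
    have hx' : m' • x = 0 := by
      refine hq q hqp (dvd_mul_right q m') (m' • x) (W.nsmul_mem hx m') ?_
      rw [← mul_smul]
      exact hmx
    exact ih m' hlt hm'0 (fun q' hq' hq'm => hq q' hq' (hq'm.mul_left q)) x hx hx'

variable (N : ℕ) [NeZero N]

/-- **Kernel form of the core statement for S37** (`p`-free, prime torsion only). -/
def Stmt_Kernel : Prop :=
  ∀ ℓ : ℕ, ∀ hℓ : ℓ.Prime, ¬ ℓ ∣ N →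
    ∀ A : ValuationSubring Qb, A.LiesOverPrime ℓ →
      ∃ σ : GQ, A.IsFrobeniusAt σ ℓ ∧ ∃ W : AddSubgroup (JZero N),
        (∀ τ ∈ A.inertiaSubgroupIn ℚ, ∀ x : JZero N, τ • x - x ∈ W) ∧
        (∀ x : JZero N, σ • σ • x - heckeOperatorBar N ⟨ℓ, hℓ⟩ (σ • x) + ℓ • x ∈ W) ∧
        (∀ q : ℕ, q.Prime → q ≠ ℓ → ∀ x ∈ W, q • x = 0 → x = 0)

/-- Kernel form with the Eichler–Shimura relation for ALL Frobenius elements at `A`. -/
def Stmt_KernelAll : Prop :=
  ∀ ℓ : ℕ, ∀ hℓ : ℓ.Prime, ¬ ℓ ∣ N →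
    ∀ A : ValuationSubring Qb, A.LiesOverPrime ℓ →
      ∃ W : AddSubgroup (JZero N),
        (∀ τ ∈ A.inertiaSubgroupIn ℚ, ∀ x : JZero N, τ • x - x ∈ W) ∧
        (∀ σ : GQ, A.IsFrobeniusAt σ ℓ → ∀ x : JZero N,
          σ • σ • x - heckeOperatorBar N ⟨ℓ, hℓ⟩ (σ • x) + ℓ • x ∈ W) ∧
        (∀ q : ℕ, q.Prime → q ≠ ℓ → ∀ x ∈ W, q • x = 0 → x = 0)

variable {N}

theorem stmt_Kernel_of_all (h : Stmt_KernelAll N) : Stmt_Kernel N := by
  intro ℓ hℓ hℓN A hA
  obtain ⟨W, h1, h2, h3⟩ := h ℓ hℓ hℓN A hA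
  obtain ⟨σ, hσ⟩ := Fermat.Agent.Lib.helper54.exists_isFrobeniusAt hℓ A hA
  exact ⟨σ, hσ, W, h1, h2 σ hσ, h3⟩

theorem stmt_Core_of_kernel (h : Stmt_Kernel N) (p : ℕ) : Stmt_Core N p := by
  intro ℓ hℓ hℓNp A hA
  have hℓN : ¬ ℓ ∣ N := fun hd => hℓNp (hd.mul_right p)
  have hℓp : ¬ ℓ ∣ p := fun hd => hℓNp (hd.mul_left N)
  obtain ⟨σ, hσ, W, h1, h2, h3⟩ := h ℓ hℓ hℓN A hA
  refine ⟨σ, hσ, ?_⟩
  have hle : relBar N A ⟨ℓ, hℓ⟩ σ ≤ W := by
    unfold relBar
    rw [AddSubgroup.closure_le]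
    rintro y (⟨τ, hτ, x, rfl⟩ | ⟨x, rfl⟩)
    · exact h1 τ hτ x
    · exact h2 x
  rintro x hx ⟨n, hn⟩
  have hp0 : p ≠ 0 := by
    rintro rfl
    exact hℓp (dvd_zero ℓ)
  refine eq_zero_of_nsmul_eq_zero_of_prime_torsion W (p ^ n) (pow_ne_zero n hp0) ?_ x (hle hx) hn
  intro q hq hqpn y hy hqy
  have hqp : q ∣ p := hq.dvd_of_dvd_pow hqpn
  have hqℓ : q ≠ ℓ := by
    rintro rfl
    exact hℓp hqp
  exact h3 q hq hqℓ y hy hqy

/-- **Top reduction for S37, kernel form**: the `p`-free kernel statement implies the frozen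
statement for every `p`. -/
theorem result_of_kernel (p : ℕ) (hcomm : HeckeOperatorsCommuteBar N) (hker : Stmt_Kernel N) :
    letI := heckeModuleBar N
    ∀ (_ : SMulCommClass GQ HeckeAlg (JZero N)),
      SpecializationExists (K := ℚ) (L := Qb) N p (JZero N) :=
  result_of_core p hcomm (stmt_Core_of_kernel hker p)

theorem result_of_kernelAll (p : ℕ) (hcomm : HeckeOperatorsCommuteBar N)
    (hker : Stmt_KernelAll N) :
    letI := heckeModuleBar N
    ∀ (_ : SMulCommClass GQ HeckeAlg (JZero N)),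
      SpecializationExists (K := ℚ) (L := Qb) N p (JZero N) :=
  result_of_kernel p hcomm (stmt_Kernel_of_all hker)

end Fermat.Agent.S37.helper8353

end
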