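import Mathlib
import Fermat.Prelude.Def_AlgebraicCurve_Correspondence
import Fermat.Agent.S24.helper204_Places

/-!
# S37 (route #1982 (a)), leaf PICINJ: injectivity of pullback on `Pic0`

Generic function-field statement in the Prelude vocabulary (`Place`, `Divisor`, `pullback`,
`pushforward`, `PushforwardNormFormula`, `FundamentalIdentity`).

Let `F'/F` be a finite extension of function fields over an algebraically closed field `K` of
characteristic zero, of degree `n`.  If some place `w₀` of `F'` has ramification index `e` with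
`n < 2 * e`, then a divisor `D` of `F` whose pullback to `F'` is principal is itself principal.
Hence `Pic0 K F → Pic0 K F'` is injective.

Proof.  `div g = φ^* D`, `h := N g` has `div h = n D`, so `g ^ n = c * h`.  After dividing by a
power of a uniformiser at `v₀ = w₀|F` we may assume `g` is a unit above `v₀`.  The minimal
polynomial of `g` over `F` is `X ^ d - u` (Kummer).  For `r ^ d ≡ u` at `v₀` the `d` functions
`g - ζ^i r` have pairwise disjoint zero sets above `v₀` and norms of equal order `(n / d) * m`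
at `v₀`; the norm formula gives `e(w₀) ≤ n / d`, hence `d = 1` and `g ∈ F`.
-/

set_option autoImplicit false
set_option linter.style.haveILetI false

namespace Fermat.Agent.S37.helper9304

open AlgebraicCurve Polynomial IntermediateField

open Fermat.Agent.S24.helper204 (mem_of_ord_nonneg ord_nonneg_of_mem ord_algebraMap_eq_zero
  ord_pos_iff ord_sub_pos)

/-! ### Basic `ord` calculus -/

section Basic

variable {K F : Type*} [Field K] [Field F] [Algebra K F]

theorem ord_pow (v : Place K F) (f : F) (n : ℕ) : v.ord (f ^ n) = n * v.ord f := by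
  have h := v.ord_zpow f (n : ℤ)
  rwa [zpow_natCast] at h

theorem ord_neg (v : Place K F) (f : F) : v.ord (-f) = v.ord f := by
  simp [Place.ord, Valuation.map_neg]

theorem ord_div (v : Place K F) {f g : F} (hf : f ≠ 0) (hg : g ≠ 0) :
    v.ord (f / g) = v.ord f - v.ord g := by
  rw [div_eq_mul_inv, v.ord_mul hf (inv_ne_zero hg), v.ord_inv]
  ring

theorem ord_prod (v : Place K F) {ι : Type*} (s : Finset ι) (f : ι → F)
    (hf : ∀ i ∈ s, f i ≠ 0) : v.ord (∏ i ∈ s, f i) = ∑ i ∈ s, v.ord (f i) := by
  classical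
  induction s using Finset.induction_on with
  | empty => simp
  | insert a s ha ih =>
    rw [Finset.prod_insert ha, Finset.sum_insert ha,
      v.ord_mul (hf a (Finset.mem_insert_self a s))
        (Finset.prod_ne_zero_iff.mpr fun i hi => hf i (Finset.mem_insert_of_mem hi)),
      ih fun i hi => hf i (Finset.mem_insert_of_mem hi)]

theorem exists_uniformizer (v : Place K F) : ∃ π : F, π ≠ 0 ∧ v.ord π = 1 := by
  obtain ⟨π, hπ⟩ := IsDiscreteValuationRing.exists_irreducible v.toValuationSubring
  refine ⟨(π : F), ?_, v.ord_coe_irreducible hπ⟩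
  simpa [ne_eq, ZeroMemClass.coe_eq_zero] using hπ.ne_zero

/-- At a place of degree one, a unit is congruent to a nonzero constant. -/
theorem exists_const_of_deg_eq_one (v : Place K F) (hdeg : v.deg = 1) {u : F} (hu0 : u ≠ 0)
    (hu : v.ord u = 0) :
    ∃ b : K, b ≠ 0 ∧ (u = algebraMap K F b ∨ 0 < v.ord (u - algebraMap K F b)) := by
  have humem : u ∈ v.toValuationSubring := mem_of_ord_nonneg v hu.ge
  have hbot : (⊥ : Subalgebra K v.ResidueField) = ⊤ :=
    Subalgebra.bot_eq_top_of_finrank_eq_one hdeg
  have hmem : IsLocalRing.residue v.toValuationSubring ⟨u, humem⟩ ∈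
      (⊥ : Subalgebra K v.ResidueField) := by rw [hbot]; exact Algebra.mem_top
  obtain ⟨b, hb⟩ := Algebra.mem_bot.mp hmem
  have hres : IsLocalRing.residue v.toValuationSubring
      ((⟨u, humem⟩ : v.toValuationSubring) - algebraMap K v.toValuationSubring b) = 0 := by
    rw [map_sub, ← hb]
    exact sub_self _
  have hmax : ((⟨u, humem⟩ : v.toValuationSubring) - algebraMap K v.toValuationSubring b) ∈
      IsLocalRing.maximalIdeal v.toValuationSubring :=
    (IsLocalRing.residue_eq_zero_iff _).mp hres
  have hcoe : ((((⟨u, humem⟩ : v.toValuationSubring) - algebraMap K v.toValuationSubring b :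
      v.toValuationSubring)) : F) = u - algebraMap K F b := rfl
  have key : u = algebraMap K F b ∨ 0 < v.ord (u - algebraMap K F b) := by
    by_cases h0 : u - algebraMap K F b = 0
    · exact Or.inl (sub_eq_zero.mp h0)
    · refine Or.inr ((ord_pos_iff v).mpr ⟨h0, ?_, ?_⟩)
      · exact sub_mem humem (v.algebraMap_mem' b)
      · exact hmax
  refine ⟨b, ?_, key⟩
  rintro rfl
  rcases key with h | h
  · exact hu0 (by simpa using h)
  · rw [map_zero, sub_zero] at h
    omega

end Basic

/-! ### Relative facts when all places have degree one -/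

section Relative

variable {K F F' : Type*} [Field K] [Field F] [Field F']
  [Algebra K F] [Algebra K F'] [Algebra F F'] [IsScalarTower K F F']
  [Algebra.IsIntegral F F']

theorem inertiaDeg_eq_one (hdeg : ∀ v : Place K F, v.deg = 1) (hdeg' : ∀ w : Place K F', w.deg = 1)
    (w : Place K F') : w.inertiaDeg F = 1 := by
  have h := w.deg_restrict_mul_inertiaDeg (F := F)
  rw [hdeg, hdeg', one_mul] at h
  exact h

theorem ord_algebraMap_of_restrict (w : Place K F') {v : Place K F} (hw : w.restrict F = v) (f : F) :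
    w.ord (algebraMap F F' f) = (w.ramificationIndex F : ℤ) * v.ord f := by
  rw [w.ord_restrict f, hw]

variable [HasPrincipalDivisors K F']

theorem sum_ramificationIndex [FundamentalIdentity K F F'] (hdeg : ∀ v : Place K F, v.deg = 1)
    (hdeg' : ∀ w : Place K F', w.deg = 1) (v : Place K F) :
    ∑ w ∈ v.fiber F', (w.ramificationIndex F : ℤ) = (Module.finrank F F' : ℤ) := by
  have h := FundamentalIdentity.sum_ramificationIndex_mul_deg (K := K) (F := F) (F' := F') v
  simpa [hdeg, hdeg'] using h

theorem fiber_nonempty [FundamentalIdentity K F F'] [Module.Finite F F']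
    (hdeg : ∀ v : Place K F, v.deg = 1)
    (hdeg' : ∀ w : Place K F', w.deg = 1) (v : Place K F) : (v.fiber F').Nonempty := by
  by_contra hne
  rw [Finset.not_nonempty_iff_eq_empty] at hne
  have h := sum_ramificationIndex hdeg hdeg' v
  rw [hne, Finset.sum_empty] at h
  have hpos : 0 < Module.finrank F F' := Module.finrank_pos
  omega

theorem pushforward_apply_fiber (hf1 : ∀ w : Place K F', w.inertiaDeg F = 1)
    (E : Divisor K F') (v : Place K F) :
    Divisor.pushforward F E v = ∑ w ∈ v.fiber F', E w := by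
  classical
  induction E using Finsupp.induction with
  | zero => simp
  | single_add w m E _ _ ih =>
    rw [map_add, Finsupp.add_apply, ih]
    simp only [Finsupp.add_apply, Finset.sum_add_distrib]
    congr 1
    rw [Divisor.pushforward_single, hf1 w, Nat.cast_one, mul_one]
    by_cases hw : w.restrict F = v
    · rw [hw, Finsupp.single_eq_same]
      rw [Finset.sum_eq_single_of_mem w (Place.mem_fiber.mpr hw)]
      · rw [Finsupp.single_eq_same]
      · intro b _ hb
        exact Finsupp.single_eq_of_ne hb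
    · rw [Finsupp.single_eq_of_ne (Ne.symm hw)]
      symm
      refine Finset.sum_eq_zero fun b hb => ?_
      refine Finsupp.single_eq_of_ne fun h => hw ?_
      rw [← h]
      exact Place.mem_fiber.mp hb

end Relative

/-! ### Kummer: the minimal polynomial of an `n`-th root is a binomial -/

section Kummer

variable {K F F' : Type*} [Field K] [Field F] [Field F']
  [Algebra K F] [Algebra K F'] [Algebra F F'] [IsScalarTower K F F']

theorem multiset_prod_const_mul (g : F') (s : Multiset F')
    (hs : ∀ x ∈ s, ∃ c : K, c ≠ 0 ∧ x = algebraMap K F' c * g) :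
    ∃ c : K, c ≠ 0 ∧ s.prod = algebraMap K F' c * g ^ Multiset.card s := by
  induction s using Multiset.induction_on with
  | empty => exact ⟨1, one_ne_zero, by simp⟩
  | cons a s ih =>
    obtain ⟨c₁, hc₁, rfl⟩ := hs a (Multiset.mem_cons_self a s)
    obtain ⟨c₂, hc₂, h₂⟩ := ih fun x hx => hs x (Multiset.mem_cons_of_mem hx)
    refine ⟨c₁ * c₂, mul_ne_zero hc₁ hc₂, ?_⟩
    rw [Multiset.prod_cons, h₂, Multiset.card_cons, map_mul, pow_succ]
    ring

/-- If `g ^ n ∈ F` and `K ⊆ F` contains a primitive `n`-th root of unity, then the minimal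
polynomial of `g` over `F` is `X ^ d - u`. -/
theorem exists_pow_natDegree_minpoly_eq {n : ℕ} (hn : 0 < n) {ζ : K} (hζ : IsPrimitiveRoot ζ n)
    {g : F'} (hg : g ≠ 0) {a : F} (hga : g ^ n = algebraMap F F' a) :
    ∃ u : F, g ^ (minpoly F g).natDegree = algebraMap F F' u ∧
      minpoly F g = X ^ (minpoly F g).natDegree - C u := by
  have hint : IsIntegral F g := ⟨X ^ n - C a, monic_X_pow_sub_C a hn.ne', by simp [hga]⟩
  set P := minpoly F g with hP
  set d := P.natDegree with hd
  have hPmonic : P.Monic := minpoly.monic hint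
  have hdvd : P ∣ X ^ n - C a := minpoly.dvd F g (by simp [hga])
  have hζ' : IsPrimitiveRoot (algebraMap K F' ζ) n :=
    hζ.map_of_injective (algebraMap K F').injective
  have hfac : (X ^ n - C (algebraMap F F' a) : F'[X]) =
      ∏ i ∈ Finset.range n, (X - C ((algebraMap K F' ζ) ^ i * g)) :=
    X_pow_sub_C_eq_prod hζ' hn hga
  have hdvd' : P.map (algebraMap F F') ∣ X ^ n - C (algebraMap F F' a) := by
    have := Polynomial.map_dvd (algebraMap F F') hdvd
    simpa using this
  have hne : (X ^ n - C (algebraMap F F' a) : F'[X]) ≠ 0 := (monic_X_pow_sub_C _ hn.ne').ne_zero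
  have hsplitsBig : (X ^ n - C (algebraMap F F' a) : F'[X]).Splits := by
    rw [hfac]
    exact Splits.prod fun i _ => Splits.X_sub_C _
  have hsplits : (P.map (algebraMap F F')).Splits := hsplitsBig.of_dvd hne hdvd'
  have hmonic' : (P.map (algebraMap F F')).Monic := hPmonic.map _
  have hcoeff := hsplits.coeff_zero_eq_prod_roots_of_monic hmonic'
  have hcard : Multiset.card (P.map (algebraMap F F')).roots = d := by
    rw [← hsplits.natDegree_eq_card_roots, natDegree_map]
  have hroots : ∀ x ∈ (P.map (algebraMap F F')).roots,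
      ∃ c : K, c ≠ 0 ∧ x = algebraMap K F' c * g := by
    intro x hx
    have hx0 : (P.map (algebraMap F F')).eval x = 0 := (mem_roots hmonic'.ne_zero).mp hx
    have hx1 : (X ^ n - C (algebraMap F F' a) : F'[X]).eval x = 0 := by
      obtain ⟨Q, hQ⟩ := hdvd'
      rw [hQ, eval_mul, hx0, zero_mul]
    have hxn : x ^ n = g ^ n := by
      rw [hga]
      simpa [sub_eq_zero] using hx1
    have hq : (x / g) ^ n = 1 := by
      rw [div_pow, hxn, div_self (pow_ne_zero n hg)]
    have : NeZero n := ⟨hn.ne'⟩
    obtain ⟨i, -, hi⟩ := hζ'.eq_pow_of_pow_eq_one hq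
    refine ⟨ζ ^ i, pow_ne_zero i (hζ.ne_zero hn.ne'), ?_⟩
    rw [map_pow, hi, div_mul_cancel₀ x hg]
  obtain ⟨c, hc, hprod⟩ := multiset_prod_const_mul g _ hroots
  rw [hcard] at hprod
  rw [coeff_map, natDegree_map, hprod] at hcoeff
  set u : F := (-1) ^ d * (algebraMap K F c)⁻¹ * P.coeff 0 with hu
  have hc' : algebraMap K F' c ≠ 0 := by simpa using hc
  have hgd : g ^ d = algebraMap F F' u := by
    rw [hu, map_mul, map_mul, map_pow, map_neg, map_one, map_inv₀, hcoeff,
      ← IsScalarTower.algebraMap_apply]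
    have h1 : ((-1 : F') ^ d) * ((-1 : F') ^ d) = 1 := by
      rw [← mul_pow]; simp
    calc g ^ d = ((-1 : F') ^ d * (-1 : F') ^ d) * ((algebraMap K F' c)⁻¹ * algebraMap K F' c)
          * g ^ d := by rw [h1, inv_mul_cancel₀ hc']; ring
      _ = _ := by ring
  refine ⟨u, hgd, ?_⟩
  have hdpos : 0 < d := minpoly.natDegree_pos hint
  have hQm : (X ^ d - C u : F[X]).Monic := monic_X_pow_sub_C u hdpos.ne'
  have hPQ : P ∣ X ^ d - C u := minpoly.dvd F g (by simp [hgd])
  exact (Polynomial.eq_of_monic_of_dvd_of_natDegree_le hPmonic hQm hPQ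
    (by rw [natDegree_X_pow_sub_C])).symm

end Kummer

/-! ### Norm of `g - c` when the minimal polynomial of `g` is a binomial -/

section Norm

variable {F F' : Type*} [Field F] [Field F'] [Algebra F F'] [FiniteDimensional F F']

theorem norm_sub_algebraMap_of_minpoly {g : F'} {d : ℕ} {u : F}
    (hmin : minpoly F g = X ^ d - C u) (c : F) :
    ∃ n' : ℕ, d * n' = Module.finrank F F' ∧
      Algebra.norm F (g - algebraMap F F' c) = ((-1) ^ d * (c ^ d - u)) ^ n' := by
  set y := g - algebraMap F F' c with hy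
  have hyint : IsIntegral F y := Algebra.IsIntegral.isIntegral y
  have hminy : minpoly F y = (X ^ d - C u).comp (X + C c) := by
    rw [hy, minpoly.sub_algebraMap, hmin]
  have hdeg : (minpoly F y).natDegree = d := by
    rw [hminy, natDegree_comp, natDegree_X_pow_sub_C, natDegree_X_add_C, mul_one]
  refine ⟨Module.finrank F⟮y⟯ F', ?_, ?_⟩
  · rw [← hdeg, ← IntermediateField.adjoin.finrank hyint]
    exact Module.finrank_mul_finrank F F⟮y⟯ F'
  · rw [Algebra.norm_eq_norm_adjoin F y]
    congr 1
    have hpb := Algebra.PowerBasis.norm_gen_eq_coeff_zero_minpoly (adjoin.powerBasis hyint)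
    rw [adjoin.powerBasis_gen, adjoin.powerBasis_dim, IntermediateField.minpoly_gen, hdeg,
      hminy] at hpb
    rw [hpb]
    congr 1
    rw [coeff_zero_eq_eval_zero, eval_comp]
    simp

end Norm

/-! ### The counting step -/

section Main

variable {K F F' : Type*} [Field K] [Field F] [Field F']
  [Algebra K F] [Algebra K F'] [Algebra F F'] [IsScalarTower K F F']
  [Algebra.IsIntegral F F'] [HasPrincipalDivisors K F']

/-- If `g ^ d = u ∈ F` with minimal polynomial `X ^ d - u`, `g` is a unit at all places above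
`v₀ = w₀|F`, and `[F' : F] < 2 e(w₀)`, then `g ∈ F`. -/
theorem mem_range_of_binomial [IsAlgClosed K] [CharZero K] [Module.Finite F F']
    (hdeg : ∀ v : Place K F, v.deg = 1) (hdeg' : ∀ w : Place K F', w.deg = 1)
    (hNF : Divisor.PushforwardNormFormula K F F')
    (w₀ : Place K F') (hw₀ : Module.finrank F F' < 2 * w₀.ramificationIndex F)
    {g : F'} (hg : g ≠ 0) (hgunit : ∀ w ∈ (w₀.restrict F).fiber F', w.ord g = 0)
    {d : ℕ} (hd : 0 < d) {u : F} (hgd : g ^ d = algebraMap F F' u)
    (hmin : minpoly F g = X ^ d - C u) :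
    g ∈ Set.range (algebraMap F F') := by
  classical
  set v₀ := w₀.restrict F with hv₀
  have hw₀mem : w₀ ∈ v₀.fiber F' := Place.mem_fiber.mpr rfl
  have he₀pos : 0 < w₀.ramificationIndex F := w₀.ramificationIndex_pos (F := F)
  have hf1 := inertiaDeg_eq_one (F := F) hdeg hdeg'
  have hu0 : u ≠ 0 := by
    rintro rfl
    rw [map_zero] at hgd
    exact hg (pow_eq_zero_iff hd.ne' |>.mp hgd)
  have hordu : v₀.ord u = 0 := by
    have h1 := ord_algebraMap_of_restrict w₀ (v := v₀) rfl u
    rw [← hgd, ord_pow, hgunit w₀ hw₀mem, mul_zero] at h1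
    have h2 : (w₀.ramificationIndex F : ℤ) ≠ 0 := by exact_mod_cast he₀pos.ne'
    exact (mul_eq_zero.mp h1.symm).resolve_left h2
  obtain ⟨b, hb0, hb⟩ := exists_const_of_deg_eq_one v₀ (hdeg v₀) hu0 hordu
  obtain ⟨r, hr⟩ := IsAlgClosed.exists_pow_nat_eq b hd
  have hr0 : r ≠ 0 := by
    rintro rfl
    rw [zero_pow hd.ne'] at hr
    exact hb0 hr.symm
  have : NeZero (d : K) := ⟨by exact_mod_cast hd.ne'⟩
  obtain ⟨ζ, hζ⟩ := HasEnoughRootsOfUnity.exists_primitiveRoot K d
  have hζ' : IsPrimitiveRoot (algebraMap K F' ζ) d :=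
    hζ.map_of_injective (algebraMap K F').injective
  -- the constants and the `d` functions
  set c : ℕ → F := fun i => algebraMap K F (ζ ^ i * r) with hc
  set y : ℕ → F' := fun i => g - algebraMap F F' (c i) with hy
  have hcmap : ∀ i, algebraMap F F' (c i) = (algebraMap K F' ζ) ^ i * algebraMap K F' r := by
    intro i
    rw [hc, ← IsScalarTower.algebraMap_apply, map_mul, map_pow]
  have hcpow : ∀ i, c i ^ d = algebraMap K F b := by
    intro i
    rw [hc, ← map_pow, mul_pow, ← pow_mul, mul_comm i d, pow_mul, hζ.pow_eq_one, one_pow,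
      one_mul, hr]
  have hprod : ∏ i ∈ Finset.range d, y i = algebraMap F F' (u - algebraMap K F b) := by
    have hfac := X_pow_sub_C_eq_prod hζ' hd (rfl : (algebraMap K F' r) ^ d = _)
    have := congrArg (Polynomial.eval g) hfac
    rw [eval_prod] at this
    simp only [eval_sub, eval_pow, eval_X, eval_C] at this
    rw [map_sub, ← hgd, ← IsScalarTower.algebraMap_apply, ← hr, map_pow, this]
    refine Finset.prod_congr rfl fun i _ => ?_
    show g - algebraMap F F' (c i) = _
    rw [hcmap]
  rcases hb with hb | hb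
  · -- `u` is a constant: `g` is a constant
    rw [hb, sub_self, map_zero] at hprod
    obtain ⟨i, -, hi⟩ := Finset.prod_eq_zero_iff.mp hprod
    exact ⟨c i, (sub_eq_zero.mp hi).symm⟩
  · -- the generic case
    set t : F := u - algebraMap K F b with ht
    have ht0 : t ≠ 0 := by
      rintro h0
      rw [h0, Place.ord_zero] at hb
      exact lt_irrefl _ hb
    have hy0 : ∀ i ∈ Finset.range d, y i ≠ 0 := by
      intro i hi h0
      have : ∏ i ∈ Finset.range d, y i = 0 := Finset.prod_eq_zero hi h0
      rw [hprod] at this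
      exact ht0 (by simpa using this)
    have hsum : ∀ w ∈ v₀.fiber F', ∑ i ∈ Finset.range d, w.ord (y i)
        = (w.ramificationIndex F : ℤ) * v₀.ord t := by
      intro w hw
      rw [← ord_prod w _ _ hy0, hprod]
      exact ord_algebraMap_of_restrict w (Place.mem_fiber.mp hw) t
    have hnonneg : ∀ w ∈ v₀.fiber F', ∀ i, 0 ≤ w.ord (y i) := by
      intro w hw i
      apply ord_nonneg_of_mem
      refine sub_mem (mem_of_ord_nonneg w (hgunit w hw).ge) ?_
      rw [hc, ← IsScalarTower.algebraMap_apply]
      exact w.algebraMap_mem' _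
    have hdisj : ∀ (w : Place K F') (i j : ℕ), i < d → j < d → i ≠ j →
        0 < w.ord (y i) → 0 < w.ord (y j) → False := by
      intro w i j hi hj hij hwi hwj
      have hdiff : y j - y i = algebraMap K F' ((ζ ^ i - ζ ^ j) * r) := by
        rw [hy]
        simp only [hcmap]
        rw [map_mul, map_sub, map_pow, map_pow]
        ring
      have hne : (ζ ^ i - ζ ^ j) * r ≠ 0 := by
        refine mul_ne_zero ?_ hr0
        rw [sub_ne_zero]
        exact fun h => hij (hζ.pow_inj hi hj h)
      have hne' : y j - y i ≠ 0 := by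
        rw [hdiff]
        exact (_root_.map_ne_zero (algebraMap K F')).mpr hne
      have hpos := ord_sub_pos w hwj hwi hne'
      rw [hdiff, ord_algebraMap_eq_zero] at hpos
      exact lt_irrefl _ hpos
    -- pick the index vanishing at `w₀`
    have hex : ∃ i ∈ Finset.range d, 0 < w₀.ord (y i) := by
      by_contra hcon
      push Not at hcon
      have hzero : ∑ i ∈ Finset.range d, w₀.ord (y i) = 0 :=
        Finset.sum_eq_zero fun i hi => le_antisymm (hcon i hi) (hnonneg w₀ hw₀mem i)
      rw [hsum w₀ hw₀mem] at hzero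
      have h2 : (w₀.ramificationIndex F : ℤ) ≠ 0 := by exact_mod_cast he₀pos.ne'
      rcases mul_eq_zero.mp hzero with h | h
      · exact h2 h
      · omega
    obtain ⟨i₀, hi₀, hpos₀⟩ := hex
    have hw₀i₀ : w₀.ord (y i₀) = (w₀.ramificationIndex F : ℤ) * v₀.ord t := by
      rw [← hsum w₀ hw₀mem]
      symm
      refine Finset.sum_eq_single_of_mem i₀ hi₀ fun j hj hji => ?_
      refine le_antisymm (not_lt.mp fun hjpos => ?_) (hnonneg w₀ hw₀mem j)
      exact hdisj w₀ j i₀ (Finset.mem_range.mp hj) (Finset.mem_range.mp hi₀) hji hjpos hpos₀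
    -- the norm of `y i₀`
    obtain ⟨n', hn', hnorm⟩ := norm_sub_algebraMap_of_minpoly hmin (c i₀)
    have hordnorm : v₀.ord (Algebra.norm F (y i₀)) = (n' : ℤ) * v₀.ord t := by
      rw [hy, hnorm, ord_pow, hcpow]
      congr 1
      have hm1 : ((-1 : F) ^ d) ≠ 0 := pow_ne_zero _ (by norm_num)
      have hbt : algebraMap K F b - u = -t := by rw [ht]; ring
      have hnt : (-t : F) ≠ 0 := neg_ne_zero.mpr ht0
      rw [hbt, v₀.ord_mul hm1 hnt, ord_pow, ord_neg, ord_neg, Place.ord_one, mul_zero, zero_add]
    obtain ⟨E, hE, -⟩ := HasPrincipalDivisors.exists_divisor (K := K) (y i₀) (hy0 i₀ hi₀)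
    have hpf := hNF (y i₀) (hy0 i₀ hi₀) E hE v₀
    rw [pushforward_apply_fiber hf1, hordnorm] at hpf
    have hle : w₀.ord (y i₀) ≤ ∑ w ∈ v₀.fiber F', E w := by
      rw [← hE w₀]
      refine Finset.single_le_sum (f := fun w => E w) (fun w hw => ?_) hw₀mem
      rw [hE w]
      exact hnonneg w hw i₀
    rw [hpf, hw₀i₀] at hle
    have hle' : (w₀.ramificationIndex F : ℤ) ≤ (n' : ℤ) := le_of_mul_le_mul_right hle hb
    have hle'' : w₀.ramificationIndex F ≤ n' := by exact_mod_cast hle'
    have hd1 : d = 1 := by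
      have h1 : d * w₀.ramificationIndex F ≤ d * n' := Nat.mul_le_mul_left d hle''
      rw [hn'] at h1
      have h2 : d * w₀.ramificationIndex F < 2 * w₀.ramificationIndex F := lt_of_le_of_lt h1 hw₀
      have h3 : d < 2 := lt_of_mul_lt_mul_right h2 (Nat.zero_le _)
      omega
    have hdeg1 : (minpoly F g).natDegree = 1 := by
      rw [hmin, natDegree_X_pow_sub_C, hd1]
    exact minpoly.natDegree_eq_one_iff.mp hdeg1

/-- **Main theorem (instance form).**  `F'/F` finite of degree `n`, all places of degree one,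
functions without zeros and poles on `F'` are constants, norm formula, and a place `w₀` of `F'`
with `n < 2 e(w₀)`.  A divisor of `F` whose pullback to `F'` is principal is principal. -/
theorem isPrincipal_of_isPrincipal_pullback [IsAlgClosed K] [CharZero K] [Module.Finite F F']
    [FundamentalIdentity K F F']
    (hdeg : ∀ v : Place K F, v.deg = 1) (hdeg' : ∀ w : Place K F', w.deg = 1)
    (hconst : ∀ f : F', f ≠ 0 → (∀ w : Place K F', w.ord f = 0) →
      f ∈ Set.range (algebraMap K F'))
    (hNF : Divisor.PushforwardNormFormula K F F')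
    (w₀ : Place K F') (hw₀ : Module.finrank F F' < 2 * w₀.ramificationIndex F)
    (D : Divisor K F) (hD : (Divisor.pullback F' D).IsPrincipal) : D.IsPrincipal := by
  classical
  obtain ⟨g, hg, hDg⟩ := hD
  have hge : ∀ w : Place K F', w.ord g = (w.ramificationIndex F : ℤ) * D (w.restrict F) := by
    intro w
    rw [← hDg w, Divisor.pullback_apply]
  have hf1 := inertiaDeg_eq_one (F := F) hdeg hdeg'
  set n := Module.finrank F F' with hn
  have hnpos : 0 < n := Module.finrank_pos
  -- the norm of `g`
  set h := Algebra.norm F g with hh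
  have hh0 : h ≠ 0 := Algebra.norm_ne_zero_iff.mpr hg
  have hordh : ∀ v : Place K F, v.ord h = (n : ℤ) * D v := by
    intro v
    have h1 := hNF g hg (Divisor.pullback F' D) hDg v
    rw [pushforward_apply_fiber hf1] at h1
    rw [← h1, ← sum_ramificationIndex hdeg hdeg' v, Finset.sum_mul]
    refine Finset.sum_congr rfl fun w hw => ?_
    rw [Divisor.pullback_apply, Place.mem_fiber.mp hw]
  -- `g ^ n = c * h`
  have hhm0 : algebraMap F F' h ≠ 0 := (_root_.map_ne_zero _).mpr hh0
  have hq0 : g ^ n / algebraMap F F' h ≠ 0 := div_ne_zero (pow_ne_zero n hg) hhm0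
  have hq : ∀ w : Place K F', w.ord (g ^ n / algebraMap F F' h) = 0 := by
    intro w
    rw [ord_div w (pow_ne_zero n hg) hhm0, ord_pow, hge w,
      ord_algebraMap_of_restrict w rfl h, hordh]
    ring
  obtain ⟨c, hc⟩ := hconst _ hq0 hq
  have hgn : g ^ n = algebraMap F F' (algebraMap K F c * h) := by
    rw [map_mul, ← IsScalarTower.algebraMap_apply, hc, div_mul_cancel₀ _ hhm0]
  -- normalise at `v₀`
  set v₀ := w₀.restrict F with hv₀
  obtain ⟨π, hπ0, hπ⟩ := exists_uniformizer v₀
  set ρ : F := π ^ (-(D v₀)) with hρ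
  have hρ0 : ρ ≠ 0 := zpow_ne_zero _ hπ0
  have hρm0 : algebraMap F F' ρ ≠ 0 := (_root_.map_ne_zero _).mpr hρ0
  have hordρ : v₀.ord ρ = -(D v₀) := by
    rw [hρ, v₀.ord_zpow, hπ, mul_one]
  set g₁ : F' := g * algebraMap F F' ρ with hg₁
  have hg₁0 : g₁ ≠ 0 := mul_ne_zero hg hρm0
  have hg₁n : g₁ ^ n = algebraMap F F' (algebraMap K F c * h * ρ ^ n) := by
    rw [hg₁, mul_pow, hgn, ← map_pow, ← map_mul]
  have hg₁unit : ∀ w ∈ v₀.fiber F', w.ord g₁ = 0 := by
    intro w hw
    have hwv := Place.mem_fiber.mp hw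
    rw [hg₁, w.ord_mul hg hρm0, hge w, hwv, ord_algebraMap_of_restrict w hwv ρ, hordρ]
    ring
  -- Kummer
  have : NeZero (n : K) := ⟨by exact_mod_cast hnpos.ne'⟩
  obtain ⟨ζ, hζ⟩ := HasEnoughRootsOfUnity.exists_primitiveRoot K n
  obtain ⟨u, hgd, hmin⟩ := exists_pow_natDegree_minpoly_eq hnpos hζ hg₁0 hg₁n
  have hint : IsIntegral F g₁ := Algebra.IsIntegral.isIntegral g₁
  obtain ⟨t, ht⟩ := mem_range_of_binomial hdeg hdeg' hNF w₀ hw₀ hg₁0 hg₁unit
    (minpoly.natDegree_pos hint) hgd hmin
  -- conclusion
  have hgt : g = algebraMap F F' (t * ρ⁻¹) := by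
    rw [map_mul, ht, hg₁, map_inv₀, mul_assoc, mul_inv_cancel₀ hρm0, mul_one]
  have ht0 : t * ρ⁻¹ ≠ 0 := by
    rintro h0
    rw [h0, map_zero] at hgt
    exact hg hgt
  refine ⟨t * ρ⁻¹, ht0, fun v => ?_⟩
  obtain ⟨w, hw⟩ := fiber_nonempty hdeg hdeg' v
  have hwv := Place.mem_fiber.mp hw
  have h1 := hge w
  rw [hwv, hgt, ord_algebraMap_of_restrict w hwv] at h1
  have hepos : 0 < w.ramificationIndex F := w.ramificationIndex_pos (F := F)
  have h2 : (w.ramificationIndex F : ℤ) ≠ 0 := by exact_mod_cast hepos.ne'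
  exact (mul_left_cancel₀ h2 h1).symm

/-- `Pic0`-level form: the pullback homomorphism is injective. -/
theorem pullbackHom_injective [IsAlgClosed K] [CharZero K] [Module.Finite F F']
    [FundamentalIdentity K F F']
    (hdeg : ∀ v : Place K F, v.deg = 1) (hdeg' : ∀ w : Place K F', w.deg = 1)
    (hconst : ∀ f : F', f ≠ 0 → (∀ w : Place K F', w.ord f = 0) →
      f ∈ Set.range (algebraMap K F'))
    (hNF : Divisor.PushforwardNormFormula K F F')
    (w₀ : Place K F') (hw₀ : Module.finrank F F' < 2 * w₀.ramificationIndex F) :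
    Function.Injective (Pic0.pullbackHom (K := K) (F := F) F') := by
  rw [injective_iff_map_eq_zero]
  intro x hx
  obtain ⟨D, rfl⟩ := Pic0.mk_surjective x
  rw [Pic0.pullbackHom_mk] at hx
  have hx' : (Pic0.pullbackDegZeroHom F' D : Divisor K F') ∈
      Divisor.principal (K := K) (F := F') := by
    have := (QuotientAddGroup.eq_zero_iff _).mp hx
    simpa [AddSubgroup.mem_addSubgroupOf] using this
  rw [Pic0.coe_pullbackDegZeroHom] at hx'
  have hprin : (D : Divisor K F).IsPrincipal :=
    isPrincipal_of_isPrincipal_pullback hdeg hdeg' hconst hNF w₀ hw₀ _ hx'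
  refine (QuotientAddGroup.eq_zero_iff _).mpr ?_
  rw [AddSubgroup.mem_addSubgroupOf]
  exact hprin

end Main

/-! ### Function-field instances and `Along` forms -/

section FunctionField

variable {K F F' : Type*} [Field K] [Field F] [Field F'] [Algebra K F] [Algebra K F']

/-- On a function field over an algebraically closed field, a function without zeros is
constant. -/
theorem mem_range_of_ord_eq_zero [IsAlgClosed K] [CharZero K] (x : F)
    [FiniteDimensional K⟮x⟯ F] {f : F}
    (h : ∀ v : Place K F, v.ord f = 0) : f ∈ Set.range (algebraMap K F) := by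
  by_contra hfK
  have hft : Transcendental K f := Fermat.Agent.S24.helper204.transcendental_of_not_mem_range hfK
  haveI : FiniteDimensional K⟮f⟯ F :=
    Fermat.Agent.S24.helper204.finiteDimensional_adjoin_of_transcendental (x := x) hft
  obtain ⟨s, -, hsum⟩ := Fermat.Agent.S24.helper204.exists_finset_zeros (x := f) hft 0
  simp only [map_zero, sub_zero, h, Finset.sum_const_zero] at hsum
  have hpos : 0 < Module.finrank K⟮f⟯ F := Module.finrank_pos
  omega

variable [HasPrincipalDivisors K F']

/-- **Main theorem (`Along` form, abstract hypotheses).** -/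
theorem isPrincipal_of_isPrincipal_pullbackAlong [IsAlgClosed K] [CharZero K]
    (φ : F →ₐ[K] F') (hφ : φ.toRingHom.IsIntegral) (hfin : FiniteAlong K φ)
    (hFI : FundamentalIdentityAlong K φ hφ) (hN : NormFormulaAlong K φ hfin)
    (hdeg : ∀ v : Place K F, v.deg = 1) (hdeg' : ∀ w : Place K F', w.deg = 1)
    (hconst : ∀ f : F', f ≠ 0 → (∀ w : Place K F', w.ord f = 0) →
      f ∈ Set.range (algebraMap K F'))
    (w₀ : Place K F') (hw₀ : finrankAlong K φ < 2 * w₀.ramificationIndexAlong φ)
    (D : Divisor K F) (hD : (Divisor.pullbackAlong φ hφ D).IsPrincipal) : D.IsPrincipal := by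
  letI := algebraAlong φ
  haveI := isScalarTower_along φ
  haveI := isIntegral_along φ hφ
  haveI : Module.Finite F F' := hfin
  haveI : FundamentalIdentity K F F' := hFI
  exact isPrincipal_of_isPrincipal_pullback hdeg hdeg' hconst hN w₀ hw₀ D hD

/-- **Main theorem (`Along` form, function fields).**  `K` algebraically closed of
characteristic zero, `F` finite over `K(x)`, `F'` finite over `K(x')`, `φ : F → F'` a finite
`K`-embedding of degree `n` with a place `w₀` of `F'` of ramification index `e`, `n < 2 e`.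
Then a divisor of `F` whose pullback along `φ` is principal is principal. -/
theorem isPrincipal_of_isPrincipal_pullbackAlong_functionField [IsAlgClosed K] [CharZero K]
    (x : F) (hx : Transcendental K x) [FiniteDimensional K⟮x⟯ F]
    (x' : F') (hx' : Transcendental K x') [FiniteDimensional K⟮x'⟯ F']
    (φ : F →ₐ[K] F') (hφ : φ.toRingHom.IsIntegral) (hfin : FiniteAlong K φ)
    (hFI : FundamentalIdentityAlong K φ hφ) (hN : NormFormulaAlong K φ hfin)
    (w₀ : Place K F') (hw₀ : finrankAlong K φ < 2 * w₀.ramificationIndexAlong φ)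
    (D : Divisor K F) (hD : (Divisor.pullbackAlong φ hφ D).IsPrincipal) : D.IsPrincipal :=
  isPrincipal_of_isPrincipal_pullbackAlong φ hφ hfin hFI hN
    (Fermat.Agent.S24.helper204.place_deg_eq_one x hx)
    (Fermat.Agent.S24.helper204.place_deg_eq_one x' hx')
    (fun _ _ h => mem_range_of_ord_eq_zero x' h) w₀ hw₀ D hD

/-- Pullback on `Pic0` along a `K`-algebra homomorphism. -/
noncomputable def pic0PullbackAlong (φ : F →ₐ[K] F') (hφ : φ.toRingHom.IsIntegral)
    (hFI : FundamentalIdentityAlong K φ hφ) : Pic0 K F →+ Pic0 K F' :=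
  letI := algebraAlong φ
  haveI := isScalarTower_along φ
  haveI := isIntegral_along φ hφ
  haveI : FundamentalIdentity K F F' := hFI
  Pic0.pullbackHom F'

theorem pic0PullbackAlong_mk (φ : F →ₐ[K] F') (hφ : φ.toRingHom.IsIntegral)
    (hFI : FundamentalIdentityAlong K φ hφ) (D : Divisor.degZero (K := K) (F := F)) :
    pic0PullbackAlong φ hφ hFI (Pic0.mk D) =
      Pic0.mk ⟨Divisor.pullbackAlong φ hφ (D : Divisor K F),
        Divisor.pullbackAlong_mem_degZero φ hφ hFI D.2⟩ :=
  rfl

/-- **Injectivity on `Pic0` (`Along` form, function fields).** -/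
theorem pic0PullbackAlong_injective [IsAlgClosed K] [CharZero K]
    (x : F) (hx : Transcendental K x) [FiniteDimensional K⟮x⟯ F]
    (x' : F') (hx' : Transcendental K x') [FiniteDimensional K⟮x'⟯ F']
    (φ : F →ₐ[K] F') (hφ : φ.toRingHom.IsIntegral) (hfin : FiniteAlong K φ)
    (hFI : FundamentalIdentityAlong K φ hφ) (hN : NormFormulaAlong K φ hfin)
    (w₀ : Place K F') (hw₀ : finrankAlong K φ < 2 * w₀.ramificationIndexAlong φ) :
    Function.Injective (pic0PullbackAlong φ hφ hFI) := by
  rw [injective_iff_map_eq_zero]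
  intro y hy
  obtain ⟨D, rfl⟩ := Pic0.mk_surjective y
  rw [pic0PullbackAlong_mk] at hy
  have hy' := (QuotientAddGroup.eq_zero_iff _).mp hy
  rw [AddSubgroup.mem_addSubgroupOf] at hy'
  have hprin : (D : Divisor K F).IsPrincipal :=
    isPrincipal_of_isPrincipal_pullbackAlong_functionField x hx x' hx' φ hφ hfin hFI hN w₀ hw₀
      _ hy'
  refine (QuotientAddGroup.eq_zero_iff _).mpr ?_
  rw [AddSubgroup.mem_addSubgroupOf]
  exact hprin

end FunctionField

end Fermat.Agent.S37.helper9304
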