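/-
S37, board leaf "S37-LEVELDESC" (helper5176): LEVEL TRANSFER `N' → N` for the kernel statement
`helper8353.Stmt_Kernel N` (class form), covering both variants of the S37 plan:
  (a) `N' = N·m`, `β = heckeBetaBar Kbar N m` (`q ↦ q^m`), `β^*` INJECTIVE (route #1982 (a));
  (b) `N' = N·r`, `α = heckeAlphaBar Kbar N r` (inclusion), kernel of `α^*` killed by the degree,
      a power of `ℓ` (plan v1 #2656, modules E5/E6).

`Kbar = ℚ̄`, `FN M = modularFunctionFieldBar M`, `JZero M = Pic⁰(FN M)`.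

* `betaPic hFI : JZero N →+ JZero (N * m)`, `alphaPic hFI : JZero N →+ JZero (N * r)` :
  pull-back of divisor classes (`betaPic_mk`, `alphaPic_mk` by `rfl`);
* `betaPic_galois`, `alphaPic_galois` : `φ (σ • x) = σ • φ x` for `σ ∈ Gal(ℚ̄/ℚ)`;
* `betaPic_injective` : injectivity as soon as `[F_{Nm} : β F_N] < 2 m`
  (PICINJ `helper9304` × BETA-ADAPT `helper9343`: the cusp `∞` has ramification index `m`);
* `alphaPic_ker_torsion` : kernel of `α^*` is `ℓ`-power torsion from the norm trick;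
* `stmt_Kernel_of_transfer` : GENERAL ASSEMBLY.  If for every prime `ℓ ∤ N` and every `A` over
  `ℓ` there are a level `N'`, a Galois-equivariant `φ : JZero N →+ JZero N'` with `ℓ`-power
  torsion kernel, a Frobenius `σ` at `A` and a subgroup `W'` of `JZero N'` with
  (R1') `τ • φ x - φ x ∈ W'` (inertia), (R2') `φ (σ²x - T_ℓ σ x + ℓ x) ∈ W'` for `x : JZero N`,
  (R3') `W'` has no prime-to-`ℓ` prime torsion,
  then `helper8353.Stmt_Kernel N` holds (with `W := W'.comap φ`), hence the frozen S37.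
  The Hecke operator at level `N'` never appears.
* `stmt_Kernel_of_aux` (variant (a)), `stmt_Kernel_of_aux_alpha` (variant (b)) : instances.
-/
import Mathlib
import Fermat.Agent.S37.helper8353_TopKernel
import Fermat.Agent.S37.helper9304_PicInj
import Fermat.Agent.S37.helper9343_BetaAdapter
import Fermat.Agent.S29.helper5500_GalHecke

set_option autoImplicit false

noncomputable section

namespace Fermat.Agent.S37.helper5176

open ModularCurve AlgebraicCurve IntermediateField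
open Fermat.Agent.S24.helper24

/-- `Gal(ℚ̄/ℚ)`. -/
abbrev GQ : Type := Kbar ≃ₐ[ℚ] Kbar

/-! ## The pull-back `β_m^* : J₀(N) → J₀(N m)` -/

section Beta

variable (N m : ℕ) [NeZero N] [NeZero m]

/-- The fundamental identity along `β_m : F_N → F_{N m}` (`q ↦ q^m`). -/
abbrev BetaFI : Prop :=
  FundamentalIdentityAlong Kbar (heckeBetaBar Kbar N m) (helper5162.heckeBetaBarIntegral N m)

/-- The norm formula along `β_m : F_N → F_{N m}`. -/
abbrev BetaNF : Prop :=
  NormFormulaAlong Kbar (heckeBetaBar Kbar N m) (helper5162.finiteAlong_heckeBetaBar N m)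

variable {N m}

/-- **Pull-back of divisor classes along `β_m`**, `J₀(N) → J₀(N m)`. -/
def betaPic (hFI : BetaFI N m) : JZero N →+ JZero (N * m) :=
  helper9304.pic0PullbackAlong (heckeBetaBar Kbar N m) (helper5162.heckeBetaBarIntegral N m) hFI

theorem betaPic_mk (hFI : BetaFI N m)
    (D : Divisor.degZero (K := Kbar) (F := FN N)) :
    betaPic hFI (Pic0.mk D) =
      Pic0.mk ⟨Divisor.pullbackAlong (heckeBetaBar Kbar N m)
          (helper5162.heckeBetaBarIntegral N m) (D : Divisor Kbar (FN N)),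
        Divisor.pullbackAlong_mem_degZero _ _ hFI D.2⟩ :=
  rfl

/-- `β_m^*` commutes with the Galois action (coefficientwise on `q`-expansions). -/
theorem betaPic_galois (hFI : BetaFI N m) (σ : GQ) (x : JZero N) :
    betaPic hFI (σ • x) = σ • betaPic hFI x := by
  obtain ⟨D, rfl⟩ := Pic0.mk_surjective x
  refine congrArg Pic0.mk (Subtype.ext ?_)
  exact Fermat.Agent.S29.helper5500.pullbackAlong_smul (heckeBetaBar Kbar N m)
    (helper5162.heckeBetaBarIntegral N m) _ _
    (Fermat.Agent.S29.helper5500.intertwines_heckeBetaBar N m σ) (D : Divisor Kbar (FN N))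

theorem betaPic_galois_sub (hFI : BetaFI N m) (σ : GQ) (x : JZero N) :
    betaPic hFI (σ • x - x) = σ • betaPic hFI x - betaPic hFI x := by
  rw [map_sub, betaPic_galois]

/-- **Injectivity of `β_m^*`** when `[F_{N m} : β F_N] < 2 m`: the cusp `∞` of `X₀(N m)` has
ramification index `m` over `X₀(N)` along `β_m`, so no unramified subcover exists. -/
theorem betaPic_injective (hFI : BetaFI N m) (hNF : BetaNF N m)
    (hdeg : finrankAlong Kbar (heckeBetaBar Kbar N m) < 2 * m) :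
    Function.Injective (betaPic hFI) := by
  refine helper9304.pic0PullbackAlong_injective (jBar N)
    (Fermat.Agent.S24.helper3176.transcendental_jBar N) (jBar (N * m))
    (Fermat.Agent.S24.helper3176.transcendental_jBar (N * m)) (heckeBetaBar Kbar N m)
    (helper5162.heckeBetaBarIntegral N m) (helper5162.finiteAlong_heckeBetaBar N m) hFI hNF
    (helper9343.qPlace (N * m)) ?_
  rw [helper9343.ramificationIndexAlong_heckeBetaBar]
  exact hdeg

end Beta

/-! ## The pull-back `α_r^* : J₀(N) → J₀(N r)` along the inclusion `F_N ⊆ F_{N r}` -/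

section Alpha

variable (N r : ℕ) [NeZero N] [NeZero r]

/-- The fundamental identity along the inclusion `α_r : F_N → F_{N r}`. -/
abbrev AlphaFI : Prop :=
  FundamentalIdentityAlong Kbar (heckeAlphaBar Kbar N r) (helper5162.heckeAlphaBarIntegral N r)

/-- The norm formula along the inclusion `α_r : F_N → F_{N r}`. -/
abbrev AlphaNF : Prop :=
  NormFormulaAlong Kbar (heckeAlphaBar Kbar N r) (helper5162.finiteAlong_heckeAlphaBar N r)

variable {N r}

/-- **Pull-back of divisor classes along the inclusion `α_r`**, `J₀(N) → J₀(N r)`. -/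
def alphaPic (hFI : AlphaFI N r) : JZero N →+ JZero (N * r) :=
  helper9304.pic0PullbackAlong (heckeAlphaBar Kbar N r) (helper5162.heckeAlphaBarIntegral N r) hFI

theorem alphaPic_mk (hFI : AlphaFI N r)
    (D : Divisor.degZero (K := Kbar) (F := FN N)) :
    alphaPic hFI (Pic0.mk D) =
      Pic0.mk ⟨Divisor.pullbackAlong (heckeAlphaBar Kbar N r)
          (helper5162.heckeAlphaBarIntegral N r) (D : Divisor Kbar (FN N)),
        Divisor.pullbackAlong_mem_degZero _ _ hFI D.2⟩ :=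
  rfl

/-- `α_r^*` commutes with the Galois action. -/
theorem alphaPic_galois (hFI : AlphaFI N r) (σ : GQ) (x : JZero N) :
    alphaPic hFI (σ • x) = σ • alphaPic hFI x := by
  obtain ⟨D, rfl⟩ := Pic0.mk_surjective x
  refine congrArg Pic0.mk (Subtype.ext ?_)
  exact Fermat.Agent.S29.helper5500.pullbackAlong_smul (heckeAlphaBar Kbar N r)
    (helper5162.heckeAlphaBarIntegral N r) _ _
    (Fermat.Agent.S29.helper5500.intertwines_heckeAlphaBar N r σ) (D : Divisor Kbar (FN N))

/-- The kernel of `α_r^*` is `ℓ`-power torsion as soon as it is killed by the degree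
`[F_{N r} : F_N]` (NORMTRICK, plan module E5) and that degree is a power of `ℓ`. -/
theorem alphaPic_ker_torsion (hFI : AlphaFI N r) {ℓ k : ℕ}
    (hdeg : finrankAlong Kbar (heckeAlphaBar Kbar N r) = ℓ ^ k)
    (hNT : ∀ x : JZero N, alphaPic hFI x = 0 →
      finrankAlong Kbar (heckeAlphaBar Kbar N r) • x = 0)
    (x : JZero N) (hx : alphaPic hFI x = 0) : ∃ k : ℕ, ℓ ^ k • x = 0 :=
  ⟨k, by rw [← hdeg]; exact hNT x hx⟩

end Alpha

/-! ## Assembly at the level of divisor classes -/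

section Assembly

variable (N : ℕ) [NeZero N]

/-- An element killed by a prime `q` and by a power of a different prime `ℓ` is zero. -/
theorem eq_zero_of_prime_nsmul_of_pow_nsmul {G : Type*} [AddCommGroup G] {q ℓ k : ℕ}
    (hq : q.Prime) (hℓ : ℓ.Prime) (hqℓ : q ≠ ℓ) {x : G} (hqx : q • x = 0)
    (hℓx : ℓ ^ k • x = 0) : x = 0 := by
  have hcop : Nat.Coprime q (ℓ ^ k) :=
    Nat.Coprime.pow_right k ((Nat.coprime_primes hq hℓ).2 hqℓ)
  have h1 : ((q : ℤ) * Nat.gcdA q (ℓ ^ k) + ((ℓ ^ k : ℕ) : ℤ) * Nat.gcdB q (ℓ ^ k)) • x = x := by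
    rw [← Nat.gcd_eq_gcd_ab, hcop.gcd_eq_one, Nat.cast_one, one_smul]
  rw [← h1, add_smul, mul_comm (q : ℤ), mul_comm ((ℓ ^ k : ℕ) : ℤ), mul_smul, mul_smul,
    natCast_zsmul, natCast_zsmul, hqx, hℓx, smul_zero, smul_zero, add_zero]

/-- **Level transfer, general class form.**  Let, for every prime `ℓ ∤ N` and `A` over `ℓ`,
`φ : J₀(N) → J₀(N')` be a Galois-equivariant homomorphism whose kernel is `ℓ`-power torsion
(`N'` and `φ` may depend on `ℓ`, `A`), and let `W'` be a subgroup of `J₀(N')` with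
(R1') `τ • φ x - φ x ∈ W'` for `τ` in the inertia group, (R2') `φ (σ²x - T_ℓ(σ x) + ℓ x) ∈ W'`,
(R3') `W'` has no `q`-torsion for the primes `q ≠ ℓ`.  Then the kernel statement holds at level
`N` with `W := W'.comap φ`.  Only the Hecke operator of level `N` appears. -/
theorem stmt_Kernel_of_transfer
    (h : ∀ ℓ : ℕ, ∀ hℓ : ℓ.Prime, ¬ ℓ ∣ N →
      ∀ A : ValuationSubring Kbar, A.LiesOverPrime ℓ →
        ∃ (N' : ℕ) (_ : NeZero N') (φ : JZero N →+ JZero N'),
          (∀ (τ : GQ) (x : JZero N), φ (τ • x) = τ • φ x) ∧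
          (∀ x : JZero N, φ x = 0 → ∃ k : ℕ, ℓ ^ k • x = 0) ∧
          ∃ σ : GQ, A.IsFrobeniusAt σ ℓ ∧ ∃ W' : AddSubgroup (JZero N'),
            (∀ τ ∈ A.inertiaSubgroupIn ℚ, ∀ x : JZero N, τ • φ x - φ x ∈ W') ∧
            (∀ x : JZero N,
              φ (σ • σ • x - heckeOperatorBar N ⟨ℓ, hℓ⟩ (σ • x) + ℓ • x) ∈ W') ∧
            (∀ q : ℕ, q.Prime → q ≠ ℓ → ∀ y ∈ W', q • y = 0 → y = 0)) :
    helper8353.Stmt_Kernel N := by
  intro ℓ hℓ hℓN A hA
  obtain ⟨N', hN', φ, hgal, hker, σ, hσ, W', h1, h2, h3⟩ := h ℓ hℓ hℓN A hA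
  refine ⟨σ, hσ, W'.comap φ, ?_, ?_, ?_⟩
  · intro τ hτ x
    rw [AddSubgroup.mem_comap, map_sub, hgal]
    exact h1 τ hτ x
  · intro x
    rw [AddSubgroup.mem_comap]
    exact h2 x
  · intro q hq hqℓ x hx hqx
    rw [AddSubgroup.mem_comap] at hx
    have h0 : φ x = 0 := by
      refine h3 q hq hqℓ _ hx ?_
      rw [← map_nsmul, hqx, map_zero]
    obtain ⟨k, hk⟩ := hker x h0
    exact eq_zero_of_prime_nsmul_of_pow_nsmul hq hℓ hqℓ hqx hk

/-- **Level descent along `β_m` (`q ↦ q^m`), class form.**  A kernel at the auxiliary level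
`N·m` (with `m` allowed to depend on `ℓ` and `A`) gives the kernel statement at level `N`,
provided `β_m^*` is injective (`betaPic_injective`). -/
theorem stmt_Kernel_of_aux
    (h : ∀ ℓ : ℕ, ∀ hℓ : ℓ.Prime, ¬ ℓ ∣ N →
      ∀ A : ValuationSubring Kbar, A.LiesOverPrime ℓ →
        ∃ (m : ℕ) (_ : NeZero m) (hFI : BetaFI N m), Function.Injective (betaPic hFI) ∧
          ∃ σ : GQ, A.IsFrobeniusAt σ ℓ ∧ ∃ W' : AddSubgroup (JZero (N * m)),
            (∀ τ ∈ A.inertiaSubgroupIn ℚ, ∀ y : JZero (N * m), τ • y - y ∈ W') ∧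
            (∀ x : JZero N,
              betaPic hFI (σ • σ • x - heckeOperatorBar N ⟨ℓ, hℓ⟩ (σ • x) + ℓ • x) ∈ W') ∧
            (∀ q : ℕ, q.Prime → q ≠ ℓ → ∀ y ∈ W', q • y = 0 → y = 0)) :
    helper8353.Stmt_Kernel N := by
  refine stmt_Kernel_of_transfer N fun ℓ hℓ hℓN A hA => ?_
  obtain ⟨m, hm, hFI, hinj, σ, hσ, W', h1, h2, h3⟩ := h ℓ hℓ hℓN A hA
  refine ⟨N * m, inferInstance, betaPic hFI, betaPic_galois hFI, ?_, σ, hσ, W',
    fun τ hτ x => h1 τ hτ _, h2, h3⟩
  intro x hx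
  exact ⟨0, by rw [pow_zero, one_smul]; exact hinj (by rw [hx, map_zero])⟩

/-- **Level transfer along the inclusion `α_r : F_N ⊆ F_{N r}`, class form** (plan v1 with
`N' = N r`, `[F_{N r} : F_N]` a power of `ℓ`): a kernel at level `N·r` gives the kernel statement
at level `N`, provided the kernel of `α_r^*` is `ℓ`-power torsion (`alphaPic_ker_torsion`). -/
theorem stmt_Kernel_of_aux_alpha
    (h : ∀ ℓ : ℕ, ∀ hℓ : ℓ.Prime, ¬ ℓ ∣ N →
      ∀ A : ValuationSubring Kbar, A.LiesOverPrime ℓ →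
        ∃ (r : ℕ) (_ : NeZero r) (hFI : AlphaFI N r),
          (∀ x : JZero N, alphaPic hFI x = 0 → ∃ k : ℕ, ℓ ^ k • x = 0) ∧
          ∃ σ : GQ, A.IsFrobeniusAt σ ℓ ∧ ∃ W' : AddSubgroup (JZero (N * r)),
            (∀ τ ∈ A.inertiaSubgroupIn ℚ, ∀ y : JZero (N * r), τ • y - y ∈ W') ∧
            (∀ x : JZero N,
              alphaPic hFI (σ • σ • x - heckeOperatorBar N ⟨ℓ, hℓ⟩ (σ • x) + ℓ • x) ∈ W') ∧
            (∀ q : ℕ, q.Prime → q ≠ ℓ → ∀ y ∈ W', q • y = 0 → y = 0)) :
    helper8353.Stmt_Kernel N := by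
  refine stmt_Kernel_of_transfer N fun ℓ hℓ hℓN A hA => ?_
  obtain ⟨r, hr, hFI, hker, σ, hσ, W', h1, h2, h3⟩ := h ℓ hℓ hℓN A hA
  exact ⟨N * r, inferInstance, alphaPic hFI, alphaPic_galois hFI, hker, σ, hσ, W',
    fun τ hτ x => h1 τ hτ _, h2, h3⟩

end Assembly

end Fermat.Agent.S37.helper5176

end
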