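import Fermat.Agent.S37.helper2025_GaloisPoints

/-!
# Point-level specialisation versus Galois, part 2: full `A`-charts (helper2025, S37-GALPT2)

Extension of `helper2025_GaloisPoints` (which is not modified) to charts consisting of
functions with NON-rational coefficients (full `A`-charts), and to the LOCAL chart at infinity.

* `sameResidueOn_smul_self` / `sameResidueOn_inertia'` : inertia does not move reductions, for a
  chart `R` stable under `τ⁻¹` with `τ⁻¹ f - f ∈ 𝔪_A · R`;
* `SameResidueOn.smul` / `SameResidueOn.galois'` : decomposition group stability;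
* `intChart G`, `finChart A t`, `infChart A u` and their Galois stability;
* `finChart_or_infChart` : every place is of finite type or of infinite type;
* the corresponding statements for `specKernel`.
-/

set_option autoImplicit false

noncomputable section

open AlgebraicCurve ModularCurve

namespace Fermat.Agent.S37.helper2025

section Generic

open scoped Pointwise

variable {K F : Type*} [Field K] [Field F] [Algebra K F]

/-- the value of `f` at `g • v` is the image under the base automorphism of the value of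
`g⁻¹ • f` at `v` (no rationality assumption). -/
theorem HasValueAt.smul_of_inv {v : Place K F} {f : F} {a : K} (g : SemilinearAut K F)
    (h : HasValueAt v (g⁻¹ • f) a) : HasValueAt (g • v) f (SemilinearAut.baseAut g a) := by
  have h1 := h.smul g
  rwa [smul_inv_smul] at h1

/-- a chart stable under `g⁻¹` is preserved by `g`, when the base automorphism preserves `A`. -/
theorem InChart.smul {A : ValuationSubring K} {R : Set F} (g : SemilinearAut K F)
    (hA : ∀ a ∈ A, SemilinearAut.baseAut g a ∈ A) (hst : ∀ f ∈ R, g⁻¹ • f ∈ R)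
    {v : Place K F} (hv : InChart A R v) : InChart A R (g • v) := by
  intro f hf
  obtain ⟨a, ha, h⟩ := hv (g⁻¹ • f) (hst f hf)
  exact ⟨SemilinearAut.baseAut g a, hA a ha, h.smul_of_inv g⟩

/-- DECOMPOSITION-TYPE STABILITY: if the base automorphism of `g` preserves `A` and its maximal
ideal and the chart `R` is stable under `g⁻¹`, then `g` preserves the relation "same residue map
on `R`". -/
theorem SameResidueOn.smul {A : ValuationSubring K} {R : Set F} (g : SemilinearAut K F)
    (hA : ∀ a ∈ A, SemilinearAut.baseAut g a ∈ A)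
    (hm : ∀ a : K, A.valuation a < 1 → A.valuation (SemilinearAut.baseAut g a) < 1)
    (hst : ∀ f ∈ R, g⁻¹ • f ∈ R) {v w : Place K F} (h : SameResidueOn A R v w) :
    SameResidueOn A R (g • v) (g • w) := by
  refine ⟨h.1.smul g hA hst, h.2.1.smul g hA hst, fun f hf a' b' ha' hb' => ?_⟩
  obtain ⟨a, _, ha⟩ := h.1 (g⁻¹ • f) (hst f hf)
  obtain ⟨b, _, hb⟩ := h.2.1 (g⁻¹ • f) (hst f hf)
  rw [ha'.unique (ha.smul_of_inv g), hb'.unique (hb.smul_of_inv g), ← map_sub]
  exact hm _ (h.2.2 (g⁻¹ • f) (hst f hf) a b ha hb)

/-- INERTIA-TYPE INVARIANCE: if the base automorphism of `g` is congruent to the identity on `A`,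
the chart `R` is stable under `g⁻¹`, and `g⁻¹ • f - f ∈ 𝔪_A · R` for all `f ∈ R`, then `g • v`
and `v` have the same residue map on `R`. -/
theorem sameResidueOn_smul_self {A : ValuationSubring K} {R : Set F} (g : SemilinearAut K F)
    (hA : ∀ a ∈ A, SemilinearAut.baseAut g a ∈ A)
    (hI : ∀ a ∈ A, A.valuation (SemilinearAut.baseAut g a - a) < 1)
    (hst : ∀ f ∈ R, g⁻¹ • f ∈ R)
    (hcong : ∀ f ∈ R, ∃ c : K, A.valuation c < 1 ∧ ∃ h ∈ R, g⁻¹ • f - f = algebraMap K F c * h)
    {v : Place K F} (hv : InChart A R v) : SameResidueOn A R (g • v) v := by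
  refine ⟨hv.smul g hA hst, hv, fun f hf a' b ha' hb => ?_⟩
  obtain ⟨b', hb'A, hb'⟩ := hv (g⁻¹ • f) (hst f hf)
  obtain ⟨c, hc, h, hh, e⟩ := hcong f hf
  obtain ⟨d, hdA, hd⟩ := hv h hh
  -- `b' - b = c * d`
  have h1 : HasValueAt v (g⁻¹ • f - f) (b' - b) := hb'.sub hb
  rw [e] at h1
  have h2 : b' - b = c * d := h1.unique ((hasValueAt_algebraMap v c).mul hd)
  have h3 : A.valuation (b' - b) < 1 := by
    rw [h2, map_mul]
    exact lt_of_le_of_lt (mul_le_of_le_one_right' ((A.valuation_le_one_iff d).mpr hdA)) hc
  rw [ha'.unique (hb'.smul_of_inv g)]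
  have e2 : SemilinearAut.baseAut g b' - b = (SemilinearAut.baseAut g b' - b') + (b' - b) := by
    ring
  rw [e2]
  exact lt_of_le_of_lt (Valuation.map_add _ _ _) (max_lt (hI b' hb'A) h3)

end Generic

section IntChart

variable {K F : Type*} [Field K] [Field F] [Algebra K F]

/-- the chart of all functions integral over the ring generated by `G`. -/
def intChart (G : Set F) : Set F := {f | IsIntegral (Subring.closure G) f}

theorem mem_intChart {G : Set F} {f : F} :
    f ∈ intChart G ↔ IsIntegral (Subring.closure G) f := Iff.rfl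

theorem mem_intChart_of_mem_closure {G : Set F} {f : F} (hf : f ∈ Subring.closure G) :
    f ∈ intChart G :=
  isIntegral_algebraMap (R := Subring.closure G) (A := F) (x := ⟨f, hf⟩)

theorem subset_intChart (G : Set F) : G ⊆ intChart G :=
  fun _ hf => mem_intChart_of_mem_closure (Subring.subset_closure hf)

theorem intChart_add {G : Set F} {f g : F} (hf : f ∈ intChart G) (hg : g ∈ intChart G) :
    f + g ∈ intChart G := IsIntegral.add hf hg

theorem intChart_mul {G : Set F} {f g : F} (hf : f ∈ intChart G) (hg : g ∈ intChart G) :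
    f * g ∈ intChart G := IsIntegral.mul hf hg

theorem intChart_neg {G : Set F} {f : F} (hf : f ∈ intChart G) : -f ∈ intChart G :=
  IsIntegral.neg hf

theorem intChart_sub {G : Set F} {f g : F} (hf : f ∈ intChart G) (hg : g ∈ intChart G) :
    f - g ∈ intChart G := IsIntegral.sub hf hg

/-- a ring automorphism mapping the generators into the generated ring preserves the chart. -/
theorem ringEquiv_mem_intChart {G : Set F} (e : F ≃+* F)
    (he : ∀ x ∈ G, e x ∈ Subring.closure G) {f : F} (hf : f ∈ intChart G) :
    e f ∈ intChart G := by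
  have hS : ∀ x ∈ Subring.closure G, e x ∈ Subring.closure G := by
    intro x hx
    induction hx using Subring.closure_induction with
    | mem x hx => exact he x hx
    | zero => rw [map_zero]; exact zero_mem _
    | one => rw [map_one]; exact one_mem _
    | add x y _ _ hx hy => rw [map_add]; exact add_mem hx hy
    | neg x _ hx => rw [map_neg]; exact neg_mem hx
    | mul x y _ _ hx hy => rw [map_mul]; exact mul_mem hx hy
  let φ : Subring.closure G →+* Subring.closure G :=
    ((e : F →+* F).comp (Subring.closure G).subtype).codRestrict (Subring.closure G)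
      (fun x => hS x x.2)
  obtain ⟨p, hp, hpx⟩ := hf
  refine ⟨p.map φ, hp.map φ, ?_⟩
  rw [Polynomial.eval₂_map]
  have e1 : (algebraMap (Subring.closure G) F).comp φ
      = (e : F →+* F).comp (algebraMap (Subring.closure G) F) := rfl
  rw [e1]
  have h2 := Polynomial.hom_eval₂ p (algebraMap (Subring.closure G) F) (e : F →+* F) f
  rw [hpx, map_zero] at h2
  exact h2.symm

/-- generators of the finite `A`-chart with coordinate function `t`: the `A`-integral constants
and `t`. -/
def finGen (A : ValuationSubring K) (t : F) : Set F :=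
  algebraMap K F '' (A : Set K) ∪ {t}

/-- generators of the LOCAL `A`-chart at infinity with coordinate `u` (`= 1/t`): `A`, `u` and the
inverses of the functions `1 + u * c`, `c ∈ A[u]`. -/
def infGen (A : ValuationSubring K) (u : F) : Set F :=
  finGen A u ∪ {x | ∃ c ∈ Subring.closure (finGen A u), x = (1 + u * c)⁻¹}

/-- the finite `A`-chart: functions integral over `A[t]`. -/
def finChart (A : ValuationSubring K) (t : F) : Set F := intChart (finGen A t)

/-- the local `A`-chart at infinity: functions integral over `A[u]` localised at `1 + u A[u]`. -/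
def infChart (A : ValuationSubring K) (u : F) : Set F := intChart (infGen A u)

theorem algebraMap_mem_finGen {A : ValuationSubring K} (t : F) {a : K} (ha : a ∈ A) :
    algebraMap K F a ∈ finGen A t := Or.inl ⟨a, ha, rfl⟩

theorem self_mem_finGen (A : ValuationSubring K) (t : F) : t ∈ finGen A t := Or.inr rfl

theorem finGen_subset_infGen (A : ValuationSubring K) (u : F) : finGen A u ⊆ infGen A u :=
  Set.subset_union_left

theorem finChart_subset_infChart (A : ValuationSubring K) (u : F) :
    finChart A u ⊆ infChart A u := by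
  intro f hf
  obtain ⟨p, hp, hpx⟩ := hf
  have hle : Subring.closure (finGen A u) ≤ Subring.closure (infGen A u) :=
    Subring.closure_mono (finGen_subset_infGen A u)
  refine ⟨p.map (Subring.inclusion hle), hp.map _, ?_⟩
  rw [Polynomial.eval₂_map]
  exact hpx

/-- a place where `t` has an `A`-integral value lies in the finite chart. -/
theorem inChart_finChart (A : ValuationSubring K) (v : Place K F)
    (hv : Function.Surjective (algebraMap K v.ResidueField)) {t : F}
    (ht : ∃ a ∈ A, HasValueAt v t a) : InChart A (finChart A t) v := by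
  refine inChart_of_isIntegral_closure A v hv (finGen A t) ?_ _ (fun f hf => hf)
  rintro g (⟨a, ha, rfl⟩ | hg)
  · exact ⟨a, ha, hasValueAt_algebraMap v a⟩
  · rw [Set.mem_singleton_iff] at hg
    rw [hg]
    exact ht

/-- a place where `u` has a value in the maximal ideal of `A` lies in the local chart at
infinity. -/
theorem inChart_infChart (A : ValuationSubring K) (v : Place K F)
    (hv : Function.Surjective (algebraMap K v.ResidueField)) {u : F}
    (hu : ∃ a : K, A.valuation a < 1 ∧ HasValueAt v u a) : InChart A (infChart A u) v := by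
  obtain ⟨a, ha, hua⟩ := hu
  have haA : a ∈ A := (A.valuation_le_one_iff a).mp (le_of_lt ha)
  have hfin : ∀ g ∈ finGen A u, ∃ b ∈ A, HasValueAt v g b := by
    rintro g (⟨b, hb, rfl⟩ | hg)
    · exact ⟨b, hb, hasValueAt_algebraMap v b⟩
    · rw [Set.mem_singleton_iff] at hg
      rw [hg]
      exact ⟨a, haA, hua⟩
  have hcl : ∀ c ∈ Subring.closure (finGen A u), ∃ b ∈ A, HasValueAt v c b := by
    intro c hc
    have hle : Subring.closure (finGen A u) ≤ compositeSubring A v :=
      (Subring.closure_le).mpr (fun g hg => hfin g hg)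
    exact hle hc
  refine inChart_of_isIntegral_closure A v hv (infGen A u) ?_ _ (fun f hf => hf)
  rintro g (hg | ⟨c, hc, rfl⟩)
  · exact hfin g hg
  · obtain ⟨b, hb, hcb⟩ := hcl c hc
    have hval : HasValueAt v (1 + u * c) (1 + a * b) := (hasValueAt_one v).add (hua.mul hcb)
    have hab : A.valuation (a * b) < 1 := by
      rw [map_mul]
      exact lt_of_le_of_lt (mul_le_of_le_one_right' ((A.valuation_le_one_iff b).mpr hb)) ha
    have h1 : A.valuation (1 + a * b) = 1 := A.valuation.map_one_add_of_lt hab
    have hne : (1 + a * b) ≠ 0 := by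
      intro h0
      rw [h0, map_zero] at h1
      exact zero_ne_one h1
    refine ⟨(1 + a * b)⁻¹, ?_, hval.inv hne⟩
    rw [← A.valuation_le_one_iff, map_inv₀, h1, inv_one]

/-- FINITE TYPE OR INFINITE TYPE: every place (with residue field `K`) lies in the finite
`A`-chart with coordinate `t` or in the local `A`-chart at infinity with coordinate `t⁻¹`. -/
theorem finChart_or_infChart (A : ValuationSubring K) (v : Place K F)
    (hv : Function.Surjective (algebraMap K v.ResidueField)) (t : F) :
    InChart A (finChart A t) v ∨ InChart A (infChart A t⁻¹) v := by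
  by_cases ht : ∃ a ∈ A, HasValueAt v t a
  · exact Or.inl (inChart_finChart A v hv ht)
  · right
    apply inChart_infChart A v hv
    by_cases hmem : t ∈ v.toValuationSubring
    · obtain ⟨a, ha⟩ := exists_hasValueAt hv hmem
      have haA : a ∉ A := fun h => ht ⟨a, h, ha⟩
      have ha0 : a ≠ 0 := fun h => haA (h ▸ A.zero_mem)
      refine ⟨a⁻¹, ?_, ha.inv ha0⟩
      rw [valuation_lt_one_iff_inv_not_mem, inv_inv]
      exact Or.inr haA
    · exact ⟨0, by simp, hasValueAt_inv_zero_of_not_mem hmem⟩

/-- in the local chart at infinity a non-constant coordinate `u` takes values in the maximal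
ideal of `A` (so the finite and the infinite type exclude each other). -/
theorem valuation_lt_one_of_inChart_infChart {A : ValuationSubring K} {v : Place K F} {u : F}
    (hu : ∀ c : K, u ≠ algebraMap K F c)
    (h : InChart A (infChart A u) v) {a : K} (ha : HasValueAt v u a) : A.valuation a < 1 := by
  by_contra hlt
  rw [valuation_lt_one_iff_inv_not_mem] at hlt
  push Not at hlt
  obtain ⟨ha0, hinv⟩ := hlt
  -- the function `(1 + u * (-a⁻¹))⁻¹` belongs to the chart, but `1 + u * (-a⁻¹)` vanishes at `v`
  have hc : algebraMap K F (-a⁻¹) ∈ Subring.closure (finGen A u) :=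
    Subring.subset_closure (algebraMap_mem_finGen u (A.neg_mem _ hinv))
  have hmem : (1 + u * algebraMap K F (-a⁻¹))⁻¹ ∈ infChart A u :=
    subset_intChart _ (Or.inr ⟨_, hc, rfl⟩)
  obtain ⟨b, _, hb⟩ := h _ hmem
  have h0 : HasValueAt v (1 + u * algebraMap K F (-a⁻¹)) 0 := by
    have h00 := (hasValueAt_one v).add (ha.mul (hasValueAt_algebraMap v (-a⁻¹)))
    have e : (1 : K) + a * (-a⁻¹) = 0 := by
      rw [mul_neg, mul_inv_cancel₀ ha0, add_neg_cancel]
    rwa [e] at h00
  have hx : (1 + u * algebraMap K F (-a⁻¹)) ≠ 0 := by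
    intro hx
    apply hu a
    have haF : algebraMap K F a ≠ 0 := by simpa using ha0
    have h3 : u * (algebraMap K F a)⁻¹ = 1 := by
      rw [map_neg, map_inv₀, mul_neg] at hx
      exact (add_neg_eq_zero.mp hx).symm
    have h4 := congrArg (· * algebraMap K F a) h3
    simp only [one_mul] at h4
    rw [← h4, mul_assoc, inv_mul_cancel₀ haF, mul_one]
  have h1 : HasValueAt v (1 : F) (0 * b) := by
    have h2 := h0.mul hb
    rwa [mul_inv_cancel₀ hx] at h2
  rw [zero_mul] at h1
  exact one_ne_zero ((hasValueAt_one v).unique h1)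

end IntChart

section ArithmeticCharts

open scoped Pointwise

variable {L : Type*} [Field L] [Algebra ℚ L]
variable {F₀ : IntermediateField ℚ (LaurentSeries ℚ)}

/-- FROBENIUS ON VALUES, no rationality: `f(σ • v) = σ((σ⁻¹ f)(v)) ≡ ((σ⁻¹ f)(v))^q`. -/
theorem frobenius_value' {A : ValuationSubring L} {σ : L ≃ₐ[ℚ] L} {q : ℕ}
    (hσ : A.IsFrobeniusAt σ q) {v : Place L (laurentBaseChange L F₀)}
    {f : laurentBaseChange L F₀} {a : L} (ha : a ∈ A)
    (h : HasValueAt v ((arithmeticGalois F₀ σ)⁻¹ • f) a) :
    ∃ a' ∈ A, HasValueAt (arithmeticGalois F₀ σ • v) f a' ∧ A.valuation (a' - a ^ q) < 1 :=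
  ⟨σ a, (apply_mem_of_mem_decomposition A hσ.mem_decompositionSubgroup).mpr ha,
    h.smul_of_inv (arithmeticGalois F₀ σ), frobenius_apply_sub A hσ ha⟩

/-- decomposition group stability of `InChart` for a chart stable under `σ⁻¹`. -/
theorem InChart.galois' {A : ValuationSubring L} {R : Set (laurentBaseChange L F₀)}
    {σ : L ≃ₐ[ℚ] L} (hσ : σ ∈ A.decompositionSubgroup ℚ)
    (hst : ∀ f ∈ R, (arithmeticGalois F₀ σ)⁻¹ • f ∈ R)
    {v : Place L (laurentBaseChange L F₀)} (hv : InChart A R v) :
    InChart A R (arithmeticGalois F₀ σ • v) :=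
  hv.smul (arithmeticGalois F₀ σ)
    (fun _ ha => (apply_mem_of_mem_decomposition A hσ).mpr ha) hst

/-- decomposition group stability of `SameResidueOn` for a chart stable under `σ⁻¹`
(no rationality assumption on the functions of the chart). -/
theorem SameResidueOn.galois' {A : ValuationSubring L} {R : Set (laurentBaseChange L F₀)}
    {σ : L ≃ₐ[ℚ] L} (hσ : σ ∈ A.decompositionSubgroup ℚ)
    (hst : ∀ f ∈ R, (arithmeticGalois F₀ σ)⁻¹ • f ∈ R)
    {v w : Place L (laurentBaseChange L F₀)} (h : SameResidueOn A R v w) :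
    SameResidueOn A R (arithmeticGalois F₀ σ • v) (arithmeticGalois F₀ σ • w) :=
  h.smul (arithmeticGalois F₀ σ)
    (fun _ ha => (apply_mem_of_mem_decomposition A hσ).mpr ha)
    (fun _ ha => (valuation_apply_lt_one_iff A hσ).mpr ha) hst

/-- INERTIA DOES NOT MOVE REDUCTIONS, full `A`-chart version: `R` any chart stable under `τ⁻¹`
such that `τ⁻¹ f - f ∈ 𝔪_A · R` for all `f ∈ R` (the output shape of the kernel lemma
"`q`-expansion `≡ 0` mod `𝔪_A` implies divisible by an element of `𝔪_A` in the chart"). -/
theorem sameResidueOn_inertia' {A : ValuationSubring L} {R : Set (laurentBaseChange L F₀)}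
    {τ : L ≃ₐ[ℚ] L} (hτ : τ ∈ A.inertiaSubgroupIn ℚ)
    (hst : ∀ f ∈ R, (arithmeticGalois F₀ τ)⁻¹ • f ∈ R)
    (hcong : ∀ f ∈ R, ∃ c : L, A.valuation c < 1 ∧ ∃ h ∈ R,
      (arithmeticGalois F₀ τ)⁻¹ • f - f = algebraMap L (laurentBaseChange L F₀) c * h)
    {v : Place L (laurentBaseChange L F₀)} (hv : InChart A R v) :
    SameResidueOn A R (arithmeticGalois F₀ τ • v) v :=
  sameResidueOn_smul_self (arithmeticGalois F₀ τ)
    (fun _ ha => (apply_mem_of_mem_decomposition A
      (mem_decomposition_of_mem_inertiaSubgroupIn A hτ)).mpr ha)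
    (fun _ ha => inertia_apply_sub A hτ ha) hst hcong hv

/-- **(R1)** for chart families of full `A`-charts. -/
theorem inertia_smul_sub_mem_specKernel' {A : ValuationSubring L}
    {𝓡 : Set (Set (laurentBaseChange L F₀))} {τ : L ≃ₐ[ℚ] L} (hτ : τ ∈ A.inertiaSubgroupIn ℚ)
    (hst : ∀ R ∈ 𝓡, ∀ f ∈ R, (arithmeticGalois F₀ τ)⁻¹ • f ∈ R)
    (hcong : ∀ R ∈ 𝓡, ∀ f ∈ R, ∃ c : L, A.valuation c < 1 ∧ ∃ h ∈ R,
      (arithmeticGalois F₀ τ)⁻¹ • f - f = algebraMap L (laurentBaseChange L F₀) c * h)
    (hcov : ∀ v : Place L (laurentBaseChange L F₀), ∃ R ∈ 𝓡, InChart A R v)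
    (x : Pic0 L (laurentBaseChange L F₀)) : τ • x - x ∈ specKernel A 𝓡 := by
  rw [galois_smul_pic0_def]
  refine smul_sub_mem_relSubgroup (arithmeticGalois F₀ τ) (fun v => ?_) x
  obtain ⟨R, hR, hv⟩ := hcov v
  exact ⟨R, hR, sameResidueOn_inertia' hτ (hst R hR) (hcong R hR) hv⟩

/-- the specialisation kernel of a family of `σ⁻¹`-stable charts is stable under
`σ ∈` decomposition group (in particular under a Frobenius element). -/
theorem decomposition_smul_mem_specKernel' {A : ValuationSubring L}
    {𝓡 : Set (Set (laurentBaseChange L F₀))} {σ : L ≃ₐ[ℚ] L}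
    (hσ : σ ∈ A.decompositionSubgroup ℚ)
    (hst : ∀ R ∈ 𝓡, ∀ f ∈ R, (arithmeticGalois F₀ σ)⁻¹ • f ∈ R)
    {x : Pic0 L (laurentBaseChange L F₀)} (hx : x ∈ specKernel A 𝓡) :
    σ • x ∈ specKernel A 𝓡 := by
  rw [galois_smul_pic0_def]
  refine smul_mem_relSubgroup (arithmeticGalois F₀ σ) (fun v w hvw => ?_) hx
  obtain ⟨R, hR, h⟩ := hvw
  exact ⟨R, hR, h.galois' hσ (hst R hR)⟩

/-- the action of the arithmetic Galois group on constants. -/
theorem arithmeticGalois_smul_algebraMap (σ : L ≃ₐ[ℚ] L) (a : L) :
    arithmeticGalois F₀ σ • algebraMap L (laurentBaseChange L F₀) a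
      = algebraMap L (laurentBaseChange L F₀) (σ a) :=
  SemilinearAut.smul_algebraMap (arithmeticGalois F₀ σ) a

/-- the generators of the finite `A`-chart with rational coordinate are mapped into the
generators by the decomposition group. -/
theorem galois_smul_mem_finGen {A : ValuationSubring L} {σ : L ≃ₐ[ℚ] L}
    (hσ : σ ∈ A.decompositionSubgroup ℚ) {t : laurentBaseChange L F₀} (ht : IsRational F₀ t)
    {x : laurentBaseChange L F₀} (hx : x ∈ finGen A t) :
    arithmeticGalois F₀ σ • x ∈ finGen A t := by
  rcases hx with ⟨a, ha, rfl⟩ | hx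
  · rw [arithmeticGalois_smul_algebraMap]
    exact algebraMap_mem_finGen t ((apply_mem_of_mem_decomposition A hσ).mpr ha)
  · rw [Set.mem_singleton_iff] at hx
    rw [hx, arithmeticGalois_smul_eq_self σ ht]
    exact self_mem_finGen A t

theorem galois_smul_mem_closure_finGen {A : ValuationSubring L} {σ : L ≃ₐ[ℚ] L}
    (hσ : σ ∈ A.decompositionSubgroup ℚ) {t : laurentBaseChange L F₀} (ht : IsRational F₀ t)
    {x : laurentBaseChange L F₀} (hx : x ∈ Subring.closure (finGen A t)) :
    arithmeticGalois F₀ σ • x ∈ Subring.closure (finGen A t) := by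
  induction hx using Subring.closure_induction with
  | mem x hx => exact Subring.subset_closure (galois_smul_mem_finGen hσ ht hx)
  | zero => rw [smul_zero]; exact zero_mem _
  | one => rw [smul_one]; exact one_mem _
  | add x y _ _ hx hy => rw [smul_add]; exact add_mem hx hy
  | neg x _ hx => rw [smul_neg]; exact neg_mem hx
  | mul x y _ _ hx hy => rw [smul_mul']; exact mul_mem hx hy

/-- GALOIS STABILITY of the finite `A`-chart with rational coordinate function. -/
theorem galois_smul_mem_finChart {A : ValuationSubring L} {σ : L ≃ₐ[ℚ] L}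
    (hσ : σ ∈ A.decompositionSubgroup ℚ) {t : laurentBaseChange L F₀} (ht : IsRational F₀ t)
    {f : laurentBaseChange L F₀} (hf : f ∈ finChart A t) :
    arithmeticGalois F₀ σ • f ∈ finChart A t :=
  ringEquiv_mem_intChart (SemilinearAut.toRingAut (arithmeticGalois F₀ σ))
    (fun _ hx => Subring.subset_closure (galois_smul_mem_finGen hσ ht hx)) hf

/-- GALOIS STABILITY of the local `A`-chart at infinity with rational coordinate function. -/
theorem galois_smul_mem_infChart {A : ValuationSubring L} {σ : L ≃ₐ[ℚ] L}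
    (hσ : σ ∈ A.decompositionSubgroup ℚ) {u : laurentBaseChange L F₀} (hu : IsRational F₀ u)
    {f : laurentBaseChange L F₀} (hf : f ∈ infChart A u) :
    arithmeticGalois F₀ σ • f ∈ infChart A u := by
  refine ringEquiv_mem_intChart (SemilinearAut.toRingAut (arithmeticGalois F₀ σ)) ?_ hf
  rintro x (hx | ⟨c, hc, rfl⟩)
  · exact Subring.subset_closure (Or.inl (galois_smul_mem_finGen hσ hu hx))
  · apply Subring.subset_closure
    refine Or.inr ⟨arithmeticGalois F₀ σ • c, galois_smul_mem_closure_finGen hσ hu hc, ?_⟩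
    show arithmeticGalois F₀ σ • (1 + u * c)⁻¹ = _
    rw [smul_inv'', smul_add, smul_one, smul_mul', arithmeticGalois_smul_eq_self σ hu]

theorem inv_mem_decomposition {A : ValuationSubring L} {σ : L ≃ₐ[ℚ] L}
    (hσ : σ ∈ A.decompositionSubgroup ℚ) : σ⁻¹ ∈ A.decompositionSubgroup ℚ :=
  inv_mem hσ

/-- stability of the two standard `A`-charts under `(arithmeticGalois σ)⁻¹`, in the shape of the
hypothesis `hst` above. -/
theorem inv_smul_mem_finChart {A : ValuationSubring L} {σ : L ≃ₐ[ℚ] L}
    (hσ : σ ∈ A.decompositionSubgroup ℚ) {t : laurentBaseChange L F₀} (ht : IsRational F₀ t)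
    {f : laurentBaseChange L F₀} (hf : f ∈ finChart A t) :
    (arithmeticGalois F₀ σ)⁻¹ • f ∈ finChart A t := by
  rw [← map_inv]
  exact galois_smul_mem_finChart (inv_mem_decomposition hσ) ht hf

theorem inv_smul_mem_infChart {A : ValuationSubring L} {σ : L ≃ₐ[ℚ] L}
    (hσ : σ ∈ A.decompositionSubgroup ℚ) {u : laurentBaseChange L F₀} (hu : IsRational F₀ u)
    {f : laurentBaseChange L F₀} (hf : f ∈ infChart A u) :
    (arithmeticGalois F₀ σ)⁻¹ • f ∈ infChart A u := by
  rw [← map_inv]
  exact galois_smul_mem_infChart (inv_mem_decomposition hσ) hu hf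

/-- the family of the two standard `A`-charts attached to a coordinate function `t`. -/
def stdCharts (A : ValuationSubring L) (t : laurentBaseChange L F₀) :
    Set (Set (laurentBaseChange L F₀)) :=
  {finChart A t, infChart A t⁻¹}

/-- **(R1) for the two standard `A`-charts**: for a rational coordinate function `t`, places with
residue field `L`, and the congruence `τ⁻¹ f - f ∈ 𝔪_A · chart` on both charts, inertia acts
trivially on `Pic0` modulo the specialisation kernel of the two charts. -/
theorem inertia_smul_sub_mem_specKernel_stdCharts {A : ValuationSubring L}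
    (hres : ∀ v : Place L (laurentBaseChange L F₀),
      Function.Surjective (algebraMap L v.ResidueField))
    {t : laurentBaseChange L F₀} (ht : IsRational F₀ t)
    {τ : L ≃ₐ[ℚ] L} (hτ : τ ∈ A.inertiaSubgroupIn ℚ)
    (hcong₀ : ∀ f ∈ finChart A t, ∃ c : L, A.valuation c < 1 ∧ ∃ h ∈ finChart A t,
      (arithmeticGalois F₀ τ)⁻¹ • f - f = algebraMap L (laurentBaseChange L F₀) c * h)
    (hcong₁ : ∀ f ∈ infChart A t⁻¹, ∃ c : L, A.valuation c < 1 ∧ ∃ h ∈ infChart A t⁻¹,
      (arithmeticGalois F₀ τ)⁻¹ • f - f = algebraMap L (laurentBaseChange L F₀) c * h)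
    (x : Pic0 L (laurentBaseChange L F₀)) : τ • x - x ∈ specKernel A (stdCharts A t) := by
  have hD := mem_decomposition_of_mem_inertiaSubgroupIn A hτ
  refine inertia_smul_sub_mem_specKernel' hτ ?_ ?_ ?_ x
  · rintro R (rfl | hR) f hf
    · exact inv_smul_mem_finChart hD ht hf
    · rw [Set.mem_singleton_iff] at hR
      subst hR
      exact inv_smul_mem_infChart hD ht.inv hf
  · rintro R (rfl | hR) f hf
    · exact hcong₀ f hf
    · rw [Set.mem_singleton_iff] at hR
      subst hR
      exact hcong₁ f hf
  · intro v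
    rcases finChart_or_infChart A v (hres v) t with h | h
    · exact ⟨_, Or.inl rfl, h⟩
    · exact ⟨_, Or.inr rfl, h⟩

/-- the specialisation kernel of the two standard `A`-charts is stable under the decomposition
group of `A`. -/
theorem decomposition_smul_mem_specKernel_stdCharts {A : ValuationSubring L}
    {t : laurentBaseChange L F₀} (ht : IsRational F₀ t)
    {σ : L ≃ₐ[ℚ] L} (hσ : σ ∈ A.decompositionSubgroup ℚ)
    {x : Pic0 L (laurentBaseChange L F₀)} (hx : x ∈ specKernel A (stdCharts A t)) :
    σ • x ∈ specKernel A (stdCharts A t) := by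
  refine decomposition_smul_mem_specKernel' hσ ?_ hx
  rintro R (rfl | hR) f hf
  · exact inv_smul_mem_finChart hσ ht hf
  · rw [Set.mem_singleton_iff] at hR
    subst hR
    exact inv_smul_mem_infChart hσ ht.inv hf

end ArithmeticCharts

end Fermat.Agent.S37.helper2025
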