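import Mathlib
import Fermat.Prelude.Def_AlgebraicCurve_Correspondence

/-!
# S37-TRANSFER (helper7465)

Generic "transfer" step of the point-level route to the Eichler--Shimura congruence
(second half of (b) of route #1982): for a finite extension `F'/F` of function fields over `K`
and a valuation subring `O` of `K`, the multiset of residue homomorphisms (on a chart algebra
`B'` of `F'`) of the places above a place `v` of `F` depends only on the residue homomorphism
of `v` on a chart algebra `B` of `F`.  Consequently the pull-back of divisors maps the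
"point-level kernel" (the group generated by `[v] - [v']` with equal residue homs) at the
lower level into the point-level kernel at the upper level.

Everything is stated in the vocabulary of the Prelude (`Place`, `Place.fiber`,
`Place.ramificationIndex`, `Divisor.pullback`), and the "value of a characteristic polynomial
at a place" statement (KRON-VAL) is taken as a hypothesis in relational form.
-/

set_option autoImplicit false

noncomputable section

namespace Fermat.Agent.S37.helper7465

open AlgebraicCurve Polynomial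

/-! ## Values of functions at places -/

section Value

variable {K F : Type*} [Field K] [Field F] [Algebra K F]

/-- `f` has the value `a : K` at the place `v`: `f - a` lies in the maximal ideal of `v`. -/
def HasValueAt (v : Place K F) (f : F) (a : K) : Prop :=
  v.toValuationSubring.valuation (f - algebraMap K F a) < 1

theorem hasValueAt_iff {v : Place K F} {f : F} {a : K} :
    HasValueAt v f a ↔ v.toValuationSubring.valuation (f - algebraMap K F a) < 1 := Iff.rfl

theorem HasValueAt.mem {v : Place K F} {f : F} {a : K} (h : HasValueAt v f a) :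
    f ∈ v.toValuationSubring := by
  have h1 : f - algebraMap K F a ∈ v.toValuationSubring :=
    (v.toValuationSubring.valuation_le_one_iff _).mp h.le
  have h2 := add_mem h1 (v.algebraMap_mem' a)
  simpa using h2

theorem hasValueAt_algebraMap (v : Place K F) (a : K) : HasValueAt v (algebraMap K F a) a := by
  simp [HasValueAt]

theorem hasValueAt_zero (v : Place K F) : HasValueAt v (0 : F) (0 : K) := by
  simp [HasValueAt]

theorem hasValueAt_one (v : Place K F) : HasValueAt v (1 : F) (1 : K) := by
  simp [HasValueAt]

theorem HasValueAt.add {v : Place K F} {f g : F} {a b : K} (hf : HasValueAt v f a)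
    (hg : HasValueAt v g b) : HasValueAt v (f + g) (a + b) := by
  unfold HasValueAt at *
  have h : f + g - algebraMap K F (a + b) = (f - algebraMap K F a) + (g - algebraMap K F b) := by
    rw [map_add]; ring
  rw [h]
  exact lt_of_le_of_lt (Valuation.map_add _ _ _) (max_lt hf hg)

theorem HasValueAt.neg {v : Place K F} {f : F} {a : K} (hf : HasValueAt v f a) :
    HasValueAt v (-f) (-a) := by
  unfold HasValueAt at *
  have h : -f - algebraMap K F (-a) = -(f - algebraMap K F a) := by
    rw [map_neg]; ring
  rw [h, Valuation.map_neg]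
  exact hf

theorem HasValueAt.sub {v : Place K F} {f g : F} {a b : K} (hf : HasValueAt v f a)
    (hg : HasValueAt v g b) : HasValueAt v (f - g) (a - b) := by
  simpa [sub_eq_add_neg] using hf.add hg.neg

theorem HasValueAt.mul {v : Place K F} {f g : F} {a b : K} (hf : HasValueAt v f a)
    (hg : HasValueAt v g b) : HasValueAt v (f * g) (a * b) := by
  have hgm : v.toValuationSubring.valuation g ≤ 1 :=
    (v.toValuationSubring.valuation_le_one_iff _).mpr hg.mem
  have ham : v.toValuationSubring.valuation (algebraMap K F a) ≤ 1 :=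
    (v.toValuationSubring.valuation_le_one_iff _).mpr (v.algebraMap_mem' a)
  unfold HasValueAt at *
  have h : f * g - algebraMap K F (a * b)
      = (f - algebraMap K F a) * g + algebraMap K F a * (g - algebraMap K F b) := by
    rw [map_mul]; ring
  rw [h]
  refine lt_of_le_of_lt (Valuation.map_add _ _ _) (max_lt ?_ ?_)
  · rw [Valuation.map_mul]
    exact mul_lt_one_of_nonneg_of_lt_one_left zero_le hf hgm
  · rw [Valuation.map_mul]
    exact mul_lt_one_of_nonneg_of_lt_one_right ham zero_le hg

/-- Nonzero constants are units at every place. -/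
theorem valuation_algebraMap_eq_one (v : Place K F) {c : K} (hc : c ≠ 0) :
    v.toValuationSubring.valuation (algebraMap K F c) = 1 := by
  have h1 : v.toValuationSubring.valuation (algebraMap K F c) ≤ 1 :=
    (v.toValuationSubring.valuation_le_one_iff _).mpr (v.algebraMap_mem' c)
  have h2 : v.toValuationSubring.valuation (algebraMap K F c⁻¹) ≤ 1 :=
    (v.toValuationSubring.valuation_le_one_iff _).mpr (v.algebraMap_mem' c⁻¹)
  have h3 : v.toValuationSubring.valuation (algebraMap K F c)
      * v.toValuationSubring.valuation (algebraMap K F c⁻¹) = 1 := by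
    rw [← Valuation.map_mul, ← map_mul, mul_inv_cancel₀ hc, map_one, Valuation.map_one]
  rcases h1.lt_or_eq with h | h
  · exfalso
    have : v.toValuationSubring.valuation (algebraMap K F c)
        * v.toValuationSubring.valuation (algebraMap K F c⁻¹) < 1 :=
      mul_lt_one_of_nonneg_of_lt_one_left zero_le h h2
    exact this.ne h3
  · exact h

/-- The value of a function at a place is unique. -/
theorem HasValueAt.unique {v : Place K F} {f : F} {a b : K} (ha : HasValueAt v f a)
    (hb : HasValueAt v f b) : a = b := by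
  by_contra hab
  have hc : b - a ≠ 0 := sub_ne_zero.mpr (Ne.symm hab)
  have h1 := valuation_algebraMap_eq_one v hc
  have h2 : HasValueAt v (f - f) (a - b) := ha.sub hb
  unfold HasValueAt at h2
  have h3 : f - f - algebraMap K F (a - b) = algebraMap K F (b - a) := by
    rw [map_sub, map_sub]; ring
  rw [h3, h1] at h2
  exact lt_irrefl _ h2

/-- If the residue field of `v` is `K`, every function regular at `v` has a value. -/
theorem exists_hasValueAt (v : Place K F)
    (hres : Function.Surjective (algebraMap K v.ResidueField)) {f : F}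
    (hf : f ∈ v.toValuationSubring) : ∃ a : K, HasValueAt v f a := by
  obtain ⟨a, ha⟩ := hres (IsLocalRing.residue v.toValuationSubring ⟨f, hf⟩)
  refine ⟨a, ?_⟩
  have h1 : algebraMap K v.ResidueField a
      = IsLocalRing.residue v.toValuationSubring (algebraMap K v.toValuationSubring a) := rfl
  rw [h1] at ha
  have h2 : (⟨f, hf⟩ - algebraMap K v.toValuationSubring a : v.toValuationSubring)
      ∈ IsLocalRing.maximalIdeal v.toValuationSubring := by
    rw [← IsLocalRing.residue_eq_zero_iff, map_sub, ha, sub_self]
  rw [ValuationSubring.valuation_lt_one_iff] at h2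
  exact h2

end Value

/-! ## Valuation subrings are integrally closed (root form) -/

section Integral

variable {L : Type*} [Field L]

/-- A root of a monic polynomial with coefficients in a valuation subring lies in it. -/
theorem mem_of_monic_root (A : ValuationSubring L) (p : L[X]) (hp : p.Monic)
    (hc : ∀ i, p.coeff i ∈ A) (x : L) (hx : p.eval x = 0) : x ∈ A := by
  have hl : p ∈ Polynomial.lifts (algebraMap A L) := by
    rw [Polynomial.lifts_iff_coeff_lifts]
    intro i
    exact ⟨⟨p.coeff i, hc i⟩, rfl⟩
  obtain ⟨q, hq, -, hqm⟩ := Polynomial.lifts_and_natDegree_eq_and_monic hl hp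
  have hint : IsIntegral A x := by
    refine ⟨q, hqm, ?_⟩
    rw [← Polynomial.eval_map, hq]
    exact hx
  obtain ⟨y, hy⟩ := IsIntegrallyClosed.isIntegral_iff.mp hint
  exact hy ▸ y.2

end Integral

/-! ## Residue homomorphisms on a chart algebra -/

section Residue

variable {K F : Type*} [Field K] [Field F] [Algebra K F]

/-- The place `v` is regular on the set `S` of functions, with `O`-integral values. -/
def IsRegAt (O : ValuationSubring K) (S : Set F) (v : Place K F) : Prop :=
  ∀ f ∈ S, ∃ a : K, a ∈ O ∧ HasValueAt v f a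

/-- The places `v` and `w` are regular on `S` with `O`-integral values, and the values of every
function of `S` at `v` and at `w` have the same residue modulo the maximal ideal of `O`. -/
def SameRes (O : ValuationSubring K) (S : Set F) (v w : Place K F) : Prop :=
  ∀ f ∈ S, ∃ a b : K, a ∈ O ∧ b ∈ O ∧ HasValueAt v f a ∧ HasValueAt w f b ∧
    O.valuation (a - b) < 1

variable {O : ValuationSubring K} {S : Set F} {v w u : Place K F}

theorem SameRes.isRegAt_left (h : SameRes O S v w) : IsRegAt O S v := fun f hf => by
  obtain ⟨a, b, ha, hb, hva, hwb, hab⟩ := h f hf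
  exact ⟨a, ha, hva⟩

theorem SameRes.isRegAt_right (h : SameRes O S v w) : IsRegAt O S w := fun f hf => by
  obtain ⟨a, b, ha, hb, hva, hwb, hab⟩ := h f hf
  exact ⟨b, hb, hwb⟩

theorem SameRes.refl (h : IsRegAt O S v) : SameRes O S v v := fun f hf => by
  obtain ⟨a, ha, hva⟩ := h f hf
  exact ⟨a, a, ha, ha, hva, hva, by simp⟩

theorem SameRes.symm (h : SameRes O S v w) : SameRes O S w v := fun f hf => by
  obtain ⟨a, b, ha, hb, hva, hwb, hab⟩ := h f hf
  refine ⟨b, a, hb, ha, hwb, hva, ?_⟩
  rw [← neg_sub, Valuation.map_neg]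
  exact hab

theorem SameRes.trans (h : SameRes O S v w) (h' : SameRes O S w u) : SameRes O S v u :=
  fun f hf => by
  obtain ⟨a, b, ha, hb, hva, hwb, hab⟩ := h f hf
  obtain ⟨b', c, hb', hc, hwb', huc, hbc⟩ := h' f hf
  obtain rfl : b = b' := hwb.unique hwb'
  refine ⟨a, c, ha, hc, hva, huc, ?_⟩
  have : a - c = (a - b) + (b - c) := by ring
  rw [this]
  exact lt_of_le_of_lt (Valuation.map_add _ _ _) (max_lt hab hbc)

theorem SameRes.mono {S T : Set F} (hST : S ⊆ T) (h : SameRes O T v w) : SameRes O S v w :=
  fun f hf => h f (hST hf)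

theorem IsRegAt.mono {S T : Set F} (hST : S ⊆ T) (h : IsRegAt O T v) : IsRegAt O S v :=
  fun f hf => h f (hST hf)

/-- The value in `O` of a function of the chart at a regular place. -/
def valAt (O : ValuationSubring K) (S : Set F) (v : Place K F) (hv : IsRegAt O S v) (f : S) : O :=
  ⟨(hv f f.2).choose, (hv f f.2).choose_spec.1⟩

theorem hasValueAt_valAt (hv : IsRegAt O S v) (f : S) :
    HasValueAt v (f : F) (valAt O S v hv f : K) :=
  (hv f f.2).choose_spec.2

theorem valAt_eq (hv : IsRegAt O S v) (f : S) {a : K} (ha : HasValueAt v (f : F) a) :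
    (valAt O S v hv f : K) = a :=
  (hasValueAt_valAt hv f).unique ha

/-- The residue homomorphism `B → k` of a regular place on a chart algebra `B`. -/
def resHom (O : ValuationSubring K) (B : Subring F) (v : Place K F)
    (hv : IsRegAt O (B : Set F) v) : B →+* IsLocalRing.ResidueField O where
  toFun f := IsLocalRing.residue O (valAt O (B : Set F) v hv f)
  map_one' := by
    have h : valAt O (B : Set F) v hv (1 : B) = 1 :=
      Subtype.ext (valAt_eq hv (1 : B) (hasValueAt_one v))
    rw [h, map_one]
  map_mul' f g := by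
    have h : valAt O (B : Set F) v hv (f * g)
        = valAt O (B : Set F) v hv f * valAt O (B : Set F) v hv g :=
      Subtype.ext (valAt_eq hv (f * g) ((hasValueAt_valAt hv f).mul (hasValueAt_valAt hv g)))
    rw [h, map_mul]
  map_zero' := by
    have h : valAt O (B : Set F) v hv (0 : B) = 0 :=
      Subtype.ext (valAt_eq hv (0 : B) (hasValueAt_zero v))
    rw [h, map_zero]
  map_add' f g := by
    have h : valAt O (B : Set F) v hv (f + g)
        = valAt O (B : Set F) v hv f + valAt O (B : Set F) v hv g :=
      Subtype.ext (valAt_eq hv (f + g) ((hasValueAt_valAt hv f).add (hasValueAt_valAt hv g)))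
    rw [h, map_add]

theorem resHom_apply {B : Subring F} (hv : IsRegAt O (B : Set F) v) (f : B) :
    resHom O B v hv f = IsLocalRing.residue O (valAt O (B : Set F) v hv f) := rfl

theorem resHom_eq_of_hasValueAt {B : Subring F} (hv : IsRegAt O (B : Set F) v) (f : B) {a : K}
    (ha : a ∈ O) (hf : HasValueAt v (f : F) a) :
    resHom O B v hv f = IsLocalRing.residue O ⟨a, ha⟩ := by
  rw [resHom_apply]
  congr 1
  exact Subtype.ext (valAt_eq hv f hf)

theorem residue_eq_iff_valuation_sub_lt (a b : O) :
    IsLocalRing.residue O a = IsLocalRing.residue O b ↔ O.valuation ((a : K) - (b : K)) < 1 := by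
  rw [← sub_eq_zero, ← map_sub, IsLocalRing.residue_eq_zero_iff,
    ValuationSubring.valuation_lt_one_iff]
  rfl

/-- `SameRes` on a chart algebra means: both places regular and equal residue homs. -/
theorem sameRes_iff_resHom_eq {B : Subring F} (hv : IsRegAt O (B : Set F) v)
    (hw : IsRegAt O (B : Set F) w) :
    SameRes O (B : Set F) v w ↔ resHom O B v hv = resHom O B w hw := by
  constructor
  · intro h
    ext f
    obtain ⟨a, b, ha, hb, hva, hwb, hab⟩ := h f f.2
    rw [resHom_eq_of_hasValueAt hv f ha hva, resHom_eq_of_hasValueAt hw f hb hwb,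
      residue_eq_iff_valuation_sub_lt]
    exact hab
  · intro h f hf
    refine ⟨valAt O (B : Set F) v hv ⟨f, hf⟩, valAt O (B : Set F) w hw ⟨f, hf⟩,
      (valAt O (B : Set F) v hv ⟨f, hf⟩).2, (valAt O (B : Set F) w hw ⟨f, hf⟩).2,
      hasValueAt_valAt hv ⟨f, hf⟩, hasValueAt_valAt hw ⟨f, hf⟩, ?_⟩
    rw [← residue_eq_iff_valuation_sub_lt]
    exact congrArg (fun φ : B →+* IsLocalRing.ResidueField O => φ ⟨f, hf⟩) h

end Residue

/-! ## Combinatorics: characters are determined by their value polynomials, class by class -/

section Comb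

variable {R k ι : Type*} [CommRing R] [Field k]

open Classical in
/-- If two finite families of characters (with multiplicities) have the same value polynomial
on every element, and distinct characters can be separated by `0/1`-valued elements, then every
character occurs with the same total multiplicity in both families. -/
theorem sum_filter_eq_of_prod_eq (s t : Finset ι) (e : ι → ℕ) (ρ : ι → (R →+* k))
    (hsep : ∀ i ∈ s ∪ t, ∀ j ∈ s ∪ t, ρ i ≠ ρ j → ∃ g : R, ρ i g = 1 ∧ ρ j g = 0)
    (hprod : ∀ h : R, ∏ i ∈ s, (X - C (ρ i h)) ^ e i = ∏ i ∈ t, (X - C (ρ i h)) ^ e i)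
    (φ : R →+* k) :
    ∑ i ∈ s.filter (fun i => ρ i = φ), e i = ∑ i ∈ t.filter (fun i => ρ i = φ), e i := by
  by_cases hex : ∃ i0 ∈ s ∪ t, ρ i0 = φ
  · obtain ⟨i0, hi0, rfl⟩ := hex
    have hg : ∀ j : ι, ∃ g : R, ρ i0 g = 1 ∧ (j ∈ s ∪ t → ρ j ≠ ρ i0 → ρ j g = 0) := by
      intro j
      by_cases hj : j ∈ s ∪ t ∧ ρ j ≠ ρ i0
      · obtain ⟨g, hg1, hg2⟩ := hsep i0 hi0 j hj.1 (Ne.symm hj.2)
        exact ⟨g, hg1, fun _ _ => hg2⟩
      · exact ⟨1, map_one _, fun h1 h2 => absurd ⟨h1, h2⟩ hj⟩
    choose g hg1 hg2 using hg
    set h : R := ∏ j ∈ (s ∪ t).filter (fun j => ρ j ≠ ρ i0), g j with hh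
    have hval : ∀ i ∈ s ∪ t, ρ i h = if ρ i = ρ i0 then 1 else 0 := by
      intro i hi
      split_ifs with hc
      · rw [hc, hh, map_prod]
        exact Finset.prod_eq_one (fun j _ => hg1 j)
      · rw [hh, map_prod]
        exact Finset.prod_eq_zero (i := i) (Finset.mem_filter.mpr ⟨hi, hc⟩) (hg2 i hi hc)
    have key : ∀ u : Finset ι, u ⊆ s ∪ t →
        Multiset.count (1 : k) (∏ i ∈ u, (X - C (ρ i h)) ^ e i).roots
          = ∑ i ∈ u.filter (fun i => ρ i = ρ i0), e i := by
      intro u hu
      have hne : ∏ i ∈ u, (X - C (ρ i h)) ^ e i ≠ 0 :=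
        Finset.prod_ne_zero_iff.mpr fun i _ => pow_ne_zero _ (X_sub_C_ne_zero _)
      rw [Polynomial.roots_prod _ _ hne, Multiset.count_bind]
      change ∑ i ∈ u, Multiset.count (1 : k) (((X - C (ρ i h)) ^ e i).roots) = _
      rw [Finset.sum_filter]
      refine Finset.sum_congr rfl fun i hi => ?_
      rw [Polynomial.roots_pow, Polynomial.roots_X_sub_C, Multiset.count_nsmul, hval i (hu hi)]
      split_ifs with hc
      · simp
      · simp
    rw [← key s Finset.subset_union_left, ← key t Finset.subset_union_right, hprod h]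
  · simp only [not_exists, not_and] at hex
    rw [Finset.filter_false_of_mem (fun i hi => hex i (Finset.mem_union_left _ hi)),
      Finset.filter_false_of_mem (fun i hi => hex i (Finset.mem_union_right _ hi))]

variable {P Q : Type*}

/-- A combination of total weight zero of points that are pairwise related lies in the group
generated by the differences of related points. -/
theorem sum_single_mem_closure (r : P → P → Prop) (I : Finset P) (n : P → ℤ)
    (hr : ∀ a ∈ I, ∀ b ∈ I, r a b) (hn : ∑ a ∈ I, n a = 0) :
    ∑ a ∈ I, Finsupp.single a (n a) ∈ AddSubgroup.closure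
      {D : P →₀ ℤ | ∃ a b, r a b ∧ D = Finsupp.single a 1 - Finsupp.single b 1} := by
  rcases I.eq_empty_or_nonempty with rfl | ⟨a0, ha0⟩
  · simp
  · have h0 : ∑ a ∈ I, n a • (Finsupp.single a0 (1 : ℤ) : P →₀ ℤ) = 0 := by
      rw [← Finset.sum_smul, hn, zero_smul]
    have h1 : ∑ a ∈ I, Finsupp.single a (n a)
        = ∑ a ∈ I, n a • ((Finsupp.single a (1 : ℤ) : P →₀ ℤ) - Finsupp.single a0 1) := by
      simp_rw [smul_sub]
      rw [Finset.sum_sub_distrib, h0, sub_zero]
      refine Finset.sum_congr rfl fun a _ => ?_
      rw [Finsupp.smul_single, smul_eq_mul, mul_one]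
    rw [h1]
    refine AddSubgroup.sum_mem _ fun a ha => AddSubgroup.zsmul_mem _ ?_ _
    exact AddSubgroup.subset_closure ⟨a, a0, hr a ha a0 ha0, rfl⟩

open Classical in
/-- Class-by-class version of `sum_single_mem_closure`. -/
theorem sum_single_mem_closure_of_fiberwise (r : P → P → Prop) (I : Finset P) (n : P → ℤ)
    (key : P → Q) (hr : ∀ a ∈ I, ∀ b ∈ I, key a = key b → r a b)
    (hn : ∀ q, ∑ a ∈ I.filter (fun a => key a = q), n a = 0) :
    ∑ a ∈ I, Finsupp.single a (n a) ∈ AddSubgroup.closure
      {D : P →₀ ℤ | ∃ a b, r a b ∧ D = Finsupp.single a 1 - Finsupp.single b 1} := by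
  rw [← Finset.sum_fiberwise_of_maps_to (t := I.image key) (g := key)
    (fun x hx => Finset.mem_image_of_mem _ hx)]
  refine AddSubgroup.sum_mem _ fun q _ => ?_
  refine sum_single_mem_closure r _ n (fun a ha b hb => ?_) (hn q)
  rw [Finset.mem_filter] at ha hb
  exact hr a ha.1 b hb.1 (by rw [ha.2, hb.2])

end Comb

/-! ## The point-level kernel -/

section Kernel

variable {K F : Type*} [Field K] [Field F] [Algebra K F]

/-- The point-level kernel: the group of divisors generated by the differences `[v] - [w]` of
places with equal residue data on the set `S` of functions. -/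
def ptKernel (O : ValuationSubring K) (S : Set F) : AddSubgroup (Divisor K F) :=
  AddSubgroup.closure
    {D : Divisor K F | ∃ v w : Place K F, SameRes O S v w ∧
      D = Finsupp.single v 1 - Finsupp.single w 1}

theorem single_sub_single_mem_ptKernel {O : ValuationSubring K} {S : Set F} {v w : Place K F}
    (h : SameRes O S v w) :
    (Finsupp.single v 1 - Finsupp.single w 1 : Divisor K F) ∈ ptKernel O S :=
  AddSubgroup.subset_closure ⟨v, w, h, rfl⟩

theorem ptKernel_mono {O : ValuationSubring K} {S T : Set F} (hST : S ⊆ T) :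
    ptKernel O T ≤ ptKernel O S := by
  refine AddSubgroup.closure_mono ?_
  rintro _ ⟨v, w, h, rfl⟩
  exact ⟨v, w, h.mono hST, rfl⟩

end Kernel

/-! ## The transfer theorem -/

section Transfer

variable {K F F' : Type*} [Field K] [Field F] [Field F']
  [Algebra K F] [Algebra K F'] [Algebra F F'] [IsScalarTower K F F']
  [Algebra.IsIntegral F F'] [HasPrincipalDivisors K F']

variable (K) in
/-- Relational form of KRON-VAL (c): the coefficients of the polynomial `χ h` (in applications
the characteristic polynomial of `h` over `F`) take at a place `v` the values of the coefficients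
of `∏_{w ∣ v} (X - h(w)) ^ e(w ∣ v)`. -/
def CharpolyValueAt (S' : Set F') (χ : F' → F[X]) : Prop :=
  ∀ (v : Place K F) (h : F') (c : Place K F' → K), h ∈ S' →
    (∀ w ∈ v.fiber F', HasValueAt w h (c w)) →
    ∀ i, HasValueAt v ((χ h).coeff i)
      ((∏ w ∈ v.fiber F', (X - C (c w)) ^ w.ramificationIndex F).coeff i)

variable (O : ValuationSubring K) (B : Subring F) (B' : Subring F') (χ : F' → F[X])

/-- (T1) Places above a `B`-regular place are `B'`-regular, with `O`-integral values. -/
theorem isRegAt_of_restrict_eq
    (hmonic : ∀ h ∈ B', (χ h).Monic)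
    (hroot : ∀ h ∈ B', Polynomial.aeval h (χ h) = 0)
    (hcoeff : ∀ h ∈ B', ∀ i, (χ h).coeff i ∈ B)
    (hval : CharpolyValueAt K (B' : Set F') χ)
    (hres : ∀ w : Place K F', Function.Surjective (algebraMap K w.ResidueField))
    {v : Place K F} (hv : IsRegAt O (B : Set F) v) {w : Place K F'} (hw : w.restrict F = v) :
    IsRegAt O (B' : Set F') w := by
  intro h hh
  have hmem : ∀ u : Place K F', u.restrict F = v → h ∈ u.toValuationSubring := by
    intro u hu
    refine mem_of_monic_root u.toValuationSubring ((χ h).map (algebraMap F F'))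
      ((hmonic h hh).map _) ?_ h ?_
    · intro i
      rw [Polynomial.coeff_map]
      obtain ⟨a, -, ha⟩ := hv _ (hcoeff h hh i)
      have hm := ha.mem
      rw [← hu] at hm
      exact (Place.mem_restrict_iff u).mp hm
    · rw [Polynomial.eval_map, ← Polynomial.aeval_def]
      exact hroot h hh
  have hex : ∀ u : Place K F', ∃ c : K, u.restrict F = v → HasValueAt u h c := by
    intro u
    by_cases hu : u.restrict F = v
    · obtain ⟨c, hc⟩ := exists_hasValueAt u (hres u) (hmem u hu)
      exact ⟨c, fun _ => hc⟩
    · exact ⟨0, fun h' => absurd h' hu⟩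
  choose c hc using hex
  have hP := hval v h c hh (fun u hu => hc u (Place.mem_fiber.mp hu))
  set P : K[X] := ∏ u ∈ v.fiber F', (X - C (c u)) ^ u.ramificationIndex F with hPdef
  have hPO : ∀ i, P.coeff i ∈ O := by
    intro i
    obtain ⟨a, ha, hva⟩ := hv _ (hcoeff h hh i)
    rw [← hva.unique (hP i)]
    exact ha
  have hPm : P.Monic := monic_prod_of_monic _ _ fun u _ => (monic_X_sub_C _).pow _
  have hroot' : P.eval (c w) = 0 := by
    rw [hPdef, Polynomial.eval_prod]
    refine Finset.prod_eq_zero (Place.mem_fiber.mpr hw) ?_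
    rw [Polynomial.eval_pow, Polynomial.eval_sub, eval_X, eval_C, sub_self]
    exact zero_pow (Nat.pos_iff_ne_zero.mp (Place.ramificationIndex_pos (F := F) w))
  exact ⟨c w, mem_of_monic_root O P hPm hPO (c w) hroot', hc w hw⟩

omit [Algebra K F] [Algebra F F'] [IsScalarTower K F F'] [Algebra.IsIntegral F F']
  [HasPrincipalDivisors K F'] in
/-- Two distinct residue homs on a chart algebra containing the constants of `O` are separated
by a function with residues `1` and `0`. -/
theorem exists_resHom_eq_one_and_eq_zero (hconst : ∀ a ∈ O, algebraMap K F' a ∈ B')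
    {u u' : Place K F'} (hu : IsRegAt O (B' : Set F') u) (hu' : IsRegAt O (B' : Set F') u')
    (hne : resHom O B' u hu ≠ resHom O B' u' hu') :
    ∃ g : B', resHom O B' u hu g = 1 ∧ resHom O B' u' hu' g = 0 := by
  obtain ⟨g0, hg0⟩ : ∃ g0 : B', resHom O B' u hu g0 ≠ resHom O B' u' hu' g0 := by
    by_contra hall
    simp only [not_exists, not_not] at hall
    exact hne (RingHom.ext hall)
  set a : O := valAt O (B' : Set F') u hu g0 with ha
  set b : O := valAt O (B' : Set F') u' hu' g0 with hb
  have hab : ¬ O.valuation ((a : K) - (b : K)) < 1 := by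
    rw [← residue_eq_iff_valuation_sub_lt]
    exact hg0
  have hab1 : O.valuation ((a : K) - (b : K)) = 1 :=
    le_antisymm ((O.valuation_le_one_iff _).mpr (sub_mem a.2 b.2)) (not_lt.mp hab)
  have hab0 : (a : K) - (b : K) ≠ 0 := by
    intro h0
    rw [h0, Valuation.map_zero] at hab1
    exact zero_ne_one hab1
  set d : K := ((a : K) - (b : K))⁻¹ with hd
  have hdO : d ∈ O := by
    rw [← O.valuation_le_one_iff, hd, map_inv₀, hab1, inv_one]
  let g : B' := ⟨algebraMap K F' d, hconst d hdO⟩ * (g0 - ⟨algebraMap K F' b, hconst b b.2⟩)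
  have hgu : HasValueAt u (g : F') 1 := by
    have h1 : HasValueAt u (algebraMap K F' d * ((g0 : F') - algebraMap K F' b))
        (d * ((a : K) - (b : K))) :=
      (hasValueAt_algebraMap u d).mul ((hasValueAt_valAt hu g0).sub (hasValueAt_algebraMap u b))
    rwa [hd, inv_mul_cancel₀ hab0] at h1
  have hgu' : HasValueAt u' (g : F') 0 := by
    have h1 : HasValueAt u' (algebraMap K F' d * ((g0 : F') - algebraMap K F' b))
        (d * ((b : K) - (b : K))) :=
      (hasValueAt_algebraMap u' d).mul
        ((hasValueAt_valAt hu' g0).sub (hasValueAt_algebraMap u' b))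
    rwa [sub_self, mul_zero] at h1
  refine ⟨g, ?_, ?_⟩
  · rw [resHom_eq_of_hasValueAt hu g O.one_mem hgu]
    exact map_one _
  · rw [resHom_eq_of_hasValueAt hu' g O.zero_mem hgu']
    exact map_zero _

/-- (T2, polynomial form) If `v` and `v'` have the same residue hom on `B`, then for every
`h ∈ B'` the value polynomials of the residue homs of the two fibres agree. -/
theorem prod_resHom_eq
    (hmonic : ∀ h ∈ B', (χ h).Monic)
    (hroot : ∀ h ∈ B', Polynomial.aeval h (χ h) = 0)
    (hcoeff : ∀ h ∈ B', ∀ i, (χ h).coeff i ∈ B)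
    (hval : CharpolyValueAt K (B' : Set F') χ)
    (hres : ∀ w : Place K F', Function.Surjective (algebraMap K w.ResidueField))
    {v v' : Place K F} (hvv' : SameRes O (B : Set F) v v')
    (ρ : Place K F' → (B' →+* IsLocalRing.ResidueField O))
    (hρ : ∀ (u : Place K F') (hu : IsRegAt O (B' : Set F') u), ρ u = resHom O B' u hu)
    (h : B') :
    ∏ u ∈ v.fiber F', (X - C (ρ u h)) ^ u.ramificationIndex F
      = ∏ u ∈ v'.fiber F', (X - C (ρ u h)) ^ u.ramificationIndex F := by
  classical
  have hregv : ∀ u ∈ v.fiber F', IsRegAt O (B' : Set F') u := fun u hu =>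
    isRegAt_of_restrict_eq O B B' χ hmonic hroot hcoeff hval hres hvv'.isRegAt_left
      (Place.mem_fiber.mp hu)
  have hregv' : ∀ u ∈ v'.fiber F', IsRegAt O (B' : Set F') u := fun u hu =>
    isRegAt_of_restrict_eq O B B' χ hmonic hroot hcoeff hval hres hvv'.isRegAt_right
      (Place.mem_fiber.mp hu)
  let cO : Place K F' → O := fun u =>
    if hu : IsRegAt O (B' : Set F') u then valAt O (B' : Set F') u hu h else 0
  have hcO : ∀ (u : Place K F') (hu : IsRegAt O (B' : Set F') u),
      cO u = valAt O (B' : Set F') u hu h := fun u hu => dif_pos hu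
  have hcval : ∀ (u : Place K F'), IsRegAt O (B' : Set F') u →
      HasValueAt u (h : F') (cO u : K) := fun u hu => by
    rw [hcO u hu]
    exact hasValueAt_valAt hu h
  have hρc : ∀ (u : Place K F'), IsRegAt O (B' : Set F') u →
      ρ u h = IsLocalRing.residue O (cO u) := fun u hu => by
    rw [hρ u hu, resHom_apply, hcO u hu]
  -- the two polynomials over `O`
  set PO : Place K F → Polynomial O := fun z =>
    ∏ u ∈ z.fiber F', (X - C (cO u)) ^ u.ramificationIndex F with hPO
  have hPOmap : ∀ z : Place K F, (PO z).map (algebraMap O K)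
      = ∏ u ∈ z.fiber F', (X - C ((cO u : O) : K)) ^ u.ramificationIndex F := by
    intro z
    simp only [hPO, Polynomial.map_prod, Polynomial.map_pow, Polynomial.map_sub,
      Polynomial.map_X, Polynomial.map_C]
    rfl
  have hcoeffval : ∀ (z : Place K F), (∀ u ∈ z.fiber F', IsRegAt O (B' : Set F') u) →
      ∀ i, HasValueAt z ((χ h).coeff i) (((PO z).coeff i : O) : K) := by
    intro z hz i
    have h1 := hval z h (fun u => (cO u : K)) h.2 (fun u hu => hcval u (hz u hu)) i
    have h2 : (((PO z).coeff i : O) : K) = ((PO z).map (algebraMap O K)).coeff i := by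
      rw [Polynomial.coeff_map]
      rfl
    rw [h2, hPOmap z]
    exact h1
  have hkey : (PO v).map (IsLocalRing.residue O) = (PO v').map (IsLocalRing.residue O) := by
    ext i
    rw [Polynomial.coeff_map, Polynomial.coeff_map, residue_eq_iff_valuation_sub_lt]
    obtain ⟨a, b, ha, hb, hva, hvb, hab⟩ := hvv' _ (hcoeff h h.2 i)
    rw [← hva.unique (hcoeffval v hregv i), ← hvb.unique (hcoeffval v' hregv' i)]
    exact hab
  have hfin : ∀ (z : Place K F), (∀ u ∈ z.fiber F', IsRegAt O (B' : Set F') u) →
      ∏ u ∈ z.fiber F', (X - C (ρ u h)) ^ u.ramificationIndex F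
        = (PO z).map (IsLocalRing.residue O) := by
    intro z hz
    simp only [hPO, Polynomial.map_prod, Polynomial.map_pow, Polynomial.map_sub,
      Polynomial.map_X, Polynomial.map_C]
    exact Finset.prod_congr rfl fun u hu => by rw [hρc u (hz u hu)]
  rw [hfin v hregv, hfin v' hregv', hkey]

/-- (T3) Divisor form of the transfer: if `v` and `v'` have the same residue hom on `B`, the
pull-back of `[v] - [v']` lies in the point-level kernel of the chart `B'`. -/
theorem pullback_single_sub_single_mem_ptKernel
    (hconst : ∀ a ∈ O, algebraMap K F' a ∈ B')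
    (hmonic : ∀ h ∈ B', (χ h).Monic)
    (hroot : ∀ h ∈ B', Polynomial.aeval h (χ h) = 0)
    (hcoeff : ∀ h ∈ B', ∀ i, (χ h).coeff i ∈ B)
    (hval : CharpolyValueAt K (B' : Set F') χ)
    (hres : ∀ w : Place K F', Function.Surjective (algebraMap K w.ResidueField))
    {v v' : Place K F} (hvv' : SameRes O (B : Set F) v v') :
    Divisor.pullback F' (Finsupp.single v 1 - Finsupp.single v' 1 : Divisor K F)
      ∈ ptKernel O (B' : Set F') := by
  classical
  set I : Finset (Place K F') := v.fiber F' ∪ v'.fiber F' with hI
  have hreg : ∀ u ∈ I, IsRegAt O (B' : Set F') u := by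
    intro u hu
    rcases Finset.mem_union.mp hu with hu | hu
    · exact isRegAt_of_restrict_eq O B B' χ hmonic hroot hcoeff hval hres hvv'.isRegAt_left
        (Place.mem_fiber.mp hu)
    · exact isRegAt_of_restrict_eq O B B' χ hmonic hroot hcoeff hval hres hvv'.isRegAt_right
        (Place.mem_fiber.mp hu)
  rcases I.eq_empty_or_nonempty with hIe | ⟨w0, hw0⟩
  · have h1 : v.fiber F' = ∅ := (Finset.union_eq_empty.mp hIe).1
    have h2 : v'.fiber F' = ∅ := (Finset.union_eq_empty.mp hIe).2
    rw [map_sub, Divisor.pullback_single, Divisor.pullback_single, h1, h2]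
    simp
  · let ρ : Place K F' → (B' →+* IsLocalRing.ResidueField O) := fun u =>
      if hu : IsRegAt O (B' : Set F') u then resHom O B' u hu else resHom O B' w0 (hreg w0 hw0)
    have hρ : ∀ (u : Place K F') (hu : IsRegAt O (B' : Set F') u), ρ u = resHom O B' u hu :=
      fun u hu => dif_pos hu
    let n : Place K F' → ℤ := fun u =>
      (if u ∈ v.fiber F' then (u.ramificationIndex F : ℤ) else 0)
        - (if u ∈ v'.fiber F' then (u.ramificationIndex F : ℤ) else 0)
    have hsum : ∀ J : Finset (Place K F'), J ⊆ I →
        ∑ u ∈ J, Finsupp.single u ((u.ramificationIndex F : ℤ))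
          = ∑ u ∈ I, Finsupp.single u (if u ∈ J then (u.ramificationIndex F : ℤ) else 0) := by
      intro J hJ
      rw [← Finset.sum_subset hJ]
      · exact Finset.sum_congr rfl fun u hu => by rw [if_pos hu]
      · intro u _ hu
        rw [if_neg hu, Finsupp.single_zero]
    have hD : Divisor.pullback F' (Finsupp.single v 1 - Finsupp.single v' 1 : Divisor K F)
        = ∑ u ∈ I, Finsupp.single u (n u) := by
      rw [map_sub, Divisor.pullback_single, Divisor.pullback_single]
      simp only [one_mul, n, Finsupp.single_sub, Finset.sum_sub_distrib]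
      rw [hsum _ Finset.subset_union_left, hsum _ Finset.subset_union_right]
    rw [hD]
    refine sum_single_mem_closure_of_fiberwise _ I n ρ ?_ ?_
    · intro a ha b hb hab
      exact (sameRes_iff_resHom_eq (hreg a ha) (hreg b hb)).mpr
        (by rw [← hρ a (hreg a ha), ← hρ b (hreg b hb), hab])
    · intro φ
      have hsep : ∀ i ∈ v.fiber F' ∪ v'.fiber F', ∀ j ∈ v.fiber F' ∪ v'.fiber F', ρ i ≠ ρ j →
          ∃ g : B', ρ i g = 1 ∧ ρ j g = 0 := by
        intro i hi j hj hij
        rw [hρ i (hreg i hi), hρ j (hreg j hj)] at hij ⊢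
        exact exists_resHom_eq_one_and_eq_zero O B' hconst (hreg i hi) (hreg j hj) hij
      have hcomb := sum_filter_eq_of_prod_eq (v.fiber F') (v'.fiber F')
        (fun u => u.ramificationIndex F) ρ hsep
        (prod_resHom_eq O B B' χ hmonic hroot hcoeff hval hres hvv' ρ hρ) φ
      have hconv : ∀ J : Finset (Place K F'), J ⊆ I →
          ∑ a ∈ I.filter (fun a => ρ a = φ),
              (if a ∈ J then (a.ramificationIndex F : ℤ) else 0)
            = ((∑ a ∈ J.filter (fun a => ρ a = φ), a.ramificationIndex F : ℕ) : ℤ) := by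
        intro J hJ
        rw [← Finset.sum_filter, Nat.cast_sum]
        refine Finset.sum_congr ?_ fun _ _ => rfl
        ext a
        simp only [Finset.mem_filter]
        constructor
        · rintro ⟨⟨_, h1⟩, h2⟩
          exact ⟨h2, h1⟩
        · rintro ⟨h1, h2⟩
          exact ⟨⟨hJ h1, h2⟩, h1⟩
      simp only [n, Finset.sum_sub_distrib]
      rw [hconv _ Finset.subset_union_left, hconv _ Finset.subset_union_right, hcomb, sub_self]

/-- (T3, subgroup form) The pull-back of divisors maps the point-level kernel of the chart `B`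
into the point-level kernel of the chart `B'`. -/
theorem map_pullback_ptKernel_le
    (hconst : ∀ a ∈ O, algebraMap K F' a ∈ B')
    (hmonic : ∀ h ∈ B', (χ h).Monic)
    (hroot : ∀ h ∈ B', Polynomial.aeval h (χ h) = 0)
    (hcoeff : ∀ h ∈ B', ∀ i, (χ h).coeff i ∈ B)
    (hval : CharpolyValueAt K (B' : Set F') χ)
    (hres : ∀ w : Place K F', Function.Surjective (algebraMap K w.ResidueField)) :
    (ptKernel O (B : Set F)).map (Divisor.pullback F') ≤ ptKernel O (B' : Set F') := by
  rw [AddSubgroup.map_le_iff_le_comap, ptKernel, AddSubgroup.closure_le]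
  rintro _ ⟨v, v', hvv', rfl⟩
  exact pullback_single_sub_single_mem_ptKernel O B B' χ hconst hmonic hroot hcoeff hval hres
    hvv'

end Transfer

/-! ## Along-forms (Prelude `pullbackAlong` / `fiberAlong` / `ramificationIndexAlong`) -/

section Along

set_option linter.style.haveILetI false

variable {K F F' : Type*} [Field K] [Field F] [Field F'] [Algebra K F] [Algebra K F']
  [HasPrincipalDivisors K F']

variable (K) in
/-- `CharpolyValueAt` for the `F`-algebra structure on `F'` given by `φ`. -/
def CharpolyValueAlong (φ : F →ₐ[K] F') (hφ : φ.toRingHom.IsIntegral) (S' : Set F')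
    (χ : F' → F[X]) : Prop :=
  ∀ (v : Place K F) (h : F') (c : Place K F' → K), h ∈ S' →
    (∀ w ∈ Place.fiberAlong φ hφ v, HasValueAt w h (c w)) →
    ∀ i, HasValueAt v ((χ h).coeff i)
      ((∏ w ∈ Place.fiberAlong φ hφ v, (X - C (c w)) ^ w.ramificationIndexAlong φ).coeff i)

variable (φ : F →ₐ[K] F') (hφ : φ.toRingHom.IsIntegral)
  (O : ValuationSubring K) (B : Subring F) (B' : Subring F') (χ : F' → F[X])

/-- (T1, along `φ`) Places above a `B`-regular place are `B'`-regular. -/
theorem isRegAt_of_restrictAlong_eq
    (hmonic : ∀ h ∈ B', (χ h).Monic)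
    (hroot : ∀ h ∈ B', Polynomial.eval₂ φ.toRingHom h (χ h) = 0)
    (hcoeff : ∀ h ∈ B', ∀ i, (χ h).coeff i ∈ B)
    (hval : CharpolyValueAlong K φ hφ (B' : Set F') χ)
    (hres : ∀ w : Place K F', Function.Surjective (algebraMap K w.ResidueField))
    {v : Place K F} (hv : IsRegAt O (B : Set F) v) {w : Place K F'}
    (hw : w.restrictAlong φ hφ = v) :
    IsRegAt O (B' : Set F') w := by
  letI := algebraAlong φ
  haveI := isScalarTower_along φ
  haveI := isIntegral_along φ hφ
  exact isRegAt_of_restrict_eq O B B' χ hmonic hroot hcoeff hval hres hv hw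

/-- (T3, along `φ`) If `v` and `v'` have the same residue hom on `B`, the pull-back of
`[v] - [v']` along `φ` lies in the point-level kernel of the chart `B'`. -/
theorem pullbackAlong_single_sub_single_mem_ptKernel
    (hconst : ∀ a ∈ O, algebraMap K F' a ∈ B')
    (hmonic : ∀ h ∈ B', (χ h).Monic)
    (hroot : ∀ h ∈ B', Polynomial.eval₂ φ.toRingHom h (χ h) = 0)
    (hcoeff : ∀ h ∈ B', ∀ i, (χ h).coeff i ∈ B)
    (hval : CharpolyValueAlong K φ hφ (B' : Set F') χ)
    (hres : ∀ w : Place K F', Function.Surjective (algebraMap K w.ResidueField))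
    {v v' : Place K F} (hvv' : SameRes O (B : Set F) v v') :
    Divisor.pullbackAlong φ hφ (Finsupp.single v 1 - Finsupp.single v' 1 : Divisor K F)
      ∈ ptKernel O (B' : Set F') := by
  letI := algebraAlong φ
  haveI := isScalarTower_along φ
  haveI := isIntegral_along φ hφ
  exact pullback_single_sub_single_mem_ptKernel O B B' χ hconst hmonic hroot hcoeff hval hres
    hvv'

/-- (T3, along `φ`, subgroup form) `pullbackAlong φ` maps the point-level kernel of the chart
`B` into the point-level kernel of the chart `B'`. -/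
theorem map_pullbackAlong_ptKernel_le
    (hconst : ∀ a ∈ O, algebraMap K F' a ∈ B')
    (hmonic : ∀ h ∈ B', (χ h).Monic)
    (hroot : ∀ h ∈ B', Polynomial.eval₂ φ.toRingHom h (χ h) = 0)
    (hcoeff : ∀ h ∈ B', ∀ i, (χ h).coeff i ∈ B)
    (hval : CharpolyValueAlong K φ hφ (B' : Set F') χ)
    (hres : ∀ w : Place K F', Function.Surjective (algebraMap K w.ResidueField)) :
    (ptKernel O (B : Set F)).map (Divisor.pullbackAlong φ hφ) ≤ ptKernel O (B' : Set F') := by
  letI := algebraAlong φ
  haveI := isScalarTower_along φ
  haveI := isIntegral_along φ hφ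
  exact map_pullback_ptKernel_le O B B' χ hconst hmonic hroot hcoeff hval hres

end Along

end Fermat.Agent.S37.helper7465
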