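import Mathlib
import Fermat.Agent.S37.helper7465_Transfer
import Fermat.Agent.S37.helper2025_GaloisCharts

/-!
# S37-E1 XFER (helper869): transfer of the chart specialisation kernel to a higher level

Plan module E1 of the S37 plan: for a finite extension `φ : F → F'` of function fields over `K`
(in the application the level-raising inclusion `F_N → F_N'`) and a valuation subring `A` of `K`,
the pull-back of divisors maps the chart-type specialisation kernel of `F` (the group of divisors
generated by `[v] - [w]`, `v` and `w` with the same residue map on a chart) into the one of `F'`.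

The generic transfer theorem is `helper7465.map_pullbackAlong_ptKernel_le`; this file is its
instance for the INTEGRAL-CLOSURE CHARTS `helper2025.intChart G` (in particular for the two
standard charts `finChart A t`, `infChart A t⁻¹` of the architect's ruling), in the vocabulary
`ChartRel` / `relSubgroup` of `helper2025_GaloisPoints`:

* `isIntegral_coeff_charpoly_mulLeft` : the coefficients of the characteristic polynomial of an
  element integral over a subring `R` of the base field are integral over `R` (no hypothesis on
  `R`, any characteristic);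
* `charpolyAlong φ hfin h` and its three properties (monic, root, integral coefficients), i.e.
  the hypotheses `hmonic`, `hroot`, `hcoeff` of the generic transfer theorem;
* `map_pullbackAlong_ptKernel_intChart_le`, `..._finChart_le`, `..._infChart_le`;
* `chartDivKernel A 𝓡` (divisor-level kernel of a chart family), its description as a supremum of
  point kernels, as the kernel of `Finsupp.mapDomain (Quot.mk _)`, and its relation with
  `helper2025.relSubgroup (ChartRel A 𝓡)`;
* `map_pullbackAlong_chartDivKernel_stdCharts_le` : E1 for the two standard charts.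

The only geometric input left as a hypothesis is the fibre formula
`helper7465.CharpolyValueAlong` (plan module B4 CPF / KRON-VAL) and the triviality of the residue
fields of places (`hres`).
-/

set_option autoImplicit false
set_option linter.style.haveILetI false

noncomputable section

namespace Fermat.Agent.S37.helper869

open AlgebraicCurve Polynomial Matrix

/-! ## Coefficients of characteristic polynomials of integral elements -/

section CharpolyIntegral

/-- Every root (in an algebraic closure) of the characteristic polynomial of a matrix killed by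
a monic polynomial `p` with coefficients in `R` is a root of `p`, hence integral over `R`; so
the coefficients of the characteristic polynomial are integral over `R`. -/
theorem isIntegral_coeff_charpoly_of_aeval_eq_zero {R F : Type*} [CommRing R] [Field F]
    [Algebra R F] {n : Type*} [Fintype n] [DecidableEq n] (M : Matrix n n F) (p : R[X])
    (hp : p.Monic) (hM : aeval M p = 0) (i : ℕ) : IsIntegral R (M.charpoly.coeff i) := by
  classical
  let Ω := AlgebraicClosure F
  let ι : F →+* Ω := algebraMap F Ω
  -- the roots of the characteristic polynomial are integral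
  have hroot : ∀ μ : Ω, (M.charpoly.map ι).IsRoot μ → IsIntegral R μ := by
    intro μ hμ
    have hdet : (Matrix.scalar n μ - M.map ι).det = 0 := by
      rw [← Matrix.eval_charpoly, Matrix.charpoly_map]
      exact hμ
    obtain ⟨v, hv0, hv⟩ := Matrix.exists_mulVec_eq_zero_iff.mpr hdet
    have hMv : Matrix.toLin' (M.map ι) v = μ • v := by
      rw [Matrix.sub_mulVec] at hv
      have h1 : Matrix.scalar n μ *ᵥ v = μ • v := by
        ext j
        simp [Matrix.mulVec, dotProduct, Matrix.scalar_apply, Matrix.diagonal_apply]
      rw [h1, sub_eq_zero] at hv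
      rw [Matrix.toLin'_apply]
      exact hv.symm
    have key : aeval (Matrix.toLin' (M.map ι)) (p.map (algebraMap R Ω)) v
        = (p.map (algebraMap R Ω)).eval μ • v :=
      Module.End.aeval_apply_of_mem_apply_eq_smul hMv
    have h0 : aeval (Matrix.toLin' (M.map ι)) (p.map (algebraMap R Ω)) = 0 := by
      have e1 : aeval (Matrix.toLin' (M.map ι)) (p.map (algebraMap R Ω))
          = Matrix.toLin' (aeval (M.map ι) (p.map (algebraMap R Ω))) :=
        Polynomial.aeval_algHom_apply (Matrix.toLinAlgEquiv' : Matrix n n Ω ≃ₐ[Ω] _).toAlgHom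
          (M.map ι) (p.map (algebraMap R Ω))
      have e2 : aeval (M.map ι) (p.map (algebraMap R Ω)) = aeval (M.map ι) p :=
        Polynomial.aeval_map_algebraMap Ω (M.map ι) p
      have e3 : aeval (M.map ι) p = (aeval M p).map ι :=
        Polynomial.aeval_algHom_apply ((IsScalarTower.toAlgHom R F Ω).mapMatrix (m := n)) M p
      rw [e1, e2, e3, hM]
      simp
    rw [h0] at key
    have h2 : (p.map (algebraMap R Ω)).eval μ = 0 := by
      by_contra hne
      exact hv0 ((smul_eq_zero.mp key.symm).resolve_left hne)
    exact ⟨p, hp, by rwa [Polynomial.eval₂_eq_eval_map]⟩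
  -- the characteristic polynomial over `Ω` is the product of its linear factors
  have hmon : (M.charpoly.map ι).Monic := (Matrix.charpoly_monic M).map ι
  have hsplit : M.charpoly.map ι = ((M.charpoly.map ι).roots.map (X - C ·)).prod :=
    (IsAlgClosed.splits (M.charpoly.map ι)).eq_prod_roots_of_monic hmon
  -- a product of linear factors with integral roots has integral coefficients
  have hprod : ∀ s : Multiset Ω, (∀ a ∈ s, IsIntegral R a) →
      ∀ j, IsIntegral R ((s.map (X - C ·)).prod.coeff j) := by
    intro s
    induction s using Multiset.induction_on with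
    | empty =>
      intro _ j
      simp only [Multiset.map_zero, Multiset.prod_zero, Polynomial.coeff_one]
      split_ifs
      · exact isIntegral_one
      · exact isIntegral_zero
    | cons a s ih =>
      intro hs j
      have ha : IsIntegral R a := hs a (Multiset.mem_cons_self a s)
      have ih' := ih (fun b hb => hs b (Multiset.mem_cons_of_mem hb))
      rw [Multiset.map_cons, Multiset.prod_cons, sub_mul, Polynomial.coeff_sub,
        Polynomial.coeff_C_mul]
      refine IsIntegral.sub ?_ (ha.mul (ih' j))
      cases j with
      | zero => rw [Polynomial.coeff_X_mul_zero]; exact isIntegral_zero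
      | succ j => rw [Polynomial.coeff_X_mul]; exact ih' j
  have hc : IsIntegral R ((M.charpoly.map ι).coeff i) := by
    rw [hsplit]
    exact hprod _ (fun a ha => hroot a (Polynomial.isRoot_of_mem_roots ha)) i
  rw [Polynomial.coeff_map] at hc
  exact (isIntegral_algebraMap_iff (algebraMap F Ω).injective).mp hc

/-- **Characteristic polynomials of integral elements have integral coefficients**: for a finite
field extension `F'/F`, a ring `R` mapping to `F`, and `x : F'` integral over `R`, every
coefficient of the characteristic polynomial of the multiplication by `x` (an element of `F[X]`)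
is integral over `R`.  No hypothesis on `R` (not necessarily integrally closed, not necessarily a
domain), no hypothesis on the characteristic. -/
theorem isIntegral_coeff_charpoly_mulLeft {R F F' : Type*} [CommRing R] [Field F] [Field F']
    [Algebra R F] [Algebra F F'] [Algebra R F'] [IsScalarTower R F F'] [Module.Finite F F']
    {x : F'} (hx : IsIntegral R x) (i : ℕ) :
    IsIntegral R ((LinearMap.mulLeft F x).charpoly.coeff i) := by
  classical
  obtain ⟨p, hp, hpx⟩ := hx
  let b := Module.Free.chooseBasis F F'
  have hM : LinearMap.toMatrix b b (LinearMap.mulLeft F x) = Algebra.leftMulMatrix b x := by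
    rw [Algebra.leftMulMatrix_apply]
    rfl
  rw [LinearMap.charpoly_def]
  refine isIntegral_coeff_charpoly_of_aeval_eq_zero _ p hp ?_ i
  rw [hM]
  have e1 : aeval (Algebra.leftMulMatrix b x) p = Algebra.leftMulMatrix b (aeval x p) :=
    Polynomial.aeval_algHom_apply ((Algebra.leftMulMatrix b).restrictScalars R) x p
  rw [e1, Polynomial.aeval_def, hpx, map_zero]

end CharpolyIntegral

/-! ## The characteristic polynomial along an algebra homomorphism -/

section Along

variable {K F F' : Type*} [Field K] [Field F] [Field F'] [Algebra K F] [Algebra K F']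

/-- The characteristic polynomial over `F` of the multiplication by `h` on `F'`, for the
`F`-algebra structure on `F'` given by `φ`. -/
def charpolyAlong (φ : F →ₐ[K] F') (hfin : FiniteAlong K φ) (h : F') : F[X] :=
  letI := algebraAlong φ
  haveI : Module.Finite F F' := hfin
  (LinearMap.mulLeft F h).charpoly

theorem charpolyAlong_monic (φ : F →ₐ[K] F') (hfin : FiniteAlong K φ) (h : F') :
    (charpolyAlong φ hfin h).Monic := by
  letI := algebraAlong φ
  haveI : Module.Finite F F' := hfin
  exact LinearMap.charpoly_monic _

/-- Cayley--Hamilton: `h` is a root of its characteristic polynomial along `φ`. -/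
theorem eval₂_charpolyAlong (φ : F →ₐ[K] F') (hfin : FiniteAlong K φ) (h : F') :
    Polynomial.eval₂ φ.toRingHom h (charpolyAlong φ hfin h) = 0 := by
  letI := algebraAlong φ
  haveI : Module.Finite F F' := hfin
  have h1 : aeval (LinearMap.mulLeft F h) (LinearMap.mulLeft F h).charpoly = 0 :=
    LinearMap.aeval_self_charpoly _
  have h2 : aeval (LinearMap.mulLeft F h) (LinearMap.mulLeft F h).charpoly
      = LinearMap.mulLeft F (aeval h (LinearMap.mulLeft F h).charpoly) :=
    Polynomial.aeval_algHom_apply (Algebra.lmul F F') h _
  rw [h2] at h1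
  have h3 := congrArg (fun f : F' →ₗ[F] F' => f 1) h1
  simp only [LinearMap.mulLeft_apply, mul_one, LinearMap.zero_apply] at h3
  rw [Polynomial.aeval_def] at h3
  exact h3

/-- The coefficients of the characteristic polynomial along `φ` of an element integral over
(the image under `φ` of) a subring `S` of `F` are integral over `S`. -/
theorem isIntegral_coeff_charpolyAlong (φ : F →ₐ[K] F') (hfin : FiniteAlong K φ)
    (S : Subring F) {h : F'} (hh : (φ.toRingHom.comp S.subtype).IsIntegralElem h) (i : ℕ) :
    IsIntegral S ((charpolyAlong φ hfin h).coeff i) := by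
  letI := algebraAlong φ
  haveI : Module.Finite F F' := hfin
  letI : Algebra S F' := (φ.toRingHom.comp S.subtype).toAlgebra
  haveI : IsScalarTower S F F' := IsScalarTower.of_algebraMap_eq (fun _ => rfl)
  exact isIntegral_coeff_charpoly_mulLeft (R := S) (F := F) (F' := F') hh i

end Along

/-! ## Integral-closure charts -/

section Charts

open Fermat.Agent.S37.helper2025 (intChart finGen infGen finChart infChart)
open Fermat.Agent.S37.helper7465 (ptKernel CharpolyValueAlong)

variable {K F F' : Type*} [Field K] [Field F] [Field F'] [Algebra K F] [Algebra K F']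

/-- The integral-closure chart `helper2025.intChart G` as a subring. -/
def intSubring (G : Set F) : Subring F := (integralClosure (Subring.closure G) F).toSubring

theorem coe_intSubring (G : Set F) : (intSubring G : Set F) = intChart G := rfl

theorem mem_intSubring {G : Set F} {f : F} :
    f ∈ intSubring G ↔ IsIntegral (Subring.closure G) f := Iff.rfl

/-- `CharpolyValueAlong` is antitone in the set of functions. -/
theorem charpolyValueAlong_mono [HasPrincipalDivisors K F'] {φ : F →ₐ[K] F'}
    {hφ : φ.toRingHom.IsIntegral} {S T : Set F'} {χ : F' → F[X]} (hST : S ⊆ T)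
    (h : CharpolyValueAlong K φ hφ T χ) : CharpolyValueAlong K φ hφ S χ :=
  fun v g c hg hc i => h v g c (hST hg) hc i

/-- If the generators `G'` upstairs lie in the image of the ring generated by `G`, a function of
the chart `intChart G'` is integral over `Subring.closure G` (acting through `φ`). -/
theorem isIntegralElem_of_mem_intChart (φ : F →ₐ[K] F') (G : Set F) (G' : Set F')
    (hG : G' ⊆ ((Subring.closure G).map φ.toRingHom : Set F')) {h : F'}
    (hh : h ∈ intChart G') :
    (φ.toRingHom.comp (Subring.closure G).subtype).IsIntegralElem h := by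
  have hle : Subring.closure G' ≤ (Subring.closure G).map φ.toRingHom :=
    Subring.closure_le.mpr hG
  obtain ⟨p, hp, hph⟩ := hh
  let T : Subring F' := (Subring.closure G).map φ.toRingHom
  let g : Subring.closure G →+* T :=
    (φ.toRingHom.comp (Subring.closure G).subtype).codRestrict T (fun x => ⟨x, x.2, rfl⟩)
  have hg : Function.Surjective g := by
    rintro ⟨y, x, hx, rfl⟩
    exact ⟨⟨x, hx⟩, rfl⟩
  have hp' : (p.map (Subring.inclusion hle)).Monic := hp.map _
  have hmem : p.map (Subring.inclusion hle) ∈ Polynomial.lifts g := by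
    obtain ⟨q0, hq0⟩ := Polynomial.map_surjective g hg (p.map (Subring.inclusion hle))
    exact (Polynomial.mem_lifts _).mpr ⟨q0, hq0⟩
  obtain ⟨q, hq, -, hqm⟩ := Polynomial.lifts_and_natDegree_eq_and_monic hmem hp'
  refine ⟨q, hqm, ?_⟩
  have e1 : φ.toRingHom.comp (Subring.closure G).subtype = T.subtype.comp g := rfl
  rw [e1, ← Polynomial.eval₂_map, hq, Polynomial.eval₂_map]
  exact hph

/-- **E1 for one integral-closure chart.**  If the generators `G'` of the upper chart lie in the
image of the ring generated by the generators `G` of the lower chart, then the pull-back along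
`φ` maps the point kernel of `intChart G` into the point kernel of `intChart G'`.  The only
geometric input is the fibre formula `hval` (plan module B4) and `hres`. -/
theorem map_pullbackAlong_ptKernel_intChart_le [HasPrincipalDivisors K F']
    (φ : F →ₐ[K] F') (hφ : φ.toRingHom.IsIntegral) (hfin : FiniteAlong K φ)
    (O : ValuationSubring K) (G : Set F) (G' : Set F')
    (hG : G' ⊆ ((Subring.closure G).map φ.toRingHom : Set F'))
    (hconst : ∀ a ∈ O, algebraMap K F' a ∈ intChart G')
    (hval : CharpolyValueAlong K φ hφ (intChart G') (charpolyAlong φ hfin))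
    (hres : ∀ w : Place K F', Function.Surjective (algebraMap K w.ResidueField)) :
    (ptKernel O (intChart G)).map (Divisor.pullbackAlong φ hφ) ≤ ptKernel O (intChart G') :=
  helper7465.map_pullbackAlong_ptKernel_le φ hφ O (intSubring G) (intSubring G')
    (charpolyAlong φ hfin) hconst (fun h _ => charpolyAlong_monic φ hfin h)
    (fun h _ => eval₂_charpolyAlong φ hfin h)
    (fun _ hh i => isIntegral_coeff_charpolyAlong φ hfin _
      (isIntegralElem_of_mem_intChart φ G G' hG hh) i)
    hval hres

/-- the generators of the finite chart upstairs come from the finite chart downstairs. -/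
theorem finGen_map_subset (φ : F →ₐ[K] F') (O : ValuationSubring K) (t : F) :
    finGen O (φ t) ⊆ ((Subring.closure (finGen O t)).map φ.toRingHom : Set F') := by
  rintro g (⟨a, ha, rfl⟩ | hg)
  · exact ⟨algebraMap K F a,
      Subring.subset_closure (helper2025.algebraMap_mem_finGen t ha), φ.commutes a⟩
  · rw [Set.mem_singleton_iff] at hg
    subst hg
    exact ⟨t, Subring.subset_closure (helper2025.self_mem_finGen O t), rfl⟩

/-- the generators of the local chart at infinity upstairs come from the one downstairs. -/
theorem infGen_map_subset (φ : F →ₐ[K] F') (O : ValuationSubring K) (u : F) :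
    infGen O (φ u) ⊆ ((Subring.closure (infGen O u)).map φ.toRingHom : Set F') := by
  have hle : Subring.closure (finGen O (φ u)) ≤ (Subring.closure (finGen O u)).map φ.toRingHom :=
    Subring.closure_le.mpr (finGen_map_subset φ O u)
  rintro g (hg | ⟨c, hc, rfl⟩)
  · obtain ⟨x, hx, rfl⟩ := finGen_map_subset φ O u hg
    exact ⟨x, Subring.closure_mono (helper2025.finGen_subset_infGen O u) hx, rfl⟩
  · obtain ⟨c0, hc0, rfl⟩ := hle hc
    refine ⟨(1 + u * c0)⁻¹, Subring.subset_closure (Or.inr ⟨c0, hc0, rfl⟩), ?_⟩
    show φ ((1 + u * c0)⁻¹) = (1 + φ u * φ c0)⁻¹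
    rw [map_inv₀, map_add, map_mul, map_one]

/-- **E1 for the finite chart** `finChart O t` (functions integral over `O[t]`). -/
theorem map_pullbackAlong_ptKernel_finChart_le [HasPrincipalDivisors K F']
    (φ : F →ₐ[K] F') (hφ : φ.toRingHom.IsIntegral) (hfin : FiniteAlong K φ)
    (O : ValuationSubring K) (t : F)
    (hval : CharpolyValueAlong K φ hφ (finChart O (φ t)) (charpolyAlong φ hfin))
    (hres : ∀ w : Place K F', Function.Surjective (algebraMap K w.ResidueField)) :
    (ptKernel O (finChart O t)).map (Divisor.pullbackAlong φ hφ) ≤ ptKernel O (finChart O (φ t)) :=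
  map_pullbackAlong_ptKernel_intChart_le φ hφ hfin O (finGen O t) (finGen O (φ t))
    (finGen_map_subset φ O t)
    (fun _ ha => helper2025.subset_intChart _ (helper2025.algebraMap_mem_finGen (φ t) ha))
    hval hres

/-- **E1 for the local chart at infinity** `infChart O u` (functions integral over `O[u]`
localised at `1 + u O[u]`). -/
theorem map_pullbackAlong_ptKernel_infChart_le [HasPrincipalDivisors K F']
    (φ : F →ₐ[K] F') (hφ : φ.toRingHom.IsIntegral) (hfin : FiniteAlong K φ)
    (O : ValuationSubring K) (u : F)
    (hval : CharpolyValueAlong K φ hφ (infChart O (φ u)) (charpolyAlong φ hfin))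
    (hres : ∀ w : Place K F', Function.Surjective (algebraMap K w.ResidueField)) :
    (ptKernel O (infChart O u)).map (Divisor.pullbackAlong φ hφ) ≤ ptKernel O (infChart O (φ u)) :=
  map_pullbackAlong_ptKernel_intChart_le φ hφ hfin O (infGen O u) (infGen O (φ u))
    (infGen_map_subset φ O u)
    (fun _ ha => helper2025.subset_intChart _
      (helper2025.finGen_subset_infGen O (φ u) (helper2025.algebraMap_mem_finGen (φ u) ha)))
    hval hres

end Charts

/-! ## The divisor-level kernel of a chart family -/

section Kernel

open Fermat.Agent.S37.helper2025 (intChart finChart infChart ChartRel SameResidueOn pointDiff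
  relSubgroup)
open Fermat.Agent.S37.helper7465 (ptKernel SameRes CharpolyValueAlong)

variable {K F F' : Type*} [Field K] [Field F] [Field F'] [Algebra K F] [Algebra K F']

/-- Bridge between the two vocabularies: `helper2025.SameResidueOn` is `helper7465.SameRes`. -/
theorem sameResidueOn_iff_sameRes {A : ValuationSubring K} {R : Set F} {v w : Place K F} :
    SameResidueOn A R v w ↔ SameRes A R v w := by
  constructor
  · rintro ⟨hv, hw, h⟩ f hf
    obtain ⟨a, ha, hva⟩ := hv f hf
    obtain ⟨b, hb, hwb⟩ := hw f hf
    exact ⟨a, b, ha, hb, hva, hwb, h f hf a b hva hwb⟩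
  · intro h
    refine ⟨fun f hf => ?_, fun f hf => ?_, fun f hf a b hva hwb => ?_⟩
    · obtain ⟨a, b, ha, hb, hva, hwb, hab⟩ := h f hf
      exact ⟨a, ha, hva⟩
    · obtain ⟨a, b, ha, hb, hva, hwb, hab⟩ := h f hf
      exact ⟨b, hb, hwb⟩
    · obtain ⟨a', b', ha, hb, hva', hwb', hab⟩ := h f hf
      have e1 : a = a' := helper2025.HasValueAt.unique hva hva'
      have e2 : b = b' := helper2025.HasValueAt.unique hwb hwb'
      rw [e1, e2]
      exact hab

/-- The divisor-level specialisation kernel of a chart family `𝓡`: the group of divisors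
generated by the `[v] - [w]` with `helper2025.ChartRel A 𝓡 v w`. -/
def chartDivKernel (A : ValuationSubring K) (𝓡 : Set (Set F)) : AddSubgroup (Divisor K F) :=
  AddSubgroup.closure {D : Divisor K F | ∃ v w : Place K F, ChartRel A 𝓡 v w ∧ D = pointDiff v w}

theorem pointDiff_mem_chartDivKernel {A : ValuationSubring K} {𝓡 : Set (Set F)}
    {v w : Place K F} (h : ChartRel A 𝓡 v w) : pointDiff v w ∈ chartDivKernel A 𝓡 :=
  AddSubgroup.subset_closure ⟨v, w, h, rfl⟩

theorem ptKernel_le_chartDivKernel {A : ValuationSubring K} {𝓡 : Set (Set F)} {R : Set F}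
    (hR : R ∈ 𝓡) : ptKernel A R ≤ chartDivKernel A 𝓡 := by
  refine (AddSubgroup.closure_le _).mpr ?_
  rintro _ ⟨v, w, h, rfl⟩
  exact pointDiff_mem_chartDivKernel ⟨R, hR, sameResidueOn_iff_sameRes.mpr h⟩

theorem chartDivKernel_le_iff {A : ValuationSubring K} {𝓡 : Set (Set F)}
    {H : AddSubgroup (Divisor K F)} :
    chartDivKernel A 𝓡 ≤ H ↔ ∀ R ∈ 𝓡, ptKernel A R ≤ H := by
  constructor
  · intro h R hR
    exact (ptKernel_le_chartDivKernel hR).trans h
  · intro h
    refine (AddSubgroup.closure_le _).mpr ?_
    rintro _ ⟨v, w, ⟨R, hR, hvw⟩, rfl⟩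
    exact h R hR (helper7465.single_sub_single_mem_ptKernel (sameResidueOn_iff_sameRes.mp hvw))

/-- the divisor-level kernel of a chart family is the supremum of the point kernels of its
charts. -/
theorem chartDivKernel_eq_iSup (A : ValuationSubring K) (𝓡 : Set (Set F)) :
    chartDivKernel A 𝓡 = ⨆ R ∈ 𝓡, ptKernel A R := by
  apply le_antisymm
  · exact chartDivKernel_le_iff.mpr (fun R hR => le_iSup₂ (f := fun R _ => ptKernel A R) R hR)
  · exact iSup₂_le (fun R hR => ptKernel_le_chartDivKernel hR)

theorem chartDivKernel_mono {A : ValuationSubring K} {𝓡 𝓡' : Set (Set F)} (h : 𝓡 ⊆ 𝓡') :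
    chartDivKernel A 𝓡 ≤ chartDivKernel A 𝓡' :=
  chartDivKernel_le_iff.mpr (fun _ hR => ptKernel_le_chartDivKernel (h hR))

/-- **E1, chart-family form.**  If the point kernel of every chart of `𝓡` is mapped by the
pull-back into the point kernel of some chart of `𝓡'`, the pull-back maps the divisor-level
kernel of `𝓡` into the one of `𝓡'`. -/
theorem map_pullbackAlong_chartDivKernel_le [HasPrincipalDivisors K F']
    (φ : F →ₐ[K] F') (hφ : φ.toRingHom.IsIntegral) (A : ValuationSubring K)
    (𝓡 : Set (Set F)) (𝓡' : Set (Set F'))
    (H : ∀ R ∈ 𝓡, ∃ R' ∈ 𝓡', (ptKernel A R).map (Divisor.pullbackAlong φ hφ) ≤ ptKernel A R') :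
    (chartDivKernel A 𝓡).map (Divisor.pullbackAlong φ hφ) ≤ chartDivKernel A 𝓡' := by
  rw [AddSubgroup.map_le_iff_le_comap, chartDivKernel_le_iff]
  intro R hR
  obtain ⟨R', hR', h⟩ := H R hR
  rw [← AddSubgroup.map_le_iff_le_comap]
  exact h.trans (ptKernel_le_chartDivKernel hR')

/-- **E1 for the two standard charts** `{finChart A t, infChart A t⁻¹}` (the chart family of
`helper2025.stdCharts`): the pull-back along `φ` maps the divisor-level specialisation kernel of
the standard charts with coordinate `t` into the one with coordinate `φ t`. -/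
theorem map_pullbackAlong_chartDivKernel_stdCharts_le [HasPrincipalDivisors K F']
    (φ : F →ₐ[K] F') (hφ : φ.toRingHom.IsIntegral) (hfin : FiniteAlong K φ)
    (A : ValuationSubring K) (t : F)
    (hval₀ : CharpolyValueAlong K φ hφ (finChart A (φ t)) (charpolyAlong φ hfin))
    (hval₁ : CharpolyValueAlong K φ hφ (infChart A (φ t)⁻¹) (charpolyAlong φ hfin))
    (hres : ∀ w : Place K F', Function.Surjective (algebraMap K w.ResidueField)) :
    (chartDivKernel A {finChart A t, infChart A t⁻¹}).map (Divisor.pullbackAlong φ hφ)
      ≤ chartDivKernel A {finChart A (φ t), infChart A (φ t)⁻¹} := by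
  refine map_pullbackAlong_chartDivKernel_le φ hφ A _ _ ?_
  rintro R (rfl | hR)
  · exact ⟨_, Or.inl rfl, map_pullbackAlong_ptKernel_finChart_le φ hφ hfin A t hval₀ hres⟩
  · rw [Set.mem_singleton_iff] at hR
    subst hR
    refine ⟨_, Or.inr rfl, ?_⟩
    have e : φ t⁻¹ = (φ t)⁻¹ := map_inv₀ φ t
    have h := map_pullbackAlong_ptKernel_infChart_le φ hφ hfin A t⁻¹ (by rw [e]; exact hval₁) hres
    rw [e] at h
    exact h

/-- the same with the fibre formula assumed for all functions. -/
theorem map_pullbackAlong_chartDivKernel_stdCharts_le' [HasPrincipalDivisors K F']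
    (φ : F →ₐ[K] F') (hφ : φ.toRingHom.IsIntegral) (hfin : FiniteAlong K φ)
    (A : ValuationSubring K) (t : F)
    (hval : CharpolyValueAlong K φ hφ Set.univ (charpolyAlong φ hfin))
    (hres : ∀ w : Place K F', Function.Surjective (algebraMap K w.ResidueField)) :
    (chartDivKernel A {finChart A t, infChart A t⁻¹}).map (Divisor.pullbackAlong φ hφ)
      ≤ chartDivKernel A {finChart A (φ t), infChart A (φ t)⁻¹} :=
  map_pullbackAlong_chartDivKernel_stdCharts_le φ hφ hfin A t
    (charpolyValueAlong_mono (Set.subset_univ _) hval)
    (charpolyValueAlong_mono (Set.subset_univ _) hval) hres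

end Kernel

/-! ## Consumer forms: kernel of `mapDomain`, classes in `Pic0` -/

section Consumer

open Fermat.Agent.S37.helper2025 (ChartRel pointDiff relSubgroup)

variable {P : Type*}

/-- differences of equivalent points lie in the group generated by the differences of related
points. -/
theorem single_sub_single_mem_closure_of_eqvGen (r : P → P → Prop) {a b : P}
    (h : Relation.EqvGen r a b) :
    (Finsupp.single a 1 - Finsupp.single b 1 : P →₀ ℤ) ∈ AddSubgroup.closure
      {E : P →₀ ℤ | ∃ a b, r a b ∧ E = Finsupp.single a 1 - Finsupp.single b 1} := by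
  induction h with
  | rel a b hab => exact AddSubgroup.subset_closure ⟨a, b, hab, rfl⟩
  | refl a => rw [sub_self]; exact AddSubgroup.zero_mem _
  | symm a b _ ih =>
    have := AddSubgroup.neg_mem _ ih
    rwa [neg_sub] at this
  | trans a b c _ _ ih₁ ih₂ =>
    have := AddSubgroup.add_mem _ ih₁ ih₂
    rwa [sub_add_sub_cancel] at this

/-- **Kernel of the crude specialisation map**: a finitely supported integer combination of
points is killed by `Finsupp.mapDomain (Quot.mk r)` iff it lies in the group generated by the
differences `[a] - [b]`, `r a b`.  (No hypothesis on `r`.) -/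
theorem mapDomain_quot_eq_zero_iff (r : P → P → Prop) (D : P →₀ ℤ) :
    Finsupp.mapDomain (Quot.mk r) D = 0 ↔ D ∈ AddSubgroup.closure
      {E : P →₀ ℤ | ∃ a b, r a b ∧ E = Finsupp.single a 1 - Finsupp.single b 1} := by
  constructor
  · intro hD
    have hs : ∀ c : Quot r, ∃ a, Quot.mk r a = c := Quot.exists_rep
    choose s hs using hs
    have h0 : Finsupp.mapDomain (fun a => s (Quot.mk r a)) D = 0 := by
      have : Finsupp.mapDomain (s ∘ Quot.mk r) D = 0 := by
        rw [Finsupp.mapDomain_comp, hD, Finsupp.mapDomain_zero]
      exact this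
    have h1 : D = D.sum (fun a n =>
        n • ((Finsupp.single a 1 : P →₀ ℤ) - Finsupp.single (s (Quot.mk r a)) 1)) := by
      have e1 : D.sum (fun a n =>
          n • ((Finsupp.single a 1 : P →₀ ℤ) - Finsupp.single (s (Quot.mk r a)) 1))
          = D.sum (fun a n => (Finsupp.single a n : P →₀ ℤ))
            - D.sum (fun a n => (Finsupp.single (s (Quot.mk r a)) n : P →₀ ℤ)) := by
        rw [← Finsupp.sum_sub]
        refine Finsupp.sum_congr (fun a _ => ?_)
        rw [smul_sub, Finsupp.smul_single, Finsupp.smul_single, smul_eq_mul, mul_one]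
      have e2 : D.sum (fun a n => (Finsupp.single (s (Quot.mk r a)) n : P →₀ ℤ))
          = Finsupp.mapDomain (fun a => s (Quot.mk r a)) D := rfl
      rw [e1, e2, h0, sub_zero, Finsupp.sum_single]
    rw [h1]
    refine AddSubgroup.sum_mem _ (fun a _ => AddSubgroup.zsmul_mem _ ?_ _)
    exact single_sub_single_mem_closure_of_eqvGen r (Quot.eqvGen_exact (hs (Quot.mk r a)).symm)
  · intro hD
    induction hD using AddSubgroup.closure_induction with
    | mem E hE =>
      obtain ⟨a, b, hab, rfl⟩ := hE
      have e := (Finsupp.mapDomain.addMonoidHom (M := ℤ) (Quot.mk r)).map_sub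
        (Finsupp.single a 1) (Finsupp.single b 1)
      simp only [Finsupp.mapDomain.addMonoidHom_apply] at e
      rw [e, Finsupp.mapDomain_single, Finsupp.mapDomain_single, Quot.sound hab, sub_self]
    | zero => exact Finsupp.mapDomain_zero
    | add x y _ _ hx hy => rw [Finsupp.mapDomain_add, hx, hy, add_zero]
    | neg x _ hx =>
      have e := (Finsupp.mapDomain.addMonoidHom (M := ℤ) (Quot.mk r)).map_neg x
      simp only [Finsupp.mapDomain.addMonoidHom_apply] at e
      rw [e, hx, neg_zero]

variable {K F F' : Type*} [Field K] [Field F] [Field F'] [Algebra K F] [Algebra K F']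

/-- the divisor-level kernel of a chart family is the kernel of the crude specialisation map
`Div → ℤ[Place / ChartRel]`. -/
theorem mem_chartDivKernel_iff_mapDomain {A : ValuationSubring K} {𝓡 : Set (Set F)}
    {D : Divisor K F} :
    D ∈ chartDivKernel A 𝓡 ↔ Finsupp.mapDomain (Quot.mk (ChartRel A 𝓡)) D = 0 :=
  (mapDomain_quot_eq_zero_iff (ChartRel A 𝓡) D).symm

/-- **E1 in the `mapDomain` shape** (the `(XFER)` hypothesis of the torsion assembly): crude
specialisation zero downstairs implies crude specialisation zero of the pull-back. -/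
theorem mapDomain_pullbackAlong_eq_zero [HasPrincipalDivisors K F']
    (φ : F →ₐ[K] F') (hφ : φ.toRingHom.IsIntegral) (A : ValuationSubring K)
    (𝓡 : Set (Set F)) (𝓡' : Set (Set F'))
    (H : (chartDivKernel A 𝓡).map (Divisor.pullbackAlong φ hφ) ≤ chartDivKernel A 𝓡')
    {D : Divisor K F} (hD : Finsupp.mapDomain (Quot.mk (ChartRel A 𝓡)) D = 0) :
    Finsupp.mapDomain (Quot.mk (ChartRel A 𝓡')) (Divisor.pullbackAlong φ hφ D) = 0 :=
  mem_chartDivKernel_iff_mapDomain.mp
    (H (AddSubgroup.mem_map_of_mem _ (mem_chartDivKernel_iff_mapDomain.mpr hD)))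

/-- every class of `helper2025.relSubgroup r` is represented by a divisor of degree zero lying in
the group generated by the `[v] - [w]`, `r v w`. -/
theorem exists_rep_of_mem_relSubgroup {r : Place K F → Place K F → Prop} {x : Pic0 K F}
    (hx : x ∈ relSubgroup r) :
    ∃ D : Divisor.degZero (K := K) (F := F),
      (D : Divisor K F) ∈ AddSubgroup.closure
        {E : Divisor K F | ∃ v w : Place K F, r v w ∧ E = pointDiff v w} ∧ Pic0.mk D = x := by
  unfold relSubgroup at hx
  induction hx using AddSubgroup.closure_induction with
  | mem x hx =>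
    obtain ⟨v, w, hd, hr, rfl⟩ := hx
    exact ⟨⟨pointDiff v w, helper2025.pointDiff_mem_degZero hd⟩,
      AddSubgroup.subset_closure ⟨v, w, hr, rfl⟩, rfl⟩
  | zero => exact ⟨0, AddSubgroup.zero_mem _, rfl⟩
  | add x y _ _ hx hy =>
    obtain ⟨D, hD, rfl⟩ := hx
    obtain ⟨E, hE, rfl⟩ := hy
    exact ⟨D + E, AddSubgroup.add_mem _ hD hE, rfl⟩
  | neg x _ hx =>
    obtain ⟨D, hD, rfl⟩ := hx
    exact ⟨-D, AddSubgroup.neg_mem _ hD, rfl⟩

/-- every class of the specialisation kernel `relSubgroup (ChartRel A 𝓡)` is represented by a
divisor of degree zero in the divisor-level kernel. -/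
theorem exists_rep_mem_chartDivKernel {A : ValuationSubring K} {𝓡 : Set (Set F)} {x : Pic0 K F}
    (hx : x ∈ relSubgroup (ChartRel A 𝓡)) :
    ∃ D : Divisor.degZero (K := K) (F := F),
      (D : Divisor K F) ∈ chartDivKernel A 𝓡 ∧ Pic0.mk D = x :=
  exists_rep_of_mem_relSubgroup hx

/-- conversely, when all places have the same degree, the class of a divisor of the
divisor-level group lies in `relSubgroup r`. -/
theorem mk_mem_relSubgroup_of_mem_closure {r : Place K F → Place K F → Prop}
    (hdeg : ∀ v w : Place K F, v.deg = w.deg) {D : Divisor K F}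
    (hD : D ∈ AddSubgroup.closure
      {E : Divisor K F | ∃ v w : Place K F, r v w ∧ E = pointDiff v w})
    (hD0 : D ∈ Divisor.degZero (K := K) (F := F)) :
    Pic0.mk ⟨D, hD0⟩ ∈ relSubgroup r := by
  have key : ∀ E : Divisor K F, E ∈ AddSubgroup.closure
      {E : Divisor K F | ∃ v w : Place K F, r v w ∧ E = pointDiff v w} →
      ∃ hE : E ∈ Divisor.degZero (K := K) (F := F), Pic0.mk ⟨E, hE⟩ ∈ relSubgroup r := by
    intro E hE
    induction hE using AddSubgroup.closure_induction with
    | mem E hE =>
      obtain ⟨v, w, hr, rfl⟩ := hE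
      exact ⟨helper2025.pointDiff_mem_degZero (hdeg v w),
        helper2025.mk_pointDiff_mem_relSubgroup (hdeg v w) hr⟩
    | zero => exact ⟨AddSubgroup.zero_mem _, AddSubgroup.zero_mem _⟩
    | add x y _ _ hx hy =>
      obtain ⟨hx0, hx⟩ := hx
      obtain ⟨hy0, hy⟩ := hy
      exact ⟨AddSubgroup.add_mem _ hx0 hy0, AddSubgroup.add_mem _ hx hy⟩
    | neg x _ hx =>
      obtain ⟨hx0, hx⟩ := hx
      exact ⟨AddSubgroup.neg_mem _ hx0, AddSubgroup.neg_mem _ hx⟩
  obtain ⟨_, h⟩ := key D hD
  exact h

end Consumer

end Fermat.Agent.S37.helper869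

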