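import Mathlib
import Fermat.Agent.S37.helper5176_LevelDescent
import Fermat.Agent.S37.helper2025_GaloisPoints
import Fermat.Agent.S37.helper9343_BetaDegree
import Fermat.Agent.S37.helper8426_HeckeInputs
import Fermat.Agent.S37.helper5162_HeckeUnfold
import Fermat.Agent.S37.helper869_Xfer

/-!
# S37, Track B: Spec and top assembly (architect helper37)

Track B proves the torsion clause (R3) of `helper8353.Stmt_Kernel N` by going up to the
auxiliary level `N * m` (`m = 4` for `ℓ` odd, `m = 9` for `ℓ = 2`) along `β_m : q ↦ q^m`, where the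
two-chart model over a number-field layer is regular at the points that matter and the Kummer
core applies; `β_m^*` is injective on divisor classes (PICINJ + BETA-ADAPT, landed).

## Objects (generic in `K F A`, so that the same definitions serve every level and every layer)

* `polyRing A t`      : `A[t] ⊆ F` (generated by the `A`-integral constants and `t`);
* `finChartOf A t`    : the integral closure of `A[t]` in `F` (a `Subring F`);
* `cuspChartOf A u`   : `{f | ∃ a ∈ A[u], (1 + u a) f integral over A[u]}` (a `Subring F`),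
                        the integral closure of `A[u]` localised at `1 + u A[u]`;
* `finChart A M`, `cuspChart A M` : the instances `t = j`, `u = 1/j` in `F_M = FN M` over `ℚ̄`;
* `charts A M`        : the family `{finChart A M, cuspChart A M}`;
* `kernelB A M`       : `helper2025.specKernel A (charts A M) ≤ J₀(M)`;
* `divKernel A M`     : the same on divisors, `closure {[v] - [w] | v ~ w}`.

## Nodes (Prop-valued; each is a true statement with an owner team)

* `NodeR1 N`, `NodeR2 N` : inertia and Eichler–Shimura relations modulo `kernelB A N`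
  (`NodeR1` in point form; `NodeR2pt N` = point form of `NodeR2`, `nodeR2_of_pt` proved here);
* `NodeXfer N m`         : `β_m^*` maps `divKernel A N` into `divKernel A (N * m)`;
* `NodeTors M ℓ`         : `divKernel A M` contains no nontrivial `q`-torsion class (`q ≠ ℓ`).

## Assembly (proved here)

`stmt_Kernel_of_nodes : NodeR1 N → NodeR2 N → (∀ ℓ odd, ℓ ∤ N → NodeXfer N 4 ℓ ∧ NodeTors (N*4) ℓ)
  → (2 ∤ N → NodeXfer N 9 2 ∧ NodeTors (N*9) 2) → helper8353.Stmt_Kernel N`.
-/

set_option autoImplicit false

noncomputable section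

namespace Fermat.Agent.S37.helper37

open ModularCurve AlgebraicCurve
open Fermat.Agent.S24.helper24 (Kbar FN jBar)
open Fermat.Agent.S37.helper2025 (HasValueAt InChart SameResidueOn ChartRel relSubgroup pointDiff
  specKernel)

/-! ## Generic charts -/

section Generic

variable {K F : Type*} [Field K] [Field F] [Algebra K F]

/-- `A[t]` as a subring of `F`: generated by the `A`-integral constants and `t`. -/
def polyRing (A : ValuationSubring K) (t : F) : Subring F :=
  Subring.closure (algebraMap K F '' (A : Set K) ∪ {t})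

theorem const_mem_polyRing (A : ValuationSubring K) (t : F) {a : K} (ha : a ∈ A) :
    algebraMap K F a ∈ polyRing A t :=
  Subring.subset_closure (Or.inl ⟨a, ha, rfl⟩)

theorem self_mem_polyRing (A : ValuationSubring K) (t : F) : t ∈ polyRing A t :=
  Subring.subset_closure (Or.inr rfl)

/-- The FINITE CHART over `A` with coordinate `t`: the integral closure of `A[t]` in `F`. -/
def finChartOf (A : ValuationSubring K) (t : F) : Subring F :=
  (integralClosure (polyRing A t) F).toSubring

theorem mem_finChartOf {A : ValuationSubring K} {t f : F} :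
    f ∈ finChartOf A t ↔ IsIntegral (polyRing A t) f := Iff.rfl

theorem polyRing_le_finChartOf (A : ValuationSubring K) (t : F) :
    polyRing A t ≤ finChartOf A t := fun f hf =>
  mem_finChartOf.mpr (isIntegral_algebraMap (R := polyRing A t) (x := ⟨f, hf⟩))

/-- The CUSP CHART over `A` with coordinate `u` (in the application `u = 1/j`): the integral
closure of `A[u]` localised at `1 + u A[u]`. -/
def cuspChartOf (A : ValuationSubring K) (u : F) : Subring F where
  carrier := {f | ∃ a ∈ polyRing A u, IsIntegral (polyRing A u) ((1 + u * a) * f)}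
  mul_mem' := by
    rintro f g ⟨a, ha, hf⟩ ⟨b, hb, hg⟩
    refine ⟨a + b + u * (a * b), ?_, ?_⟩
    · exact add_mem (add_mem ha hb) (mul_mem (self_mem_polyRing A u) (mul_mem ha hb))
    · have e : (1 + u * (a + b + u * (a * b))) * (f * g)
          = ((1 + u * a) * f) * ((1 + u * b) * g) := by ring
      rw [e]
      exact hf.mul hg
  one_mem' := ⟨0, zero_mem _, by simpa using isIntegral_one⟩
  add_mem' := by
    rintro f g ⟨a, ha, hf⟩ ⟨b, hb, hg⟩
    refine ⟨a + b + u * (a * b), ?_, ?_⟩
    · exact add_mem (add_mem ha hb) (mul_mem (self_mem_polyRing A u) (mul_mem ha hb))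
    · have e : (1 + u * (a + b + u * (a * b))) * (f + g)
          = (1 + u * b) * ((1 + u * a) * f) + (1 + u * a) * ((1 + u * b) * g) := by ring
      rw [e]
      have h1 : IsIntegral (polyRing A u) (1 + u * b) :=
        isIntegral_algebraMap (R := polyRing A u)
          (x := ⟨1 + u * b, add_mem (one_mem _) (mul_mem (self_mem_polyRing A u) hb)⟩)
      have h2 : IsIntegral (polyRing A u) (1 + u * a) :=
        isIntegral_algebraMap (R := polyRing A u)
          (x := ⟨1 + u * a, add_mem (one_mem _) (mul_mem (self_mem_polyRing A u) ha)⟩)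
      exact (h1.mul hf).add (h2.mul hg)
  zero_mem' := ⟨0, zero_mem _, by simpa using isIntegral_zero⟩
  neg_mem' := by
    rintro f ⟨a, ha, hf⟩
    refine ⟨a, ha, ?_⟩
    have e : (1 + u * a) * -f = -((1 + u * a) * f) := by ring
    rw [e]
    exact hf.neg

theorem mem_cuspChartOf {A : ValuationSubring K} {u f : F} :
    f ∈ cuspChartOf A u ↔ ∃ a ∈ polyRing A u, IsIntegral (polyRing A u) ((1 + u * a) * f) :=
  Iff.rfl

theorem finChartOf_le_cuspChartOf (A : ValuationSubring K) (u : F) :
    finChartOf A u ≤ cuspChartOf A u := fun f hf =>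
  ⟨0, zero_mem _, by simpa using mem_finChartOf.mp hf⟩

/-- **The two charts cover**: every place `v` (with residue field `K`) has `A`-integral values
on the finite chart with coordinate `t`, or on the cusp chart with coordinate `1/t`. -/
theorem inChart_finChartOf_or_cuspChartOf (A : ValuationSubring K) (v : Place K F)
    (hv : Function.Surjective (algebraMap K v.ResidueField)) (t : F) :
    InChart A (finChartOf A t : Set F) v ∨ InChart A (cuspChartOf A t⁻¹ : Set F) v := by
  by_cases ht : t ∈ helper2025.compositeValuationSubring A v hv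
  · left
    refine helper2025.inChart_of_isIntegral_closure A v hv
      (algebraMap K F '' (A : Set K) ∪ {t}) ?_ _ (fun f hf => hf)
    rintro g (⟨a, ha, rfl⟩ | hg)
    · exact ⟨a, ha, helper2025.hasValueAt_algebraMap v a⟩
    · rw [Set.mem_singleton_iff] at hg
      rw [hg]
      exact ht
  · right
    have hu : t⁻¹ ∈ helper2025.compositeValuationSubring A v hv :=
      ((helper2025.compositeValuationSubring A v hv).mem_or_inv_mem t).resolve_left ht
    obtain ⟨a, haA, hua⟩ := hu
    have ha1 : A.valuation a < 1 := by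
      by_contra hnot
      have ha0 : a ≠ 0 := by
        rintro rfl
        exact hnot (by simp)
      have hinv : a⁻¹ ∈ A := by
        rw [← A.valuation_le_one_iff, map_inv₀]
        exact inv_le_one_of_one_le₀ (not_lt.mp hnot)
      exact ht ⟨a⁻¹, hinv, by simpa using hua.inv ha0⟩
    have hle : polyRing A t⁻¹ ≤ helper2025.compositeSubring A v := by
      rw [polyRing, Subring.closure_le]
      rintro g (⟨c, hc, rfl⟩ | hg)
      · exact ⟨c, hc, helper2025.hasValueAt_algebraMap v c⟩
      · rw [Set.mem_singleton_iff] at hg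
        rw [hg]
        exact ⟨a, haA, hua⟩
    intro f hf
    obtain ⟨b, hb, hint⟩ := hf
    obtain ⟨β, hβA, hbβ⟩ := hle hb
    obtain ⟨γ, hγA, hgγ⟩ := helper2025.exists_value_of_isIntegral A v hv (polyRing A t⁻¹)
      (fun g hg => hle hg) hint
    have hs : HasValueAt v (1 + t⁻¹ * b) (1 + a * β) :=
      (helper2025.hasValueAt_one v).add (hua.mul hbβ)
    have hβ1 : A.valuation β ≤ 1 := (A.valuation_le_one_iff β).mpr hβA
    have hc1 : A.valuation (1 + a * β) = 1 := by
      apply Valuation.map_one_add_of_lt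
      rw [Valuation.map_mul]
      exact mul_lt_one_of_nonneg_of_lt_one_left zero_le ha1 hβ1
    have hc0 : (1 + a * β) ≠ 0 := by
      intro h
      rw [h, Valuation.map_zero] at hc1
      exact zero_ne_one hc1
    have hcinv : (1 + a * β)⁻¹ ∈ A := by
      rw [← A.valuation_le_one_iff, map_inv₀, hc1, inv_one]
    have hs0 : (1 + t⁻¹ * b) ≠ 0 := by
      intro h
      rw [h] at hs
      exact hc0 (hs.unique (helper2025.hasValueAt_zero v))
    refine ⟨(1 + a * β)⁻¹ * γ, A.mul_mem _ _ hcinv hγA, ?_⟩
    have e : f = (1 + t⁻¹ * b)⁻¹ * ((1 + t⁻¹ * b) * f) := by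
      rw [← mul_assoc, inv_mul_cancel₀ hs0, one_mul]
    rw [e]
    exact (hs.inv hc0).mul hgγ

end Generic

/-! ## The modular charts and the Track-B kernel -/

section Modular

variable (A : ValuationSubring Kbar) (M : ℕ)

/-- The finite chart of level `M` over `A`: the integral closure of `A[j]` in `F_M`. -/
def finChart : Subring (FN M) := finChartOf A (jBar M)

/-- The cusp chart of level `M` over `A`: the integral closure of `A[1/j]` in `F_M`, localised
at `1 + (1/j) A[1/j]`. -/
def cuspChart : Subring (FN M) := cuspChartOf A (jBar M)⁻¹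

/-- The Track-B chart family `{finChart, cuspChart}`. -/
def charts : Set (Set (FN M)) := {(finChart A M : Set (FN M)), (cuspChart A M : Set (FN M))}

/-- The Track-B relation on places: same residue homomorphism on one of the two charts. -/
def SameRed (v w : Place Kbar (FN M)) : Prop := ChartRel A (charts A M) v w

/-- The Track-B kernel in `J₀(M)`: generated by the classes `[v] - [w]`, `v ~ w`. -/
def kernelB : AddSubgroup (JZero M) := specKernel A (charts A M)

/-- The Track-B kernel on divisors: generated by the divisors `[v] - [w]`, `v ~ w`. -/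
def divKernel : AddSubgroup (Divisor Kbar (FN M)) :=
  AddSubgroup.closure {D | ∃ v w : Place Kbar (FN M), SameRed A M v w ∧ D = pointDiff v w}

variable {A M}

theorem sameRed_fin {v w : Place Kbar (FN M)}
    (h : SameResidueOn A (finChart A M : Set (FN M)) v w) : SameRed A M v w :=
  ⟨_, Or.inl rfl, h⟩

theorem sameRed_cusp {v w : Place Kbar (FN M)}
    (h : SameResidueOn A (cuspChart A M : Set (FN M)) v w) : SameRed A M v w :=
  ⟨_, Or.inr rfl, h⟩

theorem sameRed_iff {v w : Place Kbar (FN M)} :
    SameRed A M v w ↔ SameResidueOn A (finChart A M : Set (FN M)) v w ∨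
      SameResidueOn A (cuspChart A M : Set (FN M)) v w := by
  constructor
  · rintro ⟨R, hR | hR, h⟩
    · left; rw [← hR]; exact h
    · right
      rw [Set.mem_singleton_iff] at hR
      rw [← hR]; exact h
  · rintro (h | h)
    · exact sameRed_fin h
    · exact sameRed_cusp h

theorem SameRed.symm {v w : Place Kbar (FN M)} (h : SameRed A M v w) : SameRed A M w v := by
  obtain ⟨R, hR, h⟩ := h
  exact ⟨R, hR, h.symm⟩

/-- The two charts of level `M` cover all places. -/
theorem inChart_finChart_or_cuspChart [NeZero M] (v : Place Kbar (FN M)) :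
    InChart A (finChart A M : Set (FN M)) v ∨ InChart A (cuspChart A M : Set (FN M)) v :=
  inChart_finChartOf_or_cuspChartOf A v (helper5162.residueField_surjective M v) (jBar M)

theorem SameRed.refl [NeZero M] (v : Place Kbar (FN M)) : SameRed A M v v := by
  rcases inChart_finChart_or_cuspChart (A := A) v with h | h
  · exact sameRed_fin (SameResidueOn.refl h)
  · exact sameRed_cusp (SameResidueOn.refl h)

theorem pointDiff_mem_divKernel {v w : Place Kbar (FN M)} (h : SameRed A M v w) :
    pointDiff v w ∈ divKernel A M :=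
  AddSubgroup.subset_closure ⟨v, w, h, rfl⟩

theorem divKernel_le_degZero [NeZero M] :
    divKernel A M ≤ Divisor.degZero (K := Kbar) (F := FN M) := by
  rw [divKernel, AddSubgroup.closure_le]
  rintro D ⟨v, w, -, rfl⟩
  exact helper2025.pointDiff_mem_degZero
    (by rw [helper5162.place_deg_eq_one, helper5162.place_deg_eq_one])

/-- The class of a degree-zero divisor of the divisor kernel lies in the kernel. -/
theorem mk_mem_kernelB [NeZero M] {D : Divisor Kbar (FN M)} (hD : D ∈ divKernel A M)
    (h : D ∈ Divisor.degZero (K := Kbar) (F := FN M)) :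
    Pic0.mk ⟨D, h⟩ ∈ kernelB A M := by
  revert h
  induction hD using AddSubgroup.closure_induction with
  | mem E hE =>
      intro h
      obtain ⟨v, w, hvw, rfl⟩ := hE
      exact helper2025.mk_pointDiff_mem_relSubgroup
        (by rw [helper5162.place_deg_eq_one, helper5162.place_deg_eq_one]) hvw
  | zero =>
      intro h
      exact zero_mem _
  | add E₁ E₂ hE₁ hE₂ ih₁ ih₂ =>
      intro h
      have h₁ := divKernel_le_degZero hE₁
      have h₂ := divKernel_le_degZero hE₂
      have e : Pic0.mk ⟨E₁ + E₂, h⟩ = Pic0.mk ⟨E₁, h₁⟩ + Pic0.mk ⟨E₂, h₂⟩ := rfl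
      rw [e]
      exact add_mem (ih₁ h₁) (ih₂ h₂)
  | neg E hE ih =>
      intro h
      have h₁ := divKernel_le_degZero hE
      have e : Pic0.mk ⟨-E, h⟩ = -Pic0.mk ⟨E, h₁⟩ := rfl
      rw [e]
      exact neg_mem (ih h₁)

/-- **Dictionary** between the kernel in `J₀(M)` and the kernel on divisors. -/
theorem mem_kernelB_iff [NeZero M] {x : JZero M} :
    x ∈ kernelB A M ↔ ∃ D : Divisor.degZero (K := Kbar) (F := FN M),
      (D : Divisor Kbar (FN M)) ∈ divKernel A M ∧ Pic0.mk D = x := by
  constructor
  · intro hx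
    unfold kernelB specKernel relSubgroup at hx
    induction hx using AddSubgroup.closure_induction with
    | mem y hy =>
        obtain ⟨v, w, hd, hvw, rfl⟩ := hy
        exact ⟨⟨pointDiff v w, helper2025.pointDiff_mem_degZero hd⟩,
          pointDiff_mem_divKernel hvw, rfl⟩
    | zero => exact ⟨0, zero_mem _, rfl⟩
    | add y₁ y₂ _ _ ih₁ ih₂ =>
        obtain ⟨D₁, hD₁, rfl⟩ := ih₁
        obtain ⟨D₂, hD₂, rfl⟩ := ih₂
        exact ⟨D₁ + D₂, add_mem hD₁ hD₂, rfl⟩
    | neg y _ ih =>
        obtain ⟨D, hD, rfl⟩ := ih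
        exact ⟨-D, neg_mem hD, rfl⟩
  · rintro ⟨D, hD, rfl⟩
    exact mk_mem_kernelB hD D.2

end Modular

/-! ## The nodes -/

section Nodes

/-- `Gal(ℚ̄/ℚ)`. -/
abbrev GQ : Type := Kbar ≃ₐ[ℚ] Kbar

/-- **Node (R1)**, point form, at level `N`: for `τ` in the inertia group of `A`, every place
`v` of `F_N` and `τ • v` have the same reduction.
(Owners: IGUSA-KL (RED) at level `N` + Galois stability of the two charts + the covering
lemma `inChart_finChart_or_cuspChart` below.) -/
def NodeR1 (N : ℕ) : Prop :=
  ∀ ℓ : ℕ, ℓ.Prime → ¬ ℓ ∣ N → ∀ A : ValuationSubring Kbar, A.LiesOverPrime ℓ →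
    ∀ τ ∈ A.inertiaSubgroupIn ℚ, ∀ v : Place Kbar (FN N),
      SameRed A N (arithmeticGalois (modularFunctionFieldFull N) τ • v) v

/-- **Node (R2)** at level `N`: the Eichler–Shimura relation modulo the Track-B kernel, for ONE
Frobenius element at `A`.
(Owners: point-level Kronecker congruence on the two charts + A2 ASM.) -/
def NodeR2 (N : ℕ) [NeZero N] : Prop :=
  ∀ ℓ : ℕ, ∀ hℓ : ℓ.Prime, ¬ ℓ ∣ N → ∀ A : ValuationSubring Kbar, A.LiesOverPrime ℓ →
    ∃ σ : GQ, A.IsFrobeniusAt σ ℓ ∧
      ∀ x : JZero N, σ • σ • x - heckeOperatorBar N ⟨ℓ, hℓ⟩ (σ • x) + ℓ • x ∈ kernelB A N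

/-- The Eichler–Shimura element on divisors, for `g = arithmeticGalois σ` acting on places:
`D ↦ g • g • D - T_ℓ (g • D) + ℓ • D`, with `T_ℓ = heckeDivBar = α_* β^*`. -/
def esDiv (N ℓ : ℕ) [NeZero N] [NeZero ℓ] (σ : GQ) :
    Divisor Kbar (FN N) →+ Divisor Kbar (FN N) :=
  (DistribSMul.toAddMonoidHom (Divisor Kbar (FN N))
      (arithmeticGalois (modularFunctionFieldFull N) σ)).comp
    (DistribSMul.toAddMonoidHom (Divisor Kbar (FN N))
      (arithmeticGalois (modularFunctionFieldFull N) σ))
  - (heckeDivBar (helper5162.heckeAlphaBarIntegral N ℓ) (helper5162.heckeBetaBarIntegral N ℓ)).comp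
    (DistribSMul.toAddMonoidHom (Divisor Kbar (FN N))
      (arithmeticGalois (modularFunctionFieldFull N) σ))
  + ℓ • AddMonoidHom.id (Divisor Kbar (FN N))

theorem esDiv_apply (N ℓ : ℕ) [NeZero N] [NeZero ℓ] (σ : GQ) (D : Divisor Kbar (FN N)) :
    esDiv N ℓ σ D =
      arithmeticGalois (modularFunctionFieldFull N) σ •
          arithmeticGalois (modularFunctionFieldFull N) σ • D
        - heckeDivBar (helper5162.heckeAlphaBarIntegral N ℓ) (helper5162.heckeBetaBarIntegral N ℓ)
          (arithmeticGalois (modularFunctionFieldFull N) σ • D)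
        + ℓ • D :=
  rfl

/-- **Node (R2), point form** at level `N`: for ONE Frobenius element `σ` at `A` and every place
`P` of `F_N`, the divisor `[σσP] - T_ℓ [σP] + ℓ [P]` lies in the divisor kernel.
(Owners: point-level Kronecker congruence on the two charts: the multiset of reductions of
`T_ℓ [σP]` is `{red(σσP)} + ℓ • {red(P)}`.) -/
def NodeR2pt (N : ℕ) [NeZero N] : Prop :=
  ∀ ℓ : ℕ, ∀ hℓ : ℓ.Prime, ¬ ℓ ∣ N → ∀ A : ValuationSubring Kbar, A.LiesOverPrime ℓ →
    ∃ σ : GQ, A.IsFrobeniusAt σ ℓ ∧ ∀ P : Place Kbar (FN N),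
      haveI : NeZero ℓ := ⟨hℓ.ne_zero⟩
      esDiv N ℓ σ (Finsupp.single P 1) ∈ divKernel A N

/-- **Node (XFER)** `N → N * m` at the residue characteristic `ℓ`: pull-back of divisors along
`β_m : q ↦ q^m` maps the divisor kernel of level `N` into the divisor kernel of level `N * m`.
(Owners: `helper7465.map_pullbackAlong_ptKernel_le` on each of the two charts + KRON-VAL +
chart stability "charpoly coefficients of `B'` over `β F_N` lie in `B`".) -/
def NodeXfer (N m ℓ : ℕ) [NeZero N] [NeZero m] : Prop :=
  ∀ A : ValuationSubring Kbar, A.LiesOverPrime ℓ →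
    (divKernel A N).map (Divisor.pullbackAlong (heckeBetaBar Kbar N m)
      (helper5162.heckeBetaBarIntegral N m)) ≤ divKernel A (N * m)

/-- **Node (TORS)** at level `M` and residue characteristic `ℓ`: a divisor of the divisor kernel
which is `q`-torsion in the class group (`q ≠ ℓ` prime) is principal.
(Track B proves it for `4 ∣ M`, `ℓ` odd, and for `9 ∣ M`, `ℓ = 2`: two-chart model over a
number-field layer, regular at the reductions of the support, + the Kummer core.) -/
def NodeTors (M ℓ : ℕ) : Prop :=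
  ∀ A : ValuationSubring Kbar, A.LiesOverPrime ℓ → ∀ q : ℕ, q.Prime → q ≠ ℓ →
    ∀ D ∈ divKernel A M, (q • D).IsPrincipal → D.IsPrincipal

end Nodes

/-! ## Assembly -/

section Assembly

variable {N : ℕ} [NeZero N]

omit [NeZero N] in
/-- (R1) on `J₀(N)` from the point form. -/
theorem inertia_smul_sub_mem_kernelB (h1 : NodeR1 N) {ℓ : ℕ} (hℓ : ℓ.Prime) (hℓN : ¬ ℓ ∣ N)
    {A : ValuationSubring Kbar} (hA : A.LiesOverPrime ℓ) {τ : GQ}
    (hτ : τ ∈ A.inertiaSubgroupIn ℚ) (x : JZero N) : τ • x - x ∈ kernelB A N := by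
  rw [galois_smul_pic0_def]
  exact helper2025.smul_sub_mem_relSubgroup (arithmeticGalois (modularFunctionFieldFull N) τ)
    (fun v => h1 ℓ hℓ hℓN A hA τ hτ v) x

/-- (R2) on `J₀(N)` from the point form. -/
theorem nodeR2_of_pt (h2 : NodeR2pt N) : NodeR2 N := by
  intro ℓ hℓ hℓN A hA
  obtain ⟨σ, hσ, hP⟩ := h2 ℓ hℓ hℓN A hA
  have : NeZero ℓ := ⟨hℓ.ne_zero⟩
  refine ⟨σ, hσ, fun x => ?_⟩
  have hall : ∀ E : Divisor Kbar (FN N), esDiv N ℓ σ E ∈ divKernel A N := by
    intro E
    induction E using Finsupp.induction with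
    | zero => rw [map_zero]; exact zero_mem _
    | single_add v n E _ _ ih =>
        rw [map_add]
        refine add_mem ?_ ih
        have e : (Finsupp.single v n : Divisor Kbar (FN N)) = n • Finsupp.single v 1 := by
          rw [Finsupp.smul_single, smul_eq_mul, mul_one]
        rw [e, map_zsmul]
        exact zsmul_mem (hP v) n
  obtain ⟨D, rfl⟩ := Pic0.mk_surjective x
  have hmem : esDiv N ℓ σ (D : Divisor Kbar (FN N)) ∈ Divisor.degZero (K := Kbar) (F := FN N) :=
    divKernel_le_degZero (hall _)
  have e : σ • σ • Pic0.mk D - heckeOperatorBar N ⟨ℓ, hℓ⟩ (σ • Pic0.mk D) + ℓ • Pic0.mk D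
      = Pic0.mk ⟨esDiv N ℓ σ (D : Divisor Kbar (FN N)), hmem⟩ := by
    have h1 : σ • Pic0.mk D = Pic0.mk (SemilinearAut.degZeroSMulHom
        (arithmeticGalois (modularFunctionFieldFull N) σ) D) := rfl
    have h2 : σ • σ • Pic0.mk D = Pic0.mk (SemilinearAut.degZeroSMulHom
        (arithmeticGalois (modularFunctionFieldFull N) σ) (SemilinearAut.degZeroSMulHom
        (arithmeticGalois (modularFunctionFieldFull N) σ) D)) := rfl
    rw [h2, h1, helper5162.heckeOperatorBar_mk N ⟨ℓ, hℓ⟩]
    rfl
  rw [e]
  exact mk_mem_kernelB (hall _) hmem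

/-- **(R3) at level `N` by transfer to level `N * m`**, `m = p²`: XFER + TORS at level `N * m` +
injectivity of `β_m^*` on divisor classes (PICINJ `helper9304` + BETA-ADAPT `helper9343`). -/
theorem torsion_eq_zero_of_transfer (m : ℕ) [NeZero m] (p : ℕ) (hp : p.Prime) (hm : m = p * p)
    {ℓ : ℕ} (hX : NodeXfer N m ℓ) (hT : NodeTors (N * m) ℓ)
    {A : ValuationSubring Kbar} (hA : A.LiesOverPrime ℓ) {q : ℕ} (hq : q.Prime) (hqℓ : q ≠ ℓ)
    {x : JZero N} (hx : x ∈ kernelB A N) (hqx : q • x = 0) : x = 0 := by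
  obtain ⟨D, hD, rfl⟩ := mem_kernelB_iff.mp hx
  set β := heckeBetaBar Kbar N m with hβ
  set hβi := helper5162.heckeBetaBarIntegral N m with hβi_def
  -- `q • D` is principal
  have hqD : (q • (D : Divisor Kbar (FN N))).IsPrincipal := by
    have h1 : Pic0.mk (q • D) = 0 := hqx
    have h2 := (QuotientAddGroup.eq_zero_iff _).mp h1
    rw [AddSubgroup.mem_addSubgroupOf] at h2
    have h3 : ((q • D : Divisor.degZero (K := Kbar) (F := FN N)) : Divisor Kbar (FN N))
        = q • (D : Divisor Kbar (FN N)) := AddSubgroup.coe_nsmul _ _ _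
    rw [h3] at h2
    exact h2
  -- transfer
  have hD' : Divisor.pullbackAlong β hβi (D : Divisor Kbar (FN N)) ∈ divKernel A (N * m) :=
    hX A hA (AddSubgroup.mem_map_of_mem _ hD)
  have hqD' : (q • Divisor.pullbackAlong β hβi (D : Divisor Kbar (FN N))).IsPrincipal := by
    rw [← map_nsmul]
    exact Divisor.isPrincipal_pullbackAlong β hβi hqD
  have hprin' : (Divisor.pullbackAlong β hβi (D : Divisor Kbar (FN N))).IsPrincipal :=
    hT A hA q hq hqℓ _ hD' hqD'
  -- injectivity of the pull-back
  obtain ⟨w₀, hw₀⟩ := helper9343.exists_place_finrankAlong_lt N m p hp hm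
  have hprin : (D : Divisor Kbar (FN N)).IsPrincipal :=
    helper9304.isPrincipal_of_isPrincipal_pullbackAlong_functionField (jBar N)
      (Fermat.Agent.S24.helper3176.transcendental_jBar N) (jBar (N * m))
      (Fermat.Agent.S24.helper3176.transcendental_jBar (N * m)) β hβi
      (helper5162.finiteAlong_heckeBetaBar N m)
      (helper8426.fundamentalIdentityAlong_heckeBetaBar N m)
      (helper8426.normFormulaAlong_heckeBetaBar N m) w₀ hw₀ _ hprin'
  refine (QuotientAddGroup.eq_zero_iff _).mpr ?_
  rw [AddSubgroup.mem_addSubgroupOf]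
  exact hprin

/-- **Track B, top assembly**: the kernel statement `helper8353.Stmt_Kernel N` (hence the frozen
S37 by `helper8353.result_of_kernel`) from the four nodes. -/
theorem stmt_Kernel_of_nodes (h1 : NodeR1 N) (h2 : NodeR2 N)
    (hodd : ∀ ℓ : ℕ, ℓ.Prime → ¬ ℓ ∣ N → ℓ ≠ 2 → NodeXfer N 4 ℓ ∧ NodeTors (N * 4) ℓ)
    (htwo : ¬ 2 ∣ N → NodeXfer N 9 2 ∧ NodeTors (N * 9) 2) :
    helper8353.Stmt_Kernel N := by
  intro ℓ hℓ hℓN A hA
  obtain ⟨σ, hσ, hES⟩ := h2 ℓ hℓ hℓN A hA
  refine ⟨σ, hσ, kernelB A N, fun τ hτ x => inertia_smul_sub_mem_kernelB h1 hℓ hℓN hA hτ x,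
    hES, ?_⟩
  intro q hq hqℓ x hx hqx
  by_cases h2ℓ : ℓ = 2
  · subst h2ℓ
    obtain ⟨hX, hT⟩ := htwo hℓN
    exact torsion_eq_zero_of_transfer 9 3 Nat.prime_three rfl hX hT hA hq hqℓ hx hqx
  · obtain ⟨hX, hT⟩ := hodd ℓ hℓ hℓN h2ℓ
    exact torsion_eq_zero_of_transfer 4 2 Nat.prime_two rfl hX hT hA hq hqℓ hx hqx

/-- **Track B ⟹ frozen S37** (shape of `Fermat.Agent.S37.result`). -/
theorem result_of_nodes (p : ℕ) (hcomm : HeckeOperatorsCommuteBar N) (h1 : NodeR1 N)
    (h2 : NodeR2 N)
    (hodd : ∀ ℓ : ℕ, ℓ.Prime → ¬ ℓ ∣ N → ℓ ≠ 2 → NodeXfer N 4 ℓ ∧ NodeTors (N * 4) ℓ)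
    (htwo : ¬ 2 ∣ N → NodeXfer N 9 2 ∧ NodeTors (N * 9) 2) :
    letI := heckeModuleBar N
    ∀ (_ : SMulCommClass GQ HeckeAlg (JZero N)),
      SpecializationExists (K := ℚ) (L := Kbar) N p (JZero N) :=
  helper8353.result_of_kernel p hcomm (stmt_Kernel_of_nodes h1 h2 hodd htwo)

end Assembly

/-! ## Bridge to the charts of `helper2025_GaloisCharts` and the kernel of `helper869_Xfer`

`finChartOf A t = helper2025.finChart A t` (by `rfl`), `cuspChartOf A u = helper2025.infChart A u`
(when `1 + u a ≠ 0` for `a ∈ A[u]`, e.g. `u` transcendental), hence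
`charts A M = helper2025.stdCharts A (jBar M)`, `kernelB A M = specKernel A (stdCharts A (jBar M))`
and `divKernel A M = helper869.chartDivKernel A (stdCharts A (jBar M))`: every statement about
the standard charts of `helper2025` is a statement about the Track-B kernel. -/

section Bridge

open Polynomial

variable {K F : Type*} [Field K] [Field F] [Algebra K F]

theorem polyRing_eq_closure_finGen (A : ValuationSubring K) (t : F) :
    polyRing A t = Subring.closure (helper2025.finGen A t) := rfl

theorem coe_finChartOf (A : ValuationSubring K) (t : F) :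
    (finChartOf A t : Set F) = helper2025.finChart A t := rfl

/-- Finitely many elements with denominators in `1 + u A[u]` have a common denominator. -/
theorem exists_common_denominator (A : ValuationSubring K) (u : F) {ι : Type*} (T : Finset ι)
    (c : ι → F) (h : ∀ i ∈ T, ∃ a ∈ polyRing A u, (1 + u * a) * c i ∈ polyRing A u) :
    ∃ a ∈ polyRing A u, ∀ i ∈ T, (1 + u * a) * c i ∈ polyRing A u := by
  classical
  induction T using Finset.induction_on with
  | empty => exact ⟨0, zero_mem _, by simp⟩
  | insert j T hj ih =>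
    obtain ⟨a₁, ha₁, h₁⟩ := ih (fun i hi => h i (Finset.mem_insert_of_mem hi))
    obtain ⟨a₂, ha₂, h₂⟩ := h j (Finset.mem_insert_self j T)
    have hu := self_mem_polyRing A u
    have hs₁ : 1 + u * a₁ ∈ polyRing A u := add_mem (one_mem _) (mul_mem hu ha₁)
    have hs₂ : 1 + u * a₂ ∈ polyRing A u := add_mem (one_mem _) (mul_mem hu ha₂)
    refine ⟨a₁ + a₂ + u * (a₁ * a₂),
      add_mem (add_mem ha₁ ha₂) (mul_mem hu (mul_mem ha₁ ha₂)), ?_⟩
    intro i hi
    rcases Finset.mem_insert.mp hi with rfl | hi
    · have e : (1 + u * (a₁ + a₂ + u * (a₁ * a₂))) * c i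
          = (1 + u * a₁) * ((1 + u * a₂) * c i) := by ring
      rw [e]
      exact mul_mem hs₁ h₂
    · have e : (1 + u * (a₁ + a₂ + u * (a₁ * a₂))) * c i
          = (1 + u * a₂) * ((1 + u * a₁) * c i) := by ring
      rw [e]
      exact mul_mem hs₂ (h₁ i hi)

/-- Every element of `A[u]` localised at `1 + u A[u]` has a denominator in `1 + u A[u]`. -/
theorem exists_denominator_of_mem_closure_infGen (A : ValuationSubring K) (u : F) {r : F}
    (hr : r ∈ Subring.closure (helper2025.infGen A u)) :
    ∃ a ∈ polyRing A u, (1 + u * a) * r ∈ polyRing A u := by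
  have hu := self_mem_polyRing A u
  induction hr using Subring.closure_induction with
  | mem x hx =>
      rcases hx with hx | ⟨c, hc, rfl⟩
      · refine ⟨0, zero_mem _, ?_⟩
        rw [mul_zero, add_zero, one_mul]
        exact Subring.subset_closure hx
      · refine ⟨c, hc, ?_⟩
        by_cases h0 : 1 + u * c = 0
        · rw [h0, zero_mul]
          exact zero_mem _
        · rw [mul_inv_cancel₀ h0]
          exact one_mem _
  | zero => exact ⟨0, zero_mem _, by rw [mul_zero]; exact zero_mem _⟩
  | one => exact ⟨0, zero_mem _, by rw [mul_zero, add_zero, one_mul]; exact one_mem _⟩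
  | add x y _ _ hx hy =>
      obtain ⟨a₁, ha₁, h₁⟩ := hx
      obtain ⟨a₂, ha₂, h₂⟩ := hy
      have hs₁ : 1 + u * a₁ ∈ polyRing A u := add_mem (one_mem _) (mul_mem hu ha₁)
      have hs₂ : 1 + u * a₂ ∈ polyRing A u := add_mem (one_mem _) (mul_mem hu ha₂)
      refine ⟨a₁ + a₂ + u * (a₁ * a₂),
        add_mem (add_mem ha₁ ha₂) (mul_mem hu (mul_mem ha₁ ha₂)), ?_⟩
      have e : (1 + u * (a₁ + a₂ + u * (a₁ * a₂))) * (x + y)
          = (1 + u * a₂) * ((1 + u * a₁) * x) + (1 + u * a₁) * ((1 + u * a₂) * y) := by ring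
      rw [e]
      exact add_mem (mul_mem hs₂ h₁) (mul_mem hs₁ h₂)
  | neg x _ hx =>
      obtain ⟨a, ha, h⟩ := hx
      exact ⟨a, ha, by rw [mul_neg]; exact neg_mem h⟩
  | mul x y _ _ hx hy =>
      obtain ⟨a₁, ha₁, h₁⟩ := hx
      obtain ⟨a₂, ha₂, h₂⟩ := hy
      refine ⟨a₁ + a₂ + u * (a₁ * a₂),
        add_mem (add_mem ha₁ ha₂) (mul_mem hu (mul_mem ha₁ ha₂)), ?_⟩
      have e : (1 + u * (a₁ + a₂ + u * (a₁ * a₂))) * (x * y)
          = ((1 + u * a₁) * x) * ((1 + u * a₂) * y) := by ring
      rw [e]
      exact mul_mem h₁ h₂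

/-- The local chart at infinity of `helper2025` is contained in `cuspChartOf` (clearing
denominators in an integral equation). -/
theorem infChart_subset_cuspChartOf (A : ValuationSubring K) (u : F) :
    helper2025.infChart A u ⊆ (cuspChartOf A u : Set F) := by
  intro f hf
  obtain ⟨p, hp, hpf⟩ := hf
  have hle : polyRing A u ≤ Subring.closure (helper2025.infGen A u) :=
    Subring.closure_mono (helper2025.finGen_subset_infGen A u)
  obtain ⟨a, ha, hden⟩ := exists_common_denominator A u (Finset.range (p.natDegree + 1))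
    (fun i => ((p.coeff i : Subring.closure (helper2025.infGen A u)) : F))
    (fun i _ => exists_denominator_of_mem_closure_infGen A u (p.coeff i).2)
  have hsP : 1 + u * a ∈ polyRing A u :=
    add_mem (one_mem _) (mul_mem (self_mem_polyRing A u) ha)
  set s : Subring.closure (helper2025.infGen A u) := ⟨1 + u * a, hle hsP⟩ with hs
  have hq_monic : (scaleRoots p s).Monic := (monic_scaleRoots_iff s).mpr hp
  have hq_root : eval₂ (algebraMap (Subring.closure (helper2025.infGen A u)) F)
      ((1 + u * a) * f) (scaleRoots p s) = 0 := by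
    have h1 := scaleRoots_eval₂_mul (p := p)
      (algebraMap (Subring.closure (helper2025.infGen A u)) F) f s
    rw [hpf, mul_zero] at h1
    exact h1
  have hq_coeff : ∀ i, (((scaleRoots p s).coeff i :
      Subring.closure (helper2025.infGen A u)) : F) ∈ polyRing A u := by
    intro i
    rw [coeff_scaleRoots]
    rcases lt_trichotomy i p.natDegree with h | h | h
    · have h1 := hden i (Finset.mem_range.mpr (by omega))
      obtain ⟨k, hk⟩ : ∃ k, p.natDegree - i = k + 1 := ⟨p.natDegree - i - 1, by omega⟩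
      rw [hk, pow_succ]
      have e : ((p.coeff i * (s ^ k * s) : Subring.closure (helper2025.infGen A u)) : F)
          = (1 + u * a) ^ k * ((1 + u * a) * ((p.coeff i :
            Subring.closure (helper2025.infGen A u)) : F)) := by
        push_cast
        rw [hs]
        ring
      rw [e]
      exact mul_mem (pow_mem hsP k) h1
    · subst h
      rw [Nat.sub_self, pow_zero, mul_one, hp.coeff_natDegree]
      exact one_mem _
    · rw [coeff_eq_zero_of_natDegree_lt h, zero_mul]
      exact zero_mem _
  have hlift : scaleRoots p s ∈ Polynomial.lifts (Subring.inclusion hle) := by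
    rw [Polynomial.lifts_iff_coeff_lifts]
    intro i
    exact ⟨⟨_, hq_coeff i⟩, Subtype.ext rfl⟩
  obtain ⟨q₀, hq₀, -, hq₀m⟩ := Polynomial.lifts_and_natDegree_eq_and_monic hlift hq_monic
  refine ⟨a, ha, q₀, hq₀m, ?_⟩
  have e : eval₂ (algebraMap (polyRing A u) F) ((1 + u * a) * f) q₀
      = eval₂ (algebraMap (Subring.closure (helper2025.infGen A u)) F) ((1 + u * a) * f)
        (q₀.map (Subring.inclusion hle)) := by
    rw [Polynomial.eval₂_map]
    rfl
  rw [e, hq₀]
  exact hq_root

/-- `cuspChartOf` is contained in the local chart at infinity of `helper2025`, as soon as the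
elements of `1 + u A[u]` are nonzero. -/
theorem cuspChartOf_subset_infChart (A : ValuationSubring K) (u : F)
    (hu : ∀ a ∈ polyRing A u, 1 + u * a ≠ 0) :
    (cuspChartOf A u : Set F) ⊆ helper2025.infChart A u := by
  rintro f ⟨a, ha, hint⟩
  have h1 : (1 + u * a)⁻¹ ∈ helper2025.infChart A u :=
    helper2025.subset_intChart _ (Or.inr ⟨a, ha, rfl⟩)
  have h2 : (1 + u * a) * f ∈ helper2025.infChart A u :=
    helper2025.finChart_subset_infChart A u hint
  have e : f = (1 + u * a)⁻¹ * ((1 + u * a) * f) := by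
    rw [← mul_assoc, inv_mul_cancel₀ (hu a ha), one_mul]
  rw [e]
  exact helper2025.intChart_mul h1 h2

theorem coe_cuspChartOf (A : ValuationSubring K) (u : F)
    (hu : ∀ a ∈ polyRing A u, 1 + u * a ≠ 0) :
    (cuspChartOf A u : Set F) = helper2025.infChart A u :=
  Set.Subset.antisymm (cuspChartOf_subset_infChart A u hu) (infChart_subset_cuspChartOf A u)

end Bridge

section BridgeModular

variable (A : ValuationSubring Kbar) (M : ℕ)

/-- The elements of `1 + (1/j) A[1/j]` are nonzero (they are units at the cusp `∞`). -/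
theorem one_add_ne_zero {a : FN M} (ha : a ∈ polyRing A (jBar M)⁻¹) :
    1 + (jBar M)⁻¹ * a ≠ 0 := by
  intro h0
  have hle : polyRing A (jBar M)⁻¹ ≤ (helper9343.qPlace M).toValuationSubring.toSubring := by
    rw [polyRing, Subring.closure_le]
    rintro g (⟨c, -, rfl⟩ | hg)
    · exact (helper9343.qPlace M).algebraMap_mem' c
    · rw [Set.mem_singleton_iff] at hg
      rw [hg]
      exact Fermat.Agent.S24.helper1370.mem_of_ord_nonneg _
        (by rw [helper9343.qPlace_ord_jBar_inv]; exact zero_le_one)
  have ha0 : a ≠ 0 := by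
    rintro rfl
    rw [mul_zero, add_zero] at h0
    exact one_ne_zero h0
  have hj0 : (jBar M)⁻¹ ≠ 0 := inv_ne_zero (helper9343.jBar_ne_zero M)
  have h1 : (helper9343.qPlace M).ord ((jBar M)⁻¹ * a) = 0 := by
    have e : (jBar M)⁻¹ * a = -1 := by
      rw [← add_eq_zero_iff_eq_neg']
      exact h0
    rw [e, Fermat.Agent.S24.helper1370.ord_neg, Place.ord_one]
  rw [Place.ord_mul _ hj0 ha0, helper9343.qPlace_ord_jBar_inv] at h1
  have h2 := Fermat.Agent.S24.helper1370.ord_nonneg_of_mem (helper9343.qPlace M) (hle ha)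
  omega

theorem coe_finChart : (finChart A M : Set (FN M)) = helper2025.finChart A (jBar M) := rfl

theorem coe_cuspChart : (cuspChart A M : Set (FN M)) = helper2025.infChart A (jBar M)⁻¹ :=
  coe_cuspChartOf A _ (fun _ ha => one_add_ne_zero A M ha)

/-- The Track-B chart family is the standard chart family of `helper2025` for `t = j`. -/
theorem charts_eq_stdCharts : charts A M = helper2025.stdCharts A (jBar M) := by
  unfold charts helper2025.stdCharts
  rw [coe_finChart, coe_cuspChart]

theorem kernelB_eq : kernelB A M = specKernel A (helper2025.stdCharts A (jBar M)) := by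
  unfold kernelB
  rw [charts_eq_stdCharts]

theorem divKernel_eq_chartDivKernel :
    divKernel A M = helper869.chartDivKernel A (helper2025.stdCharts A (jBar M)) := by
  unfold divKernel SameRed helper869.chartDivKernel
  rw [charts_eq_stdCharts]

theorem divKernel_eq_chartDivKernel' :
    divKernel A M = helper869.chartDivKernel A
      {helper2025.finChart A (jBar M), helper2025.infChart A (jBar M)⁻¹} :=
  divKernel_eq_chartDivKernel A M

end BridgeModular

end Fermat.Agent.S37.helper37

end
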