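import Fermat.Agent.S37.helper3298_RigidityS18
import Fermat.Agent.S37.helper137_KroneckerNorm
import Fermat.Agent.S37.helper37_TrackB
import Fermat.Agent.S18.helper3054_Top

/-!
# S37 T-FRIG, nodes (F-I) and (F-ES)  (helper3298)

The two function-level halves of the rigidity chains (plan v3 of the S37 chat, #391), in the
vocabulary `IntegralFn A N` of `S18/helper3054` (`gen`, `red`):

* `kronRed` : the function-level Kronecker congruence `KronRed N ℓ A` (for `ν y = Norm_α (β y)`),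
  from the landed `helper137.norm_alpha_beta_integral`;
* `frig_inertia` (F-I): for `τ` in the inertia group of `A` and an integral function `a` there is
  an integral function `a'` with `a'.gen = g_τ • a.gen` and `a'.red = a.red`;
  `frig_inertia_div` : the divisor form;
* `frig_es` (F-ES): for a Frobenius `σ` at `A` (over `ℓ ∤ N`), an integral function `a` and
  `D = div a.gen` there are integral functions `X`, `Y` with `X.red = Y.red` and
  `σσD - T_ℓ (σ D) + ℓ D = div X.gen - div Y.gen`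
  (`X = (σσa) · a^ℓ`, `Y = ν (σ a)`);  `frig_es_esDiv` : the same with `helper37.esDiv`.
-/

set_option autoImplicit false
set_option synthInstance.maxHeartbeats 400000

noncomputable section

namespace Fermat.Agent.S37.helper3298

open AlgebraicCurve ModularCurve
open Fermat.Agent.S37.helper8353 (Qb GQ)
open Fermat.Agent.S37.helper1138 (FNb gal)
open Fermat.Agent.S37.helper5162 (heckeAlphaBarIntegral heckeBetaBarIntegral)
open Fermat.Agent.S18.helper3054 (IntegralFn)

/-! ### (C2) the function-level Kronecker congruence, from the landed `helper137` -/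

/-- `KronRed N ℓ A` holds for every prime `ℓ ∤ N` and every `A` over `ℓ`. -/
theorem kronRed (N ℓ : ℕ) [NeZero N] [NeZero ℓ] (hℓ : ℓ.Prime) (hℓN : ¬ ℓ ∣ N)
    (A : ValuationSubring Qb) (hA : A.LiesOverPrime ℓ) : KronRed N ℓ A := by
  have : Fact ℓ.Prime := ⟨hℓ⟩
  have : CharP (IsLocalRing.ResidueField A) ℓ :=
    Fermat.Agent.S18.helper508.charP_residueField ℓ A hA
  have : ExpChar (IsLocalRing.ResidueField A) ℓ := ExpChar.prime hℓ
  intro y hy
  obtain ⟨z, hz1, hz2⟩ := Fermat.Agent.S37.helper137.norm_alpha_beta_integral A hℓ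
    ((Nat.Prime.coprime_iff_not_dvd hℓ).mpr hℓN) (serFn N A y hy) y rfl
  refine ⟨z, hz1, ?_⟩
  rw [hz2, map_mul, Fermat.Agent.Lib.helper7516.qExpand_coeffMap_frobenius]

/-! ### (F-I) inertia -/

section Inertia

variable (N : ℕ) [NeZero N] (A : ValuationSubring Qb)

omit [NeZero N] in
/-- **(F-I).**  For `τ` in the inertia group of `A`, the conjugate `g_τ • a.gen` of an integral
function is again an integral function, with the SAME reduction. -/
theorem frig_inertia {τ : GQ} (hτ : τ ∈ A.inertiaSubgroupIn ℚ) (a : IntegralFn A N) :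
    ∃ a' : IntegralFn A N, a'.gen = gal N τ • a.gen ∧ a'.red = a.red := by
  have hτd := mem_decomposition_of_mem_inertia A hτ
  have hres := coeffMap_residue_decompHom_of_inertia A hτ a.y
  refine ⟨⟨coeffMap (decompHom A hτd) a.y, mem_decompHom N A hτd a.mem, ?_, ?_⟩, ?_, ?_⟩
  · rw [hres]; exact a.memk
  · rw [hres]; exact a.ne
  · exact (gal_smul_serFn N A hτd a.y a.mem).symm
  · exact Subtype.ext hres

omit [NeZero N] in
/-- (F-I), divisor form: `g_τ • div a.gen = div a'.gen` with `a'.red = a.red`. -/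
theorem frig_inertia_div {τ : GQ} (hτ : τ ∈ A.inertiaSubgroupIn ℚ) (a : IntegralFn A N)
    (D : Divisor Qb (FNb N)) (hD : ∀ P : Place Qb (FNb N), D P = P.ord a.gen) :
    ∃ a' : IntegralFn A N, a'.red = a.red ∧
      ∀ P : Place Qb (FNb N), (gal N τ • D) P = P.ord a'.gen := by
  obtain ⟨a', h1, h2⟩ := frig_inertia N A hτ a
  refine ⟨a', h2, fun P => ?_⟩
  have hD' : IsDivOf D a.gen := hD
  rw [h1]
  exact hD'.smul (gal N τ) P

end Inertia

/-! ### (F-ES) Eichler–Shimura -/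

section ES

variable (N ℓ : ℕ) [NeZero N] [NeZero ℓ]

/-- **(F-ES).**  For a Frobenius `σ` at `A` (`A` over the prime `ℓ ∤ N`), an integral function `a`
and `D = div a.gen`: the Eichler–Shimura divisor `σσD - T_ℓ (σ D) + ℓ D` is `div X.gen - div Y.gen`
for two integral functions with the same reduction (`X = (σσa) · a^ℓ`, `Y = Norm_α (β (σ a))`). -/
theorem frig_es (hℓ : ℓ.Prime) (hℓN : ¬ ℓ ∣ N) (A : ValuationSubring Qb)
    (hA : A.LiesOverPrime ℓ) {σ : GQ} (hσ : A.IsFrobeniusAt σ ℓ) (a : IntegralFn A N)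
    (D : Divisor Qb (FNb N)) (hD : ∀ P : Place Qb (FNb N), D P = P.ord a.gen) :
    ∃ X Y : IntegralFn A N, X.red = Y.red ∧
      ∀ P : Place Qb (FNb N),
        (gal N σ • gal N σ • D
          - heckeDivBar (heckeAlphaBarIntegral N ℓ) (heckeBetaBarIntegral N ℓ) (gal N σ • D)
          + ℓ • D) P = P.ord X.gen - P.ord Y.gen := by
  have : Fact ℓ.Prime := ⟨hℓ⟩
  have hσd := hσ.mem_decompositionSubgroup
  have hKron := kronRed N ℓ hℓ hℓN A hA
  obtain ⟨y, hy, hyk, hne⟩ := a
  have hE' : IsDivOf D (serFn N A y hy) := hD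
  -- the three integral series
  set y₁ := coeffMap (decompHom A hσd) y with hy₁def
  have hy₁ : coeffMap A.subtype y₁ ∈ modularFunctionFieldBar N := mem_decompHom N A hσd hy
  set y₂ := coeffMap (decompHom A hσd) y₁ with hy₂def
  have hy₂ : coeffMap A.subtype y₂ ∈ modularFunctionFieldBar N := mem_decompHom N A hσd hy₁
  obtain ⟨z, hz1, hz2⟩ := hKron y₁ hy₁
  have hz : coeffMap A.subtype z ∈ modularFunctionFieldBar N := by
    rw [hz1]
    exact (heckeNorm N ℓ (serFn N A y₁ hy₁)).2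
  have hnorm : heckeNorm N ℓ (serFn N A y₁ hy₁) = serFn N A z hz := Subtype.ext hz1.symm
  -- their reductions
  have f1 : qExpand (IsLocalRing.ResidueField A) ℓ (coeffMap (IsLocalRing.residue A) y₁)
      = coeffMap (IsLocalRing.residue A) y ^ ℓ :=
    qExpand_coeffMap_residue_decompHom_of_frobenius A hA hσ y
  have f2 : qExpand (IsLocalRing.ResidueField A) ℓ (coeffMap (IsLocalRing.residue A) y₂)
      = coeffMap (IsLocalRing.residue A) y₁ ^ ℓ :=
    qExpand_coeffMap_residue_decompHom_of_frobenius A hA hσ y₁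
  have hne₁ : coeffMap (IsLocalRing.residue A) y₁ ≠ 0 := by
    intro h0
    rw [h0, map_zero] at f1
    exact pow_ne_zero ℓ hne f1.symm
  have hne₂ : coeffMap (IsLocalRing.residue A) y₂ ≠ 0 := by
    intro h0
    rw [h0, map_zero] at f2
    exact pow_ne_zero ℓ hne₁ f2.symm
  have hzbar : coeffMap (IsLocalRing.residue A) z =
      coeffMap (IsLocalRing.residue A) y ^ ℓ * coeffMap (IsLocalRing.residue A) y₂ := by
    apply qExpand_injective (R := IsLocalRing.ResidueField A) ℓ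
    rw [hz2, f1, map_mul, map_pow, f2]
  have hy0 : y ≠ 0 := by
    intro h0
    exact hne (by rw [h0, map_zero])
  have hy₁0 : y₁ ≠ 0 := by
    intro h0
    exact hne₁ (by rw [h0, map_zero])
  have hy₂0 : y₂ ≠ 0 := by
    intro h0
    exact hne₂ (by rw [h0, map_zero])
  -- the three divisors
  have hA1 := (hE'.smul (gal N σ)).smul (gal N σ)
  rw [gal_smul_serFn N A hσd y hy, gal_smul_serFn N A hσd y₁ hy₁] at hA1
  have hB1 := isDivOf_heckeDivBar N ℓ (hE'.smul (gal N σ))
    (by rw [gal_smul_serFn N A hσd y hy]; exact serFn_ne_zero N A hy₁ hy₁0)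
  rw [gal_smul_serFn N A hσd y hy, hnorm] at hB1
  -- the two integral functions
  have hXmem : coeffMap A.subtype (y₂ * y ^ ℓ) ∈ modularFunctionFieldBar N := by
    rw [map_mul, map_pow]
    exact mul_mem hy₂ (pow_mem hy ℓ)
  have hXne : coeffMap (IsLocalRing.residue A) (y₂ * y ^ ℓ) ≠ 0 := by
    rw [map_mul, map_pow]
    exact mul_ne_zero hne₂ (pow_ne_zero ℓ hne)
  have hYne : coeffMap (IsLocalRing.residue A) z ≠ 0 := by
    rw [hzbar]
    exact mul_ne_zero (pow_ne_zero ℓ hne) hne₂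
  refine ⟨⟨y₂ * y ^ ℓ, hXmem,
      Fermat.Agent.S18.helper508.coeffMap_residue_mem_fullC N ℓ hℓN A hA _ hXmem, hXne⟩,
    ⟨z, hz, Fermat.Agent.S18.helper508.coeffMap_residue_mem_fullC N ℓ hℓN A hA _ hz, hYne⟩,
    ?_, fun P => ?_⟩
  · apply Subtype.ext
    show coeffMap (IsLocalRing.residue A) (y₂ * y ^ ℓ) = coeffMap (IsLocalRing.residue A) z
    rw [hzbar, map_mul, map_pow, mul_comm]
  · have hXgen : (⟨coeffMap A.subtype (y₂ * y ^ ℓ), hXmem⟩ : FNb N) =
        serFn N A y₂ hy₂ * serFn N A y hy ^ ℓ := by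
      apply Subtype.ext
      show coeffMap A.subtype (y₂ * y ^ ℓ) = coeffMap A.subtype y₂ * coeffMap A.subtype y ^ ℓ
      rw [map_mul, map_pow]
    show (gal N σ • gal N σ • D
          - heckeDivBar (heckeAlphaBarIntegral N ℓ) (heckeBetaBarIntegral N ℓ) (gal N σ • D)
          + ℓ • D) P =
        P.ord (⟨coeffMap A.subtype (y₂ * y ^ ℓ), hXmem⟩ : FNb N) - P.ord (serFn N A z hz)
    rw [hXgen, P.ord_mul (serFn_ne_zero N A hy₂ hy₂0)
        (pow_ne_zero ℓ (serFn_ne_zero N A hy hy0)), ord_pow_nat,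
      Finsupp.add_apply, Finsupp.sub_apply, Finsupp.smul_apply, hA1 P, hB1 P, hE' P,
      nsmul_eq_mul]
    ring

/-- **(F-ES)** with the Eichler–Shimura endomorphism `helper37.esDiv` of the Track-B spec. -/
theorem frig_es_esDiv (hℓ : ℓ.Prime) (hℓN : ¬ ℓ ∣ N) (A : ValuationSubring Qb)
    (hA : A.LiesOverPrime ℓ) {σ : GQ} (hσ : A.IsFrobeniusAt σ ℓ) (a : IntegralFn A N)
    (D : Divisor Qb (FNb N)) (hD : ∀ P : Place Qb (FNb N), D P = P.ord a.gen) :
    ∃ X Y : IntegralFn A N, X.red = Y.red ∧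
      ∀ P : Place Qb (FNb N),
        Fermat.Agent.S37.helper37.esDiv N ℓ σ D P = P.ord X.gen - P.ord Y.gen :=
  frig_es N ℓ hℓ hℓN A hA hσ a D hD

end ES

/-! ### Pair forms (the `hΛc` inputs of `helper117.good_of_companion`)

For `a b : IntegralFn A N` and `D = div a.gen - div b.gen` (no stray constant), the divisors
`(τ - 1) D` and `esDiv D` are `div X.gen - div Y.gen` with `X.red = Y.red`. -/

section Pair

theorem smul_apply_of_ord_sub {K F : Type*} [Field K] [Field F] [Algebra K F]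
    {D : Divisor K F} {f g : F} (h : ∀ v : Place K F, D v = v.ord f - v.ord g)
    (s : SemilinearAut K F) (w : Place K F) : (s • D) w = w.ord (s • f) - w.ord (s • g) := by
  rw [SemilinearAut.divisor_smul_apply, h (s⁻¹ • w)]
  have h1 := SemilinearAut.ord_smul s (s⁻¹ • w) f
  have h2 := SemilinearAut.ord_smul s (s⁻¹ • w) g
  rw [smul_inv_smul] at h1 h2
  rw [h1, h2]

/-- **(F-I), pair form.**  `(g_τ - 1) (div a - div b) = div X - div Y` with `X.red = Y.red`
(`X = a' b`, `Y = a b'`). -/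
theorem frig_inertia_pair (N : ℕ) (A : ValuationSubring Qb) {τ : GQ}
    (hτ : τ ∈ A.inertiaSubgroupIn ℚ) (a b : IntegralFn A N) (D : Divisor Qb (FNb N))
    (hD : ∀ P : Place Qb (FNb N), D P = P.ord a.gen - P.ord b.gen) :
    ∃ X Y : IntegralFn A N, X.red = Y.red ∧
      ∀ P : Place Qb (FNb N),
        Fermat.Agent.S37.helper1138.inertiaDiv (N := N) τ D P = P.ord X.gen - P.ord Y.gen := by
  obtain ⟨a', ha1, ha2⟩ := frig_inertia N A hτ a
  obtain ⟨b', hb1, hb2⟩ := frig_inertia N A hτ b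
  refine ⟨a'.mul b, a.mul b', ?_, fun P => ?_⟩
  · rw [IntegralFn.red_mul, IntegralFn.red_mul, ha2, hb2]
  · rw [Fermat.Agent.S37.helper1138.inertiaDiv_apply, Finsupp.sub_apply,
      smul_apply_of_ord_sub hD (gal N τ) P, hD P, ← ha1, ← hb1, IntegralFn.gen_mul,
      IntegralFn.gen_mul, P.ord_mul a'.gen_ne_zero b.gen_ne_zero,
      P.ord_mul a.gen_ne_zero b'.gen_ne_zero]
    ring

/-- **(F-ES), pair form**, left side written out. -/
theorem frig_es_pair (N ℓ : ℕ) [NeZero N] [NeZero ℓ] (hℓ : ℓ.Prime) (hℓN : ¬ ℓ ∣ N)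
    (A : ValuationSubring Qb) (hA : A.LiesOverPrime ℓ) {σ : GQ} (hσ : A.IsFrobeniusAt σ ℓ)
    (a b : IntegralFn A N) (D : Divisor Qb (FNb N))
    (hD : ∀ P : Place Qb (FNb N), D P = P.ord a.gen - P.ord b.gen) :
    ∃ X Y : IntegralFn A N, X.red = Y.red ∧
      ∀ P : Place Qb (FNb N),
        (gal N σ • gal N σ • D
          - heckeDivBar (heckeAlphaBarIntegral N ℓ) (heckeBetaBarIntegral N ℓ) (gal N σ • D)
          + ℓ • D) P = P.ord X.gen - P.ord Y.gen := by
  obtain ⟨Da, hDa, -⟩ := HasPrincipalDivisors.exists_divisor (K := Qb) a.gen a.gen_ne_zero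
  obtain ⟨Db, hDb, -⟩ := HasPrincipalDivisors.exists_divisor (K := Qb) b.gen b.gen_ne_zero
  have hDeq : D = Da - Db := by
    ext P
    rw [Finsupp.sub_apply, hD P, hDa P, hDb P]
  obtain ⟨Xa, Ya, hra, hoa⟩ := frig_es N ℓ hℓ hℓN A hA hσ a Da hDa
  obtain ⟨Xb, Yb, hrb, hob⟩ := frig_es N ℓ hℓ hℓN A hA hσ b Db hDb
  refine ⟨Xa.mul Yb, Ya.mul Xb, ?_, fun P => ?_⟩
  · rw [IntegralFn.red_mul, IntegralFn.red_mul, hra, hrb]
  · have hsplit : gal N σ • gal N σ • D
          - heckeDivBar (heckeAlphaBarIntegral N ℓ) (heckeBetaBarIntegral N ℓ) (gal N σ • D)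
          + ℓ • D =
        (gal N σ • gal N σ • Da
          - heckeDivBar (heckeAlphaBarIntegral N ℓ) (heckeBetaBarIntegral N ℓ) (gal N σ • Da)
          + ℓ • Da) -
        (gal N σ • gal N σ • Db
          - heckeDivBar (heckeAlphaBarIntegral N ℓ) (heckeBetaBarIntegral N ℓ) (gal N σ • Db)
          + ℓ • Db) := by
      rw [hDeq, smul_sub, smul_sub, map_sub, smul_sub]
      abel
    rw [hsplit, Finsupp.sub_apply, hoa P, hob P, IntegralFn.gen_mul, IntegralFn.gen_mul,
      P.ord_mul Xa.gen_ne_zero Yb.gen_ne_zero, P.ord_mul Ya.gen_ne_zero Xb.gen_ne_zero]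
    ring

/-- **(F-ES), pair form**, for `helper1138.esDiv` (any proofs `hα`, `hβ`). -/
theorem frig_es_pair_esDiv1138 (N ℓ : ℕ) [NeZero N] [NeZero ℓ] (hℓ : ℓ.Prime) (hℓN : ¬ ℓ ∣ N)
    (A : ValuationSubring Qb) (hA : A.LiesOverPrime ℓ) {σ : GQ} (hσ : A.IsFrobeniusAt σ ℓ)
    (hα : HeckeAlphaBarIntegral Qb N ℓ) (hβ : HeckeBetaBarIntegral Qb N ℓ)
    [HasPrincipalDivisors Qb (laurentBaseChange Qb (modularFunctionFieldFull (N * ℓ)))]
    (a b : IntegralFn A N) (D : Divisor Qb (FNb N))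
    (hD : ∀ P : Place Qb (FNb N), D P = P.ord a.gen - P.ord b.gen) :
    ∃ X Y : IntegralFn A N, X.red = Y.red ∧
      ∀ P : Place Qb (FNb N),
        Fermat.Agent.S37.helper1138.esDiv ℓ hα hβ σ D P = P.ord X.gen - P.ord Y.gen :=
  frig_es_pair N ℓ hℓ hℓN A hA hσ a b D hD

/-- **(F-ES), pair form**, for `helper37.esDiv`. -/
theorem frig_es_pair_esDiv (N ℓ : ℕ) [NeZero N] [NeZero ℓ] (hℓ : ℓ.Prime) (hℓN : ¬ ℓ ∣ N)
    (A : ValuationSubring Qb) (hA : A.LiesOverPrime ℓ) {σ : GQ} (hσ : A.IsFrobeniusAt σ ℓ)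
    (a b : IntegralFn A N) (D : Divisor Qb (FNb N))
    (hD : ∀ P : Place Qb (FNb N), D P = P.ord a.gen - P.ord b.gen) :
    ∃ X Y : IntegralFn A N, X.red = Y.red ∧
      ∀ P : Place Qb (FNb N),
        Fermat.Agent.S37.helper37.esDiv N ℓ σ D P = P.ord X.gen - P.ord Y.gen :=
  frig_es_pair N ℓ hℓ hℓN A hA hσ a b D hD

end Pair

end Fermat.Agent.S37.helper3298

end
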