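import Mathlib
import Fermat.Prelude.Def_ModularCurve_HeckeModule
import Fermat.Agent.S37.helper8353_TopKernel

/-!
# S37, plan module A2 (ASM): from a DIVISOR-LEVEL crude package to the core statement (helper1138)

The top reduction `helper8353.result_of_core / result_of_kernel` reduces the frozen S37 to a
statement about the subgroup `relBar N A ℓ σ` of `J₀(N) = Pic⁰(F_N)`, in which the Hecke operator
is the Prelude operator `heckeOperatorBar N ℓ` (defined by `dif_pos` on `HeckeInputsAlong`) and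
the Galois action is the coefficientwise action on classes.

This file closes the gap between that and the geometry, which works with DIVISORS:

* `galois_smul_mk`        : `σ • [D] = [g_σ • D]` (`g_σ = arithmeticGalois … σ` acting on places);
* `heckeOperatorBar_mk`   : `T_ℓ [D] = [α_* β^* D]` given `HeckeInputsAlong ℚ̄ N ℓ`
                             (`α_* β^* = heckeDivBar hα hβ`, the Prelude divisor correspondence);
* `classesOf Kdiv`        : the subgroup of `Pic⁰` of classes of degree-0 divisors lying in a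
                             subgroup `Kdiv` of the divisor group;
* `relBar_le_classesOf`   : if `Kdiv` contains `[τ v] - [v]` (τ in inertia) and the crude
                             Kronecker divisor `[σσ v] - α_* β^* [σ v] + ℓ [v]` for every PLACE `v`,
                             then `relBar N A ℓ σ ≤ classesOf Kdiv`;
* `relBar_torsion_eq_zero_of_divisorKernel` : (R1)+(R2) place by place + (R3) on `Kdiv`
                             ⟹ `relBar` has no `p`-power torsion;
* `stmt_Core_of_divisorKernel`, `stmt_Kernel_of_divisorKernel` : the global forms, feeding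
                             `helper8353.result_of_core` / `result_of_kernel`;
* relation form (`Kdiv = closure {[v] - [w] | r v w}`) and `csp` form (`Kdiv = ker csp`).
-/

set_option autoImplicit false

noncomputable section

open AlgebraicCurve ModularCurve

namespace Fermat.Agent.S37.helper1138

open Fermat.Agent.S37.helper8353 (Qb GQ relBar esBar Stmt_Core Stmt_Kernel)

/-! ### Generic divisor lemmas -/

section Generic

variable {K F : Type*} [Field K] [Field F] [Algebra K F]

/-- An additive endomorphism of the divisor group maps every divisor into a subgroup as soon as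
it maps every single place (with multiplicity one) into it. -/
theorem map_mem_of_single {G : Type*} [AddCommGroup G] (H : AddSubgroup G)
    (Φ : Divisor K F →+ G) (h : ∀ v : Place K F, Φ (Finsupp.single v 1) ∈ H) (D : Divisor K F) :
    Φ D ∈ H := by
  induction D using Finsupp.induction with
  | zero => rw [map_zero]; exact H.zero_mem
  | single_add v n D _ _ ih =>
    rw [map_add]
    refine H.add_mem ?_ ih
    have hs : (Finsupp.single v n : Divisor K F) = n • Finsupp.single v (1 : ℤ) := by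
      rw [Finsupp.smul_single, smul_eq_mul, mul_one]
    rw [hs, map_zsmul]
    exact H.zsmul_mem (h v) n

/-- The subgroup of `Pic⁰` consisting of the classes of the degree-zero divisors lying in a
given subgroup `Kdiv` of the divisor group. -/
def classesOf (Kdiv : AddSubgroup (Divisor K F)) : AddSubgroup (Pic0 K F) where
  carrier := {x | ∃ D : Divisor.degZero (K := K) (F := F), (D : Divisor K F) ∈ Kdiv ∧
    Pic0.mk D = x}
  zero_mem' := ⟨0, Kdiv.zero_mem, rfl⟩
  add_mem' := by
    rintro _ _ ⟨D, hD, rfl⟩ ⟨E, hE, rfl⟩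
    exact ⟨D + E, Kdiv.add_mem hD hE, rfl⟩
  neg_mem' := by
    rintro _ ⟨D, hD, rfl⟩
    exact ⟨-D, Kdiv.neg_mem hD, rfl⟩

theorem mem_classesOf {Kdiv : AddSubgroup (Divisor K F)} {x : Pic0 K F} :
    x ∈ classesOf Kdiv ↔ ∃ D : Divisor.degZero (K := K) (F := F),
      (D : Divisor K F) ∈ Kdiv ∧ Pic0.mk D = x := Iff.rfl

theorem mk_mem_classesOf {Kdiv : AddSubgroup (Divisor K F)}
    (D : Divisor.degZero (K := K) (F := F)) (hD : (D : Divisor K F) ∈ Kdiv) :
    Pic0.mk D ∈ classesOf Kdiv := ⟨D, hD, rfl⟩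

theorem classesOf_mono {K₁ K₂ : AddSubgroup (Divisor K F)} (h : K₁ ≤ K₂) :
    classesOf K₁ ≤ classesOf K₂ := by
  rintro _ ⟨D, hD, rfl⟩
  exact ⟨D, h hD, rfl⟩

theorem Pic0.mk_sub' (D E : Divisor.degZero (K := K) (F := F)) :
    Pic0.mk (D - E) = Pic0.mk D - Pic0.mk E := rfl

theorem Pic0.mk_nsmul' (n : ℕ) (D : Divisor.degZero (K := K) (F := F)) :
    Pic0.mk (n • D) = n • Pic0.mk D := rfl

/-- Semilinear automorphisms act on classes through their action on divisors. -/
theorem semilinear_smul_mk (g : SemilinearAut K F) (D : Divisor.degZero (K := K) (F := F)) :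
    g • Pic0.mk D = Pic0.mk (SemilinearAut.degZeroSMulHom g D) :=
  SemilinearAut.pic0_smul_mk g D

end Generic

/-! ### The modular instance -/

section Modular

variable (N : ℕ) [NeZero N]

/-- The function field of `X₀(N)` over `ℚ̄`, as a type. -/
abbrev FNb : Type := ↥(modularFunctionFieldBar N)

/-- The coefficientwise semilinear automorphism of `F_N` attached to `σ ∈ Gal(ℚ̄/ℚ)`. -/
abbrev gal (σ : GQ) : SemilinearAut Qb (FNb N) :=
  arithmeticGalois (modularFunctionFieldFull N) σ

variable {N}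

omit [NeZero N] in
/-- The Galois action on `J₀(N)` on the class of a divisor. -/
theorem galois_smul_mk (σ : GQ) (D : Divisor.degZero (K := Qb) (F := FNb N)) :
    (σ • (Pic0.mk D : JZero N) : JZero N) = Pic0.mk (SemilinearAut.degZeroSMulHom (gal N σ) D) :=
  SemilinearAut.pic0_smul_mk (gal N σ) D

section Hecke

variable (ℓ : ℕ) [NeZero ℓ]
variable (hα : HeckeAlphaBarIntegral Qb N ℓ) (hβ : HeckeBetaBarIntegral Qb N ℓ)
variable [HasPrincipalDivisors Qb (laurentBaseChange Qb (modularFunctionFieldFull (N * ℓ)))]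

/-- Under `HeckeInputsAlong`, the Prelude operator `heckeOperatorAlong` on the class of a
divisor is the class of the divisor correspondence `α_* β^*`. -/
theorem heckeOperatorAlong_mk
    (hFI : FundamentalIdentityAlong Qb (heckeBetaBar Qb N ℓ) hβ)
    (hfin : FiniteAlong Qb (heckeAlphaBar Qb N ℓ))
    (hN : NormFormulaAlong Qb (heckeAlphaBar Qb N ℓ) hfin)
    (D : Divisor.degZero (K := Qb) (F := FNb N)) :
    heckeOperatorAlong Qb N ℓ (Pic0.mk D) =
      Pic0.mk (Pic0.degZeroCorrespondence (heckeBetaBar Qb N ℓ) (heckeAlphaBar Qb N ℓ)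
        hβ hα hFI D) := by
  rw [heckeOperatorAlong_eq hα hβ hFI hfin hN]
  rfl

/-- Under `HeckeInputsAlong`, the Prelude operator `heckeOperatorBar` on the class of a
divisor is the class of the divisor correspondence `α_* β^*`. -/
theorem heckeOperatorBar_mk (hℓ : ℓ.Prime)
    (hFI : FundamentalIdentityAlong Qb (heckeBetaBar Qb N ℓ) hβ)
    (hfin : FiniteAlong Qb (heckeAlphaBar Qb N ℓ))
    (hN : NormFormulaAlong Qb (heckeAlphaBar Qb N ℓ) hfin)
    (D : Divisor.degZero (K := Qb) (F := FNb N)) :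
    heckeOperatorBar N ⟨ℓ, hℓ⟩ (Pic0.mk D) =
      Pic0.mk (Pic0.degZeroCorrespondence (heckeBetaBar Qb N ℓ) (heckeAlphaBar Qb N ℓ)
        hβ hα hFI D) :=
  heckeOperatorAlong_mk ℓ hα hβ hFI hfin hN D

/-- The inertia endomorphism `D ↦ g_τ D - D` of the divisor group. -/
def inertiaDiv (τ : GQ) : Divisor Qb (FNb N) →+ Divisor Qb (FNb N) :=
  DistribSMul.toAddMonoidHom (Divisor Qb (FNb N)) (gal N τ) - AddMonoidHom.id _

omit [NeZero N] in
theorem inertiaDiv_apply (τ : GQ) (D : Divisor Qb (FNb N)) :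
    inertiaDiv (N := N) τ D = gal N τ • D - D := rfl

/-- The Eichler–Shimura endomorphism `D ↦ g_σ g_σ D - α_* β^* (g_σ D) + ℓ D` of the divisor
group (the divisor-level version of `helper8353.esBar`). -/
def esDiv (σ : GQ) : Divisor Qb (FNb N) →+ Divisor Qb (FNb N) :=
  (DistribSMul.toAddMonoidHom (Divisor Qb (FNb N)) (gal N σ)).comp
      (DistribSMul.toAddMonoidHom (Divisor Qb (FNb N)) (gal N σ))
    - (heckeDivBar hα hβ).comp (DistribSMul.toAddMonoidHom (Divisor Qb (FNb N)) (gal N σ))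
    + ℓ • AddMonoidHom.id _

theorem esDiv_apply (σ : GQ) (D : Divisor Qb (FNb N)) :
    esDiv ℓ hα hβ σ D
      = gal N σ • gal N σ • D - heckeDivBar hα hβ (gal N σ • D) + ℓ • D := rfl

theorem esDiv_single (σ : GQ) (v : Place Qb (FNb N)) :
    esDiv ℓ hα hβ σ (Finsupp.single v 1)
      = Finsupp.single (gal N σ • gal N σ • v) (1 : ℤ)
        - heckeDivBar hα hβ (Finsupp.single (gal N σ • v) 1) + ℓ • Finsupp.single v (1 : ℤ) := by
  rw [esDiv_apply, SemilinearAut.smul_single, SemilinearAut.smul_single]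

/-- **(R1) + (R2) from places.**  If a subgroup `Kdiv` of the divisor group contains
`[g_τ v] - [v]` for `τ` in the inertia group of `A` and the crude Kronecker divisor
`[g_σ g_σ v] - α_* β^* [g_σ v] + ℓ [v]` for every PLACE `v`, then the relation subgroup
`relBar N A ℓ σ = (I_A - 1) J + (σ² - T_ℓ σ + ℓ) J` consists of classes of divisors of `Kdiv`. -/
theorem relBar_le_classesOf (hℓ : ℓ.Prime)
    (hFI : FundamentalIdentityAlong Qb (heckeBetaBar Qb N ℓ) hβ)
    (hfin : FiniteAlong Qb (heckeAlphaBar Qb N ℓ))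
    (hN : NormFormulaAlong Qb (heckeAlphaBar Qb N ℓ) hfin)
    (A : ValuationSubring Qb) (σ : GQ) (Kdiv : AddSubgroup (Divisor Qb (FNb N)))
    (hD1 : ∀ τ ∈ A.inertiaSubgroupIn ℚ, ∀ v : Place Qb (FNb N),
      Finsupp.single (gal N τ • v) (1 : ℤ) - Finsupp.single v 1 ∈ Kdiv)
    (hD2 : ∀ v : Place Qb (FNb N),
      Finsupp.single (gal N σ • gal N σ • v) (1 : ℤ)
        - heckeDivBar hα hβ (Finsupp.single (gal N σ • v) 1) + ℓ • Finsupp.single v (1 : ℤ)
        ∈ Kdiv) :
    relBar N A ⟨ℓ, hℓ⟩ σ ≤ classesOf Kdiv := by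
  unfold relBar
  rw [AddSubgroup.closure_le]
  rintro y (⟨τ, hτ, x, rfl⟩ | ⟨x, rfl⟩)
  · obtain ⟨D, rfl⟩ := Pic0.mk_surjective x
    rw [galois_smul_mk]
    refine ⟨SemilinearAut.degZeroSMulHom (gal N τ) D - D, ?_, rfl⟩
    have h := map_mem_of_single Kdiv (inertiaDiv (N := N) τ)
      (fun v => by
        rw [inertiaDiv_apply, SemilinearAut.smul_single]
        exact hD1 τ hτ v) (D : Divisor Qb (FNb N))
    rw [inertiaDiv_apply] at h
    exact h
  · obtain ⟨D, rfl⟩ := Pic0.mk_surjective x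
    show esBar N ⟨ℓ, hℓ⟩ σ (Pic0.mk D) ∈ classesOf Kdiv
    unfold esBar
    rw [galois_smul_mk, galois_smul_mk, heckeOperatorBar_mk ℓ hα hβ hℓ hFI hfin hN]
    refine ⟨SemilinearAut.degZeroSMulHom (gal N σ) (SemilinearAut.degZeroSMulHom (gal N σ) D)
      - Pic0.degZeroCorrespondence (heckeBetaBar Qb N ℓ) (heckeAlphaBar Qb N ℓ) hβ hα hFI
          (SemilinearAut.degZeroSMulHom (gal N σ) D) + ℓ • D, ?_, rfl⟩
    have h := map_mem_of_single Kdiv (esDiv ℓ hα hβ σ)
      (fun v => by
        rw [esDiv_single]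
        exact hD2 v) (D : Divisor Qb (FNb N))
    rw [esDiv_apply] at h
    exact h

/-- **One-place assembly.**  (R1), (R2) place by place and (R3) on the divisor kernel `Kdiv`
imply that the relation subgroup has no `p`-power torsion. -/
theorem relBar_torsion_eq_zero_of_divisorKernel (hℓ : ℓ.Prime)
    (hFI : FundamentalIdentityAlong Qb (heckeBetaBar Qb N ℓ) hβ)
    (hfin : FiniteAlong Qb (heckeAlphaBar Qb N ℓ))
    (hN : NormFormulaAlong Qb (heckeAlphaBar Qb N ℓ) hfin)
    (A : ValuationSubring Qb) (σ : GQ) (Kdiv : AddSubgroup (Divisor Qb (FNb N)))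
    (hD1 : ∀ τ ∈ A.inertiaSubgroupIn ℚ, ∀ v : Place Qb (FNb N),
      Finsupp.single (gal N τ • v) (1 : ℤ) - Finsupp.single v 1 ∈ Kdiv)
    (hD2 : ∀ v : Place Qb (FNb N),
      Finsupp.single (gal N σ • gal N σ • v) (1 : ℤ)
        - heckeDivBar hα hβ (Finsupp.single (gal N σ • v) 1) + ℓ • Finsupp.single v (1 : ℤ)
        ∈ Kdiv)
    {p : ℕ}
    (hD3 : ∀ D : Divisor.degZero (K := Qb) (F := FNb N), (D : Divisor Qb (FNb N)) ∈ Kdiv →
      (∃ n : ℕ, p ^ n • (Pic0.mk D : JZero N) = 0) → (Pic0.mk D : JZero N) = 0) :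
    ∀ x ∈ relBar N A ⟨ℓ, hℓ⟩ σ, (∃ n : ℕ, p ^ n • x = 0) → x = 0 := by
  intro x hx htor
  obtain ⟨D, hD, rfl⟩ := relBar_le_classesOf ℓ hα hβ hℓ hFI hfin hN A σ Kdiv hD1 hD2 hx
  exact hD3 D hD htor

end Hecke

/-! ### Global forms -/

section Global

variable (N)

/-- **Divisor-level crude package** (`p`-free, prime torsion only): for every prime `ℓ ∤ N` and
every `A` over `ℓ` there are ONE Frobenius `σ` at `A` and ONE subgroup `Kdiv` of the divisor
group of `F_N` such that

* (D1) `[g_τ v] - [v] ∈ Kdiv` for every `τ` in the inertia group of `A` and every place `v`;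
* (D2) `[g_σ g_σ v] - α_* β^* [g_σ v] + ℓ [v] ∈ Kdiv` for every place `v`
  (the crude Kronecker relation, `α_* β^* = heckeDivBar hα hβ` the Prelude correspondence);
* (D3) a degree-zero divisor of `Kdiv` whose class is killed by a prime `q ≠ ℓ` is principal. -/
def Stmt_DivKernel : Prop :=
  ∀ ℓ : ℕ, ∀ hℓ : ℓ.Prime, ¬ ℓ ∣ N →
    ∀ A : ValuationSubring Qb, A.LiesOverPrime ℓ →
      ∃ σ : GQ, A.IsFrobeniusAt σ ℓ ∧ ∃ Kdiv : AddSubgroup (Divisor Qb (FNb N)),
        (∀ τ ∈ A.inertiaSubgroupIn ℚ, ∀ v : Place Qb (FNb N),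
          Finsupp.single (gal N τ • v) (1 : ℤ) - Finsupp.single v 1 ∈ Kdiv) ∧
        (haveI : NeZero ℓ := ⟨hℓ.ne_zero⟩
          ∀ (hα : HeckeAlphaBarIntegral Qb N ℓ) (hβ : HeckeBetaBarIntegral Qb N ℓ)
            [HasPrincipalDivisors Qb (laurentBaseChange Qb (modularFunctionFieldFull (N * ℓ)))]
            (v : Place Qb (FNb N)),
            Finsupp.single (gal N σ • gal N σ • v) (1 : ℤ)
              - heckeDivBar hα hβ (Finsupp.single (gal N σ • v) 1)
              + ℓ • Finsupp.single v (1 : ℤ) ∈ Kdiv) ∧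
        (∀ q : ℕ, q.Prime → q ≠ ℓ → ∀ D : Divisor.degZero (K := Qb) (F := FNb N),
          (D : Divisor Qb (FNb N)) ∈ Kdiv → q • (Pic0.mk D : JZero N) = 0 →
            (Pic0.mk D : JZero N) = 0)

variable {N}

/-- **Module A2 (ASM).**  `HeckeInputsAlong` at every prime level and the divisor-level crude
package give the kernel form `helper8353.Stmt_Kernel N` of the core statement of S37. -/
theorem stmt_Kernel_of_divKernel
    (hHI : ∀ (ℓ : ℕ) [NeZero ℓ], HeckeInputsAlong Qb N ℓ) (h : Stmt_DivKernel N) :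
    Stmt_Kernel N := by
  intro ℓ hℓ hℓN A hA
  obtain ⟨σ, hσ, Kdiv, h1, h2, h3⟩ := h ℓ hℓ hℓN A hA
  have : NeZero ℓ := ⟨hℓ.ne_zero⟩
  obtain ⟨hα, hβ, hP, hfin, hFI, hN⟩ := hHI ℓ
  have := hP
  have hle : relBar N A ⟨ℓ, hℓ⟩ σ ≤ classesOf Kdiv :=
    relBar_le_classesOf ℓ hα hβ hℓ hFI hfin hN A σ Kdiv h1 (h2 hα hβ)
  refine ⟨σ, hσ, classesOf Kdiv, ?_, ?_, ?_⟩
  · intro τ hτ x
    exact hle (AddSubgroup.subset_closure (Or.inl ⟨τ, hτ, x, rfl⟩))
  · intro x
    exact hle (AddSubgroup.subset_closure (Or.inr ⟨x, rfl⟩))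
  · rintro q hq hqℓ _ ⟨D, hD, rfl⟩ hqD
    exact h3 q hq hqℓ D hD hqD

/-- The core statement for every `p` from the divisor-level crude package. -/
theorem stmt_Core_of_divKernel
    (hHI : ∀ (ℓ : ℕ) [NeZero ℓ], HeckeInputsAlong Qb N ℓ) (h : Stmt_DivKernel N) (p : ℕ) :
    Stmt_Core N p :=
  Fermat.Agent.S37.helper8353.stmt_Core_of_kernel (stmt_Kernel_of_divKernel hHI h) p

/-- **The frozen statement S37 from the divisor-level crude package** (and `HeckeInputsAlong`,
which is `helper8426.heckeInputsAlong` on main). -/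
theorem result_of_divKernel (p : ℕ) (hcomm : HeckeOperatorsCommuteBar N)
    (hHI : ∀ (ℓ : ℕ) [NeZero ℓ], HeckeInputsAlong Qb N ℓ) (h : Stmt_DivKernel N) :
    letI := heckeModuleBar N
    ∀ (_ : SMulCommClass GQ HeckeAlg (JZero N)),
      SpecializationExists (K := ℚ) (L := Qb) N p (JZero N) :=
  Fermat.Agent.S37.helper8353.result_of_kernel p hcomm (stmt_Kernel_of_divKernel hHI h)

end Global

/-! ### Consumer forms: kernel of a crude specialisation, kernel generated by a relation -/

section Forms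

variable (N)

/-- **`csp` form.**  The package for `Kdiv = ker csp`, `csp : Div(F_N) →+ G` any additive map
("crude specialisation"; `G` and `csp` may depend on `ℓ`, `A`):

* (C1) `csp [g_τ v] = csp [v]` for `τ` in inertia;
* (C2) `csp (α_* β^* [g_σ v]) = csp [g_σ g_σ v] + ℓ • csp [v]`   (crude Kronecker);
* (C3) `csp D = 0`, `deg D = 0`, `q • [D] = 0` (`q ≠ ℓ` prime) ⟹ `[D] = 0`. -/
def Stmt_Csp : Prop :=
  ∀ ℓ : ℕ, ∀ hℓ : ℓ.Prime, ¬ ℓ ∣ N →
    ∀ A : ValuationSubring Qb, A.LiesOverPrime ℓ →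
      ∃ σ : GQ, A.IsFrobeniusAt σ ℓ ∧ ∃ (G : Type) (_ : AddCommGroup G)
        (csp : Divisor Qb (FNb N) →+ G),
        (∀ τ ∈ A.inertiaSubgroupIn ℚ, ∀ v : Place Qb (FNb N),
          csp (Finsupp.single (gal N τ • v) 1) = csp (Finsupp.single v 1)) ∧
        (haveI : NeZero ℓ := ⟨hℓ.ne_zero⟩
          ∀ (hα : HeckeAlphaBarIntegral Qb N ℓ) (hβ : HeckeBetaBarIntegral Qb N ℓ)
            [HasPrincipalDivisors Qb (laurentBaseChange Qb (modularFunctionFieldFull (N * ℓ)))]
            (v : Place Qb (FNb N)),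
            csp (heckeDivBar hα hβ (Finsupp.single (gal N σ • v) 1))
              = csp (Finsupp.single (gal N σ • gal N σ • v) 1) + ℓ • csp (Finsupp.single v 1)) ∧
        (∀ q : ℕ, q.Prime → q ≠ ℓ → ∀ D : Divisor.degZero (K := Qb) (F := FNb N),
          csp (D : Divisor Qb (FNb N)) = 0 → q • (Pic0.mk D : JZero N) = 0 →
            (Pic0.mk D : JZero N) = 0)

variable {N}

theorem stmt_DivKernel_of_csp (h : Stmt_Csp N) : Stmt_DivKernel N := by
  intro ℓ hℓ hℓN A hA
  obtain ⟨σ, hσ, G, _, csp, h1, h2, h3⟩ := h ℓ hℓ hℓN A hA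
  refine ⟨σ, hσ, csp.ker, ?_, ?_, ?_⟩
  · intro τ hτ v
    rw [AddMonoidHom.mem_ker, map_sub, h1 τ hτ v, sub_self]
  · intro hα hβ _ v
    rw [AddMonoidHom.mem_ker, map_add, map_sub, map_nsmul, h2 hα hβ v]
    abel
  · intro q hq hqℓ D hD hqD
    exact h3 q hq hqℓ D (AddMonoidHom.mem_ker.mp hD) hqD

/-- The subgroup of the divisor group generated by the differences `[v] - [w]` of related
places. -/
def relKernel {K F : Type*} [Field K] [Field F] [Algebra K F] (r : Place K F → Place K F → Prop) :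
    AddSubgroup (Divisor K F) :=
  AddSubgroup.closure {E | ∃ v w, r v w ∧ E = Finsupp.single v (1 : ℤ) - Finsupp.single w 1}

theorem single_sub_single_mem_relKernel {K F : Type*} [Field K] [Field F] [Algebra K F]
    {r : Place K F → Place K F → Prop} {v w : Place K F} (h : r v w) :
    Finsupp.single v (1 : ℤ) - Finsupp.single w 1 ∈ relKernel r :=
  AddSubgroup.subset_closure ⟨v, w, h, rfl⟩

variable (N)

/-- **Relation form.**  The package for `Kdiv = relKernel r`, `r` any relation on places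
("same crude reduction"; may depend on `ℓ`, `A`):

* (P1) `r (g_τ v) v` for `τ` in inertia;
* (P2) the crude Kronecker divisor of every place lies in `relKernel r`;
* (P3) `relKernel r` has no class of prime order `q ≠ ℓ`. -/
def Stmt_RelKernel : Prop :=
  ∀ ℓ : ℕ, ∀ hℓ : ℓ.Prime, ¬ ℓ ∣ N →
    ∀ A : ValuationSubring Qb, A.LiesOverPrime ℓ →
      ∃ σ : GQ, A.IsFrobeniusAt σ ℓ ∧ ∃ r : Place Qb (FNb N) → Place Qb (FNb N) → Prop,
        (∀ τ ∈ A.inertiaSubgroupIn ℚ, ∀ v : Place Qb (FNb N), r (gal N τ • v) v) ∧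
        (haveI : NeZero ℓ := ⟨hℓ.ne_zero⟩
          ∀ (hα : HeckeAlphaBarIntegral Qb N ℓ) (hβ : HeckeBetaBarIntegral Qb N ℓ)
            [HasPrincipalDivisors Qb (laurentBaseChange Qb (modularFunctionFieldFull (N * ℓ)))]
            (v : Place Qb (FNb N)),
            Finsupp.single (gal N σ • gal N σ • v) (1 : ℤ)
              - heckeDivBar hα hβ (Finsupp.single (gal N σ • v) 1)
              + ℓ • Finsupp.single v (1 : ℤ) ∈ relKernel r) ∧
        (∀ q : ℕ, q.Prime → q ≠ ℓ → ∀ D : Divisor.degZero (K := Qb) (F := FNb N),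
          (D : Divisor Qb (FNb N)) ∈ relKernel r → q • (Pic0.mk D : JZero N) = 0 →
            (Pic0.mk D : JZero N) = 0)

variable {N}

theorem stmt_DivKernel_of_relKernel (h : Stmt_RelKernel N) : Stmt_DivKernel N := by
  intro ℓ hℓ hℓN A hA
  obtain ⟨σ, hσ, r, h1, h2, h3⟩ := h ℓ hℓ hℓN A hA
  exact ⟨σ, hσ, relKernel r, fun τ hτ v => single_sub_single_mem_relKernel (h1 τ hτ v), h2, h3⟩

end Forms

end Modular

end Fermat.Agent.S37.helper1138
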