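import Mathlib
import Fermat.Agent.S37.helper1138_Assembly
import Fermat.Agent.S37.helper872_TorsAssembly
import Fermat.Agent.S37.helper6267_Bounded
import Fermat.Agent.S37.helper5162_HeckeUnfold
import Fermat.Agent.S37.helper8353_TopKernel
import Fermat.Agent.S37.helper8426_HeckeInputs

/-!
# S37, track T-FRIG: the two ends of the function-level rigidity chain (helper6807)

T-FRIG (chat #344, plan v3) proves `helper8353.Stmt_Kernel N` with the UNIVERSAL kernel
`relBar` itself: a subgroup `Kd` of the divisor group of `F_N` ("good" divisors) which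

* satisfies the local formula `helper872.LocFormula A N Kd` (a quotient of integral functions
  whose divisor lies in `Kd` has constant reduction), and
* contains `g_τ D - D` (`τ` in the inertia group of `A`) and the Eichler–Shimura divisor
  `g_σ g_σ D - T_ℓ (g_σ D) + ℓ D` for all divisors `D` of DEGREE ZERO.

This file contains the parts of the chain that only use landed material:

* `inertiaDiv_bdd`, `esDiv_bdd` : the two operators are differences of two positive operators of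
  bounded degree (the hypothesis `hΛb` of the abstract core `good_of_companion`);
* `relBar_le_classesOf_degZero` : the relation subgroup consists of classes of divisors of `Kd`
  (degree-zero form of `helper1138.relBar_le_classesOf`, cf. `helper3587`);
* `stmt_Kernel_of_locFormula`, `frozen_of_locFormula` : THE END — `Stmt_Kernel N` and the frozen
  statement S37 from the Kummer field form `Stmt_KF N ℓ` of S18 and such a `Kd`.
-/

set_option autoImplicit false

noncomputable section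

open AlgebraicCurve ModularCurve

namespace Fermat.Agent.S37.helper6807

open Fermat.Agent.S37.helper8353 (Qb GQ relBar esBar Stmt_Kernel)
open Fermat.Agent.S37.helper1138 (FNb gal inertiaDiv esDiv classesOf)

/-! ### Generic positivity lemmas -/

section Generic

variable {K F : Type*} [Field K] [Field F] [Algebra K F]

/-- The degree of an effective divisor is nonnegative. -/
theorem degree_nonneg_of_nonneg {D : Divisor K F} (hD : 0 ≤ D) : 0 ≤ Divisor.degree D := by
  classical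
  have h : ∀ E : Divisor K F, Divisor.degree E = E.sum fun v n => n * (v.deg : ℤ) := by
    intro E
    induction E using Finsupp.induction with
    | zero => simp
    | single_add v n E hv hn ih =>
        rw [map_add, Divisor.degree_single, Finsupp.sum_add_index' (by simp)
          (by intro a b c; ring), Finsupp.sum_single_index (by simp), ih]
  rw [h D]
  exact Finset.sum_nonneg fun v _ => mul_nonneg (hD v) (Int.natCast_nonneg _)

/-- An additive map on divisors which is nonnegative on single places is nonnegative on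
effective divisors. -/
theorem map_nonneg_of_single {K' F' : Type*} [Field K'] [Field F'] [Algebra K' F']
    (T : Divisor K F →+ Divisor K' F')
    (hT : ∀ P : Place K F, 0 ≤ T (Finsupp.single P 1)) {D : Divisor K F} (hD : 0 ≤ D) :
    0 ≤ T D := by
  classical
  have h : ∀ E : Divisor K F, T E = E.sum fun v n => n • T (Finsupp.single v 1) := by
    intro E
    induction E using Finsupp.induction with
    | zero => simp
    | single_add v n E hv hn ih =>
        rw [map_add, Finsupp.sum_add_index' (by simp) (by intro a b c; rw [add_smul]),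
          Finsupp.sum_single_index (by simp), ih]
        congr 1
        rw [← map_zsmul, Finsupp.smul_single, smul_eq_mul, mul_one]
  rw [h D]
  intro w
  rw [Finsupp.coe_zero, Pi.zero_apply, Finsupp.sum, Finsupp.coe_finsetSum, Finset.sum_apply]
  refine Finset.sum_nonneg fun v _ => ?_
  rw [Finsupp.smul_apply, smul_eq_mul]
  exact mul_nonneg (hD v) (hT v w)

/-- A semilinear automorphism preserves effective divisors. -/
theorem smul_nonneg_of_nonneg (g : SemilinearAut K F) {D : Divisor K F} (hD : 0 ≤ D) :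
    0 ≤ g • D := by
  intro w
  rw [SemilinearAut.divisor_smul_apply]
  exact hD _

end Generic

/-! ### The two operators are differences of positive operators of bounded degree -/

section Bounds

variable {N : ℕ} [NeZero N]

omit [NeZero N] in
/-- `hΛb` for the inertia operator `D ↦ g_τ D - D` (constant `c = 1`). -/
theorem inertiaDiv_bdd (τ : GQ) (D : Divisor Qb (FNb N)) (hD : 0 ≤ D) :
    ∃ Bp Bn : Divisor Qb (FNb N), 0 ≤ Bp ∧ 0 ≤ Bn ∧ inertiaDiv (N := N) τ D = Bp - Bn ∧
      Divisor.degree Bp ≤ 1 * Divisor.degree D ∧ Divisor.degree Bn ≤ 1 * Divisor.degree D := by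
  refine ⟨gal N τ • D, D, smul_nonneg_of_nonneg _ hD, hD, rfl, ?_, ?_⟩
  · rw [SemilinearAut.degree_smul, one_mul]
  · rw [one_mul]

variable (ℓ : ℕ) [NeZero ℓ]
variable (hα : HeckeAlphaBarIntegral Qb N ℓ) (hβ : HeckeBetaBarIntegral Qb N ℓ)
variable [HasPrincipalDivisors Qb (laurentBaseChange Qb (modularFunctionFieldFull (N * ℓ)))]

/-- `T_ℓ = α_* β^*` preserves effective divisors. -/
theorem heckeDivBar_nonneg {D : Divisor Qb (FNb N)} (hD : 0 ≤ D) : 0 ≤ heckeDivBar hα hβ D :=
  map_nonneg_of_single (heckeDivBar hα hβ)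
    (fun P => Fermat.Agent.S37.helper6267.correspondence_single_nonneg
      (heckeBetaBar Qb N ℓ) (heckeAlphaBar Qb N ℓ) hβ hα P) hD

/-- `hΛb` for the Eichler–Shimura operator `D ↦ g_σ g_σ D - T_ℓ (g_σ D) + ℓ D`, with the
constant `c = ℓ + 1 + [F_{Nℓ} : β F_N]`. -/
theorem esDiv_bdd (hFI : FundamentalIdentityAlong Qb (heckeBetaBar Qb N ℓ) hβ) (σ : GQ)
    (D : Divisor Qb (FNb N)) (hD : 0 ≤ D) :
    ∃ Bp Bn : Divisor Qb (FNb N), 0 ≤ Bp ∧ 0 ≤ Bn ∧ esDiv ℓ hα hβ σ D = Bp - Bn ∧
      Divisor.degree Bp ≤ ((ℓ : ℤ) + 1 + (finrankAlong Qb (heckeBetaBar Qb N ℓ) : ℤ))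
        * Divisor.degree D ∧
      Divisor.degree Bn ≤ ((ℓ : ℤ) + 1 + (finrankAlong Qb (heckeBetaBar Qb N ℓ) : ℤ))
        * Divisor.degree D := by
  have hdeg : 0 ≤ Divisor.degree D := degree_nonneg_of_nonneg hD
  have hσD : 0 ≤ gal N σ • D := smul_nonneg_of_nonneg _ hD
  have hr : (0 : ℤ) ≤ (finrankAlong Qb (heckeBetaBar Qb N ℓ) : ℤ) := Int.natCast_nonneg _
  have hℓ0 : (0 : ℤ) ≤ (ℓ : ℤ) := Int.natCast_nonneg _
  refine ⟨gal N σ • gal N σ • D + ℓ • D, heckeDivBar hα hβ (gal N σ • D), ?_, ?_, ?_, ?_, ?_⟩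
  · exact add_nonneg (smul_nonneg_of_nonneg _ hσD) (nsmul_nonneg hD ℓ)
  · exact heckeDivBar_nonneg ℓ hα hβ hσD
  · rw [Fermat.Agent.S37.helper1138.esDiv_apply]
    abel
  · rw [map_add, SemilinearAut.degree_smul, SemilinearAut.degree_smul, map_nsmul, nsmul_eq_mul]
    nlinarith
  · have h := Divisor.degree_correspondence (heckeBetaBar Qb N ℓ) (heckeAlphaBar Qb N ℓ) hβ hα hFI
      (gal N σ • D)
    rw [SemilinearAut.degree_smul] at h
    have h' : Divisor.degree (heckeDivBar hα hβ (gal N σ • D))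
        = (finrankAlong Qb (heckeBetaBar Qb N ℓ) : ℤ) * Divisor.degree D := h
    rw [h']
    nlinarith

end Bounds

/-! ### The end of the chain -/

section End

open Fermat.Agent.S18.helper3054 (Stmt_KF)

variable (N : ℕ) [NeZero N]

/-- **T-FRIG kernel data at `(ℓ, A, σ)`**: a subgroup `Kd` of the divisor group of `F_N` with

* (LOCF) the local formula `helper872.LocFormula A N Kd`;
* (D1⁰) `g_τ D - D ∈ Kd` for `τ` in the inertia group of `A` and `deg D = 0`;
* (D2⁰) `g_σ g_σ D - T_ℓ (g_σ D) + ℓ D ∈ Kd` for `deg D = 0`. -/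
def FrigKernel (ℓ : ℕ) [NeZero ℓ] (A : ValuationSubring Qb) (σ : GQ)
    (Kd : AddSubgroup (Divisor Qb (FNb N))) : Prop :=
  Fermat.Agent.S37.helper872.LocFormula A N Kd ∧
  (∀ τ ∈ A.inertiaSubgroupIn ℚ, ∀ D : Divisor Qb (FNb N), Divisor.degree D = 0 →
    inertiaDiv (N := N) τ D ∈ Kd) ∧
  (∀ D : Divisor Qb (FNb N), Divisor.degree D = 0 →
    esDiv ℓ (Fermat.Agent.S37.helper5162.heckeAlphaBarIntegral N ℓ)
      (Fermat.Agent.S37.helper5162.heckeBetaBarIntegral N ℓ) σ D ∈ Kd)

variable {N}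

/-- **(R1) + (R2) from degree-zero divisors** (cf. `helper3587.relBar_le_classesOf_degZero`):
every element of the relation subgroup `relBar N A ℓ σ` is the class of a degree-zero divisor
of `Kd`. -/
theorem relBar_le_classesOf_degZero {ℓ : ℕ} [NeZero ℓ] (hℓ : ℓ.Prime)
    (A : ValuationSubring Qb) (σ : GQ) (Kd : AddSubgroup (Divisor Qb (FNb N)))
    (hD1 : ∀ τ ∈ A.inertiaSubgroupIn ℚ, ∀ D : Divisor Qb (FNb N), Divisor.degree D = 0 →
      inertiaDiv (N := N) τ D ∈ Kd)
    (hD2 : ∀ D : Divisor Qb (FNb N), Divisor.degree D = 0 →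
      esDiv ℓ (Fermat.Agent.S37.helper5162.heckeAlphaBarIntegral N ℓ)
        (Fermat.Agent.S37.helper5162.heckeBetaBarIntegral N ℓ) σ D ∈ Kd) :
    relBar N A ⟨ℓ, hℓ⟩ σ ≤ classesOf Kd := by
  unfold relBar
  rw [AddSubgroup.closure_le]
  rintro y (⟨τ, hτ, x, rfl⟩ | ⟨x, rfl⟩)
  · obtain ⟨D, rfl⟩ := Pic0.mk_surjective x
    rw [Fermat.Agent.S37.helper1138.galois_smul_mk]
    exact ⟨SemilinearAut.degZeroSMulHom (gal N τ) D - D, hD1 τ hτ D D.2, rfl⟩
  · obtain ⟨D, rfl⟩ := Pic0.mk_surjective x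
    show esBar N ⟨ℓ, hℓ⟩ σ (Pic0.mk D) ∈ classesOf Kd
    unfold esBar
    rw [Fermat.Agent.S37.helper1138.galois_smul_mk, Fermat.Agent.S37.helper1138.galois_smul_mk,
      Fermat.Agent.S37.helper5162.heckeOperatorBar_mk N ⟨ℓ, hℓ⟩]
    refine ⟨SemilinearAut.degZeroSMulHom (gal N σ) (SemilinearAut.degZeroSMulHom (gal N σ) D)
      - Pic0.degZeroCorrespondence (heckeBetaBar Qb N ℓ) (heckeAlphaBar Qb N ℓ)
          (Fermat.Agent.S37.helper5162.heckeBetaBarIntegral N ℓ)
          (Fermat.Agent.S37.helper5162.heckeAlphaBarIntegral N ℓ)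
          (Fermat.Agent.S37.helper8426.fundamentalIdentityAlong_heckeBetaBar N ℓ)
          (SemilinearAut.degZeroSMulHom (gal N σ) D) + ℓ • D, ?_, rfl⟩
    have h := hD2 D D.2
    rw [Fermat.Agent.S37.helper1138.esDiv_apply] at h
    exact h

/-- **T-FRIG, one place.**  From the Kummer field form of S18 at level `N` and T-FRIG kernel
data at `(ℓ, A, σ)`, the relation subgroup `relBar N A ℓ σ` has no prime-to-`ℓ` torsion. -/
theorem relBar_torsion_free_of_frigKernel {ℓ : ℕ} [NeZero ℓ] (hℓ : ℓ.Prime) (hℓN : ¬ ℓ ∣ N)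
    (hKF : Stmt_KF N ℓ) {A : ValuationSubring Qb} (hA : A.LiesOverPrime ℓ) {σ : GQ}
    {Kd : AddSubgroup (Divisor Qb (FNb N))} (h : FrigKernel N ℓ A σ Kd) :
    ∀ m : ℕ, ¬ ℓ ∣ m → ∀ x ∈ relBar N A ⟨ℓ, hℓ⟩ σ, m • x = 0 → x = 0 := by
  obtain ⟨hLF, hD1, hD2⟩ := h
  have hle := relBar_le_classesOf_degZero hℓ A σ Kd hD1 hD2
  exact (Fermat.Agent.S37.helper872.r3_of_kf hKF hA Kd
    (Fermat.Agent.S37.helper872.normalForm_of_liesOverPrime hℓ hℓN hA) hLF
    (relBar N A ⟨ℓ, hℓ⟩ σ) (fun x hx => hle hx)).1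

/-- **THE END OF T-FRIG.**  The kernel statement `helper8353.Stmt_Kernel N` (with `W` the
universal kernel `relBar`) from the Kummer field form of S18 at level `N` and T-FRIG kernel data
at every `(ℓ, A)` for one Frobenius element `σ`. -/
theorem stmt_Kernel_of_frigKernel
    (hKF : ∀ ℓ : ℕ, ℓ.Prime → ¬ ℓ ∣ N → Stmt_KF N ℓ)
    (h : ∀ (ℓ : ℕ) [NeZero ℓ], ℓ.Prime → ¬ ℓ ∣ N → ∀ A : ValuationSubring Qb,
      A.LiesOverPrime ℓ → ∃ σ : GQ, A.IsFrobeniusAt σ ℓ ∧
        ∃ Kd : AddSubgroup (Divisor Qb (FNb N)), FrigKernel N ℓ A σ Kd) :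
    Stmt_Kernel N := by
  intro ℓ hℓ hℓN A hA
  haveI : NeZero ℓ := ⟨hℓ.ne_zero⟩
  obtain ⟨σ, hσ, Kd, hK⟩ := h ℓ hℓ hℓN A hA
  refine ⟨σ, hσ, relBar N A ⟨ℓ, hℓ⟩ σ, ?_, ?_, ?_⟩
  · intro τ hτ x
    exact AddSubgroup.subset_closure (Or.inl ⟨τ, hτ, x, rfl⟩)
  · intro x
    exact AddSubgroup.subset_closure (Or.inr ⟨x, rfl⟩)
  · intro q hq hqℓ x hx hqx
    refine relBar_torsion_free_of_frigKernel hℓ hℓN (hKF ℓ hℓ hℓN) hA hK q ?_ x hx hqx
    intro hdvd
    rcases (Nat.dvd_prime hq).mp hdvd with h1 | h1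
    · exact hℓ.one_lt.ne' h1
    · exact hqℓ h1.symm

/-- **The frozen statement S37 from T-FRIG**: the Kummer field form of S18 at level `N` and
T-FRIG kernel data. -/
theorem frozen_of_frigKernel (p : ℕ) (hcomm : HeckeOperatorsCommuteBar N)
    (hKF : ∀ ℓ : ℕ, ℓ.Prime → ¬ ℓ ∣ N → Stmt_KF N ℓ)
    (h : ∀ (ℓ : ℕ) [NeZero ℓ], ℓ.Prime → ¬ ℓ ∣ N → ∀ A : ValuationSubring Qb,
      A.LiesOverPrime ℓ → ∃ σ : GQ, A.IsFrobeniusAt σ ℓ ∧
        ∃ Kd : AddSubgroup (Divisor Qb (FNb N)), FrigKernel N ℓ A σ Kd) :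
    letI := heckeModuleBar N
    ∀ (_ : SMulCommClass GQ HeckeAlg (JZero N)),
      SpecializationExists (K := ℚ) (L := Qb) N p (JZero N) :=
  Fermat.Agent.S37.helper8353.result_of_kernel p hcomm (stmt_Kernel_of_frigKernel hKF h)

end End

end Fermat.Agent.S37.helper6807

end
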