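import Fermat.Agent.S37.helper137_Swap
import Fermat.Agent.S24.helper6180_EvDatum
import Fermat.Agent.S24.helper1200_StmtLocalInf
import Fermat.Agent.Lib.helper804_Gamma0Cosets
import Fermat.Prelude.Def_ModularCurve_HeckeOperator

/-!
# S37 (helper137): function-field side of the Kronecker congruence

`ℓ` prime, `ℓ ∤ N`, `F = ℚ̄(j(q^d) : d ∣ N)`, `F' = ℚ̄(j(q^e) : e ∣ N ℓ)`, `α : F → F'` the
inclusion, `β : F → F'` the substitution `q ↦ q^ℓ` (Prelude `heckeAlphaBar`, `heckeBetaBar`).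

* `exists_involution`: the Atkin-Lehner involution at `ℓ` of `F'`, exchanging `α` and `β`.
* `finrankAlong_alpha`, `finrankAlong_beta`: both degrees are `ℓ + 1`.

The norm and characteristic polynomial formulas are in `helper137_KroneckerNorm`.
-/

set_option autoImplicit false

open ModularCurve AlgebraicCurve
open scoped MatrixGroups

namespace Fermat.Agent.S37.helper137

open Fermat.Agent.S24.helper24
open Fermat.Agent.S24.helper137

/-! ## Tower law along a homomorphism -/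

section Tower

open IntermediateField

variable {K F F' : Type*} [Field K] [Field F] [Field F'] [Algebra K F] [Algebra K F']

/-- `K(x) ≃ K(φ x)`. -/
noncomputable def adjoinEquiv (φ : F →ₐ[K] F') (x : F) : K⟮x⟯ ≃ₐ[K] K⟮φ x⟯ :=
  (IntermediateField.equivMap K⟮x⟯ φ).trans
    (IntermediateField.equivOfEq (by rw [IntermediateField.adjoin_map, Set.image_singleton]))

theorem coe_adjoinEquiv (φ : F →ₐ[K] F') (x : F) (a : K⟮x⟯) :
    ((adjoinEquiv φ x a : K⟮φ x⟯) : F') = φ a := rfl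

/-- Tower law along a homomorphism. -/
theorem finrank_adjoin_map (φ : F →ₐ[K] F') (x : F) :
    Module.finrank K⟮φ x⟯ F' = Module.finrank K⟮x⟯ F * finrankAlong K φ := by
  letI : Algebra F F' := algebraAlong φ
  have h1 : Module.finrank K⟮x⟯ F * Module.finrank F F' = Module.finrank K⟮x⟯ F' :=
    Module.finrank_mul_finrank K⟮x⟯ F F'
  have h2 : Module.finrank K⟮x⟯ F' = Module.finrank K⟮φ x⟯ F' :=
    Algebra.finrank_eq_of_equiv_equiv (adjoinEquiv φ x).toRingEquiv (RingEquiv.refl F')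
      (by ext a; rfl)
  rw [← h2, ← h1]
  rfl

/-- The degree over `K(x)` is invariant under automorphisms. -/
theorem finrank_adjoin_algEquiv (σ : F ≃ₐ[K] F) (x : F) :
    Module.finrank K⟮σ x⟯ F = Module.finrank K⟮x⟯ F :=
  (Algebra.finrank_eq_of_equiv_equiv (adjoinEquiv (σ : F →ₐ[K] F) x).toRingEquiv σ.toRingEquiv
    (by ext a; rfl)).symm

end Tower

/-! ## Series identities -/

theorem jSeries_congr {m m' : ℕ} [NeZero m] [NeZero m'] (h : m = m') : jSeries m = jSeries m' := by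
  subst h
  rfl

theorem qExpand_jSeries (a m : ℕ) [NeZero a] [NeZero m] :
    qExpand Kbar a (jSeries m) = jSeries (a * m) := by
  rw [jSeries, jSeries, coeffEmb, ← coeffMap_qExpand, qExpand_qExpand]

/-! ## The index involution -/

/-- `e ↦ e / ℓ` if `ℓ ∣ e`, and `e ↦ e ℓ` otherwise. -/
def tau (ℓ e : ℕ) : ℕ := if ℓ ∣ e then e / ℓ else e * ℓ

theorem mul_tau (ℓ e : ℕ) : ℓ * tau ℓ e = sig ℓ e := by
  unfold tau sig
  split_ifs with h
  · exact Nat.mul_div_cancel' h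
  · ring

theorem tau_of_not_dvd {ℓ e : ℕ} (h : ¬ ℓ ∣ e) : tau ℓ e = e * ℓ := if_neg h

theorem not_dvd_of_dvd_of_coprime {N ℓ d : ℕ} (hℓ : ℓ.Prime) (hN : Nat.Coprime ℓ N) (hd : d ∣ N) :
    ¬ ℓ ∣ d := fun h =>
  hℓ.one_lt.ne' (Nat.eq_one_of_dvd_coprimes hN (dvd_refl ℓ) (h.trans hd))

theorem tau_dvd {N ℓ e : ℕ} (hℓ : ℓ.Prime) (he : e ∣ N * ℓ) : tau ℓ e ∣ N * ℓ := by
  unfold tau
  split_ifs with h
  · exact (Nat.div_dvd_of_dvd h).trans he
  · have hcop : Nat.Coprime e ℓ := ((Nat.Prime.coprime_iff_not_dvd hℓ).mpr h).symm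
    exact Nat.mul_dvd_mul (hcop.dvd_of_dvd_mul_right he) (dvd_refl ℓ)

theorem tau_tau {N ℓ e : ℕ} (hℓ : ℓ.Prime) (hN : Nat.Coprime ℓ N) (he : e ∣ N * ℓ) :
    tau ℓ (tau ℓ e) = e := by
  by_cases h : ℓ ∣ e
  · obtain ⟨d, rfl⟩ := h
    have hd : tau ℓ (ℓ * d) = d := by
      unfold tau
      rw [if_pos (dvd_mul_right ℓ d), Nat.mul_div_cancel_left d hℓ.pos]
    have hdN : d ∣ N := by
      rw [mul_comm N ℓ] at he
      exact (Nat.mul_dvd_mul_iff_left hℓ.pos).mp he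
    rw [hd, tau_of_not_dvd (not_dvd_of_dvd_of_coprime hℓ hN hdN), mul_comm]
  · rw [tau_of_not_dvd h]
    unfold tau
    rw [if_pos (dvd_mul_left ℓ e), Nat.mul_div_cancel e hℓ.pos]

/-! ## The Atkin–Lehner involution of the function field and the degrees -/

section Degree

variable {N ℓ : ℕ} [NeZero N] [NeZero ℓ]

theorem stmt_JFinrank : Stmt_JFinrank :=
  Fermat.Agent.S24.helper6180.stmt_JFinrank_of_localInf Fermat.Agent.S24.helper1200.stmt_LocalInf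

/-- `q ↦ q^ℓ` as an algebra endomorphism of Laurent series. -/
noncomputable def qExpandAlg (ℓ : ℕ) [NeZero ℓ] : LaurentSeries Kbar →ₐ[Kbar] LaurentSeries Kbar :=
  { qExpand Kbar ℓ with
    commutes' := fun c => by
      show qExpand Kbar ℓ (algebraMap Kbar (LaurentSeries Kbar) c)
        = algebraMap Kbar (LaurentSeries Kbar) c
      rw [algebraMap_laurentSeries_eq_single, qExpand_single, mul_zero] }

/-- `q ↦ q^ℓ` on the function field of level `N ℓ`, as an embedding into Laurent series. -/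
noncomputable def rhoL (N ℓ : ℕ) [NeZero N] [NeZero ℓ] : FN (N * ℓ) →ₐ[Kbar] LaurentSeries Kbar :=
  (qExpandAlg ℓ).comp (modularFunctionFieldBar (N * ℓ)).val

theorem rhoL_apply (x : FN (N * ℓ)) : rhoL N ℓ x = qExpand Kbar ℓ (x : LaurentSeries Kbar) := rfl

theorem swapTarget_eq (hℓ : ℓ.Prime) (e : Dv (N * ℓ)) :
    swapTarget N ℓ e = rhoL N ℓ (genF (N * ℓ) ⟨tau ℓ e.1, tau_dvd hℓ e.2⟩) := by
  have h0 : tau ℓ e.1 ≠ 0 := fun h => by
    have := mul_tau ℓ e.1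
    rw [h, mul_zero] at this
    exact sig_ne_zero (NeZero.ne ℓ) e.neZero.ne this.symm
  haveI : NeZero (tau ℓ e.1) := ⟨h0⟩
  rw [rhoL_apply, coe_genF]
  show jSeries (sig ℓ e.1) = qExpand Kbar ℓ (jSeries (tau ℓ e.1))
  rw [qExpand_jSeries]
  exact jSeries_congr (mul_tau ℓ e.1).symm

/-- **The Atkin–Lehner involution** `j(q^d) ↔ j(q^(d ℓ))` of the function field of level `N ℓ`. -/
theorem exists_involution (hℓ : ℓ.Prime) (hN : Nat.Coprime ℓ N) :
    ∃ w' : FN (N * ℓ) →ₐ[Kbar] FN (N * ℓ), ∀ e : Dv (N * ℓ),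
      w' (genF (N * ℓ) e) = genF (N * ℓ) ⟨tau ℓ e.1, tau_dvd hℓ e.2⟩ := by
  obtain ⟨w, hw⟩ := exists_swap hℓ hN
  refine exists_algHom (N * ℓ) (fun e => genF (N * ℓ) ⟨tau ℓ e.1, tau_dvd hℓ e.2⟩) fun P => ?_
  have h1 : w (MvPolynomial.aeval (genF (N * ℓ)) P)
      = rhoL N ℓ (MvPolynomial.aeval
          (fun e : Dv (N * ℓ) => genF (N * ℓ) ⟨tau ℓ e.1, tau_dvd hℓ e.2⟩) P) := by
    have hfun : (fun e : Dv (N * ℓ) => w (genF (N * ℓ) e))
        = fun e : Dv (N * ℓ) => rhoL N ℓ (genF (N * ℓ) ⟨tau ℓ e.1, tau_dvd hℓ e.2⟩) :=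
      funext fun e => by rw [hw, swapTarget_eq hℓ]
    rw [MvPolynomial.comp_aeval_apply, MvPolynomial.comp_aeval_apply, hfun]
  constructor
  · intro h
    rw [h, map_zero] at h1
    exact (map_eq_zero_iff (rhoL N ℓ) (rhoL N ℓ).toRingHom.injective).mp h1.symm
  · intro h
    rw [h, map_zero] at h1
    exact (map_eq_zero_iff w w.toRingHom.injective).mp h1

theorem alpha_genF (d : Dv N) :
    heckeAlphaBar Kbar N ℓ (genF N d) = genF (N * ℓ) ⟨d.1, Dvd.dvd.mul_right d.2 ℓ⟩ :=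
  Subtype.ext rfl

theorem beta_genF (d : Dv N) :
    heckeBetaBar Kbar N ℓ (genF N d)
      = genF (N * ℓ) ⟨d.1 * ℓ, Nat.mul_dvd_mul d.2 (dvd_refl ℓ)⟩ := by
  have := d.neZero
  haveI : NeZero (d.1 * ℓ) := ⟨Nat.mul_ne_zero (NeZero.ne _) (NeZero.ne ℓ)⟩
  apply Subtype.ext
  rw [coe_heckeBetaBar, coe_genF, coe_genF]
  show qExpand Kbar ℓ (jSeries d.1) = jSeries (d.1 * ℓ)
  rw [qExpand_jSeries]
  exact jSeries_congr (mul_comm _ _)

theorem alpha_jBar : heckeAlphaBar Kbar N ℓ (jBar N) = jBar (N * ℓ) :=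
  Subtype.ext rfl

/-- The involution intertwines `α` and `β`. -/
theorem involution_comp_alpha (hℓ : ℓ.Prime) (hN : Nat.Coprime ℓ N)
    {w' : FN (N * ℓ) →ₐ[Kbar] FN (N * ℓ)}
    (hw' : ∀ e : Dv (N * ℓ), w' (genF (N * ℓ) e) = genF (N * ℓ) ⟨tau ℓ e.1, tau_dvd hℓ e.2⟩) :
    w'.comp (heckeAlphaBar Kbar N ℓ) = heckeBetaBar Kbar N ℓ := by
  refine algHom_ext_genF N fun d => ?_
  rw [AlgHom.comp_apply, alpha_genF, hw', beta_genF]
  congr 2
  exact tau_of_not_dvd (not_dvd_of_dvd_of_coprime hℓ hN d.2)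

theorem involution_comp_self (hℓ : ℓ.Prime) (hN : Nat.Coprime ℓ N)
    {w' : FN (N * ℓ) →ₐ[Kbar] FN (N * ℓ)}
    (hw' : ∀ e : Dv (N * ℓ), w' (genF (N * ℓ) e) = genF (N * ℓ) ⟨tau ℓ e.1, tau_dvd hℓ e.2⟩) :
    w'.comp w' = AlgHom.id Kbar (FN (N * ℓ)) := by
  refine algHom_ext_genF (N * ℓ) fun e => ?_
  rw [AlgHom.comp_apply, hw', hw', AlgHom.id_apply]
  congr 2
  exact tau_tau hℓ hN e.2

theorem card_XN_mul (hℓ : ℓ.Prime) (hN : Nat.Coprime ℓ N) :
    Nat.card (XN (N * ℓ)) = Nat.card (XN N) * (ℓ + 1) := by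
  have h1 := Fermat.Agent.Lib.helper804.index_Gamma0_mul (NeZero.ne N) hℓ.ne_zero hN.symm
  have h2 := Fermat.Agent.Lib.helper804.index_Gamma0_prime_pow hℓ 0
  simp only [zero_add, pow_one, pow_zero] at h2
  rw [← Subgroup.index_eq_card, ← Subgroup.index_eq_card, h1, h2]

theorem card_XN_pos (N : ℕ) [NeZero N] : 0 < Nat.card (XN N) := by
  obtain ⟨hfd, hcard⟩ := stmt_JFinrank N
  rw [← hcard]
  exact Module.finrank_pos

/-- `[F_{Nℓ} : F_N] = ℓ + 1`. -/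
theorem finrankAlong_alpha (hℓ : ℓ.Prime) (hN : Nat.Coprime ℓ N) :
    finrankAlong Kbar (heckeAlphaBar Kbar N ℓ) = ℓ + 1 := by
  obtain ⟨-, hcard⟩ := stmt_JFinrank N
  obtain ⟨-, hcard'⟩ := stmt_JFinrank (N * ℓ)
  have h := finrank_adjoin_map (heckeAlphaBar Kbar N ℓ) (jBar N)
  rw [alpha_jBar, hcard', hcard, card_XN_mul hℓ hN] at h
  exact (Nat.eq_of_mul_eq_mul_left (card_XN_pos N) h).symm

/-- `[F_{Nℓ} : β(F_N)] = ℓ + 1`. -/
theorem finrankAlong_beta (hℓ : ℓ.Prime) (hN : Nat.Coprime ℓ N) :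
    finrankAlong Kbar (heckeBetaBar Kbar N ℓ) = ℓ + 1 := by
  obtain ⟨w', hw'⟩ := exists_involution hℓ hN
  have hinv := involution_comp_self hℓ hN hw'
  let σ : FN (N * ℓ) ≃ₐ[Kbar] FN (N * ℓ) := AlgEquiv.ofAlgHom w' w' hinv hinv
  obtain ⟨-, hcard⟩ := stmt_JFinrank N
  obtain ⟨-, hcard'⟩ := stmt_JFinrank (N * ℓ)
  have h := finrank_adjoin_map (heckeBetaBar Kbar N ℓ) (jBar N)
  have hβ : heckeBetaBar Kbar N ℓ (jBar N) = σ (jBar (N * ℓ)) := by
    rw [← involution_comp_alpha hℓ hN hw', AlgHom.comp_apply, alpha_jBar]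
    rfl
  rw [hβ, finrank_adjoin_algEquiv σ, hcard', hcard, card_XN_mul hℓ hN] at h
  exact (Nat.eq_of_mul_eq_mul_left (card_XN_pos N) h).symm

/-! ## The swap embedding on `α` and `β` -/

/-- The swap embedding restricted along `β` is `q ↦ q^ℓ`. -/
theorem swap_beta (hℓ : ℓ.Prime)
    {w : FN (N * ℓ) →ₐ[Kbar] LaurentSeries Kbar}
    (hw : ∀ e : Dv (N * ℓ), w (genF (N * ℓ) e) = swapTarget N ℓ e) (f : FN N) :
    w (heckeBetaBar Kbar N ℓ f) = qExpand Kbar ℓ (f : LaurentSeries Kbar) := by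
  have key : w.comp (heckeBetaBar Kbar N ℓ)
      = (qExpandAlg ℓ).comp (modularFunctionFieldBar N).val := by
    refine algHom_ext_genF N fun d => ?_
    have := d.neZero
    haveI : NeZero (d.1 * ℓ) := ⟨Nat.mul_ne_zero (NeZero.ne _) (NeZero.ne ℓ)⟩
    haveI : NeZero (sig ℓ (d.1 * ℓ)) :=
      ⟨sig_ne_zero hℓ.ne_zero (Nat.mul_ne_zero (NeZero.ne _) (NeZero.ne ℓ))⟩
    rw [AlgHom.comp_apply, beta_genF, hw]
    show jSeries (sig ℓ (d.1 * ℓ)) = qExpand Kbar ℓ ((genF N d : FN N) : LaurentSeries Kbar)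
    rw [coe_genF]
    show jSeries (sig ℓ (d.1 * ℓ)) = qExpand Kbar ℓ (jSeries d.1)
    rw [qExpand_jSeries]
    exact jSeries_congr ((sig_of_dvd (Dvd.intro_left d.1 rfl)).trans (mul_comm _ _))
  exact congrArg (fun φ : FN N →ₐ[Kbar] LaurentSeries Kbar => φ f) key

/-- The swap embedding restricted along `α` is `q ↦ q^(ℓ²)`. -/
theorem swap_alpha (hℓ : ℓ.Prime) (hN : Nat.Coprime ℓ N)
    {w : FN (N * ℓ) →ₐ[Kbar] LaurentSeries Kbar}
    (hw : ∀ e : Dv (N * ℓ), w (genF (N * ℓ) e) = swapTarget N ℓ e) (h : FN N) :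
    w (heckeAlphaBar Kbar N ℓ h) = qExpand Kbar (ℓ ^ 2) (h : LaurentSeries Kbar) := by
  have key : w.comp (heckeAlphaBar Kbar N ℓ)
      = (qExpandAlg (ℓ ^ 2)).comp (modularFunctionFieldBar N).val := by
    refine algHom_ext_genF N fun d => ?_
    have := d.neZero
    haveI : NeZero (sig ℓ d.1) := ⟨sig_ne_zero hℓ.ne_zero (NeZero.ne _)⟩
    rw [AlgHom.comp_apply, alpha_genF, hw]
    show jSeries (sig ℓ d.1) = qExpand Kbar (ℓ ^ 2) ((genF N d : FN N) : LaurentSeries Kbar)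
    rw [coe_genF]
    show jSeries (sig ℓ d.1) = qExpand Kbar (ℓ ^ 2) (jSeries d.1)
    rw [qExpand_jSeries]
    exact jSeries_congr
      ((sig_of_not_dvd (not_dvd_of_dvd_of_coprime hℓ hN d.2)).trans (mul_comm _ _))
  exact congrArg (fun φ : FN N →ₐ[Kbar] LaurentSeries Kbar => φ h) key

/-- **The Atkin–Lehner embedding at `ℓ`**, in terms of `α` and `β`: a `ℚ̄`-embedding of the
function field of level `N ℓ` into Laurent series which is `h ↦ h(q^(ℓ²))` on `α(F_N)` and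
`f ↦ f(q^ℓ)` on `β(F_N)`. -/
theorem exists_swap_alpha_beta (hℓ : ℓ.Prime) (hN : Nat.Coprime ℓ N) :
    ∃ w : FN (N * ℓ) →ₐ[Kbar] LaurentSeries Kbar,
      (∀ h : FN N, w (heckeAlphaBar Kbar N ℓ h) = qExpand Kbar (ℓ ^ 2) (h : LaurentSeries Kbar)) ∧
      (∀ f : FN N, w (heckeBetaBar Kbar N ℓ f) = qExpand Kbar ℓ (f : LaurentSeries Kbar)) := by
  obtain ⟨w, hw⟩ := exists_swap hℓ hN
  exact ⟨w, swap_alpha hℓ hN hw, swap_beta hℓ hw⟩

end Degree

end Fermat.Agent.S37.helper137
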