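/-
S37 — KRON-FF (F3)/(F4): the characteristic polynomial and the norm of `α(h)` over `β(F_N)` AND of
`β(f)` over `α(F_N)` inside `F_{Nℓ}`, as `q`-series identities.
Author: helper6826.  No sorry.  Built on the landed `helper137_KroneckerFF` (Atkin–Lehner embedding
and involution, degrees `ℓ + 1`) and `helper6826_KroneckerSeries` (`heckePoly`, `heckeNorm`).

Notation: `Kbar = AlgebraicClosure ℚ`, `FN M = modularFunctionFieldBar M`, `α = heckeAlphaBar Kbar N ℓ`
(inclusion), `β = heckeBetaBar Kbar N ℓ` (`q ↦ q^ℓ`), `ℓ` prime, `Nat.Coprime ℓ N`.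

* generic: `charpoly_mulLeft_map_eq_prod`, `norm_map_eq_prod` — `[E : F]` pairwise distinct ring
  homs `σ_i : E → Ω` with common restriction `ρ` to `F` give
  `charpoly(x).map ρ = ∏ (X - σ_i x)` and `ρ (N x) = ∏ σ_i x` (Dedekind independence of characters);
  Along-forms `charpolyAlong_map_eq_prod`, `normAlong_map_eq_prod` for the Prelude `algebraAlong φ`.
* `normAlong φ x`, `charpolyAlong φ hfin x`: the norm / characteristic polynomial along `φ`
  (definitionally the terms `helper367.normAlong φ x` and `helper869.charpolyAlong φ hfin x`).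
* (F3) `norm_beta_over_alpha`     : `↑(normAlong α (β f)) = heckeNorm ℓ ↑f`     (`ν f`, `T_ℓ div f = div ν f`)
       `charpoly_beta_over_alpha` : `(charpolyAlong α hfin (β f)).map val = heckePoly ℓ ↑f`
       `norm_alpha_over_beta`     : `↑(normAlong β (α h)) = heckeNorm ℓ ↑h`
       `charpoly_alpha_over_beta` : `(charpolyAlong β hfin (α h)).map val = heckePoly ℓ ↑h`
* (F4) `norm_beta_over_alpha_integral`, `norm_alpha_over_beta_integral`,
       `charpoly_alpha_over_beta_integral`, `charpoly_beta_over_alpha_integral`: for `ι : A →+* Kbar`,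
       `π : A →+* k` (`CharP k ℓ`) and `y : LaurentSeries A` with `coeffMap ι y = ↑f`: the norm is
       `coeffMap ι (heckeNorm ℓ y)` with reduction `ybar(q^ℓ) * Fr ybar`; the characteristic
       polynomial is `(heckePoly ℓ y).map (coeffMap ι)` with reduction
       `(X - ybar(q^ℓ)) * (X^ℓ - Fr ybar)`.
-/
import Mathlib
import Fermat.Agent.S37.helper137_KroneckerFF
import Fermat.Agent.S37.helper6826_KroneckerSeries

set_option autoImplicit false

namespace Fermat.Agent.S37.helper6826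

open Polynomial

noncomputable section

/-! ### 1. Generic: characteristic polynomial and norm from `[E : F]` distinct embeddings -/

section Generic

variable {F E Ω : Type*} [Field F] [Field E] [Algebra F E] [Field Ω]
  {ι : Type*} [Fintype ι] [DecidableEq ι]

/-- The matrix `(σ_i (b_j))` of a family of embeddings on a basis. -/
def embMatrix (b : Module.Basis ι F E) (σ : ι → E →+* Ω) : Matrix ι ι Ω :=
  Matrix.of fun i j => σ i (b j)

theorem diagonal_mul_embMatrix (b : Module.Basis ι F E) (ρ : F →+* Ω) (σ : ι → E →+* Ω)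
    (hσ : ∀ i, (σ i).comp (algebraMap F E) = ρ) (x : E) :
    Matrix.diagonal (fun i => σ i x) * embMatrix b σ =
      embMatrix b σ * (Algebra.leftMulMatrix b x).map ρ := by
  ext i j
  rw [Matrix.diagonal_mul, Matrix.mul_apply]
  simp only [embMatrix, Matrix.of_apply, Matrix.map_apply]
  have h1 : x * b j = ∑ k, (Algebra.leftMulMatrix b x k j) • b k := by
    conv_lhs => rw [← b.sum_repr (x * b j)]
    refine Finset.sum_congr rfl fun k _ => ?_
    rw [Algebra.leftMulMatrix_eq_repr_mul]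
  rw [← map_mul, h1, map_sum]
  refine Finset.sum_congr rfl fun k _ => ?_
  rw [Algebra.smul_def, map_mul, ← hσ i, RingHom.comp_apply, mul_comm]

theorem det_embMatrix_ne_zero (b : Module.Basis ι F E) (ρ : F →+* Ω) (σ : ι → E →+* Ω)
    (hσ : ∀ i, (σ i).comp (algebraMap F E) = ρ) (hinj : Function.Injective σ) :
    (embMatrix b σ).det ≠ 0 := by
  intro hdet
  obtain ⟨v, hv0, hv⟩ := Matrix.exists_vecMul_eq_zero_iff.mpr hdet
  have hb : ∀ j, ∑ i, v i * σ i (b j) = 0 := fun j => by
    have := congrFun hv j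
    simpa [Matrix.vecMul, dotProduct, embMatrix] using this
  have hall : ∀ y : E, ∑ i, v i * σ i y = 0 := by
    intro y
    have hy : ∀ i, v i * σ i y = ∑ j, ρ (b.repr y j) * (v i * σ i (b j)) := by
      intro i
      conv_lhs => rw [← b.sum_repr y]
      rw [map_sum, Finset.mul_sum]
      refine Finset.sum_congr rfl fun j _ => ?_
      rw [Algebra.smul_def, map_mul, ← hσ i, RingHom.comp_apply]
      ring
    simp only [hy]
    rw [Finset.sum_comm]
    refine Finset.sum_eq_zero fun j _ => ?_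
    rw [← Finset.mul_sum, hb, mul_zero]
  have hli : LinearIndependent Ω (fun i => ((σ i : E →* Ω) : E → Ω)) :=
    (linearIndependent_monoidHom E Ω).comp (fun i => (σ i : E →* Ω))
      (fun i j h => hinj (RingHom.ext fun y => DFunLike.congr_fun h y))
  have hzero := Fintype.linearIndependent_iff.mp hli v (by
    ext y
    simpa using hall y)
  exact hv0 (funext hzero)

variable [FiniteDimensional F E]

/-- **Characteristic polynomial from embeddings**: if `σ_i : E → Ω` are `[E : F]` pairwise distinct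
ring homomorphisms with the same restriction `ρ` to `F`, then the characteristic polynomial of
multiplication by `x` on `E/F` maps under `ρ` to `∏ i, (X - σ_i x)`. -/
theorem charpoly_mulLeft_map_eq_prod (ρ : F →+* Ω) (σ : ι → E →+* Ω)
    (hσ : ∀ i, (σ i).comp (algebraMap F E) = ρ) (hinj : Function.Injective σ)
    (hcard : Fintype.card ι = Module.finrank F E) (x : E) :
    ((LinearMap.mulLeft F x).charpoly).map ρ = ∏ i, (X - C (σ i x)) := by
  let b : Module.Basis ι F E :=
    (Module.finBasis F E).reindex (Fintype.equivFinOfCardEq hcard).symm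
  have hdet : IsUnit (embMatrix b σ).det :=
    isUnit_iff_ne_zero.mpr (det_embMatrix_ne_zero b ρ σ hσ hinj)
  have hconj : (Algebra.leftMulMatrix b x).map ρ =
      (embMatrix b σ)⁻¹ * Matrix.diagonal (fun i => σ i x) * embMatrix b σ := by
    rw [mul_assoc, diagonal_mul_embMatrix b ρ σ hσ x, ← mul_assoc,
      Matrix.nonsing_inv_mul _ hdet, one_mul]
  have h1 : (LinearMap.mulLeft F x).charpoly = (Algebra.leftMulMatrix b x).charpoly := by
    rw [Algebra.leftMulMatrix_apply, LinearMap.charpoly_toMatrix]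
    rfl
  rw [h1, ← Matrix.charpoly_map, hconj, ← Matrix.charpoly_diagonal]
  exact Matrix.charpoly_units_conj' (Matrix.nonsingInvUnit _ hdet) _

/-- **Norm from embeddings.** -/
theorem norm_map_eq_prod (ρ : F →+* Ω) (σ : ι → E →+* Ω)
    (hσ : ∀ i, (σ i).comp (algebraMap F E) = ρ) (hinj : Function.Injective σ)
    (hcard : Fintype.card ι = Module.finrank F E) (x : E) :
    ρ (Algebra.norm F x) = ∏ i, σ i x := by
  let b : Module.Basis ι F E :=
    (Module.finBasis F E).reindex (Fintype.equivFinOfCardEq hcard).symm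
  have hdet : IsUnit (embMatrix b σ).det :=
    isUnit_iff_ne_zero.mpr (det_embMatrix_ne_zero b ρ σ hσ hinj)
  have hconj : (Algebra.leftMulMatrix b x).map ρ =
      (embMatrix b σ)⁻¹ * Matrix.diagonal (fun i => σ i x) * embMatrix b σ := by
    rw [mul_assoc, diagonal_mul_embMatrix b ρ σ hσ x, ← mul_assoc,
      Matrix.nonsing_inv_mul _ hdet, one_mul]
  rw [Algebra.norm_eq_matrix_det b, RingHom.map_det]
  show ((Algebra.leftMulMatrix b x).map ρ).det = _
  rw [hconj, Matrix.det_conj' ((Matrix.isUnit_iff_isUnit_det _).mpr hdet), Matrix.det_diagonal]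

end Generic

/-! ### 1'. The same along a homomorphism `φ : F →ₐ[K] F'` (Prelude `algebraAlong` style) -/

section Along

open AlgebraicCurve

variable {K F F' : Type*} [Field K] [Field F] [Field F'] [Algebra K F] [Algebra K F']

/-- The norm of `x : F'` down to `F` along `φ` (same term as `helper367.normAlong φ x`). -/
def normAlong (φ : F →ₐ[K] F') (x : F') : F :=
  letI := algebraAlong φ
  Algebra.norm F x

/-- The characteristic polynomial over `F` of multiplication by `x : F'`, along `φ`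
(same term as `helper869.charpolyAlong φ hfin x`). -/
def charpolyAlong (φ : F →ₐ[K] F') (hfin : FiniteAlong K φ) (x : F') : F[X] :=
  letI := algebraAlong φ
  haveI : Module.Finite F F' := hfin
  (LinearMap.mulLeft F x).charpoly

theorem normAlong_def (φ : F →ₐ[K] F') (x : F') :
    normAlong φ x = (letI := algebraAlong φ; Algebra.norm F x) := rfl

theorem charpolyAlong_def (φ : F →ₐ[K] F') (hfin : FiniteAlong K φ) (x : F') :
    charpolyAlong φ hfin x =
      (letI := algebraAlong φ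
       haveI : Module.Finite F F' := hfin
       (LinearMap.mulLeft F x).charpoly) := rfl

variable {Ω : Type*} [Field Ω] {ι : Type*} [Fintype ι] [DecidableEq ι]

theorem charpolyAlong_map_eq_prod (φ : F →ₐ[K] F') (hfin : FiniteAlong K φ) (ρ : F →+* Ω)
    (σ : ι → F' →+* Ω) (hσ : ∀ i f, σ i (φ f) = ρ f) (hinj : Function.Injective σ)
    (hcard : Fintype.card ι = finrankAlong K φ) (x : F') :
    (charpolyAlong φ hfin x).map ρ = ∏ i, (X - C (σ i x)) := by
  let _ := algebraAlong φ
  have : Module.Finite F F' := hfin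
  exact charpoly_mulLeft_map_eq_prod ρ σ (fun i => RingHom.ext (hσ i)) hinj hcard x

theorem normAlong_map_eq_prod (φ : F →ₐ[K] F') (hfin : FiniteAlong K φ) (ρ : F →+* Ω)
    (σ : ι → F' →+* Ω) (hσ : ∀ i f, σ i (φ f) = ρ f) (hinj : Function.Injective σ)
    (hcard : Fintype.card ι = finrankAlong K φ) (x : F') :
    ρ (normAlong φ x) = ∏ i, σ i x := by
  let _ := algebraAlong φ
  have : Module.Finite F F' := hfin
  exact norm_map_eq_prod ρ σ (fun i => RingHom.ext (hσ i)) hinj hcard x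

theorem finiteAlong_of_finrankAlong_pos (φ : F →ₐ[K] F') (h : 0 < finrankAlong K φ) :
    FiniteAlong K φ := by
  let _ := algebraAlong φ
  exact Module.finite_of_finrank_pos h

end Along

/-! ### 2. The modular instance: `F_{Nℓ}` over `α(F_N)` and over `β(F_N)` -/

section Modular

open ModularCurve AlgebraicCurve
open Fermat.Agent.S24.helper24
open Fermat.Agent.S37.helper137
open Fermat.Agent.S28.helper328 (twist twist_coeff)
open Fermat.Agent.S28.helper2082

variable {N ℓ : ℕ} [NeZero N] [NeZero ℓ]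

/-- The family of `ℓ + 1` embeddings of `F_{Nℓ}` into `ℚ̄((q))`: `q ↦ ω^c q` (`c < ℓ`) and a given
one `w` (the Atkin–Lehner embedding). -/
def embFam (ω : Kbarˣ) (w : FN (N * ℓ) →+* LaurentSeries Kbar) :
    Option (Fin ℓ) → FN (N * ℓ) →+* LaurentSeries Kbar
  | none => w
  | some c => (twist (ω ^ (c : ℕ))).comp (modularFunctionFieldBar (N * ℓ)).val.toRingHom

omit [NeZero N] [NeZero ℓ] in
theorem embFam_some (ω : Kbarˣ) (w : FN (N * ℓ) →+* LaurentSeries Kbar) (c : Fin ℓ)
    (x : FN (N * ℓ)) : embFam ω w (some c) x = twist (ω ^ (c : ℕ)) (x : LaurentSeries Kbar) := rfl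

omit [NeZero N] [NeZero ℓ] in
theorem embFam_none (ω : Kbarˣ) (w : FN (N * ℓ) →+* LaurentSeries Kbar) (x : FN (N * ℓ)) :
    embFam ω w none x = w x := rfl

theorem coeff_neg_one_jBar (M : ℕ) :
    ((jBar M : FN M) : LaurentSeries Kbar).coeff (-1) = 1 := by
  rw [coe_jBar, coeffEmb_coeff, coeff_jq_neg_one, map_one]

omit [NeZero N] in
/-- The `ℓ + 1` embeddings are pairwise distinct (they differ on `j`). -/
theorem embFam_injective (hℓ : ℓ.Prime) (ω : Kbarˣ) (hω : IsPrimitiveRoot ω ℓ)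
    (w : FN (N * ℓ) →+* LaurentSeries Kbar)
    (hw : w (jBar (N * ℓ)) = qExpand Kbar (ℓ ^ 2) ((jBar N : FN N) : LaurentSeries Kbar)) :
    Function.Injective (embFam ω w) := by
  have hsome : ∀ c : Fin ℓ, (embFam ω w (some c) (jBar (N * ℓ))).coeff (-1) =
      (((ω ^ (c : ℕ))⁻¹ : Kbarˣ) : Kbar) := by
    intro c
    rw [embFam_some, twist_coeff, coeff_neg_one_jBar, mul_one, zpow_neg_one]
  have hnone : (embFam ω w none (jBar (N * ℓ))).coeff (-1) = 0 := by
    rw [embFam_none, hw]
    apply qExpand_coeff_of_not_dvd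
    intro hdvd
    have h2 : (2 : ℤ) ≤ ℓ := by exact_mod_cast hℓ.two_le
    have h3 : ((ℓ ^ 2 : ℕ) : ℤ) ≤ 1 :=
      Int.le_of_dvd (by norm_num) ((dvd_neg (b := (1 : ℤ))).mp hdvd)
    push_cast at h3
    nlinarith
  intro i j hij
  have h1 : (embFam ω w i (jBar (N * ℓ))).coeff (-1) =
      (embFam ω w j (jBar (N * ℓ))).coeff (-1) := by rw [hij]
  rcases i with _ | c <;> rcases j with _ | c'
  · rfl
  · exfalso
    rw [hnone, hsome] at h1
    exact Units.ne_zero _ h1.symm
  · exfalso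
    rw [hnone, hsome] at h1
    exact Units.ne_zero _ h1
  · rw [hsome, hsome] at h1
    have h2 : ω ^ (c : ℕ) = ω ^ (c' : ℕ) := inv_injective (Units.ext h1)
    exact congrArg some (Fin.ext (hω.pow_inj c.isLt c'.isLt h2))

omit [NeZero N] in
/-- Abstract form: `φ, ψ : F_N → F_{Nℓ}` of degree `ℓ + 1` along `φ`, with `ℓ + 1` distinct
embeddings restricting to `q ↦ q^ℓ` on `φ(F_N)` and sending `ψ f` to `f(q^(ℓ²))`, `f(ω^c q)`.
Then the characteristic polynomial and the norm of `ψ f` over `φ(F_N)` are `heckePoly ℓ f` and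
`heckeNorm ℓ f`. -/
theorem charpoly_norm_of_family (φ ψ : FN N →ₐ[Kbar] FN (N * ℓ)) (ω : Kbarˣ)
    (hω : IsPrimitiveRoot ω ℓ) (σ : Option (Fin ℓ) → FN (N * ℓ) →+* LaurentSeries Kbar)
    (hσ : ∀ i (f : FN N), σ i (φ f) = qExpand Kbar ℓ (f : LaurentSeries Kbar))
    (hinj : Function.Injective σ) (hdeg : finrankAlong Kbar φ = ℓ + 1)
    (hnone : ∀ f : FN N, σ none (ψ f) = qExpand Kbar (ℓ * ℓ) (f : LaurentSeries Kbar))
    (hsome : ∀ (c : Fin ℓ) (f : FN N), σ (some c) (ψ f) =
      twist (ω ^ (c : ℕ)) (f : LaurentSeries Kbar)) (hfin : FiniteAlong Kbar φ) (f : FN N) :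
    (charpolyAlong φ hfin (ψ f)).map (modularFunctionFieldBar N).val.toRingHom =
        heckePoly ℓ (f : LaurentSeries Kbar) ∧
    ((normAlong φ (ψ f) : FN N) : LaurentSeries Kbar) = heckeNorm ℓ (f : LaurentSeries Kbar) := by
  let ρ : FN N →+* LaurentSeries Kbar :=
    (qExpand Kbar ℓ).comp (modularFunctionFieldBar N).val.toRingHom
  have hσ' : ∀ i (g : FN N), σ i (φ g) = ρ g := fun i g => hσ i g
  have hcard : Fintype.card (Option (Fin ℓ)) = finrankAlong Kbar φ := by
    rw [hdeg, Fintype.card_option, Fintype.card_fin]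
  constructor
  · have h1 := charpolyAlong_map_eq_prod φ hfin ρ σ hσ' hinj hcard (ψ f)
    rw [Fintype.prod_option, hnone] at h1
    simp only [hsome] at h1
    rw [← heckePoly_map_qExpand ℓ ω hω, ← Polynomial.map_map] at h1
    exact Polynomial.map_injective (qExpand Kbar ℓ) (qExpand_injective ℓ) h1
  · have h1 := normAlong_map_eq_prod φ hfin ρ σ hσ' hinj hcard (ψ f)
    rw [Fintype.prod_option, hnone] at h1
    simp only [hsome] at h1
    rw [← qExpand_heckeNorm ℓ ω hω] at h1
    exact qExpand_injective ℓ h1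

omit [NeZero N] in
theorem exists_primitiveRoot_unit (ℓ : ℕ) [NeZero ℓ] : ∃ ω : Kbarˣ, IsPrimitiveRoot ω ℓ := by
  obtain ⟨ζ, hζ⟩ := HasEnoughRootsOfUnity.exists_primitiveRoot Kbar ℓ
  obtain ⟨u, hu⟩ := hζ.isUnit (NeZero.ne ℓ)
  refine ⟨u, IsPrimitiveRoot.coe_units_iff.mp ?_⟩
  rw [hu]
  exact hζ

theorem finiteAlong_alpha (hℓ : ℓ.Prime) (hN : Nat.Coprime ℓ N) :
    FiniteAlong Kbar (heckeAlphaBar Kbar N ℓ) :=
  finiteAlong_of_finrankAlong_pos _ (by rw [finrankAlong_alpha hℓ hN]; exact Nat.succ_pos ℓ)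

theorem finiteAlong_beta (hℓ : ℓ.Prime) (hN : Nat.Coprime ℓ N) :
    FiniteAlong Kbar (heckeBetaBar Kbar N ℓ) :=
  finiteAlong_of_finrankAlong_pos _ (by rw [finrankAlong_beta hℓ hN]; exact Nat.succ_pos ℓ)

/-- The embedding family for the `β`-side. -/
theorem family_beta (hℓ : ℓ.Prime) (hN : Nat.Coprime ℓ N) (ω : Kbarˣ) (hω : IsPrimitiveRoot ω ℓ) :
    ∃ σ : Option (Fin ℓ) → FN (N * ℓ) →+* LaurentSeries Kbar,
      (∀ i (f : FN N), σ i (heckeBetaBar Kbar N ℓ f) = qExpand Kbar ℓ (f : LaurentSeries Kbar)) ∧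
      Function.Injective σ ∧
      (∀ h : FN N, σ none (heckeAlphaBar Kbar N ℓ h) =
        qExpand Kbar (ℓ * ℓ) (h : LaurentSeries Kbar)) ∧
      (∀ (c : Fin ℓ) (h : FN N), σ (some c) (heckeAlphaBar Kbar N ℓ h) =
        twist (ω ^ (c : ℕ)) (h : LaurentSeries Kbar)) := by
  obtain ⟨w, hwα, hwβ⟩ := exists_swap_alpha_beta (N := N) hℓ hN
  have hsq : ∀ g : LaurentSeries Kbar, qExpand Kbar (ℓ ^ 2) g = qExpand Kbar (ℓ * ℓ) g :=
    fun g => qExpand_congr (pow_two ℓ) g
  refine ⟨embFam ω w.toRingHom, ?_, ?_, ?_, ?_⟩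
  · intro i f
    rcases i with _ | c
    · exact hwβ f
    · rw [embFam_some, coe_heckeBetaBar]
      exact twist_qExpand_of_pow_eq_one ℓ _
        (by rw [← pow_mul, mul_comm, pow_mul, hω.pow_eq_one, one_pow]) _
  · refine embFam_injective hℓ ω hω w.toRingHom ?_
    have := hwα (jBar N)
    rwa [alpha_jBar] at this
  · intro f
    rw [embFam_none, ← hsq]
    exact hwα f
  · intro c f
    rw [embFam_some, coe_heckeAlphaBar]

/-- The embedding family for the `α`-side (the `β`-family composed with the Atkin–Lehner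
involution). -/
theorem family_alpha (hℓ : ℓ.Prime) (hN : Nat.Coprime ℓ N) (ω : Kbarˣ)
    (hω : IsPrimitiveRoot ω ℓ) :
    ∃ σ : Option (Fin ℓ) → FN (N * ℓ) →+* LaurentSeries Kbar,
      (∀ i (f : FN N), σ i (heckeAlphaBar Kbar N ℓ f) = qExpand Kbar ℓ (f : LaurentSeries Kbar)) ∧
      Function.Injective σ ∧
      (∀ f : FN N, σ none (heckeBetaBar Kbar N ℓ f) =
        qExpand Kbar (ℓ * ℓ) (f : LaurentSeries Kbar)) ∧
      (∀ (c : Fin ℓ) (f : FN N), σ (some c) (heckeBetaBar Kbar N ℓ f) =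
        twist (ω ^ (c : ℕ)) (f : LaurentSeries Kbar)) := by
  obtain ⟨σ, h1, h2, h3, h4⟩ := family_beta (N := N) hℓ hN ω hω
  obtain ⟨w', hw'⟩ := exists_involution (N := N) hℓ hN
  have hαβ : ∀ g : FN N, w' (heckeAlphaBar Kbar N ℓ g) = heckeBetaBar Kbar N ℓ g := fun g =>
    congrArg (fun φ : FN N →ₐ[Kbar] FN (N * ℓ) => φ g) (involution_comp_alpha hℓ hN hw')
  have hself : ∀ x : FN (N * ℓ), w' (w' x) = x := fun x =>
    congrArg (fun φ : FN (N * ℓ) →ₐ[Kbar] FN (N * ℓ) => φ x) (involution_comp_self hℓ hN hw')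
  have hβα : ∀ g : FN N, w' (heckeBetaBar Kbar N ℓ g) = heckeAlphaBar Kbar N ℓ g := fun g => by
    rw [← hαβ g, hself]
  refine ⟨fun i => (σ i).comp w'.toRingHom, ?_, ?_, ?_, ?_⟩
  · intro i g
    show σ i (w' (heckeAlphaBar Kbar N ℓ g)) = _
    rw [hαβ, h1]
  · intro i j hij
    apply h2
    refine RingHom.ext fun x => ?_
    have h5 : σ i (w' (w' x)) = σ j (w' (w' x)) :=
      congrArg (fun φ : FN (N * ℓ) →+* LaurentSeries Kbar => φ (w' x)) hij
    rwa [hself] at h5
  · intro g
    show σ none (w' (heckeBetaBar Kbar N ℓ g)) = _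
    rw [hβα, h3]
  · intro c g
    show σ (some c) (w' (heckeBetaBar Kbar N ℓ g)) = _
    rw [hβα, h4]

/-- **KRON-FF (F3), `β`-side, norm**: the norm of `α(h)` over `β(F_N)` (`F_{Nℓ}` an `F_N`-algebra
along `β = heckeBetaBar`), read as a `q`-series, is `heckeNorm ℓ h`. -/
theorem norm_alpha_over_beta (hℓ : ℓ.Prime) (hN : Nat.Coprime ℓ N) (h : FN N) :
    ((normAlong (heckeBetaBar Kbar N ℓ) (heckeAlphaBar Kbar N ℓ h) : FN N) : LaurentSeries Kbar) =
      heckeNorm ℓ (h : LaurentSeries Kbar) := by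
  obtain ⟨ω, hω⟩ := exists_primitiveRoot_unit ℓ
  obtain ⟨σ, h1, h2, h3, h4⟩ := family_beta (N := N) hℓ hN ω hω
  exact (charpoly_norm_of_family (heckeBetaBar Kbar N ℓ) (heckeAlphaBar Kbar N ℓ) ω hω σ h1 h2
    (finrankAlong_beta hℓ hN) h3 h4 (finiteAlong_beta hℓ hN) h).2

/-- **KRON-FF (F3), `β`-side, characteristic polynomial**: the characteristic polynomial of `α(h)`
over `β(F_N)`, read as a polynomial over `q`-series, is `heckePoly ℓ h`. -/
theorem charpoly_alpha_over_beta (hℓ : ℓ.Prime) (hN : Nat.Coprime ℓ N)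
    (hfin : FiniteAlong Kbar (heckeBetaBar Kbar N ℓ)) (h : FN N) :
    (charpolyAlong (heckeBetaBar Kbar N ℓ) hfin (heckeAlphaBar Kbar N ℓ h)).map
        (modularFunctionFieldBar N).val.toRingHom = heckePoly ℓ (h : LaurentSeries Kbar) := by
  obtain ⟨ω, hω⟩ := exists_primitiveRoot_unit ℓ
  obtain ⟨σ, h1, h2, h3, h4⟩ := family_beta (N := N) hℓ hN ω hω
  exact (charpoly_norm_of_family (heckeBetaBar Kbar N ℓ) (heckeAlphaBar Kbar N ℓ) ω hω σ h1 h2
    (finrankAlong_beta hℓ hN) h3 h4 hfin h).1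

/-- **KRON-FF (F3), `α`-side, norm**: the norm of `β(f)` over `α(F_N)` (`F_{Nℓ}` an `F_N`-algebra
along `α = heckeAlphaBar`, the inclusion), read as a `q`-series, is `heckeNorm ℓ f`.
(This norm is the function `ν f` with `T_ℓ (div f) = div (ν f)`.) -/
theorem norm_beta_over_alpha (hℓ : ℓ.Prime) (hN : Nat.Coprime ℓ N) (f : FN N) :
    ((normAlong (heckeAlphaBar Kbar N ℓ) (heckeBetaBar Kbar N ℓ f) : FN N) : LaurentSeries Kbar) =
      heckeNorm ℓ (f : LaurentSeries Kbar) := by
  obtain ⟨ω, hω⟩ := exists_primitiveRoot_unit ℓ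
  obtain ⟨σ, h1, h2, h3, h4⟩ := family_alpha (N := N) hℓ hN ω hω
  exact (charpoly_norm_of_family (heckeAlphaBar Kbar N ℓ) (heckeBetaBar Kbar N ℓ) ω hω σ h1 h2
    (finrankAlong_alpha hℓ hN) h3 h4 (finiteAlong_alpha hℓ hN) f).2

/-- **KRON-FF (F3), `α`-side, characteristic polynomial.** -/
theorem charpoly_beta_over_alpha (hℓ : ℓ.Prime) (hN : Nat.Coprime ℓ N)
    (hfin : FiniteAlong Kbar (heckeAlphaBar Kbar N ℓ)) (f : FN N) :
    (charpolyAlong (heckeAlphaBar Kbar N ℓ) hfin (heckeBetaBar Kbar N ℓ f)).map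
        (modularFunctionFieldBar N).val.toRingHom = heckePoly ℓ (f : LaurentSeries Kbar) := by
  obtain ⟨ω, hω⟩ := exists_primitiveRoot_unit ℓ
  obtain ⟨σ, h1, h2, h3, h4⟩ := family_alpha (N := N) hℓ hN ω hω
  exact (charpoly_norm_of_family (heckeAlphaBar Kbar N ℓ) (heckeBetaBar Kbar N ℓ) ω hω σ h1 h2
    (finrankAlong_alpha hℓ hN) h3 h4 hfin f).1

/-! ### 3. (F4): integral and mod-`ℓ` forms -/

section Integral

variable {A k : Type*} [CommRing A] [CommRing k] [Fact ℓ.Prime] [CharP k ℓ]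

/-- **KRON-FF (F4), `α`-side, norm.**  If `f ∈ F_N` has the `A`-integral `q`-expansion `y`
(`ι : A → ℚ̄` any ring hom, e.g. the inclusion of a valuation ring), then `ν f = N_α(β f)` has the
`A`-integral `q`-expansion `heckeNorm ℓ y`, and for every `π : A → k` into a ring of characteristic
`ℓ` its reduction is `ybar(q^ℓ) * Fr ybar`. -/
theorem norm_beta_over_alpha_integral (hN : Nat.Coprime ℓ N) (ι : A →+* Kbar) (π : A →+* k)
    (f : FN N) (y : LaurentSeries A) (hy : coeffMap ι y = (f : LaurentSeries Kbar)) :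
    ((normAlong (heckeAlphaBar Kbar N ℓ) (heckeBetaBar Kbar N ℓ f) : FN N) : LaurentSeries Kbar) =
        coeffMap ι (heckeNorm ℓ y) ∧
      coeffMap π (heckeNorm ℓ y) =
        qExpand k ℓ (coeffMap π y) * coeffMap (frobenius k ℓ) (coeffMap π y) := by
  refine ⟨?_, ?_⟩
  · rw [norm_beta_over_alpha (Fact.out : ℓ.Prime) hN, ← hy, heckeNorm_coeffMap]
  · rw [← heckeNorm_coeffMap, heckeNorm_char]

/-- **KRON-FF (F4), `β`-side, norm** (board #804 (F4)). -/
theorem norm_alpha_over_beta_integral (hN : Nat.Coprime ℓ N) (ι : A →+* Kbar) (π : A →+* k)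
    (h : FN N) (y : LaurentSeries A) (hy : coeffMap ι y = (h : LaurentSeries Kbar)) :
    ((normAlong (heckeBetaBar Kbar N ℓ) (heckeAlphaBar Kbar N ℓ h) : FN N) : LaurentSeries Kbar) =
        coeffMap ι (heckeNorm ℓ y) ∧
      coeffMap π (heckeNorm ℓ y) =
        qExpand k ℓ (coeffMap π y) * coeffMap (frobenius k ℓ) (coeffMap π y) := by
  refine ⟨?_, ?_⟩
  · rw [norm_alpha_over_beta (Fact.out : ℓ.Prime) hN, ← hy, heckeNorm_coeffMap]
  · rw [← heckeNorm_coeffMap, heckeNorm_char]

/-- **KRON-FF (F4), `β`-side, characteristic polynomial**: for `h ∈ F_N` with `A`-integral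
`q`-expansion `y`, the characteristic polynomial of `α(h)` over `β(F_N)` is the image of the monic
`heckePoly ℓ y ∈ A((q))[X]`, whose reduction is `(X - ybar(q^ℓ)) * (X^ℓ - Fr ybar)`. -/
theorem charpoly_alpha_over_beta_integral (hN : Nat.Coprime ℓ N)
    (hfin : FiniteAlong Kbar (heckeBetaBar Kbar N ℓ)) (ι : A →+* Kbar) (π : A →+* k)
    (h : FN N) (y : LaurentSeries A) (hy : coeffMap ι y = (h : LaurentSeries Kbar)) :
    (charpolyAlong (heckeBetaBar Kbar N ℓ) hfin (heckeAlphaBar Kbar N ℓ h)).map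
        (modularFunctionFieldBar N).val.toRingHom = (heckePoly ℓ y).map (coeffMap ι) ∧
      (heckePoly ℓ y).Monic ∧
      (heckePoly ℓ y).map (coeffMap π) =
        (X - C (qExpand k ℓ (coeffMap π y))) *
          (X ^ ℓ - C (coeffMap (frobenius k ℓ) (coeffMap π y))) := by
  refine ⟨?_, heckePoly_monic ℓ y, ?_⟩
  · rw [charpoly_alpha_over_beta (Fact.out : ℓ.Prime) hN, ← hy, heckePoly_coeffMap]
  · rw [← heckePoly_coeffMap, heckePoly_char]

/-- **KRON-FF (F4), `α`-side, characteristic polynomial.** -/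
theorem charpoly_beta_over_alpha_integral (hN : Nat.Coprime ℓ N)
    (hfin : FiniteAlong Kbar (heckeAlphaBar Kbar N ℓ)) (ι : A →+* Kbar) (π : A →+* k)
    (f : FN N) (y : LaurentSeries A) (hy : coeffMap ι y = (f : LaurentSeries Kbar)) :
    (charpolyAlong (heckeAlphaBar Kbar N ℓ) hfin (heckeBetaBar Kbar N ℓ f)).map
        (modularFunctionFieldBar N).val.toRingHom = (heckePoly ℓ y).map (coeffMap ι) ∧
      (heckePoly ℓ y).Monic ∧
      (heckePoly ℓ y).map (coeffMap π) =
        (X - C (qExpand k ℓ (coeffMap π y))) *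
          (X ^ ℓ - C (coeffMap (frobenius k ℓ) (coeffMap π y))) := by
  refine ⟨?_, heckePoly_monic ℓ y, ?_⟩
  · rw [charpoly_beta_over_alpha (Fact.out : ℓ.Prime) hN, ← hy, heckePoly_coeffMap]
  · rw [← heckePoly_coeffMap, heckePoly_char]

end Integral

end Modular

end

end Fermat.Agent.S37.helper6826
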