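import Fermat.Agent.S24.helper504_JFinrank
import Fermat.Agent.S37.helper9343_BetaAdapter
import Fermat.Agent.Lib.helper804_Gamma0Cosets
import Fermat.Agent.Lib.helper1356_Gamma0Index
import Fermat.Prelude.Def_ModularCurve_HeckeOperator

/-!
# S37: the Fricke automorphism of the modular function field and the adapter for PICINJ
(helper6887)

`Kbar = AlgebraicClosure ℚ`, `FN M = modularFunctionFieldBar M = ℚ̄(j(q^d) : d ∣ M)`.

* `frickeBar M : FN M ≃ₐ[Kbar] FN M`, the Fricke involution, `j(q^d) ↦ j(q^(M/d))`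
  (analytic dictionary of S24 and `τ ↦ -1/(Mτ)`).
* `heckeBetaBar_eq_fricke` : `β = W_{N m} ∘ α ∘ W_N`.
* `finrankAlong_heckeBetaBar_eq` : `[F_{N m} : β F_N] = [F_{N m} : α F_N]`, and the degree formula
  `finrankAlong_heckeBetaBar` : `ψ(N) * [F_{N m} : β F_N] = ψ(N m)` (S24: `[F_N : ℚ̄(j)] = ψ(N)`).
* `finrankAlong_heckeBetaBar_prime_pow_lt` : `[F_{N m} : β F_N] < 2 m` for a prime power `m`.
* `exists_place_finrankAlong_lt` (`_four`, `_nine`) : the hypothesis `hw` of PICINJ
  (`helper9304`), with the `q`-adic place `helper9343.qPlace` (ramification index `m`).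
-/

set_option autoImplicit false

open Complex UpperHalfPlane ModularCurve AlgebraicCurve CongruenceSubgroup IntermediateField
open scoped MatrixGroups

noncomputable section

namespace Fermat.Agent.S37.helper6887

open Fermat.Agent.S24.helper24 Fermat.Agent.S24.helper504 Fermat.Agent.S24

/-! ## The Fricke point map `τ ↦ -1/(Mτ)` -/

/-- The point `-1/(Mτ)` of the upper half plane. -/
def frickePt (M : ℕ) [NeZero M] (τ : ℍ) : ℍ := ModularGroup.S • hpt M 0 1 τ

theorem coe_frickePt (M : ℕ) [NeZero M] (τ : ℍ) :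
    ((frickePt M τ : ℍ) : ℂ) = (-((M : ℂ) * τ))⁻¹ := by
  rw [frickePt, UpperHalfPlane.modular_S_smul]
  show (-(hpt M 0 1 τ : ℂ))⁻¹ = _
  rw [coe_hpt]
  simp

theorem hpt_frickePt (d e : ℕ) [NeZero d] [NeZero e] [NeZero (d * e)] (τ : ℍ) :
    hpt d 0 1 (frickePt (d * e) τ) = ModularGroup.S • hpt e 0 1 τ := by
  apply UpperHalfPlane.ext
  rw [UpperHalfPlane.modular_S_smul]
  show ((hpt d 0 1 (frickePt (d * e) τ) : ℍ) : ℂ) = (-(hpt e 0 1 τ : ℂ))⁻¹
  rw [coe_hpt, coe_hpt, coe_frickePt]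
  have hd : (d : ℂ) ≠ 0 := Nat.cast_ne_zero.mpr (NeZero.ne d)
  have he : (e : ℂ) ≠ 0 := Nat.cast_ne_zero.mpr (NeZero.ne e)
  have hτ : (τ : ℂ) ≠ 0 := UpperHalfPlane.ne_zero τ
  push_cast
  field_simp
  ring

theorem frickePt_frickePt (M : ℕ) [NeZero M] (τ : ℍ) : frickePt M (frickePt M τ) = τ := by
  apply UpperHalfPlane.ext
  rw [coe_frickePt, coe_frickePt]
  have hM : (M : ℂ) ≠ 0 := Nat.cast_ne_zero.mpr (NeZero.ne M)
  have hτ : (τ : ℂ) ≠ 0 := UpperHalfPlane.ne_zero τ
  field_simp

/-- `j(d · (-1/(d e τ))) = j(e τ)`. -/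
theorem jd_frickePt (d e : ℕ) [NeZero d] [NeZero e] [NeZero (d * e)] (τ : ℍ) :
    jd d (frickePt (d * e) τ) = jd e τ := by
  rw [jd_apply, jd_apply, hpt_frickePt, jFun_smul]

/-! ## Pull-back of functions by the Fricke point map -/

/-- Precomposition with `τ ↦ -1/(Mτ)`. -/
def pullW (M : ℕ) [NeZero M] : (ℍ → ℂ) →+* (ℍ → ℂ) where
  toFun f := fun τ => f (frickePt M τ)
  map_one' := rfl
  map_mul' _ _ := rfl
  map_zero' := rfl
  map_add' _ _ := rfl

theorem pullW_apply (M : ℕ) [NeZero M] (f : ℍ → ℂ) (τ : ℍ) :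
    pullW M f τ = f (frickePt M τ) := rfl

theorem pullW_pullW (M : ℕ) [NeZero M] (f : ℍ → ℂ) : pullW M (pullW M f) = f := by
  funext τ
  rw [pullW_apply, pullW_apply, frickePt_frickePt]

theorem pullW_jd (d e : ℕ) [NeZero d] [NeZero e] [NeZero (d * e)] :
    pullW (d * e) (jd d) = jd e := by
  funext τ
  rw [pullW_apply, jd_frickePt]

/-! ## The Fricke involution on `A_M = ℚ̄[j(q^d) : d ∣ M]` -/

theorem exists_evFun_eq_pullW (M : ℕ) [NeZero M] (a : helper3176.AN M) :
    ∃ b : helper3176.AN M, evFun M b = pullW M (evFun M a) := by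
  induction a using AN_induction with
  | gen d hd =>
      obtain ⟨e, rfl⟩ := hd
      have : NeZero e := ⟨fun h => NeZero.ne (d * e) (by rw [h, mul_zero])⟩
      refine ⟨⟨jBarD (d * e) e (dvd_mul_left e d), helper3176.jBarD_mem_AN _ e _⟩, ?_⟩
      rw [evFun_jBarD, evFun_jBarD, pullW_jd]
  | const c =>
      refine ⟨algebraMap Kbar (helper3176.AN M) c, ?_⟩
      rw [evFun_algebraMap]
      rfl
  | add x y hx hy =>
      obtain ⟨bx, hbx⟩ := hx
      obtain ⟨by', hby⟩ := hy
      exact ⟨bx + by', by rw [map_add, map_add, map_add, hbx, hby]⟩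
  | mul x y hx hy =>
      obtain ⟨bx, hbx⟩ := hx
      obtain ⟨by', hby⟩ := hy
      exact ⟨bx * by', by rw [map_mul, map_mul, map_mul, hbx, hby]⟩

/-- The Fricke involution on `A_M`, as a function. -/
def frickeFun (M : ℕ) [NeZero M] (a : helper3176.AN M) : helper3176.AN M :=
  Classical.choose (exists_evFun_eq_pullW M a)

theorem evFun_frickeFun (M : ℕ) [NeZero M] (a : helper3176.AN M) :
    evFun M (frickeFun M a) = pullW M (evFun M a) :=
  Classical.choose_spec (exists_evFun_eq_pullW M a)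

/-- The Fricke involution on `A_M` as an algebra hom. -/
def frickeA (M : ℕ) [NeZero M] : helper3176.AN M →ₐ[Kbar] helper3176.AN M where
  toFun := frickeFun M
  map_one' := evFun_injective M (by rw [evFun_frickeFun, map_one, map_one])
  map_mul' x y := evFun_injective M (by
    rw [evFun_frickeFun, map_mul, map_mul, map_mul, evFun_frickeFun, evFun_frickeFun])
  map_zero' := evFun_injective M (by rw [evFun_frickeFun, map_zero, map_zero])
  map_add' x y := evFun_injective M (by
    rw [evFun_frickeFun, map_add, map_add, map_add, evFun_frickeFun, evFun_frickeFun])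
  commutes' c := evFun_injective M (by
    rw [evFun_frickeFun, evFun_algebraMap]
    rfl)

theorem evFun_frickeA (M : ℕ) [NeZero M] (a : helper3176.AN M) :
    evFun M (frickeA M a) = pullW M (evFun M a) := evFun_frickeFun M a

theorem frickeA_frickeA (M : ℕ) [NeZero M] (a : helper3176.AN M) :
    frickeA M (frickeA M a) = a :=
  evFun_injective M (by rw [evFun_frickeA, evFun_frickeA, pullW_pullW])

theorem frickeA_jBarD (d e : ℕ) [NeZero d] [NeZero e] [NeZero (d * e)] :
    frickeA (d * e) ⟨jBarD (d * e) d (dvd_mul_right d e), helper3176.jBarD_mem_AN _ d _⟩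
      = ⟨jBarD (d * e) e (dvd_mul_left e d), helper3176.jBarD_mem_AN _ e _⟩ :=
  evFun_injective _ (by rw [evFun_frickeA, evFun_jBarD, evFun_jBarD, pullW_jd])

/-! ## The Fricke involution on the function field `F_M` -/

theorem frickeA_injective (M : ℕ) [NeZero M] : Function.Injective (frickeA M) :=
  Function.LeftInverse.injective (frickeA_frickeA M)

theorem frickeA_val_injective (M : ℕ) [NeZero M] :
    Function.Injective ((helper3176.AN M).val.comp (frickeA M)) :=
  fun _ _ h => frickeA_injective M (Subtype.val_injective h)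

/-- The Fricke involution as an algebra endomorphism of the function field. -/
def frickeHom (M : ℕ) [NeZero M] : FN M →ₐ[Kbar] FN M :=
  IsFractionRing.liftAlgHom (A := helper3176.AN M) (frickeA_val_injective M)

theorem frickeHom_coe (M : ℕ) [NeZero M] (a : helper3176.AN M) :
    frickeHom M (a : FN M) = (frickeA M a : FN M) :=
  IsFractionRing.lift_algebraMap (frickeA_val_injective M) a

theorem frickeHom_frickeHom (M : ℕ) [NeZero M] (z : FN M) :
    frickeHom M (frickeHom M z) = z := by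
  have h : ((frickeHom M : FN M →+* FN M).comp (frickeHom M : FN M →+* FN M))
      = RingHom.id (FN M) :=
    helper3176.ringHom_ext_of_AN M fun a => by
      show frickeHom M (frickeHom M (a : FN M)) = (a : FN M)
      rw [frickeHom_coe, frickeHom_coe, frickeA_frickeA]
  exact congrArg (fun f : FN M →+* FN M => f z) h

/-- **The Fricke involution** `W_M` of the function field `F_M = ℚ̄(j(q^d) : d ∣ M)`:
`j(q^d) ↦ j(q^(M/d))`. -/
def frickeBar (M : ℕ) [NeZero M] : FN M ≃ₐ[Kbar] FN M :=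
  AlgEquiv.ofAlgHom (frickeHom M) (frickeHom M) (AlgHom.ext (frickeHom_frickeHom M))
    (AlgHom.ext (frickeHom_frickeHom M))

theorem frickeBar_apply (M : ℕ) [NeZero M] (z : FN M) : frickeBar M z = frickeHom M z := rfl

theorem frickeBar_frickeBar (M : ℕ) [NeZero M] (z : FN M) : frickeBar M (frickeBar M z) = z :=
  frickeHom_frickeHom M z

theorem frickeBar_symm (M : ℕ) [NeZero M] : (frickeBar M).symm = frickeBar M := rfl

theorem frickeBar_jBarD_mul (d e : ℕ) [NeZero d] [NeZero e] [NeZero (d * e)] :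
    frickeBar (d * e) (jBarD (d * e) d (dvd_mul_right d e))
      = jBarD (d * e) e (dvd_mul_left e d) := by
  have h := frickeHom_coe (d * e)
    ⟨jBarD (d * e) d (dvd_mul_right d e), helper3176.jBarD_mem_AN _ d _⟩
  rw [frickeA_jBarD] at h
  exact h

/-- `W_M (j(q^d)) = j(q^e)` whenever `d * e = M`. -/
theorem frickeBar_jBarD (M d e : ℕ) [NeZero M] [NeZero d] [NeZero e] (h : d * e = M) :
    frickeBar M (jBarD M d ⟨e, h.symm⟩) = jBarD M e ⟨d, by rw [← h, mul_comm]⟩ := by
  subst h
  exact frickeBar_jBarD_mul d e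

/-! ## `β = W ∘ α ∘ W` -/

theorem heckeAlphaBar_jBarD (N m : ℕ) [NeZero N] [NeZero m] (d : ℕ) [NeZero d] (hd : d ∣ N) :
    heckeAlphaBar Kbar N m (jBarD N d hd) = jBarD (N * m) d (hd.mul_right m) :=
  Subtype.ext rfl

theorem heckeBetaBar_jBarD (N m : ℕ) [NeZero N] [NeZero m] (d : ℕ) [NeZero d] (hd : d ∣ N) :
    heckeBetaBar Kbar N m (jBarD N d hd) = jBarD (N * m) (d * m) (Nat.mul_dvd_mul_right hd m) := by
  apply Subtype.ext
  show qExpand Kbar m (jSeries d) = jSeries (d * m)
  rw [helper3176.jSeries_eq_qExpand, helper3176.jSeries_eq_qExpand, qExpand_qExpand]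
  exact qExpand_congr (mul_comm m d) _

/-- **`β = W_{N m} ∘ α ∘ W_N`**: the second degeneracy map `q ↦ q^m` is the Fricke conjugate of
the inclusion. -/
theorem heckeBetaBar_eq_fricke (N m : ℕ) [NeZero N] [NeZero m] :
    heckeBetaBar Kbar N m
      = (((frickeBar (N * m) : FN (N * m) ≃ₐ[Kbar] FN (N * m)) : FN (N * m) →ₐ[Kbar] FN (N * m)).comp
          (heckeAlphaBar Kbar N m)).comp
          ((frickeBar N : FN N ≃ₐ[Kbar] FN N) : FN N →ₐ[Kbar] FN N) := by
  have key : (heckeBetaBar Kbar N m : FN N →+* FN (N * m))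
      = ((((frickeBar (N * m) : FN (N * m) ≃ₐ[Kbar] FN (N * m)) :
            FN (N * m) →ₐ[Kbar] FN (N * m)).comp
          (heckeAlphaBar Kbar N m)).comp
          ((frickeBar N : FN N ≃ₐ[Kbar] FN N) : FN N →ₐ[Kbar] FN N) : FN N →+* FN (N * m)) := by
    apply helper3176.ringHom_ext_of_gen N
    · intro c
      show heckeBetaBar Kbar N m (algebraMap Kbar (FN N) c)
        = frickeBar (N * m) (heckeAlphaBar Kbar N m (frickeBar N (algebraMap Kbar (FN N) c)))
      rw [AlgHom.commutes, AlgEquiv.commutes, AlgHom.commutes, AlgEquiv.commutes]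
    · intro d _ hd
      obtain ⟨e, he⟩ := hd
      have : NeZero e := ⟨fun h => NeZero.ne N (by rw [he, h, mul_zero])⟩
      show heckeBetaBar Kbar N m (jBarD N d ⟨e, he⟩)
        = frickeBar (N * m) (heckeAlphaBar Kbar N m (frickeBar N (jBarD N d ⟨e, he⟩)))
      rw [frickeBar_jBarD N d e he.symm, heckeAlphaBar_jBarD, heckeBetaBar_jBarD,
        frickeBar_jBarD (N * m) e (d * m) (by rw [he]; ring)]
  exact AlgHom.ext fun z => congrArg (fun f : FN N →+* FN (N * m) => f z) key

/-! ## Degrees -/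

/-- The degree along an algebra hom does not change under composition with automorphisms. -/
theorem finrankAlong_comp_equiv {K F F' : Type*} [Field K] [Field F] [Field F'] [Algebra K F]
    [Algebra K F'] (φ : F →ₐ[K] F') (e : F ≃ₐ[K] F) (e' : F' ≃ₐ[K] F') :
    finrankAlong K (((e' : F' →ₐ[K] F').comp φ).comp (e : F →ₐ[K] F)) = finrankAlong K φ := by
  unfold finrankAlong
  exact @Algebra.finrank_eq_of_equiv_equiv F F' _ _
    (algebraAlong (((e' : F' →ₐ[K] F').comp φ).comp (e : F →ₐ[K] F))) F F' _ _ (algebraAlong φ)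
    e.toRingEquiv e'.symm.toRingEquiv (by
      ext x
      show φ (e x) = e'.symm (e' (φ (e x)))
      rw [AlgEquiv.symm_apply_apply])

/-- `[F_{N m} : β(F_N)] = [F_{N m} : α(F_N)]`. -/
theorem finrankAlong_heckeBetaBar_eq (N m : ℕ) [NeZero N] [NeZero m] :
    finrankAlong Kbar (heckeBetaBar Kbar N m) = finrankAlong Kbar (heckeAlphaBar Kbar N m) := by
  rw [heckeBetaBar_eq_fricke]
  exact finrankAlong_comp_equiv _ _ _

/-! ## The degree formula -/

/-- S24: `[F_N : ℚ̄(j)] = ψ(N)`. -/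
theorem finrank_jBar (N : ℕ) [NeZero N] :
    Module.finrank Kbar⟮jBar N⟯ (FN N) = dedekindPsi N := by
  rw [(stmt_JFinrank N).2]
  exact Lib.helper804.card_quotient_Gamma0 N

theorem heckeAlphaBar_jBar (N m : ℕ) [NeZero N] [NeZero m] :
    heckeAlphaBar Kbar N m (jBar N) = jBar (N * m) :=
  Subtype.ext rfl

/-- Tower law along an algebra hom: `[F : K(x)] * [F' : φ F] = [F' : K(φ x)]`. -/
theorem finrank_mul_finrankAlong {K F F' : Type*} [Field K] [Field F] [Field F'] [Algebra K F]
    [Algebra K F'] (φ : F →ₐ[K] F') (x : F) :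
    Module.finrank K⟮x⟯ F * finrankAlong K φ = Module.finrank K⟮φ x⟯ F' := by
  unfold finrankAlong
  let _ := algebraAlong φ
  let a1 : Algebra K⟮x⟯ F' :=
    ((algebraMap F F').comp (algebraMap K⟮x⟯ F)).toAlgebra
  have : IsScalarTower K⟮x⟯ F F' := IsScalarTower.of_algebraMap_eq fun _ => rfl
  have h1 : Module.finrank K⟮x⟯ F * Module.finrank F F' = Module.finrank K⟮x⟯ F' :=
    Module.finrank_mul_finrank _ _ _
  have hmap : (K⟮x⟯).map φ = K⟮φ x⟯ := by
    rw [IntermediateField.adjoin_map, Set.image_singleton]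
  have h2 : Module.finrank K⟮x⟯ F' = Module.finrank K⟮φ x⟯ F' :=
    Algebra.finrank_eq_of_equiv_equiv
      (((K⟮x⟯).equivMap φ).trans (IntermediateField.equivOfEq hmap)).toRingEquiv
      (RingEquiv.refl _) (by ext y; rfl)
  rw [h1, h2]

/-- `ψ(N) * [F_{N m} : α(F_N)] = ψ(N m)`. -/
theorem finrankAlong_heckeAlphaBar (N m : ℕ) [NeZero N] [NeZero m] :
    dedekindPsi N * finrankAlong Kbar (heckeAlphaBar Kbar N m) = dedekindPsi (N * m) := by
  have h := finrank_mul_finrankAlong (heckeAlphaBar Kbar N m) (jBar N)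
  rw [heckeAlphaBar_jBar, finrank_jBar, finrank_jBar] at h
  exact h

/-- `ψ(N) * [F_{N m} : β(F_N)] = ψ(N m)`. -/
theorem finrankAlong_heckeBetaBar (N m : ℕ) [NeZero N] [NeZero m] :
    dedekindPsi N * finrankAlong Kbar (heckeBetaBar Kbar N m) = dedekindPsi (N * m) := by
  rw [finrankAlong_heckeBetaBar_eq]
  exact finrankAlong_heckeAlphaBar N m

/-! ## Arithmetic of `ψ` -/

theorem dedekindPsi_pos {N : ℕ} (hN : N ≠ 0) : 0 < dedekindPsi N := by
  unfold dedekindPsi
  refine Finset.sum_pos' (fun _ _ => Nat.zero_le _) ⟨1, ?_, ?_⟩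
  · simp [hN]
  · simpa using Nat.pos_of_ne_zero hN

theorem dedekindPsi_mul_prime_pow_le {N p : ℕ} (hp : p.Prime) (hN : N ≠ 0) (k : ℕ) :
    dedekindPsi (N * p ^ (k + 1)) ≤ p ^ k * (p + 1) * dedekindPsi N := by
  induction k with
  | zero =>
      rw [zero_add, pow_one, pow_zero, one_mul, Lib.helper1356.dedekindPsi_mul_prime hp hN]
      split_ifs
      · exact Nat.mul_le_mul_right _ (Nat.le_succ p)
      · exact le_rfl
  | succ k ih =>
      have h1 : dedekindPsi (N * p ^ (k + 1) * p) = p * dedekindPsi (N * p ^ (k + 1)) :=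
        Lib.helper1356.dedekindPsi_mul_prime_of_dvd hp
          (mul_ne_zero hN (pow_ne_zero _ hp.ne_zero))
          ((dvd_pow_self p (Nat.succ_ne_zero k)).mul_left N)
      have e : N * p ^ (k + 1 + 1) = N * p ^ (k + 1) * p := by ring
      rw [e, h1]
      calc p * dedekindPsi (N * p ^ (k + 1))
          ≤ p * (p ^ k * (p + 1) * dedekindPsi N) := Nat.mul_le_mul_left p ih
        _ = p ^ (k + 1) * (p + 1) * dedekindPsi N := by ring

/-- `[F_{N p^(k+1)} : β(F_N)] ≤ p^k (p + 1)`. -/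
theorem finrankAlong_heckeBetaBar_prime_pow_le (N p k : ℕ) [NeZero N] (hp : p.Prime)
    [NeZero (p ^ (k + 1))] :
    finrankAlong Kbar (heckeBetaBar Kbar N (p ^ (k + 1))) ≤ p ^ k * (p + 1) := by
  have h1 := finrankAlong_heckeBetaBar N (p ^ (k + 1))
  have h2 := dedekindPsi_mul_prime_pow_le hp (NeZero.ne N) k
  have h3 := dedekindPsi_pos (NeZero.ne N)
  rw [← h1, mul_comm (p ^ k * (p + 1))] at h2
  exact Nat.le_of_mul_le_mul_left h2 h3

/-- `[F_{N p^(k+1)} : β(F_N)] < 2 p^(k+1)`. -/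
theorem finrankAlong_heckeBetaBar_prime_pow_lt (N p k : ℕ) [NeZero N] (hp : p.Prime)
    [NeZero (p ^ (k + 1))] :
    finrankAlong Kbar (heckeBetaBar Kbar N (p ^ (k + 1))) < 2 * p ^ (k + 1) := by
  have h := finrankAlong_heckeBetaBar_prime_pow_le N p k hp
  have h2 := hp.two_le
  have h3 : 0 < p ^ k := pow_pos hp.pos k
  have e : 2 * p ^ (k + 1) = p ^ k * (2 * p) := by ring
  rw [e]
  exact lt_of_le_of_lt h (Nat.mul_lt_mul_of_pos_left (by omega) h3)

/-! ## The hypothesis of PICINJ -/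

/-- For a prime power `m = p^(k+1)`: the cusp `∞` of `X₀(N m)` has ramification index `m` along
`β_m : F_N → F_{N m}` (`q ↦ q^m`, `helper9343`), and `[F_{N m} : β_m F_N] < 2 m`. -/
theorem qPlace_finrankAlong_lt (N m p k : ℕ) [NeZero N] [NeZero m] (hp : p.Prime)
    (hm : m = p ^ (k + 1)) :
    finrankAlong Kbar (heckeBetaBar Kbar N m)
      < 2 * (helper9343.qPlace (N * m)).ramificationIndexAlong (heckeBetaBar Kbar N m) := by
  subst hm
  rw [helper9343.ramificationIndexAlong_heckeBetaBar]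
  exact finrankAlong_heckeBetaBar_prime_pow_lt N p k hp

/-- The hypothesis `hw` of PICINJ (`helper9304`), for a prime power `m`. -/
theorem exists_place_finrankAlong_lt (N m p k : ℕ) [NeZero N] [NeZero m] (hp : p.Prime)
    (hm : m = p ^ (k + 1)) :
    ∃ w : Place Kbar (FN (N * m)),
      finrankAlong Kbar (heckeBetaBar Kbar N m)
        < 2 * w.ramificationIndexAlong (heckeBetaBar Kbar N m) :=
  ⟨helper9343.qPlace (N * m), qPlace_finrankAlong_lt N m p k hp hm⟩

/-- Level `4 N`. -/
theorem exists_place_finrankAlong_lt_four (N : ℕ) [NeZero N] :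
    ∃ w : Place Kbar (FN (N * 4)),
      finrankAlong Kbar (heckeBetaBar Kbar N 4)
        < 2 * w.ramificationIndexAlong (heckeBetaBar Kbar N 4) :=
  exists_place_finrankAlong_lt N 4 2 1 Nat.prime_two (by norm_num)

/-- Level `9 N`. -/
theorem exists_place_finrankAlong_lt_nine (N : ℕ) [NeZero N] :
    ∃ w : Place Kbar (FN (N * 9)),
      finrankAlong Kbar (heckeBetaBar Kbar N 9)
        < 2 * w.ramificationIndexAlong (heckeBetaBar Kbar N 9) :=
  exists_place_finrankAlong_lt N 9 3 1 Nat.prime_three (by norm_num)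

end Fermat.Agent.S37.helper6887
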