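import Mathlib

/-!
# S37-KRON-VAL, algebra layer (helper4612): the norm modulo a maximal ideal

Mathlib-only.  For a finite free extension `S / R` with `S` a Dedekind domain and `p` a maximal
ideal of `R` with `p S ≠ 0`:  if `s ≡ c P (mod P)` for every prime factor `P` of `p S`, then

  `N_{S/R}(s) ≡ ∏_P (c P) ^ (e(P) f(P))  (mod p)`.

Ingredients: the norm commutes with base change (`norm_quotient_mk`), the determinant of a
product of endomorphisms (`det_piMap`), and left multiplication by `constant + nilpotent`
(`det_lmul_of_isNilpotent_sub`).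
-/

set_option autoImplicit false
set_option linter.deprecated false

namespace Fermat.Agent.S37.helper4612

open Polynomial

universe u w

/-- Determinant of a (dependent) product of endomorphisms. -/
theorem det_piMap {k : Type*} [CommRing k] (ι : Type u) [Fintype ι] :
    ∀ (M : ι → Type w) [∀ i, AddCommGroup (M i)] [∀ i, Module k (M i)]
    [∀ i, Module.Free k (M i)] [∀ i, Module.Finite k (M i)] (f : ∀ i, M i →ₗ[k] M i),
    LinearMap.det (LinearMap.piMap f) = ∏ i, LinearMap.det (f i) := by
  classical
  refine Fintype.induction_empty_option (P := fun ι _ => ∀ (M : ι → Type w)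
    [∀ i, AddCommGroup (M i)] [∀ i, Module k (M i)]
    [∀ i, Module.Free k (M i)] [∀ i, Module.Finite k (M i)] (f : ∀ i, M i →ₗ[k] M i),
    LinearMap.det (LinearMap.piMap f) = ∏ i, LinearMap.det (f i)) ?_ ?_ ?_ ι
  · intro α β _ e ih M _ _ _ _ f
    let _ : Fintype α := Fintype.ofEquiv β e.symm
    have h := ih (fun a => M (e a)) (fun a => f (e a))
    have hconj : LinearMap.piMap f =
        (LinearEquiv.piCongrLeft k M e).toLinearMap ∘ₗ
          (LinearMap.piMap fun a => f (e a)) ∘ₗ (LinearEquiv.piCongrLeft k M e).symm.toLinearMap := by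
      apply LinearMap.ext
      intro x
      funext b
      obtain ⟨a, rfl⟩ := e.surjective b
      show f (e a) (x (e a)) = (Equiv.piCongrLeft M e)
        (fun a' => f (e a') ((Equiv.piCongrLeft M e).symm x a')) (e a)
      rw [Equiv.piCongrLeft_apply_apply, Equiv.piCongrLeft_symm_apply]
    rw [hconj, LinearMap.det_conj, h]
    exact Equiv.prod_comp e (fun b => LinearMap.det (f b))
  · intro M _ _ _ _ f
    simp [LinearMap.det_eq_one_of_subsingleton]
  · intro α _ ih M _ _ _ _ f
    have h := ih (fun a => M (some a)) (fun a => f (some a))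
    have hconj : LinearMap.piMap f =
        (LinearEquiv.piOptionEquivProd k (M := M)).symm.toLinearMap ∘ₗ
          (LinearMap.prodMap (f none) (LinearMap.piMap fun a => f (some a))) ∘ₗ
          (LinearEquiv.piOptionEquivProd k (M := M)).toLinearMap := by
      apply LinearMap.ext
      intro x
      apply (LinearEquiv.piOptionEquivProd k (M := M)).injective
      simp [LinearEquiv.piOptionEquivProd, Prod.ext_iff]
      rfl
    rw [hconj]
    have := LinearMap.det_conj (LinearMap.prodMap (f none) (LinearMap.piMap fun a => f (some a)))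
      (LinearEquiv.piOptionEquivProd k (M := M)).symm
    rw [LinearEquiv.symm_symm] at this
    rw [this, LinearMap.det_prodMap, h, Fintype.prod_option]

/-- Left multiplication by `x = c + nilpotent` on a finite-dimensional algebra has determinant
`c ^ dim`. -/
theorem det_lmul_of_isNilpotent_sub {k A : Type*} [Field k] [CommRing A] [Algebra k A]
    [FiniteDimensional k A] (x : A) (c : k) (h : IsNilpotent (x - algebraMap k A c)) :
    LinearMap.det (Algebra.lmul k A x) = c ^ Module.finrank k A := by
  have hN : IsNilpotent (Algebra.lmul k A (algebraMap k A c - x)) := by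
    have : IsNilpotent (algebraMap k A c - x) := by
      rw [← neg_sub]; exact h.neg
    exact this.map (Algebra.lmul k A)
  have h1 := LinearMap.eval_charpoly (Algebra.lmul k A (algebraMap k A c - x)) c
  rw [hN.charpoly_eq_X_pow_finrank] at h1
  have h2 : algebraMap k (Module.End k A) c - Algebra.lmul k A (algebraMap k A c - x)
      = Algebra.lmul k A x := by
    ext y
    simp [Algebra.smul_def]
  rw [h2] at h1
  rw [← h1]
  simp

section NormModP

open Ideal UniqueFactorizationMonoid TensorProduct

variable {R : Type*} [CommRing R] {S : Type*} [CommRing S] [Algebra R S]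
  [Module.Free R S] [Module.Finite R S]

/-- The norm commutes with reduction modulo an ideal of the base. -/
theorem norm_quotient_mk (p : Ideal R) (s : S) :
    Algebra.norm (R ⧸ p) (Ideal.Quotient.mk (p.map (algebraMap R S)) s) =
      Ideal.Quotient.mk p (Algebra.norm R s) := by
  let e := Algebra.TensorProduct.quotIdealMapEquivQuotTensor S p
  rw [Algebra.norm_apply, Algebra.norm_apply]
  have h1 : Algebra.lmul (R ⧸ p) (S ⧸ p.map (algebraMap R S)) (Ideal.Quotient.mk _ s) =
      (e.symm.toLinearEquiv : _ →ₗ[R ⧸ p] _) ∘ₗ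
        (Algebra.lmul (R ⧸ p) ((R ⧸ p) ⊗[R] S) (1 ⊗ₜ s)) ∘ₗ
        (e.symm.toLinearEquiv.symm : _ →ₗ[R ⧸ p] _) := by
    apply LinearMap.ext
    intro x
    apply e.injective
    simp [e]
  rw [h1, LinearMap.det_conj, ← Algebra.baseChange_lmul, LinearMap.det_baseChange]
  rfl

variable [IsDedekindDomain S]

attribute [local instance] Ideal.Quotient.field

/-- **Norm modulo a maximal ideal.** If `s ≡ c P` modulo every prime factor `P` of `p S`,
then `N(s) ≡ ∏ (c P) ^ (e P * f P)` modulo `p`. -/
theorem mk_norm_eq_prod (p : Ideal R) [p.IsMaximal] (hp : p.map (algebraMap R S) ≠ ⊥) (s : S)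
    (c : (factors (p.map (algebraMap R S))).toFinset → R)
    (hc : ∀ P : (factors (p.map (algebraMap R S))).toFinset,
      s - algebraMap R S (c P) ∈ (P : Ideal S)) :
    Ideal.Quotient.mk p (Algebra.norm R s) =
      ∏ P : (factors (p.map (algebraMap R S))).toFinset,
        Ideal.Quotient.mk p (c P) ^
          (ramificationIdx' p (P : Ideal S) * inertiaDeg' p (P : Ideal S)) := by
  classical
  rw [← norm_quotient_mk, Algebra.norm_apply]
  let φ := Factors.piQuotientLinearEquiv S p hp
  have h1 : Algebra.lmul (R ⧸ p) (S ⧸ p.map (algebraMap R S)) (Ideal.Quotient.mk _ s) =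
      (φ.symm : _ →ₗ[R ⧸ p] _) ∘ₗ
        (LinearMap.piMap fun P : (factors (p.map (algebraMap R S))).toFinset =>
          Algebra.lmul (R ⧸ p) (S ⧸ (P : Ideal S) ^ ramificationIdx' p (P : Ideal S))
            (Ideal.Quotient.mk _ s)) ∘ₗ (φ.symm.symm : _ →ₗ[R ⧸ p] _) := by
    apply LinearMap.ext
    intro x
    apply φ.injective
    obtain ⟨x, rfl⟩ := Ideal.Quotient.mk_surjective x
    funext P
    simp [φ]
    rfl
  rw [h1, LinearMap.det_conj, det_piMap]
  refine Finset.prod_congr rfl fun P _ => ?_
  rw [det_lmul_of_isNilpotent_sub _ (Ideal.Quotient.mk p (c P)),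
    Factors.finrank_pow_ramificationIdx]
  refine ⟨ramificationIdx' p (P : Ideal S), ?_⟩
  rw [Quotient.algebraMap_quotient_pow_ramificationIdx, ← map_sub, ← map_pow,
    Ideal.Quotient.eq_zero_iff_mem]
  exact Ideal.pow_mem_pow (hc P) _

end NormModP

end Fermat.Agent.S37.helper4612
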