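import Fermat.Agent.S37.helper8426_RelNorm
import Fermat.Agent.S37.helper4612_NormModP

/-!
# S37-KRON-VAL (helper4612): the value of a norm / characteristic polynomial at a place

`F'/F` a finite extension of fields with places over `K` (Prelude vocabulary), `v` a place of `F`
such that every place `w` of `F'` over `v` has residue field `K`.  If `H : F'` has the value
`c w : K` at every `w` over `v` (i.e. `H - c w ∈ 𝔪_w`), then

  `N_{F'/F}(H)` has the value `∏_{w | v} (c w) ^ e(w | v)` at `v`,

and the characteristic polynomial of `H` over `F` has coefficientwise the values of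
`∏_{w | v} (X - C (c w)) ^ e(w | v)` at `v`.
-/

set_option autoImplicit false
set_option linter.deprecated false
set_option linter.unusedSectionVars false

open AlgebraicCurve IsDedekindDomain Polynomial

namespace Fermat.Agent.S37.helper4612

open Fermat.Agent.S37.helper8426 Ideal UniqueFactorizationMonoid

section PlaceLevel

variable {K F F' : Type*} [Field K] [Field F] [Field F'] [Algebra K F] [Algebra K F']
  [Algebra F F'] [IsScalarTower K F F'] [Module.Finite F F'] [CharZero F]

attribute [local instance] isScalarTower_valuationSubring isDedekindDomain_integralClosure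
  isFractionRing_integralClosure finite_integralClosure isTorsionFree_integralClosure

variable (v : Place K F)

/-- An element of `F'` that is regular at all places over `v` lies in the integral closure of
`O_v` in `F'`. -/
theorem mem_integralClosure_of_forall_mem [HasPrincipalDivisors K F'] (H : F')
    (hH : ∀ w ∈ v.fiber F', H ∈ w.toValuationSubring) :
    H ∈ integralClosure v.toValuationSubring F' := by
  obtain ⟨b, hb⟩ := HeightOneSpectrum.mem_integers_of_valuation_le_one
    (R := integralClosure v.toValuationSubring F') F' H (fun Q =>
      (Fermat.Agent.S24.helper489.mem_ofHeightOneSpectrum_iff (K := K) Q H).mp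
        (hH _ (Place.mem_fiber.mpr (restrict_ofHeightOneSpectrum v Q))))
  rw [← hb]
  exact b.2

/-- Membership in a nonzero prime `Q` of the integral closure, in terms of the place of `Q`. -/
theorem mem_asIdeal_iff (Q : HeightOneSpectrum (integralClosure v.toValuationSubring F'))
    (b : integralClosure v.toValuationSubring F') :
    b ∈ Q.asIdeal ↔ algebraMap (integralClosure v.toValuationSubring F') F' b ∈
      (Place.ofHeightOneSpectrum (K := K) (F := F') Q).toValuationSubring.nonunits := by
  rw [← Q.valuation_lt_one_iff_mem (K := F'),
    (Valuation.isEquiv_valuation_valuationSubring (Q.valuation F')).lt_one_iff_lt_one,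
    ValuationSubring.mem_nonunits_iff, Place.ofHeightOneSpectrum_toValuationSubring]

/-- The ramification index of the place of `Q` over `v` is the ramification index of `Q` over the
maximal ideal of `O_v`. -/
theorem ramificationIndex_ofHeightOneSpectrum
    (Q : HeightOneSpectrum (integralClosure v.toValuationSubring F')) :
    (Place.ofHeightOneSpectrum (K := K) (F := F') Q).ramificationIndex F =
      (IsLocalRing.maximalIdeal v.toValuationSubring).ramificationIdx' Q.asIdeal := by
  obtain ⟨π, hπ⟩ := IsDiscreteValuationRing.exists_irreducible v.toValuationSubring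
  have hπ1 : v.ord (π : F) = 1 := v.ord_coe_irreducible hπ
  have hπ0 : π ≠ 0 := hπ.ne_zero
  have h1 : (Place.ofHeightOneSpectrum (K := K) (F := F') Q).ord (algebraMap F F' (π : F)) =
      ((Place.ofHeightOneSpectrum (K := K) (F := F') Q).ramificationIndex F : ℤ) := by
    rw [Place.ord_restrict (F := F), restrict_ofHeightOneSpectrum v Q, hπ1, mul_one]
  have hb0 : algebraMap v.toValuationSubring (integralClosure v.toValuationSubring F') π ≠ 0 := by
    rw [Ne, map_eq_zero_iff _ (FaithfulSMul.algebraMap_injective _ _)]
    exact hπ0
  have h2 := ord_ofHeightOneSpectrum_eq_count (K := K) (F' := F') Q hb0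
  have hmapspan : (IsLocalRing.maximalIdeal v.toValuationSubring).map
      (algebraMap v.toValuationSubring (integralClosure v.toValuationSubring F')) =
      Ideal.span {algebraMap v.toValuationSubring (integralClosure v.toValuationSubring F') π} := by
    rw [hπ.maximalIdeal_eq, Ideal.map_span, Set.image_singleton]
  have hspan0 : (Ideal.span {algebraMap v.toValuationSubring
      (integralClosure v.toValuationSubring F') π} : Ideal _) ≠ ⊥ := by
    rw [Ne, Ideal.span_singleton_eq_bot]
    exact hb0
  have hmap0 : (IsLocalRing.maximalIdeal v.toValuationSubring).map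
      (algebraMap v.toValuationSubring (integralClosure v.toValuationSubring F')) ≠ ⊥ := by
    rw [hmapspan]
    exact hspan0
  rw [Ideal.IsDedekindDomain.ramificationIdx'_eq_normalizedFactors_count hmap0 Q.isPrime Q.ne_bot,
    hmapspan, ← Ideal.count_associates_factors_eq hspan0 Q.isPrime Q.ne_bot]
  have h3 : algebraMap (integralClosure v.toValuationSubring F') F'
      (algebraMap v.toValuationSubring (integralClosure v.toValuationSubring F') π) =
      algebraMap F F' (π : F) := rfl
  rw [h3, h1] at h2
  exact_mod_cast h2

/-- The inertia degree of `Q` over the maximal ideal of `O_v` is one when the place of `Q` has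
residue field `K`. -/
theorem inertiaDeg'_eq_one (Q : HeightOneSpectrum (integralClosure v.toValuationSubring F'))
    (hres : Function.Surjective
      (algebraMap K (Place.ofHeightOneSpectrum (K := K) (F := F') Q).ResidueField)) :
    (IsLocalRing.maximalIdeal v.toValuationSubring).inertiaDeg' Q.asIdeal = 1 := by
  have hQ : Q.asIdeal.IsMaximal := Q.isMaximal
  have hlo := liesOver_maximalIdeal v Q
  rw [Ideal.inertiaDeg'_eq_inertiaDeg, inertiaDeg_eq_one v Q hres]

/-- **Value of a norm at a place.**  If `H : F'` has the value `c w : K` at every place `w` of
`F'` over `v` (and these places have residue field `K`), then `N_{F'/F}(H)` has the value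
`∏_{w | v} (c w) ^ e(w | v)` at `v`. -/
theorem norm_sub_prod_mem_nonunits [HasPrincipalDivisors K F']
    (hres : ∀ w ∈ v.fiber F', Function.Surjective (algebraMap K w.ResidueField))
    (H : F') (c : Place K F' → K)
    (hc : ∀ w ∈ v.fiber F', H - algebraMap K F' (c w) ∈ w.toValuationSubring.nonunits) :
    Algebra.norm F H - algebraMap K F (∏ w ∈ v.fiber F', c w ^ w.ramificationIndex F)
      ∈ v.toValuationSubring.nonunits := by
  classical
  -- `H` lies in the integral closure of `O_v`
  have hHB : H ∈ integralClosure v.toValuationSubring F' := by
    refine mem_integralClosure_of_forall_mem v H (fun w hw => ?_)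
    have h1 := w.toValuationSubring.add_mem _ _
      (w.toValuationSubring.nonunits_subset (hc w hw)) (w.algebraMap_mem' (c w))
    rwa [sub_add_cancel] at h1
  obtain ⟨b, rfl⟩ : ∃ b : integralClosure v.toValuationSubring F',
      algebraMap (integralClosure v.toValuationSubring F') F' b = H := ⟨⟨H, hHB⟩, rfl⟩
  have hp0 : IsLocalRing.maximalIdeal v.toValuationSubring ≠ ⊥ :=
    IsDiscreteValuationRing.not_a_field _
  have hmap : (IsLocalRing.maximalIdeal v.toValuationSubring).map
      (algebraMap v.toValuationSubring (integralClosure v.toValuationSubring F')) ≠ ⊥ :=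
    Ideal.map_ne_bot_of_ne_bot hp0
  -- the nonzero primes of the integral closure attached to the factors of `𝔪_v B`
  let toH : (factors ((IsLocalRing.maximalIdeal v.toValuationSubring).map
      (algebraMap v.toValuationSubring (integralClosure v.toValuationSubring F')))).toFinset →
      HeightOneSpectrum (integralClosure v.toValuationSubring F') :=
    fun P => ⟨P, Factors.isPrime _ P, Factors.ne_bot _ P⟩
  let wOf : (factors ((IsLocalRing.maximalIdeal v.toValuationSubring).map
      (algebraMap v.toValuationSubring (integralClosure v.toValuationSubring F')))).toFinset →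
      Place K F' := fun P => Place.ofHeightOneSpectrum (K := K) (F := F') (toH P)
  have hwOf : ∀ P, wOf P ∈ v.fiber F' := fun P =>
    Place.mem_fiber.mpr (restrict_ofHeightOneSpectrum v (toH P))
  have key := mk_norm_eq_prod (IsLocalRing.maximalIdeal v.toValuationSubring) hmap b
    (fun P => algebraMap K v.toValuationSubring (c (wOf P))) (fun P => by
      show _ ∈ (toH P).asIdeal
      rw [mem_asIdeal_iff v (toH P), map_sub,
        ← IsScalarTower.algebraMap_apply v.toValuationSubring
          (integralClosure v.toValuationSubring F') F',
        ← IsScalarTower.algebraMap_apply K v.toValuationSubring F']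
      exact hc (wOf P) (hwOf P))
  have hexp : ∀ P : (factors ((IsLocalRing.maximalIdeal v.toValuationSubring).map
      (algebraMap v.toValuationSubring (integralClosure v.toValuationSubring F')))).toFinset,
      (IsLocalRing.maximalIdeal v.toValuationSubring).ramificationIdx' (toH P).asIdeal *
      (IsLocalRing.maximalIdeal v.toValuationSubring).inertiaDeg' (toH P).asIdeal =
      (wOf P).ramificationIndex F := fun P => by
    rw [inertiaDeg'_eq_one v (toH P) (hres _ (hwOf P)), mul_one,
      ← ramificationIndex_ofHeightOneSpectrum v (toH P)]
  have hprod : ∏ P, c (wOf P) ^ (wOf P).ramificationIndex F =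
      ∏ w ∈ v.fiber F', c w ^ w.ramificationIndex F := by
    have himg : v.fiber F' = Finset.univ.image wOf := by
      ext w
      simp only [Place.mem_fiber, Finset.mem_image, Finset.mem_univ, true_and]
      constructor
      · intro hw
        obtain ⟨Q, rfl⟩ := exists_ofHeightOneSpectrum_of_restrict v w hw
        have hQmem : Q.asIdeal ∈ (factors ((IsLocalRing.maximalIdeal v.toValuationSubring).map
            (algebraMap v.toValuationSubring
              (integralClosure v.toValuationSubring F')))).toFinset := by
          rw [Multiset.mem_toFinset, factors_eq_normalizedFactors,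
            Ideal.mem_normalizedFactors_iff hmap]
          refine ⟨Q.isPrime, Ideal.map_le_iff_le_comap.mpr (le_of_eq ?_)⟩
          exact (liesOver_maximalIdeal v Q).over
        exact ⟨⟨Q.asIdeal, hQmem⟩, rfl⟩
      · rintro ⟨P, rfl⟩
        exact restrict_ofHeightOneSpectrum v (toH P)
    rw [himg, Finset.prod_image]
    intro P _ P' _ h
    have h' := Fermat.Agent.S24.helper489.ofHeightOneSpectrum_injective h
    exact Subtype.ext (congrArg HeightOneSpectrum.asIdeal h')
  have key2 : Ideal.Quotient.mk (IsLocalRing.maximalIdeal v.toValuationSubring)
      (Algebra.norm v.toValuationSubring b) =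
      Ideal.Quotient.mk (IsLocalRing.maximalIdeal v.toValuationSubring)
        (algebraMap K v.toValuationSubring (∏ w ∈ v.fiber F', c w ^ w.ramificationIndex F)) := by
    rw [key, ← hprod, map_prod, map_prod]
    refine Finset.prod_congr rfl fun P _ => ?_
    rw [map_pow, map_pow]
    exact congrArg _ (hexp P)
  rw [Ideal.Quotient.eq] at key2
  have hnorm : Algebra.norm F (algebraMap (integralClosure v.toValuationSubring F') F' b) =
      ((Algebra.norm v.toValuationSubring b : v.toValuationSubring) : F) := by
    rw [← Algebra.algebraMap_intNorm (A := v.toValuationSubring)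
      (K := F) (L := F') (B := integralClosure v.toValuationSubring F') b,
      Algebra.intNorm_eq_norm v.toValuationSubring (integralClosure v.toValuationSubring F')]
    rfl
  rw [hnorm, ← Place.coe_algebraMap v, ValuationSubring.mem_nonunits_iff_exists_mem_maximalIdeal]
  exact ⟨(Algebra.norm v.toValuationSubring b - algebraMap K v.toValuationSubring
    (∏ w ∈ v.fiber F', c w ^ w.ramificationIndex F)).2, key2⟩

end PlaceLevel

end Fermat.Agent.S37.helper4612
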