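import Mathlib
import Fermat.Prelude.Def_AlgebraicCurve_Correspondence
import Fermat.Agent.S24.helper204_Places

/-!
# S37, plan module B5 (P1): places of the line `K(x)` and the norm to the line (helper815)

`K` is a field, `F` a field over `K` and `x : F`; `K⟮x⟯` is the subfield generated by `x`.
Nothing here depends on the characteristic, so everything applies to the special fibre as well.

* `divProd x n = ∏ a, (x - a) ^ n a` for a finitely supported `n : K →₀ ℤ`.
* (P1b) `exists_eq_const_mul_divProd`: for `K` algebraically closed, every nonzero element of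
  `K⟮x⟯` is `c * divProd x n`; `divProd_unique`; `ord_divProd_of_pos`, `ord_divProd_of_neg`: the
  order of `divProd x n` at a place over `x = a`, resp. at a pole of `x`.
* `linePlace hx a`: the place `x = a` of `K⟮x⟯`; `eq_linePlace` (uniqueness);
  `restrict_eq_linePlace_iff`, `mem_fiber_linePlace_iff`, `ramificationIndex_eq_ord`: the places
  of `F` above it are the zeros of `x - a`.
* (P1a) `xValue x w`, `ord_sub_xValue_pos`; `lineDivisor x D`: push-forward of a divisor to the line.
* `NormOrderFormula K x`: the hypothesis `ord_v (N u) = ∑_{w | v} ord_w u` (shape of the HI-GEN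
  theorems `ord_norm_eq_sum_fiber`); `normOrderFormula_of_pushforward`.
* (P1c) `norm_eq_const_mul_divProd`, `norm_eq_const_mul_divProd_lineDivisor`: the norm of `u` to
  the line is `c * ∏ a, (x - a) ^ n a` with `n a = ∑_{w over x = a} ord_w u`.
* (P1d) `norm_mem_range_iff`: the norm is constant iff all these sums vanish.
* (P1e) `exists_unit_red_divProd`: Gauss reduction of `∏ a, (x - a) ^ n a`.
* `sum_fiber_red_eq`, `sum_fiber_red_eq_sum_support`: line-wise conservation of number, from
  the norm-order formula on both fibres and "the norm commutes with reduction".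
-/

set_option autoImplicit false

noncomputable section

namespace Fermat.Agent.S37.helper815

open AlgebraicCurve IntermediateField Polynomial
open Fermat.Agent.S24.helper204

variable {K F : Type*} [Field K] [Field F] [Algebra K F]

/-! ### Products of powers of linear factors -/

/-- `∏ a, (x - a) ^ n a`. -/
def divProd (x : F) (n : K →₀ ℤ) : F :=
  n.prod fun a k => (x - algebraMap K F a) ^ k

@[simp]
theorem divProd_zero (x : F) : divProd x (0 : K →₀ ℤ) = 1 := by
  simp [divProd]

theorem divProd_single (x : F) (a : K) (k : ℤ) :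
    divProd x (Finsupp.single a k) = (x - algebraMap K F a) ^ k := by
  rw [divProd, Finsupp.prod_single_index]
  exact zpow_zero _

theorem divProd_add {x : F} (hx : ∀ a : K, x - algebraMap K F a ≠ 0) (n m : K →₀ ℤ) :
    divProd x (n + m) = divProd x n * divProd x m := by
  rw [divProd, divProd, divProd]
  exact Finsupp.prod_add_index' (fun a => zpow_zero _) (fun a k₁ k₂ => zpow_add₀ (hx a) k₁ k₂)

theorem divProd_neg {x : F} (hx : ∀ a : K, x - algebraMap K F a ≠ 0) (n : K →₀ ℤ) :
    divProd x (-n) = (divProd x n)⁻¹ := by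
  have h := divProd_add hx n (-n)
  rw [add_neg_cancel, divProd_zero] at h
  exact eq_inv_of_mul_eq_one_right h.symm

theorem divProd_sub {x : F} (hx : ∀ a : K, x - algebraMap K F a ≠ 0) (n m : K →₀ ℤ) :
    divProd x (n - m) = divProd x n / divProd x m := by
  rw [sub_eq_add_neg, divProd_add hx, divProd_neg hx, div_eq_mul_inv]

theorem divProd_ne_zero {x : F} (hx : ∀ a : K, x - algebraMap K F a ≠ 0) (n : K →₀ ℤ) :
    divProd x n ≠ 0 := by
  rw [divProd, Finsupp.prod]
  exact Finset.prod_ne_zero_iff.mpr fun a _ => zpow_ne_zero _ (hx a)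

/-- Linear factors map to linear factors under field extensions. -/
theorem map_divProd {F' : Type*} [Field F'] [Algebra K F'] [Algebra F F'] [IsScalarTower K F F']
    (x : F) (n : K →₀ ℤ) :
    algebraMap F F' (divProd x n) = divProd (algebraMap F F' x) n := by
  rw [divProd, divProd, Finsupp.prod, Finsupp.prod, map_prod]
  refine Finset.prod_congr rfl fun a _ => ?_
  rw [map_zpow₀, map_sub, ← IsScalarTower.algebraMap_apply]

/-- A product of linear factors over a multiset is a `divProd`. -/
theorem exists_divProd_eq_multiset_prod {x : F} (hx : ∀ a : K, x - algebraMap K F a ≠ 0)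
    (s : Multiset K) :
    ∃ n : K →₀ ℤ, (s.map fun a => x - algebraMap K F a).prod = divProd x n := by
  induction s using Multiset.induction_on with
  | empty => exact ⟨0, by simp⟩
  | cons a s ih =>
    obtain ⟨n, hn⟩ := ih
    refine ⟨Finsupp.single a 1 + n, ?_⟩
    rw [Multiset.map_cons, Multiset.prod_cons, hn, divProd_add hx, divProd_single, zpow_one]

/-! ### Rational functions of `x` over an algebraically closed field -/

theorem aeval_eq_const_mul_divProd [IsAlgClosed K] {x : F}
    (hx : ∀ a : K, x - algebraMap K F a ≠ 0) (p : K[X]) :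
    ∃ n : K →₀ ℤ, Polynomial.aeval x p = algebraMap K F p.leadingCoeff * divProd x n := by
  have hp := (IsAlgClosed.splits p).eq_prod_roots
  obtain ⟨n, hn⟩ := exists_divProd_eq_multiset_prod hx p.roots
  refine ⟨n, ?_⟩
  rw [← hn]
  conv_lhs => rw [hp]
  rw [map_mul, Polynomial.aeval_C, map_multiset_prod, Multiset.map_map]
  congr 2
  refine Multiset.map_congr rfl fun r _ => ?_
  simp

/-- Every nonzero element of `K⟮x⟯` is a constant times a product of powers of linear factors. -/
theorem exists_eq_const_mul_divProd [IsAlgClosed K] {x : F}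
    (hx : ∀ a : K, x - algebraMap K F a ≠ 0) {r : F} (hr : r ∈ K⟮x⟯) (hr0 : r ≠ 0) :
    ∃ (c : K) (n : K →₀ ℤ), c ≠ 0 ∧ r = algebraMap K F c * divProd x n := by
  obtain ⟨p, q, rfl⟩ := (IntermediateField.mem_adjoin_simple_iff K r).mp hr
  have hp : Polynomial.aeval x p ≠ 0 := fun h => hr0 (by rw [h, zero_div])
  have hq : Polynomial.aeval x q ≠ 0 := fun h => hr0 (by rw [h, div_zero])
  have hp0 : p ≠ 0 := fun h => hp (by rw [h, map_zero])
  have hq0 : q ≠ 0 := fun h => hq (by rw [h, map_zero])
  obtain ⟨n, hn⟩ := aeval_eq_const_mul_divProd hx p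
  obtain ⟨m, hm⟩ := aeval_eq_const_mul_divProd hx q
  refine ⟨p.leadingCoeff / q.leadingCoeff, n - m,
    div_ne_zero (leadingCoeff_ne_zero.mpr hp0) (leadingCoeff_ne_zero.mpr hq0), ?_⟩
  rw [hn, hm, divProd_sub hx, map_div₀, mul_div_mul_comm]

/-! ### Orders of linear factors at a place -/

theorem ord_one_add_of_pos (v : Place K F) {f : F} (hf : 0 < v.ord f) : v.ord (1 + f) = 0 := by
  have hmem : 1 + f ∈ v.toValuationSubring :=
    add_mem (one_mem _) (mem_of_ord_nonneg v hf.le)
  have h0 := ord_nonneg_of_mem v hmem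
  rcases h0.lt_or_eq with h | h
  · exfalso
    have h1 : (1 + f) - f ≠ 0 := by simp
    have h2 := ord_sub_pos v h hf h1
    simp at h2
  · exact h.symm

/-- At a place over `x = a` the other linear factors are units. -/
theorem ord_sub_algebraMap_eq_zero (v : Place K F) {x : F} {a b : K}
    (ha : 0 < v.ord (x - algebraMap K F a)) (hab : b ≠ a) :
    v.ord (x - algebraMap K F b) = 0 := by
  have hmem : x - algebraMap K F b ∈ v.toValuationSubring := by
    have h1 := add_mem (mem_of_ord_nonneg v ha.le) (v.algebraMap_mem' (a - b))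
    have h2 : x - algebraMap K F a + algebraMap K F (a - b) = x - algebraMap K F b := by
      rw [map_sub]; ring
    rwa [h2] at h1
  have h0 := ord_nonneg_of_mem v hmem
  rcases h0.lt_or_eq with h | h
  · exfalso
    have hsub : (x - algebraMap K F a) - (x - algebraMap K F b) = algebraMap K F (b - a) := by
      rw [map_sub]; ring
    have hne : (x - algebraMap K F a) - (x - algebraMap K F b) ≠ 0 := by
      rw [hsub, Ne, map_eq_zero, sub_eq_zero]
      exact hab
    have h2 := ord_sub_pos v ha h hne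
    rw [hsub, ord_algebraMap_eq_zero] at h2
    exact lt_irrefl _ h2
  · exact h.symm

/-- The order of `∏ (x - b) ^ n b` at a place over `x = a`. -/
theorem ord_divProd_of_pos (v : Place K F) {x : F} (hx : ∀ a : K, x - algebraMap K F a ≠ 0)
    {a : K} (ha : 0 < v.ord (x - algebraMap K F a)) (n : K →₀ ℤ) :
    v.ord (divProd x n) = n a * v.ord (x - algebraMap K F a) := by
  induction n using Finsupp.induction with
  | zero => simp
  | single_add b k n _ _ ih =>
    rw [divProd_add hx, divProd_single, v.ord_mul (zpow_ne_zero _ (hx b)) (divProd_ne_zero hx n),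
      v.ord_zpow, ih, Finsupp.add_apply]
    rcases eq_or_ne b a with rfl | hba
    · rw [Finsupp.single_eq_same]; ring
    · rw [ord_sub_algebraMap_eq_zero v ha hba, Finsupp.single_eq_of_ne hba.symm]; ring

/-- At a pole of `x` every linear factor has the order of `x`. -/
theorem ord_sub_algebraMap_of_neg (v : Place K F) {x : F} (hneg : v.ord x < 0) (b : K) :
    v.ord (x - algebraMap K F b) = v.ord x := by
  have hx0 : x ≠ 0 := by
    rintro rfl
    simp at hneg
  rcases eq_or_ne b 0 with rfl | hb
  · simp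
  have hb' : algebraMap K F (-b) ≠ 0 := by
    rw [Ne, map_eq_zero]
    exact neg_ne_zero.mpr hb
  have h1 : x - algebraMap K F b = x * (1 + algebraMap K F (-b) * x⁻¹) := by
    rw [map_neg]
    field_simp
    ring
  have h2 : 0 < v.ord (algebraMap K F (-b) * x⁻¹) := by
    rw [v.ord_mul hb' (inv_ne_zero hx0), ord_algebraMap_eq_zero, v.ord_inv]
    omega
  have h3 := ord_one_add_of_pos v h2
  have h4 : (1 + algebraMap K F (-b) * x⁻¹) ≠ 0 := by
    intro h
    rw [h, mul_zero, sub_eq_zero] at h1
    rw [h1, ord_algebraMap_eq_zero] at hneg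
    exact lt_irrefl _ hneg
  rw [h1, v.ord_mul hx0 h4, h3, add_zero]

/-- The order of `∏ (x - b) ^ n b` at a pole of `x`. -/
theorem ord_divProd_of_neg (v : Place K F) {x : F} (hneg : v.ord x < 0) (n : K →₀ ℤ) :
    v.ord (divProd x n) = (n.sum fun _ k => k) * v.ord x := by
  have hx : ∀ a : K, x - algebraMap K F a ≠ 0 := by
    intro a h
    have h1 := ord_sub_algebraMap_of_neg v hneg a
    rw [h, Place.ord_zero] at h1
    omega
  induction n using Finsupp.induction with
  | zero => simp
  | single_add b k n hb hk ih =>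
    rw [divProd_add hx, divProd_single, v.ord_mul (zpow_ne_zero _ (hx b)) (divProd_ne_zero hx n),
      v.ord_zpow, ih, ord_sub_algebraMap_of_neg v hneg,
      Finsupp.sum_add_index' (fun _ => rfl) (fun _ _ _ => rfl), Finsupp.sum_single_index rfl]
    ring

/-! ### The places of the line `K⟮x⟯` -/

section LinePlace

open scoped IntermediateField.algebraAdjoinAdjoin
open IsDedekindDomain WithZero

variable {x : F}

theorem gen_sub_ne_zero (hx : Transcendental K x) (a : K) :
    AdjoinSimple.gen K x - algebraMap K K⟮x⟯ a ≠ 0 := by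
  intro h
  apply sub_ne_zero_of_transcendental hx a
  have h1 := congrArg (algebraMap K⟮x⟯ F) h
  rwa [map_sub, AdjoinSimple.algebraMap_gen, ← IsScalarTower.algebraMap_apply, map_zero] at h1

/-- The prime `(x - a)` of `K[x]`. -/
def linePrime (hx : Transcendental K x) (a : K) : HeightOneSpectrum (Algebra.adjoin K {x}) :=
  ⟨pc K x a, (pc_isMaximal hx a).isPrime, pc_ne_bot hx a⟩

/-- The place `x = a` of the line `K⟮x⟯`. -/
def linePlace (hx : Transcendental K x) (a : K) : Place K K⟮x⟯ :=
  Place.ofHeightOneSpectrum (K := K) (F := K⟮x⟯) (linePrime hx a)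

theorem linePlace_ord_gen_sub (hx : Transcendental K x) (a : K) :
    (linePlace hx a).ord (AdjoinSimple.gen K x - algebraMap K K⟮x⟯ a) = 1 := by
  apply ord_uniformizer_eq_one (K := K) (linePrime hx a)
  have h1 : AdjoinSimple.gen K x - algebraMap K K⟮x⟯ a =
      algebraMap (Algebra.adjoin K {x}) K⟮x⟯ (gen K x - algebraMap K _ a) := rfl
  rw [h1, HeightOneSpectrum.valuation_of_algebraMap]
  refine HeightOneSpectrum.intValuation_singleton _ ?_ rfl
  intro h0
  exact pc_ne_bot hx a (by rw [pc, h0, Ideal.span_singleton_eq_bot])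

/-- Every nonzero element of `K⟮x⟯` is a constant times a product of powers of linear factors
(statement inside the field `K⟮x⟯`). -/
theorem exists_eq_const_mul_divProd_gen [IsAlgClosed K] (hx : Transcendental K x)
    {r : K⟮x⟯} (hr0 : r ≠ 0) :
    ∃ (c : K) (n : K →₀ ℤ), c ≠ 0 ∧
      r = algebraMap K K⟮x⟯ c * divProd (AdjoinSimple.gen K x) n := by
  have hr0' : (r : F) ≠ 0 := fun h => hr0 (Subtype.ext h)
  obtain ⟨c, n, hc, hcn⟩ :=
    exists_eq_const_mul_divProd (sub_ne_zero_of_transcendental hx) r.2 hr0'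
  refine ⟨c, n, hc, ?_⟩
  apply (algebraMap K⟮x⟯ F).injective
  rw [map_mul, map_divProd, AdjoinSimple.algebraMap_gen, ← IsScalarTower.algebraMap_apply]
  exact hcn

/-- The order of a factored element at a place of the line over `x = a`. -/
theorem ord_const_mul_divProd (v : Place K F) {x : F} (hx : ∀ a : K, x - algebraMap K F a ≠ 0)
    {a : K} (ha : 0 < v.ord (x - algebraMap K F a)) {c : K} (hc : c ≠ 0) (n : K →₀ ℤ) :
    v.ord (algebraMap K F c * divProd x n) = n a * v.ord (x - algebraMap K F a) := by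
  rw [v.ord_mul (by rwa [Ne, map_eq_zero]) (divProd_ne_zero hx n), ord_algebraMap_eq_zero,
    zero_add, ord_divProd_of_pos v hx ha]

/-- A place of `K⟮x⟯` over `x = a` is unramified over itself: `ord (x - a) = 1`. -/
theorem ord_gen_sub_eq_one [IsAlgClosed K] (hx : Transcendental K x) (v : Place K K⟮x⟯) {a : K}
    (ha : 0 < v.ord (AdjoinSimple.gen K x - algebraMap K K⟮x⟯ a)) :
    v.ord (AdjoinSimple.gen K x - algebraMap K K⟮x⟯ a) = 1 := by
  obtain ⟨π, hπ⟩ := IsDiscreteValuationRing.exists_irreducible v.toValuationSubring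
  have h1 : v.ord (π : K⟮x⟯) = 1 := v.ord_coe_irreducible hπ
  have hπ0 : (π : K⟮x⟯) ≠ 0 := by
    intro h
    rw [h, Place.ord_zero] at h1
    exact zero_ne_one h1
  obtain ⟨c, n, hc, hcn⟩ := exists_eq_const_mul_divProd_gen hx hπ0
  rw [hcn, ord_const_mul_divProd v (gen_sub_ne_zero hx) ha hc] at h1
  have h2 : v.ord (AdjoinSimple.gen K x - algebraMap K K⟮x⟯ a) ∣ 1 := ⟨n a, by rw [← h1]; ring⟩
  have h3 := Int.le_of_dvd one_pos h2
  omega

/-- The order at a place of the line over `x = a` reads off the exponent of `x - a`. -/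
theorem ord_eq_of_eq_const_mul_divProd [IsAlgClosed K] (hx : Transcendental K x)
    (v : Place K K⟮x⟯) {a : K}
    (ha : 0 < v.ord (AdjoinSimple.gen K x - algebraMap K K⟮x⟯ a)) {c : K} (hc : c ≠ 0)
    (n : K →₀ ℤ) :
    v.ord (algebraMap K K⟮x⟯ c * divProd (AdjoinSimple.gen K x) n) = n a := by
  rw [ord_const_mul_divProd v (gen_sub_ne_zero hx) ha hc, ord_gen_sub_eq_one hx v ha, mul_one]

/-- There is exactly one place of the line over `x = a`. -/
theorem eq_linePlace [IsAlgClosed K] (hx : Transcendental K x) (v : Place K K⟮x⟯) {a : K}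
    (ha : 0 < v.ord (AdjoinSimple.gen K x - algebraMap K K⟮x⟯ a)) : v = linePlace hx a := by
  have hb : 0 < (linePlace hx a).ord (AdjoinSimple.gen K x - algebraMap K K⟮x⟯ a) := by
    rw [linePlace_ord_gen_sub]
    exact one_pos
  apply Place.ext
  ext r
  rcases eq_or_ne r 0 with rfl | hr0
  · simp
  obtain ⟨c, n, hc, hcn⟩ := exists_eq_const_mul_divProd_gen hx hr0
  rw [← ord_nonneg_iff, ← ord_nonneg_iff, hcn, ord_eq_of_eq_const_mul_divProd hx v ha hc,
    ord_eq_of_eq_const_mul_divProd hx _ hb hc]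

/-- The order at `linePlace hx a` reads off the exponent of `x - a`. -/
theorem linePlace_ord_const_mul_divProd [IsAlgClosed K] (hx : Transcendental K x) (a : K)
    {c : K} (hc : c ≠ 0) (n : K →₀ ℤ) :
    (linePlace hx a).ord (algebraMap K K⟮x⟯ c * divProd (AdjoinSimple.gen K x) n) = n a :=
  ord_eq_of_eq_const_mul_divProd hx _ (by rw [linePlace_ord_gen_sub]; exact one_pos) hc n

/-- The factorisation `r = c * ∏ (x - a) ^ n a` is unique. -/
theorem divProd_unique [IsAlgClosed K] (hx : Transcendental K x) {c c' : K} (hc : c ≠ 0)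
    (hc' : c' ≠ 0) {n n' : K →₀ ℤ}
    (h : algebraMap K F c * divProd x n = algebraMap K F c' * divProd x n') : n = n' := by
  have h1 : algebraMap K K⟮x⟯ c * divProd (AdjoinSimple.gen K x) n =
      algebraMap K K⟮x⟯ c' * divProd (AdjoinSimple.gen K x) n' := by
    apply (algebraMap K⟮x⟯ F).injective
    rw [map_mul, map_mul, map_divProd, map_divProd, AdjoinSimple.algebraMap_gen,
      ← IsScalarTower.algebraMap_apply, ← IsScalarTower.algebraMap_apply]
    exact h
  ext a
  rw [← linePlace_ord_const_mul_divProd hx a hc n, h1, linePlace_ord_const_mul_divProd hx a hc' n']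

theorem algebraMap_gen_sub (a : K) :
    algebraMap K⟮x⟯ F (AdjoinSimple.gen K x - algebraMap K K⟮x⟯ a) = x - algebraMap K F a := by
  rw [map_sub, AdjoinSimple.algebraMap_gen, ← IsScalarTower.algebraMap_apply]

section Above

variable [FiniteDimensional K⟮x⟯ F]

/-- The places of `F` above `x = a` are exactly the zeros of `x - a`. -/
theorem restrict_eq_linePlace_iff [IsAlgClosed K] (hx : Transcendental K x) (w : Place K F)
    (a : K) : w.restrict K⟮x⟯ = linePlace hx a ↔ 0 < w.ord (x - algebraMap K F a) := by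
  have he : 0 < w.ramificationIndex K⟮x⟯ := w.ramificationIndex_pos (F := K⟮x⟯)
  have h1 := w.ord_restrict (F := K⟮x⟯) (AdjoinSimple.gen K x - algebraMap K K⟮x⟯ a)
  rw [algebraMap_gen_sub] at h1
  constructor
  · intro h
    rw [h1, h, linePlace_ord_gen_sub, mul_one]
    exact_mod_cast he
  · intro h
    apply eq_linePlace hx
    rw [h1] at h
    have he' : (0 : ℤ) < (w.ramificationIndex K⟮x⟯ : ℤ) := by exact_mod_cast he
    exact (mul_pos_iff_of_pos_left he').mp h

/-- At a zero of `x - a` the ramification index over the line is the order of `x - a`. -/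
theorem ramificationIndex_eq_ord [IsAlgClosed K] (hx : Transcendental K x) (w : Place K F)
    {a : K} (ha : 0 < w.ord (x - algebraMap K F a)) :
    (w.ramificationIndex K⟮x⟯ : ℤ) = w.ord (x - algebraMap K F a) := by
  have h1 := w.ord_restrict (F := K⟮x⟯) (AdjoinSimple.gen K x - algebraMap K K⟮x⟯ a)
  rw [algebraMap_gen_sub, (restrict_eq_linePlace_iff hx w a).mpr ha, linePlace_ord_gen_sub,
    mul_one] at h1
  exact h1.symm

theorem mem_fiber_linePlace_iff [IsAlgClosed K] [HasPrincipalDivisors K F]
    (hx : Transcendental K x) (w : Place K F) (a : K) :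
    w ∈ (linePlace hx a).fiber F ↔ 0 < w.ord (x - algebraMap K F a) := by
  rw [Place.mem_fiber, restrict_eq_linePlace_iff]

end Above

end LinePlace

/-! ### The norm to the line -/

section Norm

variable (K) in
/-- The norm-order formula for `F` over the line `K⟮x⟯`:
`ord_v (N u) = ∑_{w | v} ord_w u` for every place `v` of the line. -/
def NormOrderFormula (x : F) [FiniteDimensional K⟮x⟯ F] [HasPrincipalDivisors K F] : Prop :=
  ∀ (v : Place K K⟮x⟯) (f : F), f ≠ 0 →
    v.ord (Algebra.norm K⟮x⟯ f) = ∑ w ∈ v.fiber F, w.ord f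

variable {x : F} [FiniteDimensional K⟮x⟯ F] [HasPrincipalDivisors K F]

/-- The norm-order formula from the Prelude push-forward norm formula when all inertia degrees
over the line are one (e.g. `K` algebraically closed). -/
theorem normOrderFormula_of_pushforward
    (H : Divisor.PushforwardNormFormula K K⟮x⟯ F)
    (hdeg : ∀ w : Place K F, w.inertiaDeg K⟮x⟯ = 1) : NormOrderFormula K x := by
  classical
  intro v f hf
  obtain ⟨D, hD, -⟩ := HasPrincipalDivisors.exists_divisor (K := K) f hf
  rw [← H f hf D hD v, Divisor.pushforward_apply, ← Finset.sum_filter]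
  have hterm : ∀ w : Place K F, D w * (w.inertiaDeg K⟮x⟯ : ℤ) = w.ord f := by
    intro w
    rw [hdeg w, hD]
    simp
  simp_rw [hterm]
  apply Finset.sum_subset
  · intro w hw
    rw [Finset.mem_filter] at hw
    exact Place.mem_fiber.mpr hw.2
  · intro w hw hnot
    rw [Finset.mem_filter, not_and] at hnot
    have hsupp : w ∉ D.support := fun h => hnot h (Place.mem_fiber.mp hw)
    rw [Finsupp.notMem_support_iff, hD] at hsupp
    exact hsupp

/-- **Norm to the line.**  For `u ≠ 0` in `F`, the norm of `u` to `K⟮x⟯` is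
`c * ∏ a, (x - a) ^ n a` with `n a = ∑_{w over x = a} ord_w u`. -/
theorem norm_eq_const_mul_divProd [IsAlgClosed K] (hx : Transcendental K x)
    (hN : NormOrderFormula K x) {u : F} (hu : u ≠ 0) :
    ∃ (c : K) (n : K →₀ ℤ), c ≠ 0 ∧
      Algebra.norm K⟮x⟯ u = algebraMap K K⟮x⟯ c * divProd (AdjoinSimple.gen K x) n ∧
      ∀ a : K, n a = ∑ w ∈ (linePlace hx a).fiber F, w.ord u := by
  have hN0 : Algebra.norm K⟮x⟯ u ≠ 0 := Algebra.norm_ne_zero_iff.mpr hu
  obtain ⟨c, n, hc, hcn⟩ := exists_eq_const_mul_divProd_gen hx hN0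
  refine ⟨c, n, hc, hcn, fun a => ?_⟩
  rw [← hN (linePlace hx a) u hu, hcn, linePlace_ord_const_mul_divProd hx a hc]

/-- **Norm to the line**, as an identity in `F`. -/
theorem algebraMap_norm_eq_const_mul_divProd [IsAlgClosed K] (hx : Transcendental K x)
    (hN : NormOrderFormula K x) {u : F} (hu : u ≠ 0) :
    ∃ (c : K) (n : K →₀ ℤ), c ≠ 0 ∧
      algebraMap K⟮x⟯ F (Algebra.norm K⟮x⟯ u) = algebraMap K F c * divProd x n ∧
      ∀ a : K, n a = ∑ w ∈ (linePlace hx a).fiber F, w.ord u := by
  obtain ⟨c, n, hc, hcn, hn⟩ := norm_eq_const_mul_divProd hx hN hu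
  refine ⟨c, n, hc, ?_, hn⟩
  rw [hcn, map_mul, map_divProd, AdjoinSimple.algebraMap_gen, ← IsScalarTower.algebraMap_apply]

/-- The sum over the fibre of `x = a`, written over any finset of zeros of `x - a`. -/
theorem sum_fiber_linePlace_eq [IsAlgClosed K] (hx : Transcendental K x) (a : K) (u : F)
    (S : Finset (Place K F)) (hS : ∀ w, w ∈ S ↔ 0 < w.ord (x - algebraMap K F a)) :
    ∑ w ∈ (linePlace hx a).fiber F, w.ord u = ∑ w ∈ S, w.ord u := by
  refine Finset.sum_congr ?_ fun _ _ => rfl
  ext w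
  rw [mem_fiber_linePlace_iff, hS]

/-- The sum over the fibre of `x = a` in terms of a divisor of `u`. -/
theorem sum_fiber_linePlace_eq_sum_support [IsAlgClosed K] (hx : Transcendental K x) (a : K)
    {u : F} {D : Divisor K F} (hD : ∀ w, D w = w.ord u)
    [DecidablePred fun w : Place K F => 0 < w.ord (x - algebraMap K F a)] :
    ∑ w ∈ (linePlace hx a).fiber F, w.ord u =
      ∑ w ∈ D.support.filter (fun w => 0 < w.ord (x - algebraMap K F a)), D w := by
  symm
  simp_rw [hD]
  apply Finset.sum_subset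
  · intro w hw
    rw [Finset.mem_filter] at hw
    exact (mem_fiber_linePlace_iff hx w a).mpr hw.2
  · intro w hw hnot
    rw [Finset.mem_filter, not_and] at hnot
    have hsupp : w ∉ D.support := fun h => hnot h ((mem_fiber_linePlace_iff hx w a).mp hw)
    rw [Finsupp.notMem_support_iff, hD] at hsupp
    exact hsupp

/-- The norm of `u` to the line is a constant iff the `x`-divisor of `u` vanishes: for every
`a` the orders of `u` at the places over `x = a` sum to zero. -/
theorem norm_mem_range_iff [IsAlgClosed K] (hx : Transcendental K x)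
    (hN : NormOrderFormula K x) {u : F} (hu : u ≠ 0) :
    Algebra.norm K⟮x⟯ u ∈ Set.range (algebraMap K K⟮x⟯) ↔
      ∀ a : K, ∑ w ∈ (linePlace hx a).fiber F, w.ord u = 0 := by
  constructor
  · rintro ⟨c, hc⟩ a
    rw [← hN (linePlace hx a) u hu, ← hc, ord_algebraMap_eq_zero]
  · intro h
    obtain ⟨c, n, hc, hcn, hn⟩ := norm_eq_const_mul_divProd hx hN hu
    have hn0 : n = 0 := by
      ext a
      rw [hn a, h a]
      rfl
    exact ⟨c, by rw [hcn, hn0, divProd_zero, mul_one]⟩

end Norm

/-! ### The value of `x` at a place and the push-forward of a divisor to the line -/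

section LineDivisor

open Classical in
/-- The value of `x` at a place: the `a` with `0 < ord (x - a)` if there is one, else `0`. -/
def xValue (x : F) (w : Place K F) : K :=
  if h : ∃ c : K, 0 < w.ord (x - algebraMap K F c) then h.choose else 0

theorem xValue_eq {x : F} {w : Place K F} {a : K} (ha : 0 < w.ord (x - algebraMap K F a)) :
    xValue x w = a := by
  have h : ∃ c : K, 0 < w.ord (x - algebraMap K F c) := ⟨a, ha⟩
  rw [xValue, dif_pos h]
  by_contra hne
  have h1 := ord_sub_algebraMap_eq_zero w ha hne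
  have h2 := h.choose_spec
  omega

theorem ord_nonneg_of_ord_sub_pos {x : F} {w : Place K F} {a : K}
    (ha : 0 < w.ord (x - algebraMap K F a)) : 0 ≤ w.ord x := by
  have h1 := add_mem (mem_of_ord_nonneg w ha.le) (w.algebraMap_mem' a)
  rw [sub_add_cancel] at h1
  exact ord_nonneg_of_mem w h1

variable {x : F} [FiniteDimensional K⟮x⟯ F]

/-- (P1a) At a place where `x` is integral, `x - x(w)` vanishes. -/
theorem ord_sub_xValue_pos [IsAlgClosed K] (hx : Transcendental K x) (w : Place K F)
    (hw : 0 ≤ w.ord x) : 0 < w.ord (x - algebraMap K F (xValue x w)) := by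
  rcases place_center x hx w with hneg | ⟨c, hc, -⟩
  · omega
  · rw [xValue_eq hc]
    exact hc

theorem xValue_eq_iff [IsAlgClosed K] (hx : Transcendental K x) (w : Place K F)
    (hw : 0 ≤ w.ord x) (a : K) : xValue x w = a ↔ 0 < w.ord (x - algebraMap K F a) :=
  ⟨fun h => h ▸ ord_sub_xValue_pos hx w hw, xValue_eq⟩

open Classical in
/-- The push-forward to the `x`-line of the part of a divisor away from the poles of `x`. -/
def lineDivisor (x : F) (D : Divisor K F) : K →₀ ℤ :=
  Finsupp.mapDomain (xValue x) (D.filter fun w => 0 ≤ w.ord x)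

theorem mapDomain_apply_eq_sum {α β : Type*} [DecidableEq β] (f : α → β) (m : α →₀ ℤ) (b : β) :
    Finsupp.mapDomain f m b = ∑ w ∈ m.support, if f w = b then m w else 0 := by
  rw [Finsupp.mapDomain, Finsupp.sum_apply, Finsupp.sum]
  refine Finset.sum_congr rfl fun w _ => ?_
  rw [Finsupp.single_apply]

theorem lineDivisor_apply [IsAlgClosed K] [HasPrincipalDivisors K F] (hx : Transcendental K x)
    {u : F} {D : Divisor K F} (hD : ∀ w, D w = w.ord u) (a : K) :
    lineDivisor x D a = ∑ w ∈ (linePlace hx a).fiber F, w.ord u := by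
  classical
  rw [lineDivisor, mapDomain_apply_eq_sum, ← Finset.sum_filter]
  have h1 : ∀ w ∈ ((D.filter fun w => 0 ≤ w.ord x).support.filter fun w => xValue x w = a),
      (D.filter fun w => 0 ≤ w.ord x) w = w.ord u := by
    intro w hw
    rw [Finset.mem_filter, Finsupp.support_filter, Finset.mem_filter] at hw
    rw [Finsupp.filter_apply_pos (fun w : Place K F => 0 ≤ w.ord x) D hw.1.2, hD]
  rw [Finset.sum_congr rfl h1]
  apply Finset.sum_subset
  · intro w hw
    rw [Finset.mem_filter, Finsupp.support_filter, Finset.mem_filter] at hw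
    exact (mem_fiber_linePlace_iff hx w a).mpr ((xValue_eq_iff hx w hw.1.2 a).mp hw.2)
  · intro w hw hnot
    have hpos := (mem_fiber_linePlace_iff hx w a).mp hw
    have h0 := ord_nonneg_of_ord_sub_pos hpos
    by_contra hne
    apply hnot
    rw [Finset.mem_filter, Finsupp.support_filter, Finset.mem_filter, Finsupp.mem_support_iff, hD]
    exact ⟨⟨hne, h0⟩, xValue_eq hpos⟩

/-- **Norm to the line**, divisor form: the norm of `u` is `c * ∏ (x - a) ^ n a` with `n` the
push-forward of the divisor of `u` to the line. -/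
theorem norm_eq_const_mul_divProd_lineDivisor [IsAlgClosed K] [HasPrincipalDivisors K F]
    (hx : Transcendental K x) (hN : NormOrderFormula K x) {u : F} (hu : u ≠ 0)
    {D : Divisor K F} (hD : ∀ w, D w = w.ord u) :
    ∃ c : K, c ≠ 0 ∧
      Algebra.norm K⟮x⟯ u = algebraMap K K⟮x⟯ c * divProd (AdjoinSimple.gen K x) (lineDivisor x D) := by
  obtain ⟨c, n, hc, hcn, hn⟩ := norm_eq_const_mul_divProd hx hN hu
  refine ⟨c, hc, ?_⟩
  have : n = lineDivisor x D := by
    ext a
    rw [hn a, lineDivisor_apply hx hD a]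
  rw [← this]
  exact hcn

end LineDivisor

/-! ### Gauss reduction of products of linear factors -/

section Reduction

variable {Fk : Type*} [Field Fk]

theorem map_units_zpow_val {M : Type*} [CommRing M] (f : M →+* Fk) (u : Mˣ) (k : ℤ) :
    f ((u ^ k : Mˣ) : M) = f (u : M) ^ k := by
  have h := congrArg Units.val (map_zpow (Units.map (f : M →* Fk)) u k)
  rw [Units.val_zpow_eq_zpow_val] at h
  exact h

theorem coe_units_zpow (O : ValuationSubring F) (u : Oˣ) (k : ℤ) :
    (((u ^ k : Oˣ) : O) : F) = ((u : O) : F) ^ k :=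
  map_units_zpow_val O.subtype u k

open Classical in
/-- The reduction of `∏ a, (x - a) ^ n a`: the factors with `a` integral reduce to
`(ξ - ρ a) ^ n a`, the others to constants. -/
def redProd (A : ValuationSubring K) (ρ : K → Fk) (ξ : Fk) (n : K →₀ ℤ) : Fk :=
  n.prod fun a k => if a ∈ A then (ξ - ρ a) ^ k else 1

@[simp]
theorem redProd_zero (A : ValuationSubring K) (ρ : K → Fk) (ξ : Fk) :
    redProd A ρ ξ 0 = 1 := by
  simp [redProd]

open Classical in
theorem redProd_single (A : ValuationSubring K) (ρ : K → Fk) (ξ : Fk) (b : K) (j : ℤ) :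
    redProd A ρ ξ (Finsupp.single b j) = if b ∈ A then (ξ - ρ b) ^ j else 1 := by
  rw [redProd, Finsupp.prod_single_index]
  split_ifs <;> simp

theorem redProd_add (A : ValuationSubring K) (ρ : K → Fk) {ξ : Fk}
    (hξ : ∀ a ∈ A, ξ - ρ a ≠ 0) (n m : K →₀ ℤ) :
    redProd A ρ ξ (n + m) = redProd A ρ ξ n * redProd A ρ ξ m := by
  rw [redProd, redProd, redProd]
  refine Finsupp.prod_add_index' (fun a => ?_) (fun a k₁ k₂ => ?_)
  · split_ifs <;> simp
  · by_cases haA : a ∈ A
    · simp only [haA, if_true]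
      exact zpow_add₀ (hξ a haA) k₁ k₂
    · simp [haA]

/-- (P1e) **Gauss reduction of a product of linear factors.**  `O` is a valuation ring of `F`
with a reduction map `red` (nonzero reduction implies unit), `A` a valuation ring of the
constants whose elements reduce by `ρ` and whose non-elements have inverses reducing to `0`,
and `x ∈ O` has a reduction `ξ` different from the reductions of all integral constants.
Then `∏ (x - a) ^ n a = C * u` with `C` a nonzero constant and `u` a unit of `O` reducing to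
`∏_{a ∈ A} (ξ - ρ a) ^ n a`. -/
theorem exists_unit_red_divProd (O : ValuationSubring F) (red : O →+* Fk)
    (hred : ∀ y : O, red y ≠ 0 → IsUnit y) (A : ValuationSubring K) (ρ : K → Fk)
    (hA : ∀ a ∈ A, ∃ h : algebraMap K F a ∈ O, red ⟨algebraMap K F a, h⟩ = ρ a)
    (hA' : ∀ a ∉ A, ∃ h : algebraMap K F a⁻¹ ∈ O, red ⟨algebraMap K F a⁻¹, h⟩ = 0)
    {x : F} (hxO : x ∈ O) (hξ : ∀ a ∈ A, red ⟨x, hxO⟩ - ρ a ≠ 0) (n : K →₀ ℤ) :
    ∃ (C : K) (u : Oˣ), C ≠ 0 ∧ divProd x n = algebraMap K F C * ((u : O) : F) ∧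
      red (u : O) = redProd A ρ (red ⟨x, hxO⟩) n := by
  classical
  -- the linear factors as units of `O`, up to constants
  have key : ∀ b : K, ∃ (c : K) (ub : Oˣ), c ≠ 0 ∧
      x - algebraMap K F b = algebraMap K F c * ((ub : O) : F) ∧
      red (ub : O) = if b ∈ A then red ⟨x, hxO⟩ - ρ b else 1 := by
    intro b
    by_cases hbA : b ∈ A
    · obtain ⟨hbO, hρ⟩ := hA b hbA
      have hmem : x - algebraMap K F b ∈ O := sub_mem hxO hbO
      have hval : red ⟨x - algebraMap K F b, hmem⟩ = red ⟨x, hxO⟩ - ρ b := by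
        have h1 : (⟨x - algebraMap K F b, hmem⟩ : O) = ⟨x, hxO⟩ - ⟨algebraMap K F b, hbO⟩ := rfl
        rw [h1, map_sub, hρ]
      obtain ⟨ub, hub⟩ := hred _ (by rw [hval]; exact hξ b hbA)
      refine ⟨1, ub, one_ne_zero, ?_, ?_⟩
      · rw [hub, map_one, one_mul]
      · rw [hub, hval, if_pos hbA]
    · obtain ⟨hbO, hρ⟩ := hA' b hbA
      have hb0 : b ≠ 0 := by
        rintro rfl
        exact hbA (zero_mem _)
      have hmem : 1 - algebraMap K F b⁻¹ * x ∈ O := sub_mem (one_mem _) (mul_mem hbO hxO)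
      have hval : red ⟨1 - algebraMap K F b⁻¹ * x, hmem⟩ = 1 := by
        have h1 : (⟨1 - algebraMap K F b⁻¹ * x, hmem⟩ : O) =
            1 - ⟨algebraMap K F b⁻¹, hbO⟩ * ⟨x, hxO⟩ := rfl
        rw [h1, map_sub, map_one, map_mul, hρ, zero_mul, sub_zero]
      obtain ⟨ub, hub⟩ := hred _ (by rw [hval]; exact one_ne_zero)
      refine ⟨-b, ub, neg_ne_zero.mpr hb0, ?_, ?_⟩
      · rw [hub, map_neg]
        show x - algebraMap K F b = -algebraMap K F b * (1 - algebraMap K F b⁻¹ * x)
        have : algebraMap K F b ≠ 0 := by rwa [Ne, map_eq_zero]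
        rw [map_inv₀]
        field_simp
        ring
      · rw [hub, hval, if_neg hbA]
  have hx : ∀ a : K, x - algebraMap K F a ≠ 0 := by
    intro a
    obtain ⟨c, ub, hc, h1, -⟩ := key a
    rw [h1]
    refine mul_ne_zero (by rwa [Ne, map_eq_zero]) ?_
    intro h0
    exact ub.ne_zero (Subtype.ext h0)
  induction n using Finsupp.induction with
  | zero => exact ⟨1, 1, one_ne_zero, by simp, by simp [redProd]⟩
  | single_add b k n hb hk ih =>
    obtain ⟨C, u, hC, hu, hru⟩ := ih
    obtain ⟨c, ub, hc, h1, h2⟩ := key b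
    refine ⟨c ^ k * C, ub ^ k * u, mul_ne_zero (zpow_ne_zero _ hc) hC, ?_, ?_⟩
    · rw [divProd_add hx, divProd_single, hu, h1, mul_zpow, Units.val_mul, MulMemClass.coe_mul,
        coe_units_zpow, map_mul, map_zpow₀]
      ring
    · rw [Units.val_mul, map_mul, map_units_zpow_val, hru, h2, redProd_add A ρ hξ,
        redProd_single]
      by_cases hbA : b ∈ A
      · simp [hbA]
      · simp [hbA]

end Reduction

/-! ### Line-wise conservation of number -/

theorem filter_mapDomain {α β : Type*} (f : α → β) (p : β → Prop) [DecidablePred p]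
    (m : α →₀ ℤ) :
    (Finsupp.mapDomain f m).filter p = Finsupp.mapDomain f (m.filter fun a => p (f a)) := by
  induction m using Finsupp.induction_linear with
  | zero =>
    rw [Finsupp.mapDomain_zero, Finsupp.filter_zero, Finsupp.filter_zero, Finsupp.mapDomain_zero]
  | add m₁ m₂ h₁ h₂ =>
    rw [Finsupp.mapDomain_add, Finsupp.filter_add, h₁, h₂, Finsupp.filter_add,
      Finsupp.mapDomain_add]
  | single a j =>
    rw [Finsupp.mapDomain_single]
    by_cases h : p (f a)
    · rw [Finsupp.filter_single_of_pos p h,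
        Finsupp.filter_single_of_pos (fun a => p (f a)) h, Finsupp.mapDomain_single]
    · rw [Finsupp.filter_single_of_neg p h,
        Finsupp.filter_single_of_neg (fun a => p (f a)) h, Finsupp.mapDomain_zero]

open Classical in
/-- The right-hand side of `sum_fiber_red_eq` as a sum over the support of the divisor: the
total multiplicity of `D` on the places whose `x`-value is integral and reduces to `b`. -/
theorem mapDomain_filter_lineDivisor_apply {κ : Type*} (x : F) (D : Divisor K F)
    (A : ValuationSubring K) (ρ' : K → κ) (b : κ) :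
    Finsupp.mapDomain ρ' ((lineDivisor x D).filter (· ∈ A)) b =
      ∑ w ∈ D.support.filter
        (fun w => 0 ≤ w.ord x ∧ xValue x w ∈ A ∧ ρ' (xValue x w) = b), D w := by
  rw [lineDivisor, filter_mapDomain, ← Finsupp.mapDomain_comp, mapDomain_apply_eq_sum,
    ← Finset.sum_filter]
  have hS : ((Finsupp.filter (fun a => xValue x a ∈ A)
        (Finsupp.filter (fun w => 0 ≤ w.ord x) D)).support.filter
          fun w => (ρ' ∘ xValue x) w = b) =
      D.support.filter (fun w => 0 ≤ w.ord x ∧ xValue x w ∈ A ∧ ρ' (xValue x w) = b) := by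
    ext w
    simp only [Finset.mem_filter, Finsupp.support_filter, Function.comp_apply]
    tauto
  rw [hS]
  refine Finset.sum_congr rfl fun w hw => ?_
  rw [Finset.mem_filter] at hw
  rw [Finsupp.filter_apply_pos (fun a : Place K F => xValue x a ∈ A) _ hw.2.2.1,
    Finsupp.filter_apply_pos (fun w : Place K F => 0 ≤ w.ord x) D hw.2.1]

section Conservation

variable {k Fk : Type*} [Field k] [Field Fk] [Algebra k Fk]

open Classical in
theorem redProd_eq_divProd (A : ValuationSubring K) (ρ' : K → k) {ξ : Fk}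
    (hξ : ∀ b : k, ξ - algebraMap k Fk b ≠ 0) (n : K →₀ ℤ) :
    redProd A (fun a => algebraMap k Fk (ρ' a)) ξ n =
      divProd ξ (Finsupp.mapDomain ρ' (n.filter (· ∈ A))) := by
  induction n using Finsupp.induction with
  | zero => rw [redProd_zero, Finsupp.filter_zero, Finsupp.mapDomain_zero, divProd_zero]
  | single_add b j n _ _ ih =>
    rw [redProd_add A _ (fun a _ => hξ (ρ' a)), ih, Finsupp.filter_add, Finsupp.mapDomain_add,
      divProd_add hξ, redProd_single]
    congr 1
    by_cases hbA : b ∈ A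
    · rw [if_pos hbA, Finsupp.filter_single_of_pos _ hbA, Finsupp.mapDomain_single,
        divProd_single]
    · rw [if_neg hbA, Finsupp.filter_single_of_neg _ hbA, Finsupp.mapDomain_zero, divProd_zero]

open Classical in
/-- **Line-wise conservation of number.**  Let `O` be a valuation ring of `F` with reduction
`red : O → Fk`, compatible with a valuation ring `A` of the constants (`ρ' : K → k` on `A`),
let `x ∈ O` reduce to a transcendental `ξ`, and assume the norm-order formula on both lines
`K⟮x⟯ ⊆ F` and `k⟮ξ⟯ ⊆ Fk` and that the norm of `u` commutes with reduction.  Then for every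
`b : k` the orders of `red u` at the places of `Fk` over `ξ = b` sum to the total order of
`u` at the places of `F` over the residue disc of `b`. -/
theorem sum_fiber_red_eq [IsAlgClosed K] [IsAlgClosed k]
    {x : F} (hx : Transcendental K x) [FiniteDimensional K⟮x⟯ F] [HasPrincipalDivisors K F]
    (hN : NormOrderFormula K x)
    (O : ValuationSubring F) (red : O →+* Fk) (hred : ∀ y : O, red y ≠ 0 → IsUnit y)
    (A : ValuationSubring K) (ρ' : K → k)
    (hA : ∀ a ∈ A, ∃ h : algebraMap K F a ∈ O,
      red ⟨algebraMap K F a, h⟩ = algebraMap k Fk (ρ' a))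
    (hA' : ∀ a ∉ A, ∃ h : algebraMap K F a⁻¹ ∈ O, red ⟨algebraMap K F a⁻¹, h⟩ = 0)
    (hxO : x ∈ O) {ξ : Fk} (hxξ : red ⟨x, hxO⟩ = ξ) (hξ : Transcendental k ξ)
    [FiniteDimensional k⟮ξ⟯ Fk] [HasPrincipalDivisors k Fk] (hNk : NormOrderFormula k ξ)
    {u : F} (huO : u ∈ O) (hu : red ⟨u, huO⟩ ≠ 0)
    (hnorm : ∃ h : algebraMap K⟮x⟯ F (Algebra.norm K⟮x⟯ u) ∈ O,
      red ⟨algebraMap K⟮x⟯ F (Algebra.norm K⟮x⟯ u), h⟩ =
        algebraMap k⟮ξ⟯ Fk (Algebra.norm k⟮ξ⟯ (red ⟨u, huO⟩)))
    {D : Divisor K F} (hD : ∀ w, D w = w.ord u) (b : k) :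
    ∑ s ∈ (linePlace hξ b).fiber Fk, s.ord (red ⟨u, huO⟩) =
      Finsupp.mapDomain ρ' ((lineDivisor x D).filter (· ∈ A)) b := by
  have hu0 : u ≠ 0 := by
    rintro rfl
    exact hu (map_zero red)
  have hξ' : ∀ b : k, ξ - algebraMap k Fk b ≠ 0 := sub_ne_zero_of_transcendental hξ
  -- generic fibre
  obtain ⟨c, hc, hcn⟩ := norm_eq_const_mul_divProd_lineDivisor hx hN hu0 hD
  have hcnF : algebraMap K⟮x⟯ F (Algebra.norm K⟮x⟯ u) =
      algebraMap K F c * divProd x (lineDivisor x D) := by
    rw [hcn, map_mul, map_divProd, AdjoinSimple.algebraMap_gen, ← IsScalarTower.algebraMap_apply]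
  -- Gauss reduction of the product
  obtain ⟨C, u₀, hC, hdiv, hru₀⟩ := exists_unit_red_divProd O red hred A
    (fun a => algebraMap k Fk (ρ' a)) hA hA' hxO (fun a _ => by rw [hxξ]; exact hξ' (ρ' a))
    (lineDivisor x D)
  rw [hxξ, redProd_eq_divProd A ρ' hξ'] at hru₀
  obtain ⟨hNO, hredN⟩ := hnorm
  have hN0 : algebraMap k⟮ξ⟯ Fk (Algebra.norm k⟮ξ⟯ (red ⟨u, huO⟩)) ≠ 0 := by
    rw [Ne, map_eq_zero]
    exact Algebra.norm_ne_zero_iff.mpr hu
  have hu₀ : red (u₀ : O) ≠ 0 := (u₀.isUnit.map red).ne_zero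
  have hNF : algebraMap K⟮x⟯ F (Algebra.norm K⟮x⟯ u) = algebraMap K F (c * C) * ((u₀ : O) : F) := by
    rw [hcnF, hdiv, map_mul]
    ring
  -- the constant is a unit of `A`
  have hcA : c * C ∈ A := by
    by_contra hnot
    obtain ⟨hinv, hρ⟩ := hA' (c * C) hnot
    have h1 : (⟨algebraMap K⟮x⟯ F (Algebra.norm K⟮x⟯ u), hNO⟩ : O) *
        ⟨algebraMap K F (c * C)⁻¹, hinv⟩ = (u₀ : O) := by
      apply Subtype.ext
      show algebraMap K⟮x⟯ F (Algebra.norm K⟮x⟯ u) * algebraMap K F (c * C)⁻¹ = ((u₀ : O) : F)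
      rw [hNF, map_inv₀]
      have : algebraMap K F (c * C) ≠ 0 := by
        rw [Ne, map_eq_zero]
        exact mul_ne_zero hc hC
      field_simp
    have h2 := congrArg red h1
    rw [map_mul, hρ, mul_zero] at h2
    exact hu₀ h2.symm
  obtain ⟨hcO, hρc⟩ := hA (c * C) hcA
  have h3 : (⟨algebraMap K⟮x⟯ F (Algebra.norm K⟮x⟯ u), hNO⟩ : O) =
      ⟨algebraMap K F (c * C), hcO⟩ * (u₀ : O) := Subtype.ext hNF
  have h4 : algebraMap k⟮ξ⟯ Fk (Algebra.norm k⟮ξ⟯ (red ⟨u, huO⟩)) =
      algebraMap k Fk (ρ' (c * C)) *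
        divProd ξ (Finsupp.mapDomain ρ' ((lineDivisor x D).filter (· ∈ A))) := by
    rw [← hredN, h3, map_mul, hρc, hru₀]
  have hρ0 : ρ' (c * C) ≠ 0 := by
    intro h0
    rw [h0, map_zero, zero_mul] at h4
    exact hN0 h4
  -- special fibre
  obtain ⟨c', n', hc', hcn', hn'⟩ := algebraMap_norm_eq_const_mul_divProd hξ hNk hu
  rw [h4] at hcn'
  have h5 := divProd_unique hξ hρ0 hc' hcn'
  rw [← hn' b, ← h5]

open Classical in
/-- **Line-wise conservation of number**, with the right-hand side written over the support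
of the divisor of `u`. -/
theorem sum_fiber_red_eq_sum_support [IsAlgClosed K] [IsAlgClosed k]
    {x : F} (hx : Transcendental K x) [FiniteDimensional K⟮x⟯ F] [HasPrincipalDivisors K F]
    (hN : NormOrderFormula K x)
    (O : ValuationSubring F) (red : O →+* Fk) (hred : ∀ y : O, red y ≠ 0 → IsUnit y)
    (A : ValuationSubring K) (ρ' : K → k)
    (hA : ∀ a ∈ A, ∃ h : algebraMap K F a ∈ O,
      red ⟨algebraMap K F a, h⟩ = algebraMap k Fk (ρ' a))
    (hA' : ∀ a ∉ A, ∃ h : algebraMap K F a⁻¹ ∈ O, red ⟨algebraMap K F a⁻¹, h⟩ = 0)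
    (hxO : x ∈ O) {ξ : Fk} (hxξ : red ⟨x, hxO⟩ = ξ) (hξ : Transcendental k ξ)
    [FiniteDimensional k⟮ξ⟯ Fk] [HasPrincipalDivisors k Fk] (hNk : NormOrderFormula k ξ)
    {u : F} (huO : u ∈ O) (hu : red ⟨u, huO⟩ ≠ 0)
    (hnorm : ∃ h : algebraMap K⟮x⟯ F (Algebra.norm K⟮x⟯ u) ∈ O,
      red ⟨algebraMap K⟮x⟯ F (Algebra.norm K⟮x⟯ u), h⟩ =
        algebraMap k⟮ξ⟯ Fk (Algebra.norm k⟮ξ⟯ (red ⟨u, huO⟩)))
    {D : Divisor K F} (hD : ∀ w, D w = w.ord u) (b : k) :
    ∑ s ∈ (linePlace hξ b).fiber Fk, s.ord (red ⟨u, huO⟩) =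
      ∑ w ∈ D.support.filter
        (fun w => 0 ≤ w.ord x ∧ xValue x w ∈ A ∧ ρ' (xValue x w) = b), D w := by
  rw [sum_fiber_red_eq hx hN O red hred A ρ' hA hA' hxO hxξ hξ hNk huO hu hnorm hD b,
    mapDomain_filter_lineDivisor_apply]

end Conservation

end Fermat.Agent.S37.helper815

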