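import Mathlib
import Fermat.Prelude.Def_AlgebraicCurve_Correspondence
import Fermat.Agent.S24.helper24_FundId

/-!
# S37 (and every Hecke-correspondence row): the generic relative function-field facts

For a finite extension `F'/F` of function fields over a field `K`, in the Prelude vocabulary of
`Def_AlgebraicCurve_DivisorPushPull`:

* characteristic zero (`K` need not be algebraically closed, arbitrary residue degrees):
  `sumRamificationInertia_of_finite : SumRamificationInertia K F F'`
  (`∑_{w | v} e(w|v) f(w|v) = [F' : F]`), `fundamentalIdentity_of_finite`,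
  `pushforwardNormFormula_of_finite : Divisor.PushforwardNormFormula K F F'`
  (`∑_{w | v} f(w|v) ord_w(f) = ord_v(N_{F'/F} f)`), and the forms along a `K`-algebra map
  `φ : F →ₐ[K] F'`: `fundamentalIdentityAlong_of_finite`, `normFormulaAlong_of_finite`;
* ANY characteristic, under the single hypothesis `IntClosureFinite K F F'` (the integral
  closure of every valuation ring `O_v` of `F` in `F'` is module-finite; automatic for separable
  extensions, `intClosureFinite_of_isSeparable`):
  `sumRamificationInertia_of_intClosureFinite`, `fundamentalIdentity_of_intClosureFinite`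
  (arbitrary residue degrees) and, when the places of `F'` have degree one,
  `pushforwardNormFormula_of_deg_eq_one` / `_of_surjective` / `_of_inertiaDeg_eq_one`;
  along forms `fundamentalIdentityAlong_of_intClosureFinite`, `normFormulaAlong_of_deg_eq_one`,
  `fundamentalIdentityAlong_of_isSeparable`, `normFormulaAlong_of_isSeparable`.

Route: the valuation ring `O_v` of a place is a discrete valuation ring, its integral closure
`OS F' v` in `F'` is a Dedekind domain finite over `O_v`, the places above `v` are exactly the
places `placeOf v P` attached to the nonzero primes `P` of `OS F' v`; ramification index,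
inertia degree and order function are identified with `Ideal.ramificationIdx'`,
`Ideal.inertiaDeg'` and the `P`-adic valuation; then Mathlib's `Ideal.sum_ramification_inertia`
and `Ideal.relNorm` finish.  The relative norm of a prime is `p ^ f` by Mathlib when the fraction
field downstairs is perfect, and by a counting argument (`relNorm_prime_of_inertiaDeg_eq_one`)
in any characteristic when all inertia degrees are one.
-/

set_option autoImplicit false
set_option linter.unusedSectionVars false
set_option linter.deprecated false
set_option linter.style.haveILetI false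

noncomputable section

namespace Fermat.Agent.S37.helper1187

open AlgebraicCurve IsDedekindDomain WithZero

section Abstract

open IsLocalRing Ideal

variable {R S : Type*} [CommRing R] [IsDomain R] [IsDiscreteValuationRing R]
  [CommRing S] [IsDedekindDomain S] [Algebra R S] [Module.Finite R S] [Module.IsTorsionFree R S]

/-- Over a discrete valuation ring, every nonzero prime of a finite torsion-free Dedekind
extension lies over the maximal ideal. -/
theorem liesOver_maximalIdeal (P : HeightOneSpectrum S) :
    P.asIdeal.LiesOver (maximalIdeal R) := by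
  constructor
  have hprime : (P.asIdeal.under R).IsPrime := inferInstance
  have hne : P.asIdeal.under R ≠ ⊥ := by
    intro h
    exact P.ne_bot (Ideal.eq_bot_of_comap_eq_bot h)
  exact (IsLocalRing.eq_maximalIdeal (hprime.isMaximal hne)).symm

theorem maximalIdeal_ne_bot' : maximalIdeal R ≠ ⊥ := IsDiscreteValuationRing.not_a_field R

theorem asIdeal_mem_primesOverFinset (P : HeightOneSpectrum S) :
    P.asIdeal ∈ IsDedekindDomain.primesOverFinset (maximalIdeal R) S := by
  rw [IsDedekindDomain.mem_primesOverFinset_iff (maximalIdeal_ne_bot' (R := R))]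
  exact ⟨P.isPrime, liesOver_maximalIdeal P⟩

theorem finite_heightOneSpectrum_aux
    (h : ∀ P : HeightOneSpectrum S,
      P.asIdeal ∈ IsDedekindDomain.primesOverFinset (maximalIdeal R) S) :
    Finite (HeightOneSpectrum S) := by
  refine Finite.of_injective
    (fun P : HeightOneSpectrum S =>
      (⟨P.asIdeal, h P⟩ :
        {Q // Q ∈ IsDedekindDomain.primesOverFinset (maximalIdeal R) S})) ?_
  intro P Q h
  exact HeightOneSpectrum.ext (congrArg Subtype.val h)

theorem finite_heightOneSpectrum (R S : Type*) [CommRing R] [IsDomain R]
    [IsDiscreteValuationRing R] [CommRing S] [IsDedekindDomain S] [Algebra R S]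
    [Module.Finite R S] [Module.IsTorsionFree R S] : Finite (HeightOneSpectrum S) :=
  finite_heightOneSpectrum_aux (R := R) (fun P => asIdeal_mem_primesOverFinset P)

open Classical in
/-- The multiplicity of a height-one prime in a prime ideal. -/
theorem multiplicity_prime (P : HeightOneSpectrum S) {Q : Ideal S} (hQ : Prime Q)
    (Q₀ : HeightOneSpectrum S) (hQ₀ : Q₀.asIdeal = Q) :
    multiplicity P.asIdeal Q = if P = Q₀ then 1 else 0 := by
  subst hQ₀
  split_ifs with h
  · subst h
    exact multiplicity_self
  · rw [multiplicity_eq_zero, Ideal.dvd_iff_le]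
    intro hle
    apply h
    exact HeightOneSpectrum.ext ((Q₀.isMaximal.eq_of_le P.isPrime.ne_top hle).symm)

open Classical in
/-- The relative norm of a nonzero ideal, computed prime by prime, from the relative norms
`relNorm P = p ^ s P` of the primes. -/
theorem relNorm_eq_pow_of [Fintype (HeightOneSpectrum S)] (s : HeightOneSpectrum S → ℕ)
    (hs : ∀ P : HeightOneSpectrum S, relNorm R P.asIdeal = maximalIdeal R ^ s P)
    (I : Ideal S) (hI : I ≠ ⊥) :
    relNorm R I = (maximalIdeal R) ^
      (∑ P : HeightOneSpectrum S, s P * multiplicity P.asIdeal I) := by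
  induction I using UniqueFactorizationMonoid.induction_on_prime with
  | h₁ => exact absurd rfl hI
  | h₂ I hIu =>
    rw [Ideal.isUnit_iff] at hIu
    subst hIu
    rw [relNorm_top]
    have : ∀ P : HeightOneSpectrum S, multiplicity P.asIdeal (⊤ : Ideal S) = 0 := by
      intro P
      rw [multiplicity_eq_zero, Ideal.dvd_iff_le]
      intro hle
      exact P.isPrime.ne_top (top_le_iff.mp hle)
    simp [this, Ideal.one_eq_top]
  | h₃ I Q hI0 hQ ih =>
    have hQp : Q.IsPrime := Ideal.isPrime_of_prime hQ
    have hQ0 : Q ≠ ⊥ := hQ.ne_zero
    set Q₀ : HeightOneSpectrum S := ⟨Q, hQp, hQ0⟩ with hQ₀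
    have hI' : I ≠ ⊥ := hI0
    have hsQ : relNorm R Q = maximalIdeal R ^ s Q₀ := hs Q₀
    rw [map_mul, ih hI', hsQ, ← pow_add]
    congr 1
    have hmul : ∀ P : HeightOneSpectrum S,
        multiplicity P.asIdeal (Q * I) = (if P = Q₀ then 1 else 0) + multiplicity P.asIdeal I := by
      intro P
      have hP : Prime P.asIdeal := Ideal.prime_of_isPrime P.ne_bot P.isPrime
      rw [multiplicity_mul hP, multiplicity_prime P hQ Q₀ rfl]
      exact FiniteMultiplicity.of_not_isUnit hP.not_unit (mul_ne_zero hQ0 hI')
    simp_rw [hmul, mul_add, Finset.sum_add_distrib]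
    congr 1
    simp [Finset.sum_ite_eq', hQ₀]

/-- The relative norm of a prime when the fraction field downstairs is perfect (Mathlib). -/
theorem relNorm_prime_of_perfectField [PerfectField (FractionRing R)] (P : HeightOneSpectrum S) :
    relNorm R P.asIdeal = maximalIdeal R ^ inertiaDeg' (maximalIdeal R) P.asIdeal := by
  have hmax : P.asIdeal.IsMaximal := P.isMaximal
  have : P.asIdeal.LiesOver (maximalIdeal R) := liesOver_maximalIdeal P
  rw [relNorm_eq_pow_of_isMaximal P.asIdeal (maximalIdeal R),
    ← inertiaDeg'_eq_inertiaDeg (maximalIdeal R) P.asIdeal]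

/-- The relative norm of a nonzero ideal, computed prime by prime. -/
theorem relNorm_eq_pow [PerfectField (FractionRing R)] [Fintype (HeightOneSpectrum S)]
    (I : Ideal S) (hI : I ≠ ⊥) :
    relNorm R I = (maximalIdeal R) ^
      (∑ P : HeightOneSpectrum S,
        inertiaDeg' (maximalIdeal R) P.asIdeal * multiplicity P.asIdeal I) :=
  relNorm_eq_pow_of _ relNorm_prime_of_perfectField I hI

section fields

variable (K₀ L : Type*) [Field K₀] [Field L] [Algebra R K₀] [IsFractionRing R K₀]
  [Algebra S L] [IsFractionRing S L] [Algebra K₀ L] [Algebra R L] [IsScalarTower R S L]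
  [IsScalarTower R K₀ L]

/-- `∑ e f = n` indexed by the height-one spectrum upstairs. -/
theorem sum_e_f [Fintype (HeightOneSpectrum S)] :
    ∑ P : HeightOneSpectrum S,
      ramificationIdx' (maximalIdeal R) P.asIdeal * inertiaDeg' (maximalIdeal R) P.asIdeal
        = Module.finrank K₀ L := by
  have hp0 : maximalIdeal R ≠ ⊥ := maximalIdeal_ne_bot'
  rw [← Ideal.sum_ramification_inertia S K₀ L hp0]
  refine Finset.sum_bij (fun P _ => P.asIdeal) ?_ ?_ ?_ ?_
  · intro P _
    exact asIdeal_mem_primesOverFinset P
  · intro P _ Q _ h
    exact HeightOneSpectrum.ext h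
  · intro Q hQ
    rw [IsDedekindDomain.mem_primesOverFinset_iff hp0] at hQ
    obtain ⟨hQp, hQo⟩ := hQ
    refine ⟨⟨Q, hQp, ?_⟩, Finset.mem_univ _, rfl⟩
    intro h
    subst h
    apply hp0
    rw [hQo.over]
    exact Ideal.under_bot R S
  · intro P _
    rfl

variable [IsIntegralClosure S R L] [FiniteDimensional K₀ L] [Fintype (HeightOneSpectrum S)]

/-- The norm formula for integral elements, given the relative norms of the primes. -/
theorem ord_norm_algebraMap_of_relNorm
    (hrel : ∀ P : HeightOneSpectrum S,
      relNorm R P.asIdeal = maximalIdeal R ^ inertiaDeg' (maximalIdeal R) P.asIdeal)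
    (a : S) (ha : a ≠ 0) :
    -(log ((IsDiscreteValuationRing.maximalIdeal R).valuation K₀
        (Algebra.norm K₀ (algebraMap S L a))))
      = ∑ P : HeightOneSpectrum S,
          (inertiaDeg' (maximalIdeal R) P.asIdeal : ℤ) * -(log (P.valuation L (algebraMap S L a))) := by
  have haL : algebraMap S L a ≠ 0 := by
    simpa using ha
  have hN0 : Algebra.norm K₀ (algebraMap S L a) ≠ 0 := Algebra.norm_ne_zero_iff.mpr haL
  have hint := Algebra.algebraMap_intNorm (A := R) (K := K₀) (L := L) (B := S) a
  have hne : Algebra.intNorm R S a ≠ 0 := by
    intro h0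
    rw [h0, map_zero] at hint
    exact hN0 hint.symm
  rw [← hint, HeightOneSpectrum.valuation_of_algebraMap,
    HeightOneSpectrum.intValuation_eq_exp_neg_multiplicity _ hne, log_exp, neg_neg]
  have h1 := relNorm_eq_pow_of (R := R) _ hrel (Ideal.span {a})
    (by rw [Ne, Ideal.span_singleton_eq_bot]; exact ha)
  rw [relNorm_singleton] at h1
  have hprime : Prime (maximalIdeal R) :=
    Ideal.prime_of_isPrime maximalIdeal_ne_bot' inferInstance
  have h2 : (IsDiscreteValuationRing.maximalIdeal R).asIdeal = maximalIdeal R := rfl
  rw [h2, h1, multiplicity_pow_self_of_prime hprime]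
  push_cast
  refine Finset.sum_congr rfl fun P _ => ?_
  rw [HeightOneSpectrum.valuation_of_algebraMap, P.intValuation_eq_exp_neg_multiplicity ha,
    log_exp, neg_neg]

/-- The norm formula `ord_p (N x) = ∑_P f(P) ord_P x`, given the relative norms of the primes. -/
theorem ord_norm_of_relNorm
    (hrel : ∀ P : HeightOneSpectrum S,
      relNorm R P.asIdeal = maximalIdeal R ^ inertiaDeg' (maximalIdeal R) P.asIdeal)
    (x : L) (hx : x ≠ 0) :
    -(log ((IsDiscreteValuationRing.maximalIdeal R).valuation K₀ (Algebra.norm K₀ x)))
      = ∑ P : HeightOneSpectrum S,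
          (inertiaDeg' (maximalIdeal R) P.asIdeal : ℤ) * -(log (P.valuation L x)) := by
  obtain ⟨a, b, hb, rfl⟩ := IsFractionRing.div_surjective (A := S) x
  have hb0 : b ≠ 0 := nonZeroDivisors.ne_zero hb
  have hbL : algebraMap S L b ≠ 0 := by simpa using hb0
  have ha0 : a ≠ 0 := by
    rintro rfl
    simp at hx
  have haL : algebraMap S L a ≠ 0 := by simpa using ha0
  have hmul : algebraMap S L a / algebraMap S L b * algebraMap S L b = algebraMap S L a :=
    div_mul_cancel₀ _ hbL
  have ha' := ord_norm_algebraMap_of_relNorm (R := R) K₀ L hrel a ha0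
  have hb' := ord_norm_algebraMap_of_relNorm (R := R) K₀ L hrel b hb0
  have hnz : ∀ y : L, y ≠ 0 →
      (IsDiscreteValuationRing.maximalIdeal R).valuation K₀ (Algebra.norm K₀ y) ≠ 0 := by
    intro y hy
    exact (Valuation.ne_zero_iff _).mpr (Algebra.norm_ne_zero_iff.mpr hy)
  have hN : log ((IsDiscreteValuationRing.maximalIdeal R).valuation K₀
        (Algebra.norm K₀ (algebraMap S L a / algebraMap S L b)))
      + log ((IsDiscreteValuationRing.maximalIdeal R).valuation K₀
        (Algebra.norm K₀ (algebraMap S L b)))
      = log ((IsDiscreteValuationRing.maximalIdeal R).valuation K₀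
        (Algebra.norm K₀ (algebraMap S L a))) := by
    rw [← log_mul (hnz _ hx) (hnz _ hbL), ← map_mul, ← map_mul, hmul]
  have hP : ∀ P : HeightOneSpectrum S,
      log (P.valuation L (algebraMap S L a / algebraMap S L b))
        + log (P.valuation L (algebraMap S L b)) = log (P.valuation L (algebraMap S L a)) := by
    intro P
    rw [← log_mul ((Valuation.ne_zero_iff _).mpr hx) ((Valuation.ne_zero_iff _).mpr hbL),
      ← map_mul, hmul]
  have hsum : ∑ P : HeightOneSpectrum S, (inertiaDeg' (maximalIdeal R) P.asIdeal : ℤ)
        * -(log (P.valuation L (algebraMap S L a / algebraMap S L b)))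
      = (∑ P : HeightOneSpectrum S, (inertiaDeg' (maximalIdeal R) P.asIdeal : ℤ)
        * -(log (P.valuation L (algebraMap S L a))))
        - ∑ P : HeightOneSpectrum S, (inertiaDeg' (maximalIdeal R) P.asIdeal : ℤ)
        * -(log (P.valuation L (algebraMap S L b))) := by
    rw [← Finset.sum_sub_distrib]
    refine Finset.sum_congr rfl fun P _ => ?_
    rw [← hP P]
    ring
  rw [hsum, ← ha', ← hb', ← hN]
  ring

/-- The norm formula for integral elements (perfect fraction field downstairs). -/
theorem ord_norm_algebraMap [PerfectField (FractionRing R)] (a : S) (ha : a ≠ 0) :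
    -(log ((IsDiscreteValuationRing.maximalIdeal R).valuation K₀
        (Algebra.norm K₀ (algebraMap S L a))))
      = ∑ P : HeightOneSpectrum S,
          (inertiaDeg' (maximalIdeal R) P.asIdeal : ℤ) * -(log (P.valuation L (algebraMap S L a))) :=
  ord_norm_algebraMap_of_relNorm K₀ L relNorm_prime_of_perfectField a ha

/-- The norm formula: `ord_p (N x) = ∑_P f(P) ord_P x` (perfect fraction field downstairs). -/
theorem ord_norm [PerfectField (FractionRing R)] (x : L) (hx : x ≠ 0) :
    -(log ((IsDiscreteValuationRing.maximalIdeal R).valuation K₀ (Algebra.norm K₀ x)))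
      = ∑ P : HeightOneSpectrum S,
          (inertiaDeg' (maximalIdeal R) P.asIdeal : ℤ) * -(log (P.valuation L x)) :=
  ord_norm_of_relNorm K₀ L relNorm_prime_of_perfectField x hx

include K₀ L in
/-- **Relative norm of a prime without Galois theory**, when all inertia degrees are one
(any characteristic): `relNorm P = p ^ s` with `s ≥ 1`, `relNorm (pS) = p ^ n`, and
`∑ e s = n = ∑ e f` force `s = 1`. -/
theorem relNorm_prime_of_inertiaDeg_eq_one
    (hf : ∀ P : HeightOneSpectrum S, inertiaDeg' (maximalIdeal R) P.asIdeal = 1)
    (P : HeightOneSpectrum S) :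
    relNorm R P.asIdeal = maximalIdeal R ^ inertiaDeg' (maximalIdeal R) P.asIdeal := by
  classical
  have hp0 : maximalIdeal R ≠ ⊥ := maximalIdeal_ne_bot'
  have hlo : ∀ Q : HeightOneSpectrum S, Q.asIdeal.LiesOver (maximalIdeal R) :=
    fun Q => liesOver_maximalIdeal Q
  have hex : ∀ Q : HeightOneSpectrum S, ∃ s, relNorm R Q.asIdeal = maximalIdeal R ^ s := by
    intro Q
    have := hlo Q
    exact exists_relNorm_eq_pow_of_isPrime Q.asIdeal (maximalIdeal R)
  choose s hs using hex
  -- `s ≥ 1`
  have hs1 : ∀ Q : HeightOneSpectrum S, 1 ≤ s Q := by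
    intro Q
    by_contra h
    have h0 : s Q = 0 := by omega
    have hle := relNorm_le_comap R Q.asIdeal
    rw [hs Q, h0, pow_zero, Ideal.one_eq_top, top_le_iff] at hle
    have hprime : (Q.asIdeal.comap (algebraMap R S)).IsPrime := Ideal.comap_isPrime _ _
    exact hprime.ne_top hle
  have hinj : Function.Injective (algebraMap R S) :=
    algebraMap_injective_of_field_isFractionRing R S K₀ L
  have hpS : Ideal.map (algebraMap R S) (maximalIdeal R) ≠ ⊥ := by
    rwa [Ne, Ideal.map_eq_bot_iff_of_injective hinj]
  have hprime : Prime (maximalIdeal R) := Ideal.prime_of_isPrime hp0 inferInstance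
  -- `∑ s e = n`
  have h1 := relNorm_eq_pow_of (R := R) s hs _ hpS
  rw [relNorm_algebraMap] at h1
  have h2 : Module.finrank R S
      = ∑ Q : HeightOneSpectrum S,
          s Q * multiplicity Q.asIdeal (Ideal.map (algebraMap R S) (maximalIdeal R)) := by
    have := congrArg (multiplicity (maximalIdeal R)) h1
    rwa [multiplicity_pow_self_of_prime hprime, multiplicity_pow_self_of_prime hprime] at this
  -- `∑ e f = n`
  have h3 := sum_e_f (R := R) (S := S) K₀ L
  have h4 : Module.finrank K₀ L = Module.finrank R S :=
    IsFractionRing.finrank_eq R K₀ S L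
  have he : ∀ Q : HeightOneSpectrum S,
      ramificationIdx' (maximalIdeal R) Q.asIdeal
        = multiplicity Q.asIdeal (Ideal.map (algebraMap R S) (maximalIdeal R)) :=
    fun Q => Ideal.IsDedekindDomain.ramificationIdx'_eq_multiplicity hpS Q.isPrime
  have hepos : ∀ Q : HeightOneSpectrum S,
      0 < multiplicity Q.asIdeal (Ideal.map (algebraMap R S) (maximalIdeal R)) := by
    intro Q
    rw [← he Q]
    have := hlo Q
    exact Nat.pos_of_ne_zero
      (IsDedekindDomain.ramificationIdx'_ne_zero_of_liesOver Q.asIdeal hp0)
  have h5 : ∑ Q : HeightOneSpectrum S,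
        multiplicity Q.asIdeal (Ideal.map (algebraMap R S) (maximalIdeal R))
      = ∑ Q : HeightOneSpectrum S,
          s Q * multiplicity Q.asIdeal (Ideal.map (algebraMap R S) (maximalIdeal R)) := by
    rw [← h2, ← h4, ← h3]
    refine Finset.sum_congr rfl fun Q _ => ?_
    rw [hf Q, mul_one, he Q]
  have hsP : s P = 1 := by
    by_contra hne
    have hlt : 1 < s P := lt_of_le_of_ne (hs1 P) (Ne.symm hne)
    have := Finset.sum_lt_sum (s := Finset.univ)
      (f := fun Q : HeightOneSpectrum S =>
        multiplicity Q.asIdeal (Ideal.map (algebraMap R S) (maximalIdeal R)))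
      (g := fun Q : HeightOneSpectrum S =>
        s Q * multiplicity Q.asIdeal (Ideal.map (algebraMap R S) (maximalIdeal R)))
      (fun Q _ => Nat.le_mul_of_pos_left _ (hs1 Q))
      ⟨P, Finset.mem_univ _, by
        have := hepos P
        nlinarith⟩
    exact absurd h5 this.ne
  rw [hs P, hsP, hf P]

end fields

end Abstract

section Bridge

open IsLocalRing

variable {K F F' : Type*} [Field K] [Field F] [Field F'] [Algebra K F] [Algebra K F']
  [Algebra F F'] [IsScalarTower K F F']

theorem isScalarTower_valuationSubring (v : Place K F) :
    IsScalarTower K v.toValuationSubring F' :=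
  IsScalarTower.of_algebraMap_eq fun a => by
    rw [IsScalarTower.algebraMap_apply K F F']
    rfl

attribute [local instance] isScalarTower_valuationSubring

variable (F') in
/-- The integral closure in `F'` of the valuation ring of a place of `F`. -/
abbrev OS (v : Place K F) : Subalgebra v.toValuationSubring F' :=
  integralClosure v.toValuationSubring F'

variable (K F F') in
/-- The integral closures in `F'` of the valuation rings of the places of `F` are module-finite.
Automatic for finite separable extensions (`intClosureFinite_of_isSeparable`); for function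
fields over a perfect field it holds without separability (`intClosureFinite_of_perfectField`). -/
class IntClosureFinite : Prop where
  finite : ∀ v : Place K F,
    Module.Finite v.toValuationSubring (integralClosure v.toValuationSubring F')

instance intClosureFinite_of_isSeparable [FiniteDimensional F F'] [Algebra.IsSeparable F F'] :
    IntClosureFinite K F F' :=
  ⟨fun v => IsIntegralClosure.finite v.toValuationSubring F F'
    (integralClosure v.toValuationSubring F')⟩

variable [FiniteDimensional F F'] [IntClosureFinite K F F']

theorem finite_OS (v : Place K F) : Module.Finite v.toValuationSubring (OS F' v) :=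
  IntClosureFinite.finite v

theorem isFractionRing_OS (v : Place K F) : IsFractionRing (OS F' v) F' :=
  integralClosure.isFractionRing_of_finite_extension F F'

theorem isDedekindDomain_OS (v : Place K F) : IsDedekindDomain (OS F' v) := by
  have hfin : Module.Finite v.toValuationSubring (OS F' v) := finite_OS v
  have h1 : IsNoetherianRing (OS F' v) :=
    isNoetherian_of_tower v.toValuationSubring
      (isNoetherian_of_isNoetherianRing_of_finite v.toValuationSubring _)
  have h2 : Ring.DimensionLEOne (OS F' v) := Ring.DimensionLEOne.integralClosure _ _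
  have h3 : IsIntegrallyClosed (OS F' v) :=
    integralClosure.isIntegrallyClosedOfFiniteExtension F
  exact { h1, h2, h3 with : IsDedekindDomain (OS F' v) }

attribute [local instance] isDedekindDomain_OS isFractionRing_OS finite_OS

variable (v : Place K F)

/-- The place of `F'` attached to a nonzero prime of the integral closure. -/
def placeOf (P : HeightOneSpectrum (OS F' v)) : Place K F' :=
  Place.ofHeightOneSpectrum (K := K) (F := F') P

theorem placeOf_toValuationSubring (P : HeightOneSpectrum (OS F' v)) :
    (placeOf v P).toValuationSubring = (P.valuation F').valuationSubring := rfl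

theorem placeOf_injective : Function.Injective (placeOf (F' := F') v) :=
  Fermat.Agent.S24.helper24.h204.ofHeightOneSpectrum_injective

theorem ord_placeOf (P : HeightOneSpectrum (OS F' v)) (f : F') :
    (placeOf v P).ord f = -(log (P.valuation F' f)) :=
  Fermat.Agent.S24.helper24.h204.ord_ofHeightOneSpectrum (K := K) P f

theorem placeOf_restrict (P : HeightOneSpectrum (OS F' v)) : (placeOf v P).restrict F = v := by
  apply Place.ext
  symm
  refine ValuationSubring.eq_of_le_of_ne_top _ ?_ ((placeOf v P).restrict F).ne_top'
  intro a ha
  show algebraMap F F' a ∈ (P.valuation F').valuationSubring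
  rw [Valuation.mem_valuationSubring_iff]
  exact P.valuation_le_one (algebraMap v.toValuationSubring (OS F' v) ⟨a, ha⟩)

section primeOf

variable {v} (w : Place K F') (hw : w.restrict F = v)

include hw in
theorem algebraMap_mem_of_restrict (a : v.toValuationSubring) :
    algebraMap F F' (a : F) ∈ w.toValuationSubring := by
  have h : (a : F) ∈ (w.restrict F).toValuationSubring := by
    rw [hw]
    exact a.2
  exact h

include hw in
theorem coe_mem_of_restrict (s : OS F' v) : (s : F') ∈ w.toValuationSubring := by
  letI : Algebra v.toValuationSubring w.toValuationSubring :=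
    ((algebraMap v.toValuationSubring F').codRestrict w.toValuationSubring
      (fun a => algebraMap_mem_of_restrict w hw a)).toAlgebra
  haveI : IsScalarTower v.toValuationSubring w.toValuationSubring F' :=
    IsScalarTower.of_algebraMap_eq fun _ => rfl
  have h : IsIntegral w.toValuationSubring (s : F') := (s.2 : IsIntegral _ (s : F')).tower_top
  obtain ⟨y, hy⟩ := IsIntegrallyClosed.isIntegral_iff.mp h
  rw [← hy]
  exact y.2

/-- The inclusion of the integral closure into the valuation ring of a place above `v`. -/
def incl : OS F' v →+* w.toValuationSubring :=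
  (algebraMap (OS F' v) F').codRestrict w.toValuationSubring (fun s => coe_mem_of_restrict w hw s)

@[simp]
theorem coe_incl (s : OS F' v) : ((incl w hw s : w.toValuationSubring) : F') = (s : F') := rfl

theorem isUnit_iff_ord_eq_zero (a : w.toValuationSubring) (ha : a ≠ 0) :
    IsUnit a ↔ w.ord (a : F') = 0 := by
  constructor
  · intro h
    exact w.ord_coe_unit h.unit
  · intro h
    have ha' : (a : F') ≠ 0 := by simpa using ha
    have hinv : (a : F')⁻¹ ∈ w.toValuationSubring :=
      Fermat.Agent.S24.helper24.h204.mem_of_ord_nonneg w (by rw [w.ord_inv, h, neg_zero])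
    exact ⟨⟨a, ⟨_, hinv⟩, Subtype.ext (mul_inv_cancel₀ ha'), Subtype.ext (inv_mul_cancel₀ ha')⟩, rfl⟩

/-- The prime of the integral closure cut out by a place above `v`. -/
def primeOf : HeightOneSpectrum (OS F' v) where
  asIdeal := (maximalIdeal w.toValuationSubring).comap (incl w hw)
  isPrime := Ideal.comap_isPrime _ _
  ne_bot := by
    obtain ⟨π, hπ⟩ := IsDiscreteValuationRing.exists_irreducible v.toValuationSubring
    have hπ0 : (π : F) ≠ 0 := by simpa using hπ.ne_zero
    have hord : w.ord (algebraMap F F' (π : F)) = (w.ramificationIndex F : ℤ) := by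
      rw [w.ord_restrict, hw, v.ord_coe_irreducible hπ, mul_one]
    have hpos : 0 < w.ramificationIndex F := w.ramificationIndex_pos
    intro hbot
    have hmem : algebraMap v.toValuationSubring (OS F' v) π ∈
        (maximalIdeal w.toValuationSubring).comap (incl w hw) := by
      rw [Ideal.mem_comap, mem_maximalIdeal, mem_nonunits_iff]
      intro hu
      have h0 := w.ord_coe_unit hu.unit
      rw [IsUnit.unit_spec] at h0
      have h1 : ((incl w hw (algebraMap v.toValuationSubring (OS F' v) π) :
          w.toValuationSubring) : F') = algebraMap F F' (π : F) := rfl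
      rw [h1, hord] at h0
      omega
    rw [hbot, Ideal.mem_bot] at hmem
    have h2 : algebraMap F F' (π : F) = 0 := by
      have := congrArg (algebraMap (OS F' v) F') hmem
      rw [map_zero] at this
      exact this
    exact hπ0 (by simpa using h2)

theorem mem_primeOf_iff (s : OS F' v) :
    s ∈ (primeOf w hw).asIdeal ↔ incl w hw s ∈ maximalIdeal w.toValuationSubring := Iff.rfl

theorem placeOf_primeOf : placeOf v (primeOf w hw) = w := by
  refine Fermat.Agent.S24.helper24.h204.ofHeightOneSpectrum_eq_of_le w (primeOf w hw) ?_ ?_
  · intro r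
    exact coe_mem_of_restrict w hw r
  · intro r hr
    rw [mem_primeOf_iff, mem_maximalIdeal, mem_nonunits_iff, not_not] at hr
    obtain ⟨u, hu⟩ := hr
    have h1 : ((u : w.toValuationSubring) : F') = algebraMap (OS F' v) F' r := by
      rw [hu]; rfl
    have h2 : (algebraMap (OS F' v) F' r)⁻¹ = ((u⁻¹ : (w.toValuationSubring)ˣ) : w.toValuationSubring) := by
      rw [← h1]
      have h3 : ((u : w.toValuationSubring) : F') * ((u⁻¹ : (w.toValuationSubring)ˣ) : w.toValuationSubring) = 1 := by
        exact congrArg (Subtype.val) (u.mul_inv)
      exact (eq_inv_of_mul_eq_one_right h3).symm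
    rw [h2]
    exact SetLike.coe_mem _

end primeOf

theorem primeOf_placeOf (P : HeightOneSpectrum (OS F' v)) :
    primeOf (placeOf v P) (placeOf_restrict v P) = P :=
  placeOf_injective v (placeOf_primeOf _ _)

theorem ramificationIndex_placeOf (P : HeightOneSpectrum (OS F' v)) :
    (placeOf v P).ramificationIndex F
      = Ideal.ramificationIdx' (maximalIdeal v.toValuationSubring) P.asIdeal := by
  obtain ⟨π, hπ⟩ := IsDiscreteValuationRing.exists_irreducible v.toValuationSubring
  have hπ0 : (π : F) ≠ 0 := by simpa using hπ.ne_zero
  have hord : (placeOf v P).ord (algebraMap F F' (π : F))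
      = ((placeOf v P).ramificationIndex F : ℤ) := by
    rw [(placeOf v P).ord_restrict, placeOf_restrict, v.ord_coe_irreducible hπ, mul_one]
  have h1 : algebraMap F F' (π : F)
      = algebraMap (OS F' v) F' (algebraMap v.toValuationSubring (OS F' v) π) := rfl
  have hne : algebraMap v.toValuationSubring (OS F' v) π ≠ 0 := by
    intro h0
    rw [h0, map_zero] at h1
    exact hπ0 (by simpa using h1)
  have hmap : Ideal.map (algebraMap v.toValuationSubring (OS F' v))
      (maximalIdeal v.toValuationSubring)
        = Ideal.span {algebraMap v.toValuationSubring (OS F' v) π} := by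
    rw [hπ.maximalIdeal_eq, Ideal.map_span, Set.image_singleton]
  have hmap0 : Ideal.map (algebraMap v.toValuationSubring (OS F' v))
      (maximalIdeal v.toValuationSubring) ≠ ⊥ := by
    rw [hmap, Ne, Ideal.span_singleton_eq_bot]
    exact hne
  rw [ord_placeOf, h1, HeightOneSpectrum.valuation_of_algebraMap,
    P.intValuation_eq_exp_neg_multiplicity hne, log_exp, neg_neg] at hord
  rw [Ideal.IsDedekindDomain.ramificationIdx'_eq_multiplicity hmap0 P.isPrime, hmap]
  exact_mod_cast hord.symm

section residue

variable {v} (w : Place K F') (hw : w.restrict F = v)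

/-- The residue map `S ⧸ P → k(w)`. -/
def resMap : (OS F' v ⧸ (primeOf w hw).asIdeal) →+* w.ResidueField :=
  Ideal.Quotient.lift _ ((IsLocalRing.residue w.toValuationSubring).comp (incl w hw)) (by
    intro a ha
    rw [RingHom.comp_apply, IsLocalRing.residue_eq_zero_iff]
    exact ha)

theorem resMap_mk (s : OS F' v) :
    resMap w hw (Ideal.Quotient.mk _ s) = IsLocalRing.residue _ (incl w hw s) := rfl

theorem resMap_bijective : Function.Bijective (resMap w hw) := by
  constructor
  · rw [injective_iff_map_eq_zero]
    intro x hx
    obtain ⟨s, rfl⟩ := Ideal.Quotient.mk_surjective x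
    rw [resMap_mk, IsLocalRing.residue_eq_zero_iff] at hx
    exact Ideal.Quotient.eq_zero_iff_mem.mpr hx
  · intro y
    obtain ⟨t, rfl⟩ := IsLocalRing.residue_surjective y
    have ht : (primeOf w hw).valuation F' (t : F') ≤ 1 := by
      have h := congrArg Place.toValuationSubring (placeOf_primeOf w hw)
      rw [placeOf_toValuationSubring] at h
      have h' : (t : F') ∈ (HeightOneSpectrum.valuation F' (primeOf w hw)).valuationSubring := by
        rw [h]
        exact t.2
      exact h'
    obtain ⟨n, d, hnd⟩ := (primeOf w hw).exists_primeCompl_mul_eq_of_integer (t : F') ht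
    obtain ⟨d', i, hi, hdi⟩ := (primeOf w hw).isMaximal.exists_inv d.2
    refine ⟨Ideal.Quotient.mk _ (n * d'), ?_⟩
    rw [resMap_mk]
    have h1 : t * incl w hw (d : OS F' v) = incl w hw n := Subtype.ext hnd
    have hi0 : IsLocalRing.residue w.toValuationSubring (incl w hw i) = 0 := by
      rw [IsLocalRing.residue_eq_zero_iff]
      exact hi
    have h2 : IsLocalRing.residue _ (incl w hw d') * IsLocalRing.residue _ (incl w hw (d : OS F' v))
        = 1 := by
      have := congrArg (fun z => IsLocalRing.residue w.toValuationSubring (incl w hw z)) hdi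
      simp only [map_add, map_mul, map_one] at this
      rw [hi0, add_zero] at this
      exact this
    rw [map_mul, map_mul, ← h1, map_mul, mul_assoc,
      mul_comm (IsLocalRing.residue _ (incl w hw (d : OS F' v))), h2, mul_one]

theorem inertiaDeg_eq_of_restrict :
    w.inertiaDeg F
      = Ideal.inertiaDeg' (maximalIdeal v.toValuationSubring) (primeOf w hw).asIdeal := by
  subst hw
  have hlo : (primeOf (v := w.restrict F) w rfl).asIdeal.LiesOver
      (maximalIdeal (w.restrict F).toValuationSubring) := liesOver_maximalIdeal _
  rw [Ideal.inertiaDeg'_algebraMap]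
  symm
  refine Algebra.finrank_eq_of_equiv_equiv (RingEquiv.refl _)
    (RingEquiv.ofBijective (resMap (v := w.restrict F) w rfl)
      (resMap_bijective (v := w.restrict F) w rfl)) ?_
  apply Ideal.Quotient.ringHom_ext
  ext a
  simp only [RingHom.comp_apply]
  rw [Ideal.Quotient.algebraMap_mk_of_liesOver]
  show Place.restrictResidueMap F w (IsLocalRing.residue _ a)
    = resMap (v := w.restrict F) w rfl (Ideal.Quotient.mk _ (algebraMap _ _ a))
  rw [Place.restrictResidueMap_residue, resMap_mk]
  rfl

end residue

theorem inertiaDeg_placeOf (P : HeightOneSpectrum (OS F' v)) :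
    (placeOf v P).inertiaDeg F
      = Ideal.inertiaDeg' (maximalIdeal v.toValuationSubring) P.asIdeal := by
  rw [inertiaDeg_eq_of_restrict (placeOf v P) (placeOf_restrict v P), primeOf_placeOf]

theorem fiber_eq_image [HasPrincipalDivisors K F'] [Fintype (HeightOneSpectrum (OS F' v))]
    [DecidableEq (Place K F')] :
    v.fiber F' = Finset.univ.image (placeOf (F' := F') v) := by
  ext w
  rw [Place.mem_fiber, Finset.mem_image]
  constructor
  · intro hw
    exact ⟨primeOf w hw, Finset.mem_univ _, placeOf_primeOf w hw⟩
  · rintro ⟨P, -, rfl⟩
    exact placeOf_restrict v P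

/-- `∑_{w | v} e(w|v) f(w|v) = [F' : F]`. -/
theorem sum_ramificationIndex_mul_inertiaDeg [HasPrincipalDivisors K F'] :
    ∑ w ∈ v.fiber F', (w.ramificationIndex F : ℤ) * (w.inertiaDeg F : ℤ)
      = (Module.finrank F F' : ℤ) := by
  classical
  haveI : Finite (HeightOneSpectrum (OS F' v)) :=
    finite_heightOneSpectrum v.toValuationSubring (OS F' v)
  letI : Fintype (HeightOneSpectrum (OS F' v)) := Fintype.ofFinite _
  rw [fiber_eq_image, Finset.sum_image (fun P _ Q _ h => placeOf_injective v h)]
  simp_rw [ramificationIndex_placeOf, inertiaDeg_placeOf]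
  exact_mod_cast sum_e_f (R := v.toValuationSubring) (S := OS F' v) F F'

/-- `∑_{w | v} f(w|v) ord_w(f) = ord_v(N f)`, given the relative norms of the primes over `v`. -/
theorem pushforward_apply_eq_ord_norm_of_relNorm
    (hrel : ∀ P : HeightOneSpectrum (OS F' v),
      Ideal.relNorm v.toValuationSubring P.asIdeal
        = maximalIdeal v.toValuationSubring
            ^ Ideal.inertiaDeg' (maximalIdeal v.toValuationSubring) P.asIdeal)
    {f : F'} (hf : f ≠ 0) (D : Divisor K F') (hD : ∀ w, D w = w.ord f) :
    Divisor.pushforward F D v = v.ord (Algebra.norm F f) := by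
  classical
  haveI : Finite (HeightOneSpectrum (OS F' v)) :=
    finite_heightOneSpectrum v.toValuationSubring (OS F' v)
  letI : Fintype (HeightOneSpectrum (OS F' v)) := Fintype.ofFinite _
  rw [Divisor.pushforward_apply, ← Finset.sum_filter]
  have hsub : D.support.filter (fun w => w.restrict F = v)
      ⊆ Finset.univ.image (placeOf (F' := F') v) := by
    intro w hw
    rw [Finset.mem_filter] at hw
    rw [Finset.mem_image]
    exact ⟨primeOf w hw.2, Finset.mem_univ _, placeOf_primeOf w hw.2⟩
  rw [Finset.sum_subset hsub (by
    intro w hw hnot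
    rw [Finset.mem_image] at hw
    obtain ⟨P, -, rfl⟩ := hw
    rw [Finset.mem_filter, not_and_or] at hnot
    rcases hnot with h | h
    · rw [Finsupp.notMem_support_iff.mp h, zero_mul]
    · exact absurd (placeOf_restrict v P) h)]
  rw [Finset.sum_image (fun P _ Q _ h => placeOf_injective v h)]
  simp_rw [hD, inertiaDeg_placeOf, ord_placeOf]
  have key := ord_norm_of_relNorm (R := v.toValuationSubring) (S := OS F' v) F F' hrel f hf
  rw [Place.ord, Place.adicValuation, Place.heightOneSpectrum, key]
  refine Finset.sum_congr rfl fun P _ => ?_
  ring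

/-- `∑_{w | v} f(w|v) ord_w(f) = ord_v(N f)` when the fraction field of `O_v` is perfect
(characteristic zero). -/
theorem pushforward_apply_eq_ord_norm [PerfectField (FractionRing v.toValuationSubring)]
    {f : F'} (hf : f ≠ 0) (D : Divisor K F') (hD : ∀ w, D w = w.ord f) :
    Divisor.pushforward F D v = v.ord (Algebra.norm F f) :=
  pushforward_apply_eq_ord_norm_of_relNorm v (fun P => relNorm_prime_of_perfectField P) hf D hD

/-- `∑_{w | v} f(w|v) ord_w(f) = ord_v(N f)` in any characteristic, when the places above `v`
have inertia degree one. -/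
theorem pushforward_apply_eq_ord_norm_of_inertiaDeg_eq_one
    (hdeg : ∀ w : Place K F', w.restrict F = v → w.inertiaDeg F = 1)
    {f : F'} (hf : f ≠ 0) (D : Divisor K F') (hD : ∀ w, D w = w.ord f) :
    Divisor.pushforward F D v = v.ord (Algebra.norm F f) := by
  classical
  haveI : Finite (HeightOneSpectrum (OS F' v)) :=
    finite_heightOneSpectrum v.toValuationSubring (OS F' v)
  letI : Fintype (HeightOneSpectrum (OS F' v)) := Fintype.ofFinite _
  refine pushforward_apply_eq_ord_norm_of_relNorm v (fun P => ?_) hf D hD
  exact relNorm_prime_of_inertiaDeg_eq_one F F'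
    (fun Q => by rw [← inertiaDeg_placeOf]; exact hdeg _ (placeOf_restrict v Q)) P

end Bridge

section Main

variable {K F F' : Type*} [Field K] [Field F] [Field F'] [Algebra K F] [Algebra K F']

section Alg

variable [Algebra F F'] [IsScalarTower K F F'] [FiniteDimensional F F']

/-- A place whose residue field is `K` has inertia degree one over its restriction. -/
theorem inertiaDeg_eq_one_of_surjective (w : Place K F')
    (hw : Function.Surjective (algebraMap K w.ResidueField)) : w.inertiaDeg F = 1 := by
  rw [Place.inertiaDeg, finrank_eq_one_iff_of_nonzero' (1 : w.ResidueField) one_ne_zero]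
  intro y
  obtain ⟨c, rfl⟩ := hw y
  refine ⟨algebraMap K (w.restrict F).ResidueField c, ?_⟩
  rw [Algebra.smul_def, mul_one, ← IsScalarTower.algebraMap_apply]

/-- A place of degree one has inertia degree one over its restriction. -/
theorem inertiaDeg_eq_one_of_deg_eq_one (w : Place K F') (hw : w.deg = 1) :
    w.inertiaDeg F = 1 := by
  have h := w.deg_restrict_mul_inertiaDeg (F := F)
  rw [hw] at h
  exact Nat.eq_one_of_mul_eq_one_left h

section AnyChar

variable [IntClosureFinite K F F']

/-- **Fundamental identity** `∑ e f = n`, any characteristic, arbitrary residue degrees, no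
separability: only finiteness of the integral closures of the valuation rings. -/
theorem sumRamificationInertia_of_intClosureFinite [HasPrincipalDivisors K F'] :
    SumRamificationInertia K F F' :=
  ⟨fun v => sum_ramificationIndex_mul_inertiaDeg v⟩

/-- **Fundamental identity** `∑ e(w|v) deg w = [F' : F] deg v`, any characteristic. -/
theorem fundamentalIdentity_of_intClosureFinite [HasPrincipalDivisors K F'] :
    FundamentalIdentity K F F' := by
  haveI : SumRamificationInertia K F F' := sumRamificationInertia_of_intClosureFinite
  infer_instance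

/-- **Norm formula**, any characteristic, when all places of `F'` have inertia degree one. -/
theorem pushforwardNormFormula_of_inertiaDeg_eq_one
    (hdeg : ∀ w : Place K F', w.inertiaDeg F = 1) : Divisor.PushforwardNormFormula K F F' :=
  fun _ hf D hD v =>
    pushforward_apply_eq_ord_norm_of_inertiaDeg_eq_one v (fun w _ => hdeg w) hf D hD

/-- **Norm formula**, any characteristic, when all places of `F'` have degree one. -/
theorem pushforwardNormFormula_of_deg_eq_one (hdeg : ∀ w : Place K F', w.deg = 1) :
    Divisor.PushforwardNormFormula K F F' :=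
  pushforwardNormFormula_of_inertiaDeg_eq_one
    (fun w => inertiaDeg_eq_one_of_deg_eq_one w (hdeg w))

/-- **Norm formula**, any characteristic, when all places of `F'` have residue field `K`. -/
theorem pushforwardNormFormula_of_surjective
    (hres : ∀ w : Place K F', Function.Surjective (algebraMap K w.ResidueField)) :
    Divisor.PushforwardNormFormula K F F' :=
  pushforwardNormFormula_of_inertiaDeg_eq_one
    (fun w => inertiaDeg_eq_one_of_surjective w (hres w))

end AnyChar

section CharZero

variable [CharZero K]

/-- **Fundamental identity** `∑ e f = n` for a finite extension of function fields in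
characteristic zero. -/
theorem sumRamificationInertia_of_finite [HasPrincipalDivisors K F'] :
    SumRamificationInertia K F F' := by
  haveI : CharZero F := charZero_of_injective_algebraMap (algebraMap K F).injective
  haveI : IntClosureFinite K F F' := intClosureFinite_of_isSeparable
  exact sumRamificationInertia_of_intClosureFinite

/-- **Fundamental identity** `∑ e(w|v) deg w = [F' : F] deg v`. -/
theorem fundamentalIdentity_of_finite [HasPrincipalDivisors K F'] :
    FundamentalIdentity K F F' := by
  haveI : SumRamificationInertia K F F' := sumRamificationInertia_of_finite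
  infer_instance

/-- **Norm formula**: the pushforward of the divisor of `f` is the divisor of `N f`
(characteristic zero, arbitrary residue degrees). -/
theorem pushforwardNormFormula_of_finite : Divisor.PushforwardNormFormula K F F' := by
  haveI : CharZero F := charZero_of_injective_algebraMap (algebraMap K F).injective
  haveI : IntClosureFinite K F F' := intClosureFinite_of_isSeparable
  intro f hf D hD v
  haveI : CharZero v.toValuationSubring :=
    charZero_of_injective_algebraMap (algebraMap K v.toValuationSubring).injective
  exact pushforward_apply_eq_ord_norm v hf D hD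

end CharZero

end Alg

section Along

/-- Fundamental identity along `φ`, any characteristic: finiteness of the integral closures. -/
theorem fundamentalIdentityAlong_of_intClosureFinite [HasPrincipalDivisors K F']
    (φ : F →ₐ[K] F') (hφ : φ.toRingHom.IsIntegral) (hfin : FiniteAlong K φ)
    (hic : letI := algebraAlong φ; IntClosureFinite K F F') :
    FundamentalIdentityAlong K φ hφ := by
  letI := algebraAlong φ
  haveI := isScalarTower_along φ
  haveI : Module.Finite F F' := hfin
  haveI : IntClosureFinite K F F' := hic
  exact fundamentalIdentity_of_intClosureFinite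

/-- Norm formula along `φ`, any characteristic: finiteness of the integral closures and all
places of `F'` of degree one. -/
theorem normFormulaAlong_of_deg_eq_one (φ : F →ₐ[K] F') (hfin : FiniteAlong K φ)
    (hic : letI := algebraAlong φ; IntClosureFinite K F F')
    (hdeg : ∀ w : Place K F', w.deg = 1) :
    NormFormulaAlong K φ hfin := by
  letI := algebraAlong φ
  haveI := isScalarTower_along φ
  haveI : Module.Finite F F' := hfin
  haveI : IntClosureFinite K F F' := hic
  exact pushforwardNormFormula_of_deg_eq_one hdeg

/-- Fundamental identity along a separable `φ`, any characteristic. -/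
theorem fundamentalIdentityAlong_of_isSeparable [HasPrincipalDivisors K F']
    (φ : F →ₐ[K] F') (hφ : φ.toRingHom.IsIntegral) (hfin : FiniteAlong K φ)
    (hsep : letI := algebraAlong φ; Algebra.IsSeparable F F') :
    FundamentalIdentityAlong K φ hφ := by
  refine fundamentalIdentityAlong_of_intClosureFinite φ hφ hfin ?_
  letI := algebraAlong φ
  haveI := isScalarTower_along φ
  haveI : Module.Finite F F' := hfin
  haveI : Algebra.IsSeparable F F' := hsep
  exact intClosureFinite_of_isSeparable

/-- Norm formula along a separable `φ`, any characteristic, all places of degree one. -/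
theorem normFormulaAlong_of_isSeparable (φ : F →ₐ[K] F') (hfin : FiniteAlong K φ)
    (hsep : letI := algebraAlong φ; Algebra.IsSeparable F F')
    (hdeg : ∀ w : Place K F', w.deg = 1) :
    NormFormulaAlong K φ hfin := by
  refine normFormulaAlong_of_deg_eq_one φ hfin ?_ hdeg
  letI := algebraAlong φ
  haveI := isScalarTower_along φ
  haveI : Module.Finite F F' := hfin
  haveI : Algebra.IsSeparable F F' := hsep
  exact intClosureFinite_of_isSeparable

variable [CharZero K]

theorem fundamentalIdentityAlong_of_finite [HasPrincipalDivisors K F'] (φ : F →ₐ[K] F')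
    (hφ : φ.toRingHom.IsIntegral) (hfin : FiniteAlong K φ) :
    FundamentalIdentityAlong K φ hφ := by
  letI := algebraAlong φ
  haveI := isScalarTower_along φ
  haveI : Module.Finite F F' := hfin
  exact fundamentalIdentity_of_finite

theorem normFormulaAlong_of_finite (φ : F →ₐ[K] F') (hfin : FiniteAlong K φ) :
    NormFormulaAlong K φ hfin := by
  letI := algebraAlong φ
  haveI := isScalarTower_along φ
  haveI : Module.Finite F F' := hfin
  exact pushforwardNormFormula_of_finite

end Along

end Main

end Fermat.Agent.S37.helper1187

end
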