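import Mathlib
import Fermat.Agent.S37.helper1187_RelFunctionField
import Fermat.Agent.S18.helper8246_IntClosureFinite
import Fermat.Agent.S24.helper483_PlacesFF

/-!
# S37 / S18 (helper1187): finiteness of integral closures WITHOUT separability

Sibling of `helper1187_RelFunctionField` (which proves the fundamental identity and the norm
formula for a finite extension `F'/F` of function fields over `K` under the class
`IntClosureFinite K F F'`, automatic when `F'/F` is separable).  Here the class is produced with
NO separability hypothesis for a PERFECT constant field `K`: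

* abstract transfer of finiteness of the integral closure: to a localisation of the base
  (`fg_integralClosure_of_isLocalization`), along a surjection (`fg_integralClosure_of_surjective`)
  and along an integral extension of the base (`fg_integralClosure_of_isIntegral`);
* `exists_valuationSubringAtPrime_eq`: a proper valuation subring of the fraction field of a
  Dedekind domain `C` containing `C` is the localisation of `C` at a height-one prime;
* `intClosureFinite_of_perfectField`: `K` perfect, `F` finite over `K(y)`, `F'` finite over `F`
  (input: `Fermat.Agent.S18.helper8246.integralClosure_adjoin_fg`, Frobenius descent);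
* consequences in any characteristic, no separating variable needed: `∑ e f = n`, the fundamental
  identity, the norm formula (`K` algebraically closed), the local norm-order formula
  `ord_v (N f) = ∑_{w | v} ord_w f`, in relative form, over the line `K(x)` (`*_line`) and along
  a `K`-embedding (`*Along*`).
-/

set_option autoImplicit false
set_option linter.style.haveILetI false

noncomputable section

namespace Fermat.Agent.S37.helper1187

open AlgebraicCurve IsDedekindDomain IntermediateField

section AbstractFG

/-- Finiteness of the integral closure is inherited by localizations of the base ring. -/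
theorem fg_integralClosure_of_isLocalization {R Rₘ S : Type*} [CommRing R] [CommRing Rₘ]
    [CommRing S] [Algebra R Rₘ] [Algebra R S] [Algebra Rₘ S] [IsScalarTower R Rₘ S]
    (M : Submonoid R) [IsLocalization M Rₘ]
    (h : (Subalgebra.toSubmodule (integralClosure R S)).FG) :
    (Subalgebra.toSubmodule (integralClosure Rₘ S)).FG := by
  obtain ⟨T, hT⟩ := h
  refine ⟨T, ?_⟩
  apply le_antisymm
  · rw [Submodule.span_le]
    intro t ht
    have h1 : t ∈ Subalgebra.toSubmodule (integralClosure R S) := hT ▸ Submodule.subset_span ht
    have h2 : IsIntegral R t := h1
    exact h2.tower_top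
  · intro s hs
    have hs' : IsIntegral Rₘ s := hs
    obtain ⟨m, hm⟩ := IsIntegral.exists_multiple_integral_of_isLocalization M s hs'
    have h1 : m • s ∈ Submodule.span R (T : Set S) := by rw [hT]; exact hm
    have h2 : m • s ∈ Submodule.span Rₘ (T : Set S) :=
      Submodule.span_le_restrictScalars R Rₘ _ h1
    have h3 : s = IsLocalization.mk' Rₘ 1 m • (m • s) := by
      rw [Submonoid.smul_def, ← algebraMap_smul Rₘ (m : R) s, smul_smul,
        IsLocalization.mk'_spec, map_one, one_smul]
    rw [h3]
    exact Submodule.smul_mem _ _ h2

/-- Finiteness of the integral closure only depends on the image of the base ring. -/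
theorem fg_integralClosure_of_surjective {A A' S : Type*} [CommRing A] [CommRing A']
    [CommRing S] [Algebra A A'] [Algebra A S] [Algebra A' S] [IsScalarTower A A' S]
    (hsurj : Function.Surjective (algebraMap A A'))
    (h : (Subalgebra.toSubmodule (integralClosure A' S)).FG) :
    (Subalgebra.toSubmodule (integralClosure A S)).FG := by
  obtain ⟨T, hT⟩ := h
  refine ⟨T, ?_⟩
  have : Algebra.IsIntegral A A' := Algebra.isIntegral_of_surjective hsurj
  rw [← Submodule.restrictScalars_span A A' hsurj, hT]
  ext s
  constructor
  · intro hs
    have hs' : IsIntegral A' s := hs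
    exact isIntegral_trans s hs'
  · intro hs
    have hs' : IsIntegral A s := hs
    exact hs'.tower_top

/-- Finiteness of the integral closure is inherited by integral extensions of the base ring. -/
theorem fg_integralClosure_of_isIntegral {A C S : Type*} [CommRing A] [CommRing C]
    [CommRing S] [Algebra A C] [Algebra A S] [Algebra C S] [IsScalarTower A C S]
    [Algebra.IsIntegral A C]
    (h : (Subalgebra.toSubmodule (integralClosure A S)).FG) :
    (Subalgebra.toSubmodule (integralClosure C S)).FG := by
  obtain ⟨T, hT⟩ := h
  refine ⟨T, ?_⟩
  apply le_antisymm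
  · rw [Submodule.span_le]
    intro t ht
    have h1 : t ∈ Subalgebra.toSubmodule (integralClosure A S) := hT ▸ Submodule.subset_span ht
    have h2 : IsIntegral A t := h1
    exact h2.tower_top
  · intro s hs
    have hs' : IsIntegral C s := hs
    have h1 : IsIntegral A s := isIntegral_trans s hs'
    have h2 : s ∈ Submodule.span A (T : Set S) := by rw [hT]; exact h1
    exact Submodule.span_le_restrictScalars A C _ h2

end AbstractFG

section ValuationSubring

open IsLocalRing

variable {F : Type*} [Field F]

/-- A proper valuation subring of the fraction field of a Dedekind domain `C` that contains `C`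
is the localization of `C` at a height-one prime. -/
theorem exists_valuationSubringAtPrime_eq {C : Type*} [CommRing C] [IsDedekindDomain C]
    [Algebra C F] [IsFractionRing C F] (O : ValuationSubring F) (hO : O ≠ ⊤)
    (hC : ∀ c : C, algebraMap C F c ∈ O) :
    ∃ P : HeightOneSpectrum C, HeightOneSpectrum.valuationSubringAtPrime F P = O := by
  let φ : C →+* O :=
    { toFun := fun c => ⟨algebraMap C F c, hC c⟩
      map_one' := Subtype.ext (map_one _)
      map_mul' := fun _ _ => Subtype.ext (map_mul _ _ _)
      map_zero' := Subtype.ext (map_zero _)
      map_add' := fun _ _ => Subtype.ext (map_add _ _ _) }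
  have hinv : ∀ c : C, φ c ∉ maximalIdeal O → (algebraMap C F c)⁻¹ ∈ O := by
    intro c hc
    rw [IsLocalRing.mem_maximalIdeal, mem_nonunits_iff, not_not] at hc
    obtain ⟨u, hu⟩ := hc
    have h1 : ((u⁻¹ : Oˣ) : O) * φ c = 1 := by rw [← hu]; simp
    have h2 := congrArg (fun z : O => (z : F)) h1
    simp only [MulMemClass.coe_mul, OneMemClass.coe_one] at h2
    have h3 : ((φ c : O) : F) = algebraMap C F c := rfl
    rw [h3] at h2
    have h4 : (algebraMap C F c)⁻¹ = ((u⁻¹ : Oˣ) : O) := (eq_inv_of_mul_eq_one_left h2).symm
    rw [h4]
    exact SetLike.coe_mem _
  let P₀ : Ideal C := Ideal.comap φ (maximalIdeal O)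
  have hP₀ : P₀.IsPrime := Ideal.comap_isPrime φ _
  have hne : P₀ ≠ ⊥ := by
    intro hbot
    apply hO
    rw [eq_top_iff]
    intro f _
    obtain ⟨a, b, hb, rfl⟩ := IsFractionRing.div_surjective (A := C) f
    have hb0 : b ≠ 0 := nonZeroDivisors.ne_zero hb
    have hbP : φ b ∉ maximalIdeal O := by
      intro hmem
      have : b ∈ P₀ := hmem
      rw [hbot] at this
      exact hb0 this
    rw [div_eq_mul_inv]
    exact mul_mem (hC a) (hinv b hbP)
  refine ⟨⟨P₀, hP₀, hne⟩, ?_⟩
  refine ValuationSubring.eq_of_le_of_ne_top _ ?_ hO
  rintro x ⟨a, s, hs, rfl⟩
  exact mul_mem (hC a) (hinv s hs)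

/-- Finiteness of the integral closure of a Dedekind domain `C` passes to every proper valuation
subring of its fraction field containing it. -/
theorem fg_integralClosure_valuationSubring {F' C : Type*} [Field F'] [Algebra F F']
    [CommRing C] [IsDedekindDomain C] [Algebra C F] [IsFractionRing C F] [Algebra C F']
    [IsScalarTower C F F'] (O : ValuationSubring F) (hO : O ≠ ⊤)
    (hC : ∀ c : C, algebraMap C F c ∈ O)
    (h : (Subalgebra.toSubmodule (integralClosure C F')).FG) :
    (Subalgebra.toSubmodule (integralClosure O F')).FG := by
  obtain ⟨P, rfl⟩ := exists_valuationSubringAtPrime_eq O hO hC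
  have : IsScalarTower C (HeightOneSpectrum.valuationSubringAtPrime F P) F' :=
    IsScalarTower.of_algebraMap_eq fun c => by
      rw [IsScalarTower.algebraMap_apply C F F',
        IsScalarTower.algebraMap_apply C (HeightOneSpectrum.valuationSubringAtPrime F P) F]
      rfl
  exact fg_integralClosure_of_isLocalization P.asIdeal.primeCompl h

end ValuationSubring

section FunctionField

variable {K F F' : Type*} [Field K] [Field F] [Field F'] [Algebra K F] [Algebra K F']
  [Algebra F F'] [IsScalarTower K F F']

theorem algebraMap_mem_adjoin_algebraMap (y : F) (a : K⟮y⟯) :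
    algebraMap F F' (a : F) ∈ K⟮algebraMap F F' y⟯ := by
  have h : K⟮y⟯ ≤ (K⟮algebraMap F F' y⟯).comap (IsScalarTower.toAlgHom K F F') := by
    rw [IntermediateField.adjoin_simple_le_iff]
    exact IntermediateField.mem_adjoin_simple_self K (algebraMap F F' y)
  exact h a.2

/-- If `F` is finite over `K(y)` and `F'` is finite over `F`, then `F'` is finite over the
subfield generated by the image of `y`. -/
theorem finiteDimensional_adjoin_algebraMap (y : F) [FiniteDimensional K⟮y⟯ F]
    [FiniteDimensional F F'] : FiniteDimensional K⟮algebraMap F F' y⟯ F' := by
  have h1 : Module.Finite K⟮y⟯ F' := Module.Finite.trans F F'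
  let _ : Algebra K⟮y⟯ K⟮algebraMap F F' y⟯ := RingHom.toAlgebra
    { toFun := fun a => ⟨algebraMap F F' (a : F), algebraMap_mem_adjoin_algebraMap y a⟩
      map_one' := Subtype.ext (map_one _)
      map_mul' := fun _ _ => Subtype.ext (map_mul _ _ _)
      map_zero' := Subtype.ext (map_zero _)
      map_add' := fun _ _ => Subtype.ext (map_add _ _ _) }
  have : IsScalarTower K⟮y⟯ K⟮algebraMap F F' y⟯ F' :=
    IsScalarTower.of_algebraMap_eq fun _ => rfl
  exact Module.Finite.of_restrictScalars_finite K⟮y⟯ K⟮algebraMap F F' y⟯ F'

theorem algebraMap_mem_adjoin_singleton (y : F) (a : Algebra.adjoin K {y}) :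
    algebraMap F F' (a : F) ∈ Algebra.adjoin K {algebraMap F F' y} := by
  have h : (Algebra.adjoin K {y}).map (IsScalarTower.toAlgHom K F F')
      = Algebra.adjoin K {algebraMap F F' y} := by
    rw [AlgHom.map_adjoin_singleton]; rfl
  rw [← h]
  exact ⟨a, a.2, rfl⟩

theorem exists_algebraMap_eq_of_mem_adjoin_singleton (y : F)
    (a' : Algebra.adjoin K {algebraMap F F' y}) :
    ∃ a : Algebra.adjoin K {y}, algebraMap F F' (a : F) = a' := by
  have h : (Algebra.adjoin K {y}).map (IsScalarTower.toAlgHom K F F')
      = Algebra.adjoin K {algebraMap F F' y} := by
    rw [AlgHom.map_adjoin_singleton]; rfl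
  have ha' : (a' : F') ∈ (Algebra.adjoin K {y}).map (IsScalarTower.toAlgHom K F F') := by
    rw [h]; exact a'.2
  obtain ⟨a, ha, hEq⟩ := ha'
  exact ⟨⟨a, ha⟩, hEq⟩

/-- **Finiteness of the integral closure of `K[y]` in a finite extension `F'` of the function
field `F`**, `K` perfect, no separability hypothesis. -/
theorem fg_integralClosure_adjoin_tower [PerfectField K] (y : F) [FiniteDimensional K⟮y⟯ F]
    [FiniteDimensional F F'] :
    (Subalgebra.toSubmodule (integralClosure (Algebra.adjoin K {y}) F')).FG := by
  have : FiniteDimensional K⟮algebraMap F F' y⟯ F' := finiteDimensional_adjoin_algebraMap y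
  have h0 := Fermat.Agent.S18.helper8246.integralClosure_adjoin_fg (K := K) (algebraMap F F' y)
  let _ : Algebra (Algebra.adjoin K {y}) (Algebra.adjoin K {algebraMap F F' y}) :=
    RingHom.toAlgebra
    { toFun := fun a => ⟨algebraMap F F' (a : F), algebraMap_mem_adjoin_singleton y a⟩
      map_one' := Subtype.ext (map_one _)
      map_mul' := fun _ _ => Subtype.ext (map_mul _ _ _)
      map_zero' := Subtype.ext (map_zero _)
      map_add' := fun _ _ => Subtype.ext (map_add _ _ _) }
  have : IsScalarTower (Algebra.adjoin K {y}) (Algebra.adjoin K {algebraMap F F' y}) F' :=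
    IsScalarTower.of_algebraMap_eq fun _ => rfl
  refine fg_integralClosure_of_surjective
    (A' := Algebra.adjoin K {algebraMap F F' y}) ?_ h0
  intro a'
  obtain ⟨a, ha⟩ := exists_algebraMap_eq_of_mem_adjoin_singleton y a'
  exact ⟨a, Subtype.ext ha⟩

/-- **Finiteness of the integral closure of the valuation ring of a place**, `K` perfect, no
separability hypothesis (the place contains the generator `y`). -/
theorem fg_integralClosure_place_of_mem [PerfectField K] (y : F) [FiniteDimensional K⟮y⟯ F]
    [FiniteDimensional F F'] (v : Place K F) (hy : y ∈ v.toValuationSubring) :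
    (Subalgebra.toSubmodule (integralClosure v.toValuationSubring F')).FG := by
  have : IsDedekindDomain (integralClosure (Algebra.adjoin K {y}) F) :=
    Fermat.Agent.S18.helper8246.isDedekindDomain_integralClosure_adjoin y
  have : IsFractionRing (integralClosure (Algebra.adjoin K {y}) F) F :=
    Fermat.Agent.S18.helper8246.isFractionRing_integralClosure_adjoin y
  have h1 := fg_integralClosure_adjoin_tower (K := K) (F' := F') y
  have : IsScalarTower (Algebra.adjoin K {y}) (integralClosure (Algebra.adjoin K {y}) F) F' :=
    IsScalarTower.of_algebraMap_eq fun _ => rfl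
  have h2 : (Subalgebra.toSubmodule
      (integralClosure (integralClosure (Algebra.adjoin K {y}) F) F')).FG :=
    fg_integralClosure_of_isIntegral (A := Algebra.adjoin K {y}) h1
  have : IsScalarTower (integralClosure (Algebra.adjoin K {y}) F) F F' :=
    IsScalarTower.of_algebraMap_eq fun _ => rfl
  exact fg_integralClosure_valuationSubring v.toValuationSubring v.ne_top'
    (Fermat.Agent.S24.helper24.h204.integralClosure_le_of_mem v hy) h2

theorem adjoin_simple_inv (y : F) : K⟮y⁻¹⟯ = K⟮y⟯ := by
  apply le_antisymm
  · rw [IntermediateField.adjoin_simple_le_iff]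
    exact inv_mem (IntermediateField.mem_adjoin_simple_self K y)
  · rw [IntermediateField.adjoin_simple_le_iff]
    have := inv_mem (IntermediateField.mem_adjoin_simple_self K y⁻¹)
    rwa [inv_inv] at this

/-- **Finiteness of the integral closure of the valuation ring of a place**, `K` perfect, no
separability hypothesis. -/
theorem fg_integralClosure_place [PerfectField K] (y : F) [FiniteDimensional K⟮y⟯ F]
    [FiniteDimensional F F'] (v : Place K F) :
    (Subalgebra.toSubmodule (integralClosure v.toValuationSubring F')).FG := by
  rcases v.toValuationSubring.mem_or_inv_mem y with hy | hy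
  · exact fg_integralClosure_place_of_mem y v hy
  · have : FiniteDimensional K⟮y⁻¹⟯ F := by
      rw [adjoin_simple_inv]; infer_instance
    exact fg_integralClosure_place_of_mem y⁻¹ v hy

/-- **`IntClosureFinite` without separability**: `K` perfect, `F` a function field in one
variable over `K` (finite over `K(y)`), `F'` any finite extension of `F`. -/
theorem intClosureFinite_of_perfectField [PerfectField K] (y : F) [FiniteDimensional K⟮y⟯ F]
    [FiniteDimensional F F'] : IntClosureFinite K F F' :=
  ⟨fun v => Module.Finite.iff_fg.mpr (fg_integralClosure_place y v)⟩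


/-- Every place of a finite extension of a function field over an algebraically closed field has
residue field `K` (any characteristic). -/
theorem algebraMap_residueField_surjective_of_isAlgClosed [IsAlgClosed K] (y : F)
    [FiniteDimensional K⟮y⟯ F] [FiniteDimensional F F'] (w : Place K F') :
    Function.Surjective (algebraMap K w.ResidueField) := by
  have : FiniteDimensional K⟮algebraMap F F' y⟯ F' := finiteDimensional_adjoin_algebraMap y
  exact Fermat.Agent.S24.helper483.algebraMap_residueField_surjective (algebraMap F F' y) w

/-- **Fundamental identity `∑ e f = n`** for a finite extension of function fields over a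
perfect field, any characteristic, no separability hypothesis. -/
theorem sumRamificationInertia_of_perfectField [PerfectField K] (y : F)
    [FiniteDimensional K⟮y⟯ F] [FiniteDimensional F F'] [HasPrincipalDivisors K F'] :
    SumRamificationInertia K F F' := by
  have : IntClosureFinite K F F' := intClosureFinite_of_perfectField y
  exact sumRamificationInertia_of_intClosureFinite

/-- **Fundamental identity `∑ e(w|v) deg w = [F' : F] deg v`** for a finite extension of
function fields over a perfect field, any characteristic, no separability hypothesis. -/
theorem fundamentalIdentity_of_perfectField [PerfectField K] (y : F)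
    [FiniteDimensional K⟮y⟯ F] [FiniteDimensional F F'] [HasPrincipalDivisors K F'] :
    FundamentalIdentity K F F' := by
  have : IntClosureFinite K F F' := intClosureFinite_of_perfectField y
  exact fundamentalIdentity_of_intClosureFinite

/-- **Norm formula** for a finite extension of function fields over an algebraically closed
field, any characteristic, no separability hypothesis. -/
theorem pushforwardNormFormula_of_isAlgClosed [IsAlgClosed K] (y : F)
    [FiniteDimensional K⟮y⟯ F] [FiniteDimensional F F'] :
    Divisor.PushforwardNormFormula K F F' := by
  have : IntClosureFinite K F F' := intClosureFinite_of_perfectField y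
  exact pushforwardNormFormula_of_surjective
    (algebraMap_residueField_surjective_of_isAlgClosed y)

section LocalForm

variable [FiniteDimensional F F'] [IntClosureFinite K F F']

/-- **Local norm formula** `ord_v (N_{F'/F} f) = ∑_{w | v} ord_w f`, any characteristic, no
separability: finiteness of the integral closures and residue fields `K` upstairs. -/
theorem ord_norm_eq_sum_fiber_of_intClosureFinite [HasPrincipalDivisors K F']
    (hres : ∀ w : Place K F', Function.Surjective (algebraMap K w.ResidueField))
    (v : Place K F) {f : F'} (hf : f ≠ 0) :
    v.ord (Algebra.norm F f) = ∑ w ∈ v.fiber F', w.ord f := by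
  classical
  obtain ⟨D, hD, -⟩ := HasPrincipalDivisors.exists_divisor (K := K) f hf
  rw [← pushforwardNormFormula_of_surjective hres f hf D hD v, Divisor.pushforward_apply,
    ← Finset.sum_filter]
  have hterm : ∀ w : Place K F', D w * (w.inertiaDeg F : ℤ) = w.ord f := by
    intro w
    rw [inertiaDeg_eq_one_of_surjective w (hres w), hD]
    simp
  simp_rw [hterm]
  apply Finset.sum_subset
  · intro w hw
    rw [Finset.mem_filter] at hw
    exact Place.mem_fiber.mpr hw.2
  · intro w hw hnot
    rw [Finset.mem_filter, not_and] at hnot
    have hsupp : w ∉ D.support := fun h => hnot h (Place.mem_fiber.mp hw)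
    rw [Finsupp.notMem_support_iff, hD] at hsupp
    exact hsupp

/-- `∑_{w | v} e(w|v) = [F' : F]` when all places upstairs have residue field `K`; any
characteristic, no separability. -/
theorem sum_ramificationIndex_fiber_of_intClosureFinite [HasPrincipalDivisors K F']
    (hres : ∀ w : Place K F', Function.Surjective (algebraMap K w.ResidueField))
    (v : Place K F) :
    ∑ w ∈ v.fiber F', (w.ramificationIndex F : ℤ) = (Module.finrank F F' : ℤ) := by
  rw [← sum_ramificationIndex_mul_inertiaDeg v]
  refine Finset.sum_congr rfl fun w _ => ?_
  rw [inertiaDeg_eq_one_of_surjective w (hres w)]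
  simp

end LocalForm

/-- **Local norm formula** for a finite extension of function fields over an algebraically
closed field, any characteristic, no separability hypothesis. -/
theorem ord_norm_eq_sum_fiber_of_isAlgClosed [IsAlgClosed K] (y : F)
    [FiniteDimensional K⟮y⟯ F] [FiniteDimensional F F'] [HasPrincipalDivisors K F']
    (v : Place K F) {f : F'} (hf : f ≠ 0) :
    v.ord (Algebra.norm F f) = ∑ w ∈ v.fiber F', w.ord f := by
  have : IntClosureFinite K F F' := intClosureFinite_of_perfectField y
  exact ord_norm_eq_sum_fiber_of_intClosureFinite
    (algebraMap_residueField_surjective_of_isAlgClosed y) v hf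

/-- `∑_{w | v} e(w|v) = [F' : F]` for a finite extension of function fields over an
algebraically closed field, any characteristic, no separability hypothesis. -/
theorem sum_ramificationIndex_fiber_of_isAlgClosed [IsAlgClosed K] (y : F)
    [FiniteDimensional K⟮y⟯ F] [FiniteDimensional F F'] [HasPrincipalDivisors K F']
    (v : Place K F) :
    ∑ w ∈ v.fiber F', (w.ramificationIndex F : ℤ) = (Module.finrank F F' : ℤ) := by
  have : IntClosureFinite K F F' := intClosureFinite_of_perfectField y
  exact sum_ramificationIndex_fiber_of_intClosureFinite
    (algebraMap_residueField_surjective_of_isAlgClosed y) v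

end FunctionField

section Line

variable {K F : Type*} [Field K] [Field F] [Algebra K F]

theorem adjoin_gen_eq_top (x : F) :
    K⟮AdjoinSimple.gen K x⟯ = (⊤ : IntermediateField K K⟮x⟯) := by
  apply IntermediateField.lift_injective
  rw [IntermediateField.lift_adjoin_simple, IntermediateField.lift_top]
  rfl

theorem finiteDimensional_adjoin_gen (x : F) :
    FiniteDimensional K⟮AdjoinSimple.gen K x⟯ K⟮x⟯ := by
  rw [adjoin_gen_eq_top]
  exact Module.finite_of_finrank_pos (by rw [IntermediateField.finrank_top]; exact one_pos)

/-- **The line**: for `K` perfect and `F` finite over `K(x)`, the integral closures in `F` of the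
valuation rings of the places of `K(x)` are module-finite; no separability hypothesis. -/
theorem intClosureFinite_line [PerfectField K] (x : F) [FiniteDimensional K⟮x⟯ F] :
    IntClosureFinite K K⟮x⟯ F := by
  have : FiniteDimensional K⟮AdjoinSimple.gen K x⟯ K⟮x⟯ := finiteDimensional_adjoin_gen x
  exact intClosureFinite_of_perfectField (AdjoinSimple.gen K x)

/-- Fundamental identity `∑ e f = [F : K(x)]` over the line, `K` perfect, any transcendental or
not `x`, no separability hypothesis. -/
theorem sumRamificationInertia_line [PerfectField K] (x : F) [FiniteDimensional K⟮x⟯ F]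
    [HasPrincipalDivisors K F] : SumRamificationInertia K K⟮x⟯ F := by
  have : IntClosureFinite K K⟮x⟯ F := intClosureFinite_line x
  exact sumRamificationInertia_of_intClosureFinite

/-- Fundamental identity over the line, `K` perfect, no separability hypothesis. -/
theorem fundamentalIdentity_line [PerfectField K] (x : F) [FiniteDimensional K⟮x⟯ F]
    [HasPrincipalDivisors K F] : FundamentalIdentity K K⟮x⟯ F := by
  have : IntClosureFinite K K⟮x⟯ F := intClosureFinite_line x
  exact fundamentalIdentity_of_intClosureFinite

/-- Every place of `F` has residue field `K` (`K` algebraically closed, any characteristic). -/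
theorem algebraMap_residueField_surjective_line [IsAlgClosed K] (x : F)
    [FiniteDimensional K⟮x⟯ F] (w : Place K F) :
    Function.Surjective (algebraMap K w.ResidueField) :=
  Fermat.Agent.S24.helper483.algebraMap_residueField_surjective x w

/-- **Norm formula over the line**, `K` algebraically closed, any characteristic, no
separability hypothesis on `F / K(x)`. -/
theorem pushforwardNormFormula_line [IsAlgClosed K] (x : F) [FiniteDimensional K⟮x⟯ F] :
    Divisor.PushforwardNormFormula K K⟮x⟯ F := by
  have : IntClosureFinite K K⟮x⟯ F := intClosureFinite_line x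
  exact pushforwardNormFormula_of_surjective (algebraMap_residueField_surjective_line x)

/-- **Norm-order formula over the line** `ord_v (N_{F/K(x)} f) = ∑_{w | v} ord_w f`, `K`
algebraically closed, any characteristic, no separability hypothesis on `F / K(x)`. -/
theorem ord_norm_eq_sum_fiber_line [IsAlgClosed K] (x : F) [FiniteDimensional K⟮x⟯ F]
    [HasPrincipalDivisors K F] (v : Place K K⟮x⟯) (f : F) (hf : f ≠ 0) :
    v.ord (Algebra.norm K⟮x⟯ f) = ∑ w ∈ v.fiber F, w.ord f := by
  have : IntClosureFinite K K⟮x⟯ F := intClosureFinite_line x
  exact ord_norm_eq_sum_fiber_of_intClosureFinite (algebraMap_residueField_surjective_line x) v hf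

/-- `∑_{w | v} e(w|v) = [F : K(x)]` over the line, `K` algebraically closed, any
characteristic, no separability hypothesis. -/
theorem sum_ramificationIndex_fiber_line [IsAlgClosed K] (x : F) [FiniteDimensional K⟮x⟯ F]
    [HasPrincipalDivisors K F] (v : Place K K⟮x⟯) :
    ∑ w ∈ v.fiber F, (w.ramificationIndex K⟮x⟯ : ℤ) = (Module.finrank K⟮x⟯ F : ℤ) := by
  have : IntClosureFinite K K⟮x⟯ F := intClosureFinite_line x
  exact sum_ramificationIndex_fiber_of_intClosureFinite
    (algebraMap_residueField_surjective_line x) v

end Line

section AlongPerfect

variable {K F F' : Type*} [Field K] [Field F] [Field F'] [Algebra K F] [Algebra K F']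

/-- `IntClosureFinite` along a finite `K`-embedding of function fields, `K` perfect. -/
theorem intClosureFinite_along [PerfectField K] (φ : F →ₐ[K] F') (hfin : FiniteAlong K φ)
    (y : F) [FiniteDimensional K⟮y⟯ F] :
    letI := algebraAlong φ; IntClosureFinite K F F' := by
  letI := algebraAlong φ
  haveI := isScalarTower_along φ
  haveI : Module.Finite F F' := hfin
  exact intClosureFinite_of_perfectField y

/-- Fundamental identity along a finite `K`-embedding of function fields, `K` perfect, any
characteristic, no separability hypothesis. -/
theorem fundamentalIdentityAlong_of_perfectField [PerfectField K] [HasPrincipalDivisors K F']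
    (φ : F →ₐ[K] F') (hφ : φ.toRingHom.IsIntegral) (hfin : FiniteAlong K φ)
    (y : F) [FiniteDimensional K⟮y⟯ F] :
    FundamentalIdentityAlong K φ hφ :=
  fundamentalIdentityAlong_of_intClosureFinite φ hφ hfin (intClosureFinite_along φ hfin y)

/-- Norm formula along a finite `K`-embedding of function fields, `K` algebraically closed, any
characteristic, no separability hypothesis. -/
theorem normFormulaAlong_of_isAlgClosed [IsAlgClosed K] (φ : F →ₐ[K] F')
    (hfin : FiniteAlong K φ) (y : F) [FiniteDimensional K⟮y⟯ F] :
    NormFormulaAlong K φ hfin := by
  letI := algebraAlong φ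
  haveI := isScalarTower_along φ
  haveI : Module.Finite F F' := hfin
  exact pushforwardNormFormula_of_isAlgClosed y

end AlongPerfect

end Fermat.Agent.S37.helper1187

end
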