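import Mathlib
import Fermat.Prelude.Def_AlgebraicCurve_Repartitions
import Fermat.Prelude.Def_AlgebraicCurve_BaseChangeGalois

/-!
# S37: the Kronecker relation at divisor level (abstract)

Setting: two function fields `F / K` and `Fb / k` (Prelude `Place`, `Divisor`,
`riemannRochSpace`), a subring `O ⊆ F` (the Gauss ring) with a reduction map `red : O →+* Fb`,
and a map on places `ρ : Place K F → Place k Fb`.

`IsLatticeReduction O red ρ c` says that `ρ` is *the* Deuring reduction of divisors: for every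
effective divisor `E` of degree `≥ c` and every place `Q` of `Fb`, the coefficient of `Q` in
`ρ_* E` is the largest pole order at `Q` among the nonzero reductions of elements of `L(E) ∩ O`.

From this characterisation alone we prove

* `map_smul_place` (equivariance): `ρ (g • P) = gb • ρ P` for every pair of semilinear
  automorphisms `(g, gb)` compatible with `(O, red)`;
* `mapDomain_correspondence` (Kronecker at divisor level): if `T` is a positive endomorphism of
  `Divisor K F` multiplying degrees by `ℓ + 1` and `ν : F → F` satisfies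
  `f ∈ L(E) → ν f ∈ L(T E)` and `red (ν f) = Φ₁ (red f) * Φ₂ (red f) ^ ℓ`, then
  `ρ_* (T D) = Φ₁ • ρ_* D + ℓ • Φ₂ • ρ_* D` for **every** divisor `D`;
* `mapDomain_eichlerShimura`: `ρ_* (g₀ • g₀ • D - T (g₀ • D) + ℓ • D) = 0`;
* the induced map on `Pic0` kills `τ • x - x` and the Eichler–Shimura element.

No places of any auxiliary field, no values of functions at places and no integral models occur.
-/

set_option autoImplicit false

noncomputable section

namespace Fermat.Agent.S37.helper8523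

open AlgebraicCurve

variable {K F k Fb : Type*} [Field K] [Field F] [Algebra K F] [Field k] [Field Fb] [Algebra k Fb]

/-! ### Orders -/

section Ord

variable (v : Place K F)

theorem ord_neg (f : F) : v.ord (-f) = v.ord f := by
  unfold Place.ord
  rw [Valuation.map_neg]

/-- Ultrametric inequality for `Place.ord`. -/
theorem le_ord_add {f g : F} {n : ℤ} (hfg : f + g ≠ 0) (hf : f = 0 ∨ n ≤ v.ord f)
    (hg : g = 0 ∨ n ≤ v.ord g) : n ≤ v.ord (f + g) := by
  have h1 : v.adicValuation f ≤ WithZero.exp (-n) :=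
    v.adicValuation_le_exp_iff.mpr (by simpa using hf)
  have h2 : v.adicValuation g ≤ WithZero.exp (-n) :=
    v.adicValuation_le_exp_iff.mpr (by simpa using hg)
  have h3 : v.adicValuation (f + g) ≤ WithZero.exp (-n) :=
    (Valuation.map_add _ _ _).trans (max_le h1 h2)
  rcases v.adicValuation_le_exp_iff.mp h3 with h | h
  · exact absurd h hfg
  · simpa using h

/-- If `ord f < ord g` then `f + g ≠ 0` and `ord (f + g) = ord f`. -/
theorem ord_add_of_lt {f g : F} (hf : f ≠ 0) (h : v.ord f < v.ord g) :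
    f + g ≠ 0 ∧ v.ord (f + g) = v.ord f := by
  have hne : f + g ≠ 0 := by
    intro h0
    have : g = -f := by linear_combination h0
    rw [this, ord_neg] at h
    exact lt_irrefl _ h
  refine ⟨hne, le_antisymm ?_ ?_⟩
  · by_contra hlt
    rw [not_le] at hlt
    -- `f = (f + g) + (-g)` would have order `> ord f`
    have h1 : v.ord f + 1 ≤ v.ord ((f + g) + (-g)) := by
      refine le_ord_add v (by simpa using hf) (Or.inr (by omega)) (Or.inr ?_)
      rw [ord_neg]; omega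
    rw [add_neg_cancel_right] at h1
    omega
  · exact le_ord_add v hne (Or.inr le_rfl) (Or.inr h.le)

theorem ord_pow (f : F) (n : ℕ) : v.ord (f ^ n) = n * v.ord f := by
  have := v.ord_zpow f (n : ℤ)
  simpa using this

end Ord


/-! ### Divisors -/

section Divisors

theorem degree_eq_sum (D : Divisor K F) :
    Divisor.degree D = ∑ v ∈ D.support, D v * (v.deg : ℤ) := by
  simp [Divisor.degree, Finsupp.sum]

theorem degree_nonneg {D : Divisor K F} (h0 : 0 ≤ D) : 0 ≤ Divisor.degree D := by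
  rw [degree_eq_sum]
  exact Finset.sum_nonneg fun v _ => mul_nonneg (Finsupp.le_def.mp h0 v) (Int.natCast_nonneg _)

/-- A nonnegative divisor of degree zero, all places having degree one, is zero. -/
theorem divisor_eq_zero_of_nonneg_of_degree_eq_zero (hdeg : ∀ Q : Place K F, Q.deg = 1)
    {D : Divisor K F} (h0 : 0 ≤ D) (hD : Divisor.degree D = 0) : D = 0 := by
  rw [degree_eq_sum] at hD
  have hnn : ∀ v ∈ D.support, 0 ≤ D v * (v.deg : ℤ) := fun v _ =>
    mul_nonneg (Finsupp.le_def.mp h0 v) (Int.natCast_nonneg _)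
  have hz := (Finset.sum_eq_zero_iff_of_nonneg hnn).mp hD
  ext v
  by_cases hv : v ∈ D.support
  · have := hz v hv
    rw [hdeg v] at this
    simpa using this
  · simpa [Finsupp.mem_support_iff] using hv

theorem degree_mapDomain {ρ : Place K F → Place k Fb} (hdeg : ∀ P, (ρ P).deg = P.deg)
    (D : Divisor K F) : Divisor.degree (Finsupp.mapDomain ρ D) = Divisor.degree D := by
  induction D using Finsupp.induction with
  | zero => simp
  | single_add P n D _ _ ih =>
    rw [Finsupp.mapDomain_add, map_add, map_add, ih, Finsupp.mapDomain_single,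
      Divisor.degree_single, Divisor.degree_single, hdeg]

theorem smul_divisor_nonneg (g : SemilinearAut K F) {E : Divisor K F} (hE : 0 ≤ E) :
    0 ≤ g • E := by
  rw [Finsupp.le_def]
  intro w
  rw [SemilinearAut.divisor_smul_apply]
  exact Finsupp.le_def.mp hE _

theorem smul_mem_riemannRochSpace (g : SemilinearAut K F) {E : Divisor K F} {f : F}
    (hf : f ∈ riemannRochSpace E) : g • f ∈ riemannRochSpace (g • E) := by
  rw [mem_riemannRochSpace_iff] at hf ⊢
  intro w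
  rcases hf (g⁻¹ • w) with h | h
  · left
    rw [h, smul_zero]
  · right
    rw [SemilinearAut.divisor_smul_apply]
    have := SemilinearAut.ord_smul g (g⁻¹ • w) f
    rw [smul_inv_smul] at this
    rw [this]
    exact h

theorem ord_smul_eq (g : SemilinearAut K F) (Q : Place K F) (f : F) :
    Q.ord (g • f) = (g⁻¹ • Q).ord f := by
  have := SemilinearAut.ord_smul g (g⁻¹ • Q) f
  rwa [smul_inv_smul] at this

end Divisors

/-! ### Lattice reductions -/

/-- **Lattice (Deuring) reduction.** `ρ` computes, on effective divisors `E` of degree `≥ c`, the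
largest pole orders of the reductions of `L(E) ∩ O`: for every place `Q` of `Fb`, every nonzero
reduction of an element of `L(E) ∩ O` has order `≥ -(ρ_* E)(Q)` at `Q` (clause `LE`), and the
bound is attained (clause `ATT`). -/
def IsLatticeReduction (O : Subring F) (red : O →+* Fb) (ρ : Place K F → Place k Fb) (c : ℤ) :
    Prop :=
  ∀ E : Divisor K F, 0 ≤ E → c ≤ Divisor.degree E → ∀ Q : Place k Fb,
    (∀ (f : F) (hf : f ∈ O), f ∈ riemannRochSpace E → red ⟨f, hf⟩ ≠ 0 →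
        -(Finsupp.mapDomain ρ E Q) ≤ Q.ord (red ⟨f, hf⟩)) ∧
    (∃ (f : F) (hf : f ∈ O), f ∈ riemannRochSpace E ∧ red ⟨f, hf⟩ ≠ 0 ∧
        Q.ord (red ⟨f, hf⟩) = -(Finsupp.mapDomain ρ E Q))

section Equivariance

variable {O : Subring F} {red : O →+* Fb} {ρ : Place K F → Place k Fb} {c : ℤ}

/-- Equivariance of a lattice reduction on large effective divisors. -/
theorem mapDomain_smul_of_large (hρ : IsLatticeReduction O red ρ c)
    (g : SemilinearAut K F) (gb : SemilinearAut k Fb)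
    (hO : ∀ f : F, f ∈ O → g • f ∈ O) (hO' : ∀ f : F, f ∈ O → g⁻¹ • f ∈ O)
    (hred : ∀ (f : F) (hf : f ∈ O), red ⟨g • f, hO f hf⟩ = gb • red ⟨f, hf⟩)
    {E : Divisor K F} (hE : 0 ≤ E) (hc : c ≤ Divisor.degree E) :
    Finsupp.mapDomain ρ (g • E) = gb • Finsupp.mapDomain ρ E := by
  ext Q'
  rw [SemilinearAut.divisor_smul_apply]
  have hgE0 : 0 ≤ g • E := smul_divisor_nonneg g hE
  have hgEc : c ≤ Divisor.degree (g • E) := by rw [SemilinearAut.degree_smul]; exact hc
  apply le_antisymm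
  · obtain ⟨f', hf'O, hf'L, hf'ne, hf'ord⟩ := (hρ (g • E) hgE0 hgEc Q').2
    have hfO : g⁻¹ • f' ∈ O := hO' f' hf'O
    have hfL : g⁻¹ • f' ∈ riemannRochSpace E := by
      have := smul_mem_riemannRochSpace g⁻¹ hf'L
      rwa [inv_smul_smul] at this
    have hred' : red ⟨f', hf'O⟩ = gb • red ⟨g⁻¹ • f', hfO⟩ := by
      rw [← hred (g⁻¹ • f') hfO]
      congr 1
      exact Subtype.ext (smul_inv_smul g f').symm
    have hne : red ⟨g⁻¹ • f', hfO⟩ ≠ 0 := by
      intro h
      apply hf'ne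
      rw [hred', h, smul_zero]
    have hle := (hρ E hE hc (gb⁻¹ • Q')).1 _ hfO hfL hne
    have hord : Q'.ord (red ⟨f', hf'O⟩) = (gb⁻¹ • Q').ord (red ⟨g⁻¹ • f', hfO⟩) := by
      rw [hred', ord_smul_eq]
    omega
  · obtain ⟨f, hfO, hfL, hfne, hford⟩ := (hρ E hE hc (gb⁻¹ • Q')).2
    have hne : red ⟨g • f, hO f hfO⟩ ≠ 0 := by
      rw [hred f hfO]
      intro h
      exact hfne ((smul_eq_zero_iff_eq gb).mp h)
    have hle := (hρ (g • E) hgE0 hgEc Q').1 _ (hO f hfO) (smul_mem_riemannRochSpace g hfL) hne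
    rw [hred f hfO, ord_smul_eq] at hle
    omega

/-- **Equivariance**: a lattice reduction commutes with every pair of semilinear automorphisms
compatible with `(O, red)`. -/
theorem map_smul_place (hρ : IsLatticeReduction O red ρ c)
    (hdeg : ∀ P : Place K F, P.deg = 1)
    (g : SemilinearAut K F) (gb : SemilinearAut k Fb)
    (hO : ∀ f : F, f ∈ O → g • f ∈ O) (hO' : ∀ f : F, f ∈ O → g⁻¹ • f ∈ O)
    (hred : ∀ (f : F) (hf : f ∈ O), red ⟨g • f, hO f hf⟩ = gb • red ⟨f, hf⟩)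
    (P : Place K F) : ρ (g • P) = gb • ρ P := by
  set n : ℤ := max c 1 with hn
  have hn1 : (1 : ℤ) ≤ n := le_max_right _ _
  have hE : 0 ≤ (Finsupp.single P n : Divisor K F) := by
    rw [Finsupp.le_def]
    intro w
    by_cases hw : w = P
    · subst hw
      simp only [Finsupp.coe_zero, Pi.zero_apply, Finsupp.single_eq_same]
      omega
    · rw [Finsupp.single_eq_of_ne hw]
      simp
  have hc : c ≤ Divisor.degree (Finsupp.single P n : Divisor K F) := by
    rw [Divisor.degree_single, hdeg P]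
    simp only [Nat.cast_one, mul_one]
    exact le_max_left _ _
  have h := mapDomain_smul_of_large hρ g gb hO hO' hred hE hc
  rw [SemilinearAut.smul_single, Finsupp.mapDomain_single, Finsupp.mapDomain_single,
    SemilinearAut.smul_single] at h
  exact Finsupp.single_left_injective (by omega : n ≠ 0) h

/-- Equivariance on all divisors. -/
theorem mapDomain_smul {g : SemilinearAut K F} {gb : SemilinearAut k Fb}
    (hequiv : ∀ P, ρ (g • P) = gb • ρ P) (D : Divisor K F) :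
    Finsupp.mapDomain ρ (g • D) = gb • Finsupp.mapDomain ρ D := by
  rw [SemilinearAut.divisor_smul_def, SemilinearAut.divisor_smul_def, ← Finsupp.mapDomain_comp,
    ← Finsupp.mapDomain_comp]
  congr 1
  funext P
  exact hequiv P

end Equivariance


/-! ### The Kronecker relation at divisor level -/

section Correspondence

variable {O : Subring F} {red : O →+* Fb} {ρ : Place K F → Place k Fb} {c : ℤ}

/-- In a lattice reduction, the extremal pole orders at two places are attained simultaneously. -/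
theorem exists_exact_two (hρ : IsLatticeReduction O red ρ c) {E : Divisor K F} (hE : 0 ≤ E)
    (hc : c ≤ Divisor.degree E) (Q₁ Q₂ : Place k Fb) :
    ∃ (f : F) (hf : f ∈ O), f ∈ riemannRochSpace E ∧ red ⟨f, hf⟩ ≠ 0 ∧
      Q₁.ord (red ⟨f, hf⟩) = -(Finsupp.mapDomain ρ E Q₁) ∧
      Q₂.ord (red ⟨f, hf⟩) = -(Finsupp.mapDomain ρ E Q₂) := by
  obtain ⟨f₁, hf₁O, hf₁L, hf₁ne, hf₁ord⟩ := (hρ E hE hc Q₁).2
  obtain ⟨f₂, hf₂O, hf₂L, hf₂ne, hf₂ord⟩ := (hρ E hE hc Q₂).2
  by_cases h1 : Q₂.ord (red ⟨f₁, hf₁O⟩) = -(Finsupp.mapDomain ρ E Q₂)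
  · exact ⟨f₁, hf₁O, hf₁L, hf₁ne, hf₁ord, h1⟩
  by_cases h2 : Q₁.ord (red ⟨f₂, hf₂O⟩) = -(Finsupp.mapDomain ρ E Q₁)
  · exact ⟨f₂, hf₂O, hf₂L, hf₂ne, h2, hf₂ord⟩
  have h1' : -(Finsupp.mapDomain ρ E Q₂) < Q₂.ord (red ⟨f₁, hf₁O⟩) :=
    lt_of_le_of_ne ((hρ E hE hc Q₂).1 f₁ hf₁O hf₁L hf₁ne) (Ne.symm h1)
  have h2' : -(Finsupp.mapDomain ρ E Q₁) < Q₁.ord (red ⟨f₂, hf₂O⟩) :=
    lt_of_le_of_ne ((hρ E hE hc Q₁).1 f₂ hf₂O hf₂L hf₂ne) (Ne.symm h2)
  have hsum : red ⟨f₁ + f₂, O.add_mem hf₁O hf₂O⟩ = red ⟨f₁, hf₁O⟩ + red ⟨f₂, hf₂O⟩ := by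
    rw [← map_add]
    rfl
  have hA : red ⟨f₁, hf₁O⟩ + red ⟨f₂, hf₂O⟩ ≠ 0 ∧
      Q₁.ord (red ⟨f₁, hf₁O⟩ + red ⟨f₂, hf₂O⟩) = Q₁.ord (red ⟨f₁, hf₁O⟩) :=
    ord_add_of_lt Q₁ hf₁ne (by rw [hf₁ord]; exact h2')
  have hB : red ⟨f₂, hf₂O⟩ + red ⟨f₁, hf₁O⟩ ≠ 0 ∧
      Q₂.ord (red ⟨f₂, hf₂O⟩ + red ⟨f₁, hf₁O⟩) = Q₂.ord (red ⟨f₂, hf₂O⟩) :=
    ord_add_of_lt Q₂ hf₂ne (by rw [hf₂ord]; exact h1')
  refine ⟨f₁ + f₂, O.add_mem hf₁O hf₂O, Submodule.add_mem _ hf₁L hf₂L, ?_, ?_, ?_⟩
  · rw [hsum]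
    exact hA.1
  · rw [hsum, hA.2, hf₁ord]
  · rw [hsum, add_comm, hB.2, hf₂ord]

variable (T : Divisor K F →+ Divisor K F) (ν : F → F) (ℓ : ℕ) (Φ₁ Φ₂ : SemilinearAut k Fb)

/-- The inequality `Φ₁ • ρ_* E + ℓ • Φ₂ • ρ_* E ≤ ρ_* (T E)` for large effective `E`. -/
theorem le_mapDomain_correspondence_of_large (hρ : IsLatticeReduction O red ρ c)
    (hTpos : ∀ E, 0 ≤ E → 0 ≤ T E)
    (hνL : ∀ E : Divisor K F, 0 ≤ E → ∀ f ∈ riemannRochSpace E, f ≠ 0 →
      ν f ∈ riemannRochSpace (T E))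
    (hνred : ∀ (f : F) (hf : f ∈ O), red ⟨f, hf⟩ ≠ 0 →
      ∃ hν : ν f ∈ O, red ⟨ν f, hν⟩ = (Φ₁ • red ⟨f, hf⟩) * (Φ₂ • red ⟨f, hf⟩) ^ ℓ)
    {E : Divisor K F} (hE : 0 ≤ E) (hc : c ≤ Divisor.degree E)
    (hcT : c ≤ Divisor.degree (T E)) :
    Φ₁ • Finsupp.mapDomain ρ E + ℓ • (Φ₂ • Finsupp.mapDomain ρ E)
      ≤ Finsupp.mapDomain ρ (T E) := by
  rw [Finsupp.le_def]
  intro Q
  rw [Finsupp.add_apply, Finsupp.smul_apply, SemilinearAut.divisor_smul_apply,
    SemilinearAut.divisor_smul_apply]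
  obtain ⟨f, hfO, hfL, hfne, h1, h2⟩ := exists_exact_two hρ hE hc (Φ₁⁻¹ • Q) (Φ₂⁻¹ • Q)
  have hf0 : f ≠ 0 := by
    rintro rfl
    apply hfne
    exact map_zero red
  obtain ⟨hνO, hνeq⟩ := hνred f hfO hfne
  have hne1 : Φ₁ • red ⟨f, hfO⟩ ≠ 0 := fun h => hfne ((smul_eq_zero_iff_eq Φ₁).mp h)
  have hne2 : Φ₂ • red ⟨f, hfO⟩ ≠ 0 := fun h => hfne ((smul_eq_zero_iff_eq Φ₂).mp h)
  have hνne : red ⟨ν f, hνO⟩ ≠ 0 := by
    rw [hνeq]
    exact mul_ne_zero hne1 (pow_ne_zero _ hne2)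
  have hle := (hρ (T E) (hTpos E hE) hcT Q).1 (ν f) hνO (hνL E hE f hfL hf0) hνne
  rw [hνeq, Q.ord_mul hne1 (pow_ne_zero _ hne2), ord_pow, ord_smul_eq, ord_smul_eq, h1, h2]
    at hle
  simp only [nsmul_eq_mul]
  linarith

/-- The Kronecker relation on large effective divisors. -/
theorem mapDomain_correspondence_of_large (hρ : IsLatticeReduction O red ρ c)
    (hdegK : ∀ P : Place K F, P.deg = 1) (hdegk : ∀ Q : Place k Fb, Q.deg = 1)
    (hTpos : ∀ E, 0 ≤ E → 0 ≤ T E)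
    (hTdeg : ∀ E, Divisor.degree (T E) = (ℓ + 1) * Divisor.degree E)
    (hνL : ∀ E : Divisor K F, 0 ≤ E → ∀ f ∈ riemannRochSpace E, f ≠ 0 →
      ν f ∈ riemannRochSpace (T E))
    (hνred : ∀ (f : F) (hf : f ∈ O), red ⟨f, hf⟩ ≠ 0 →
      ∃ hν : ν f ∈ O, red ⟨ν f, hν⟩ = (Φ₁ • red ⟨f, hf⟩) * (Φ₂ • red ⟨f, hf⟩) ^ ℓ)
    {E : Divisor K F} (hE : 0 ≤ E) (hc : c ≤ Divisor.degree E) :
    Finsupp.mapDomain ρ (T E)
      = Φ₁ • Finsupp.mapDomain ρ E + ℓ • (Φ₂ • Finsupp.mapDomain ρ E) := by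
  have hd0 : 0 ≤ Divisor.degree E := degree_nonneg hE
  have hcT : c ≤ Divisor.degree (T E) := by
    rw [hTdeg]
    have : (0 : ℤ) ≤ (ℓ : ℤ) * Divisor.degree E := mul_nonneg (Int.natCast_nonneg _) hd0
    linarith
  have hle := le_mapDomain_correspondence_of_large T ν ℓ Φ₁ Φ₂ hρ hTpos hνL hνred hE hc hcT
  have hρdeg : ∀ P, (ρ P).deg = P.deg := fun P => by rw [hdegk, hdegK]
  have hdeg : Divisor.degree (Finsupp.mapDomain ρ (T E)
      - (Φ₁ • Finsupp.mapDomain ρ E + ℓ • (Φ₂ • Finsupp.mapDomain ρ E))) = 0 := by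
    rw [map_sub, map_add, map_nsmul, degree_mapDomain hρdeg, SemilinearAut.degree_smul,
      SemilinearAut.degree_smul, degree_mapDomain hρdeg, hTdeg]
    simp only [nsmul_eq_mul]
    ring
  have h0 := divisor_eq_zero_of_nonneg_of_degree_eq_zero hdegk (sub_nonneg.mpr hle) hdeg
  exact sub_eq_zero.mp h0

/-- **Kronecker relation at divisor level.** If `ν` realises `T` on functions
(`f ∈ L(E) → ν f ∈ L(T E)`), reduces as `red (ν f) = Φ₁ (red f) * Φ₂ (red f) ^ ℓ`, and `T`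
multiplies degrees by `ℓ + 1`, then `ρ_* ∘ T = (Φ₁ + ℓ Φ₂) ∘ ρ_*` on all divisors. -/
theorem mapDomain_correspondence (hρ : IsLatticeReduction O red ρ c)
    (hdegK : ∀ P : Place K F, P.deg = 1) (hdegk : ∀ Q : Place k Fb, Q.deg = 1)
    (hTpos : ∀ E, 0 ≤ E → 0 ≤ T E)
    (hTdeg : ∀ E, Divisor.degree (T E) = (ℓ + 1) * Divisor.degree E)
    (hνL : ∀ E : Divisor K F, 0 ≤ E → ∀ f ∈ riemannRochSpace E, f ≠ 0 →
      ν f ∈ riemannRochSpace (T E))
    (hνred : ∀ (f : F) (hf : f ∈ O), red ⟨f, hf⟩ ≠ 0 →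
      ∃ hν : ν f ∈ O, red ⟨ν f, hν⟩ = (Φ₁ • red ⟨f, hf⟩) * (Φ₂ • red ⟨f, hf⟩) ^ ℓ)
    (D : Divisor K F) :
    Finsupp.mapDomain ρ (T D)
      = Φ₁ • Finsupp.mapDomain ρ D + ℓ • (Φ₂ • Finsupp.mapDomain ρ D) := by
  let lhs : Divisor K F →+ Divisor k Fb := (Finsupp.mapDomain.addMonoidHom ρ).comp T
  let rhs : Divisor K F →+ Divisor k Fb :=
    ((DistribSMul.toAddMonoidHom (Divisor k Fb) Φ₁).comp (Finsupp.mapDomain.addMonoidHom ρ)) +
      ℓ • ((DistribSMul.toAddMonoidHom (Divisor k Fb) Φ₂).comp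
        (Finsupp.mapDomain.addMonoidHom ρ))
  suffices h : lhs = rhs from DFunLike.congr_fun h D
  refine Finsupp.addHom_ext fun P m => ?_
  have key : ∀ a : ℤ, max c 0 ≤ a →
      lhs (Finsupp.single P a) = rhs (Finsupp.single P a) := by
    intro a ha
    have ha0 : 0 ≤ a := (le_max_right _ _).trans ha
    have hE : 0 ≤ (Finsupp.single P a : Divisor K F) := by
      rw [Finsupp.le_def]
      intro w
      by_cases hw : w = P
      · subst hw
        simpa using ha0
      · rw [Finsupp.single_eq_of_ne hw]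
        simp
    have hc : c ≤ Divisor.degree (Finsupp.single P a : Divisor K F) := by
      rw [Divisor.degree_single, hdegK P]
      simp only [Nat.cast_one, mul_one]
      exact (le_max_left _ _).trans ha
    exact mapDomain_correspondence_of_large T ν ℓ Φ₁ Φ₂ hρ hdegK hdegk hTpos hTdeg hνL hνred
      hE hc
  have hsplit : (Finsupp.single P m : Divisor K F)
      = Finsupp.single P (m + max c 0 + |m|) - Finsupp.single P (max c 0 + |m|) := by
    rw [← Finsupp.single_sub]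
    congr 1
    ring
  have h1 : max c 0 ≤ m + max c 0 + |m| := by
    have := neg_abs_le m
    linarith
  have h2 : max c 0 ≤ max c 0 + |m| := by
    have := abs_nonneg m
    linarith
  rw [hsplit, map_sub, map_sub, key _ h1, key _ h2]

/-- **Eichler–Shimura relation at divisor level**: if `ρ ∘ g₀ = Φ ∘ ρ` on places and the
Kronecker relation holds with `Φ₁ = Φ`, `Φ₂ = Φ⁻¹`, then `ρ_*` kills
`g₀ • g₀ • D - T (g₀ • D) + ℓ • D` for every divisor `D`. -/
theorem mapDomain_eichlerShimura (g₀ : SemilinearAut K F) (Φ : SemilinearAut k Fb)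
    (hequiv : ∀ P, ρ (g₀ • P) = Φ • ρ P)
    (hcorr : ∀ D : Divisor K F, Finsupp.mapDomain ρ (T D)
      = Φ • Finsupp.mapDomain ρ D + ℓ • (Φ⁻¹ • Finsupp.mapDomain ρ D))
    (D : Divisor K F) :
    Finsupp.mapDomain ρ (g₀ • g₀ • D - T (g₀ • D) + ℓ • D) = 0 := by
  have e : Finsupp.mapDomain ρ (g₀ • g₀ • D - T (g₀ • D) + ℓ • D)
      = Finsupp.mapDomain ρ (g₀ • g₀ • D) - Finsupp.mapDomain ρ (T (g₀ • D))
        + ℓ • Finsupp.mapDomain ρ D := by
    simp only [← Finsupp.mapDomain.addMonoidHom_apply, map_add, map_sub, map_nsmul]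
  rw [e, hcorr, mapDomain_smul hequiv, mapDomain_smul hequiv, inv_smul_smul]
  abel

end Correspondence


/-! ### The induced map on `Pic0` -/

section Pic0

variable (ρ : Place K F → Place k Fb)

/-- The map induced by a degree-preserving map of places on degree-zero divisors. -/
def degZeroMap (hdeg : ∀ P, (ρ P).deg = P.deg) :
    Divisor.degZero (K := K) (F := F) →+ Divisor.degZero (K := k) (F := Fb) :=
  ((Finsupp.mapDomain.addMonoidHom ρ).domRestrict _).codRestrict _ fun D => by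
    rw [Divisor.mem_degZero]
    show Divisor.degree (Finsupp.mapDomain ρ (D : Divisor K F)) = 0
    rw [degree_mapDomain hdeg]
    exact Divisor.mem_degZero.mp D.2

@[simp]
theorem coe_degZeroMap (hdeg : ∀ P, (ρ P).deg = P.deg)
    (D : Divisor.degZero (K := K) (F := F)) :
    (degZeroMap ρ hdeg D : Divisor k Fb) = Finsupp.mapDomain ρ (D : Divisor K F) :=
  rfl

/-- The map induced on `Pic0` by a degree-preserving map of places sending principal divisors to
principal divisors. -/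
def pic0Map (hdeg : ∀ P, (ρ P).deg = P.deg)
    (hprin : ∀ D ∈ Divisor.principal (K := K) (F := F),
      Finsupp.mapDomain ρ D ∈ Divisor.principal (K := k) (F := Fb)) :
    Pic0 K F →+ Pic0 k Fb :=
  QuotientAddGroup.map _ _ (degZeroMap ρ hdeg) (by
    rintro ⟨D, hD0⟩ hD
    simp only [AddSubgroup.mem_addSubgroupOf] at hD ⊢
    exact hprin D hD)

variable {ρ}
variable (hdeg : ∀ P, (ρ P).deg = P.deg)
  (hprin : ∀ D ∈ Divisor.principal (K := K) (F := F),
      Finsupp.mapDomain ρ D ∈ Divisor.principal (K := k) (F := Fb))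

theorem pic0Map_mk (D : Divisor.degZero (K := K) (F := F)) :
    pic0Map ρ hdeg hprin (Pic0.mk D) = Pic0.mk (degZeroMap ρ hdeg D) :=
  rfl

/-- `pic0Map` is invariant under every semilinear automorphism `g` with `ρ ∘ g = ρ`
(clause (R1): inertia). -/
theorem pic0Map_smul_of_invariant (g : SemilinearAut K F) (hinv : ∀ P, ρ (g • P) = ρ P)
    (x : Pic0 K F) : pic0Map ρ hdeg hprin (g • x) = pic0Map ρ hdeg hprin x := by
  obtain ⟨D, rfl⟩ := Pic0.mk_surjective x
  rw [SemilinearAut.pic0_smul_mk, pic0Map_mk, pic0Map_mk]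
  congr 1
  apply Subtype.ext
  rw [coe_degZeroMap, coe_degZeroMap, SemilinearAut.coe_degZeroSMulHom,
    SemilinearAut.divisor_smul_def, ← Finsupp.mapDomain_comp]
  congr 1
  funext P
  exact hinv P

/-- `pic0Map` kills the Eichler–Shimura element (clause (R2)), for any endomorphism `𝕋` of
`Pic0` induced by `T` on divisors. -/
theorem pic0Map_eichlerShimura (T : Divisor K F →+ Divisor K F) (ℓ : ℕ)
    (g₀ : SemilinearAut K F)
    (hES : ∀ D : Divisor K F, Finsupp.mapDomain ρ (g₀ • g₀ • D - T (g₀ • D) + ℓ • D) = 0)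
    (𝕋 : Pic0 K F →+ Pic0 K F)
    (h𝕋 : ∀ D : Divisor.degZero (K := K) (F := F), ∃ D' : Divisor.degZero (K := K) (F := F),
      𝕋 (Pic0.mk D) = Pic0.mk D' ∧ (D' : Divisor K F) = T (D : Divisor K F))
    (x : Pic0 K F) :
    pic0Map ρ hdeg hprin (g₀ • g₀ • x) - pic0Map ρ hdeg hprin (𝕋 (g₀ • x))
      + ℓ • pic0Map ρ hdeg hprin x = 0 := by
  obtain ⟨D, rfl⟩ := Pic0.mk_surjective x
  rw [SemilinearAut.pic0_smul_mk]
  obtain ⟨D', hD', hD'T⟩ := h𝕋 (SemilinearAut.degZeroSMulHom g₀ D)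
  rw [hD', SemilinearAut.pic0_smul_mk, pic0Map_mk, pic0Map_mk, pic0Map_mk]
  have key : degZeroMap ρ hdeg (SemilinearAut.degZeroSMulHom g₀ (SemilinearAut.degZeroSMulHom g₀ D))
      - degZeroMap ρ hdeg D' + ℓ • degZeroMap ρ hdeg D = 0 := by
    apply Subtype.ext
    rw [AddSubgroup.coe_add, AddSubgroup.coe_sub, AddSubgroup.coe_nsmul, coe_degZeroMap,
      coe_degZeroMap, coe_degZeroMap, SemilinearAut.coe_degZeroSMulHom,
      SemilinearAut.coe_degZeroSMulHom, hD'T, SemilinearAut.coe_degZeroSMulHom]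
    have := hES (D : Divisor K F)
    simp only [← Finsupp.mapDomain.addMonoidHom_apply, map_add, map_sub, map_nsmul] at this ⊢
    exact this
  have h2 := congrArg (Pic0.mk (K := k) (F := Fb)) key
  exact h2

end Pic0

end Fermat.Agent.S37.helper8523
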