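import Mathlib
import Fermat.Agent.S18.helper4307_PlacesFullC
import Fermat.Agent.S18.helper981_FundEq

/-!
# S37 / S18 (shared): the place package of the special fibre `F_{k,N'}` at EVERY level

Candidate (i) of the S37 captain's ruling on node C1 (conservation at an auxiliary level `N'`):
everything the Riemann-type consumers (`helper5413.latHyp_of_riemann`, `helper126`, `helper6835`,
S18 track A) need about `Fk = modularFunctionFieldFullC k N'` in characteristic `ℓ ∤ N'`,
WITHOUT `ReductionInputsModL`:

* principal divisors and places of degree one are the landed `helper4307_PlacesFullC`;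
* this file adds what was still missing: a place `Q₀`, `helper981.HasRiemannBound`, finiteness of
  the Riemann–Roch spaces, Riemann's theorem (inequality for all divisors, equality in large
  degree), and the zero / pole divisor package of a transcendental element
  (`deg (x)_0 = deg (x)_∞ = [F : K(x)]`).

The generic statements hold for every function field over an algebraically closed field of any
characteristic (`x` transcendental, `F` finite over `K(x)`, no separability).
-/

set_option autoImplicit false

namespace Fermat.Agent.S37.helper265

open AlgebraicCurve IntermediateField ModularCurve Module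
open Fermat.Agent.S18

section Generic

variable {K F : Type*} [Field K] [Field F] [Algebra K F]

/-- A function field over an algebraically closed field has a place (any characteristic). -/
theorem nonempty_place [IsAlgClosed K] (x : F) (hx : Transcendental K x)
    [FiniteDimensional K⟮x⟯ F] : Nonempty (Place K F) := by
  obtain ⟨s, -, hsum⟩ := helper4307.exists_finset_poles x hx
  have hpos : 0 < Module.finrank K⟮x⟯ F := Module.finrank_pos
  by_contra hne
  rw [not_nonempty_iff] at hne
  have hs : s = ∅ := Finset.eq_empty_of_isEmpty s
  rw [hs, Finset.sum_empty] at hsum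
  have : (0 : ℤ) < (Module.finrank K⟮x⟯ F : ℤ) := by exact_mod_cast hpos
  omega

/-- `HasRiemannBound` for every function field over an algebraically closed field
(any characteristic, no separability, no further hypothesis). -/
theorem hasRiemannBound [IsAlgClosed K] (x : F) (hx : Transcendental K x)
    [FiniteDimensional K⟮x⟯ F] : helper981.HasRiemannBound K F := by
  haveI := helper4307.hasPrincipalDivisors x hx
  obtain ⟨P₀⟩ := nonempty_place x hx
  exact helper981.hasRiemannBound_of_transcendental' x hx P₀ (helper4307.place_deg_eq_one x hx)

/-- The Riemann–Roch spaces are finite-dimensional. -/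
theorem finite_riemannRochSpace [IsAlgClosed K] (x : F) (hx : Transcendental K x)
    [FiniteDimensional K⟮x⟯ F] (D : Divisor K F) : Module.Finite K (riemannRochSpace D) := by
  haveI := helper4307.hasPrincipalDivisors x hx
  obtain ⟨P₀⟩ := nonempty_place x hx
  exact helper981.finite_riemannRochSpace (helper4307.place_deg_eq_one x hx) P₀ D

/-- **Riemann's theorem** over an algebraically closed field of any characteristic:
`deg D + 1 - g ≤ l(D)` for all `D`, with equality in large degree (`g = riemannGenus K F`). -/
theorem riemann [IsAlgClosed K] (x : F) (hx : Transcendental K x) [FiniteDimensional K⟮x⟯ F] :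
    (∀ D : Divisor K F, Divisor.degree D + 1 - (helper981.riemannGenus K F : ℤ) ≤
      (finrank K (riemannRochSpace D) : ℤ)) ∧
    ∃ c : ℤ, ∀ D : Divisor K F, c ≤ Divisor.degree D →
      (finrank K (riemannRochSpace D) : ℤ) =
        Divisor.degree D + 1 - (helper981.riemannGenus K F : ℤ) := by
  haveI := helper4307.hasPrincipalDivisors x hx
  obtain ⟨P₀⟩ := nonempty_place x hx
  exact helper981.exists_forall_finrank_eq_of_transcendental x hx P₀
    (helper4307.place_deg_eq_one x hx)

/-- Upper bound `l(D) ≤ deg D + 1 - γ` in large degree from any lower bound `γ ≤ g`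
(the shape of `hRiemk` in `helper2030.kummer_ff`, with `γ := riemannGenus K F`). -/
theorem exists_forall_finrank_le [IsAlgClosed K] (x : F) (hx : Transcendental K x)
    [FiniteDimensional K⟮x⟯ F] (γ : ℤ) (hγ : γ ≤ (helper981.riemannGenus K F : ℤ)) :
    ∃ c : ℤ, ∀ D : Divisor K F, c ≤ Divisor.degree D →
      (finrank K (riemannRochSpace D) : ℤ) ≤ Divisor.degree D + 1 - γ := by
  obtain ⟨-, c, hc⟩ := riemann (K := K) x hx
  exact ⟨c, fun D hD => by rw [hc D hD]; linarith⟩

end Generic

/-! ## The special fibre `F_{k,N}` at every level -/

section FullC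

variable (k : Type) [Field k] [IsAlgClosed k] (N : ℕ) [NeZero N]

/-- The special fibre has a place. -/
theorem nonempty_place_fullC (hNk : ∀ p : ℕ, p.Prime → p ∣ N → (p : k) ≠ 0) :
    Nonempty (Place k (modularFunctionFieldFullC k N)) := by
  obtain ⟨x, -, hx, hfin, -⟩ := helper4307.exists_transcendental_finite_fullC k N hNk
  exact nonempty_place x hx

/-- `HasRiemannBound` on the special fibre at every level (no `ReductionInputsModL`). -/
theorem hasRiemannBound_fullC (hNk : ∀ p : ℕ, p.Prime → p ∣ N → (p : k) ≠ 0) :
    helper981.HasRiemannBound k (modularFunctionFieldFullC k N) := by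
  obtain ⟨x, -, hx, hfin, -⟩ := helper4307.exists_transcendental_finite_fullC k N hNk
  exact hasRiemannBound x hx

/-- Finiteness of the Riemann–Roch spaces of the special fibre. -/
theorem finite_riemannRochSpace_fullC (hNk : ∀ p : ℕ, p.Prime → p ∣ N → (p : k) ≠ 0)
    (D : Divisor k (modularFunctionFieldFullC k N)) : Module.Finite k (riemannRochSpace D) := by
  obtain ⟨x, -, hx, hfin, -⟩ := helper4307.exists_transcendental_finite_fullC k N hNk
  exact finite_riemannRochSpace x hx D

/-- Riemann's theorem on the special fibre at every level. -/
theorem riemann_fullC (hNk : ∀ p : ℕ, p.Prime → p ∣ N → (p : k) ≠ 0) :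
    (∀ D : Divisor k (modularFunctionFieldFullC k N),
      Divisor.degree D + 1 - (helper981.riemannGenus k (modularFunctionFieldFullC k N) : ℤ) ≤
        (finrank k (riemannRochSpace D) : ℤ)) ∧
    ∃ c : ℤ, ∀ D : Divisor k (modularFunctionFieldFullC k N), c ≤ Divisor.degree D →
      (finrank k (riemannRochSpace D) : ℤ) =
        Divisor.degree D + 1 - (helper981.riemannGenus k (modularFunctionFieldFullC k N) : ℤ) := by
  obtain ⟨x, -, hx, hfin, -⟩ := helper4307.exists_transcendental_finite_fullC k N hNk
  exact riemann x hx

omit [NeZero N] in
/-- Zero and pole divisor of a transcendental element of the special fibre: effective, disjoint,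
`ord x = X0 - Xinf`, both of degree `[F_{k,N} : k(x)]` (the divisor hypotheses of
`helper2030.kummer_ff` on the special fibre; `x` need not be `j̄`). -/
theorem exists_zero_pole_divisors_fullC
    (x : modularFunctionFieldFullC k N) (hx : Transcendental k x)
    [FiniteDimensional k⟮x⟯ (modularFunctionFieldFullC k N)] :
    ∃ X0 Xinf : Divisor k (modularFunctionFieldFullC k N),
      (∀ v, X0 v = max 0 (v.ord x)) ∧ (∀ v, Xinf v = max 0 (-(v.ord x))) ∧
      0 ≤ X0 ∧ 0 ≤ Xinf ∧ (∀ v, Xinf v = 0 ∨ X0 v = 0) ∧ (∀ v, v.ord x = X0 v - Xinf v) ∧
      Divisor.degree X0 = Module.finrank k⟮x⟯ (modularFunctionFieldFullC k N) ∧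
      Divisor.degree Xinf = Module.finrank k⟮x⟯ (modularFunctionFieldFullC k N) :=
  helper4307.exists_zero_pole_divisors x hx

end FullC

/-! ## `k` the residue field of a place of `ℚ̄` over `ℓ ∤ N` -/

section Residue

local notation "Qb" => AlgebraicClosure ℚ

variable (N : ℕ) [NeZero N] {ℓ : ℕ} (hℓ : ℓ.Prime) (hℓN : ¬ ℓ ∣ N)
  (A : ValuationSubring Qb) (hA : A.LiesOverPrime ℓ)

include hℓ hℓN hA

/-- A place `Q₀` of the special fibre (the argument `Q₀` of `helper5413.latHyp_of_riemann`). -/
theorem nonempty_place_residue :
    Nonempty (Place (IsLocalRing.ResidueField A)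
      (modularFunctionFieldFullC (IsLocalRing.ResidueField A) N)) := by
  have := Fermat.Agent.Lib.helper6879.isAlgClosed_residueField A
  exact nonempty_place_fullC _ N (helper4307.natCast_ne_zero_residue N hℓ hℓN A hA)

/-- `hRk` of `helper5413.latHyp_of_riemann`: `HasRiemannBound` on the special fibre at every
level `N` with `ℓ ∤ N`. -/
theorem hasRiemannBound_residue :
    helper981.HasRiemannBound (IsLocalRing.ResidueField A)
      (modularFunctionFieldFullC (IsLocalRing.ResidueField A) N) := by
  have := Fermat.Agent.Lib.helper6879.isAlgClosed_residueField A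
  exact hasRiemannBound_fullC _ N (helper4307.natCast_ne_zero_residue N hℓ hℓN A hA)

/-- Finiteness of the Riemann–Roch spaces (`hfink` of `helper2030.kummer_ff`). -/
theorem finite_riemannRochSpace_residue
    (D : Divisor (IsLocalRing.ResidueField A)
      (modularFunctionFieldFullC (IsLocalRing.ResidueField A) N)) :
    Module.Finite (IsLocalRing.ResidueField A) (riemannRochSpace D) := by
  have := Fermat.Agent.Lib.helper6879.isAlgClosed_residueField A
  exact finite_riemannRochSpace_fullC _ N (helper4307.natCast_ne_zero_residue N hℓ hℓN A hA) D

/-- Riemann's theorem on the special fibre. -/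
theorem riemann_residue :
    (∀ D : Divisor (IsLocalRing.ResidueField A)
        (modularFunctionFieldFullC (IsLocalRing.ResidueField A) N),
      Divisor.degree D + 1 - (helper981.riemannGenus (IsLocalRing.ResidueField A)
          (modularFunctionFieldFullC (IsLocalRing.ResidueField A) N) : ℤ) ≤
        (finrank (IsLocalRing.ResidueField A) (riemannRochSpace D) : ℤ)) ∧
    ∃ c : ℤ, ∀ D : Divisor (IsLocalRing.ResidueField A)
        (modularFunctionFieldFullC (IsLocalRing.ResidueField A) N), c ≤ Divisor.degree D →
      (finrank (IsLocalRing.ResidueField A) (riemannRochSpace D) : ℤ) =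
        Divisor.degree D + 1 - (helper981.riemannGenus (IsLocalRing.ResidueField A)
          (modularFunctionFieldFullC (IsLocalRing.ResidueField A) N) : ℤ) := by
  have := Fermat.Agent.Lib.helper6879.isAlgClosed_residueField A
  exact riemann_fullC _ N (helper4307.natCast_ne_zero_residue N hℓ hℓN A hA)

end Residue

end Fermat.Agent.S37.helper265
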