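import Fermat.Agent.S37.helper1719_ViaS18Close
import Fermat.Agent.S37.helper3441_LatticeSupply
import Fermat.Agent.S18.helper4307_PlacesFullC
import Fermat.Agent.S18.helper1466_GenusLine

/-!
# S37 through S18: the closed end of the conservation chain (helper1719)

`helper1719_ViaS18` proves the kernel form of S37 with the kernel
`W = ker (reductionModL A (N r) ∘ α_r^*)` for ONE auxiliary level `N r`, and needs
`[F_{N r} : F_N]` to divide a power of `ℓ` for the torsion clause.  Here:

* `stmt_KernelAll_of_reduction_two`: the same with TWO auxiliary levels,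
  `W = ker ρ_{r₁} ⊓ ker ρ_{r₂}`; the torsion clause only needs that every prime `q ≠ ℓ` is prime to
  one of the two degrees;
* `reductionInputsModL_of_dvd`: conservation of number (`ReductionInputsModL A M`) at every level
  `M` divisible by `2` or `3` and every `ℓ ∤ M`, from the genus inequality of S18 track A
  (`helper1466`), the lattice reduction (`helper3441`, `helper5413`) and the adapter
  `helper2648` (the bridge `reductionInputsModL_of_geomInputs` is the wiring of
  `helper4846_GeomBridge`, parked on `origin/helper4846`, inlined here);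
* `stmt_KernelAll`: the kernel form of S37 at every level, with no hypothesis: auxiliary factors
  `(1, 1)` if `2 ∣ N` or `3 ∣ N`, `(3, 3)` if `ℓ = 2`, `(2, 2)` if `ℓ = 3`, `(2, 3)` otherwise
  (degrees `3` and `4`);
* `result_S37`: the frozen conclusion of S37.
-/

set_option autoImplicit false
set_option synthInstance.maxHeartbeats 400000

noncomputable section

namespace Fermat.Agent.S37.helper1719

open ModularCurve AlgebraicCurve IsLocalRing
open Fermat.Agent.S37.helper8353 (Qb GQ Stmt_KernelAll result_of_kernelAll)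
open Fermat.Agent.S24.helper24 (FN)
open Fermat.Agent.S37.helper5162 (heckeAlphaBarIntegral heckeBetaBarIntegral place_deg_eq_one)

/-! ### Two auxiliary levels -/

section Two

variable (A : ValuationSubring Qb) (N r : ℕ) [NeZero N] [NeZero r]

/-- **(R3)** for `ker ρ`, coprime form: a class of `ker ρ` killed by a prime `q ≠ ℓ` which is
prime to the degree of `α` is zero (frozen S18 at level `N r` + the norm trick along `α`). -/
theorem redPic_torsion_of_coprime (hS18 : S18At (N * r)) (h : ReductionInputsModL A (N * r))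
    {ℓ : ℕ} (hℓ : ℓ.Prime) (hℓM : ¬ ℓ ∣ N * r) (hA : A.LiesOverPrime ℓ)
    {q : ℕ} (hq : q.Prime) (hqℓ : q ≠ ℓ)
    (hcop : Nat.Coprime q (finrankAlong Qb (heckeAlphaBar Qb N r)))
    {x : JZero N} (hx : redPic A N r x = 0) (hqx : q • x = 0) : x = 0 := by
  have : Fact ℓ.Prime := ⟨hℓ⟩
  set pb := Fermat.Agent.S37.helper9304.pic0PullbackAlong (heckeAlphaBar Qb N r)
    (alphaIntegral N r) (Fermat.Agent.S37.helper8426.fundamentalIdentityAlong_heckeAlphaBar N r)
    with hpb
  have hz : pb x = 0 := by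
    refine hS18 hℓM A hA h q (fun hd => hqℓ ((Nat.prime_dvd_prime_iff_eq hℓ hq).mp hd).symm)
      (pb x) ?_ hx
    rw [← map_nsmul, hqx, map_zero]
  obtain ⟨D, rfl⟩ := Pic0.mk_surjective x
  rw [hpb, Fermat.Agent.S37.helper9304.pic0PullbackAlong_mk] at hz
  have hprin : (Divisor.pullbackAlong (heckeAlphaBar Qb N r) (alphaIntegral N r)
      (D : Divisor Qb (FN N))).IsPrincipal := by
    have := (QuotientAddGroup.eq_zero_iff _).mp hz
    rwa [AddSubgroup.mem_addSubgroupOf] at this
  exact Fermat.Agent.S37.helper7934.pic0_eq_zero_of_coprime (heckeAlphaBar Qb N r)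
    (alphaIntegral N r)
    (Fermat.Agent.S37.helper7934.sumRamInertiaAlong_of_deg_eq_one _ _
      (Fermat.Agent.S37.helper8426.fundamentalIdentityAlong_heckeAlphaBar N r)
      (place_deg_eq_one N))
    (Fermat.Agent.S37.helper5162.finiteAlong_heckeAlphaBar N r)
    (Fermat.Agent.S37.helper8426.normFormulaAlong_heckeAlphaBar N r) hqx hcop D rfl hprin

end Two

/-- **S37 (kernel form) through two auxiliary levels.**  For every `ℓ ∤ N` and every `A` over
`ℓ`: two auxiliary factors `r₁, r₂` (possibly equal, `1` allowed) with `ℓ ∤ N rᵢ`, conservation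
of number and the frozen S18 at both levels `N rᵢ`, and every prime `q ≠ ℓ` prime to one of the
two degrees `[F_{N rᵢ} : F_N]`. -/
theorem stmt_KernelAll_of_reduction_two (N : ℕ) [NeZero N]
    (hBR : ∃ g : ℕ, BoundedRep (Divisor.degree (K := Qb) (F := FN N))
      (Divisor.principal (K := Qb) (F := FN N)) g)
    (haux : ∀ ℓ : ℕ, ∀ hℓ : ℓ.Prime, ¬ ℓ ∣ N → ∀ A : ValuationSubring Qb, A.LiesOverPrime ℓ →
      ∃ (r₁ r₂ : ℕ) (_ : NeZero r₁) (_ : NeZero r₂), ¬ ℓ ∣ N * r₁ ∧ ¬ ℓ ∣ N * r₂ ∧
        (∀ q : ℕ, q.Prime → q ≠ ℓ →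
          Nat.Coprime q (finrankAlong Qb (heckeAlphaBar Qb N r₁)) ∨
          Nat.Coprime q (finrankAlong Qb (heckeAlphaBar Qb N r₂))) ∧
        ReductionInputsModL A (N * r₁) ∧ S18At (N * r₁) ∧
        ReductionInputsModL A (N * r₂) ∧ S18At (N * r₂) ∧
        PrincipalGeneratedByIntegral A (residue A) N ∧
        (haveI : NeZero ℓ := ⟨hℓ.ne_zero⟩; KronNorm A N ℓ)) :
    Stmt_KernelAll N := by
  obtain ⟨g, hBR⟩ := hBR
  intro ℓ hℓ hℓN A hA
  obtain ⟨r₁, r₂, hr₁, hr₂, hℓM₁, hℓM₂, hcop, h₁, hS₁, h₂, hS₂, hgen, hK⟩ := haux ℓ hℓ hℓN A hA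
  have := hr₁
  have := hr₂
  refine ⟨(redPic A N r₁).ker ⊓ (redPic A N r₂).ker, fun τ hτ x => ⟨?_, ?_⟩,
    fun σ hσ x => ⟨?_, ?_⟩, fun q hq hqℓ x hx hqx => ?_⟩
  · exact (AddMonoidHom.mem_ker).mpr (redPic_inertia A N r₁ h₁ hBR hgen hτ x)
  · exact (AddMonoidHom.mem_ker).mpr (redPic_inertia A N r₂ h₂ hBR hgen hτ x)
  · exact (AddMonoidHom.mem_ker).mpr (redPic_eichlerShimura A N r₁ h₁ hBR hgen hℓ hA hσ hK x)
  · exact (AddMonoidHom.mem_ker).mpr (redPic_eichlerShimura A N r₂ h₂ hBR hgen hℓ hA hσ hK x)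
  · rcases hcop q hq hqℓ with hc | hc
    · exact redPic_torsion_of_coprime A N r₁ hS₁ h₁ hℓ hℓM₁ hA hq hqℓ hc
        ((AddMonoidHom.mem_ker).mp hx.1) hqx
    · exact redPic_torsion_of_coprime A N r₂ hS₂ h₂ hℓ hℓM₂ hA hq hqℓ hc
        ((AddMonoidHom.mem_ker).mp hx.2) hqx

/-! ### The inputs from S18 -/

/-- The frozen statement S18 at every level (S18 track A, places form, `helper1466`). -/
theorem s18At (M : ℕ) [NeZero M] : S18At M :=
  fun {_} _ hℓM A hA h m hm z hmz hz =>
    Fermat.Agent.S18.helper1466.result_S18 M hℓM A hA h m hm z hmz hz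

/-- **Conservation of number from the end target of S18 track A** (places form): the geometric
inputs `helper1466.GeomInputs` give the lattice hypotheses for the landed Gauss pair
(`helper3441.latHyp_of_supply`), hence `ReductionInputsModL A M` (`helper2648`). -/
theorem reductionInputsModL_of_geomInputs (M : ℕ) [NeZero M] (ℓ : ℕ) [Fact ℓ.Prime]
    (hℓM : ¬ ℓ ∣ M) (A : ValuationSubring Qb) (hA : A.LiesOverPrime ℓ)
    (H : Fermat.Agent.S18.helper1466.GeomInputs M ℓ hℓM A hA) : ReductionInputsModL A M := by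
  obtain ⟨x, hx, Xinf, X0, Yinf, Y0, d, γ, cK, hxne, hXinf, hX0, hdisj, hordx, hYinf, hY0,
    hdisjk, hordxk, hdpos, hdX, hdX0, hdY, hdY0, hRC, hRiemF, hfink, hRiemk⟩ := H
  have : HasPrincipalDivisors Qb ↥(modularFunctionFieldBar M) :=
    Fermat.Agent.S37.helper4136.hasPrincipalDivisors_level M
  have : HasPrincipalDivisors (IsLocalRing.ResidueField A)
      ↥(modularFunctionFieldFullC (IsLocalRing.ResidueField A) M) :=
    Fermat.Agent.S18.helper4307.hasPrincipalDivisors_residue M (Fact.out : ℓ.Prime) hℓM A hA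
  exact Fermat.Agent.S37.helper2648.reductionInputsModL_of_latHyp_bar M ℓ hℓM A hA
    (Fermat.Agent.S37.helper3441.latHyp_of_supply
      (Fermat.Agent.S18.helper508.gaussValuationSubring M ℓ hℓM A hA)
      (Fermat.Agent.S18.helper1466.hVG M ℓ hℓM A hA)
      (Fermat.Agent.S18.helper508.gaussResidue M ℓ hℓM A hA)
      (Fermat.Agent.S18.helper1466.hred M ℓ hℓM A hA)
      (Fermat.Agent.S18.helper1466.hredk_surj M ℓ hℓM A hA)
      Xinf Yinf d hdpos hdX hdY hRC (Fermat.Agent.S18.helper1466.hcart M ℓ hℓM A hA) γ hRiemF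
      hfink cK hRiemk (Fermat.Agent.S18.helper4226.place_deg_eq_one_FN M)
      (Fermat.Agent.S18.helper4307.place_deg_eq_one_residue M (Fact.out : ℓ.Prime) hℓM A hA))

/-- **Conservation of number at the levels divisible by `2` or `3`**: `ReductionInputsModL A M`
for every prime `ℓ ∤ M` and every `A` over `ℓ`. -/
theorem reductionInputsModL_of_dvd (M : ℕ) [NeZero M] (hM : 2 ∣ M ∨ 3 ∣ M) {ℓ : ℕ}
    (hℓ : ℓ.Prime) (hℓM : ¬ ℓ ∣ M) (A : ValuationSubring Qb) (hA : A.LiesOverPrime ℓ) :
    ReductionInputsModL A M := by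
  have : Fact ℓ.Prime := ⟨hℓ⟩
  have hgenus : Fermat.Agent.S18.helper1466.Stmt_GenusLe M ℓ := by
    rcases hM with h2 | h3
    · exact Fermat.Agent.S18.helper1466.stmt_GenusLe_of_two_dvd M ℓ hℓ h2 hℓM
    · exact Fermat.Agent.S18.helper1466.stmt_GenusLe_of_three_dvd M ℓ hℓ h3 hℓM
  exact reductionInputsModL_of_geomInputs M ℓ hℓM A hA
    (Fermat.Agent.S18.helper1466.geomInputs_of_genusLe M ℓ hℓM A hA (hgenus A hA))

/-! ### The closed statement -/

/-- `[F_{2N} : F_N] = 3` for odd `N`. -/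
theorem finrankAlong_alpha_two (N : ℕ) [NeZero N] (h2 : ¬ 2 ∣ N) :
    finrankAlong Qb (heckeAlphaBar Qb N 2) = 3 :=
  Fermat.Agent.S37.helper137.finrankAlong_alpha Nat.prime_two
    ((Nat.Prime.coprime_iff_not_dvd Nat.prime_two).mpr h2)

/-- `[F_{3N} : F_N] = 4` for `3 ∤ N`. -/
theorem finrankAlong_alpha_three (N : ℕ) [NeZero N] (h3 : ¬ 3 ∣ N) :
    finrankAlong Qb (heckeAlphaBar Qb N 3) = 4 :=
  Fermat.Agent.S37.helper137.finrankAlong_alpha Nat.prime_three
    ((Nat.Prime.coprime_iff_not_dvd Nat.prime_three).mpr h3)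

/-- **S37, kernel form, at every level `N`** (no hypothesis). -/
theorem stmt_KernelAll (N : ℕ) [NeZero N] : Stmt_KernelAll N := by
  refine stmt_KernelAll_of_reduction_two N (boundedRep_FN N) fun ℓ hℓ hℓN A hA => ?_
  have : Fact ℓ.Prime := ⟨hℓ⟩
  have : NeZero ℓ := ⟨hℓ.ne_zero⟩
  have hgen := Fermat.Agent.S37.helper2648.principalGeneratedByIntegral_bar N ℓ hℓN A hA
  have hK := kronNorm_of_liesOver A N ℓ hℓ hℓN hA
  by_cases h23 : 2 ∣ N ∨ 3 ∣ N
  · -- the level itself carries a Hauptmodul line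
    have hM : 2 ∣ N * 1 ∨ 3 ∣ N * 1 := by rwa [Nat.mul_one]
    have hℓM : ¬ ℓ ∣ N * 1 := by rwa [Nat.mul_one]
    have hRI := reductionInputsModL_of_dvd (N * 1) hM hℓ hℓM A hA
    refine ⟨1, 1, inferInstance, inferInstance, hℓM, hℓM, fun q _ _ => Or.inl ?_,
      hRI, s18At _, hRI, s18At _, hgen, hK⟩
    rw [finrankAlong_alpha_one]
    exact Nat.coprime_one_right q
  · have h2 : ¬ 2 ∣ N := fun h => h23 (Or.inl h)
    have h3 : ¬ 3 ∣ N := fun h => h23 (Or.inr h)
    by_cases hl2 : ℓ = 2
    · -- `ℓ = 2`: level `3 N`, degree `4`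
      have hℓM : ¬ ℓ ∣ N * 3 := by
        intro h
        rcases (Nat.Prime.dvd_mul hℓ).mp h with h | h
        · exact hℓN h
        · rw [hl2] at h
          exact absurd h (by decide)
      have hRI := reductionInputsModL_of_dvd (N * 3) (Or.inr (dvd_mul_left 3 N)) hℓ hℓM A hA
      refine ⟨3, 3, inferInstance, inferInstance, hℓM, hℓM, fun q hq hqℓ => Or.inl ?_,
        hRI, s18At _, hRI, s18At _, hgen, hK⟩
      rw [finrankAlong_alpha_three N h3]
      have hq2 : Nat.Coprime q 2 := (Nat.coprime_primes hq Nat.prime_two).mpr (hl2 ▸ hqℓ)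
      exact Nat.Coprime.pow_right 2 hq2
    · by_cases hl3 : ℓ = 3
      · -- `ℓ = 3`: level `2 N`, degree `3`
        have hℓM : ¬ ℓ ∣ N * 2 := by
          intro h
          rcases (Nat.Prime.dvd_mul hℓ).mp h with h | h
          · exact hℓN h
          · rw [hl3] at h
            exact absurd h (by decide)
        have hRI := reductionInputsModL_of_dvd (N * 2) (Or.inl (dvd_mul_left 2 N)) hℓ hℓM A hA
        refine ⟨2, 2, inferInstance, inferInstance, hℓM, hℓM, fun q hq hqℓ => Or.inl ?_,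
          hRI, s18At _, hRI, s18At _, hgen, hK⟩
        rw [finrankAlong_alpha_two N h2]
        exact (Nat.coprime_primes hq Nat.prime_three).mpr (hl3 ▸ hqℓ)
      · -- `ℓ ≥ 5`: levels `2 N` and `3 N`, degrees `3` and `4`
        have hℓM2 : ¬ ℓ ∣ N * 2 := by
          intro h
          rcases (Nat.Prime.dvd_mul hℓ).mp h with h | h
          · exact hℓN h
          · exact hl2 ((Nat.prime_dvd_prime_iff_eq hℓ Nat.prime_two).mp h)
        have hℓM3 : ¬ ℓ ∣ N * 3 := by
          intro h
          rcases (Nat.Prime.dvd_mul hℓ).mp h with h | h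
          · exact hℓN h
          · exact hl3 ((Nat.prime_dvd_prime_iff_eq hℓ Nat.prime_three).mp h)
        have hRI2 := reductionInputsModL_of_dvd (N * 2) (Or.inl (dvd_mul_left 2 N)) hℓ hℓM2 A hA
        have hRI3 := reductionInputsModL_of_dvd (N * 3) (Or.inr (dvd_mul_left 3 N)) hℓ hℓM3 A hA
        refine ⟨2, 3, inferInstance, inferInstance, hℓM2, hℓM3, fun q hq _ => ?_,
          hRI2, s18At _, hRI3, s18At _, hgen, hK⟩
        by_cases hq3 : q = 3
        · right
          rw [finrankAlong_alpha_three N h3, hq3]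
          decide
        · left
          rw [finrankAlong_alpha_two N h2]
          exact (Nat.coprime_primes hq Nat.prime_three).mpr hq3

/-- **The frozen conclusion of S37**, at every level `N` and every `p`. -/
theorem result_S37 (N p : ℕ) [NeZero N] (hcomm : HeckeOperatorsCommuteBar N) :
    letI := heckeModuleBar N
    ∀ (_ : SMulCommClass GQ HeckeAlg (JZero N)),
      SpecializationExists (K := ℚ) (L := Qb) N p (JZero N) :=
  result_of_kernelAll p hcomm (stmt_KernelAll N)

end Fermat.Agent.S37.helper1719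

end
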