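import Mathlib
import Fermat.Prelude.Def_AlgebraicCurve_Correspondence
import Fermat.Prelude.Def_AlgebraicCurve_IsCurveOver

/-!
# S37 / E5 NORMTRICK (helper7934)

Generic "norm trick" for an integral map of function fields `φ : F →ₐ[K] F'`:

* `pushforwardAlong_pullbackAlong` : `φ_* φ^* D = [F' : F] • D` on divisors, under the
  per-place identity `SumRamInertiaAlong φ hφ` (`∑_{w | v} e(w) f(w) = [F' : F]`), which
  follows from `FundamentalIdentityAlong` as soon as every place of `F` has nonzero degree
  (e.g. `K` algebraically closed and `F` a curve over `K`).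
* `isPrincipal_finrank_nsmul_of_isPrincipal_pullbackAlong` : if `φ^* D` is principal then
  `[F' : F] • D` is principal (needs the norm formula along `φ`).
* `finrank_nsmul_pic0_mk_eq_zero`, `pic0_eq_zero_of_coprime`, `pic0_eq_zero_of_prime_pow` :
  the same statement in `Pic0`, and the torsion consequence: a class killed by `m`, with
  `m` prime to `[F' : F]`, whose pullback is principal, is zero.
* `pic0_correspondence_self` : the Prelude correspondence `φ_* φ^*` on `Pic0` is
  multiplication by `[F' : F]`.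
-/

set_option autoImplicit false

noncomputable section

namespace Fermat.Agent.S37.helper7934

open AlgebraicCurve

/-! ### Pure group lemma -/

/-- An element of an additive group killed by two coprime natural numbers is zero. -/
theorem eq_zero_of_nsmul_eq_zero_of_coprime {G : Type*} [AddGroup G] {x : G} {m d : ℕ}
    (hm : m • x = 0) (hd : d • x = 0) (hcop : Nat.Coprime m d) : x = 0 := by
  have h1 : addOrderOf x ∣ m := addOrderOf_dvd_of_nsmul_eq_zero hm
  have h2 : addOrderOf x ∣ d := addOrderOf_dvd_of_nsmul_eq_zero hd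
  have h3 : addOrderOf x ∣ 1 := by
    have := Nat.dvd_gcd h1 h2
    rwa [Nat.Coprime.gcd_eq_one hcop] at this
  exact AddMonoid.addOrderOf_eq_one_iff.mp (Nat.dvd_one.mp h3)

/-- Variant: killed by `p ^ n` and by a divisor of `ℓ ^ k`, with `p ≠ ℓ` primes. -/
theorem eq_zero_of_prime_pow_nsmul_of_dvd_prime_pow {G : Type*} [AddGroup G] {x : G}
    {p ℓ n k d : ℕ} (hp : p.Prime) (hℓ : ℓ.Prime) (hne : p ≠ ℓ)
    (hx : (p ^ n) • x = 0) (hd : d • x = 0) (hdvd : d ∣ ℓ ^ k) : x = 0 := by
  refine eq_zero_of_nsmul_eq_zero_of_coprime hx hd ?_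
  exact Nat.Coprime.coprime_dvd_right hdvd
    (Nat.Coprime.pow n k ((Nat.coprime_primes hp hℓ).mpr hne))

variable {K F F' : Type*} [Field K] [Field F] [Field F'] [Algebra K F] [Algebra K F']

section Along

variable [HasPrincipalDivisors K F'] (φ : F →ₐ[K] F') (hφ : φ.toRingHom.IsIntegral)

/-- The per-place identity `∑_{w | v} e(w) f(w) = [F' : F]` along `φ`. -/
def SumRamInertiaAlong : Prop :=
  ∀ v : Place K F,
    ∑ w ∈ Place.fiberAlong φ hφ v,
      (w.ramificationIndexAlong φ : ℤ) * (w.inertiaDegAlong φ hφ : ℤ)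
        = (finrankAlong K φ : ℤ)

/-- `SumRamInertiaAlong` from the Prelude class `SumRamificationInertia` (for the algebra
structure given by `φ`). -/
theorem sumRamInertiaAlong_of_sumRamificationInertia
    (h : letI := algebraAlong φ
         haveI := isScalarTower_along φ
         haveI := isIntegral_along φ hφ
         SumRamificationInertia K F F') :
    SumRamInertiaAlong φ hφ := by
  letI := algebraAlong φ
  haveI := isScalarTower_along φ
  haveI := isIntegral_along φ hφ
  intro v
  exact h.sum_ramificationIndex_mul_inertiaDeg v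

/-- `SumRamInertiaAlong` from the fundamental identity `∑ e(w) deg(w) = [F':F] deg(v)`, at
places of nonzero degree. -/
theorem sumRamInertiaAlong_of_fundamentalIdentityAlong
    (hFI : FundamentalIdentityAlong K φ hφ) (hdeg : ∀ v : Place K F, v.deg ≠ 0) :
    SumRamInertiaAlong φ hφ := by
  letI := algebraAlong φ
  haveI := isScalarTower_along φ
  haveI := isIntegral_along φ hφ
  haveI : FundamentalIdentity K F F' := hFI
  intro v
  have key := FundamentalIdentity.sum_ramificationIndex_mul_deg (K := K) (F := F) (F' := F') v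
  have h1 : ∑ w ∈ v.fiber F', (w.ramificationIndex F : ℤ) * (w.deg : ℤ)
      = (v.deg : ℤ) * ∑ w ∈ v.fiber F', (w.ramificationIndex F : ℤ) * (w.inertiaDeg F : ℤ) := by
    rw [Finset.mul_sum]
    refine Finset.sum_congr rfl fun w hw => ?_
    have htower : ((w.restrict F).deg : ℤ) * (w.inertiaDeg F : ℤ) = (w.deg : ℤ) := by
      exact_mod_cast congrArg (Nat.cast (R := ℤ)) (w.deg_restrict_mul_inertiaDeg (F := F))
    rw [Place.mem_fiber.mp hw] at htower
    rw [← htower]; ring
  rw [h1, mul_comm (Module.finrank F F' : ℤ)] at key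
  have hv : (v.deg : ℤ) ≠ 0 := by exact_mod_cast hdeg v
  exact mul_left_cancel₀ hv key

/-- `SumRamInertiaAlong` from the fundamental identity when all places have degree one. -/
theorem sumRamInertiaAlong_of_deg_eq_one
    (hFI : FundamentalIdentityAlong K φ hφ) (hdeg : ∀ v : Place K F, v.deg = 1) :
    SumRamInertiaAlong φ hφ :=
  sumRamInertiaAlong_of_fundamentalIdentityAlong φ hφ hFI fun v => by
    rw [hdeg v]; exact one_ne_zero

/-- `SumRamInertiaAlong` for a curve over an algebraically closed field. -/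
theorem sumRamInertiaAlong_of_isAlgClosed [IsAlgClosed K] [IsCurveOver K F]
    (hFI : FundamentalIdentityAlong K φ hφ) : SumRamInertiaAlong φ hφ :=
  sumRamInertiaAlong_of_deg_eq_one φ hφ hFI IsCurveOver.forall_deg_eq_one_of_isAlgClosed

/-! ### (N1) `φ_* φ^* = [F' : F]` on divisors -/

theorem pushforwardAlong_pullbackAlong_single (h : SumRamInertiaAlong φ hφ)
    (v : Place K F) (n : ℤ) :
    Divisor.pushforwardAlong φ hφ (Divisor.pullbackAlong φ hφ (Finsupp.single v n))
      = Finsupp.single v (n * (finrankAlong K φ : ℤ)) := by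
  rw [Divisor.pullbackAlong_single, map_sum]
  have hterm : ∀ W ∈ Place.fiberAlong φ hφ v,
      Divisor.pushforwardAlong φ hφ (Finsupp.single W (n * (W.ramificationIndexAlong φ : ℤ)))
        = Finsupp.single v
            (n * ((W.ramificationIndexAlong φ : ℤ) * (W.inertiaDegAlong φ hφ : ℤ))) := by
    intro W hW
    rw [Divisor.pushforwardAlong_single, Place.mem_fiberAlong.mp hW, mul_assoc]
  rw [Finset.sum_congr rfl hterm, ← Finsupp.single_finsetSum, ← Finset.mul_sum, h v]

theorem pushforwardAlong_pullbackAlong (h : SumRamInertiaAlong φ hφ) (D : Divisor K F) :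
    Divisor.pushforwardAlong φ hφ (Divisor.pullbackAlong φ hφ D) = finrankAlong K φ • D := by
  induction D using Finsupp.induction_linear with
  | zero => simp
  | add D E hD hE => rw [map_add, map_add, hD, hE, smul_add]
  | single v n =>
    rw [pushforwardAlong_pullbackAlong_single φ hφ h, Finsupp.smul_single, nsmul_eq_mul,
      mul_comm]

/-- Correspondence form: the Prelude correspondence of `φ` with itself is multiplication by
the degree. -/
theorem correspondence_self (h : SumRamInertiaAlong φ hφ) (D : Divisor K F) :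
    Divisor.correspondence φ φ hφ hφ D = finrankAlong K φ • D := by
  rw [Divisor.correspondence_apply, pushforwardAlong_pullbackAlong φ hφ h]

/-! ### (N2) principal pullback ⟹ `[F' : F] • D` principal -/

theorem isPrincipal_finrank_nsmul_of_isPrincipal_pullbackAlong
    (h : SumRamInertiaAlong φ hφ) (hfin : FiniteAlong K φ) (hN : NormFormulaAlong K φ hfin)
    {D : Divisor K F} (hD : (Divisor.pullbackAlong φ hφ D).IsPrincipal) :
    (finrankAlong K φ • D).IsPrincipal := by
  rw [← pushforwardAlong_pullbackAlong φ hφ h]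
  exact Divisor.isPrincipal_pushforwardAlong φ hφ hfin hN hD

/-! ### (N3) the `Pic0` form -/

theorem finrank_nsmul_pic0_mk_eq_zero
    (h : SumRamInertiaAlong φ hφ) (hfin : FiniteAlong K φ) (hN : NormFormulaAlong K φ hfin)
    (D : Divisor.degZero (K := K) (F := F))
    (hD : (Divisor.pullbackAlong φ hφ (D : Divisor K F)).IsPrincipal) :
    finrankAlong K φ • Pic0.mk D = 0 := by
  have hp : (finrankAlong K φ • (D : Divisor K F)).IsPrincipal :=
    isPrincipal_finrank_nsmul_of_isPrincipal_pullbackAlong φ hφ h hfin hN hD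
  have hmk : finrankAlong K φ • Pic0.mk D = Pic0.mk (finrankAlong K φ • D) := rfl
  rw [hmk]
  refine (QuotientAddGroup.eq_zero_iff _).mpr ?_
  rw [AddSubgroup.mem_addSubgroupOf, AddSubgroup.coe_nsmul]
  exact hp

/-! ### (N4) torsion forms -/

/-- A class killed by `m`, with `m` prime to the degree of `φ`, and with a representative
whose pullback along `φ` is principal, is zero. -/
theorem pic0_eq_zero_of_coprime
    (h : SumRamInertiaAlong φ hφ) (hfin : FiniteAlong K φ) (hN : NormFormulaAlong K φ hfin)
    {x : Pic0 K F} {m : ℕ} (hm : m • x = 0) (hcop : Nat.Coprime m (finrankAlong K φ))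
    (D : Divisor.degZero (K := K) (F := F)) (hx : Pic0.mk D = x)
    (hD : (Divisor.pullbackAlong φ hφ (D : Divisor K F)).IsPrincipal) :
    x = 0 := by
  subst hx
  exact eq_zero_of_nsmul_eq_zero_of_coprime hm
    (finrank_nsmul_pic0_mk_eq_zero φ hφ h hfin hN D hD) hcop

/-- The shape used in S37: `p`-power torsion against a degree dividing a power of `ℓ ≠ p`. -/
theorem pic0_eq_zero_of_prime_pow
    (h : SumRamInertiaAlong φ hφ) (hfin : FiniteAlong K φ) (hN : NormFormulaAlong K φ hfin)
    {p ℓ n k : ℕ} (hp : p.Prime) (hℓ : ℓ.Prime) (hne : p ≠ ℓ)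
    (hdeg : finrankAlong K φ ∣ ℓ ^ k)
    {x : Pic0 K F} (hx : (p ^ n) • x = 0)
    (D : Divisor.degZero (K := K) (F := F)) (hxD : Pic0.mk D = x)
    (hD : (Divisor.pullbackAlong φ hφ (D : Divisor K F)).IsPrincipal) :
    x = 0 := by
  subst hxD
  exact eq_zero_of_prime_pow_nsmul_of_dvd_prime_pow hp hℓ hne hx
    (finrank_nsmul_pic0_mk_eq_zero φ hφ h hfin hN D hD) hdeg

/-- Same, with the torsion hypothesis phrased with the Prelude subgroup `Pic0.torsion`. -/
theorem pic0_eq_zero_of_mem_torsion
    (h : SumRamInertiaAlong φ hφ) (hfin : FiniteAlong K φ) (hN : NormFormulaAlong K φ hfin)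
    {p ℓ n k : ℕ} (hp : p.Prime) (hℓ : ℓ.Prime) (hne : p ≠ ℓ)
    (hdeg : finrankAlong K φ ∣ ℓ ^ k)
    {x : Pic0 K F} (hx : x ∈ Pic0.torsion K F (p ^ n))
    (D : Divisor.degZero (K := K) (F := F)) (hxD : Pic0.mk D = x)
    (hD : (Divisor.pullbackAlong φ hφ (D : Divisor K F)).IsPrincipal) :
    x = 0 := by
  refine pic0_eq_zero_of_prime_pow φ hφ h hfin hN hp hℓ hne hdeg (n := n) ?_ D hxD hD
  have := Pic0.mem_torsion.mp hx
  rwa [natCast_zsmul] at this

/-! ### The Prelude correspondence `φ_* φ^*` on `Pic0` -/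

theorem pic0_correspondence_self (hFI : FundamentalIdentityAlong K φ hφ)
    (h : SumRamInertiaAlong φ hφ) (hfin : FiniteAlong K φ) (hN : NormFormulaAlong K φ hfin)
    (x : Pic0 K F) :
    Pic0.correspondence φ φ hφ hφ hFI hfin hN x = finrankAlong K φ • x := by
  obtain ⟨D, rfl⟩ := Pic0.mk_surjective x
  rw [Pic0.correspondence_mk]
  have hmk : finrankAlong K φ • Pic0.mk D = Pic0.mk (finrankAlong K φ • D) := rfl
  rw [hmk]
  congr 1
  apply Subtype.ext
  rw [Pic0.coe_degZeroCorrespondence, correspondence_self φ hφ h, AddSubgroup.coe_nsmul]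

end Along

/-! ### Divisor-level forms (no degree-zero hypothesis) and the coprime-degree trick -/

/-- A divisor `D` with `d₁ • D` and `d₂ • D` principal, `d₁`, `d₂` coprime, is principal. -/
theorem isPrincipal_of_coprime_nsmul {D : Divisor K F} {d₁ d₂ : ℕ} (hcop : Nat.Coprime d₁ d₂)
    (h₁ : (d₁ • D).IsPrincipal) (h₂ : (d₂ • D).IsPrincipal) : D.IsPrincipal := by
  have key : (QuotientAddGroup.mk D : Divisor K F ⧸ Divisor.principal (K := K) (F := F)) = 0 := by
    refine eq_zero_of_nsmul_eq_zero_of_coprime (m := d₁) (d := d₂) ?_ ?_ hcop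
    · exact (QuotientAddGroup.eq_zero_iff _).mpr h₁
    · exact (QuotientAddGroup.eq_zero_iff _).mpr h₂
  exact (QuotientAddGroup.eq_zero_iff _).mp key

section AlongDiv

variable [HasPrincipalDivisors K F'] (φ : F →ₐ[K] F') (hφ : φ.toRingHom.IsIntegral)

/-- Divisor-level (N4): `m • D` principal, `m` prime to the degree of `φ`, pullback of `D`
along `φ` principal ⟹ `D` principal. -/
theorem isPrincipal_of_isPrincipal_pullbackAlong_of_coprime
    (h : SumRamInertiaAlong φ hφ) (hfin : FiniteAlong K φ) (hN : NormFormulaAlong K φ hfin)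
    {D : Divisor K F} {m : ℕ} (hm : (m • D).IsPrincipal)
    (hcop : Nat.Coprime m (finrankAlong K φ))
    (hD : (Divisor.pullbackAlong φ hφ D).IsPrincipal) : D.IsPrincipal :=
  isPrincipal_of_coprime_nsmul hcop hm
    (isPrincipal_finrank_nsmul_of_isPrincipal_pullbackAlong φ hφ h hfin hN hD)

/-- Coprime-degree trick: if the pullbacks of `D` along two maps of coprime degrees are both
principal, then `D` is principal (no torsion hypothesis). -/
theorem isPrincipal_of_isPrincipal_pullbackAlong_two
    {F'' : Type*} [Field F''] [Algebra K F''] [HasPrincipalDivisors K F'']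
    (ψ : F →ₐ[K] F'') (hψ : ψ.toRingHom.IsIntegral)
    (h : SumRamInertiaAlong φ hφ) (hfin : FiniteAlong K φ) (hN : NormFormulaAlong K φ hfin)
    (h' : SumRamInertiaAlong ψ hψ) (hfin' : FiniteAlong K ψ) (hN' : NormFormulaAlong K ψ hfin')
    (hcop : Nat.Coprime (finrankAlong K φ) (finrankAlong K ψ))
    {D : Divisor K F} (hD : (Divisor.pullbackAlong φ hφ D).IsPrincipal)
    (hD' : (Divisor.pullbackAlong ψ hψ D).IsPrincipal) : D.IsPrincipal :=
  isPrincipal_of_coprime_nsmul hcop
    (isPrincipal_finrank_nsmul_of_isPrincipal_pullbackAlong φ hφ h hfin hN hD)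
    (isPrincipal_finrank_nsmul_of_isPrincipal_pullbackAlong ψ hψ h' hfin' hN' hD')

/-- Degree-one case: if `[F' : F] = 1` and the pullback is principal, then `D` is principal. -/
theorem isPrincipal_of_isPrincipal_pullbackAlong_of_finrank_eq_one
    (h : SumRamInertiaAlong φ hφ) (hfin : FiniteAlong K φ) (hN : NormFormulaAlong K φ hfin)
    (hone : finrankAlong K φ = 1)
    {D : Divisor K F} (hD : (Divisor.pullbackAlong φ hφ D).IsPrincipal) : D.IsPrincipal := by
  have := isPrincipal_finrank_nsmul_of_isPrincipal_pullbackAlong φ hφ h hfin hN hD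
  rwa [hone, one_nsmul] at this

end AlongDiv

end Fermat.Agent.S37.helper7934
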