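import Mathlib
import Fermat.Prelude.Def_ModularCurve_X0ModL
import Fermat.Agent.S28.helper3292_JqFacts

/-!
# S37 / Track B, node TB-FFK (helper1588): function-field basics of `F_{M,K}`

`F_{M,K} := laurentBaseChange K (modularFunctionFieldFull M)` for an ARBITRARY field `K` of
characteristic zero (number fields `K ≤ ℚ̄` included), and more generally
`laurentBaseChange K F₀` for any `F₀`; also `modularFunctionFieldFullC K M` for every field.

Everything in this file is Mathlib + Prelude only (plus the transcendence of `j` from the landed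
S28 file `helper3292_JqFacts`).  The degree `[F_{M,K} : K(j)] = ψ(M)` is in the companion file
`helper1588_FFKDegree.lean` (it imports the S28 tower theorem).

## Main results

* `exists_algebraMap_eq_of_isAlgebraic` : `K` is algebraically closed in `K((q))`; hence (F3)
  `exists_algebraMap_eq_of_isAlgebraic_mem` : `K` is algebraically closed in every subfield.
* `dualMap ϕ` : coefficientwise application of a `K`-linear functional `ϕ : L → K`; it is
  `K((q))`-semilinear (`dualMap_mul_coeffMap`).
* `exists_mem_coeffMap_eq` : **descent by coefficients** `L·F_K ∩ K((q)) = F_K`.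
* `linearIndependent_coeffMap_adjoin` : **linear disjointness** — `K(x)`-independent families stay
  `L(x)`-independent; `mem_span_coeffMap_adjoin` : spanning families stay spanning.
* `adjoin_coeffMap_fullC`, `adjoin_coeffMap_laurentBaseChange` : (F4) `F_L = L · F_K`.
* `baseChangeHom K L F₀`, `adjoin_range_baseChangeHom`, `mem_range_baseChangeHom_of_coeff`,
  `mem_range_baseChangeHom_of_fixed` (Galois descent), `basisBaseChange`, `finrank_baseChange`
  (constant field extensions preserve the degree over EVERY line `K(x)`, e.g. a Hauptmodul line).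
* `transcendental_of_mem_adjoin_simple`, `finiteDimensional_of_mem_adjoin_simple` : passing from
  the `j`-line to a line `K(h)` with `j ∈ K(h)`.
-/

set_option autoImplicit false

noncomputable section

namespace Fermat.Agent.S37.helper1588

open ModularCurve IntermediateField HahnSeries

section AlgClosed

variable {K : Type*} [Field K]

/-- A power series which is algebraic over the coefficient field is a constant. -/
theorem exists_algebraMap_eq_of_isAlgebraic_ofPowerSeries (s : PowerSeries K)
    (hs : IsAlgebraic K (HahnSeries.ofPowerSeries ℤ K s)) :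
    ∃ c : K, HahnSeries.ofPowerSeries ℤ K s = algebraMap K (LaurentSeries K) c := by
  set x : LaurentSeries K := HahnSeries.ofPowerSeries ℤ K s with hx
  have hint : IsIntegral K x := hs.isIntegral
  have h0 : Polynomial.aeval x (minpoly K x) = 0 := minpoly.aeval K x
  have hcomp : algebraMap K (LaurentSeries K)
      = (HahnSeries.ofPowerSeries ℤ K).comp (algebraMap K (PowerSeries K)) := rfl
  have h1 : HahnSeries.ofPowerSeries ℤ K
      (Polynomial.eval₂ (algebraMap K (PowerSeries K)) s (minpoly K x)) = 0 := by
    rw [Polynomial.hom_eval₂, ← hcomp, ← hx, ← Polynomial.aeval_def]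
    exact h0
  have h2 : Polynomial.eval₂ (algebraMap K (PowerSeries K)) s (minpoly K x) = 0 :=
    HahnSeries.ofPowerSeries_injective (by rw [h1, map_zero])
  have h3 : (minpoly K x).eval (PowerSeries.constantCoeff s) = 0 := by
    have := congrArg (PowerSeries.constantCoeff (R := K)) h2
    rw [Polynomial.hom_eval₂, map_zero] at this
    have hid : (PowerSeries.constantCoeff (R := K)).comp (algebraMap K (PowerSeries K))
        = RingHom.id K := by
      ext c
      simp
    rw [hid, Polynomial.eval₂_id] at this
    exact this
  have hdeg : (minpoly K x).degree = 1 :=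
    Polynomial.degree_eq_one_of_irreducible_of_root (minpoly.irreducible hint) h3
  obtain ⟨c, hc⟩ := (minpoly.degree_eq_one_iff).mp hdeg
  exact ⟨c, hc.symm⟩

/-- **The coefficient field is algebraically closed in the field of Laurent series.** -/
theorem exists_algebraMap_eq_of_isAlgebraic (x : LaurentSeries K) (hx : IsAlgebraic K x) :
    ∃ c : K, x = algebraMap K (LaurentSeries K) c := by
  rcases (Valued.v : Valuation (LaurentSeries K) _).valuationSubring.mem_or_inv_mem x with h | h
  · rw [Valuation.mem_valuationSubring_iff, LaurentSeries.val_le_one_iff_eq_coe] at h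
    obtain ⟨s, rfl⟩ := h
    exact exists_algebraMap_eq_of_isAlgebraic_ofPowerSeries s hx
  · rw [Valuation.mem_valuationSubring_iff, LaurentSeries.val_le_one_iff_eq_coe] at h
    obtain ⟨s, hs⟩ := h
    have hx' : IsAlgebraic K (HahnSeries.ofPowerSeries ℤ K s) := by
      have : (HahnSeries.ofPowerSeries ℤ K s) = x⁻¹ := hs
      rw [this]
      exact hx.inv
    obtain ⟨c, hc⟩ := exists_algebraMap_eq_of_isAlgebraic_ofPowerSeries s hx'
    refine ⟨c⁻¹, ?_⟩
    have h2 : x⁻¹ = algebraMap K (LaurentSeries K) c := by
      rw [← hc]; exact hs.symm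
    rw [map_inv₀, ← h2, inv_inv]

end AlgClosed

section Dual

variable {K L : Type*} [Field K] [Field L] [Algebra K L]

theorem coeff_algebraMap_mul' {R : Type*} [Field R] (c : R) (x : LaurentSeries R) (k : ℤ) :
    (algebraMap R (LaurentSeries R) c * x).coeff k = c * x.coeff k := by
  rw [algebraMap_laurentSeries_eq_single, HahnSeries.coeff_single_mul, sub_zero]

theorem coeffMap_algebraMap_injective :
    Function.Injective (coeffMap (algebraMap K L)) := by
  intro x y h
  ext k
  have := congrArg (fun z : LaurentSeries L => z.coeff k) h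
  exact (algebraMap K L).injective (by simpa using this)

theorem coeffMap_algebraMap_const (c : K) :
    coeffMap (algebraMap K L) (algebraMap K (LaurentSeries K) c)
      = algebraMap L (LaurentSeries L) (algebraMap K L c) := by
  rw [algebraMap_laurentSeries_eq_single, algebraMap_laurentSeries_eq_single, coeffMap_single]

/-- Coefficientwise application of a `K`-linear functional `ϕ : L → K`. -/
def dualMap (ϕ : Module.Dual K L) : LaurentSeries L →+ LaurentSeries K where
  toFun a := a.map ϕ
  map_zero' := by ext k; simp
  map_add' a b := by ext k; simp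

@[simp]
theorem dualMap_coeff (ϕ : Module.Dual K L) (a : LaurentSeries L) (k : ℤ) :
    (dualMap ϕ a).coeff k = ϕ (a.coeff k) := rfl

theorem dualMap_algebraMap_mul (ϕ : Module.Dual K L) (l : L) (a : LaurentSeries L) :
    dualMap ϕ (algebraMap L (LaurentSeries L) l * a)
      = dualMap (ϕ ∘ₗ LinearMap.mulLeft K l) a := by
  ext k
  rw [dualMap_coeff, dualMap_coeff, coeff_algebraMap_mul']
  rfl

theorem dualMap_coeffMap (ϕ : Module.Dual K L) (y : LaurentSeries K) :
    dualMap ϕ (coeffMap (algebraMap K L) y) = algebraMap K (LaurentSeries K) (ϕ 1) * y := by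
  ext k
  rw [dualMap_coeff, coeffMap_coeff, coeff_algebraMap_mul', Algebra.algebraMap_eq_smul_one,
    map_smul, smul_eq_mul, mul_comm]

/-- `dualMap ϕ` is semilinear over `K((q))`. -/
theorem dualMap_mul_coeffMap (ϕ : Module.Dual K L) (a : LaurentSeries L) (w : LaurentSeries K) :
    dualMap ϕ (a * coeffMap (algebraMap K L) w) = dualMap ϕ a * w := by
  ext k
  have hs : (coeffMap (algebraMap K L) w).support ⊆ w.support := by
    intro n hn
    rw [HahnSeries.mem_support] at hn ⊢
    intro h0
    exact hn (by rw [coeffMap_coeff, h0, map_zero])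
  have hs' : (dualMap ϕ a).support ⊆ a.support := by
    intro n hn
    rw [HahnSeries.mem_support] at hn ⊢
    intro h0
    exact hn (by rw [dualMap_coeff, h0, map_zero])
  rw [dualMap_coeff, HahnSeries.coeff_mul_right' w.isPWO_support hs,
    HahnSeries.coeff_mul_left' a.isPWO_support hs', map_sum]
  refine Finset.sum_congr rfl fun ij _ => ?_
  rw [coeffMap_coeff, dualMap_coeff, ← Algebra.commutes, ← Algebra.smul_def, map_smul,
    smul_eq_mul, mul_comm]

theorem eq_zero_of_forall_dualMap {a : LaurentSeries L}
    (h : ∀ ϕ : Module.Dual K L, dualMap ϕ a = 0) : a = 0 := by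
  ext k
  rw [HahnSeries.coeff_zero]
  refine (Module.forall_dual_apply_eq_zero_iff K (a.coeff k)).mp fun ϕ => ?_
  have := congrArg (fun z : LaurentSeries K => z.coeff k) (h ϕ)
  simpa using this

theorem exists_dualMap_ne_zero {a : LaurentSeries L} (ha : a ≠ 0) :
    ∃ ϕ : Module.Dual K L, dualMap ϕ a ≠ 0 := by
  by_contra hcon
  exact ha (eq_zero_of_forall_dualMap fun ϕ => not_not.mp fun h => hcon ⟨ϕ, h⟩)

/-- The `L`-algebra generated by the coefficient extensions of an intermediate field `FK` of
`K((q))` is mapped into `FK` by every coefficientwise functional. -/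
theorem dualMap_mem (FK : IntermediateField K (LaurentSeries K)) {a : LaurentSeries L}
    (ha : a ∈ Algebra.adjoin L (coeffMap (algebraMap K L) '' (FK : Set (LaurentSeries K))))
    (ϕ : Module.Dual K L) : dualMap ϕ a ∈ FK := by
  have hmem : a ∈ Subalgebra.toSubmodule
      (Algebra.adjoin L (coeffMap (algebraMap K L) '' (FK : Set (LaurentSeries K)))) := ha
  rw [Algebra.adjoin_eq_span] at hmem
  have hcl : (Submonoid.closure (coeffMap (algebraMap K L) '' (FK : Set (LaurentSeries K)))
      : Set (LaurentSeries L)) = coeffMap (algebraMap K L) '' (FK : Set (LaurentSeries K)) := by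
    apply Set.Subset.antisymm
    · intro z hz
      induction hz using Submonoid.closure_induction with
      | mem z hz => exact hz
      | one => exact ⟨1, one_mem FK, map_one _⟩
      | mul z w _ _ hz hw =>
        obtain ⟨z', hz', rfl⟩ := hz
        obtain ⟨w', hw', rfl⟩ := hw
        exact ⟨z' * w', mul_mem hz' hw', map_mul _ _ _⟩
    · exact Submonoid.subset_closure
  rw [hcl] at hmem
  clear ha
  revert ϕ
  induction hmem using Submodule.span_induction with
  | mem z hz =>
    intro ϕ
    obtain ⟨y, hy, rfl⟩ := hz
    rw [dualMap_coeffMap]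
    exact mul_mem (FK.algebraMap_mem _) hy
  | zero => intro ϕ; rw [map_zero]; exact zero_mem FK
  | add z w _ _ hz hw => intro ϕ; rw [map_add]; exact add_mem (hz ϕ) (hw ϕ)
  | smul l z _ hz =>
    intro ϕ
    rw [Algebra.smul_def, dualMap_algebraMap_mul]
    exact hz _

/-- A Laurent series over `L` all of whose coefficients lie in `K` comes from `K((q))`. -/
theorem exists_coeffMap_eq_of_forall_coeff_mem (x : LaurentSeries L)
    (h : ∀ n, x.coeff n ∈ (algebraMap K L).range) :
    ∃ y : LaurentSeries K, coeffMap (algebraMap K L) y = x := by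
  choose c hc using h
  refine ⟨⟨c, x.isPWO_support.mono ?_⟩, ?_⟩
  · intro n hn
    rw [Function.mem_support] at hn
    rw [HahnSeries.mem_support]
    intro h0
    apply hn
    have := hc n
    rw [h0] at this
    exact (map_eq_zero (algebraMap K L)).mp this
  · ext n
    exact hc n

/-- **Descent by coefficients.**  Let `FK ⊆ K((q))` be a field containing `K` and let
`FL = L · FK ⊆ L((q))` be the field generated over `L` by the coefficient extensions of the
elements of `FK`.  An element of `FL` with all coefficients in `K` comes from `FK`: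
`FL ∩ K((q)) = FK`. -/
theorem exists_mem_coeffMap_eq (FK : IntermediateField K (LaurentSeries K))
    {x : LaurentSeries L}
    (hx : x ∈ IntermediateField.adjoin L
      (coeffMap (algebraMap K L) '' (FK : Set (LaurentSeries K))))
    (hcoeff : ∀ n, x.coeff n ∈ (algebraMap K L).range) :
    ∃ y ∈ FK, coeffMap (algebraMap K L) y = x := by
  obtain ⟨x₀, rfl⟩ := exists_coeffMap_eq_of_forall_coeff_mem x hcoeff
  refine ⟨x₀, ?_, rfl⟩
  obtain ⟨r, hr, d, hd, hxrd⟩ := IntermediateField.mem_adjoin_iff_div.mp hx
  by_cases hd0 : d = 0
  · have h0 : x₀ = 0 := coeffMap_algebraMap_injective (L := L) (by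
      rw [hxrd, hd0, div_zero, map_zero])
    rw [h0]
    exact zero_mem FK
  · have hmul : r = d * coeffMap (algebraMap K L) x₀ := by
      rw [hxrd]
      field_simp
    obtain ⟨ϕ, hϕ⟩ := exists_dualMap_ne_zero (K := K) hd0
    have h1 : dualMap ϕ r = dualMap ϕ d * x₀ := by rw [hmul, dualMap_mul_coeffMap]
    have h2 : x₀ = dualMap ϕ r / dualMap ϕ d := by
      rw [h1]
      field_simp
    rw [h2]
    exact div_mem (dualMap_mem FK hr ϕ) (dualMap_mem FK hd ϕ)

/-- coefficient extension maps `K(x)` into `L(x)`. -/
theorem coeffMap_mem_adjoin_simple (x : LaurentSeries K) {c : LaurentSeries K}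
    (hc : c ∈ K⟮x⟯) :
    coeffMap (algebraMap K L) c ∈ L⟮coeffMap (algebraMap K L) x⟯ := by
  induction hc using IntermediateField.adjoin_induction with
  | mem z hz =>
    rw [Set.mem_singleton_iff] at hz
    rw [hz]
    exact mem_adjoin_simple_self L _
  | algebraMap c =>
    rw [coeffMap_algebraMap_const]
    exact IntermediateField.algebraMap_mem _ _
  | add z w _ _ hz hw => rw [map_add]; exact add_mem hz hw
  | inv z _ hz => rw [map_inv₀]; exact inv_mem hz
  | mul z w _ _ hz hw => rw [map_mul]; exact mul_mem hz hw

/-- **Linear disjointness.**  A family of Laurent series over `K` which is linearly independent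
over `K(x)` stays linearly independent over `L(x)` after extension of the coefficients. -/
theorem linearIndependent_coeffMap_adjoin (x : LaurentSeries K) {ι : Type*}
    (b : ι → LaurentSeries K) (hb : LinearIndependent K⟮x⟯ b) :
    LinearIndependent L⟮coeffMap (algebraMap K L) x⟯
      (fun i => coeffMap (algebraMap K L) (b i)) := by
  classical
  rw [linearIndependent_iff'] at hb ⊢
  intro s g hg i hi
  set A := Algebra.adjoin L (coeffMap (algebraMap K L) '' ((K⟮x⟯ : IntermediateField K _) :
    Set (LaurentSeries K))) with hA
  have hXA : Algebra.adjoin L ({coeffMap (algebraMap K L) x} : Set (LaurentSeries L)) ≤ A := by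
    apply Algebra.adjoin_mono
    rintro _ rfl
    exact ⟨x, mem_adjoin_simple_self K x, rfl⟩
  have hfrac : ∀ j : ι, ∃ r ∈ A, ∃ d ∈ A, d ≠ 0 ∧ ((g j : LaurentSeries L)) * d = r := by
    intro j
    obtain ⟨r, hr, d, hd, hgrd⟩ := IntermediateField.mem_adjoin_iff_div.mp (g j).2
    by_cases hd0 : d = 0
    · refine ⟨0, zero_mem A, 1, one_mem A, one_ne_zero, ?_⟩
      rw [hgrd, hd0, div_zero, zero_mul]
    · refine ⟨r, hXA hr, d, hXA hd, hd0, ?_⟩
      rw [hgrd]
      field_simp
  choose r hr d hd hd0 hgd using hfrac
  set D := ∏ j ∈ s, d j with hD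
  have hD0 : D ≠ 0 := Finset.prod_ne_zero_iff.mpr fun j _ => hd0 j
  set a : ι → LaurentSeries L := fun j => r j * ∏ k ∈ s.erase j, d k with ha
  have haA : ∀ j, a j ∈ A := fun j => mul_mem (hr j) (prod_mem fun k _ => hd k)
  have hga : ∀ j ∈ s, (g j : LaurentSeries L) * D = a j := by
    intro j hj
    rw [hD, ← Finset.mul_prod_erase s d hj, ← mul_assoc, hgd j]
  have hsum : ∑ j ∈ s, a j * coeffMap (algebraMap K L) (b j) = 0 := by
    have h1 : ∑ j ∈ s, a j * coeffMap (algebraMap K L) (b j)
        = D * ∑ j ∈ s, g j • coeffMap (algebraMap K L) (b j) := by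
      rw [Finset.mul_sum]
      refine Finset.sum_congr rfl fun j hj => ?_
      rw [← hga j hj, Algebra.smul_def, IntermediateField.algebraMap_apply]
      ring
    rw [h1, hg, mul_zero]
  have hai : a i = 0 := by
    apply eq_zero_of_forall_dualMap (K := K)
    intro ϕ
    have h2 : ∑ j ∈ s, dualMap ϕ (a j) * b j = 0 := by
      have := congrArg (dualMap ϕ) hsum
      rw [map_sum, map_zero] at this
      rw [← this]
      exact Finset.sum_congr rfl fun j _ => (dualMap_mul_coeffMap ϕ (a j) (b j)).symm
    have h3 := hb s (fun j => (⟨dualMap ϕ (a j), dualMap_mem K⟮x⟯ (haA j) ϕ⟩ : K⟮x⟯)) (by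
      rw [← h2]
      refine Finset.sum_congr rfl fun j _ => ?_
      rw [Algebra.smul_def, IntermediateField.algebraMap_apply]) i hi
    exact congrArg Subtype.val h3
  have h4 : (g i : LaurentSeries L) * D = 0 := by rw [hga i hi, hai]
  have h5 : (g i : LaurentSeries L) = 0 := (mul_eq_zero.mp h4).resolve_right hD0
  exact Subtype.ext h5

/-- **Generation.**  If `b` spans `FK` over `K(x)`, then the coefficient extensions of `b` span
`FL = L · FK` over `L(x)`. -/
theorem mem_span_coeffMap_adjoin (x : LaurentSeries K)
    (FK : IntermediateField K (LaurentSeries K)) {ι : Type*} [Finite ι]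
    (b : ι → LaurentSeries K) (hbF : ∀ i, b i ∈ FK)
    (hspan : ∀ y ∈ FK, y ∈ Submodule.span K⟮x⟯ (Set.range b))
    {z : LaurentSeries L}
    (hz : z ∈ IntermediateField.adjoin L
      (coeffMap (algebraMap K L) '' (FK : Set (LaurentSeries K)))) :
    z ∈ Submodule.span L⟮coeffMap (algebraMap K L) x⟯
      (Set.range fun i => coeffMap (algebraMap K L) (b i)) := by
  classical
  set S : Submodule L⟮coeffMap (algebraMap K L) x⟯ (LaurentSeries L) :=
    Submodule.span L⟮coeffMap (algebraMap K L) x⟯
      (Set.range fun i => coeffMap (algebraMap K L) (b i)) with hS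
  have hspanS : ∀ y ∈ Submodule.span K⟮x⟯ (Set.range b), coeffMap (algebraMap K L) y ∈ S := by
    intro y hy
    induction hy using Submodule.span_induction with
    | mem w hw =>
      obtain ⟨i, rfl⟩ := hw
      exact Submodule.subset_span ⟨i, rfl⟩
    | zero => rw [map_zero]; exact zero_mem S
    | add u v _ _ hu hv => rw [map_add]; exact add_mem hu hv
    | smul c u _ hu =>
      rw [Algebra.smul_def, IntermediateField.algebraMap_apply, map_mul]
      have hc : coeffMap (algebraMap K L) (c : LaurentSeries K)
          ∈ L⟮coeffMap (algebraMap K L) x⟯ := coeffMap_mem_adjoin_simple x c.2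
      have h1 : coeffMap (algebraMap K L) (c : LaurentSeries K) * coeffMap (algebraMap K L) u
          = (⟨_, hc⟩ : L⟮coeffMap (algebraMap K L) x⟯) • coeffMap (algebraMap K L) u := by
        rw [Algebra.smul_def, IntermediateField.algebraMap_apply]
      rw [h1]
      exact S.smul_mem _ hu
  have hFS : ∀ y ∈ FK, coeffMap (algebraMap K L) y ∈ S := fun y hy => hspanS y (hspan y hy)
  have hmul : ∀ u ∈ S, ∀ v ∈ S, u * v ∈ S := by
    intro u hu v hv
    induction hu using Submodule.span_induction with
    | mem u hu =>
      obtain ⟨i, rfl⟩ := hu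
      induction hv using Submodule.span_induction with
      | mem v hv =>
        obtain ⟨j, rfl⟩ := hv
        show coeffMap (algebraMap K L) (b i) * coeffMap (algebraMap K L) (b j) ∈ S
        rw [← map_mul]
        exact hFS _ (mul_mem (hbF i) (hbF j))
      | zero => rw [mul_zero]; exact zero_mem S
      | add v w _ _ hv hw => rw [mul_add]; exact add_mem hv hw
      | smul c v _ hv => rw [mul_smul_comm]; exact S.smul_mem c hv
    | zero => rw [zero_mul]; exact zero_mem S
    | add u w _ _ hu hw => rw [add_mul]; exact add_mem hu hw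
    | smul c u _ hu => rw [smul_mul_assoc]; exact S.smul_mem c hu
  have h1S : (1 : LaurentSeries L) ∈ S := by
    have := hFS 1 (one_mem FK)
    rwa [map_one] at this
  let SA : Subalgebra L⟮coeffMap (algebraMap K L) x⟯ (LaurentSeries L) :=
    { carrier := S
      mul_mem' := fun {u v} hu hv => hmul u hu v hv
      one_mem' := h1S
      add_mem' := fun {u v} hu hv => S.add_mem hu hv
      zero_mem' := S.zero_mem
      algebraMap_mem' := fun c => by
        rw [Algebra.algebraMap_eq_smul_one]
        exact S.smul_mem c h1S }
  have hSAfg : (Subalgebra.toSubmodule SA).FG := by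
    have : Subalgebra.toSubmodule SA = S := rfl
    rw [this, hS]
    exact Submodule.fg_span (Set.finite_range _)
  have hinv : ∀ u ∈ S, u⁻¹ ∈ S := by
    intro u hu
    have hint : IsIntegral L⟮coeffMap (algebraMap K L) x⟯ u :=
      IsIntegral.of_mem_of_fg SA hSAfg u hu
    exact SA.inv_mem_of_algebraic (x := ⟨u, hu⟩) hint.isAlgebraic
  induction hz using IntermediateField.adjoin_induction with
  | mem w hw =>
    obtain ⟨y, hy, rfl⟩ := hw
    exact hFS y hy
  | algebraMap c =>
    have h2 : algebraMap L (LaurentSeries L) c
        = algebraMap L L⟮coeffMap (algebraMap K L) x⟯ c • (1 : LaurentSeries L) := by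
      rw [Algebra.smul_def, mul_one]
      rfl
    rw [h2]
    exact S.smul_mem _ h1S
  | add u v _ _ hu hv => exact add_mem hu hv
  | inv u _ hu => exact hinv u hu
  | mul u v _ _ hu hv => exact hmul u hu v hv

end Dual

/-! ## Generic field theory glue -/

section Glue

variable {K E : Type*} [Field K] [Field E] [Algebra K E]

/-- The simple extension generated inside an intermediate field `B` is the comap of the simple
extension generated in the ambient field. -/
theorem comap_val_adjoin_simple (B : IntermediateField K E) (x : B) :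
    (K⟮(x : E)⟯).comap B.val = K⟮x⟯ := by
  ext y
  show (y : E) ∈ K⟮(x : E)⟯ ↔ y ∈ K⟮x⟯
  rw [← IntermediateField.lift_adjoin_simple]
  exact IntermediateField.mem_lift y

/-- Rank of `B` over the simple extension generated by `x : B`, as a relative rank in the
ambient field. -/
theorem rank_adjoin_simple_eq_relrank (B : IntermediateField K E) (x : B) :
    Module.rank K⟮x⟯ B = (K⟮(x : E)⟯).relrank B := by
  rw [← comap_val_adjoin_simple B x, IntermediateField.rank_comap,
    IntermediateField.fieldRange_val]

theorem coe_mem_adjoin_simple (B : IntermediateField K E) (x : B) (c : K⟮x⟯) :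
    ((c : B) : E) ∈ K⟮(x : E)⟯ := by
  rw [← IntermediateField.lift_adjoin_simple]
  exact (IntermediateField.mem_lift (c : B)).mpr c.2

theorem adjoin_simple_le (B : IntermediateField K E) (x : B) : K⟮(x : E)⟯ ≤ B :=
  adjoin_simple_le_iff.mpr x.2

theorem mem_adjoin_simple_of_coe (B : IntermediateField K E) (x : B) {y : B}
    (hy : (y : E) ∈ K⟮(x : E)⟯) : y ∈ K⟮x⟯ := by
  rw [← IntermediateField.lift_adjoin_simple] at hy
  exact (IntermediateField.mem_lift y).mp hy

theorem coe_smul_adjoin_simple (B : IntermediateField K E) (x : B) (c : K⟮x⟯) (u : B) :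
    ((c • u : B) : E) = ((c : B) : E) * (u : E) := by
  rw [Algebra.smul_def, IntermediateField.algebraMap_apply]
  rfl

theorem smul_adjoin_simple_ambient (y : E) (c : K⟮y⟯) (u : E) : c • u = (c : E) * u := by
  rw [Algebra.smul_def, IntermediateField.algebraMap_apply]

/-- Linear independence over `K(x)` can be tested in the ambient field. -/
theorem linearIndependent_subtype_iff (B : IntermediateField K E) (x : B) {ι : Type*}
    (b : ι → B) :
    LinearIndependent K⟮x⟯ b ↔ LinearIndependent K⟮(x : E)⟯ (fun i => (b i : E)) := by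
  classical
  rw [linearIndependent_iff', linearIndependent_iff']
  constructor
  · intro h s g hg i hi
    have hgB : ∀ j, ((g j : E)) ∈ B := fun j => adjoin_simple_le B x (g j).2
    have h1 := h s (fun j => (⟨⟨(g j : E), hgB j⟩,
      mem_adjoin_simple_of_coe B x (y := ⟨(g j : E), hgB j⟩) (g j).2⟩ : K⟮x⟯)) (by
      apply Subtype.ext
      rw [ZeroMemClass.coe_zero, ← hg, AddSubmonoidClass.coe_finsetSum]
      refine Finset.sum_congr rfl fun j _ => ?_
      rw [coe_smul_adjoin_simple, smul_adjoin_simple_ambient]) i hi
    apply Subtype.ext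
    have h2 := congrArg (fun c : K⟮x⟯ => ((c : B) : E)) h1
    exact h2
  · intro h s g hg i hi
    have h1 := h s (fun j => (⟨((g j : B) : E), coe_mem_adjoin_simple B x (g j)⟩ : K⟮(x : E)⟯))
      (by
        have h0 := congrArg (fun y : B => (y : E)) hg
        simp only [ZeroMemClass.coe_zero] at h0
        rw [← h0, AddSubmonoidClass.coe_finsetSum]
        refine Finset.sum_congr rfl fun j _ => ?_
        rw [coe_smul_adjoin_simple, smul_adjoin_simple_ambient]) i hi
    apply Subtype.ext
    apply Subtype.ext
    have h2 := congrArg (fun c : K⟮(x : E)⟯ => (c : E)) h1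
    exact h2

/-- Spanning over `K(x)` can be tested in the ambient field. -/
theorem span_subtype_eq_top_iff (B : IntermediateField K E) (x : B) {ι : Type*} (b : ι → B) :
    Submodule.span K⟮x⟯ (Set.range b) = ⊤ ↔
      ∀ y ∈ B, y ∈ Submodule.span K⟮(x : E)⟯ (Set.range fun i => (b i : E)) := by
  constructor
  · intro h y hy
    have hy' : (⟨y, hy⟩ : B) ∈ Submodule.span K⟮x⟯ (Set.range b) := by rw [h]; trivial
    have key : ∀ z ∈ Submodule.span K⟮x⟯ (Set.range b),
        (z : E) ∈ Submodule.span K⟮(x : E)⟯ (Set.range fun i => (b i : E)) := by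
      intro z hz
      induction hz using Submodule.span_induction with
      | mem w hw =>
        obtain ⟨i, rfl⟩ := hw
        exact Submodule.subset_span ⟨i, rfl⟩
      | zero => exact zero_mem _
      | add u v _ _ hu hv => exact add_mem hu hv
      | smul c u _ hu =>
        have h1 : ((c • u : B) : E)
            = (⟨((c : B) : E), coe_mem_adjoin_simple B x c⟩ : K⟮(x : E)⟯) • (u : E) := by
          rw [coe_smul_adjoin_simple, smul_adjoin_simple_ambient]
        rw [h1]
        exact Submodule.smul_mem _ _ hu
    exact key _ hy'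
  · intro h
    rw [eq_top_iff]
    rintro ⟨y, hy⟩ -
    have key : ∀ z ∈ Submodule.span K⟮(x : E)⟯ (Set.range fun i => (b i : E)),
        ∀ hz : z ∈ B, (⟨z, hz⟩ : B) ∈ Submodule.span K⟮x⟯ (Set.range b) := by
      intro z hz
      induction hz using Submodule.span_induction with
      | mem w hw =>
        obtain ⟨i, rfl⟩ := hw
        intro _
        exact Submodule.subset_span ⟨i, rfl⟩
      | zero => intro _; exact zero_mem _
      | add u v hu' hv' hu hv =>
        intro _
        have huB : u ∈ B := by
          refine Submodule.span_induction (p := fun w _ => w ∈ B) ?_ (zero_mem B)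
            (fun _ _ _ _ => add_mem) ?_ hu'
          · rintro _ ⟨i, rfl⟩; exact (b i).2
          · intro c w _ hw
            rw [Algebra.smul_def, IntermediateField.algebraMap_apply]
            exact mul_mem (adjoin_simple_le B x c.2) hw
        have hvB : v ∈ B := by
          refine Submodule.span_induction (p := fun w _ => w ∈ B) ?_ (zero_mem B)
            (fun _ _ _ _ => add_mem) ?_ hv'
          · rintro _ ⟨i, rfl⟩; exact (b i).2
          · intro c w _ hw
            rw [Algebra.smul_def, IntermediateField.algebraMap_apply]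
            exact mul_mem (adjoin_simple_le B x c.2) hw
        exact add_mem (hu huB) (hv hvB)
      | smul c u hu' hu =>
        intro _
        have huB : u ∈ B := by
          refine Submodule.span_induction (p := fun w _ => w ∈ B) ?_ (zero_mem B)
            (fun _ _ _ _ => add_mem) ?_ hu'
          · rintro _ ⟨i, rfl⟩; exact (b i).2
          · intro c w _ hw
            rw [Algebra.smul_def, IntermediateField.algebraMap_apply]
            exact mul_mem (adjoin_simple_le B x c.2) hw
        have hcB : (c : E) ∈ B := adjoin_simple_le B x c.2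
        have h1 : (⟨c • u, ‹_›⟩ : B)
            = (⟨⟨(c : E), hcB⟩, mem_adjoin_simple_of_coe B x (y := ⟨(c : E), hcB⟩) c.2⟩ : K⟮x⟯)
              • (⟨u, huB⟩ : B) := by
          apply Subtype.ext
          rw [coe_smul_adjoin_simple]
          exact smul_adjoin_simple_ambient (x : E) c u
        rw [h1]
        exact Submodule.smul_mem _ _ (hu huB)
    exact key y (h y hy) hy

/-- If `x` is transcendental and lies in `K(h)`, then `h` is transcendental. -/
theorem transcendental_of_mem_adjoin_simple {x h : E} (hx : Transcendental K x)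
    (hxh : x ∈ K⟮h⟯) : Transcendental K h := by
  intro halg
  have : Algebra.IsAlgebraic K K⟮h⟯ := IntermediateField.isAlgebraic_adjoin_simple halg.isIntegral
  have h1 : IsAlgebraic K (⟨x, hxh⟩ : K⟮h⟯) := Algebra.IsAlgebraic.isAlgebraic _
  exact hx ((isAlgebraic_algebraMap_iff (algebraMap K⟮h⟯ E).injective).mpr h1)

/-- If `E` is finite over `K(x)` and `x ∈ K(h)`, then `E` is finite over `K(h)`. -/
theorem finiteDimensional_of_mem_adjoin_simple {x h : E} [FiniteDimensional K⟮x⟯ E]
    (hxh : x ∈ K⟮h⟯) : FiniteDimensional K⟮h⟯ E := by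
  have hle : K⟮x⟯ ≤ K⟮h⟯ := adjoin_simple_le_iff.mpr hxh
  let _ : Algebra K⟮x⟯ K⟮h⟯ := (IntermediateField.inclusion hle).toRingHom.toAlgebra
  have : IsScalarTower K⟮x⟯ K⟮h⟯ E := IsScalarTower.of_algebraMap_eq (fun _ => rfl)
  exact Module.Finite.of_restrictScalars_finite K⟮x⟯ K⟮h⟯ E

end Glue

/-! ## The modular function field over an arbitrary field -/

section FullC

variable (K L : Type*) [Field K] [Field L] [Algebra K L] (M : ℕ)

theorem coeffMap_qExpand_jqModC (d : ℕ) [NeZero d] :
    coeffMap (algebraMap K L) (qExpand K d (jqModC K)) = qExpand L d (jqModC L) := by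
  rw [coeffMap_qExpand, coeffMap_jqModC]

variable {K} in
/-- Coefficient extension maps the level-`M` function field over `K` into the one over `L`. -/
theorem coeffMap_mem_fullC {y : LaurentSeries K} (hy : y ∈ modularFunctionFieldFullC K M) :
    coeffMap (algebraMap K L) y ∈ modularFunctionFieldFullC L M := by
  unfold modularFunctionFieldFullC at hy
  induction hy using IntermediateField.adjoin_induction with
  | mem z hz =>
    obtain ⟨d, hd, hdM, rfl⟩ := hz
    rw [coeffMap_qExpand_jqModC]
    exact jqModCd_mem_full L M hdM
  | algebraMap c =>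
    rw [coeffMap_algebraMap_const]
    exact IntermediateField.algebraMap_mem _ _
  | add z w _ _ hz hw => rw [map_add]; exact add_mem hz hw
  | inv z _ hz => rw [map_inv₀]; exact inv_mem hz
  | mul z w _ _ hz hw => rw [map_mul]; exact mul_mem hz hw

/-- (F4) `F_{M,L} = L · F_{M,K}`: the level-`M` function field over `L` is generated over `L` by
the coefficient extensions of the elements of the level-`M` function field over `K`. -/
theorem adjoin_coeffMap_fullC :
    IntermediateField.adjoin L
        (coeffMap (algebraMap K L) '' (modularFunctionFieldFullC K M : Set (LaurentSeries K)))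
      = modularFunctionFieldFullC L M := by
  apply le_antisymm
  · rw [IntermediateField.adjoin_le_iff]
    rintro _ ⟨y, hy, rfl⟩
    exact coeffMap_mem_fullC L M hy
  · conv_lhs => rw [modularFunctionFieldFullC]
    rw [IntermediateField.adjoin_le_iff]
    rintro _ ⟨d, hd, hdM, rfl⟩
    have := hd
    rw [SetLike.mem_coe, ← coeffMap_qExpand_jqModC K L d]
    exact IntermediateField.subset_adjoin L _ ⟨_, jqModCd_mem_full K M hdM, rfl⟩

/-- The formal `j` is transcendental over every coefficient field. -/
theorem transcendental_jqModC : Transcendental K (jqModC K) :=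
  transcendental_iff_injective.mpr (Fermat.Agent.S28.helper3292.aeval_jqModC_injective K)

/-- (F3) the coefficient field is algebraically closed in every subfield of `K((q))`. -/
theorem exists_algebraMap_eq_of_isAlgebraic_mem (F : IntermediateField K (LaurentSeries K))
    (y : F) (hy : IsAlgebraic K y) : ∃ c : K, y = algebraMap K F c := by
  have h1 : IsAlgebraic K (algebraMap F (LaurentSeries K) y) :=
    (isAlgebraic_algebraMap_iff (algebraMap F (LaurentSeries K)).injective).mpr hy
  obtain ⟨c, hc⟩ := exists_algebraMap_eq_of_isAlgebraic _ h1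
  exact ⟨c, Subtype.ext hc⟩

end FullC

/-! ## The base change `laurentBaseChange K F₀` in characteristic zero -/

section LaurentBaseChange

variable (K L : Type*) [Field K] [Field L] [Algebra ℚ K] [Algebra ℚ L] [Algebra K L]
variable (F₀ : IntermediateField ℚ (LaurentSeries ℚ))

theorem coeffEmb_eq_coeffMap_coeffEmb (y : LaurentSeries ℚ) :
    coeffEmb L y = coeffMap (algebraMap K L) (coeffEmb K y) := by
  rw [coeffEmb, coeffEmb, coeffMap_coeffMap]
  exact coeffMap_congr (RingHom.ext_rat _ _) y

variable {K F₀} in
/-- Coefficient extension `K → L` maps `laurentBaseChange K F₀` into `laurentBaseChange L F₀`. -/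
theorem coeffMap_mem_laurentBaseChange_of_mem {y : LaurentSeries K}
    (hy : y ∈ laurentBaseChange K F₀) :
    coeffMap (algebraMap K L) y ∈ laurentBaseChange L F₀ := by
  unfold laurentBaseChange at hy
  induction hy using IntermediateField.adjoin_induction with
  | mem z hz =>
    obtain ⟨y₀, hy₀, rfl⟩ := hz
    rw [← coeffEmb_eq_coeffMap_coeffEmb]
    exact coeffEmb_mem_laurentBaseChange L hy₀
  | algebraMap c =>
    rw [coeffMap_algebraMap_const]
    exact IntermediateField.algebraMap_mem _ _
  | add z w _ _ hz hw => rw [map_add]; exact add_mem hz hw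
  | inv z _ hz => rw [map_inv₀]; exact inv_mem hz
  | mul z w _ _ hz hw => rw [map_mul]; exact mul_mem hz hw

/-- (F4) `laurentBaseChange L F₀ = L · laurentBaseChange K F₀` for every tower `ℚ → K → L`
(for `L = ℚ̄` and `K` a number field: `F_M = ℚ̄ · F_{M,K}`). -/
theorem adjoin_coeffMap_laurentBaseChange :
    IntermediateField.adjoin L
        (coeffMap (algebraMap K L) '' (laurentBaseChange K F₀ : Set (LaurentSeries K)))
      = laurentBaseChange L F₀ := by
  apply le_antisymm
  · rw [IntermediateField.adjoin_le_iff]
    rintro _ ⟨y, hy, rfl⟩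
    exact coeffMap_mem_laurentBaseChange_of_mem L hy
  · conv_lhs => rw [laurentBaseChange]
    rw [IntermediateField.adjoin_le_iff]
    rintro _ ⟨y₀, hy₀, rfl⟩
    rw [SetLike.mem_coe, coeffEmb_eq_coeffMap_coeffEmb K L]
    exact IntermediateField.subset_adjoin L _ ⟨_, coeffEmb_mem_laurentBaseChange K hy₀, rfl⟩

/-- The base change ring homomorphism `laurentBaseChange K F₀ →+* laurentBaseChange L F₀`
(coefficientwise `algebraMap K L`). -/
def baseChangeHom : laurentBaseChange K F₀ →+* laurentBaseChange L F₀ :=
  ((coeffMap (algebraMap K L)).comp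
    (algebraMap (laurentBaseChange K F₀) (LaurentSeries K))).codRestrict
      (laurentBaseChange L F₀) (fun y => coeffMap_mem_laurentBaseChange_of_mem L y.2)

@[simp]
theorem coe_baseChangeHom (y : laurentBaseChange K F₀) :
    ((baseChangeHom K L F₀ y : laurentBaseChange L F₀) : LaurentSeries L)
      = coeffMap (algebraMap K L) (y : LaurentSeries K) := rfl

theorem baseChangeHom_injective : Function.Injective (baseChangeHom K L F₀) :=
  (baseChangeHom K L F₀).injective

theorem baseChangeHom_algebraMap (c : K) :
    baseChangeHom K L F₀ (algebraMap K (laurentBaseChange K F₀) c)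
      = algebraMap L (laurentBaseChange L F₀) (algebraMap K L c) := by
  apply Subtype.ext
  rw [coe_baseChangeHom]
  exact coeffMap_algebraMap_const c

/-- (F4), subtype form: `laurentBaseChange L F₀` is generated over `L` by the image of
`laurentBaseChange K F₀`. -/
theorem adjoin_range_baseChangeHom :
    IntermediateField.adjoin L (Set.range (baseChangeHom K L F₀)) = ⊤ := by
  apply IntermediateField.lift_injective
  rw [IntermediateField.lift_adjoin, IntermediateField.lift_top]
  refine Eq.trans ?_ (adjoin_coeffMap_laurentBaseChange K L F₀)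
  congr 1
  ext w
  constructor
  · rintro ⟨_, ⟨y, rfl⟩, rfl⟩
    exact ⟨(y : LaurentSeries K), y.2, rfl⟩
  · rintro ⟨y, hy, rfl⟩
    exact ⟨baseChangeHom K L F₀ ⟨y, hy⟩, ⟨⟨y, hy⟩, rfl⟩, rfl⟩

/-- (F7) **descent by coefficients**: an element of `laurentBaseChange L F₀` whose coefficients
all lie in `K` comes from `laurentBaseChange K F₀`. -/
theorem mem_range_baseChangeHom_of_coeff (z : laurentBaseChange L F₀)
    (h : ∀ n, (z : LaurentSeries L).coeff n ∈ (algebraMap K L).range) :
    z ∈ (baseChangeHom K L F₀).range := by
  have hz : (z : LaurentSeries L) ∈ IntermediateField.adjoin L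
      (coeffMap (algebraMap K L) '' (laurentBaseChange K F₀ : Set (LaurentSeries K))) := by
    rw [adjoin_coeffMap_laurentBaseChange K L F₀]; exact z.2
  obtain ⟨y, hy, hyz⟩ := exists_mem_coeffMap_eq (laurentBaseChange K F₀) hz h
  exact ⟨⟨y, hy⟩, Subtype.ext hyz⟩

/-- (F7) Galois form: if `L / K` is Galois, an element of `laurentBaseChange L F₀` fixed by the
coefficientwise action of `Gal(L/K)` comes from `laurentBaseChange K F₀`. -/
theorem mem_range_baseChangeHom_of_fixed [IsGalois K L] (z : laurentBaseChange L F₀)
    (h : ∀ σ : L ≃ₐ[K] L, coeffMap (σ : L →+* L) (z : LaurentSeries L) = z) :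
    z ∈ (baseChangeHom K L F₀).range := by
  apply mem_range_baseChangeHom_of_coeff
  intro n
  show (z : LaurentSeries L).coeff n ∈ Set.range (algebraMap K L)
  rw [InfiniteGalois.mem_range_algebraMap_iff_fixed]
  intro σ
  have := congrArg (fun w : LaurentSeries L => w.coeff n) (h σ)
  simpa using this

/-- Linear disjointness, subtype form: a family of `laurentBaseChange K F₀` which is linearly
independent over `K(x)` stays linearly independent over `L(x)` after base change. -/
theorem linearIndependent_baseChangeHom (x : laurentBaseChange K F₀) {ι : Type*}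
    (b : ι → laurentBaseChange K F₀) (hb : LinearIndependent K⟮x⟯ b) :
    LinearIndependent L⟮baseChangeHom K L F₀ x⟯ (fun i => baseChangeHom K L F₀ (b i)) := by
  rw [linearIndependent_subtype_iff] at hb ⊢
  exact linearIndependent_coeffMap_adjoin (L := L) (x : LaurentSeries K) _ hb

/-- Generation, subtype form: a spanning family of `laurentBaseChange K F₀` over `K(x)` spans
`laurentBaseChange L F₀` over `L(x)` after base change. -/
theorem span_baseChangeHom (x : laurentBaseChange K F₀) {ι : Type*} [Finite ι]
    (b : ι → laurentBaseChange K F₀) (hb : Submodule.span K⟮x⟯ (Set.range b) = ⊤) :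
    Submodule.span L⟮baseChangeHom K L F₀ x⟯
      (Set.range fun i => baseChangeHom K L F₀ (b i)) = ⊤ := by
  rw [span_subtype_eq_top_iff] at hb ⊢
  intro z hz
  have hz' : z ∈ IntermediateField.adjoin L
      (coeffMap (algebraMap K L) '' (laurentBaseChange K F₀ : Set (LaurentSeries K))) := by
    rw [adjoin_coeffMap_laurentBaseChange K L F₀]; exact hz
  exact mem_span_coeffMap_adjoin (L := L) (x : LaurentSeries K) (laurentBaseChange K F₀)
    (fun i => (b i : LaurentSeries K)) (fun i => (b i).2) hb hz'

/-- A `K(x)`-basis of `laurentBaseChange K F₀` gives an `L(x)`-basis of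
`laurentBaseChange L F₀`: `F_L = L(x) ⊗_{K(x)} F_K`. -/
def basisBaseChange (x : laurentBaseChange K F₀) {ι : Type*} [Finite ι]
    (b : Module.Basis ι K⟮x⟯ (laurentBaseChange K F₀)) :
    Module.Basis ι L⟮baseChangeHom K L F₀ x⟯ (laurentBaseChange L F₀) :=
  Module.Basis.mk (linearIndependent_baseChangeHom K L F₀ x b b.linearIndependent)
    (span_baseChangeHom K L F₀ x b b.span_eq).ge

@[simp]
theorem basisBaseChange_apply (x : laurentBaseChange K F₀) {ι : Type*} [Finite ι]
    (b : Module.Basis ι K⟮x⟯ (laurentBaseChange K F₀)) (i : ι) :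
    basisBaseChange K L F₀ x b i = baseChangeHom K L F₀ (b i) := by
  rw [basisBaseChange, Module.Basis.mk_apply]

/-- Constant field extension preserves the degree over every line `K(x)`. -/
theorem finrank_baseChange (x : laurentBaseChange K F₀)
    [FiniteDimensional K⟮x⟯ (laurentBaseChange K F₀)] :
    FiniteDimensional L⟮baseChangeHom K L F₀ x⟯ (laurentBaseChange L F₀) ∧
      Module.finrank L⟮baseChangeHom K L F₀ x⟯ (laurentBaseChange L F₀)
        = Module.finrank K⟮x⟯ (laurentBaseChange K F₀) := by
  have hfree : Module.Free K⟮x⟯ (laurentBaseChange K F₀) := Module.Free.of_divisionRing _ _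
  let b := Module.finBasis K⟮x⟯ (laurentBaseChange K F₀)
  let b' := basisBaseChange K L F₀ x b
  have h1 : Module.finrank L⟮baseChangeHom K L F₀ x⟯ (laurentBaseChange L F₀)
      = Fintype.card (Fin (Module.finrank K⟮x⟯ (laurentBaseChange K F₀))) :=
    Module.finrank_eq_card_basis b'
  exact ⟨Module.Finite.of_basis b', by rw [h1, Fintype.card_fin]⟩

end LaurentBaseChange

/-! ## The modular function field `F_{M,K}` in characteristic zero -/

section ModularChar0

variable (K : Type*) [Field K] [Algebra ℚ K] (M : ℕ)

/-- (F6) `F_{M,K} = K(j(q^d) : d ∣ M)`: the base change of the rational modular function field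
is the field generated over `K` by the `j(q^d)`, `d ∣ M`. -/
theorem laurentBaseChange_full_eq_fullC :
    laurentBaseChange K (modularFunctionFieldFull M) = modularFunctionFieldFullC K M :=
  adjoin_coeffMap_fullC ℚ K M

theorem qExpand_jqModC_mem_laurentBaseChange {d : ℕ} [NeZero d] (hd : d ∣ M) :
    qExpand K d (jqModC K) ∈ laurentBaseChange K (modularFunctionFieldFull M) := by
  rw [laurentBaseChange_full_eq_fullC]
  exact jqModCd_mem_full K M hd

theorem jqModC_mem_laurentBaseChange :
    jqModC K ∈ laurentBaseChange K (modularFunctionFieldFull M) := by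
  rw [laurentBaseChange_full_eq_fullC]
  exact jqModC_mem_full K M

/-- The `j`-function as an element of `F_{M,K}`. -/
def jK : laurentBaseChange K (modularFunctionFieldFull M) :=
  ⟨jqModC K, jqModC_mem_laurentBaseChange K M⟩

@[simp]
theorem coe_jK : ((jK K M : laurentBaseChange K (modularFunctionFieldFull M)) : LaurentSeries K)
    = jqModC K := rfl

/-- The function `j(q^d)`, `d ∣ M`, as an element of `F_{M,K}`. -/
def jKd (d : ℕ) [NeZero d] (hd : d ∣ M) : laurentBaseChange K (modularFunctionFieldFull M) :=
  ⟨qExpand K d (jqModC K), qExpand_jqModC_mem_laurentBaseChange K M hd⟩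

@[simp]
theorem coe_jKd (d : ℕ) [NeZero d] (hd : d ∣ M) :
    ((jKd K M d hd : laurentBaseChange K (modularFunctionFieldFull M)) : LaurentSeries K)
      = qExpand K d (jqModC K) := rfl

/-- (F1) `j` is transcendental over `K`. -/
theorem transcendental_jK : Transcendental K (jK K M) :=
  (transcendental_algebraMap_iff
    (algebraMap (laurentBaseChange K (modularFunctionFieldFull M))
      (LaurentSeries K)).injective).mp (transcendental_jqModC K)

/-- (F3) `K` is algebraically closed in `F_{M,K}`. -/
theorem exists_algebraMap_eq_of_isAlgebraic_FK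
    (y : laurentBaseChange K (modularFunctionFieldFull M)) (hy : IsAlgebraic K y) :
    ∃ c : K, y = algebraMap K (laurentBaseChange K (modularFunctionFieldFull M)) c :=
  exists_algebraMap_eq_of_isAlgebraic_mem K _ y hy

/-- (F3), range form. -/
theorem mem_range_algebraMap_of_isAlgebraic_FK
    (y : laurentBaseChange K (modularFunctionFieldFull M)) (hy : IsAlgebraic K y) :
    y ∈ (algebraMap K (laurentBaseChange K (modularFunctionFieldFull M))).range := by
  obtain ⟨c, hc⟩ := exists_algebraMap_eq_of_isAlgebraic_FK K M y hy
  exact ⟨c, hc.symm⟩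

variable (L : Type*) [Field L] [Algebra ℚ L] [Algebra K L]

@[simp]
theorem baseChangeHom_jK :
    baseChangeHom K L (modularFunctionFieldFull M) (jK K M) = jK L M :=
  Subtype.ext (coeffMap_jqModC (algebraMap K L))

@[simp]
theorem baseChangeHom_jKd (d : ℕ) [NeZero d] (hd : d ∣ M) :
    baseChangeHom K L (modularFunctionFieldFull M) (jKd K M d hd) = jKd L M d hd :=
  Subtype.ext (coeffMap_qExpand_jqModC K L d)

end ModularChar0

end Fermat.Agent.S37.helper1588
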