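import Mathlib
import Fermat.Prelude.Def_ModularCurve_X0ModL
import Fermat.Agent.S37.helper1588_FFK
import Fermat.Agent.S28.helper1457_TowerNoPhi
import Fermat.Agent.S28.helper559_TowerFromPrime
import Fermat.Agent.S28.helper508_FormalPrime

/-!
# S37 / Track B, node TB-FFK (helper1588): the degree `[F_{M,K} : K(j)] = ψ(M)`

From the landed S28 tower theorem, which holds over EVERY field in which the primes of `M` are
invertible:

* `relrank_fullC`, `finrank_jC`, `finiteDimensional_jC` : for `modularFunctionFieldFullC K M`,
  `K` any field with the primes of `M` invertible (characteristic `ℓ ∤ M` included: the special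
  fibre);
* `finrank_jK`, `finiteDimensional_jK` : for `F_{M,K} = laurentBaseChange K
  (modularFunctionFieldFull M)`, `K` any field of characteristic zero (number fields included);
* `functionField_jK` : the "function field" package (`j` transcendental, `F_{M,K}` finite over
  `K(j)`, `K` algebraically closed in `F_{M,K}`);
* `functionField_of_mem_adjoin` : the same over any line `K(h)` with `j ∈ K(h)` (Hauptmodul).
-/

set_option autoImplicit false

noncomputable section

namespace Fermat.Agent.S37.helper1588

open ModularCurve IntermediateField HahnSeries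

section FullC

variable (K : Type) [Field K] (M : ℕ)

/-- The S28 degree theorem over an arbitrary field in which the primes of `M` are invertible. -/
theorem relrank_fullC [NeZero M] (hMK : ∀ p : ℕ, p.Prime → p ∣ M → (p : K) ≠ 0) :
    (K⟮jqModC K⟯).relrank (modularFunctionFieldFullC K M) = (dedekindPsi M : Cardinal) :=
  Fermat.Agent.S28.helper1457.relrank_full_eq_dedekindPsi_of_hub K M (NeZero.pos M)
    (Fermat.Agent.S28.helper559.hub_of_formalPrime K M (NeZero.pos M)
      (fun p _ _ => Fermat.Agent.S28.helper508.stmt_FormalPrime p)) hMK

/-- The `j`-function as an element of `modularFunctionFieldFullC K M`. -/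
def jC : modularFunctionFieldFullC K M := ⟨jqModC K, jqModC_mem_full K M⟩

@[simp]
theorem coe_jC : ((jC K M : modularFunctionFieldFullC K M) : LaurentSeries K) = jqModC K := rfl

theorem transcendental_jC : Transcendental K (jC K M) :=
  (transcendental_algebraMap_iff
    (algebraMap (modularFunctionFieldFullC K M) (LaurentSeries K)).injective).mp
    (transcendental_jqModC K)

theorem rank_jC [NeZero M] (hMK : ∀ p : ℕ, p.Prime → p ∣ M → (p : K) ≠ 0) :
    Module.rank K⟮jC K M⟯ (modularFunctionFieldFullC K M) = (dedekindPsi M : Cardinal) := by
  rw [rank_adjoin_simple_eq_relrank]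
  exact relrank_fullC K M hMK

theorem finiteDimensional_jC [NeZero M] (hMK : ∀ p : ℕ, p.Prime → p ∣ M → (p : K) ≠ 0) :
    FiniteDimensional K⟮jC K M⟯ (modularFunctionFieldFullC K M) :=
  have : Module.Free K⟮jC K M⟯ (modularFunctionFieldFullC K M) := Module.Free.of_divisionRing _ _
  Module.finite_of_rank_eq_nat (rank_jC K M hMK)

theorem finrank_jC [NeZero M] (hMK : ∀ p : ℕ, p.Prime → p ∣ M → (p : K) ≠ 0) :
    Module.finrank K⟮jC K M⟯ (modularFunctionFieldFullC K M) = dedekindPsi M :=
  Module.finrank_eq_of_rank_eq (rank_jC K M hMK)

end FullC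

section Char0

variable (K : Type) [Field K] [Algebra ℚ K] (M : ℕ)

theorem natCast_prime_ne_zero_of_algebraRat (p : ℕ) (hp : p.Prime) : (p : K) ≠ 0 := by
  have : CharZero K := charZero_of_injective_algebraMap (algebraMap ℚ K).injective
  exact Nat.cast_ne_zero.mpr hp.ne_zero

variable [NeZero M]

theorem relrank_laurentBaseChange :
    (K⟮jqModC K⟯).relrank (laurentBaseChange K (modularFunctionFieldFull M))
      = (dedekindPsi M : Cardinal) := by
  rw [laurentBaseChange_full_eq_fullC]
  exact relrank_fullC K M (fun p hp _ => natCast_prime_ne_zero_of_algebraRat K p hp)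

theorem rank_jK :
    Module.rank K⟮jK K M⟯ (laurentBaseChange K (modularFunctionFieldFull M))
      = (dedekindPsi M : Cardinal) := by
  rw [rank_adjoin_simple_eq_relrank]
  exact relrank_laurentBaseChange K M

/-- (F2) `F_{M,K}` is finite over `K(j)`. -/
theorem finiteDimensional_jK :
    FiniteDimensional K⟮jK K M⟯ (laurentBaseChange K (modularFunctionFieldFull M)) :=
  have : Module.Free K⟮jK K M⟯ (laurentBaseChange K (modularFunctionFieldFull M)) :=
    Module.Free.of_divisionRing _ _
  Module.finite_of_rank_eq_nat (rank_jK K M)

/-- (F2) `[F_{M,K} : K(j)] = ψ(M)`. -/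
theorem finrank_jK :
    Module.finrank K⟮jK K M⟯ (laurentBaseChange K (modularFunctionFieldFull M))
      = dedekindPsi M :=
  Module.finrank_eq_of_rank_eq (rank_jK K M)

/-- **The function-field package of `F_{M,K}` over the `j`-line**, for every field `K` of
characteristic zero (number fields included): `j` is transcendental over `K`, `F_{M,K}` is finite
over `K(j)` of degree `ψ(M)`, and `K` is algebraically closed in `F_{M,K}`. -/
theorem functionField_jK :
    Transcendental K (jK K M) ∧
    FiniteDimensional K⟮jK K M⟯ (laurentBaseChange K (modularFunctionFieldFull M)) ∧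
    Module.finrank K⟮jK K M⟯ (laurentBaseChange K (modularFunctionFieldFull M)) = dedekindPsi M ∧
    ∀ y : laurentBaseChange K (modularFunctionFieldFull M), IsAlgebraic K y →
      ∃ c : K, y = algebraMap K (laurentBaseChange K (modularFunctionFieldFull M)) c :=
  ⟨transcendental_jK K M, finiteDimensional_jK K M, finrank_jK K M,
    exists_algebraMap_eq_of_isAlgebraic_FK K M⟩

/-- **The function-field package over any line `K(h)` with `j ∈ K(h)`** (e.g. `h` a Hauptmodul of
a level dividing `M`): `h` is transcendental over `K` and `F_{M,K}` is finite over `K(h)`. -/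
theorem functionField_of_mem_adjoin (h : laurentBaseChange K (modularFunctionFieldFull M))
    (hj : jK K M ∈ K⟮h⟯) :
    Transcendental K h ∧
    FiniteDimensional K⟮h⟯ (laurentBaseChange K (modularFunctionFieldFull M)) := by
  have := finiteDimensional_jK K M
  exact ⟨transcendental_of_mem_adjoin_simple (transcendental_jK K M) hj,
    finiteDimensional_of_mem_adjoin_simple hj⟩

end Char0

end Fermat.Agent.S37.helper1588
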