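/-
S37-GAUSSGAL (helper2563): the Galois action on the Gauss valuation ring of the modular
function field `F = laurentBaseChange L (modularFunctionFieldFull N)` and on its reduction.

Vocabulary: Prelude (`arithmeticGalois`, `SemilinearAut`, `coeffMap`,
`modularFunctionFieldFullC`) and the landed formal Gauss instance `S18/helper8991`
(`gaussRing`, `gaussRho`, `gaussF`, `gaussFRed`).

* (GG1) `coeffAutC N : RingAut k →* SemilinearAut k (modularFunctionFieldFullC k N)`, the
  coefficientwise semilinear automorphisms of the function field of the special fibre;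
  `frobAutC k ℓ N` the coefficientwise Frobenius for `k` perfect of characteristic `ℓ`.
* (GG2) formal core: a ring endomorphism `s` of `L` preserving `A` and inducing `φ` on `k`
  preserves the Gauss ring, and `gaussRho (coeffMap s f) = coeffMap φ (gaussRho f)`.
* (GG3) decomposition group, (GG4) inertia group, (GG5) Frobenius elements, for
  `π = IsLocalRing.residue A`.
* (GG6) the same packaged as the hypotheses `hO`, `hO'`, `hred` of
  `helper8523.map_smul_place` / `helper5413.LatHyp.placeRed_equivariant`.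
-/
import Mathlib
import Fermat.Prelude.Def_ModularCurve_ReductionModL
import Fermat.Agent.S18.helper8991_GaussInst
import Fermat.Agent.Lib.helper6879_ResidueQbar

set_option autoImplicit false

open HahnSeries ModularCurve AlgebraicCurve

namespace Fermat.Agent.S37.helper2563

open Fermat.Agent.S18.helper8991

noncomputable section

/-! ### (GG1) Coefficientwise automorphisms of the function field of the special fibre -/

section CoeffAut

variable {k₁ k₂ : Type*} [Field k₁] [Field k₂]

/-- `coeffMap` of an injective ring homomorphism is injective. -/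
theorem coeffMap_injective' {R S : Type*} [CommRing R] [CommRing S] (f : R →+* S)
    (hf : Function.Injective f) : Function.Injective (coeffMap f) := by
  intro x y h
  ext n
  apply hf
  have h1 := congrArg (fun z : LaurentSeries S => z.coeff n) h
  simpa using h1

/-- A homomorphism of coefficient fields maps `modularFunctionFieldFullC k₁ N` into
`modularFunctionFieldFullC k₂ N`. -/
theorem coeffMap_mem_fullC (e : k₁ →+* k₂) (N : ℕ) {x : LaurentSeries k₁}
    (hx : x ∈ modularFunctionFieldFullC k₁ N) :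
    coeffMap e x ∈ modularFunctionFieldFullC k₂ N := by
  change x ∈ IntermediateField.adjoin k₁ (divisorExpansionsC k₁ N) at hx
  induction hx using IntermediateField.adjoin_induction with
  | mem x hx =>
    obtain ⟨d, hd, hdN, rfl⟩ := hx
    have := hd
    have h1 : coeffMap e (qExpand k₁ d (jqModC k₁)) = qExpand k₂ d (jqModC k₂) :=
      coeffMap_jqNModC e d
    rw [h1]
    exact jqModCd_mem_full k₂ N hdN
  | algebraMap r =>
    have h : coeffMap e (algebraMap k₁ (LaurentSeries k₁) r)
        = algebraMap k₂ (LaurentSeries k₂) (e r) := by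
      rw [algebraMap_laurentSeries_eq_single, algebraMap_laurentSeries_eq_single,
        coeffMap_single]
    rw [h]
    exact IntermediateField.algebraMap_mem _ _
  | add x y _ _ hx hy =>
    rw [map_add]
    exact add_mem hx hy
  | inv x _ hx =>
    rw [map_inv₀]
    exact inv_mem hx
  | mul x y _ _ hx hy =>
    rw [map_mul]
    exact mul_mem hx hy

variable {k : Type*} [Field k] (N : ℕ)

/-- The ring automorphism of `modularFunctionFieldFullC k N` acting by `φ` on coefficients. -/
def coeffRingAutC (φ : k ≃+* k) :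
    ↥(modularFunctionFieldFullC k N) ≃+* ↥(modularFunctionFieldFullC k N) where
  toFun x := ⟨coeffMap (φ : k →+* k) (x : LaurentSeries k), coeffMap_mem_fullC _ N x.2⟩
  invFun x := ⟨coeffMap (φ.symm : k →+* k) (x : LaurentSeries k), coeffMap_mem_fullC _ N x.2⟩
  left_inv x := Subtype.ext <| by
    show coeffMap (φ.symm : k →+* k) (coeffMap (φ : k →+* k) (x : LaurentSeries k))
      = (x : LaurentSeries k)
    rw [coeffMap_coeffMap,
      coeffMap_congr (g := RingHom.id k) (RingHom.ext fun a => φ.symm_apply_apply a)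
        (x : LaurentSeries k),
      coeffMap_id]
  right_inv x := Subtype.ext <| by
    show coeffMap (φ : k →+* k) (coeffMap (φ.symm : k →+* k) (x : LaurentSeries k))
      = (x : LaurentSeries k)
    rw [coeffMap_coeffMap,
      coeffMap_congr (g := RingHom.id k) (RingHom.ext fun a => φ.apply_symm_apply a)
        (x : LaurentSeries k),
      coeffMap_id]
  map_mul' x y :=
    Subtype.ext (map_mul (coeffMap (φ : k →+* k)) (x : LaurentSeries k) (y : LaurentSeries k))
  map_add' x y :=
    Subtype.ext (map_add (coeffMap (φ : k →+* k)) (x : LaurentSeries k) (y : LaurentSeries k))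

@[simp]
theorem coe_coeffRingAutC_apply (φ : k ≃+* k) (x : ↥(modularFunctionFieldFullC k N)) :
    (coeffRingAutC N φ x : LaurentSeries k) = coeffMap (φ : k →+* k) (x : LaurentSeries k) :=
  rfl

theorem coeffRingAutC_algebraMap (φ : k ≃+* k) (a : k) :
    coeffRingAutC N φ (algebraMap k ↥(modularFunctionFieldFullC k N) a)
      = algebraMap k ↥(modularFunctionFieldFullC k N) (φ a) :=
  Subtype.ext (coeffMap_algebraMap (φ : k →+* k) a)

/-- (GG1) The coefficientwise semilinear automorphisms of `Fk = modularFunctionFieldFullC k N`: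
a group homomorphism `RingAut k →* SemilinearAut k Fk`. -/
def coeffAutC : RingAut k →* SemilinearAut k ↥(modularFunctionFieldFullC k N) where
  toFun φ := ⟨(coeffRingAutC N φ, φ), fun a => coeffRingAutC_algebraMap N φ a⟩
  map_one' := by
    refine Subtype.ext (Prod.ext (RingEquiv.ext fun x => Subtype.ext ?_) rfl)
    show coeffMap ((1 : RingAut k) : k →+* k) (x : LaurentSeries k) = (x : LaurentSeries k)
    rw [show ((1 : RingAut k) : k →+* k) = RingHom.id k from RingHom.ext fun _ => rfl,
      coeffMap_id]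
  map_mul' φ ψ := by
    refine Subtype.ext (Prod.ext (RingEquiv.ext fun x => Subtype.ext ?_) rfl)
    show coeffMap ((φ * ψ : RingAut k) : k →+* k) (x : LaurentSeries k)
      = coeffMap (φ : k →+* k) (coeffMap (ψ : k →+* k) (x : LaurentSeries k))
    rw [coeffMap_coeffMap]
    exact coeffMap_congr (RingHom.ext fun _ => rfl) _

@[simp]
theorem toRingAut_coeffAutC (φ : RingAut k) :
    SemilinearAut.toRingAut (coeffAutC N φ) = coeffRingAutC N φ :=
  rfl

@[simp]
theorem baseAut_coeffAutC (φ : RingAut k) : SemilinearAut.baseAut (coeffAutC N φ) = φ :=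
  rfl

theorem coe_coeffAutC_smul (φ : RingAut k) (x : ↥(modularFunctionFieldFullC k N)) :
    ((coeffAutC N φ • x : ↥(modularFunctionFieldFullC k N)) : LaurentSeries k)
      = coeffMap (φ : k →+* k) (x : LaurentSeries k) :=
  rfl

theorem coe_coeffAutC_inv_smul (φ : RingAut k) (x : ↥(modularFunctionFieldFullC k N)) :
    (((coeffAutC N φ)⁻¹ • x : ↥(modularFunctionFieldFullC k N)) : LaurentSeries k)
      = coeffMap (φ.symm : k →+* k) (x : LaurentSeries k) :=
  rfl

variable (k) in
/-- (GG1) The coefficientwise Frobenius of `Fk = modularFunctionFieldFullC k N`, for `k` perfect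
of characteristic `ℓ`. -/
def frobAutC (ℓ : ℕ) [ExpChar k ℓ] [PerfectRing k ℓ] :
    SemilinearAut k ↥(modularFunctionFieldFullC k N) :=
  coeffAutC N (frobeniusEquiv k ℓ)

theorem coe_frobAutC_smul (ℓ : ℕ) [ExpChar k ℓ] [PerfectRing k ℓ]
    (x : ↥(modularFunctionFieldFullC k N)) :
    ((frobAutC k N ℓ • x : ↥(modularFunctionFieldFullC k N)) : LaurentSeries k)
      = coeffMap (frobenius k ℓ) (x : LaurentSeries k) :=
  rfl

theorem coeff_frobAutC_smul (ℓ : ℕ) [ExpChar k ℓ] [PerfectRing k ℓ]
    (x : ↥(modularFunctionFieldFullC k N)) (n : ℤ) :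
    ((frobAutC k N ℓ • x : ↥(modularFunctionFieldFullC k N)) : LaurentSeries k).coeff n
      = ((x : LaurentSeries k).coeff n) ^ ℓ :=
  rfl

@[simp]
theorem baseAut_frobAutC (ℓ : ℕ) [ExpChar k ℓ] [PerfectRing k ℓ] :
    SemilinearAut.baseAut (frobAutC k N ℓ) = frobeniusEquiv k ℓ :=
  rfl

end CoeffAut

/-! ### (GG2) The formal core: endomorphisms of `L` preserving `A` act on the Gauss ring -/

section Core

variable {L : Type*} [Field L] (A : ValuationSubring L) {k : Type*} [Field k] (π : A →+* k)

/-- The restriction to `A` of a ring endomorphism of `L` mapping `A` into `A`. -/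
def restrictA (s : L →+* L) (hs : ∀ a ∈ A, s a ∈ A) : A →+* A :=
  (s.comp A.subtype).codRestrict A fun a => hs a a.2

theorem coe_restrictA (s : L →+* L) (hs : ∀ a ∈ A, s a ∈ A) (a : A) :
    ((restrictA A s hs a : A) : L) = s a :=
  rfl

/-- Coefficientwise `s` commutes with the inclusion `A((q)) → L((q))`. -/
theorem coeffMap_inc (s : L →+* L) (hs : ∀ a ∈ A, s a ∈ A) (Y : LaurentSeries A) :
    coeffMap s (inc A Y) = inc A (coeffMap (restrictA A s hs) Y) := by
  show coeffMap s (coeffMap A.subtype Y) = coeffMap A.subtype (coeffMap (restrictA A s hs) Y)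
  rw [coeffMap_coeffMap, coeffMap_coeffMap]
  exact coeffMap_congr (RingHom.ext fun _ => rfl) Y

/-- Coefficientwise reduction intertwines `s` on `A((q))` and `φ` on `k((q))`. -/
theorem red_coeffMap_restrictA (s : L →+* L) (hs : ∀ a ∈ A, s a ∈ A) (φ : k →+* k)
    (hπ : ∀ a : A, π ⟨s a, hs a a.2⟩ = φ (π a)) (Y : LaurentSeries A) :
    red A π (coeffMap (restrictA A s hs) Y) = coeffMap φ (red A π Y) := by
  show coeffMap π (coeffMap (restrictA A s hs) Y) = coeffMap φ (coeffMap π Y)
  rw [coeffMap_coeffMap, coeffMap_coeffMap]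
  exact coeffMap_congr (RingHom.ext fun a => hπ a) Y

theorem red_coeffMap_restrictA_ne_zero (s : L →+* L) (hs : ∀ a ∈ A, s a ∈ A) (φ : k →+* k)
    (hπ : ∀ a : A, π ⟨s a, hs a a.2⟩ = φ (π a)) {Y : LaurentSeries A} (hY : red A π Y ≠ 0) :
    red A π (coeffMap (restrictA A s hs) Y) ≠ 0 := by
  rw [red_coeffMap_restrictA A π s hs φ hπ]
  intro h0
  exact hY (coeffMap_injective' φ φ.injective (by rw [h0, map_zero]))

/-- (GG2) A ring endomorphism `s` of `L` mapping `A` into `A` and inducing `φ` on `k` maps the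
Gauss ring into itself. -/
theorem coeffMap_mem_gaussRing (s : L →+* L) (hs : ∀ a ∈ A, s a ∈ A) (φ : k →+* k)
    (hπ : ∀ a : A, π ⟨s a, hs a a.2⟩ = φ (π a)) {f : LaurentSeries L}
    (hf : f ∈ gaussRing A π) : coeffMap s f ∈ gaussRing A π := by
  obtain ⟨X, Y, hY, h⟩ := hf
  refine ⟨coeffMap (restrictA A s hs) X, coeffMap (restrictA A s hs) Y,
    red_coeffMap_restrictA_ne_zero A π s hs φ hπ hY, ?_⟩
  rw [← coeffMap_inc, ← coeffMap_inc, ← map_mul, h]

/-- (GG2) ... and the reduction map of the Gauss ring intertwines `s` and `φ`. -/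
theorem gaussRho_coeffMap (s : L →+* L) (hs : ∀ a ∈ A, s a ∈ A) (φ : k →+* k)
    (hπ : ∀ a : A, π ⟨s a, hs a a.2⟩ = φ (π a)) (f : ↥(gaussRing A π)) :
    gaussRho A π ⟨coeffMap s (f : LaurentSeries L), coeffMap_mem_gaussRing A π s hs φ hπ f.2⟩
      = coeffMap φ (gaussRho A π f) := by
  obtain ⟨X, Y, hY, h⟩ := f.2
  have hY' := red_coeffMap_restrictA_ne_zero A π s hs φ hπ hY
  have h' : coeffMap s (f : LaurentSeries L) * inc A (coeffMap (restrictA A s hs) Y)
      = inc A (coeffMap (restrictA A s hs) X) := by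
    rw [← coeffMap_inc, ← coeffMap_inc, ← map_mul, h]
  have e1 := gaussRho_eq A π
    ⟨coeffMap s (f : LaurentSeries L), coeffMap_mem_gaussRing A π s hs φ hπ f.2⟩ hY' h'
  have e2 := gaussRho_eq A π f hY h
  rw [e1, e2, red_coeffMap_restrictA A π s hs φ hπ X, red_coeffMap_restrictA A π s hs φ hπ Y]
  exact (map_div₀ (coeffMap φ) _ _).symm

end Core

/-! ### The Galois action on `gaussF` -/

section Instance

variable {L : Type*} [Field L] [Algebra ℚ L] (A : ValuationSubring L) {k : Type*} [Field k]
  (π : A →+* k) (N : ℕ)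

/-- (GG2 for `F`) An automorphism `σ` of `L/ℚ` mapping `A` into `A` and inducing `φ` on `k`
maps `gaussF` into itself. -/
theorem galois_smul_mem_gaussF (σ : L ≃ₐ[ℚ] L) (hσ : ∀ a ∈ A, σ a ∈ A) (φ : k →+* k)
    (hπ : ∀ a : A, π ⟨σ a, hσ a a.2⟩ = φ (π a))
    {f : ↥(laurentBaseChange L (modularFunctionFieldFull N))} (hf : f ∈ gaussF A π N) :
    arithmeticGalois (modularFunctionFieldFull N) σ • f ∈ gaussF A π N :=
  coeffMap_mem_gaussRing A π (σ : L →+* L) hσ φ hπ hf

/-- (GG2 for `F`) ... and `gaussFRed (σ • f) = coeffMap φ (gaussFRed f)`. -/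
theorem gaussFRed_galois_smul (σ : L ≃ₐ[ℚ] L) (hσ : ∀ a ∈ A, σ a ∈ A) (φ : k →+* k)
    (hπ : ∀ a : A, π ⟨σ a, hσ a a.2⟩ = φ (π a)) (f : ↥(gaussF A π N)) :
    gaussFRed A π N ⟨arithmeticGalois (modularFunctionFieldFull N) σ •
        (f : ↥(laurentBaseChange L (modularFunctionFieldFull N))),
        galois_smul_mem_gaussF A π N σ hσ φ hπ f.2⟩
      = coeffMap φ (gaussFRed A π N f) :=
  gaussRho_coeffMap A π (σ : L →+* L) hσ φ hπ
    ⟨((f : ↥(laurentBaseChange L (modularFunctionFieldFull N))) : LaurentSeries L), f.2⟩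

end Instance

/-! ### (GG3)-(GG5) Decomposition group, inertia group, Frobenius elements (`π = residue`) -/

section Residue

open Fermat.Agent.Lib.helper6879

variable {L : Type*} [Field L] [Algebra ℚ L] (A : ValuationSubring L) (N : ℕ)

/-- The automorphism of the residue field of `A` induced by an element of the decomposition
group of `A`. -/
def resAut {σ : L ≃ₐ[ℚ] L} (hσ : σ ∈ A.decompositionSubgroup ℚ) :
    RingAut (IsLocalRing.ResidueField A) :=
  MulSemiringAction.toRingAut (A.decompositionSubgroup ℚ) (IsLocalRing.ResidueField A) ⟨σ, hσ⟩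

theorem resAut_residue {σ : L ≃ₐ[ℚ] L} (hσ : σ ∈ A.decompositionSubgroup ℚ) (a : A) :
    IsLocalRing.residue A ⟨σ a, map_mem_of_mem_decompositionSubgroup hσ a.2⟩
      = resAut A hσ (IsLocalRing.residue A a) :=
  rfl

/-- (GG3) The decomposition group of `A` maps `gaussF` into itself. -/
theorem smul_mem_gaussF_of_mem_decompositionSubgroup {σ : L ≃ₐ[ℚ] L}
    (hσ : σ ∈ A.decompositionSubgroup ℚ)
    {f : ↥(laurentBaseChange L (modularFunctionFieldFull N))}
    (hf : f ∈ gaussF A (IsLocalRing.residue A) N) :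
    arithmeticGalois (modularFunctionFieldFull N) σ • f ∈ gaussF A (IsLocalRing.residue A) N :=
  galois_smul_mem_gaussF A (IsLocalRing.residue A) N σ
    (fun _ ha => map_mem_of_mem_decompositionSubgroup hσ ha)
    ((resAut A hσ : RingAut (IsLocalRing.ResidueField A)) :
      IsLocalRing.ResidueField A →+* IsLocalRing.ResidueField A)
    (fun a => resAut_residue A hσ a) hf

/-- (GG3) ... and so does the inverse. -/
theorem inv_smul_mem_gaussF_of_mem_decompositionSubgroup {σ : L ≃ₐ[ℚ] L}
    (hσ : σ ∈ A.decompositionSubgroup ℚ)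
    {f : ↥(laurentBaseChange L (modularFunctionFieldFull N))}
    (hf : f ∈ gaussF A (IsLocalRing.residue A) N) :
    (arithmeticGalois (modularFunctionFieldFull N) σ)⁻¹ • f
      ∈ gaussF A (IsLocalRing.residue A) N := by
  rw [← map_inv]
  exact smul_mem_gaussF_of_mem_decompositionSubgroup A N (inv_mem hσ) hf

/-- (GG3) `σ • f ∈ gaussF ↔ f ∈ gaussF` for `σ` in the decomposition group. -/
theorem smul_mem_gaussF_iff_of_mem_decompositionSubgroup {σ : L ≃ₐ[ℚ] L}
    (hσ : σ ∈ A.decompositionSubgroup ℚ)
    {f : ↥(laurentBaseChange L (modularFunctionFieldFull N))} :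
    arithmeticGalois (modularFunctionFieldFull N) σ • f ∈ gaussF A (IsLocalRing.residue A) N
      ↔ f ∈ gaussF A (IsLocalRing.residue A) N := by
  constructor
  · intro h
    have h1 := inv_smul_mem_gaussF_of_mem_decompositionSubgroup A N hσ h
    rwa [inv_smul_smul] at h1
  · exact smul_mem_gaussF_of_mem_decompositionSubgroup A N hσ

/-- (GG3) The reduction map intertwines `σ` in the decomposition group with the induced
automorphism of the residue field, acting on coefficients. -/
theorem gaussFRed_smul_of_mem_decompositionSubgroup {σ : L ≃ₐ[ℚ] L}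
    (hσ : σ ∈ A.decompositionSubgroup ℚ) (f : ↥(gaussF A (IsLocalRing.residue A) N)) :
    gaussFRed A (IsLocalRing.residue A) N
        ⟨arithmeticGalois (modularFunctionFieldFull N) σ •
          (f : ↥(laurentBaseChange L (modularFunctionFieldFull N))),
          smul_mem_gaussF_of_mem_decompositionSubgroup A N hσ f.2⟩
      = coeffMap ((resAut A hσ : RingAut (IsLocalRing.ResidueField A)) :
          IsLocalRing.ResidueField A →+* IsLocalRing.ResidueField A)
          (gaussFRed A (IsLocalRing.residue A) N f) :=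
  gaussFRed_galois_smul A (IsLocalRing.residue A) N σ
    (fun _ ha => map_mem_of_mem_decompositionSubgroup hσ ha) _
    (fun a => resAut_residue A hσ a) f

/-- (GG4) The inertia group maps `gaussF` into itself. -/
theorem smul_mem_gaussF_of_mem_inertiaSubgroupIn {τ : L ≃ₐ[ℚ] L}
    (hτ : τ ∈ A.inertiaSubgroupIn ℚ)
    {f : ↥(laurentBaseChange L (modularFunctionFieldFull N))}
    (hf : f ∈ gaussF A (IsLocalRing.residue A) N) :
    arithmeticGalois (modularFunctionFieldFull N) τ • f ∈ gaussF A (IsLocalRing.residue A) N :=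
  smul_mem_gaussF_of_mem_decompositionSubgroup A N
    (mem_decompositionSubgroup_of_mem_inertiaSubgroupIn hτ) hf

/-- (GG4) The inertia group acts trivially on reductions:
`gaussFRed (τ • f) = gaussFRed f`. -/
theorem gaussFRed_smul_of_mem_inertiaSubgroupIn {τ : L ≃ₐ[ℚ] L}
    (hτ : τ ∈ A.inertiaSubgroupIn ℚ) (f : ↥(gaussF A (IsLocalRing.residue A) N)) :
    gaussFRed A (IsLocalRing.residue A) N
        ⟨arithmeticGalois (modularFunctionFieldFull N) τ •
          (f : ↥(laurentBaseChange L (modularFunctionFieldFull N))),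
          smul_mem_gaussF_of_mem_inertiaSubgroupIn A N hτ f.2⟩
      = gaussFRed A (IsLocalRing.residue A) N f := by
  have h := gaussFRed_galois_smul A (IsLocalRing.residue A) N τ
    (fun _ ha => map_mem_of_mem_decompositionSubgroup
      (mem_decompositionSubgroup_of_mem_inertiaSubgroupIn hτ) ha)
    (RingHom.id (IsLocalRing.ResidueField A)) (fun a => inertia_residue hτ a) f
  rw [coeffMap_id] at h
  exact h

/-- (GG5) A Frobenius element maps `gaussF` into itself. -/
theorem smul_mem_gaussF_of_isFrobeniusAt {σ : L ≃ₐ[ℚ] L} {ℓ : ℕ}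
    (hσ : A.IsFrobeniusAt σ ℓ)
    {f : ↥(laurentBaseChange L (modularFunctionFieldFull N))}
    (hf : f ∈ gaussF A (IsLocalRing.residue A) N) :
    arithmeticGalois (modularFunctionFieldFull N) σ • f ∈ gaussF A (IsLocalRing.residue A) N :=
  smul_mem_gaussF_of_mem_decompositionSubgroup A N hσ.mem_decompositionSubgroup hf

/-- (GG5) A Frobenius element acts on reductions by the coefficientwise Frobenius:
`gaussFRed (σ • f) = coeffMap (frobenius k ℓ) (gaussFRed f)`. -/
theorem gaussFRed_smul_of_isFrobeniusAt {σ : L ≃ₐ[ℚ] L} {ℓ : ℕ}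
    [ExpChar (IsLocalRing.ResidueField A) ℓ] (hσ : A.IsFrobeniusAt σ ℓ)
    (f : ↥(gaussF A (IsLocalRing.residue A) N)) :
    gaussFRed A (IsLocalRing.residue A) N
        ⟨arithmeticGalois (modularFunctionFieldFull N) σ •
          (f : ↥(laurentBaseChange L (modularFunctionFieldFull N))),
          smul_mem_gaussF_of_isFrobeniusAt A N hσ f.2⟩
      = coeffMap (frobenius (IsLocalRing.ResidueField A) ℓ)
          (gaussFRed A (IsLocalRing.residue A) N f) :=
  gaussFRed_galois_smul A (IsLocalRing.residue A) N σ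
    (fun _ ha => IsFrobeniusAt_map_mem hσ ha) (frobenius (IsLocalRing.ResidueField A) ℓ)
    (fun a => IsFrobeniusAt_residue hσ a) f

end Residue

/-! ### (GG6) Packaged form: the hypotheses of the equivariance theorems of the lattice track

`r` is any ring homomorphism `gaussF → Fk = modularFunctionFieldFullC k N` lifting `gaussFRed`
(for instance `gaussFRedC` below, once the Igusa equality `gaussFRed f ∈ Fk` is known). -/

section Packaged

open Fermat.Agent.Lib.helper6879

/-- The reduction map of `gaussF` with values in `Fk = modularFunctionFieldFullC k N`, given the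
Igusa equality as a hypothesis. -/
def gaussFRedC {L : Type*} [Field L] [Algebra ℚ L] (A : ValuationSubring L) {k : Type*}
    [Field k] (π : A →+* k) (N : ℕ)
    (hmem : ∀ f : ↥(gaussF A π N), gaussFRed A π N f ∈ modularFunctionFieldFullC k N) :
    ↥(gaussF A π N) →+* ↥(modularFunctionFieldFullC k N) :=
  (gaussFRed A π N).codRestrict (modularFunctionFieldFullC k N) hmem

theorem coe_gaussFRedC {L : Type*} [Field L] [Algebra ℚ L] (A : ValuationSubring L)
    {k : Type*} [Field k] (π : A →+* k) (N : ℕ)
    (hmem : ∀ f : ↥(gaussF A π N), gaussFRed A π N f ∈ modularFunctionFieldFullC k N)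
    (f : ↥(gaussF A π N)) :
    ((gaussFRedC A π N hmem f : ↥(modularFunctionFieldFullC k N)) : LaurentSeries k)
      = gaussFRed A π N f :=
  rfl

variable {L : Type*} [Field L] [Algebra ℚ L] (A : ValuationSubring L) (N : ℕ)
  (r : ↥(gaussF A (IsLocalRing.residue A) N) →+*
    ↥(modularFunctionFieldFullC (IsLocalRing.ResidueField A) N))
  (hr : ∀ f : ↥(gaussF A (IsLocalRing.residue A) N),
    ((r f : ↥(modularFunctionFieldFullC (IsLocalRing.ResidueField A) N)) :
      LaurentSeries (IsLocalRing.ResidueField A)) = gaussFRed A (IsLocalRing.residue A) N f)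

include hr

/-- (GG6, decomposition group) `red (σ • f) = σ̄ • red f`, with `σ̄` the coefficientwise
semilinear automorphism of `Fk` attached to the induced automorphism of the residue field. -/
theorem red_smul_of_mem_decompositionSubgroup {σ : L ≃ₐ[ℚ] L}
    (hσ : σ ∈ A.decompositionSubgroup ℚ)
    (f : ↥(laurentBaseChange L (modularFunctionFieldFull N)))
    (hf : f ∈ gaussF A (IsLocalRing.residue A) N) :
    r ⟨arithmeticGalois (modularFunctionFieldFull N) σ • f,
        smul_mem_gaussF_of_mem_decompositionSubgroup A N hσ hf⟩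
      = coeffAutC N (resAut A hσ) • r ⟨f, hf⟩ := by
  apply Subtype.ext
  rw [hr, coe_coeffAutC_smul, hr]
  exact gaussFRed_smul_of_mem_decompositionSubgroup A N hσ ⟨f, hf⟩

/-- (GG6, inertia) `red (τ • f) = red f`. -/
theorem red_smul_of_mem_inertiaSubgroupIn {τ : L ≃ₐ[ℚ] L}
    (hτ : τ ∈ A.inertiaSubgroupIn ℚ)
    (f : ↥(laurentBaseChange L (modularFunctionFieldFull N)))
    (hf : f ∈ gaussF A (IsLocalRing.residue A) N) :
    r ⟨arithmeticGalois (modularFunctionFieldFull N) τ • f,
        smul_mem_gaussF_of_mem_inertiaSubgroupIn A N hτ hf⟩ = r ⟨f, hf⟩ := by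
  apply Subtype.ext
  rw [hr, hr]
  exact gaussFRed_smul_of_mem_inertiaSubgroupIn A N hτ ⟨f, hf⟩

/-- (GG6, inertia) in the `hred` shape with `gb = coeffAutC N 1` (which is `1` by `map_one`). -/
theorem red_smul_of_mem_inertiaSubgroupIn' {τ : L ≃ₐ[ℚ] L}
    (hτ : τ ∈ A.inertiaSubgroupIn ℚ)
    (f : ↥(laurentBaseChange L (modularFunctionFieldFull N)))
    (hf : f ∈ gaussF A (IsLocalRing.residue A) N) :
    r ⟨arithmeticGalois (modularFunctionFieldFull N) τ • f,
        smul_mem_gaussF_of_mem_inertiaSubgroupIn A N hτ hf⟩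
      = coeffAutC N (1 : RingAut (IsLocalRing.ResidueField A)) • r ⟨f, hf⟩ := by
  rw [map_one, one_smul]
  exact red_smul_of_mem_inertiaSubgroupIn A N r hr hτ f hf

/-- (GG6, Frobenius) `red (σ • f) = Frob • red f`, with `Frob = frobAutC k N ℓ` the
coefficientwise Frobenius of `Fk`. -/
theorem red_smul_of_isFrobeniusAt {σ : L ≃ₐ[ℚ] L} {ℓ : ℕ}
    [ExpChar (IsLocalRing.ResidueField A) ℓ] [PerfectRing (IsLocalRing.ResidueField A) ℓ]
    (hσ : A.IsFrobeniusAt σ ℓ)
    (f : ↥(laurentBaseChange L (modularFunctionFieldFull N)))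
    (hf : f ∈ gaussF A (IsLocalRing.residue A) N) :
    r ⟨arithmeticGalois (modularFunctionFieldFull N) σ • f,
        smul_mem_gaussF_of_isFrobeniusAt A N hσ hf⟩
      = frobAutC (IsLocalRing.ResidueField A) N ℓ • r ⟨f, hf⟩ := by
  apply Subtype.ext
  rw [hr, coe_frobAutC_smul, hr]
  exact gaussFRed_smul_of_isFrobeniusAt A N hσ ⟨f, hf⟩

end Packaged

end

end Fermat.Agent.S37.helper2563
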