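/-
S37-LATRED, instantiation layer (helper5413): the hypothesis bundle `LatHyp` of
`helper5413_LatticeReduction` from Riemann's theorem on both fibres (S18/helper981_Riemann),
the genus inequality `g(F) ≤ g(Fk)`, a cartesian property of the Gauss ring and one anchor.
-/
import Mathlib
import Fermat.Prelude.Def_AlgebraicCurve_Repartitions
import Fermat.Agent.S18.helper981_Riemann
import Fermat.Agent.S37.helper5413_LatticeReduction

set_option autoImplicit false

noncomputable section

open AlgebraicCurve Module

namespace Fermat.Agent.S37.helper5413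

open Fermat.Agent.S18.helper981

variable {L F k Fk : Type*} [Field L] [Field F] [Algebra L F] [Field k] [Field Fk] [Algebra k Fk]

/-- **Cartesian property** of the pair `(O, red)`: every finite `L`-independent family in a
Riemann–Roch space can be replaced by a family of the same size in the same space, contained
in `O`, with `k`-independent reductions. -/
def IsCartesian (k : Type*) [Field k] [Algebra k Fk] (O : ValuationSubring F) (red : O →+* Fk) :
    Prop :=
  ∀ (E : Divisor L F) (n : ℕ) (v : Fin n → F), LinearIndependent L v →
    (∀ i, v i ∈ riemannRochSpace E) →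
    ∃ u : Fin n → O, (∀ i, (u i : F) ∈ riemannRochSpace E) ∧
      LinearIndependent k (fun i => red (u i))

/-- `LatHyp` from Riemann's theorem on both fibres, `g(F) ≤ g(Fk)`, cartesian, anchor. -/
theorem latHyp_of_riemann [HasPrincipalDivisors L F] [HasPrincipalDivisors k Fk]
    (hdegL : ∀ P : Place L F, P.deg = 1) (hdegk : ∀ Q : Place k Fk, Q.deg = 1)
    (P₀ : Place L F) (Q₀ : Place k Fk)
    (hRL : HasRiemannBound L F) (hRk : HasRiemannBound k Fk)
    (hgenus : riemannGenus L F ≤ riemannGenus k Fk)
    (O : ValuationSubring F) (red : O →+* Fk) (hred : ∀ x : O, ¬ IsUnit x → red x = 0)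
    (hcart : IsCartesian (L := L) k O red)
    (E₀ : Divisor L F) (E₀k : Divisor k Fk) (hE₀ : 0 < Divisor.degree E₀)
    (hE₀k : Divisor.degree E₀k ≤ Divisor.degree E₀)
    (hanchor : ∀ (m : ℕ) (f : O), (f : F) ∈ riemannRochSpace (m • E₀) →
      red f ∈ riemannRochSpace (m • E₀k)) :
    ∃ c : ℤ, LatHyp O red (riemannGenus k Fk : ℤ) c E₀ E₀k := by
  obtain ⟨c, hc⟩ := exists_forall_finrank_eq hdegk Q₀ hRk
  refine ⟨c, ?_⟩
  refine
    { red_nonunit := hred
      degL := hdegL
      degk := hdegk
      finite_ord := ?_
      deg0 := ?_
      lat := ?_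
      rk := ?_
      E₀_pos := hE₀
      E₀k_le := hE₀k
      anchor := hanchor }
  · intro y hy
    obtain ⟨Z, hZ, -⟩ := HasPrincipalDivisors.exists_divisor (K := k) y hy
    refine Z.support.finite_toSet.subset fun Q hQ => ?_
    rw [Finset.mem_coe, Finsupp.mem_support_iff, hZ Q]
    exact hQ
  · intro f hf D hD
    obtain ⟨Z, hZ, hZ0⟩ := HasPrincipalDivisors.exists_divisor (K := L) f hf
    have : D = Z := by
      ext P
      rw [hD P, hZ P]
    rw [this, hZ0]
  · intro E n hn
    have hfin := finite_riemannRochSpace hdegL P₀ E
    have h1 := riemannGenus_mem hRL E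
    have hle : n ≤ finrank L (riemannRochSpace E) := by
      have h2 : (riemannGenus L F : ℤ) ≤ (riemannGenus k Fk : ℤ) := by exact_mod_cast hgenus
      have : (n : ℤ) ≤ (finrank L (riemannRochSpace E) : ℤ) := by linarith
      exact_mod_cast this
    let b := Module.finBasis L (riemannRochSpace E)
    have hli : LinearIndependent L (fun i : Fin n => ((b (Fin.castLE hle i) : riemannRochSpace E) : F)) := by
      have h3 := b.linearIndependent.comp (Fin.castLE hle) (Fin.castLE_injective hle)
      exact h3.map' (riemannRochSpace E).subtype (Submodule.ker_subtype _)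
    exact hcart E n _ hli (fun i => (b (Fin.castLE hle i)).2)
  · intro D n v hv hmem
    have hfin := finite_riemannRochSpace hdegk Q₀ D
    have hn : n ≤ finrank k (riemannRochSpace D) := by
      let w : Fin n → riemannRochSpace D := fun i => ⟨v i, hmem i⟩
      have hw : LinearIndependent k w := by
        apply LinearIndependent.of_comp (riemannRochSpace D).subtype
        exact hv
      have := hw.fintype_card_le_finrank
      simpa using this
    have hn' : (n : ℤ) ≤ (finrank k (riemannRochSpace D) : ℤ) := by exact_mod_cast hn
    refine ⟨?_, fun hcD => ?_⟩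
    · rcases lt_or_ge (Divisor.degree D) 0 with hneg | hnn
      · have hbot := riemannRochSpace_eq_bot_of_degree_neg hdegk hneg
        rw [hbot, finrank_bot] at hn'
        exact hn'.trans (le_max_left _ _)
      · exact (hn'.trans (finrank_le_degree_add_one hdegk Q₀ hnn)).trans (le_max_right _ _)
    · rw [hc D hcD] at hn'
      exact hn'

end Fermat.Agent.S37.helper5413

end
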