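/-
S37-E3 NRM (helper2023, board #1396): the reduced chart rings are integrally closed, and the
crude "same residue homomorphism" relation is the fibre relation of the lattice place reduction.

Built on top of the landed `helper5413.LatHyp` (place reduction `placeRed` from Riemann–Roch
lattices with equal genus on both fibres) and of the `helper2025` point vocabulary
(`HasValueAt`, `InChart`, `SameResidueOn`).

Setting: `F/L`, `Fk/k` function fields, `O` the Gauss ring of `F`, `red : O →+* Fk`,
`A ≤ L` the valuation ring of the constants with `π : A →+* k`, and a chart coordinate `x : O`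
whose pole divisors `E₀ = (x)_∞`, `E₀k = (x̄)_∞` are the anchor of the `LatHyp`.
The chart is `chartSet O E₀ = {f ∈ O | f regular outside the poles of x}`.

Main results (`H : LatHyp O red g c E₀ E₀k`, `C : ChartHyp O red A π x E₀ E₀k`):
* `mapDomain_placeRed_E₀` : `r_*(E₀) = E₀k`, `degree_E₀k_eq`;
* `exists_red_eq_of_mem_rr` (NORMALITY): every `y ∈ L_k(m • E₀k)` is `red f` for some chart
  function `f`; i.e. `red (chart) = {y ∈ Fk | y regular outside the poles of x̄}`;
* `hasValueAt_placeRed` : `f(P) = a` ⟹ `(red f)(r P) = π a` for chart functions at chart points;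
* `value_mem` : values of chart functions at chart points are `A`-integral;
* `inChart_iff` : `InChart A (chartSet O E₀) P ↔ x(P) ∈ A`;
* `sameResidueOn_iff` : `SameResidueOn A (chartSet O E₀) P P' ↔ InChart P ∧ InChart P' ∧ r P = r P'`;
* `mapDomain_placeRed_eq_zero_of_mem_closure`, `ord_red_eq_zero_of_nsmul` : the local formula
  (G3): a Gauss unit whose divisor is a multiple of a divisor in the closure of the chart pairs
  has constant reduction (no zeros or poles).
-/
import Mathlib
import Fermat.Agent.S24.helper1370_PlaceBasics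
import Fermat.Agent.S37.helper2025_GaloisPoints
import Fermat.Agent.S37.helper5413_LatticeReduction

set_option autoImplicit false

noncomputable section

open AlgebraicCurve

namespace Fermat.Agent.S37.helper2023

open Fermat.Agent.S37.helper5413 Fermat.Agent.S37.helper2025

/-! ## Generic lemmas on places and finitely supported functions -/

section Generic

variable {K F : Type*} [Field K] [Field F] [Algebra K F]

theorem mem_nonunits_iff_ord (v : Place K F) (y : F) :
    y ∈ v.toValuationSubring.nonunits ↔ y = 0 ∨ 0 < v.ord y := by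
  rw [ValuationSubring.mem_nonunits_iff_exists_mem_maximalIdeal]
  constructor
  · rintro ⟨hy, hmem⟩
    by_cases h0 : y = 0
    · exact Or.inl h0
    · exact Or.inr ((Fermat.Agent.S24.helper1370.ord_pos_iff v).mpr ⟨h0, hy, hmem⟩)
  · rintro (rfl | h)
    · exact ⟨v.toValuationSubring.zero_mem, (IsLocalRing.maximalIdeal _).zero_mem⟩
    · obtain ⟨_, hy, hmem⟩ := (Fermat.Agent.S24.helper1370.ord_pos_iff v).mp h
      exact ⟨hy, hmem⟩

theorem hasValueAt_iff_ord {v : Place K F} {f : F} {a : K} :
    HasValueAt v f a ↔ f - algebraMap K F a = 0 ∨ 0 < v.ord (f - algebraMap K F a) := by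
  rw [hasValueAt_iff_mem_nonunits, mem_nonunits_iff_ord]

theorem HasValueAt.ord_nonneg {v : Place K F} {f : F} {a : K} (h : HasValueAt v f a) :
    0 ≤ v.ord f :=
  Fermat.Agent.S24.helper1370.ord_nonneg_of_mem v h.mem

theorem residue_surjective_of_deg_eq_one (v : Place K F) (h : v.deg = 1) :
    Function.Surjective (algebraMap K v.ResidueField) := by
  intro y
  have hbt : (⊥ : Subalgebra K v.ResidueField) = ⊤ :=
    Subalgebra.bot_eq_top_of_finrank_eq_one h
  have hy : y ∈ (⊥ : Subalgebra K v.ResidueField) := by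
    rw [hbt]; exact Algebra.mem_top
  exact Algebra.mem_bot.mp hy

theorem mapDomain_apply_nonneg {α β : Type*} (r : α → β) (Z : α →₀ ℤ) (hZ : ∀ a, 0 ≤ Z a)
    (b : β) : 0 ≤ Finsupp.mapDomain r Z b := by
  classical
  rw [Finsupp.mapDomain, Finsupp.sum_apply]
  refine Finsupp.sum_nonneg fun a _ => ?_
  rw [Finsupp.single_apply]
  split_ifs
  · exact hZ a
  · exact le_rfl

theorem le_mapDomain_apply {α β : Type*} (r : α → β) (Z : α →₀ ℤ) (hZ : ∀ a, 0 ≤ Z a) (a : α) :
    Z a ≤ Finsupp.mapDomain r Z (r a) := by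
  classical
  have h1 : Finsupp.single a (Z a) + Z.erase a = Z := Finsupp.single_add_erase a Z
  have h2 : ∀ a', 0 ≤ (Z.erase a) a' := by
    intro a'
    rw [Finsupp.erase_apply]
    split_ifs
    · exact le_rfl
    · exact hZ a'
  have h3 := mapDomain_apply_nonneg r (Z.erase a) h2 (r a)
  have h4 : Finsupp.mapDomain r Z (r a)
      = Z a + Finsupp.mapDomain r (Z.erase a) (r a) := by
    conv_lhs => rw [← h1]
    rw [Finsupp.mapDomain_add, Finsupp.mapDomain_single, Finsupp.add_apply,
      Finsupp.single_eq_same]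
  rw [h4]
  exact le_add_of_nonneg_right h3

theorem ord_nonneg_of_hasValueAt {v : Place K F} {f : F} {a : K} (h : HasValueAt v f a) :
    0 ≤ v.ord f :=
  Fermat.Agent.S24.helper1370.ord_nonneg_of_mem v h.mem

theorem ord_pos_of_hasValueAt {v : Place K F} {f : F} {a : K} (h : HasValueAt v f a)
    (hne : f - algebraMap K F a ≠ 0) : 0 < v.ord (f - algebraMap K F a) :=
  (hasValueAt_iff_ord.mp h).resolve_left hne

/-- shifting by a constant does not decrease the order below `min (ord f) 0`. -/
theorem neg_le_ord_sub_algebraMap (v : Place K F) {f : F} (a : K) {n : ℤ} (hn : 0 ≤ n)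
    (hf : f = 0 ∨ -n ≤ v.ord f) : -n ≤ v.ord (f - algebraMap K F a) := by
  by_cases hneg : v.ord f < 0
  · rw [Fermat.Agent.S24.helper1370.ord_sub_algebraMap_of_ord_neg v hneg]
    rcases hf with rfl | hf
    · simp at hneg
    · exact hf
  · have := Fermat.Agent.S24.helper1370.ord_sub_algebraMap_nonneg v (not_lt.mp hneg) a
    linarith

end Generic

/-! ## The chart of a `LatHyp` anchored at the poles of a coordinate -/

section Main

variable {L F k Fk : Type*} [Field L] [Field F] [Algebra L F] [Field k] [Field Fk] [Algebra k Fk]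
variable {O : ValuationSubring F} {red : O →+* Fk} {g c : ℤ}
  {E₀ : Divisor L F} {E₀k : Divisor k Fk}

/-- The chart: Gauss-integral functions that are regular outside the support of `E₀`. -/
def chartSet (O : ValuationSubring F) (E₀ : Divisor L F) : Set F :=
  {f | f ∈ O ∧ ∃ m : ℕ, f ∈ riemannRochSpace (m • E₀)}

/-- Compatibility data between the valuation ring `A` of the constants, the Gauss ring `O`, the
reduction maps, and a chart coordinate `x` whose pole divisors on both fibres are the anchor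
divisors `E₀`, `E₀k` of a `LatHyp`. -/
structure ChartHyp (O : ValuationSubring F) (red : O →+* Fk) (A : ValuationSubring L)
    (π : A →+* k) (x : O) (E₀ : Divisor L F) (E₀k : Divisor k Fk) : Prop where
  A_le : ∀ a : A, algebraMap L F (a : L) ∈ O
  O_le : ∀ a : L, algebraMap L F a ∈ O → a ∈ A
  red_const : ∀ a : A, red ⟨algebraMap L F (a : L), A_le a⟩ = algebraMap k Fk (π a)
  π_surj : Function.Surjective π
  E₀_eq : ∀ P : Place L F, E₀ P = max 0 (-(P.ord (x : F)))
  E₀k_eq : ∀ Q : Place k Fk, E₀k Q = max 0 (-(Q.ord (red x)))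
  finL : ∀ f : F, f ≠ 0 → {P : Place L F | P.ord f ≠ 0}.Finite

theorem mem_rr_nsmul_iff {K' F' : Type*} [Field K'] [Field F'] [Algebra K' F']
    {D : Divisor K' F'} {M : ℕ} {f : F'} :
    f ∈ riemannRochSpace (M • D) ↔ f = 0 ∨ ∀ v : Place K' F', -((M : ℤ) * D v) ≤ v.ord f := by
  rw [mem_rr_iff]
  simp only [Finsupp.smul_apply, nsmul_eq_mul]

/-! ### Degrees and the anchor -/

theorem degree_E₀k_eq (H : LatHyp O red g c E₀ E₀k) :
    Divisor.degree E₀k = Divisor.degree E₀ := by
  refine le_antisymm H.E₀k_le ?_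
  set m : ℕ := (LatHyp.thr g c).toNat + 1 with hm
  have hmZ : ((m : ℕ) : ℤ) = ((LatHyp.thr g c).toNat : ℤ) + 1 := by
    rw [hm]; push_cast; ring
  have hthr : LatHyp.thr g c ≤ Divisor.degree (m • E₀) := by
    have h1 := H.degree_nsmul_E₀_ge m
    have h2 : LatHyp.thr g c ≤ ((LatHyp.thr g c).toNat : ℤ) := Int.self_le_toNat _
    linarith
  have h3 := H.rho_nsmul_E₀_le (LatHyp.g_le_thr.trans hthr)
  have h4 := degree_mono h3
  rw [H.degree_rho hthr, map_nsmul, map_nsmul, nsmul_eq_mul, nsmul_eq_mul] at h4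
  have hmpos : (0 : ℤ) < (m : ℤ) := by
    rw [hmZ]
    have : (0 : ℤ) ≤ ((LatHyp.thr g c).toNat : ℤ) := Int.natCast_nonneg _
    linarith
  exact le_of_mul_le_mul_left h4 hmpos

theorem rho_nsmul_E₀ (H : LatHyp O red g c E₀ E₀k) {m : ℕ}
    (hm : LatHyp.thr g c ≤ Divisor.degree (m • E₀)) : rho k O red (m • E₀) = m • E₀k := by
  refine eq_of_le_of_degree_eq H.degk (H.rho_nsmul_E₀_le (LatHyp.g_le_thr.trans hm)) ?_
  rw [H.degree_rho hm, map_nsmul, map_nsmul, degree_E₀k_eq H]

/-- The place reduction maps the anchor divisor to the anchor divisor of the special fibre. -/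
theorem mapDomain_placeRed_E₀ (H : LatHyp O red g c E₀ E₀k) (hE₀ : ∀ P, 0 ≤ E₀ P) :
    Finsupp.mapDomain H.placeRed E₀ = E₀k := by
  set X : Place L F →₀ ℕ := E₀.mapRange Int.toNat rfl with hX
  have hup : LatHyp.up X = E₀ := by
    ext P
    rw [LatHyp.up_apply, hX, Finsupp.mapRange_apply, Int.toNat_of_nonneg (hE₀ P)]
  set m : ℕ := (LatHyp.thr g c).toNat with hm
  have hthr : LatHyp.thr g c ≤ Divisor.degree (m • E₀) :=
    (Int.self_le_toNat _).trans (H.degree_nsmul_E₀_ge m)
  have hthr' : LatHyp.thr g c ≤ Divisor.degree ((m + 1) • E₀) := by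
    rw [succ_nsmul, map_add]
    have := H.E₀_pos
    linarith
  have h1 := H.rho_add_up X (m • E₀) hthr
  rw [hup, ← succ_nsmul, rho_nsmul_E₀ H hthr', rho_nsmul_E₀ H hthr, succ_nsmul] at h1
  exact (add_left_cancel h1).symm

theorem degree_single_one (H : LatHyp O red g c E₀ E₀k) (P : Place L F) :
    Divisor.degree (Finsupp.single P (1 : ℤ)) = 1 := by
  rw [Divisor.degree_single, H.degL]; simp

theorem rho_nsmul_sub_single (H : LatHyp O red g c E₀ E₀k) {M : ℕ} (P : Place L F)
    (hM : LatHyp.thr g c ≤ Divisor.degree (M • E₀ - Finsupp.single P 1)) :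
    rho k O red (M • E₀ - Finsupp.single P 1) = M • E₀k - Finsupp.single (H.placeRed P) 1 := by
  have hM' : LatHyp.thr g c ≤ Divisor.degree (M • E₀) := by
    rw [map_sub, degree_single_one H] at hM; linarith
  have h1 := H.rho_add_single hM P
  rw [sub_add_cancel, rho_nsmul_E₀ H hM'] at h1
  exact eq_sub_of_add_eq h1.symm

/-- For every bound `b` there is a multiple of the anchor of degree at least `b`, with `M ≥ m`. -/
theorem exists_large (H : LatHyp O red g c E₀ E₀k) (b : ℤ) (m : ℕ) :
    ∃ M : ℕ, m ≤ M ∧ b ≤ Divisor.degree (M • E₀) := by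
  refine ⟨max m b.toNat, le_max_left _ _, ?_⟩
  have h1 := H.degree_nsmul_E₀_ge (max m b.toNat)
  have h2 : b ≤ (b.toNat : ℤ) := Int.self_le_toNat _
  have h3 : (b.toNat : ℤ) ≤ ((max m b.toNat : ℕ) : ℤ) := by
    exact_mod_cast le_max_right m b.toNat
  linarith

/-! ### Chart points and evaluation -/

variable {A : ValuationSubring L} {π : A →+* k} {x : O}

theorem ChartHyp.E₀_nonneg (C : ChartHyp O red A π x E₀ E₀k) (P : Place L F) : 0 ≤ E₀ P := by
  rw [C.E₀_eq]; exact le_max_left _ _

theorem ChartHyp.E₀k_nonneg (C : ChartHyp O red A π x E₀ E₀k) (Q : Place k Fk) : 0 ≤ E₀k Q := by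
  rw [C.E₀k_eq]; exact le_max_left _ _

theorem ChartHyp.E₀_eq_zero (C : ChartHyp O red A π x E₀ E₀k) {P : Place L F} {a : L}
    (ha : HasValueAt P (x : F) a) : E₀ P = 0 := by
  rw [C.E₀_eq]
  have := ord_nonneg_of_hasValueAt ha
  exact max_eq_left (by linarith)

/-- the constant `a ∈ A` as an element of the Gauss ring. -/
def ChartHyp.const (C : ChartHyp O red A π x E₀ E₀k) (a : A) : O :=
  ⟨algebraMap L F (a : L), C.A_le a⟩

theorem ChartHyp.red_const' (C : ChartHyp O red A π x E₀ E₀k) (a : A) :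
    red (C.const a) = algebraMap k Fk (π a) := C.red_const a

/-- `π` kills the non-units of `A`. -/
theorem ChartHyp.π_eq_zero (H : LatHyp O red g c E₀ E₀k) (C : ChartHyp O red A π x E₀ E₀k)
    {a : A} (ha : ¬ IsUnit a) : π a = 0 := by
  have hnu : ¬ IsUnit (C.const a) := by
    intro hu
    apply ha
    obtain ⟨b, hb⟩ := hu.exists_right_inv
    have hbF : algebraMap L F (a : L) * (b : F) = 1 := by
      have := congrArg (fun z : O => (z : F)) hb
      simpa [ChartHyp.const] using this
    have ha0 : (a : L) ≠ 0 := by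
      rintro h0
      rw [h0, map_zero, zero_mul] at hbF
      exact zero_ne_one hbF
    have hbeq : (b : F) = algebraMap L F (a : L)⁻¹ := by
      rw [map_inv₀]
      exact eq_inv_of_mul_eq_one_right hbF
    have hinv : (a : L)⁻¹ ∈ A := C.O_le _ (hbeq ▸ b.2)
    refine IsUnit.of_mul_eq_one (⟨(a : L)⁻¹, hinv⟩ : A) ?_
    exact Subtype.ext (mul_inv_cancel₀ ha0)
  have h0 := H.red_nonunit _ hnu
  rw [C.red_const'] at h0
  exact (map_eq_zero_iff _ (algebraMap k Fk).injective).mp h0

/-- the reduction of the coordinate is not constant: it has a pole. -/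
theorem exists_pole_red (H : LatHyp O red g c E₀ E₀k) (C : ChartHyp O red A π x E₀ E₀k) :
    ∃ Q : Place k Fk, Q.ord (red x) < 0 := by
  by_contra hcon
  have hcon' : ∀ Q : Place k Fk, 0 ≤ Q.ord (red x) := fun Q => not_lt.mp fun h => hcon ⟨Q, h⟩
  have hpos : 0 < Divisor.degree E₀k := by rw [degree_E₀k_eq H]; exact H.E₀_pos
  have h0 : E₀k = 0 := by
    ext Q
    rw [C.E₀k_eq Q]
    exact max_eq_left (by have := hcon' Q; linarith)
  rw [h0, map_zero] at hpos
  exact lt_irrefl _ hpos

theorem red_sub_const_ne_zero (H : LatHyp O red g c E₀ E₀k) (C : ChartHyp O red A π x E₀ E₀k)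
    (a : A) : red (x - C.const a) ≠ 0 := by
  obtain ⟨Q, hQ⟩ := exists_pole_red H C
  intro h0
  rw [map_sub, C.red_const', sub_eq_zero] at h0
  rw [h0, Fermat.Agent.S24.helper1370.ord_algebraMap] at hQ
  exact lt_irrefl _ hQ

/-- **Chart points reduce to chart points**: if `x(P) = a ∈ A` then `r P` is not a pole of `x̄`
and `x̄(r P) = π a`. -/
theorem placeRed_chartPt (H : LatHyp O red g c E₀ E₀k) (C : ChartHyp O red A π x E₀ E₀k)
    {P : Place L F} {a : A} (ha : HasValueAt P (x : F) (a : L)) :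
    E₀k (H.placeRed P) = 0 ∧ HasValueAt (H.placeRed P) (red x) (π a) := by
  have hredw : red (x - C.const a) = red x - algebraMap k Fk (π a) := by
    rw [map_sub, C.red_const']
  have hredw_ne := red_sub_const_ne_zero H C a
  have hw0 : ((x - C.const a : O) : F) ≠ 0 := LatHyp.coe_ne_zero_of_red_ne_zero hredw_ne
  have hwF : ((x - C.const a : O) : F) = (x : F) - algebraMap L F (a : L) := rfl
  obtain ⟨D, hD⟩ : ∃ D : Divisor L F, ∀ P', D P' = P'.ord ((x - C.const a : O) : F) :=
    ⟨Finsupp.ofSupportFinite _ (C.finL _ hw0), fun P' => rfl⟩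
  have hnn : ∀ P', 0 ≤ (D + E₀) P' := by
    intro P'
    rw [Finsupp.add_apply, hD, C.E₀_eq, hwF]
    by_cases hneg : P'.ord (x : F) < 0
    · rw [Fermat.Agent.S24.helper1370.ord_sub_algebraMap_of_ord_neg P' hneg,
        max_eq_right (by linarith)]
      linarith
    · have h1 := Fermat.Agent.S24.helper1370.ord_sub_algebraMap_nonneg P' (not_lt.mp hneg) (a : L)
      have h2 : (0 : ℤ) ≤ max 0 (-(P'.ord (x : F))) := le_max_left _ _
      linarith
  have hP1 : 1 ≤ (D + E₀) P := by
    rw [Finsupp.add_apply, hD, hwF]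
    have h1 : 0 < P.ord ((x : F) - algebraMap L F (a : L)) :=
      ord_pos_of_hasValueAt ha (hwF ▸ hw0)
    have h2 := C.E₀_nonneg P
    linarith
  have hcons := H.mapDomain_placeRed_div hredw_ne hD (H.placeRed P)
  have hmap : Finsupp.mapDomain H.placeRed (D + E₀) (H.placeRed P)
      = (H.placeRed P).ord (red (x - C.const a)) + E₀k (H.placeRed P) := by
    rw [Finsupp.mapDomain_add, Finsupp.add_apply, hcons, mapDomain_placeRed_E₀ H C.E₀_nonneg]
  have hge := le_mapDomain_apply H.placeRed (D + E₀) hnn P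
  rw [hmap] at hge
  have key : 1 ≤ (H.placeRed P).ord (red (x - C.const a)) + E₀k (H.placeRed P) := hP1.trans hge
  have hnotpole : 0 ≤ (H.placeRed P).ord (red x) := by
    by_contra hneg
    have hneg' : (H.placeRed P).ord (red x) < 0 := not_le.mp hneg
    rw [hredw, Fermat.Agent.S24.helper1370.ord_sub_algebraMap_of_ord_neg _ hneg', C.E₀k_eq,
      max_eq_right (by linarith)] at key
    linarith
  have hE0 : E₀k (H.placeRed P) = 0 := by
    rw [C.E₀k_eq]; exact max_eq_left (by linarith)
  refine ⟨hE0, ?_⟩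
  rw [hE0, add_zero, hredw] at key
  rw [hasValueAt_iff_ord]
  right
  linarith

/-- membership of `f - a` in `L(M • E₀ - P)` for a chart function `f` with `f(P) = a`. -/
theorem sub_const_mem_rr (C : ChartHyp O red A π x E₀ E₀k) {P : Place L F} {a₀ : L}
    (hP : HasValueAt P (x : F) a₀) {f : F} {m M : ℕ} (hmM : m ≤ M)
    (hf : f ∈ riemannRochSpace (m • E₀)) {a : L} (ha : HasValueAt P f a) :
    f - algebraMap L F a ∈ riemannRochSpace (M • E₀ - Finsupp.single P 1) := by
  classical
  by_cases h0 : f - algebraMap L F a = 0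
  · rw [h0]; exact Submodule.zero_mem _
  rw [mem_rr_iff]
  right
  intro P'
  rw [Finsupp.sub_apply, Finsupp.smul_apply, nsmul_eq_mul, Finsupp.single_apply]
  by_cases hPP : P = P'
  · subst hPP
    rw [if_pos rfl, C.E₀_eq_zero hP, mul_zero]
    have := ord_pos_of_hasValueAt ha h0
    linarith
  · rw [if_neg hPP, sub_zero]
    have hE := C.E₀_nonneg P'
    have hf' : f = 0 ∨ -((M : ℤ) * E₀ P') ≤ P'.ord f := by
      rcases mem_rr_nsmul_iff.mp hf with h | h
      · exact Or.inl h
      · right
        have h1 := h P'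
        have h2 : (m : ℤ) * E₀ P' ≤ (M : ℤ) * E₀ P' :=
          mul_le_mul_of_nonneg_right (by exact_mod_cast hmM) hE
        linarith
    exact neg_le_ord_sub_algebraMap P' a (mul_nonneg (Int.natCast_nonneg M) hE) hf'

/-- **Evaluation commutes with reduction** at chart points: if a chart function `f` has the
value `a ∈ A` at the chart point `P`, then `red f` has the value `π a` at `r P`. -/
theorem hasValueAt_placeRed (H : LatHyp O red g c E₀ E₀k) (C : ChartHyp O red A π x E₀ E₀k)
    {P : Place L F} {a₀ : A} (hP : HasValueAt P (x : F) (a₀ : L))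
    {f : O} {m : ℕ} (hf : (f : F) ∈ riemannRochSpace (m • E₀)) {a : A}
    (ha : HasValueAt P (f : F) (a : L)) :
    HasValueAt (H.placeRed P) (red f) (π a) := by
  have hredh : red (f - C.const a) = red f - algebraMap k Fk (π a) := by
    rw [map_sub, C.red_const']
  by_cases h0 : red (f - C.const a) = 0
  · rw [hredh, sub_eq_zero] at h0
    rw [h0]; exact hasValueAt_algebraMap _ _
  obtain ⟨hE0k, -⟩ := placeRed_chartPt H C hP
  obtain ⟨M, hmM, hMdeg⟩ := exists_large H (LatHyp.thr g c + 1) m
  have hthr : LatHyp.thr g c ≤ Divisor.degree (M • E₀ - Finsupp.single P 1) := by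
    rw [map_sub, degree_single_one H]; linarith
  have hmem : ((f - C.const a : O) : F) ∈ riemannRochSpace (M • E₀ - Finsupp.single P 1) :=
    sub_const_mem_rr C hP hmM hf ha
  have hred := H.red_mem_rr_rho (LatHyp.g_le_thr.trans hthr) hmem h0
  rw [rho_nsmul_sub_single H P hthr, mem_rr_iff] at hred
  rcases hred with h' | h'
  · exact absurd h' h0
  have h1 := h' (H.placeRed P)
  rw [Finsupp.sub_apply, Finsupp.smul_apply, hE0k, Finsupp.single_eq_same, hredh] at h1
  rw [hasValueAt_iff_ord]
  right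
  simp only [smul_zero, zero_sub, neg_neg] at h1
  linarith

/-- **Values of chart functions at chart points are `A`-integral.** -/
theorem value_mem (H : LatHyp O red g c E₀ E₀k) (C : ChartHyp O red A π x E₀ E₀k)
    {P : Place L F} {a₀ : A} (hP : HasValueAt P (x : F) (a₀ : L))
    {f : O} {m : ℕ} (hf : (f : F) ∈ riemannRochSpace (m • E₀)) {a : L}
    (ha : HasValueAt P (f : F) a) : a ∈ A := by
  by_contra hA
  have hinv : a⁻¹ ∈ A := (A.mem_or_inv_mem a).resolve_left hA
  have ha0 : a ≠ 0 := fun h => hA (h ▸ A.zero_mem)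
  have hbnu : ¬ IsUnit (⟨a⁻¹, hinv⟩ : A) := by
    intro hu
    obtain ⟨b', hb'⟩ := hu.exists_right_inv
    have h1 : a⁻¹ * (b' : L) = 1 := congrArg (fun z : A => (z : L)) hb'
    have h2 : (b' : L) = a := by
      have := eq_inv_of_mul_eq_one_right h1
      rwa [inv_inv] at this
    exact hA (h2 ▸ b'.2)
  have hπb : π (⟨a⁻¹, hinv⟩ : A) = 0 := ChartHyp.π_eq_zero H C hbnu
  have hcoe : ((C.const ⟨a⁻¹, hinv⟩ * f : O) : F) = algebraMap L F a⁻¹ * (f : F) := rfl
  have hf' : ((C.const ⟨a⁻¹, hinv⟩ * f : O) : F) ∈ riemannRochSpace (m • E₀) := by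
    rw [hcoe, ← Algebra.smul_def]
    exact Submodule.smul_mem _ _ hf
  have hval : HasValueAt P ((C.const ⟨a⁻¹, hinv⟩ * f : O) : F) (((1 : A) : A) : L) := by
    have h1 := (hasValueAt_algebraMap P a⁻¹).mul ha
    rw [inv_mul_cancel₀ ha0] at h1
    rw [hcoe]
    exact h1
  have h3 := hasValueAt_placeRed H C hP hf' hval
  rw [map_mul, C.red_const', hπb, map_zero, zero_mul, map_one] at h3
  exact one_ne_zero (h3.unique (hasValueAt_zero _))

theorem x_mem_chartSet (C : ChartHyp O red A π x E₀ E₀k) : (x : F) ∈ chartSet O E₀ := by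
  refine ⟨x.2, 1, ?_⟩
  rw [mem_rr_nsmul_iff]
  right
  intro P
  rw [C.E₀_eq]
  have := le_max_right 0 (-(P.ord (x : F)))
  push_cast
  linarith

/-- chart points lie in the chart (every chart function has an `A`-integral value there). -/
theorem inChart_chartSet (H : LatHyp O red g c E₀ E₀k) (C : ChartHyp O red A π x E₀ E₀k)
    {P : Place L F} {a₀ : A} (hP : HasValueAt P (x : F) (a₀ : L)) :
    InChart A (chartSet O E₀) P := by
  rintro f ⟨hfO, m, hfm⟩
  have hfP : f ∈ P.toValuationSubring := by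
    apply Fermat.Agent.S24.helper1370.mem_of_ord_nonneg
    rcases mem_rr_nsmul_iff.mp hfm with h | h
    · rw [h]; simp
    · have := h P
      rwa [C.E₀_eq_zero hP, mul_zero, neg_zero] at this
  obtain ⟨a, ha⟩ := exists_hasValueAt (residue_surjective_of_deg_eq_one P (H.degL P)) hfP
  exact ⟨a, value_mem H C hP (f := ⟨f, hfO⟩) hfm ha, ha⟩

theorem inChart_iff (H : LatHyp O red g c E₀ E₀k) (C : ChartHyp O red A π x E₀ E₀k)
    (P : Place L F) :
    InChart A (chartSet O E₀) P ↔ ∃ a : A, HasValueAt P (x : F) (a : L) := by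
  constructor
  · intro h
    obtain ⟨a, haA, ha⟩ := h _ (x_mem_chartSet C)
    exact ⟨⟨a, haA⟩, ha⟩
  · rintro ⟨a, ha⟩
    exact inChart_chartSet H C ha

theorem nsmul_sub_single_le (D : Divisor L F) (M : ℕ) (P : Place L F) :
    M • D - Finsupp.single P 1 ≤ M • D := by
  classical
  intro v
  rw [Finsupp.sub_apply, Finsupp.single_apply]
  split_ifs <;> simp

/-- **Separation**: two chart points with different reductions are separated by a chart
function vanishing at the first and with unit residue at the second. -/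
theorem exists_separating (H : LatHyp O red g c E₀ E₀k) (C : ChartHyp O red A π x E₀ E₀k)
    {P P' : Place L F} {a₀ a₀' : A} (hP : HasValueAt P (x : F) (a₀ : L))
    (hP' : HasValueAt P' (x : F) (a₀' : L)) (hne : H.placeRed P ≠ H.placeRed P') :
    ∃ f : O, (f : F) ∈ chartSet O E₀ ∧ HasValueAt P (f : F) 0 ∧
      ∃ a' : A, HasValueAt P' (f : F) (a' : L) ∧ π a' ≠ 0 := by
  classical
  obtain ⟨M, -, hMdeg⟩ := exists_large H (max (LatHyp.thr g c) c + 2) 0
  have hdegE : Divisor.degree (M • E₀ - Finsupp.single P 1) = Divisor.degree (M • E₀) - 1 := by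
    rw [map_sub, degree_single_one H]
  have hdegE' : Divisor.degree (M • E₀ - Finsupp.single P 1 - Finsupp.single P' 1)
      = Divisor.degree (M • E₀) - 2 := by
    rw [map_sub, degree_single_one H, hdegE]; ring
  have hmax1 := le_max_left (LatHyp.thr g c) c
  have hmax2 := le_max_right (LatHyp.thr g c) c
  have hthrE : LatHyp.thr g c ≤ Divisor.degree (M • E₀ - Finsupp.single P 1) := by
    rw [hdegE]; linarith
  have hthrE' : LatHyp.thr g c
      ≤ Divisor.degree (M • E₀ - Finsupp.single P 1 - Finsupp.single P' 1) := by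
    rw [hdegE']; linarith
  have hcE' : c ≤ Divisor.degree (M • E₀ - Finsupp.single P 1 - Finsupp.single P' 1) := by
    rw [hdegE']; linarith
  have hρE := rho_nsmul_sub_single H P hthrE
  have hρE' : rho k O red (M • E₀ - Finsupp.single P 1 - Finsupp.single P' 1)
      = rho k O red (M • E₀ - Finsupp.single P 1) - Finsupp.single (H.placeRed P') 1 := by
    have h1 := H.rho_add_single hthrE' P'
    rw [sub_add_cancel] at h1
    exact eq_sub_of_add_eq h1.symm
  have hg : g ≤ Divisor.degree (M • E₀ - Finsupp.single P 1) := LatHyp.g_le_thr.trans hthrE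
  obtain ⟨n, hn'⟩ : ∃ n : ℕ, (n : ℤ) = Divisor.degree (M • E₀ - Finsupp.single P 1) + 1 - g :=
    ⟨_, Int.toNat_of_nonneg (by linarith)⟩
  obtain ⟨u, hu, hli⟩ := H.lat (M • E₀ - Finsupp.single P 1) n hn'.le
  have hex : ∃ i, red (u i)
      ∉ riemannRochSpace (rho k O red (M • E₀ - Finsupp.single P 1 - Finsupp.single P' 1)) := by
    by_contra hall
    have hall' : ∀ i, red (u i)
        ∈ riemannRochSpace (rho k O red (M • E₀ - Finsupp.single P 1 - Finsupp.single P' 1)) :=
      fun i => by_contra fun hi => hall ⟨i, hi⟩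
    obtain ⟨-, h2⟩ := H.rk _ n (fun i => red (u i)) hli hall'
    have h3 := h2 (by rw [H.degree_rho hthrE']; exact hcE')
    rw [H.degree_rho hthrE', hdegE'] at h3
    rw [hdegE] at hn'
    linarith
  obtain ⟨i, hi⟩ := hex
  have hyne : red (u i) ≠ 0 := hli.ne_zero i
  have hy := H.red_mem_rr_rho hg (hu i) hyne
  have hE0kQ' : E₀k (H.placeRed P') = 0 := (placeRed_chartPt H C hP').1
  have hord : (H.placeRed P').ord (red (u i)) = 0 := by
    rw [mem_rr_iff] at hy hi
    have hy' := hy.resolve_left hyne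
    have hi' : ∃ v : Place k Fk,
        ¬ (-(rho k O red (M • E₀ - Finsupp.single P 1 - Finsupp.single P' 1)) v
          ≤ v.ord (red (u i))) := by
      by_contra hcon
      exact hi (Or.inr fun v => by_contra fun hv => hcon ⟨v, hv⟩)
    obtain ⟨Q'', hQ''⟩ := hi'
    have hQQ : Q'' = H.placeRed P' := by
      by_contra hneq
      have h5 := hy' Q''
      rw [hρE', Finsupp.sub_apply, Finsupp.single_apply, if_neg (Ne.symm hneq), sub_zero] at hQ''
      exact hQ'' h5
    rw [hQQ] at hQ''
    have h1 := hy' (H.placeRed P')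
    rw [hρE', Finsupp.sub_apply, Finsupp.single_eq_same] at hQ''
    rw [hρE, Finsupp.sub_apply, Finsupp.smul_apply, hE0kQ', Finsupp.single_apply,
      if_neg hne] at h1 hQ''
    simp only [smul_zero, sub_zero, neg_zero] at h1
    simp only [smul_zero, sub_zero, zero_sub, neg_neg, not_le] at hQ''
    omega
  have hmemM : ((u i : O) : F) ∈ riemannRochSpace (M • E₀) :=
    rr_mono (nsmul_sub_single_le E₀ M P) (hu i)
  refine ⟨u i, ⟨(u i).2, M, hmemM⟩, ?_, ?_⟩
  · rw [hasValueAt_iff_ord, map_zero, sub_zero]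
    right
    have h1 := ((mem_rr_iff.mp (hu i)).resolve_left
      (LatHyp.coe_ne_zero_of_red_ne_zero hyne)) P
    rw [Finsupp.sub_apply, Finsupp.smul_apply, C.E₀_eq_zero hP, Finsupp.single_eq_same] at h1
    simp only [smul_zero, zero_sub, neg_neg] at h1
    linarith
  · obtain ⟨a', ha'A, ha'⟩ := inChart_chartSet H C hP' _ ⟨(u i).2, M, hmemM⟩
    refine ⟨⟨a', ha'A⟩, ha', ?_⟩
    intro hπ
    have h1 := hasValueAt_placeRed H C hP' hmemM (a := ⟨a', ha'A⟩) ha'
    rw [hπ, hasValueAt_iff_ord, map_zero, sub_zero] at h1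
    rcases h1 with h1 | h1
    · exact hyne h1
    · rw [hord] at h1
      exact lt_irrefl _ h1

/-- **Crude specialisation = lattice place reduction** on one chart: two places have the same
residue homomorphism on the chart iff they are chart points with the same reduction. -/
theorem sameResidueOn_iff (H : LatHyp O red g c E₀ E₀k) (C : ChartHyp O red A π x E₀ E₀k)
    (P P' : Place L F) :
    SameResidueOn A (chartSet O E₀) P P' ↔
      InChart A (chartSet O E₀) P ∧ InChart A (chartSet O E₀) P' ∧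
        H.placeRed P = H.placeRed P' := by
  constructor
  · rintro ⟨h1, h2, h3⟩
    refine ⟨h1, h2, ?_⟩
    obtain ⟨a₀, ha₀⟩ := (inChart_iff H C P).mp h1
    obtain ⟨a₀', ha₀'⟩ := (inChart_iff H C P').mp h2
    by_contra hne
    obtain ⟨f, hfc, hf0, a', ha', hπ⟩ := exists_separating H C ha₀ ha₀' hne
    have h4 := h3 (f : F) hfc 0 (a' : L) hf0 ha'
    rw [zero_sub, Valuation.map_neg] at h4
    apply hπ
    apply ChartHyp.π_eq_zero H C
    intro hu
    rw [(A.valuation_eq_one_iff a').mp hu] at h4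
    exact lt_irrefl _ h4
  · rintro ⟨h1, h2, h3⟩
    refine ⟨h1, h2, ?_⟩
    rintro f ⟨hfO, m, hfm⟩ a b ha hb
    obtain ⟨a₀, ha₀⟩ := (inChart_iff H C P).mp h1
    obtain ⟨a₀', ha₀'⟩ := (inChart_iff H C P').mp h2
    have haA : a ∈ A := value_mem H C ha₀ (f := ⟨f, hfO⟩) hfm ha
    have hbA : b ∈ A := value_mem H C ha₀' (f := ⟨f, hfO⟩) hfm hb
    have e1 := hasValueAt_placeRed H C ha₀ (f := ⟨f, hfO⟩) hfm (a := ⟨a, haA⟩) ha
    have e2 := hasValueAt_placeRed H C ha₀' (f := ⟨f, hfO⟩) hfm (a := ⟨b, hbA⟩) hb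
    rw [← h3] at e2
    have e3 : π ⟨a, haA⟩ = π ⟨b, hbA⟩ := e1.unique e2
    by_contra hval
    have hmem : a - b ∈ A := sub_mem haA hbA
    have hu : IsUnit (⟨a - b, hmem⟩ : A) := by
      rw [A.valuation_eq_one_iff]
      exact le_antisymm ((A.valuation_le_one_iff _).mpr hmem) (not_lt.mp hval)
    have h0 : π (⟨a - b, hmem⟩ : A) = 0 := by
      have hsub : (⟨a - b, hmem⟩ : A) = ⟨a, haA⟩ - ⟨b, hbA⟩ := rfl
      rw [hsub, map_sub, e3, sub_self]
    exact (hu.map π).ne_zero h0

/-! ### Normality of the reduced chart ring -/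

/-- **Normality**: every function on the special fibre that is regular outside the poles of
`x̄` is the reduction of a chart function.  (So the reduced chart ring is the full coordinate
ring of the affine curve `Fk ∖ {poles of x̄}`, i.e. the integral closure of `k[x̄]`.) -/
theorem exists_red_eq_of_mem_rr (H : LatHyp O red g c E₀ E₀k)
    (C : ChartHyp O red A π x E₀ E₀k) {m : ℕ} {y : Fk}
    (hy : y ∈ riemannRochSpace (m • E₀k)) :
    ∃ f : O, (∃ M : ℕ, (f : F) ∈ riemannRochSpace (M • E₀)) ∧ red f = y := by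
  classical
  obtain ⟨M, hmM, hMdeg⟩ := exists_large H (max (LatHyp.thr g c) c) m
  have hthr : LatHyp.thr g c ≤ Divisor.degree (M • E₀) := (le_max_left _ _).trans hMdeg
  have hc : c ≤ Divisor.degree (M • E₀) := (le_max_right _ _).trans hMdeg
  have hg : g ≤ Divisor.degree (M • E₀) := LatHyp.g_le_thr.trans hthr
  have hyM : y ∈ riemannRochSpace (M • E₀k) := by
    refine rr_mono ?_ hy
    intro Q
    rw [Finsupp.smul_apply, Finsupp.smul_apply, nsmul_eq_mul, nsmul_eq_mul]
    exact mul_le_mul_of_nonneg_right (by exact_mod_cast hmM) (C.E₀k_nonneg Q)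
  obtain ⟨n, hn'⟩ : ∃ n : ℕ, (n : ℤ) = Divisor.degree (M • E₀) + 1 - g :=
    ⟨_, Int.toNat_of_nonneg (by linarith)⟩
  obtain ⟨u, hu, hli⟩ := H.lat (M • E₀) n hn'.le
  have hmem : ∀ i, red (u i) ∈ riemannRochSpace (M • E₀k) := fun i => by
    have := H.red_mem_rr_rho hg (hu i) (hli.ne_zero i)
    rwa [rho_nsmul_E₀ H hthr] at this
  have hspan : y ∈ Submodule.span k (Set.range fun i => red (u i)) := by
    by_contra hnot
    have hli' : LinearIndependent k (Fin.cons y (fun i => red (u i)) : Fin (n + 1) → Fk) :=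
      hli.finCons hnot
    have hall : ∀ i, (Fin.cons y (fun i => red (u i)) : Fin (n + 1) → Fk) i
        ∈ riemannRochSpace (M • E₀k) := by
      intro i
      refine Fin.cases ?_ (fun j => ?_) i
      · rw [Fin.cons_zero]; exact hyM
      · rw [Fin.cons_succ]; exact hmem j
    obtain ⟨-, h2⟩ := H.rk (M • E₀k) (n + 1) _ hli' hall
    have hdeg : Divisor.degree (M • E₀k) = Divisor.degree (M • E₀) := by
      rw [map_nsmul, map_nsmul, degree_E₀k_eq H]
    have h3 := h2 (by rw [hdeg]; exact hc)
    rw [hdeg] at h3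
    push_cast at h3
    linarith
  obtain ⟨cf, hcf⟩ := (Submodule.mem_span_range_iff_exists_fun k).mp hspan
  choose a ha using fun i => C.π_surj (cf i)
  refine ⟨∑ i, C.const (a i) * u i, ⟨M, ?_⟩, ?_⟩
  · have hcoe : ((∑ i, C.const (a i) * u i : O) : F)
        = ∑ i, ((a i : A) : L) • ((u i : O) : F) := by
      rw [AddSubmonoidClass.coe_finsetSum]
      refine Finset.sum_congr rfl fun i _ => ?_
      rw [Algebra.smul_def]
      rfl
    rw [hcoe]
    exact Submodule.sum_mem _ fun i _ => Submodule.smul_mem _ _ (hu i)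
  · rw [map_sum, ← hcf]
    refine Finset.sum_congr rfl fun i _ => ?_
    rw [map_mul, C.red_const', ha, Algebra.smul_def]

end Main

end Fermat.Agent.S37.helper2023

end
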