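/-
S37-CONSPRE (helper2648, board #1727): PRELUDE-SHAPE PRODUCER of `ReductionInputsAlong`
(`ReductionInputsModL` for `L = ℚ̄`).

The frozen S18 statement and the S37 rigidity chain consume the Prelude Prop
`ModularCurve.ReductionInputsAlong A π N = ∃ r, IsPlaceReductionAlong A π N r ∧
PrincipalGeneratedByIntegral A π N`.  The conservation producers (lattice reduction, ...) end
at the abstract statement "`∃ r`, `r_*(div f) = div (red f)` for every Gauss unit `f`" for an
abstract pair `(O, red)`.  This file closes the gap:

* `principalGeneratedByIntegral` (PGI): for `ℓ ∤ N` and a valuation ring `A` of `L` over `ℓ`, the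
  principal divisors of `F_N = laurentBaseChange L (modularFunctionFieldFull N)` are generated by
  the divisors of `A`-integral `q`-series with nonzero reduction.  Closed theorem (the only side
  hypothesis is the instance `HasPrincipalDivisors L F_N`).
* `isPlaceReductionAlong_of_conservation` (ADAPT): a degree-preserving `r` with the abstract
  conservation law for ANY pair `(O, red)` containing the integral series and reducing them
  coefficientwise is a Prelude place reduction.
* `reductionInputsAlong_of_conservation`, `reductionInputsAlong_of_latHyp`,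
  `reductionInputsModL_of_conservation`, `reductionInputsModL_of_latHyp`: the assembled Prop for
  the landed Gauss pair `helper508.gaussValuationSubring` / `helper508.gaussResidue`.
-/
import Mathlib
import Fermat.Prelude.Def_ModularCurve_ReductionModL
import Fermat.Agent.S18.helper508_GaussMod
import Fermat.Agent.S37.helper5413_LatticeReduction

set_option autoImplicit false
set_option synthInstance.maxHeartbeats 400000

noncomputable section

open HahnSeries IntermediateField AlgebraicCurve ModularCurve Polynomial

namespace Fermat.Agent.S37.helper2648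

open Fermat.Agent.S18

/-! ### Orders of constants and of quotients -/

section Ord

variable {K F : Type*} [Field K] [Field F] [Algebra K F]

/-- Constants have order zero at every place. -/
theorem ord_algebraMap_eq_zero (v : Place K F) (a : K) : v.ord (algebraMap K F a) = 0 := by
  rcases eq_or_ne a 0 with rfl | ha
  · simp
  obtain ⟨u, hu⟩ : IsUnit (algebraMap K v.toValuationSubring a) := (IsUnit.mk0 a ha).map _
  have h := v.ord_coe_unit u
  rw [hu, v.coe_algebraMap] at h
  exact h

/-- If `b * w = a` with `b, w ≠ 0` then `ord w = ord a - ord b`. -/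
theorem ord_eq_sub_of_mul_eq (v : Place K F) {a b w : F} (hb : b ≠ 0) (hw : w ≠ 0)
    (h : b * w = a) : v.ord w = v.ord a - v.ord b := by
  rw [← h, v.ord_mul hb hw]
  ring

end Ord

/-! ### (ADAPT) abstract conservation ⟹ Prelude place reduction -/

section Adapter

variable {L : Type*} [Field L] [Algebra ℚ L] (A : ValuationSubring L)
variable {k : Type*} [Field k] (π : A →+* k) (N : ℕ)

/-- **(ADAPT)** Let `O` be a valuation subring of `F_N = laurentBaseChange L (modularFunctionFieldFull N)`
containing every `A`-integral `q`-series of `F_N`, and `red : O →+* modularFunctionFieldFullC k N`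
a ring homomorphism which is the coefficientwise reduction on those series.  Then any
degree-preserving map `r` on places satisfying the abstract conservation law
`r_*(div f) = div (red f)` (for `f ∈ O` with `red f ≠ 0`) is a place reduction in the sense of
the Prelude. -/
theorem isPlaceReductionAlong_of_conservation
    (O : ValuationSubring ↥(laurentBaseChange L (modularFunctionFieldFull N)))
    (red : O →+* ↥(modularFunctionFieldFullC k N))
    (hO : ∀ (y : LaurentSeries A)
      (hy : coeffMap A.subtype y ∈ laurentBaseChange L (modularFunctionFieldFull N)),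
      (⟨coeffMap A.subtype y, hy⟩ : ↥(laurentBaseChange L (modularFunctionFieldFull N))) ∈ O)
    (hred : ∀ (y : LaurentSeries A)
      (hy : coeffMap A.subtype y ∈ laurentBaseChange L (modularFunctionFieldFull N)),
      ((red ⟨⟨coeffMap A.subtype y, hy⟩, hO y hy⟩ : ↥(modularFunctionFieldFullC k N)) :
        LaurentSeries k) = coeffMap π y)
    (r : Place L ↥(laurentBaseChange L (modularFunctionFieldFull N)) →
      Place k ↥(modularFunctionFieldFullC k N))
    (hdeg : ∀ P, (r P).deg = P.deg)
    (hcons : ∀ f : O, red f ≠ 0 →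
      ∀ D : Divisor L ↥(laurentBaseChange L (modularFunctionFieldFull N)),
        (∀ P, D P = P.ord ((f : ↥(laurentBaseChange L (modularFunctionFieldFull N))))) →
          ∀ Q, Finsupp.mapDomain r D Q = Q.ord (red f)) :
    IsPlaceReductionAlong A π N r := by
  refine ⟨hdeg, fun y hy hyk hne D hD Q => ?_⟩
  have hredf : red ⟨⟨coeffMap A.subtype y, hy⟩, hO y hy⟩ = ⟨coeffMap π y, hyk⟩ :=
    Subtype.ext (hred y hy)
  have hne' : red ⟨⟨coeffMap A.subtype y, hy⟩, hO y hy⟩ ≠ 0 := by
    rw [hredf]
    intro h0
    exact hne (congrArg Subtype.val h0)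
  have h := hcons _ hne' D hD Q
  rw [hredf] at h
  exact h

end Adapter

/-! ### (PGI) principal divisors are generated by integral ones -/

section PGI

variable (N : ℕ) [NeZero N] (ℓ : ℕ) [Fact ℓ.Prime] (hℓN : ¬ ℓ ∣ N)
variable {L : Type*} [Field L] [Algebra ℚ L] (A : ValuationSubring L)
  (hA : (ℓ : L) ∈ A.nonunits)

include hℓN hA

/-- A unit `w` of the Gauss valuation ring of `F_N` has divisor `div(y) - div(Q(j))` with `y`,
`Q(j)` two `A`-integral `q`-series of `F_N` with nonzero reduction. -/
theorem exists_integral_pair_of_unit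
    (w : ↥(laurentBaseChange L (modularFunctionFieldFull N))) (hw0 : w ≠ 0)
    (hwO : w ∈ helper508.gaussValuationSubring N ℓ hℓN A hA)
    (hwinvO : w⁻¹ ∈ helper508.gaussValuationSubring N ℓ hℓN A hA) :
    ∃ (y z : LaurentSeries A)
      (hy : coeffMap A.subtype y ∈ laurentBaseChange L (modularFunctionFieldFull N))
      (hz : coeffMap A.subtype z ∈ laurentBaseChange L (modularFunctionFieldFull N)),
      coeffMap (IsLocalRing.residue A) y ≠ 0 ∧ coeffMap (IsLocalRing.residue A) z ≠ 0 ∧
      (⟨coeffMap A.subtype z, hz⟩ : ↥(laurentBaseChange L (modularFunctionFieldFull N))) * w =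
        ⟨coeffMap A.subtype y, hy⟩ := by
  obtain ⟨Q, y, hQ, hQy⟩ := (helper508.mem_gaussValuationSubring_iff N ℓ hℓN A hA w).mp hwO
  have hincQ : coeffMap A.subtype (aeval (jqModC A) Q) = aeval (jqModC L) (Q.map A.subtype) :=
    helper508.cA_aeval A Q
  have hjL : jqModC L ∈ laurentBaseChange L (modularFunctionFieldFull N) :=
    helper508.jqModC_mem_bar L N
  have hQF : coeffMap A.subtype (aeval (jqModC A) Q) ∈
      laurentBaseChange L (modularFunctionFieldFull N) := by
    rw [hincQ]
    exact helper508.aeval_mem_of_mem _ hjL _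
  have hyF : coeffMap A.subtype y ∈ laurentBaseChange L (modularFunctionFieldFull N) := by
    rw [← hQy, ← hincQ]
    exact mul_mem hQF w.2
  have hredQ : coeffMap (IsLocalRing.residue A) (aeval (jqModC A) Q) ≠ 0 := by
    have h1 : coeffMap (IsLocalRing.residue A) (aeval (jqModC A) Q) =
        aeval (jqModC (IsLocalRing.ResidueField A)) (Q.map (IsLocalRing.residue A)) :=
      helper508.cπ_aeval A Q
    rw [h1]
    exact helper508.aeval_jqModC_ne_zero hQ
  have hres_ne : helper508.gaussResidue N ℓ hℓN A hA ⟨w, hwO⟩ ≠ 0 := by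
    intro h0
    have h1 : (⟨w, hwO⟩ : ↥(helper508.gaussValuationSubring N ℓ hℓN A hA)) * ⟨w⁻¹, hwinvO⟩ = 1 :=
      Subtype.ext (mul_inv_cancel₀ hw0)
    have h2 := congrArg (helper508.gaussResidue N ℓ hℓN A hA) h1
    rw [map_mul, h0, zero_mul, map_one] at h2
    exact zero_ne_one h2
  have hredy : coeffMap (IsLocalRing.residue A) y ≠ 0 := by
    intro h0
    apply hres_ne
    apply Subtype.ext
    rw [helper508.gaussResidue_eq N ℓ hℓN A hA ⟨w, hwO⟩ Q y hQ hQy, h0, zero_div]
    rfl
  refine ⟨y, aeval (jqModC A) Q, hyF, hQF, hredy, hredQ, ?_⟩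
  apply Subtype.ext
  show coeffMap A.subtype (aeval (jqModC A) Q) *
    (w : LaurentSeries L) = coeffMap A.subtype y
  rw [hincQ, hQy]

/-- **(PGI)** For `ℓ ∤ N` and a valuation ring `A` of `L` over `ℓ`: the principal divisors of
`F_N` are generated by the divisors of the `A`-integral `q`-series of `F_N` with nonzero
reduction (second half of the Prelude `ReductionInputsAlong`). -/
theorem principalGeneratedByIntegral
    [HasPrincipalDivisors L ↥(laurentBaseChange L (modularFunctionFieldFull N))] :
    PrincipalGeneratedByIntegral A (IsLocalRing.residue A) N := by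
  intro D hD
  obtain ⟨f, hf0, hDf⟩ := hD
  obtain ⟨c, w, hc0, hfw, hwO, hwinvO⟩ := helper508.exists_const_mul_unit N ℓ hℓN A hA f hf0
  have hw0 : w ≠ 0 := by
    rintro rfl
    rw [mul_zero] at hfw
    exact hf0 hfw
  obtain ⟨y, z, hy, hz, hredy, hredz, hzw⟩ :=
    exists_integral_pair_of_unit N ℓ hℓN A hA w hw0 hwO hwinvO
  have hy0 : (⟨coeffMap A.subtype y, hy⟩ : ↥(laurentBaseChange L (modularFunctionFieldFull N))) ≠ 0 := by
    intro h0
    apply hredy
    have h1 : coeffMap A.subtype y = 0 := congrArg Subtype.val h0
    have h2 : y = 0 := helper508.cA_injective A (h1.trans (map_zero _).symm)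
    rw [h2, map_zero]
  have hz0 : (⟨coeffMap A.subtype z, hz⟩ : ↥(laurentBaseChange L (modularFunctionFieldFull N))) ≠ 0 := by
    intro h0
    apply hredz
    have h1 : coeffMap A.subtype z = 0 := congrArg Subtype.val h0
    have h2 : z = 0 := helper508.cA_injective A (h1.trans (map_zero _).symm)
    rw [h2, map_zero]
  obtain ⟨D1, hD1, -⟩ := HasPrincipalDivisors.exists_divisor (K := L) _ hy0
  obtain ⟨D2, hD2, -⟩ := HasPrincipalDivisors.exists_divisor (K := L) _ hz0
  have hDeq : D = D1 - D2 := by
    ext v
    rw [Finsupp.sub_apply, hDf v, hD1 v, hD2 v, hfw,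
      v.ord_mul ((_root_.map_ne_zero _).mpr hc0) hw0, ord_algebraMap_eq_zero, zero_add]
    exact ord_eq_sub_of_mul_eq v hz0 hw0 hzw
  have h1 : D1 ∈ integralPrincipalDivisors A (IsLocalRing.residue A) N :=
    ⟨y, hy, helper508.coeffMap_residue_mem_fullC N ℓ hℓN A hA y hy, hredy, hD1⟩
  have h2 : D2 ∈ integralPrincipalDivisors A (IsLocalRing.residue A) N :=
    ⟨z, hz, helper508.coeffMap_residue_mem_fullC N ℓ hℓN A hA z hz, hredz, hD2⟩
  rw [hDeq]
  exact AddSubgroup.sub_mem _ (AddSubgroup.subset_closure h1) (AddSubgroup.subset_closure h2)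

/-- **(CONSPRE)** A degree-preserving place map with the abstract conservation law for the landed
Gauss pair (`helper508.gaussValuationSubring`, `helper508.gaussResidue`) gives the Prelude
reduction inputs. -/
theorem reductionInputsAlong_of_conservation
    [HasPrincipalDivisors L ↥(laurentBaseChange L (modularFunctionFieldFull N))]
    (r : Place L ↥(laurentBaseChange L (modularFunctionFieldFull N)) →
      Place (IsLocalRing.ResidueField A)
        ↥(modularFunctionFieldFullC (IsLocalRing.ResidueField A) N))
    (hdeg : ∀ P, (r P).deg = P.deg)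
    (hcons : ∀ f : ↥(helper508.gaussValuationSubring N ℓ hℓN A hA),
      helper508.gaussResidue N ℓ hℓN A hA f ≠ 0 →
      ∀ D : Divisor L ↥(laurentBaseChange L (modularFunctionFieldFull N)),
        (∀ P, D P = P.ord ((f : ↥(laurentBaseChange L (modularFunctionFieldFull N))))) →
          ∀ Q, Finsupp.mapDomain r D Q = Q.ord (helper508.gaussResidue N ℓ hℓN A hA f)) :
    ReductionInputsAlong A (IsLocalRing.residue A) N :=
  ⟨r, isPlaceReductionAlong_of_conservation A (IsLocalRing.residue A) N
      (helper508.gaussValuationSubring N ℓ hℓN A hA) (helper508.gaussResidue N ℓ hℓN A hA)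
      (helper508.coeffMap_mem_gaussValuationSubring N ℓ hℓN A hA)
      (helper508.gaussResidue_coeffMap N ℓ hℓN A hA) r hdeg hcons,
    principalGeneratedByIntegral N ℓ hℓN A hA⟩

/-- **(CONSPRE, lattice form)** The lattice hypotheses `helper5413.LatHyp` for the landed Gauss
pair give the Prelude reduction inputs. -/
theorem reductionInputsAlong_of_latHyp
    [HasPrincipalDivisors L ↥(laurentBaseChange L (modularFunctionFieldFull N))]
    {g c : ℤ} {E₀ : Divisor L ↥(laurentBaseChange L (modularFunctionFieldFull N))}
    {E₀k : Divisor (IsLocalRing.ResidueField A)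
      ↥(modularFunctionFieldFullC (IsLocalRing.ResidueField A) N)}
    (H : helper5413.LatHyp (helper508.gaussValuationSubring N ℓ hℓN A hA)
      (helper508.gaussResidue N ℓ hℓN A hA) g c E₀ E₀k) :
    ReductionInputsAlong A (IsLocalRing.residue A) N := by
  obtain ⟨r, hdeg, hcons, -⟩ := H.exists_placeReduction
  exact reductionInputsAlong_of_conservation N ℓ hℓN A hA r hdeg hcons

end PGI

/-! ### The case `L = ℚ̄`: `ReductionInputsModL` -/

section Bar

variable (N : ℕ) [NeZero N] (ℓ : ℕ) [Fact ℓ.Prime] (hℓN : ¬ ℓ ∣ N)
  (A : ValuationSubring (AlgebraicClosure ℚ)) (hA : A.LiesOverPrime ℓ)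

include hℓN hA

/-- (PGI) over `ℚ̄`. -/
theorem principalGeneratedByIntegral_modL
    [HasPrincipalDivisors (AlgebraicClosure ℚ) ↥(modularFunctionFieldBar N)] :
    PrincipalGeneratedByIntegral A (IsLocalRing.residue A) N :=
  principalGeneratedByIntegral N ℓ hℓN A hA

/-- **(CONSPRE) over `ℚ̄`**: conservation for the landed Gauss pair gives
`ReductionInputsModL A N`, the hypothesis of the frozen S18 statement. -/
theorem reductionInputsModL_of_conservation
    [HasPrincipalDivisors (AlgebraicClosure ℚ) ↥(modularFunctionFieldBar N)]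
    (r : Place (AlgebraicClosure ℚ) ↥(modularFunctionFieldBar N) →
      Place (IsLocalRing.ResidueField A)
        ↥(modularFunctionFieldFullC (IsLocalRing.ResidueField A) N))
    (hdeg : ∀ P, (r P).deg = P.deg)
    (hcons : ∀ f : ↥(helper508.gaussValuationSubring N ℓ hℓN A hA),
      helper508.gaussResidue N ℓ hℓN A hA f ≠ 0 →
      ∀ D : Divisor (AlgebraicClosure ℚ) ↥(modularFunctionFieldBar N),
        (∀ P, D P = P.ord ((f : ↥(modularFunctionFieldBar N)))) →
          ∀ Q, Finsupp.mapDomain r D Q = Q.ord (helper508.gaussResidue N ℓ hℓN A hA f)) :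
    ReductionInputsModL A N :=
  reductionInputsAlong_of_conservation N ℓ hℓN A hA r hdeg hcons

/-- **(CONSPRE, lattice form) over `ℚ̄`.** -/
theorem reductionInputsModL_of_latHyp
    [HasPrincipalDivisors (AlgebraicClosure ℚ) ↥(modularFunctionFieldBar N)]
    {g c : ℤ} {E₀ : Divisor (AlgebraicClosure ℚ) ↥(modularFunctionFieldBar N)}
    {E₀k : Divisor (IsLocalRing.ResidueField A)
      ↥(modularFunctionFieldFullC (IsLocalRing.ResidueField A) N)}
    (H : helper5413.LatHyp (helper508.gaussValuationSubring N ℓ hℓN A hA)
      (helper508.gaussResidue N ℓ hℓN A hA) g c E₀ E₀k) :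
    ReductionInputsModL A N :=
  reductionInputsAlong_of_latHyp N ℓ hℓN A hA H

end Bar

end Fermat.Agent.S37.helper2648

end
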