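import Fermat.Agent.S24.helper1200_Final
import Fermat.Prelude.Def_ModularCurve_HeckeOperatorTotal

/-!
# S37-HI-mod (helper4136): the modular pieces of `HeckeInputsAlong ℚ̄ N ℓ`

* `finiteAlong_of_finiteDimensional` : generic, `F'` finite over `K⟮φ x⟯` ⟹ `FiniteAlong K φ`;
* `hasPrincipalDivisors_of_finite` : generic, from the S24 leaves `FundId` + `PrincipalDegZero`;
* `heckeAlphaBar_finite`, `heckeBetaBar_finite`, `heckeAlphaBar_integral`, `heckeBetaBar_integral`,
  `hasPrincipalDivisors_level`;
* `heckeInputsAlong_of_generic` : `HeckeInputsAlong ℚ̄ N ℓ` from the two generic function-field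
  statements `Stmt_GenericFI` (fundamental identity) and `Stmt_GenericNorm` (norm formula).
-/

set_option autoImplicit false
set_option linter.style.haveILetI false

open ModularCurve AlgebraicCurve IntermediateField
open Fermat.Agent.S24 Fermat.Agent.S24.helper24

namespace Fermat.Agent.S37.helper4136

/-! ## Generic lemmas -/

section Generic

variable {K F F' : Type*} [Field K] [Field F] [Field F'] [Algebra K F] [Algebra K F']

/-- If `F'` is finite over `K⟮φ x⟯` for some `x : F`, then `F'` is finite over `F` along `φ`. -/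
theorem finiteAlong_of_finiteDimensional (φ : F →ₐ[K] F') (x : F)
    [FiniteDimensional K⟮φ x⟯ F'] : FiniteAlong K φ := by
  letI := algebraAlong φ
  show Module.Finite F F'
  obtain ⟨s, hs⟩ := (Module.Finite.fg_top : (⊤ : Submodule K⟮φ x⟯ F').FG)
  refine ⟨⟨s, ?_⟩⟩
  rw [eq_top_iff]
  intro f _
  have hle : K⟮φ x⟯ ≤ φ.fieldRange :=
    IntermediateField.adjoin_simple_le_iff.mpr ⟨x, rfl⟩
  have hf : f ∈ Submodule.span K⟮φ x⟯ (s : Set F') := by rw [hs]; trivial
  refine Submodule.span_induction (p := fun z _ => z ∈ Submodule.span F (s : Set F')) ?_ ?_ ?_ ?_ hf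
  · intro z hz
    exact Submodule.subset_span hz
  · exact Submodule.zero_mem _
  · intro a b _ _ ha hb
    exact Submodule.add_mem _ ha hb
  · intro c z _ hz
    obtain ⟨c', hc'⟩ := hle c.2
    have : c • z = c' • z := by
      rw [Algebra.smul_def, Algebra.smul_def]
      congr 1
      exact hc'.symm
    rw [this]
    exact Submodule.smul_mem _ c' hz

/-- A finite extension along `φ` is integral along `φ`. -/
theorem isIntegral_of_finiteAlong (φ : F →ₐ[K] F') (h : FiniteAlong K φ) :
    φ.toRingHom.IsIntegral := by
  letI := algebraAlong φ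
  haveI : Module.Finite F F' := h
  intro y
  exact (Algebra.IsIntegral.of_finite F F').isIntegral y

end Generic

section Principal

variable {K F : Type} [Field K] [Field F] [Algebra K F]

theorem transcendental_inv' {f : F} (hf : Transcendental K f) : Transcendental K f⁻¹ := fun h =>
  hf (by simpa using h.inv)

/-- `HasPrincipalDivisors` for a function field in one variable over an algebraically closed field
of characteristic zero, from the S24 leaves. -/
theorem hasPrincipalDivisors_of_finite [IsAlgClosed K] [CharZero K] (x : F)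
    (hx : Transcendental K x) [FiniteDimensional K⟮x⟯ F] : HasPrincipalDivisors K F := by
  classical
  refine ⟨fun f hf => ?_⟩
  by_cases hfa : IsAlgebraic K f
  · obtain ⟨a, rfl⟩ := helper1968.exists_algebraMap_eq_of_isAlgebraic hfa
    have ha : a ≠ 0 := by
      rintro rfl
      exact hf (map_zero _)
    refine ⟨0, fun v => ?_, by simp⟩
    rw [helper1968.ord_algebraMap v ha]
    rfl
  · have hft : Transcendental K f := hfa
    haveI : FiniteDimensional K⟮f⟯ F := helper2549.exchange x f hft
    haveI : FiniteDimensional K⟮f⁻¹⟯ F := helper2549.exchange x f⁻¹ (transcendental_inv' hft)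
    obtain ⟨s, hs, -⟩ := leaf_FundId K F f hft
    obtain ⟨t, ht, -⟩ := leaf_FundId K F f⁻¹ (transcendental_inv' hft)
    let D : Divisor K F := Finsupp.onFinset (s ∪ t) (fun v => v.ord f) (by
      intro v hv
      by_contra hmem
      rw [Finset.mem_union, not_or, hs, ht, Place.ord_inv] at hmem
      apply hv
      omega)
    have hD : ∀ v : Place K F, D v = v.ord f := fun v => rfl
    exact ⟨D, hD, leaf_PrincipalDegZero K F x hx f hf D hD⟩

end Principal

/-! ## The modular function fields -/

/-- `[F_N : ℚ̄(j)]` is finite (S24). -/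
theorem finiteDimensional_jBar (N : ℕ) [NeZero N] : FiniteDimensional Kbar⟮jBar N⟯ (FN N) :=
  (helper167.stmt_JFinrank_of (fun N _ => helper6180.evDatum N) helper1200.stmt_LocalInf N).1

/-- `HasPrincipalDivisors` for the function field of `X₀(N)` over `ℚ̄`. -/
theorem hasPrincipalDivisors_level (N : ℕ) [NeZero N] : HasPrincipalDivisors Kbar (FN N) :=
  haveI := finiteDimensional_jBar N
  hasPrincipalDivisors_of_finite (jBar N) (helper3176.transcendental_jBar N)

section Hecke

variable (N ℓ : ℕ) [NeZero N] [NeZero ℓ]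

instance neZero_mul : NeZero (N * ℓ) := ⟨Nat.mul_ne_zero (NeZero.ne N) (NeZero.ne ℓ)⟩

theorem heckeAlphaBar_jBar : heckeAlphaBar Kbar N ℓ (jBar N) = jBar (N * ℓ) :=
  Subtype.ext (by rw [coe_heckeAlphaBar]; rfl)

theorem heckeAlphaBar_finite : FiniteAlong Kbar (heckeAlphaBar Kbar N ℓ) := by
  haveI : FiniteDimensional Kbar⟮heckeAlphaBar Kbar N ℓ (jBar N)⟯ (FN (N * ℓ)) := by
    rw [heckeAlphaBar_jBar]
    exact finiteDimensional_jBar (N * ℓ)
  exact finiteAlong_of_finiteDimensional (heckeAlphaBar Kbar N ℓ) (jBar N)

theorem heckeBetaBar_finite : FiniteAlong Kbar (heckeBetaBar Kbar N ℓ) := by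
  haveI := finiteDimensional_jBar (N * ℓ)
  have htr : Transcendental Kbar (heckeBetaBar Kbar N ℓ (jBar N)) := by
    intro h
    exact helper3176.transcendental_jBar N
      ((isAlgebraic_algHom_iff (heckeBetaBar Kbar N ℓ) (heckeBetaBar Kbar N ℓ).injective).mp h)
  haveI : FiniteDimensional Kbar⟮heckeBetaBar Kbar N ℓ (jBar N)⟯ (FN (N * ℓ)) :=
    helper2549.exchange (jBar (N * ℓ)) _ htr
  exact finiteAlong_of_finiteDimensional (heckeBetaBar Kbar N ℓ) (jBar N)

theorem heckeAlphaBar_integral : HeckeAlphaBarIntegral Kbar N ℓ :=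
  isIntegral_of_finiteAlong _ (heckeAlphaBar_finite N ℓ)

theorem heckeBetaBar_integral : HeckeBetaBarIntegral Kbar N ℓ :=
  isIntegral_of_finiteAlong _ (heckeBetaBar_finite N ℓ)

end Hecke

/-! ## The two generic function-field statements and the assembly -/

/-- Generic fundamental identity `∑_{w ∣ v} e(w ∣ v) · deg w = [F' : F] · deg v` for a finite
extension `F'/F` of function fields of one variable over an algebraically closed field of
characteristic zero (`x` is a separating transcendental element of `F`). -/
def Stmt_GenericFI : Prop :=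
  ∀ (K F F' : Type) [Field K] [Field F] [Field F'] [Algebra K F] [Algebra K F'] [Algebra F F']
    [IsScalarTower K F F'] [IsAlgClosed K] [CharZero K] [Module.Finite F F']
    [Algebra.IsIntegral F F'] [HasPrincipalDivisors K F'] (x : F), Transcendental K x →
    ∀ [FiniteDimensional K⟮x⟯ F], FundamentalIdentity K F F'

/-- Generic norm formula `N_*(div f) = div (N_{F'/F} f)` for a finite extension `F'/F` of function
fields of one variable over an algebraically closed field of characteristic zero. -/
def Stmt_GenericNorm : Prop :=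
  ∀ (K F F' : Type) [Field K] [Field F] [Field F'] [Algebra K F] [Algebra K F'] [Algebra F F']
    [IsScalarTower K F F'] [IsAlgClosed K] [CharZero K] [Module.Finite F F']
    [Algebra.IsIntegral F F'] [HasPrincipalDivisors K F'] (x : F), Transcendental K x →
    ∀ [FiniteDimensional K⟮x⟯ F], Divisor.PushforwardNormFormula K F F'

/-- **`HeckeInputsAlong ℚ̄ N ℓ`** from the two generic function-field statements. -/
theorem heckeInputsAlong_of_generic (hFI : Stmt_GenericFI) (hNF : Stmt_GenericNorm)
    (N ℓ : ℕ) [NeZero N] [NeZero ℓ] : HeckeInputsAlong Kbar N ℓ := by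
  have hP : HasPrincipalDivisors Kbar (FN (N * ℓ)) := hasPrincipalDivisors_level (N * ℓ)
  have hα := heckeAlphaBar_integral N ℓ
  have hβ := heckeBetaBar_integral N ℓ
  have hfinα := heckeAlphaBar_finite N ℓ
  have hfinβ := heckeBetaBar_finite N ℓ
  have hfd := finiteDimensional_jBar N
  refine ⟨hα, hβ, hP, hfinα, ?_, ?_⟩
  · letI := algebraAlong (heckeBetaBar Kbar N ℓ)
    haveI := isScalarTower_along (heckeBetaBar Kbar N ℓ)
    haveI : Module.Finite (FN N) (FN (N * ℓ)) := hfinβ
    haveI := isIntegral_along (heckeBetaBar Kbar N ℓ) hβ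
    exact hFI Kbar (FN N) (FN (N * ℓ)) (jBar N) (helper3176.transcendental_jBar N)
  · letI := algebraAlong (heckeAlphaBar Kbar N ℓ)
    haveI := isScalarTower_along (heckeAlphaBar Kbar N ℓ)
    haveI : Module.Finite (FN N) (FN (N * ℓ)) := hfinα
    haveI := isIntegral_along (heckeAlphaBar Kbar N ℓ) hα
    exact hNF Kbar (FN N) (FN (N * ℓ)) (jBar N) (helper3176.transcendental_jBar N)

end Fermat.Agent.S37.helper4136
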