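/-
S37-CONSPRE (helper2648, board #1727), closed forms over `ℚ̄`.

Same statements as `helper2648_ReductionInputs`, with the instance
`HasPrincipalDivisors ℚ̄ F_N` discharged by the landed S24-based
`helper4136.hasPrincipalDivisors_level`:

* `principalGeneratedByIntegral_bar`: CLOSED theorem, for every `N`, every prime `ℓ ∤ N` and every
  valuation ring `A` of `ℚ̄` over `ℓ`: `PrincipalGeneratedByIntegral A (residue A) N`.
* `reductionInputsModL_of_conservation_bar`, `reductionInputsModL_of_latHyp_bar`: the hypothesis
  `ReductionInputsModL A N` of the frozen S18 statement from a conservation law / from the lattice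
  hypotheses for the landed Gauss pair.
-/
import Fermat.Agent.S37.helper2648_ReductionInputs
import Fermat.Agent.S37.helper4136_HeckeInputsMod

set_option autoImplicit false
set_option synthInstance.maxHeartbeats 400000

noncomputable section

open AlgebraicCurve ModularCurve

namespace Fermat.Agent.S37.helper2648

open Fermat.Agent.S18

variable (N : ℕ) [NeZero N] (ℓ : ℕ) [Fact ℓ.Prime] (hℓN : ¬ ℓ ∣ N)
  (A : ValuationSubring (AlgebraicClosure ℚ)) (hA : A.LiesOverPrime ℓ)

include hℓN hA

/-- **(PGI) over `ℚ̄`, closed form.** -/
theorem principalGeneratedByIntegral_bar :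
    PrincipalGeneratedByIntegral A (IsLocalRing.residue A) N :=
  haveI : HasPrincipalDivisors (AlgebraicClosure ℚ) ↥(modularFunctionFieldBar N) :=
    helper4136.hasPrincipalDivisors_level N
  principalGeneratedByIntegral N ℓ hℓN A hA

/-- **(CONSPRE) over `ℚ̄`, closed form**: a degree-preserving place map with the conservation law
for the landed Gauss pair gives `ReductionInputsModL A N`. -/
theorem reductionInputsModL_of_conservation_bar
    (r : Place (AlgebraicClosure ℚ) ↥(modularFunctionFieldBar N) →
      Place (IsLocalRing.ResidueField A)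
        ↥(modularFunctionFieldFullC (IsLocalRing.ResidueField A) N))
    (hdeg : ∀ P, (r P).deg = P.deg)
    (hcons : ∀ f : ↥(helper508.gaussValuationSubring N ℓ hℓN A hA),
      helper508.gaussResidue N ℓ hℓN A hA f ≠ 0 →
      ∀ D : Divisor (AlgebraicClosure ℚ) ↥(modularFunctionFieldBar N),
        (∀ P, D P = P.ord ((f : ↥(modularFunctionFieldBar N)))) →
          ∀ Q, Finsupp.mapDomain r D Q = Q.ord (helper508.gaussResidue N ℓ hℓN A hA f)) :
    ReductionInputsModL A N :=
  haveI : HasPrincipalDivisors (AlgebraicClosure ℚ) ↥(modularFunctionFieldBar N) :=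
    helper4136.hasPrincipalDivisors_level N
  reductionInputsModL_of_conservation N ℓ hℓN A hA r hdeg hcons

/-- **(CONSPRE, lattice form) over `ℚ̄`, closed form.** -/
theorem reductionInputsModL_of_latHyp_bar
    {g c : ℤ} {E₀ : Divisor (AlgebraicClosure ℚ) ↥(modularFunctionFieldBar N)}
    {E₀k : Divisor (IsLocalRing.ResidueField A)
      ↥(modularFunctionFieldFullC (IsLocalRing.ResidueField A) N)}
    (H : helper5413.LatHyp (helper508.gaussValuationSubring N ℓ hℓN A hA)
      (helper508.gaussResidue N ℓ hℓN A hA) g c E₀ E₀k) :
    ReductionInputsModL A N :=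
  haveI : HasPrincipalDivisors (AlgebraicClosure ℚ) ↥(modularFunctionFieldBar N) :=
    helper4136.hasPrincipalDivisors_level N
  reductionInputsModL_of_latHyp N ℓ hℓN A hA H

end Fermat.Agent.S37.helper2648

end
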