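import Fermat.Agent.S24.helper489_FundId
import Fermat.Prelude.Def_AlgebraicCurve_Correspondence

/-!
# S37 (helper8426): norm formula and fundamental identity for a finite extension `F'/F`
of fields with places over `K`, all of whose places upstairs have residue field `K`

Route: for a place `v` of `F`, the integral closure `B` of the discrete valuation ring `O_v`
in `F'` is a Dedekind domain, finite over `O_v`; the places of `F'` above `v` are exactly the
places of the nonzero primes of `B` (landed S24 layer `helper489`); then
`Ideal.relNorm_singleton` and `Ideal.relNorm_eq_pow_of_isMaximal` give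
`ord_v (N f) = ∑_{w | v} ord_w f`.
-/

set_option autoImplicit false
set_option linter.unusedSectionVars false
set_option linter.style.haveILetI false

open AlgebraicCurve IsDedekindDomain

namespace Fermat.Agent.S37.helper8426

noncomputable section

section generic

variable {K F F' : Type*} [Field K] [Field F] [Field F'] [Algebra K F] [Algebra K F']
  [Algebra F F'] [IsScalarTower K F F']

/-- The tower `K → O_v → F'`. -/
theorem isScalarTower_valuationSubring (v : Place K F) :
    IsScalarTower K v.toValuationSubring F' :=
  IsScalarTower.of_algebraMap_eq fun a => by
    show algebraMap K F' a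
      = algebraMap F F' ((algebraMap K v.toValuationSubring a : v.toValuationSubring) : F)
    rw [Place.coe_algebraMap, ← IsScalarTower.algebraMap_apply]

attribute [local instance] isScalarTower_valuationSubring

variable [Module.Finite F F'] [CharZero F]

variable (v : Place K F)

theorem isDedekindDomain_integralClosure :
    IsDedekindDomain (integralClosure v.toValuationSubring F') :=
  integralClosure.isDedekindDomain v.toValuationSubring F F'

theorem isFractionRing_integralClosure :
    IsFractionRing (integralClosure v.toValuationSubring F') F' :=
  integralClosure.isFractionRing_of_finite_extension F F'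

theorem finite_integralClosure :
    Module.Finite v.toValuationSubring (integralClosure v.toValuationSubring F') :=
  IsIntegralClosure.finite v.toValuationSubring F F' _

theorem isTorsionFree_integralClosure :
    Module.IsTorsionFree v.toValuationSubring (integralClosure v.toValuationSubring F') := by
  rw [Module.isTorsionFree_iff_algebraMap_injective]
  intro a b hab
  have h : algebraMap F F' (a : F) = algebraMap F F' (b : F) := congrArg Subtype.val hab
  exact Subtype.ext ((algebraMap F F').injective h)

attribute [local instance] isDedekindDomain_integralClosure isFractionRing_integralClosure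
  finite_integralClosure isTorsionFree_integralClosure

/-- The place of `F'` attached to a nonzero prime of the integral closure of `O_v` lies
over `v`. -/
theorem restrict_ofHeightOneSpectrum
    (Q : HeightOneSpectrum (integralClosure v.toValuationSubring F')) :
    (Place.ofHeightOneSpectrum (K := K) (F := F') Q).restrict F = v := by
  apply Place.ext
  symm
  apply ValuationSubring.eq_of_le_of_ne_top
  · intro x hx
    rw [Place.restrict_toValuationSubring, ValuationSubring.mem_comap,
      Place.ofHeightOneSpectrum_toValuationSubring, Valuation.mem_valuationSubring_iff]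
    have h := Q.valuation_le_one (K := F')
      (algebraMap v.toValuationSubring (integralClosure v.toValuationSubring F') ⟨x, hx⟩)
    exact h
  · exact ((Place.ofHeightOneSpectrum (K := K) (F := F') Q).restrict F).ne_top'

/-- Every place of `F'` over `v` is the place of a nonzero prime of the integral closure
of `O_v`. -/
theorem exists_ofHeightOneSpectrum_of_restrict (w : Place K F') (hw : w.restrict F = v) :
    ∃ Q : HeightOneSpectrum (integralClosure v.toValuationSubring F'),
      Place.ofHeightOneSpectrum (K := K) (F := F') Q = w := by
  apply Fermat.Agent.S24.helper489.exists_ofHeightOneSpectrum_eq w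
  have hA : ∀ a : v.toValuationSubring,
      algebraMap v.toValuationSubring F' a ∈ w.toValuationSubring := by
    intro a
    have ha : (a : F) ∈ (w.restrict F).toValuationSubring := by rw [hw]; exact a.2
    exact (Place.mem_restrict_iff w).mp ha
  intro b
  have hbint : IsIntegral v.toValuationSubring
      (algebraMap (integralClosure v.toValuationSubring F') F' b) := b.2
  let : Algebra v.toValuationSubring w.toValuationSubring :=
    ((algebraMap v.toValuationSubring F').codRestrict w.toValuationSubring.toSubring hA).toAlgebra
  have : IsScalarTower v.toValuationSubring w.toValuationSubring F' :=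
    IsScalarTower.of_algebraMap_eq fun f => rfl
  have hx : IsIntegral w.toValuationSubring
      (algebraMap (integralClosure v.toValuationSubring F') F' b) := hbint.tower_top
  obtain ⟨z, hz⟩ := IsIntegrallyClosed.isIntegral_iff.mp hx
  exact hz ▸ z.2

/-- The order at the place of a prime `Q` of a Dedekind domain, on elements of the domain, as
the exponent of `Q` in the factorisation. -/
theorem ord_ofHeightOneSpectrum_eq_count {B : Type*} [CommRing B] [IsDedekindDomain B]
    [Algebra B F'] [IsFractionRing B F'] [Algebra K B] [IsScalarTower K B F']
    (Q : HeightOneSpectrum B) {b : B} (hb : b ≠ 0) :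
    (Place.ofHeightOneSpectrum (K := K) (F := F') Q).ord (algebraMap B F' b)
      = ((Associates.mk Q.asIdeal).count (Associates.mk (Ideal.span {b})).factors : ℤ) := by
  rw [Fermat.Agent.S24.helper489.ofHeightOneSpectrum_ord, HeightOneSpectrum.valuation_of_algebraMap,
    Q.intValuation_if_neg hb, WithZero.log_exp, neg_neg]

/-- The order at `v` of an element of `O_v`, as the exponent of the maximal ideal. -/
theorem ord_coe_eq_count {r : v.toValuationSubring} (hr : r ≠ 0) :
    v.ord (r : F)
      = ((Associates.mk (IsLocalRing.maximalIdeal v.toValuationSubring)).count
          (Associates.mk (Ideal.span {r})).factors : ℤ) := by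
  have h := v.heightOneSpectrum.intValuation_if_neg hr
  have h2 : v.adicValuation (r : F) = v.heightOneSpectrum.intValuation r := v.adicValuation_coe r
  rw [Place.ord, h2, h, WithZero.log_exp, neg_neg]
  rfl

section fiber

variable [HasPrincipalDivisors K F']

/-- There are finitely many nonzero primes in the integral closure of `O_v`. -/
theorem finite_heightOneSpectrum :
    Finite (HeightOneSpectrum (integralClosure v.toValuationSubring F')) := by
  have hinj : Function.Injective
      (fun Q : HeightOneSpectrum (integralClosure v.toValuationSubring F') =>
        (⟨Place.ofHeightOneSpectrum (K := K) (F := F') Q,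
          Place.mem_fiber.mpr (restrict_ofHeightOneSpectrum v Q)⟩ :
          {w : Place K F' // w ∈ v.fiber F'})) := by
    intro Q Q' h
    exact Fermat.Agent.S24.helper489.ofHeightOneSpectrum_injective (congrArg Subtype.val h)
  exact Finite.of_injective _ hinj

/-- Sums over the fibre of `v` are sums over the nonzero primes of the integral closure. -/
theorem sum_fiber_eq [Fintype (HeightOneSpectrum (integralClosure v.toValuationSubring F'))]
    (g : Place K F' → ℤ) :
    ∑ w ∈ v.fiber F', g w
      = ∑ Q : HeightOneSpectrum (integralClosure v.toValuationSubring F'),
          g (Place.ofHeightOneSpectrum (K := K) (F := F') Q) := by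
  classical
  have himg : v.fiber F' = Finset.univ.image
      (fun Q : HeightOneSpectrum (integralClosure v.toValuationSubring F') =>
        Place.ofHeightOneSpectrum (K := K) (F := F') Q) := by
    ext w
    simp only [Place.mem_fiber, Finset.mem_image, Finset.mem_univ, true_and]
    constructor
    · intro hw
      exact exists_ofHeightOneSpectrum_of_restrict v w hw
    · rintro ⟨Q, rfl⟩
      exact restrict_ofHeightOneSpectrum v Q
  rw [himg, Finset.sum_image]
  intro Q _ Q' _ h
  exact Fermat.Agent.S24.helper489.ofHeightOneSpectrum_injective h

end fiber

/-- A nonzero prime of the integral closure lies over the maximal ideal of `O_v`. -/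
theorem liesOver_maximalIdeal
    (Q : HeightOneSpectrum (integralClosure v.toValuationSubring F')) :
    Q.asIdeal.LiesOver (IsLocalRing.maximalIdeal v.toValuationSubring) := by
  have : Q.asIdeal.IsMaximal := Q.isMaximal
  exact ⟨(IsLocalRing.eq_maximalIdeal
    (inferInstance : (Q.asIdeal.under v.toValuationSubring).IsMaximal)).symm⟩

/-- If the residue field of the place of `Q` is `K`, every element of the integral closure is
congruent to a constant modulo `Q`. -/
theorem exists_const_sub_mem
    (Q : HeightOneSpectrum (integralClosure v.toValuationSubring F'))
    (hres : Function.Surjective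
      (algebraMap K (Place.ofHeightOneSpectrum (K := K) (F := F') Q).ResidueField))
    (b : integralClosure v.toValuationSubring F') :
    ∃ c : K, b - algebraMap K (integralClosure v.toValuationSubring F') c ∈ Q.asIdeal := by
  have hmem : ∀ x : integralClosure v.toValuationSubring F',
      algebraMap (integralClosure v.toValuationSubring F') F' x ∈
        (Place.ofHeightOneSpectrum (K := K) (F := F') Q).toValuationSubring := by
    intro x
    rw [Place.ofHeightOneSpectrum_toValuationSubring, Valuation.mem_valuationSubring_iff]
    exact Q.valuation_le_one x
  obtain ⟨c, hc⟩ := hres (IsLocalRing.residue _ ⟨_, hmem b⟩)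
  refine ⟨c, ?_⟩
  have h0 : IsLocalRing.residue (Place.ofHeightOneSpectrum (K := K) (F := F') Q).toValuationSubring
      (⟨_, hmem b⟩ - algebraMap K
        (Place.ofHeightOneSpectrum (K := K) (F := F') Q).toValuationSubring c) = 0 := by
    rw [map_sub, ← hc]
    exact sub_self _
  rw [IsLocalRing.residue_eq_zero_iff, ValuationSubring.valuation_lt_one_iff] at h0
  have hel : algebraMap (integralClosure v.toValuationSubring F') F'
      (b - algebraMap K (integralClosure v.toValuationSubring F') c)
      = algebraMap (integralClosure v.toValuationSubring F') F' b - algebraMap K F' c := by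
    rw [map_sub, ← IsScalarTower.algebraMap_apply K (integralClosure v.toValuationSubring F') F']
  have h1 : Q.valuation F' (algebraMap (integralClosure v.toValuationSubring F') F'
      (b - algebraMap K (integralClosure v.toValuationSubring F') c)) < 1 := by
    rw [(Valuation.isEquiv_valuation_valuationSubring (Q.valuation F')).lt_one_iff_lt_one, hel]
    exact h0
  exact (Q.valuation_lt_one_iff_mem _).mp h1

/-- When the place of `Q` has residue field `K`, the inertia degree of `Q` over `O_v` is one. -/
theorem inertiaDeg_eq_one
    (Q : HeightOneSpectrum (integralClosure v.toValuationSubring F'))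
    (hres : Function.Surjective
      (algebraMap K (Place.ofHeightOneSpectrum (K := K) (F := F') Q).ResidueField)) :
    Q.asIdeal.inertiaDeg v.toValuationSubring = 1 := by
  have hQ : Q.asIdeal.IsMaximal := Q.isMaximal
  have hlo := liesOver_maximalIdeal v Q
  rw [Ideal.inertiaDeg_eq_of_isMaximal (IsLocalRing.maximalIdeal v.toValuationSubring) Q.asIdeal]
  letI : Field (v.toValuationSubring ⧸ IsLocalRing.maximalIdeal v.toValuationSubring) :=
    Ideal.Quotient.field _
  letI : Field (integralClosure v.toValuationSubring F' ⧸ Q.asIdeal) := Ideal.Quotient.field _
  rw [finrank_eq_one_iff_of_nonzero'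
    (1 : integralClosure v.toValuationSubring F' ⧸ Q.asIdeal) one_ne_zero]
  intro x
  obtain ⟨b, rfl⟩ := Ideal.Quotient.mk_surjective x
  obtain ⟨c, hc⟩ := exists_const_sub_mem v Q hres b
  refine ⟨Ideal.Quotient.mk _ (algebraMap K v.toValuationSubring c), ?_⟩
  rw [Algebra.smul_def, mul_one, Ideal.Quotient.algebraMap_mk_of_liesOver]
  symm
  rw [Ideal.Quotient.eq, ← IsScalarTower.algebraMap_apply K v.toValuationSubring]
  exact hc

/-- The relative norm of a nonzero prime of the integral closure is the maximal ideal. -/
theorem relNorm_prime
    (Q : HeightOneSpectrum (integralClosure v.toValuationSubring F'))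
    (hres : Function.Surjective
      (algebraMap K (Place.ofHeightOneSpectrum (K := K) (F := F') Q).ResidueField)) :
    Ideal.relNorm v.toValuationSubring Q.asIdeal
      = IsLocalRing.maximalIdeal v.toValuationSubring := by
  have hQ : Q.asIdeal.IsMaximal := Q.isMaximal
  have hlo := liesOver_maximalIdeal v Q
  rw [Ideal.relNorm_eq_pow_of_isMaximal Q.asIdeal (IsLocalRing.maximalIdeal v.toValuationSubring),
    inertiaDeg_eq_one v Q hres, pow_one]

/-- The relative norm of a nonzero principal ideal of the integral closure. -/
theorem relNorm_span_singleton
    [Fintype (HeightOneSpectrum (integralClosure v.toValuationSubring F'))]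
    (hres : ∀ Q : HeightOneSpectrum (integralClosure v.toValuationSubring F'),
      Function.Surjective
        (algebraMap K (Place.ofHeightOneSpectrum (K := K) (F := F') Q).ResidueField))
    {b : integralClosure v.toValuationSubring F'} (hb : b ≠ 0) :
    Ideal.relNorm v.toValuationSubring (Ideal.span {b})
      = IsLocalRing.maximalIdeal v.toValuationSubring ^
          (∑ Q : HeightOneSpectrum (integralClosure v.toValuationSubring F'),
            (Associates.mk Q.asIdeal).count (Associates.mk (Ideal.span {b})).factors) := by
  have hI : (Ideal.span {b} : Ideal (integralClosure v.toValuationSubring F')) ≠ 0 := by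
    rw [Ne, Ideal.zero_eq_bot, Ideal.span_singleton_eq_bot]
    exact hb
  conv_lhs => rw [← Ideal.finprod_heightOneSpectrum_factorization hI]
  rw [finprod_eq_prod_of_fintype, map_prod, ← Finset.prod_pow_eq_pow_sum]
  refine Finset.prod_congr rfl fun Q _ => ?_
  rw [HeightOneSpectrum.maxPowDividing, map_pow, relNorm_prime v Q (hres Q)]

section main

variable [HasPrincipalDivisors K F']

/-- Norm formula at `v` for nonzero elements of the integral closure of `O_v`. -/
theorem ord_norm_eq_sum_of_mem
    (hres : ∀ w : Place K F', Function.Surjective (algebraMap K w.ResidueField))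
    {b : integralClosure v.toValuationSubring F'} (hb : b ≠ 0) :
    v.ord (Algebra.norm F (algebraMap (integralClosure v.toValuationSubring F') F' b))
      = ∑ w ∈ v.fiber F',
          w.ord (algebraMap (integralClosure v.toValuationSubring F') F' b) := by
  haveI := finite_heightOneSpectrum v (F' := F')
  letI := Fintype.ofFinite (HeightOneSpectrum (integralClosure v.toValuationSubring F'))
  have hnorm := Algebra.algebraMap_intNorm (A := v.toValuationSubring) (K := F) (L := F')
      (B := integralClosure v.toValuationSubring F') b
  have hn : Algebra.intNorm v.toValuationSubring (integralClosure v.toValuationSubring F') b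
      ≠ 0 := by
    intro h0
    rw [h0, map_zero] at hnorm
    have hb' : algebraMap (integralClosure v.toValuationSubring F') F' b ≠ 0 := by
      rwa [Ne, map_eq_zero_iff _ (IsFractionRing.injective _ F')]
    exact (Algebra.norm_ne_zero_iff.mpr hb') hnorm.symm
  have hp : Irreducible (Associates.mk (IsLocalRing.maximalIdeal v.toValuationSubring)) :=
    v.heightOneSpectrum.associates_irreducible
  rw [sum_fiber_eq v, ← hnorm]
  show v.ord ((Algebra.intNorm v.toValuationSubring
    (integralClosure v.toValuationSubring F') b : v.toValuationSubring) : F) = _
  rw [ord_coe_eq_count v hn, ← Ideal.relNorm_singleton,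
    relNorm_span_singleton v (fun Q => hres _) hb,
    Associates.mk_pow, Associates.count_pow hp.ne_zero hp, Associates.count_self hp, mul_one]
  push_cast
  exact Finset.sum_congr rfl fun Q _ => (ord_ofHeightOneSpectrum_eq_count Q hb).symm

/-- **Norm formula** at `v`: `ord_v (N_{F'/F} f) = ∑_{w | v} ord_w f`. -/
theorem ord_norm_eq_sum
    (hres : ∀ w : Place K F', Function.Surjective (algebraMap K w.ResidueField))
    {f : F'} (hf : f ≠ 0) :
    v.ord (Algebra.norm F f) = ∑ w ∈ v.fiber F', w.ord f := by
  have halg : IsAlgebraic v.toValuationSubring f :=
    (IsFractionRing.isAlgebraic_iff v.toValuationSubring F F').mpr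
      (Algebra.IsAlgebraic.isAlgebraic f)
  obtain ⟨s, hs0, hsint⟩ := halg.exists_integral_multiple
  let b : integralClosure v.toValuationSubring F' := ⟨s • f, hsint⟩
  let sB : integralClosure v.toValuationSubring F' :=
    algebraMap v.toValuationSubring (integralClosure v.toValuationSubring F') s
  have hsF : algebraMap (integralClosure v.toValuationSubring F') F' sB ≠ 0 := by
    show algebraMap F F' (s : F) ≠ 0
    rw [Ne, map_eq_zero]
    exact fun h => hs0 (Subtype.ext h)
  have hsB : sB ≠ 0 := fun h => hsF (by rw [h, map_zero])
  have hmul : algebraMap (integralClosure v.toValuationSubring F') F' b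
      = algebraMap (integralClosure v.toValuationSubring F') F' sB * f := by
    show s • f = algebraMap F F' (s : F) * f
    rw [Algebra.smul_def]
    rfl
  have hbF : algebraMap (integralClosure v.toValuationSubring F') F' b ≠ 0 := by
    rw [hmul]
    exact mul_ne_zero hsF hf
  have hb : b ≠ 0 := fun h => hbF (by rw [h, map_zero])
  have h1 := ord_norm_eq_sum_of_mem v hres hb
  have h2 := ord_norm_eq_sum_of_mem v hres hsB
  rw [hmul, map_mul, v.ord_mul (Algebra.norm_ne_zero_iff.mpr hsF)
    (Algebra.norm_ne_zero_iff.mpr hf)] at h1
  have h3 : ∀ w : Place K F',
      w.ord (algebraMap (integralClosure v.toValuationSubring F') F' sB * f)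
        = w.ord (algebraMap (integralClosure v.toValuationSubring F') F' sB) + w.ord f :=
    fun w => w.ord_mul hsF hf
  simp_rw [h3, Finset.sum_add_distrib] at h1
  linarith

end main

end generic

section final

variable {K F F' : Type*} [Field K] [Field F] [Field F'] [Algebra K F] [Algebra K F']
  [Algebra F F'] [IsScalarTower K F F']

/-- If every place of `F'` has residue field `K`, all inertia degrees are one. -/
theorem place_inertiaDeg_eq_one [Algebra.IsIntegral F F']
    (hres : ∀ w : Place K F', Function.Surjective (algebraMap K w.ResidueField))
    (w : Place K F') : w.inertiaDeg F = 1 := by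
  rw [Place.inertiaDeg, finrank_eq_one_iff_of_nonzero' (1 : w.ResidueField) one_ne_zero]
  intro x
  obtain ⟨c, rfl⟩ := hres w x
  refine ⟨algebraMap K (w.restrict F).ResidueField c, ?_⟩
  rw [Algebra.smul_def, mul_one, ← IsScalarTower.algebraMap_apply]

variable [Module.Finite F F'] [CharZero K] [HasPrincipalDivisors K F']

/-- **Norm formula** `ord_v (N_{F'/F} f) = ∑_{w | v} ord_w f` for a finite extension `F'/F` in
characteristic zero, all of whose places upstairs have residue field `K`. -/
theorem ord_norm_eq_sum_fiber
    (hres : ∀ w : Place K F', Function.Surjective (algebraMap K w.ResidueField))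
    (v : Place K F) {f : F'} (hf : f ≠ 0) :
    v.ord (Algebra.norm F f) = ∑ w ∈ v.fiber F', w.ord f := by
  haveI : CharZero F := charZero_of_injective_algebraMap (algebraMap K F).injective
  exact ord_norm_eq_sum v hres hf

/-- The push-forward of a principal divisor is the divisor of the norm. -/
theorem pushforwardNormFormula
    (hres : ∀ w : Place K F', Function.Surjective (algebraMap K w.ResidueField)) :
    Divisor.PushforwardNormFormula K F F' := by
  classical
  intro f hf D hD v
  rw [Divisor.pushforward_apply, ord_norm_eq_sum_fiber hres v hf, ← Finset.sum_filter]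
  have hterm : ∀ w : Place K F', D w * (w.inertiaDeg F : ℤ) = w.ord f := by
    intro w
    rw [place_inertiaDeg_eq_one hres w, hD]
    simp
  simp_rw [hterm]
  apply Finset.sum_subset
  · intro w hw
    rw [Finset.mem_filter] at hw
    exact Place.mem_fiber.mpr hw.2
  · intro w hw hnot
    rw [Finset.mem_filter, not_and] at hnot
    have hsupp : w ∉ D.support := fun h => hnot h (Place.mem_fiber.mp hw)
    rw [Finsupp.notMem_support_iff, hD] at hsupp
    exact hsupp

/-- `∑_{w | v} e(w|v) f(w|v) = [F' : F]`. -/
theorem sumRamificationInertia
    (hres : ∀ w : Place K F', Function.Surjective (algebraMap K w.ResidueField)) :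
    SumRamificationInertia K F F' := by
  refine ⟨fun v => ?_⟩
  obtain ⟨π, hπ⟩ := IsDiscreteValuationRing.exists_irreducible v.toValuationSubring
  have hπ1 : v.ord (π : F) = 1 := v.ord_coe_irreducible hπ
  have hπ0 : (π : F) ≠ 0 := by
    intro h
    rw [h, Place.ord_zero] at hπ1
    exact zero_ne_one hπ1
  have h := ord_norm_eq_sum_fiber hres v (f := algebraMap F F' (π : F)) (by simpa using hπ0)
  rw [Algebra.norm_algebraMap, ← zpow_natCast, v.ord_zpow, hπ1, mul_one] at h
  rw [h]
  refine Finset.sum_congr rfl fun w hw => ?_
  rw [place_inertiaDeg_eq_one hres w, w.ord_restrict (F := F), Place.mem_fiber.mp hw, hπ1]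
  simp

/-- `∑_{w | v} e(w|v) deg w = [F' : F] deg v`. -/
theorem fundamentalIdentity
    (hres : ∀ w : Place K F', Function.Surjective (algebraMap K w.ResidueField)) :
    FundamentalIdentity K F F' :=
  haveI := sumRamificationInertia (F := F) hres
  inferInstance

end final

section along

variable {K F F' : Type*} [Field K] [Field F] [Field F'] [Algebra K F] [Algebra K F']
  [CharZero K] [HasPrincipalDivisors K F']

/-- The fundamental identity along an algebra homomorphism making `F'` finite over `F`. -/
theorem fundamentalIdentityAlong (φ : F →ₐ[K] F') (hφ : φ.toRingHom.IsIntegral)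
    (hfin : FiniteAlong K φ)
    (hres : ∀ w : Place K F', Function.Surjective (algebraMap K w.ResidueField)) :
    FundamentalIdentityAlong K φ hφ := by
  letI := algebraAlong φ
  haveI := isScalarTower_along φ
  haveI : Module.Finite F F' := hfin
  exact fundamentalIdentity (F := F) hres

/-- The norm formula along an algebra homomorphism making `F'` finite over `F`. -/
theorem normFormulaAlong (φ : F →ₐ[K] F') (hfin : FiniteAlong K φ)
    (hres : ∀ w : Place K F', Function.Surjective (algebraMap K w.ResidueField)) :
    NormFormulaAlong K φ hfin := by
  letI := algebraAlong φ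
  haveI := isScalarTower_along φ
  haveI : Module.Finite F F' := hfin
  exact pushforwardNormFormula (F := F) hres

end along

end

end Fermat.Agent.S37.helper8426
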