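/-
S37 (helper9343): MUTUAL INTEGRALITY of `j(q)`, `j(q^p)`, `j(q^(p²))` over each other's
`ℤ`-polynomial rings, in the modular function field `FN M` (`Kbar = ℚ̄`), from the modular
equation `Φ_p(j, j_p) = 0` of S28 and its transpose `Φ_p(j_p, j) = 0`.

This is the coefficient input (`hcoeff`) of the `β_m`-transfer of chart kernels (Track B, node
XFER): a function integral over `A[j]` is integral over `A[j(q^m)]` and conversely.

* `exists_modularEquation` : one monic `Φ ∈ ℤ[X][Y]` of degree `p + 1` with the four relations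
  `Φ(j, j_p) = Φ(j_p, j) = Φ(j_p, j_{p²}) = Φ(j_{p²}, j_p) = 0` in `FN M` (`p² ∣ M`);
* `isIntegral_jBarD_prime_of_mem`, `isIntegral_jBar_of_jBarD_prime_mem` : the prime step, for
  every commutative ring `R` with an algebra structure on `FN M` whose image contains the other
  function (e.g. a `Subring`);
* `isIntegral_jBarD_sq_of_mem`, `isIntegral_jBar_of_jBarD_sq_mem` : the `p²` step;
* `isIntegral_heckeBetaBar_jBar_of_mem`, `isIntegral_jBar_of_heckeBetaBar_mem` : the same for
  `β_m (j) = j(q^m)`, `m = p` or `m = p * p`, at level `N * m`.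
-/
import Fermat.Agent.S37.helper9343_BetaDegree

set_option autoImplicit false

open ModularCurve AlgebraicCurve IntermediateField Polynomial

namespace Fermat.Agent.S37.helper9343

open Fermat.Agent.S24.helper24

noncomputable section

/-! ## Generic: integrality from a monic two-variable integer relation -/

section Generic

variable {S S' : Type*} [CommRing S] [CommRing S']

/-- Evaluation of an integer polynomial at `a`. -/
def evalZ (a : S) : Polynomial ℤ →+* S := Polynomial.eval₂RingHom (Int.castRingHom S) a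

theorem comp_evalZ (g : S →+* S') (a : S) : g.comp (evalZ a) = evalZ (g a) := by
  apply Polynomial.ringHom_ext
  · intro n
    simp [evalZ]
  · simp [evalZ]

/-- Ring homs commute with two-variable evaluation. -/
theorem map_eval_map_evalZ (g : S →+* S') (Φ : Polynomial (Polynomial ℤ)) (a b : S) :
    g ((Φ.map (evalZ a)).eval b) = (Φ.map (evalZ (g a))).eval (g b) := by
  rw [← Polynomial.eval_map_apply, Polynomial.map_map, comp_evalZ]

/-- If `Φ(a, b) = 0` with `Φ ∈ ℤ[X][Y]` monic in `Y` and `a` comes from `R`, then `b` is integral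
over `R`. -/
theorem isIntegral_of_rel {R : Type*} [CommRing R] [Algebra R S] (Φ : Polynomial (Polynomial ℤ))
    (hΦ : Φ.Monic) (a : R) (b : S) (h : (Φ.map (evalZ (algebraMap R S a))).eval b = 0) :
    IsIntegral R b := by
  refine ⟨Φ.map (evalZ a), hΦ.map _, ?_⟩
  rw [Polynomial.eval₂_map, comp_evalZ, ← Polynomial.eval_map]
  exact h

/-- If `Φ(a, b) = 0` with `Φ ∈ ℤ[X][Y]` monic in `Y` and `a` is integral over `R`, then `b` is
integral over `R`. -/
theorem isIntegral_of_rel_of_isIntegral {R : Type*} [CommRing R] [Algebra R S]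
    (Φ : Polynomial (Polynomial ℤ)) (hΦ : Φ.Monic) {a : S} (ha : IsIntegral R a) (b : S)
    (h : (Φ.map (evalZ a)).eval b = 0) : IsIntegral R b := by
  have hb : IsIntegral (integralClosure R S) b :=
    isIntegral_of_rel Φ hΦ (⟨a, ha⟩ : integralClosure R S) b h
  exact isIntegral_trans b hb

end Generic

/-! ## The modular equations in `ℚ̄((q))` and in `FN M` -/

section Modular

variable (p : ℕ) [NeZero p] (hp : p.Prime)

include hp in
/-- The modular equation of level `p`, its transpose and their `V_p`-translates, in `ℚ̄((q))`. -/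
theorem exists_modularEquation_series :
    ∃ Φ : Polynomial (Polynomial ℤ), Φ.Monic ∧ Φ.natDegree = p + 1 ∧
      (Φ.map (evalZ JK)).eval (qExpand Kbar p JK) = 0 ∧
      (Φ.map (evalZ (qExpand Kbar p JK))).eval JK = 0 ∧
      (Φ.map (evalZ (qExpand Kbar p JK))).eval (qExpand Kbar (p * p) JK) = 0 ∧
      (Φ.map (evalZ (qExpand Kbar (p * p) JK))).eval (qExpand Kbar p JK) = 0 := by
  have : Fact p.Prime := ⟨hp⟩
  obtain ⟨Φ, hΦm, hΦdeg, hrel⟩ :=
    Fermat.Agent.S28.helper28.primeRel p (Fermat.Agent.S28.helper508.stmt_FormalPrime p)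
  obtain ⟨hF1, hF2⟩ := hrel Kbar
  rw [← JK_eq_jqModC] at hF1 hF2
  have h1 : (Φ.map (evalZ JK)).eval (qExpand Kbar p JK) = 0 := hF1
  have h2 : (Φ.map (evalZ (qExpand Kbar p JK))).eval JK = 0 := hF2
  refine ⟨Φ, hΦm, hΦdeg, h1, h2, ?_, ?_⟩
  · have h3 := congrArg (qExpand Kbar p) h1
    rwa [map_eval_map_evalZ, map_zero, qExpand_qExpand] at h3
  · have h4 := congrArg (qExpand Kbar p) h2
    rwa [map_eval_map_evalZ, map_zero, qExpand_qExpand] at h4

variable (M : ℕ)

theorem coe_jBar' : ((jBar M : FN M) : LaurentSeries Kbar) = JK := coe_jBar M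

theorem coe_jBarD' (d : ℕ) [NeZero d] (hd : d ∣ M) :
    ((jBarD M d hd : FN M) : LaurentSeries Kbar) = qExpand Kbar d JK :=
  jSeries_eq d

/-- A two-variable integer relation between elements of `FN M` can be checked on
`q`-expansions. -/
theorem eval_eq_zero_of_coe (Φ : Polynomial (Polynomial ℤ)) (a b : FN M)
    (h : (Φ.map (evalZ (a : LaurentSeries Kbar))).eval (b : LaurentSeries Kbar) = 0) :
    (Φ.map (evalZ a)).eval b = 0 := by
  apply Subtype.ext
  have h1 := map_eval_map_evalZ ((modularFunctionFieldBar M).val : FN M →+* LaurentSeries Kbar)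
    Φ a b
  exact h1.trans h

include hp in
/-- **The modular equation of level `p` in `FN M`** (`p ∣ M`): one monic `Φ ∈ ℤ[X][Y]` of degree
`p + 1` with `Φ(j, j_p) = 0 = Φ(j_p, j)`. -/
theorem exists_modularEquation_prime (hM : p ∣ M) :
    ∃ Φ : Polynomial (Polynomial ℤ), Φ.Monic ∧ Φ.natDegree = p + 1 ∧
      (Φ.map (evalZ (jBar M))).eval (jBarD M p hM) = 0 ∧
      (Φ.map (evalZ (jBarD M p hM))).eval (jBar M) = 0 := by
  obtain ⟨Φ, hΦm, hΦdeg, h1, h2, -, -⟩ := exists_modularEquation_series p hp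
  refine ⟨Φ, hΦm, hΦdeg, ?_, ?_⟩
  · apply eval_eq_zero_of_coe
    rw [coe_jBar', coe_jBarD']
    exact h1
  · apply eval_eq_zero_of_coe
    rw [coe_jBar', coe_jBarD']
    exact h2

include hp in
/-- **The modular equations in `FN M`** (`p² ∣ M`): one monic `Φ ∈ ℤ[X][Y]` of degree `p + 1` with
`Φ(j, j_p) = Φ(j_p, j) = Φ(j_p, j_{p²}) = Φ(j_{p²}, j_p) = 0`. -/
theorem exists_modularEquation (hM : p * p ∣ M) :
    ∃ Φ : Polynomial (Polynomial ℤ), Φ.Monic ∧ Φ.natDegree = p + 1 ∧
      (Φ.map (evalZ (jBar M))).eval (jBarD M p ((dvd_mul_left p p).trans hM)) = 0 ∧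
      (Φ.map (evalZ (jBarD M p ((dvd_mul_left p p).trans hM)))).eval (jBar M) = 0 ∧
      (Φ.map (evalZ (jBarD M p ((dvd_mul_left p p).trans hM)))).eval (jBarD M (p * p) hM) = 0 ∧
      (Φ.map (evalZ (jBarD M (p * p) hM))).eval (jBarD M p ((dvd_mul_left p p).trans hM)) = 0 := by
  obtain ⟨Φ, hΦm, hΦdeg, h1, h2, h3, h4⟩ := exists_modularEquation_series p hp
  refine ⟨Φ, hΦm, hΦdeg, ?_, ?_, ?_, ?_⟩
  · apply eval_eq_zero_of_coe
    rw [coe_jBar', coe_jBarD']
    exact h1
  · apply eval_eq_zero_of_coe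
    rw [coe_jBar', coe_jBarD']
    exact h2
  · apply eval_eq_zero_of_coe
    rw [coe_jBarD', coe_jBarD']
    exact h3
  · apply eval_eq_zero_of_coe
    rw [coe_jBarD', coe_jBarD']
    exact h4

/-! ## Mutual integrality -/

variable {R : Type*} [CommRing R] [Algebra R (FN M)]

include hp in
/-- `j(q^p)` is integral over every ring containing `j`. -/
theorem isIntegral_jBarD_prime_of_mem (hM : p ∣ M) {a : R} (ha : algebraMap R (FN M) a = jBar M) :
    IsIntegral R (jBarD M p hM) := by
  obtain ⟨Φ, hΦm, -, h1, -⟩ := exists_modularEquation_prime p hp M hM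
  exact isIntegral_of_rel Φ hΦm a _ (by rw [ha]; exact h1)

include hp in
/-- `j` is integral over every ring containing `j(q^p)`. -/
theorem isIntegral_jBar_of_jBarD_prime_mem (hM : p ∣ M) {a : R}
    (ha : algebraMap R (FN M) a = jBarD M p hM) : IsIntegral R (jBar M) := by
  obtain ⟨Φ, hΦm, -, -, h2⟩ := exists_modularEquation_prime p hp M hM
  exact isIntegral_of_rel Φ hΦm a _ (by rw [ha]; exact h2)

include hp in
/-- `j(q^(p²))` is integral over every ring containing `j`. -/
theorem isIntegral_jBarD_sq_of_mem (hM : p * p ∣ M) {a : R}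
    (ha : algebraMap R (FN M) a = jBar M) : IsIntegral R (jBarD M (p * p) hM) := by
  obtain ⟨Φ, hΦm, -, h1, -, h3, -⟩ := exists_modularEquation p hp M hM
  have hjp : IsIntegral R (jBarD M p ((dvd_mul_left p p).trans hM)) :=
    isIntegral_of_rel Φ hΦm a _ (by rw [ha]; exact h1)
  exact isIntegral_of_rel_of_isIntegral Φ hΦm hjp _ h3

include hp in
/-- `j` is integral over every ring containing `j(q^(p²))`. -/
theorem isIntegral_jBar_of_jBarD_sq_mem (hM : p * p ∣ M) {a : R}
    (ha : algebraMap R (FN M) a = jBarD M (p * p) hM) : IsIntegral R (jBar M) := by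
  obtain ⟨Φ, hΦm, -, -, h2, -, h4⟩ := exists_modularEquation p hp M hM
  have hjp : IsIntegral R (jBarD M p ((dvd_mul_left p p).trans hM)) :=
    isIntegral_of_rel Φ hΦm a _ (by rw [ha]; exact h4)
  exact isIntegral_of_rel_of_isIntegral Φ hΦm hjp _ h2

end Modular

/-! ## The `β`-forms at level `N * m`, `m = p` or `m = p * p` -/

section Beta

variable (N m : ℕ) [NeZero N] [NeZero m] (p : ℕ) (hp : p.Prime)
  {R : Type*} [CommRing R] [Algebra R (FN (N * m))]

include hp in
/-- `β_m(j) = j(q^m)` is integral over every ring containing `j` (`m = p` or `m = p²`). -/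
theorem isIntegral_heckeBetaBar_jBar_of_mem (hm : m = p ∨ m = p * p) {a : R}
    (ha : algebraMap R (FN (N * m)) a = jBar (N * m)) :
    IsIntegral R (heckeBetaBar Kbar N m (jBar N)) := by
  have : NeZero p := ⟨hp.ne_zero⟩
  rw [Fermat.Agent.S37.helper5162.heckeBetaBar_jBar]
  rcases hm with rfl | rfl
  · exact isIntegral_jBarD_prime_of_mem m hp (N * m) (dvd_mul_left m N) ha
  · exact isIntegral_jBarD_sq_of_mem p hp (N * (p * p)) (dvd_mul_left (p * p) N) ha

include hp in
/-- `j` is integral over every ring containing `β_m(j) = j(q^m)` (`m = p` or `m = p²`). -/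
theorem isIntegral_jBar_of_heckeBetaBar_mem (hm : m = p ∨ m = p * p) {a : R}
    (ha : algebraMap R (FN (N * m)) a = heckeBetaBar Kbar N m (jBar N)) :
    IsIntegral R (jBar (N * m)) := by
  have : NeZero p := ⟨hp.ne_zero⟩
  rw [Fermat.Agent.S37.helper5162.heckeBetaBar_jBar] at ha
  rcases hm with rfl | rfl
  · exact isIntegral_jBar_of_jBarD_prime_mem m hp (N * m) (dvd_mul_left m N) ha
  · exact isIntegral_jBar_of_jBarD_sq_mem p hp (N * (p * p)) (dvd_mul_left (p * p) N) ha

/-- Subring form: `β_m(j)` is integral over a subring containing `j`. -/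
theorem isIntegral_heckeBetaBar_jBar_of_mem_subring (hp : p.Prime) (hm : m = p ∨ m = p * p)
    (B : Subring (FN (N * m))) (hB : jBar (N * m) ∈ B) :
    IsIntegral B (heckeBetaBar Kbar N m (jBar N)) :=
  isIntegral_heckeBetaBar_jBar_of_mem N m p hp hm (a := (⟨_, hB⟩ : B)) rfl

/-- Subring form: `j` is integral over a subring containing `β_m(j)`. -/
theorem isIntegral_jBar_of_heckeBetaBar_mem_subring (hp : p.Prime) (hm : m = p ∨ m = p * p)
    (B : Subring (FN (N * m))) (hB : heckeBetaBar Kbar N m (jBar N) ∈ B) :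
    IsIntegral B (jBar (N * m)) :=
  isIntegral_jBar_of_heckeBetaBar_mem N m p hp hm (a := (⟨_, hB⟩ : B)) rfl

end Beta

end

end Fermat.Agent.S37.helper9343
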