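import Mathlib
import Fermat.Prelude.Def_ModularCurve_ReductionModL
import Fermat.Agent.S18.helper8991_GaussInst
import Fermat.Agent.Lib.helper6879_ResidueQbar
import Fermat.Agent.S37.helper8523_KroneckerDiv
import Fermat.Agent.S37.helper5413_LatticeReduction

/-!
# S37-GAUSSGAL (helper6879): Galois action on the Gauss ring and on its reduction

On top of the Gauss ring of `helper8991` (`gaussRing`, `gaussF`, `gaussFRed`):

* (GG1) `coeffAutC N : RingAut k →* SemilinearAut k (modularFunctionFieldFullC k N)` :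
  coefficientwise semilinear automorphisms of the function field in characteristic `ℓ`;
  `frobAutC N ℓ` (for `k` perfect), `coe_coeffAutC_smul`, `coe_frobAutC_smul`;
* (GG2) `coeffMap_mem_gaussRing`, `gaussRho_coeffMap` : a ring endomorphism `s` of `L` with
  `s A ⊆ A` inducing `φ` on the residue field preserves the Gauss ring, and the reduction map is
  `(s, φ)`-equivariant;
* (GG3) `smul_mem_gaussF`, `gaussFRed_smul` : the same for the arithmetic Galois action on
  `F = laurentBaseChange L (modularFunctionFieldFull N)`; decomposition-group forms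
  `smul_mem_gaussF_iff_of_mem_decompositionSubgroup`,
  `gaussFRed_smul_of_mem_decompositionSubgroup` (with `residueHom`);
* (GG4), (GG5) `gaussFRed_smul_of_mem_inertia`, `gaussFRed_smul_of_isFrobeniusAt` : inertia acts
  trivially on reductions, a Frobenius element acts by the coefficientwise Frobenius;
* (GG6) for any residue map `π : A →+* k` killing the maximal ideal and any `(O, redk)` with the
  elements of `gaussF A π N` and `redk = gaussFRed` as Laurent series: `inertia_smul_mem`,
  `inertia_inv_smul_mem`, `inertia_redk_smul`, `frobenius_smul_mem`, `frobenius_inv_smul_mem`,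
  `frobenius_redk_smul` = the hypotheses `hO`, `hO'`, `hred` of `helper8523.map_smul_place`;
* (G) `latticeReduction_inertia`, `latticeReduction_frobenius`, `placeRed_inertia`,
  `placeRed_frobenius` : the place reduction of a lattice reduction (`helper8523`) resp. of a
  `helper5413.LatHyp` bundle is inertia-invariant and intertwines a Frobenius element at `A` with
  `frobAutC N ℓ`.
-/

set_option autoImplicit false
set_option linter.style.haveILetI false

open HahnSeries ModularCurve AlgebraicCurve
open Fermat.Agent.S18.helper8991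
open scoped Pointwise

namespace Fermat.Agent.S37.helper6879

noncomputable section

/-! ### Coefficientwise automorphisms of the function field in characteristic `ℓ` -/

section CharL

variable {k : Type*} [Field k]

/-- `coeffMap φ` is injective for a ring hom `φ` of fields. -/
theorem coeffMap_injective {R S : Type*} [CommRing R] [CommRing S] (φ : R →+* S)
    (hφ : Function.Injective φ) : Function.Injective (coeffMap φ) := by
  intro x y h
  ext n
  apply hφ
  have := congrArg (fun z => z.coeff n) h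
  simpa using this

/-- The function field `k(j(q^d) : d ∣ N)` is stable under coefficientwise ring endomorphisms. -/
theorem coeffMap_mem_fullC (φ : k →+* k) (N : ℕ) {x : LaurentSeries k}
    (hx : x ∈ modularFunctionFieldFullC k N) : coeffMap φ x ∈ modularFunctionFieldFullC k N := by
  change x ∈ IntermediateField.adjoin k (divisorExpansionsC k N) at hx
  induction hx using IntermediateField.adjoin_induction with
  | mem x hx =>
    obtain ⟨d, hd, hdN, rfl⟩ := hx
    haveI := hd
    have h : coeffMap φ (qExpand k d (jqModC k)) = qExpand k d (jqModC k) :=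
      coeffMap_jqNModC φ d
    rw [h]
    exact jqModCd_mem_full k N hdN
  | algebraMap r =>
    rw [coeffMap_algebraMap]
    exact IntermediateField.algebraMap_mem _ _
  | add x y _ _ hx hy =>
    rw [map_add]
    exact add_mem hx hy
  | inv x _ hx =>
    rw [map_inv₀]
    exact inv_mem hx
  | mul x y _ _ hx hy =>
    rw [map_mul]
    exact mul_mem hx hy

/-- The coefficientwise ring automorphism of `modularFunctionFieldFullC k N` attached to a ring
automorphism of `k`. -/
def coeffRingAutC (N : ℕ) (φ : k ≃+* k) :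
    (modularFunctionFieldFullC k N) ≃+* (modularFunctionFieldFullC k N) where
  toFun x := ⟨coeffMap (φ : k →+* k) (x : LaurentSeries k), coeffMap_mem_fullC _ N x.2⟩
  invFun x := ⟨coeffMap (φ.symm : k →+* k) (x : LaurentSeries k), coeffMap_mem_fullC _ N x.2⟩
  left_inv x := Subtype.ext <| by
    show coeffMap (φ.symm : k →+* k) (coeffMap (φ : k →+* k) (x : LaurentSeries k))
      = (x : LaurentSeries k)
    rw [coeffMap_coeffMap,
      coeffMap_congr (g := RingHom.id k) (RingHom.ext fun a => φ.symm_apply_apply a)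
        (x : LaurentSeries k),
      coeffMap_id]
  right_inv x := Subtype.ext <| by
    show coeffMap (φ : k →+* k) (coeffMap (φ.symm : k →+* k) (x : LaurentSeries k))
      = (x : LaurentSeries k)
    rw [coeffMap_coeffMap,
      coeffMap_congr (g := RingHom.id k) (RingHom.ext fun a => φ.apply_symm_apply a)
        (x : LaurentSeries k),
      coeffMap_id]
  map_mul' x y :=
    Subtype.ext (map_mul (coeffMap (φ : k →+* k)) (x : LaurentSeries k) (y : LaurentSeries k))
  map_add' x y :=
    Subtype.ext (map_add (coeffMap (φ : k →+* k)) (x : LaurentSeries k) (y : LaurentSeries k))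

@[simp]
theorem coe_coeffRingAutC_apply (N : ℕ) (φ : k ≃+* k) (x : modularFunctionFieldFullC k N) :
    (coeffRingAutC N φ x : LaurentSeries k) = coeffMap (φ : k →+* k) (x : LaurentSeries k) :=
  rfl

theorem coeffRingAutC_algebraMap (N : ℕ) (φ : k ≃+* k) (a : k) :
    coeffRingAutC N φ (algebraMap k (modularFunctionFieldFullC k N) a)
      = algebraMap k (modularFunctionFieldFullC k N) (φ a) :=
  Subtype.ext (coeffMap_algebraMap (φ : k →+* k) a)

/-- The coefficientwise action of `Aut(k)` on `modularFunctionFieldFullC k N` by semilinear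
automorphisms. -/
def coeffAutC (N : ℕ) : RingAut k →* SemilinearAut k (modularFunctionFieldFullC k N) where
  toFun φ := ⟨(coeffRingAutC N φ, φ), fun a => coeffRingAutC_algebraMap N φ a⟩
  map_one' := by
    refine Subtype.ext (Prod.ext (RingEquiv.ext fun x => Subtype.ext ?_) rfl)
    show coeffMap (((1 : RingAut k) : k ≃+* k) : k →+* k) (x : LaurentSeries k)
      = (x : LaurentSeries k)
    rw [show (((1 : RingAut k) : k ≃+* k) : k →+* k) = RingHom.id k from RingHom.ext fun _ => rfl,
      coeffMap_id]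
  map_mul' σ τ := by
    refine Subtype.ext (Prod.ext (RingEquiv.ext fun x => Subtype.ext ?_) rfl)
    show coeffMap (((σ * τ : RingAut k) : k ≃+* k) : k →+* k) (x : LaurentSeries k)
      = coeffMap ((σ : k ≃+* k) : k →+* k) (coeffMap ((τ : k ≃+* k) : k →+* k)
          (x : LaurentSeries k))
    rw [coeffMap_coeffMap]
    exact coeffMap_congr (RingHom.ext fun _ => rfl) _

@[simp]
theorem toRingAut_coeffAutC (N : ℕ) (φ : RingAut k) :
    SemilinearAut.toRingAut (coeffAutC N φ) = coeffRingAutC N φ :=
  rfl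

@[simp]
theorem baseAut_coeffAutC (N : ℕ) (φ : RingAut k) :
    SemilinearAut.baseAut (coeffAutC N φ) = φ :=
  rfl

theorem coe_coeffAutC_smul (N : ℕ) (φ : RingAut k) (x : modularFunctionFieldFullC k N) :
    ((coeffAutC N φ • x : modularFunctionFieldFullC k N) : LaurentSeries k)
      = coeffMap ((φ : k ≃+* k) : k →+* k) (x : LaurentSeries k) :=
  rfl

/-- The coefficientwise Frobenius of `modularFunctionFieldFullC k N`, `k` perfect of
characteristic `ℓ`, as a semilinear automorphism. -/
def frobAutC (N ℓ : ℕ) [ExpChar k ℓ] [PerfectRing k ℓ] :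
    SemilinearAut k (modularFunctionFieldFullC k N) :=
  coeffAutC N (frobeniusEquiv k ℓ)

theorem coe_frobAutC_smul (N ℓ : ℕ) [ExpChar k ℓ] [PerfectRing k ℓ]
    (x : modularFunctionFieldFullC k N) :
    ((frobAutC (k := k) N ℓ • x : modularFunctionFieldFullC k N) : LaurentSeries k)
      = coeffMap (frobenius k ℓ) (x : LaurentSeries k) := by
  rw [frobAutC, coe_coeffAutC_smul]
  have h : (((frobeniusEquiv k ℓ : RingAut k) : k ≃+* k) : k →+* k) = frobenius k ℓ :=
    RingHom.ext fun a => rfl
  rw [h]

@[simp]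
theorem baseAut_frobAutC (N ℓ : ℕ) [ExpChar k ℓ] [PerfectRing k ℓ] :
    SemilinearAut.baseAut (frobAutC (k := k) N ℓ) = frobeniusEquiv k ℓ :=
  rfl

end CharL

/-! ### Equivariance of the big Gauss ring of `L((q))` -/

section Generic

variable {L : Type*} [Field L] (A : ValuationSubring L) {k : Type*} [Field k] (π : A →+* k)

/-- The endomorphism of `A` induced by a ring endomorphism of `L` stabilising `A`. -/
def restrictHom (s : L →+* L) (hs : ∀ a ∈ A, s a ∈ A) : A →+* A where
  toFun a := ⟨s a, hs a a.2⟩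
  map_one' := Subtype.ext (map_one s)
  map_mul' a b := Subtype.ext (map_mul s (a : L) (b : L))
  map_zero' := Subtype.ext (map_zero s)
  map_add' a b := Subtype.ext (map_add s (a : L) (b : L))

@[simp] theorem coe_restrictHom (s : L →+* L) (hs : ∀ a ∈ A, s a ∈ A) (a : A) :
    ((restrictHom A s hs a : A) : L) = s a := rfl

theorem inc_coeffMap_restrictHom (s : L →+* L) (hs : ∀ a ∈ A, s a ∈ A) (X : LaurentSeries A) :
    inc A (coeffMap (restrictHom A s hs) X) = coeffMap s (inc A X) := by
  rw [inc, coeffMap_coeffMap, coeffMap_coeffMap]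
  exact coeffMap_congr (RingHom.ext fun _ => rfl) X

theorem red_coeffMap_restrictHom (s : L →+* L) (hs : ∀ a ∈ A, s a ∈ A) (φ : k →+* k)
    (hφ : ∀ a : A, π (restrictHom A s hs a) = φ (π a)) (X : LaurentSeries A) :
    red A π (coeffMap (restrictHom A s hs) X) = coeffMap φ (red A π X) := by
  rw [red, coeffMap_coeffMap, coeffMap_coeffMap]
  exact coeffMap_congr (RingHom.ext fun a => hφ a) X

/-- (GG2a) A ring endomorphism `s` of `L` with `s A ⊆ A` which induces a ring endomorphism of the
residue field preserves the Gauss ring. -/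
theorem coeffMap_mem_gaussRing (s : L →+* L) (hs : ∀ a ∈ A, s a ∈ A) (φ : k →+* k)
    (hφ : ∀ a : A, π (restrictHom A s hs a) = φ (π a)) {f : LaurentSeries L}
    (hf : f ∈ gaussRing A π) : coeffMap s f ∈ gaussRing A π := by
  obtain ⟨X, Y, hY, h⟩ := hf
  refine ⟨coeffMap (restrictHom A s hs) X, coeffMap (restrictHom A s hs) Y, ?_, ?_⟩
  · rw [red_coeffMap_restrictHom A π s hs φ hφ]
    exact fun h0 => hY (coeffMap_injective φ φ.injective (by rw [h0, map_zero]))
  · rw [inc_coeffMap_restrictHom, inc_coeffMap_restrictHom, ← map_mul, h]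

/-- (GG2b) The reduction map of the Gauss ring is `(s, φ)`-equivariant. -/
theorem gaussRho_coeffMap (s : L →+* L) (hs : ∀ a ∈ A, s a ∈ A) (φ : k →+* k)
    (hφ : ∀ a : A, π (restrictHom A s hs a) = φ (π a)) (f : ↥(gaussRing A π)) :
    gaussRho A π ⟨coeffMap s (f : LaurentSeries L),
        coeffMap_mem_gaussRing A π s hs φ hφ f.2⟩ = coeffMap φ (gaussRho A π f) := by
  obtain ⟨X, Y, hY, h⟩ := f.2
  have hY' : red A π (coeffMap (restrictHom A s hs) Y) ≠ 0 := by
    rw [red_coeffMap_restrictHom A π s hs φ hφ]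
    exact fun h0 => hY (coeffMap_injective φ φ.injective (by rw [h0, map_zero]))
  have h' : coeffMap s (f : LaurentSeries L) * inc A (coeffMap (restrictHom A s hs) Y)
      = inc A (coeffMap (restrictHom A s hs) X) := by
    rw [inc_coeffMap_restrictHom, inc_coeffMap_restrictHom, ← map_mul, h]
  have e1 := gaussRho_eq A π ⟨coeffMap s (f : LaurentSeries L),
    coeffMap_mem_gaussRing A π s hs φ hφ f.2⟩ hY' h'
  have e2 := gaussRho_eq A π f hY h
  rw [e1, e2, red_coeffMap_restrictHom A π s hs φ hφ, red_coeffMap_restrictHom A π s hs φ hφ,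
    map_div₀]

end Generic

/-! ### The arithmetic Galois action on the Gauss ring of the modular function field -/

section Galois

variable {L : Type*} [Field L] [Algebra ℚ L] (A : ValuationSubring L) {k : Type*} [Field k]
  (π : A →+* k) (N : ℕ)

/-- (GG3a) An automorphism `σ` of `L` with `σ A ⊆ A` inducing `φ` on the residue field maps the
Gauss valuation ring of `F = laurentBaseChange L (modularFunctionFieldFull N)` into itself. -/
theorem smul_mem_gaussF (σ : L ≃ₐ[ℚ] L) (hσ : ∀ a ∈ A, σ a ∈ A) (φ : k →+* k)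
    (hφ : ∀ a : A, π ⟨σ a, hσ a a.2⟩ = φ (π a))
    {f : ↥(laurentBaseChange L (modularFunctionFieldFull N))} (hf : f ∈ gaussF A π N) :
    arithmeticGalois (modularFunctionFieldFull N) σ • f ∈ gaussF A π N :=
  coeffMap_mem_gaussRing A π (σ : L →+* L) hσ φ hφ hf

/-- (GG3b) ... and the reduction map is `(σ, φ)`-equivariant:
`red (σ • f) = φ (red f)` coefficientwise. -/
theorem gaussFRed_smul (σ : L ≃ₐ[ℚ] L) (hσ : ∀ a ∈ A, σ a ∈ A) (φ : k →+* k)
    (hφ : ∀ a : A, π ⟨σ a, hσ a a.2⟩ = φ (π a))
    {f : ↥(laurentBaseChange L (modularFunctionFieldFull N))} (hf : f ∈ gaussF A π N)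
    (hf' : arithmeticGalois (modularFunctionFieldFull N) σ • f ∈ gaussF A π N) :
    gaussFRed A π N ⟨arithmeticGalois (modularFunctionFieldFull N) σ • f, hf'⟩
      = coeffMap φ (gaussFRed A π N ⟨f, hf⟩) :=
  gaussRho_coeffMap A π (σ : L →+* L) hσ φ hφ ⟨(f : LaurentSeries L), hf⟩

/-- The ring endomorphism of the residue field of `A` induced by an element of the decomposition
group. -/
def residueHom {σ : L ≃ₐ[ℚ] L} (hσ : σ ∈ A.decompositionSubgroup ℚ) :
    IsLocalRing.ResidueField A →+* IsLocalRing.ResidueField A :=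
  MulSemiringAction.toRingHom (A.decompositionSubgroup ℚ) (IsLocalRing.ResidueField A) ⟨σ, hσ⟩

theorem residue_map_eq_residueHom {σ : L ≃ₐ[ℚ] L} (hσ : σ ∈ A.decompositionSubgroup ℚ) (a : A) :
    IsLocalRing.residue A ⟨σ a, Fermat.Agent.Lib.helper6879.map_mem_of_mem_decompositionSubgroup
      hσ a.2⟩ = residueHom A hσ (IsLocalRing.residue A a) :=
  rfl

/-- (GG3) The decomposition group of `A` preserves the Gauss valuation ring. -/
theorem smul_mem_gaussF_of_mem_decompositionSubgroup {σ : L ≃ₐ[ℚ] L}
    (hσ : σ ∈ A.decompositionSubgroup ℚ)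
    {f : ↥(laurentBaseChange L (modularFunctionFieldFull N))}
    (hf : f ∈ gaussF A (IsLocalRing.residue A) N) :
    arithmeticGalois (modularFunctionFieldFull N) σ • f ∈ gaussF A (IsLocalRing.residue A) N :=
  smul_mem_gaussF A (IsLocalRing.residue A) N σ
    (fun _ ha => Fermat.Agent.Lib.helper6879.map_mem_of_mem_decompositionSubgroup hσ ha)
    (residueHom A hσ) (residue_map_eq_residueHom A hσ) hf

theorem smul_mem_gaussF_iff_of_mem_decompositionSubgroup {σ : L ≃ₐ[ℚ] L}
    (hσ : σ ∈ A.decompositionSubgroup ℚ)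
    (f : ↥(laurentBaseChange L (modularFunctionFieldFull N))) :
    arithmeticGalois (modularFunctionFieldFull N) σ • f ∈ gaussF A (IsLocalRing.residue A) N ↔
      f ∈ gaussF A (IsLocalRing.residue A) N := by
  refine ⟨fun h => ?_, smul_mem_gaussF_of_mem_decompositionSubgroup A N hσ⟩
  have h1 := smul_mem_gaussF_of_mem_decompositionSubgroup A N
    ((A.decompositionSubgroup ℚ).inv_mem hσ) h
  rwa [map_inv, inv_smul_smul] at h1

/-- (GG3) The reduction map is equivariant for the decomposition group. -/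
theorem gaussFRed_smul_of_mem_decompositionSubgroup {σ : L ≃ₐ[ℚ] L}
    (hσ : σ ∈ A.decompositionSubgroup ℚ)
    {f : ↥(laurentBaseChange L (modularFunctionFieldFull N))}
    (hf : f ∈ gaussF A (IsLocalRing.residue A) N)
    (hf' : arithmeticGalois (modularFunctionFieldFull N) σ • f ∈
      gaussF A (IsLocalRing.residue A) N) :
    gaussFRed A (IsLocalRing.residue A) N ⟨arithmeticGalois (modularFunctionFieldFull N) σ • f, hf'⟩
      = coeffMap (residueHom A hσ) (gaussFRed A (IsLocalRing.residue A) N ⟨f, hf⟩) :=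
  gaussFRed_smul A (IsLocalRing.residue A) N σ
    (fun _ ha => Fermat.Agent.Lib.helper6879.map_mem_of_mem_decompositionSubgroup hσ ha)
    (residueHom A hσ) (residue_map_eq_residueHom A hσ) hf hf'

/-- (GG4) Inertia acts trivially on reductions. -/
theorem gaussFRed_smul_of_mem_inertia {τ : L ≃ₐ[ℚ] L} (hτ : τ ∈ A.inertiaSubgroupIn ℚ)
    {f : ↥(laurentBaseChange L (modularFunctionFieldFull N))}
    (hf : f ∈ gaussF A (IsLocalRing.residue A) N)
    (hf' : arithmeticGalois (modularFunctionFieldFull N) τ • f ∈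
      gaussF A (IsLocalRing.residue A) N) :
    gaussFRed A (IsLocalRing.residue A) N ⟨arithmeticGalois (modularFunctionFieldFull N) τ • f, hf'⟩
      = gaussFRed A (IsLocalRing.residue A) N ⟨f, hf⟩ := by
  have hτ' := Fermat.Agent.Lib.helper6879.mem_decompositionSubgroup_of_mem_inertiaSubgroupIn hτ
  have h := gaussFRed_smul A (IsLocalRing.residue A) N τ
    (fun _ ha => Fermat.Agent.Lib.helper6879.map_mem_of_mem_decompositionSubgroup hτ' ha)
    (RingHom.id _) (fun a => Fermat.Agent.Lib.helper6879.inertia_residue hτ a) hf hf'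
  rw [h, coeffMap_id]

/-- (GG5) A Frobenius element acts on reductions by the coefficientwise Frobenius. -/
theorem gaussFRed_smul_of_isFrobeniusAt {σ : L ≃ₐ[ℚ] L} {ℓ : ℕ} (hσ : A.IsFrobeniusAt σ ℓ)
    [ExpChar (IsLocalRing.ResidueField A) ℓ]
    {f : ↥(laurentBaseChange L (modularFunctionFieldFull N))}
    (hf : f ∈ gaussF A (IsLocalRing.residue A) N)
    (hf' : arithmeticGalois (modularFunctionFieldFull N) σ • f ∈
      gaussF A (IsLocalRing.residue A) N) :
    gaussFRed A (IsLocalRing.residue A) N ⟨arithmeticGalois (modularFunctionFieldFull N) σ • f, hf'⟩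
      = coeffMap (frobenius (IsLocalRing.ResidueField A) ℓ)
          (gaussFRed A (IsLocalRing.residue A) N ⟨f, hf⟩) :=
  gaussFRed_smul A (IsLocalRing.residue A) N σ
    (fun _ ha => Fermat.Agent.Lib.helper6879.IsFrobeniusAt_map_mem hσ ha)
    (frobenius (IsLocalRing.ResidueField A) ℓ)
    (fun a => Fermat.Agent.Lib.helper6879.IsFrobeniusAt_residue hσ a) hf hf'

end Galois

/-! ### Inertia and Frobenius for an arbitrary residue map `π : A →+* k`

`π` is any ring homomorphism from `A` to a field which kills the maximal ideal (for instance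
`IsLocalRing.residue A`, with `hπ0 := fun a ha => (IsLocalRing.residue_eq_zero_iff a).mpr ha`). -/

section ResidueMap

variable {L : Type*} [Field L] [Algebra ℚ L] (A : ValuationSubring L) {k : Type*} [Field k]
  (π : A →+* k) (hπ0 : ∀ a : A, a ∈ IsLocalRing.maximalIdeal A → π a = 0)

omit [Algebra ℚ L] in
include hπ0 in
theorem map_eq_of_residue_eq {a b : A} (h : IsLocalRing.residue A a = IsLocalRing.residue A b) :
    π a = π b := by
  rw [← sub_eq_zero, ← map_sub]
  apply hπ0
  rw [← IsLocalRing.residue_eq_zero_iff, map_sub, h, sub_self]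

include hπ0 in
/-- Inertia fixes `π`. -/
theorem map_inertia {τ : L ≃ₐ[ℚ] L} (hτ : τ ∈ A.inertiaSubgroupIn ℚ) (a : A) :
    π ⟨τ a, Fermat.Agent.Lib.helper6879.map_mem_of_mem_decompositionSubgroup
      (Fermat.Agent.Lib.helper6879.mem_decompositionSubgroup_of_mem_inertiaSubgroupIn hτ) a.2⟩
      = π a :=
  map_eq_of_residue_eq A π hπ0 (Fermat.Agent.Lib.helper6879.inertia_residue hτ a)

include hπ0 in
/-- A Frobenius element acts through `π` as the `ℓ`-th power map. -/
theorem map_frobenius {σ : L ≃ₐ[ℚ] L} {ℓ : ℕ} (hσ : A.IsFrobeniusAt σ ℓ) (a : A) :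
    π ⟨σ a, Fermat.Agent.Lib.helper6879.IsFrobeniusAt_map_mem hσ a.2⟩ = π a ^ ℓ := by
  rw [← map_pow]
  apply map_eq_of_residue_eq A π hπ0
  rw [map_pow]
  exact Fermat.Agent.Lib.helper6879.IsFrobeniusAt_residue hσ a

include hπ0 in
/-- The inverse of a Frobenius element acts through `π` as the inverse of the `ℓ`-th power
map. -/
theorem map_frobenius_inv {σ : L ≃ₐ[ℚ] L} {ℓ : ℕ} (hσ : A.IsFrobeniusAt σ ℓ)
    [ExpChar k ℓ] [PerfectRing k ℓ] (a : A) :
    π ⟨σ⁻¹ a, Fermat.Agent.Lib.helper6879.map_mem_of_mem_decompositionSubgroup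
      ((A.decompositionSubgroup ℚ).inv_mem hσ.mem_decompositionSubgroup) a.2⟩
      = (frobeniusEquiv k ℓ).symm (π a) := by
  rw [RingEquiv.eq_symm_apply, frobeniusEquiv_apply, frobenius_def]
  have h := map_frobenius A π hπ0 hσ ⟨σ⁻¹ a,
    Fermat.Agent.Lib.helper6879.map_mem_of_mem_decompositionSubgroup
      ((A.decompositionSubgroup ℚ).inv_mem hσ.mem_decompositionSubgroup) a.2⟩
  rw [← h]
  congr 1
  exact Subtype.ext (AlgEquiv.apply_symm_apply σ (a : L))

end ResidueMap

/-! ### Consumer shapes: the hypotheses `hO`, `hO'`, `hred` of `helper8523.map_smul_place`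

`O` is any valuation subring with the same elements as `gaussF A π N` and `redk` any
`Fk`-valued reduction map whose underlying Laurent series is `gaussFRed` (e.g.
`π = IsLocalRing.residue A`, `O = helper8991.gaussF A π N`, `redk = helper1446.gaussRedFk A N hN`,
with `hO := fun _ => Iff.rfl` and `hredk := fun _ _ => rfl`). -/

section Consumer

variable {L : Type*} [Field L] [Algebra ℚ L] (A : ValuationSubring L) {k : Type*} [Field k]
  (π : A →+* k) (hπ0 : ∀ a : A, a ∈ IsLocalRing.maximalIdeal A → π a = 0) (N : ℕ)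
  (O : ValuationSubring ↥(laurentBaseChange L (modularFunctionFieldFull N)))
  (hO : ∀ f, f ∈ O ↔ f ∈ gaussF A π N)
  (redk : ↥O →+* ↥(modularFunctionFieldFullC k N))
  (hredk : ∀ (f : ↥(laurentBaseChange L (modularFunctionFieldFull N))) (hf : f ∈ O),
    ((redk ⟨f, hf⟩ : ↥(modularFunctionFieldFullC k N)) : LaurentSeries k)
      = gaussFRed A π N ⟨f, (hO f).mp hf⟩)

include hπ0 hO in
/-- (GG6, `hO`, inertia) -/
theorem inertia_smul_mem {τ : L ≃ₐ[ℚ] L} (hτ : τ ∈ A.inertiaSubgroupIn ℚ) :
    ∀ f : ↥(laurentBaseChange L (modularFunctionFieldFull N)), f ∈ O →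
      arithmeticGalois (modularFunctionFieldFull N) τ • f ∈ O := fun f hf =>
  (hO _).mpr (smul_mem_gaussF A π N τ
    (fun _ ha => Fermat.Agent.Lib.helper6879.map_mem_of_mem_decompositionSubgroup
      (Fermat.Agent.Lib.helper6879.mem_decompositionSubgroup_of_mem_inertiaSubgroupIn hτ) ha)
    (RingHom.id k) (fun a => map_inertia A π hπ0 hτ a) ((hO f).mp hf))

include hπ0 hO in
/-- (GG6, `hO'`, inertia) -/
theorem inertia_inv_smul_mem {τ : L ≃ₐ[ℚ] L} (hτ : τ ∈ A.inertiaSubgroupIn ℚ) :
    ∀ f : ↥(laurentBaseChange L (modularFunctionFieldFull N)), f ∈ O →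
      (arithmeticGalois (modularFunctionFieldFull N) τ)⁻¹ • f ∈ O := fun f hf => by
  rw [← map_inv]
  exact inertia_smul_mem A π hπ0 N O hO ((A.inertiaSubgroupIn ℚ).inv_mem hτ) f hf

include hπ0 hredk in
/-- (GG6, `hred`, inertia) `redk (τ • f) = 1 • redk f` for `τ` in the inertia group. -/
theorem inertia_redk_smul {τ : L ≃ₐ[ℚ] L} (hτ : τ ∈ A.inertiaSubgroupIn ℚ)
    (f : ↥(laurentBaseChange L (modularFunctionFieldFull N))) (hf : f ∈ O)
    (hf' : arithmeticGalois (modularFunctionFieldFull N) τ • f ∈ O) :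
    redk ⟨arithmeticGalois (modularFunctionFieldFull N) τ • f, hf'⟩
      = (1 : SemilinearAut k ↥(modularFunctionFieldFullC k N)) • redk ⟨f, hf⟩ := by
  rw [one_smul]
  apply Subtype.ext
  rw [hredk _ hf', hredk f hf, gaussFRed_smul A π N τ
    (fun _ ha => Fermat.Agent.Lib.helper6879.map_mem_of_mem_decompositionSubgroup
      (Fermat.Agent.Lib.helper6879.mem_decompositionSubgroup_of_mem_inertiaSubgroupIn hτ) ha)
    (RingHom.id k) (fun a => map_inertia A π hπ0 hτ a) ((hO f).mp hf), coeffMap_id]

include hπ0 hO in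
/-- (GG6, `hO`, Frobenius) -/
theorem frobenius_smul_mem {σ : L ≃ₐ[ℚ] L} {ℓ : ℕ} (hσ : A.IsFrobeniusAt σ ℓ) [ExpChar k ℓ] :
    ∀ f : ↥(laurentBaseChange L (modularFunctionFieldFull N)), f ∈ O →
      arithmeticGalois (modularFunctionFieldFull N) σ • f ∈ O := fun f hf =>
  (hO _).mpr (smul_mem_gaussF A π N σ
    (fun _ ha => Fermat.Agent.Lib.helper6879.IsFrobeniusAt_map_mem hσ ha)
    (frobenius k ℓ) (fun a => map_frobenius A π hπ0 hσ a) ((hO f).mp hf))

include hπ0 hO in
/-- (GG6, `hO'`, Frobenius) -/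
theorem frobenius_inv_smul_mem {σ : L ≃ₐ[ℚ] L} {ℓ : ℕ} (hσ : A.IsFrobeniusAt σ ℓ)
    [ExpChar k ℓ] [PerfectRing k ℓ] :
    ∀ f : ↥(laurentBaseChange L (modularFunctionFieldFull N)), f ∈ O →
      (arithmeticGalois (modularFunctionFieldFull N) σ)⁻¹ • f ∈ O := fun f hf => by
  rw [← map_inv]
  exact (hO _).mpr (smul_mem_gaussF A π N σ⁻¹
    (fun _ ha => Fermat.Agent.Lib.helper6879.map_mem_of_mem_decompositionSubgroup
      ((A.decompositionSubgroup ℚ).inv_mem hσ.mem_decompositionSubgroup) ha)
    ((frobeniusEquiv k ℓ).symm : k →+* k) (fun a => map_frobenius_inv A π hπ0 hσ a)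
    ((hO f).mp hf))

include hπ0 hredk in
/-- (GG6, `hred`, Frobenius) `redk (σ • f) = Frob • redk f` for a Frobenius element `σ`. -/
theorem frobenius_redk_smul {σ : L ≃ₐ[ℚ] L} {ℓ : ℕ} (hσ : A.IsFrobeniusAt σ ℓ)
    [ExpChar k ℓ] [PerfectRing k ℓ]
    (f : ↥(laurentBaseChange L (modularFunctionFieldFull N))) (hf : f ∈ O)
    (hf' : arithmeticGalois (modularFunctionFieldFull N) σ • f ∈ O) :
    redk ⟨arithmeticGalois (modularFunctionFieldFull N) σ • f, hf'⟩
      = frobAutC (k := k) N ℓ • redk ⟨f, hf⟩ := by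
  apply Subtype.ext
  rw [coe_frobAutC_smul, hredk _ hf', hredk f hf]
  exact gaussFRed_smul A π N σ
    (fun _ ha => Fermat.Agent.Lib.helper6879.IsFrobeniusAt_map_mem hσ ha)
    (frobenius k ℓ) (fun a => map_frobenius A π hπ0 hσ a) ((hO f).mp hf) _

end Consumer

/-! ### Node (G) of the lattice track: the place reduction is inertia-invariant and
Frobenius-equivariant -/

section Places

variable {L : Type*} [Field L] [Algebra ℚ L] (A : ValuationSubring L) {k : Type*} [Field k]
  (π : A →+* k) (hπ0 : ∀ a : A, a ∈ IsLocalRing.maximalIdeal A → π a = 0) (N : ℕ)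
  (O : ValuationSubring ↥(laurentBaseChange L (modularFunctionFieldFull N)))
  (hO : ∀ f, f ∈ O ↔ f ∈ gaussF A π N)
  (redk : ↥O →+* ↥(modularFunctionFieldFullC k N))
  (hredk : ∀ (f : ↥(laurentBaseChange L (modularFunctionFieldFull N))) (hf : f ∈ O),
    ((redk ⟨f, hf⟩ : ↥(modularFunctionFieldFullC k N)) : LaurentSeries k)
      = gaussFRed A π N ⟨f, (hO f).mp hf⟩)

include hπ0 hO hredk in
/-- (G, inertia) A lattice reduction `ρ` for `(O, redk)` is invariant under inertia. -/
theorem latticeReduction_inertia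
    {ρ : Place L ↥(laurentBaseChange L (modularFunctionFieldFull N)) →
      Place k ↥(modularFunctionFieldFullC k N)} {c : ℤ}
    (hρ : Fermat.Agent.S37.helper8523.IsLatticeReduction O.toSubring redk ρ c)
    (hdeg : ∀ P : Place L ↥(laurentBaseChange L (modularFunctionFieldFull N)), P.deg = 1)
    {τ : L ≃ₐ[ℚ] L} (hτ : τ ∈ A.inertiaSubgroupIn ℚ)
    (P : Place L ↥(laurentBaseChange L (modularFunctionFieldFull N))) :
    ρ (arithmeticGalois (modularFunctionFieldFull N) τ • P) = ρ P := by
  have h := Fermat.Agent.S37.helper8523.map_smul_place hρ hdeg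
    (arithmeticGalois (modularFunctionFieldFull N) τ) 1
    (inertia_smul_mem A π hπ0 N O hO hτ) (inertia_inv_smul_mem A π hπ0 N O hO hτ)
    (fun f hf => inertia_redk_smul A π hπ0 N O hO redk hredk hτ f hf _) P
  rwa [one_smul] at h

include hπ0 hO hredk in
/-- (G, Frobenius) A lattice reduction `ρ` for `(O, redk)` intertwines a Frobenius element at `A`
with the coefficientwise Frobenius of the function field in characteristic `ℓ`. -/
theorem latticeReduction_frobenius
    {ρ : Place L ↥(laurentBaseChange L (modularFunctionFieldFull N)) →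
      Place k ↥(modularFunctionFieldFullC k N)} {c : ℤ}
    (hρ : Fermat.Agent.S37.helper8523.IsLatticeReduction O.toSubring redk ρ c)
    (hdeg : ∀ P : Place L ↥(laurentBaseChange L (modularFunctionFieldFull N)), P.deg = 1)
    {σ : L ≃ₐ[ℚ] L} {ℓ : ℕ} (hσ : A.IsFrobeniusAt σ ℓ) [ExpChar k ℓ] [PerfectRing k ℓ]
    (P : Place L ↥(laurentBaseChange L (modularFunctionFieldFull N))) :
    ρ (arithmeticGalois (modularFunctionFieldFull N) σ • P) = frobAutC (k := k) N ℓ • ρ P :=
  Fermat.Agent.S37.helper8523.map_smul_place hρ hdeg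
    (arithmeticGalois (modularFunctionFieldFull N) σ) (frobAutC (k := k) N ℓ)
    (frobenius_smul_mem A π hπ0 N O hO hσ) (frobenius_inv_smul_mem A π hπ0 N O hO hσ)
    (fun f hf => frobenius_redk_smul A π hπ0 N O hO redk hredk hσ f hf _) P

/-- The place reduction of a `helper5413.LatHyp` bundle is a lattice reduction in the sense of
`helper8523`. -/
theorem isLatticeReduction_of_latHyp {L F k Fk : Type*} [Field L] [Field F] [Algebra L F]
    [Field k] [Field Fk] [Algebra k Fk] {O : ValuationSubring F} {red : ↥O →+* Fk} {g c : ℤ}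
    {E₀ : Divisor L F} {E₀k : Divisor k Fk}
    (H : Fermat.Agent.S37.helper5413.LatHyp O red g c E₀ E₀k) :
    Fermat.Agent.S37.helper8523.IsLatticeReduction O.toSubring red H.placeRed
      (Fermat.Agent.S37.helper5413.LatHyp.thr g c) :=
  fun _ _ hc Q => H.isLatticeReduction hc Q

include hπ0 hO hredk in
/-- (G, inertia) for the place reduction of a `helper5413.LatHyp` bundle. -/
theorem placeRed_inertia {g c : ℤ}
    {E₀ : Divisor L ↥(laurentBaseChange L (modularFunctionFieldFull N))}
    {E₀k : Divisor k ↥(modularFunctionFieldFullC k N)}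
    (H : Fermat.Agent.S37.helper5413.LatHyp O redk g c E₀ E₀k)
    {τ : L ≃ₐ[ℚ] L} (hτ : τ ∈ A.inertiaSubgroupIn ℚ)
    (P : Place L ↥(laurentBaseChange L (modularFunctionFieldFull N))) :
    H.placeRed (arithmeticGalois (modularFunctionFieldFull N) τ • P) = H.placeRed P :=
  latticeReduction_inertia A π hπ0 N O hO redk hredk (isLatticeReduction_of_latHyp H) H.degL hτ P

include hπ0 hO hredk in
/-- (G, Frobenius) for the place reduction of a `helper5413.LatHyp` bundle. -/
theorem placeRed_frobenius {g c : ℤ}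
    {E₀ : Divisor L ↥(laurentBaseChange L (modularFunctionFieldFull N))}
    {E₀k : Divisor k ↥(modularFunctionFieldFullC k N)}
    (H : Fermat.Agent.S37.helper5413.LatHyp O redk g c E₀ E₀k)
    {σ : L ≃ₐ[ℚ] L} {ℓ : ℕ} (hσ : A.IsFrobeniusAt σ ℓ) [ExpChar k ℓ] [PerfectRing k ℓ]
    (P : Place L ↥(laurentBaseChange L (modularFunctionFieldFull N))) :
    H.placeRed (arithmeticGalois (modularFunctionFieldFull N) σ • P)
      = frobAutC (k := k) N ℓ • H.placeRed P :=
  latticeReduction_frobenius A π hπ0 N O hO redk hredk (isLatticeReduction_of_latHyp H) H.degL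
    hσ P

end Places

end

end Fermat.Agent.S37.helper6879
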