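import Mathlib

/-!
# S37/S18-DNREG: a normal special fibre gives a regular pair at EVERY closed point (helper1162)

Mathlib only.  `T` is a chart ring of a normal model (the integral closure of `O[x]` in a function
field, or a localisation of it), `π : T` the uniformiser of the base.  The trace-duality normality
lemma "DN" of S18 track B (and every other route to the normality of the reduced chart rings)
gives: `T ⧸ (π)` is a one-dimensional noetherian integrally closed domain, i.e. a Dedekind domain.
This file turns that single global statement into the LOCAL input of the landed producers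
(`helper187.purity_regular_pair` output shape = input of LOCSECT / LOCFAC / LOCUNIT / REGLOC):

  for every maximal ideal `z ∋ π` of `T` there is `t ∈ z` with
  `maximalIdeal T_z = (π, t)` and `π` prime in `T_z`,

uniformly at all closed points of the special fibre (cusps and branch points included): no purity,
no tameness, no case distinction.

Main statements (namespace `Fermat.Agent.S37.helper1162`):

* `exists_local_generator` : in a Dedekind domain, a maximal ideal is locally principal,
  elementwise form.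
* `exists_elementwise_pair` : the elementwise form (REG) for `T`:
  `∃ t ∈ z, ∀ x ∈ z, ∃ s ∉ z, ∃ a b, s * x = a * t + b * π`.
* `exists_mul_mem_span_pair` : the same in the shape `∃ u, ∀ b ∈ z, ∃ w ∉ z, w * b ∈ span {π, u}`.
* `maximalIdeal_eq_span_pair_of_elementwise`, `prime_algebraMap_of_isPrime_span` : passage to any
  localisation `Tz` of `T` at `z`.
* `exists_regular_pair`, `exists_regular_pair_atPrime` : the regular pair.
* `isDedekindDomain_of_finite_of_isIntegrallyClosed` : a domain which is integrally closed and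
  finite over a principal ideal domain is a Dedekind domain (supplier of the hypothesis).
* `isIntegrallyClosed_quotient_of_valuationSubring`, `exists_regular_pair_of_valuationSubring` :
  the same with the normality of the reduction stated inside the residue field of the Gauss
  valuation ring (the form in which the Gauss layer and DN produce it).
-/

set_option autoImplicit false

namespace Fermat.Agent.S37.helper1162

open IsLocalRing

section Dedekind

variable {Q : Type*} [CommRing Q] [IsDedekindDomain Q]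

/-- In a Dedekind domain every maximal ideal `P` is locally principal, in elementwise form:
there is `t ∈ P` such that every `x ∈ P` satisfies `s * x = a * t` with `s ∉ P`; moreover
`t ≠ 0` unless `P = ⊥`. -/
theorem exists_local_generator' (P : Ideal Q) [hP : P.IsMaximal] :
    ∃ t ∈ P, (P ≠ ⊥ → t ≠ 0) ∧ ∀ x ∈ P, ∃ s, s ∉ P ∧ ∃ a, s * x = a * t := by
  classical
  by_cases hbot : P = ⊥
  · refine ⟨0, P.zero_mem, fun h => absurd hbot h, fun x hx => ⟨1, ?_, 0, ?_⟩⟩
    · exact fun h => hP.ne_top ((Ideal.eq_top_iff_one P).mpr h)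
    · rw [hbot] at hx
      rw [Ideal.mem_bot.mp hx]; simp
  · have hlt : P ^ 2 < P := by
      have := Ideal.pow_succ_lt_pow (P := P) hbot 1
      simpa using this
    obtain ⟨t, htP, htP2⟩ := SetLike.exists_of_lt hlt
    refine ⟨t, htP, fun _ h0 => htP2 (h0 ▸ (P ^ 2).zero_mem), fun x hx => ?_⟩
    have hdvd : P ∣ Ideal.span {t} := by
      rw [Ideal.dvd_iff_le, Ideal.span_singleton_le_iff_mem]; exact htP
    obtain ⟨I, hI⟩ := hdvd
    have hIP : ¬ I ≤ P := by
      intro hle
      apply htP2
      have : Ideal.span {t} ≤ P ^ 2 := by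
        rw [hI, sq]; exact Ideal.mul_mono_right hle
      exact this (Ideal.subset_span rfl)
    obtain ⟨s, hsI, hsP⟩ := SetLike.not_le_iff_exists.mp hIP
    refine ⟨s, hsP, ?_⟩
    have hmem : s * x ∈ Ideal.span {t} := by
      rw [hI, mul_comm P I]; exact Ideal.mul_mem_mul hsI hx
    obtain ⟨a, ha⟩ := Ideal.mem_span_singleton'.mp hmem
    exact ⟨a, ha.symm⟩

/-- In a Dedekind domain every maximal ideal `P` is locally principal, in elementwise form:
there is `t ∈ P` such that every `x ∈ P` satisfies `s * x = a * t` with `s ∉ P`. -/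
theorem exists_local_generator (P : Ideal Q) [hP : P.IsMaximal] :
    ∃ t ∈ P, ∀ x ∈ P, ∃ s, s ∉ P ∧ ∃ a, s * x = a * t := by
  obtain ⟨t, ht, -, h⟩ := exists_local_generator' P
  exact ⟨t, ht, h⟩

end Dedekind

section Lift

variable {T : Type*} [CommRing T]

/-- **(REG), elementwise form, with the non-degeneracy clause.**  If `T ⧸ (π)` is a Dedekind
domain, then for every maximal ideal `z ∋ π` of `T` there is `t ∈ z` such that every `x ∈ z`
satisfies `s * x = a * t + b * π` with `s ∉ z`; moreover `t ∉ (π)` unless `z = (π)`. -/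
theorem exists_elementwise_pair' (π : T) [IsDedekindDomain (T ⧸ Ideal.span {π})]
    (z : Ideal T) [hz : z.IsMaximal] (hπz : π ∈ z) :
    ∃ t ∈ z, (z ≠ Ideal.span {π} → t ∉ Ideal.span {π}) ∧
      ∀ x ∈ z, ∃ s, s ∉ z ∧ ∃ a b, s * x = a * t + b * π := by
  have hsurj : Function.Surjective (Ideal.Quotient.mk (Ideal.span {π})) :=
    Ideal.Quotient.mk_surjective
  have hker : Ideal.span {π} ≤ z := (Ideal.span_singleton_le_iff_mem z).mpr hπz
  have hcomap : (z.map (Ideal.Quotient.mk (Ideal.span {π}))).comap
      (Ideal.Quotient.mk (Ideal.span {π})) = z := by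
    rw [Ideal.comap_map_of_surjective _ hsurj, ← RingHom.ker_eq_comap_bot, Ideal.mk_ker]
    exact sup_eq_left.mpr hker
  have hPmax : (z.map (Ideal.Quotient.mk (Ideal.span {π}))).IsMaximal := by
    rcases Ideal.map_eq_top_or_isMaximal_of_surjective _ hsurj hz with h | h
    · exfalso
      rw [h, Ideal.comap_top] at hcomap
      exact hz.ne_top hcomap.symm
    · exact h
  have mem_iff : ∀ y : T, Ideal.Quotient.mk (Ideal.span {π}) y ∈
      z.map (Ideal.Quotient.mk (Ideal.span {π})) ↔ y ∈ z := fun y => by
    rw [← Ideal.mem_comap, hcomap]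
  obtain ⟨t', ht'P, ht'0, ht'⟩ :=
    exists_local_generator' (z.map (Ideal.Quotient.mk (Ideal.span {π})))
  obtain ⟨t, rfl⟩ := hsurj t'
  refine ⟨t, (mem_iff t).mp ht'P, fun hne htπ => ?_, fun x hx => ?_⟩
  · refine ht'0 (fun hbot => hne ?_) (Ideal.Quotient.eq_zero_iff_mem.mpr htπ)
    rw [← hcomap, hbot, ← RingHom.ker_eq_comap_bot, Ideal.mk_ker]
  · obtain ⟨s', hs'P, a', ha'⟩ := ht' _ ((mem_iff x).mpr hx)
    obtain ⟨s, rfl⟩ := hsurj s'
    obtain ⟨a, rfl⟩ := hsurj a'
    refine ⟨s, fun h => hs'P ((mem_iff s).mpr h), a, ?_⟩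
    have h0 : Ideal.Quotient.mk (Ideal.span {π}) (s * x - a * t) = 0 := by
      rw [map_sub, map_mul, map_mul, ha', sub_self]
    rw [Ideal.Quotient.eq_zero_iff_mem, Ideal.mem_span_singleton'] at h0
    obtain ⟨b, hb⟩ := h0
    exact ⟨b, by linear_combination -hb⟩

/-- **(REG), elementwise form.**  If `T ⧸ (π)` is a Dedekind domain, then for every maximal ideal
`z ∋ π` of `T` there is `t ∈ z` such that every `x ∈ z` satisfies `s * x = a * t + b * π` with
`s ∉ z`: the maximal ideal of `T_z` is `(π, t)`. -/
theorem exists_elementwise_pair (π : T) [IsDedekindDomain (T ⧸ Ideal.span {π})]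
    (z : Ideal T) [hz : z.IsMaximal] (hπz : π ∈ z) :
    ∃ t ∈ z, ∀ x ∈ z, ∃ s, s ∉ z ∧ ∃ a b, s * x = a * t + b * π := by
  obtain ⟨t, ht, -, h⟩ := exists_elementwise_pair' π z hπz
  exact ⟨t, ht, h⟩

/-- **The input of the LOC producers** (`helper1812.exists_loc`: `htz`, `ht`, `hloc`), at every
closed point of a Dedekind special fibre which is not the generic point of the fibre:
`∃ t ∈ z, t ∉ (π) ∧ ∀ a ∈ z, ∃ σ ∉ z, σ * a ∈ (π, t)`. -/
theorem exists_locGen (π : T) [IsDedekindDomain (T ⧸ Ideal.span {π})]
    (z : Ideal T) [z.IsMaximal] (hπz : π ∈ z) (hne : z ≠ Ideal.span {π}) :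
    ∃ t ∈ z, t ∉ Ideal.span {π} ∧ ∀ a ∈ z, ∃ σ, σ ∉ z ∧ σ * a ∈ Ideal.span {π, t} := by
  obtain ⟨t, htz, htπ, ht⟩ := exists_elementwise_pair' π z hπz
  refine ⟨t, htz, htπ hne, fun x hx => ?_⟩
  obtain ⟨s, hs, a, b, hab⟩ := ht x hx
  exact ⟨s, hs, Ideal.mem_span_pair.mpr ⟨b, a, by rw [hab]; ring⟩⟩

/-- The same in the shape `∃ u, ∀ b ∈ z, ∃ w ∉ z, w * b ∈ (π, u)`. -/
theorem exists_mul_mem_span_pair (π : T) [IsDedekindDomain (T ⧸ Ideal.span {π})]
    (z : Ideal T) [z.IsMaximal] (hπz : π ∈ z) :
    ∃ u ∈ z, ∀ b ∈ z, ∃ w, w ∉ z ∧ w * b ∈ Ideal.span {π, u} := by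
  obtain ⟨t, htz, ht⟩ := exists_elementwise_pair π z hπz
  refine ⟨t, htz, fun x hx => ?_⟩
  obtain ⟨s, hs, a, b, hab⟩ := ht x hx
  exact ⟨s, hs, Ideal.mem_span_pair.mpr ⟨b, a, by rw [hab]; ring⟩⟩

/-- Passage to a localisation `Tz` of `T` at a prime `z`: the elementwise form gives
`maximalIdeal Tz = (π, t)`. -/
theorem maximalIdeal_eq_span_pair_of_elementwise (z : Ideal T) [z.IsPrime]
    (Tz : Type*) [CommRing Tz] [Algebra T Tz] [IsLocalization.AtPrime Tz z] [IsLocalRing Tz]
    {π t : T} (hπ : π ∈ z) (ht : t ∈ z)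
    (h : ∀ x ∈ z, ∃ s, s ∉ z ∧ ∃ a b, s * x = a * t + b * π) :
    maximalIdeal Tz = Ideal.span {algebraMap T Tz π, algebraMap T Tz t} := by
  rw [← IsLocalization.AtPrime.map_eq_maximalIdeal z Tz]
  apply le_antisymm
  · rw [Ideal.map_le_iff_le_comap]
    intro x hx
    obtain ⟨s, hs, a, b, hab⟩ := h x hx
    have hu : IsUnit (algebraMap T Tz s) :=
      IsLocalization.map_units Tz (⟨s, hs⟩ : z.primeCompl)
    rw [Ideal.mem_comap]
    have hmem : algebraMap T Tz s * algebraMap T Tz x ∈
        Ideal.span {algebraMap T Tz π, algebraMap T Tz t} := by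
      rw [← map_mul, hab, map_add, map_mul, map_mul]
      exact Ideal.mem_span_pair.mpr ⟨algebraMap T Tz b, algebraMap T Tz a, by ring⟩
    obtain ⟨v, hv⟩ := hu.exists_left_inv
    have hx' : algebraMap T Tz x = v * (algebraMap T Tz s * algebraMap T Tz x) := by
      rw [← mul_assoc, hv, one_mul]
    rw [hx']
    exact Ideal.mul_mem_left _ _ hmem
  · rw [Ideal.span_le]
    rintro y (rfl | rfl)
    · exact Ideal.mem_map_of_mem _ hπ
    · exact Ideal.mem_map_of_mem _ ht

/-- If `(π)` is a prime ideal of `T` contained in `z` and `π` does not die in the localisation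
`Tz`, then `π` is a prime element of `Tz`. -/
theorem prime_algebraMap_of_isPrime_span (z : Ideal T) [z.IsPrime]
    (Tz : Type*) [CommRing Tz] [Algebra T Tz] [IsLocalization.AtPrime Tz z]
    {π : T} (hπ : π ∈ z) (hprime : (Ideal.span {π}).IsPrime)
    (hne : algebraMap T Tz π ≠ 0) : Prime (algebraMap T Tz π) := by
  rw [← Ideal.span_singleton_prime hne]
  have hdisj : Disjoint (z.primeCompl : Set T) (Ideal.span {π} : Set T) := by
    rw [Set.disjoint_left]
    intro x hx hx'
    exact hx ((Ideal.span_singleton_le_iff_mem z).mpr hπ hx')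
  have := IsLocalization.isPrime_of_isPrime_disjoint z.primeCompl Tz _ hprime hdisj
  rwa [Ideal.map_span, Set.image_singleton] at this

/-- **Regular pair at every closed point of a normal special fibre**, for any model `Tz` of the
localisation of `T` at `z`: if `T` is a domain, `π ≠ 0` and `T ⧸ (π)` is a Dedekind domain, then
for every maximal ideal `z ∋ π` there is `t ∈ z` with `maximalIdeal Tz = (π, t)` and `π` prime
in `Tz`. -/
theorem exists_regular_pair_atPrime [IsDomain T] {π : T} (hπ0 : π ≠ 0)
    [IsDedekindDomain (T ⧸ Ideal.span {π})] (z : Ideal T) [z.IsMaximal] (hπz : π ∈ z)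
    (Tz : Type*) [CommRing Tz] [Algebra T Tz] [IsLocalization.AtPrime Tz z] [IsLocalRing Tz] :
    ∃ t ∈ z, maximalIdeal Tz = Ideal.span {algebraMap T Tz π, algebraMap T Tz t} ∧
      Prime (algebraMap T Tz π) := by
  obtain ⟨t, htz, ht⟩ := exists_elementwise_pair π z hπz
  refine ⟨t, htz, maximalIdeal_eq_span_pair_of_elementwise z Tz hπz htz ht, ?_⟩
  have hprime : (Ideal.span {π}).IsPrime :=
    (Ideal.Quotient.isDomain_iff_prime _).mp inferInstance
  have hinj : Function.Injective (algebraMap T Tz) :=
    IsLocalization.injective Tz (M := z.primeCompl) z.primeCompl_le_nonZeroDivisors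
  exact prime_algebraMap_of_isPrime_span z Tz hπz hprime
    (fun h => hπ0 (hinj (by rw [h, map_zero])))

/-- **Regular pair at every closed point of a normal special fibre**, `Localization.AtPrime`
form (= the output shape of `helper187.purity_regular_pair`, input of LOCSECT / LOCFAC). -/
theorem exists_regular_pair [IsDomain T] {π : T} (hπ0 : π ≠ 0)
    [IsDedekindDomain (T ⧸ Ideal.span {π})] (z : Ideal T) [z.IsMaximal] (hπz : π ∈ z) :
    ∃ t ∈ z, maximalIdeal (Localization.AtPrime z) =
        Ideal.span {algebraMap T (Localization.AtPrime z) π,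
          algebraMap T (Localization.AtPrime z) t} ∧
      Prime (algebraMap T (Localization.AtPrime z) π) :=
  exists_regular_pair_atPrime hπ0 z hπz (Localization.AtPrime z)

/-- In a ring with Dedekind quotient `T ⧸ (π)`, a prime `z ∋ π` different from `(π)` is
maximal. -/
theorem isMaximal_of_isPrime_of_ne (π : T) [IsDedekindDomain (T ⧸ Ideal.span {π})]
    (z : Ideal T) [hz : z.IsPrime] (hπz : π ∈ z) (hne : z ≠ Ideal.span {π}) : z.IsMaximal := by
  have hsurj : Function.Surjective (Ideal.Quotient.mk (Ideal.span {π})) :=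
    Ideal.Quotient.mk_surjective
  have hker : RingHom.ker (Ideal.Quotient.mk (Ideal.span {π})) ≤ z := by
    rw [Ideal.mk_ker]; exact (Ideal.span_singleton_le_iff_mem z).mpr hπz
  have hprime : (z.map (Ideal.Quotient.mk (Ideal.span {π}))).IsPrime :=
    Ideal.map_isPrime_of_surjective hsurj hker
  have hbot : z.map (Ideal.Quotient.mk (Ideal.span {π})) ≠ ⊥ := by
    intro h
    rw [Ideal.map_eq_bot_iff_le_ker, Ideal.mk_ker] at h
    exact hne (le_antisymm h ((Ideal.span_singleton_le_iff_mem z).mpr hπz))
  have hmax : (z.map (Ideal.Quotient.mk (Ideal.span {π}))).IsMaximal :=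
    Ring.DimensionLEOne.maximalOfPrime hbot hprime
  have hcomap : (z.map (Ideal.Quotient.mk (Ideal.span {π}))).comap
      (Ideal.Quotient.mk (Ideal.span {π})) = z := by
    rw [Ideal.comap_map_of_surjective _ hsurj, ← RingHom.ker_eq_comap_bot]
    exact sup_eq_left.mpr hker
  rw [← hcomap]
  exact Ideal.comap_isMaximal_of_surjective _ hsurj

/-- **Transfer to a localisation of the chart.**  `T'` a localisation of `T` (e.g. the chart
`B₀ = R_t[1/t]` on another base line, or the semi-local cusp chart `R_u` localised at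
`1 + u·O[u]`), `T ⧸ (π)` Dedekind.  Then every prime `z' ∋ π` of `T'` different from `(π)` has a
local equation coming from `T`: `∃ t, t ∈ z', t ∉ (π), ∀ a ∈ z', ∃ σ ∉ z', σ * a ∈ (π, t)`. -/
theorem exists_locGen_of_isLocalization (S : Submonoid T) (T' : Type*) [CommRing T']
    [Algebra T T'] [IsLocalization S T'] (π : T) [IsDedekindDomain (T ⧸ Ideal.span {π})]
    (z' : Ideal T') [hz' : z'.IsPrime] (hπz : algebraMap T T' π ∈ z')
    (hne : z' ≠ Ideal.span {algebraMap T T' π}) :
    ∃ t : T, algebraMap T T' t ∈ z' ∧ algebraMap T T' t ∉ Ideal.span {algebraMap T T' π} ∧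
      ∀ a ∈ z', ∃ σ, σ ∉ z' ∧
        σ * a ∈ Ideal.span {algebraMap T T' π, algebraMap T T' t} := by
  have hzprime : (z'.comap (algebraMap T T')).IsPrime := Ideal.comap_isPrime _ _
  have hπ : π ∈ z'.comap (algebraMap T T') := hπz
  have hmapcomap : (z'.comap (algebraMap T T')).map (algebraMap T T') = z' :=
    IsLocalization.map_under S T' z'
  have hne' : z'.comap (algebraMap T T') ≠ Ideal.span {π} := by
    intro h
    apply hne
    rw [← hmapcomap, h, Ideal.map_span, Set.image_singleton]
  have hmax := isMaximal_of_isPrime_of_ne π _ hπ hne'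
  obtain ⟨t, htz, htπ, ht⟩ := exists_locGen π _ hπ hne'
  have hunit : ∀ s : S, algebraMap T T' s ∉ z' := fun s hs =>
    hz'.ne_top (Ideal.eq_top_of_isUnit_mem _ hs (IsLocalization.map_units T' s))
  refine ⟨t, htz, ?_, ?_⟩
  · intro hmem
    obtain ⟨c', hc'⟩ := Ideal.mem_span_singleton'.mp hmem
    obtain ⟨⟨c, s⟩, hcs⟩ := IsLocalization.surj S c'
    have h1 : algebraMap T T' (s * t) = algebraMap T T' (c * π) := by
      rw [map_mul, map_mul, ← hc', ← hcs]; ring
    obtain ⟨s₂, hs₂⟩ := (IsLocalization.eq_iff_exists S T').mp h1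
    have hprimeπ : (Ideal.span {π}).IsPrime :=
      (Ideal.Quotient.isDomain_iff_prime _).mp inferInstance
    have h2 : (s₂ * s : T) * t ∈ Ideal.span {π} := by
      have : (s₂ * s : T) * t = (s₂ * c) * π := by linear_combination hs₂
      rw [this]
      exact Ideal.mul_mem_left _ _ (Ideal.subset_span rfl)
    rcases hprimeπ.mem_or_mem h2 with h3 | h3
    · have h4 : algebraMap T T' ((s₂ * s : S) : T) ∈ z' := by
        have : ((s₂ * s : S) : T) ∈ z'.comap (algebraMap T T') :=
          (Ideal.span_singleton_le_iff_mem _).mpr hπ (by simpa using h3)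
        exact this
      exact hunit _ h4
    · exact htπ h3
  · intro a' ha'
    obtain ⟨⟨a, s⟩, has⟩ := IsLocalization.surj S a'
    have haz : a ∈ z'.comap (algebraMap T T') := by
      rw [Ideal.mem_comap, ← has]
      exact Ideal.mul_mem_right _ _ ha'
    obtain ⟨σ, hσ, hσa⟩ := ht a haz
    refine ⟨algebraMap T T' σ * algebraMap T T' s, ?_, ?_⟩
    · intro hmem
      rcases hz'.mem_or_mem hmem with h | h
      · exact hσ h
      · exact hunit s h
    · have e : algebraMap T T' σ * algebraMap T T' s * a' = algebraMap T T' (σ * a) := by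
        rw [map_mul, ← has]; ring
      rw [e]
      have := Ideal.mem_map_of_mem (algebraMap T T') hσa
      rwa [Ideal.map_span, Set.image_pair] at this

/-- Localisation form of `exists_locGen_of_isLocalization`: the maximal ideal of the local ring
of a localised chart `T'` at a prime `z' ∋ π`, `z' ≠ (π)`, is `(π, t)`. -/
theorem exists_maximalIdeal_eq_span_pair_of_isLocalization (S : Submonoid T) (T' : Type*)
    [CommRing T'] [Algebra T T'] [IsLocalization S T'] (π : T)
    [IsDedekindDomain (T ⧸ Ideal.span {π})]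
    (z' : Ideal T') [z'.IsPrime] (hπz : algebraMap T T' π ∈ z')
    (hne : z' ≠ Ideal.span {algebraMap T T' π}) :
    ∃ t : T, algebraMap T T' t ∈ z' ∧ maximalIdeal (Localization.AtPrime z') =
      Ideal.span {algebraMap T' (Localization.AtPrime z') (algebraMap T T' π),
        algebraMap T' (Localization.AtPrime z') (algebraMap T T' t)} := by
  obtain ⟨t, htz, -, ht⟩ := exists_locGen_of_isLocalization S T' π z' hπz hne
  refine ⟨t, htz, maximalIdeal_eq_span_pair_of_elementwise z' _ hπz htz (fun x hx => ?_)⟩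
  obtain ⟨σ, hσ, hσx⟩ := ht x hx
  obtain ⟨b, a, hab⟩ := Ideal.mem_span_pair.mp hσx
  exact ⟨σ, hσ, a, b, by rw [← hab]; ring⟩

/-- **Subring form of the transfer.**  `R₂ ≤ R₁` subrings of a field with `R₁` a localisation of
`R₂` (every `f ∈ R₁` has a denominator `s ∈ R₂` invertible in `R₁`), `R₂ ⧸ (π)` Dedekind.  Typical
instances: `R₂` = integral closure of `O[t]`, `R₁ = R₂[1/t]` = integral closure of `O[j]` (line
change); `R₂` = integral closure of `O[u]`, `R₁` = the cusp chart (localised at `1 + u·O[u]`). -/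
theorem exists_locGen_of_le {F : Type*} [Field F] {R₂ R₁ : Subring F} (hle : R₂ ≤ R₁)
    (hloc : ∀ f ∈ R₁, ∃ s ∈ R₂, s ≠ 0 ∧ s⁻¹ ∈ R₁ ∧ s * f ∈ R₂)
    (π : R₂) [IsDedekindDomain (R₂ ⧸ Ideal.span {π})]
    (z : Ideal R₁) [z.IsPrime] (hπz : Subring.inclusion hle π ∈ z)
    (hne : z ≠ Ideal.span {Subring.inclusion hle π}) :
    ∃ t : R₂, Subring.inclusion hle t ∈ z ∧
      Subring.inclusion hle t ∉ Ideal.span {Subring.inclusion hle π} ∧
      ∀ a ∈ z, ∃ σ, σ ∉ z ∧
        σ * a ∈ Ideal.span {Subring.inclusion hle π, Subring.inclusion hle t} := by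
  let S : Submonoid R₂ :=
    { carrier := {s | (s : F) ≠ 0 ∧ (s : F)⁻¹ ∈ R₁}
      mul_mem' := by
        rintro a b ⟨ha0, ha⟩ ⟨hb0, hb⟩
        refine ⟨by simpa using mul_ne_zero ha0 hb0, ?_⟩
        have : ((a * b : R₂) : F)⁻¹ = (a : F)⁻¹ * (b : F)⁻¹ := by
          push_cast; rw [mul_inv]
        rw [this]
        exact mul_mem ha hb
      one_mem' := ⟨by simp, by simp⟩ }
  let _ : Algebra R₂ R₁ := (Subring.inclusion hle).toAlgebra
  have hinj : Function.Injective (algebraMap R₂ R₁) := Subring.inclusion_injective hle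
  have : IsLocalization S R₁ :=
    { map_units := by
        rintro ⟨s, hs0, hs⟩
        refine IsUnit.of_mul_eq_one (⟨(s : F)⁻¹, hs⟩ : R₁) ?_
        apply Subtype.ext
        show (s : F) * (s : F)⁻¹ = 1
        exact mul_inv_cancel₀ hs0
      surj := by
        rintro ⟨f, hf⟩
        obtain ⟨s, hs, hs0, hsinv, hsf⟩ := hloc f hf
        refine ⟨(⟨s * f, hsf⟩, ⟨⟨s, hs⟩, hs0, hsinv⟩), ?_⟩
        apply Subtype.ext
        show f * s = s * f
        exact mul_comm _ _
      exists_of_eq := by
        intro x y hxy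
        exact ⟨1, by rw [hinj hxy]⟩ }
  exact exists_locGen_of_isLocalization S R₁ π z hπz hne

/-- **Line change for integral closures.**  `P₁, P₂` subrings of a field `F` (think `O[j]` and
`O[t]`), `t ∈ P₂` nonzero, with `P₁ ⊆ P₂[1/t]`, `P₂` integral over `P₁` and `1/t` integral over
`P₁`.  Then the integral closure of `P₁` is the localisation at `t` of the integral closure of
`P₂`: it contains it, contains `1/t`, and every element of it becomes integral over `P₂` after
multiplication by a power of `t`. -/
theorem integralClosure_line_change {F : Type*} [Field F] (P₁ P₂ : Subring F) (t : F)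
    (h12 : ∀ p ∈ P₁, ∃ n : ℕ, t ^ n * p ∈ P₂)
    (h21 : ∀ p ∈ P₂, IsIntegral P₁ p) :
    (∀ f : F, IsIntegral P₂ f → IsIntegral P₁ f) ∧
      ∀ f : F, IsIntegral P₁ f → t ∈ P₂ → ∃ n : ℕ, IsIntegral P₂ (t ^ n * f) := by
  refine ⟨fun f hf => ?_, fun f hf ht => ?_⟩
  · -- transitivity through the integral closure of `P₁`
    have hP₂ : ∀ p : P₂, (p : F) ∈ integralClosure P₁ F := fun p => h21 p p.2
    obtain ⟨g, hg, hgf⟩ := hf
    have hcoe : ∀ i, (algebraMap P₂ F (g.coeff i)) ∈ integralClosure P₁ F := fun i => hP₂ _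
    refine isIntegral_trans (R := P₁) (A := integralClosure P₁ F) f ?_
    have hcoef1 : ((g.map (algebraMap P₂ F)).coeffs : Set F) ⊆
        (integralClosure P₁ F).toSubring := by
      intro c hc
      rw [Finset.mem_coe, Polynomial.mem_coeffs_iff] at hc
      obtain ⟨i, -, rfl⟩ := hc
      rw [Polynomial.coeff_map]
      exact hcoe i
    refine ⟨(g.map (algebraMap P₂ F)).toSubring (integralClosure P₁ F).toSubring hcoef1,
      (Polynomial.monic_toSubring _ _ _).mpr (hg.map _), ?_⟩
    have h1 : Polynomial.eval₂ (algebraMap (integralClosure P₁ F) F) f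
        ((g.map (algebraMap P₂ F)).toSubring (integralClosure P₁ F).toSubring hcoef1) =
        Polynomial.eval₂ (RingHom.id F) f (g.map (algebraMap P₂ F)) := by
      conv_rhs => rw [← Polynomial.map_toSubring (g.map (algebraMap P₂ F))
        (integralClosure P₁ F).toSubring hcoef1]
      rw [Polynomial.eval₂_map]
      rfl
    rw [h1, Polynomial.eval₂_map, RingHom.id_comp]
    exact hgf
  · obtain ⟨g, hg, hgf⟩ := hf
    -- a common exponent for the coefficients of `g`
    have hex : ∃ n : ℕ, ∀ i, t ^ n * (g.coeff i : F) ∈ P₂ := by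
      choose e he using fun i : ℕ => h12 (g.coeff i) (g.coeff i).2
      refine ⟨(Finset.range (g.natDegree + 1)).sup e, fun i => ?_⟩
      by_cases hi : i ∈ Finset.range (g.natDegree + 1)
      · have hle : e i ≤ (Finset.range (g.natDegree + 1)).sup e := Finset.le_sup hi
        obtain ⟨k, hk⟩ := Nat.exists_eq_add_of_le hle
        rw [hk, pow_add, mul_comm (t ^ e i), mul_assoc]
        exact mul_mem (pow_mem ht k) (he i)
      · have : g.coeff i = 0 := by
          apply Polynomial.coeff_eq_zero_of_natDegree_lt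
          simp only [Finset.mem_range, not_lt] at hi
          omega
        rw [this]; simp
    obtain ⟨n, hn⟩ := hex
    refine ⟨n, ?_⟩
    -- the scaled polynomial
    have hsc := Polynomial.scaleRoots_eval₂_eq_zero (p := g.map (algebraMap P₁ F))
      (RingHom.id F) (r := f) (s := t ^ n) (by rw [Polynomial.eval₂_map, RingHom.id_comp]; exact hgf)
    simp only [RingHom.id_apply] at hsc
    have hmon : (Polynomial.scaleRoots (g.map (algebraMap P₁ F)) (t ^ n)).Monic :=
      (Polynomial.monic_scaleRoots_iff _).mpr (hg.map _)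
    have hnd : (g.map (algebraMap P₁ F)).natDegree = g.natDegree := hg.natDegree_map _
    have hcoef : ((Polynomial.scaleRoots (g.map (algebraMap P₁ F)) (t ^ n)).coeffs : Set F) ⊆
        P₂ := by
      intro c hc
      rw [Finset.mem_coe, Polynomial.mem_coeffs_iff] at hc
      obtain ⟨i, hi, rfl⟩ := hc
      rw [Polynomial.coeff_scaleRoots, Polynomial.coeff_map, hnd]
      by_cases hlt : i < g.natDegree
      · obtain ⟨k, hk⟩ := Nat.exists_eq_add_of_lt hlt
        have hsub : g.natDegree - i = k + 1 := by omega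
        have h1 : (t ^ n) ^ k ∈ P₂ := pow_mem (pow_mem ht n) k
        have h2 := hn i
        have e : (algebraMap P₁ F) (g.coeff i) * (t ^ n) ^ (k + 1) =
            (t ^ n) ^ k * (t ^ n * (g.coeff i : F)) := by
          show (g.coeff i : F) * (t ^ n) ^ (k + 1) = _
          ring
        rw [hsub, e]
        exact mul_mem h1 h2
      · have hge : g.natDegree ≤ i := not_lt.mp hlt
        rcases hge.eq_or_lt with h | h
        · rw [← h, Nat.sub_self, pow_zero, mul_one, hg.coeff_natDegree, map_one]
          exact one_mem _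
        · rw [Polynomial.coeff_eq_zero_of_natDegree_lt h]; simp
    refine ⟨(Polynomial.scaleRoots (g.map (algebraMap P₁ F)) (t ^ n)).toSubring P₂ hcoef,
      (Polynomial.monic_toSubring _ _ _).mpr hmon, ?_⟩
    have h1 : Polynomial.eval₂ (algebraMap P₂ F) (t ^ n * f)
        ((Polynomial.scaleRoots (g.map (algebraMap P₁ F)) (t ^ n)).toSubring P₂ hcoef) =
        Polynomial.eval₂ (RingHom.id F) (t ^ n * f)
          (Polynomial.scaleRoots (g.map (algebraMap P₁ F)) (t ^ n)) := by
      conv_rhs => rw [← Polynomial.map_toSubring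
        (Polynomial.scaleRoots (g.map (algebraMap P₁ F)) (t ^ n)) P₂ hcoef]
      rw [Polynomial.eval₂_map]
      rfl
    rw [h1]
    exact hsc

end Lift

section Suppliers

/-- A domain which is integral over a domain of dimension `≤ 1` has dimension `≤ 1`. -/
theorem dimensionLEOne_of_isIntegral (D Q : Type*) [CommRing D] [IsDomain D]
    [Ring.DimensionLEOne D] [CommRing Q] [IsDomain Q] [Algebra D Q] [Algebra.IsIntegral D Q] :
    Ring.DimensionLEOne Q := by
  refine ⟨fun {P} hP0 hPprime => ?_⟩
  have hc : P.comap (algebraMap D Q) ≠ ⊥ := fun h => hP0 (Ideal.eq_bot_of_comap_eq_bot h)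
  have hcp : (P.comap (algebraMap D Q)).IsPrime := Ideal.comap_isPrime _ _
  have hmax : (P.comap (algebraMap D Q)).IsMaximal := Ring.DimensionLEOne.maximalOfPrime hc hcp
  exact Ideal.isMaximal_of_isIntegral_of_isMaximal_comap P hmax

/-- A noetherian integrally closed domain which is integral over a domain of dimension `≤ 1`
(e.g. over a principal ideal domain `k[x]`) is a Dedekind domain. -/
theorem isDedekindDomain_of_isIntegral_of_isIntegrallyClosed (D Q : Type*) [CommRing D]
    [IsDomain D] [Ring.DimensionLEOne D] [CommRing Q] [IsDomain Q] [IsNoetherianRing Q]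
    [IsIntegrallyClosed Q] [Algebra D Q] [Algebra.IsIntegral D Q] : IsDedekindDomain Q :=
  have : Ring.DimensionLEOne Q := dimensionLEOne_of_isIntegral D Q
  { toIsDomain := inferInstance
    toIsDedekindRing := { } }

/-- An integrally closed domain which is a finite module over a principal ideal domain is a
Dedekind domain. -/
theorem isDedekindDomain_of_finite_of_isIntegrallyClosed (D Q : Type*) [CommRing D]
    [IsDomain D] [IsPrincipalIdealRing D] [CommRing Q] [IsDomain Q]
    [IsIntegrallyClosed Q] [Algebra D Q] [Module.Finite D Q] : IsDedekindDomain Q :=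
  have : IsNoetherianRing Q := IsNoetherianRing.of_finite D Q
  isDedekindDomain_of_isIntegral_of_isIntegrallyClosed D Q

/-- **Normality of the reduction, reduction-map form.**  `φ : T → κ` a ring homomorphism into a
field with kernel `(π)` (the reduction map of a chart ring into the residue field of the Gauss
valuation), such that `κ` is the field of fractions of the image and every element of `κ` which
is integral over the image lies in the image.  Then `T ⧸ (π)` is an integrally closed domain. -/
theorem isIntegrallyClosed_quotient_of_ringHom {T κ : Type*} [CommRing T] [Field κ]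
    (φ : T →+* κ) (π : T) (hker : RingHom.ker φ = Ideal.span {π})
    (hfrac : ∀ y : κ, ∃ r s : T, φ s ≠ 0 ∧ y * φ s = φ r)
    (hnorm : ∀ y : κ, (∃ p : Polynomial T, p.Monic ∧ Polynomial.eval₂ φ y p = 0) →
      ∃ r : T, φ r = y) :
    IsDomain (T ⧸ Ideal.span {π}) ∧ IsIntegrallyClosed (T ⧸ Ideal.span {π}) := by
  have H : ∀ a ∈ Ideal.span {π}, φ a = 0 := fun a ha => by
    rw [← hker] at ha; exact ha
  have hinj : Function.Injective (Ideal.Quotient.lift (Ideal.span {π}) φ H) :=
    (Ideal.injective_lift_iff H).mpr hker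
  have hdom : IsDomain (T ⧸ Ideal.span {π}) :=
    Function.Injective.isDomain (Ideal.Quotient.lift (Ideal.span {π}) φ H) hinj
  refine ⟨hdom, ?_⟩
  let _ : Algebra (T ⧸ Ideal.span {π}) κ := (Ideal.Quotient.lift (Ideal.span {π}) φ H).toAlgebra
  have halg : ∀ r : T, algebraMap (T ⧸ Ideal.span {π}) κ (Ideal.Quotient.mk _ r) = φ r :=
    fun r => Ideal.Quotient.lift_mk _ φ H
  have : FaithfulSMul (T ⧸ Ideal.span {π}) κ :=
    (faithfulSMul_iff_algebraMap_injective _ _).mpr hinj
  have : IsFractionRing (T ⧸ Ideal.span {π}) κ := by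
    refine IsFractionRing.of_field _ _ (fun y => ?_)
    obtain ⟨r, s, hs, hrs⟩ := hfrac y
    refine ⟨Ideal.Quotient.mk _ r, Ideal.Quotient.mk _ s, ?_⟩
    rw [halg, halg, eq_div_iff hs, hrs]
  rw [isIntegrallyClosed_iff κ]
  intro x hx
  obtain ⟨q, hq, hqx⟩ := hx
  obtain ⟨p, hpq, -, hp⟩ := Polynomial.lifts_and_natDegree_eq_and_monic
    ((Polynomial.mem_lifts q).mpr
      (Polynomial.map_surjective _ Ideal.Quotient.mk_surjective q)) hq
  have hpx : Polynomial.eval₂ φ x p = 0 := by
    have hcomp : φ = (algebraMap (T ⧸ Ideal.span {π}) κ).comp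
        (Ideal.Quotient.mk (Ideal.span {π})) := by
      ext r; exact (halg r).symm
    rw [hcomp, ← Polynomial.eval₂_map, hpq]
    exact hqx
  obtain ⟨r, hr⟩ := hnorm x ⟨p, hp, hpx⟩
  exact ⟨Ideal.Quotient.mk _ r, by rw [halg, hr]⟩

/-- **Normality of the reduction, valuation form.**  `T` a ring mapping into a valuation subring
`V` of a field `F` (the Gauss valuation ring), with `T ∩ 𝔪_V = π T` (kernel lemma), every element
of `V` a fraction of elements of `T` modulo `𝔪_V`, and every element of `V` whose residue is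
integral over `T` congruent to an element of `T` (the DN output).  Then `T ⧸ (π)` is an
integrally closed domain. -/
theorem isIntegrallyClosed_quotient_of_valuationSubring {F T : Type*} [Field F] [CommRing T]
    [Algebra T F] (V : ValuationSubring F) (π : T)
    (hTV : ∀ r : T, algebraMap T F r ∈ V)
    (hker : ∀ r : T, algebraMap T F r ∈ V.nonunits ↔ π ∣ r)
    (hfrac : ∀ y ∈ V, ∃ r s : T, algebraMap T F s ∉ V.nonunits ∧
      y * algebraMap T F s - algebraMap T F r ∈ V.nonunits)
    (hnorm : ∀ y ∈ V, (∃ p : Polynomial T, p.Monic ∧ Polynomial.aeval y p ∈ V.nonunits) →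
      ∃ r : T, y - algebraMap T F r ∈ V.nonunits) :
    IsDomain (T ⧸ Ideal.span {π}) ∧ IsIntegrallyClosed (T ⧸ Ideal.span {π}) := by
  -- the reduction map
  let g : T →+* V := (algebraMap T F).codRestrict V.toSubring hTV
  let φ : T →+* ResidueField V := (residue V).comp g
  have hg : ∀ r : T, ((g r : V) : F) = algebraMap T F r := fun r => rfl
  have hnu : ∀ v : V, residue V v = 0 ↔ (v : F) ∈ V.nonunits := fun v => by
    rw [residue_eq_zero_iff, ValuationSubring.mem_nonunits_iff_exists_mem_maximalIdeal]
    exact ⟨fun h => ⟨v.2, h⟩, fun ⟨_, h⟩ => h⟩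
  have hφ0 : ∀ r : T, φ r = 0 ↔ algebraMap T F r ∈ V.nonunits := fun r => hnu (g r)
  refine isIntegrallyClosed_quotient_of_ringHom φ π ?_ ?_ ?_
  · ext r
    rw [RingHom.mem_ker, hφ0, hker, Ideal.mem_span_singleton]
  · intro y
    obtain ⟨v, rfl⟩ := residue_surjective y
    obtain ⟨r, s, hs, hrs⟩ := hfrac v v.2
    refine ⟨r, s, fun h => hs ((hφ0 s).mp h), ?_⟩
    have h0 : residue V (v * g s - g r) = 0 := (hnu _).mpr hrs
    rw [map_sub, map_mul, sub_eq_zero] at h0
    exact h0
  · intro y hy
    obtain ⟨v, rfl⟩ := residue_surjective y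
    obtain ⟨p, hp, hpv⟩ := hy
    have hev : ((Polynomial.eval₂ g v p : V) : F) = Polynomial.aeval (v : F) p := by
      have h1 := Polynomial.hom_eval₂ p g V.subtype v
      rw [Polynomial.aeval_def]
      exact h1
    have hmem : Polynomial.aeval (v : F) p ∈ V.nonunits := by
      rw [← hev, ← hnu, Polynomial.hom_eval₂]
      exact hpv
    obtain ⟨r, hr⟩ := hnorm v v.2 ⟨p, hp, hmem⟩
    refine ⟨r, ?_⟩
    have h0 : residue V (v - g r) = 0 := (hnu _).mpr hr
    rw [map_sub, sub_eq_zero] at h0
    exact h0.symm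

/-- **Regular pair at every closed point from the normality of the reduction (valuation form).**
`T` a noetherian domain inside the Gauss valuation ring `V` with `T ∩ 𝔪_V = π T`, residue field of
`V` = fractions of `T ⧸ (π)`, integral elements of the residue field liftable to `T`, and
`T ⧸ (π)` integral over a principal ideal domain `D` (e.g. `k[x̄]`).  Then at every maximal ideal
`z ∋ π` the local ring `T_z` has maximal ideal `(π, t)` with `π` prime. -/
theorem exists_regular_pair_of_valuationSubring {F T : Type*} [Field F] [CommRing T]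
    [IsDomain T] [IsNoetherianRing T] [Algebra T F] (V : ValuationSubring F) {π : T}
    (hπ0 : π ≠ 0)
    (hTV : ∀ r : T, algebraMap T F r ∈ V)
    (hker : ∀ r : T, algebraMap T F r ∈ V.nonunits ↔ π ∣ r)
    (hfrac : ∀ y ∈ V, ∃ r s : T, algebraMap T F s ∉ V.nonunits ∧
      y * algebraMap T F s - algebraMap T F r ∈ V.nonunits)
    (hnorm : ∀ y ∈ V, (∃ p : Polynomial T, p.Monic ∧ Polynomial.aeval y p ∈ V.nonunits) →
      ∃ r : T, y - algebraMap T F r ∈ V.nonunits)
    (D : Type*) [CommRing D] [IsDomain D] [Ring.DimensionLEOne D]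
    [Algebra D (T ⧸ Ideal.span {π})] [Algebra.IsIntegral D (T ⧸ Ideal.span {π})]
    (z : Ideal T) [z.IsMaximal] (hπz : π ∈ z) :
    ∃ t ∈ z, maximalIdeal (Localization.AtPrime z) =
        Ideal.span {algebraMap T (Localization.AtPrime z) π,
          algebraMap T (Localization.AtPrime z) t} ∧
      Prime (algebraMap T (Localization.AtPrime z) π) := by
  obtain ⟨hdom, hic⟩ := isIntegrallyClosed_quotient_of_valuationSubring V π hTV hker hfrac hnorm
  have := hdom
  have := hic
  have : IsDedekindDomain (T ⧸ Ideal.span {π}) :=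
    isDedekindDomain_of_isIntegral_of_isIntegrallyClosed D (T ⧸ Ideal.span {π})
  exact exists_regular_pair hπ0 z hπz

end Suppliers

section IntLift

open Polynomial

/-- **The DN output, elementwise form** (same style as `IdemLift` of S18 track B): for the
integral closure `R` of `P` in `L` and `D = P ⧸ (lam)`, every element `ā / d̄` of
`Frac(D) ⊗ R ⧸ lam R` which is integral over `D` comes from `R ⧸ lam R`.  The integrality is
written as the monic relation `s ^ n + ∑ c̄ᵢ s ^ i = 0` multiplied by `d̄ ^ n`. -/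
def IntLift (P L : Type*) [CommRing P] [Field L] [Algebra P L] (lam : P) : Prop :=
  ∀ a : L, IsIntegral P a → ∀ d : P, ¬ lam ∣ d →
    (∃ (n : ℕ) (c : Fin n → P) (y : L), IsIntegral P y ∧
      a ^ n + ∑ i : Fin n, algebraMap P L (c i * d ^ (n - (i : ℕ))) * a ^ (i : ℕ) =
        algebraMap P L lam * y) →
    ∃ r y : L, IsIntegral P r ∧ IsIntegral P y ∧ algebraMap P L d * r - a = algebraMap P L lam * y

/-- In a domain `Q`, a nonzero element integral over `P` divides the image of an element of `P`
with nonzero image. -/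
theorem exists_mul_eq_algebraMap_of_isIntegral {P Q : Type*} [CommRing P] [CommRing Q]
    [IsDomain Q] [Algebra P Q] {b : Q} (hb : IsIntegral P b) (hb0 : b ≠ 0) :
    ∃ (b' : Q) (d : P), b * b' = algebraMap P Q d ∧ algebraMap P Q d ≠ 0 := by
  obtain ⟨f, hf, hfb⟩ := hb
  have hb' : IsIntegral (algebraMap P Q).range b := by
    refine ⟨f.map (algebraMap P Q).rangeRestrict, hf.map _, ?_⟩
    rw [eval₂_map]
    exact hfb
  obtain ⟨r, hr0, b', hb'⟩ :=
    IsAlgebraic.exists_nonzero_dvd hb'.isAlgebraic (mem_nonZeroDivisors_of_ne_zero hb0)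
  obtain ⟨r, d, rfl⟩ := r
  refine ⟨b', d, hb'.symm, fun h => hr0 ?_⟩
  exact Subtype.ext h

/-- The monic relation of `IntLift` from a scaled monic polynomial. -/
theorem aeval_scaleRoots_eq_sum {P L : Type*} [CommRing P] [CommRing L] [Algebra P L]
    (f : P[X]) (hf : f.Monic) (d : P) (a : L) :
    aeval a (scaleRoots f d) = a ^ f.natDegree +
      ∑ i : Fin f.natDegree,
        algebraMap P L (f.coeff (i : ℕ) * d ^ (f.natDegree - (i : ℕ))) * a ^ (i : ℕ) := by
  rw [aeval_eq_sum_range, natDegree_scaleRoots, Finset.sum_range_succ, coeff_scaleRoots,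
    Nat.sub_self, pow_zero, mul_one, hf.coeff_natDegree, one_smul, add_comm,
    Fin.sum_univ_eq_sum_range
      (fun i => algebraMap P L (f.coeff i * d ^ (f.natDegree - i)) * a ^ i) f.natDegree]
  congr 1
  refine Finset.sum_congr rfl (fun i _ => ?_)
  rw [coeff_scaleRoots, Algebra.smul_def]

/-- **Normality of a quotient from integral lifting** (general form).  `R` an integral
`P`-algebra, `I` a prime ideal of `R`; if every `a ∈ R` and `d ∈ P` (nonzero mod `I`) such that
`a / d` satisfies a monic equation over `P` modulo `I` have some `r ∈ R` with `d * r ≡ a` mod `I`,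
then `R ⧸ I` is integrally closed. -/
theorem isIntegrallyClosed_quotient_of_lift {P R : Type*} [CommRing P] [CommRing R]
    [Algebra P R] [Algebra.IsIntegral P R] (I : Ideal R) [I.IsPrime]
    (h : ∀ (a : R) (d : P), algebraMap P R d ∉ I → ∀ f : P[X], f.Monic →
      aeval a (scaleRoots f d) ∈ I → ∃ r : R, algebraMap P R d * r - a ∈ I) :
    IsIntegrallyClosed (R ⧸ I) := by
  have hintQ : Algebra.IsIntegral P (R ⧸ I) := by
    refine ⟨fun q => ?_⟩
    obtain ⟨r, rfl⟩ := Ideal.Quotient.mk_surjective q
    exact (Algebra.IsIntegral.isIntegral (R := P) r).map (Ideal.Quotient.mkₐ P I)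
  rw [isIntegrallyClosed_iff (FractionRing (R ⧸ I))]
  intro x hx
  have hxP : IsIntegral P x := isIntegral_trans x hx
  obtain ⟨f, hf, hfx⟩ := hxP
  obtain ⟨a₁, b₁, hb₁, rfl⟩ := IsFractionRing.div_surjective (R ⧸ I) x
  have hb₁0 : b₁ ≠ 0 := nonZeroDivisors.ne_zero hb₁
  obtain ⟨b', d, hbd, hd0⟩ :=
    exists_mul_eq_algebraMap_of_isIntegral (hintQ.isIntegral b₁) hb₁0
  have hinj : Function.Injective (algebraMap (R ⧸ I) (FractionRing (R ⧸ I))) :=
    IsFractionRing.injective _ _
  have hb₁' : algebraMap (R ⧸ I) (FractionRing (R ⧸ I)) b₁ ≠ 0 := fun h =>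
    hb₁0 (hinj (by rw [h, map_zero]))
  -- the scaled element
  have hscale : algebraMap P (FractionRing (R ⧸ I)) d *
      (algebraMap (R ⧸ I) (FractionRing (R ⧸ I)) a₁ /
        algebraMap (R ⧸ I) (FractionRing (R ⧸ I)) b₁) =
      algebraMap (R ⧸ I) (FractionRing (R ⧸ I)) (a₁ * b') := by
    rw [IsScalarTower.algebraMap_apply P (R ⧸ I) (FractionRing (R ⧸ I)), ← hbd, map_mul, map_mul]
    field_simp
  have hroot : aeval (a₁ * b') (scaleRoots f d) = 0 := by
    apply hinj
    rw [map_zero, ← aeval_algebraMap_apply, ← hscale]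
    exact scaleRoots_aeval_eq_zero hfx
  -- lift to `R`
  obtain ⟨a, ha⟩ := Ideal.Quotient.mk_surjective (a₁ * b')
  have hroot' : aeval a (scaleRoots f d) ∈ I := by
    rw [← Ideal.Quotient.eq_zero_iff_mem]
    have := aeval_algHom_apply (Ideal.Quotient.mkₐ P I) a (scaleRoots f d)
    rw [Ideal.Quotient.mkₐ_eq_mk] at this
    rw [← this, ha]
    exact hroot
  have hdI : algebraMap P R d ∉ I := by
    intro hmem
    apply hd0
    rw [IsScalarTower.algebraMap_apply P R (R ⧸ I), Ideal.Quotient.algebraMap_eq,
      Ideal.Quotient.eq_zero_iff_mem]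
    exact hmem
  obtain ⟨r, hr⟩ := h a d hdI f hf hroot'
  refine ⟨Ideal.Quotient.mk I r, ?_⟩
  have hQ : algebraMap P (R ⧸ I) d * Ideal.Quotient.mk I r = a₁ * b' := by
    rw [← ha, IsScalarTower.algebraMap_apply P R (R ⧸ I), Ideal.Quotient.algebraMap_eq,
      ← map_mul, ← sub_eq_zero, ← map_sub, Ideal.Quotient.eq_zero_iff_mem]
    exact hr
  have hd0' : algebraMap (R ⧸ I) (FractionRing (R ⧸ I)) (algebraMap P (R ⧸ I) d) ≠ 0 := fun h =>
    hd0 (hinj (by rw [h, map_zero]))
  rw [eq_div_iff hb₁']
  have h1 : algebraMap (R ⧸ I) (FractionRing (R ⧸ I)) (algebraMap P (R ⧸ I) d) *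
      (algebraMap (R ⧸ I) (FractionRing (R ⧸ I)) (Ideal.Quotient.mk I r) *
        algebraMap (R ⧸ I) (FractionRing (R ⧸ I)) b₁) =
      algebraMap (R ⧸ I) (FractionRing (R ⧸ I)) (algebraMap P (R ⧸ I) d) *
        algebraMap (R ⧸ I) (FractionRing (R ⧸ I)) a₁ := by
    rw [← map_mul, ← map_mul, ← map_mul, ← mul_assoc, hQ, ← hbd]
    congr 1
    ring
  exact mul_left_cancel₀ hd0' h1

theorem algebraMap_quotient_eq {P R : Type*} [CommRing P] [CommRing R] [Algebra P R]
    (I : Ideal R) (p : P) :
    algebraMap P (R ⧸ I) p = Ideal.Quotient.mk I (algebraMap P R p) := rfl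

/-- **Normality of the special fibre from `IntLift`.**  If `lam` generates a prime ideal of the
integral closure `R` of `P` in `L` and `IntLift P L lam` holds (the DN output), then `R ⧸ lam R`
is integrally closed. -/
theorem isIntegrallyClosed_quotient_of_intLift {P L : Type*} [CommRing P] [Field L] [Algebra P L]
    (lam : P) (hI : IntLift P L lam)
    [(Ideal.span {algebraMap P (integralClosure P L) lam}).IsPrime] :
    IsIntegrallyClosed
      (integralClosure P L ⧸ Ideal.span {algebraMap P (integralClosure P L) lam}) := by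
  refine isIntegrallyClosed_quotient_of_lift (P := P) _ (fun a d hd f hf hroot => ?_)
  have hdlam : ¬ lam ∣ d := by
    rintro ⟨e, rfl⟩
    apply hd
    rw [map_mul]
    exact Ideal.mul_mem_right _ _ (Ideal.subset_span rfl)
  obtain ⟨y, hy⟩ := Ideal.mem_span_singleton'.mp hroot
  have hrel : (a : L) ^ f.natDegree + ∑ i : Fin f.natDegree,
      algebraMap P L (f.coeff (i : ℕ) * d ^ (f.natDegree - (i : ℕ))) * (a : L) ^ (i : ℕ) =
        algebraMap P L lam * (y : L) := by
    rw [← aeval_scaleRoots_eq_sum f hf d (a : L), Subalgebra.aeval_coe, ← hy]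
    simp [mul_comm]
  obtain ⟨r, y', hr, hy', hry⟩ := hI (a : L) a.2 d hdlam
    ⟨f.natDegree, fun i => f.coeff (i : ℕ), (y : L), y.2, hrel⟩
  refine ⟨⟨r, hr⟩, ?_⟩
  have hR' : algebraMap P (integralClosure P L) d * (⟨r, hr⟩ : integralClosure P L) - a =
      ⟨y', hy'⟩ * algebraMap P (integralClosure P L) lam := by
    apply Subtype.ext
    simpa [mul_comm] using hry
  rw [hR']
  exact Ideal.mul_mem_left _ _ (Ideal.subset_span rfl)

/-- **The special fibre is a Dedekind domain**: DN output `IntLift` + `lam` prime in the integral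
closure `R` + `P ⧸ (lam)` a principal ideal domain + `R` noetherian. -/
theorem isDedekindDomain_quotient_of_intLift {P L : Type*} [CommRing P] [Field L] [Algebra P L]
    [IsNoetherianRing (integralClosure P L)]
    (lam : P) (hlam : Prime lam) [IsPrincipalIdealRing (P ⧸ Ideal.span {lam})]
    (hI : IntLift P L lam)
    [(Ideal.span {algebraMap P (integralClosure P L) lam}).IsPrime] :
    IsDedekindDomain
      (integralClosure P L ⧸ Ideal.span {algebraMap P (integralClosure P L) lam}) := by
  have hic := isIntegrallyClosed_quotient_of_intLift lam hI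
  have hprimeP : (Ideal.span {lam}).IsPrime := (Ideal.span_singleton_prime hlam.ne_zero).mpr hlam
  have hdomD : IsDomain (P ⧸ Ideal.span {lam}) := Ideal.Quotient.isDomain _
  -- the algebra structure `P ⧸ (lam) → R ⧸ lam R`
  have H : ∀ a ∈ Ideal.span {lam}, algebraMap P
      (integralClosure P L ⧸ Ideal.span {algebraMap P (integralClosure P L) lam}) a = 0 := by
    intro a ha
    obtain ⟨e, rfl⟩ := Ideal.mem_span_singleton'.mp ha
    rw [algebraMap_quotient_eq, Ideal.Quotient.eq_zero_iff_mem, map_mul]
    exact Ideal.mul_mem_left _ _ (Ideal.subset_span rfl)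
  let _ : Algebra (P ⧸ Ideal.span {lam})
      (integralClosure P L ⧸ Ideal.span {algebraMap P (integralClosure P L) lam}) :=
    (Ideal.Quotient.lift (Ideal.span {lam}) (algebraMap P _) H).toAlgebra
  have : IsScalarTower P (P ⧸ Ideal.span {lam})
      (integralClosure P L ⧸ Ideal.span {algebraMap P (integralClosure P L) lam}) :=
    IsScalarTower.of_algebraMap_eq (fun x => (Ideal.Quotient.lift_mk _ _ H).symm)
  have hint : Algebra.IsIntegral (P ⧸ Ideal.span {lam})
      (integralClosure P L ⧸ Ideal.span {algebraMap P (integralClosure P L) lam}) := by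
    refine ⟨fun q => ?_⟩
    obtain ⟨r, rfl⟩ := Ideal.Quotient.mk_surjective q
    have h1 : IsIntegral P (Ideal.Quotient.mk
        (Ideal.span {algebraMap P (integralClosure P L) lam}) r) :=
      (integralClosure.isIntegral r).map (Ideal.Quotient.mkₐ P _)
    exact h1.tower_top
  exact isDedekindDomain_of_isIntegral_of_isIntegrallyClosed (P ⧸ Ideal.span {lam}) _

/-- **Regular pair at every closed point of the special fibre from the DN output.**  `P` the
chart base (e.g. `A₀[x]`), `lam` prime in `P` with `P ⧸ (lam)` a principal ideal domain, `R` the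
integral closure of `P` in `L` (noetherian), `lam` prime in `R`, and `IntLift P L lam`.  Then for
every maximal ideal `z ∋ lam` of `R` there is `t ∈ z` with `maximalIdeal R_z = (lam, t)` and
`lam` prime in `R_z`. -/
theorem exists_regular_pair_of_intLift {P L : Type*} [CommRing P] [Field L] [Algebra P L]
    [IsNoetherianRing (integralClosure P L)]
    (lam : P) (hlam : Prime lam) [IsPrincipalIdealRing (P ⧸ Ideal.span {lam})]
    (hlam0 : algebraMap P L lam ≠ 0) (hI : IntLift P L lam)
    [(Ideal.span {algebraMap P (integralClosure P L) lam}).IsPrime]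
    (z : Ideal (integralClosure P L)) [z.IsMaximal]
    (hz : algebraMap P (integralClosure P L) lam ∈ z) :
    ∃ t ∈ z, maximalIdeal (Localization.AtPrime z) =
        Ideal.span {algebraMap (integralClosure P L) (Localization.AtPrime z)
            (algebraMap P (integralClosure P L) lam),
          algebraMap (integralClosure P L) (Localization.AtPrime z) t} ∧
      Prime (algebraMap (integralClosure P L) (Localization.AtPrime z)
        (algebraMap P (integralClosure P L) lam)) := by
  have := isDedekindDomain_quotient_of_intLift lam hlam hI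
  have h0 : algebraMap P (integralClosure P L) lam ≠ 0 := by
    intro h
    apply hlam0
    have := congrArg (Subtype.val) h
    simpa using this
  exact exists_regular_pair h0 z hz

/-- A maximal ideal of an integral `P`-algebra `T` is not `lam T` as soon as `P ⧸ (lam)` is not
a field and `lam T ∩ P = lam P` (no closed point of the special fibre is its generic point). -/
theorem ne_span_of_not_isField {P T : Type*} [CommRing P] [CommRing T] [Algebra P T]
    [Algebra.IsIntegral P T] (lam : P) (hD : ¬ IsField (P ⧸ Ideal.span {lam}))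
    (hsat : ∀ p : P, algebraMap P T p ∈ Ideal.span {algebraMap P T lam} → lam ∣ p)
    (z : Ideal T) [hz : z.IsMaximal] : z ≠ Ideal.span {algebraMap P T lam} := by
  intro h
  apply hD
  have hmax : (z.comap (algebraMap P T)).IsMaximal :=
    Ideal.isMaximal_comap_of_isIntegral_of_isMaximal z
  have hcomap : z.comap (algebraMap P T) = Ideal.span {lam} := by
    ext p
    rw [Ideal.mem_comap, h]
    refine ⟨fun hp => Ideal.mem_span_singleton.mpr (hsat p hp), fun hp => ?_⟩
    obtain ⟨e, rfl⟩ := Ideal.mem_span_singleton.mp hp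
    rw [map_mul]
    exact Ideal.mul_mem_right _ _ (Ideal.subset_span rfl)
  rw [hcomap] at hmax
  exact (Ideal.Quotient.maximal_ideal_iff_isField_quotient _).mp hmax

/-- **The input of the LOC producers from the DN output**: for the integral closure `R` of `P`
in `L`, with `lam` prime in `R`, `IntLift P L lam`, `P ⧸ (lam)` a principal ideal domain which is
not a field and `lam R ∩ P = lam P`: at EVERY maximal ideal `z ∋ lam` of `R` there is `t ∈ z`,
`t ∉ lam R`, with `∀ a ∈ z, ∃ σ ∉ z, σ * a ∈ (lam, t)` (`helper1812.LocGen z lam t`). -/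
theorem exists_locGen_of_intLift {P L : Type*} [CommRing P] [Field L] [Algebra P L]
    [IsNoetherianRing (integralClosure P L)]
    (lam : P) (hlam : Prime lam) [IsPrincipalIdealRing (P ⧸ Ideal.span {lam})]
    (hD : ¬ IsField (P ⧸ Ideal.span {lam}))
    (hsat : ∀ p : P, algebraMap P (integralClosure P L) p ∈
      Ideal.span {algebraMap P (integralClosure P L) lam} → lam ∣ p)
    (hI : IntLift P L lam)
    [(Ideal.span {algebraMap P (integralClosure P L) lam}).IsPrime]
    (z : Ideal (integralClosure P L)) [z.IsMaximal]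
    (hz : algebraMap P (integralClosure P L) lam ∈ z) :
    ∃ t ∈ z, t ∉ Ideal.span {algebraMap P (integralClosure P L) lam} ∧
      ∀ a ∈ z, ∃ σ, σ ∉ z ∧
        σ * a ∈ Ideal.span {algebraMap P (integralClosure P L) lam, t} := by
  have := isDedekindDomain_quotient_of_intLift lam hlam hI
  exact exists_locGen _ z hz (ne_span_of_not_isField lam hD hsat z)

/-- Saturation for powers: if `lam · ι w` integral ⟹ `ι w` integral (for `w ∈ Ω`), then the same
holds for `lam ^ s`. -/
theorem isIntegral_of_pow_mul_of_saturated {P L Ω : Type*} [CommRing P] [CommRing L]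
    [Algebra P L] [CommRing Ω] (lam : P) (ι : Ω →+* L) (j : P →+* Ω)
    (hj : ∀ d, ι (j d) = algebraMap P L d)
    (hKL : ∀ w, IsIntegral P (algebraMap P L lam * ι w) → IsIntegral P (ι w)) :
    ∀ (s : ℕ) (w : Ω), IsIntegral P (algebraMap P L (lam ^ s) * ι w) → IsIntegral P (ι w) := by
  intro s
  induction s with
  | zero =>
    intro w hw
    simpa using hw
  | succ s ih =>
    intro w hw
    refine hKL w ?_
    have h : algebraMap P L (lam ^ (s + 1)) * ι w = algebraMap P L (lam ^ s) * ι (j lam * w) := by
      rw [pow_succ, map_mul, map_mul, hj]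
      ring
    rw [h] at hw
    have h2 := ih (j lam * w) hw
    rwa [map_mul, hj] at h2

/-- **Reduction of the chart is ONTO the integral closure of the reduced base** (abstract form).
`P` a domain with `lam` prime, `L ⊇ P` an algebraic field extension, `Ω ⊆ L` a ring (via the
injection `ι`) containing the integral closure `R` of `P` in `L`, `red : Ω → E` a reduction to a
domain with kernel `lam Ω`, injective on `P / lam`, and `Ω` saturated over `R`
(`lam · w` integral ⟹ `w` integral).  With the DN output `IntLift P L lam`, every `red f`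
integral over `red P` is the reduction of an element of `R`. -/
theorem exists_isIntegral_red_eq_of_intLift {P L Ω E : Type*} [CommRing P] [IsDomain P]
    [WfDvdMonoid P] [Field L] [Algebra P L] [Algebra.IsAlgebraic P L] [CommRing Ω] [CommRing E]
    [IsDomain E] (lam : P) (hlam : Prime lam) (hI : IntLift P L lam) (ι : Ω →+* L)
    (hι : Function.Injective ι) (j : P →+* Ω) (hj : ∀ d, ι (j d) = algebraMap P L d)
    (hRΩ : ∀ r : L, IsIntegral P r → ∃ w, ι w = r) (red : Ω →+* E) (hred0 : red (j lam) = 0)
    (hker : ∀ w, red w = 0 → ∃ w', w = j lam * w')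
    (hKL : ∀ w, IsIntegral P (algebraMap P L lam * ι w) → IsIntegral P (ι w))
    (hP : ∀ d, red (j d) = 0 → lam ∣ d) (f : Ω) (hf : (red.comp j).IsIntegralElem (red f)) :
    ∃ r : Ω, IsIntegral P (ι r) ∧ red r = red f := by
  classical
  -- a denominator `lam ^ s * d`, `lam ∤ d`
  obtain ⟨d0, hd0, hd0int⟩ :=
    (Algebra.IsAlgebraic.isAlgebraic (R := P) (ι f)).exists_integral_multiple
  obtain ⟨s, d, hd, rfl⟩ := WfDvdMonoid.max_power_factor hd0 hlam.irreducible
  have hjd : ι (j d * f) = algebraMap P L d * ι f := by rw [map_mul, hj]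
  have ha : IsIntegral P (ι (j d * f)) := by
    refine isIntegral_of_pow_mul_of_saturated lam ι j hj hKL s (j d * f) ?_
    have h : algebraMap P L (lam ^ s) * ι (j d * f) = (lam ^ s * d) • ι f := by
      rw [Algebra.smul_def, hjd, map_mul]
      ring
    rw [h]
    exact hd0int
  -- the integral equation of `red f`
  obtain ⟨p, hp, hpf⟩ := hf
  have hsum : red (f ^ p.natDegree + ∑ i ∈ Finset.range p.natDegree, j (p.coeff i) * f ^ i)
      = 0 := by
    rw [Polynomial.eval₂_eq_sum_range, Finset.sum_range_succ, hp.coeff_natDegree, map_one,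
      one_mul] at hpf
    rw [map_add, map_pow, map_sum, add_comm]
    rw [← hpf]
    congr 1
    refine Finset.sum_congr rfl fun i _ => ?_
    rw [map_mul, map_pow]
    rfl
  obtain ⟨w', hw'⟩ := hker _ hsum
  have key : (j d * f) ^ p.natDegree + ∑ i ∈ Finset.range p.natDegree,
      j (p.coeff i * d ^ (p.natDegree - i)) * (j d * f) ^ i
        = j lam * (j d ^ p.natDegree * w') := by
    have h1 : ∀ i ∈ Finset.range p.natDegree,
        j (p.coeff i * d ^ (p.natDegree - i)) * (j d * f) ^ i
          = j d ^ p.natDegree * (j (p.coeff i) * f ^ i) := by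
      intro i hi
      have hi' : i ≤ p.natDegree := (Finset.mem_range.mp hi).le
      rw [map_mul, map_pow, mul_pow]
      calc j (p.coeff i) * j d ^ (p.natDegree - i) * (j d ^ i * f ^ i)
          = j d ^ (p.natDegree - i + i) * (j (p.coeff i) * f ^ i) := by
            rw [pow_add]
            ring
        _ = j d ^ p.natDegree * (j (p.coeff i) * f ^ i) := by rw [Nat.sub_add_cancel hi']
    rw [Finset.sum_congr rfl h1, ← Finset.mul_sum, mul_pow, ← mul_add, hw']
    ring
  have keyL : ι (j d * f) ^ p.natDegree + ∑ i : Fin p.natDegree,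
      algebraMap P L (p.coeff i * d ^ (p.natDegree - (i : ℕ))) * ι (j d * f) ^ (i : ℕ)
        = algebraMap P L lam * ι (j d ^ p.natDegree * w') := by
    have h := congrArg ι key
    rw [map_add, map_pow, map_sum, map_mul ι (j lam), hj, Finset.sum_range] at h
    rw [← h]
    congr 1
    refine Finset.sum_congr rfl fun i _ => ?_
    simp only [map_mul, map_pow, hj]
  have hy : IsIntegral P (ι (j d ^ p.natDegree * w')) := by
    refine hKL _ ?_
    rw [← keyL]
    refine (ha.pow _).add (IsIntegral.sum _ fun i _ => ?_)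
    exact isIntegral_algebraMap.mul (ha.pow _)
  obtain ⟨r, y, hr, hy', hry⟩ := hI _ ha d hd ⟨p.natDegree, fun i => p.coeff i, _, hy, keyL⟩
  obtain ⟨r₀, rfl⟩ := hRΩ r hr
  obtain ⟨y₀, rfl⟩ := hRΩ y hy'
  refine ⟨r₀, hr, ?_⟩
  have h3 : j d * (r₀ - f) = j lam * y₀ := by
    apply hι
    rw [map_mul, map_mul, map_sub, hj, hj, ← hry, hjd]
    ring
  have h4 : red (j d) * (red r₀ - red f) = 0 := by
    rw [← map_sub, ← map_mul, h3, map_mul, hred0, zero_mul]
  rcases mul_eq_zero.mp h4 with h5 | h5
  · exact absurd (hP d h5) hd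
  · exact sub_eq_zero.mp h5

/-- The same for a valuation subring `O ⊆ L` (residue form): `O ⊇ R`, `red : O → E` with kernel
`lam O`, `O` saturated over `R`.  Then every `red f` integral over `red P` is the reduction of an
element of `O` integral over `P`. -/
theorem exists_isIntegral_residue_eq_of_intLift {P L E : Type*} [CommRing P] [IsDomain P]
    [WfDvdMonoid P] [Field L] [Algebra P L] [Algebra.IsAlgebraic P L] [CommRing E] [IsDomain E]
    (lam : P) (hlam : Prime lam) (hI : IntLift P L lam) (O : ValuationSubring L)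
    (hPO : ∀ d : P, algebraMap P L d ∈ O) (hRO : ∀ r : L, IsIntegral P r → r ∈ O)
    (red : O →+* E) (hred0 : red ⟨algebraMap P L lam, hPO lam⟩ = 0)
    (hker : ∀ y : O, red y = 0 → ∃ y' : O, (y : L) = algebraMap P L lam * y')
    (hKL : ∀ y ∈ O, IsIntegral P (algebraMap P L lam * y) → IsIntegral P y)
    (hP : ∀ d : P, red ⟨algebraMap P L d, hPO d⟩ = 0 → lam ∣ d) (f : O)
    (hf : ∃ p : Polynomial P, p.Monic ∧
      Polynomial.eval₂ (red.comp ((algebraMap P L).codRestrict O hPO)) (red f) p = 0) :
    ∃ r : O, IsIntegral P (r : L) ∧ red r = red f := by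
  refine exists_isIntegral_red_eq_of_intLift lam hlam hI O.subtype Subtype.val_injective
    ((algebraMap P L).codRestrict O hPO) (fun d => rfl) (fun r hr => ⟨⟨r, hRO r hr⟩, rfl⟩) red
    hred0 ?_ ?_ hP f hf
  · intro w hw
    obtain ⟨y', hy'⟩ := hker w hw
    exact ⟨y', Subtype.ext hy'⟩
  · intro w hw
    exact hKL w w.2 hw

end IntLift

end Fermat.Agent.S37.helper1162
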