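import Mathlib
import Fermat.Agent.S18.helper403_ChartBase
import Fermat.Agent.Lib.helper28_TwoDenominators
import Fermat.Agent.S37.helper1162_NormalRegular

/-!
# S37/S34/S35 hedge: the reduced chart is integrally closed, "onto" form, from `IntLift`

Setting of S18 track B (`helper3578.GaussData ϖ t O`, chart ring `P = A[t]`, `R` = integral
closure of `P` in `L`): the DN output `IntLift (A[t]) L ϖ` (e.g. `helper4289.chart_intLift`,
`helper98.intLift_of_dualNormal`) gives

> every element of the residue ring `red O` which is integral over `red (A[t])` is the reduction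
> of an element of the chart `R`,

i.e. the reduction of the integral chart ring is ONTO the integral closure of `k[t̄]` in the
residue field.  The saturation `(KL)` comes from `GaussData.int` and the two-denominator lemma
`helper28.isIntegral_of_two_denominators`.

Section `ChartNormal` (same binders; `R` = integral closure of `A[t]` in `L`, `𝔪_O = ϖ O`):
* `chart_mem_span_iff` : `R ∩ 𝔪_O = ϖ R`;  `chart_isPrime_span` : `ϖ R` is prime;
  `chart_dvd_of_mem_span` : `ϖ R ∩ A[t] = ϖ A[t]`;
* `chart_isDedekindDomain_quotient` : `R ⧸ ϖ R` is a Dedekind domain (`A ⧸ ϖ` a field);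
* `chart_exists_locGen`, `chart_exists_regular_pair` : `𝔪_z = (ϖ, s)` at every closed point `z`
  of the special fibre;
* `chart_onto_adjoin`, `chart_red_isIntegral` : the reduction of `R` is exactly the integral
  closure of `k[t̄]` in the residue ring;
* `chart_isNoetherianRing` : `R` is noetherian for `L / K(t)` finite separable.
-/

set_option autoImplicit false
set_option linter.style.haveILetI false
set_option linter.unusedSectionVars false

noncomputable section

namespace Fermat.Agent.S37.helper1162

open Polynomial IntermediateField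
open Fermat.Agent.S18

section ChartOnto

variable {A K L : Type*} [CommRing A] [IsDomain A] [IsIntegrallyClosed A] [IsNoetherianRing A]
  [Field K] [Algebra A K] [IsFractionRing A K] [Field L] [Algebra K L] [Algebra A L]
  [IsScalarTower A K L]

/-- The chart ring `A[t]` lies in the Gauss valuation ring. -/
theorem gaussData_adjoin_mem {ϖ : A} {t : L} {O : ValuationSubring L}
    (hG : helper3578.GaussData ϖ t O) (c : Algebra.adjoin A {t}) :
    algebraMap (Algebra.adjoin A {t}) L c ∈ O := by
  let O' : Subalgebra A L := { O.toSubring with algebraMap_mem' := hG.le }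
  have h : Algebra.adjoin A {t} ≤ O' := Algebra.adjoin_le (Set.singleton_subset_iff.mpr hG.t_mem)
  exact h c.2

/-- Saturation `(KL)` of the chart in the Gauss ring from `GaussData.int`:
`y ∈ O`, `ϖ y` integral over `A[t]` ⟹ `y` integral over `A[t]`. -/
theorem gaussData_saturated {ϖ : A} (hϖ : Prime ϖ) {t : L} (ht : Transcendental K t)
    {O : ValuationSubring L} (hG : helper3578.GaussData ϖ t O) (y : L) (hy : y ∈ O)
    (h : IsIntegral (Algebra.adjoin A {t})
      (algebraMap (Algebra.adjoin A {t}) L (algebraMap A (Algebra.adjoin A {t}) ϖ) * y)) :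
    IsIntegral (Algebra.adjoin A {t}) y := by
  have htA : Transcendental A t := ht.restrictScalars (IsFractionRing.injective A K)
  haveI : IsIntegrallyClosed (Algebra.adjoin A {t}) := helper403.isIntegrallyClosed_adjoin t htA
  have hπ : Prime (algebraMap A (Algebra.adjoin A {t}) ϖ) :=
    helper403.prime_algebraMap_adjoin hϖ t htA
  obtain ⟨s, ⟨i, hi⟩, hint⟩ := hG.int y hy
  have hnd : ¬ algebraMap A (Algebra.adjoin A {t}) ϖ ∣ helper403.polyEquivAdjoin t htA s := by
    rw [helper403.algebraMap_dvd_polyEquivAdjoin_iff]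
    exact fun hall => hi (hall i)
  have hd0 : helper403.polyEquivAdjoin t htA s ≠ 0 := by
    intro h0
    exact hnd (h0 ▸ dvd_zero _)
  haveI : FaithfulSMul (Algebra.adjoin A {t}) L :=
    (faithfulSMul_iff_algebraMap_injective _ _).mpr Subtype.val_injective
  refine Fermat.Agent.Lib.helper28.isIntegral_of_two_denominators (B := Algebra.adjoin A {t})
    (E := L) hπ.ne_zero hd0 ?_ h hint
  intro n t' hdvd
  exact hπ.pow_dvd_of_dvd_mul_left n (fun hh => hnd (hπ.dvd_of_dvd_pow hh)) hdvd

/-- **The reduced chart is integrally closed, onto form.**  `A` a noetherian integrally closed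
domain with fraction field `K`, `ϖ` a prime of `A`, `L ⊇ K(t)` algebraic with Gauss data
`GaussData ϖ t O`, `red : O →+* E` a reduction map with kernel the maximal ideal of `O`, which is
generated by `ϖ`; and the DN output `IntLift (A[t]) L ϖ`.  Then every `red f` (`f ∈ O`) which is
integral over `red (A[t])` is the reduction of an element of `O` integral over `A[t]`. -/
theorem chart_onto (ϖ : A) (hϖ : Prime ϖ) (t : L) (ht : Transcendental K t)
    [Algebra.IsAlgebraic K⟮t⟯ L] (O : ValuationSubring L) (hG : helper3578.GaussData ϖ t O)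
    (hI : IntLift (Algebra.adjoin A {t}) L (algebraMap A (Algebra.adjoin A {t}) ϖ))
    {E : Type*} [CommRing E] [IsDomain E] (red : O →+* E)
    (hred : ∀ y : O, red y = 0 ↔ (y : L) ∈ O.nonunits)
    (hunif : ∀ y : L, y ∈ O.nonunits → ∃ y' ∈ O, y = algebraMap A L ϖ * y')
    (f : O)
    (hf : (red.comp ((algebraMap (Algebra.adjoin A {t}) L).codRestrict O
      (gaussData_adjoin_mem hG))).IsIntegralElem (red f)) :
    ∃ r : O, IsIntegral (Algebra.adjoin A {t}) (r : L) ∧ red r = red f := by
  have htA : Transcendental A t := ht.restrictScalars (IsFractionRing.injective A K)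
  letI := helper403.algebraAdjoinSimple (A := A) (K := K) t
  haveI := helper403.isFractionRing_adjoinSimple (A := A) (K := K) t
  haveI := helper403.isScalarTower_adjoinSimple (A := A) (K := K) t
  haveI : IsNoetherianRing (Algebra.adjoin A {t}) := helper403.isNoetherianRing_adjoin t htA
  haveI : Algebra.IsAlgebraic (Algebra.adjoin A {t}) L :=
    (IsFractionRing.comap_isAlgebraic_iff (A := Algebra.adjoin A {t}) (K := K⟮t⟯) (C := L)).mpr
      inferInstance
  have hπ : Prime (algebraMap A (Algebra.adjoin A {t}) ϖ) :=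
    helper403.prime_algebraMap_adjoin hϖ t htA
  have hpoly : ∀ c : Algebra.adjoin A {t}, ∃ p : A[X], helper403.polyEquivAdjoin t htA p = c :=
    fun c => ⟨(helper403.polyEquivAdjoin t htA).symm c, AlgEquiv.apply_symm_apply _ c⟩
  refine exists_isIntegral_residue_eq_of_intLift (P := Algebra.adjoin A {t}) (L := L)
    (algebraMap A (Algebra.adjoin A {t}) ϖ) hπ hI O (gaussData_adjoin_mem hG) ?_ red ?_ ?_ ?_ ?_
    f hf
  · -- the chart lies in `O`
    intro r hr
    have hr' : IsIntegral O r := by
      obtain ⟨p, hp, hpr⟩ := hr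
      refine ⟨p.map ((algebraMap (Algebra.adjoin A {t}) L).codRestrict O
        (gaussData_adjoin_mem hG)), hp.map _, ?_⟩
      rw [eval₂_map]
      exact hpr
    obtain ⟨x, hx⟩ := (IsIntegrallyClosed.isIntegral_iff (R := O) (K := L)).mp hr'
    rw [← hx]
    exact x.2
  · -- `red ϖ = 0`
    rw [hred]
    exact hG.unif
  · -- kernel of `red`
    intro y hy
    obtain ⟨y', hy', hyy'⟩ := hunif y ((hred y).mp hy)
    exact ⟨⟨y', hy'⟩, hyy'⟩
  · -- (KL)
    intro y hy h
    exact gaussData_saturated hϖ ht hG y hy h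
  · -- `red` is injective on `A[t] / ϖ`
    intro d hd
    obtain ⟨p, rfl⟩ := hpoly d
    rw [helper403.algebraMap_dvd_polyEquivAdjoin_iff]
    exact hG.prim p ((hred _).mp hd)

end ChartOnto

section ChartNormal

variable {A K L : Type*} [CommRing A] [IsDomain A] [IsIntegrallyClosed A] [IsNoetherianRing A]
  [Field K] [Algebra A K] [IsFractionRing A K] [Field L] [Algebra K L] [Algebra A L]
  [IsScalarTower A K L]

/-- The chart `R` (integral closure of `A[t]` in `L`) lies in the Gauss valuation ring. -/
theorem gaussData_isIntegral_mem {ϖ : A} {t : L} {O : ValuationSubring L}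
    (hG : helper3578.GaussData ϖ t O) {r : L} (hr : IsIntegral (Algebra.adjoin A {t}) r) :
    r ∈ O := by
  have hr' : IsIntegral O r := by
    obtain ⟨p, hp, hpr⟩ := hr
    refine ⟨p.map ((algebraMap (Algebra.adjoin A {t}) L).codRestrict O
      (gaussData_adjoin_mem hG)), hp.map _, ?_⟩
    rw [eval₂_map]
    exact hpr
  obtain ⟨x, hx⟩ := (IsIntegrallyClosed.isIntegral_iff (R := O) (K := L)).mp hr'
  rw [← hx]
  exact x.2

/-- `ϖ R ⊆ R ∩ 𝔪_O`. -/
theorem chart_coe_mem_nonunits_of_mem_span {ϖ : A} {t : L} {O : ValuationSubring L}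
    (hG : helper3578.GaussData ϖ t O) {r : integralClosure (Algebra.adjoin A {t}) L}
    (hr : r ∈ Ideal.span {algebraMap (Algebra.adjoin A {t})
      (integralClosure (Algebra.adjoin A {t}) L) (algebraMap A (Algebra.adjoin A {t}) ϖ)}) :
    (r : L) ∈ O.nonunits := by
  obtain ⟨s, rfl⟩ := Ideal.mem_span_singleton'.mp hr
  have hs : (s : L) ∈ O := gaussData_isIntegral_mem hG s.2
  have h2 : (⟨algebraMap A L ϖ, hG.le ϖ⟩ : O) ∈ IsLocalRing.maximalIdeal O :=
    ValuationSubring.coe_mem_nonunits_iff.mp hG.unif
  have h3 := Ideal.mul_mem_left (IsLocalRing.maximalIdeal O) (⟨(s : L), hs⟩ : O) h2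
  exact ValuationSubring.coe_mem_nonunits_iff.mpr h3

/-- **(D1)** `R ∩ 𝔪_O = ϖ R` for the chart `R` = integral closure of `A[t]` in `L`, when
`𝔪_O = ϖ O`. -/
theorem chart_mem_span_iff (ϖ : A) (hϖ : Prime ϖ) (t : L) (ht : Transcendental K t)
    (O : ValuationSubring L) (hG : helper3578.GaussData ϖ t O)
    (hunif : ∀ y : L, y ∈ O.nonunits → ∃ y' ∈ O, y = algebraMap A L ϖ * y')
    (r : integralClosure (Algebra.adjoin A {t}) L) :
    r ∈ Ideal.span {algebraMap (Algebra.adjoin A {t})
      (integralClosure (Algebra.adjoin A {t}) L) (algebraMap A (Algebra.adjoin A {t}) ϖ)} ↔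
      (r : L) ∈ O.nonunits := by
  refine ⟨chart_coe_mem_nonunits_of_mem_span hG, fun hr => ?_⟩
  obtain ⟨y', hy', hyy'⟩ := hunif _ hr
  have hint : IsIntegral (Algebra.adjoin A {t}) y' := by
    refine gaussData_saturated hϖ ht hG y' hy' ?_
    have h1 : algebraMap (Algebra.adjoin A {t}) L (algebraMap A (Algebra.adjoin A {t}) ϖ) * y'
        = (r : L) := by
      rw [hyy']
      rfl
    rw [h1]
    exact r.2
  refine Ideal.mem_span_singleton'.mpr ⟨⟨y', hint⟩, ?_⟩
  apply Subtype.ext
  rw [hyy', mul_comm]
  rfl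

/-- **(D1)** `ϖ` generates a prime ideal of the chart `R`. -/
theorem chart_isPrime_span (ϖ : A) (hϖ : Prime ϖ) (t : L) (ht : Transcendental K t)
    (O : ValuationSubring L) (hG : helper3578.GaussData ϖ t O)
    (hunif : ∀ y : L, y ∈ O.nonunits → ∃ y' ∈ O, y = algebraMap A L ϖ * y') :
    (Ideal.span {algebraMap (Algebra.adjoin A {t})
      (integralClosure (Algebra.adjoin A {t}) L)
        (algebraMap A (Algebra.adjoin A {t}) ϖ)}).IsPrime := by
  rw [Ideal.isPrime_iff]
  constructor
  · rw [Ideal.ne_top_iff_one, chart_mem_span_iff ϖ hϖ t ht O hG hunif]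
    intro h1
    have h2 : O.valuation (1 : L) < 1 := h1
    rw [map_one] at h2
    exact lt_irrefl _ h2
  · intro x y hxy
    rw [chart_mem_span_iff ϖ hϖ t ht O hG hunif] at hxy ⊢
    rw [chart_mem_span_iff ϖ hϖ t ht O hG hunif]
    have hx : (x : L) ∈ O := gaussData_isIntegral_mem hG x.2
    have hy : (y : L) ∈ O := gaussData_isIntegral_mem hG y.2
    have h1 : (⟨(x : L), hx⟩ : O) * ⟨(y : L), hy⟩ ∈ IsLocalRing.maximalIdeal O :=
      ValuationSubring.coe_mem_nonunits_iff.mp hxy
    rcases (Ideal.IsPrime.mem_or_mem inferInstance h1) with h | h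
    · exact Or.inl (ValuationSubring.coe_mem_nonunits_iff.mpr h)
    · exact Or.inr (ValuationSubring.coe_mem_nonunits_iff.mpr h)

/-- `ϖ R ∩ A[t] = ϖ A[t]`. -/
theorem chart_dvd_of_mem_span (ϖ : A) (t : L) (ht : Transcendental K t)
    (O : ValuationSubring L) (hG : helper3578.GaussData ϖ t O) (p : Algebra.adjoin A {t})
    (hp : algebraMap (Algebra.adjoin A {t}) (integralClosure (Algebra.adjoin A {t}) L) p ∈
      Ideal.span {algebraMap (Algebra.adjoin A {t})
        (integralClosure (Algebra.adjoin A {t}) L) (algebraMap A (Algebra.adjoin A {t}) ϖ)}) :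
    algebraMap A (Algebra.adjoin A {t}) ϖ ∣ p := by
  have htA : Transcendental A t := ht.restrictScalars (IsFractionRing.injective A K)
  have h := chart_coe_mem_nonunits_of_mem_span hG hp
  obtain ⟨f, rfl⟩ : ∃ f : A[X], helper403.polyEquivAdjoin t htA f = p :=
    ⟨(helper403.polyEquivAdjoin t htA).symm p, AlgEquiv.apply_symm_apply _ p⟩
  rw [helper403.algebraMap_dvd_polyEquivAdjoin_iff]
  exact hG.prim f h


/-- The chart `R` is noetherian when `L / K(t)` is finite separable. -/
theorem chart_isNoetherianRing (t : L) (ht : Transcendental K t) [FiniteDimensional K⟮t⟯ L]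
    [Algebra.IsSeparable K⟮t⟯ L] :
    IsNoetherianRing (integralClosure (Algebra.adjoin A {t}) L) := by
  have htA : Transcendental A t := ht.restrictScalars (IsFractionRing.injective A K)
  letI := helper403.algebraAdjoinSimple (A := A) (K := K) t
  haveI := helper403.isFractionRing_adjoinSimple (A := A) (K := K) t
  haveI := helper403.isScalarTower_adjoinSimple (A := A) (K := K) t
  haveI : IsNoetherianRing (Algebra.adjoin A {t}) := helper403.isNoetherianRing_adjoin t htA
  haveI : IsIntegrallyClosed (Algebra.adjoin A {t}) := helper403.isIntegrallyClosed_adjoin t htA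
  exact IsIntegralClosure.isNoetherianRing (Algebra.adjoin A {t}) K⟮t⟯ L
    (integralClosure (Algebra.adjoin A {t}) L)

/-- **(D2)** The special fibre `R ⧸ ϖ R` of the chart is a Dedekind domain (`A ⧸ ϖ` a field,
`R` noetherian, `𝔪_O = ϖ O`, and the DN output `IntLift`). -/
theorem chart_isDedekindDomain_quotient (ϖ : A) (hϖ : Prime ϖ)
    (hmax : (Ideal.span {ϖ}).IsMaximal) (t : L) (ht : Transcendental K t)
    [IsNoetherianRing (integralClosure (Algebra.adjoin A {t}) L)]
    (O : ValuationSubring L) (hG : helper3578.GaussData ϖ t O)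
    (hunif : ∀ y : L, y ∈ O.nonunits → ∃ y' ∈ O, y = algebraMap A L ϖ * y')
    (hI : IntLift (Algebra.adjoin A {t}) L (algebraMap A (Algebra.adjoin A {t}) ϖ)) :
    IsDedekindDomain (integralClosure (Algebra.adjoin A {t}) L ⧸
      Ideal.span {algebraMap (Algebra.adjoin A {t})
        (integralClosure (Algebra.adjoin A {t}) L) (algebraMap A (Algebra.adjoin A {t}) ϖ)}) := by
  have htA : Transcendental A t := ht.restrictScalars (IsFractionRing.injective A K)
  have hπ : Prime (algebraMap A (Algebra.adjoin A {t}) ϖ) :=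
    helper403.prime_algebraMap_adjoin hϖ t htA
  haveI := helper403.isPrincipalIdealRing_adjoin_quotient ϖ hmax t htA
  haveI := chart_isPrime_span ϖ hϖ t ht O hG hunif
  exact isDedekindDomain_quotient_of_intLift _ hπ hI

/-- The special fibre of the chart base `A[t]` is not a field. -/
theorem chart_not_isField_quotient (ϖ : A) (t : L) (htA : Transcendental A t) :
    ¬ IsField (Algebra.adjoin A {t} ⧸
      Ideal.span {algebraMap A (Algebra.adjoin A {t}) ϖ}) := by
  intro h
  exact Polynomial.not_isField (A ⧸ Ideal.span {ϖ})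
    ((helper403.adjoinQuotientEquiv ϖ t htA).toMulEquiv.isField h)

/-- **(D4)** `LocGen` at every closed point of the special fibre of the chart: for every maximal
ideal `z ∋ ϖ` of `R` there is `s ∈ z`, `s ∉ ϖ R`, with `∀ a ∈ z, ∃ σ ∉ z, σ * a ∈ (ϖ, s)`. -/
theorem chart_exists_locGen (ϖ : A) (hϖ : Prime ϖ)
    (hmax : (Ideal.span {ϖ}).IsMaximal) (t : L) (ht : Transcendental K t)
    [IsNoetherianRing (integralClosure (Algebra.adjoin A {t}) L)]
    (O : ValuationSubring L) (hG : helper3578.GaussData ϖ t O)
    (hunif : ∀ y : L, y ∈ O.nonunits → ∃ y' ∈ O, y = algebraMap A L ϖ * y')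
    (hI : IntLift (Algebra.adjoin A {t}) L (algebraMap A (Algebra.adjoin A {t}) ϖ))
    (z : Ideal (integralClosure (Algebra.adjoin A {t}) L)) [z.IsMaximal]
    (hz : algebraMap (Algebra.adjoin A {t}) (integralClosure (Algebra.adjoin A {t}) L)
      (algebraMap A (Algebra.adjoin A {t}) ϖ) ∈ z) :
    ∃ s ∈ z, s ∉ Ideal.span {algebraMap (Algebra.adjoin A {t})
        (integralClosure (Algebra.adjoin A {t}) L) (algebraMap A (Algebra.adjoin A {t}) ϖ)} ∧
      ∀ a ∈ z, ∃ σ, σ ∉ z ∧ σ * a ∈ Ideal.span {algebraMap (Algebra.adjoin A {t})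
        (integralClosure (Algebra.adjoin A {t}) L) (algebraMap A (Algebra.adjoin A {t}) ϖ), s} := by
  have htA : Transcendental A t := ht.restrictScalars (IsFractionRing.injective A K)
  have hπ : Prime (algebraMap A (Algebra.adjoin A {t}) ϖ) :=
    helper403.prime_algebraMap_adjoin hϖ t htA
  haveI := helper403.isPrincipalIdealRing_adjoin_quotient ϖ hmax t htA
  haveI := chart_isPrime_span ϖ hϖ t ht O hG hunif
  exact exists_locGen_of_intLift _ hπ (chart_not_isField_quotient ϖ t htA)
    (chart_dvd_of_mem_span ϖ t ht O hG) hI z hz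

/-- **(D4), local-ring form**: at every maximal ideal `z ∋ ϖ` of the chart `R`, the maximal
ideal of `R_z` is `(ϖ, s)` for some `s ∈ z`, and `ϖ` is prime in `R_z` (regular local ring of
dimension two with `ϖ` a regular parameter). -/
theorem chart_exists_regular_pair (ϖ : A) (hϖ : Prime ϖ)
    (hmax : (Ideal.span {ϖ}).IsMaximal) (t : L) (ht : Transcendental K t)
    [IsNoetherianRing (integralClosure (Algebra.adjoin A {t}) L)]
    (O : ValuationSubring L) (hG : helper3578.GaussData ϖ t O)
    (hunif : ∀ y : L, y ∈ O.nonunits → ∃ y' ∈ O, y = algebraMap A L ϖ * y')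
    (hI : IntLift (Algebra.adjoin A {t}) L (algebraMap A (Algebra.adjoin A {t}) ϖ))
    (z : Ideal (integralClosure (Algebra.adjoin A {t}) L)) [z.IsMaximal]
    (hz : algebraMap (Algebra.adjoin A {t}) (integralClosure (Algebra.adjoin A {t}) L)
      (algebraMap A (Algebra.adjoin A {t}) ϖ) ∈ z) :
    ∃ s ∈ z, IsLocalRing.maximalIdeal (Localization.AtPrime z) =
        Ideal.span {algebraMap (integralClosure (Algebra.adjoin A {t}) L) (Localization.AtPrime z)
            (algebraMap (Algebra.adjoin A {t}) (integralClosure (Algebra.adjoin A {t}) L)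
              (algebraMap A (Algebra.adjoin A {t}) ϖ)),
          algebraMap (integralClosure (Algebra.adjoin A {t}) L) (Localization.AtPrime z) s} ∧
      Prime (algebraMap (integralClosure (Algebra.adjoin A {t}) L) (Localization.AtPrime z)
        (algebraMap (Algebra.adjoin A {t}) (integralClosure (Algebra.adjoin A {t}) L)
          (algebraMap A (Algebra.adjoin A {t}) ϖ))) := by
  have htA : Transcendental A t := ht.restrictScalars (IsFractionRing.injective A K)
  have hπ : Prime (algebraMap A (Algebra.adjoin A {t}) ϖ) :=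
    helper403.prime_algebraMap_adjoin hϖ t htA
  haveI := helper403.isPrincipalIdealRing_adjoin_quotient ϖ hmax t htA
  haveI := chart_isPrime_span ϖ hϖ t ht O hG hunif
  have h0 : algebraMap (Algebra.adjoin A {t}) L (algebraMap A (Algebra.adjoin A {t}) ϖ) ≠ 0 := by
    intro h
    apply hπ.ne_zero
    exact Subtype.ext h
  exact exists_regular_pair_of_intLift _ hπ h0 hI z hz

/-- The reduction of `A[t]` is `k[t̄]`: every element of `k[red t]` is the reduction of an
element of `A[t]` (`k` a quotient of `A` through which `red` factors on constants). -/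
theorem chart_red_range {ϖ : A} {t : L} {O : ValuationSubring L}
    (hG : helper3578.GaussData ϖ t O) {k E : Type*} [CommRing k] [CommRing E] [Algebra k E]
    (red : O →+* E) (resA : A →+* k) (hresA : Function.Surjective resA)
    (hcompat : ∀ a : A, red ⟨algebraMap A L a, hG.le a⟩ = algebraMap k E (resA a))
    (c : E) (hc : c ∈ Algebra.adjoin k {red ⟨t, hG.t_mem⟩}) :
    c ∈ Set.range (red.comp ((algebraMap (Algebra.adjoin A {t}) L).codRestrict O
      (gaussData_adjoin_mem hG))) := by
  induction hc using Algebra.adjoin_induction with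
  | mem y hy =>
    rw [Set.mem_singleton_iff] at hy
    exact ⟨⟨t, Algebra.self_mem_adjoin_singleton A t⟩, hy ▸ rfl⟩
  | algebraMap a =>
    obtain ⟨a', rfl⟩ := hresA a
    exact ⟨algebraMap A (Algebra.adjoin A {t}) a', hcompat a'⟩
  | add x y _ _ hx hy =>
    obtain ⟨x', rfl⟩ := hx
    obtain ⟨y', rfl⟩ := hy
    exact ⟨x' + y', map_add _ _ _⟩
  | mul x y _ _ hx hy =>
    obtain ⟨x', rfl⟩ := hx
    obtain ⟨y', rfl⟩ := hy
    exact ⟨x' * y', map_mul _ _ _⟩

/-- **(D3), B-form.**  Every `g` in the residue ring `E` which is integral over `k[t̄]` is the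
reduction of an element of `O` integral over `A[t]`: the reduction of the chart `R` is the
integral closure of `k[t̄]` in `E`.  (`k` = a quotient of `A` through which the reduction of
constants factors, e.g. the residue field of `A`; `red` surjective with kernel `𝔪_O = ϖ O`.) -/
theorem chart_onto_adjoin (ϖ : A) (hϖ : Prime ϖ) (t : L) (ht : Transcendental K t)
    [Algebra.IsAlgebraic K⟮t⟯ L] (O : ValuationSubring L) (hG : helper3578.GaussData ϖ t O)
    (hI : IntLift (Algebra.adjoin A {t}) L (algebraMap A (Algebra.adjoin A {t}) ϖ))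
    {k E : Type*} [CommRing k] [CommRing E] [IsDomain E] [Algebra k E] (red : O →+* E)
    (hred : ∀ y : O, red y = 0 ↔ (y : L) ∈ O.nonunits)
    (hunif : ∀ y : L, y ∈ O.nonunits → ∃ y' ∈ O, y = algebraMap A L ϖ * y')
    (hsurj : Function.Surjective red) (resA : A →+* k) (hresA : Function.Surjective resA)
    (hcompat : ∀ a : A, red ⟨algebraMap A L a, hG.le a⟩ = algebraMap k E (resA a))
    (g : E) (hg : IsIntegral (Algebra.adjoin k {red ⟨t, hG.t_mem⟩}) g) :
    ∃ f : L, IsIntegral (Algebra.adjoin A {t}) f ∧ ∃ hf : f ∈ O, red ⟨f, hf⟩ = g := by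
  obtain ⟨f₀, rfl⟩ := hsurj g
  obtain ⟨q, hq, hq0⟩ := hg
  have hlift : q.map (algebraMap (Algebra.adjoin k {red ⟨t, hG.t_mem⟩}) E) ∈
      Polynomial.lifts (red.comp ((algebraMap (Algebra.adjoin A {t}) L).codRestrict O
        (gaussData_adjoin_mem hG))) := by
    rw [Polynomial.lifts_iff_coeff_lifts]
    intro n
    rw [Polynomial.coeff_map]
    exact chart_red_range hG red resA hresA hcompat _ (q.coeff n).2
  obtain ⟨p, hpq, -, hp⟩ := Polynomial.lifts_and_degree_eq_and_monic hlift (hq.map _)
  have hf : (red.comp ((algebraMap (Algebra.adjoin A {t}) L).codRestrict O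
      (gaussData_adjoin_mem hG))).IsIntegralElem (red f₀) := by
    refine ⟨p, hp, ?_⟩
    rw [← Polynomial.eval_map, hpq, Polynomial.eval_map]
    exact hq0
  obtain ⟨r, hr, hrf⟩ := chart_onto ϖ hϖ t ht O hG hI red hred hunif f₀ hf
  exact ⟨(r : L), hr, r.2, hrf⟩

/-- Converse inclusion: the reduction of an element of the chart `R` is integral over `k[t̄]`. -/
theorem chart_red_isIntegral {ϖ : A} {t : L} {O : ValuationSubring L}
    (hG : helper3578.GaussData ϖ t O) {k E : Type*} [CommRing k] [CommRing E] [Algebra k E]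
    (red : O →+* E) (resA : A →+* k)
    (hcompat : ∀ a : A, red ⟨algebraMap A L a, hG.le a⟩ = algebraMap k E (resA a))
    (f : O) (hf : IsIntegral (Algebra.adjoin A {t}) (f : L)) :
    IsIntegral (Algebra.adjoin k {red ⟨t, hG.t_mem⟩}) (red f) := by
  have hrange : ∀ x : Algebra.adjoin A {t},
      (red.comp ((algebraMap (Algebra.adjoin A {t}) L).codRestrict O
        (gaussData_adjoin_mem hG))) x ∈ Algebra.adjoin k {red ⟨t, hG.t_mem⟩} := by
    rintro ⟨x, hx⟩
    induction hx using Algebra.adjoin_induction with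
    | mem y hy =>
      rw [Set.mem_singleton_iff] at hy
      subst hy
      exact Algebra.subset_adjoin (Set.mem_singleton _)
    | algebraMap a =>
      have h1 : (red.comp ((algebraMap (Algebra.adjoin A {t}) L).codRestrict O
          (gaussData_adjoin_mem hG))) ⟨algebraMap A L a, Subalgebra.algebraMap_mem _ a⟩ =
            algebraMap k E (resA a) := hcompat a
      rw [h1]
      exact Subalgebra.algebraMap_mem _ _
    | add x y hx hy ihx ihy =>
      have h1 : (⟨x + y, add_mem hx hy⟩ : Algebra.adjoin A {t}) = ⟨x, hx⟩ + ⟨y, hy⟩ := rfl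
      rw [h1, map_add]
      exact add_mem ihx ihy
    | mul x y hx hy ihx ihy =>
      have h1 : (⟨x * y, mul_mem hx hy⟩ : Algebra.adjoin A {t}) = ⟨x, hx⟩ * ⟨y, hy⟩ := rfl
      rw [h1, map_mul]
      exact mul_mem ihx ihy
  obtain ⟨p, hp, hp0⟩ := hf
  refine ⟨p.map ((red.comp ((algebraMap (Algebra.adjoin A {t}) L).codRestrict O
    (gaussData_adjoin_mem hG))).codRestrict (Algebra.adjoin k {red ⟨t, hG.t_mem⟩}) hrange),
    hp.map _, ?_⟩
  rw [Polynomial.eval₂_map]
  have hcomp : (algebraMap (Algebra.adjoin k {red ⟨t, hG.t_mem⟩}) E).comp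
      ((red.comp ((algebraMap (Algebra.adjoin A {t}) L).codRestrict O
        (gaussData_adjoin_mem hG))).codRestrict (Algebra.adjoin k {red ⟨t, hG.t_mem⟩}) hrange) =
      red.comp ((algebraMap (Algebra.adjoin A {t}) L).codRestrict O
        (gaussData_adjoin_mem hG)) := RingHom.ext fun x => rfl
  rw [hcomp, ← Polynomial.hom_eval₂]
  have h0 : Polynomial.eval₂ ((algebraMap (Algebra.adjoin A {t}) L).codRestrict O
      (gaussData_adjoin_mem hG)) f p = 0 := by
    apply Subtype.ext
    have h2 := Polynomial.hom_eval₂ p ((algebraMap (Algebra.adjoin A {t}) L).codRestrict O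
      (gaussData_adjoin_mem hG)) O.subtype f
    exact h2.trans hp0
  rw [h0, map_zero]

end ChartNormal

end Fermat.Agent.S37.helper1162
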