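import Mathlib
import Fermat.Prelude.Def_ModularCurve_ArithmeticGalois
import Fermat.Agent.S37.helper2025_GaloisPoints

/-!
# S37/S18-RATPT : places of `F = laurentBaseChange L F₀` over an algebraic closure `L` of `ℚ`
are rational over a number field

`L` is an algebraically closed field, algebraic over `ℚ` (e.g. `AlgebraicClosure ℚ`),
`K₀ : IntermediateField ℚ L`, `FK K₀ = laurentBaseChange K₀ F₀` is the `K₀`-form of `F` and
`baseChangeHom` the coefficientwise embedding `FK K₀ → F`.

* `descSub F₀ K₀` : the subfield of Laurent series over `L` that come from the `K₀`-form;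
  monotone in `K₀`; every element of `F` lies in `descSub F₀ K₀` for some finite `K₀`.
* `IsDefinedOver F₀ K₀ v` : the place `v` is fixed by every `σ ∈ Gal(L/K₀)`.
* `exists_finite_isDefinedOver` : every place is defined over a finite extension of `ℚ`
  (open stabiliser).
* `value_mem_of_isDefinedOver` : a place defined over `K₀` is `K₀`-RATIONAL: the values at `v`
  of the functions defined over `K₀` lie in `K₀`.
-/

set_option autoImplicit false

noncomputable section

open AlgebraicCurve ModularCurve HahnSeries IntermediateField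
open scoped Pointwise

namespace Fermat.Agent.S37.helper3783

open Fermat.Agent.S37.helper2025

section Coeff

variable {K L : Type*} [Field K] [Field L]

theorem coeffMap_algebraMap_general (φ : K →+* L) (c : K) :
    coeffMap φ (algebraMap K (LaurentSeries K) c) = algebraMap L (LaurentSeries L) (φ c) := by
  rw [algebraMap_laurentSeries_eq_single, algebraMap_laurentSeries_eq_single, coeffMap_single]

variable [Algebra ℚ K] [Algebra ℚ L]

theorem coeffMap_coeffEmb_general (φ : K →+* L) (x : LaurentSeries ℚ) :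
    coeffMap φ (coeffEmb K x) = coeffEmb L x := by
  rw [coeffEmb, coeffMap_coeffMap]
  exact coeffMap_congr (RingHom.ext fun c => by
    rw [RingHom.comp_apply, eq_ratCast (algebraMap ℚ K) c, eq_ratCast (algebraMap ℚ L) c,
      map_ratCast]) x

variable (F₀ : IntermediateField ℚ (LaurentSeries ℚ))

theorem coeffMap_mem_laurentBaseChange_general (φ : K →+* L) {x : LaurentSeries K}
    (hx : x ∈ laurentBaseChange K F₀) : coeffMap φ x ∈ laurentBaseChange L F₀ := by
  rw [mem_laurentBaseChange_iff] at hx
  induction hx using Subfield.closure_induction with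
  | mem y hy =>
      rcases hy with ⟨a, rfl⟩ | ⟨z, hz, rfl⟩
      · rw [coeffMap_algebraMap_general]
        exact (laurentBaseChange L F₀).algebraMap_mem _
      · rw [coeffMap_coeffEmb_general]
        exact coeffEmb_mem_laurentBaseChange L hz
  | one => simp
  | add x y _ _ hx hy => simpa using add_mem hx hy
  | neg x _ hx => simpa using neg_mem hx
  | inv x _ hx => simpa using inv_mem hx
  | mul x y _ _ hx hy => simpa using mul_mem hx hy

/-- coefficientwise base change `laurentBaseChange K F₀ → laurentBaseChange L F₀` along a field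
homomorphism `φ : K → L`. -/
def baseChangeHom (φ : K →+* L) : laurentBaseChange K F₀ →+* laurentBaseChange L F₀ where
  toFun x := ⟨coeffMap φ (x : LaurentSeries K), coeffMap_mem_laurentBaseChange_general F₀ φ x.2⟩
  map_one' := Subtype.ext (map_one _)
  map_mul' x y := Subtype.ext (map_mul _ _ _)
  map_zero' := Subtype.ext (map_zero _)
  map_add' x y := Subtype.ext (map_add _ _ _)

@[simp]
theorem coe_baseChangeHom (φ : K →+* L) (x : laurentBaseChange K F₀) :
    ((baseChangeHom F₀ φ x : laurentBaseChange L F₀) : LaurentSeries L)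
      = coeffMap φ (x : LaurentSeries K) := rfl

theorem baseChangeHom_algebraMap (φ : K →+* L) (c : K) :
    baseChangeHom F₀ φ (algebraMap K (laurentBaseChange K F₀) c)
      = algebraMap L (laurentBaseChange L F₀) (φ c) :=
  Subtype.ext (coeffMap_algebraMap_general φ c)

end Coeff

section Desc

variable {L : Type*} [Field L] [Algebra ℚ L]
variable (F₀ : IntermediateField ℚ (LaurentSeries ℚ))

/-- The Laurent series over `L` coming from the `K₀`-form `laurentBaseChange K₀ F₀`. -/
def descSub (K₀ : IntermediateField ℚ L) : Subfield (LaurentSeries L) :=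
  (laurentBaseChange K₀ F₀).toSubfield.map (coeffMap (algebraMap K₀ L))

/-- the inclusion of intermediate fields as a ring homomorphism. -/
def inclHom {K₀ K₁ : IntermediateField ℚ L} (h : K₀ ≤ K₁) : K₀ →+* K₁ where
  toFun x := ⟨x, h x.2⟩
  map_one' := rfl
  map_mul' _ _ := rfl
  map_zero' := rfl
  map_add' _ _ := rfl

@[simp]
theorem coe_inclHom {K₀ K₁ : IntermediateField ℚ L} (h : K₀ ≤ K₁) (x : K₀) :
    ((inclHom h x : K₁) : L) = x := rfl

variable {F₀}

theorem mem_descSub_iff {K₀ : IntermediateField ℚ L} {y : LaurentSeries L} :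
    y ∈ descSub F₀ K₀ ↔
      ∃ x ∈ laurentBaseChange K₀ F₀, coeffMap (algebraMap K₀ L) x = y := by
  rw [descSub, Subfield.mem_map]
  rfl

theorem descSub_le (K₀ : IntermediateField ℚ L) :
    descSub F₀ K₀ ≤ (laurentBaseChange L F₀).toSubfield := by
  intro y hy
  obtain ⟨x, hx, rfl⟩ := mem_descSub_iff.mp hy
  exact coeffMap_mem_laurentBaseChange_general F₀ _ hx

theorem descSub_mono {K₀ K₁ : IntermediateField ℚ L} (h : K₀ ≤ K₁) :
    descSub F₀ K₀ ≤ descSub F₀ K₁ := by
  intro y hy
  obtain ⟨x, hx, rfl⟩ := mem_descSub_iff.mp hy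
  refine mem_descSub_iff.mpr
    ⟨coeffMap (inclHom h) x,
      coeffMap_mem_laurentBaseChange_general F₀ _ hx, ?_⟩
  rw [coeffMap_coeffMap]
  exact coeffMap_congr (RingHom.ext fun c => rfl) x

theorem algebraMap_mem_descSub {K₀ : IntermediateField ℚ L} {a : L} (ha : a ∈ K₀) :
    algebraMap L (LaurentSeries L) a ∈ descSub F₀ K₀ :=
  mem_descSub_iff.mpr ⟨algebraMap K₀ (LaurentSeries K₀) ⟨a, ha⟩,
    (laurentBaseChange K₀ F₀).algebraMap_mem _, coeffMap_algebraMap_general _ _⟩

theorem coeffEmb_mem_descSub (K₀ : IntermediateField ℚ L) {z : LaurentSeries ℚ} (hz : z ∈ F₀) :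
    coeffEmb L z ∈ descSub F₀ K₀ :=
  mem_descSub_iff.mpr ⟨coeffEmb K₀ z, coeffEmb_mem_laurentBaseChange K₀ hz,
    coeffMap_coeffEmb_general _ _⟩

/-- the elements of `F` defined over `K₀` are exactly the image of `baseChangeHom`. -/
theorem mem_descSub_iff_range {K₀ : IntermediateField ℚ L} {x : laurentBaseChange L F₀} :
    (x : LaurentSeries L) ∈ descSub F₀ K₀ ↔
      ∃ x₀ : laurentBaseChange K₀ F₀, baseChangeHom F₀ (algebraMap K₀ L) x₀ = x := by
  rw [mem_descSub_iff]
  constructor
  · rintro ⟨y, hy, h⟩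
    exact ⟨⟨y, hy⟩, Subtype.ext h⟩
  · rintro ⟨x₀, rfl⟩
    exact ⟨x₀, x₀.2, rfl⟩

/-- (RP0) every element of `F = laurentBaseChange L F₀` is defined over a finite extension
of `ℚ` inside `L`. -/
theorem exists_finite_mem_descSub [Algebra.IsAlgebraic ℚ L] {y : LaurentSeries L}
    (hy : y ∈ laurentBaseChange L F₀) :
    ∃ K₀ : IntermediateField ℚ L, FiniteDimensional ℚ K₀ ∧ y ∈ descSub F₀ K₀ := by
  rw [mem_laurentBaseChange_iff] at hy
  induction hy using Subfield.closure_induction with
  | mem y hy =>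
      rcases hy with ⟨a, rfl⟩ | ⟨z, hz, rfl⟩
      · refine ⟨ℚ⟮a⟯, ?_, algebraMap_mem_descSub (mem_adjoin_simple_self ℚ a)⟩
        exact adjoin.finiteDimensional (Algebra.IsIntegral.isIntegral a)
      · exact ⟨⊥, inferInstance, coeffEmb_mem_descSub ⊥ hz⟩
  | one => exact ⟨⊥, inferInstance, one_mem _⟩
  | add x y _ _ hx hy =>
      obtain ⟨K₁, _, hx⟩ := hx
      obtain ⟨K₂, _, hy⟩ := hy
      exact ⟨K₁ ⊔ K₂, inferInstance,
        add_mem (descSub_mono le_sup_left hx) (descSub_mono le_sup_right hy)⟩
  | neg x _ hx =>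
      obtain ⟨K₁, h₁, hx⟩ := hx
      exact ⟨K₁, h₁, neg_mem hx⟩
  | inv x _ hx =>
      obtain ⟨K₁, h₁, hx⟩ := hx
      exact ⟨K₁, h₁, inv_mem hx⟩
  | mul x y _ _ hx hy =>
      obtain ⟨K₁, _, hx⟩ := hx
      obtain ⟨K₂, _, hy⟩ := hy
      exact ⟨K₁ ⊔ K₂, inferInstance,
        mul_mem (descSub_mono le_sup_left hx) (descSub_mono le_sup_right hy)⟩

/-- (RP0) finitely many elements of `F` are simultaneously defined over a finite extension of
`ℚ` containing a prescribed one. -/
theorem exists_finite_forall_mem_descSub [Algebra.IsAlgebraic ℚ L]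
    (S : Finset (laurentBaseChange L F₀)) (K₀₀ : IntermediateField ℚ L)
    [FiniteDimensional ℚ K₀₀] :
    ∃ K₀ : IntermediateField ℚ L, K₀₀ ≤ K₀ ∧ FiniteDimensional ℚ K₀ ∧
      ∀ x ∈ S, (x : LaurentSeries L) ∈ descSub F₀ K₀ := by
  classical
  induction S using Finset.induction_on with
  | empty => exact ⟨K₀₀, le_rfl, inferInstance, by simp⟩
  | insert x S _ ih =>
      obtain ⟨K₁, h₁, hfin₁, hS⟩ := ih
      obtain ⟨K₂, hfin₂, hx⟩ := exists_finite_mem_descSub (F₀ := F₀) x.2
      refine ⟨K₁ ⊔ K₂, h₁.trans le_sup_left, inferInstance, fun y hy => ?_⟩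
      rcases Finset.mem_insert.mp hy with rfl | hy
      · exact descSub_mono le_sup_right hx
      · exact descSub_mono le_sup_left (hS y hy)

/-- functions defined over `K₀` are fixed by the automorphisms of `L` fixing `K₀`. -/
theorem coeffMap_eq_self_of_mem_descSub {K₀ : IntermediateField ℚ L} (σ : L ≃ₐ[ℚ] L)
    (hσ : ∀ a ∈ K₀, σ a = a) {y : LaurentSeries L} (hy : y ∈ descSub F₀ K₀) :
    coeffMap (σ : L →+* L) y = y := by
  obtain ⟨x, _, rfl⟩ := mem_descSub_iff.mp hy
  rw [coeffMap_coeffMap]
  exact coeffMap_congr (RingHom.ext fun (c : K₀) => hσ (c : L) c.2) x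

theorem arithmeticGalois_smul_eq_self_of_mem_descSub {K₀ : IntermediateField ℚ L}
    (σ : L ≃ₐ[ℚ] L) (hσ : ∀ a ∈ K₀, σ a = a) {x : laurentBaseChange L F₀}
    (hx : (x : LaurentSeries L) ∈ descSub F₀ K₀) : arithmeticGalois F₀ σ • x = x :=
  Subtype.ext (by
    rw [coe_arithmeticGalois_smul]
    exact coeffMap_eq_self_of_mem_descSub σ hσ hx)

end Desc

section Places

variable {K F : Type*} [Field K] [Field F] [Algebra K F]

/-- two distinct places are incomparable: there is a function regular at `v` with a pole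
at `w`. -/
theorem exists_mem_not_mem_of_ne {v w : Place K F} (h : v ≠ w) :
    ∃ g : F, g ∈ v.toValuationSubring ∧ g ∉ w.toValuationSubring := by
  by_contra hcon
  push Not at hcon
  apply h
  ext1
  refine le_antisymm (fun g hg => hcon g hg) ?_
  set V := w.toValuationSubring.valuation with hV
  have hle : ∀ g ∈ v.toValuationSubring, V g ≤ 1 := fun g hg =>
    (w.toValuationSubring.valuation_le_one_iff g).mpr (hcon g hg)
  obtain ⟨π, hπ⟩ := IsDiscreteValuationRing.exists_irreducible v.toValuationSubring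
  have hπ0 : (π : F) ≠ 0 := by
    simpa [ne_eq, ZeroMemClass.coe_eq_zero] using hπ.ne_zero
  have hunit : ∀ u : v.toValuationSubringˣ, V ((u : v.toValuationSubring) : F) = 1 := by
    intro u
    have h1 := hle _ (u : v.toValuationSubring).2
    have h2 := hle _ ((u⁻¹ : v.toValuationSubringˣ) : v.toValuationSubring).2
    have h3 : V ((u : v.toValuationSubring) : F) * V (((u⁻¹ : v.toValuationSubringˣ) :
        v.toValuationSubring) : F) = 1 := by
      rw [← map_mul, ← MulMemClass.coe_mul, ← Units.val_mul, mul_inv_cancel]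
      simp
    rcases lt_or_eq_of_le h1 with h4 | h4
    · exfalso
      have : V ((u : v.toValuationSubring) : F) * V (((u⁻¹ : v.toValuationSubringˣ) :
          v.toValuationSubring) : F) < 1 := by
        calc _ ≤ V ((u : v.toValuationSubring) : F) * 1 := by gcongr
          _ < 1 := by rwa [mul_one]
      exact absurd h3 (ne_of_lt this)
    · exact h4
  have hVπ0 : 0 < V (π : F) := by
    rw [zero_lt_iff, ne_eq, Valuation.zero_iff]
    exact hπ0
  -- the uniformiser of `v` is not a unit at `w`
  have hVπ : V (π : F) < 1 := by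
    rcases lt_or_eq_of_le (hle _ π.2) with h1 | h1
    · exact h1
    · exfalso
      apply w.ne_top'
      refine eq_top_iff.mpr fun x _ => ?_
      rcases eq_or_ne x 0 with rfl | hx
      · exact zero_mem _
      obtain ⟨u, hu⟩ := v.exists_unit_mul_zpow hx hπ
      rw [← w.toValuationSubring.valuation_le_one_iff, ← hV, hu, map_mul, map_zpow₀, hunit, h1,
        one_zpow, one_mul]
  intro x hx
  rcases eq_or_ne x 0 with rfl | hx0
  · exact zero_mem _
  obtain ⟨u, hu⟩ := v.exists_unit_mul_zpow hx0 hπ
  have hVx : V x ≤ 1 := (w.toValuationSubring.valuation_le_one_iff x).mpr hx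
  rw [hu, map_mul, map_zpow₀, hunit, one_mul] at hVx
  have hn : 0 ≤ v.ord x := by
    by_contra hneg
    push Not at hneg
    exact absurd hVx (not_le.mpr (one_lt_zpow_of_neg₀ hVπ0 hVπ hneg))
  rw [hu]
  refine mul_mem (u : v.toValuationSubring).2 ?_
  lift v.ord x to ℕ using hn with n
  rw [zpow_natCast]
  exact pow_mem π.2 n

/-- finitely many functions pin down a place: a semilinear automorphism fixing them fixes the
place (`S` = a uniformiser `t` of `v` together with, for each other zero `w` of `t`, a function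
regular at `v` with a pole at `w`). -/
theorem exists_finset_forall_smul_eq [HasPrincipalDivisors K F] (v : Place K F) :
    ∃ S : Finset F, ∀ g : SemilinearAut K F, (∀ x ∈ S, g • x = x) → g • v = v := by
  classical
  obtain ⟨π, hπ⟩ := IsDiscreteValuationRing.exists_irreducible v.toValuationSubring
  have ht0 : (π : F) ≠ 0 := by
    simpa [ne_eq, ZeroMemClass.coe_eq_zero] using hπ.ne_zero
  have hordt : v.ord (π : F) = 1 := v.ord_coe_irreducible hπ
  obtain ⟨D, hD, -⟩ := HasPrincipalDivisors.exists_divisor (K := K) (π : F) ht0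
  have hg : ∀ w : Place K F, ∃ g : F,
      w ≠ v → g ∈ v.toValuationSubring ∧ g ∉ w.toValuationSubring := by
    intro w
    by_cases h : w = v
    · exact ⟨0, fun h' => absurd h h'⟩
    · obtain ⟨g, hg⟩ := exists_mem_not_mem_of_ne (Ne.symm h)
      exact ⟨g, fun _ => hg⟩
  choose g hg using hg
  refine ⟨insert (π : F) (D.support.image g), fun σ hσ => ?_⟩
  by_contra hne
  have ht' : σ • (π : F) = π := hσ _ (Finset.mem_insert_self _ _)
  have hordw : (σ • v).ord (π : F) = 1 := by
    have h1 := SemilinearAut.ord_smul σ v (π : F)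
    rw [ht'] at h1
    rw [h1, hordt]
  have hwD : σ • v ∈ D.support := by
    rw [Finsupp.mem_support_iff, hD, hordw]
    exact one_ne_zero
  have hgw := hg _ hne
  have hg' := hσ _ (Finset.mem_insert_of_mem (Finset.mem_image_of_mem g hwD))
  have h2 := (mem_smul_place_iff σ v (g (σ • v))).mpr hgw.1
  rw [hg'] at h2
  exact hgw.2 h2

/-- the value of a fixed function at a fixed place is fixed by the base automorphism. -/
theorem baseAut_eq_of_hasValueAt {v : Place K F} {x : F} {a : K} (g : SemilinearAut K F)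
    (hv : g • v = v) (hx : g • x = x) (ha : HasValueAt v x a) :
    SemilinearAut.baseAut g a = a := by
  have h1 := ha.smul g
  rw [hv, hx] at h1
  exact h1.unique ha

end Places

section Rational

variable {L : Type*} [Field L] [Algebra ℚ L]
variable (F₀ : IntermediateField ℚ (LaurentSeries ℚ))

/-- (RP1) The place `v` is DEFINED OVER `K₀`: it is fixed by every automorphism of `L` fixing
`K₀` pointwise (arithmetic Galois action of the Prelude). -/
def IsDefinedOver (K₀ : IntermediateField ℚ L) (v : Place L (laurentBaseChange L F₀)) : Prop :=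
  ∀ σ : L ≃ₐ[ℚ] L, (∀ a ∈ K₀, σ a = a) → arithmeticGalois F₀ σ • v = v

variable {F₀}

theorem IsDefinedOver.mono {K₀ K₁ : IntermediateField ℚ L} (h : K₀ ≤ K₁)
    {v : Place L (laurentBaseChange L F₀)} (hv : IsDefinedOver F₀ K₀ v) :
    IsDefinedOver F₀ K₁ v :=
  fun σ hσ => hv σ fun a ha => hσ a (h ha)

/-- (RP2) OPEN STABILISER: every place of `F = laurentBaseChange L F₀` is defined over a finite
extension of `ℚ` (which can be chosen to contain a prescribed one). -/
theorem exists_finite_isDefinedOver [Algebra.IsAlgebraic ℚ L]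
    [HasPrincipalDivisors L (laurentBaseChange L F₀)]
    (v : Place L (laurentBaseChange L F₀)) (K₀₀ : IntermediateField ℚ L)
    [FiniteDimensional ℚ K₀₀] :
    ∃ K₀ : IntermediateField ℚ L, K₀₀ ≤ K₀ ∧ FiniteDimensional ℚ K₀ ∧
      IsDefinedOver F₀ K₀ v := by
  obtain ⟨S, hS⟩ := exists_finset_forall_smul_eq v
  obtain ⟨K₀, hle, hfin, hK⟩ := exists_finite_forall_mem_descSub (F₀ := F₀) S K₀₀
  exact ⟨K₀, hle, hfin, fun σ hσ => hS _ fun x hx =>
    arithmeticGalois_smul_eq_self_of_mem_descSub σ hσ (hK x hx)⟩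

/-- the fixed field of `Gal(L/K₀)` is `K₀`. -/
theorem mem_of_forall_fixed [IsAlgClosed L] [Algebra.IsAlgebraic ℚ L]
    (K₀ : IntermediateField ℚ L) {a : L}
    (h : ∀ σ : L ≃ₐ[ℚ] L, (∀ c ∈ K₀, σ c = c) → σ a = a) : a ∈ K₀ := by
  have : CharZero L := algebraRat.charZero L
  have : Algebra.IsAlgebraic K₀ L := Algebra.IsAlgebraic.tower_top (K := ℚ) K₀
  have : IsAlgClosure K₀ L := ⟨inferInstance, inferInstance⟩
  have h2 : a ∈ Set.range (algebraMap K₀ L) := by
    rw [InfiniteGalois.mem_range_algebraMap_iff_fixed]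
    intro f
    have hf : ∀ q : ℚ, f.toRingEquiv (algebraMap ℚ L q) = algebraMap ℚ L q := fun q => by
      rw [eq_ratCast (algebraMap ℚ L) q]
      exact map_ratCast f.toRingEquiv q
    have := h (AlgEquiv.ofRingEquiv hf) (fun c hc => f.commutes ⟨c, hc⟩)
    exact this
  obtain ⟨c, rfl⟩ := h2
  exact c.2

/-- (RP3) RATIONALITY: a place defined over `K₀` is `K₀`-rational: the value at `v` of every
function defined over `K₀` lies in `K₀`. -/
theorem value_mem_of_isDefinedOver [IsAlgClosed L] [Algebra.IsAlgebraic ℚ L]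
    {K₀ : IntermediateField ℚ L} {v : Place L (laurentBaseChange L F₀)}
    (hv : IsDefinedOver F₀ K₀ v) {x : laurentBaseChange L F₀}
    (hx : (x : LaurentSeries L) ∈ descSub F₀ K₀) {a : L} (ha : HasValueAt v x a) : a ∈ K₀ := by
  refine mem_of_forall_fixed K₀ fun σ hσ => ?_
  exact baseAut_eq_of_hasValueAt (arithmeticGalois F₀ σ) (hv σ hσ)
    (arithmeticGalois_smul_eq_self_of_mem_descSub σ hσ hx) ha

end Rational

end Fermat.Agent.S37.helper3783
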