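import Mathlib
import Fermat.Agent.S18.helper897_GaussData
import Fermat.Agent.S18.helper4364_GaussInv
import Fermat.Agent.S18.helper1581_VerticalApp
import Fermat.Agent.S18.helper403_ChartBase
import Fermat.Agent.S18.helper98_DualNormal
import Fermat.Agent.S18.helper2684_VertRes
import Fermat.Agent.S18.helper2128_RamDedekind
import Fermat.Agent.S18.helper8185_RamData
import Fermat.Agent.S37.helper3783_RationalPoints

/-!
# S37, Track B, node TB-REGCUSP (helper4289): trace-duality normality on a chart, generic part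

Generic chart `P = A[t]` of a function field `L ⊇ K(t)`, `K = Frac A`, `ϖ` a prime of `A` with
`A/ϖ` a field.

* `chart_vert` : clause (c) (vertical unit discriminant) on the chart from `GaussData` and the
  residue data of the Gauss place (`helper1581.exists_integral_basis_discr_not_dvd'` with a
  trivial Kummer layer).
* `chart_intLift` : (c) + horizontal tameness away from `G`, `G` squarefree modulo `ϖ`
  ⟹ `helper98.IntLift (A[t]) L ϖ` (the special fibre of the normalisation is integrally closed).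
-/

set_option autoImplicit false
set_option synthInstance.maxHeartbeats 400000
set_option linter.unusedSectionVars false
set_option linter.style.haveILetI false

noncomputable section

namespace Fermat.Agent.S37.helper4289

open Polynomial IntermediateField
open Fermat.Agent.S18

open scoped IntermediateField.algebraAdjoinAdjoin

section Chart

variable {A K L : Type*} [CommRing A] [IsDomain A] [IsIntegrallyClosed A] [Field K] [CharZero K]
  [Algebra A K] [IsFractionRing A K] [Field L] [Algebra K L] [Algebra A L] [IsScalarTower A K L]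

/-- Every element of the chart ring `A[t]` lies in a valuation subring containing `A` and `t`. -/
theorem adjoin_le_valuationSubring (t : L) (O : ValuationSubring L)
    (hle : ∀ a : A, algebraMap A L a ∈ O) (ht : t ∈ O) (c : Algebra.adjoin A {t}) :
    (c : L) ∈ O := by
  let O' : Subalgebra A L := { O.toSubring with algebraMap_mem' := hle }
  have h : Algebra.adjoin A {t} ≤ O' := Algebra.adjoin_le (Set.singleton_subset_iff.mpr ht)
  exact h c.2

/-- **(c) on a chart.** Gauss data for the coordinate `t`, a surjective reduction of the Gauss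
valuation ring onto a field `Fκ` separable over a subfield `κ` containing the reductions of `A`
and of `t`, and `[L : K(t)] ≤ [Fκ : κ]`, give a `K(t)`-basis of `L`, integral over `A[t]`, whose
discriminant lies in `A[t]` and is not divisible by `ϖ` (shape `hc` of `helper1148.dualBound`
and of `helper403.chart_dualBound`). -/
theorem chart_vert (ϖ : A) (t : L) (O : ValuationSubring L) (hG : helper3578.GaussData ϖ t O)
    (ht : Transcendental K t) [FiniteDimensional K⟮t⟯ L]
    {κ Fκ : Type*} [Field κ] [Field Fκ] [Algebra κ Fκ] [Algebra.IsSeparable κ Fκ]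
    (red : O →+* Fκ) (hred : Function.Surjective red)
    (hRA : ∀ a : A, red ⟨algebraMap A L a, hG.le a⟩ ∈ Set.range (algebraMap κ Fκ))
    (hRt : red ⟨t, hG.t_mem⟩ ∈ Set.range (algebraMap κ Fκ))
    (hR3 : Module.finrank K⟮t⟯ L ≤ Module.finrank κ Fκ) :
    letI := helper403.algebraAdjoinSimple (A := A) (K := K) t
    ∃ (ι : Type) (_ : Fintype ι) (_ : DecidableEq ι) (c : Module.Basis ι K⟮t⟯ L)
      (d : Algebra.adjoin A {t}), (∀ i, IsIntegral (Algebra.adjoin A {t}) (c i)) ∧
      Algebra.discr K⟮t⟯ c = algebraMap (Algebra.adjoin A {t}) K⟮t⟯ d ∧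
      ¬ algebraMap A (Algebra.adjoin A {t}) ϖ ∣ d := by
  classical
  letI := helper403.algebraAdjoinSimple (A := A) (K := K) t
  haveI := helper403.isFractionRing_adjoinSimple (A := A) (K := K) t
  haveI := helper403.isScalarTower_adjoinSimple (A := A) (K := K) t
  have htA : Transcendental A t := ht.restrictScalars (IsFractionRing.injective A K)
  haveI : IsIntegrallyClosed (Algebra.adjoin A {t}) := helper403.isIntegrallyClosed_adjoin t htA
  -- (O1)
  have hO1 : ∀ c : Algebra.adjoin A {t}, algebraMap (Algebra.adjoin A {t}) L c ∈ O :=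
    fun c => adjoin_le_valuationSubring t O hG.le hG.t_mem c
  -- every element of the chart ring is a polynomial in `t`
  have hpoly : ∀ c : Algebra.adjoin A {t}, ∃ p : A[X], helper403.polyEquivAdjoin t htA p = c :=
    fun c => ⟨(helper403.polyEquivAdjoin t htA).symm c, AlgEquiv.apply_symm_apply _ c⟩
  -- (O2)
  have hO2 : ∀ c : Algebra.adjoin A {t}, algebraMap (Algebra.adjoin A {t}) L c ∈ O.nonunits →
      algebraMap A (Algebra.adjoin A {t}) ϖ ∣ c := by
    intro c hc
    obtain ⟨p, rfl⟩ := hpoly c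
    rw [helper403.algebraMap_dvd_polyEquivAdjoin_iff]
    exact hG.prim p hc
  -- (O3)
  have hO3 : ∀ x ∈ O, ∃ s : Algebra.adjoin A {t},
      ¬ algebraMap A (Algebra.adjoin A {t}) ϖ ∣ s ∧
        IsIntegral (Algebra.adjoin A {t}) (algebraMap (Algebra.adjoin A {t}) L s * x) := by
    intro x hx
    obtain ⟨s, ⟨i, hi⟩, hint⟩ := hG.int x hx
    refine ⟨helper403.polyEquivAdjoin t htA s, ?_, hint⟩
    rw [helper403.algebraMap_dvd_polyEquivAdjoin_iff]
    exact fun hall => hi (hall i)
  -- (O5)
  have hO5 : algebraMap (Algebra.adjoin A {t}) L (algebraMap A (Algebra.adjoin A {t}) ϖ) ∈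
      O.nonunits := hG.unif
  -- (R1)
  have hR1 : ∀ c : Algebra.adjoin A {t},
      red ⟨algebraMap (Algebra.adjoin A {t}) L c, hO1 c⟩ ∈ Set.range (algebraMap κ Fκ) := by
    let R0 : Subring O := (algebraMap κ Fκ).range.comap red
    let S : Subalgebra A L :=
      { (R0.map O.subtype) with
        algebraMap_mem' := fun a => ⟨⟨algebraMap A L a, hG.le a⟩, hRA a, rfl⟩ }
    have hS : Algebra.adjoin A {t} ≤ S :=
      Algebra.adjoin_le (Set.singleton_subset_iff.mpr ⟨⟨t, hG.t_mem⟩, hRt, rfl⟩)
    intro c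
    obtain ⟨y, hy, hyc⟩ := hS c.2
    have : y = ⟨algebraMap (Algebra.adjoin A {t}) L c, hO1 c⟩ := Subtype.ext hyc
    rw [← this]
    exact hy
  obtain ⟨d, c, δ, hint, hdisc, hnd⟩ :=
    helper1581.exists_integral_basis_discr_not_dvd' (C := Algebra.adjoin A {t}) (K := K⟮t⟯)
      (F := L) (L := L) (κ := κ) (Fκ := Fκ)
      (algebraMap A (Algebra.adjoin A {t}) ϖ) O hO1 hO2 hO3 hO5 red hred hR1 hR3
      1 one_pos (by simp) 1 IsPrimitiveRoot.one (1 : L) (1 : L) (by simp) O.one_mem
      (by simp) (by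
        rw [Module.finrank_self, minpoly.one, ← Polynomial.C_1, Polynomial.natDegree_X_sub_C])
  exact ⟨_, inferInstance, inferInstance, c, δ, hint, hdisc, hnd⟩

/-- **Trace-duality normality on a chart, integral-lift form.** On the chart `P = A[t]` (`A`
noetherian integrally closed, `ϖ` prime with `A/ϖ` a field, `K = Frac A = A[1/ϖ]`), the vertical
unit discriminant (c) and the horizontal tameness of the generic fibre away from `G(t) = 0`, with
`G` squarefree modulo `ϖ`, give `helper98.IntLift (A[t]) L ϖ`: the special fibre of the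
normalisation of the chart is integrally closed.  (Composition
`helper98.intLift_of_dualNormal ∘ helper403.chart_dualBound`.) -/
theorem chart_intLift [IsNoetherianRing A] (t : L) (ht : Transcendental K t)
    [FiniteDimensional K⟮t⟯ L] (ϖ : A) (hϖ : Prime ϖ) (hmax : (Ideal.span {ϖ}).IsMaximal)
    (hK : ∀ x : K, ∃ (k : ℕ) (a : A), algebraMap A K (ϖ ^ k) * x = algebraMap A K a)
    (hc : letI := helper403.algebraAdjoinSimple (A := A) (K := K) t
      ∃ (ι : Type) (_ : Fintype ι) (_ : DecidableEq ι) (c : Module.Basis ι K⟮t⟯ L)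
        (d : Algebra.adjoin A {t}), (∀ i, IsIntegral (Algebra.adjoin A {t}) (c i)) ∧
        Algebra.discr K⟮t⟯ c = algebraMap (Algebra.adjoin A {t}) K⟮t⟯ d ∧
        ¬ algebraMap A (Algebra.adjoin A {t}) ϖ ∣ d)
    (G : A[X]) (hGsq : Squarefree (G.map (Ideal.Quotient.mk (Ideal.span {ϖ}))))
    (hs : ∀ Q : Ideal ↥(integralClosure (Algebra.adjoin K {t}) L), Q.IsPrime → Q ≠ ⊥ →
      (∀ x ∈ Q, (x : L) ≠ aeval t G) →
      ¬ Q ^ 2 ∣ (Q.under (Algebra.adjoin K {t})).map
        (algebraMap (Algebra.adjoin K {t}) ↥(integralClosure (Algebra.adjoin K {t}) L))) :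
    helper98.IntLift (Algebra.adjoin A {t}) L (algebraMap A (Algebra.adjoin A {t}) ϖ) := by
  classical
  have htA : Transcendental A t := ht.restrictScalars (IsFractionRing.injective A K)
  letI := helper403.algebraAdjoinSimple (A := A) (K := K) t
  haveI := helper403.isFractionRing_adjoinSimple (A := A) (K := K) t
  haveI := helper403.isScalarTower_adjoinSimple (A := A) (K := K) t
  haveI : IsIntegrallyClosed (Algebra.adjoin A {t}) := helper403.isIntegrallyClosed_adjoin t htA
  haveI : IsNoetherianRing (Algebra.adjoin A {t}) := helper403.isNoetherianRing_adjoin t htA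
  haveI : CharZero K⟮t⟯ := charZero_of_injective_algebraMap (algebraMap K K⟮t⟯).injective
  have hπ : Prime (algebraMap A (Algebra.adjoin A {t}) ϖ) :=
    helper403.prime_algebraMap_adjoin hϖ t htA
  haveI : IsPrincipalIdealRing (Algebra.adjoin A {t} ⧸
      Ideal.span {algebraMap A (Algebra.adjoin A {t}) ϖ}) :=
    helper403.isPrincipalIdealRing_adjoin_quotient ϖ hmax t htA
  have hG' : Squarefree (Ideal.Quotient.mk
      (Ideal.span {algebraMap A (Algebra.adjoin A {t}) ϖ}) (helper403.polyEquivAdjoin t htA G)) :=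
    helper403.squarefree_mk_polyEquivAdjoin ϖ t htA G hGsq
  have hGmem : aeval t G ∈ Algebra.adjoin K {t} :=
    helper403.adjoin_le_adjoin_base (K := K) t (helper403.polyEquivAdjoin t htA G).2
  let GB : ↥(integralClosure (Algebra.adjoin K {t}) L) :=
    ⟨aeval t G, (isIntegral_algebraMap (R := Algebra.adjoin K {t}) (x := ⟨aeval t G, hGmem⟩) :
      IsIntegral (Algebra.adjoin K {t}) (algebraMap (Algebra.adjoin K {t}) L ⟨aeval t G, hGmem⟩))⟩
  have hGB : (GB : L) = ((helper403.polyEquivAdjoin t htA G : Algebra.adjoin A {t}) : L) := rfl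
  have ha := helper403.chart_dualBound (A := A) (K := K) (L := L) t ht ϖ hϖ hK hc
    (helper403.polyEquivAdjoin t htA G) GB hGB (fun Q hQ hQ0 hGQ => hs Q hQ hQ0 (fun x hx hxe =>
      hGQ (by
        have : x = GB := Subtype.ext hxe
        rw [← this]
        exact hx)))
  obtain ⟨ι, hFin, hDec, c, d, hint, hcd, hnd⟩ := hc
  exact helper98.intLift_of_dualNormal (P := Algebra.adjoin A {t}) (K := K⟮t⟯) (L := L) _ hπ c d
    hint hcd hnd (helper403.polyEquivAdjoin t htA G) hG' (Module.finrank K⟮t⟯ L)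
    Module.finrank_pos ha

end Chart

/-! ## Discrete valuation rings -/

section DVR

variable {A K : Type*} [CommRing A] [IsDomain A] [IsDiscreteValuationRing A] [Field K]
  [Algebra A K] [IsFractionRing A K]

/-- `K = A[1/ϖ]` for a discrete valuation ring `A` with uniformiser `ϖ`. -/
theorem exists_pow_mul_eq_algebraMap {ϖ : A} (hϖ : Irreducible ϖ) (x : K) :
    ∃ (k : ℕ) (a : A), algebraMap A K (ϖ ^ k) * x = algebraMap A K a := by
  obtain ⟨a, b, hb, rfl⟩ := IsFractionRing.div_surjective (A := A) x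
  have hb0 : b ≠ 0 := nonZeroDivisors.ne_zero hb
  obtain ⟨n, u, rfl⟩ := IsDiscreteValuationRing.eq_unit_mul_pow_irreducible hb0 hϖ
  refine ⟨n, a * ((u⁻¹ : Aˣ) : A), ?_⟩
  have hinj := IsFractionRing.injective A K
  have hϖK : algebraMap A K (ϖ ^ n) ≠ 0 := by
    rw [Ne, map_eq_zero_iff _ hinj]
    exact pow_ne_zero n hϖ.ne_zero
  have huK : algebraMap A K (u : A) ≠ 0 := by
    rw [Ne, map_eq_zero_iff _ hinj]
    exact u.ne_zero
  have hu' : algebraMap A K ((u⁻¹ : Aˣ) : A) * algebraMap A K (u : A) = 1 := by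
    rw [← map_mul, Units.inv_mul, map_one]
  rw [map_mul (algebraMap A K) (u : A), map_mul (algebraMap A K) a]
  field_simp
  linear_combination (-(algebraMap A K) a) * hu'

theorem isMaximal_span_of_irreducible {ϖ : A} (hϖ : Irreducible ϖ) :
    (Ideal.span {ϖ}).IsMaximal := by
  rw [← (IsDiscreteValuationRing.irreducible_iff_uniformizer ϖ).mp hϖ]
  infer_instance

end DVR

/-! ## The cusp base chart `A[1/j]` of `F_{M,L}` -/

section Modular

open Fermat.Agent.S18.helper897 Fermat.Agent.S18.helper508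
open Fermat.Agent.S24.helper24 (Kbar FN jBar)
open ModularCurve AlgebraicCurve

variable (M : ℕ) [NeZero M] (ℓ : ℕ) [Fact ℓ.Prime] (hℓM : ¬ ℓ ∣ M)
variable {L : Type} [Field L] [Algebra ℚ L] (A : ValuationSubring L)
  (hA : (ℓ : L) ∈ A.nonunits)

attribute [local instance] helper897.algAF

/-- The tower `A → L → F_{M,L}`. -/
theorem isScalarTower_AF : IsScalarTower ↥A L (FL M L) :=
  IsScalarTower.of_algebraMap_eq (fun _ => rfl)

attribute [local instance] isScalarTower_AF

/-- The cusp coordinate `u = 1/j`. -/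
abbrev uF : FL M L := (jF M L)⁻¹

theorem jF_ne_zero : jF M L ≠ 0 := by
  intro h
  exact (transcendental_jF M (L := L)) (h ▸ isAlgebraic_zero)

theorem transcendental_uF : Transcendental L (uF M (L := L)) :=
  helper403.transcendental_inv (transcendental_jF M)

include hℓM hA in
theorem finiteDimensional_uF : FiniteDimensional ↥L⟮uF M (L := L)⟯ (FL M L) := by
  haveI := finiteDimensional_adjoin_jF M ℓ hℓM A hA
  exact helper403.finiteDimensional_adjoinSimple_inv (jF M L)

include hℓM hA in
/-- **(c) on the cusp base chart**: a `L(u)`-basis of `F_{M,L}`, integral over `A[u]`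
(`u = 1/j`), with discriminant in `A[u]` not divisible by `ϖ`. -/
theorem cusp_vert [IsDiscreteValuationRing ↥A] [PerfectField (IsLocalRing.ResidueField ↥A)]
    (ϖ : ↥A) (hϖ : Irreducible ϖ) :
    letI := helper403.algebraAdjoinSimple (A := ↥A) (K := L) (uF M (L := L))
    ∃ (ι : Type) (_ : Fintype ι) (_ : DecidableEq ι)
      (c : Module.Basis ι ↥L⟮uF M (L := L)⟯ (FL M L))
      (d : Algebra.adjoin ↥A {uF M (L := L)}),
      (∀ i, IsIntegral (Algebra.adjoin ↥A {uF M (L := L)}) (c i)) ∧
      Algebra.discr ↥L⟮uF M (L := L)⟯ c =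
        algebraMap (Algebra.adjoin ↥A {uF M (L := L)}) ↥L⟮uF M (L := L)⟯ d ∧
      ¬ algebraMap ↥A (Algebra.adjoin ↥A {uF M (L := L)}) ϖ ∣ d := by
  haveI : CharZero L := algebraRat.charZero L
  haveI := finiteDimensional_uF M ℓ hℓM A hA
  haveI := helper2684.isSeparable_fullC M ℓ hℓM A hA
  have hG : helper3578.GaussData ϖ (uF M (L := L)) (gaussO M ℓ hℓM A hA) :=
    helper4364.gaussData_inv (gaussData M ℓ hℓM A hA ϖ hϖ.maximalIdeal_eq)
  refine chart_vert (A := ↥A) (K := L) (L := FL M L)
    (κ := ↥(IsLocalRing.ResidueField ↥A)⟮helper9392.jbarC (IsLocalRing.ResidueField ↥A) M⟯)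
    (Fκ := ↥(modularFunctionFieldFullC (IsLocalRing.ResidueField ↥A) M))
    ϖ (uF M (L := L)) (gaussO M ℓ hℓM A hA) hG
    (transcendental_uF M) (gaussResidue M ℓ hℓM A hA) (gaussResidue_surjective M ℓ hℓM A hA)
    ?_ ?_ ?_
  · intro a
    obtain ⟨_, h⟩ := helper2684.gaussResidue_mem_range_of_mem_adjoin M ℓ hℓM A hA
      (algebraMap ↥A (FL M L) a) (Subalgebra.algebraMap_mem _ a)
    exact h
  · obtain ⟨hjO, y, hy⟩ := helper2684.gaussResidue_mem_range_of_mem_adjoin M ℓ hℓM A hA
      (jF M L) (Algebra.self_mem_adjoin_singleton _ _)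
    refine ⟨y⁻¹, ?_⟩
    have h1 : (⟨uF M (L := L), hG.t_mem⟩ : ↥(gaussO M ℓ hℓM A hA)) * ⟨jF M L, hjO⟩ = 1 :=
      Subtype.ext (inv_mul_cancel₀ (jF_ne_zero M))
    have h2 := congrArg (gaussResidue M ℓ hℓM A hA) h1
    rw [map_mul, map_one, ← hy] at h2
    rw [map_inv₀]
    exact (eq_inv_of_mul_eq_one_left h2).symm
  · refine helper2684.finrank_bar_le_finrank_fullC M ℓ hℓM A hA ↥L⟮uF M (L := L)⟯ ?_ ?_
    · intro c
      exact ⟨algebraMap L ↥L⟮uF M (L := L)⟯ c, rfl⟩
    · refine ⟨⟨jF M L, ?_⟩, rfl⟩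
      have := inv_mem (mem_adjoin_simple_self L (uF M (L := L)))
      rwa [uF, inv_inv] at this

/-! ### Horizontal tameness: the generic fibre is unramified over the `u`-line away from
`u (1728 u - 1) = 0` -/

section Horizontal

variable [Algebra L Kbar]

/-- The coefficientwise embedding `F_{M,L} → F_M` into the function field over `ℚ̄`. -/
def toBar : FL M L →+* FN M :=
  helper3783.baseChangeHom (modularFunctionFieldFull M) (algebraMap L Kbar)

theorem toBar_jF : toBar M (jF M L) = jBar M := by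
  apply Subtype.ext
  rw [toBar, helper3783.coe_baseChangeHom, coe_jF, Fermat.Agent.S24.helper24.coe_jBar,
    coeffMap_jqModC]
  exact (coeffMap_jqModC (algebraMap ℚ Kbar)).symm

theorem toBar_algebraMap (c : L) :
    toBar M (algebraMap L (FL M L) c) = algebraMap Kbar (FN M) (algebraMap L Kbar c) :=
  helper3783.baseChangeHom_algebraMap _ _ c

theorem isAlgebraic_Kbar : Algebra.IsAlgebraic L Kbar := by
  haveI : IsScalarTower ℚ L Kbar := IsScalarTower.of_algebraMap_eq (fun q => by
    rw [eq_ratCast (algebraMap ℚ Kbar), eq_ratCast (algebraMap ℚ L), map_ratCast])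
  haveI : Algebra.IsAlgebraic ℚ Kbar := AlgebraicClosure.isAlgebraic ℚ
  exact Algebra.IsAlgebraic.tower_top (K := ℚ) L

set_option maxHeartbeats 1600000 in
/-- **(hs) on the cusp base chart**: every nonzero prime `Q` of the integral closure of `L[u]`
in `F_{M,L}` (`u = 1/j`) which does not contain `u (1728 u - 1)` is unramified over `L[u]`.
From the S24 ramification data of `F_M / ℚ̄(j)` through `helper2128.jline_inv_not_sq_dvd`. -/
theorem cusp_horiz
    (Q : Ideal ↥(integralClosure (Algebra.adjoin L {uF M (L := L)}) (FL M L))) (hQ : Q.IsPrime)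
    (hQ0 : Q ≠ ⊥)
    (hGQ : ∀ x ∈ Q, (x : FL M L) ≠ uF M (L := L) * (1728 * uF M (L := L) - 1)) :
    ¬ Q ^ 2 ∣ (Q.under (Algebra.adjoin L {uF M (L := L)})).map
      (algebraMap (Algebra.adjoin L {uF M (L := L)})
        ↥(integralClosure (Algebra.adjoin L {uF M (L := L)}) (FL M L))) := by
  letI algFF : Algebra (FL M L) (FN M) := (toBar M).toAlgebra
  letI algLF : Algebra L (FN M) :=
    ((algebraMap Kbar (FN M)).comp (algebraMap L Kbar)).toAlgebra
  haveI : IsScalarTower L Kbar (FN M) := IsScalarTower.of_algebraMap_eq (fun _ => rfl)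
  haveI : IsScalarTower L (FL M L) (FN M) :=
    IsScalarTower.of_algebraMap_eq (fun c => (toBar_algebraMap M c).symm)
  haveI : Algebra.IsAlgebraic L Kbar := isAlgebraic_Kbar
  have hj : algebraMap (FL M L) (FN M) (jF M L) = jBar M := toBar_jF M
  have hx : Transcendental Kbar (algebraMap (FL M L) (FN M) (jF M L)) := by
    rw [hj]
    exact Fermat.Agent.S24.helper3176.transcendental_jBar M
  haveI : FiniteDimensional ↥Kbar⟮algebraMap (FL M L) (FN M) (jF M L)⟯ (FN M) := by
    rw [hj]
    exact (helper8185.stmt_JFinrank M).1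
  -- the element `u (1728 u - 1)` of the normalisation
  have hmem : uF M (L := L) * (1728 * uF M (L := L) - 1) ∈ Algebra.adjoin L {uF M (L := L)} := by
    have hu : uF M (L := L) ∈ Algebra.adjoin L {uF M (L := L)} :=
      Algebra.self_mem_adjoin_singleton _ _
    exact mul_mem hu (sub_mem (mul_mem (ofNat_mem _ 1728) hu) (one_mem _))
  let GB : ↥(integralClosure (Algebra.adjoin L {uF M (L := L)}) (FL M L)) :=
    ⟨uF M (L := L) * (1728 * uF M (L := L) - 1),
      (isIntegral_algebraMap (R := Algebra.adjoin L {uF M (L := L)}) (x := ⟨_, hmem⟩) :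
        IsIntegral (Algebra.adjoin L {uF M (L := L)})
          (algebraMap (Algebra.adjoin L {uF M (L := L)}) (FL M L) ⟨_, hmem⟩))⟩
  have hR1 : ∀ c : Kbar, c ≠ 0 → c ≠ 1728 → ∀ v : Place Kbar (FN M),
      0 < v.ord (algebraMap (FL M L) (FN M) (jF M L) - algebraMap Kbar (FN M) c) →
      v.ord (algebraMap (FL M L) (FN M) (jF M L) - algebraMap Kbar (FN M) c) = 1 := by
    intro c hc0 hc v hv
    rw [hj] at hv ⊢
    exact helper8185.ord_j_sub_eq_one M c hc0 hc v hv
  have hGB : (GB : FL M L) = (jF M L)⁻¹ * (1728 * (jF M L)⁻¹ - 1) := rfl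
  have hGQ' : GB ∉ Q := fun hmemQ => hGQ GB hmemQ rfl
  exact helper2128.jline_inv_not_sq_dvd (K₀ := L) (K := Kbar) (F₀ := FL M L) (F := FN M)
    (jF M L) hx hR1 Q hQ hQ0 GB hGB hGQ'

end Horizontal

/-! ### The main statement -/

include hℓM hA in
/-- **TB-REGCUSP, normality form.** For every prime `ℓ ∤ M` (including `ℓ = 2, 3`), a discrete
valuation ring `A` of a field `L ⊆ ℚ̄` over `ℓ` with perfect residue field and uniformiser `ϖ`:
the special fibre of the normalisation of the cusp base chart `A[u]`, `u = 1/j`, in the function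
field `F_{M,L}` of `X₀(M)` over `L` is integrally closed, in the form
`helper98.IntLift (A[u]) F_{M,L} ϖ`.  Branch polynomial `G = X (1728 X - 1)` (squarefree modulo
every `ℓ`). -/
theorem cusp_intLift [Algebra L Kbar] [IsDiscreteValuationRing ↥A]
    [PerfectField (IsLocalRing.ResidueField ↥A)] (ϖ : ↥A) (hϖ : Irreducible ϖ) :
    helper98.IntLift (Algebra.adjoin ↥A {uF M (L := L)}) (FL M L)
      (algebraMap ↥A (Algebra.adjoin ↥A {uF M (L := L)}) ϖ) := by
  haveI : CharZero L := algebraRat.charZero L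
  haveI := finiteDimensional_uF M ℓ hℓM A hA
  haveI hmax := isMaximal_span_of_irreducible hϖ
  refine chart_intLift (A := ↥A) (K := L) (L := FL M L) (uF M (L := L)) (transcendental_uF M) ϖ
    hϖ.prime hmax (exists_pow_mul_eq_algebraMap hϖ) (cusp_vert M ℓ hℓM A hA ϖ hϖ)
    (X * (C 1728 * X - 1)) ?_ ?_
  · letI : Field (↥A ⧸ Ideal.span {ϖ}) := Ideal.Quotient.field _
    rw [Polynomial.map_mul, Polynomial.map_sub, Polynomial.map_mul, Polynomial.map_X,
      Polynomial.map_C, Polynomial.map_one]
    exact helper403.squarefree_X_mul_C_mul_X_sub_one _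
  · intro Q hQ hQ0 hGQ
    refine cusp_horiz M Q hQ hQ0 (fun x hx => ?_)
    have h := hGQ x hx
    rw [map_mul, map_sub, map_mul, aeval_X, aeval_C, map_one, map_ofNat] at h
    exact h

end Modular

end Fermat.Agent.S37.helper4289
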