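import Mathlib
import Fermat.Agent.S18.helper403_TGlobalPurity
import Fermat.Agent.Lib.helper187_Purity

/-!
# S37-TB-REGFIN, abstract core (helper530)

Regularity of the integral closure of the arithmetic affine line at the closed points of the
special fibre, in the ELEMENTWISE shape consumed by `S37.helper1812` (`LocGen z π t`).

Setting (the one of `S18.helper403`): `A` a noetherian integrally closed domain (think: a DVR
`O = A ∩ K` with uniformiser `lam`), `lam` a prime element with `A/(lam)` a field,
`K = Frac A[X]`, `L / K` finite separable, `M` the integral closure of `A[X]` in `L`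
(`X ↦` the Hauptmodul `h` of `X₀(4)` resp. `X₀(9)`, `L = F_{M,K}`).

`𝔪 = (lam, g)` a closed point of the special fibre of `Spec A[X]`.  Hypothesis (discriminant
form, `S18.helper403.UnramifiedAt`): `L / K` is unramified at every prime of `A[X]` through `𝔪`
which is minimal over a nonzero principal ideal (the vertical prime `(lam)` and the horizontal
primes through the point).

* `exists_mul_mem_span_pair_abstract`, `exists_mul_mem_span_pair_localization` : at every maximal
  ideal `n` of the localisation `R` of `M` at `𝔪` there is `s ∉ n` with `s * n ⊆ (lam, g) R`.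
* `locGen_of_unramified` : for every prime `z` of `M` lying over `𝔪`:
  `∀ a ∈ z, ∃ σ ∉ z, σ * a ∈ (lam, g) M`, i.e. `z M_z = (lam, g) M_z`.
* `locGen_of_unramified'` : the same with `g` produced from `𝔪` (monic, irreducible mod `lam`).
* `not_mem_span_of_not_dvd` : `g ∉ lam M`.
* `locGen_of_vertical_horizontal` : the same from the VERTICAL clause (`UnramifiedAt` at `(lam)`)
  and the HORIZONTAL clause (`UnramifiedAt` at the prime elements `f ∈ 𝔪`, `lam ∤ f`).
* `unramifiedAt_vertical` (RF-V) : the vertical clause from a reduction map `ψ : M → Ω` with the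
  kernel lemma `ψ m = 0 → m ∈ lam M` and separability of the residue extension.
-/

set_option autoImplicit false

namespace Fermat.Agent.S37.helper530

open Polynomial Ideal

section Abstract

variable {A : Type*} [CommRing A] [IsDomain A] [IsIntegrallyClosed A] [IsNoetherianRing A]

omit [IsDomain A] [IsIntegrallyClosed A] [IsNoetherianRing A] in
/-- If `C lam ∤ g` then the reduction of `g` modulo `lam` is nonzero. -/
theorem map_mk_ne_zero_of_not_dvd (lam : A) {g : A[X]} (hg : ¬ C lam ∣ g) :
    g.map (Ideal.Quotient.mk (Ideal.span {lam})) ≠ 0 := by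
  intro h0
  apply hg
  rw [Polynomial.C_dvd_iff_dvd_coeff]
  intro i
  have h3 := congrArg (fun q => Polynomial.coeff q i) h0
  simp only [Polynomial.coeff_map, Polynomial.coeff_zero] at h3
  exact Ideal.mem_span_singleton.mp (Ideal.Quotient.eq_zero_iff_mem.mp h3)

set_option maxHeartbeats 800000 in
/-- **TB-REGFIN, abstract local form.** Purity at a closed point `𝔪 = (lam, g)` of the arithmetic
affine line over `A`: if `L / Frac A[X]` is unramified (discriminant form) at every prime of
`A[X]` which is minimal over a nonzero principal ideal and contained in `𝔪`, then at every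
maximal ideal `n` of the localisation `R` of the integral closure `M` at `𝔪`, the maximal ideal
is generated by `lam` and `g` (elementwise form). -/
theorem exists_mul_mem_span_pair_abstract
    (lam : A) (hlam : Prime lam) (hmax : (Ideal.span {lam}).IsMaximal)
    (K : Type*) [Field K] [Algebra A[X] K] [IsFractionRing A[X] K]
    (L : Type*) [Field L] [Algebra K L] [Algebra A[X] L] [IsScalarTower A[X] K L]
    [FiniteDimensional K L] [Algebra.IsSeparable K L]
    (M : Type*) [CommRing M] [Algebra A[X] M] [Algebra M L] [IsScalarTower A[X] M L]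
    [IsIntegralClosure M A[X] L]
    (𝔪 : Ideal A[X]) [h𝔪 : 𝔪.IsMaximal] (g : A[X]) (hg : ¬ C lam ∣ g)
    (h𝔪eq : 𝔪 = Ideal.span {C lam, g})
    (B : Type*) [CommRing B] [Algebra A[X] B] [IsLocalization.AtPrime B 𝔪]
    [Algebra B K] [IsScalarTower A[X] B K] [Algebra B L] [IsScalarTower B K L]
    (R : Type*) [CommRing R] [Algebra M R]
    [IsLocalization (Algebra.algebraMapSubmonoid M 𝔪.primeCompl) R]
    [Algebra R L] [IsScalarTower M R L] [Algebra B R] [IsScalarTower B R L]
    [Algebra A[X] R] [IsScalarTower A[X] M R] [IsScalarTower A[X] B R]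
    (hunr : ∀ (a : A[X]) (p : Ideal A[X]), a ≠ 0 → p ∈ (Ideal.span {a}).minimalPrimes → p ≤ 𝔪 →
      Fermat.Agent.S18.helper403.UnramifiedAt K L M p)
    (n : Ideal R) [hn : n.IsMaximal] :
    ∃ s : R, s ∉ n ∧ ∀ x ∈ n, s * x ∈
      Ideal.span {algebraMap M R (algebraMap A[X] M (C lam)),
        algebraMap M R (algebraMap A[X] M g)} := by
  have hmem : C lam ∈ 𝔪 := by
    rw [h𝔪eq]; exact Ideal.subset_span (Set.mem_insert _ _)
  have hPK : Function.Injective (algebraMap A[X] K) := IsFractionRing.injective A[X] K
  have hPL : Function.Injective (algebraMap A[X] L) := by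
    rw [IsScalarTower.algebraMap_eq A[X] K L]
    exact (algebraMap K L).injective.comp hPK
  have hPB : Function.Injective (algebraMap A[X] B) :=
    IsLocalization.injective B (Ideal.primeCompl_le_nonZeroDivisors 𝔪)
  have : IsScalarTower A[X] B L := IsScalarTower.of_algebraMap_eq (fun x => by
    rw [IsScalarTower.algebraMap_apply A[X] K L, IsScalarTower.algebraMap_apply A[X] B K,
      ← IsScalarTower.algebraMap_apply B K L])
  have : IsDomain B :=
    IsLocalization.isDomain_of_le_nonZeroDivisors B (Ideal.primeCompl_le_nonZeroDivisors 𝔪)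
  have : IsFractionRing B K :=
    IsFractionRing.isFractionRing_of_isDomain_of_isLocalization 𝔪.primeCompl B K
  have : IsLocalRing B := IsLocalization.AtPrime.isLocalRing B 𝔪
  have : IsIntegrallyClosed B := Fermat.Agent.S18.helper403.isIntegrallyClosed_localization 𝔪 B
  have : IsNoetherianRing B := Fermat.Agent.S18.helper403.isNoetherianRing_localization 𝔪 B
  have hS : ∀ s ∈ 𝔪.primeCompl, algebraMap A[X] L s ≠ 0 := by
    intro s hs
    rw [Ne, map_eq_zero_iff _ hPL]
    rintro rfl
    exact hs 𝔪.zero_mem
  have : IsIntegralClosure R B L :=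
    Fermat.Agent.S18.helper403.isIntegralClosure_localization (P := A[X]) (M := M)
      𝔪.primeCompl hS
  have hm := Fermat.Agent.S18.helper403.maximalIdeal_localization_eq_span lam g 𝔪 h𝔪eq B
  have hlamB := Fermat.Agent.S18.helper403.prime_algebraMap_C lam hlam 𝔪 hmem B
  have hlg : ¬ algebraMap A[X] B (C lam) ∣ algebraMap A[X] B g := by
    rintro ⟨z, hz⟩
    obtain ⟨h, s, rfl⟩ := IsLocalization.exists_mk'_eq 𝔪.primeCompl z
    have h1 : algebraMap A[X] B (g * s) = algebraMap A[X] B (C lam * h) := by
      rw [map_mul, map_mul, hz, mul_assoc, IsLocalization.mk'_spec]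
    obtain ⟨c, hc⟩ := Fermat.Agent.S18.helper403.C_dvd_of_mul_eq lam hmax
      (map_mk_ne_zero_of_not_dvd lam hg) (hPB h1)
    exact s.2 (hc ▸ 𝔪.mul_mem_right c hmem)
  have hunrB : Fermat.Agent.S18.helper3881.UnramifiedCodimOne B K L R := by
    intro a' 𝔭 ha' h𝔭
    have h𝔭p : 𝔭.IsPrime := h𝔭.1.1
    obtain ⟨a, s, rfl⟩ := IsLocalization.exists_mk'_eq 𝔪.primeCompl a'
    have ha : a ≠ 0 := by
      rintro rfl
      exact ha' (IsLocalization.mk'_zero s)
    have hspan : Ideal.span {IsLocalization.mk' B a s} =
        (Ideal.span {a}).map (algebraMap A[X] B) := by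
      rw [Ideal.map_span, Set.image_singleton]
      refine Ideal.span_singleton_eq_span_singleton.mpr ?_
      refine ⟨(IsLocalization.map_units B s).unit, ?_⟩
      rw [IsUnit.unit_spec, IsLocalization.mk'_spec]
    rw [hspan, IsLocalization.minimalPrimes_map 𝔪.primeCompl B, Set.mem_preimage] at h𝔭
    have hle : 𝔭.under A[X] ≤ 𝔪 := by
      have hd := ((IsLocalization.isPrime_iff_isPrime_disjoint 𝔪.primeCompl B 𝔭).mp h𝔭p).2
      intro x hx
      by_contra hxm
      exact Set.disjoint_left.mp hd hxm hx
    obtain ⟨b, d, hd, hdp⟩ := hunr a _ ha h𝔭 hle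
    refine ⟨fun i => algebraMap M R (b i), algebraMap A[X] B d, ?_, hdp⟩
    rw [← IsScalarTower.algebraMap_apply A[X] B K, hd]
    simp only [← IsScalarTower.algebraMap_apply M R L]
  obtain ⟨s, hs, hsx⟩ := Fermat.Agent.S18.helper3881.exists_notMem_mul_mem B K L R
    (algebraMap A[X] B (C lam)) (algebraMap A[X] B g) hlamB hlg hm hunrB n
  refine ⟨s, hs, fun x hx => ?_⟩
  have h1 := hsx x hx
  rw [hm, Ideal.map_span, Set.image_pair, ← IsScalarTower.algebraMap_apply A[X] B R,
    ← IsScalarTower.algebraMap_apply A[X] B R, IsScalarTower.algebraMap_apply A[X] M R,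
    IsScalarTower.algebraMap_apply A[X] M R (x := g)] at h1
  exact h1

end Abstract

section Concrete

variable {A : Type*} [CommRing A] [IsDomain A] [IsIntegrallyClosed A] [IsNoetherianRing A]

set_option maxHeartbeats 800000 in
/-- **TB-REGFIN, concrete local form** for the standard localisation
`Localization (algebraMapSubmonoid M 𝔪.primeCompl)` of the integral closure. -/
theorem exists_mul_mem_span_pair_localization
    (lam : A) (hlam : Prime lam) (hmax : (Ideal.span {lam}).IsMaximal)
    (K : Type*) [Field K] [Algebra A[X] K] [IsFractionRing A[X] K]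
    (L : Type*) [Field L] [Algebra K L] [Algebra A[X] L] [IsScalarTower A[X] K L]
    [FiniteDimensional K L] [Algebra.IsSeparable K L]
    (M : Type*) [CommRing M] [Algebra A[X] M] [Algebra M L] [IsScalarTower A[X] M L]
    [IsIntegralClosure M A[X] L]
    (𝔪 : Ideal A[X]) [h𝔪 : 𝔪.IsMaximal] (g : A[X]) (hg : ¬ C lam ∣ g)
    (h𝔪eq : 𝔪 = Ideal.span {C lam, g})
    (hunr : ∀ (a : A[X]) (p : Ideal A[X]), a ≠ 0 → p ∈ (Ideal.span {a}).minimalPrimes → p ≤ 𝔪 →
      Fermat.Agent.S18.helper403.UnramifiedAt K L M p)
    (n : Ideal (Localization (Algebra.algebraMapSubmonoid M 𝔪.primeCompl))) [hn : n.IsMaximal] :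
    ∃ s : Localization (Algebra.algebraMapSubmonoid M 𝔪.primeCompl), s ∉ n ∧ ∀ x ∈ n, s * x ∈
      Ideal.span {algebraMap M _ (algebraMap A[X] M (C lam)),
        algebraMap M _ (algebraMap A[X] M g)} := by
  have hPK : Function.Injective (algebraMap A[X] K) := IsFractionRing.injective A[X] K
  have hPL : Function.Injective (algebraMap A[X] L) := by
    rw [IsScalarTower.algebraMap_eq A[X] K L]
    exact (algebraMap K L).injective.comp hPK
  -- `B → K`
  have hunitK : ∀ y : 𝔪.primeCompl, IsUnit (algebraMap A[X] K y) := fun y =>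
    IsUnit.mk0 _ (by
      rw [Ne, map_eq_zero_iff _ hPK]
      intro h
      exact y.2 (h ▸ 𝔪.zero_mem))
  let algBK : Algebra (Localization.AtPrime 𝔪) K :=
    (IsLocalization.lift (M := 𝔪.primeCompl) (S := Localization.AtPrime 𝔪) hunitK).toAlgebra
  have towerPBK : IsScalarTower A[X] (Localization.AtPrime 𝔪) K :=
    IsScalarTower.of_algebraMap_eq (fun x => (IsLocalization.lift_eq hunitK x).symm)
  let algBL : Algebra (Localization.AtPrime 𝔪) L :=
    ((algebraMap K L).comp (algebraMap (Localization.AtPrime 𝔪) K)).toAlgebra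
  have towerBKL : IsScalarTower (Localization.AtPrime 𝔪) K L :=
    IsScalarTower.of_algebraMap_eq (fun _ => rfl)
  -- `R → L`
  have hunitL : ∀ y : Algebra.algebraMapSubmonoid M 𝔪.primeCompl, IsUnit (algebraMap M L y) := by
    rintro ⟨_, s, hs, rfl⟩
    refine IsUnit.mk0 _ ?_
    rw [← IsScalarTower.algebraMap_apply A[X] M L, Ne, map_eq_zero_iff _ hPL]
    rintro rfl
    exact hs 𝔪.zero_mem
  let algRL : Algebra (Localization (Algebra.algebraMapSubmonoid M 𝔪.primeCompl)) L :=
    (IsLocalization.lift (M := Algebra.algebraMapSubmonoid M 𝔪.primeCompl)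
      (S := Localization (Algebra.algebraMapSubmonoid M 𝔪.primeCompl)) hunitL).toAlgebra
  have towerMRL : IsScalarTower M (Localization (Algebra.algebraMapSubmonoid M 𝔪.primeCompl)) L :=
    IsScalarTower.of_algebraMap_eq (fun x => (IsLocalization.lift_eq hunitL x).symm)
  have towerBRL : IsScalarTower (Localization.AtPrime 𝔪)
      (Localization (Algebra.algebraMapSubmonoid M 𝔪.primeCompl)) L := by
    refine IsScalarTower.of_algebraMap_eq' ?_
    refine IsLocalization.ringHom_ext 𝔪.primeCompl (RingHom.ext fun x => ?_)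
    have e1 : algebraMap (Localization.AtPrime 𝔪) L (algebraMap A[X] (Localization.AtPrime 𝔪) x) =
        algebraMap A[X] L x := by
      rw [IsScalarTower.algebraMap_apply (Localization.AtPrime 𝔪) K L,
        ← IsScalarTower.algebraMap_apply A[X] (Localization.AtPrime 𝔪) K,
        ← IsScalarTower.algebraMap_apply A[X] K L]
    have e2 : algebraMap (Localization (Algebra.algebraMapSubmonoid M 𝔪.primeCompl)) L
        (algebraMap (Localization.AtPrime 𝔪)
          (Localization (Algebra.algebraMapSubmonoid M 𝔪.primeCompl))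
          (algebraMap A[X] (Localization.AtPrime 𝔪) x)) = algebraMap A[X] L x := by
      rw [← IsScalarTower.algebraMap_apply A[X] (Localization.AtPrime 𝔪)
          (Localization (Algebra.algebraMapSubmonoid M 𝔪.primeCompl)),
        IsScalarTower.algebraMap_apply A[X] M
          (Localization (Algebra.algebraMapSubmonoid M 𝔪.primeCompl)),
        ← IsScalarTower.algebraMap_apply M _ L, ← IsScalarTower.algebraMap_apply A[X] M L]
    simp only [RingHom.comp_apply]
    rw [e1, e2]
  exact exists_mul_mem_span_pair_abstract lam hlam hmax K L M 𝔪 g hg h𝔪eq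
    (Localization.AtPrime 𝔪) (Localization (Algebra.algebraMapSubmonoid M 𝔪.primeCompl)) hunr n

set_option maxHeartbeats 800000 in
/-- **TB-REGFIN, abstract global form (elementwise).** Let `M` be the integral closure of `A[X]`
in a finite separable extension `L` of `K = Frac A[X]`, `lam` a prime element of `A` with
`A/(lam)` a field, `𝔪 = (lam, g)` a closed point of the special fibre, and suppose `L / K` is
unramified (discriminant form) at every prime of `A[X]` through `𝔪` that is minimal over a
nonzero principal ideal. Then for every prime `z` of `M` lying over `𝔪`: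
`z M_z = (lam, g) M_z`, in the elementwise form `∀ a ∈ z, ∃ σ ∉ z, σ * a ∈ (lam, g) M`
(this is `S37.helper1812.LocGen z lam g`). -/
theorem locGen_of_unramified
    (lam : A) (hlam : Prime lam) (hmax : (Ideal.span {lam}).IsMaximal)
    (K : Type*) [Field K] [Algebra A[X] K] [IsFractionRing A[X] K]
    (L : Type*) [Field L] [Algebra K L] [Algebra A[X] L] [IsScalarTower A[X] K L]
    [FiniteDimensional K L] [Algebra.IsSeparable K L]
    (M : Type*) [CommRing M] [Algebra A[X] M] [Algebra M L] [IsScalarTower A[X] M L]
    [IsIntegralClosure M A[X] L]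
    (𝔪 : Ideal A[X]) [h𝔪 : 𝔪.IsMaximal] (g : A[X]) (hg : ¬ C lam ∣ g)
    (h𝔪eq : 𝔪 = Ideal.span {C lam, g})
    (hunr : ∀ (a : A[X]) (p : Ideal A[X]), a ≠ 0 → p ∈ (Ideal.span {a}).minimalPrimes → p ≤ 𝔪 →
      Fermat.Agent.S18.helper403.UnramifiedAt K L M p)
    (z : Ideal M) [hz : z.IsPrime] (hz𝔪 : z.comap (algebraMap A[X] M) = 𝔪) :
    ∀ a ∈ z, ∃ σ, σ ∉ z ∧
      σ * a ∈ Ideal.span {algebraMap A[X] M (C lam), algebraMap A[X] M g} := by
  have hint : Algebra.IsIntegral A[X] M := IsIntegralClosure.isIntegral_algebra A[X] L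
  have hML : Function.Injective (algebraMap M L) := IsIntegralClosure.algebraMap_injective M A[X] L
  have hPK : Function.Injective (algebraMap A[X] K) := IsFractionRing.injective A[X] K
  have hPL : Function.Injective (algebraMap A[X] L) := by
    rw [IsScalarTower.algebraMap_eq A[X] K L]
    exact (algebraMap K L).injective.comp hPK
  have hzmax : z.IsMaximal :=
    Ideal.isMaximal_of_isIntegral_of_isMaximal_comap z (by rw [hz𝔪]; exact h𝔪)
  set S : Submonoid M := Algebra.algebraMapSubmonoid M 𝔪.primeCompl with hS
  set R := Localization S with hR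
  have hdisj : Disjoint (S : Set M) (z : Set M) := by
    rw [Set.disjoint_left]
    rintro _ ⟨s, hs, rfl⟩ hsz
    exact hs (hz𝔪 ▸ (Ideal.mem_comap.mpr hsz))
  -- `M → R` is injective
  have hSnz : S ≤ nonZeroDivisors M := by
    rintro _ ⟨s, hs, rfl⟩
    have hdom : IsDomain M := hML.isDomain (algebraMap M L)
    refine mem_nonZeroDivisors_of_ne_zero ?_
    intro h0
    have : algebraMap A[X] L s = 0 := by
      rw [IsScalarTower.algebraMap_apply A[X] M L, h0, map_zero]
    rw [map_eq_zero_iff _ hPL] at this
    exact hs (this ▸ 𝔪.zero_mem)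
  have hMR : Function.Injective (algebraMap M R) := IsLocalization.injective R hSnz
  -- the maximal ideal of `R` corresponding to `z`
  set n : Ideal R := z.map (algebraMap M R) with hn
  have hnprime : n.IsPrime := IsLocalization.isPrime_of_isPrime_disjoint S R z hz hdisj
  have hncomap : n.comap (algebraMap M R) = z :=
    IsLocalization.under_map_of_isPrime_disjoint S R hz hdisj
  have hnmax : n.IsMaximal := by
    obtain ⟨n', hn', hle⟩ := Ideal.exists_le_maximal n hnprime.ne_top
    have h1 : z ≤ n'.comap (algebraMap M R) := Ideal.map_le_iff_le_comap.mp hle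
    have h2 : n'.comap (algebraMap M R) ≠ ⊤ := (Ideal.IsPrime.comap (algebraMap M R)).ne_top
    have h3 : z = n'.comap (algebraMap M R) := hzmax.eq_of_le h2 h1
    have h4 : n = n' := by
      rw [hn, h3]
      exact IsLocalization.map_under S R n'
    rw [h4]
    exact hn'
  obtain ⟨s, hs, hsx⟩ := exists_mul_mem_span_pair_localization lam hlam hmax K L M 𝔪 g hg h𝔪eq
    hunr n
  intro a ha
  have hx : algebraMap M R a ∈ n := Ideal.mem_map_of_mem _ ha
  have h1 := hsx _ hx
  have hJ : (Ideal.span {algebraMap M R (algebraMap A[X] M (C lam)),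
      algebraMap M R (algebraMap A[X] M g)} : Ideal R) =
      (Ideal.span {algebraMap A[X] M (C lam), algebraMap A[X] M g}).map (algebraMap M R) := by
    rw [Ideal.map_span, Set.image_pair]
  rw [hJ, IsLocalization.mem_map_algebraMap_iff S R] at h1
  obtain ⟨⟨c, u⟩, hcu⟩ := h1
  obtain ⟨s₀, u', rfl⟩ := IsLocalization.exists_mk'_eq S s
  have hs₀ : s₀ ∉ z := by
    intro hs₀z
    apply hs
    rw [hn, IsLocalization.mk'_mem_map_algebraMap_iff]
    exact ⟨1, S.one_mem, by rwa [one_mul]⟩
  have hu : (u : M) ∉ z := fun h => Set.disjoint_left.mp hdisj u.2 h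
  refine ⟨s₀ * u, fun h => (hz.mem_or_mem h).elim hs₀ hu, ?_⟩
  have h2 : algebraMap M R (s₀ * u * a) = algebraMap M R (c * u') := by
    have h3 := IsLocalization.mk'_spec R s₀ u'
    simp only at hcu
    rw [map_mul, map_mul, map_mul, ← hcu, ← h3]
    ring
  rw [hMR h2]
  exact Ideal.mul_mem_right _ _ c.2

omit [IsNoetherianRing A] in
/-- `g ∉ lam M` when `C lam ∤ g`: the second generator is not a multiple of the first in the
integral closure (`A[X]` is integrally closed in `K`). -/
theorem not_mem_span_of_not_dvd (lam : A) (hlam0 : lam ≠ 0)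
    (K : Type*) [Field K] [Algebra A[X] K] [IsFractionRing A[X] K]
    (L : Type*) [Field L] [Algebra K L] [Algebra A[X] L] [IsScalarTower A[X] K L]
    (M : Type*) [CommRing M] [Algebra A[X] M] [Algebra M L] [IsScalarTower A[X] M L]
    [IsIntegralClosure M A[X] L] (g : A[X]) (hg : ¬ C lam ∣ g) :
    algebraMap A[X] M g ∉ Ideal.span {algebraMap A[X] M (C lam)} := by
  intro hmem
  obtain ⟨m, hm⟩ := Ideal.mem_span_singleton.mp hmem
  apply hg
  have hPK : Function.Injective (algebraMap A[X] K) := IsFractionRing.injective A[X] K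
  have hKL : Function.Injective (algebraMap K L) := (algebraMap K L).injective
  have hlamK : algebraMap A[X] K (C lam) ≠ 0 := by
    rw [Ne, map_eq_zero_iff _ hPK, Polynomial.C_eq_zero]; exact hlam0
  -- `m = g / lam` lies in `K` and is integral over `A[X]`
  have hmL : algebraMap M L m = algebraMap K L (algebraMap A[X] K g / algebraMap A[X] K (C lam)) := by
    have h1 := congrArg (algebraMap M L) hm
    rw [map_mul, ← IsScalarTower.algebraMap_apply A[X] M L,
      ← IsScalarTower.algebraMap_apply A[X] M L, IsScalarTower.algebraMap_apply A[X] K L,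
      IsScalarTower.algebraMap_apply A[X] K L (x := C lam)] at h1
    rw [map_div₀, h1, mul_div_cancel_left₀]
    rw [Ne, map_eq_zero_iff _ hKL]; exact hlamK
  have hint : IsIntegral A[X] (algebraMap M L m) :=
    (IsIntegralClosure.isIntegral_iff (A := M) (R := A[X]) (B := L)).mpr ⟨m, rfl⟩
  rw [hmL] at hint
  have hintK : IsIntegral A[X] (algebraMap A[X] K g / algebraMap A[X] K (C lam)) :=
    (isIntegral_algebraMap_iff hKL).mp hint
  have hic : IsIntegrallyClosed A[X] := inferInstance
  obtain ⟨c, hc⟩ := IsIntegrallyClosed.isIntegral_iff.mp hintK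
  refine ⟨c, hPK ?_⟩
  rw [map_mul, hc, mul_div_cancel₀ _ hlamK]

omit [IsIntegrallyClosed A] [IsNoetherianRing A] in
/-- A prime element of `A[X]` divisible by `C lam` generates the same ideal as `C lam`. -/
theorem span_eq_span_C_of_prime_of_dvd (lam : A) (hlam : Prime lam) {f : A[X]} (hf : Prime f)
    (hdvd : C lam ∣ f) : Ideal.span {f} = Ideal.span {(C lam : A[X])} := by
  obtain ⟨u, rfl⟩ := hdvd
  have hC : ¬ IsUnit (C lam : A[X]) := fun h => hlam.not_isUnit (Polynomial.isUnit_C.mp h)
  have hu : IsUnit u := (hf.irreducible.isUnit_or_isUnit rfl).resolve_left hC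
  exact Ideal.span_singleton_mul_right_unit hu _

set_option maxHeartbeats 800000 in
/-- **TB-REGFIN, abstract global form with the two clauses separated.** As
`locGen_of_unramified`, over a factorial `A[X]`: it suffices that `L / K` is unramified
(discriminant form) at the VERTICAL prime `(lam)` and at the HORIZONTAL prime elements `f ∈ 𝔪`,
`lam ∤ f`. -/
theorem locGen_of_vertical_horizontal [UniqueFactorizationMonoid A[X]]
    (lam : A) (hlam : Prime lam) (hmax : (Ideal.span {lam}).IsMaximal)
    (K : Type*) [Field K] [Algebra A[X] K] [IsFractionRing A[X] K]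
    (L : Type*) [Field L] [Algebra K L] [Algebra A[X] L] [IsScalarTower A[X] K L]
    [FiniteDimensional K L] [Algebra.IsSeparable K L]
    (M : Type*) [CommRing M] [Algebra A[X] M] [Algebra M L] [IsScalarTower A[X] M L]
    [IsIntegralClosure M A[X] L]
    (𝔪 : Ideal A[X]) [h𝔪 : 𝔪.IsMaximal] (g : A[X]) (hg : ¬ C lam ∣ g)
    (h𝔪eq : 𝔪 = Ideal.span {C lam, g})
    (hV : Fermat.Agent.S18.helper403.UnramifiedAt K L M (Ideal.span {(C lam : A[X])}))
    (hH : ∀ f : A[X], Prime f → f ∈ 𝔪 → ¬ C lam ∣ f →
      Fermat.Agent.S18.helper403.UnramifiedAt K L M (Ideal.span {f}))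
    (z : Ideal M) [hz : z.IsPrime] (hz𝔪 : z.comap (algebraMap A[X] M) = 𝔪) :
    ∀ a ∈ z, ∃ σ, σ ∉ z ∧
      σ * a ∈ Ideal.span {algebraMap A[X] M (C lam), algebraMap A[X] M g} := by
  refine locGen_of_unramified lam hlam hmax K L M 𝔪 g hg h𝔪eq ?_ z hz𝔪
  refine Fermat.Agent.S18.helper403.unramifiedAt_of_prime_elements K L M 𝔪 ?_
  intro f hf hfm
  by_cases hdvd : C lam ∣ f
  · rw [span_eq_span_C_of_prime_of_dvd lam hlam hf hdvd]
    exact hV
  · exact hH f hf hfm hdvd

end Concrete

section Vertical

variable {A : Type*} [CommRing A] [IsDomain A] [IsIntegrallyClosed A] [IsNoetherianRing A]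

set_option maxHeartbeats 1600000 in
/-- **RF-V, abstract form** (for arbitrary models `B`, `R` of the localisations of `A[X]` and of
the integral closure `M` at the vertical prime `p = (lam)`): see `unramifiedAt_vertical`. -/
theorem unramifiedAt_vertical_abstract
    (lam : A)
    (K : Type*) [Field K] [Algebra A[X] K] [IsFractionRing A[X] K]
    (L : Type*) [Field L] [Algebra K L] [Algebra A[X] L] [IsScalarTower A[X] K L]
    [FiniteDimensional K L] [Algebra.IsSeparable K L]
    (M : Type*) [CommRing M] [Algebra A[X] M] [Algebra M L] [IsScalarTower A[X] M L]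
    [IsIntegralClosure M A[X] L]
    (p : Ideal A[X]) [hpp : p.IsPrime] (hp : p = Ideal.span {(C lam : A[X])})
    (B : Type*) [CommRing B] [Algebra A[X] B] [IsLocalization.AtPrime B p]
    [Algebra B K] [IsScalarTower A[X] B K] [Algebra B L] [IsScalarTower B K L]
    (R : Type*) [CommRing R] [Algebra M R]
    [IsLocalization (Algebra.algebraMapSubmonoid M p.primeCompl) R]
    [Algebra R L] [IsScalarTower M R L] [Algebra B R] [IsScalarTower B R L]
    [Algebra A[X] R] [IsScalarTower A[X] M R] [IsScalarTower A[X] B R]
    {κ' Ω : Type*} [Field κ'] [Field Ω] [Algebra κ' Ω]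
    (φ : A[X] →+* κ') (ψ : M →+* Ω)
    (hψ : ∀ a, ψ (algebraMap A[X] M a) = algebraMap κ' Ω (φ a))
    (hφ : ∀ a, φ a = 0 ↔ a ∈ p)
    (hfrac : ∀ c : κ', ∃ s s' : A[X], φ s' ≠ 0 ∧ c * φ s' = φ s)
    (hker : ∀ m : M, ψ m = 0 → ∃ m' : M, m = algebraMap A[X] M (C lam) * m')
    (hsep : ∀ x : Ω, IsIntegral κ' x → IsSeparable κ' x) :
    Fermat.Agent.S18.helper403.UnramifiedAt K L M p := by
  classical
  have hPK : Function.Injective (algebraMap A[X] K) := IsFractionRing.injective A[X] K
  have hPL : Function.Injective (algebraMap A[X] L) := by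
    rw [IsScalarTower.algebraMap_eq A[X] K L]
    exact (algebraMap K L).injective.comp hPK
  have hPB : Function.Injective (algebraMap A[X] B) :=
    IsLocalization.injective B (Ideal.primeCompl_le_nonZeroDivisors p)
  have : IsScalarTower A[X] B L := IsScalarTower.of_algebraMap_eq (fun x => by
    rw [IsScalarTower.algebraMap_apply A[X] K L, IsScalarTower.algebraMap_apply A[X] B K,
      ← IsScalarTower.algebraMap_apply B K L])
  have : IsDomain B :=
    IsLocalization.isDomain_of_le_nonZeroDivisors B (Ideal.primeCompl_le_nonZeroDivisors p)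
  have : IsFractionRing B K :=
    IsFractionRing.isFractionRing_of_isDomain_of_isLocalization p.primeCompl B K
  have : IsLocalRing B := IsLocalization.AtPrime.isLocalRing B p
  have : IsIntegrallyClosed B := Fermat.Agent.S18.helper403.isIntegrallyClosed_localization p B
  have : IsNoetherianRing B := Fermat.Agent.S18.helper403.isNoetherianRing_localization p B
  have hS : ∀ s ∈ p.primeCompl, algebraMap A[X] L s ≠ 0 := by
    intro s hs
    rw [Ne, map_eq_zero_iff _ hPL]
    rintro rfl
    exact hs p.zero_mem
  have : IsIntegralClosure R B L :=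
    Fermat.Agent.S18.helper403.isIntegralClosure_localization (P := A[X]) (M := M)
      p.primeCompl hS
  have hRL : Function.Injective (algebraMap R L) := IsIntegralClosure.algebraMap_injective R B L
  have : IsDomain R := hRL.isDomain (algebraMap R L)
  have hintBR : Algebra.IsIntegral B R := IsIntegralClosure.isIntegral_algebra B L
  have hBL : Function.Injective (algebraMap B L) := by
    rw [IsScalarTower.algebraMap_eq B K L]
    exact (algebraMap K L).injective.comp (IsFractionRing.injective B K)
  have hBR : Function.Injective (algebraMap B R) := by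
    intro x y hxy
    apply hBL
    rw [IsScalarTower.algebraMap_apply B R L, hxy, ← IsScalarTower.algebraMap_apply B R L]
  have : FaithfulSMul B R := (faithfulSMul_iff_algebraMap_injective B R).mpr hBR
  have hfin : Module.Finite B R := IsIntegralClosure.finite B K L R
  -- `B` is a principal ideal domain
  have hmaxB : IsLocalRing.maximalIdeal B = Ideal.span {algebraMap A[X] B (C lam)} := by
    rw [← IsLocalization.AtPrime.map_eq_maximalIdeal p B, hp, Ideal.map_span, Set.image_singleton]
  have hprinc : (IsLocalRing.maximalIdeal B).IsPrincipal :=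
    ⟨⟨algebraMap A[X] B (C lam), hmaxB⟩⟩
  have hPID : IsPrincipalIdealRing B :=
    ((tfae_of_isNoetherianRing_of_isLocalRing_of_isDomain B).out 4 0).mp hprinc
  have hfree : Module.Free B R := inferInstance
  have hrank : Module.finrank B R = Module.finrank K L :=
    Fermat.Agent.S18.helper3881.finrank_integralClosure B K L R
  let e : Module.Basis (Fin (Module.finrank K L)) B R := Module.finBasisOfFinrankEq B R hrank
  -- the reductions on the localisations
  have hunitφ : ∀ y : p.primeCompl, IsUnit (φ y) := fun y =>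
    IsUnit.mk0 _ (fun h => y.2 ((hφ _).mp h))
  let φB : B →+* κ' := IsLocalization.lift (M := p.primeCompl) (S := B) hunitφ
  have hφB : ∀ a, φB (algebraMap A[X] B a) = φ a := fun a => IsLocalization.lift_eq hunitφ a
  have hunitψ : ∀ y : Algebra.algebraMapSubmonoid M p.primeCompl, IsUnit (ψ y) := by
    rintro ⟨_, s, hs, rfl⟩
    refine IsUnit.mk0 _ ?_
    rw [hψ, Ne, map_eq_zero]
    exact fun h => hs ((hφ _).mp h)
  let ψR : R →+* Ω :=
    IsLocalization.lift (M := Algebra.algebraMapSubmonoid M p.primeCompl) (S := R) hunitψ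
  have hψR : ∀ m, ψR (algebraMap M R m) = ψ m := fun m => IsLocalization.lift_eq hunitψ m
  have hcompat : ∀ s : B, ψR (algebraMap B R s) = algebraMap κ' Ω (φB s) := by
    intro s
    have h1 : (ψR.comp (algebraMap B R)) = (algebraMap κ' Ω).comp φB := by
      refine IsLocalization.ringHom_ext p.primeCompl (RingHom.ext fun a => ?_)
      simp only [RingHom.comp_apply]
      rw [← IsScalarTower.algebraMap_apply A[X] B R, IsScalarTower.algebraMap_apply A[X] M R,
        hψR, hψ, hφB]
    exact RingHom.congr_fun h1 s
  have hintΩ : ∀ r : R, IsIntegral κ' (ψR r) := by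
    intro r
    have hr : IsIntegral B r := Algebra.IsIntegral.isIntegral r
    refine hr.map_of_comp_eq φB ψR (RingHom.ext fun s => ?_)
    simp only [RingHom.comp_apply]
    exact (hcompat s).symm
  let ψs : R →+* ↥(separableClosure κ' Ω) :=
    ψR.codRestrict (separableClosure κ' Ω)
      (fun r => mem_separableClosure_iff.mpr (hsep _ (hintΩ r)))
  have hψs : ∀ s : B, ψs (algebraMap B R s) = algebraMap κ' ↥(separableClosure κ' Ω) (φB s) := by
    intro s
    apply Subtype.ext
    exact hcompat s
  have hfracB : ∀ c : κ', ∃ s s' : B, φB s' ≠ 0 ∧ c * φB s' = φB s := by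
    intro c
    obtain ⟨s, s', h1, h2⟩ := hfrac c
    exact ⟨algebraMap A[X] B s, algebraMap A[X] B s', by rwa [hφB], by rw [hφB, hφB, h2]⟩
  have hlamker : algebraMap A[X] B (C lam) ∈ RingHom.ker φB := by
    rw [RingHom.mem_ker, hφB, hφ, hp]
    exact Ideal.mem_span_singleton_self _
  have hkerR : ∀ t : R, ψs t = 0 → t ∈ (RingHom.ker φB).map (algebraMap B R) := by
    intro t ht
    have ht' : ψR t = 0 := congrArg Subtype.val ht
    obtain ⟨m, u, rfl⟩ := IsLocalization.exists_mk'_eq (Algebra.algebraMapSubmonoid M p.primeCompl) t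
    have h1 := IsLocalization.mk'_spec R m u
    have h2 := congrArg ψR h1
    rw [map_mul, ht', zero_mul, hψR] at h2
    obtain ⟨m', rfl⟩ := hker m h2.symm
    rw [← IsLocalization.mul_mk'_eq_mk'_of_mul, ← IsScalarTower.algebraMap_apply A[X] M R,
      IsScalarTower.algebraMap_apply A[X] B R]
    exact Ideal.mul_mem_right _ _ (Ideal.mem_map_of_mem _ hlamker)
  have hli := Fermat.Agent.Lib.helper187.linearIndependent_of_ker e φB ψs hψs hfracB hkerR
  have hd0 := Fermat.Agent.Lib.helper187.map_discr_ne_zero_of_linearIndependent e φB ψs hψs hli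
  -- scale the basis into `M`
  obtain ⟨⟨_, t, ht, rfl⟩, hu⟩ := IsLocalization.exist_integer_multiples_of_finite
    (Algebra.algebraMapSubmonoid M p.primeCompl) (fun i => e i)
  choose bM hbM using hu
  set tB : B := algebraMap A[X] B t with htB
  have hbM' : ∀ i, algebraMap M R (bM i) = algebraMap B R tB * e i := by
    intro i
    rw [hbM i, htB, ← IsScalarTower.algebraMap_apply A[X] B R,
      IsScalarTower.algebraMap_apply A[X] M R]
    exact Algebra.smul_def _ _
  let P : Matrix (Fin (Module.finrank K L)) (Fin (Module.finrank K L)) B :=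
    Matrix.diagonal (fun _ => tB)
  have hb : (fun i => algebraMap M R (bM i)) = (P.map (algebraMap B R)).mulVec ⇑e := by
    funext i
    rw [Matrix.diagonal_map (map_zero _), Matrix.mulVec_diagonal, hbM' i]
  have hdiscrB : Algebra.discr B (fun i => algebraMap M R (bM i)) =
      P.det ^ 2 * Algebra.discr B e := by
    rw [hb, Algebra.discr_of_matrix_mulVec]
  have hbint : ∀ i, IsIntegral A[X] (algebraMap M L (bM i)) := fun i =>
    (IsIntegralClosure.isIntegral_iff (A := M) (R := A[X]) (B := L)).mpr ⟨bM i, rfl⟩
  have hdint : IsIntegral A[X] (Algebra.discr K (fun i => algebraMap M L (bM i))) :=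
    Algebra.discr_isIntegral K hbint
  have hic : IsIntegrallyClosed A[X] := inferInstance
  obtain ⟨d, hd⟩ := IsIntegrallyClosed.isIntegral_iff.mp hdint
  refine ⟨bM, d, hd, fun hdp => ?_⟩
  have hdB : algebraMap A[X] B d = Algebra.discr B (fun i => algebraMap M R (bM i)) := by
    apply IsFractionRing.injective B K
    rw [← IsScalarTower.algebraMap_apply A[X] B K, hd,
      Fermat.Agent.S18.helper3881.algebraMap_discr B K L R]
    simp only [← IsScalarTower.algebraMap_apply M R L]
  have h0 : φ d = 0 := (hφ d).mpr hdp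
  rw [← hφB, hdB, hdiscrB, map_mul, map_pow, Matrix.det_diagonal, Finset.prod_const, map_pow,
    hφB] at h0
  have htφ : φ t ≠ 0 := fun h => ht ((hφ _).mp h)
  exact hd0 ((mul_eq_zero.mp h0).resolve_left (pow_ne_zero _ (pow_ne_zero _ htφ)))


set_option maxHeartbeats 800000 in
/-- **RF-V (vertical clause of TB-REGFIN), concrete form.** Let `M` be the integral closure of
`A[X]` in a finite separable extension `L` of `K = Frac A[X]` and `lam` a prime element of `A`.
Suppose given a "reduction modulo `lam`": ring maps `φ : A[X] → κ'` (with kernel `(lam)` and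
`κ' = Frac (φ A[X])`) and `ψ : M → Ω` into a field `Ω ⊇ κ'`, compatible with `φ`, such that

* (KL) `ψ m = 0 → m ∈ lam M` (the kernel lemma / `q`-expansion principle), and
* (SEP) every element of `Ω` which is integral over `κ'` is separable over `κ'`.

Then `L / K` is unramified at the vertical prime `(lam)` in the discriminant form
`S18.helper403.UnramifiedAt`. -/
theorem unramifiedAt_vertical
    (lam : A) (hlam : Prime lam)
    (K : Type*) [Field K] [Algebra A[X] K] [IsFractionRing A[X] K]
    (L : Type*) [Field L] [Algebra K L] [Algebra A[X] L] [IsScalarTower A[X] K L]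
    [FiniteDimensional K L] [Algebra.IsSeparable K L]
    (M : Type*) [CommRing M] [Algebra A[X] M] [Algebra M L] [IsScalarTower A[X] M L]
    [IsIntegralClosure M A[X] L]
    {κ' Ω : Type*} [Field κ'] [Field Ω] [Algebra κ' Ω]
    (φ : A[X] →+* κ') (ψ : M →+* Ω)
    (hψ : ∀ a, ψ (algebraMap A[X] M a) = algebraMap κ' Ω (φ a))
    (hφ : ∀ a, φ a = 0 ↔ C lam ∣ a)
    (hfrac : ∀ c : κ', ∃ s s' : A[X], φ s' ≠ 0 ∧ c * φ s' = φ s)
    (hker : ∀ m : M, ψ m = 0 → ∃ m' : M, m = algebraMap A[X] M (C lam) * m')
    (hsep : ∀ x : Ω, IsIntegral κ' x → IsSeparable κ' x) :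
    Fermat.Agent.S18.helper403.UnramifiedAt K L M (Ideal.span {(C lam : A[X])}) := by
  have hC : Prime (C lam : A[X]) := Polynomial.prime_C_iff.mpr hlam
  have hpp : (Ideal.span {(C lam : A[X])}).IsPrime :=
    (Ideal.span_singleton_prime hC.ne_zero).mpr hC
  set p : Ideal A[X] := Ideal.span {(C lam : A[X])} with hp
  have hPK : Function.Injective (algebraMap A[X] K) := IsFractionRing.injective A[X] K
  have hPL : Function.Injective (algebraMap A[X] L) := by
    rw [IsScalarTower.algebraMap_eq A[X] K L]
    exact (algebraMap K L).injective.comp hPK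
  -- `B → K`
  have hunitK : ∀ y : p.primeCompl, IsUnit (algebraMap A[X] K y) := fun y =>
    IsUnit.mk0 _ (by
      rw [Ne, map_eq_zero_iff _ hPK]
      intro h
      exact y.2 (h ▸ p.zero_mem))
  let algBK : Algebra (Localization.AtPrime p) K :=
    (IsLocalization.lift (M := p.primeCompl) (S := Localization.AtPrime p) hunitK).toAlgebra
  have towerPBK : IsScalarTower A[X] (Localization.AtPrime p) K :=
    IsScalarTower.of_algebraMap_eq (fun x => (IsLocalization.lift_eq hunitK x).symm)
  let algBL : Algebra (Localization.AtPrime p) L :=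
    ((algebraMap K L).comp (algebraMap (Localization.AtPrime p) K)).toAlgebra
  have towerBKL : IsScalarTower (Localization.AtPrime p) K L :=
    IsScalarTower.of_algebraMap_eq (fun _ => rfl)
  -- `R → L`
  have hunitL : ∀ y : Algebra.algebraMapSubmonoid M p.primeCompl, IsUnit (algebraMap M L y) := by
    rintro ⟨_, s, hs, rfl⟩
    refine IsUnit.mk0 _ ?_
    rw [← IsScalarTower.algebraMap_apply A[X] M L, Ne, map_eq_zero_iff _ hPL]
    rintro rfl
    exact hs p.zero_mem
  let algRL : Algebra (Localization (Algebra.algebraMapSubmonoid M p.primeCompl)) L :=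
    (IsLocalization.lift (M := Algebra.algebraMapSubmonoid M p.primeCompl)
      (S := Localization (Algebra.algebraMapSubmonoid M p.primeCompl)) hunitL).toAlgebra
  have towerMRL : IsScalarTower M (Localization (Algebra.algebraMapSubmonoid M p.primeCompl)) L :=
    IsScalarTower.of_algebraMap_eq (fun x => (IsLocalization.lift_eq hunitL x).symm)
  have towerBRL : IsScalarTower (Localization.AtPrime p)
      (Localization (Algebra.algebraMapSubmonoid M p.primeCompl)) L := by
    refine IsScalarTower.of_algebraMap_eq' ?_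
    refine IsLocalization.ringHom_ext p.primeCompl (RingHom.ext fun x => ?_)
    have e1 : algebraMap (Localization.AtPrime p) L (algebraMap A[X] (Localization.AtPrime p) x) =
        algebraMap A[X] L x := by
      rw [IsScalarTower.algebraMap_apply (Localization.AtPrime p) K L,
        ← IsScalarTower.algebraMap_apply A[X] (Localization.AtPrime p) K,
        ← IsScalarTower.algebraMap_apply A[X] K L]
    have e2 : algebraMap (Localization (Algebra.algebraMapSubmonoid M p.primeCompl)) L
        (algebraMap (Localization.AtPrime p)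
          (Localization (Algebra.algebraMapSubmonoid M p.primeCompl))
          (algebraMap A[X] (Localization.AtPrime p) x)) = algebraMap A[X] L x := by
      rw [← IsScalarTower.algebraMap_apply A[X] (Localization.AtPrime p)
          (Localization (Algebra.algebraMapSubmonoid M p.primeCompl)),
        IsScalarTower.algebraMap_apply A[X] M
          (Localization (Algebra.algebraMapSubmonoid M p.primeCompl)),
        ← IsScalarTower.algebraMap_apply M _ L, ← IsScalarTower.algebraMap_apply A[X] M L]
    simp only [RingHom.comp_apply]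
    rw [e1, e2]
  exact unramifiedAt_vertical_abstract lam K L M p hp
    (Localization.AtPrime p) (Localization (Algebra.algebraMapSubmonoid M p.primeCompl)) φ ψ hψ
    (fun a => (hφ a).trans Ideal.mem_span_singleton.symm) hfrac hker hsep

end Vertical

end Fermat.Agent.S37.helper530
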