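import Mathlib
import Fermat.Agent.S37.helper530_RegFin

/-!
# S37-TB-REGFIN, chart form (helper530)

Instantiation of the abstract core `helper530_RegFin` on a concrete chart: `K` a field,
`O : ValuationSubring K` a discrete valuation ring with uniformiser `π` (a number-field layer),
`F / K` a field, `h : F` transcendental over `K` with `F / K(h)` finite separable (a Hauptmodul
line), `Bh ⊆ F` the integral closure of `O[h]` in `F` (as a `Subring F`).

All the type-level plumbing (`K' = K⟮h⟯ = Frac O[X]`, `M = ↥Bh`, the `IsIntegralClosure`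
instance, ...) is done inside; the statements only mention `O`, `F`, `h`, `Bh`.

* `evO O h : O[X] →+* F` (`P ↦ P(h)`; definitionally `Lib.helper28.evAt O h`), `evB` its
  corestriction to `Bh`.
* `ChartUnrAt O h f` : elementary discriminant-form unramifiedness of `F / K(h)` at the prime
  element `f` of `O[X]`: some `[F : K(h)]`-tuple of elements integral over `O[h]` has
  discriminant `d(h)`, `d ∈ O[X]`, `f ∤ d`.
* `locGen_chart` : at a closed point `(π, g)` of the special fibre of `Spec O[h]`, if `F / K(h)`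
  is unramified at the vertical prime `π` and at the horizontal primes through the point, then
  every prime `z` of `Bh` containing `π` and `g(h)` satisfies `z (Bh)_z = (π, g(h)) (Bh)_z`
  (elementwise `LocGen` shape of `S37.helper1812`).
* `chartUnrAt_vertical` (RF-V, chart form) : the vertical clause from a reduction map
  `ψ : Bh → Ω` with the kernel lemma and separability of the residue extension.
* `locGen_of_le` : transfer to a ring of fractions `B0 = Bh[1/γ]`.
* `locGen_hauptmodul`, `locGen_hauptmodul_rational` (RF-ASM) : the regular pair at the primes of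
  `B0 = Bh[1/g(h)]` (e.g. the integral closure of `O[j]`, `j = r(h)/g(h)`) over the closed points
  `(π, g₁)` resp. `(π, h - c)` of the special fibre, from the vertical clause and the horizontal
  clause off the cusps (`f ∤ g`).
* `chartRing O h` : the integral closure of `O[h]` in `F` as a `Subring F`.
-/

set_option autoImplicit false

noncomputable section

namespace Fermat.Agent.S37.helper530

open Polynomial IntermediateField

section ChartDefs

variable {K F : Type*} [Field K] [Field F] [Algebra K F] (O : ValuationSubring K) (h : F)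

/-- `P ↦ P(h)`, `O[X] → F`. (Definitionally equal to `Lib.helper28.evAt O h`.) -/
def evO : (↥O)[X] →+* F := eval₂RingHom ((algebraMap K F).comp O.subtype) h

theorem evO_apply (P : (↥O)[X]) :
    evO O h P = eval₂ ((algebraMap K F).comp O.subtype) h P := rfl

@[simp] theorem evO_C (c : O) : evO O h (C c) = algebraMap K F (c : K) := by
  rw [evO_apply, eval₂_C]; rfl

@[simp] theorem evO_X : evO O h X = h := by
  rw [evO_apply, eval₂_X]

theorem evO_eq_aeval (P : (↥O)[X]) : evO O h P = aeval h (P.map O.subtype) := by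
  rw [evO_apply, aeval_def, eval₂_map]

theorem evO_mem_adjoin (P : (↥O)[X]) : evO O h P ∈ K⟮h⟯ := by
  rw [evO_eq_aeval]
  exact (IntermediateField.mem_adjoin_simple_iff K _).mpr ⟨P.map O.subtype, 1, by simp⟩

theorem evO_injective (hh : Transcendental K h) : Function.Injective (evO O h) := by
  rw [injective_iff_map_eq_zero]
  intro P hP
  rw [evO_eq_aeval] at hP
  have h1 : P.map O.subtype = 0 := by
    by_contra hne
    exact hh ⟨P.map O.subtype, hne, hP⟩
  exact Polynomial.map_injective O.subtype Subtype.val_injective (h1.trans (Polynomial.map_zero _).symm)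

/-- `evO` corestricted to a subring `Bh` which is the integral closure of `O[h]`. -/
def evB (Bh : Subring F) (hBh : ∀ f : F, f ∈ Bh ↔ (evO O h).IsIntegralElem f) : (↥O)[X] →+* ↥Bh :=
  (evO O h).codRestrict Bh (fun _ => (hBh _).mpr ((evO O h).isIntegralElem_map))

@[simp] theorem coe_evB (Bh : Subring F) (hBh : ∀ f : F, f ∈ Bh ↔ (evO O h).IsIntegralElem f)
    (P : (↥O)[X]) : ((evB O h Bh hBh P : ↥Bh) : F) = evO O h P := rfl

/-- Elementary discriminant-form unramifiedness of the chart `O[h] ⊆ F` at the prime element `f`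
of `O[X]`: some `[F : K(h)]`-tuple of elements of `F` integral over `O[h]` has discriminant
`d(h)` with `d ∈ O[X]` not divisible by `f`. -/
def ChartUnrAt (f : (↥O)[X]) : Prop :=
  ∃ (b : Fin (Module.finrank ↥K⟮h⟯ F) → F) (d : (↥O)[X]),
    (∀ i, (evO O h).IsIntegralElem (b i)) ∧
    evO O h d = algebraMap ↥K⟮h⟯ F (Algebra.discr ↥K⟮h⟯ b) ∧ ¬ f ∣ d

end ChartDefs

section ChartMain

variable {K F : Type*} [Field K] [Field F] [Algebra K F] (O : ValuationSubring K) (h : F)

/-- `K(h)` is the fraction field of `O[X]` (via `X ↦ h`, `h` transcendental). -/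
theorem isFractionRing_adjoin (hh : Transcendental K h) :
    letI : Algebra (↥O)[X] ↥K⟮h⟯ :=
      ((evO O h).codRestrict K⟮h⟯ (evO_mem_adjoin O h)).toAlgebra
    IsFractionRing (↥O)[X] ↥K⟮h⟯ := by
  classical
  let _ : Algebra (↥O)[X] ↥K⟮h⟯ :=
    ((evO O h).codRestrict K⟮h⟯ (evO_mem_adjoin O h)).toAlgebra
  have hinj : Function.Injective (algebraMap (↥O)[X] ↥K⟮h⟯) := by
    intro P Q hPQ
    apply evO_injective O h hh
    exact congrArg Subtype.val hPQ
  have : FaithfulSMul (↥O)[X] ↥K⟮h⟯ := (faithfulSMul_iff_algebraMap_injective _ _).mpr hinj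
  refine IsFractionRing.of_field _ _ (fun z => ?_)
  obtain ⟨r, s, hrs⟩ := (IntermediateField.mem_adjoin_simple_iff K (z : F)).mp z.2
  -- clear the denominators of the coefficients
  obtain ⟨a, ha⟩ := IsLocalization.exist_integer_multiples_of_finset (nonZeroDivisors ↥O)
    (r.coeffs ∪ s.coeffs)
  have ha0 : (a : ↥O) ≠ 0 := nonZeroDivisors.ne_zero a.2
  have haK : algebraMap ↥O K (a : ↥O) ≠ 0 := by
    rw [Ne, map_eq_zero_iff _ (IsFractionRing.injective ↥O K)]; exact ha0
  have hlift : ∀ p : K[X], (∀ c ∈ p.coeffs, c ∈ r.coeffs ∪ s.coeffs) →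
      ∃ p' : (↥O)[X], p'.map O.subtype = C (algebraMap ↥O K (a : ↥O)) * p := by
    intro p hp
    have : C (algebraMap ↥O K (a : ↥O)) * p ∈ lifts O.subtype := by
      rw [lifts_iff_coeff_lifts]
      intro n
      rw [coeff_C_mul]
      by_cases h0 : p.coeff n = 0
      · rw [h0, mul_zero]; exact ⟨0, map_zero _⟩
      · obtain ⟨y, hy⟩ := ha _ (hp _ (coeff_mem_coeffs h0))
        exact ⟨y, by rw [← Algebra.smul_def]; exact hy⟩
    exact (mem_lifts _).mp this
  obtain ⟨r', hr'⟩ := hlift r (fun c hc => Finset.mem_union_left _ hc)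
  obtain ⟨s', hs'⟩ := hlift s (fun c hc => Finset.mem_union_right _ hc)
  refine ⟨r', s', Subtype.ext ?_⟩
  have e1 : ((algebraMap (↥O)[X] ↥K⟮h⟯ r' : ↥K⟮h⟯) : F) = evO O h r' := rfl
  have e2 : ((algebraMap (↥O)[X] ↥K⟮h⟯ s' : ↥K⟮h⟯) : F) = evO O h s' := rfl
  rw [IntermediateField.coe_div, e1, e2, evO_eq_aeval, evO_eq_aeval, hr', hs', map_mul, map_mul,
    aeval_C, hrs]
  have hne : algebraMap K F (algebraMap ↥O K (a : ↥O)) ≠ 0 := by
    rw [Ne, map_eq_zero]; exact haK
  rw [mul_div_mul_left _ _ hne]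

/-- A generator of the maximal ideal of a valuation ring is a prime element. -/
theorem prime_of_maximalIdeal_eq_span (π : ↥O)
    (hπ : IsLocalRing.maximalIdeal ↥O = Ideal.span {π}) (hπ0 : π ≠ 0) : Prime π := by
  have h1 : (Ideal.span {π}).IsPrime := hπ ▸ (IsLocalRing.maximalIdeal.isMaximal ↥O).isPrime
  exact (Ideal.span_singleton_prime hπ0).mp h1

set_option maxHeartbeats 800000 in
/-- **TB-REGFIN, chart form.** `O` a discrete valuation ring of `K` with uniformiser `π`, `h ∈ F`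
transcendental over `K` with `F / K(h)` finite separable, `Bh` the integral closure of `O[h]` in
`F`, `(π, g)` a closed point of the special fibre of `Spec O[h]`. If `F / K(h)` is unramified
(elementary discriminant form `ChartUnrAt`) at the vertical prime `π` and at every horizontal
prime element `f ∈ (π, g)`, then every prime `z` of `Bh` containing `π` and `g(h)` satisfies
`z (Bh)_z = (π, g(h)) (Bh)_z`, elementwise (`S37.helper1812.LocGen z π g(h)`). -/
theorem locGen_chart [IsPrincipalIdealRing ↥O] (π : ↥O)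
    (hπ : IsLocalRing.maximalIdeal ↥O = Ideal.span {π}) (hπ0 : π ≠ 0)
    (hh : Transcendental K h) [FiniteDimensional ↥K⟮h⟯ F] [Algebra.IsSeparable ↥K⟮h⟯ F]
    (Bh : Subring F) (hBh : ∀ f : F, f ∈ Bh ↔ (evO O h).IsIntegralElem f)
    (g : (↥O)[X]) (hg : ¬ C π ∣ g) (hgmax : (Ideal.span {C π, g}).IsMaximal)
    (hV : ChartUnrAt O h (C π))
    (hH : ∀ f : (↥O)[X], Prime f → f ∈ Ideal.span {C π, g} → ¬ C π ∣ f → ChartUnrAt O h f)
    (z : Ideal ↥Bh) [hz : z.IsPrime] (hzπ : evB O h Bh hBh (C π) ∈ z)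
    (hzg : evB O h Bh hBh g ∈ z) :
    ∀ a ∈ z, ∃ σ, σ ∉ z ∧
      σ * a ∈ Ideal.span {evB O h Bh hBh (C π), evB O h Bh hBh g} := by
  classical
  let algPK : Algebra (↥O)[X] ↥K⟮h⟯ :=
    ((evO O h).codRestrict K⟮h⟯ (evO_mem_adjoin O h)).toAlgebra
  have hfrac : IsFractionRing (↥O)[X] ↥K⟮h⟯ := isFractionRing_adjoin O h hh
  let algPF : Algebra (↥O)[X] F := (evO O h).toAlgebra
  have tower1 : IsScalarTower (↥O)[X] ↥K⟮h⟯ F := IsScalarTower.of_algebraMap_eq (fun _ => rfl)
  let algPB : Algebra (↥O)[X] ↥Bh := (evB O h Bh hBh).toAlgebra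
  have tower2 : IsScalarTower (↥O)[X] ↥Bh F := IsScalarTower.of_algebraMap_eq (fun _ => rfl)
  have hic : IsIntegralClosure ↥Bh (↥O)[X] F := by
    refine ⟨Subtype.val_injective, ?_⟩
    intro x
    constructor
    · intro hx
      exact ⟨⟨x, (hBh x).mpr hx⟩, rfl⟩
    · rintro ⟨y, rfl⟩
      exact (hBh _).mp y.2
  have hprime : Prime π := prime_of_maximalIdeal_eq_span O π hπ hπ0
  have hmax : (Ideal.span {π}).IsMaximal := hπ ▸ IsLocalRing.maximalIdeal.isMaximal ↥O
  have conv : ∀ f : (↥O)[X], ChartUnrAt O h f →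
      Fermat.Agent.S18.helper403.UnramifiedAt ↥K⟮h⟯ F ↥Bh (Ideal.span {f}) := by
    rintro f ⟨b, d, hb, hd, hfd⟩
    refine ⟨fun i => ⟨b i, (hBh _).mpr (hb i)⟩, d, Subtype.ext ?_,
      fun hmem => hfd (Ideal.mem_span_singleton.mp hmem)⟩
    exact hd
  have hz𝔪 : z.comap (algebraMap (↥O)[X] ↥Bh) = Ideal.span {C π, g} := by
    refine (hgmax.eq_of_le (Ideal.IsPrime.comap _).ne_top ?_).symm
    rw [Ideal.span_le]
    rintro x (rfl | rfl)
    · exact hzπ
    · exact hzg
  exact locGen_of_vertical_horizontal π hprime hmax ↥K⟮h⟯ F ↥Bh (Ideal.span {C π, g}) g hg rfl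
    (conv _ hV) (fun f hf hfm hfπ => conv f (hH f hf hfm hfπ)) z hz𝔪

set_option maxHeartbeats 800000 in
/-- **RF-V, chart form.** The vertical clause `ChartUnrAt O h (C π)` from a reduction map
`ψ : Bh → Ω` (`Ω` a field over the residue field `k` of `O`, e.g. `Ω = k((q))` and `ψ` = reduction
of the `O`-integral `q`-expansion) such that `h̄ = ψ h` is transcendental over `k`, with the
kernel lemma (KL) `ψ m = 0 → m ∈ π Bh` and (SEP) elements of `Ω` integral over `k(h̄)` are
separable over `k(h̄)`. -/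
theorem chartUnrAt_vertical [IsPrincipalIdealRing ↥O] (π : ↥O)
    (hπ : IsLocalRing.maximalIdeal ↥O = Ideal.span {π}) (hπ0 : π ≠ 0)
    (hh : Transcendental K h) [FiniteDimensional ↥K⟮h⟯ F] [Algebra.IsSeparable ↥K⟮h⟯ F]
    (Bh : Subring F) (hBh : ∀ f : F, f ∈ Bh ↔ (evO O h).IsIntegralElem f)
    {k Ω : Type*} [Field k] [Field Ω] [Algebra k Ω]
    (res : ↥O →+* k) (hres : Function.Surjective res) (hresπ : res π = 0)
    (ψ : ↥Bh →+* Ω)
    (hψC : ∀ c : ↥O, ψ (evB O h Bh hBh (C c)) = algebraMap k Ω (res c))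
    (hbar : Transcendental k (ψ (evB O h Bh hBh X)))
    (hker : ∀ m : ↥Bh, ψ m = 0 → ∃ m' : ↥Bh, m = evB O h Bh hBh (C π) * m')
    (hsep : ∀ x : Ω, IsIntegral ↥k⟮ψ (evB O h Bh hBh X)⟯ x →
      IsSeparable ↥k⟮ψ (evB O h Bh hBh X)⟯ x) :
    ChartUnrAt O h (C π) := by
  classical
  let algPK : Algebra (↥O)[X] ↥K⟮h⟯ :=
    ((evO O h).codRestrict K⟮h⟯ (evO_mem_adjoin O h)).toAlgebra
  have hfrac : IsFractionRing (↥O)[X] ↥K⟮h⟯ := isFractionRing_adjoin O h hh
  let algPF : Algebra (↥O)[X] F := (evO O h).toAlgebra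
  have tower1 : IsScalarTower (↥O)[X] ↥K⟮h⟯ F := IsScalarTower.of_algebraMap_eq (fun _ => rfl)
  let algPB : Algebra (↥O)[X] ↥Bh := (evB O h Bh hBh).toAlgebra
  have tower2 : IsScalarTower (↥O)[X] ↥Bh F := IsScalarTower.of_algebraMap_eq (fun _ => rfl)
  have hic : IsIntegralClosure ↥Bh (↥O)[X] F := by
    refine ⟨Subtype.val_injective, ?_⟩
    intro x
    constructor
    · intro hx
      exact ⟨⟨x, (hBh x).mpr hx⟩, rfl⟩
    · rintro ⟨y, rfl⟩
      exact (hBh _).mp y.2
  have hprime : Prime π := prime_of_maximalIdeal_eq_span O π hπ hπ0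
  set t : Ω := ψ (evB O h Bh hBh X) with ht
  -- the reduction of polynomials
  set φ₀ : (↥O)[X] →+* Ω := eval₂RingHom ((algebraMap k Ω).comp res) t with hφ₀
  have hφ₀_eq : ∀ a : (↥O)[X], φ₀ a = aeval t (a.map res) := by
    intro a
    rw [hφ₀, coe_eval₂RingHom, aeval_def, eval₂_map]
  have hφ₀mem : ∀ a : (↥O)[X], φ₀ a ∈ k⟮t⟯ := by
    intro a
    rw [hφ₀_eq]
    exact (IntermediateField.mem_adjoin_simple_iff k _).mpr ⟨a.map res, 1, by simp⟩
  let φ : (↥O)[X] →+* ↥k⟮t⟯ := φ₀.codRestrict k⟮t⟯ hφ₀mem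
  have hφval : ∀ a, ((φ a : ↥k⟮t⟯) : Ω) = φ₀ a := fun _ => rfl
  have hψ : ∀ a : (↥O)[X], ψ (algebraMap (↥O)[X] ↥Bh a) = algebraMap ↥k⟮t⟯ Ω (φ a) := by
    intro a
    have h1 : ψ.comp (evB O h Bh hBh) = φ₀ := by
      refine Polynomial.ringHom_ext (fun c => ?_) ?_
      · rw [RingHom.comp_apply, hψC, hφ₀, coe_eval₂RingHom, eval₂_C]
        rfl
      · rw [RingHom.comp_apply, hφ₀, coe_eval₂RingHom, eval₂_X]
    exact RingHom.congr_fun h1 a
  have hreszero : ∀ c : ↥O, res c = 0 ↔ π ∣ c := by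
    intro c
    constructor
    · intro hc
      have hnu : ¬ IsUnit c := fun hu => (hu.map res).ne_zero hc
      have : c ∈ IsLocalRing.maximalIdeal ↥O := hnu
      rw [hπ] at this
      exact Ideal.mem_span_singleton.mp this
    · rintro ⟨c', rfl⟩
      rw [map_mul, hresπ, zero_mul]
  have hφ : ∀ a : (↥O)[X], φ a = 0 ↔ C π ∣ a := by
    intro a
    rw [Polynomial.C_dvd_iff_dvd_coeff]
    constructor
    · intro ha i
      have h1 : aeval t (a.map res) = 0 := by
        rw [← hφ₀_eq, ← hφval, ha]; rfl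
      have h2 : a.map res = 0 := by
        by_contra hne
        exact hbar ⟨a.map res, hne, h1⟩
      have h3 := congrArg (fun q => Polynomial.coeff q i) h2
      simp only [Polynomial.coeff_map, Polynomial.coeff_zero] at h3
      exact (hreszero _).mp h3
    · intro ha
      have h2 : a.map res = 0 := by
        ext i
        rw [Polynomial.coeff_map, Polynomial.coeff_zero]
        exact (hreszero _).mpr (ha i)
      apply Subtype.ext
      rw [hφval, hφ₀_eq, h2, map_zero]
      rfl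
  have hfracφ : ∀ c : ↥k⟮t⟯, ∃ s s' : (↥O)[X], φ s' ≠ 0 ∧ c * φ s' = φ s := by
    intro c
    obtain ⟨r, s, hrs⟩ := (IntermediateField.mem_adjoin_simple_iff k (c : Ω)).mp c.2
    by_cases hs0 : aeval t s = 0
    · refine ⟨0, 1, ?_, ?_⟩
      · rw [map_one]; exact one_ne_zero
      · rw [map_one, mul_one, map_zero]
        apply Subtype.ext
        rw [hrs, hs0, div_zero]; rfl
    · obtain ⟨r', hr'⟩ := Polynomial.map_surjective res hres r
      obtain ⟨s', hs'⟩ := Polynomial.map_surjective res hres s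
      refine ⟨r', s', ?_, ?_⟩
      · intro h0
        apply hs0
        rw [← hs', ← hφ₀_eq, ← hφval, h0]; rfl
      · apply Subtype.ext
        rw [IntermediateField.coe_mul, hφval, hφval, hφ₀_eq, hφ₀_eq, hr', hs', hrs,
          div_mul_cancel₀ _ hs0]
  obtain ⟨b, d, hd, hdp⟩ := unramifiedAt_vertical π hprime ↥K⟮h⟯ F ↥Bh φ ψ hψ hφ hfracφ hker hsep
  exact ⟨fun i => (b i : F), d, fun i => (hBh _).mp (b i).2, congrArg Subtype.val hd,
    fun hdvd => hdp (Ideal.mem_span_singleton.mpr hdvd)⟩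

/-- `g(h) ∉ π Bh` when `π ∤ g` (chart form of `not_mem_span_of_not_dvd`). -/
theorem evB_not_mem_span [IsPrincipalIdealRing ↥O] (π : ↥O) (hπ0 : π ≠ 0)
    (hh : Transcendental K h)
    (Bh : Subring F) (hBh : ∀ f : F, f ∈ Bh ↔ (evO O h).IsIntegralElem f)
    (g : (↥O)[X]) (hg : ¬ C π ∣ g) :
    evB O h Bh hBh g ∉ Ideal.span {evB O h Bh hBh (C π)} := by
  classical
  let algPK : Algebra (↥O)[X] ↥K⟮h⟯ :=
    ((evO O h).codRestrict K⟮h⟯ (evO_mem_adjoin O h)).toAlgebra
  have hfrac : IsFractionRing (↥O)[X] ↥K⟮h⟯ := isFractionRing_adjoin O h hh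
  let algPF : Algebra (↥O)[X] F := (evO O h).toAlgebra
  have tower1 : IsScalarTower (↥O)[X] ↥K⟮h⟯ F := IsScalarTower.of_algebraMap_eq (fun _ => rfl)
  let algPB : Algebra (↥O)[X] ↥Bh := (evB O h Bh hBh).toAlgebra
  have tower2 : IsScalarTower (↥O)[X] ↥Bh F := IsScalarTower.of_algebraMap_eq (fun _ => rfl)
  have hic : IsIntegralClosure ↥Bh (↥O)[X] F := by
    refine ⟨Subtype.val_injective, ?_⟩
    intro x
    constructor
    · intro hx
      exact ⟨⟨x, (hBh x).mpr hx⟩, rfl⟩
    · rintro ⟨y, rfl⟩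
      exact (hBh _).mp y.2
  exact not_mem_span_of_not_dvd π hπ0 ↥K⟮h⟯ F ↥Bh g hg

end ChartMain

section Localize

variable {F : Type*} [Field F]

/-- Transfer of the elementwise regular-pair property from a chart ring `Bh` to a ring of
fractions `B0 = Bh[1/γ]` at a prime `z0` of `B0` (`γ ∉ z0` automatically when `γ` is a unit of
`B0`). -/
theorem locGen_of_le (Bh B0 : Subring F) (hle : Bh ≤ B0) (γ : ↥Bh)
    (hfrac : ∀ x : ↥B0, ∃ (n : ℕ) (y : ↥Bh), (y : F) = (γ : F) ^ n * (x : F))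
    (z0 : Ideal ↥B0) [hz0 : z0.IsPrime] (hγ : Subring.inclusion hle γ ∉ z0)
    (π t : ↥Bh)
    (hloc : ∀ a ∈ z0.comap (Subring.inclusion hle), ∃ σ,
      σ ∉ z0.comap (Subring.inclusion hle) ∧ σ * a ∈ Ideal.span {π, t}) :
    ∀ a ∈ z0, ∃ σ, σ ∉ z0 ∧
      σ * a ∈ Ideal.span {Subring.inclusion hle π, Subring.inclusion hle t} := by
  intro a ha
  obtain ⟨n, y, hy⟩ := hfrac a
  have hya : Subring.inclusion hle y = Subring.inclusion hle γ ^ n * a := Subtype.ext hy
  have hyz : y ∈ z0.comap (Subring.inclusion hle) := by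
    rw [Ideal.mem_comap, hya]
    exact Ideal.mul_mem_left _ _ ha
  obtain ⟨σ, hσ, hσy⟩ := hloc y hyz
  refine ⟨Subring.inclusion hle σ * Subring.inclusion hle γ ^ n, ?_, ?_⟩
  · intro hmem
    rcases hz0.mem_or_mem hmem with h1 | h1
    · exact hσ (Ideal.mem_comap.mpr h1)
    · exact hγ (hz0.mem_of_pow_mem n h1)
  · have h1 : Subring.inclusion hle (σ * y) ∈
        (Ideal.span {π, t}).map (Subring.inclusion hle) := Ideal.mem_map_of_mem _ hσy
    rw [Ideal.map_span, Set.image_pair, map_mul, hya] at h1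
    rw [mul_assoc]
    exact h1

end Localize

section Assembly

variable {K F : Type*} [Field K] [Field F] [Algebra K F] (O : ValuationSubring K) (h : F)

/-- The closed point `(π, X - c)` of the special fibre of the affine line over `O`. -/
theorem isMaximal_span_C_X_sub_C (π : ↥O)
    (hπ : IsLocalRing.maximalIdeal ↥O = Ideal.span {π}) (c : ↥O) :
    (Ideal.span {(C π : (↥O)[X]), X - C c}).IsMaximal := by
  set φ : (↥O)[X] →+* IsLocalRing.ResidueField ↥O :=
    (IsLocalRing.residue ↥O).comp (evalRingHom c) with hφ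
  have hsurj : Function.Surjective φ := by
    intro y
    obtain ⟨a, rfl⟩ := IsLocalRing.residue_surjective y
    exact ⟨C a, by rw [hφ, RingHom.comp_apply, coe_evalRingHom, eval_C]⟩
  have hker : RingHom.ker φ = Ideal.span {(C π : (↥O)[X]), X - C c} := by
    apply le_antisymm
    · intro P hP
      rw [RingHom.mem_ker, hφ, RingHom.comp_apply, coe_evalRingHom,
        IsLocalRing.residue_eq_zero_iff, hπ] at hP
      obtain ⟨a, ha⟩ := Ideal.mem_span_singleton.mp hP
      have h1 : P = (X - C c) * (P /ₘ (X - C c)) + C π * C a := by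
        have := Polynomial.modByMonic_add_div P (X - C c)
        rw [Polynomial.modByMonic_X_sub_C_eq_C_eval, ha, C_mul] at this
        rw [add_comm] at this
        exact this.symm
      rw [h1]
      exact Ideal.add_mem _ (Ideal.mul_mem_right _ _ (Ideal.subset_span (by simp)))
        (Ideal.mul_mem_right _ _ (Ideal.subset_span (by simp)))
    · rw [Ideal.span_le]
      rintro x (rfl | rfl)
      · rw [SetLike.mem_coe, RingHom.mem_ker, hφ, RingHom.comp_apply, coe_evalRingHom, eval_C,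
          IsLocalRing.residue_eq_zero_iff, hπ]
        exact Ideal.mem_span_singleton_self π
      · rw [SetLike.mem_coe, RingHom.mem_ker, hφ, RingHom.comp_apply, coe_evalRingHom, eval_sub,
          eval_X, eval_C, sub_self, map_zero]
  rw [← hker]
  exact RingHom.ker_isMaximal_of_surjective φ hsurj

set_option maxHeartbeats 800000 in
/-- **TB-REGFIN, Hauptmodul form (RF-ASM).** `Bh` the integral closure of `O[h]` in `F`
(`h` a Hauptmodul-type coordinate), `B0 ⊇ Bh` a ring of fractions `Bh[1/g(h)]` with `g(h)` a unit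
of `B0` (e.g. `B0` = integral closure of `O[j]`, `j = r(h)/g(h)`, `g` = the cusp polynomial).
Suppose `F / K(h)` is unramified (discriminant form) at the vertical prime `π` and at every
horizontal prime element `f ∤ g` of `O[h]` (off the cusps). Then at every prime `z0` of `B0`
lying over a closed point `(π, g₁)` of the special fibre of `Spec O[h]`:
`g₁(h) ∉ π B0` and `z0 (B0)_z0 = (π, g₁(h)) (B0)_z0` (elementwise `LocGen z0 π g₁(h)`). -/
theorem locGen_hauptmodul [IsPrincipalIdealRing ↥O] (π : ↥O)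
    (hπ : IsLocalRing.maximalIdeal ↥O = Ideal.span {π}) (hπ0 : π ≠ 0)
    (hh : Transcendental K h) [FiniteDimensional ↥K⟮h⟯ F] [Algebra.IsSeparable ↥K⟮h⟯ F]
    (Bh : Subring F) (hBh : ∀ f : F, f ∈ Bh ↔ (evO O h).IsIntegralElem f)
    (B0 : Subring F) (hle : Bh ≤ B0) (g : (↥O)[X]) (hgπ : ¬ C π ∣ g)
    (hfrac : ∀ x : ↥B0, ∃ (n : ℕ) (y : ↥Bh), (y : F) = evO O h g ^ n * (x : F))
    (hunit : ∃ δ : ↥B0, Subring.inclusion hle (evB O h Bh hBh g) * δ = 1)
    (hV : ChartUnrAt O h (C π))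
    (hH : ∀ f : (↥O)[X], Prime f → ¬ C π ∣ f → ¬ f ∣ g → ChartUnrAt O h f)
    (z0 : Ideal ↥B0) [hz0 : z0.IsPrime]
    (g₁ : (↥O)[X]) (hg₁ : ¬ C π ∣ g₁) (hg₁max : (Ideal.span {C π, g₁}).IsMaximal)
    (hzπ : Subring.inclusion hle (evB O h Bh hBh (C π)) ∈ z0)
    (hzg : Subring.inclusion hle (evB O h Bh hBh g₁) ∈ z0) :
    Subring.inclusion hle (evB O h Bh hBh g₁) ∉
        Ideal.span {Subring.inclusion hle (evB O h Bh hBh (C π))} ∧
      ∀ a ∈ z0, ∃ σ, σ ∉ z0 ∧ σ * a ∈ Ideal.span
        {Subring.inclusion hle (evB O h Bh hBh (C π)),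
          Subring.inclusion hle (evB O h Bh hBh g₁)} := by
  have hγz : Subring.inclusion hle (evB O h Bh hBh g) ∉ z0 := by
    intro hmem
    obtain ⟨δ, hδ⟩ := hunit
    exact hz0.ne_top (Ideal.eq_top_of_isUnit_mem _ hmem (IsUnit.of_mul_eq_one _ hδ))
  have hzprime : (z0.comap (Subring.inclusion hle)).IsPrime := Ideal.IsPrime.comap _
  have himg : ∀ x ∈ Ideal.span {C π, g₁}, Subring.inclusion hle (evB O h Bh hBh x) ∈ z0 := by
    intro x hx
    have hle' : Ideal.span {C π, g₁} ≤
        z0.comap ((Subring.inclusion hle).comp (evB O h Bh hBh)) := by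
      rw [Ideal.span_le]
      rintro y (rfl | rfl)
      · exact hzπ
      · exact hzg
    exact hle' hx
  -- horizontal primes through the point avoid the cusp polynomial
  have hH' : ∀ f : (↥O)[X], Prime f → f ∈ Ideal.span {C π, g₁} → ¬ C π ∣ f →
      ChartUnrAt O h f := by
    intro f hf hfm hfπ
    refine hH f hf hfπ ?_
    rintro ⟨q, rfl⟩
    exact hγz (himg _ (Ideal.mul_mem_right _ _ hfm))
  constructor
  · intro hmem
    obtain ⟨b, hb⟩ := Ideal.mem_span_singleton'.mp hmem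
    obtain ⟨n, y, hy⟩ := hfrac b
    have h1 : evB O h Bh hBh (g ^ n * g₁) ∈ Ideal.span {evB O h Bh hBh (C π)} := by
      rw [Ideal.mem_span_singleton']
      refine ⟨y, Subtype.ext ?_⟩
      have hb' : (b : F) * evO O h (C π) = evO O h g₁ := congrArg Subtype.val hb
      rw [Subring.coe_mul, hy, coe_evB, coe_evB, map_mul, map_pow, ← hb']
      ring
    have h2 : C π ∣ g ^ n * g₁ := by
      by_contra hnd
      exact evB_not_mem_span O h π hπ0 hh Bh hBh _ hnd h1
    have hCprime : Prime (C π : (↥O)[X]) :=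
      Polynomial.prime_C_iff.mpr (prime_of_maximalIdeal_eq_span O π hπ hπ0)
    rcases hCprime.dvd_or_dvd h2 with h3 | h3
    · exact hgπ (hCprime.dvd_of_dvd_pow h3)
    · exact hg₁ h3
  · refine locGen_of_le Bh B0 hle (evB O h Bh hBh g) (fun x => ?_) z0 hγz _ _ ?_
    · obtain ⟨n, y, hy⟩ := hfrac x
      exact ⟨n, y, hy⟩
    · exact locGen_chart O h π hπ hπ0 hh Bh hBh g₁ hg₁ hg₁max hV hH'
        (z0.comap (Subring.inclusion hle)) (Ideal.mem_comap.mpr hzπ) (Ideal.mem_comap.mpr hzg)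

/-- `π ∤ X - c`. -/
theorem not_C_dvd_X_sub_C (π : ↥O) (hπ : ¬ IsUnit π) (c : ↥O) :
    ¬ (C π : (↥O)[X]) ∣ X - C c := by
  intro hdvd
  rw [Polynomial.C_dvd_iff_dvd_coeff] at hdvd
  have h1 := hdvd 1
  rw [coeff_sub, coeff_X_one, coeff_C, if_neg one_ne_zero, sub_zero] at h1
  exact hπ (isUnit_of_dvd_one h1)

/-- **TB-REGFIN, Hauptmodul form at a rational closed point** `(π, h - c)`, `c ∈ O`
(the centre of an `O`-valued section of the chart): `h - c ∉ π B0` and
`z0 (B0)_z0 = (π, h - c) (B0)_z0`. -/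
theorem locGen_hauptmodul_rational [IsPrincipalIdealRing ↥O] (π : ↥O)
    (hπ : IsLocalRing.maximalIdeal ↥O = Ideal.span {π}) (hπ0 : π ≠ 0)
    (hh : Transcendental K h) [FiniteDimensional ↥K⟮h⟯ F] [Algebra.IsSeparable ↥K⟮h⟯ F]
    (Bh : Subring F) (hBh : ∀ f : F, f ∈ Bh ↔ (evO O h).IsIntegralElem f)
    (B0 : Subring F) (hle : Bh ≤ B0) (g : (↥O)[X]) (hgπ : ¬ C π ∣ g)
    (hfrac : ∀ x : ↥B0, ∃ (n : ℕ) (y : ↥Bh), (y : F) = evO O h g ^ n * (x : F))
    (hunit : ∃ δ : ↥B0, Subring.inclusion hle (evB O h Bh hBh g) * δ = 1)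
    (hV : ChartUnrAt O h (C π))
    (hH : ∀ f : (↥O)[X], Prime f → ¬ C π ∣ f → ¬ f ∣ g → ChartUnrAt O h f)
    (z0 : Ideal ↥B0) [hz0 : z0.IsPrime] (c : ↥O)
    (hzπ : Subring.inclusion hle (evB O h Bh hBh (C π)) ∈ z0)
    (hzc : Subring.inclusion hle (evB O h Bh hBh (X - C c)) ∈ z0) :
    Subring.inclusion hle (evB O h Bh hBh (X - C c)) ∉
        Ideal.span {Subring.inclusion hle (evB O h Bh hBh (C π))} ∧
      ∀ a ∈ z0, ∃ σ, σ ∉ z0 ∧ σ * a ∈ Ideal.span
        {Subring.inclusion hle (evB O h Bh hBh (C π)),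
          Subring.inclusion hle (evB O h Bh hBh (X - C c))} :=
  locGen_hauptmodul O h π hπ hπ0 hh Bh hBh B0 hle g hgπ hfrac hunit hV hH z0 (X - C c)
    (not_C_dvd_X_sub_C O π (prime_of_maximalIdeal_eq_span O π hπ hπ0).not_isUnit c)
    (isMaximal_span_C_X_sub_C O π hπ c) hzπ hzc

/-- The chart ring: the integral closure of `O[h]` in `F`, as a subring. -/
def chartRing : Subring F where
  carrier := {f | (evO O h).IsIntegralElem f}
  mul_mem' ha hb := RingHom.IsIntegralElem.mul _ ha hb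
  one_mem' := (evO O h).isIntegralElem_one
  add_mem' ha hb := RingHom.IsIntegralElem.add _ ha hb
  zero_mem' := (evO O h).isIntegralElem_zero
  neg_mem' ha := RingHom.IsIntegralElem.neg _ ha

theorem mem_chartRing {f : F} : f ∈ chartRing O h ↔ (evO O h).IsIntegralElem f := Iff.rfl

end Assembly

end Fermat.Agent.S37.helper530
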