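import Mathlib
import Fermat.Agent.S37.helper530_RegFinChart
import Fermat.Agent.Lib.helper28_IgusaLocal
import Fermat.Agent.S18.helper8211_QIntegral
import Fermat.Agent.S18.helper9392_Separable
import Fermat.Agent.S37.helper1588_FFKDegree

/-!
# S37-TB-REGFIN, modular instance of the vertical clause (helper530)

`K` a field of characteristic zero, `O : ValuationSubring K` a discrete valuation ring with
uniformiser `π` and perfect residue field of characteristic `p`, `M` a level prime to `p`
(`GoodLevel O M`), `F = laurentBaseChange K (modularFunctionFieldFull M) ⊆ K((q))`, and `h ∈ F` a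
"Hauptmodul-type" coordinate: `j ∈ K(h)`, `h` has an `O`-integral `q`-expansion `H` whose
reduction has `q`-order prime to `p`, and the kernel lemma `KLAt O h (gaussFSet O M)` holds on the
chart `O[h]` (for `h = j` this is `Lib.helper28.klAt_jq_modular`; for a Hauptmodul of `X₀(4)`,
`X₀(9)` it follows by `Lib.helper28.KLAt.transfer`).

* `chartUnrAt_vertical_modular` : `ChartUnrAt O h (C π)`, i.e. `F / K(h)` is unramified at the
  vertical prime `π` of `O[h]` (discriminant form) — the VERTICAL clause of TB-REGFIN.
-/

set_option autoImplicit false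

noncomputable section

namespace Fermat.Agent.S37.helper530

open ModularCurve Polynomial IntermediateField

section Transfer

variable {K E : Type*} [Field K] [Field E] [Algebra K E] (O : ValuationSubring K)
  (F : IntermediateField K E)

theorem coe_evO (h : F) (P : (↥O)[X]) : ((evO O h P : F) : E) = evO O (h : E) P := by
  rw [evO_apply, evO_apply]
  exact Polynomial.hom_eval₂ P ((algebraMap K F).comp O.subtype) (algebraMap F E) h

theorem evO_coe_eq_comp (h : F) : evO O (h : E) = (algebraMap F E).comp (evO O h) :=
  RingHom.ext fun P => (coe_evO O F h P).symm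

/-- Integrality over `O[h]` can be tested in the ambient field. -/
theorem isIntegralElem_coe_iff (h f : F) :
    (evO O h).IsIntegralElem f ↔ (evO O (h : E)).IsIntegralElem (f : E) := by
  constructor
  · rintro ⟨p, hp, hpf⟩
    refine ⟨p, hp, ?_⟩
    have h1 := Polynomial.hom_eval₂ p (evO O h) (algebraMap F E) f
    rw [hpf, map_zero] at h1
    rw [evO_coe_eq_comp]
    exact h1.symm
  · rintro ⟨p, hp, hpf⟩
    refine ⟨p, hp, ?_⟩
    have h1 := Polynomial.hom_eval₂ p (evO O h) (algebraMap F E) f
    rw [evO_coe_eq_comp] at hpf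
    apply (algebraMap F E).injective
    rw [h1, map_zero]
    exact hpf

end Transfer

section Modular

open Fermat.Agent.Lib Fermat.Agent.S18

variable (K : Type) [Field K] [Algebra ℚ K] (O : ValuationSubring K) [IsPrincipalIdealRing ↥O]
  (M : ℕ) [NeZero M]

/-- **RF-V, modular instance.** The vertical clause of TB-REGFIN for the function field
`F = F_{M,K}` over the chart `O[h]`: if `j ∈ K(h)`, `h` has an `O`-integral `q`-expansion whose
reduction has `q`-order `c` prime to the residue characteristic `p`, and the Igusa kernel lemma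
holds on the chart `O[h]`, then `F / K(h)` is unramified at the vertical prime `π`. -/
theorem chartUnrAt_vertical_modular (π : ↥O)
    (hπ : IsLocalRing.maximalIdeal ↥O = Ideal.span {π}) (hπ0 : π ≠ 0)
    (p : ℕ) [Fact p.Prime] [CharP (IsLocalRing.ResidueField ↥O) p]
    [PerfectRing (IsLocalRing.ResidueField ↥O) p]
    (hN : helper28.GoodLevel O M)
    (h : ↥(laurentBaseChange K (modularFunctionFieldFull M)))
    (hj : Fermat.Agent.S37.helper1588.jK K M ∈ K⟮h⟯)
    (H : LaurentSeries ↥O) (hH : coeffMap O.subtype H = (h : LaurentSeries K))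
    (c : ℤ) (hc : ¬ (p : ℤ) ∣ c) (hHne : coeffMap (IsLocalRing.residue ↥O) H ≠ 0)
    (hord : (coeffMap (IsLocalRing.residue ↥O) H).order = c)
    (hKL : helper28.KLAt O (h : LaurentSeries K) (helper28.gaussFSet O M))
    (Bh : Subring ↥(laurentBaseChange K (modularFunctionFieldFull M)))
    (hBh : ∀ f, f ∈ Bh ↔ (evO O h).IsIntegralElem f) :
    ChartUnrAt O h (C π) := by
  classical
  obtain ⟨hh, hfin⟩ := Fermat.Agent.S37.helper1588.functionField_of_mem_adjoin K M h hj
  have hchar : CharZero K := algebraRat.charZero K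
  have hcharKh : CharZero ↥K⟮h⟯ := charZero_of_injective_algebraMap (algebraMap K ↥K⟮h⟯).injective
  have hperf : PerfectField ↥K⟮h⟯ := PerfectField.ofCharZero
  have halg : Algebra.IsAlgebraic ↥K⟮h⟯ ↥(laurentBaseChange K (modularFunctionFieldFull M)) :=
    Algebra.IsAlgebraic.of_finite _ _
  have hsepF : Algebra.IsSeparable ↥K⟮h⟯ ↥(laurentBaseChange K (modularFunctionFieldFull M)) :=
    Algebra.IsAlgebraic.isSeparable_of_perfectField
  set ι : LaurentSeries ↥O →+* LaurentSeries K := coeffMap O.subtype with hι
  have hιinj : Function.Injective ι := helper28.iotaO_injective O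
  -- `O[h]` consists of integral series
  have hT : ∀ P : (↥O)[X], evO O (h : LaurentSeries K) P ∈ ι.range := by
    intro P
    induction P using Polynomial.induction_on with
    | C a =>
      rw [evO_C]
      exact ⟨HahnSeries.C a, by rw [← helper8991.C_eq_algebraMap]; exact helper8991.inc_C O a⟩
    | add p q hp hq => rw [map_add]; exact add_mem hp hq
    | monomial n a ih => rw [pow_succ, ← mul_assoc, map_mul, evO_X]; exact mul_mem ih ⟨H, hH⟩
  have hrange : (evO O (h : LaurentSeries K)).range ≤ ι.range := by
    rintro _ ⟨P, rfl⟩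
    exact hT P
  have hintR : ∀ m : ↥Bh, IsIntegral (evO O (h : LaurentSeries K)).range
      (((m : ↥(laurentBaseChange K (modularFunctionFieldFull M))) : LaurentSeries K)) := by
    intro m
    exact (helper28.isIntegralElem_iff_isIntegral_range _).mp
      ((isIntegralElem_coe_iff O _ h m).mp ((hBh _).mp m.2))
  have hint : ∀ m : ↥Bh,
      (((m : ↥(laurentBaseChange K (modularFunctionFieldFull M))) : LaurentSeries K)) ∈ ι.range := by
    intro m
    obtain ⟨y, hy⟩ := helper8211.exists_coeffMap_subtype_eq_of_isIntegral_subring O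
      (m : ↥(laurentBaseChange K (modularFunctionFieldFull M))).2 _ hrange (hintR m)
    exact ⟨y, hy⟩
  -- the reduction map `ψ : Bh → k((q))`
  let e : LaurentSeries ↥O ≃+* ↥ι.range :=
    RingEquiv.ofBijective ι.rangeRestrict
      ⟨fun x y hxy => hιinj (congrArg Subtype.val hxy), ι.rangeRestrict_surjective⟩
  let incl : ↥Bh →+* ↥ι.range :=
    ((algebraMap ↥(laurentBaseChange K (modularFunctionFieldFull M)) (LaurentSeries K)).comp
      Bh.subtype).codRestrict ι.range hint
  let ψ : ↥Bh →+* LaurentSeries (IsLocalRing.ResidueField ↥O) :=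
    (coeffMap (IsLocalRing.residue ↥O)).comp
      ((e.symm : ↥ι.range →+* LaurentSeries ↥O).comp incl)
  have hψspec : ∀ (m : ↥Bh) (y : LaurentSeries ↥O),
      ι y = ((m : ↥(laurentBaseChange K (modularFunctionFieldFull M))) : LaurentSeries K) →
      ψ m = coeffMap (IsLocalRing.residue ↥O) y := by
    intro m y hy
    have h1 : e.symm (incl m) = y := by
      apply e.injective
      rw [RingEquiv.apply_symm_apply]
      exact Subtype.ext hy.symm
    show coeffMap (IsLocalRing.residue ↥O) (e.symm (incl m)) = _
    rw [h1]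
  have hψC : ∀ a : ↥O, ψ (evB O h Bh hBh (C a)) =
      algebraMap (IsLocalRing.ResidueField ↥O) (LaurentSeries (IsLocalRing.ResidueField ↥O))
        (IsLocalRing.residue ↥O a) := by
    intro a
    rw [hψspec _ (HahnSeries.C a), ← helper8991.C_eq_algebraMap]
    · exact helper8991.red_C O (IsLocalRing.residue ↥O) a
    · rw [coe_evB, evO_C, hι]
      rw [helper8991.inc_C O a, helper8991.C_eq_algebraMap]
      rfl
  have hψX : ψ (evB O h Bh hBh X) = coeffMap (IsLocalRing.residue ↥O) H := by
    rw [hψspec _ H]
    rw [coe_evB, evO_X]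
    exact hH
  -- `h̄` is transcendental over the residue field
  have hbar : Transcendental (IsLocalRing.ResidueField ↥O) (ψ (evB O h Bh hBh X)) := by
    rw [hψX]
    intro halg
    obtain ⟨a, ha⟩ := Fermat.Agent.S37.helper1588.exists_algebraMap_eq_of_isAlgebraic _ halg
    have ha0 : a ≠ 0 := by
      rintro rfl
      rw [map_zero] at ha
      exact hHne ha
    have h1 : (coeffMap (IsLocalRing.residue ↥O) H).order = 0 := by
      rw [ha, algebraMap_laurentSeries_eq_single, HahnSeries.order_single ha0]
    rw [hord] at h1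
    exact hc (h1 ▸ dvd_zero _)
  -- the kernel lemma
  have hker : ∀ m : ↥Bh, ψ m = 0 → ∃ m' : ↥Bh, m = evB O h Bh hBh (C π) * m' := by
    intro m hm
    obtain ⟨Xm, hXm⟩ := hint m
    have hredX : helper28.redO O Xm = 0 := by
      rw [← hm, hψspec m Xm hXm]
      rfl
    obtain ⟨a, g, ha, hyg, hgG, hgint⟩ := helper28.exists_eq_smul_of_klSub O M hN hKL.klSub
      (m : ↥(laurentBaseChange K (modularFunctionFieldFull M))).2 (hintR m) (X := Xm) (Y := 1)
      (by rw [map_one]; exact one_ne_zero) (by rw [map_one, mul_one]; exact hXm.symm) hredX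
    rw [hπ] at ha
    obtain ⟨a', rfl⟩ := Ideal.mem_span_singleton.mp ha
    have hgF : g ∈ laurentBaseChange K (modularFunctionFieldFull M) := hgG.1
    have hgint' : (evO O h).IsIntegralElem
        (⟨g, hgF⟩ : ↥(laurentBaseChange K (modularFunctionFieldFull M))) :=
      (isIntegralElem_coe_iff O _ h ⟨g, hgF⟩).mpr
        ((helper28.isIntegralElem_iff_isIntegral_range _).mpr hgint)
    have ha'int : (evO O h).IsIntegralElem (evO O h (C a')) := (evO O h).isIntegralElem_map
    refine ⟨⟨evO O h (C a') * ⟨g, hgF⟩,
      (hBh _).mpr (RingHom.IsIntegralElem.mul _ ha'int hgint')⟩, Subtype.ext (Subtype.ext ?_)⟩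
    rw [hyg]
    simp only [coe_evB, evO_C, MulMemClass.coe_mul]
    rw [map_mul, mul_assoc]
    rfl
  -- separability of the residue extension
  have hsep : ∀ x : LaurentSeries (IsLocalRing.ResidueField ↥O),
      IsIntegral ↥(IsLocalRing.ResidueField ↥O)⟮ψ (evB O h Bh hBh X)⟯ x →
      IsSeparable ↥(IsLocalRing.ResidueField ↥O)⟮ψ (evB O h Bh hBh X)⟯ x := by
    intro x hx
    refine helper9392.isSeparable_of_isIntegral p
      (HahnSeries.addVal ℤ (IsLocalRing.ResidueField ↥O)) _ c hc ?_ x hx
    rw [hψX, HahnSeries.addVal_apply_of_ne hHne, hord]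
  have hresπ : IsLocalRing.residue ↥O π = 0 := by
    rw [IsLocalRing.residue_eq_zero_iff, hπ]
    exact Ideal.mem_span_singleton_self π
  exact chartUnrAt_vertical O h π hπ hπ0 hh Bh hBh (IsLocalRing.residue ↥O)
    IsLocalRing.residue_surjective hresπ ψ hψC hbar hker hsep

end Modular

end Fermat.Agent.S37.helper530
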