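import Mathlib
import Fermat.Agent.S37.helper530_RegFinModular
import Fermat.Agent.Lib.helper28_IgusaHaupt
import Fermat.Agent.S37.helper37_TrackB

/-!
# S37-TB-REGFIN: the Hauptmodul instances `t₄`, `t₉` (helper530)

Inputs of the generic assembly of TB-REGFIN (`S37.helper8507.locGen_jChart`) for the Hauptmoduln
`t₄` (level `M`, `4 ∣ M`, residue characteristic odd) and `t₉` (level `M`, `9 ∣ M`, residue
characteristic `≠ 3`) of `F = laurentBaseChange K (modularFunctionFieldFull M)`: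

* generic: `mem_finChartOf_iff_isIntegralElem` (the chart `helper37.finChartOf O t` is the set of
  `evO O t`-integral elements), `mem_finChartOf_of_rel`, `exists_pow_mul_mem_finChartOf`
  (Lemma S in chart form), `inv_mem_of_rel_four`, `inv_mem_of_rel_nine` (Bezout identities: the
  cusp polynomial of the Hauptmodul is a unit of the `j`-chart);
* `t4F K M h4`, `t9F K M h9` : the Hauptmoduln as elements of `F`, with
  transcendence, finiteness of `F / K(t)`, `t ∈ finChartOf O j`, cusp polynomial invertible in the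
  `j`-chart, the `j`-chart is the `t`-chart localised at the cusp polynomial, and the vertical
  clause `ChartUnrAt O t (C π)`.
-/

set_option autoImplicit false

noncomputable section

namespace Fermat.Agent.S37.helper530

open ModularCurve Polynomial IntermediateField
open Fermat.Agent.Lib

section GenericChart

variable {K F : Type*} [Field K] [Field F] [Algebra K F] (O : ValuationSubring K) (t : F)

theorem aeval_eq_evO (P : (↥O)[X]) : Polynomial.aeval t P = evO O t P := by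
  rw [Polynomial.aeval_def, evO_apply]
  rfl

theorem evO_mem_polyRing (P : (↥O)[X]) : evO O t P ∈ helper37.polyRing O t := by
  induction P using Polynomial.induction_on with
  | C a =>
    rw [evO_C]
    exact helper37.const_mem_polyRing O t a.2
  | add p q hp hq =>
    rw [map_add]
    exact add_mem hp hq
  | monomial n a ih =>
    rw [pow_succ, ← mul_assoc, map_mul, evO_X]
    exact mul_mem ih (helper37.self_mem_polyRing O t)

theorem range_evO_eq_polyRing : (evO O t).range = helper37.polyRing O t := by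
  apply le_antisymm
  · rintro _ ⟨P, rfl⟩
    exact evO_mem_polyRing O t P
  · unfold helper37.polyRing
    rw [Subring.closure_le]
    rintro x (⟨a, ha, rfl⟩ | hx)
    · exact ⟨C ⟨a, ha⟩, evO_C O t ⟨a, ha⟩⟩
    · rw [Set.mem_singleton_iff] at hx
      rw [hx]
      exact ⟨X, evO_X O t⟩

/-- The chart `helper37.finChartOf O t` is the set of elements integral over `O[t]`. -/
theorem mem_finChartOf_iff_isIntegralElem {f : F} :
    f ∈ helper37.finChartOf O t ↔ (evO O t).IsIntegralElem f := by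
  rw [helper37.mem_finChartOf, helper28.isIntegralElem_iff_isIntegral_range]
  have key : ∀ S S' : Subring F, S = S' → (IsIntegral S f ↔ IsIntegral S' f) := by
    rintro S _ rfl
    exact Iff.rfl
  exact key _ _ (range_evO_eq_polyRing O t).symm

theorem evO_mem_finChartOf (P : (↥O)[X]) : evO O t P ∈ helper37.finChartOf O t :=
  helper37.polyRing_le_finChartOf O t (evO_mem_polyRing O t P)

variable {t}

/-- If `j * g(t) = r(t)` with `r` monic and `deg g < deg r`, then `t` lies in the `j`-chart. -/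
theorem mem_finChartOf_of_rel {j : F} (r g : (↥O)[X]) (hr : r.Monic)
    (hdeg : g.natDegree < r.natDegree) (hrel : j * evO O t g = evO O t r) :
    t ∈ helper37.finChartOf O j :=
  (mem_finChartOf_iff_isIntegralElem O j).mpr (helper28.isIntegralElem_of_rel r g hr hdeg hrel)

/-- **Lemma S, chart form.** If `j * g(t) = r(t)` and `g ∣ D ^ m`, then the `j`-chart is contained
in the `t`-chart localised at `D(t)`. -/
theorem exists_pow_mul_mem_finChartOf {j : F} (r g g' D : (↥O)[X]) (m : ℕ)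
    (hgD : g * g' = D ^ m) (hrel : j * evO O t g = evO O t r) :
    ∀ x ∈ helper37.finChartOf O j, ∃ n : ℕ,
      Polynomial.aeval t D ^ n * x ∈ helper37.finChartOf O t := by
  intro x hx
  rw [mem_finChartOf_iff_isIntegralElem] at hx
  obtain ⟨n, hn⟩ := helper28.exists_pow_mul_isIntegralElem
    ((algebraMap K F).comp O.subtype) r g j t hrel hx
  refine ⟨m * n, ?_⟩
  rw [mem_finChartOf_iff_isIntegralElem, aeval_eq_evO]
  have h1 : evO O t D ^ (m * n) * x = evO O t (g' ^ n) * (evO O t g ^ n * x) := by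
    rw [pow_mul, ← map_pow, ← hgD, map_mul, mul_pow, map_pow]
    ring
  rw [h1]
  exact RingHom.IsIntegralElem.mul _ ((evO O t).isIntegralElem_map) hn

end GenericChart

section Bezout

variable {F : Type*} [Field F] (S : Subring F) {t j : F}

/-- **The cusps of `X₀(4)` are poles of `j`**, Bezout form: in a ring containing `t`, `j`, `1/2`
with `j t⁴ (t + 16) = (t² + 256 t + 4096)³`, the cusp polynomial `t (t + 16)` is a unit. -/
theorem inv_mem_of_rel_four (ht : t ∈ S) (hj : j ∈ S) (h2 : (2 : F)⁻¹ ∈ S) (h20 : (2 : F) ≠ 0)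
    (hrel : j * (t ^ 4 * (t + 16)) = (t ^ 2 + 256 * t + 4096) ^ 3) :
    (t * (t + 16))⁻¹ ∈ S := by
  have hc36 : ((2 : F)⁻¹) ^ 36 * 4096 ^ 3 = 1 := by
    have h : (4096 : F) ^ 3 = 2 ^ 36 := by norm_num
    rw [h, ← mul_pow, inv_mul_cancel₀ h20, one_pow]
  have hc24 : ((2 : F)⁻¹) ^ 24 * 256 ^ 3 = 1 := by
    have h : (256 : F) ^ 3 = 2 ^ 24 := by norm_num
    rw [h, ← mul_pow, inv_mul_cancel₀ h20, one_pow]
  have k1 : t * ((2 : F)⁻¹ ^ 36 * (j * t ^ 3 * (t + 16) - (t + 256) *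
      ((t ^ 2 + 256 * t + 4096) ^ 2 + 4096 * (t ^ 2 + 256 * t + 4096) + 4096 ^ 2))) = 1 := by
    linear_combination ((2 : F)⁻¹ ^ 36) * hrel + hc36
  have k2 : (t + 16) * ((2 : F)⁻¹ ^ 24 * (j * t ^ 4 - (t + 240) *
      ((t ^ 2 + 256 * t + 4096) ^ 2 + 256 * (t ^ 2 + 256 * t + 4096) + 256 ^ 2))) = 1 := by
    linear_combination ((2 : F)⁻¹ ^ 24) * hrel + hc24
  rw [mul_inv, inv_eq_of_mul_eq_one_right k1, inv_eq_of_mul_eq_one_right k2]
  repeat' first
    | exact ht | exact hj | exact h2 | exact ofNat_mem S _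
    | apply Subring.add_mem | apply Subring.sub_mem | apply Subring.mul_mem
    | apply Subring.pow_mem

/-- **The cusps of `X₀(9)` are poles of `j`**, Bezout form: in a ring containing `t`, `j`, `1/3`
with `j t⁹ (t² + 9 t + 27) = ((t + 9)(t³ + 243 t² + 2187 t + 6561))³`, the cusp polynomial
`t (t² + 9 t + 27)` is a unit. -/
theorem inv_mem_of_rel_nine (ht : t ∈ S) (hj : j ∈ S) (h3 : (3 : F)⁻¹ ∈ S) (h30 : (3 : F) ≠ 0)
    (hrel : j * (t ^ 9 * (t ^ 2 + 9 * t + 27))
      = ((t + 9) * (t ^ 3 + 243 * t ^ 2 + 2187 * t + 6561)) ^ 3) :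
    (t * (t ^ 2 + 9 * t + 27))⁻¹ ∈ S := by
  have hc30 : ((3 : F)⁻¹) ^ 30 * 59049 ^ 3 = 1 := by
    have h : (59049 : F) ^ 3 = 3 ^ 30 := by norm_num
    rw [h, ← mul_pow, inv_mul_cancel₀ h30, one_pow]
  have hc18 : ((3 : F)⁻¹) ^ 18 * 387420489 = 1 := by
    have h : (387420489 : F) = 3 ^ 18 := by norm_num
    rw [h, ← mul_pow, inv_mul_cancel₀ h30, one_pow]
  have k1 : t * ((3 : F)⁻¹ ^ 30 * (j * t ^ 8 * (t ^ 2 + 9 * t + 27)
      - (t ^ 3 + 252 * t ^ 2 + 4374 * t + 26244) *
        (((t + 9) * (t ^ 3 + 243 * t ^ 2 + 2187 * t + 6561)) ^ 2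
          + 59049 * ((t + 9) * (t ^ 3 + 243 * t ^ 2 + 2187 * t + 6561)) + 59049 ^ 2))) = 1 := by
    linear_combination ((3 : F)⁻¹ ^ 30) * hrel + hc30
  have k2 : (t ^ 2 + 9 * t + 27) * ((3 : F)⁻¹ ^ 18 * (j * t ^ 9
      - ((t ^ 2 + 9 * t + 27) ^ 2 * (t ^ 2 + 243 * t + 2160) ^ 3
        + 729 * (t ^ 2 + 9 * t + 27) * (t ^ 2 + 243 * t + 2160) ^ 2 * (t + 3)
        + 177147 * (t ^ 2 + 243 * t + 2160) * (t + 3) ^ 2 + 14348907 * t))) = 1 := by
    linear_combination ((3 : F)⁻¹ ^ 18) * hrel + hc18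
  rw [mul_inv, inv_eq_of_mul_eq_one_right k1, inv_eq_of_mul_eq_one_right k2]
  repeat' first
    | exact ht | exact hj | exact h3 | exact ofNat_mem S _
    | apply Subring.add_mem | apply Subring.sub_mem | apply Subring.mul_mem
    | apply Subring.pow_mem

end Bezout

section EvalDen

variable {K F : Type*} [Field K] [Field F] [Algebra K F] (O : ValuationSubring K) (t : F)

theorem evO_C_ofNat (n : ℕ) [n.AtLeastTwo] :
    evO O t (C (OfNat.ofNat n : ↥O)) = (OfNat.ofNat n : F) :=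
  helper28.evAt_C_ofNat (O := O) t n

theorem evO_t4Num : evO O t (helper28.t4Num ↥O) = (t ^ 2 + 256 * t + 4096) ^ 3 := by
  simp only [helper28.t4Num, map_pow, map_add, map_mul, evO_X, add_assoc]
  rw [evO_C_ofNat, evO_C_ofNat]

theorem evO_t4Den : evO O t (helper28.t4Den ↥O) = t ^ 4 * (t + 16) := by
  simp only [helper28.t4Den, map_pow, map_add, map_mul, evO_X]
  rw [evO_C_ofNat]

theorem evO_t9Num : evO O t (helper28.t9Num ↥O)
    = (t + 9) ^ 3 * (t ^ 3 + 243 * t ^ 2 + 2187 * t + 6561) ^ 3 := by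
  simp only [helper28.t9Num, map_pow, map_add, map_mul, evO_X, add_assoc]
  rw [evO_C_ofNat, evO_C_ofNat, evO_C_ofNat, evO_C_ofNat]

theorem evO_t9Den : evO O t (helper28.t9Den ↥O) = t ^ 9 * (t ^ 2 + 9 * t + 27) := by
  simp only [helper28.t9Den, map_pow, map_add, map_mul, evO_X, add_assoc]
  rw [evO_C_ofNat, evO_C_ofNat]

/-- The cusp polynomial of `t₄`. -/
theorem aeval_cusp_four :
    Polynomial.aeval t (X * (X + 16) : (↥O)[X]) = t * (t + 16) := by
  simp only [map_mul, map_add, Polynomial.aeval_X, map_ofNat]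

/-- The cusp polynomial of `t₉`. -/
theorem aeval_cusp_nine :
    Polynomial.aeval t (X * (X ^ 2 + 9 * X + 27) : (↥O)[X]) = t * (t ^ 2 + 9 * t + 27) := by
  simp only [map_mul, map_add, map_pow, Polynomial.aeval_X, map_ofNat]

theorem t4Den_mul : helper28.t4Den ↥O * (X + C 16) ^ 3 = (X * (X + 16) : (↥O)[X]) ^ 4 := by
  simp only [helper28.t4Den, map_ofNat]
  ring

theorem t9Den_mul : helper28.t9Den ↥O * (X ^ 2 + (C 9 * X + C 27)) ^ 8
    = (X * (X ^ 2 + 9 * X + 27) : (↥O)[X]) ^ 9 := by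
  simp only [helper28.t9Den, map_ofNat]
  ring

/-- the `q`-order of `q⁻¹ s`, `s(0) = 1`. -/
theorem order_lau (k : Type*) [Field k] {s : PowerSeries ℤ}
    (hs : PowerSeries.constantCoeff s = 1) : (helper3874.lau k s).order = -1 := by
  have h1 : (helper3874.lau k s).coeff (-1) ≠ 0 := by
    rw [helper3874.coeff_lau_neg_one, hs]
    simp
  have hne : helper3874.lau k s ≠ 0 := HahnSeries.ne_zero_of_coeff_ne_zero h1
  refine le_antisymm (HahnSeries.order_le_of_coeff_ne_zero h1) ?_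
  rw [HahnSeries.le_order_iff_forall hne]
  intro j hj
  exact helper3874.coeff_lau_of_lt k s hj

end EvalDen

section Modular

open Fermat.Agent.Lib.helper3874 (t4C t9C)

variable (K : Type) [Field K] [Algebra ℚ K] (M : ℕ) [NeZero M]

/-! ### `t₄` -/

/-- The Hauptmodul `t₄` of `X₀(4)` as an element of `F_{M,K}`, `4 ∣ M`. -/
def t4F (h4 : 4 ∣ M) : ↥(laurentBaseChange K (modularFunctionFieldFull M)) :=
  ⟨t4C K, by
    have : CharZero K := algebraRat.charZero K
    exact (Fermat.Agent.S18.helper8991.mem_laurentBaseChange_full_iff M).mpr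
      (helper3874.t4C_mem_full_of_dvd K two_ne_zero h4)⟩

theorem coe_t4F (h4 : 4 ∣ M) : ((t4F K M h4 : ↥(laurentBaseChange K (modularFunctionFieldFull M))) : LaurentSeries K) = t4C K := rfl

/-- The `j`-relation of `t₄` in `F_{M,K}`. -/
theorem jK_mul_t4F (h4 : 4 ∣ M) :
    helper1588.jK K M * (t4F K M h4 ^ 4 * (t4F K M h4 + 16))
      = (t4F K M h4 ^ 2 + 256 * t4F K M h4 + 4096) ^ 3 := by
  apply Subtype.ext
  show jqModC K * (t4C K ^ 4 * (t4C K + 16)) = (t4C K ^ 2 + 256 * t4C K + 4096) ^ 3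
  linear_combination helper3874.t4C_j1 K

theorem t4F_ne_zero (h4 : 4 ∣ M) : t4F K M h4 ≠ 0 := fun h =>
  helper3874.t4C_ne_zero K (congrArg Subtype.val h)

theorem t4F_add_ne_zero (h4 : 4 ∣ M) : t4F K M h4 + 16 ≠ 0 := fun h =>
  helper3874.t4C_add_ne_zero K (congrArg Subtype.val h)

theorem jK_mem_adjoin_t4F (h4 : 4 ∣ M) : helper1588.jK K M ∈ K⟮t4F K M h4⟯ := by
  have ht : t4F K M h4 ∈ K⟮t4F K M h4⟯ := mem_adjoin_simple_self K _
  refine helper3874.mem_of_mul_eq K _ (c1 := t4F K M h4 ^ 4 * (t4F K M h4 + 16))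
    (c0 := (t4F K M h4 ^ 2 + 256 * t4F K M h4 + 4096) ^ 3)
    (mul_mem (pow_mem ht 4) (add_mem ht (ofNat_mem _ 16)))
    (pow_mem (add_mem (add_mem (pow_mem ht 2) (mul_mem (ofNat_mem _ 256) ht))
      (ofNat_mem _ 4096)) 3) ?_
    (mul_ne_zero (pow_ne_zero 4 (t4F_ne_zero K M h4)) (t4F_add_ne_zero K M h4))
  linear_combination jK_mul_t4F K M h4

theorem transcendental_t4F (h4 : 4 ∣ M) : Transcendental K (t4F K M h4) :=
  (helper1588.functionField_of_mem_adjoin K M _ (jK_mem_adjoin_t4F K M h4)).1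

theorem finiteDimensional_t4F (h4 : 4 ∣ M) : FiniteDimensional K⟮t4F K M h4⟯ ↥(laurentBaseChange K (modularFunctionFieldFull M)) :=
  (helper1588.functionField_of_mem_adjoin K M _ (jK_mem_adjoin_t4F K M h4)).2

variable (O : ValuationSubring K)

theorem jK_mul_evO_t4F (h4 : 4 ∣ M) :
    helper1588.jK K M * evO O (t4F K M h4) (helper28.t4Den ↥O)
      = evO O (t4F K M h4) (helper28.t4Num ↥O) := by
  rw [evO_t4Den, evO_t4Num]
  exact jK_mul_t4F K M h4

/-- (D2) `t₄` lies in the `j`-chart. -/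
theorem t4F_mem_finChartOf (h4 : 4 ∣ M) :
    t4F K M h4 ∈ helper37.finChartOf O (helper1588.jK K M) :=
  mem_finChartOf_of_rel O (helper28.t4Num ↥O) (helper28.t4Den ↥O) (helper28.t4Num_monic ↥O)
    (by rw [helper28.natDegree_t4Den, helper28.natDegree_t4Num]; norm_num)
    (jK_mul_evO_t4F K M O h4)

/-- (D3) the cusp polynomial of `t₄` does not vanish. -/
theorem aeval_t4F_cusp_ne_zero (h4 : 4 ∣ M) :
    Polynomial.aeval (t4F K M h4) (X * (X + 16) : (↥O)[X]) ≠ 0 := by
  rw [aeval_cusp_four]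
  exact mul_ne_zero (t4F_ne_zero K M h4) (t4F_add_ne_zero K M h4)

/-- (D3) the cusp polynomial of `t₄` is a unit of the `j`-chart when `2` is a unit of `O`. -/
theorem inv_aeval_t4F_cusp_mem (h4 : 4 ∣ M) (h2 : (2 : K)⁻¹ ∈ O) :
    (Polynomial.aeval (t4F K M h4) (X * (X + 16) : (↥O)[X]))⁻¹
      ∈ helper37.finChartOf O (helper1588.jK K M) := by
  have : CharZero K := algebraRat.charZero K
  have : CharZero ↥(laurentBaseChange K (modularFunctionFieldFull M)) := charZero_of_injective_algebraMap (algebraMap K ↥(laurentBaseChange K (modularFunctionFieldFull M))).injective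
  rw [aeval_cusp_four]
  refine inv_mem_of_rel_four _ (t4F_mem_finChartOf K M O h4)
    (helper37.polyRing_le_finChartOf O _ (helper37.self_mem_polyRing O _)) ?_ two_ne_zero
    (jK_mul_t4F K M h4)
  have h := helper37.polyRing_le_finChartOf O (helper1588.jK K M)
    (helper37.const_mem_polyRing O (helper1588.jK K M) h2)
  rwa [map_inv₀, map_ofNat] at h

/-- (D4) the `j`-chart is the `t₄`-chart localised at the cusp polynomial. -/
theorem exists_pow_mul_mem_finChartOf_t4F (h4 : 4 ∣ M) :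
    ∀ x ∈ helper37.finChartOf O (helper1588.jK K M), ∃ n : ℕ,
      Polynomial.aeval (t4F K M h4) (X * (X + 16) : (↥O)[X]) ^ n * x
        ∈ helper37.finChartOf O (t4F K M h4) :=
  exists_pow_mul_mem_finChartOf O (helper28.t4Num ↥O) (helper28.t4Den ↥O) _ _ 4
    (t4Den_mul O) (jK_mul_evO_t4F K M O h4)

/-- **RF-V for `t₄`**: `F_{M,K} / K(t₄)` is unramified at the vertical prime of `O[t₄]`. -/
theorem chartUnrAt_t4F [IsPrincipalIdealRing ↥O] (h4 : 4 ∣ M) (π : ↥O)
    (hπ : IsLocalRing.maximalIdeal ↥O = Ideal.span {π}) (hπ0 : π ≠ 0)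
    (p : ℕ) [Fact p.Prime] [CharP (IsLocalRing.ResidueField ↥O) p]
    [PerfectRing (IsLocalRing.ResidueField ↥O) p] (hN : helper28.GoodLevel O M) :
    ChartUnrAt O (t4F K M h4) (C π) := by
  have hred : coeffMap (IsLocalRing.residue ↥O) (t4C ↥O) = t4C (IsLocalRing.ResidueField ↥O) :=
    helper3874.coeffMap_t4C _
  refine chartUnrAt_vertical_modular K O M π hπ hπ0 p hN (t4F K M h4) (jK_mem_adjoin_t4F K M h4)
    (t4C ↥O) (helper3874.coeffMap_t4C _) (-1) ?_ ?_ ?_ (helper28.klAt_t4C O M hN)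
    (chartRing O (t4F K M h4)) (fun f => mem_chartRing O (t4F K M h4))
  · rw [Int.dvd_neg]
    intro h
    exact (Fact.out : p.Prime).one_lt.ne' (Int.natCast_dvd_natCast.mp (by simpa using h) |> Nat.dvd_one.mp)
  · rw [hred]
    exact helper3874.t4C_ne_zero _
  · rw [hred]
    exact order_lau _ helper3874.constantCoeff_T4

/-! ### `t₉` -/

/-- The Hauptmodul `t₉` of `X₀(9)` as an element of `F_{M,K}`, `9 ∣ M`. -/
def t9F (h9 : 9 ∣ M) : ↥(laurentBaseChange K (modularFunctionFieldFull M)) :=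
  ⟨t9C K, by
    have : CharZero K := algebraRat.charZero K
    exact (Fermat.Agent.S18.helper8991.mem_laurentBaseChange_full_iff M).mpr
      (helper3874.t9C_mem_full_of_dvd K three_ne_zero h9)⟩

theorem coe_t9F (h9 : 9 ∣ M) :
    ((t9F K M h9 : ↥(laurentBaseChange K (modularFunctionFieldFull M))) : LaurentSeries K)
      = t9C K := rfl

/-- The `j`-relation of `t₉` in `F_{M,K}`. -/
theorem jK_mul_t9F (h9 : 9 ∣ M) :
    helper1588.jK K M * (t9F K M h9 ^ 9 * (t9F K M h9 ^ 2 + 9 * t9F K M h9 + 27))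
      = ((t9F K M h9 + 9) * (t9F K M h9 ^ 3 + 243 * t9F K M h9 ^ 2 + 2187 * t9F K M h9 + 6561))
        ^ 3 := by
  apply Subtype.ext
  show jqModC K * (t9C K ^ 9 * (t9C K ^ 2 + 9 * t9C K + 27))
    = ((t9C K + 9) * (t9C K ^ 3 + 243 * t9C K ^ 2 + 2187 * t9C K + 6561)) ^ 3
  linear_combination helper3874.t9C_j1 K

theorem t9F_ne_zero (h9 : 9 ∣ M) : t9F K M h9 ≠ 0 := fun h =>
  helper3874.t9C_ne_zero K (congrArg Subtype.val h)

theorem t9F_quad_ne_zero (h9 : 9 ∣ M) : t9F K M h9 ^ 2 + 9 * t9F K M h9 + 27 ≠ 0 := fun h =>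
  helper3874.t9C_quad_ne_zero K (congrArg Subtype.val h)

theorem jK_mem_adjoin_t9F (h9 : 9 ∣ M) : helper1588.jK K M ∈ K⟮t9F K M h9⟯ := by
  have ht : t9F K M h9 ∈ K⟮t9F K M h9⟯ := mem_adjoin_simple_self K _
  refine helper3874.mem_of_mul_eq K _
    (c1 := t9F K M h9 ^ 9 * (t9F K M h9 ^ 2 + 9 * t9F K M h9 + 27))
    (c0 := ((t9F K M h9 + 9)
      * (t9F K M h9 ^ 3 + 243 * t9F K M h9 ^ 2 + 2187 * t9F K M h9 + 6561)) ^ 3)
    (mul_mem (pow_mem ht 9)
      (add_mem (add_mem (pow_mem ht 2) (mul_mem (ofNat_mem _ 9) ht)) (ofNat_mem _ 27)))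
    (pow_mem (mul_mem (add_mem ht (ofNat_mem _ 9))
      (add_mem (add_mem (add_mem (pow_mem ht 3)
        (mul_mem (ofNat_mem _ 243) (pow_mem ht 2))) (mul_mem (ofNat_mem _ 2187) ht))
        (ofNat_mem _ 6561))) 3) ?_
    (mul_ne_zero (pow_ne_zero 9 (t9F_ne_zero K M h9)) (t9F_quad_ne_zero K M h9))
  linear_combination jK_mul_t9F K M h9

theorem transcendental_t9F (h9 : 9 ∣ M) : Transcendental K (t9F K M h9) :=
  (helper1588.functionField_of_mem_adjoin K M _ (jK_mem_adjoin_t9F K M h9)).1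

theorem finiteDimensional_t9F (h9 : 9 ∣ M) :
    FiniteDimensional K⟮t9F K M h9⟯ ↥(laurentBaseChange K (modularFunctionFieldFull M)) :=
  (helper1588.functionField_of_mem_adjoin K M _ (jK_mem_adjoin_t9F K M h9)).2

theorem jK_mul_evO_t9F (h9 : 9 ∣ M) :
    helper1588.jK K M * evO O (t9F K M h9) (helper28.t9Den ↥O)
      = evO O (t9F K M h9) (helper28.t9Num ↥O) := by
  rw [evO_t9Den, evO_t9Num, ← mul_pow]
  exact jK_mul_t9F K M h9

/-- (D2) `t₉` lies in the `j`-chart. -/
theorem t9F_mem_finChartOf (h9 : 9 ∣ M) :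
    t9F K M h9 ∈ helper37.finChartOf O (helper1588.jK K M) :=
  mem_finChartOf_of_rel O (helper28.t9Num ↥O) (helper28.t9Den ↥O) (helper28.t9Num_monic ↥O)
    (by rw [helper28.natDegree_t9Den, helper28.natDegree_t9Num]; norm_num)
    (jK_mul_evO_t9F K M O h9)

/-- (D3) the cusp polynomial of `t₉` does not vanish. -/
theorem aeval_t9F_cusp_ne_zero (h9 : 9 ∣ M) :
    Polynomial.aeval (t9F K M h9) (X * (X ^ 2 + 9 * X + 27) : (↥O)[X]) ≠ 0 := by
  rw [aeval_cusp_nine]
  exact mul_ne_zero (t9F_ne_zero K M h9) (t9F_quad_ne_zero K M h9)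

/-- (D3) the cusp polynomial of `t₉` is a unit of the `j`-chart when `3` is a unit of `O`. -/
theorem inv_aeval_t9F_cusp_mem (h9 : 9 ∣ M) (h3 : (3 : K)⁻¹ ∈ O) :
    (Polynomial.aeval (t9F K M h9) (X * (X ^ 2 + 9 * X + 27) : (↥O)[X]))⁻¹
      ∈ helper37.finChartOf O (helper1588.jK K M) := by
  have : CharZero K := algebraRat.charZero K
  have : CharZero ↥(laurentBaseChange K (modularFunctionFieldFull M)) :=
    charZero_of_injective_algebraMap
      (algebraMap K ↥(laurentBaseChange K (modularFunctionFieldFull M))).injective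
  rw [aeval_cusp_nine]
  refine inv_mem_of_rel_nine _ (t9F_mem_finChartOf K M O h9)
    (helper37.polyRing_le_finChartOf O _ (helper37.self_mem_polyRing O _)) ?_ three_ne_zero
    (jK_mul_t9F K M h9)
  have h := helper37.polyRing_le_finChartOf O (helper1588.jK K M)
    (helper37.const_mem_polyRing O (helper1588.jK K M) h3)
  rwa [map_inv₀, map_ofNat] at h

/-- (D4) the `j`-chart is the `t₉`-chart localised at the cusp polynomial. -/
theorem exists_pow_mul_mem_finChartOf_t9F (h9 : 9 ∣ M) :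
    ∀ x ∈ helper37.finChartOf O (helper1588.jK K M), ∃ n : ℕ,
      Polynomial.aeval (t9F K M h9) (X * (X ^ 2 + 9 * X + 27) : (↥O)[X]) ^ n * x
        ∈ helper37.finChartOf O (t9F K M h9) :=
  exists_pow_mul_mem_finChartOf O (helper28.t9Num ↥O) (helper28.t9Den ↥O) _ _ 9
    (t9Den_mul O) (jK_mul_evO_t9F K M O h9)

/-- **RF-V for `t₉`**: `F_{M,K} / K(t₉)` is unramified at the vertical prime of `O[t₉]`. -/
theorem chartUnrAt_t9F [IsPrincipalIdealRing ↥O] (h9 : 9 ∣ M) (π : ↥O)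
    (hπ : IsLocalRing.maximalIdeal ↥O = Ideal.span {π}) (hπ0 : π ≠ 0)
    (p : ℕ) [Fact p.Prime] [CharP (IsLocalRing.ResidueField ↥O) p]
    [PerfectRing (IsLocalRing.ResidueField ↥O) p] (hN : helper28.GoodLevel O M) :
    ChartUnrAt O (t9F K M h9) (C π) := by
  have hred : coeffMap (IsLocalRing.residue ↥O) (t9C ↥O) = t9C (IsLocalRing.ResidueField ↥O) :=
    helper3874.coeffMap_t9C _
  refine chartUnrAt_vertical_modular K O M π hπ hπ0 p hN (t9F K M h9) (jK_mem_adjoin_t9F K M h9)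
    (t9C ↥O) (helper3874.coeffMap_t9C _) (-1) ?_ ?_ ?_ (helper28.klAt_t9C O M hN)
    (chartRing O (t9F K M h9)) (fun f => mem_chartRing O (t9F K M h9))
  · rw [Int.dvd_neg]
    intro h
    exact (Fact.out : p.Prime).one_lt.ne'
      (Int.natCast_dvd_natCast.mp (by simpa using h) |> Nat.dvd_one.mp)
  · rw [hred]
    exact helper3874.t9C_ne_zero _
  · rw [hred]
    exact order_lau _ helper3874.constantCoeff_T9

end Modular

end Fermat.Agent.S37.helper530
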