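/-
S37 / S18, board row 1133 "UNRAM-FIN" (helper6932).

Characteristic-zero unramifiedness of the modular function fields at the FINITE places,
for levels without elliptic points, derived from the landed S24 local data.

Notation: `Kbar = ℚ̄`, `FN M = modularFunctionFieldBar M`, `jBar M : FN M`.

* `ord_dvd_of_embeddings` (generic sharpening of the S24 orbit counting lemma):
  in the setting of `Stmt_LOC`, every zero `v` of `y` is induced by one of the embeddings
  and `v.ord y` divides `m`.
* `ord_dvd_of_localDatum` : the same for a `LocalDatum` of the S24 specification.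
* `ord_jBar_sub_eq_one`   : zeros of `j - c`, `c ≠ 0, 1728`, are simple (every level).
* `ord_jBar_sub_1728_eq_two` : if `nuTwo M = 0`, every zero of `j - 1728` has order exactly `2`.
* `ord_jBar_eq_three`     : if `nuThree M = 0`, every zero of `j` has order exactly `3`.
* `ramificationIndexAlong_eq_one` : if `M`, `M'` have no elliptic points and
  `φ : FN M →ₐ FN M'` maps `j` to `j`, then `φ` is unramified at every place of `FN M'`
  which is not a pole of `j`.
* `ord_jBar_sub_1728_dvd_two`, `ord_jBar_dvd_three`, `ord_jBar_inv_dvd_level` : at EVERY level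
  the order of `j - 1728` (resp. `j`) at a zero divides `2` (resp. `3`), and the pole order of
  `j` at a cusp divides the level;  `ramificationIndexAlong_dvd_six`,
  `ramificationIndexAlong_dvd_level` : the corresponding tameness statements for `φ`.
* `nuTwo_eq_zero_of_four_dvd`, `nuTwo_eq_zero_of_three_dvd`, `nuThree_eq_zero_of_two_dvd`,
  `nuThree_eq_zero_of_nine_dvd` : the numerics.
* `ramificationIndexAlong_heckeAlphaBar_four`, `..._nine` : the instances
  `F_4 ⊆ F_{4N}`, `F_9 ⊆ F_{9N}`.
-/
import Fermat.Agent.S24.helper1200_Final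
import Fermat.Agent.S24.helper2304_LOC
import Fermat.Agent.S37.helper5162_HeckeInputsModular

set_option autoImplicit false

open ModularCurve AlgebraicCurve IntermediateField CongruenceSubgroup
open scoped MatrixGroups

namespace Fermat.Agent.S37.helper6932

open Fermat.Agent.S24 Fermat.Agent.S24.helper24

/-! ## Generic: zeros are induced by the embeddings -/

section Generic

open Fermat.Agent.S24.helper2304

variable {K F : Type*} [Field K] [Field F] [Algebra K F]
variable {E : Type*} [Field E] (w : AddValuation E (WithTop ℤ))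

/-- In the setting of the orbit counting lemma (without the automorphism): every zero `v` of `y`
is the place induced by one of the embeddings, and `w (ι i π) * ord_v y = m` for a uniformiser
`π` at `v`. -/
theorem exists_embedding_of_zero [CharZero K] [Algebra K E] (y : F)
    (s : Finset (Place K F)) (hs : ∀ v : Place K F, v ∈ s ↔ 0 < v.ord y)
    (hres : ∀ v : Place K F, Function.Surjective (algebraMap K v.ResidueField))
    (hwK : ∀ a : K, a ≠ 0 → w (algebraMap K E a) = 0)
    {X : Type*} [Fintype X]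
    (hsum : ∑ v ∈ s, v.ord y = (Fintype.card X : ℤ))
    (ι : X → (F →ₐ[K] E)) (hι : Function.Injective ι)
    (ξ : E) (hξ : ∀ i, ι i y = ξ) (m : ℕ) (hm : 0 < m) (hwξ : w ξ = ((m : ℤ) : WithTop ℤ))
    (v : Place K F) (hv : v ∈ s) :
    ∃ i : X, ∀ f : F, f ∈ v.toValuationSubring ↔ 0 ≤ w (ι i f) := by
  classical
  have hmpos : (0 : WithTop ℤ) < ((m : ℤ) : WithTop ℤ) := by exact_mod_cast hm
  have hK0 : ∀ (i : X) (a : K), 0 ≤ w ((ι i : F →+* E) (algebraMap K F a)) := by
    intro i a
    show 0 ≤ w (ι i (algebraMap K F a))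
    rw [AlgHom.commutes]
    rcases eq_or_ne a 0 with rfl | ha
    · rw [map_zero, w.map_zero]; exact le_top
    · rw [hwK a ha]
  have hξ0 : ξ ≠ 0 := by
    intro h
    rw [h, w.map_zero] at hwξ
    exact WithTop.top_ne_coe hwξ
  have hyinv : ∀ i : X, ¬ 0 ≤ w (ι i y⁻¹) := by
    intro i h
    have hy0 : y ≠ 0 := by
      rintro rfl
      exact hξ0 (by rw [← hξ i, map_zero])
    have h1 : w (ι i y) + w (ι i y⁻¹) = 0 := by
      rw [← w.map_mul, ← map_mul, mul_inv_cancel₀ hy0, map_one, w.map_one]
    rw [hξ i, hwξ] at h1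
    have h2 := add_pos_of_pos_of_nonneg hmpos h
    rw [h1] at h2
    exact lt_irrefl _ h2
  let P : X → Place K F := fun i => placeOf w (ι i : F →+* E) (hK0 i) ⟨y⁻¹, hyinv i⟩
  have hPs : ∀ i, P i ∈ s := by
    intro i
    rw [hs]
    apply ord_pos_of_mem_of_inv_not_mem
    · show 0 ≤ w (ι i y)
      rw [hξ i, hwξ]; exact hmpos.le
    · exact hyinv i
  -- the fibre bound
  have hfib : ∀ v ∈ s, (Finset.univ.filter (fun i => P i = v)).card ≤ (v.ord y).toNat := by
    intro v hv
    have hvy : 0 < v.ord y := (hs v).mp hv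
    obtain ⟨π, hπ⟩ := IsDiscreteValuationRing.exists_irreducible v.toValuationSubring
    obtain ⟨y', u, hy'y, hu, hy'⟩ := exists_unit_mul_pow_of_ord_pos v hvy hπ
    have happ := approx_of_residue v (hres v) hπ
    let g : {i : X // P i = v} → v.toValuationSubring →+* E :=
      fun i => (ι i.1 : F →+* E).comp v.toValuationSubring.subtype
    have hgapp : ∀ (i : {i : X // P i = v}) (x : v.toValuationSubring), g i x = ι i.1 (x : F) :=
      fun i x => rfl
    have hginj : Function.Injective g := by
      intro i j hij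
      apply Subtype.ext
      apply hι
      apply AlgHom.ext
      intro f
      rcases v.toValuationSubring.mem_or_inv_mem f with hf | hf
      · have h1 := congrArg (fun φ => φ ⟨f, hf⟩) hij
        exact h1
      · have h1 : ι i.1 f⁻¹ = ι j.1 f⁻¹ := congrArg (fun φ => φ ⟨f⁻¹, hf⟩) hij
        rw [map_inv₀, map_inv₀] at h1
        exact inv_injective h1
    have hg0 : ∀ (i : {i : X // P i = v}) (x : v.toValuationSubring), 0 ≤ w (g i x) := by
      intro i x
      have h1 : (x : F) ∈ (P i.1).toValuationSubring := by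
        rw [i.2]; exact x.2
      exact h1
    have hgK : ∀ (i j : {i : X // P i = v}) (a : K),
        g i (algebraMap K v.toValuationSubring a) = g j (algebraMap K v.toValuationSubring a) := by
      intro i j a
      rw [hgapp, hgapp, v.coe_algebraMap, AlgHom.commutes, AlgHom.commutes]
    have hgy : ∀ i j : {i : X // P i = v}, g i y' = g j y' := by
      intro i j
      rw [hgapp, hgapp, hy'y, hξ, hξ]
    have hwy : ∀ i : {i : X // P i = v}, w (g i y') = ((m : ℤ) : WithTop ℤ) := by
      intro i
      rw [hgapp, hy'y, hξ, hwξ]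
    have he : w (((v.ord y).toNat : ℕ) : E) = 0 := by
      rw [← map_natCast (algebraMap K E)]
      apply hwK
      have : (v.ord y).toNat ≠ 0 := by omega
      exact_mod_cast this
    have hcard := lemmaD w happ g hginj hg0 hgK (e := (v.ord y).toNat) (by omega) hy' hu hgy
      (m : ℤ) (by exact_mod_cast hm) hwy he
    rw [Fintype.card_subtype] at hcard
    exact hcard
  have hcount : Fintype.card X = ∑ v ∈ s, (Finset.univ.filter (fun i => P i = v)).card := by
    rw [← Finset.card_univ]
    exact Finset.card_eq_sum_card_fiberwise (fun i _ => hPs i)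
  have hfibeq : ∀ v ∈ s, (Finset.univ.filter (fun i => P i = v)).card = (v.ord y).toNat := by
    have hsum' : ∑ v ∈ s, (Finset.univ.filter (fun i => P i = v)).card
        = ∑ v ∈ s, (v.ord y).toNat := by
      rw [← hcount]
      have h1 : ((∑ v ∈ s, (v.ord y).toNat : ℕ) : ℤ) = (Fintype.card X : ℤ) := by
        rw [← hsum]; push_cast
        refine Finset.sum_congr rfl fun v hv => ?_
        exact Int.toNat_of_nonneg ((hs v).mp hv).le
      exact_mod_cast h1.symm
    exact (Finset.sum_eq_sum_iff_of_le hfib).mp hsum'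
  have h1 := hfibeq v hv
  have h2 : 0 < (Finset.univ.filter (fun i => P i = v)).card := by
    rw [h1]
    have := (hs v).mp hv
    omega
  obtain ⟨i, hi⟩ := Finset.card_pos.mp h2
  have hPi : P i = v := (Finset.mem_filter.mp hi).2
  refine ⟨i, fun f => ?_⟩
  rw [← hPi]
  exact Iff.rfl

/-- In the setting of the orbit counting lemma: the order of `y` at each of its zeros
divides `m`. -/
theorem ord_dvd_of_embeddings [CharZero K] [Algebra K E] (y : F)
    (s : Finset (Place K F)) (hs : ∀ v : Place K F, v ∈ s ↔ 0 < v.ord y)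
    (hres : ∀ v : Place K F, Function.Surjective (algebraMap K v.ResidueField))
    (hwK : ∀ a : K, a ≠ 0 → w (algebraMap K E a) = 0)
    {X : Type*} [Fintype X]
    (hsum : ∑ v ∈ s, v.ord y = (Fintype.card X : ℤ))
    (ι : X → (F →ₐ[K] E)) (hι : Function.Injective ι)
    (ξ : E) (hξ : ∀ i, ι i y = ξ) (m : ℕ) (hm : 0 < m) (hwξ : w ξ = ((m : ℤ) : WithTop ℤ))
    (v : Place K F) (hv : v ∈ s) :
    (v.ord y).toNat ∣ m := by
  classical
  obtain ⟨i, hi⟩ := exists_embedding_of_zero w y s hs hres hwK hsum ι hι ξ hξ m hm hwξ v hv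
  have hvy : 0 < v.ord y := (hs v).mp hv
  obtain ⟨π, hπ⟩ := IsDiscreteValuationRing.exists_irreducible v.toValuationSubring
  obtain ⟨y', u, hy'y, hu, hy'⟩ := exists_unit_mul_pow_of_ord_pos v hvy hπ
  let g : v.toValuationSubring →+* E := (ι i : F →+* E).comp v.toValuationSubring.subtype
  have hg : ∀ x, 0 ≤ w (g x) := fun x => (hi (x : F)).mp x.2
  have h1 : w (g y') = (v.ord y).toNat • w (g π) := by
    rw [hy', map_mul, map_pow, w.map_mul, w.map_pow, val_unit w g hg hu, zero_add]
  have h2 : w (g y') = ((m : ℤ) : WithTop ℤ) := by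
    show w (ι i (y' : F)) = _
    rw [hy'y, hξ i, hwξ]
  have h3 : (v.ord y).toNat • w (g π) = ((m : ℤ) : WithTop ℤ) := by rw [← h1, h2]
  have hk : (v.ord y).toNat ≠ 0 := by omega
  -- `w (g π)` is a finite integer
  cases hwπ : w (g π) using WithTop.recTopCoe with
  | top =>
    obtain ⟨k', hk'⟩ := Nat.exists_eq_succ_of_ne_zero hk
    rw [hwπ, hk', succ_nsmul, WithTop.add_top] at h3
    exact absurd h3 WithTop.top_ne_coe
  | coe a =>
    rw [hwπ, ← WithTop.coe_nsmul, nsmul_eq_mul] at h3
    have h4 : ((v.ord y).toNat : ℤ) * a = m := by exact_mod_cast h3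
    have h5 : ((v.ord y).toNat : ℤ) ∣ (m : ℤ) := ⟨a, h4.symm⟩
    exact Int.natCast_dvd_natCast.mp h5

end Generic

/-! ## The modular function fields -/

section Modular

/-- `[F_N : ℚ̄(j)] = [SL₂(ℤ) : Γ₀(N)]` (S24). -/
theorem leaf_JFinrank : Stmt_JFinrank := Fermat.Agent.S37.helper5162.stmt_JFinrank

/-- The three finite local data of S24. -/
theorem leaf_Local : Stmt_LocalGeneric ∧ Stmt_Local1728 ∧ Stmt_LocalZero :=
  helper2064.local_of_merPackage helper1200.stmt_MerPackage

/-- The place counts of S24. -/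
theorem leaf_Places : Stmt_Places :=
  helper1635.stmt_Places_of leaf_LOC leaf_FundId leaf_JTranscendental leaf_JFinrank
    leaf_Local.1 leaf_Local.2.1 leaf_Local.2.2 helper1200.stmt_LocalInf
    leaf_OrbitsT leaf_OrbitsS leaf_OrbitsST

/-- The order of `y` at a zero divides `m`, for a local datum `LocalDatum N y m g`. -/
theorem ord_dvd_of_localDatum (N : ℕ) [NeZero N] (y : FN N) (m : ℕ)
    (g : SL(2, ℤ)) (hy : Transcendental Kbar y) [FiniteDimensional Kbar⟮y⟯ (FN N)]
    (hcard : Nat.card (XN N) = Module.finrank Kbar⟮y⟯ (FN N))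
    (hdat : LocalDatum N y m g) (v : Place Kbar (FN N)) (hv : 0 < v.ord y) :
    (v.ord y).toNat ∣ m := by
  obtain ⟨Ω, _, _, w, ι, σ, ξ, hwK, hι, hξ, hm, hwξ, -, -, -⟩ := hdat
  have hpos : 0 < Module.finrank Kbar⟮y⟯ (FN N) := Module.finrank_pos
  haveI : Finite (XN N) := Nat.finite_of_card_ne_zero (by omega)
  letI : Fintype (XN N) := Fintype.ofFinite _
  have hcard' : Fintype.card (XN N) = Module.finrank Kbar⟮y⟯ (FN N) := by
    rw [← Nat.card_eq_fintype_card]; exact hcard
  obtain ⟨s, hs, hsum⟩ := leaf_FundId Kbar (FN N) y hy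
  exact ord_dvd_of_embeddings w y s hs (fun v => leaf_ResidueK Kbar (FN N) y hy v) hwK
    (by rw [hsum, hcard']) ι hι ξ hξ m hm hwξ v ((hs v).mpr hv)

variable (N : ℕ) [NeZero N]

/-- Shifting `j` by a constant does not change the field it generates. -/
theorem shift_finrank (c : Kbar) :
    FiniteDimensional Kbar⟮jBar N - algebraMap Kbar (FN N) c⟯ (FN N) ∧
      Nat.card (XN N) = Module.finrank Kbar⟮jBar N - algebraMap Kbar (FN N) c⟯ (FN N) := by
  haveI : FiniteDimensional Kbar⟮jBar N⟯ (FN N) := (leaf_JFinrank N).1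
  have hn : Module.finrank Kbar⟮jBar N⟯ (FN N) = Nat.card (XN N) := (leaf_JFinrank N).2
  have he := helper1635.adjoin_sub_algebraMap (K := Kbar) (jBar N) c
  exact ⟨helper1635.finiteDimensional_of_eq he.symm, by rw [helper1635.finrank_of_eq he, hn]⟩

/-- Zeros of `j - c`, `c ≠ 0, 1728`, are simple (every level). -/
theorem ord_jBar_sub_eq_one (c : Kbar) (hc0 : c ≠ 0) (hc : c ≠ 1728) (v : Place Kbar (FN N))
    (hv : 0 < v.ord (jBar N - algebraMap Kbar (FN N) c)) :
    v.ord (jBar N - algebraMap Kbar (FN N) c) = 1 :=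
  (leaf_Places N).1 c hc0 hc v hv

/-- If `Γ₀(N)` has no elliptic point of order 2, every zero of `j - 1728` has order exactly 2. -/
theorem ord_jBar_sub_1728_eq_two (h2 : nuTwo N = 0) (v : Place Kbar (FN N))
    (hv : 0 < v.ord (jBar N - algebraMap Kbar (FN N) 1728)) :
    v.ord (jBar N - algebraMap Kbar (FN N) 1728) = 2 := by
  classical
  obtain ⟨hfd, hcard⟩ := shift_finrank N 1728
  haveI := hfd
  have htr := helper1635.transcendental_sub_algebraMap (leaf_JTranscendental N) (1728 : Kbar)
  have hdvd : ∀ u : Place Kbar (FN N), 0 < u.ord (jBar N - algebraMap Kbar (FN N) 1728) →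
      (u.ord (jBar N - algebraMap Kbar (FN N) 1728)).toNat ∣ 2 := fun u hu =>
    ord_dvd_of_localDatum N _ 2 ModularGroup.S htr hcard (leaf_Local.2.1 N) u hu
  obtain ⟨s, hs, hsum⟩ := leaf_FundId Kbar (FN N) _ htr
  have hscard : Nat.card {v : Place Kbar (FN N) //
      0 < v.ord (jBar N - algebraMap Kbar (FN N) 1728)} = s.card := by
    rw [Nat.card_congr (Equiv.subtypeEquivRight (fun v => (hs v).symm))]
    simp
  have hcount : 2 * s.card = dedekindPsi N := by
    have h := (leaf_Places N).2.1
    rw [hscard, h2, add_zero] at h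
    exact h
  have hle : ∀ u ∈ s, u.ord (jBar N - algebraMap Kbar (FN N) 1728) ≤ 2 := by
    intro u hu
    have h1 := (hs u).mp hu
    have h3 := Nat.le_of_dvd (by norm_num) (hdvd u h1)
    omega
  have hsum0 : ∑ u ∈ s, (2 - u.ord (jBar N - algebraMap Kbar (FN N) 1728)) = 0 := by
    rw [Finset.sum_sub_distrib, hsum, ← hcard, leaf_Index N, ← hcount]
    simp
    ring
  have hz := (Finset.sum_eq_zero_iff_of_nonneg (fun u hu => by
    have := hle u hu; omega)).mp hsum0 v ((hs v).mpr hv)
  omega

/-- If `Γ₀(N)` has no elliptic point of order 3, every zero of `j` has order exactly 3. -/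
theorem ord_jBar_eq_three (h3 : nuThree N = 0) (v : Place Kbar (FN N))
    (hv : 0 < v.ord (jBar N)) : v.ord (jBar N) = 3 := by
  classical
  haveI : FiniteDimensional Kbar⟮jBar N⟯ (FN N) := (leaf_JFinrank N).1
  have hn : Module.finrank Kbar⟮jBar N⟯ (FN N) = Nat.card (XN N) := (leaf_JFinrank N).2
  have htr := leaf_JTranscendental N
  have hdvd : ∀ u : Place Kbar (FN N), 0 < u.ord (jBar N) → (u.ord (jBar N)).toNat ∣ 3 :=
    fun u hu => ord_dvd_of_localDatum N _ 3 (ModularGroup.S * ModularGroup.T) htr hn.symm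
      (leaf_Local.2.2 N) u hu
  obtain ⟨s, hs, hsum⟩ := leaf_FundId Kbar (FN N) _ htr
  have hscard : Nat.card {v : Place Kbar (FN N) //
      0 < v.ord (jBar N - algebraMap Kbar (FN N) 0)} = s.card := by
    simp only [map_zero, sub_zero]
    rw [Nat.card_congr (Equiv.subtypeEquivRight (fun v => (hs v).symm))]
    simp
  have hcount : 3 * s.card = dedekindPsi N := by
    have h := (leaf_Places N).2.2.1
    rw [hscard, h3, mul_zero, add_zero] at h
    exact h
  have hle : ∀ u ∈ s, u.ord (jBar N) ≤ 3 := by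
    intro u hu
    have h1 := (hs u).mp hu
    have h4 := Nat.le_of_dvd (by norm_num) (hdvd u h1)
    omega
  have hsum0 : ∑ u ∈ s, (3 - u.ord (jBar N)) = 0 := by
    rw [Finset.sum_sub_distrib, hsum, hn, leaf_Index N, ← hcount]
    simp
    ring
  have hz := (Finset.sum_eq_zero_iff_of_nonneg (fun u hu => by
    have := hle u hu; omega)).mp hsum0 v ((hs v).mpr hv)
  omega

/-- At every level, the order of `j - 1728` at a zero divides `2`. -/
theorem ord_jBar_sub_1728_dvd_two (v : Place Kbar (FN N))
    (hv : 0 < v.ord (jBar N - algebraMap Kbar (FN N) 1728)) :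
    (v.ord (jBar N - algebraMap Kbar (FN N) 1728)).toNat ∣ 2 := by
  obtain ⟨hfd, hcard⟩ := shift_finrank N 1728
  haveI := hfd
  have htr := helper1635.transcendental_sub_algebraMap (leaf_JTranscendental N) (1728 : Kbar)
  exact ord_dvd_of_localDatum N _ 2 ModularGroup.S htr hcard (leaf_Local.2.1 N) v hv

/-- At every level, the order of `j` at a zero divides `3`. -/
theorem ord_jBar_dvd_three (v : Place Kbar (FN N)) (hv : 0 < v.ord (jBar N)) :
    (v.ord (jBar N)).toNat ∣ 3 := by
  haveI : FiniteDimensional Kbar⟮jBar N⟯ (FN N) := (leaf_JFinrank N).1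
  have hn : Module.finrank Kbar⟮jBar N⟯ (FN N) = Nat.card (XN N) := (leaf_JFinrank N).2
  exact ord_dvd_of_localDatum N _ 3 (ModularGroup.S * ModularGroup.T) (leaf_JTranscendental N)
    hn.symm (leaf_Local.2.2 N) v hv

/-- At every level `N`, the pole order of `j` at a cusp divides `N` (tameness at the cusps). -/
theorem ord_jBar_inv_dvd_level (v : Place Kbar (FN N)) (hv : v.ord (jBar N) < 0) :
    (-(v.ord (jBar N))).toNat ∣ N := by
  haveI : FiniteDimensional Kbar⟮jBar N⟯ (FN N) := (leaf_JFinrank N).1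
  have hn : Module.finrank Kbar⟮jBar N⟯ (FN N) = Nat.card (XN N) := (leaf_JFinrank N).2
  have he := helper1635.adjoin_inv (K := Kbar) (jBar N)
  haveI : FiniteDimensional Kbar⟮(jBar N)⁻¹⟯ (FN N) := helper1635.finiteDimensional_of_eq he.symm
  have hcard : Nat.card (XN N) = Module.finrank Kbar⟮(jBar N)⁻¹⟯ (FN N) := by
    rw [helper1635.finrank_of_eq he, hn]
  have hv' : 0 < v.ord (jBar N)⁻¹ := by rw [Place.ord_inv]; omega
  have h := ord_dvd_of_localDatum N (jBar N)⁻¹ N ModularGroup.T
    (helper1635.transcendental_inv (leaf_JTranscendental N)) hcard (helper1200.stmt_LocalInf N)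
    v hv'
  rwa [Place.ord_inv] at h

end Modular

/-! ## Unramifiedness of `F_{M'} / F_M` at the finite places -/

section Unramified

variable {M M' : ℕ} [NeZero M] [NeZero M']

/-- **Unramified at finite places.** If neither level has elliptic points and the embedding
`φ : F_M → F_{M'}` maps `j` to `j`, then `φ` is unramified at every place of `F_{M'}` which is
not a pole of `j`. -/
theorem ramificationIndexAlong_eq_one (h2 : nuTwo M = 0) (h3 : nuThree M = 0)
    (h2' : nuTwo M' = 0) (h3' : nuThree M' = 0)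
    (φ : FN M →ₐ[Kbar] FN M') (hφ : φ.toRingHom.IsIntegral) (hj : φ (jBar M) = jBar M')
    (v : Place Kbar (FN M')) (hv : 0 ≤ v.ord (jBar M')) :
    v.ramificationIndexAlong φ = 1 := by
  haveI : FiniteDimensional Kbar⟮jBar M'⟯ (FN M') := (leaf_JFinrank M').1
  rcases leaf_Center Kbar (FN M') (jBar M') (leaf_JTranscendental M') v with hneg | ⟨c, hc⟩
  · omega
  have hφc : φ (jBar M - algebraMap Kbar (FN M) c) = jBar M' - algebraMap Kbar (FN M') c := by
    rw [map_sub, hj, AlgHom.commutes]
  have hord := Place.ord_restrictAlong φ hφ v (jBar M - algebraMap Kbar (FN M) c)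
  rw [hφc] at hord
  set e : ℕ := v.ramificationIndexAlong φ with he
  set u : Place Kbar (FN M) := v.restrictAlong φ hφ with hu
  have hupos : 0 < u.ord (jBar M - algebraMap Kbar (FN M) c) := by
    by_contra hcon
    rw [not_lt] at hcon
    have h1 : (e : ℤ) * u.ord (jBar M - algebraMap Kbar (FN M) c) ≤ 0 :=
      mul_nonpos_of_nonneg_of_nonpos (by positivity) hcon
    omega
  by_cases hc0 : c = 0
  · subst hc0
    simp only [map_zero, sub_zero] at hc hord hupos
    rw [ord_jBar_eq_three M' h3' v hc, ord_jBar_eq_three M h3 u hupos] at hord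
    omega
  by_cases hc1 : c = 1728
  · subst hc1
    rw [ord_jBar_sub_1728_eq_two M' h2' v hc, ord_jBar_sub_1728_eq_two M h2 u hupos] at hord
    omega
  · rw [ord_jBar_sub_eq_one M' c hc0 hc1 v hc, ord_jBar_sub_eq_one M c hc0 hc1 u hupos] at hord
    omega

omit [NeZero M] in
/-- **Tameness at the cusps.** If `φ : F_M → F_{M'}` maps `j` to `j`, the ramification index of
`φ` at a pole of `j` divides the level `M'`. -/
theorem ramificationIndexAlong_dvd_level
    (φ : FN M →ₐ[Kbar] FN M') (hφ : φ.toRingHom.IsIntegral) (hj : φ (jBar M) = jBar M')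
    (v : Place Kbar (FN M')) (hv : v.ord (jBar M') < 0) :
    v.ramificationIndexAlong φ ∣ M' := by
  have hord := Place.ord_restrictAlong φ hφ v (jBar M)
  rw [hj] at hord
  have h1 := ord_jBar_inv_dvd_level M' v hv
  have h2 : (v.ramificationIndexAlong φ : ℤ) ∣ -(v.ord (jBar M')) := by
    rw [hord]
    exact (dvd_mul_right _ _).neg_right
  have h3 : (-(v.ord (jBar M'))).toNat = (-(v.ord (jBar M'))).natAbs := by omega
  rw [h3] at h1
  exact (Int.natCast_dvd.mp h2).trans h1

omit [NeZero M] in
/-- At a finite place, the ramification index of `φ : F_M → F_{M'}` (with `φ j = j`) divides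
`6`; more precisely it divides the order of `j - c` upstairs, which is `1`, `2` or `3`. -/
theorem ramificationIndexAlong_dvd_six
    (φ : FN M →ₐ[Kbar] FN M') (hφ : φ.toRingHom.IsIntegral) (hj : φ (jBar M) = jBar M')
    (v : Place Kbar (FN M')) (hv : 0 ≤ v.ord (jBar M')) :
    v.ramificationIndexAlong φ ∣ 6 := by
  haveI : FiniteDimensional Kbar⟮jBar M'⟯ (FN M') := (leaf_JFinrank M').1
  rcases leaf_Center Kbar (FN M') (jBar M') (leaf_JTranscendental M') v with hneg | ⟨c, hc⟩
  · omega
  have hφc : φ (jBar M - algebraMap Kbar (FN M) c) = jBar M' - algebraMap Kbar (FN M') c := by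
    rw [map_sub, hj, AlgHom.commutes]
  have hord := Place.ord_restrictAlong φ hφ v (jBar M - algebraMap Kbar (FN M) c)
  rw [hφc] at hord
  have hdvd : (v.ramificationIndexAlong φ : ℤ) ∣
      v.ord (jBar M' - algebraMap Kbar (FN M') c) := by
    rw [hord]; exact dvd_mul_right _ _
  have hnat : v.ramificationIndexAlong φ ∣
      (v.ord (jBar M' - algebraMap Kbar (FN M') c)).toNat := by
    have h3 : (v.ord (jBar M' - algebraMap Kbar (FN M') c)).toNat
        = (v.ord (jBar M' - algebraMap Kbar (FN M') c)).natAbs := by omega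
    rw [h3]
    exact Int.natCast_dvd.mp hdvd
  by_cases hc0 : c = 0
  · subst hc0
    simp only [map_zero, sub_zero] at hc hnat
    exact hnat.trans ((ord_jBar_dvd_three M' v hc).trans ⟨2, rfl⟩)
  by_cases hc1 : c = 1728
  · subst hc1
    exact hnat.trans ((ord_jBar_sub_1728_dvd_two M' v hc).trans ⟨3, rfl⟩)
  · rw [ord_jBar_sub_eq_one M' c hc0 hc1 v hc] at hnat
    exact hnat.trans ⟨6, rfl⟩

end Unramified

/-! ## Numerics: levels without elliptic points -/

section Numerics

theorem nuTwo_eq_zero_of_four_dvd {M : ℕ} (h : 4 ∣ M) : nuTwo M = 0 := by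
  unfold nuTwo
  haveI : IsEmpty {x : ZMod M // x ^ 2 + 1 = 0} := by
    refine ⟨fun ⟨x, hx⟩ => ?_⟩
    have h1 := congrArg (ZMod.castHom h (ZMod 4)) hx
    simp only [map_add, map_pow, map_one, map_zero] at h1
    revert h1
    generalize (ZMod.castHom h (ZMod 4)) x = z
    revert z
    decide
  exact Nat.card_of_isEmpty

theorem nuTwo_eq_zero_of_three_dvd {M : ℕ} (h : 3 ∣ M) : nuTwo M = 0 := by
  unfold nuTwo
  haveI : IsEmpty {x : ZMod M // x ^ 2 + 1 = 0} := by
    refine ⟨fun ⟨x, hx⟩ => ?_⟩
    have h1 := congrArg (ZMod.castHom h (ZMod 3)) hx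
    simp only [map_add, map_pow, map_one, map_zero] at h1
    revert h1
    generalize (ZMod.castHom h (ZMod 3)) x = z
    revert z
    decide
  exact Nat.card_of_isEmpty

theorem nuThree_eq_zero_of_two_dvd {M : ℕ} (h : 2 ∣ M) : nuThree M = 0 := by
  unfold nuThree
  haveI : IsEmpty {x : ZMod M // x ^ 2 + x + 1 = 0} := by
    refine ⟨fun ⟨x, hx⟩ => ?_⟩
    have h1 := congrArg (ZMod.castHom h (ZMod 2)) hx
    simp only [map_add, map_pow, map_one, map_zero] at h1
    revert h1
    generalize (ZMod.castHom h (ZMod 2)) x = z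
    revert z
    decide
  exact Nat.card_of_isEmpty

theorem nuThree_eq_zero_of_nine_dvd {M : ℕ} (h : 9 ∣ M) : nuThree M = 0 := by
  unfold nuThree
  haveI : IsEmpty {x : ZMod M // x ^ 2 + x + 1 = 0} := by
    refine ⟨fun ⟨x, hx⟩ => ?_⟩
    have h1 := congrArg (ZMod.castHom h (ZMod 9)) hx
    simp only [map_add, map_pow, map_one, map_zero] at h1
    revert h1
    generalize (ZMod.castHom h (ZMod 9)) x = z
    revert z
    decide
  exact Nat.card_of_isEmpty

end Numerics

/-! ## The instances `F_4 ⊆ F_{4N}` and `F_9 ⊆ F_{9N}` -/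

section Instances

variable (N : ℕ) [NeZero N]

/-- `F_{4N} / F_4` is unramified at every place which is not a pole of `j`. -/
theorem ramificationIndexAlong_heckeAlphaBar_four (v : Place Kbar (FN (4 * N)))
    (hv : 0 ≤ v.ord (jBar (4 * N))) :
    v.ramificationIndexAlong (heckeAlphaBar Kbar 4 N) = 1 :=
  ramificationIndexAlong_eq_one
    (nuTwo_eq_zero_of_four_dvd (dvd_refl 4)) (nuThree_eq_zero_of_two_dvd ⟨2, rfl⟩)
    (nuTwo_eq_zero_of_four_dvd (dvd_mul_right 4 N))
    (nuThree_eq_zero_of_two_dvd (Dvd.dvd.mul_right ⟨2, rfl⟩ N))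
    (heckeAlphaBar Kbar 4 N) (Fermat.Agent.S37.helper5162.heckeAlphaBarIntegral 4 N)
    (Fermat.Agent.S37.helper5162.heckeAlphaBar_jBar 4 N) v hv

/-- `F_{9N} / F_9` is unramified at every place which is not a pole of `j`. -/
theorem ramificationIndexAlong_heckeAlphaBar_nine (v : Place Kbar (FN (9 * N)))
    (hv : 0 ≤ v.ord (jBar (9 * N))) :
    v.ramificationIndexAlong (heckeAlphaBar Kbar 9 N) = 1 :=
  ramificationIndexAlong_eq_one
    (nuTwo_eq_zero_of_three_dvd ⟨3, rfl⟩) (nuThree_eq_zero_of_nine_dvd (dvd_refl 9))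
    (nuTwo_eq_zero_of_three_dvd (Dvd.dvd.mul_right ⟨3, rfl⟩ N))
    (nuThree_eq_zero_of_nine_dvd (dvd_mul_right 9 N))
    (heckeAlphaBar Kbar 9 N) (Fermat.Agent.S37.helper5162.heckeAlphaBarIntegral 9 N)
    (Fermat.Agent.S37.helper5162.heckeAlphaBar_jBar 9 N) v hv

end Instances

end Fermat.Agent.S37.helper6932
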