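/-
S37, Track B, node TB-REGFIN, part RF-H (helper6932): the HORIZONTAL hypothesis.

Notation of S24: `Kbar = ℚ̄`, `FN M = modularFunctionFieldBar M`, `jBar M : FN M`.

(H1) PLACE FORM on the Hauptmodul lines of `X₀(4)` and `X₀(9)` over `ℚ̄`.
`t : FN M` is ANY element satisfying the algebraic Hauptmodul identity with `j` (supplied by
HAUPT49); `M` is a level without elliptic points (`nuTwo M = 0`, `nuThree M = 0`).

* `ord_sub_eq_one_of_ord_aeval_eq_one` : if `G(t)` is a uniformiser at `v` and `t(v) = c`, then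
  `t - c` is a uniformiser at `v`.
* `ord_sub_eq_one_of_hauptmodul` : generic form. If `q(t) * j = G₀(t)^3` and
  `G₀^3 - 1728 q = G₁^2` as polynomials, then every place `v` with `t(v) = c`, `q(c) ≠ 0`,
  is unramified over the `t`-line: `ord_v (t - c) = 1`.
* `ord_t4_sub_eq_one` : level 4, `j * (t^4 * (t + 16)) = (t^2 + 256 t + 4096)^3`, `c ≠ 0, -16`.
* `ord_t9_sub_eq_one` : level 9,
  `j * (t^9 * (t^2 + 9 t + 27)) = ((t + 9) * (t^3 + 243 t^2 + 2187 t + 6561))^3`,
  `c ≠ 0`, `c^2 + 9 c + 27 ≠ 0`.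

(H2) DISCRIMINANT FORM over a valuation subring `O` of a subfield `K₀` (generic part: no modular
vocabulary). `F₀ / K₀` a function field, `t : F₀` transcendental, `[F₀ : K₀(t)] < ∞`, char 0.

* `notMem_sq_of_uniformizer` : a function which is a uniformiser of every valuation ring in which
  it is a nonunit lies in no square of a prime of a Dedekind model.
* `exists_basis_discr_not_dvd` : `K₀[t]`-form: for `p₀ ∈ K₀[X]` irreducible with `p₀(t)` such a
  function, some basis of the integral closure of `K₀[t]` has discriminant `D₀(t)`, `p₀ ∤ D₀`.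
* `exists_mul_mem_finChartOf` : clearing denominators in integral equations, `K₀[t] → O[t]`.
* `UnramAt O t f` : the consumer shape of RF-ASM (`helper8507`, chat #320).
* `unramAt_of_uniformizer`, `unramAt_of_places` : `UnramAt O t f` for `f ∈ O[X]` irreducible over
  `K₀`, from the uniformiser property, resp. from `Place.ord` data of `F / K` (`K` algebraically
  closed, algebraic over `K₀`, `F₀ → F`) at the roots of `f`.

* `chartUnrAt_of_unramAt` : `UnramAt O t f → helper530.ChartUnrAt O t f` (the shape consumed by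
  `helper530.locGen_hauptmodul`), via `isIntegralElem_evO_of_mem_finChartOf`.

(H3) THE MODULAR INSTANCE: `unramAt_hauptmodul`, `unramAt_t4`, `unramAt_t9`; the clause RF-H in
the closed-point shape of chat #320 (`rfH_t4`, `rfH_t9`) and in the global shape `hH` of
`helper530.locGen_hauptmodul` (`chartUnrAt_t4`, `chartUnrAt_t9`).
-/
import Fermat.Agent.S37.helper6932_UnramFinite
import Fermat.Agent.S18.helper2193_Branch
import Fermat.Agent.S18.helper9121_RamNF
import Fermat.Agent.S18.helper7025_UnrDiscr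
import Fermat.Agent.S37.helper37_TrackB
import Fermat.Agent.S37.helper530_RegFinChart

set_option autoImplicit false

open AlgebraicCurve Polynomial ModularCurve

namespace Fermat.Agent.S37.helper6932

open Fermat.Agent.S24 Fermat.Agent.S24.helper24

/-! ## Generic lemmas on places -/

section GenericPlace

variable {K F : Type*} [Field K] [Field F] [Algebra K F]

/-- If `t` takes the value `c` at `v` and `G(c) = 0`, then `G(t) = (t - c) * G'(t)` with `G'(t)`
regular at `v`. -/
theorem exists_aeval_eq_sub_mul (v : Place K F) {t : F} {c : K}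
    (h : 0 < v.ord (t - algebraMap K F c)) (G : K[X]) (hGc : G.eval c = 0) :
    ∃ G' : K[X], aeval t G = (t - algebraMap K F c) * aeval t G' ∧
      aeval t G' ∈ v.toValuationSubring := by
  have ht : t ∈ v.toValuationSubring :=
    helper1370.mem_of_ord_nonneg v (helper1370.ord_nonneg_of_ord_sub_algebraMap_pos v h)
  have hdecomp : G = (X - C c) * (G /ₘ (X - C c)) := by
    have h1 := Polynomial.modByMonic_add_div G (X - C c)
    rw [Polynomial.modByMonic_X_sub_C_eq_C_eval, hGc, map_zero, zero_add] at h1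
    exact h1.symm
  refine ⟨G /ₘ (X - C c), ?_, S18.helper2193.aeval_mem v ht _⟩
  conv_lhs => rw [hdecomp]
  rw [map_mul, map_sub, aeval_X, aeval_C]

/-- If `t` takes the value `c` at `v` and `G(c) = 0`, `G(t) ≠ 0`, then `G(t)` vanishes at `v`. -/
theorem ord_aeval_pos_of_eval_eq_zero (v : Place K F) {t : F} {c : K}
    (h : 0 < v.ord (t - algebraMap K F c)) (G : K[X]) (hGc : G.eval c = 0)
    (h0 : aeval t G ≠ 0) : 0 < v.ord (aeval t G) := by
  obtain ⟨G', haev, hmem⟩ := exists_aeval_eq_sub_mul v h G hGc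
  have hs0 : t - algebraMap K F c ≠ 0 := fun h0' => h0 (by rw [haev, h0', zero_mul])
  have hG'0 : aeval t G' ≠ 0 := fun h0' => h0 (by rw [haev, h0', mul_zero])
  have hG'ord : 0 ≤ v.ord (aeval t G') := helper1370.ord_nonneg_of_mem v hmem
  rw [haev, v.ord_mul hs0 hG'0]
  omega

/-- **Lemma L.** If `t` takes the value `c` at `v` and some polynomial `G(t)` in `t` is a
uniformiser at `v`, then `t - c` is a uniformiser at `v`. -/
theorem ord_sub_eq_one_of_ord_aeval_eq_one (v : Place K F) {t : F} {c : K}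
    (h : 0 < v.ord (t - algebraMap K F c)) (G : K[X]) (hG : v.ord (aeval t G) = 1) :
    v.ord (t - algebraMap K F c) = 1 := by
  have hGc : G.eval c = 0 := by
    by_contra hne
    have := (S18.helper2193.aeval_ne_zero_and_ord_eq_zero v h G hne).2
    omega
  obtain ⟨G', haev, hmem⟩ := exists_aeval_eq_sub_mul v h G hGc
  have h0 : aeval t G ≠ 0 := by
    intro h0
    rw [h0] at hG
    simp at hG
  have hs0 : t - algebraMap K F c ≠ 0 := fun h0' => h0 (by rw [haev, h0', zero_mul])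
  have hG'0 : aeval t G' ≠ 0 := fun h0' => h0 (by rw [haev, h0', mul_zero])
  have hG'ord : 0 ≤ v.ord (aeval t G') := helper1370.ord_nonneg_of_mem v hmem
  rw [haev, v.ord_mul hs0 hG'0] at hG
  omega

theorem aeval_q4 (t : F) : aeval t (X ^ 4 * (X + 16) : K[X]) = t ^ 4 * (t + 16) := by
  simp only [map_pow, map_add, map_mul, aeval_X, map_ofNat]

theorem aeval_g4 (t : F) : aeval t (X ^ 2 + 256 * X + 4096 : K[X]) = t ^ 2 + 256 * t + 4096 := by
  simp only [map_pow, map_add, map_mul, aeval_X, map_ofNat]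

theorem aeval_q9 (t : F) :
    aeval t (X ^ 9 * (X ^ 2 + 9 * X + 27) : K[X]) = t ^ 9 * (t ^ 2 + 9 * t + 27) := by
  simp only [map_pow, map_add, map_mul, aeval_X, map_ofNat]

theorem aeval_g9 (t : F) :
    aeval t ((X + 9) * (X ^ 3 + 243 * X ^ 2 + 2187 * X + 6561) : K[X])
      = (t + 9) * (t ^ 3 + 243 * t ^ 2 + 2187 * t + 6561) := by
  simp only [map_pow, map_add, map_mul, aeval_X, map_ofNat]

end GenericPlace

/-! ## Hauptmodul lines at levels without elliptic points -/

section Hauptmodul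

variable (N : ℕ) [NeZero N]

theorem jBar_sub_ne_zero (a : Kbar) : jBar N - algebraMap Kbar (FN N) a ≠ 0 := by
  intro h
  apply leaf_JTranscendental N
  rw [sub_eq_zero.mp h]
  exact isAlgebraic_algebraMap a

theorem jBar_ne_zero' : jBar N ≠ 0 := by
  have h := jBar_sub_ne_zero N 0
  rwa [map_zero, sub_zero] at h

/-- **Unramifiedness over a Hauptmodul line, generic form.** Let `N` be a level without elliptic
points and `t : F_N` with `q(t) * j = G₀(t)^3`, where `G₀^3 - 1728 q = G₁^2` in `ℚ̄[X]`.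
Then at every place `v` centred at `t = c` with `q(c) ≠ 0`, `t - c` is a uniformiser. -/
theorem ord_sub_eq_one_of_hauptmodul (h2 : nuTwo N = 0) (h3 : nuThree N = 0)
    (t : FN N) (q G₀ G₁ : Kbar[X])
    (hj : aeval t q * jBar N = aeval t G₀ ^ 3)
    (hpoly : G₀ ^ 3 - C 1728 * q = G₁ ^ 2)
    (c : Kbar) (hqc : q.eval c ≠ 0) (v : Place Kbar (FN N))
    (hv : 0 < v.ord (t - algebraMap Kbar (FN N) c)) :
    v.ord (t - algebraMap Kbar (FN N) c) = 1 := by
  obtain ⟨hq0, hqord⟩ := S18.helper2193.aeval_ne_zero_and_ord_eq_zero v hv q hqc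
  have hgen : ∀ a : Kbar, aeval t q * (jBar N - algebraMap Kbar (FN N) a)
      = aeval t (G₀ ^ 3 - C a * q) := by
    intro a
    rw [mul_sub, hj, map_sub, map_pow, map_mul, aeval_C]
    ring
  have hord : ∀ a : Kbar, v.ord (aeval t (G₀ ^ 3 - C a * q))
      = v.ord (jBar N - algebraMap Kbar (FN N) a) := by
    intro a
    rw [← hgen a, v.ord_mul hq0 (jBar_sub_ne_zero N a), hqord, zero_add]
  have hne : ∀ a : Kbar, aeval t (G₀ ^ 3 - C a * q) ≠ 0 := by
    intro a
    rw [← hgen a]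
    exact mul_ne_zero hq0 (jBar_sub_ne_zero N a)
  by_cases hG0 : G₀.eval c = 0
  · -- a zero of `j`
    have hG0t : aeval t G₀ ≠ 0 := by
      intro h0
      rw [h0] at hj
      have : aeval t q * jBar N ≠ 0 := mul_ne_zero hq0 (jBar_ne_zero' N)
      exact this (by rw [hj]; ring)
    have hpos := ord_aeval_pos_of_eval_eq_zero v hv G₀ hG0 hG0t
    have h1 : v.ord (jBar N) = 3 * v.ord (aeval t G₀) := by
      have h4 := congrArg v.ord hj
      rw [v.ord_mul hq0 (jBar_ne_zero' N), hqord, zero_add, helper1370.ord_pow] at h4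
      exact_mod_cast h4
    have h5 : v.ord (jBar N) = 3 := ord_jBar_eq_three N h3 v (by omega)
    exact ord_sub_eq_one_of_ord_aeval_eq_one v hv G₀ (by omega)
  by_cases hG1 : G₁.eval c = 0
  · -- a zero of `j - 1728`
    have hkey : aeval t q * (jBar N - algebraMap Kbar (FN N) 1728) = aeval t G₁ ^ 2 := by
      rw [hgen 1728, hpoly, map_pow]
    have hG1t : aeval t G₁ ≠ 0 := by
      intro h0
      rw [h0] at hkey
      have : aeval t q * (jBar N - algebraMap Kbar (FN N) 1728) ≠ 0 :=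
        mul_ne_zero hq0 (jBar_sub_ne_zero N 1728)
      exact this (by rw [hkey]; ring)
    have hpos := ord_aeval_pos_of_eval_eq_zero v hv G₁ hG1 hG1t
    have h1 : v.ord (jBar N - algebraMap Kbar (FN N) 1728) = 2 * v.ord (aeval t G₁) := by
      have h4 := congrArg v.ord hkey
      rw [v.ord_mul hq0 (jBar_sub_ne_zero N 1728), hqord, zero_add, helper1370.ord_pow] at h4
      exact_mod_cast h4
    have h5 : v.ord (jBar N - algebraMap Kbar (FN N) 1728) = 2 :=
      ord_jBar_sub_1728_eq_two N h2 v (by omega)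
    exact ord_sub_eq_one_of_ord_aeval_eq_one v hv G₁ (by omega)
  · -- a generic value of `j`
    set a : Kbar := G₀.eval c ^ 3 / q.eval c with ha
    have ha0 : a ≠ 0 := div_ne_zero (pow_ne_zero 3 hG0) hqc
    have ha1728 : a ≠ 1728 := by
      intro h
      have h6 := congrArg (Polynomial.eval c) hpoly
      rw [eval_sub, eval_pow, eval_mul, eval_C, eval_pow] at h6
      have h7 : G₀.eval c ^ 3 = 1728 * q.eval c := by
        rw [← h, ha, div_mul_cancel₀ _ hqc]
      rw [h7, sub_self] at h6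
      exact hG1 ((pow_eq_zero_iff two_ne_zero).mp h6.symm)
    have hGc : (G₀ ^ 3 - C a * q).eval c = 0 := by
      rw [eval_sub, eval_pow, eval_mul, eval_C, ha, div_mul_cancel₀ _ hqc, sub_self]
    have hpos := ord_aeval_pos_of_eval_eq_zero v hv _ hGc (hne a)
    rw [hord a] at hpos
    have h5 := ord_jBar_sub_eq_one N a ha0 ha1728 v hpos
    exact ord_sub_eq_one_of_ord_aeval_eq_one v hv (G₀ ^ 3 - C a * q) (by rw [hord a]; exact h5)

/-- **Level 4.** If `4 ∣ N`-type level `N` (no elliptic points) and `t : F_N` satisfies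
`j * (t^4 * (t + 16)) = (t^2 + 256 t + 4096)^3`, then `F_N` is unramified over the `t`-line above
every `c ≠ 0, -16`. -/
theorem ord_t4_sub_eq_one (h2 : nuTwo N = 0) (h3 : nuThree N = 0) (t : FN N)
    (ht : jBar N * (t ^ 4 * (t + 16)) = (t ^ 2 + 256 * t + 4096) ^ 3)
    (c : Kbar) (hc0 : c ≠ 0) (hc : c ≠ -16) (v : Place Kbar (FN N))
    (hv : 0 < v.ord (t - algebraMap Kbar (FN N) c)) :
    v.ord (t - algebraMap Kbar (FN N) c) = 1 := by
  have hj : aeval t (X ^ 4 * (X + 16) : Kbar[X]) * jBar N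
      = aeval t (X ^ 2 + 256 * X + 4096 : Kbar[X]) ^ 3 := by
    rw [aeval_q4, aeval_g4, mul_comm]
    exact ht
  have hpoly : (X ^ 2 + 256 * X + 4096 : Kbar[X]) ^ 3 - C 1728 * (X ^ 4 * (X + 16))
      = (X ^ 3 - 480 * X ^ 2 - 24576 * X - 262144) ^ 2 := by
    simp only [map_ofNat]
    ring
  have hqc : (X ^ 4 * (X + 16) : Kbar[X]).eval c ≠ 0 := by
    simp only [eval_mul, eval_pow, eval_add, eval_X, eval_ofNat]
    refine mul_ne_zero (pow_ne_zero 4 hc0) ?_
    intro h
    exact hc (eq_neg_of_add_eq_zero_left h)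
  exact ord_sub_eq_one_of_hauptmodul N h2 h3 t _ _ _ hj hpoly c hqc v hv

/-- **Level 9.** If `N` has no elliptic points and `t : F_N` satisfies
`j * (t^9 * (t^2 + 9 t + 27)) = ((t + 9) * (t^3 + 243 t^2 + 2187 t + 6561))^3`, then `F_N` is
unramified over the `t`-line above every `c` with `c ≠ 0`, `c^2 + 9 c + 27 ≠ 0`. -/
theorem ord_t9_sub_eq_one (h2 : nuTwo N = 0) (h3 : nuThree N = 0) (t : FN N)
    (ht : jBar N * (t ^ 9 * (t ^ 2 + 9 * t + 27))
      = ((t + 9) * (t ^ 3 + 243 * t ^ 2 + 2187 * t + 6561)) ^ 3)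
    (c : Kbar) (hc0 : c ≠ 0) (hc : c ^ 2 + 9 * c + 27 ≠ 0) (v : Place Kbar (FN N))
    (hv : 0 < v.ord (t - algebraMap Kbar (FN N) c)) :
    v.ord (t - algebraMap Kbar (FN N) c) = 1 := by
  have hj : aeval t (X ^ 9 * (X ^ 2 + 9 * X + 27) : Kbar[X]) * jBar N
      = aeval t ((X + 9) * (X ^ 3 + 243 * X ^ 2 + 2187 * X + 6561) : Kbar[X]) ^ 3 := by
    rw [aeval_q9, aeval_g9, mul_comm]
    exact ht
  have hpoly : ((X + 9) * (X ^ 3 + 243 * X ^ 2 + 2187 * X + 6561) : Kbar[X]) ^ 3
      - C 1728 * (X ^ 9 * (X ^ 2 + 9 * X + 27))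
      = (X ^ 6 - 486 * X ^ 5 - 24057 * X ^ 4 - 367416 * X ^ 3 - 2657205 * X ^ 2 - 9565938 * X
        - 14348907) ^ 2 := by
    simp only [map_ofNat]
    ring
  have hqc : (X ^ 9 * (X ^ 2 + 9 * X + 27) : Kbar[X]).eval c ≠ 0 := by
    simp only [eval_mul, eval_pow, eval_add, eval_X, eval_ofNat]
    exact mul_ne_zero (pow_ne_zero 9 hc0) hc
  exact ord_sub_eq_one_of_hauptmodul N h2 h3 t _ _ _ hj hpoly c hqc v hv

end Hauptmodul

/-! ## (H2) Discriminant form: generic part -/

section HorizDiscr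

open IntermediateField IsDedekindDomain

variable {K₀ F₀ : Type*} [Field K₀] [Field F₀] [Algebra K₀ F₀]

open WithZero in
/-- If `g` is a uniformiser of every valuation subring of `F₀ = Frac S` over `K₀` in which it is a
nonunit, then `g` lies in no square of a prime of the Dedekind domain `S`. -/
theorem notMem_sq_of_uniformizer {S : Type*} [CommRing S] [IsDedekindDomain S] [Algebra S F₀]
    [IsFractionRing S F₀] [Algebra K₀ S] [IsScalarTower K₀ S F₀]
    (g : S) (hg : g ≠ 0)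
    (hU : ∀ W : ValuationSubring F₀, (∀ a : K₀, algebraMap K₀ F₀ a ∈ W) →
      (algebraMap S F₀ g)⁻¹ ∉ W → ∀ y ∈ W, y⁻¹ ∉ W → y / algebraMap S F₀ g ∈ W)
    (P : Ideal S) (hP : P.IsPrime) (hP0 : P ≠ ⊥) (hgP : g ∈ P) : g ∉ P ^ 2 := by
  let w : HeightOneSpectrum S := ⟨P, hP, hP0⟩
  have hK : ∀ a : K₀, algebraMap K₀ F₀ a ∈ (w.valuation F₀).valuationSubring := by
    intro a
    rw [IsScalarTower.algebraMap_apply K₀ S F₀, Valuation.mem_valuationSubring_iff]
    exact w.valuation_le_one _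
  have hgv : w.valuation F₀ (algebraMap S F₀ g) < 1 := (w.valuation_lt_one_iff_mem g).mpr hgP
  have hginv : (algebraMap S F₀ g)⁻¹ ∉ (w.valuation F₀).valuationSubring := by
    rw [Valuation.mem_valuationSubring_iff, map_inv₀]
    intro h
    have h0 : w.valuation F₀ (algebraMap S F₀ g) ≠ 0 := by
      rw [HeightOneSpectrum.valuation_of_algebraMap]
      exact w.intValuation_ne_zero g hg
    have := (inv_le_one₀ (zero_lt_iff.mpr h0)).mp h
    exact absurd hgv (not_lt.mpr this)
  obtain ⟨ϖ, hϖ⟩ := w.intValuation_exists_uniformizer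
  have hϖv : w.valuation F₀ (algebraMap S F₀ ϖ) = exp (-1 : ℤ) := by
    rw [HeightOneSpectrum.valuation_of_algebraMap, hϖ]
  have hϖW : algebraMap S F₀ ϖ ∈ (w.valuation F₀).valuationSubring := by
    rw [Valuation.mem_valuationSubring_iff]
    exact w.valuation_le_one _
  have hϖinv : (algebraMap S F₀ ϖ)⁻¹ ∉ (w.valuation F₀).valuationSubring := by
    rw [Valuation.mem_valuationSubring_iff, map_inv₀, hϖv, ← exp_neg, neg_neg, ← exp_zero,
      exp_le_exp]
    norm_num
  have h3 := hU _ hK hginv _ hϖW hϖinv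
  rw [Valuation.mem_valuationSubring_iff, map_div₀, hϖv,
    HeightOneSpectrum.valuation_of_algebraMap] at h3
  intro hg2
  have h4 : w.intValuation g ≤ exp (-((2 : ℕ) : ℤ)) := (w.intValuation_le_pow_iff_mem g 2).mpr hg2
  have hg0 : w.intValuation g ≠ 0 := w.intValuation_ne_zero g hg
  rw [div_le_one₀ (zero_lt_iff.mpr hg0)] at h3
  have h5 := h3.trans h4
  rw [exp_le_exp] at h5
  norm_num at h5

open scoped IntermediateField.algebraAdjoinAdjoin
open Fermat.Agent.S24.helper204 (gen coe_gen aeval_gen_surjective)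

theorem aeval_gen_injective {t : F₀} (ht : Transcendental K₀ t) :
    Function.Injective (aeval (R := K₀) (gen K₀ t)) := by
  intro a b hab
  have h := congrArg (fun a : Algebra.adjoin K₀ {t} => (a : F₀)) hab
  simp only [Polynomial.aeval_subalgebra_coe, coe_gen] at h
  exact transcendental_iff_injective.mp ht h

/-- For `t` transcendental and `p₀ ∈ K₀[X]` irreducible, `(p₀(t))` is a maximal ideal of
`K₀[t]`. -/
theorem span_aeval_gen_isMaximal {t : F₀} (ht : Transcendental K₀ t) (p₀ : K₀[X])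
    (hp : Irreducible p₀) :
    (Ideal.span {aeval (gen K₀ t) p₀} : Ideal (Algebra.adjoin K₀ {t})).IsMaximal := by
  let e : K₀[X] ≃ₐ[K₀] Algebra.adjoin K₀ {t} :=
    AlgEquiv.ofBijective (aeval (gen K₀ t)) ⟨aeval_gen_injective ht, aeval_gen_surjective K₀ t⟩
  have hirr : Irreducible (aeval (gen K₀ t) p₀) :=
    (MulEquiv.irreducible_iff e.toMulEquiv).mpr hp
  exact PrincipalIdealRing.isMaximal_of_irreducible hirr

theorem coe_algebraMap_aeval_gen (t : F₀) (q : K₀[X]) :
    algebraMap (integralClosure (Algebra.adjoin K₀ {t}) F₀) F₀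
      (algebraMap (Algebra.adjoin K₀ {t}) (integralClosure (Algebra.adjoin K₀ {t}) F₀)
        (aeval (gen K₀ t) q)) = aeval t q := by
  rw [← IsScalarTower.algebraMap_apply]
  show ((aeval (gen K₀ t) q : Algebra.adjoin K₀ {t}) : F₀) = aeval t q
  rw [Polynomial.aeval_subalgebra_coe, coe_gen]

/-- **Unit discriminant at an unramified horizontal prime, `K₀[t]`-form, for a given basis.** -/
theorem discr_notMem_span_aeval_gen [CharZero K₀] (t : F₀) (ht : Transcendental K₀ t)
    [FiniteDimensional K₀⟮t⟯ F₀] (p₀ : K₀[X]) (hp : Irreducible p₀)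
    (hU : ∀ W : ValuationSubring F₀, (∀ a : K₀, algebraMap K₀ F₀ a ∈ W) →
      (aeval t p₀)⁻¹ ∉ W → ∀ y ∈ W, y⁻¹ ∉ W → y / aeval t p₀ ∈ W)
    {ι : Type*} [Fintype ι] [DecidableEq ι]
    (b0 : Module.Basis ι (Algebra.adjoin K₀ {t}) (integralClosure (Algebra.adjoin K₀ {t}) F₀)) :
    Algebra.discr (Algebra.adjoin K₀ {t}) b0 ∉
      (Ideal.span {aeval (gen K₀ t) p₀} : Ideal (Algebra.adjoin K₀ {t})) := by
  have hpmax := span_aeval_gen_isMaximal ht p₀ hp
  set p : Ideal (Algebra.adjoin K₀ {t}) := Ideal.span {aeval (gen K₀ t) p₀} with hpdef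
  have : Nontrivial (Algebra.adjoin K₀ {t} ⧸ p) := Ideal.Quotient.nontrivial_iff.mpr hpmax.ne_top
  have : CharZero (Algebra.adjoin K₀ {t} ⧸ p) :=
    charZero_of_injective_algebraMap (algebraMap K₀ (Algebra.adjoin K₀ {t} ⧸ p)).injective
  have hp0 : p₀ ≠ 0 := hp.ne_zero
  have hgF : aeval t p₀ ≠ 0 := by
    intro h
    exact hp0 (transcendental_iff_injective.mp ht (by rw [h, map_zero]))
  have hgS : algebraMap (Algebra.adjoin K₀ {t}) (integralClosure (Algebra.adjoin K₀ {t}) F₀)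
      (aeval (gen K₀ t) p₀) ≠ 0 := by
    intro h
    apply hgF
    rw [← coe_algebraMap_aeval_gen, h, map_zero]
  have hram : ∀ P : Ideal (integralClosure (Algebra.adjoin K₀ {t}) F₀), P.IsPrime →
      p.map (algebraMap (Algebra.adjoin K₀ {t}) (integralClosure (Algebra.adjoin K₀ {t}) F₀)) ≤ P →
      ¬ p.map (algebraMap (Algebra.adjoin K₀ {t})
        (integralClosure (Algebra.adjoin K₀ {t}) F₀)) ≤ P ^ 2 := by
    intro P hP hle hle2
    have hmem : algebraMap (Algebra.adjoin K₀ {t}) (integralClosure (Algebra.adjoin K₀ {t}) F₀)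
        (aeval (gen K₀ t) p₀) ∈ p.map (algebraMap (Algebra.adjoin K₀ {t})
          (integralClosure (Algebra.adjoin K₀ {t}) F₀)) :=
      Ideal.mem_map_of_mem _ (Ideal.mem_span_singleton_self _)
    have hP0 : P ≠ ⊥ := by
      rintro rfl
      exact hgS (Ideal.mem_bot.mp (hle hmem))
    refine notMem_sq_of_uniformizer (K₀ := K₀) (F₀ := F₀) _ hgS ?_ P hP hP0 (hle hmem) (hle2 hmem)
    rw [coe_algebraMap_aeval_gen]
    exact hU
  exact Fermat.Agent.S18.helper7025.discr_notMem_of_basis p hram b0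

/-- **Unit discriminant at an unramified horizontal prime, `K₀[t]`-form.** -/
theorem exists_basis_discr_not_dvd [CharZero K₀] (t : F₀) (ht : Transcendental K₀ t)
    [FiniteDimensional K₀⟮t⟯ F₀] (p₀ : K₀[X]) (hp : Irreducible p₀)
    (hU : ∀ W : ValuationSubring F₀, (∀ a : K₀, algebraMap K₀ F₀ a ∈ W) →
      (aeval t p₀)⁻¹ ∉ W → ∀ y ∈ W, y⁻¹ ∉ W → y / aeval t p₀ ∈ W) :
    ∃ (b : Fin (Module.finrank K₀⟮t⟯ F₀) → F₀) (D₀ : K₀[X]),
      (∀ i, IsIntegral (Algebra.adjoin K₀ {t}) (b i)) ∧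
      algebraMap K₀⟮t⟯ F₀ (Algebra.discr K₀⟮t⟯ b) = aeval t D₀ ∧ ¬ p₀ ∣ D₀ := by
  classical
  have hfree : Module.Free (Algebra.adjoin K₀ {t}) (integralClosure (Algebra.adjoin K₀ {t}) F₀) :=
    IsIntegralClosure.module_free (Algebra.adjoin K₀ {t}) K₀⟮t⟯ F₀ _
  have hrank : Module.finrank (Algebra.adjoin K₀ {t}) (integralClosure (Algebra.adjoin K₀ {t}) F₀)
      = Module.finrank K₀⟮t⟯ F₀ :=
    IsIntegralClosure.rank (Algebra.adjoin K₀ {t}) K₀⟮t⟯ F₀ _
  let b0 : Module.Basis (Fin (Module.finrank K₀⟮t⟯ F₀)) (Algebra.adjoin K₀ {t})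
      (integralClosure (Algebra.adjoin K₀ {t}) F₀) :=
    (Module.finBasis (Algebra.adjoin K₀ {t}) (integralClosure (Algebra.adjoin K₀ {t}) F₀)).reindex
      (finCongr hrank)
  have hdisc := discr_notMem_span_aeval_gen t ht p₀ hp hU b0
  have : IsLocalization (Algebra.algebraMapSubmonoid (integralClosure (Algebra.adjoin K₀ {t}) F₀)
      (nonZeroDivisors (Algebra.adjoin K₀ {t}))) F₀ :=
    IsIntegralClosure.isLocalization (Algebra.adjoin K₀ {t}) K₀⟮t⟯ F₀ _
  have hloc := Algebra.discr_localizationLocalization (Algebra.adjoin K₀ {t}) (Rₘ := K₀⟮t⟯)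
    (nonZeroDivisors (Algebra.adjoin K₀ {t})) F₀ b0
  obtain ⟨D₀, hD₀⟩ := aeval_gen_surjective K₀ t (Algebra.discr (Algebra.adjoin K₀ {t}) b0)
  refine ⟨fun i => algebraMap (integralClosure (Algebra.adjoin K₀ {t}) F₀) F₀ (b0 i), D₀,
    fun i => (b0 i).2, ?_, ?_⟩
  · have e : (fun i => algebraMap (integralClosure (Algebra.adjoin K₀ {t}) F₀) F₀ (b0 i))
        = ⇑(b0.localizationLocalization K₀⟮t⟯ (nonZeroDivisors (Algebra.adjoin K₀ {t})) F₀) := by
      funext i
      rw [Module.Basis.localizationLocalization_apply]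
    rw [e, hloc, ← hD₀, ← IsScalarTower.algebraMap_apply]
    show ((aeval (gen K₀ t) D₀ : Algebra.adjoin K₀ {t}) : F₀) = aeval t D₀
    rw [Polynomial.aeval_subalgebra_coe, coe_gen]
  · rintro ⟨q, rfl⟩
    apply hdisc
    rw [← hD₀, map_mul]
    exact Ideal.mul_mem_right _ _ (Ideal.mem_span_singleton_self _)

/-- The discriminant of a rescaled tuple. -/
theorem discr_smul_const {A B ι : Type*} [CommRing A] [CommRing B] [Algebra A B] [Fintype ι]
    [DecidableEq ι] (c : A) (b : ι → B) :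
    Algebra.discr A (fun i => c • b i) = c ^ (2 * Fintype.card ι) * Algebra.discr A b := by
  rw [Algebra.discr_def, Algebra.discr_def]
  have h : Algebra.traceMatrix A (fun i => c • b i) = (c ^ 2) • Algebra.traceMatrix A b := by
    ext i j
    rw [Algebra.traceMatrix_apply, Algebra.traceForm_apply, Matrix.smul_apply,
      Algebra.traceMatrix_apply, Algebra.traceForm_apply, smul_mul_smul_comm, map_smul,
      smul_eq_mul, smul_eq_mul, pow_two]
  rw [h, Matrix.det_smul, pow_mul]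

theorem aeval_map_mem_polyRing (O : ValuationSubring K₀) (t : F₀) (q : (↥O)[X]) :
    aeval t (q.map (algebraMap ↥O K₀)) ∈ helper37.polyRing O t := by
  induction q using Polynomial.induction_on' with
  | add p q hp hq =>
    rw [Polynomial.map_add, map_add]
    exact add_mem hp hq
  | monomial n a =>
    rw [Polynomial.map_monomial, Polynomial.aeval_monomial]
    exact mul_mem (helper37.const_mem_polyRing O t a.2) (pow_mem (helper37.self_mem_polyRing O t) n)

/-- Clearing denominators: every element of `K₀[t]` has a nonzero multiple in `O[t]`. -/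
theorem exists_mul_mem_polyRing (O : ValuationSubring K₀) (t : F₀) (c : Algebra.adjoin K₀ {t}) :
    ∃ a : ↥O, a ≠ 0 ∧ algebraMap K₀ F₀ a * (c : F₀) ∈ helper37.polyRing O t := by
  obtain ⟨q, rfl⟩ := aeval_gen_surjective K₀ t c
  obtain ⟨b, hbM, hb⟩ := IsLocalization.integerNormalization_spec (nonZeroDivisors ↥O) q
  refine ⟨b, nonZeroDivisors.ne_zero hbM, ?_⟩
  have h1 := aeval_map_mem_polyRing O t (IsLocalization.integerNormalization (nonZeroDivisors ↥O) q)
  rw [hb] at h1
  have h2 : aeval t (b • q) = algebraMap K₀ F₀ (b : K₀) * aeval t q := by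
    rw [← algebraMap_smul K₀ b q, map_smul, Algebra.smul_def]
    rfl
  rw [Polynomial.aeval_subalgebra_coe, coe_gen, ← h2]
  exact h1

theorem polyRing_le_adjoin (O : ValuationSubring K₀) (t : F₀) :
    ∀ x ∈ helper37.polyRing O t, x ∈ Algebra.adjoin K₀ {t} := by
  intro x hx
  have hle : helper37.polyRing O t ≤ (Algebra.adjoin K₀ {t}).toSubring := by
    rw [helper37.polyRing, Subring.closure_le]
    rintro g (⟨c, -, rfl⟩ | hg)
    · exact Subalgebra.algebraMap_mem _ c
    · rw [Set.mem_singleton_iff] at hg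
      rw [hg]
      exact Algebra.self_mem_adjoin_singleton K₀ t
  exact hle hx

/-- Clearing denominators in an integral equation: an element integral over `K₀[t]` has a
nonzero `O`-multiple integral over `O[t]`. -/
theorem exists_mul_mem_finChartOf (O : ValuationSubring K₀) (t : F₀) {x : F₀}
    (hx : IsIntegral (Algebra.adjoin K₀ {t}) x) :
    ∃ a : ↥O, a ≠ 0 ∧ algebraMap K₀ F₀ a * x ∈ helper37.finChartOf O t := by
  classical
  obtain ⟨P, hPm, hPx⟩ := hx
  choose a ha0 ha using fun i => exists_mul_mem_polyRing O t (P.coeff i)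
  set A : ↥O := ∏ i ∈ Finset.range P.natDegree, a i with hA
  have hA0 : A ≠ 0 := Finset.prod_ne_zero_iff.mpr (fun i _ => ha0 i)
  have hAc : ∀ i ∈ Finset.range P.natDegree,
      algebraMap K₀ F₀ A * ((P.coeff i : Algebra.adjoin K₀ {t}) : F₀) ∈ helper37.polyRing O t := by
    intro i hi
    have e : algebraMap K₀ F₀ A * ((P.coeff i : Algebra.adjoin K₀ {t}) : F₀)
        = algebraMap K₀ F₀ ((∏ j ∈ (Finset.range P.natDegree).erase i, a j : ↥O) : K₀)
          * (algebraMap K₀ F₀ (a i) * ((P.coeff i : Algebra.adjoin K₀ {t}) : F₀)) := by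
      rw [hA, ← Finset.mul_prod_erase _ _ hi, MulMemClass.coe_mul, map_mul]
      ring
    rw [e]
    exact mul_mem (helper37.const_mem_polyRing O t (SetLike.coe_mem _)) (ha i)
  refine ⟨A, hA0, ?_⟩
  set s : Algebra.adjoin K₀ {t} := algebraMap K₀ _ (A : K₀) with hs
  have hq_monic : (scaleRoots P s).Monic := (monic_scaleRoots_iff s).mpr hPm
  have hq_root : eval₂ (algebraMap (Algebra.adjoin K₀ {t}) F₀) (algebraMap K₀ F₀ A * x)
      (scaleRoots P s) = 0 := by
    have h1 := scaleRoots_eval₂_mul (p := P) (algebraMap (Algebra.adjoin K₀ {t}) F₀) x s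
    rw [hPx, mul_zero] at h1
    exact h1
  have hq_coeff : ∀ i, (((scaleRoots P s).coeff i : Algebra.adjoin K₀ {t}) : F₀)
      ∈ helper37.polyRing O t := by
    intro i
    rw [coeff_scaleRoots]
    rcases lt_trichotomy i P.natDegree with h | h | h
    · obtain ⟨k, hk⟩ : ∃ k, P.natDegree - i = k + 1 := ⟨P.natDegree - i - 1, by omega⟩
      rw [hk, pow_succ]
      have e : ((P.coeff i * (s ^ k * s) : Algebra.adjoin K₀ {t}) : F₀)
          = algebraMap K₀ F₀ A ^ k
            * (algebraMap K₀ F₀ A * ((P.coeff i : Algebra.adjoin K₀ {t}) : F₀)) := by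
        push_cast
        rw [hs]
        show ((P.coeff i : Algebra.adjoin K₀ {t}) : F₀) * (algebraMap K₀ F₀ A ^ k * algebraMap K₀ F₀ A) = _
        ring
      rw [e]
      exact mul_mem (pow_mem (helper37.const_mem_polyRing O t A.2) k)
        (hAc i (Finset.mem_range.mpr h))
    · subst h
      rw [Nat.sub_self, pow_zero, mul_one, hPm.coeff_natDegree]
      exact one_mem _
    · rw [coeff_eq_zero_of_natDegree_lt h, zero_mul]
      exact zero_mem _
  let φ : helper37.polyRing O t →+* Algebra.adjoin K₀ {t} :=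
    (Subring.subtype _).codRestrict (Algebra.adjoin K₀ {t}) (fun x => polyRing_le_adjoin O t x x.2)
  have hlift : scaleRoots P s ∈ Polynomial.lifts φ := by
    rw [Polynomial.lifts_iff_coeff_lifts]
    intro i
    exact ⟨⟨_, hq_coeff i⟩, Subtype.ext rfl⟩
  obtain ⟨q₀, hq₀, -, hq₀m⟩ := Polynomial.lifts_and_natDegree_eq_and_monic hlift hq_monic
  refine ⟨q₀, hq₀m, ?_⟩
  have e : eval₂ (algebraMap (helper37.polyRing O t) F₀) (algebraMap K₀ F₀ A * x) q₀
      = eval₂ (algebraMap (Algebra.adjoin K₀ {t}) F₀) (algebraMap K₀ F₀ A * x) (q₀.map φ) := by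
    rw [Polynomial.eval₂_map]
    rfl
  rw [e, hq₀]
  exact hq_root

/-- Discriminant-form unramifiedness of `F₀ / K₀(t)` at a prime element `f` of `O[X]`
(consumer shape of RF-ASM, `helper8507`): some `[F₀ : K₀(t)]`-tuple of elements integral over
`O[t]` has a discriminant `d(t)`, `d ∈ O[X]`, not divisible by `f`. -/
def UnramAt (O : ValuationSubring K₀) (t : F₀) (f : (↥O)[X]) : Prop :=
  ∃ (b : Fin (Module.finrank K₀⟮t⟯ F₀) → F₀) (d : (↥O)[X]),
    (∀ i, b i ∈ helper37.finChartOf O t) ∧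
    algebraMap K₀⟮t⟯ F₀ (Algebra.discr K₀⟮t⟯ b) = Polynomial.aeval t (d.map (algebraMap ↥O K₀)) ∧
    ¬ f ∣ d

theorem unramAt_of_uniformizer [CharZero K₀] (O : ValuationSubring K₀) (t : F₀)
    (ht : Transcendental K₀ t) [FiniteDimensional K₀⟮t⟯ F₀] (f : (↥O)[X])
    (hf : Irreducible (f.map (algebraMap ↥O K₀)))
    (hU : ∀ W : ValuationSubring F₀, (∀ a : K₀, algebraMap K₀ F₀ a ∈ W) →
      (aeval t (f.map (algebraMap ↥O K₀)))⁻¹ ∉ W →
      ∀ y ∈ W, y⁻¹ ∉ W → y / aeval t (f.map (algebraMap ↥O K₀)) ∈ W) :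
    UnramAt O t f := by
  classical
  obtain ⟨b, D₀, hb, hdisc, hnd⟩ := exists_basis_discr_not_dvd t ht _ hf hU
  choose a ha0 ha using fun i => exists_mul_mem_finChartOf O t (hb i)
  obtain ⟨e, heM, he⟩ := IsLocalization.integerNormalization_spec (nonZeroDivisors ↥O) D₀
  set q₁ := IsLocalization.integerNormalization (nonZeroDivisors ↥O) D₀ with hq₁
  have he0 : e ≠ 0 := nonZeroDivisors.ne_zero heM
  set a₁ : ↥O := ∏ i, a i with ha₁
  have ha₁0 : a₁ ≠ 0 := Finset.prod_ne_zero_iff.mpr fun i _ => ha0 i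
  set A : ↥O := a₁ * e with hA
  have hA0 : A ≠ 0 := mul_ne_zero ha₁0 he0
  have hn0 : 0 < Module.finrank K₀⟮t⟯ F₀ := Module.finrank_pos
  have h2 : aeval t (e • D₀) = algebraMap K₀ F₀ (e : K₀) * aeval t D₀ := by
    rw [← algebraMap_smul K₀ e D₀, map_smul, Algebra.smul_def]
    rfl
  have h6 : ∀ x : ↥O, (x : K₀) = algebraMap ↥O K₀ x := fun x => rfl
  have h5 : algebraMap ↥O K₀ (A ^ (2 * Module.finrank K₀⟮t⟯ F₀ - 1) * a₁) * algebraMap ↥O K₀ e
      = algebraMap ↥O K₀ A ^ (2 * Module.finrank K₀⟮t⟯ F₀ - 1) * algebraMap ↥O K₀ A := by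
    rw [← map_pow, ← map_mul, ← map_mul, hA]
    congr 1
    ring
  have hA0' : algebraMap ↥O K₀ A ≠ 0 := by
    rw [← h6]
    exact fun h => hA0 (Subtype.ext h)
  refine ⟨fun i => algebraMap K₀ F₀ A * b i,
    C (A ^ (2 * Module.finrank K₀⟮t⟯ F₀ - 1) * a₁) * q₁, ?_, ?_, ?_⟩
  · intro i
    have e1 : algebraMap K₀ F₀ A * b i
        = algebraMap K₀ F₀ ((e * ∏ j ∈ Finset.univ.erase i, a j : ↥O) : K₀)
          * (algebraMap K₀ F₀ (a i) * b i) := by
      rw [hA, ha₁, ← Finset.mul_prod_erase _ _ (Finset.mem_univ i)]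
      simp only [MulMemClass.coe_mul, map_mul]
      ring
    show algebraMap K₀ F₀ A * b i ∈ helper37.finChartOf O t
    rw [e1]
    exact mul_mem (helper37.polyRing_le_finChartOf O t
      (helper37.const_mem_polyRing O t (SetLike.coe_mem _))) (ha i)
  · have e1 : (fun i => algebraMap K₀ F₀ A * b i)
        = fun i => (algebraMap K₀ K₀⟮t⟯ (A : K₀)) • b i := by
      funext i
      rw [Algebra.smul_def, ← IsScalarTower.algebraMap_apply]
    rw [e1, discr_smul_const, Fintype.card_fin, map_mul, hdisc, map_pow,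
      ← IsScalarTower.algebraMap_apply, Polynomial.map_mul, Polynomial.map_C, he, map_mul,
      aeval_C, h2]
    have h3 : 2 * Module.finrank K₀⟮t⟯ F₀ = (2 * Module.finrank K₀⟮t⟯ F₀ - 1) + 1 := by omega
    conv_lhs => rw [h3, pow_succ]
    have h7 : algebraMap K₀ F₀ (algebraMap ↥O K₀ (A ^ (2 * Module.finrank K₀⟮t⟯ F₀ - 1) * a₁))
          * (algebraMap K₀ F₀ (e : K₀) * aeval t D₀)
        = algebraMap K₀ F₀ (algebraMap ↥O K₀ (A ^ (2 * Module.finrank K₀⟮t⟯ F₀ - 1) * a₁)
          * algebraMap ↥O K₀ e) * aeval t D₀ := by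
      rw [map_mul (algebraMap K₀ F₀), mul_assoc]
      rfl
    rw [h7, h5, map_mul (algebraMap K₀ F₀), map_pow (algebraMap K₀ F₀)]
    rfl
  · rintro ⟨g, hg⟩
    apply hnd
    have h4 := congrArg (Polynomial.map (algebraMap ↥O K₀)) hg
    rw [Polynomial.map_mul, Polynomial.map_mul, Polynomial.map_C, he, ← algebraMap_smul K₀ e D₀,
      Polynomial.smul_eq_C_mul, ← mul_assoc, ← C_mul, h5] at h4
    have hu : algebraMap ↥O K₀ A ^ (2 * Module.finrank K₀⟮t⟯ F₀ - 1) * algebraMap ↥O K₀ A ≠ 0 :=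
      mul_ne_zero (pow_ne_zero _ hA0') hA0'
    refine ⟨C (algebraMap ↥O K₀ A ^ (2 * Module.finrank K₀⟮t⟯ F₀ - 1) * algebraMap ↥O K₀ A)⁻¹
      * g.map (algebraMap ↥O K₀), ?_⟩
    calc D₀ = C (algebraMap ↥O K₀ A ^ (2 * Module.finrank K₀⟮t⟯ F₀ - 1) * algebraMap ↥O K₀ A)⁻¹
          * (C (algebraMap ↥O K₀ A ^ (2 * Module.finrank K₀⟮t⟯ F₀ - 1) * algebraMap ↥O K₀ A)
            * D₀) := by
          rw [← mul_assoc, ← C_mul, inv_mul_cancel₀ hu, C_1, one_mul]
      _ = _ := by
          rw [h4]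
          ring

end HorizDiscr

/-! ## (H2) Discriminant form from `Place.ord` data over an algebraically closed field -/

section Places

open IntermediateField

variable {K₀ K F₀ F : Type*} [Field K₀] [Field K] [Field F₀] [Field F]
  [Algebra K₀ K] [Algebra K F] [Algebra K₀ F₀] [Algebra F₀ F] [Algebra K₀ F]
  [IsScalarTower K₀ K F] [IsScalarTower K₀ F₀ F]

/-- **RF-H, generic form.** `F / K` a function field over an algebraically closed field of
characteristic zero, `K / K₀` algebraic, `F₀` a field between `K₀` and `F`, `t : F₀`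
transcendental with `[F₀ : K₀(t)] < ∞`, `O` a valuation subring of `K₀`.  If `f ∈ O[X]` is
irreducible over `K₀` and `F` is unramified over the `t`-line above every root of `f`
(`ord_v (t - c) = 1`), then `F₀ / K₀(t)` is unramified at `f` in the discriminant form
`UnramAt O t f`. -/
theorem unramAt_of_places [CharZero K] [IsAlgClosed K] [Algebra.IsAlgebraic K₀ K]
    (O : ValuationSubring K₀) (t : F₀) (hx : Transcendental K (algebraMap F₀ F t))
    [FiniteDimensional K⟮algebraMap F₀ F t⟯ F] [FiniteDimensional K₀⟮t⟯ F₀]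
    (f : (↥O)[X]) (hf : Irreducible (f.map (algebraMap ↥O K₀)))
    (hR : ∀ c : K, ((f.map (algebraMap ↥O K₀)).map (algebraMap K₀ K)).IsRoot c →
      ∀ v : Place K F, 0 < v.ord (algebraMap F₀ F t - algebraMap K F c) →
        v.ord (algebraMap F₀ F t - algebraMap K F c) = 1) :
    UnramAt O t f := by
  have : CharZero K₀ := (algebraMap K₀ K).charZero
  have ht : Transcendental K₀ t := by
    intro halg
    apply hx
    have h1 : IsAlgebraic K₀ (algebraMap F₀ F t) := halg.algebraMap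
    exact h1.tower_top K
  refine unramAt_of_uniformizer O t ht f hf ?_
  intro W hK hinv y hy hyinv
  exact Fermat.Agent.S18.helper9121.aeval_uniformizer_of_ord_eq_one (K := K) (F := F) t hx W hK _
    hf hinv hR y hy hyinv

omit [Algebra K F] [Algebra K₀ F₀] [Algebra F₀ F] [Algebra K₀ F] [IsScalarTower K₀ K F]
  [IsScalarTower K₀ F₀ F] in
/-- A root (in an extension field) of an irreducible `p` is not a root of `D` unless `p ∣ D`. -/
theorem eval_map_ne_zero_of_not_dvd (p D : K₀[X]) (hp : Irreducible p) (hD : ¬ p ∣ D) (c : K)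
    (hc : (p.map (algebraMap K₀ K)).IsRoot c) : (D.map (algebraMap K₀ K)).eval c ≠ 0 := by
  obtain ⟨u, v, huv⟩ := (hp.coprime_iff_not_dvd).mpr hD
  intro h0
  have h1 := congrArg (fun r : K₀[X] => (r.map (algebraMap K₀ K)).eval c) huv
  simp only [Polynomial.map_add, Polynomial.map_mul, eval_add, eval_mul, Polynomial.map_one,
    eval_one] at h1
  rw [IsRoot.def] at hc
  rw [hc, h0, mul_zero, mul_zero, add_zero] at h1
  exact zero_ne_one h1

omit [Algebra K₀ K] [Algebra K F] [Algebra K₀ F₀] [Algebra F₀ F] [Algebra K₀ F]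
  [IsScalarTower K₀ K F] [IsScalarTower K₀ F₀ F] in
/-- Gauss: a prime element of `O[X]` which is not (an associate of) the uniformiser is primitive
and irreducible over the fraction field. -/
theorem irreducible_map_of_prime (O : ValuationSubring K₀) (lam : ↥O)
    (hlam : IsLocalRing.maximalIdeal ↥O = Ideal.span {lam}) (f : (↥O)[X]) (hf : Prime f)
    (hdvd : ¬ C lam ∣ f) : f.IsPrimitive ∧ Irreducible (f.map (algebraMap ↥O K₀)) := by
  have hdeg : f.natDegree ≠ 0 := by
    intro h0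
    obtain ⟨a, rfl⟩ : ∃ a, f = C a := ⟨f.coeff 0, Polynomial.eq_C_of_natDegree_eq_zero h0⟩
    have ha : Prime a := Polynomial.prime_C_iff.mp hf
    have hmem : a ∈ IsLocalRing.maximalIdeal ↥O :=
      (IsLocalRing.mem_maximalIdeal a).mpr ha.not_isUnit
    rw [hlam, Ideal.mem_span_singleton] at hmem
    exact hdvd (map_dvd C hmem)
  have hprim : f.IsPrimitive := hf.irreducible.isPrimitive hdeg
  exact ⟨hprim, (hprim.irreducible_iff_irreducible_map_fraction_map (K := K₀)).mp hf.irreducible⟩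

end Places

/-! ## Adapter to the chart frame of `helper530_RegFinChart` -/

section ChartAdapter

variable {K₀ F₀ : Type*} [Field K₀] [Field F₀] [Algebra K₀ F₀]

theorem evO_eq_aeval_map (O : ValuationSubring K₀) (t : F₀) (P : (↥O)[X]) :
    helper530.evO O t P = aeval t (P.map (algebraMap ↥O K₀)) :=
  helper530.evO_eq_aeval O t P

/-- Integral over the subring `O[t]` ⟹ integral over `O[X]` along `X ↦ t`. -/
theorem isIntegralElem_evO_of_mem_finChartOf (O : ValuationSubring K₀) (t : F₀) {x : F₀}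
    (hx : x ∈ helper37.finChartOf O t) : (helper530.evO O t).IsIntegralElem x := by
  obtain ⟨q, hqm, hqx⟩ := hx
  have hmem : ∀ P : (↥O)[X], helper530.evO O t P ∈ helper37.polyRing O t := fun P => by
    rw [evO_eq_aeval_map]
    exact aeval_map_mem_polyRing O t P
  let φ : (↥O)[X] →+* helper37.polyRing O t := (helper530.evO O t).codRestrict _ hmem
  have hsurj : Function.Surjective φ := by
    rintro ⟨y, hy⟩
    have hle : helper37.polyRing O t ≤ (helper530.evO O t).range := by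
      rw [helper37.polyRing, Subring.closure_le]
      rintro g (⟨c, hc, rfl⟩ | hg)
      · exact ⟨C ⟨c, hc⟩, helper530.evO_C O t ⟨c, hc⟩⟩
      · rw [Set.mem_singleton_iff] at hg
        rw [hg]
        exact ⟨X, helper530.evO_X O t⟩
    obtain ⟨P, hP⟩ := hle hy
    exact ⟨P, Subtype.ext hP⟩
  have hlift : q ∈ Polynomial.lifts φ := by
    rw [Polynomial.mem_lifts]
    exact Polynomial.map_surjective φ hsurj q
  obtain ⟨q₀, hq₀, -, hq₀m⟩ := Polynomial.lifts_and_natDegree_eq_and_monic hlift hqm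
  refine ⟨q₀, hq₀m, ?_⟩
  have e : eval₂ (helper530.evO O t) x q₀
      = eval₂ (algebraMap (helper37.polyRing O t) F₀) x (q₀.map φ) := by
    rw [Polynomial.eval₂_map]
    rfl
  rw [e, hq₀]
  exact hqx

/-- `UnramAt` implies the chart form `helper530.ChartUnrAt`. -/
theorem chartUnrAt_of_unramAt (O : ValuationSubring K₀) (t : F₀) (f : (↥O)[X])
    (h : UnramAt O t f) : helper530.ChartUnrAt O t f := by
  obtain ⟨b, d, hb, hd, hfd⟩ := h
  exact ⟨b, d, fun i => isIntegralElem_evO_of_mem_finChartOf O t (hb i),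
    by rw [evO_eq_aeval_map, hd], hfd⟩

end ChartAdapter

/-! ## (H3) The modular instance: RF-H on the Hauptmodul lines -/

section ModularHoriz

open IntermediateField

variable (N : ℕ) [NeZero N]

/-- A solution `t` of `q(t) * j = G₀(t)^3` with `q`, `G₀` without common root is transcendental
over `ℚ̄`. -/
theorem transcendental_of_hauptmodul (t : FN N) (q G₀ : Kbar[X])
    (hj : aeval t q * jBar N = aeval t G₀ ^ 3)
    (hcop : ∀ c : Kbar, q.eval c = 0 → G₀.eval c ≠ 0) : Transcendental Kbar t := by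
  apply Fermat.Agent.S24.helper204.transcendental_of_not_mem_range
  rintro ⟨c, rfl⟩
  rw [Polynomial.aeval_algebraMap_apply_eq_algebraMap_eval,
    Polynomial.aeval_algebraMap_apply_eq_algebraMap_eval, ← map_pow] at hj
  by_cases hq : q.eval c = 0
  · rw [hq, map_zero, zero_mul] at hj
    have h1 : G₀.eval c ^ 3 = 0 := by
      have := hj.symm
      rwa [map_eq_zero] at this
    exact hcop c hq (pow_eq_zero_iff (three_ne_zero) |>.mp h1)
  · apply jBar_sub_ne_zero N (G₀.eval c ^ 3 / q.eval c)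
    have hq' : algebraMap Kbar (FN N) (q.eval c) ≠ 0 := by
      rwa [Ne, map_eq_zero]
    apply mul_left_cancel₀ hq'
    rw [mul_sub, hj, ← map_mul, mul_div_cancel₀ _ hq, sub_self, mul_zero]

variable {K₀ F₀ : Type*} [Field K₀] [Field F₀] [Algebra K₀ F₀] [Algebra K₀ Kbar]
  [Algebra.IsAlgebraic K₀ Kbar] [Algebra F₀ (FN N)] [Algebra K₀ (FN N)]
  [IsScalarTower K₀ Kbar (FN N)] [IsScalarTower K₀ F₀ (FN N)]

/-- **RF-H on a Hauptmodul line, generic form.** `N` a level without elliptic points, `F₀` a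
`K₀`-form of `F_N` (`K₀ ⊆ ℚ̄`, `F₀ → F_N`), `t : F₀` with `q(t) * j = G₀(t)^3` in `F_N`,
`G₀^3 - 1728 q = G₁^2`, `q` and `G₀` without common root.  Then `F₀ / K₀(t)` is unramified
(discriminant form over `O[t]`) at every `f ∈ O[X]` irreducible over `K₀` whose roots are not
roots of `q`. -/
theorem unramAt_hauptmodul (h2 : nuTwo N = 0) (h3 : nuThree N = 0)
    (O : ValuationSubring K₀) (t : F₀) [FiniteDimensional K₀⟮t⟯ F₀]
    (q G₀ G₁ : Kbar[X])
    (hj : aeval (algebraMap F₀ (FN N) t) q * jBar N = aeval (algebraMap F₀ (FN N) t) G₀ ^ 3)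
    (hpoly : G₀ ^ 3 - C 1728 * q = G₁ ^ 2)
    (hcop : ∀ c : Kbar, q.eval c = 0 → G₀.eval c ≠ 0)
    (f : (↥O)[X]) (hf : Irreducible (f.map (algebraMap ↥O K₀)))
    (hfq : ∀ c : Kbar, ((f.map (algebraMap ↥O K₀)).map (algebraMap K₀ Kbar)).IsRoot c →
      q.eval c ≠ 0) :
    UnramAt O t f := by
  have hx := transcendental_of_hauptmodul N _ q G₀ hj hcop
  have : FiniteDimensional Kbar⟮jBar N⟯ (FN N) := (leaf_JFinrank N).1
  have : FiniteDimensional Kbar⟮algebraMap F₀ (FN N) t⟯ (FN N) :=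
    Fermat.Agent.S24.helper204.finiteDimensional_adjoin_of_transcendental (x := jBar N) hx
  exact unramAt_of_places O t hx f hf
    (fun c hc v hv => ord_sub_eq_one_of_hauptmodul N h2 h3 _ q G₀ G₁ hj hpoly c (hfq c hc) v hv)

/-- **RF-H at level 4** (`t` the Hauptmodul of `X₀(4)`, cusp polynomial `X (X + 16)`). -/
theorem unramAt_t4 (h2 : nuTwo N = 0) (h3 : nuThree N = 0)
    (O : ValuationSubring K₀) (t : F₀) [FiniteDimensional K₀⟮t⟯ F₀]
    (ht : jBar N * (algebraMap F₀ (FN N) t ^ 4 * (algebraMap F₀ (FN N) t + 16))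
      = (algebraMap F₀ (FN N) t ^ 2 + 256 * algebraMap F₀ (FN N) t + 4096) ^ 3)
    (f : (↥O)[X]) (hf : Irreducible (f.map (algebraMap ↥O K₀)))
    (hfD : ¬ f.map (algebraMap ↥O K₀) ∣ X * (X + 16)) :
    UnramAt O t f := by
  have hj : aeval (algebraMap F₀ (FN N) t) (X ^ 4 * (X + 16) : Kbar[X]) * jBar N
      = aeval (algebraMap F₀ (FN N) t) (X ^ 2 + 256 * X + 4096 : Kbar[X]) ^ 3 := by
    rw [aeval_q4, aeval_g4, mul_comm]
    exact ht
  have hpoly : (X ^ 2 + 256 * X + 4096 : Kbar[X]) ^ 3 - C 1728 * (X ^ 4 * (X + 16))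
      = (X ^ 3 - 480 * X ^ 2 - 24576 * X - 262144) ^ 2 := by
    simp only [map_ofNat]
    ring
  have hcop : ∀ c : Kbar, (X ^ 4 * (X + 16) : Kbar[X]).eval c = 0 →
      (X ^ 2 + 256 * X + 4096 : Kbar[X]).eval c ≠ 0 := by
    intro c hc
    simp only [eval_mul, eval_pow, eval_add, eval_X, eval_ofNat] at hc ⊢
    rcases mul_eq_zero.mp hc with h | h
    · rw [pow_eq_zero_iff (by norm_num)] at h
      rw [h]
      norm_num
    · have hc' : c = -16 := eq_neg_of_add_eq_zero_left h
      rw [hc']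
      norm_num
  refine unramAt_hauptmodul N h2 h3 O t _ _ _ hj hpoly hcop f hf ?_
  intro c hc
  have h1 := eval_map_ne_zero_of_not_dvd _ _ hf hfD c hc
  simp only [Polynomial.map_mul, Polynomial.map_add, Polynomial.map_X, Polynomial.map_ofNat,
    eval_mul, eval_add, eval_X, eval_ofNat] at h1
  simp only [eval_mul, eval_pow, eval_add, eval_X, eval_ofNat]
  exact mul_ne_zero (pow_ne_zero 4 (left_ne_zero_of_mul h1)) (right_ne_zero_of_mul h1)

/-- **RF-H at level 9** (`t` the Hauptmodul of `X₀(9)`, cusp polynomial `X (X^2 + 9 X + 27)`). -/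
theorem unramAt_t9 (h2 : nuTwo N = 0) (h3 : nuThree N = 0)
    (O : ValuationSubring K₀) (t : F₀) [FiniteDimensional K₀⟮t⟯ F₀]
    (ht : jBar N * (algebraMap F₀ (FN N) t ^ 9
        * (algebraMap F₀ (FN N) t ^ 2 + 9 * algebraMap F₀ (FN N) t + 27))
      = ((algebraMap F₀ (FN N) t + 9) * (algebraMap F₀ (FN N) t ^ 3
        + 243 * algebraMap F₀ (FN N) t ^ 2 + 2187 * algebraMap F₀ (FN N) t + 6561)) ^ 3)
    (f : (↥O)[X]) (hf : Irreducible (f.map (algebraMap ↥O K₀)))
    (hfD : ¬ f.map (algebraMap ↥O K₀) ∣ X * (X ^ 2 + 9 * X + 27)) :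
    UnramAt O t f := by
  have hj : aeval (algebraMap F₀ (FN N) t) (X ^ 9 * (X ^ 2 + 9 * X + 27) : Kbar[X]) * jBar N
      = aeval (algebraMap F₀ (FN N) t)
        ((X + 9) * (X ^ 3 + 243 * X ^ 2 + 2187 * X + 6561) : Kbar[X]) ^ 3 := by
    rw [aeval_q9, aeval_g9, mul_comm]
    exact ht
  have hpoly : ((X + 9) * (X ^ 3 + 243 * X ^ 2 + 2187 * X + 6561) : Kbar[X]) ^ 3
      - C 1728 * (X ^ 9 * (X ^ 2 + 9 * X + 27))
      = (X ^ 6 - 486 * X ^ 5 - 24057 * X ^ 4 - 367416 * X ^ 3 - 2657205 * X ^ 2 - 9565938 * X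
        - 14348907) ^ 2 := by
    simp only [map_ofNat]
    ring
  have hcop : ∀ c : Kbar, (X ^ 9 * (X ^ 2 + 9 * X + 27) : Kbar[X]).eval c = 0 →
      ((X + 9) * (X ^ 3 + 243 * X ^ 2 + 2187 * X + 6561) : Kbar[X]).eval c ≠ 0 := by
    intro c hc
    simp only [eval_mul, eval_pow, eval_add, eval_X, eval_ofNat] at hc ⊢
    rcases mul_eq_zero.mp hc with h | h
    · rw [pow_eq_zero_iff (by norm_num)] at h
      rw [h]
      norm_num
    · intro h0
      have h3' : (243 : Kbar) * (c + 3) = 0 := by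
        linear_combination h0 - (c ^ 2 + 243 * c + 2160) * h
      have hc' : c = -3 := by
        rcases mul_eq_zero.mp h3' with h4 | h4
        · norm_num at h4
        · exact eq_neg_of_add_eq_zero_left h4
      rw [hc'] at h
      norm_num at h
  refine unramAt_hauptmodul N h2 h3 O t _ _ _ hj hpoly hcop f hf ?_
  intro c hc
  have h1 := eval_map_ne_zero_of_not_dvd _ _ hf hfD c hc
  simp only [Polynomial.map_mul, Polynomial.map_add, Polynomial.map_pow, Polynomial.map_X,
    Polynomial.map_ofNat, eval_mul, eval_add, eval_pow, eval_X, eval_ofNat] at h1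
  simp only [eval_mul, eval_pow, eval_add, eval_X, eval_ofNat]
  exact mul_ne_zero (pow_ne_zero 9 (left_ne_zero_of_mul h1)) (right_ne_zero_of_mul h1)

/-- **The clause RF-H of TB-REGFIN at level 4, verbatim** (chat #320): at every closed point `m`
of the special fibre of `Spec O[X]` away from the cusps, `F₀ / K₀(t)` is unramified at every
horizontal prime element through `m`. -/
theorem rfH_t4 (h2 : nuTwo N = 0) (h3 : nuThree N = 0)
    (O : ValuationSubring K₀) (lam : ↥O) (hlam : IsLocalRing.maximalIdeal ↥O = Ideal.span {lam})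
    (t : F₀) [FiniteDimensional K₀⟮t⟯ F₀]
    (ht : jBar N * (algebraMap F₀ (FN N) t ^ 4 * (algebraMap F₀ (FN N) t + 16))
      = (algebraMap F₀ (FN N) t ^ 2 + 256 * algebraMap F₀ (FN N) t + 4096) ^ 3) :
    ∀ m : Ideal (↥O)[X], m.IsMaximal → C lam ∈ m → (X * (X + 16) : (↥O)[X]) ∉ m →
      ∀ f : (↥O)[X], Prime f → f ∈ m → ¬ C lam ∣ f → UnramAt O t f := by
  intro m _ _ hD f hf hfm hdvd
  obtain ⟨hprim, hirr⟩ := irreducible_map_of_prime O lam hlam f hf hdvd
  refine unramAt_t4 N h2 h3 O t ht f hirr ?_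
  intro hd
  apply hD
  have hd' : f.map (algebraMap ↥O K₀) ∣ (X * (X + 16) : (↥O)[X]).map (algebraMap ↥O K₀) := by
    simpa only [Polynomial.map_mul, Polynomial.map_add, Polynomial.map_X, Polynomial.map_ofNat]
      using hd
  obtain ⟨g, hg⟩ := hprim.dvd_of_fraction_map_dvd_fraction_map hd'
  rw [hg]
  exact Ideal.mul_mem_right _ _ hfm

/-- **The clause RF-H of TB-REGFIN at level 9, verbatim.** -/
theorem rfH_t9 (h2 : nuTwo N = 0) (h3 : nuThree N = 0)
    (O : ValuationSubring K₀) (lam : ↥O) (hlam : IsLocalRing.maximalIdeal ↥O = Ideal.span {lam})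
    (t : F₀) [FiniteDimensional K₀⟮t⟯ F₀]
    (ht : jBar N * (algebraMap F₀ (FN N) t ^ 9
        * (algebraMap F₀ (FN N) t ^ 2 + 9 * algebraMap F₀ (FN N) t + 27))
      = ((algebraMap F₀ (FN N) t + 9) * (algebraMap F₀ (FN N) t ^ 3
        + 243 * algebraMap F₀ (FN N) t ^ 2 + 2187 * algebraMap F₀ (FN N) t + 6561)) ^ 3) :
    ∀ m : Ideal (↥O)[X], m.IsMaximal → C lam ∈ m →
      (X * (X ^ 2 + 9 * X + 27) : (↥O)[X]) ∉ m →
      ∀ f : (↥O)[X], Prime f → f ∈ m → ¬ C lam ∣ f → UnramAt O t f := by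
  intro m _ _ hD f hf hfm hdvd
  obtain ⟨hprim, hirr⟩ := irreducible_map_of_prime O lam hlam f hf hdvd
  refine unramAt_t9 N h2 h3 O t ht f hirr ?_
  intro hd
  apply hD
  have hd' : f.map (algebraMap ↥O K₀)
      ∣ (X * (X ^ 2 + 9 * X + 27) : (↥O)[X]).map (algebraMap ↥O K₀) := by
    simpa only [Polynomial.map_mul, Polynomial.map_add, Polynomial.map_pow, Polynomial.map_X,
      Polynomial.map_ofNat] using hd
  obtain ⟨g, hg⟩ := hprim.dvd_of_fraction_map_dvd_fraction_map hd'
  rw [hg]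
  exact Ideal.mul_mem_right _ _ hfm

/-- **RF-H at level 4 in the global shape `hH` of `helper530.locGen_hauptmodul`**: for any `g`
divisible by the cusp polynomial `X (X + 16)` (e.g. `g = X^4 (X + 16)`), `F₀ / K₀(t)` is
unramified (chart form) at every horizontal prime element `f ∤ g` of `O[X]`. -/
theorem chartUnrAt_t4 (h2 : nuTwo N = 0) (h3 : nuThree N = 0)
    (O : ValuationSubring K₀) (lam : ↥O) (hlam : IsLocalRing.maximalIdeal ↥O = Ideal.span {lam})
    (t : F₀) [FiniteDimensional K₀⟮t⟯ F₀]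
    (ht : jBar N * (algebraMap F₀ (FN N) t ^ 4 * (algebraMap F₀ (FN N) t + 16))
      = (algebraMap F₀ (FN N) t ^ 2 + 256 * algebraMap F₀ (FN N) t + 4096) ^ 3)
    (g : (↥O)[X]) (hg : (X * (X + 16) : (↥O)[X]) ∣ g) :
    ∀ f : (↥O)[X], Prime f → ¬ C lam ∣ f → ¬ f ∣ g → helper530.ChartUnrAt O t f := by
  intro f hf hdvd hfg
  obtain ⟨hprim, hirr⟩ := irreducible_map_of_prime O lam hlam f hf hdvd
  refine chartUnrAt_of_unramAt O t f (unramAt_t4 N h2 h3 O t ht f hirr ?_)
  intro hd
  apply hfg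
  have hd' : f.map (algebraMap ↥O K₀) ∣ (X * (X + 16) : (↥O)[X]).map (algebraMap ↥O K₀) := by
    simpa only [Polynomial.map_mul, Polynomial.map_add, Polynomial.map_X, Polynomial.map_ofNat]
      using hd
  exact (hprim.dvd_of_fraction_map_dvd_fraction_map hd').trans hg

/-- **RF-H at level 9 in the global shape `hH` of `helper530.locGen_hauptmodul`** (cusp polynomial
`X (X^2 + 9 X + 27)`). -/
theorem chartUnrAt_t9 (h2 : nuTwo N = 0) (h3 : nuThree N = 0)
    (O : ValuationSubring K₀) (lam : ↥O) (hlam : IsLocalRing.maximalIdeal ↥O = Ideal.span {lam})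
    (t : F₀) [FiniteDimensional K₀⟮t⟯ F₀]
    (ht : jBar N * (algebraMap F₀ (FN N) t ^ 9
        * (algebraMap F₀ (FN N) t ^ 2 + 9 * algebraMap F₀ (FN N) t + 27))
      = ((algebraMap F₀ (FN N) t + 9) * (algebraMap F₀ (FN N) t ^ 3
        + 243 * algebraMap F₀ (FN N) t ^ 2 + 2187 * algebraMap F₀ (FN N) t + 6561)) ^ 3)
    (g : (↥O)[X]) (hg : (X * (X ^ 2 + 9 * X + 27) : (↥O)[X]) ∣ g) :
    ∀ f : (↥O)[X], Prime f → ¬ C lam ∣ f → ¬ f ∣ g → helper530.ChartUnrAt O t f := by
  intro f hf hdvd hfg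
  obtain ⟨hprim, hirr⟩ := irreducible_map_of_prime O lam hlam f hf hdvd
  refine chartUnrAt_of_unramAt O t f (unramAt_t9 N h2 h3 O t ht f hirr ?_)
  intro hd
  apply hfg
  have hd' : f.map (algebraMap ↥O K₀)
      ∣ (X * (X ^ 2 + 9 * X + 27) : (↥O)[X]).map (algebraMap ↥O K₀) := by
    simpa only [Polynomial.map_mul, Polynomial.map_add, Polynomial.map_pow, Polynomial.map_X,
      Polynomial.map_ofNat] using hd
  exact (hprim.dvd_of_fraction_map_dvd_fraction_map hd').trans hg

end ModularHoriz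

end Fermat.Agent.S37.helper6932
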