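import Mathlib
import Fermat.Prelude.Def_ModularCurve_HeckeOperator
import Fermat.Prelude.Thm_ModularCurve_coeffMap_qExpand
import Fermat.Agent.S29.helper6961_CoeffDescent

/-!
# S37, Track B node TB-FFK (helper5651): function-field basics of the layers `F_{M,K}`

For a field `K` of characteristic zero and `F₀ : IntermediateField ℚ (LaurentSeries ℚ)` (think
`F₀ = modularFunctionFieldFull M`) put `FK := laurentBaseChange K F₀`.

* `exists_eq_algebraMap_of_isAlgebraic` : `K` is algebraically closed in `LaurentSeries K`;
  `mem_range_algebraMap_of_isAlgebraic` : hence in `FK`.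
* `layerHom F₀ ι : FK →+* FL` for a ring homomorphism `ι : K →+* L` (coefficientwise), with its
  basic compatibilities, and the description of its range (`mem_range_layerHom_iff`).
* `layerAlgebra`, `layerAlgebraBase`, the two scalar towers and
  `adjoin_range_algebraMap_eq_top` (`FL = FK · L`).
* `exists_finite_layer`, `exists_finite_layer_finset` : for `L` algebraic over `ℚ` every finite
  set of elements of `FL` comes from `F_{M,K}` for one number field `K ≤ L`.
-/

set_option autoImplicit false
set_option linter.style.haveILetI false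
set_option linter.unusedSectionVars false

noncomputable section

namespace Fermat.Agent.S37.helper5651

open HahnSeries ModularCurve IntermediateField

/-! ### Constants: `K` is algebraically closed in `K((q))` -/

section Constants

variable {K : Type*} [Field K]

theorem coeff_algebraMap_mul (c : K) (x : LaurentSeries K) (k : ℤ) :
    (algebraMap K (LaurentSeries K) c * x).coeff k = c * x.coeff k := by
  rw [algebraMap_laurentSeries_eq_single, HahnSeries.coeff_single_mul, sub_zero]

theorem coeff_algebraMap_zero (c : K) :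
    (algebraMap K (LaurentSeries K) c).coeff 0 = c := by
  rw [algebraMap_laurentSeries_eq_single, HahnSeries.coeff_single_same]

/-- A Laurent series with a pole is transcendental over the coefficient field. -/
theorem transcendental_of_order_neg {x : LaurentSeries K} (hx : x.order < 0) :
    Transcendental K x := by
  have hx0 : x ≠ 0 := by
    rintro rfl
    simp at hx
  intro halg
  obtain ⟨P, hP0, hP⟩ := halg
  have hcoeff : (Polynomial.aeval x P).coeff (P.natDegree • x.order)
      = P.leadingCoeff * (x ^ P.natDegree).leadingCoeff := by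
    rw [Polynomial.aeval_eq_sum_range, HahnSeries.coeff_sum, Finset.sum_eq_single P.natDegree]
    · rw [Algebra.smul_def, coeff_algebraMap_mul, HahnSeries.leadingCoeff_eq,
        HahnSeries.order_pow]
      rfl
    · intro i hi hne
      have hlt : i < P.natDegree :=
        lt_of_le_of_ne (Nat.lt_succ_iff.mp (Finset.mem_range.mp hi)) hne
      have hlt' : P.natDegree • x.order < (x ^ i).order := by
        rw [HahnSeries.order_pow, nsmul_eq_mul, nsmul_eq_mul]
        have h1 : (i : ℤ) < (P.natDegree : ℤ) := by exact_mod_cast hlt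
        nlinarith
      rw [Algebra.smul_def, coeff_algebraMap_mul, HahnSeries.coeff_eq_zero_of_lt_order hlt',
        mul_zero]
    · intro h
      exact absurd (Finset.mem_range.mpr (Nat.lt_succ_self _)) h
  rw [hP, HahnSeries.coeff_zero] at hcoeff
  have h1 : P.leadingCoeff ≠ 0 := Polynomial.leadingCoeff_ne_zero.mpr hP0
  have h2 : (x ^ P.natDegree).leadingCoeff ≠ 0 :=
    HahnSeries.leadingCoeff_ne_zero.mpr (pow_ne_zero _ hx0)
  exact mul_ne_zero h1 h2 hcoeff.symm

/-- **`K` is algebraically closed in `K((q))`**: a Laurent series which is algebraic over the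
coefficient field is a constant. -/
theorem exists_eq_algebraMap_of_isAlgebraic {x : LaurentSeries K} (hx : IsAlgebraic K x) :
    ∃ c : K, x = algebraMap K (LaurentSeries K) c := by
  refine ⟨x.coeff 0, ?_⟩
  set y : LaurentSeries K := x - algebraMap K (LaurentSeries K) (x.coeff 0) with hy
  have hyalg : IsAlgebraic K y := hx.sub (isAlgebraic_algebraMap _)
  have hy0 : y.coeff 0 = 0 := by
    rw [hy, HahnSeries.coeff_sub, coeff_algebraMap_zero, sub_self]
  by_contra hne
  have hyne : y ≠ 0 := fun h => hne (sub_eq_zero.mp h)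
  rcases lt_trichotomy y.order 0 with hlt | heq | hgt
  · exact transcendental_of_order_neg hlt hyalg
  · have := HahnSeries.coeff_order_eq_zero.not.mpr hyne
    rw [heq] at this
    exact this hy0
  · have hinv : y⁻¹ ≠ 0 := inv_ne_zero hyne
    have hord : y.order + (y⁻¹).order = 0 := by
      rw [← HahnSeries.order_mul hyne hinv, mul_inv_cancel₀ hyne, HahnSeries.order_one]
    have hlt : (y⁻¹).order < 0 := by omega
    exact transcendental_of_order_neg hlt hyalg.inv

/-- The same statement inside any intermediate field of `K((q))`, in the hypothesis shape used by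
the Kummer bricks. -/
theorem mem_range_algebraMap_of_isAlgebraic (E : IntermediateField K (LaurentSeries K))
    (a : E) (ha : IsAlgebraic K a) : a ∈ (algebraMap K E).range := by
  have h : IsAlgebraic K (a : LaurentSeries K) := by
    obtain ⟨P, hP0, hP⟩ := ha
    refine ⟨P, hP0, ?_⟩
    have := congrArg (algebraMap E (LaurentSeries K)) hP
    rwa [← Polynomial.aeval_algebraMap_apply, map_zero] at this
  obtain ⟨c, hc⟩ := exists_eq_algebraMap_of_isAlgebraic h
  exact ⟨c, Subtype.ext hc.symm⟩

end Constants

/-! ### The layer map `F_{M,K} → F_{M,L}` -/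

section Layer

theorem coeffMap_injective {K L : Type*} [Field K] [Field L] (ι : K →+* L) :
    Function.Injective (coeffMap ι) := by
  intro u v huv
  ext n
  have := congrArg (fun w => w.coeff n) huv
  simp only [coeffMap_coeff] at this
  exact ι.injective this

variable {K L : Type*} [Field K] [Field L] [Algebra ℚ K] [Algebra ℚ L]
variable (F₀ : IntermediateField ℚ (LaurentSeries ℚ))

/-- The coefficientwise map `laurentBaseChange K F₀ → laurentBaseChange L F₀` induced by a ring
homomorphism `ι : K →+* L` of the coefficient fields. -/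
def layerHom (ι : K →+* L) : laurentBaseChange K F₀ →+* laurentBaseChange L F₀ where
  toFun x := ⟨coeffMap ι (x : LaurentSeries K),
    Fermat.Agent.S29.helper6961.coeffMap_mem_laurentBaseChange_of_mem F₀ ι x.2⟩
  map_one' := Subtype.ext (map_one (coeffMap ι))
  map_mul' _ _ := Subtype.ext (map_mul (coeffMap ι) _ _)
  map_zero' := Subtype.ext (map_zero (coeffMap ι))
  map_add' _ _ := Subtype.ext (map_add (coeffMap ι) _ _)

@[simp]
theorem coe_layerHom (ι : K →+* L) (x : laurentBaseChange K F₀) :
    (layerHom F₀ ι x : LaurentSeries L) = coeffMap ι (x : LaurentSeries K) :=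
  rfl

theorem layerHom_injective (ι : K →+* L) : Function.Injective (layerHom F₀ ι) :=
  (layerHom F₀ ι).injective

/-- The layer map is compatible with the constants. -/
theorem layerHom_algebraMap (ι : K →+* L) (c : K) :
    layerHom F₀ ι (algebraMap K (laurentBaseChange K F₀) c)
      = algebraMap L (laurentBaseChange L F₀) (ι c) := by
  apply Subtype.ext
  show coeffMap ι (algebraMap K (LaurentSeries K) c) = algebraMap L (LaurentSeries L) (ι c)
  rw [algebraMap_laurentSeries_eq_single, algebraMap_laurentSeries_eq_single, coeffMap_single]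

/-- The layer map sends the rational functions to themselves. -/
theorem layerHom_coeffEmb (ι : K →+* L) {f : LaurentSeries ℚ} (hf : f ∈ F₀) :
    layerHom F₀ ι ⟨coeffEmb K f, coeffEmb_mem_laurentBaseChange K hf⟩
      = ⟨coeffEmb L f, coeffEmb_mem_laurentBaseChange L hf⟩ :=
  Subtype.ext (Fermat.Agent.S29.helper6961.coeffMap_coeffEmb_eq ι f)

theorem layerHom_id (x : laurentBaseChange K F₀) : layerHom F₀ (RingHom.id K) x = x :=
  Subtype.ext (coeffMap_id _)

theorem layerHom_comp {E : Type*} [Field E] [Algebra ℚ E] (ι' : L →+* E) (ι : K →+* L)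
    (x : laurentBaseChange K F₀) :
    layerHom F₀ (ι'.comp ι) x = layerHom F₀ ι' (layerHom F₀ ι x) :=
  Subtype.ext (coeffMap_coeffMap ι' ι _).symm

/-- **Range of the layer map**: an element of `F_{M,L}` comes from `F_{M,K}` iff all its
coefficients come from `K`. -/
theorem mem_range_layerHom_iff (ι : K →+* L) (x : laurentBaseChange L F₀) :
    x ∈ Set.range (layerHom F₀ ι) ↔ ∀ n, (x : LaurentSeries L).coeff n ∈ Set.range ι := by
  constructor
  · rintro ⟨y, rfl⟩ n
    exact ⟨(y : LaurentSeries K).coeff n, rfl⟩
  · intro h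
    obtain ⟨y, hy, hyx⟩ :=
      Fermat.Agent.S29.helper6961.exists_mem_laurentBaseChange_coeffMap_eq F₀ ι x.2 h
    exact ⟨⟨y, hy⟩, Subtype.ext hyx⟩

/-- Descent form: a Laurent series over `K` whose image lies in `F_{M,L}` lies in `F_{M,K}`. -/
theorem mem_of_coeffMap_mem (ι : K →+* L) {y : LaurentSeries K}
    (h : coeffMap ι y ∈ laurentBaseChange L F₀) : y ∈ laurentBaseChange K F₀ :=
  Fermat.Agent.S29.helper6961.mem_laurentBaseChange_of_coeffMap_mem F₀ ι y h

/-- Equivariance of the layer map for coefficient automorphisms. -/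
theorem arithmeticRingAut_layerHom (ι : K →+* L) (σK : K ≃ₐ[ℚ] K) (σL : L ≃ₐ[ℚ] L)
    (h : ∀ c : K, σL (ι c) = ι (σK c)) (x : laurentBaseChange K F₀) :
    arithmeticRingAut F₀ σL (layerHom F₀ ι x) = layerHom F₀ ι (arithmeticRingAut F₀ σK x) := by
  apply Subtype.ext
  show coeffMap (σL : L →+* L) (coeffMap ι (x : LaurentSeries K))
    = coeffMap ι (coeffMap (σK : K →+* K) (x : LaurentSeries K))
  rw [coeffMap_coeffMap, coeffMap_coeffMap]
  exact coeffMap_congr (RingHom.ext fun c => h c) _

/-- An automorphism of `L` fixing the image of `K` fixes the image of the layer `F_{M,K}`. -/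
theorem arithmeticRingAut_layerHom_of_fix (ι : K →+* L) (σ : L ≃ₐ[ℚ] L)
    (h : ∀ c : K, σ (ι c) = ι c) (x : laurentBaseChange K F₀) :
    arithmeticRingAut F₀ σ (layerHom F₀ ι x) = layerHom F₀ ι x := by
  apply Subtype.ext
  show coeffMap (σ : L →+* L) (coeffMap ι (x : LaurentSeries K)) = coeffMap ι (x : LaurentSeries K)
  rw [coeffMap_coeffMap]
  exact coeffMap_congr (RingHom.ext fun c => h c) _

theorem arithmeticGalois_smul_layerHom_of_fix (ι : K →+* L) (σ : L ≃ₐ[ℚ] L)
    (h : ∀ c : K, σ (ι c) = ι c) (x : laurentBaseChange K F₀) :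
    arithmeticGalois F₀ σ • layerHom F₀ ι x = layerHom F₀ ι x :=
  arithmeticRingAut_layerHom_of_fix F₀ ι σ h x

end Layer

/-! ### The tower `K → L`, `F_{M,K} → F_{M,L}`: algebra structures and `F_{M,L} = F_{M,K} · L` -/

section Tower

variable {K L : Type*} [Field K] [Field L] [Algebra ℚ K] [Algebra ℚ L] [Algebra K L]
variable (F₀ : IntermediateField ℚ (LaurentSeries ℚ))

variable (K L) in
/-- `F_{M,L}` as an algebra over the layer `F_{M,K}` (through `layerHom`). -/
@[reducible] def layerAlgebra : Algebra (laurentBaseChange K F₀) (laurentBaseChange L F₀) :=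
  (layerHom F₀ (algebraMap K L)).toAlgebra

variable (K L) in
/-- `F_{M,L}` as an algebra over the small constant field `K` (through `K → L`). -/
@[reducible] def layerAlgebraBase : Algebra K (laurentBaseChange L F₀) :=
  ((algebraMap L (laurentBaseChange L F₀)).comp (algebraMap K L)).toAlgebra

theorem layerAlgebra_algebraMap_apply (x : laurentBaseChange K F₀) :
    letI := layerAlgebra K L F₀
    algebraMap (laurentBaseChange K F₀) (laurentBaseChange L F₀) x
      = layerHom F₀ (algebraMap K L) x :=
  rfl

theorem layerAlgebraBase_algebraMap_apply (c : K) :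
    letI := layerAlgebraBase K L F₀
    algebraMap K (laurentBaseChange L F₀) c
      = algebraMap L (laurentBaseChange L F₀) (algebraMap K L c) :=
  rfl

/-- The tower `K → F_{M,K} → F_{M,L}`. -/
theorem layer_isScalarTower_left :
    letI := layerAlgebra K L F₀
    letI := layerAlgebraBase K L F₀
    IsScalarTower K (laurentBaseChange K F₀) (laurentBaseChange L F₀) :=
  letI := layerAlgebra K L F₀
  letI := layerAlgebraBase K L F₀
  IsScalarTower.of_algebraMap_eq fun c => (layerHom_algebraMap F₀ (algebraMap K L) c).symm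

/-- The tower `K → L → F_{M,L}`. -/
theorem layer_isScalarTower_right :
    letI := layerAlgebraBase K L F₀
    IsScalarTower K L (laurentBaseChange L F₀) :=
  letI := layerAlgebraBase K L F₀
  IsScalarTower.of_algebraMap_eq fun _ => rfl

/-- **`F_{M,L} = F_{M,K} · L`**: the big function field is generated over the layer by the
constants of `L` (the hypothesis `hgen` of the constant-field-extension brick). -/
theorem adjoin_range_algebraMap_eq_top :
    letI := layerAlgebra K L F₀
    IntermediateField.adjoin (laurentBaseChange K F₀)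
      (Set.range (algebraMap L (laurentBaseChange L F₀))) = ⊤ := by
  letI := layerAlgebra K L F₀
  rw [eq_top_iff]
  intro y _
  have key : ∀ z ∈ Subfield.closure
      (Set.range (algebraMap L (LaurentSeries L)) ∪
        (⇑(coeffEmb L) '' (F₀ : Set (LaurentSeries ℚ)))),
      ∃ y' : laurentBaseChange L F₀,
        y' ∈ IntermediateField.adjoin (laurentBaseChange K F₀)
          (Set.range (algebraMap L (laurentBaseChange L F₀))) ∧ (y' : LaurentSeries L) = z := by
    intro z hz
    induction hz using Subfield.closure_induction with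
    | mem z hz =>
        rcases hz with ⟨a, rfl⟩ | ⟨f, hf, rfl⟩
        · exact ⟨algebraMap L (laurentBaseChange L F₀) a,
            IntermediateField.subset_adjoin _ _ ⟨a, rfl⟩, rfl⟩
        · refine ⟨⟨coeffEmb L f, coeffEmb_mem_laurentBaseChange L hf⟩, ?_, rfl⟩
          rw [← layerHom_coeffEmb F₀ (algebraMap K L) hf]
          exact IntermediateField.algebraMap_mem _ _
    | one => exact ⟨1, one_mem _, rfl⟩
    | add a b _ _ ha hb =>
        obtain ⟨a', ha', rfl⟩ := ha
        obtain ⟨b', hb', rfl⟩ := hb
        exact ⟨a' + b', add_mem ha' hb', rfl⟩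
    | neg a _ ha =>
        obtain ⟨a', ha', rfl⟩ := ha
        exact ⟨-a', neg_mem ha', rfl⟩
    | inv a _ ha =>
        obtain ⟨a', ha', rfl⟩ := ha
        exact ⟨a'⁻¹, inv_mem ha', rfl⟩
    | mul a b _ _ ha hb =>
        obtain ⟨a', ha', rfl⟩ := ha
        obtain ⟨b', hb', rfl⟩ := hb
        exact ⟨a' * b', mul_mem ha' hb', rfl⟩
  obtain ⟨y', hy', hyy⟩ := key (y : LaurentSeries L) (mem_laurentBaseChange_iff.mp y.2)
  have : y' = y := Subtype.ext hyy
  rwa [this] at hy'

end Tower

/-! ### Finite layers: every finite set of functions is defined over a number field -/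

section FiniteLayer

variable {L : Type*} [Field L] [Algebra ℚ L]
variable (F₀ : IntermediateField ℚ (LaurentSeries ℚ))

theorem range_coeffMap_mono {K K' : IntermediateField ℚ L} (h : K ≤ K') :
    Set.range (coeffMap (algebraMap K L)) ⊆ Set.range (coeffMap (algebraMap K' L)) := by
  rintro _ ⟨z, rfl⟩
  refine ⟨coeffMap (IntermediateField.inclusion h : K →+* K') z, ?_⟩
  rw [coeffMap_coeffMap]
  exact coeffMap_congr (RingHom.ext fun _ => rfl) z

/-- The layers are increasing. -/
theorem range_layerHom_mono {K K' : IntermediateField ℚ L} (h : K ≤ K') :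
    Set.range (layerHom F₀ (algebraMap K L)) ⊆ Set.range (layerHom F₀ (algebraMap K' L)) := by
  rintro x hx
  rw [mem_range_layerHom_iff] at hx ⊢
  intro n
  obtain ⟨c, hc⟩ := hx n
  exact ⟨IntermediateField.inclusion h c, hc⟩

variable [Algebra.IsAlgebraic ℚ L]

/-- Every Laurent series in the subfield generated by the constants and the rational functions
has its coefficients in a finite extension of `ℚ`. -/
theorem exists_finite_coeff_field {z : LaurentSeries L}
    (hz : z ∈ Subfield.closure
      (Set.range (algebraMap L (LaurentSeries L)) ∪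
        (⇑(coeffEmb L) '' (F₀ : Set (LaurentSeries ℚ))))) :
    ∃ K : IntermediateField ℚ L, FiniteDimensional ℚ K ∧
      z ∈ Set.range (coeffMap (algebraMap K L)) := by
  induction hz using Subfield.closure_induction with
  | mem z hz =>
      rcases hz with ⟨a, rfl⟩ | ⟨f, _, rfl⟩
      · refine ⟨ℚ⟮a⟯, IntermediateField.adjoin.finiteDimensional
          (Algebra.IsIntegral.isIntegral a), ?_⟩
        refine ⟨algebraMap _ _ (⟨a, IntermediateField.mem_adjoin_simple_self ℚ a⟩ : ℚ⟮a⟯), ?_⟩
        rw [algebraMap_laurentSeries_eq_single, algebraMap_laurentSeries_eq_single,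
          coeffMap_single]
        rfl
      · refine ⟨⊥, ?_, ?_⟩
        · exact Module.finite_of_finrank_pos (by rw [IntermediateField.finrank_bot]; exact one_pos)
        · exact ⟨coeffEmb _ f, Fermat.Agent.S29.helper6961.coeffMap_coeffEmb_eq _ f⟩
  | one =>
      refine ⟨⊥, ?_, 1, map_one _⟩
      exact Module.finite_of_finrank_pos (by rw [IntermediateField.finrank_bot]; exact one_pos)
  | add a b _ _ ha hb =>
      obtain ⟨K₁, hK₁, ha'⟩ := ha
      obtain ⟨K₂, hK₂, hb'⟩ := hb
      obtain ⟨a', rfl⟩ := range_coeffMap_mono (le_sup_left : K₁ ≤ K₁ ⊔ K₂) ha'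
      obtain ⟨b', rfl⟩ := range_coeffMap_mono (le_sup_right : K₂ ≤ K₁ ⊔ K₂) hb'
      exact ⟨K₁ ⊔ K₂, IntermediateField.finiteDimensional_sup K₁ K₂, a' + b', map_add _ _ _⟩
  | neg a _ ha =>
      obtain ⟨K₁, hK₁, a', rfl⟩ := ha
      exact ⟨K₁, hK₁, -a', map_neg _ _⟩
  | inv a _ ha =>
      obtain ⟨K₁, hK₁, a', rfl⟩ := ha
      exact ⟨K₁, hK₁, a'⁻¹, map_inv₀ _ _⟩
  | mul a b _ _ ha hb =>
      obtain ⟨K₁, hK₁, ha'⟩ := ha
      obtain ⟨K₂, hK₂, hb'⟩ := hb
      obtain ⟨a', rfl⟩ := range_coeffMap_mono (le_sup_left : K₁ ≤ K₁ ⊔ K₂) ha'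
      obtain ⟨b', rfl⟩ := range_coeffMap_mono (le_sup_right : K₂ ≤ K₁ ⊔ K₂) hb'
      exact ⟨K₁ ⊔ K₂, IntermediateField.finiteDimensional_sup K₁ K₂, a' * b', map_mul _ _ _⟩

/-- **Finite layers**: every element of `F_{M,L}` (`L` algebraic over `ℚ`, e.g. `L = ℚ̄`) comes
from `F_{M,K}` for a finite extension `K` of `ℚ` inside `L`. -/
theorem exists_finite_layer (x : laurentBaseChange L F₀) :
    ∃ K : IntermediateField ℚ L, FiniteDimensional ℚ K ∧
      x ∈ Set.range (layerHom F₀ (algebraMap K L)) := by
  obtain ⟨K, hK, z, hz⟩ := exists_finite_coeff_field F₀ (mem_laurentBaseChange_iff.mp x.2)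
  refine ⟨K, hK, ⟨z, mem_of_coeffMap_mem F₀ (algebraMap K L) ?_⟩, Subtype.ext hz⟩
  rw [hz]
  exact x.2

/-- **Finite layers, finite sets**: finitely many elements of `F_{M,L}` come from one layer
`F_{M,K}` with `K` finite over `ℚ`. -/
theorem exists_finite_layer_finset (S : Finset (laurentBaseChange L F₀)) :
    ∃ K : IntermediateField ℚ L, FiniteDimensional ℚ K ∧
      ∀ x ∈ S, x ∈ Set.range (layerHom F₀ (algebraMap K L)) := by
  classical
  induction S using Finset.induction_on with
  | empty =>
      refine ⟨⊥, ?_, fun x hx => absurd hx (Finset.notMem_empty x)⟩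
      exact Module.finite_of_finrank_pos (by rw [IntermediateField.finrank_bot]; exact one_pos)
  | insert a S _ ih =>
      obtain ⟨K₁, hK₁, h₁⟩ := ih
      obtain ⟨K₂, hK₂, h₂⟩ := exists_finite_layer F₀ a
      refine ⟨K₁ ⊔ K₂, IntermediateField.finiteDimensional_sup K₁ K₂, fun x hx => ?_⟩
      rcases Finset.mem_insert.mp hx with rfl | hx
      · exact range_layerHom_mono F₀ le_sup_right h₂
      · exact range_layerHom_mono F₀ le_sup_left (h₁ x hx)

/-- A finite layer containing a given finite layer and finitely many more functions. -/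
theorem exists_finite_layer_ge (K₀ : IntermediateField ℚ L) [FiniteDimensional ℚ K₀]
    (S : Finset (laurentBaseChange L F₀)) :
    ∃ K : IntermediateField ℚ L, K₀ ≤ K ∧ FiniteDimensional ℚ K ∧
      ∀ x ∈ S, x ∈ Set.range (layerHom F₀ (algebraMap K L)) := by
  obtain ⟨K₁, hK₁, h₁⟩ := exists_finite_layer_finset F₀ S
  exact ⟨K₀ ⊔ K₁, le_sup_left, IntermediateField.finiteDimensional_sup K₀ K₁,
    fun x hx => range_layerHom_mono F₀ le_sup_right (h₁ x hx)⟩

end FiniteLayer

/-! ### The modular layers: compatibility with the degeneracy maps -/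

section Modular

variable {K L : Type*} [Field K] [Field L] [Algebra ℚ K] [Algebra ℚ L]
variable (N ℓ : ℕ) [NeZero N] [NeZero ℓ]

omit [NeZero N] in
/-- The layer map commutes with `β : q ↦ q^ℓ`. -/
theorem layerHom_heckeBetaBar (ι : K →+* L)
    (x : laurentBaseChange K (modularFunctionFieldFull N)) :
    layerHom (modularFunctionFieldFull (N * ℓ)) ι (heckeBetaBar K N ℓ x)
      = heckeBetaBar L N ℓ (layerHom (modularFunctionFieldFull N) ι x) := by
  apply Subtype.ext
  show coeffMap ι (qExpand K ℓ (x : LaurentSeries K)) = qExpand L ℓ (coeffMap ι (x : LaurentSeries K))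
  exact ModularCurve.coeffMap_qExpand ι ℓ _

/-- The layer map commutes with the inclusion `α`. -/
theorem layerHom_heckeAlphaBar (ι : K →+* L)
    (x : laurentBaseChange K (modularFunctionFieldFull N)) :
    layerHom (modularFunctionFieldFull (N * ℓ)) ι (heckeAlphaBar K N ℓ x)
      = heckeAlphaBar L N ℓ (layerHom (modularFunctionFieldFull N) ι x) := by
  apply Subtype.ext
  rw [coe_layerHom, coe_heckeAlphaBar, coe_heckeAlphaBar, coe_layerHom]

end Modular

/-! ### Number-field layers inside an algebraic extension of `ℚ` (in particular `ℚ̄`) -/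

section NumberFieldLayer

variable {L : Type*} [Field L] [Algebra ℚ L]

/-- `L` is algebraic over each of its layers. -/
theorem isAlgebraic_layer [Algebra.IsAlgebraic ℚ L] (K : IntermediateField ℚ L) :
    Algebra.IsAlgebraic K L :=
  Algebra.IsAlgebraic.tower_top (K := ℚ) K

/-- A finite layer is a number field. -/
theorem numberField_layer (K : IntermediateField ℚ L) [h : FiniteDimensional ℚ K] :
    NumberField K := by
  haveI : CharZero K := charZero_of_injective_algebraMap (algebraMap ℚ K).injective
  refine { to_charZero := inferInstance, to_finiteDimensional := ?_ }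
  convert h
  exact Subsingleton.elim _ _

/-- `ℚ̄` is algebraic over `ℚ` (for the `ℚ`-algebra structure used by the Prelude). -/
theorem isAlgebraic_Qbar : Algebra.IsAlgebraic ℚ (AlgebraicClosure ℚ) :=
  AlgebraicClosure.isAlgebraic ℚ

/-- **Finite layers over `ℚ̄`**: finitely many elements of `laurentBaseChange ℚ̄ F₀` (e.g. of the
function field `modularFunctionFieldBar M`) come from the layer of one number field `K ≤ ℚ̄`,
which can be chosen to contain a given number field `K₀`. -/
theorem exists_finite_layer_Qbar (F₀ : IntermediateField ℚ (LaurentSeries ℚ))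
    (K₀ : IntermediateField ℚ (AlgebraicClosure ℚ)) [FiniteDimensional ℚ K₀]
    (S : Finset (laurentBaseChange (AlgebraicClosure ℚ) F₀)) :
    ∃ K : IntermediateField ℚ (AlgebraicClosure ℚ), K₀ ≤ K ∧ FiniteDimensional ℚ K ∧
      ∀ x ∈ S, x ∈ Set.range (layerHom F₀ (algebraMap K (AlgebraicClosure ℚ))) :=
  haveI := isAlgebraic_Qbar
  exists_finite_layer_ge F₀ K₀ S

end NumberFieldLayer

end Fermat.Agent.S37.helper5651

end
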