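/-
S37/S18-HAUPT49 (helper9536): the Hauptmoduln of `X₀(4)` and `X₀(9)` from the level-2 and level-3
Hauptmodul identities, by pure field algebra.

Part A (this section): field-generic lemmas, Mathlib only.
-/
import Mathlib

set_option autoImplicit false

namespace Fermat.Agent.S37.helper9536

section Level4

variable {K : Type*} [Field K]

/-- The `X₀(4)`-component of the `(3,3)`-correspondence between two copies of the `X₀(2)`
Hauptmodul line: if `(h+16)³/h = (h'+256)³/h'²` and `h h' ≠ 4096` then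
`h'² = (h² + 48 h) h' + 4096 h`. -/
theorem level4_component {j2 h h' : K}
    (e2 : j2 * h = (h + 16) ^ 3) (e3 : j2 * h' ^ 2 = (h' + 256) ^ 3)
    (hne : h * h' ≠ 4096) :
    h' ^ 2 = (h ^ 2 + 48 * h) * h' + 4096 * h := by
  have key : (h * h' - 4096) * (h' ^ 2 - ((h ^ 2 + 48 * h) * h' + 4096 * h)) = 0 := by
    linear_combination -h * e3 + h' ^ 2 * e2
  rcases mul_eq_zero.mp key with h0 | h0
  · exact absurd (sub_eq_zero.mp h0) hne
  · exact sub_eq_zero.mp h0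

/-- **Level 4 from level 2** (field-generic).  `h, h'` play the roles of `h₂(τ), h₂(2τ)` and
`j, j2, j4` those of `j(τ), j(2τ), j(4τ)`.  The element `t = (h' - 16 h)/(h + 16)` is the Hauptmodul
of `X₀(4)`. -/
theorem level4_of_level2 {j j2 j4 h h' : K}
    (e1 : j * h ^ 2 = (h + 256) ^ 3) (e2 : j2 * h = (h + 16) ^ 3)
    (e3 : j2 * h' ^ 2 = (h' + 256) ^ 3) (e4 : j4 * h' = (h' + 16) ^ 3)
    (h16 : h + 16 ≠ 0) (hne : h * h' ≠ 4096)
    {t : K} (ht : t = (h' - 16 * h) / (h + 16)) :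
    t * (t + 16) = h' ∧ t ^ 2 = h * (t + 16) ∧
      j * t ^ 4 * (t + 16) = (t ^ 2 + 256 * t + 4096) ^ 3 ∧
      j2 * t ^ 2 * (t + 16) ^ 2 = (t ^ 2 + 16 * t + 256) ^ 3 ∧
      j4 * t * (t + 16) = (t ^ 2 + 16 * t + 16) ^ 3 ∧
      (j - 1728) * t ^ 4 * (t + 16) = (t + 32) ^ 2 * (t ^ 2 - 512 * t - 8192) ^ 2 := by
  have hQ := level4_component e2 e3 hne
  have ht' : t * (h + 16) = h' - 16 * h := by rw [ht, div_mul_cancel₀ _ h16]
  have h162 : (h + 16) ^ 2 ≠ 0 := pow_ne_zero 2 h16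
  have h1 : t * (t + 16) = h' := by
    have : (t * (t + 16) - h') * (h + 16) ^ 2 = 0 := by
      have e : (t * (t + 16) - h') * (h + 16) ^ 2
          = (t * (h + 16)) * (t * (h + 16) + 16 * (h + 16)) - h' * (h + 16) ^ 2 := by ring
      rw [e, ht']
      linear_combination hQ
    exact sub_eq_zero.mp ((mul_eq_zero.mp this).resolve_right h162)
  have h2 : t ^ 2 = h * (t + 16) := by
    have : (t ^ 2 - h * (t + 16)) * (h + 16) ^ 2 = 0 := by
      have e : (t ^ 2 - h * (t + 16)) * (h + 16) ^ 2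
          = (t * (h + 16)) ^ 2 - h * (t * (h + 16) + 16 * (h + 16)) * (h + 16) := by ring
      rw [e, ht']
      linear_combination hQ
    exact sub_eq_zero.mp ((mul_eq_zero.mp this).resolve_right h162)
  have h3 : j * t ^ 4 * (t + 16) = (t ^ 2 + 256 * t + 4096) ^ 3 := by
    linear_combination (t + 16) ^ 3 * e1 +
      (j * (t + 16) * (t ^ 2 + h * (t + 16))
        - ((t ^ 2 + 256 * (t + 16)) ^ 2 + (t ^ 2 + 256 * (t + 16)) * (h * (t + 16) + 256 * (t + 16))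
          + (h * (t + 16) + 256 * (t + 16)) ^ 2)) * h2
  refine ⟨h1, h2, h3, ?_, ?_, ?_⟩
  · linear_combination (t + 16) ^ 3 * e2 +
      (j2 * (t + 16) ^ 2
        - ((t ^ 2 + 16 * (t + 16)) ^ 2 + (t ^ 2 + 16 * (t + 16)) * (h * (t + 16) + 16 * (t + 16))
          + (h * (t + 16) + 16 * (t + 16)) ^ 2)) * h2
  · linear_combination e4 +
      (j4 - ((t * (t + 16) + 16) ^ 2 + (t * (t + 16) + 16) * (h' + 16) + (h' + 16) ^ 2)) * h1
  · linear_combination h3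

end Level4

section Level9

variable {K : Type*} [Field K]

/-- The `X₀(9)`-component of the `(4,4)`-correspondence between two copies of the `X₀(3)`
Hauptmodul line. -/
theorem level9_component {j3 h h' : K}
    (e2 : j3 * h = (h + 27) * (h + 3) ^ 3) (e3 : j3 * h' ^ 3 = (h' + 27) * (h' + 243) ^ 3)
    (hne : h * h' ≠ 729) :
    h' ^ 3 = (h ^ 3 + 36 * h ^ 2 + 270 * h) * h' ^ 2 + (729 * h ^ 2 + 26244 * h) * h'
      + 531441 * h := by
  have key : (h * h' - 729) * (h' ^ 3 - ((h ^ 3 + 36 * h ^ 2 + 270 * h) * h' ^ 2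
      + (729 * h ^ 2 + 26244 * h) * h' + 531441 * h)) = 0 := by
    linear_combination -h * e3 + h' ^ 3 * e2
  rcases mul_eq_zero.mp key with h0 | h0
  · exact absurd (sub_eq_zero.mp h0) hne
  · exact sub_eq_zero.mp h0

/-- **Level 9 from level 3** (field-generic).  `h, h'` play the roles of `h₃(τ), h₃(3τ)` and
`j, j3, j9` those of `j(τ), j(3τ), j(9τ)`.  The element
`t = (h² h' + 18 h h' + 27 h' + 1458 h)/(h h' - 243 h + 9 h' + 729)` is the Hauptmodul of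
`X₀(9)`. -/
theorem level9_of_level3 {j j3 j9 h h' : K}
    (e1 : j * h ^ 3 = (h + 27) * (h + 243) ^ 3) (e2 : j3 * h = (h + 27) * (h + 3) ^ 3)
    (e3 : j3 * h' ^ 3 = (h' + 27) * (h' + 243) ^ 3) (e4 : j9 * h' = (h' + 27) * (h' + 3) ^ 3)
    (hne : h * h' ≠ 729) (hden : h * h' - 243 * h + 9 * h' + 729 ≠ 0)
    {t : K} (ht : t = (h ^ 2 * h' + 18 * h * h' + 27 * h' + 1458 * h)
      / (h * h' - 243 * h + 9 * h' + 729)) :
    t * (t ^ 2 + 9 * t + 27) = h' ∧ t ^ 3 = h * (t ^ 2 + 9 * t + 27) ∧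
      j * t ^ 9 * (t ^ 2 + 9 * t + 27)
        = (t + 9) ^ 3 * (t ^ 3 + 243 * t ^ 2 + 2187 * t + 6561) ^ 3 ∧
      j3 * t ^ 3 * (t ^ 2 + 9 * t + 27) ^ 3 = (t + 9) ^ 3 * (t + 3) ^ 3 * (t ^ 2 + 27) ^ 3 ∧
      j9 * t * (t ^ 2 + 9 * t + 27) = (t + 3) ^ 3 * (t ^ 3 + 9 * t ^ 2 + 27 * t + 3) ^ 3 := by
  have hC := level9_component e2 e3 hne
  set Dn : K := h * h' - 243 * h + 9 * h' + 729 with hDn
  set Nm : K := h ^ 2 * h' + 18 * h * h' + 27 * h' + 1458 * h with hNm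
  have ht' : t * Dn = Nm := by rw [ht, div_mul_cancel₀ _ hden]
  have hD3 : Dn ^ 3 ≠ 0 := pow_ne_zero 3 hden
  have h1 : t * (t ^ 2 + 9 * t + 27) = h' := by
    have : (t * (t ^ 2 + 9 * t + 27) - h') * Dn ^ 3 = 0 := by
      have e : (t * (t ^ 2 + 9 * t + 27) - h') * Dn ^ 3
          = (t * Dn) ^ 3 + 9 * (t * Dn) ^ 2 * Dn + 27 * (t * Dn) * Dn ^ 2 - h' * Dn ^ 3 := by ring
      rw [e, ht', hDn, hNm]
      linear_combination (-h ^ 3 * h' - 27 * h ^ 2 * h' - 243 * h * h' - 729 * h' - 1458 * h ^ 2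
        - 39366) * hC
    exact sub_eq_zero.mp ((mul_eq_zero.mp this).resolve_right hD3)
  have h2 : t ^ 3 = h * (t ^ 2 + 9 * t + 27) := by
    have : (t ^ 3 - h * (t ^ 2 + 9 * t + 27)) * Dn ^ 3 = 0 := by
      have e : (t ^ 3 - h * (t ^ 2 + 9 * t + 27)) * Dn ^ 3
          = (t * Dn) ^ 3 - h * ((t * Dn) ^ 2 + 9 * (t * Dn) * Dn + 27 * Dn ^ 2) * Dn := by ring
      rw [e, ht', hDn, hNm]
      linear_combination (-243 * h ^ 3 - 5103 * h ^ 2 - 6561 * h + 19683) * hC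
    exact sub_eq_zero.mp ((mul_eq_zero.mp this).resolve_right hD3)
  refine ⟨h1, h2, ?_, ?_, ?_⟩
  · calc j * t ^ 9 * (t ^ 2 + 9 * t + 27)
        = j * (t ^ 3) ^ 3 * (t ^ 2 + 9 * t + 27) := by ring
      _ = j * (h * (t ^ 2 + 9 * t + 27)) ^ 3 * (t ^ 2 + 9 * t + 27) := by rw [h2]
      _ = (j * h ^ 3) * (t ^ 2 + 9 * t + 27) ^ 4 := by ring
      _ = ((h + 27) * (h + 243) ^ 3) * (t ^ 2 + 9 * t + 27) ^ 4 := by rw [e1]
      _ = (h * (t ^ 2 + 9 * t + 27) + 27 * (t ^ 2 + 9 * t + 27))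
            * (h * (t ^ 2 + 9 * t + 27) + 243 * (t ^ 2 + 9 * t + 27)) ^ 3 := by ring
      _ = (t ^ 3 + 27 * (t ^ 2 + 9 * t + 27)) * (t ^ 3 + 243 * (t ^ 2 + 9 * t + 27)) ^ 3 := by
          rw [← h2]
      _ = (t + 9) ^ 3 * (t ^ 3 + 243 * t ^ 2 + 2187 * t + 6561) ^ 3 := by ring
  · calc j3 * t ^ 3 * (t ^ 2 + 9 * t + 27) ^ 3
        = j3 * (h * (t ^ 2 + 9 * t + 27)) * (t ^ 2 + 9 * t + 27) ^ 3 := by rw [h2]
      _ = (j3 * h) * (t ^ 2 + 9 * t + 27) ^ 4 := by ring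
      _ = ((h + 27) * (h + 3) ^ 3) * (t ^ 2 + 9 * t + 27) ^ 4 := by rw [e2]
      _ = (h * (t ^ 2 + 9 * t + 27) + 27 * (t ^ 2 + 9 * t + 27))
            * (h * (t ^ 2 + 9 * t + 27) + 3 * (t ^ 2 + 9 * t + 27)) ^ 3 := by ring
      _ = (t ^ 3 + 27 * (t ^ 2 + 9 * t + 27)) * (t ^ 3 + 3 * (t ^ 2 + 9 * t + 27)) ^ 3 := by
          rw [← h2]
      _ = (t + 9) ^ 3 * (t + 3) ^ 3 * (t ^ 2 + 27) ^ 3 := by ring
  · calc j9 * t * (t ^ 2 + 9 * t + 27)
        = j9 * (t * (t ^ 2 + 9 * t + 27)) := by ring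
      _ = j9 * h' := by rw [h1]
      _ = (h' + 27) * (h' + 3) ^ 3 := e4
      _ = (t * (t ^ 2 + 9 * t + 27) + 27) * (t * (t ^ 2 + 9 * t + 27) + 3) ^ 3 := by rw [h1]
      _ = (t + 3) ^ 3 * (t ^ 3 + 9 * t ^ 2 + 27 * t + 3) ^ 3 := by ring

/-- The branch identity over `j = 1728` on the `X₀(9)` Hauptmodul line. -/
theorem level9_branch_1728 {j t : K}
    (e : j * t ^ 9 * (t ^ 2 + 9 * t + 27)
      = (t + 9) ^ 3 * (t ^ 3 + 243 * t ^ 2 + 2187 * t + 6561) ^ 3) :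
    (j - 1728) * t ^ 9 * (t ^ 2 + 9 * t + 27)
      = (t ^ 6 - 486 * t ^ 5 - 24057 * t ^ 4 - 367416 * t ^ 3 - 2657205 * t ^ 2
          - 9565938 * t - 14348907) ^ 2 := by
  linear_combination e

/-- The branch identity over `j = 1728` on the `X₀(4)` Hauptmodul line. -/
theorem level4_branch_1728 {j t : K}
    (e : j * t ^ 4 * (t + 16) = (t ^ 2 + 256 * t + 4096) ^ 3) :
    (j - 1728) * t ^ 4 * (t + 16) = (t + 32) ^ 2 * (t ^ 2 - 512 * t - 8192) ^ 2 := by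
  linear_combination e

end Level9

end Fermat.Agent.S37.helper9536
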