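/-
S37/S18-HAUPT49 (helper9536), Part B: the Hauptmodul lines of `X₀(2)`, `X₀(4)`, `X₀(3)`, `X₀(9)` inside
the Prelude function fields `modularFunctionFieldFullC K m`, for an arbitrary coefficient field `K`.

Input: a series `h` satisfying the two level-`2` (resp. level-`3`) relations against `jqModC K`.
Output: `h ∈ F_2` (resp. `F_3`) by elimination, the level-`4` (resp. `9`) Hauptmodul `t`, its
relations, `t ∈ F_4` (resp. `F_9`) and `F_4 = K(t)` (resp. `F_9 = K(t)`).
-/
import Mathlib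
import Fermat.Prelude.Def_ModularCurve_X0ModL
import Fermat.Agent.S37.helper9536_Haupt49

set_option autoImplicit false
set_option linter.unusedSectionVars false

open ModularCurve HahnSeries

namespace Fermat.Agent.S37.helper9536

section LeadCalculus

variable {R : Type*} [CommRing R] [IsDomain R]

/-- `x` has leading term `c q^n` (in particular `x ≠ 0`). -/
def Lead (x : LaurentSeries R) (n : ℤ) (c : R) : Prop :=
  x.orderTop = (n : WithTop ℤ) ∧ x.leadingCoeff = c

theorem Lead.ne_zero {x : LaurentSeries R} {n : ℤ} {c : R} (h : Lead x n c) : x ≠ 0 := by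
  rintro rfl
  have := h.1
  simp at this

theorem Lead.coeff_ne_zero {x : LaurentSeries R} {n : ℤ} {c : R} (h : Lead x n c) : c ≠ 0 := by
  rw [← h.2]
  exact HahnSeries.leadingCoeff_ne_zero.mpr h.ne_zero

theorem Lead.order_eq {x : LaurentSeries R} {n : ℤ} {c : R} (h : Lead x n c) : x.order = n := by
  have h1 := HahnSeries.order_eq_orderTop_of_ne_zero h.ne_zero
  rw [h.1] at h1
  exact_mod_cast h1

theorem Lead.coeff_eq {x : LaurentSeries R} {n : ℤ} {c : R} (h : Lead x n c) : x.coeff n = c := by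
  rw [← h.order_eq, ← HahnSeries.leadingCoeff_eq, h.2]

theorem lead_of_ne_zero {x : LaurentSeries R} (hx : x ≠ 0) : Lead x x.order x.leadingCoeff :=
  ⟨(HahnSeries.order_eq_orderTop_of_ne_zero hx).symm, rfl⟩

theorem Lead.unique {x : LaurentSeries R} {n m : ℤ} {c d : R} (h : Lead x n c) (h' : Lead x m d) :
    n = m ∧ c = d := by
  refine ⟨?_, h.2.symm.trans h'.2⟩
  have := h.1.symm.trans h'.1
  exact_mod_cast this

theorem Lead.mul {x y : LaurentSeries R} {n m : ℤ} {c d : R} (hx : Lead x n c) (hy : Lead y m d) :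
    Lead (x * y) (n + m) (c * d) := by
  refine ⟨?_, ?_⟩
  · rw [HahnSeries.orderTop_mul, hx.1, hy.1]; rfl
  · rw [HahnSeries.leadingCoeff_mul, hx.2, hy.2]

theorem lead_one : Lead (1 : LaurentSeries R) 0 1 :=
  ⟨HahnSeries.orderTop_one, HahnSeries.leadingCoeff_one⟩

theorem Lead.pow {x : LaurentSeries R} {n : ℤ} {c : R} (hx : Lead x n c) (k : ℕ) :
    Lead (x ^ k) (k * n) (c ^ k) := by
  induction k with
  | zero => simpa using (lead_one (R := R))
  | succ k ih =>
    have := ih.mul hx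
    rw [pow_succ, pow_succ]
    convert this using 1
    push_cast; ring

theorem Lead.add_of_lt {x y : LaurentSeries R} {n : ℤ} {c : R} (hx : Lead x n c)
    (hy : (n : WithTop ℤ) < y.orderTop) : Lead (x + y) n c := by
  have hlt : x.orderTop < y.orderTop := by rw [hx.1]; exact hy
  exact ⟨(HahnSeries.orderTop_add_eq_left hlt).trans hx.1,
    (HahnSeries.leadingCoeff_add_eq_left hlt).trans hx.2⟩

theorem Lead.add_lead {x y : LaurentSeries R} {n m : ℤ} {c d : R} (hx : Lead x n c)
    (hy : Lead y m d) (hnm : n < m) : Lead (x + y) n c :=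
  hx.add_of_lt (by rw [hy.1]; exact_mod_cast hnm)

theorem Lead.neg {x : LaurentSeries R} {n : ℤ} {c : R} (hx : Lead x n c) : Lead (-x) n (-c) :=
  ⟨by rw [HahnSeries.orderTop_neg, hx.1], by rw [HahnSeries.leadingCoeff_neg, hx.2]⟩

theorem lead_C {c : R} (hc : c ≠ 0) : Lead (HahnSeries.C c : LaurentSeries R) 0 c := by
  refine ⟨?_, ?_⟩
  · rw [HahnSeries.C_apply, HahnSeries.orderTop_single hc]
  · rw [HahnSeries.C_apply, HahnSeries.leadingCoeff_of_single]

theorem orderTop_C_nonneg (c : R) : (0 : WithTop ℤ) ≤ (HahnSeries.C c : LaurentSeries R).orderTop := by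
  rw [HahnSeries.C_apply]
  exact HahnSeries.orderTop_single_le

/-- Adding a constant to a series with a pole does not change the leading term. -/
theorem Lead.add_C {x : LaurentSeries R} {n : ℤ} {c : R} (hx : Lead x n c) (hn : n < 0) (a : R) :
    Lead (x + HahnSeries.C a) n c :=
  hx.add_of_lt (lt_of_lt_of_le (by exact_mod_cast hn) (orderTop_C_nonneg a))

/-- Adding a series of positive order to a nonzero constant. -/
theorem Lead.C_add {x : LaurentSeries R} {n : ℤ} {c : R} (hx : Lead x n c) (hn : 0 < n) {a : R}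
    (ha : a ≠ 0) : Lead (x + HahnSeries.C a) 0 a := by
  rw [add_comm]
  exact (lead_C ha).add_lead hx hn

theorem Lead.qExp {x : LaurentSeries R} {n : ℤ} {c : R} (hx : Lead x n c) (N : ℕ) [NeZero N] :
    Lead (qExpand R N x) (N * n) c := by
  have hx0 := hx.ne_zero
  have hq0 : qExpand R N x ≠ 0 := fun h => hx0 (qExpand_injective N (by rw [h, map_zero]))
  have hc : (qExpand R N x).coeff (N * n) = c := by rw [qExpand_coeff_mul, hx.coeff_eq]
  have hord : (qExpand R N x).order = N * n := by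
    apply le_antisymm
    · apply HahnSeries.order_le_of_coeff_ne_zero
      rw [hc]; exact hx.coeff_ne_zero
    · have h1 := (HahnSeries.coeff_order_eq_zero.not.mpr hq0)
      by_cases hd : (N : ℤ) ∣ (qExpand R N x).order
      · obtain ⟨m, hm⟩ := hd
        rw [hm, qExpand_coeff_mul] at h1
        rw [hm]
        have : x.order ≤ m := HahnSeries.order_le_of_coeff_ne_zero h1
        rw [hx.order_eq] at this
        have hN : (0 : ℤ) < N := by exact_mod_cast Nat.pos_of_ne_zero (NeZero.ne N)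
        exact mul_le_mul_of_nonneg_left this hN.le
      · exact absurd (qExpand_coeff_of_not_dvd N x hd) h1
  refine ⟨?_, ?_⟩
  · rw [← HahnSeries.order_eq_orderTop_of_ne_zero hq0, hord]
  · rw [HahnSeries.leadingCoeff_eq, hord, hc]

theorem lead_jqModC : Lead (jqModC R) (-1) 1 := by
  have h0 : jqModC R ≠ 0 := jqModC_ne_zero_of_nontrivial R
  have hord : (jqModC R).order = -1 := by
    apply le_antisymm
    · apply HahnSeries.order_le_of_coeff_ne_zero
      rw [coeff_jqModC_neg_one]; exact one_ne_zero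
    · by_contra hlt
      push Not at hlt
      exact HahnSeries.coeff_order_eq_zero.not.mpr h0 (coeff_jqModC_of_lt R hlt)
  refine ⟨?_, ?_⟩
  · rw [← HahnSeries.order_eq_orderTop_of_ne_zero h0, hord]
  · rw [HahnSeries.leadingCoeff_eq, hord, coeff_jqModC_neg_one]

theorem ofNat_eq_C (n : ℕ) [n.AtLeastTwo] :
    (OfNat.ofNat n : LaurentSeries R) = HahnSeries.C (OfNat.ofNat n : R) :=
  (map_ofNat HahnSeries.C n).symm

end LeadCalculus

section Level4Series

variable {R : Type*} [CommRing R] [IsDomain R]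

/-- The level-`2` relation `j h² = (h + 256)³` forces the leading term `q⁻¹`. -/
theorem lead_of_rel2 (h2 : (2 : R) ≠ 0) {h : LaurentSeries R}
    (e1 : jqModC R * h ^ 2 = (h + 256) ^ 3) : Lead h (-1) 1 := by
  have h256 : (256 : R) ≠ 0 := by
    have : (256 : R) = 2 ^ 8 := by norm_num
    rw [this]; exact pow_ne_zero 8 h2
  have hC : (256 : LaurentSeries R) = HahnSeries.C (256 : R) := ofNat_eq_C 256
  have hh : h ≠ 0 := by
    rintro rfl
    have e : (HahnSeries.C (256 : R) : LaurentSeries R) ^ 3 = 0 := by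
      rw [← hC]; simpa using e1.symm
    exact ((lead_C h256).pow 3).ne_zero e
  have hL := lead_of_ne_zero hh
  have hLHS : Lead (jqModC R * h ^ 2) (-1 + (2 : ℕ) * h.order) (1 * h.leadingCoeff ^ 2) :=
    lead_jqModC.mul (hL.pow 2)
  rw [e1] at hLHS
  rcases lt_trichotomy h.order 0 with hneg | hzero | hpos
  · have hR : Lead ((h + 256) ^ 3) ((3 : ℕ) * h.order) (h.leadingCoeff ^ 3) := by
      rw [hC]; exact (hL.add_C hneg 256).pow 3
    obtain ⟨h1, h2'⟩ := hLHS.unique hR
    have hn1 : h.order = -1 := by push_cast at h1; omega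
    have hc1 : h.leadingCoeff = 1 := by
      have hc0 := hL.coeff_ne_zero
      have : h.leadingCoeff ^ 2 * (h.leadingCoeff - 1) = 0 := by linear_combination -h2'
      rcases mul_eq_zero.mp this with h0 | h0
      · exact absurd (pow_eq_zero_iff two_ne_zero |>.mp h0) hc0
      · exact sub_eq_zero.mp h0
    rw [hn1, hc1] at hL; exact hL
  · exfalso
    have hy : h + 256 ≠ 0 := by
      intro h0
      rw [h0] at hLHS
      exact hLHS.ne_zero (by simp)
    have hm : 0 ≤ (h + 256).order := by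
      have := HahnSeries.min_order_le_order_add hy
      rw [hC, HahnSeries.order_C, hzero] at this
      simpa [hC] using this
    have hR := (lead_of_ne_zero hy).pow 3
    have := (hLHS.unique hR).1
    push_cast at this
    omega
  · exfalso
    have hR : Lead ((h + 256) ^ 3) ((3 : ℕ) * 0) (256 ^ 3) := by
      rw [hC]; exact (hL.C_add hpos h256).pow 3
    have := (hLHS.unique hR).1
    push_cast at this
    omega

end Level4Series

section Level4Field

variable {K : Type*} [Field K]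

theorem coeff_ofNat_mul (n : ℕ) [n.AtLeastTwo] (x : LaurentSeries K) (k : ℤ) :
    ((ofNat(n) : LaurentSeries K) * x).coeff k = (ofNat(n) : K) * x.coeff k := by
  rw [ofNat_eq_C, HahnSeries.C_mul_eq_smul, HahnSeries.coeff_smul, smul_eq_mul]

theorem coeff_ofNat_of_ne (n : ℕ) [n.AtLeastTwo] {k : ℤ} (hk : k ≠ 0) :
    (ofNat(n) : LaurentSeries K).coeff k = 0 := by
  rw [ofNat_eq_C, HahnSeries.C_apply, HahnSeries.coeff_single_of_ne hk]

/-- Elimination of `h` from the two level-`2` cubics (a commutative-ring identity). -/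
theorem level2_elim {F : Type*} [CommRing F] {j j2 h : F}
    (e1 : j * h ^ 2 = (h + 256) ^ 3) (e2 : j2 * h = (h + 16) ^ 3) :
    h * ((16773120 * (195840 + j2) - (720 - j) * (802160640 + 4096 * j)) * h
      + (16773120 ^ 2 + (720 - j) * (16777216 * j2 - 12079595520))) = 0 := by
  linear_combination (-(16773120 * h + 4096 * (720 - j))) * e1
    + (16773120 * h + 16777216 * (720 - j)) * e2

/-- **(F1)** The level-`2` Hauptmodul lies in the function field of `X₀(2)`; proved from the two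
cubic relations by elimination. -/
theorem mem_full2_of_rel2 (h2 : (2 : K) ≠ 0) {h : LaurentSeries K}
    (e1 : jqModC K * h ^ 2 = (h + 256) ^ 3) (e2 : qExpand K 2 (jqModC K) * h = (h + 16) ^ 3) :
    h ∈ modularFunctionFieldFullC K 2 := by
  have hj : jqModC K ∈ modularFunctionFieldFullC K 2 := jqModC_mem_full K 2
  have hj2 : qExpand K 2 (jqModC K) ∈ modularFunctionFieldFullC K 2 :=
    jqModCd_mem_full K 2 dvd_rfl
  have hL := lead_of_rel2 h2 e1
  have key := level2_elim e1 e2
  set j := jqModC K with hjdef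
  set j2 := qExpand K 2 (jqModC K) with hj2def
  set D : LaurentSeries K := 16773120 * (195840 + j2) - (720 - j) * (802160640 + 4096 * j) with hD
  set E : LaurentSeries K := 16773120 ^ 2 + (720 - j) * (16777216 * j2 - 12079595520) with hE
  have hDmem : D ∈ modularFunctionFieldFullC K 2 :=
    sub_mem (mul_mem (ofNat_mem _ _) (add_mem (ofNat_mem _ _) hj2))
      (mul_mem (sub_mem (ofNat_mem _ _) hj) (add_mem (ofNat_mem _ _) (mul_mem (ofNat_mem _ _) hj)))
  have hEmem : E ∈ modularFunctionFieldFullC K 2 :=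
    add_mem (pow_mem (ofNat_mem _ _) 2)
      (mul_mem (sub_mem (ofNat_mem _ _) hj) (sub_mem (mul_mem (ofNat_mem _ _) hj2) (ofNat_mem _ _)))
  have hD0 : D ≠ 0 := by
    have hDexp : D = 4096 * j ^ 2 + 799211520 * j + 16773120 * j2 + 2707292160000 := by
      rw [hD]; ring
    have hm2 : (-2 : ℤ) ≠ 0 := by norm_num
    have c1 : (j ^ 2).coeff (-2) = 1 := by
      have := coeff_jqModC_pow_self K 2
      simpa using this
    have c2 : j.coeff (-2) = 0 := coeff_jqModC_of_lt K (by norm_num)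
    have c3 : j2.coeff (-2) = 1 := by
      have := qExpand_coeff_mul 2 (jqModC K) (-1)
      rw [coeff_jqModC_neg_one] at this
      rw [hj2def, ← this]; norm_num
    have hcoef : D.coeff (-2) = 16777216 := by
      rw [hDexp]
      simp only [HahnSeries.coeff_add, coeff_ofNat_mul, coeff_ofNat_of_ne _ hm2, c1, c2, c3]
      norm_num
    intro h0
    rw [h0, HahnSeries.coeff_zero] at hcoef
    have : (16777216 : K) = 2 ^ 24 := by norm_num
    rw [this] at hcoef
    exact pow_ne_zero 24 h2 hcoef.symm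
  have hDE : D * h + E = 0 := (mul_eq_zero.mp key).resolve_left hL.ne_zero
  have hh : h = -E / D := by
    field_simp
    linear_combination hDE
  rw [hh]
  exact div_mem (neg_mem hEmem) hDmem

/-- Side conditions and relations at level `4`, for a series `h` satisfying the two level-`2`
relations, and `t = (h(q²) - 16 h)/(h + 16)`. -/
theorem level4_series (h2 : (2 : K) ≠ 0) {h : LaurentSeries K}
    (e1 : jqModC K * h ^ 2 = (h + 256) ^ 3) (e2 : qExpand K 2 (jqModC K) * h = (h + 16) ^ 3)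
    {t : LaurentSeries K} (ht : t = (qExpand K 2 h - 16 * h) / (h + 16)) :
    Lead t (-1) 1 ∧ t * (t + 16) = qExpand K 2 h ∧ t ^ 2 = h * (t + 16) ∧
      jqModC K * t ^ 4 * (t + 16) = (t ^ 2 + 256 * t + 4096) ^ 3 ∧
      qExpand K 2 (jqModC K) * t ^ 2 * (t + 16) ^ 2 = (t ^ 2 + 16 * t + 256) ^ 3 ∧
      qExpand K 4 (jqModC K) * t * (t + 16) = (t ^ 2 + 16 * t + 16) ^ 3 ∧
      (jqModC K - 1728) * t ^ 4 * (t + 16) = (t + 32) ^ 2 * (t ^ 2 - 512 * t - 8192) ^ 2 := by
  have hL := lead_of_rel2 h2 e1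
  have hL' : Lead (qExpand K 2 h) (-2) 1 := by
    have := hL.qExp 2
    simpa using this
  have h16 : (16 : K) ≠ 0 := by
    have : (16 : K) = 2 ^ 4 := by norm_num
    rw [this]; exact pow_ne_zero 4 h2
  have h4096 : (4096 : K) ≠ 0 := by
    have : (4096 : K) = 2 ^ 12 := by norm_num
    rw [this]; exact pow_ne_zero 12 h2
  have hC16 : (16 : LaurentSeries K) = HahnSeries.C (16 : K) := ofNat_eq_C 16
  have hC4096 : (4096 : LaurentSeries K) = HahnSeries.C (4096 : K) := ofNat_eq_C 4096
  have hLs : Lead (h + 16) (-1) 1 := by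
    rw [hC16]; exact hL.add_C (by norm_num) 16
  have hs0 : h + 16 ≠ 0 := hLs.ne_zero
  have hne : h * qExpand K 2 h ≠ 4096 := by
    intro h0
    have h1 : Lead (h * qExpand K 2 h) (-1 + -2) (1 * 1) := hL.mul hL'
    rw [h0, hC4096] at h1
    have := (h1.unique (lead_C h4096)).1
    omega
  have e3 : qExpand K 2 (jqModC K) * (qExpand K 2 h) ^ 2 = (qExpand K 2 h + 256) ^ 3 := by
    have := congrArg (qExpand K 2) e1
    simpa only [map_mul, map_pow, map_add, map_ofNat] using this
  have e4 : qExpand K 4 (jqModC K) * qExpand K 2 h = (qExpand K 2 h + 16) ^ 3 := by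
    have := congrArg (qExpand K 2) e2
    simp only [map_mul, map_pow, map_add, map_ofNat, qExpand_qExpand] at this
    rw [← this]
  obtain ⟨r1, r2, r3, r4, r5, r6⟩ := level4_of_level2 e1 e2 e3 e4 hs0 hne ht
  refine ⟨?_, r1, r2, r3, r4, r5, r6⟩
  -- leading term of `t`
  have hnum : Lead (qExpand K 2 h - 16 * h) (-2) 1 := by
    rw [sub_eq_add_neg]
    apply hL'.add_lead (m := -1) (d := -(16 * 1))
    · rw [hC16]; exact (by simpa using (lead_C h16).mul hL : Lead (HahnSeries.C (16 : K) * h) (-1) (16 * 1)).neg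
    · norm_num
  have ht' : t * (h + 16) = qExpand K 2 h - 16 * h := by rw [ht, div_mul_cancel₀ _ hs0]
  have ht0 : t ≠ 0 := by
    rintro rfl
    rw [zero_mul] at ht'
    exact hnum.ne_zero ht'.symm
  have hLt := (lead_of_ne_zero ht0).mul hLs
  rw [ht'] at hLt
  obtain ⟨ho, hc⟩ := hLt.unique hnum
  have ho' : t.order = -1 := by omega
  have hc' : t.leadingCoeff = 1 := by simpa using hc
  have := lead_of_ne_zero ht0
  rwa [ho', hc'] at this

/-- If `t` satisfies the two relations linking it to `h` and `h(q²)` then it is the quotient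
`(h(q²) - 16 h)/(h + 16)`. -/
theorem t4_eq_of_rel (h2 : (2 : K) ≠ 0) {h : LaurentSeries K}
    (e1 : jqModC K * h ^ 2 = (h + 256) ^ 3) {t : LaurentSeries K}
    (r1 : t * (t + 16) = qExpand K 2 h) (r2 : t ^ 2 = h * (t + 16)) :
    t = (qExpand K 2 h - 16 * h) / (h + 16) := by
  have hL := lead_of_rel2 h2 e1
  have hC16 : (16 : LaurentSeries K) = HahnSeries.C (16 : K) := ofNat_eq_C 16
  have hLs : Lead (h + 16) (-1) 1 := by
    rw [hC16]; exact hL.add_C (by norm_num) 16
  rw [eq_div_iff hLs.ne_zero]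
  linear_combination r1 - r2

/-- **(F2)** `t₄` lies in the function field of `X₀(4)`. -/
theorem t4_mem_full4 (h2 : (2 : K) ≠ 0) {h : LaurentSeries K}
    (e1 : jqModC K * h ^ 2 = (h + 256) ^ 3) (e2 : qExpand K 2 (jqModC K) * h = (h + 16) ^ 3)
    {t : LaurentSeries K} (ht : t = (qExpand K 2 h - 16 * h) / (h + 16)) :
    t ∈ modularFunctionFieldFullC K 4 := by
  have hh := mem_full2_of_rel2 h2 e1 e2
  have hh4 : h ∈ modularFunctionFieldFullC K 4 :=
    full_degeneracyC_le K (N := 2) (M := 4) (by norm_num) hh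
  have hh' : qExpand K 2 h ∈ modularFunctionFieldFullC K 4 := by
    have h1 : qExpandAlgHomC K 2 h ∈ (modularFunctionFieldFullC K 2).map (qExpandAlgHomC K 2) :=
      ⟨h, hh, rfl⟩
    exact full_degeneracyC_map_le K 2 2 h1
  rw [ht]
  exact div_mem (sub_mem hh' (mul_mem (ofNat_mem _ _) hh4)) (add_mem hh4 (ofNat_mem _ _))

/-- **(F2)** The function field of `X₀(4)` is generated by `t₄`. -/
theorem full4_eq_adjoin (h2 : (2 : K) ≠ 0) {h : LaurentSeries K}
    (e1 : jqModC K * h ^ 2 = (h + 256) ^ 3) (e2 : qExpand K 2 (jqModC K) * h = (h + 16) ^ 3)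
    {t : LaurentSeries K} (ht : t = (qExpand K 2 h - 16 * h) / (h + 16)) :
    modularFunctionFieldFullC K 4 = IntermediateField.adjoin K {t} := by
  obtain ⟨hLt, -, -, r3, r4, r5, -⟩ := level4_series h2 e1 e2 ht
  have ht0 : t ≠ 0 := hLt.ne_zero
  have hC16 : (16 : LaurentSeries K) = HahnSeries.C (16 : K) := ofNat_eq_C 16
  have ht16 : t + 16 ≠ 0 := by
    rw [hC16]; exact (hLt.add_C (by norm_num) 16).ne_zero
  have htm : t ∈ IntermediateField.adjoin K {t} :=
    IntermediateField.subset_adjoin K _ (Set.mem_singleton t)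
  apply le_antisymm
  · rw [modularFunctionFieldFullC, IntermediateField.adjoin_le_iff]
    rintro x ⟨d, hne, hdvd, rfl⟩
    have hd : d = 1 ∨ d = 2 ∨ d = 4 := by
      have h4 : d ∈ Nat.divisors 4 := Nat.mem_divisors.mpr ⟨hdvd, by norm_num⟩
      have : Nat.divisors 4 = {1, 2, 4} := by decide
      rw [this] at h4
      simpa using h4
    rcases hd with rfl | rfl | rfl
    · have e : qExpand K 1 (jqModC K) = (t ^ 2 + 256 * t + 4096) ^ 3 / (t ^ 4 * (t + 16)) := by
        rw [qExpand_one_apply, eq_div_iff (mul_ne_zero (pow_ne_zero 4 ht0) ht16)]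
        linear_combination r3
      show qExpand K 1 (jqModC K) ∈ IntermediateField.adjoin K {t}
      rw [e]
      exact div_mem (pow_mem (add_mem (add_mem (pow_mem htm 2) (mul_mem (ofNat_mem _ _) htm))
        (ofNat_mem _ _)) 3) (mul_mem (pow_mem htm 4) (add_mem htm (ofNat_mem _ _)))
    · have e : qExpand K 2 (jqModC K) = (t ^ 2 + 16 * t + 256) ^ 3 / (t ^ 2 * (t + 16) ^ 2) := by
        rw [eq_div_iff (mul_ne_zero (pow_ne_zero 2 ht0) (pow_ne_zero 2 ht16))]
        linear_combination r4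
      show qExpand K 2 (jqModC K) ∈ IntermediateField.adjoin K {t}
      rw [e]
      exact div_mem (pow_mem (add_mem (add_mem (pow_mem htm 2) (mul_mem (ofNat_mem _ _) htm))
        (ofNat_mem _ _)) 3) (mul_mem (pow_mem htm 2) (pow_mem (add_mem htm (ofNat_mem _ _)) 2))
    · have e : qExpand K 4 (jqModC K) = (t ^ 2 + 16 * t + 16) ^ 3 / (t * (t + 16)) := by
        rw [eq_div_iff (mul_ne_zero ht0 ht16)]
        linear_combination r5
      show qExpand K 4 (jqModC K) ∈ IntermediateField.adjoin K {t}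
      rw [e]
      exact div_mem (pow_mem (add_mem (add_mem (pow_mem htm 2) (mul_mem (ofNat_mem _ _) htm))
        (ofNat_mem _ _)) 3) (mul_mem htm (add_mem htm (ofNat_mem _ _)))
  · rw [IntermediateField.adjoin_le_iff]
    rintro x hx
    rw [Set.mem_singleton_iff.mp hx]
    exact t4_mem_full4 h2 e1 e2 ht

end Level4Field

section Level9Series

variable {R : Type*} [CommRing R] [IsDomain R]

theorem Lead.coeff_of_lt {x : LaurentSeries R} {n : ℤ} {c : R} (hx : Lead x n c) {k : ℤ}
    (hk : k < n) : x.coeff k = 0 :=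
  HahnSeries.coeff_eq_zero_of_lt_order (by rw [hx.order_eq]; exact hk)

theorem Lead.le_orderTop_C_mul {x : LaurentSeries R} {n : ℤ} {a : R} (hx : Lead x n a) (c : R) :
    (n : WithTop ℤ) ≤ (HahnSeries.C c * x).orderTop := by
  rcases eq_or_ne c 0 with rfl | hc
  · simp
  · have := ((lead_C hc).mul hx).1
    rw [this]; simp

theorem lt_orderTop_add {x y : LaurentSeries R} {n : WithTop ℤ} (hx : n < x.orderTop)
    (hy : n < y.orderTop) : n < (x + y).orderTop :=
  lt_of_lt_of_le (lt_min hx hy) HahnSeries.min_orderTop_le_orderTop_add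

theorem lt_orderTop_sub {x y : LaurentSeries R} {n : WithTop ℤ} (hx : n < x.orderTop)
    (hy : n < y.orderTop) : n < (x - y).orderTop :=
  lt_of_lt_of_le (lt_min hx hy) HahnSeries.min_orderTop_le_orderTop_sub

/-- The level-`3` relation `j h³ = (h + 27)(h + 243)³` forces the leading term `q⁻¹`. -/
theorem lead_of_rel3 (h3 : (3 : R) ≠ 0) {h : LaurentSeries R}
    (e1 : jqModC R * h ^ 3 = (h + 27) * (h + 243) ^ 3) : Lead h (-1) 1 := by
  have h27 : (27 : R) ≠ 0 := by
    have : (27 : R) = 3 ^ 3 := by norm_num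
    rw [this]; exact pow_ne_zero 3 h3
  have h243 : (243 : R) ≠ 0 := by
    have : (243 : R) = 3 ^ 5 := by norm_num
    rw [this]; exact pow_ne_zero 5 h3
  have hC27 : (27 : LaurentSeries R) = HahnSeries.C (27 : R) := ofNat_eq_C 27
  have hC243 : (243 : LaurentSeries R) = HahnSeries.C (243 : R) := ofNat_eq_C 243
  have hh : h ≠ 0 := by
    rintro rfl
    have e : (HahnSeries.C (27 : R) : LaurentSeries R) * (HahnSeries.C (243 : R)) ^ 3 = 0 := by
      rw [← hC27, ← hC243]; simpa using e1.symm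
    exact ((lead_C h27).mul ((lead_C h243).pow 3)).ne_zero e
  have hL := lead_of_ne_zero hh
  have hLHS : Lead (jqModC R * h ^ 3) (-1 + (3 : ℕ) * h.order) (1 * h.leadingCoeff ^ 3) :=
    lead_jqModC.mul (hL.pow 3)
  rw [e1] at hLHS
  rcases lt_trichotomy h.order 0 with hneg | hzero | hpos
  · have hR : Lead ((h + 27) * (h + 243) ^ 3) (h.order + (3 : ℕ) * h.order)
        (h.leadingCoeff * h.leadingCoeff ^ 3) := by
      rw [hC27, hC243]; exact (hL.add_C hneg 27).mul ((hL.add_C hneg 243).pow 3)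
    obtain ⟨h1, h2'⟩ := hLHS.unique hR
    have hn1 : h.order = -1 := by push_cast at h1; omega
    have hc1 : h.leadingCoeff = 1 := by
      have hc0 := hL.coeff_ne_zero
      have : h.leadingCoeff ^ 3 * (h.leadingCoeff - 1) = 0 := by linear_combination -h2'
      rcases mul_eq_zero.mp this with h0 | h0
      · exact absurd (pow_eq_zero_iff three_ne_zero |>.mp h0) hc0
      · exact sub_eq_zero.mp h0
    rw [hn1, hc1] at hL; exact hL
  · exfalso
    have hy1 : h + 27 ≠ 0 := by
      intro h0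
      rw [h0] at hLHS
      exact hLHS.ne_zero (by simp)
    have hy2 : h + 243 ≠ 0 := by
      intro h0
      rw [h0] at hLHS
      exact hLHS.ne_zero (by simp)
    have hm1 : 0 ≤ (h + 27).order := by
      have := HahnSeries.min_order_le_order_add hy1
      rw [hC27, HahnSeries.order_C, hzero] at this
      simpa [hC27] using this
    have hm2 : 0 ≤ (h + 243).order := by
      have := HahnSeries.min_order_le_order_add hy2
      rw [hC243, HahnSeries.order_C, hzero] at this
      simpa [hC243] using this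
    have hR := (lead_of_ne_zero hy1).mul ((lead_of_ne_zero hy2).pow 3)
    have := (hLHS.unique hR).1
    push_cast at this
    omega
  · exfalso
    have hR : Lead ((h + 27) * (h + 243) ^ 3) (0 + (3 : ℕ) * 0) (27 * 243 ^ 3) := by
      rw [hC27, hC243]; exact (hL.C_add hpos h27).mul ((hL.C_add hpos h243).pow 3)
    have := (hLHS.unique hR).1
    push_cast at this
    omega

end Level9Series

section Level9Field

variable {K : Type*} [Field K]

/-- Elimination of `h` from the two level-`3` quartics. -/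
theorem level3_elim {F : Type*} [Field F] {j j3 h : F} (h0 : h ≠ 0)
    (e1 : j * h ^ 3 = (h + 27) * (h + 243) ^ 3) (e2 : j3 * h = (h + 27) * (h + 3) ^ 3) :
    (j ^ 3 * j3 + 531440 * j3 ^ 2 - 756 * j ^ 3 + 19129644 * (j ^ 2 * j3) + 76509442080 * (j * j3)
        + 23150726640 * j ^ 2 - 48430448640000 * j3 - 14204206448640000 * j
        + 97844723712000000000) * h
      + (-(531441 * (j * j3 ^ 2)) - 729 * j ^ 3 - 143489070 * (j ^ 2 * j3) + 382637520 * j3 ^ 2
        - 13720616192160 * (j * j3) + 75419482320 * j ^ 2 - 10373547294720000 * j3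
        - 201476523294720000 * j + 2641807540224000000000) = 0 := by
  have hj : j = (h + 27) * (h + 243) ^ 3 / h ^ 3 := by
    rw [eq_div_iff (pow_ne_zero 3 h0)]; exact e1
  have hj3 : j3 = (h + 27) * (h + 3) ^ 3 / h := by
    rw [eq_div_iff h0]; exact e2
  rw [hj, hj3]
  field_simp
  ring

/-- **(F3)** The level-`3` Hauptmodul lies in the function field of `X₀(3)`; proved from the two
quartic relations by elimination. -/
theorem mem_full3_of_rel3 (h3 : (3 : K) ≠ 0) {h : LaurentSeries K}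
    (e1 : jqModC K * h ^ 3 = (h + 27) * (h + 243) ^ 3)
    (e2 : qExpand K 3 (jqModC K) * h = (h + 27) * (h + 3) ^ 3) :
    h ∈ modularFunctionFieldFullC K 3 := by
  have hj : jqModC K ∈ modularFunctionFieldFullC K 3 := jqModC_mem_full K 3
  have hj3 : qExpand K 3 (jqModC K) ∈ modularFunctionFieldFullC K 3 :=
    jqModCd_mem_full K 3 dvd_rfl
  have hL := lead_of_rel3 h3 e1
  have key := level3_elim hL.ne_zero e1 e2
  have hLj : Lead (jqModC K) (-1) 1 := lead_jqModC
  have hLj3 : Lead (qExpand K 3 (jqModC K)) (-3) 1 := by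
    have := hLj.qExp 3
    simpa using this
  set j := jqModC K with hjdef
  set j3 := qExpand K 3 (jqModC K) with hj3def
  set D : LaurentSeries K := j ^ 3 * j3 + 531440 * j3 ^ 2 - 756 * j ^ 3 + 19129644 * (j ^ 2 * j3)
    + 76509442080 * (j * j3) + 23150726640 * j ^ 2 - 48430448640000 * j3 - 14204206448640000 * j
    + 97844723712000000000 with hD
  set E : LaurentSeries K := -(531441 * (j * j3 ^ 2)) - 729 * j ^ 3 - 143489070 * (j ^ 2 * j3)
    + 382637520 * j3 ^ 2 - 13720616192160 * (j * j3) + 75419482320 * j ^ 2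
    - 10373547294720000 * j3 - 201476523294720000 * j + 2641807540224000000000 with hE
  have hn : ∀ n : ℕ, ∀ [n.AtLeastTwo], (ofNat(n) : LaurentSeries K) ∈ modularFunctionFieldFullC K 3 :=
    fun n _ => ofNat_mem _ n
  have hDmem : D ∈ modularFunctionFieldFullC K 3 := by
    rw [hD]
    refine add_mem (sub_mem (sub_mem (add_mem (add_mem (add_mem (sub_mem (add_mem ?_ ?_) ?_) ?_) ?_)
      ?_) ?_) ?_) ?_
    · exact mul_mem (pow_mem hj 3) hj3
    · exact mul_mem (hn _) (pow_mem hj3 2)
    · exact mul_mem (hn _) (pow_mem hj 3)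
    · exact mul_mem (hn _) (mul_mem (pow_mem hj 2) hj3)
    · exact mul_mem (hn _) (mul_mem hj hj3)
    · exact mul_mem (hn _) (pow_mem hj 2)
    · exact mul_mem (hn _) hj3
    · exact mul_mem (hn _) hj
    · exact hn _
  have hEmem : E ∈ modularFunctionFieldFullC K 3 := by
    rw [hE]
    refine add_mem (sub_mem (sub_mem (add_mem (sub_mem (add_mem (sub_mem (sub_mem (neg_mem ?_) ?_)
      ?_) ?_) ?_) ?_) ?_) ?_) ?_
    · exact mul_mem (hn _) (mul_mem hj (pow_mem hj3 2))
    · exact mul_mem (hn _) (pow_mem hj 3)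
    · exact mul_mem (hn _) (mul_mem (pow_mem hj 2) hj3)
    · exact mul_mem (hn _) (pow_mem hj3 2)
    · exact mul_mem (hn _) (mul_mem hj hj3)
    · exact mul_mem (hn _) (pow_mem hj 2)
    · exact mul_mem (hn _) hj3
    · exact mul_mem (hn _) hj
    · exact hn _
  have hD0 : D ≠ 0 := by
    have hm6 : (-6 : ℤ) ≠ 0 := by norm_num
    have c1 : (j ^ 3 * j3).coeff (-6) = 1 := by
      have := ((hLj.pow 3).mul hLj3).coeff_eq
      simpa using this
    have c2 : (j3 ^ 2).coeff (-6) = 1 := by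
      have := (hLj3.pow 2).coeff_eq
      simpa using this
    have c3 : (j ^ 3).coeff (-6) = 0 := (hLj.pow 3).coeff_of_lt (by norm_num)
    have c4 : (j ^ 2 * j3).coeff (-6) = 0 := ((hLj.pow 2).mul hLj3).coeff_of_lt (by norm_num)
    have c5 : (j * j3).coeff (-6) = 0 := (hLj.mul hLj3).coeff_of_lt (by norm_num)
    have c6 : (j ^ 2).coeff (-6) = 0 := (hLj.pow 2).coeff_of_lt (by norm_num)
    have c7 : j3.coeff (-6) = 0 := hLj3.coeff_of_lt (by norm_num)
    have c8 : j.coeff (-6) = 0 := hLj.coeff_of_lt (by norm_num)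
    have hcoef : D.coeff (-6) = 531441 := by
      rw [hD]
      simp only [HahnSeries.coeff_add, HahnSeries.coeff_sub, coeff_ofNat_mul,
        coeff_ofNat_of_ne _ hm6, c1, c2, c3, c4, c5, c6, c7, c8]
      norm_num
    intro h0
    rw [h0, HahnSeries.coeff_zero] at hcoef
    have : (531441 : K) = 3 ^ 12 := by norm_num
    rw [this] at hcoef
    exact pow_ne_zero 12 h3 hcoef.symm
  have hh : h = -E / D := by
    field_simp
    linear_combination key
  rw [hh]
  exact div_mem (neg_mem hEmem) hDmem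

/-- Side conditions and relations at level `9`, for a series `h` satisfying the two level-`3`
relations, and `t = (h² h' + 18 h h' + 27 h' + 1458 h)/(h h' - 243 h + 9 h' + 729)`,
`h' = h(q³)`. -/
theorem level9_series (h3 : (3 : K) ≠ 0) {h : LaurentSeries K}
    (e1 : jqModC K * h ^ 3 = (h + 27) * (h + 243) ^ 3)
    (e2 : qExpand K 3 (jqModC K) * h = (h + 27) * (h + 3) ^ 3)
    {t : LaurentSeries K}
    (ht : t = (h ^ 2 * qExpand K 3 h + 18 * h * qExpand K 3 h + 27 * qExpand K 3 h + 1458 * h)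
      / (h * qExpand K 3 h - 243 * h + 9 * qExpand K 3 h + 729)) :
    Lead t (-1) 1 ∧ t * (t ^ 2 + 9 * t + 27) = qExpand K 3 h ∧ t ^ 3 = h * (t ^ 2 + 9 * t + 27) ∧
      jqModC K * t ^ 9 * (t ^ 2 + 9 * t + 27)
        = (t + 9) ^ 3 * (t ^ 3 + 243 * t ^ 2 + 2187 * t + 6561) ^ 3 ∧
      qExpand K 3 (jqModC K) * t ^ 3 * (t ^ 2 + 9 * t + 27) ^ 3
        = (t + 9) ^ 3 * (t + 3) ^ 3 * (t ^ 2 + 27) ^ 3 ∧
      qExpand K 9 (jqModC K) * t * (t ^ 2 + 9 * t + 27)
        = (t + 3) ^ 3 * (t ^ 3 + 9 * t ^ 2 + 27 * t + 3) ^ 3 ∧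
      (jqModC K - 1728) * t ^ 9 * (t ^ 2 + 9 * t + 27)
        = (t ^ 6 - 486 * t ^ 5 - 24057 * t ^ 4 - 367416 * t ^ 3 - 2657205 * t ^ 2
          - 9565938 * t - 14348907) ^ 2 := by
  have hL := lead_of_rel3 h3 e1
  set h' := qExpand K 3 h with hh'
  have hL' : Lead h' (-3) 1 := by
    have := hL.qExp 3
    simpa using this
  have h729 : (729 : K) ≠ 0 := by
    have : (729 : K) = 3 ^ 6 := by norm_num
    rw [this]; exact pow_ne_zero 6 h3
  have hC729 : (729 : LaurentSeries K) = HahnSeries.C (729 : K) := ofNat_eq_C 729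
  have hLp : Lead (h * h') (-1 + -3) (1 * 1) := hL.mul hL'
  have hne : h * h' ≠ 729 := by
    intro h0
    rw [h0, hC729] at hLp
    have := (hLp.unique (lead_C h729)).1
    omega
  -- the denominator
  have hden : Lead (h * h' - 243 * h + 9 * h' + 729) (-4) 1 := by
    have e : h * h' - 243 * h + 9 * h' + 729
        = h * h' + (HahnSeries.C (9 : K) * h' - HahnSeries.C (243 : K) * h + HahnSeries.C 729) := by
      rw [← ofNat_eq_C 9, ← ofNat_eq_C 243, ← ofNat_eq_C 729]; ring
    rw [e]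
    have hLp' : Lead (h * h') (-4) 1 := by simpa using hLp
    apply hLp'.add_of_lt
    apply lt_orderTop_add
    · apply lt_orderTop_sub
      · exact lt_of_lt_of_le (by exact_mod_cast (by norm_num : (-4 : ℤ) < -3))
          (hL'.le_orderTop_C_mul 9)
      · exact lt_of_lt_of_le (by exact_mod_cast (by norm_num : (-4 : ℤ) < -1))
          (hL.le_orderTop_C_mul 243)
    · exact lt_of_lt_of_le (by exact_mod_cast (by norm_num : (-4 : ℤ) < 0)) (orderTop_C_nonneg 729)
  have hnum : Lead (h ^ 2 * h' + 18 * h * h' + 27 * h' + 1458 * h) (-5) 1 := by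
    have e : h ^ 2 * h' + 18 * h * h' + 27 * h' + 1458 * h
        = h ^ 2 * h' + (HahnSeries.C (18 : K) * (h * h') + HahnSeries.C (27 : K) * h'
          + HahnSeries.C (1458 : K) * h) := by
      rw [← ofNat_eq_C 18, ← ofNat_eq_C 27, ← ofNat_eq_C 1458]; ring
    rw [e]
    have hLq : Lead (h ^ 2 * h') (-5) 1 := by simpa using (hL.pow 2).mul hL'
    apply hLq.add_of_lt
    apply lt_orderTop_add
    · apply lt_orderTop_add
      · exact lt_of_lt_of_le (by exact_mod_cast (by norm_num : (-5 : ℤ) < -1 + -3))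
          (hLp.le_orderTop_C_mul 18)
      · exact lt_of_lt_of_le (by exact_mod_cast (by norm_num : (-5 : ℤ) < -3))
          (hL'.le_orderTop_C_mul 27)
    · exact lt_of_lt_of_le (by exact_mod_cast (by norm_num : (-5 : ℤ) < -1))
        (hL.le_orderTop_C_mul 1458)
  have hden0 := hden.ne_zero
  have e3 : qExpand K 3 (jqModC K) * h' ^ 3 = (h' + 27) * (h' + 243) ^ 3 := by
    have := congrArg (qExpand K 3) e1
    simpa only [map_mul, map_pow, map_add, map_ofNat] using this
  have e4 : qExpand K 9 (jqModC K) * h' = (h' + 27) * (h' + 3) ^ 3 := by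
    have := congrArg (qExpand K 3) e2
    simp only [map_mul, map_pow, map_add, map_ofNat, qExpand_qExpand] at this
    rw [← this]
  obtain ⟨r1, r2, r3, r4, r5⟩ := level9_of_level3 e1 e2 e3 e4 hne hden0 ht
  refine ⟨?_, r1, r2, r3, r4, r5, level9_branch_1728 r3⟩
  have ht' : t * (h * h' - 243 * h + 9 * h' + 729)
      = h ^ 2 * h' + 18 * h * h' + 27 * h' + 1458 * h := by
    rw [ht, div_mul_cancel₀ _ hden0]
  have ht0 : t ≠ 0 := by
    rintro rfl
    rw [zero_mul] at ht'
    exact hnum.ne_zero ht'.symm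
  have hLt := (lead_of_ne_zero ht0).mul hden
  rw [ht'] at hLt
  obtain ⟨ho, hc⟩ := hLt.unique hnum
  have ho' : t.order = -1 := by omega
  have hc' : t.leadingCoeff = 1 := by simpa using hc
  have := lead_of_ne_zero ht0
  rwa [ho', hc'] at this

/-- If `t` satisfies the two relations linking it to `h` and `h(q³)` then it is the quotient used in
`level9_series`. -/
theorem t9_eq_of_rel (h3 : (3 : K) ≠ 0) {h : LaurentSeries K}
    (e1 : jqModC K * h ^ 3 = (h + 27) * (h + 243) ^ 3) {t : LaurentSeries K}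
    (r1 : t * (t ^ 2 + 9 * t + 27) = qExpand K 3 h) (r2 : t ^ 3 = h * (t ^ 2 + 9 * t + 27)) :
    t = (h ^ 2 * qExpand K 3 h + 18 * h * qExpand K 3 h + 27 * qExpand K 3 h + 1458 * h)
      / (h * qExpand K 3 h - 243 * h + 9 * qExpand K 3 h + 729) := by
  have hL := lead_of_rel3 h3 e1
  set h' := qExpand K 3 h with hh'
  have hL' : Lead h' (-3) 1 := by
    have := hL.qExp 3
    simpa using this
  have hLp : Lead (h * h') (-1 + -3) (1 * 1) := hL.mul hL'
  have hden : Lead (h * h' - 243 * h + 9 * h' + 729) (-4) 1 := by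
    have e : h * h' - 243 * h + 9 * h' + 729
        = h * h' + (HahnSeries.C (9 : K) * h' - HahnSeries.C (243 : K) * h + HahnSeries.C 729) := by
      rw [← ofNat_eq_C 9, ← ofNat_eq_C 243, ← ofNat_eq_C 729]; ring
    rw [e]
    have hLp' : Lead (h * h') (-4) 1 := by simpa using hLp
    apply hLp'.add_of_lt
    apply lt_orderTop_add
    · apply lt_orderTop_sub
      · exact lt_of_lt_of_le (by exact_mod_cast (by norm_num : (-4 : ℤ) < -3))
          (hL'.le_orderTop_C_mul 9)
      · exact lt_of_lt_of_le (by exact_mod_cast (by norm_num : (-4 : ℤ) < -1))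
          (hL.le_orderTop_C_mul 243)
    · exact lt_of_lt_of_le (by exact_mod_cast (by norm_num : (-4 : ℤ) < 0)) (orderTop_C_nonneg 729)
  have hs0 : t ^ 2 + 9 * t + 27 ≠ 0 := by
    intro h0
    rw [h0, mul_zero] at r1
    exact hL'.ne_zero r1.symm
  rw [eq_div_iff hden.ne_zero]
  have key : (t * (h * h' - 243 * h + 9 * h' + 729)
      - (h ^ 2 * h' + 18 * h * h' + 27 * h' + 1458 * h)) * (t ^ 2 + 9 * t + 27) ^ 2 = 0 := by
    rw [← r1]
    have hr2 : h * (t ^ 2 + 9 * t + 27) = t ^ 3 := r2.symm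
    have e : (t * (h * (t * (t ^ 2 + 9 * t + 27)) - 243 * h + 9 * (t * (t ^ 2 + 9 * t + 27)) + 729)
        - (h ^ 2 * (t * (t ^ 2 + 9 * t + 27)) + 18 * h * (t * (t ^ 2 + 9 * t + 27))
          + 27 * (t * (t ^ 2 + 9 * t + 27)) + 1458 * h)) * (t ^ 2 + 9 * t + 27) ^ 2
        = t * ((h * (t ^ 2 + 9 * t + 27)) * t * (t ^ 2 + 9 * t + 27) ^ 2
            - 243 * (h * (t ^ 2 + 9 * t + 27)) * (t ^ 2 + 9 * t + 27)
            + 9 * t * (t ^ 2 + 9 * t + 27) ^ 3 + 729 * (t ^ 2 + 9 * t + 27) ^ 2)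
          - ((h * (t ^ 2 + 9 * t + 27)) ^ 2 * t * (t ^ 2 + 9 * t + 27)
            + 18 * (h * (t ^ 2 + 9 * t + 27)) * t * (t ^ 2 + 9 * t + 27) ^ 2
            + 27 * t * (t ^ 2 + 9 * t + 27) ^ 3
            + 1458 * (h * (t ^ 2 + 9 * t + 27)) * (t ^ 2 + 9 * t + 27)) := by ring
    rw [e, hr2]
    ring
  exact sub_eq_zero.mp ((mul_eq_zero.mp key).resolve_right (pow_ne_zero 2 hs0))

/-- **(F4)** `t₉` lies in the function field of `X₀(9)`. -/
theorem t9_mem_full9 (h3 : (3 : K) ≠ 0) {h : LaurentSeries K}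
    (e1 : jqModC K * h ^ 3 = (h + 27) * (h + 243) ^ 3)
    (e2 : qExpand K 3 (jqModC K) * h = (h + 27) * (h + 3) ^ 3)
    {t : LaurentSeries K}
    (ht : t = (h ^ 2 * qExpand K 3 h + 18 * h * qExpand K 3 h + 27 * qExpand K 3 h + 1458 * h)
      / (h * qExpand K 3 h - 243 * h + 9 * qExpand K 3 h + 729)) :
    t ∈ modularFunctionFieldFullC K 9 := by
  have hh := mem_full3_of_rel3 h3 e1 e2
  have hh9 : h ∈ modularFunctionFieldFullC K 9 :=
    full_degeneracyC_le K (N := 3) (M := 9) (by norm_num) hh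
  have hh' : qExpand K 3 h ∈ modularFunctionFieldFullC K 9 := by
    have h1 : qExpandAlgHomC K 3 h ∈ (modularFunctionFieldFullC K 3).map (qExpandAlgHomC K 3) :=
      ⟨h, hh, rfl⟩
    exact full_degeneracyC_map_le K 3 3 h1
  have hn : ∀ n : ℕ, ∀ [n.AtLeastTwo], (ofNat(n) : LaurentSeries K) ∈ modularFunctionFieldFullC K 9 :=
    fun n _ => ofNat_mem _ n
  rw [ht]
  refine div_mem (add_mem (add_mem (add_mem ?_ ?_) ?_) ?_) (add_mem (add_mem (sub_mem ?_ ?_) ?_) ?_)
  · exact mul_mem (pow_mem hh9 2) hh'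
  · exact mul_mem (mul_mem (hn _) hh9) hh'
  · exact mul_mem (hn _) hh'
  · exact mul_mem (hn _) hh9
  · exact mul_mem hh9 hh'
  · exact mul_mem (hn _) hh9
  · exact mul_mem (hn _) hh'
  · exact hn _

/-- **(F4)** The function field of `X₀(9)` is generated by `t₉`. -/
theorem full9_eq_adjoin (h3 : (3 : K) ≠ 0) {h : LaurentSeries K}
    (e1 : jqModC K * h ^ 3 = (h + 27) * (h + 243) ^ 3)
    (e2 : qExpand K 3 (jqModC K) * h = (h + 27) * (h + 3) ^ 3)
    {t : LaurentSeries K}
    (ht : t = (h ^ 2 * qExpand K 3 h + 18 * h * qExpand K 3 h + 27 * qExpand K 3 h + 1458 * h)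
      / (h * qExpand K 3 h - 243 * h + 9 * qExpand K 3 h + 729)) :
    modularFunctionFieldFullC K 9 = IntermediateField.adjoin K {t} := by
  obtain ⟨hLt, r1, -, r3, r4, r5, -⟩ := level9_series h3 e1 e2 ht
  have ht0 : t ≠ 0 := hLt.ne_zero
  have hL' : Lead (qExpand K 3 h) (-3) 1 := by
    have := (lead_of_rel3 h3 e1).qExp 3
    simpa using this
  have hs0 : t ^ 2 + 9 * t + 27 ≠ 0 := by
    intro h0
    rw [h0, mul_zero] at r1
    exact hL'.ne_zero r1.symm
  have htm : t ∈ IntermediateField.adjoin K {t} :=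
    IntermediateField.subset_adjoin K _ (Set.mem_singleton t)
  have hn : ∀ n : ℕ, ∀ [n.AtLeastTwo], (ofNat(n) : LaurentSeries K) ∈ IntermediateField.adjoin K {t} :=
    fun n _ => ofNat_mem _ n
  have hsm : t ^ 2 + 9 * t + 27 ∈ IntermediateField.adjoin K {t} :=
    add_mem (add_mem (pow_mem htm 2) (mul_mem (hn _) htm)) (hn _)
  apply le_antisymm
  · rw [modularFunctionFieldFullC, IntermediateField.adjoin_le_iff]
    rintro x ⟨d, hne, hdvd, rfl⟩
    have hd : d = 1 ∨ d = 3 ∨ d = 9 := by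
      have h9 : d ∈ Nat.divisors 9 := Nat.mem_divisors.mpr ⟨hdvd, by norm_num⟩
      have : Nat.divisors 9 = {1, 3, 9} := by decide
      rw [this] at h9
      simpa using h9
    rcases hd with rfl | rfl | rfl
    · have e : qExpand K 1 (jqModC K) = (t + 9) ^ 3 * (t ^ 3 + 243 * t ^ 2 + 2187 * t + 6561) ^ 3
          / (t ^ 9 * (t ^ 2 + 9 * t + 27)) := by
        rw [qExpand_one_apply, eq_div_iff (mul_ne_zero (pow_ne_zero 9 ht0) hs0)]
        linear_combination r3
      show qExpand K 1 (jqModC K) ∈ IntermediateField.adjoin K {t}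
      rw [e]
      exact div_mem (mul_mem (pow_mem (add_mem htm (hn _)) 3)
        (pow_mem (add_mem (add_mem (add_mem (pow_mem htm 3) (mul_mem (hn _) (pow_mem htm 2)))
          (mul_mem (hn _) htm)) (hn _)) 3)) (mul_mem (pow_mem htm 9) hsm)
    · have e : qExpand K 3 (jqModC K) = (t + 9) ^ 3 * (t + 3) ^ 3 * (t ^ 2 + 27) ^ 3
          / (t ^ 3 * (t ^ 2 + 9 * t + 27) ^ 3) := by
        rw [eq_div_iff (mul_ne_zero (pow_ne_zero 3 ht0) (pow_ne_zero 3 hs0))]
        linear_combination r4
      show qExpand K 3 (jqModC K) ∈ IntermediateField.adjoin K {t}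
      rw [e]
      exact div_mem (mul_mem (mul_mem (pow_mem (add_mem htm (hn _)) 3)
        (pow_mem (add_mem htm (hn _)) 3)) (pow_mem (add_mem (pow_mem htm 2) (hn _)) 3))
        (mul_mem (pow_mem htm 3) (pow_mem hsm 3))
    · have e : qExpand K 9 (jqModC K) = (t + 3) ^ 3 * (t ^ 3 + 9 * t ^ 2 + 27 * t + 3) ^ 3
          / (t * (t ^ 2 + 9 * t + 27)) := by
        rw [eq_div_iff (mul_ne_zero ht0 hs0)]
        linear_combination r5
      show qExpand K 9 (jqModC K) ∈ IntermediateField.adjoin K {t}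
      rw [e]
      exact div_mem (mul_mem (pow_mem (add_mem htm (hn _)) 3)
        (pow_mem (add_mem (add_mem (add_mem (pow_mem htm 3) (mul_mem (hn _) (pow_mem htm 2)))
          (mul_mem (hn _) htm)) (hn _)) 3)) (mul_mem htm hsm)
  · rw [IntermediateField.adjoin_le_iff]
    rintro x hx
    rw [Set.mem_singleton_iff.mp hx]
    exact t9_mem_full9 h3 e1 e2 ht

end Level9Field

section DomainLeads

/-! Leading terms over an arbitrary domain (used over `ℤ` for integrality). -/

variable {R : Type*} [CommRing R] [IsDomain R]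

theorem lead_add16 (h2 : (2 : R) ≠ 0) {h : LaurentSeries R}
    (e1 : jqModC R * h ^ 2 = (h + 256) ^ 3) : Lead (h + 16) (-1) 1 := by
  rw [ofNat_eq_C 16]
  exact (lead_of_rel2 h2 e1).add_C (by norm_num) 16

theorem lead_num4 (h2 : (2 : R) ≠ 0) {h : LaurentSeries R}
    (e1 : jqModC R * h ^ 2 = (h + 256) ^ 3) : Lead (qExpand R 2 h - 16 * h) (-2) 1 := by
  have hL := lead_of_rel2 h2 e1
  have hL' : Lead (qExpand R 2 h) (-2) 1 := by
    have := hL.qExp 2
    simpa using this
  rw [sub_eq_add_neg, ofNat_eq_C 16]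
  apply hL'.add_of_lt
  rw [HahnSeries.orderTop_neg]
  exact lt_of_lt_of_le (by exact_mod_cast (by norm_num : (-2 : ℤ) < -1)) (hL.le_orderTop_C_mul 16)

theorem lead_t4 (h2 : (2 : R) ≠ 0) {h : LaurentSeries R}
    (e1 : jqModC R * h ^ 2 = (h + 256) ^ 3) {t : LaurentSeries R}
    (ht : t * (h + 16) = qExpand R 2 h - 16 * h) : Lead t (-1) 1 := by
  have hnum := lead_num4 h2 e1
  have hLs := lead_add16 h2 e1
  have ht0 : t ≠ 0 := by
    rintro rfl
    rw [zero_mul] at ht
    exact hnum.ne_zero ht.symm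
  have hLt := (lead_of_ne_zero ht0).mul hLs
  rw [ht] at hLt
  obtain ⟨ho, hc⟩ := hLt.unique hnum
  have ho' : t.order = -1 := by omega
  have hc' : t.leadingCoeff = 1 := by simpa using hc
  have := lead_of_ne_zero ht0
  rwa [ho', hc'] at this

theorem lead_den9 (h3 : (3 : R) ≠ 0) {h : LaurentSeries R}
    (e1 : jqModC R * h ^ 3 = (h + 27) * (h + 243) ^ 3) :
    Lead (h * qExpand R 3 h - 243 * h + 9 * qExpand R 3 h + 729) (-4) 1 := by
  have hL := lead_of_rel3 h3 e1
  set h' := qExpand R 3 h with hh'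
  have hL' : Lead h' (-3) 1 := by
    have := hL.qExp 3
    simpa using this
  have hLp : Lead (h * h') (-1 + -3) (1 * 1) := hL.mul hL'
  have e : h * h' - 243 * h + 9 * h' + 729
      = h * h' + (HahnSeries.C (9 : R) * h' - HahnSeries.C (243 : R) * h + HahnSeries.C 729) := by
    rw [← ofNat_eq_C 9, ← ofNat_eq_C 243, ← ofNat_eq_C 729]; ring
  rw [e]
  have hLp' : Lead (h * h') (-4) 1 := by simpa using hLp
  apply hLp'.add_of_lt
  apply lt_orderTop_add
  · apply lt_orderTop_sub
    · exact lt_of_lt_of_le (by exact_mod_cast (by norm_num : (-4 : ℤ) < -3))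
        (hL'.le_orderTop_C_mul 9)
    · exact lt_of_lt_of_le (by exact_mod_cast (by norm_num : (-4 : ℤ) < -1))
        (hL.le_orderTop_C_mul 243)
  · exact lt_of_lt_of_le (by exact_mod_cast (by norm_num : (-4 : ℤ) < 0)) (orderTop_C_nonneg 729)

theorem lead_num9 (h3 : (3 : R) ≠ 0) {h : LaurentSeries R}
    (e1 : jqModC R * h ^ 3 = (h + 27) * (h + 243) ^ 3) :
    Lead (h ^ 2 * qExpand R 3 h + 18 * h * qExpand R 3 h + 27 * qExpand R 3 h + 1458 * h)
      (-5) 1 := by
  have hL := lead_of_rel3 h3 e1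
  set h' := qExpand R 3 h with hh'
  have hL' : Lead h' (-3) 1 := by
    have := hL.qExp 3
    simpa using this
  have hLp : Lead (h * h') (-1 + -3) (1 * 1) := hL.mul hL'
  have e : h ^ 2 * h' + 18 * h * h' + 27 * h' + 1458 * h
      = h ^ 2 * h' + (HahnSeries.C (18 : R) * (h * h') + HahnSeries.C (27 : R) * h'
        + HahnSeries.C (1458 : R) * h) := by
    rw [← ofNat_eq_C 18, ← ofNat_eq_C 27, ← ofNat_eq_C 1458]; ring
  rw [e]
  have hLq : Lead (h ^ 2 * h') (-5) 1 := by simpa using (hL.pow 2).mul hL'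
  apply hLq.add_of_lt
  apply lt_orderTop_add
  · apply lt_orderTop_add
    · exact lt_of_lt_of_le (by exact_mod_cast (by norm_num : (-5 : ℤ) < -1 + -3))
        (hLp.le_orderTop_C_mul 18)
    · exact lt_of_lt_of_le (by exact_mod_cast (by norm_num : (-5 : ℤ) < -3))
        (hL'.le_orderTop_C_mul 27)
  · exact lt_of_lt_of_le (by exact_mod_cast (by norm_num : (-5 : ℤ) < -1))
      (hL.le_orderTop_C_mul 1458)

theorem lead_t9 (h3 : (3 : R) ≠ 0) {h : LaurentSeries R}
    (e1 : jqModC R * h ^ 3 = (h + 27) * (h + 243) ^ 3) {t : LaurentSeries R}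
    (ht : t * (h * qExpand R 3 h - 243 * h + 9 * qExpand R 3 h + 729)
      = h ^ 2 * qExpand R 3 h + 18 * h * qExpand R 3 h + 27 * qExpand R 3 h + 1458 * h) :
    Lead t (-1) 1 := by
  have hnum := lead_num9 h3 e1
  have hden := lead_den9 h3 e1
  have ht0 : t ≠ 0 := by
    rintro rfl
    rw [zero_mul] at ht
    exact hnum.ne_zero ht.symm
  have hLt := (lead_of_ne_zero ht0).mul hden
  rw [ht] at hLt
  obtain ⟨ho, hc⟩ := hLt.unique hnum
  have ho' : t.order = -1 := by omega
  have hc' : t.leadingCoeff = 1 := by simpa using hc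
  have := lead_of_ne_zero ht0
  rwa [ho', hc'] at this

/-- A series with leading coefficient `1` is a unit. -/
theorem Lead.isUnit {x : LaurentSeries R} {n : ℤ} (hx : Lead x n 1) : IsUnit x := by
  rw [HahnSeries.isUnit_iff, hx.2]
  exact isUnit_one

end DomainLeads

section RelVariants

variable {K : Type*} [Field K]

/-- `t₄ ∈ F₄` for a series `t` given by its two relations with `h`, `h(q²)`. -/
theorem t4_mem_full4_of_rel (h2 : (2 : K) ≠ 0) {h : LaurentSeries K}
    (e1 : jqModC K * h ^ 2 = (h + 256) ^ 3) (e2 : qExpand K 2 (jqModC K) * h = (h + 16) ^ 3)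
    {t : LaurentSeries K} (r1 : t * (t + 16) = qExpand K 2 h) (r2 : t ^ 2 = h * (t + 16)) :
    t ∈ modularFunctionFieldFullC K 4 :=
  t4_mem_full4 h2 e1 e2 (t4_eq_of_rel h2 e1 r1 r2)

theorem full4_eq_adjoin_of_rel (h2 : (2 : K) ≠ 0) {h : LaurentSeries K}
    (e1 : jqModC K * h ^ 2 = (h + 256) ^ 3) (e2 : qExpand K 2 (jqModC K) * h = (h + 16) ^ 3)
    {t : LaurentSeries K} (r1 : t * (t + 16) = qExpand K 2 h) (r2 : t ^ 2 = h * (t + 16)) :
    modularFunctionFieldFullC K 4 = IntermediateField.adjoin K {t} :=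
  full4_eq_adjoin h2 e1 e2 (t4_eq_of_rel h2 e1 r1 r2)

/-- `t₉ ∈ F₉` for a series `t` given by its two relations with `h`, `h(q³)`. -/
theorem t9_mem_full9_of_rel (h3 : (3 : K) ≠ 0) {h : LaurentSeries K}
    (e1 : jqModC K * h ^ 3 = (h + 27) * (h + 243) ^ 3)
    (e2 : qExpand K 3 (jqModC K) * h = (h + 27) * (h + 3) ^ 3)
    {t : LaurentSeries K}
    (r1 : t * (t ^ 2 + 9 * t + 27) = qExpand K 3 h) (r2 : t ^ 3 = h * (t ^ 2 + 9 * t + 27)) :
    t ∈ modularFunctionFieldFullC K 9 :=
  t9_mem_full9 h3 e1 e2 (t9_eq_of_rel h3 e1 r1 r2)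

theorem full9_eq_adjoin_of_rel (h3 : (3 : K) ≠ 0) {h : LaurentSeries K}
    (e1 : jqModC K * h ^ 3 = (h + 27) * (h + 243) ^ 3)
    (e2 : qExpand K 3 (jqModC K) * h = (h + 27) * (h + 3) ^ 3)
    {t : LaurentSeries K}
    (r1 : t * (t ^ 2 + 9 * t + 27) = qExpand K 3 h) (r2 : t ^ 3 = h * (t ^ 2 + 9 * t + 27)) :
    modularFunctionFieldFullC K 9 = IntermediateField.adjoin K {t} :=
  full9_eq_adjoin h3 e1 e2 (t9_eq_of_rel h3 e1 r1 r2)

end RelVariants

section Uniqueness

/-! The Hauptmoduln of levels `2` and `3` are DETERMINED by their two `j`-relations (this is the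
elimination again), hence so are those of levels `4` and `9`.  Used to identify the different
constructions of these series on main. -/

variable {K : Type*} [Field K]

/-- The level-`2` eliminant `D` is non-zero: its `q⁻²`-coefficient is `2²⁴`. -/
theorem level2_D_ne_zero (h2 : (2 : K) ≠ 0) :
    (16773120 * (195840 + qExpand K 2 (jqModC K)) - (720 - jqModC K) * (802160640 + 4096 * jqModC K)
      : LaurentSeries K) ≠ 0 := by
  set j := jqModC K with hjdef
  set j2 := qExpand K 2 (jqModC K) with hj2def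
  have hDexp : (16773120 * (195840 + j2) - (720 - j) * (802160640 + 4096 * j) : LaurentSeries K)
      = 4096 * j ^ 2 + 799211520 * j + 16773120 * j2 + 2707292160000 := by ring
  have hm2 : (-2 : ℤ) ≠ 0 := by norm_num
  have c1 : (j ^ 2).coeff (-2) = 1 := by
    have := coeff_jqModC_pow_self K 2
    simpa using this
  have c2 : j.coeff (-2) = 0 := coeff_jqModC_of_lt K (by norm_num)
  have c3 : j2.coeff (-2) = 1 := by
    have := qExpand_coeff_mul 2 (jqModC K) (-1)
    rw [coeff_jqModC_neg_one] at this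
    rw [hj2def, ← this]; norm_num
  have hcoef : (16773120 * (195840 + j2) - (720 - j) * (802160640 + 4096 * j)
      : LaurentSeries K).coeff (-2) = 16777216 := by
    rw [hDexp]
    simp only [HahnSeries.coeff_add, coeff_ofNat_mul, coeff_ofNat_of_ne _ hm2, c1, c2, c3]
    norm_num
  intro h0
  rw [h0, HahnSeries.coeff_zero] at hcoef
  have : (16777216 : K) = 2 ^ 24 := by norm_num
  rw [this] at hcoef
  exact pow_ne_zero 24 h2 hcoef.symm

/-- **Uniqueness at level 2**: the two `j`-relations determine `h`. -/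
theorem rel2_unique (h2 : (2 : K) ≠ 0) {h h' : LaurentSeries K}
    (e1 : jqModC K * h ^ 2 = (h + 256) ^ 3) (e2 : qExpand K 2 (jqModC K) * h = (h + 16) ^ 3)
    (e1' : jqModC K * h' ^ 2 = (h' + 256) ^ 3)
    (e2' : qExpand K 2 (jqModC K) * h' = (h' + 16) ^ 3) : h = h' := by
  have k1 := (mul_eq_zero.mp (level2_elim e1 e2)).resolve_left (lead_of_rel2 h2 e1).ne_zero
  have k2 := (mul_eq_zero.mp (level2_elim e1' e2')).resolve_left (lead_of_rel2 h2 e1').ne_zero
  have hD := level2_D_ne_zero (K := K) h2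
  have : (16773120 * (195840 + qExpand K 2 (jqModC K))
      - (720 - jqModC K) * (802160640 + 4096 * jqModC K)) * (h - h') = 0 := by
    linear_combination k1 - k2
  exact sub_eq_zero.mp ((mul_eq_zero.mp this).resolve_left hD)

/-- The level-`3` eliminant `D` is non-zero: its `q⁻⁶`-coefficient is `3¹²`. -/
theorem level3_D_ne_zero (h3 : (3 : K) ≠ 0) :
    (jqModC K ^ 3 * qExpand K 3 (jqModC K) + 531440 * qExpand K 3 (jqModC K) ^ 2
        - 756 * jqModC K ^ 3 + 19129644 * (jqModC K ^ 2 * qExpand K 3 (jqModC K))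
        + 76509442080 * (jqModC K * qExpand K 3 (jqModC K)) + 23150726640 * jqModC K ^ 2
        - 48430448640000 * qExpand K 3 (jqModC K) - 14204206448640000 * jqModC K
        + 97844723712000000000 : LaurentSeries K) ≠ 0 := by
  have hLj : Lead (jqModC K) (-1) 1 := lead_jqModC
  have hLj3 : Lead (qExpand K 3 (jqModC K)) (-3) 1 := by
    have := hLj.qExp 3
    simpa using this
  set j := jqModC K with hjdef
  set j3 := qExpand K 3 (jqModC K) with hj3def
  have hm6 : (-6 : ℤ) ≠ 0 := by norm_num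
  have c1 : (j ^ 3 * j3).coeff (-6) = 1 := by
    have := ((hLj.pow 3).mul hLj3).coeff_eq
    simpa using this
  have c2 : (j3 ^ 2).coeff (-6) = 1 := by
    have := (hLj3.pow 2).coeff_eq
    simpa using this
  have c3 : (j ^ 3).coeff (-6) = 0 := (hLj.pow 3).coeff_of_lt (by norm_num)
  have c4 : (j ^ 2 * j3).coeff (-6) = 0 := ((hLj.pow 2).mul hLj3).coeff_of_lt (by norm_num)
  have c5 : (j * j3).coeff (-6) = 0 := (hLj.mul hLj3).coeff_of_lt (by norm_num)
  have c6 : (j ^ 2).coeff (-6) = 0 := (hLj.pow 2).coeff_of_lt (by norm_num)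
  have c7 : j3.coeff (-6) = 0 := hLj3.coeff_of_lt (by norm_num)
  have c8 : j.coeff (-6) = 0 := hLj.coeff_of_lt (by norm_num)
  have hcoef : (j ^ 3 * j3 + 531440 * j3 ^ 2 - 756 * j ^ 3 + 19129644 * (j ^ 2 * j3)
      + 76509442080 * (j * j3) + 23150726640 * j ^ 2 - 48430448640000 * j3
      - 14204206448640000 * j + 97844723712000000000 : LaurentSeries K).coeff (-6) = 531441 := by
    simp only [HahnSeries.coeff_add, HahnSeries.coeff_sub, coeff_ofNat_mul,
      coeff_ofNat_of_ne _ hm6, c1, c2, c3, c4, c5, c6, c7, c8]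
    norm_num
  intro h0
  rw [h0, HahnSeries.coeff_zero] at hcoef
  have : (531441 : K) = 3 ^ 12 := by norm_num
  rw [this] at hcoef
  exact pow_ne_zero 12 h3 hcoef.symm

/-- **Uniqueness at level 3**: the two `j`-relations determine `h`. -/
theorem rel3_unique (h3 : (3 : K) ≠ 0) {h h' : LaurentSeries K}
    (e1 : jqModC K * h ^ 3 = (h + 27) * (h + 243) ^ 3)
    (e2 : qExpand K 3 (jqModC K) * h = (h + 27) * (h + 3) ^ 3)
    (e1' : jqModC K * h' ^ 3 = (h' + 27) * (h' + 243) ^ 3)
    (e2' : qExpand K 3 (jqModC K) * h' = (h' + 27) * (h' + 3) ^ 3) : h = h' := by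
  have k1 := level3_elim (lead_of_rel3 h3 e1).ne_zero e1 e2
  have k2 := level3_elim (lead_of_rel3 h3 e1').ne_zero e1' e2'
  have hD := level3_D_ne_zero (K := K) h3
  have : (jqModC K ^ 3 * qExpand K 3 (jqModC K) + 531440 * qExpand K 3 (jqModC K) ^ 2
        - 756 * jqModC K ^ 3 + 19129644 * (jqModC K ^ 2 * qExpand K 3 (jqModC K))
        + 76509442080 * (jqModC K * qExpand K 3 (jqModC K)) + 23150726640 * jqModC K ^ 2
        - 48430448640000 * qExpand K 3 (jqModC K) - 14204206448640000 * jqModC K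
        + 97844723712000000000) * (h - h') = 0 := by
    linear_combination k1 - k2
  exact sub_eq_zero.mp ((mul_eq_zero.mp this).resolve_left hD)

/-- **Uniqueness at level 4**: a series `t` with `t (t + 16) = h(q²)` and `t² = h (t + 16)`
is determined by `h`. -/
theorem rel4_unique (h2 : (2 : K) ≠ 0) {h : LaurentSeries K}
    (e1 : jqModC K * h ^ 2 = (h + 256) ^ 3) {t t' : LaurentSeries K}
    (r1 : t * (t + 16) = qExpand K 2 h) (r2 : t ^ 2 = h * (t + 16))
    (r1' : t' * (t' + 16) = qExpand K 2 h) (r2' : t' ^ 2 = h * (t' + 16)) : t = t' :=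
  (t4_eq_of_rel h2 e1 r1 r2).trans (t4_eq_of_rel h2 e1 r1' r2').symm

/-- **Uniqueness at level 9**. -/
theorem rel9_unique (h3 : (3 : K) ≠ 0) {h : LaurentSeries K}
    (e1 : jqModC K * h ^ 3 = (h + 27) * (h + 243) ^ 3) {t t' : LaurentSeries K}
    (r1 : t * (t ^ 2 + 9 * t + 27) = qExpand K 3 h) (r2 : t ^ 3 = h * (t ^ 2 + 9 * t + 27))
    (r1' : t' * (t' ^ 2 + 9 * t' + 27) = qExpand K 3 h)
    (r2' : t' ^ 3 = h * (t' ^ 2 + 9 * t' + 27)) : t = t' :=
  (t9_eq_of_rel h3 e1 r1 r2).trans (t9_eq_of_rel h3 e1 r1' r2').symm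

end Uniqueness

end Fermat.Agent.S37.helper9536
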