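/-
S37/S18-HAUPT49 (helper9536), Part C: the UNCONDITIONAL Hauptmoduln of `X₀(4)` and `X₀(9)`.

Input: the landed level-2/3 Hauptmoduln `t2Z t3Z : LaurentSeries ℤ` of `S18/helper1257_HauptFormal`
with their two `j`-identities each.  Output (no hypotheses left):

* `t4Z t9Z : LaurentSeries ℤ`, leading term `q⁻¹`, with the `j`-identities over `ℤ`;
* for every field `K` with `(2 : K) ≠ 0` (resp. `(3 : K) ≠ 0`), `t4K K = coeffMap _ t4Z` lies in
  `modularFunctionFieldFullC K 4`, generates it, and satisfies the `j`-identities over `K`;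
* over `ℚ̄`: `t4Bar M h : FN M` for `4 ∣ M`, `t9Bar M h : FN M` for `9 ∣ M`, with the `jBar`-identity.

BRIDGE (last section): these series COINCIDE with the eta-quotient series `h2C h3C t4C t9C` of
`Lib/helper3874_Hauptmodul` (the canonical copy on main), by uniqueness of a Hauptmodul with given
`j`-relations.  In particular `helper1257.t2Z = helper3874.h2C ℤ`, `helper1257.t3Z = helper3874.h3C ℤ`.
-/
import Fermat.Agent.S37.helper9536_Haupt49Q
import Fermat.Agent.S18.helper1257_HauptFormal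
import Fermat.Agent.S24.helper24_Spec
import Fermat.Agent.Lib.helper3874_Hauptmodul

set_option autoImplicit false

open ModularCurve HahnSeries

namespace Fermat.Agent.S37.helper9536

open Fermat.Agent.S18.helper1257 (t2Z t3Z jq_mul_t2Z_sq qExpand_jq_mul_t2Z jq_mul_t3Z_cube
  qExpand_jq_mul_t3Z)

noncomputable section

theorem coeffMap_injective {R S : Type*} [CommRing R] [CommRing S] (f : R →+* S)
    (hf : Function.Injective f) : Function.Injective (coeffMap f) := by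
  intro x y hxy
  ext k
  have := congrArg (fun z => z.coeff k) hxy
  simp only [coeffMap_coeff] at this
  exact hf this

/-! ### The integer series -/

/-- The Hauptmodul of `X₀(4)` as an integer Laurent series, `t₄ = q⁻¹ - 8 + 20 q - ⋯`. -/
def t4Z : LaurentSeries ℤ := (qExpand ℤ 2 t2Z - 16 * t2Z) * Ring.inverse (t2Z + 16)

theorem t4Z_mul : t4Z * (t2Z + 16) = qExpand ℤ 2 t2Z - 16 * t2Z := by
  rw [t4Z, mul_assoc,
    Ring.inverse_mul_cancel _ (lead_add16 (by norm_num) jq_mul_t2Z_sq).isUnit, mul_one]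

theorem lead_t4Z : Lead t4Z (-1) 1 := lead_t4 (by norm_num) jq_mul_t2Z_sq t4Z_mul

/-- The Hauptmodul of `X₀(9)` as an integer Laurent series, `t₉ = q⁻¹ - 3 + 5 q² - ⋯`. -/
def t9Z : LaurentSeries ℤ :=
  (t3Z ^ 2 * qExpand ℤ 3 t3Z + 18 * t3Z * qExpand ℤ 3 t3Z + 27 * qExpand ℤ 3 t3Z + 1458 * t3Z)
    * Ring.inverse (t3Z * qExpand ℤ 3 t3Z - 243 * t3Z + 9 * qExpand ℤ 3 t3Z + 729)

theorem t9Z_mul : t9Z * (t3Z * qExpand ℤ 3 t3Z - 243 * t3Z + 9 * qExpand ℤ 3 t3Z + 729)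
    = t3Z ^ 2 * qExpand ℤ 3 t3Z + 18 * t3Z * qExpand ℤ 3 t3Z + 27 * qExpand ℤ 3 t3Z
      + 1458 * t3Z := by
  rw [t9Z, mul_assoc,
    Ring.inverse_mul_cancel _ (lead_den9 (by norm_num) jq_mul_t3Z_cube).isUnit, mul_one]

theorem lead_t9Z : Lead t9Z (-1) 1 := lead_t9 (by norm_num) jq_mul_t3Z_cube t9Z_mul

/-! ### Over a field -/

section FieldK

variable (K : Type*) [Field K]

/-- The level-`2` Hauptmodul with coefficients in `K`. -/
def t2K : LaurentSeries K := coeffMap (Int.castRingHom K) t2Z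

/-- The level-`3` Hauptmodul with coefficients in `K`. -/
def t3K : LaurentSeries K := coeffMap (Int.castRingHom K) t3Z

/-- The level-`4` Hauptmodul with coefficients in `K`. -/
def t4K : LaurentSeries K := coeffMap (Int.castRingHom K) t4Z

/-- The level-`9` Hauptmodul with coefficients in `K`. -/
def t9K : LaurentSeries K := coeffMap (Int.castRingHom K) t9Z

theorem t2K_rel1 : jqModC K * t2K K ^ 2 = (t2K K + 256) ^ 3 := by
  have := congrArg (coeffMap (Int.castRingHom K)) jq_mul_t2Z_sq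
  simpa only [map_mul, map_pow, map_add, map_ofNat, coeffMap_jqModC, t2K] using this

theorem t2K_rel2 : qExpand K 2 (jqModC K) * t2K K = (t2K K + 16) ^ 3 := by
  have := congrArg (coeffMap (Int.castRingHom K)) qExpand_jq_mul_t2Z
  simpa only [map_mul, map_pow, map_add, map_ofNat, coeffMap_qExpand, coeffMap_jqModC, t2K]
    using this

theorem t3K_rel1 : jqModC K * t3K K ^ 3 = (t3K K + 27) * (t3K K + 243) ^ 3 := by
  have := congrArg (coeffMap (Int.castRingHom K)) jq_mul_t3Z_cube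
  simpa only [map_mul, map_pow, map_add, map_ofNat, coeffMap_jqModC, t3K] using this

theorem t3K_rel2 : qExpand K 3 (jqModC K) * t3K K = (t3K K + 27) * (t3K K + 3) ^ 3 := by
  have := congrArg (coeffMap (Int.castRingHom K)) qExpand_jq_mul_t3Z
  simpa only [map_mul, map_pow, map_add, map_ofNat, coeffMap_qExpand, coeffMap_jqModC, t3K]
    using this

variable {K}

theorem t4K_eq (h2 : (2 : K) ≠ 0) :
    t4K K = (qExpand K 2 (t2K K) - 16 * t2K K) / (t2K K + 16) := by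
  have := congrArg (coeffMap (Int.castRingHom K)) t4Z_mul
  simp only [map_mul, map_sub, map_add, map_ofNat, coeffMap_qExpand] at this
  rw [eq_div_iff (lead_add16 h2 (t2K_rel1 K)).ne_zero]
  exact this

theorem t9K_eq (h3 : (3 : K) ≠ 0) :
    t9K K = (t3K K ^ 2 * qExpand K 3 (t3K K) + 18 * t3K K * qExpand K 3 (t3K K)
        + 27 * qExpand K 3 (t3K K) + 1458 * t3K K)
      / (t3K K * qExpand K 3 (t3K K) - 243 * t3K K + 9 * qExpand K 3 (t3K K) + 729) := by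
  have := congrArg (coeffMap (Int.castRingHom K)) t9Z_mul
  simp only [map_mul, map_sub, map_add, map_pow, map_ofNat, coeffMap_qExpand] at this
  rw [eq_div_iff (lead_den9 h3 (t3K_rel1 K)).ne_zero]
  exact this

/-- `t₂ ∈ F₂`. -/
theorem t2K_mem (h2 : (2 : K) ≠ 0) : t2K K ∈ modularFunctionFieldFullC K 2 :=
  mem_full2_of_rel2 h2 (t2K_rel1 K) (t2K_rel2 K)

/-- `t₃ ∈ F₃`. -/
theorem t3K_mem (h3 : (3 : K) ≠ 0) : t3K K ∈ modularFunctionFieldFullC K 3 :=
  mem_full3_of_rel3 h3 (t3K_rel1 K) (t3K_rel2 K)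

/-- All level-`4` facts for `t₄` over a field in which `2 ≠ 0`. -/
theorem t4K_spec (h2 : (2 : K) ≠ 0) :
    Lead (t4K K) (-1) 1 ∧ t4K K * (t4K K + 16) = qExpand K 2 (t2K K) ∧
      t4K K ^ 2 = t2K K * (t4K K + 16) ∧
      jqModC K * t4K K ^ 4 * (t4K K + 16) = (t4K K ^ 2 + 256 * t4K K + 4096) ^ 3 ∧
      qExpand K 2 (jqModC K) * t4K K ^ 2 * (t4K K + 16) ^ 2
        = (t4K K ^ 2 + 16 * t4K K + 256) ^ 3 ∧
      qExpand K 4 (jqModC K) * t4K K * (t4K K + 16) = (t4K K ^ 2 + 16 * t4K K + 16) ^ 3 ∧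
      (jqModC K - 1728) * t4K K ^ 4 * (t4K K + 16)
        = (t4K K + 32) ^ 2 * (t4K K ^ 2 - 512 * t4K K - 8192) ^ 2 :=
  level4_series h2 (t2K_rel1 K) (t2K_rel2 K) (t4K_eq h2)

/-- `t₄ ∈ F₄`. -/
theorem t4K_mem (h2 : (2 : K) ≠ 0) : t4K K ∈ modularFunctionFieldFullC K 4 :=
  t4_mem_full4 h2 (t2K_rel1 K) (t2K_rel2 K) (t4K_eq h2)

/-- `F₄ = K(t₄)`. -/
theorem full4_eq_adjoin_t4K (h2 : (2 : K) ≠ 0) :
    modularFunctionFieldFullC K 4 = IntermediateField.adjoin K {t4K K} :=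
  full4_eq_adjoin h2 (t2K_rel1 K) (t2K_rel2 K) (t4K_eq h2)

/-- All level-`9` facts for `t₉` over a field in which `3 ≠ 0`. -/
theorem t9K_spec (h3 : (3 : K) ≠ 0) :
    Lead (t9K K) (-1) 1 ∧ t9K K * (t9K K ^ 2 + 9 * t9K K + 27) = qExpand K 3 (t3K K) ∧
      t9K K ^ 3 = t3K K * (t9K K ^ 2 + 9 * t9K K + 27) ∧
      jqModC K * t9K K ^ 9 * (t9K K ^ 2 + 9 * t9K K + 27)
        = (t9K K + 9) ^ 3 * (t9K K ^ 3 + 243 * t9K K ^ 2 + 2187 * t9K K + 6561) ^ 3 ∧
      qExpand K 3 (jqModC K) * t9K K ^ 3 * (t9K K ^ 2 + 9 * t9K K + 27) ^ 3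
        = (t9K K + 9) ^ 3 * (t9K K + 3) ^ 3 * (t9K K ^ 2 + 27) ^ 3 ∧
      qExpand K 9 (jqModC K) * t9K K * (t9K K ^ 2 + 9 * t9K K + 27)
        = (t9K K + 3) ^ 3 * (t9K K ^ 3 + 9 * t9K K ^ 2 + 27 * t9K K + 3) ^ 3 ∧
      (jqModC K - 1728) * t9K K ^ 9 * (t9K K ^ 2 + 9 * t9K K + 27)
        = (t9K K ^ 6 - 486 * t9K K ^ 5 - 24057 * t9K K ^ 4 - 367416 * t9K K ^ 3
          - 2657205 * t9K K ^ 2 - 9565938 * t9K K - 14348907) ^ 2 :=
  level9_series h3 (t3K_rel1 K) (t3K_rel2 K) (t9K_eq h3)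

/-- `t₉ ∈ F₉`. -/
theorem t9K_mem (h3 : (3 : K) ≠ 0) : t9K K ∈ modularFunctionFieldFullC K 9 :=
  t9_mem_full9 h3 (t3K_rel1 K) (t3K_rel2 K) (t9K_eq h3)

/-- `F₉ = K(t₉)`. -/
theorem full9_eq_adjoin_t9K (h3 : (3 : K) ≠ 0) :
    modularFunctionFieldFullC K 9 = IntermediateField.adjoin K {t9K K} :=
  full9_eq_adjoin h3 (t3K_rel1 K) (t3K_rel2 K) (t9K_eq h3)

end FieldK

/-! ### The identities over `ℤ` -/

theorem t4Z_j : jqModC ℤ * t4Z ^ 4 * (t4Z + 16) = (t4Z ^ 2 + 256 * t4Z + 4096) ^ 3 := by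
  apply coeffMap_injective (Int.castRingHom ℚ) Int.cast_injective
  simp only [map_mul, map_pow, map_add, map_ofNat, coeffMap_jqModC]
  exact (t4K_spec (K := ℚ) two_ne_zero).2.2.2.1

theorem t4Z_j2 :
    qExpand ℤ 2 (jqModC ℤ) * t4Z ^ 2 * (t4Z + 16) ^ 2 = (t4Z ^ 2 + 16 * t4Z + 256) ^ 3 := by
  apply coeffMap_injective (Int.castRingHom ℚ) Int.cast_injective
  simp only [map_mul, map_pow, map_add, map_ofNat, coeffMap_jqModC, coeffMap_qExpand]
  exact (t4K_spec (K := ℚ) two_ne_zero).2.2.2.2.1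

theorem t4Z_j4 : qExpand ℤ 4 (jqModC ℤ) * t4Z * (t4Z + 16) = (t4Z ^ 2 + 16 * t4Z + 16) ^ 3 := by
  apply coeffMap_injective (Int.castRingHom ℚ) Int.cast_injective
  simp only [map_mul, map_pow, map_add, map_ofNat, coeffMap_jqModC, coeffMap_qExpand]
  exact (t4K_spec (K := ℚ) two_ne_zero).2.2.2.2.2.1

theorem t9Z_j : jqModC ℤ * t9Z ^ 9 * (t9Z ^ 2 + 9 * t9Z + 27)
    = (t9Z + 9) ^ 3 * (t9Z ^ 3 + 243 * t9Z ^ 2 + 2187 * t9Z + 6561) ^ 3 := by
  apply coeffMap_injective (Int.castRingHom ℚ) Int.cast_injective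
  simp only [map_mul, map_pow, map_add, map_ofNat, coeffMap_jqModC]
  exact (t9K_spec (K := ℚ) three_ne_zero).2.2.2.1

theorem t9Z_j3 : qExpand ℤ 3 (jqModC ℤ) * t9Z ^ 3 * (t9Z ^ 2 + 9 * t9Z + 27) ^ 3
    = (t9Z + 9) ^ 3 * (t9Z + 3) ^ 3 * (t9Z ^ 2 + 27) ^ 3 := by
  apply coeffMap_injective (Int.castRingHom ℚ) Int.cast_injective
  simp only [map_mul, map_pow, map_add, map_ofNat, coeffMap_jqModC, coeffMap_qExpand]
  exact (t9K_spec (K := ℚ) three_ne_zero).2.2.2.2.1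

theorem t9Z_j9 : qExpand ℤ 9 (jqModC ℤ) * t9Z * (t9Z ^ 2 + 9 * t9Z + 27)
    = (t9Z + 3) ^ 3 * (t9Z ^ 3 + 9 * t9Z ^ 2 + 27 * t9Z + 3) ^ 3 := by
  apply coeffMap_injective (Int.castRingHom ℚ) Int.cast_injective
  simp only [map_mul, map_pow, map_add, map_ofNat, coeffMap_jqModC, coeffMap_qExpand]
  exact (t9K_spec (K := ℚ) three_ne_zero).2.2.2.2.2.1

/-! ### Base change: characteristic-zero fields and `ℚ̄` -/

section BaseChange

variable (L : Type*) [Field L] [Algebra ℚ L]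

theorem coeffEmb_coeffMap_intCast (x : LaurentSeries ℤ) :
    coeffEmb L (coeffMap (Int.castRingHom ℚ) x) = coeffMap (Int.castRingHom L) x := by
  rw [coeffEmb, coeffMap_coeffMap]
  exact coeffMap_congr (RingHom.ext_int _ _) x

/-- `t₄` lies in the base-changed function field of every level divisible by `4`. -/
theorem t4K_mem_laurentBaseChange (M : ℕ) [NeZero M] (h4 : 4 ∣ M) :
    t4K L ∈ laurentBaseChange L (modularFunctionFieldFull M) := by
  have h1 : t4K ℚ ∈ modularFunctionFieldFull 4 := t4K_mem (K := ℚ) two_ne_zero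
  have h2 : t4K ℚ ∈ modularFunctionFieldFull M := full_degeneracy_le h4 h1
  have := coeffEmb_mem_laurentBaseChange L h2
  rwa [t4K, coeffEmb_coeffMap_intCast] at this

/-- `t₉` lies in the base-changed function field of every level divisible by `9`. -/
theorem t9K_mem_laurentBaseChange (M : ℕ) [NeZero M] (h9 : 9 ∣ M) :
    t9K L ∈ laurentBaseChange L (modularFunctionFieldFull M) := by
  have h1 : t9K ℚ ∈ modularFunctionFieldFull 9 := t9K_mem (K := ℚ) three_ne_zero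
  have h2 : t9K ℚ ∈ modularFunctionFieldFull M := full_degeneracy_le h9 h1
  have := coeffEmb_mem_laurentBaseChange L h2
  rwa [t9K, coeffEmb_coeffMap_intCast] at this

end BaseChange

open Fermat.Agent.S24.helper24 (Kbar FN jBar coe_jBar)

/-- The Hauptmodul of `X₀(4)` as an element of the function field of level `M` over `ℚ̄`,
for `4 ∣ M`. -/
def t4Bar (M : ℕ) [NeZero M] (h4 : 4 ∣ M) : FN M :=
  ⟨t4K Kbar, t4K_mem_laurentBaseChange Kbar M h4⟩

/-- The Hauptmodul of `X₀(9)` as an element of the function field of level `M` over `ℚ̄`,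
for `9 ∣ M`. -/
def t9Bar (M : ℕ) [NeZero M] (h9 : 9 ∣ M) : FN M :=
  ⟨t9K Kbar, t9K_mem_laurentBaseChange Kbar M h9⟩

theorem coe_jBar_eq (M : ℕ) : ((jBar M : FN M) : LaurentSeries Kbar) = jqModC Kbar := by
  rw [coe_jBar]
  exact coeffMap_jqModC (algebraMap ℚ Kbar)

/-- The `j`-identity on the `X₀(4)` Hauptmodul line, in the function field of level `M`. -/
theorem jBar_mul_t4Bar (M : ℕ) [NeZero M] (h4 : 4 ∣ M) :
    jBar M * (t4Bar M h4 ^ 4 * (t4Bar M h4 + 16))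
      = (t4Bar M h4 ^ 2 + 256 * t4Bar M h4 + 4096) ^ 3 := by
  apply Subtype.ext
  have := (t4K_spec (K := Kbar) two_ne_zero).2.2.2.1
  push_cast
  rw [coe_jBar_eq]
  show jqModC Kbar * (t4K Kbar ^ 4 * (t4K Kbar + 16)) = (t4K Kbar ^ 2 + 256 * t4K Kbar + 4096) ^ 3
  linear_combination this

/-- The `j`-identity on the `X₀(9)` Hauptmodul line, in the function field of level `M`. -/
theorem jBar_mul_t9Bar (M : ℕ) [NeZero M] (h9 : 9 ∣ M) :
    jBar M * (t9Bar M h9 ^ 9 * (t9Bar M h9 ^ 2 + 9 * t9Bar M h9 + 27))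
      = ((t9Bar M h9 + 9) * (t9Bar M h9 ^ 3 + 243 * t9Bar M h9 ^ 2 + 2187 * t9Bar M h9 + 6561))
        ^ 3 := by
  apply Subtype.ext
  have := (t9K_spec (K := Kbar) three_ne_zero).2.2.2.1
  push_cast
  rw [coe_jBar_eq]
  show jqModC Kbar * (t9K Kbar ^ 9 * (t9K Kbar ^ 2 + 9 * t9K Kbar + 27))
    = ((t9K Kbar + 9) * (t9K Kbar ^ 3 + 243 * t9K Kbar ^ 2 + 2187 * t9K Kbar + 6561)) ^ 3
  linear_combination this

/-! ### Bridge: the E₄-quotient series of `helper1257` are the eta quotients of `helper3874` -/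

section Bridge

open Fermat.Agent.Lib.helper3874 (h2C h3C t4C t9C h2C_j1 h2C_j2 h3C_j1 h3C_j3 t4C_h2_expand t4C_h2
  t9C_h3_expand t9C_h3 coeffMap_h2C coeffMap_h3C coeffMap_t4C coeffMap_t9C)

variable {K : Type*} [Field K]

theorem t2K_eq_h2C (h2 : (2 : K) ≠ 0) : t2K K = h2C K :=
  rel2_unique h2 (t2K_rel1 K) (t2K_rel2 K) (h2C_j1 K) (h2C_j2 K)

theorem t3K_eq_h3C (h3 : (3 : K) ≠ 0) : t3K K = h3C K :=
  rel3_unique h3 (t3K_rel1 K) (t3K_rel2 K) (h3C_j1 K) (h3C_j3 K)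

theorem t4K_eq_t4C (h2 : (2 : K) ≠ 0) : t4K K = t4C K := by
  obtain ⟨-, r1, r2, -⟩ := t4K_spec h2
  rw [t2K_eq_h2C h2] at r1 r2
  exact rel4_unique h2 (h2C_j1 K) r1 r2 (t4C_h2_expand K).symm (t4C_h2 K).symm

theorem t9K_eq_t9C (h3 : (3 : K) ≠ 0) : t9K K = t9C K := by
  obtain ⟨-, r1, r2, -⟩ := t9K_spec h3
  rw [t3K_eq_h3C h3] at r1 r2
  exact rel9_unique h3 (h3C_j1 K) r1 r2 (t9C_h3_expand K).symm (t9C_h3 K).symm

/-- The level-`2` Hauptmodul of `S18/helper1257_HauptFormal` is the eta quotient of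
`Lib/helper3874_Hauptmodul`. -/
theorem t2Z_eq_h2C : t2Z = h2C ℤ := by
  apply coeffMap_injective (Int.castRingHom ℚ) Int.cast_injective
  rw [coeffMap_h2C]
  exact t2K_eq_h2C (K := ℚ) two_ne_zero

/-- The level-`3` Hauptmodul of `S18/helper1257_HauptFormal` is the eta quotient of
`Lib/helper3874_Hauptmodul`. -/
theorem t3Z_eq_h3C : t3Z = h3C ℤ := by
  apply coeffMap_injective (Int.castRingHom ℚ) Int.cast_injective
  rw [coeffMap_h3C]
  exact t3K_eq_h3C (K := ℚ) three_ne_zero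

theorem t4Z_eq_t4C : t4Z = t4C ℤ := by
  apply coeffMap_injective (Int.castRingHom ℚ) Int.cast_injective
  rw [coeffMap_t4C]
  exact t4K_eq_t4C (K := ℚ) two_ne_zero

theorem t9Z_eq_t9C : t9Z = t9C ℤ := by
  apply coeffMap_injective (Int.castRingHom ℚ) Int.cast_injective
  rw [coeffMap_t9C]
  exact t9K_eq_t9C (K := ℚ) three_ne_zero

/-- In every commutative ring (no hypothesis on the characteristic). -/
theorem coeffMap_t2Z (R : Type*) [CommRing R] : coeffMap (Int.castRingHom R) t2Z = h2C R := by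
  rw [t2Z_eq_h2C, coeffMap_h2C]

theorem coeffMap_t3Z (R : Type*) [CommRing R] : coeffMap (Int.castRingHom R) t3Z = h3C R := by
  rw [t3Z_eq_h3C, coeffMap_h3C]

theorem coeffMap_t4Z (R : Type*) [CommRing R] : coeffMap (Int.castRingHom R) t4Z = t4C R := by
  rw [t4Z_eq_t4C, coeffMap_t4C]

theorem coeffMap_t9Z (R : Type*) [CommRing R] : coeffMap (Int.castRingHom R) t9Z = t9C R := by
  rw [t9Z_eq_t9C, coeffMap_t9C]

theorem coe_t4Bar (M : ℕ) [NeZero M] (h4 : 4 ∣ M) :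
    ((t4Bar M h4 : FN M) : LaurentSeries Kbar) = t4C Kbar :=
  coeffMap_t4Z Kbar

theorem coe_t9Bar (M : ℕ) [NeZero M] (h9 : 9 ∣ M) :
    ((t9Bar M h9 : FN M) : LaurentSeries Kbar) = t9C Kbar :=
  coeffMap_t9Z Kbar

end Bridge

end

end Fermat.Agent.S37.helper9536
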