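/-
S37-HECKEBC, backup implementation (helper367; board row 1497): Mathlib-only algebra for the
norm compatibility `(NU)`.

Setting: a commutative square of fields

      F₁ --π₁--> F₁'
      ^           ^
      F  --π-->   F'

with `[F₁ : F] = [F₁' : F']` finite.

* `norm_map_of_basis`: if a basis of `F₁ / F` maps to a basis of `F₁' / F'`, then
  `N_{F₁'/F'} (π₁ x) = π (N_{F₁/F} x)`.
* `natDegree_minpoly_eq_finrank_of_lt`: an element whose degree is more than half of `[L : E]`
  generates `L / E`.
* `sum_ne_zero_of_order`: Laurent series with pairwise distinct orders do not cancel.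
* `le_natDegree_minpoly_of_order`: a "ramification" lower bound for the degree of an element:
  if (through an embedding `w : L → K((q))`) all orders of elements of `E` are divisible by `M`
  and the multiples `i * ord y`, `i < n`, are pairwise incongruent modulo `M`, then `y` has
  degree `≥ n` over `E`.
* `norm_map_of_natDegree_minpoly`: if `π₁ y` has full degree `[F₁' : F'] = [F₁ : F]` over `F'`
  for one `y : F₁`, then `N_{F₁'/F'} (π₁ x) = π (N_{F₁/F} x)` for all `x : F₁`
  (linear disjointness with a common power basis).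
-/
import Mathlib

set_option autoImplicit false

namespace Fermat.Agent.S37.helper367

open IntermediateField Polynomial

/-! ### Norms and bases -/

/-- If a basis `b` of `F₁` over `F` is mapped by `π₁` to a basis of `F₁'` over `F'`
(compatibly with `π : F → F'`), then the norm commutes with the maps. -/
theorem norm_map_of_basis {F F₁ F' F₁' : Type*} [CommRing F] [CommRing F₁] [CommRing F']
    [CommRing F₁'] [Algebra F F₁] [Algebra F' F₁'] (π : F →+* F') (π₁ : F₁ →+* F₁')
    (hc : ∀ a, π₁ (algebraMap F F₁ a) = algebraMap F' F₁' (π a))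
    {ι : Type*} [Fintype ι] [DecidableEq ι] (b : Module.Basis ι F F₁)
    (b' : Module.Basis ι F' F₁') (hb : ∀ i, b' i = π₁ (b i)) (x : F₁) :
    Algebra.norm F' (π₁ x) = π (Algebra.norm F x) := by
  have hrepr : ∀ (z : F₁) (i : ι), b'.repr (π₁ z) i = π (b.repr z i) := by
    intro z i
    have hz : π₁ z = ∑ j, π (b.repr z j) • b' j := by
      conv_lhs => rw [← b.sum_repr z]
      rw [map_sum]
      refine Finset.sum_congr rfl fun j _ => ?_
      rw [Algebra.smul_def, map_mul, hc, hb, Algebra.smul_def]
    rw [hz, b'.repr_sum_self]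
  rw [Algebra.norm_eq_matrix_det b', Algebra.norm_eq_matrix_det b, RingHom.map_det]
  congr 1
  ext i j
  rw [Algebra.leftMulMatrix_eq_repr_mul, RingHom.mapMatrix_apply, Matrix.map_apply,
    Algebra.leftMulMatrix_eq_repr_mul, hb, ← map_mul, hrepr]

/-! ### Degree of an element -/

/-- An element of degree more than half of `[L : E]` has degree `[L : E]`. -/
theorem natDegree_minpoly_eq_finrank_of_lt {E L : Type*} [Field E] [Field L] [Algebra E L]
    [FiniteDimensional E L] (y : L)
    (h : Module.finrank E L < 2 * (minpoly E y).natDegree) :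
    (minpoly E y).natDegree = Module.finrank E L := by
  have hy : IsIntegral E y := IsIntegral.of_finite E y
  have h1 : Module.finrank E E⟮y⟯ = (minpoly E y).natDegree := IntermediateField.adjoin.finrank hy
  have h2 : Module.finrank E E⟮y⟯ * Module.finrank E⟮y⟯ L = Module.finrank E L :=
    Module.finrank_mul_finrank E E⟮y⟯ L
  rw [h1] at h2
  have hk : Module.finrank E⟮y⟯ L = 1 := by
    by_contra hne
    have hpos : 0 < Module.finrank E⟮y⟯ L := Module.finrank_pos
    have h2' : 2 ≤ Module.finrank E⟮y⟯ L := by omega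
    nlinarith
  rw [hk, mul_one] at h2
  exact h2

/-! ### Laurent series with distinct orders -/

/-- A finite sum of Laurent series whose nonzero terms have pairwise distinct orders, one of
them being nonzero, is nonzero. -/
theorem sum_ne_zero_of_order {K : Type*} [Field K] {ι : Type*} (s : Finset ι)
    (f : ι → LaurentSeries K) (i₀ : ι) (hi₀ : i₀ ∈ s) (h0 : f i₀ ≠ 0)
    (hinj : ∀ i ∈ s, ∀ j ∈ s, f i ≠ 0 → f j ≠ 0 → (f i).order = (f j).order → i = j) :
    ∑ i ∈ s, f i ≠ 0 := by
  classical
  obtain ⟨m, hm, hmin⟩ := Finset.exists_min_image (s.filter fun i => f i ≠ 0)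
    (fun i => (f i).order) ⟨i₀, Finset.mem_filter.mpr ⟨hi₀, h0⟩⟩
  rw [Finset.mem_filter] at hm
  intro hsum
  have hc : (∑ i ∈ s, f i).coeff (f m).order = (f m).coeff (f m).order := by
    rw [HahnSeries.coeff_sum]
    refine Finset.sum_eq_single_of_mem m hm.1 fun i hi him => ?_
    by_cases hfi : f i = 0
    · rw [hfi]
      rfl
    · have hle := hmin i (Finset.mem_filter.mpr ⟨hi, hfi⟩)
      have hne : (f i).order ≠ (f m).order := fun h => him (hinj i hi m hm.1 hfi hm.2 h)
      exact HahnSeries.coeff_eq_zero_of_lt_order (lt_of_le_of_ne hle (Ne.symm hne))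
  rw [hsum] at hc
  exact hm.2 (HahnSeries.coeff_order_eq_zero.mp hc.symm)

/-- **Ramification lower bound for the degree.**  `w : L → K((q))` a ring hom; all `q`-orders
of (nonzero) elements of `E` are divisible by `M`; `y : L` with `w y ≠ 0` of order `k` such that
`i * k`, `i < n`, are pairwise incongruent modulo `M`.  Then `[E(y) : E] ≥ n`. -/
theorem le_natDegree_minpoly_of_order {K E L : Type*} [Field K] [Field E] [Field L]
    [Algebra E L] (w : L →+* LaurentSeries K) (M k : ℤ) (n : ℕ)
    (hE : ∀ c : E, c ≠ 0 → M ∣ (w (algebraMap E L c)).order)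
    (y : L) (hy : IsIntegral E y) (hy0 : w y ≠ 0) (hyord : (w y).order = k)
    (hik : ∀ i j : ℕ, i < n → j < n → M ∣ ((i : ℤ) - j) * k → i = j) :
    n ≤ (minpoly E y).natDegree := by
  by_contra hlt
  rw [not_le] at hlt
  set p := minpoly E y with hp
  set d := p.natDegree with hd
  have hmonic : p.Monic := minpoly.monic hy
  have hsum : ∑ i ∈ Finset.range (d + 1), w (algebraMap E L (p.coeff i)) * (w y) ^ i = 0 := by
    have h1 : Polynomial.aeval y p = 0 := minpoly.aeval E y
    rw [Polynomial.aeval_eq_sum_range] at h1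
    have h2 := congrArg w h1
    rw [map_sum, map_zero] at h2
    rw [← h2]
    refine Finset.sum_congr rfl fun i _ => ?_
    rw [Algebra.smul_def, map_mul, map_pow]
  have hwinj : Function.Injective w := w.injective
  have hterm : ∀ i : ℕ, w (algebraMap E L (p.coeff i)) * (w y) ^ i ≠ 0 →
      p.coeff i ≠ 0 ∧ (w (algebraMap E L (p.coeff i)) * (w y) ^ i).order
        = (w (algebraMap E L (p.coeff i))).order + (i : ℤ) * k := by
    intro i hi
    have hci : w (algebraMap E L (p.coeff i)) ≠ 0 := left_ne_zero_of_mul hi
    have hc0 : p.coeff i ≠ 0 := by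
      rintro h
      rw [h, map_zero, map_zero] at hci
      exact hci rfl
    refine ⟨hc0, ?_⟩
    rw [HahnSeries.order_mul hci (pow_ne_zero _ hy0), HahnSeries.order_pow, hyord, nsmul_eq_mul]
  refine sum_ne_zero_of_order (Finset.range (d + 1))
    (fun i => w (algebraMap E L (p.coeff i)) * (w y) ^ i) d (Finset.self_mem_range_succ d) ?_ ?_
    hsum
  · show w (algebraMap E L (p.coeff d)) * (w y) ^ d ≠ 0
    rw [hd, hmonic.coeff_natDegree, map_one, map_one, one_mul]
    exact pow_ne_zero _ hy0
  · intro i hi j hj hfi hfj hord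
    rw [Finset.mem_range] at hi hj
    obtain ⟨hci, hoi⟩ := hterm i hfi
    obtain ⟨hcj, hoj⟩ := hterm j hfj
    obtain ⟨a, ha⟩ := hE _ hci
    obtain ⟨b, hb⟩ := hE _ hcj
    refine hik i j (by omega) (by omega) ⟨b - a, ?_⟩
    have h3 : (w (algebraMap E L (p.coeff i))).order + (i : ℤ) * k
        = (w (algebraMap E L (p.coeff j))).order + (j : ℤ) * k := by
      rw [← hoi, ← hoj]
      exact hord
    rw [ha, hb] at h3
    linear_combination h3

/-! ### Norm compatibility from one element of full degree -/

/-- **Linear disjointness with a common power basis.**  If `[F₁ : F] = [F₁' : F']` and `π₁ y`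
has full degree over `F'` for one `y : F₁`, then norms commute with `(π, π₁)`. -/
theorem norm_map_of_natDegree_minpoly {F F₁ F' F₁' : Type*} [Field F] [Field F₁] [Field F']
    [Field F₁'] [Algebra F F₁] [Algebra F' F₁'] [FiniteDimensional F F₁]
    [FiniteDimensional F' F₁'] (π : F →+* F') (π₁ : F₁ →+* F₁')
    (hc : ∀ a, π₁ (algebraMap F F₁ a) = algebraMap F' F₁' (π a))
    (hrank : Module.finrank F F₁ = Module.finrank F' F₁') (y : F₁)
    (hy : (minpoly F' (π₁ y)).natDegree = Module.finrank F' F₁') (x : F₁) :
    Algebra.norm F' (π₁ x) = π (Algebra.norm F x) := by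
  classical
  set n := Module.finrank F' F₁' with hn
  have : Nonempty (Fin n) := ⟨⟨0, Module.finrank_pos⟩⟩
  have li' : LinearIndependent F' (fun i : Fin n => (π₁ y) ^ (i : ℕ)) :=
    (linearIndependent_pow (K := F') (π₁ y)).comp (Fin.cast hy.symm) (Fin.cast_injective _)
  have li : LinearIndependent F (fun i : Fin n => y ^ (i : ℕ)) := by
    rw [Fintype.linearIndependent_iff]
    intro g hg i
    have h1 := congrArg π₁ hg
    rw [map_sum, map_zero] at h1
    have h2 : ∑ j : Fin n, (π (g j)) • (π₁ y) ^ (j : ℕ) = 0 := by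
      rw [← h1]
      refine Finset.sum_congr rfl fun j _ => ?_
      rw [Algebra.smul_def, Algebra.smul_def, map_mul, hc, map_pow]
    have h3 := Fintype.linearIndependent_iff.mp li' (fun j => π (g j)) h2 i
    exact (map_eq_zero π).mp h3
  let b' : Module.Basis (Fin n) F' F₁' :=
    basisOfLinearIndependentOfCardEqFinrank li' (by rw [Fintype.card_fin])
  let b : Module.Basis (Fin n) F F₁ :=
    basisOfLinearIndependentOfCardEqFinrank li (by rw [Fintype.card_fin, hrank])
  refine norm_map_of_basis π π₁ hc b b' (fun i => ?_) x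
  show (basisOfLinearIndependentOfCardEqFinrank li' _) i
    = π₁ ((basisOfLinearIndependentOfCardEqFinrank li _) i)
  rw [coe_basisOfLinearIndependentOfCardEqFinrank, coe_basisOfLinearIndependentOfCardEqFinrank,
    map_pow]

end Fermat.Agent.S37.helper367
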