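/-
S37, board row 1346 "S37-E5c NORMTRICK-MOD" (helper9342): the MODULAR INSTANCE of module E5
(NORMTRICK) of the S37 plan.

For `K = ℚ̄` and the inclusion `α = heckeAlphaBar ℚ̄ N m : F_N → F_{N m}`:

* `finrank_adjoin_mul_finrankAlong` (generic): `[F : K(x)] * [F' : φ F] = [F' : K(φ x)]`;
* `finrank_jBar`                  : `[F_M : ℚ̄(j)] = ψ(M)` (landed S24 degree theorem + index);
* `dedekindPsi_mul_finrankAlong_heckeAlphaBar` : `ψ(N) * [F_{N m} : F_N] = ψ(N m)`;
* `finrankAlong_heckeAlphaBar_prime` : `[F_{N r} : F_N] = if r ∣ N then r else r + 1`, `r` prime;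
* `finrankAlong_heckeAlphaBar_two`, `_three` : the two instances of the plan
  (`ℓ = 3, r = 2`: degree `3 = ℓ`; `ℓ = 2, r = 3`: degree `4 = ℓ²`);
* `coprime_finrankAlong_heckeAlphaBar_plan` : for the auxiliary prime `r` of the plan the degree
  is a power of `ℓ`, hence coprime to every `c` with `ℓ ∤ c`;
* `sumRamInertiaAlong_heckeAlphaBar`, `pushforwardAlong_pullbackAlong_heckeAlphaBar`,
  `isPrincipal_finrank_nsmul_of_isPrincipal_pullbackAlong_heckeAlphaBar` : `α_* α^* = [F_{N m} : F_N]`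
  and the norm trick (NORMTRICK of `helper7934`, instantiated; exactly the hypothesis `hNT` of
  `helper872.isPrincipal_of_transfer`);
* `isPrincipal_of_isPrincipal_pullbackAlong_heckeAlphaBar_plan`, `pic0_eq_zero_of_pullbackAlong_plan` :
  a class killed by some `c` with `ℓ ∤ c` whose pull-back to level `N r` is principal is zero;
* `tors_clause_of_alpha_plan` : the torsion clause (R3) at level `N` from the torsion clause at
  level `N r` and the transfer `α^* Kd ⊆ Kd'` (plan modules E1 + E5 + E6, modular instance).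
-/
import Fermat.Agent.S37.helper8426_HeckeInputs
import Fermat.Agent.S37.helper7934_NormTrick
import Fermat.Agent.S24.helper1356_StmtComb

set_option autoImplicit false

open ModularCurve AlgebraicCurve IntermediateField

namespace Fermat.Agent.S37.helper9342

open Fermat.Agent.S24.helper24

/-! ## Generic: the tower law along an algebra hom -/

section Generic

variable {K F F' : Type*} [Field K] [Field F] [Field F'] [Algebra K F] [Algebra K F']

/-- Tower law along `φ : F →ₐ[K] F'` over an intermediate field `E` of `F/K`: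
`[F : E] * [F' : φ F] = [F' : φ E]`. -/
theorem finrank_mul_finrankAlong_eq_map (φ : F →ₐ[K] F') (E : IntermediateField K F) :
    Module.finrank E F * finrankAlong K φ = Module.finrank (E.map φ) F' := by
  let _ := algebraAlong φ
  have := isScalarTower_along φ
  let algEF' : Algebra E F' := ((algebraMap F F').comp (algebraMap E F)).toAlgebra
  have : IsScalarTower E F F' := IsScalarTower.of_algebraMap_eq (fun _ => rfl)
  have h1 : Module.finrank E F * Module.finrank F F' = Module.finrank E F' :=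
    Module.finrank_mul_finrank E F F'
  have h2 : Module.finrank E F' = Module.finrank (E.map φ) F' := by
    refine Algebra.finrank_eq_of_equiv_equiv (E.equivMap φ).toRingEquiv (RingEquiv.refl F') ?_
    ext e
    rfl
  exact h1.trans h2

/-- Tower law along `φ : F →ₐ[K] F'`: `[F : K(x)] * [F' : φ F] = [F' : K(φ x)]`. -/
theorem finrank_adjoin_mul_finrankAlong (φ : F →ₐ[K] F') (x : F) :
    Module.finrank K⟮x⟯ F * finrankAlong K φ = Module.finrank K⟮φ x⟯ F' := by
  have h : (K⟮x⟯).map φ = K⟮φ x⟯ := by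
    rw [adjoin_map, Set.image_singleton]
  rw [← h]
  exact finrank_mul_finrankAlong_eq_map φ K⟮x⟯

end Generic

/-! ## The modular function fields over `ℚ̄` -/

section Modular

/-- The Dedekind psi function is positive at positive arguments. -/
theorem dedekindPsi_pos (M : ℕ) [NeZero M] : 0 < dedekindPsi M := by
  unfold dedekindPsi
  have h1 : (1 : ℕ) ∈ M.divisors.filter (fun d => Squarefree d) :=
    Finset.mem_filter.mpr ⟨Nat.one_mem_divisors.mpr (NeZero.ne M), squarefree_one⟩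
  have h2 := Finset.single_le_sum (f := fun d => M / d) (fun _ _ => Nat.zero_le _) h1
  simp only [Nat.div_one] at h2
  exact lt_of_lt_of_le (Nat.pos_of_ne_zero (NeZero.ne M)) h2

/-- `[F_M : ℚ̄(j)] = ψ(M)`: the landed S24 degree theorem composed with the index of `Γ₀(M)`. -/
theorem finrank_jBar (M : ℕ) [NeZero M] :
    Module.finrank Kbar⟮jBar M⟯ (FN M) = dedekindPsi M := by
  rw [(Fermat.Agent.S37.helper5162.stmt_JFinrank M).2]
  exact Fermat.Agent.S24.helper1356.stmt_Index M

variable (N m : ℕ) [NeZero N] [NeZero m]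

/-- `ψ(N) * [F_{N m} : F_N] = ψ(N m)` for the inclusion `α : F_N → F_{N m}` over `ℚ̄`. -/
theorem dedekindPsi_mul_finrankAlong_heckeAlphaBar :
    dedekindPsi N * finrankAlong Kbar (heckeAlphaBar Kbar N m) = dedekindPsi (N * m) := by
  have h := finrank_adjoin_mul_finrankAlong (heckeAlphaBar Kbar N m) (jBar N)
  rw [Fermat.Agent.S37.helper5162.heckeAlphaBar_jBar, finrank_jBar, finrank_jBar] at h
  exact h

/-- The degree of `F_{N m}` over `F_N` is positive. -/
theorem finrankAlong_heckeAlphaBar_pos :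
    0 < finrankAlong Kbar (heckeAlphaBar Kbar N m) := by
  have h := dedekindPsi_mul_finrankAlong_heckeAlphaBar N m
  have hpos : 0 < dedekindPsi (N * m) := dedekindPsi_pos (N * m)
  rcases Nat.eq_zero_or_pos (finrankAlong Kbar (heckeAlphaBar Kbar N m)) with h0 | h0
  · rw [h0, mul_zero] at h
    omega
  · exact h0

/-- `[F_{N r} : F_N] = r` or `r + 1` for a prime `r`, according to whether `r ∣ N` or not. -/
theorem finrankAlong_heckeAlphaBar_prime {r : ℕ} [NeZero r] (hr : r.Prime) :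
    finrankAlong Kbar (heckeAlphaBar Kbar N r) = if r ∣ N then r else r + 1 := by
  have h := dedekindPsi_mul_finrankAlong_heckeAlphaBar N r
  rw [Fermat.Agent.Lib.helper1356.dedekindPsi_mul_prime hr (NeZero.ne N), mul_comm] at h
  exact Nat.eq_of_mul_eq_mul_right (dedekindPsi_pos N) h

/-- `[F_{N r} : F_N] = r + 1` for a prime `r ∤ N`. -/
theorem finrankAlong_heckeAlphaBar_of_not_dvd {r : ℕ} [NeZero r] (hr : r.Prime) (hrN : ¬ r ∣ N) :
    finrankAlong Kbar (heckeAlphaBar Kbar N r) = r + 1 := by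
  rw [finrankAlong_heckeAlphaBar_prime N hr, if_neg hrN]

/-- `[F_{N r} : F_N] = r` for a prime `r ∣ N`. -/
theorem finrankAlong_heckeAlphaBar_of_dvd {r : ℕ} [NeZero r] (hr : r.Prime) (hrN : r ∣ N) :
    finrankAlong Kbar (heckeAlphaBar Kbar N r) = r := by
  rw [finrankAlong_heckeAlphaBar_prime N hr, if_pos hrN]

/-- Plan instance `ℓ = 3`, `r = 2`: `[F_{2N} : F_N] = 3` for odd `N`. -/
theorem finrankAlong_heckeAlphaBar_two (h2 : ¬ 2 ∣ N) :
    finrankAlong Kbar (heckeAlphaBar Kbar N 2) = 3 :=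
  finrankAlong_heckeAlphaBar_of_not_dvd N Nat.prime_two h2

/-- Plan instance `ℓ = 2`, `r = 3`: `[F_{3N} : F_N] = 4` for `3 ∤ N`. -/
theorem finrankAlong_heckeAlphaBar_three (h3 : ¬ 3 ∣ N) :
    finrankAlong Kbar (heckeAlphaBar Kbar N 3) = 4 :=
  finrankAlong_heckeAlphaBar_of_not_dvd N Nat.prime_three h3

/-- The auxiliary prime of the plan: `r = 2` for `ℓ = 3`, `r = 3` for `ℓ = 2`. For `r ∤ N` the
degree `[F_{N r} : F_N]` is a power of `ℓ`. -/
theorem finrankAlong_heckeAlphaBar_plan {ℓ r : ℕ} [NeZero r]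
    (hℓr : (ℓ = 3 ∧ r = 2) ∨ (ℓ = 2 ∧ r = 3)) (hrN : ¬ r ∣ N) :
    ∃ k : ℕ, finrankAlong Kbar (heckeAlphaBar Kbar N r) = ℓ ^ k := by
  rcases hℓr with ⟨rfl, rfl⟩ | ⟨rfl, rfl⟩
  · exact ⟨1, by rw [finrankAlong_heckeAlphaBar_two N hrN, pow_one]⟩
  · exact ⟨2, by rw [finrankAlong_heckeAlphaBar_three N hrN]; norm_num⟩

/-- For the auxiliary prime `r` of the plan and `r ∤ N`, the degree `[F_{N r} : F_N]` is coprime
to every `m` not divisible by `ℓ` (e.g. `m = p ^ n` with `ℓ ∤ p`). -/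
theorem coprime_finrankAlong_heckeAlphaBar_plan {ℓ r : ℕ} [NeZero r] (hℓ : ℓ.Prime)
    (hℓr : (ℓ = 3 ∧ r = 2) ∨ (ℓ = 2 ∧ r = 3)) (hrN : ¬ r ∣ N) {c : ℕ} (hc : ¬ ℓ ∣ c) :
    Nat.Coprime c (finrankAlong Kbar (heckeAlphaBar Kbar N r)) := by
  obtain ⟨k, hk⟩ := finrankAlong_heckeAlphaBar_plan N hℓr hrN
  rw [hk]
  exact Nat.Coprime.pow_right k ((Nat.Prime.coprime_iff_not_dvd hℓ).mpr hc).symm

end Modular

/-! ## The norm trick along the inclusion `α : F_N → F_{N m}` -/

section NormTrick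

variable (N m : ℕ) [NeZero N] [NeZero m]

/-- `∑_{w | v} e(w) f(w) = [F_{N m} : F_N]` at every place `v` of `F_N`. -/
theorem sumRamInertiaAlong_heckeAlphaBar
    (hα : (heckeAlphaBar Kbar N m).toRingHom.IsIntegral) :
    Fermat.Agent.S37.helper7934.SumRamInertiaAlong (heckeAlphaBar Kbar N m) hα :=
  Fermat.Agent.S37.helper7934.sumRamInertiaAlong_of_deg_eq_one _ _
    (Fermat.Agent.S37.helper8426.fundamentalIdentityAlong_heckeAlphaBar N m)
    (Fermat.Agent.S37.helper5162.place_deg_eq_one N)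

/-- `α_* α^* D = [F_{N m} : F_N] • D` on divisors of `F_N`. -/
theorem pushforwardAlong_pullbackAlong_heckeAlphaBar
    (hα : (heckeAlphaBar Kbar N m).toRingHom.IsIntegral) (D : Divisor Kbar (FN N)) :
    Divisor.pushforwardAlong (heckeAlphaBar Kbar N m) hα
        (Divisor.pullbackAlong (heckeAlphaBar Kbar N m) hα D)
      = finrankAlong Kbar (heckeAlphaBar Kbar N m) • D :=
  Fermat.Agent.S37.helper7934.pushforwardAlong_pullbackAlong _ _
    (sumRamInertiaAlong_heckeAlphaBar N m hα) D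

/-- NORMTRICK for `α`: if `α^* D` is principal then `[F_{N m} : F_N] • D` is principal. -/
theorem isPrincipal_finrank_nsmul_of_isPrincipal_pullbackAlong_heckeAlphaBar
    (hα : (heckeAlphaBar Kbar N m).toRingHom.IsIntegral) (D : Divisor Kbar (FN N))
    (hD : (Divisor.pullbackAlong (heckeAlphaBar Kbar N m) hα D).IsPrincipal) :
    (finrankAlong Kbar (heckeAlphaBar Kbar N m) • D).IsPrincipal :=
  Fermat.Agent.S37.helper7934.isPrincipal_finrank_nsmul_of_isPrincipal_pullbackAlong _ _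
    (sumRamInertiaAlong_heckeAlphaBar N m hα)
    (Fermat.Agent.S37.helper5162.finiteAlong_heckeAlphaBar N m)
    (Fermat.Agent.S37.helper8426.normFormulaAlong_heckeAlphaBar N m) hD

variable {ℓ r : ℕ} [NeZero r]

/-- Divisor form of the plan's norm trick: `c • D` principal with `ℓ ∤ c`, and `α^* D` principal
at the auxiliary level `N r` ⟹ `D` principal. -/
theorem isPrincipal_of_isPrincipal_pullbackAlong_heckeAlphaBar_plan (hℓ : ℓ.Prime)
    (hℓr : (ℓ = 3 ∧ r = 2) ∨ (ℓ = 2 ∧ r = 3)) (hrN : ¬ r ∣ N)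
    (hα : (heckeAlphaBar Kbar N r).toRingHom.IsIntegral)
    {c : ℕ} (hc : ¬ ℓ ∣ c) {D : Divisor Kbar (FN N)} (hcD : (c • D).IsPrincipal)
    (hD : (Divisor.pullbackAlong (heckeAlphaBar Kbar N r) hα D).IsPrincipal) :
    D.IsPrincipal :=
  Fermat.Agent.S37.helper7934.isPrincipal_of_coprime_nsmul
    (coprime_finrankAlong_heckeAlphaBar_plan N hℓ hℓr hrN hc) hcD
    (isPrincipal_finrank_nsmul_of_isPrincipal_pullbackAlong_heckeAlphaBar N r hα D hD)

/-- `Pic0` form: a class of `J₀(N)` killed by some `c` with `ℓ ∤ c`, with a representative whose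
pull-back to level `N r` is principal, is zero. -/
theorem pic0_eq_zero_of_pullbackAlong_plan (hℓ : ℓ.Prime)
    (hℓr : (ℓ = 3 ∧ r = 2) ∨ (ℓ = 2 ∧ r = 3)) (hrN : ¬ r ∣ N)
    (hα : (heckeAlphaBar Kbar N r).toRingHom.IsIntegral)
    {x : JZero N} {c : ℕ} (hc : ¬ ℓ ∣ c) (hx : c • x = 0)
    (D : Divisor.degZero (K := Kbar) (F := FN N)) (hxD : Pic0.mk D = x)
    (hD : (Divisor.pullbackAlong (heckeAlphaBar Kbar N r) hα (D : Divisor Kbar (FN N))).IsPrincipal) :
    x = 0 :=
  Fermat.Agent.S37.helper7934.pic0_eq_zero_of_coprime _ _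
    (sumRamInertiaAlong_heckeAlphaBar N r hα)
    (Fermat.Agent.S37.helper5162.finiteAlong_heckeAlphaBar N r)
    (Fermat.Agent.S37.helper8426.normFormulaAlong_heckeAlphaBar N r) hx
    (coprime_finrankAlong_heckeAlphaBar_plan N hℓ hℓr hrN hc) D hxD hD

/-- **The torsion clause (R3) at level `N` from level `N r`** (plan modules E1 + E5 + E6 in the
modular instance). `Kd`, `Kd'` are the divisor-level kernels at levels `N`, `N r`; `hX` is the
transfer (E1 XFER); `hT'` is the torsion clause at the auxiliary level. -/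
theorem tors_clause_of_alpha_plan (hℓ : ℓ.Prime)
    (hℓr : (ℓ = 3 ∧ r = 2) ∨ (ℓ = 2 ∧ r = 3)) (hrN : ¬ r ∣ N)
    (hα : (heckeAlphaBar Kbar N r).toRingHom.IsIntegral)
    (Kd : AddSubgroup (Divisor Kbar (FN N))) (Kd' : AddSubgroup (Divisor Kbar (FN (N * r))))
    (hX : ∀ D ∈ Kd, Divisor.pullbackAlong (heckeAlphaBar Kbar N r) hα D ∈ Kd')
    {p : ℕ} (hp : ¬ ℓ ∣ p)
    (hT' : ∀ D' ∈ Kd', Divisor.degree D' = 0 → ∀ n : ℕ, (p ^ n • D').IsPrincipal →
      D'.IsPrincipal)
    {D : Divisor Kbar (FN N)} (hD : D ∈ Kd) (hdeg : Divisor.degree D = 0) (n : ℕ)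
    (hpD : (p ^ n • D).IsPrincipal) : D.IsPrincipal := by
  have hpn : ¬ ℓ ∣ p ^ n := fun h => hp (hℓ.dvd_of_dvd_pow h)
  refine isPrincipal_of_isPrincipal_pullbackAlong_heckeAlphaBar_plan N hℓ hℓr hrN hα hpn hpD ?_
  refine hT' _ (hX D hD) ?_ n ?_
  · rw [Divisor.degree_pullbackAlong _ hα
      (Fermat.Agent.S37.helper8426.fundamentalIdentityAlong_heckeAlphaBar N r), hdeg, mul_zero]
  · rw [← map_nsmul]
    exact Divisor.isPrincipal_pullbackAlong _ hα hpD

end NormTrick

end Fermat.Agent.S37.helper9342
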