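import Mathlib
import Fermat.Agent.S18.helper3054_Kummer
import Fermat.Agent.S18.helper508_GaussMod

/-!
# The Kummer field form of S18 reduces to the case `w = 1` (helper6807)

`Stmt_KF0 N ℓ` (S18, `helper3054`) asks: `a b` integral functions of level `N`, `m` prime to
`ℓ`, `m ∣ ord_P (a/b)` for all `P`, `ā = w ^ m * b̄`  ⟹  `a = c' * V ^ m * b`.

Since every element of the characteristic-`ℓ` function field is the coefficientwise reduction of
an `A`-integral series of the characteristic-zero function field (`helper508`, (LIFT)), one may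
replace `b` by `b * X ^ m` with `X̄ = w`: it suffices to treat `w = 1`, i.e. `ā = b̄`
(`Stmt_KF1`).  This is the only case the track T-FRIG of S37 uses.
-/

set_option autoImplicit false

noncomputable section

open ModularCurve AlgebraicCurve HahnSeries

namespace Fermat.Agent.S37.helper6807

open Fermat.Agent.S18.helper3054

/-- **Kummer field form, `w = 1`**: two integral functions with the same reduction whose
quotient has divisor divisible by `m` (prime to `ℓ`) differ by a constant times an `m`-th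
power. -/
def Stmt_KF1 (N : ℕ) [NeZero N] (ℓ : ℕ) : Prop :=
  ∀ (A : ValuationSubring (AlgebraicClosure ℚ)), A.LiesOverPrime ℓ →
  ∀ (m : ℕ), ¬ ℓ ∣ m →
  ∀ (a b : IntegralFn A N),
    (∀ P : Place (AlgebraicClosure ℚ) (modularFunctionFieldBar N),
      (m : ℤ) ∣ P.ord a.gen - P.ord b.gen) →
    a.red = b.red →
    ∃ (V : modularFunctionFieldBar N) (c' : AlgebraicClosure ℚ),
      a.gen = algebraMap (AlgebraicClosure ℚ) (modularFunctionFieldBar N) c' * V ^ m * b.gen

/-- Powers of an integral function. -/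
def ipow {A : ValuationSubring (AlgebraicClosure ℚ)} {N : ℕ} (X : IntegralFn A N) :
    ℕ → IntegralFn A N
  | 0 => IntegralFn.one
  | n + 1 => (ipow X n).mul X

theorem gen_ipow {A : ValuationSubring (AlgebraicClosure ℚ)} {N : ℕ} (X : IntegralFn A N)
    (n : ℕ) : (ipow X n).gen = X.gen ^ n := by
  induction n with
  | zero => rw [ipow, IntegralFn.gen_one, pow_zero]
  | succ n ih => rw [ipow, IntegralFn.gen_mul, ih, pow_succ]

theorem red_ipow {A : ValuationSubring (AlgebraicClosure ℚ)} {N : ℕ} (X : IntegralFn A N)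
    (n : ℕ) : (ipow X n).red = X.red ^ n := by
  induction n with
  | zero => rw [ipow, IntegralFn.red_one, pow_zero]
  | succ n ih => rw [ipow, IntegralFn.red_mul, ih, pow_succ]

/-- The case `w = 1` is a special case. -/
theorem kf1_of_kf0 {N : ℕ} [NeZero N] {ℓ : ℕ} (h : Stmt_KF0 N ℓ) : Stmt_KF1 N ℓ := by
  intro A hA m hm a b hdvd hred
  exact h A hA m hm a b hdvd 1 one_ne_zero (by rw [one_pow, one_mul]; exact hred)

/-- **Reduction to `w = 1`.** -/
theorem kf0_of_kf1 {N : ℕ} [NeZero N] {ℓ : ℕ} (hℓ : ℓ.Prime) (hℓN : ¬ ℓ ∣ N)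
    (h : Stmt_KF1 N ℓ) : Stmt_KF0 N ℓ := by
  intro A hA m hm a b hdvd w hw hred
  haveI : Fact ℓ.Prime := ⟨hℓ⟩
  obtain ⟨y, hy, hyw⟩ := Fermat.Agent.S18.helper508.exists_coeffMap_residue_eq N ℓ hℓN A hA
    (w : LaurentSeries (IsLocalRing.ResidueField A)) w.2
  let X : IntegralFn A N :=
    ⟨y, hy, by rw [hyw]; exact w.2, by
      rw [hyw]; intro h0; exact hw (Subtype.ext h0)⟩
  have hXred : X.red = w := Subtype.ext hyw
  have hXgen : X.gen ≠ 0 := X.gen_ne_zero
  have hdvd' : ∀ P : Place (AlgebraicClosure ℚ) (modularFunctionFieldBar N),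
      (m : ℤ) ∣ P.ord a.gen - P.ord (b.mul (ipow X m)).gen := by
    intro P
    rw [IntegralFn.gen_mul, gen_ipow, P.ord_mul b.gen_ne_zero (pow_ne_zero m hXgen), ord_pow]
    have h1 := hdvd P
    have h2 : P.ord a.gen - (P.ord b.gen + (m : ℤ) * P.ord X.gen)
        = (P.ord a.gen - P.ord b.gen) - (m : ℤ) * P.ord X.gen := by ring
    rw [h2]
    exact dvd_sub h1 (dvd_mul_right _ _)
  have hred' : a.red = (b.mul (ipow X m)).red := by
    rw [IntegralFn.red_mul, red_ipow, hXred, hred, mul_comm]
  obtain ⟨V, c', hV⟩ := h A hA m hm a (b.mul (ipow X m)) hdvd' hred'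
  refine ⟨V * X.gen, c', ?_⟩
  rw [hV, IntegralFn.gen_mul, gen_ipow, mul_pow]
  ring

end Fermat.Agent.S37.helper6807

end
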