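import Mathlib
import Fermat.Agent.S37.helper6807_Frig
import Fermat.Agent.S37.helper6807_KF1
import Fermat.Agent.Lib.helper6879_ResidueQbar
import Fermat.Agent.Lib.helper54_Frobenius

/-!
# S37, track T-FRIG: the final wiring (helper6807)

The frozen statement S37 from the two open inputs of T-FRIG, with everything else discharged:

* `hKF0` : the `c = 1` Kummer field form `Stmt_KF0 N ℓ` of S18 at level `N` (S18's export
  `stmt_KF0_all`); converted to `Stmt_KF N ℓ` here, since the residue fields of the valuation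
  rings of `ℚ̄` are algebraically closed;
* `hFK`  : T-FRIG kernel data `FrigKernel N ℓ A σ Kd` for every Frobenius `σ` at `A` (the
  instance call of the abstract function-rigidity core).

Existence of a Frobenius element is `Lib.helper54.exists_isFrobeniusAt`.
-/

set_option autoImplicit false

noncomputable section

open AlgebraicCurve ModularCurve

namespace Fermat.Agent.S37.helper6807

open Fermat.Agent.S37.helper8353 (Qb GQ Stmt_Kernel)
open Fermat.Agent.S37.helper1138 (FNb)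
open Fermat.Agent.S18.helper3054 (Stmt_KF Stmt_KF0)

variable {N : ℕ} [NeZero N]

/-- `Stmt_KF0 N ℓ` gives `Stmt_KF N ℓ`: residue fields of valuation rings of `ℚ̄` are
algebraically closed. -/
theorem stmt_KF_of_KF0 {ℓ : ℕ} (h : Stmt_KF0 N ℓ) : Stmt_KF N ℓ :=
  Fermat.Agent.S18.helper3054.kf_of_kf0 N ℓ
    (fun A _ => Fermat.Agent.Lib.helper6879.isAlgClosed_residueField A) h

/-- **`Stmt_Kernel N` from T-FRIG**, inputs: S18's `Stmt_KF0` at level `N` and the T-FRIG kernel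
data for every Frobenius element. -/
theorem stmt_Kernel_of_kf0_of_frigKernel
    (hKF0 : ∀ ℓ : ℕ, ℓ.Prime → ¬ ℓ ∣ N → Stmt_KF0 N ℓ)
    (hFK : ∀ (ℓ : ℕ) [NeZero ℓ], ℓ.Prime → ¬ ℓ ∣ N → ∀ A : ValuationSubring Qb,
      A.LiesOverPrime ℓ → ∀ σ : GQ, A.IsFrobeniusAt σ ℓ →
        ∃ Kd : AddSubgroup (Divisor Qb (FNb N)), FrigKernel N ℓ A σ Kd) :
    Stmt_Kernel N :=
  stmt_Kernel_of_frigKernel (fun ℓ hℓ hℓN => stmt_KF_of_KF0 (hKF0 ℓ hℓ hℓN))
    (fun ℓ _ hℓ hℓN A hA => by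
      obtain ⟨σ, hσ⟩ := Fermat.Agent.Lib.helper54.exists_isFrobeniusAt hℓ A hA
      exact ⟨σ, hσ, hFK ℓ hℓ hℓN A hA σ hσ⟩)

/-- **The frozen statement S37 from T-FRIG** in the exact shape of `Fermat.Agent.S37.result`. -/
theorem frozen_of_kf0_of_frigKernel (N p : ℕ) [NeZero N]
    (hKF0 : ∀ ℓ : ℕ, ℓ.Prime → ¬ ℓ ∣ N → Stmt_KF0 N ℓ)
    (hFK : ∀ (ℓ : ℕ) [NeZero ℓ], ℓ.Prime → ¬ ℓ ∣ N → ∀ A : ValuationSubring Qb,
      A.LiesOverPrime ℓ → ∀ σ : GQ, A.IsFrobeniusAt σ ℓ →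
        ∃ Kd : AddSubgroup (Divisor Qb (FNb N)), FrigKernel N ℓ A σ Kd)
    (hcomm : HeckeOperatorsCommuteBar N) :
    letI := heckeModuleBar N
    ∀ (_ : SMulCommClass (AlgebraicClosure ℚ ≃ₐ[ℚ] AlgebraicClosure ℚ) HeckeAlg (JZero N)),
      SpecializationExists (K := ℚ) (L := AlgebraicClosure ℚ) N p (JZero N) :=
  Fermat.Agent.S37.helper8353.result_of_kernel p hcomm
    (stmt_Kernel_of_kf0_of_frigKernel hKF0 hFK)

/-- **The frozen statement S37 from T-FRIG**, with S18's input only in the case `w = 1`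
(`Stmt_KF1`, see `helper6807_KF1`). -/
theorem frozen_of_kf1_of_frigKernel (N p : ℕ) [NeZero N]
    (hKF1 : ∀ ℓ : ℕ, ℓ.Prime → ¬ ℓ ∣ N → Stmt_KF1 N ℓ)
    (hFK : ∀ (ℓ : ℕ) [NeZero ℓ], ℓ.Prime → ¬ ℓ ∣ N → ∀ A : ValuationSubring Qb,
      A.LiesOverPrime ℓ → ∀ σ : GQ, A.IsFrobeniusAt σ ℓ →
        ∃ Kd : AddSubgroup (Divisor Qb (FNb N)), FrigKernel N ℓ A σ Kd)
    (hcomm : HeckeOperatorsCommuteBar N) :
    letI := heckeModuleBar N
    ∀ (_ : SMulCommClass (AlgebraicClosure ℚ ≃ₐ[ℚ] AlgebraicClosure ℚ) HeckeAlg (JZero N)),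
      SpecializationExists (K := ℚ) (L := AlgebraicClosure ℚ) N p (JZero N) :=
  frozen_of_kf0_of_frigKernel N p (fun ℓ hℓ hℓN => kf0_of_kf1 hℓ hℓN (hKF1 ℓ hℓ hℓN)) hFK hcomm

end Fermat.Agent.S37.helper6807

end
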