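import Mathlib
import Fermat.Agent.S37.helper6807_FrigFinal
import Fermat.Agent.S37.helper117_FrigCore
import Fermat.Agent.S37.helper3298_FrigHalves

/-!
# S37, track T-FRIG: the kernel data on the good subgroup (helper6807)

The instance call of the T-FRIG chain: the good subgroup of the abstract function-rigidity core
(`helper117`) on `F_N` is T-FRIG kernel data `FrigKernel N ℓ A σ` for every prime `ℓ ∤ N`, every
valuation subring `A` of `ℚ̄` over `ℓ` and every Frobenius element `σ` at `A`: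

* (LOCF) `helper117.locFormula_goodSubgroup` (the counting core at `m = 1`);
* (D1⁰), (D2⁰) `helper117.mem_goodSubgroup_of_companion` with the degree bounds
  `inertiaDiv_bdd`, `esDiv_bdd` (this track) and the equal-reduction companions
  `helper3298.frig_inertia_pair`, `helper3298.frig_es_pair_esDiv1138` (function-level inertia
  triviality and Kronecker congruence).

Consequently the frozen statement S37 follows from S18's Kummer field form at level `N` alone:
`frozen_of_kf0`, `frozen_of_kf1`.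
-/

set_option autoImplicit false

noncomputable section

open AlgebraicCurve ModularCurve

namespace Fermat.Agent.S37.helper6807

open Fermat.Agent.S37.helper8353 (Qb GQ Stmt_Kernel)
open Fermat.Agent.S37.helper1138 (FNb gal inertiaDiv esDiv)
open Fermat.Agent.S18.helper3054 (Stmt_KF0)

/-- **T-FRIG kernel data on the good subgroup**, for every Frobenius element. -/
theorem frigKernel_good (N : ℕ) [NeZero N] (ℓ : ℕ) [NeZero ℓ] (hℓ : ℓ.Prime) (hℓN : ¬ ℓ ∣ N)
    (A : ValuationSubring Qb) (hA : A.LiesOverPrime ℓ) (σ : GQ) (hσ : A.IsFrobeniusAt σ ℓ) :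
    FrigKernel N ℓ A σ
      (Fermat.Agent.S37.helper117.goodSubgroup (Fermat.Agent.S37.helper117.integralPairs A N)) := by
  have hnf := Fermat.Agent.S37.helper872.normalForm_of_liesOverPrime hℓ hℓN hA
  refine ⟨Fermat.Agent.S37.helper117.locFormula_goodSubgroup A N, ?_, ?_⟩
  · intro τ hτ D hD
    exact Fermat.Agent.S37.helper117.mem_goodSubgroup_of_companion A N hnf
      (inertiaDiv (N := N) τ) 1 (inertiaDiv_bdd τ)
      (fun a b D hD => Fermat.Agent.S37.helper3298.frig_inertia_pair N A hτ a b D hD) D hD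
  · intro D hD
    exact Fermat.Agent.S37.helper117.mem_goodSubgroup_of_companion A N hnf
      (esDiv ℓ (Fermat.Agent.S37.helper5162.heckeAlphaBarIntegral N ℓ)
        (Fermat.Agent.S37.helper5162.heckeBetaBarIntegral N ℓ) σ)
      ((ℓ : ℤ) + 1 + (finrankAlong Qb (heckeBetaBar Qb N ℓ) : ℤ))
      (esDiv_bdd ℓ _ _ (Fermat.Agent.S37.helper8426.fundamentalIdentityAlong_heckeBetaBar N ℓ) σ)
      (fun a b D hD => Fermat.Agent.S37.helper3298.frig_es_pair_esDiv1138 N ℓ hℓ hℓN A hA hσ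
        _ _ a b D hD) D hD

/-- **`Stmt_Kernel N` from S18's Kummer field form at level `N`.** -/
theorem stmt_Kernel_of_kf0 {N : ℕ} [NeZero N]
    (hKF0 : ∀ ℓ : ℕ, ℓ.Prime → ¬ ℓ ∣ N → Stmt_KF0 N ℓ) : Stmt_Kernel N :=
  stmt_Kernel_of_kf0_of_frigKernel hKF0
    (fun ℓ _ hℓ hℓN A hA σ hσ => ⟨_, frigKernel_good N ℓ hℓ hℓN A hA σ hσ⟩)

/-- **The frozen statement S37 from S18's Kummer field form `Stmt_KF0` at level `N`.** -/
theorem frozen_of_kf0 (N p : ℕ) [NeZero N]
    (hKF0 : ∀ ℓ : ℕ, ℓ.Prime → ¬ ℓ ∣ N → Stmt_KF0 N ℓ)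
    (hcomm : HeckeOperatorsCommuteBar N) :
    letI := heckeModuleBar N
    ∀ (_ : SMulCommClass (AlgebraicClosure ℚ ≃ₐ[ℚ] AlgebraicClosure ℚ) HeckeAlg (JZero N)),
      SpecializationExists (K := ℚ) (L := AlgebraicClosure ℚ) N p (JZero N) :=
  frozen_of_kf0_of_frigKernel N p hKF0
    (fun ℓ _ hℓ hℓN A hA σ hσ => ⟨_, frigKernel_good N ℓ hℓ hℓN A hA σ hσ⟩) hcomm

/-- **The frozen statement S37 from the `w = 1` Kummer field form `Stmt_KF1` at level `N`.** -/
theorem frozen_of_kf1 (N p : ℕ) [NeZero N]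
    (hKF1 : ∀ ℓ : ℕ, ℓ.Prime → ¬ ℓ ∣ N → Stmt_KF1 N ℓ)
    (hcomm : HeckeOperatorsCommuteBar N) :
    letI := heckeModuleBar N
    ∀ (_ : SMulCommClass (AlgebraicClosure ℚ ≃ₐ[ℚ] AlgebraicClosure ℚ) HeckeAlg (JZero N)),
      SpecializationExists (K := ℚ) (L := AlgebraicClosure ℚ) N p (JZero N) :=
  frozen_of_kf0 N p (fun ℓ hℓ hℓN => kf0_of_kf1 hℓ hℓN (hKF1 ℓ hℓ hℓN)) hcomm

end Fermat.Agent.S37.helper6807

end
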