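import Mathlib

/-!
# S37-MSET (helper1138): finite multisets of points are determined by value polynomials

Mathlib-only, statement-agnostic.  This is the "pairing of roots" step of the point-level
Kronecker congruence: if two finite multisets `S`, `T` of ring homomorphisms `R →+* k` into a
field (all of them taking the same values on an infinite family of "constants" with pairwise
distinct values) satisfy

  `∏_{s ∈ S} (X - s f) = ∏_{t ∈ T} (X - t f)`   for every `f : R`,

then `S = T` (with multiplicities).

* `exists_separating`            : (M0) finitely many homs different from `s0` are separated from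
                                    `s0` by one element of `R`.
* `multiset_eq_of_value_poly_eq` : (M1) the general statement for ring homs.
* `multiset_algHom_eq_of_value_poly_eq`     : (M2) `k`-algebra homs `R →ₐ[k] k`, `k` infinite.
* `multiset_algHom_eq_of_value_poly_eq_of_surjective` : (M2') `A`-algebra homs `R →ₐ[A] k`
                                    with `algebraMap A k` surjective and `k` infinite.
* `finsupp_eq_of_value_poly_eq`, `finsupp_algHom_eq_of_value_poly_eq`,
  `finsupp_algHom_eq_of_value_poly_eq_of_surjective` : the same for multiplicity functions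
                                    `(R →+* k) →₀ ℕ` (effective divisors on the set of points).
-/

set_option autoImplicit false

open Polynomial

namespace Fermat.Agent.S37.helper1138

section Core

variable {R k ι : Type*} [CommRing R] [Field k]

/-- (M0) **Separation.** Let `s0 : R →+* k` and let `T` be a finite set of ring homs `R →+* k`,
all different from `s0`.  Assume there is an infinite family of "constants" `c i : R` on which
`s0` and all `t ∈ T` take the same values `γ i`, pairwise distinct.  Then a single `f : R`
satisfies `t f ≠ s0 f` for all `t ∈ T`. -/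
theorem exists_separating [Infinite ι] (c : ι → R) (γ : ι → k) (hγ : Function.Injective γ)
    (s0 : R →+* k) (hs0 : ∀ i, s0 (c i) = γ i)
    (T : Finset (R →+* k)) (hT : ∀ t ∈ T, ∀ i, t (c i) = γ i) (hne : ∀ t ∈ T, t ≠ s0) :
    ∃ f : R, ∀ t ∈ T, t f ≠ s0 f := by
  classical
  induction T using Finset.induction_on with
  | empty => exact ⟨0, by simp⟩
  | insert t1 T' _ ih =>
    obtain ⟨f, hf⟩ := ih (fun t ht => hT t (Finset.mem_insert_of_mem ht))
      (fun t ht => hne t (Finset.mem_insert_of_mem ht))
    have h1 : t1 ≠ s0 := hne t1 (Finset.mem_insert_self _ _)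
    obtain ⟨g, hg⟩ : ∃ g, t1 g ≠ s0 g := by
      by_contra hcon
      exact h1 (RingHom.ext fun g => by_contra fun hg => hcon ⟨g, hg⟩)
    -- for each `t`, at most one index `i` is bad
    have huniq : ∀ t ∈ insert t1 T', ∀ i j,
        t (f + c i * g) = s0 (f + c i * g) → t (f + c j * g) = s0 (f + c j * g) → i = j := by
      intro t ht i j hi hj
      by_contra hij
      have hti := hT t ht i
      have htj := hT t ht j
      simp only [map_add, map_mul, hti, htj, hs0] at hi hj
      have hsub : (γ i - γ j) * (t g - s0 g) = 0 := by linear_combination hi - hj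
      have hγij : γ i - γ j ≠ 0 := sub_ne_zero.mpr (fun h => hij (hγ h))
      have htg : t g = s0 g := by
        rcases mul_eq_zero.mp hsub with h | h
        · exact absurd h hγij
        · exact sub_eq_zero.mp h
      have htf : t f = s0 f := by
        rw [htg] at hi
        exact add_right_cancel hi
      rcases Finset.mem_insert.mp ht with rfl | ht'
      · exact hg htg
      · exact hf t ht' htf
    have hne' : Nonempty ι := inferInstance
    let pick : (R →+* k) → ι := fun t =>
      if h : ∃ i, t (f + c i * g) = s0 (f + c i * g) then h.choose else Classical.arbitrary ι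
    obtain ⟨i, hi⟩ := Infinite.exists_notMem_finset ((insert t1 T').image pick)
    refine ⟨f + c i * g, fun t ht hbad => hi ?_⟩
    have hex : ∃ i, t (f + c i * g) = s0 (f + c i * g) := ⟨i, hbad⟩
    have hpick : pick t = i := by
      have : pick t = hex.choose := dif_pos hex
      rw [this]
      exact huniq t ht _ _ hex.choose_spec hbad
    exact Finset.mem_image.mpr ⟨t, ht, hpick⟩

/-- (M1) **Multisets of points are determined by their value polynomials** (ring-hom form).
`S`, `T` are finite multisets of ring homs `R →+* k`, all of which take the values `γ i` on an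
infinite family of constants `c i` (`γ` injective).  If for every `f : R` the polynomials
`∏_{s ∈ S} (X - s f)` and `∏_{t ∈ T} (X - t f)` agree, then `S = T`. -/
theorem multiset_eq_of_value_poly_eq [Infinite ι] (c : ι → R) (γ : ι → k)
    (hγ : Function.Injective γ) (S T : Multiset (R →+* k))
    (hS : ∀ s ∈ S, ∀ i, s (c i) = γ i) (hT : ∀ t ∈ T, ∀ i, t (c i) = γ i)
    (h : ∀ f : R, (S.map fun s => (X - C (s f) : k[X])).prod
      = (T.map fun t => (X - C (t f) : k[X])).prod) :
    S = T := by
  classical
  induction S using Multiset.induction_on generalizing T with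
  | empty =>
    have h0 := h 0
    simp only [Multiset.map_zero, Multiset.prod_zero] at h0
    have hdeg : (T.map fun t => (X - C (t 0) : k[X])).prod.natDegree = Multiset.card T := by
      have := Polynomial.natDegree_multiset_prod_X_sub_C_eq_card (T.map fun t => t (0 : R))
      rw [Multiset.map_map, Multiset.card_map] at this
      exact this
    rw [← h0, natDegree_one] at hdeg
    exact (Multiset.card_eq_zero.mp hdeg.symm).symm
  | cons s0 S' ih =>
    have hs0 : ∀ i, s0 (c i) = γ i := hS s0 (Multiset.mem_cons_self _ _)
    have hmem : s0 ∈ T := by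
      by_contra hnot
      obtain ⟨f, hf⟩ := exists_separating c γ hγ s0 hs0 T.toFinset
        (fun t ht => hT t (Multiset.mem_toFinset.mp ht))
        (fun t ht hts => hnot (hts ▸ Multiset.mem_toFinset.mp ht))
      have hev := congrArg (Polynomial.eval (s0 f)) (h f)
      rw [Multiset.map_cons, Multiset.prod_cons, eval_mul, eval_sub, eval_X, eval_C, sub_self,
        zero_mul] at hev
      have hprod : Polynomial.eval (s0 f) (T.map fun t => (X - C (t f) : k[X])).prod
          = (T.map fun t => s0 f - t f).prod := by
        rw [Polynomial.eval_multiset_prod, Multiset.map_map]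
        congr 1
        refine Multiset.map_congr rfl (fun t _ => ?_)
        simp
      rw [hprod] at hev
      have h0 : (0 : k) ∈ T.map fun t => s0 f - t f := Multiset.prod_eq_zero_iff.mp hev.symm
      obtain ⟨a, ha, ha0⟩ := Multiset.mem_map.mp h0
      exact hf a (Multiset.mem_toFinset.mpr ha) (sub_eq_zero.mp ha0).symm
    obtain ⟨T', rfl⟩ := Multiset.exists_cons_of_mem hmem
    congr 1
    refine ih T' (fun s hs => hS s (Multiset.mem_cons_of_mem hs))
      (fun t ht => hT t (Multiset.mem_cons_of_mem ht)) (fun f => ?_)
    have hf := h f
    rw [Multiset.map_cons, Multiset.prod_cons, Multiset.map_cons, Multiset.prod_cons] at hf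
    exact mul_left_cancel₀ (X_sub_C_ne_zero (s0 f)) hf

/-- The value polynomial of the multiset `∑ v ∈ I, e v • {r v}`. -/
theorem prod_map_sum_nsmul_singleton {U : Type*} (I : Finset U) (e : U → ℕ) (r : U → R →+* k)
    (f : R) :
    ((∑ v ∈ I, e v • ({r v} : Multiset (R →+* k))).map fun s => (X - C (s f) : k[X])).prod
      = ∏ v ∈ I, (X - C (r v f) : k[X]) ^ e v := by
  classical
  induction I using Finset.induction_on with
  | empty => simp
  | insert a I' ha ih =>
    rw [Finset.sum_insert ha, Finset.prod_insert ha, Multiset.map_add, Multiset.prod_add, ih,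
      Multiset.map_nsmul, Multiset.prod_nsmul, Multiset.map_singleton, Multiset.prod_singleton]

theorem mem_sum_nsmul_singleton {U : Type*} (I : Finset U) (e : U → ℕ) (r : U → R →+* k)
    (s : R →+* k) (hs : s ∈ ∑ v ∈ I, e v • ({r v} : Multiset (R →+* k))) :
    ∃ v ∈ I, s = r v := by
  classical
  induction I using Finset.induction_on with
  | empty => simp at hs
  | insert a I' ha ih =>
    rw [Finset.sum_insert ha, Multiset.mem_add] at hs
    rcases hs with hs | hs
    · have := Multiset.mem_of_mem_nsmul hs
      exact ⟨a, Finset.mem_insert_self _ _, Multiset.mem_singleton.mp this⟩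
    · obtain ⟨v, hv, hsv⟩ := ih hs
      exact ⟨v, Finset.mem_insert_of_mem hv, hsv⟩

theorem toFinsupp_sum_nsmul_singleton {U : Type*} (I : Finset U) (e : U → ℕ)
    (r : U → R →+* k) [DecidableEq (R →+* k)] :
    Multiset.toFinsupp (∑ v ∈ I, e v • ({r v} : Multiset (R →+* k)))
      = ∑ v ∈ I, Finsupp.single (r v) (e v) := by
  rw [map_sum]
  refine Finset.sum_congr rfl (fun v _ => ?_)
  rw [map_nsmul, Multiset.toFinsupp_singleton, Finsupp.smul_single, smul_eq_mul, mul_one]

/-- (M1, indexed form) Two finite families of points with multiplicities, `(r v, e v)` for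
`v ∈ I` and `(r' w, e' w)` for `w ∈ J`, having the same value polynomials, define the same
effective divisor on the set of points: `∑ v ∈ I, e v • [r v] = ∑ w ∈ J, e' w • [r' w]`. -/
theorem sum_single_eq_of_value_poly_eq [Infinite ι] (c : ι → R) (γ : ι → k)
    (hγ : Function.Injective γ) {V W : Type*} (I : Finset V) (J : Finset W)
    (e : V → ℕ) (e' : W → ℕ) (r : V → R →+* k) (r' : W → R →+* k)
    (hr : ∀ v ∈ I, ∀ i, r v (c i) = γ i) (hr' : ∀ w ∈ J, ∀ i, r' w (c i) = γ i)
    (h : ∀ f : R, ∏ v ∈ I, (X - C (r v f) : k[X]) ^ e v = ∏ w ∈ J, (X - C (r' w f) : k[X]) ^ e' w) :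
    ∑ v ∈ I, Finsupp.single (r v) (e v) = ∑ w ∈ J, Finsupp.single (r' w) (e' w) := by
  classical
  have hST : (∑ v ∈ I, e v • ({r v} : Multiset (R →+* k)))
      = ∑ w ∈ J, e' w • ({r' w} : Multiset (R →+* k)) := by
    refine multiset_eq_of_value_poly_eq c γ hγ _ _ ?_ ?_ (fun f => ?_)
    · intro s hs i
      obtain ⟨v, hv, rfl⟩ := mem_sum_nsmul_singleton I e r s hs
      exact hr v hv i
    · intro t ht i
      obtain ⟨w, hw, rfl⟩ := mem_sum_nsmul_singleton J e' r' t ht
      exact hr' w hw i
    · rw [prod_map_sum_nsmul_singleton I e r f, prod_map_sum_nsmul_singleton J e' r' f]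
      exact h f
  rw [← toFinsupp_sum_nsmul_singleton I e r, ← toFinsupp_sum_nsmul_singleton J e' r']
  exact congrArg _ hST

end Core

section Algebra

variable {k R : Type*} [Field k] [Infinite k] [CommRing R]

/-- (M2) Multisets of `k`-points `R →ₐ[k] k` of a `k`-algebra (`k` an infinite field) are
determined by their value polynomials. -/
theorem multiset_algHom_eq_of_value_poly_eq [Algebra k R] (S T : Multiset (R →ₐ[k] k))
    (h : ∀ f : R, (S.map fun s => (X - C (s f) : k[X])).prod
      = (T.map fun t => (X - C (t f) : k[X])).prod) :
    S = T := by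
  have hinj : Function.Injective (fun s : R →ₐ[k] k => (s : R →+* k)) := fun s t hst =>
    AlgHom.ext fun x => congrArg (fun u : R →+* k => u x) hst
  apply Multiset.map_injective hinj
  refine multiset_eq_of_value_poly_eq (fun x : k => algebraMap k R x) id Function.injective_id
    _ _ ?_ ?_ (fun f => ?_)
  · intro s hs i
    obtain ⟨s', _, rfl⟩ := Multiset.mem_map.mp hs
    simp
  · intro t ht i
    obtain ⟨t', _, rfl⟩ := Multiset.mem_map.mp ht
    simp
  · rw [Multiset.map_map, Multiset.map_map]
    exact h f

/-- (M2') Multisets of `A`-algebra homs `R →ₐ[A] k` into an infinite field `k` which is a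
quotient of `A` (`algebraMap A k` surjective; e.g. `A` a valuation ring, `k` its residue field)
are determined by their value polynomials. -/
theorem multiset_algHom_eq_of_value_poly_eq_of_surjective {A : Type*} [CommRing A] [Algebra A R]
    [Algebra A k] (hsurj : Function.Surjective (algebraMap A k)) (S T : Multiset (R →ₐ[A] k))
    (h : ∀ f : R, (S.map fun s => (X - C (s f) : k[X])).prod
      = (T.map fun t => (X - C (t f) : k[X])).prod) :
    S = T := by
  have hinj : Function.Injective (fun s : R →ₐ[A] k => (s : R →+* k)) := fun s t hst =>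
    AlgHom.ext fun x => congrArg (fun u : R →+* k => u x) hst
  apply Multiset.map_injective hinj
  refine multiset_eq_of_value_poly_eq
    (fun x : k => algebraMap A R (Function.surjInv hsurj x)) id Function.injective_id
    _ _ ?_ ?_ (fun f => ?_)
  · intro s hs i
    obtain ⟨s', _, rfl⟩ := Multiset.mem_map.mp hs
    simp [Function.surjInv_eq hsurj i]
  · intro t ht i
    obtain ⟨t', _, rfl⟩ := Multiset.mem_map.mp ht
    simp [Function.surjInv_eq hsurj i]
  · rw [Multiset.map_map, Multiset.map_map]
    exact h f

/-- (M2, indexed form) `k`-algebra homs: two finite families of points with multiplicities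
having the same value polynomials define the same effective divisor on the set of points. -/
theorem sum_single_algHom_eq_of_value_poly_eq [Algebra k R] {V W : Type*} (I : Finset V)
    (J : Finset W) (e : V → ℕ) (e' : W → ℕ) (r : V → R →ₐ[k] k) (r' : W → R →ₐ[k] k)
    (h : ∀ f : R, ∏ v ∈ I, (X - C (r v f) : k[X]) ^ e v = ∏ w ∈ J, (X - C (r' w f) : k[X]) ^ e' w) :
    ∑ v ∈ I, Finsupp.single (r v) (e v) = ∑ w ∈ J, Finsupp.single (r' w) (e' w) := by
  classical
  have hinj : Function.Injective (fun s : R →ₐ[k] k => (s : R →+* k)) := fun s t hst =>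
    AlgHom.ext fun x => congrArg (fun u : R →+* k => u x) hst
  have key := sum_single_eq_of_value_poly_eq (fun x : k => algebraMap k R x) id
    Function.injective_id I J e e' (fun v => (r v : R →+* k)) (fun w => (r' w : R →+* k))
    (fun v _ i => by simp) (fun w _ i => by simp) h
  apply Finsupp.mapDomain_injective hinj
  simp only [Finsupp.mapDomain_finsetSum, Finsupp.mapDomain_single]
  exact key

/-- (M2', indexed form) `A`-algebra homs into a residue field `k` of `A`. -/
theorem sum_single_algHom_eq_of_value_poly_eq_of_surjective {A : Type*} [CommRing A] [Algebra A R]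
    [Algebra A k] (hsurj : Function.Surjective (algebraMap A k)) {V W : Type*} (I : Finset V)
    (J : Finset W) (e : V → ℕ) (e' : W → ℕ) (r : V → R →ₐ[A] k) (r' : W → R →ₐ[A] k)
    (h : ∀ f : R, ∏ v ∈ I, (X - C (r v f) : k[X]) ^ e v = ∏ w ∈ J, (X - C (r' w f) : k[X]) ^ e' w) :
    ∑ v ∈ I, Finsupp.single (r v) (e v) = ∑ w ∈ J, Finsupp.single (r' w) (e' w) := by
  classical
  have hinj : Function.Injective (fun s : R →ₐ[A] k => (s : R →+* k)) := fun s t hst =>
    AlgHom.ext fun x => congrArg (fun u : R →+* k => u x) hst
  have key := sum_single_eq_of_value_poly_eq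
    (fun x : k => algebraMap A R (Function.surjInv hsurj x)) id
    Function.injective_id I J e e' (fun v => (r v : R →+* k)) (fun w => (r' w : R →+* k))
    (fun v _ i => by simp [Function.surjInv_eq hsurj i])
    (fun w _ i => by simp [Function.surjInv_eq hsurj i]) h
  apply Finsupp.mapDomain_injective hinj
  simp only [Finsupp.mapDomain_finsetSum, Finsupp.mapDomain_single]
  exact key

end Algebra

end Fermat.Agent.S37.helper1138
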