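import Mathlib
import Fermat.Agent.S37.helper117_FrigCore
import Fermat.Agent.S37.helper6807_FrigFinal
import Fermat.Agent.S37.helper3298_FrigHalves

/-!
# S37-FRIG: the T-FRIG kernel data on the good subgroup

`FrigKernel N ℓ A σ (goodSubgroup (integralPairs A N))` for every Frobenius element `σ` at `A`
(the instance call of `good_of_companion`), and hence `helper8353.Stmt_Kernel N` and the frozen
statement S37 from the Kummer field form `Stmt_KF0` of S18 at level `N` alone.
-/

set_option autoImplicit false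
set_option synthInstance.maxHeartbeats 400000

noncomputable section

namespace Fermat.Agent.S37.helper117

open ModularCurve AlgebraicCurve
open Fermat.Agent.S37.helper8353 (Qb GQ Stmt_Kernel)
open Fermat.Agent.S37.helper1138 (FNb inertiaDiv esDiv)
open Fermat.Agent.S18.helper3054 (Stmt_KF0)

/-- **The T-FRIG kernel data on the good subgroup**, for every Frobenius element. -/
theorem frigKernel_goodSubgroup (N ℓ : ℕ) [NeZero N] [NeZero ℓ] (hℓ : ℓ.Prime) (hℓN : ¬ ℓ ∣ N)
    (A : ValuationSubring Qb) (hA : A.LiesOverPrime ℓ) (σ : GQ) (hσ : A.IsFrobeniusAt σ ℓ) :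
    Fermat.Agent.S37.helper6807.FrigKernel N ℓ A σ (goodSubgroup (integralPairs A N)) := by
  have hnf := Fermat.Agent.S37.helper872.normalForm_of_liesOverPrime hℓ hℓN hA
  refine ⟨locFormula_goodSubgroup A N, fun τ hτ D hD => ?_, fun D hD => ?_⟩
  · exact mem_goodSubgroup_of_companion A N hnf (inertiaDiv (N := N) τ) 1
      (Fermat.Agent.S37.helper6807.inertiaDiv_bdd τ)
      (fun a b D hD => Fermat.Agent.S37.helper3298.frig_inertia_pair N A hτ a b D hD) D hD
  · exact mem_goodSubgroup_of_companion A N hnf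
      (esDiv ℓ (Fermat.Agent.S37.helper5162.heckeAlphaBarIntegral N ℓ)
        (Fermat.Agent.S37.helper5162.heckeBetaBarIntegral N ℓ) σ) _
      (Fermat.Agent.S37.helper6807.esDiv_bdd ℓ _ _
        (Fermat.Agent.S37.helper8426.fundamentalIdentityAlong_heckeBetaBar N ℓ) σ)
      (fun a b D hD => Fermat.Agent.S37.helper3298.frig_es_pair_esDiv1138 N ℓ hℓ hℓN A hA hσ
        _ _ a b D hD) D hD

/-- **`Stmt_Kernel N` from the Kummer field form of S18 at level `N` alone.** -/
theorem stmt_Kernel_of_kf0 (N : ℕ) [NeZero N]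
    (hKF0 : ∀ ℓ : ℕ, ℓ.Prime → ¬ ℓ ∣ N → Stmt_KF0 N ℓ) : Stmt_Kernel N :=
  Fermat.Agent.S37.helper6807.stmt_Kernel_of_kf0_of_frigKernel hKF0
    (fun ℓ _ hℓ hℓN A hA σ hσ => ⟨_, frigKernel_goodSubgroup N ℓ hℓ hℓN A hA σ hσ⟩)

/-- **The frozen statement S37 from the Kummer field form of S18 at level `N` alone.** -/
theorem frozen_of_kf0 (N p : ℕ) [NeZero N]
    (hKF0 : ∀ ℓ : ℕ, ℓ.Prime → ¬ ℓ ∣ N → Stmt_KF0 N ℓ)
    (hcomm : HeckeOperatorsCommuteBar N) :
    letI := heckeModuleBar N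
    ∀ (_ : SMulCommClass (AlgebraicClosure ℚ ≃ₐ[ℚ] AlgebraicClosure ℚ) HeckeAlg (JZero N)),
      SpecializationExists (K := ℚ) (L := AlgebraicClosure ℚ) N p (JZero N) :=
  Fermat.Agent.S37.helper6807.frozen_of_kf0_of_frigKernel N p hKF0
    (fun ℓ _ hℓ hℓN A hA σ hσ => ⟨_, frigKernel_goodSubgroup N ℓ hℓ hℓN A hA σ hσ⟩) hcomm

end Fermat.Agent.S37.helper117

end
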