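/-
helper120 — S37/S18-NONSPECIAL (board #1278).

Producer of hypothesis (NS) of the abstract torsion core (TOR-ABS): on a function field
`F/K` (Prelude vocabulary `Place / Divisor / riemannRochSpace`) for which Riemann's theorem
holds in the form `l(D) = deg D + 1 - g` for `deg D ≥ c`, there are `g` pairwise distinct
places `s_1, …, s_g`, outside any prescribed finite set, with `l(s_1 + ⋯ + s_g) = 1`.

No duality, no differentials, no Riemann inequality, no step bound: if
`l(D) > deg D + 1 - g` then `l(D + s) = l(D)` for all but finitely many places `s`.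

Main exports: `exists_nonspecial`, `exists_nonspecial_base` (with a base place `Q0`),
`riemannRochSpace_eq_of_ell_eq_one` (submodule form), `exists_eq_algebraMap_of_ell_eq_one`
and `exists_eq_algebraMap_of_ord` (the consumer form (NS): a function regular off the `s_i`
with at most simple poles at the `s_i` is a constant).
-/
import Fermat.Prelude.Def_AlgebraicCurve_Repartitions
import Mathlib

set_option autoImplicit false

noncomputable section

open AlgebraicCurve WithZero

namespace Fermat.Agent.S37.helper120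

variable {K F : Type*} [Field K] [Field F] [Algebra K F]

/-- `l(D) = dim_K L(D)`. -/
def ell (D : Divisor K F) : ℕ := Module.finrank K (riemannRochSpace D)

/-- `L(D) ⊆ L(E)` for `D ≤ E`. -/
theorem riemannRochSpace_mono {D E : Divisor K F} (h : D ≤ E) :
    riemannRochSpace D ≤ riemannRochSpace E := fun _ hf v =>
  (hf v).trans (exp_le_exp.mpr (Finsupp.le_def.mp h v))

theorem ell_mono (hfin : ∀ D : Divisor K F, FiniteDimensional K (riemannRochSpace D))
    {D E : Divisor K F} (h : D ≤ E) : ell D ≤ ell E := by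
  have := hfin E
  exact Submodule.finrank_mono (riemannRochSpace_mono h)

theorem single_one_nonneg (s : Place K F) : (0 : Divisor K F) ≤ Finsupp.single s (1 : ℤ) := by
  classical
  rw [Finsupp.le_def]
  intro v
  by_cases h : s = v
  · subst h; simp
  · simp [h]

theorem sum_single_nonneg (T : Finset (Place K F)) :
    (0 : Divisor K F) ≤ ∑ s ∈ T, Finsupp.single s (1 : ℤ) :=
  Finset.sum_nonneg fun s _ => single_one_nonneg s

theorem sum_single_apply_of_notMem (T : Finset (Place K F)) {s : Place K F} (hs : s ∉ T) :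
    (∑ t ∈ T, Finsupp.single t (1 : ℤ) : Divisor K F) s = 0 := by
  classical
  rw [Finsupp.finsetSum_apply]
  refine Finset.sum_eq_zero fun t ht => ?_
  have : t ≠ s := fun h => hs (h ▸ ht)
  simp [this]

/-- `L(D + ∑_{t ∈ T} t) ∩ L(D + s) ⊆ L(D)` for `s ∉ T`. -/
theorem inf_le_riemannRochSpace (D : Divisor K F) (T : Finset (Place K F)) {s : Place K F}
    (hs : s ∉ T) :
    riemannRochSpace (D + ∑ t ∈ T, Finsupp.single t (1 : ℤ)) ⊓
        riemannRochSpace (D + Finsupp.single s (1 : ℤ)) ≤ riemannRochSpace D := by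
  classical
  rintro f ⟨h1, h2⟩ v
  by_cases hv : v = s
  · subst hv
    have := h1 v
    rwa [Finsupp.add_apply, sum_single_apply_of_notMem T hs, add_zero] at this
  · have := h2 v
    have hne : s ≠ v := fun h => hv h.symm
    rwa [Finsupp.add_apply, Finsupp.single_apply, if_neg hne, add_zero] at this

/-- (N1) Jumps at distinct places add up: if `l(D) < l(D + s)` for every `s ∈ T`, then
`l(D) + #T ≤ l(D + ∑_{s ∈ T} s)`. -/
theorem ell_add_sum_ge (hfin : ∀ D : Divisor K F, FiniteDimensional K (riemannRochSpace D))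
    (D : Divisor K F) (T : Finset (Place K F))
    (hT : ∀ s ∈ T, ell D < ell (D + Finsupp.single s (1 : ℤ))) :
    ell D + T.card ≤ ell (D + ∑ s ∈ T, Finsupp.single s (1 : ℤ)) := by
  classical
  induction T using Finset.induction_on with
  | empty => simp
  | insert s T hs ih =>
    have ih' := ih fun t ht => hT t (Finset.mem_insert_of_mem ht)
    set A : Divisor K F := D + ∑ t ∈ T, Finsupp.single t (1 : ℤ) with hA
    set B : Divisor K F := D + Finsupp.single s (1 : ℤ) with hB
    set C : Divisor K F := D + ∑ t ∈ insert s T, Finsupp.single t (1 : ℤ) with hC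
    have hAC : A ≤ C := by
      rw [hA, hC, Finset.sum_insert hs]
      exact add_le_add le_rfl (le_add_of_nonneg_left (single_one_nonneg s))
    have hBC : B ≤ C := by
      rw [hB, hC, Finset.sum_insert hs]
      exact add_le_add le_rfl (le_add_of_nonneg_right (sum_single_nonneg T))
    have := hfin A
    have := hfin B
    have := hfin C
    have := hfin D
    have hsup : riemannRochSpace A ⊔ riemannRochSpace B ≤ riemannRochSpace C :=
      sup_le (riemannRochSpace_mono hAC) (riemannRochSpace_mono hBC)
    have hinf : riemannRochSpace A ⊓ riemannRochSpace B ≤ riemannRochSpace D :=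
      inf_le_riemannRochSpace D T hs
    have h1 : Module.finrank K ↥(riemannRochSpace A ⊔ riemannRochSpace B) ≤ ell C :=
      Submodule.finrank_mono hsup
    have h2 : Module.finrank K ↥(riemannRochSpace A ⊓ riemannRochSpace B) ≤ ell D :=
      Submodule.finrank_mono hinf
    have h3 := Submodule.finrank_sup_add_finrank_inf_eq (riemannRochSpace A) (riemannRochSpace B)
    have h4 : ell D < ell B := hT s (Finset.mem_insert_self s T)
    have h5 : Module.finrank K ↥(riemannRochSpace A) = ell A := rfl
    have h6 : Module.finrank K ↥(riemannRochSpace B) = ell B := rfl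
    rw [Finset.card_insert_of_notMem hs]
    omega

theorem degree_sum_single (hdeg : ∀ v : Place K F, v.deg = 1) (T : Finset (Place K F)) :
    Divisor.degree (∑ s ∈ T, Finsupp.single s (1 : ℤ) : Divisor K F) = T.card := by
  rw [map_sum]
  simp [Divisor.degree_single, hdeg]

/-- (N2) If `D` is "special" w.r.t. `g` (`l(D) > deg D + 1 - g`), then `l(D + s) = l(D)` for
all but finitely many places `s`. -/
theorem finite_jump (hfin : ∀ D : Divisor K F, FiniteDimensional K (riemannRochSpace D))
    (g : ℕ) (c : ℤ) (hdeg : ∀ v : Place K F, v.deg = 1)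
    (heq : ∀ D : Divisor K F, c ≤ Divisor.degree D → (ell D : ℤ) = Divisor.degree D + 1 - g)
    (D : Divisor K F) (hD : Divisor.degree D + 1 - g < ell D) :
    {s : Place K F | ell D < ell (D + Finsupp.single s (1 : ℤ))}.Finite := by
  by_contra hinf
  obtain ⟨T, hTsub, hTcard⟩ :=
    (Set.not_finite.mp hinf : Set.Infinite _).exists_subset_card_eq (c - Divisor.degree D).toNat
  have h1 := ell_add_sum_ge hfin D T fun s hs => hTsub hs
  have hdegT : Divisor.degree (D + ∑ s ∈ T, Finsupp.single s (1 : ℤ)) =
      Divisor.degree D + T.card := by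
    rw [map_add, degree_sum_single hdeg]
  have hc : c ≤ Divisor.degree (D + ∑ s ∈ T, Finsupp.single s (1 : ℤ)) := by
    rw [hdegT, hTcard]
    have := Int.self_le_toNat (c - Divisor.degree D)
    omega
  have h2 := heq _ hc
  rw [hdegT] at h2
  have h1' : (ell D : ℤ) + T.card ≤ ell (D + ∑ s ∈ T, Finsupp.single s (1 : ℤ)) := by
    exact_mod_cast h1
  omega

/-- (N3), Finset form: for every `n ≤ g` there are `n` distinct places outside `S` whose sum
`E` has `l(E) = 1`. -/
theorem exists_finset_ell_eq_one [Infinite (Place K F)]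
    (hfin : ∀ D : Divisor K F, FiniteDimensional K (riemannRochSpace D))
    (g : ℕ) (c : ℤ) (hdeg : ∀ v : Place K F, v.deg = 1)
    (heq : ∀ D : Divisor K F, c ≤ Divisor.degree D → (ell D : ℤ) = Divisor.degree D + 1 - g)
    (h0 : ell (0 : Divisor K F) = 1) (S : Finset (Place K F)) (n : ℕ) (hn : n ≤ g) :
    ∃ T : Finset (Place K F), T.card = n ∧ Disjoint T S ∧
      ell (∑ s ∈ T, Finsupp.single s (1 : ℤ) : Divisor K F) = 1 := by
  classical
  induction n with
  | zero => exact ⟨∅, rfl, Finset.disjoint_empty_left S, by simpa using h0⟩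
  | succ n ih =>
    obtain ⟨T, hTcard, hTS, hT1⟩ := ih (Nat.le_of_succ_le hn)
    set D : Divisor K F := ∑ s ∈ T, Finsupp.single s (1 : ℤ) with hDdef
    have hdegD : Divisor.degree D = n := by rw [hDdef, degree_sum_single hdeg, hTcard]
    have hspecial : Divisor.degree D + 1 - g < ell D := by
      rw [hdegD, hT1]
      have : (n : ℤ) + 1 ≤ g := by exact_mod_cast hn
      push_cast
      omega
    have hB := finite_jump hfin g c hdeg heq D hspecial
    have hfinset : ((↑T : Set (Place K F)) ∪ ↑S ∪
        {s : Place K F | ell D < ell (D + Finsupp.single s (1 : ℤ))}).Finite :=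
      ((T.finite_toSet.union S.finite_toSet).union hB)
    obtain ⟨s, hs⟩ := hfinset.exists_notMem
    have hsT : s ∉ T := fun h => hs (Or.inl (Or.inl h))
    have hsS : s ∉ S := fun h => hs (Or.inl (Or.inr h))
    have hsB : ¬ ell D < ell (D + Finsupp.single s (1 : ℤ)) := fun h => hs (Or.inr h)
    refine ⟨insert s T, ?_, ?_, ?_⟩
    · rw [Finset.card_insert_of_notMem hsT, hTcard]
    · exact Finset.disjoint_insert_left.mpr ⟨hsS, hTS⟩
    · rw [Finset.sum_insert hsT, add_comm]
      change ell (D + Finsupp.single s (1 : ℤ)) = 1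
      have hge : ell D ≤ ell (D + Finsupp.single s (1 : ℤ)) :=
        ell_mono hfin (le_add_of_nonneg_right (single_one_nonneg s))
      rw [hT1] at hge hsB
      omega

/-- (N3) NON-SPECIAL REDUCED DIVISOR: `g` pairwise distinct places outside `S` with
`l(s_1 + ⋯ + s_g) = 1`. -/
theorem exists_nonspecial [Infinite (Place K F)]
    (hfin : ∀ D : Divisor K F, FiniteDimensional K (riemannRochSpace D))
    (g : ℕ) (c : ℤ) (hdeg : ∀ v : Place K F, v.deg = 1)
    (heq : ∀ D : Divisor K F, c ≤ Divisor.degree D → (ell D : ℤ) = Divisor.degree D + 1 - g)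
    (h0 : ell (0 : Divisor K F) = 1) (S : Finset (Place K F)) :
    ∃ s : Fin g → Place K F, Function.Injective s ∧ (∀ i, s i ∉ S) ∧
      ell (∑ i, Finsupp.single (s i) (1 : ℤ) : Divisor K F) = 1 := by
  classical
  obtain ⟨T, hTcard, hTS, hT1⟩ :=
    exists_finset_ell_eq_one hfin g c hdeg heq h0 S g le_rfl
  let e : Fin g ≃ T := (Finset.equivFinOfCardEq hTcard).symm
  refine ⟨fun i => (e i : Place K F), ?_, ?_, ?_⟩
  · intro i j hij
    exact e.injective (Subtype.ext hij)
  · intro i hi
    exact Finset.disjoint_left.mp hTS (e i).2 hi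
  · rw [← hT1]
    congr 1
    rw [← Finset.sum_coe_sort T (fun s => (Finsupp.single s (1 : ℤ) : Divisor K F))]
    exact Equiv.sum_comp e (fun s : T => (Finsupp.single (s : Place K F) (1 : ℤ) : Divisor K F))

/-- (N3'), with a base place `Q0` outside `S` and different from all `s_i`. -/
theorem exists_nonspecial_base [Infinite (Place K F)]
    (hfin : ∀ D : Divisor K F, FiniteDimensional K (riemannRochSpace D))
    (g : ℕ) (c : ℤ) (hdeg : ∀ v : Place K F, v.deg = 1)
    (heq : ∀ D : Divisor K F, c ≤ Divisor.degree D → (ell D : ℤ) = Divisor.degree D + 1 - g)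
    (h0 : ell (0 : Divisor K F) = 1) (S : Finset (Place K F)) :
    ∃ (s : Fin g → Place K F) (Q0 : Place K F), Function.Injective s ∧ (∀ i, s i ∉ S) ∧
      Q0 ∉ S ∧ (∀ i, s i ≠ Q0) ∧
      ell (∑ i, Finsupp.single (s i) (1 : ℤ) : Divisor K F) = 1 := by
  classical
  obtain ⟨s, hinj, hS, h1⟩ := exists_nonspecial hfin g c hdeg heq h0 S
  obtain ⟨Q0, hQ0⟩ := ((S.finite_toSet).union (Set.finite_range s)).exists_notMem
  exact ⟨s, Q0, hinj, hS, fun h => hQ0 (Or.inl h), fun i h => hQ0 (Or.inr ⟨i, h⟩), h1⟩

/-- Consumer form of `l(D) = 1` for an effective `D`: every element of `L(D)` is a constant. -/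
theorem exists_eq_algebraMap_of_ell_eq_one {D : Divisor K F} (hD : 0 ≤ D) (h : ell D = 1)
    {w : F} (hw : w ∈ riemannRochSpace D) : ∃ a : K, w = algebraMap K F a := by
  have h1 : (1 : F) ∈ riemannRochSpace D := by
    intro v
    have : v.adicValuation (1 : F) ≤ exp (0 : ℤ) := by simp
    exact this.trans (exp_le_exp.mpr (by simpa using Finsupp.le_def.mp hD v))
  have hne : (⟨1, h1⟩ : riemannRochSpace D) ≠ 0 := by
    intro h0
    exact one_ne_zero (congrArg Subtype.val h0)
  obtain ⟨a, ha⟩ := (finrank_eq_one_iff_of_nonzero' (⟨1, h1⟩ : riemannRochSpace D) hne).mp h ⟨w, hw⟩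
  refine ⟨a, ?_⟩
  have := congrArg Subtype.val ha
  simp only [Submodule.coe_smul] at this
  rw [← this, Algebra.smul_def, mul_one]

/-- Submodule form: if `l(D) = 1 = l(0)` for an effective `D`, then `L(D) = L(0)`. -/
theorem riemannRochSpace_eq_of_ell_eq_one
    (hfin : ∀ D : Divisor K F, FiniteDimensional K (riemannRochSpace D))
    {D : Divisor K F} (hD : 0 ≤ D) (h0 : ell (0 : Divisor K F) = 1) (h : ell D = 1) :
    riemannRochSpace D = riemannRochSpace (0 : Divisor K F) := by
  have := hfin D
  exact (Submodule.eq_of_le_of_finrank_eq (riemannRochSpace_mono hD) (h0.trans h.symm)).symm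

/-- Membership in `L(D)` from a lower bound on all orders. -/
theorem mem_riemannRochSpace_of_ord {D : Divisor K F} {w : F}
    (h : ∀ v : Place K F, -(D v) ≤ v.ord w) : w ∈ riemannRochSpace D := by
  intro v
  have hv := h v
  unfold Place.ord at hv
  exact le_exp_of_log_le (by omega)

theorem sum_univ_single_apply_ge_one {g : ℕ} (s : Fin g → Place K F) (i : Fin g) :
    (1 : ℤ) ≤ (∑ j, Finsupp.single (s j) (1 : ℤ) : Divisor K F) (s i) := by
  classical
  rw [Finsupp.finsetSum_apply]
  have h1 : (Finsupp.single (s i) (1 : ℤ) : Divisor K F) (s i) = 1 := by simp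
  have h2 : (Finsupp.single (s i) (1 : ℤ) : Divisor K F) (s i) ≤
      ∑ j, (Finsupp.single (s j) (1 : ℤ) : Divisor K F) (s i) :=
    Finset.single_le_sum (f := fun j => (Finsupp.single (s j) (1 : ℤ) : Divisor K F) (s i))
      (fun j _ => Finsupp.le_def.mp (single_one_nonneg (s j)) (s i)) (Finset.mem_univ i)
  exact le_of_eq_of_le h1.symm h2

/-- (NS), consumer form of the abstract torsion core: if `l(s_1 + ⋯ + s_g) = 1`, then a
function which is regular off the `s_i` and has at most simple poles at the `s_i` is a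
constant. -/
theorem exists_eq_algebraMap_of_ord {g : ℕ} (s : Fin g → Place K F)
    (h1 : ell (∑ i, Finsupp.single (s i) (1 : ℤ) : Divisor K F) = 1) {w : F}
    (hoff : ∀ v : Place K F, v ∉ Set.range s → 0 ≤ v.ord w)
    (hon : ∀ i, -1 ≤ (s i).ord w) : ∃ a : K, w = algebraMap K F a := by
  have hD : (0 : Divisor K F) ≤ ∑ i, Finsupp.single (s i) (1 : ℤ) :=
    Finset.sum_nonneg fun i _ => single_one_nonneg (s i)
  refine exists_eq_algebraMap_of_ell_eq_one hD h1 (mem_riemannRochSpace_of_ord fun v => ?_)
  by_cases hv : v ∈ Set.range s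
  · obtain ⟨i, rfl⟩ := hv
    have := sum_univ_single_apply_ge_one s i
    have := hon i
    omega
  · have := hoff v hv
    have : (0 : ℤ) ≤ (∑ i, Finsupp.single (s i) (1 : ℤ) : Divisor K F) v :=
      Finsupp.le_def.mp hD v
    omega

end Fermat.Agent.S37.helper120
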