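import Fermat.Agent.S37.helper8353_TopKernel

/-!
# S37 back-end: the subgroup form of the core statement gives the reduction-map form

`helper8353.Stmt_Core N p` says that the relation subgroup
`relBar N A ℓ σ = (I_A - 1) J₀(N) + (σ² - T_ℓ σ + ℓ) J₀(N)` has no `p`-power torsion.
`helper8353.Stmt_CoreHom N p` asks for an additive map `r : J₀(N) →+ G` killing inertia and the
Eichler–Shimura element and injective on `p`-power torsion.  `stmt_Core_of_hom` (landed) is one
direction; this file is the converse (take `G := J₀(N) ⧸ relBar` and `r` the quotient map), so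
the two forms are equivalent and every consumer of `Stmt_CoreHom` (S29, S31, S34) can be fed by a
proof of `Stmt_Core` (for instance from the kernel form `Stmt_Kernel`, or from function-level
rigidity).
-/

set_option autoImplicit false

namespace Fermat.Agent.S37.helper1210

open ModularCurve
open Fermat.Agent.S37.helper8353

variable {N : ℕ} [NeZero N]

/-- The quotient map `J₀(N) → J₀(N) ⧸ relBar` kills inertia, kills the Eichler–Shimura element,
and its kernel is `relBar`. -/
theorem relBar_quotient_spec (A : ValuationSubring Qb) (ℓ : Nat.Primes) (σ : GQ) :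
    (∀ τ ∈ A.inertiaSubgroupIn ℚ, ∀ x : JZero N,
      QuotientAddGroup.mk' (relBar N A ℓ σ) (τ • x) = QuotientAddGroup.mk' (relBar N A ℓ σ) x) ∧
    (∀ x : JZero N,
      QuotientAddGroup.mk' (relBar N A ℓ σ) (σ • σ • x)
        - QuotientAddGroup.mk' (relBar N A ℓ σ) (heckeOperatorBar N ℓ (σ • x))
        + (ℓ : ℕ) • QuotientAddGroup.mk' (relBar N A ℓ σ) x = 0) ∧
    (∀ x : JZero N, QuotientAddGroup.mk' (relBar N A ℓ σ) x = 0 → x ∈ relBar N A ℓ σ) := by
  refine ⟨fun τ hτ x => ?_, fun x => ?_, fun x hx => ?_⟩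
  · have hmem : τ • x - x ∈ relBar N A ℓ σ :=
      AddSubgroup.subset_closure (Or.inl ⟨τ, hτ, x, rfl⟩)
    have h0 : QuotientAddGroup.mk' (relBar N A ℓ σ) (τ • x - x) = 0 :=
      (QuotientAddGroup.eq_zero_iff _).mpr hmem
    rw [map_sub] at h0
    exact sub_eq_zero.mp h0
  · have hmem : esBar N ℓ σ x ∈ relBar N A ℓ σ :=
      AddSubgroup.subset_closure (Or.inr ⟨x, rfl⟩)
    have h0 : QuotientAddGroup.mk' (relBar N A ℓ σ) (esBar N ℓ σ x) = 0 :=
      (QuotientAddGroup.eq_zero_iff _).mpr hmem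
    unfold esBar at h0
    rw [map_add, map_sub, map_nsmul] at h0
    exact h0
  · exact (QuotientAddGroup.eq_zero_iff _).mp hx

/-- **Subgroup form ⟹ reduction-map form** of the S37 core statement. -/
theorem stmt_CoreHom_of_core {p : ℕ} (h : Stmt_Core N p) : Stmt_CoreHom N p := by
  intro ℓ hℓ hℓN A hA
  obtain ⟨σ, hσ, hM⟩ := h ℓ hℓ hℓN A hA
  obtain ⟨h1, h2, h3⟩ := relBar_quotient_spec (N := N) A ⟨ℓ, hℓ⟩ σ
  exact ⟨σ, hσ, JZero N ⧸ relBar N A ⟨ℓ, hℓ⟩ σ, inferInstance,
    QuotientAddGroup.mk' (relBar N A ⟨ℓ, hℓ⟩ σ), h1, h2,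
    fun x htor hx => hM x (h3 x hx) htor⟩

/-- The two forms of the S37 core statement are equivalent. -/
theorem stmt_CoreHom_iff_core {p : ℕ} : Stmt_CoreHom N p ↔ Stmt_Core N p :=
  ⟨stmt_Core_of_hom, stmt_CoreHom_of_core⟩

/-- Kernel form ⟹ reduction-map form (every `p`). -/
theorem stmt_CoreHom_of_kernel (h : Stmt_Kernel N) (p : ℕ) : Stmt_CoreHom N p :=
  stmt_CoreHom_of_core (stmt_Core_of_kernel h p)

end Fermat.Agent.S37.helper1210
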