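/-
S37-REDINPUTS (board #1745, helper1210).

Concrete PRODUCER of the Prelude Prop `ModularCurve.ReductionInputsAlong A π N`
(for `L = ℚ̄`, `π = IsLocalRing.residue A` this is `ModularCurve.ReductionInputsModL A N`, the
hypothesis of the frozen S18 and the input node of the S37 rigidity chain).

Setting: `L` a field over `ℚ`, `A : ValuationSubring L`, `π : A →+* k`,
`F = laurentBaseChange L (modularFunctionFieldFull N)`, `Fk = modularFunctionFieldFullC k N`,
`O = helper8991.gaussF A π N` the Gauss valuation subring of `F` with reduction
`helper8991.gaussFRed A π N : O →+* k((q))`.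

* `Stmt_Red A π N` (a Prop, the modular input "(RED)": Igusa degree equality side):
  the residue field of `O` lies in `Fk`.  `stmt_Red_of_integral` reduces it to integral series.
* `redk h : O →+* Fk`: the corestricted reduction.
* `principalGeneratedByIntegral_of_red` (P1): `(RED)` gives `PrincipalGeneratedByIntegral`.
* `isPlaceReductionAlong_of_cons` (P2): a place map with conservation of number for Gauss units
  (the output shape of `helper5413.LatHyp.exists_placeReduction`) is a Prelude place reduction.
* `reductionInputsAlong_of_cons`, `reductionInputsAlong_of_latHyp` (P3), and the `ℚ̄` forms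
  `reductionInputsModL_of_cons`, `reductionInputsModL_of_latHyp`.
-/
import Mathlib
import Fermat.Prelude.Def_ModularCurve_ReductionModL
import Fermat.Agent.S18.helper8991_GaussInst
import Fermat.Agent.S37.helper5413_LatticeReduction
import Fermat.Agent.S37.helper5162_HeckeInputsModular

set_option autoImplicit false

noncomputable section

open HahnSeries AlgebraicCurve ModularCurve

namespace Fermat.Agent.S37.helper1210

open Fermat.Agent.S18

section Generic

variable {K F : Type*} [Field K] [Field F] [Algebra K F]

/-- Constants have order zero at every place. -/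
theorem ord_algebraMap_eq_zero (v : Place K F) (a : K) : v.ord (algebraMap K F a) = 0 := by
  rcases eq_or_ne a 0 with rfl | ha
  · simp
  · have hu : (⟨algebraMap K F a, v.algebraMap_mem' a⟩ : v.toValuationSubring) *
        ⟨algebraMap K F a⁻¹, v.algebraMap_mem' a⁻¹⟩ = 1 := by
      apply Subtype.ext
      show algebraMap K F a * algebraMap K F a⁻¹ = 1
      rw [← map_mul, mul_inv_cancel₀ ha, map_one]
    exact v.ord_coe_unit (Units.mkOfMulEqOne _ _ hu)

end Generic

section Main

variable {L : Type*} [Field L] [Algebra ℚ L] (A : ValuationSubring L)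
variable {k : Type*} [Field k] (π : A →+* k) (N : ℕ)

/-- **(RED)**, the modular input: the residue field of the Gauss valuation subring of
`F = L(j(q^d) : d ∣ N)` is contained in `Fk = k(j̄(q^d) : d ∣ N)`.  (True for a prime `ℓ ∤ N`,
`k` of characteristic `ℓ`: this is the Igusa degree equality.) -/
def Stmt_Red : Prop :=
  ∀ f : ↥(helper8991.gaussF A π N),
    helper8991.gaussFRed A π N f ∈ modularFunctionFieldFullC k N

/-- **(RED₀)**, integral-series form of the modular input: an integral `q`-series lying in `F`
reduces into `Fk`. -/
def Stmt_RedIntegral : Prop :=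
  ∀ y : LaurentSeries A,
    coeffMap A.subtype y ∈ laurentBaseChange L (modularFunctionFieldFull N) →
      coeffMap π y ∈ modularFunctionFieldFullC k N

variable {A π N}

/-- `(RED)` implies its integral-series form. -/
theorem Stmt_Red.integral (h : Stmt_Red A π N) : Stmt_RedIntegral A π N := by
  intro y hy
  have := h ⟨⟨coeffMap A.subtype y, hy⟩, helper8991.inc_mem_gaussF A π N hy⟩
  rwa [helper8991.gaussFRed_inc A π N hy] at this

/-- The integral-series form implies `(RED)` (normal form `f = c * ι X / ι Y`). -/
theorem stmt_Red_of_integral (hπ0 : ∀ a : A, a ∈ IsLocalRing.maximalIdeal A → π a = 0)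
    (h : Stmt_RedIntegral A π N) : Stmt_Red A π N := by
  intro f
  by_cases hf0 : (f : ↥(laurentBaseChange L (modularFunctionFieldFull N))) = 0
  · have : f = 0 := Subtype.ext hf0
    rw [this, map_zero]
    exact zero_mem _
  · have hf0' : ((f : ↥(laurentBaseChange L (modularFunctionFieldFull N))) : LaurentSeries L) ≠ 0 :=
      fun h0 => hf0 (Subtype.ext h0)
    obtain ⟨c, X, Y, hc, hX, hY, hXm, hYm, hrel⟩ :=
      helper8991.exists_normal_form A π N
        (f : ↥(laurentBaseChange L (modularFunctionFieldFull N))).2 hf0'
    -- the two integral series as elements of the Gauss ring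
    set gX : ↥(helper8991.gaussF A π N) :=
      ⟨⟨coeffMap A.subtype X, hXm⟩, helper8991.inc_mem_gaussF A π N hXm⟩ with hgX
    set gY : ↥(helper8991.gaussF A π N) :=
      ⟨⟨coeffMap A.subtype Y, hYm⟩, helper8991.inc_mem_gaussF A π N hYm⟩ with hgY
    have hredX : helper8991.gaussFRed A π N gX = coeffMap π X :=
      helper8991.gaussFRed_inc A π N hXm
    have hredY : helper8991.gaussFRed A π N gY = coeffMap π Y :=
      helper8991.gaussFRed_inc A π N hYm
    have hgXu : IsUnit gX := by
      rw [helper8991.isUnit_iff_gaussFRed_ne_zero, hredX]; exact hX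
    have hgYu : IsUnit gY := by
      rw [helper8991.isUnit_iff_gaussFRed_ne_zero, hredY]; exact hY
    -- the constant `c` lies in `A`
    obtain ⟨uX, huX⟩ := hgXu
    have hcmem : algebraMap L ↥(laurentBaseChange L (modularFunctionFieldFull N)) c ∈
        helper8991.gaussF A π N := by
      have e : algebraMap L ↥(laurentBaseChange L (modularFunctionFieldFull N)) c =
          ((f * gY * (↑uX⁻¹ : ↥(helper8991.gaussF A π N)) : ↥(helper8991.gaussF A π N)) :
            ↥(laurentBaseChange L (modularFunctionFieldFull N))) := by
        have h1 : (f : ↥(laurentBaseChange L (modularFunctionFieldFull N))) *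
            (gY : ↥(laurentBaseChange L (modularFunctionFieldFull N))) =
            algebraMap L ↥(laurentBaseChange L (modularFunctionFieldFull N)) c *
              (gX : ↥(laurentBaseChange L (modularFunctionFieldFull N))) := by
          apply Subtype.ext
          show ((f : ↥(laurentBaseChange L (modularFunctionFieldFull N))) : LaurentSeries L) *
            coeffMap A.subtype Y = algebraMap L (LaurentSeries L) c * coeffMap A.subtype X
          rw [hrel, helper8991.C_eq_algebraMap]
        have h2 : (gX : ↥(laurentBaseChange L (modularFunctionFieldFull N))) *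
            ((↑uX⁻¹ : ↥(helper8991.gaussF A π N)) :
              ↥(laurentBaseChange L (modularFunctionFieldFull N))) = 1 := by
          have := congrArg (fun z : ↥(helper8991.gaussF A π N) =>
            (z : ↥(laurentBaseChange L (modularFunctionFieldFull N)))) (uX.mul_inv)
          simpa [huX] using this
        push_cast
        rw [h1, mul_assoc, h2, mul_one]
      rw [e]
      exact SetLike.coe_mem _
    have hcA : c ∈ A := (helper8991.algebraMap_mem_gaussF_iff A π N hπ0 c).mp hcmem
    -- compute the reduction of `f`
    have hrel' : ((f : ↥(laurentBaseChange L (modularFunctionFieldFull N))) : LaurentSeries L) *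
        coeffMap A.subtype Y = coeffMap A.subtype (HahnSeries.C (⟨c, hcA⟩ : A) * X) := by
      rw [hrel, map_mul, helper8991.inc_C]
    rw [helper8991.gaussFRed_eq A π N f hY hrel', map_mul]
    refine div_mem (mul_mem ?_ (h X hXm)) (h Y hYm)
    rw [helper8991.red_C, helper8991.C_eq_algebraMap]
    exact IntermediateField.algebraMap_mem _ _

/-- The reduction map of the Gauss valuation subring, corestricted to `Fk`. -/
def redk (h : Stmt_Red A π N) :
    ↥(helper8991.gaussF A π N) →+* ↥(modularFunctionFieldFullC k N) :=
  (helper8991.gaussFRed A π N).codRestrict (modularFunctionFieldFullC k N) h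

@[simp]
theorem coe_redk (h : Stmt_Red A π N) (f : ↥(helper8991.gaussF A π N)) :
    ((redk h f : ↥(modularFunctionFieldFullC k N)) : LaurentSeries k) =
      helper8991.gaussFRed A π N f := rfl

theorem redk_eq_zero_iff (h : Stmt_Red A π N) (f : ↥(helper8991.gaussF A π N)) :
    redk h f = 0 ↔ helper8991.gaussFRed A π N f = 0 := by
  rw [← coe_redk h f]
  exact ⟨fun h0 => by rw [h0]; rfl, fun h0 => Subtype.ext h0⟩

/-- `redk` kills exactly the non-units (first field of `helper5413.LatHyp`). -/
theorem redk_eq_zero_of_not_isUnit (h : Stmt_Red A π N) (f : ↥(helper8991.gaussF A π N))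
    (hf : ¬ IsUnit f) : redk h f = 0 := by
  rw [redk_eq_zero_iff]
  by_contra h0
  exact hf ((helper8991.isUnit_iff_gaussFRed_ne_zero A π N f).mpr h0)

/-- The reduction of an integral series lying in `F` is its coefficientwise reduction. -/
theorem redk_inc (h : Stmt_Red A π N) {y : LaurentSeries A}
    (hy : coeffMap A.subtype y ∈ laurentBaseChange L (modularFunctionFieldFull N))
    (hyk : coeffMap π y ∈ modularFunctionFieldFullC k N) :
    redk h ⟨⟨coeffMap A.subtype y, hy⟩, helper8991.inc_mem_gaussF A π N hy⟩ =
      ⟨coeffMap π y, hyk⟩ :=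
  Subtype.ext (helper8991.gaussFRed_inc A π N hy)

/-- **(P2)** A place map which preserves degrees and satisfies conservation of number for
all Gauss units is a place reduction in the sense of the Prelude. -/
theorem isPlaceReductionAlong_of_cons (h : Stmt_Red A π N)
    (r : Place L (laurentBaseChange L (modularFunctionFieldFull N)) →
      Place k (modularFunctionFieldFullC k N))
    (hdeg : ∀ P, (r P).deg = P.deg)
    (hcons : ∀ f : ↥(helper8991.gaussF A π N), redk h f ≠ 0 →
      ∀ D : Divisor L (laurentBaseChange L (modularFunctionFieldFull N)),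
        (∀ P, D P = P.ord (f : ↥(laurentBaseChange L (modularFunctionFieldFull N)))) →
          ∀ Q, Finsupp.mapDomain r D Q = Q.ord (redk h f)) :
    IsPlaceReductionAlong A π N r := by
  refine ⟨hdeg, fun y hy hyk hne D hD Q => ?_⟩
  have hred := redk_inc h hy hyk
  have key := hcons ⟨⟨coeffMap A.subtype y, hy⟩, helper8991.inc_mem_gaussF A π N hy⟩
    (by rw [hred]; exact fun h0 => hne (congrArg Subtype.val h0)) D hD Q
  rw [hred] at key
  exact key

/-- **(P1)** `(RED)` gives the Prelude Prop `PrincipalGeneratedByIntegral`: every principal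
divisor is a difference of two integral principal divisors. -/
theorem principalGeneratedByIntegral_of_red
    [HasPrincipalDivisors L ↥(laurentBaseChange L (modularFunctionFieldFull N))]
    (h : Stmt_Red A π N) : PrincipalGeneratedByIntegral A π N := by
  intro D hD
  obtain ⟨f, hf0, hfD⟩ := hD
  have hf0' : (f : LaurentSeries L) ≠ 0 := fun h0 => hf0 (Subtype.ext h0)
  obtain ⟨c, X, Y, hc, hX, hY, hXm, hYm, hrel⟩ :=
    helper8991.exists_normal_form A π N f.2 hf0'
  set fX : ↥(laurentBaseChange L (modularFunctionFieldFull N)) :=
    ⟨coeffMap A.subtype X, hXm⟩ with hfX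
  set fY : ↥(laurentBaseChange L (modularFunctionFieldFull N)) :=
    ⟨coeffMap A.subtype Y, hYm⟩ with hfY
  have hfX0 : fX ≠ 0 := fun h0 => helper8991.inc_ne_zero A π hX (congrArg Subtype.val h0)
  have hfY0 : fY ≠ 0 := fun h0 => helper8991.inc_ne_zero A π hY (congrArg Subtype.val h0)
  obtain ⟨DX, hDX, -⟩ := HasPrincipalDivisors.exists_divisor (K := L) fX hfX0
  obtain ⟨DY, hDY, -⟩ := HasPrincipalDivisors.exists_divisor (K := L) fY hfY0
  have hDXmem : DX ∈ integralPrincipalDivisors A π N :=
    ⟨X, hXm, h.integral X hXm, hX, hDX⟩
  have hDYmem : DY ∈ integralPrincipalDivisors A π N :=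
    ⟨Y, hYm, h.integral Y hYm, hY, hDY⟩
  have hc0 : algebraMap L ↥(laurentBaseChange L (modularFunctionFieldFull N)) c ≠ 0 := by
    rw [Ne, map_eq_zero]; exact hc
  have hrelF : f * fY = algebraMap L ↥(laurentBaseChange L (modularFunctionFieldFull N)) c * fX := by
    apply Subtype.ext
    show (f : LaurentSeries L) * coeffMap A.subtype Y =
      algebraMap L (LaurentSeries L) c * coeffMap A.subtype X
    rw [hrel, helper8991.C_eq_algebraMap]
  have hD_eq : D = DX - DY := by
    ext P
    have h1 := congrArg P.ord hrelF
    rw [P.ord_mul hf0 hfY0, P.ord_mul hc0 hfX0, ord_algebraMap_eq_zero] at h1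
    rw [Finsupp.sub_apply, hfD P, hDX P, hDY P]
    linarith
  rw [hD_eq]
  exact AddSubgroup.sub_mem _ (AddSubgroup.subset_closure hDXmem)
    (AddSubgroup.subset_closure hDYmem)

/-- **(P3)** `(RED)` and a place map with conservation of number give the Prelude Prop
`ReductionInputsAlong A π N`. -/
theorem reductionInputsAlong_of_cons
    [HasPrincipalDivisors L ↥(laurentBaseChange L (modularFunctionFieldFull N))]
    (h : Stmt_Red A π N)
    (r : Place L (laurentBaseChange L (modularFunctionFieldFull N)) →
      Place k (modularFunctionFieldFullC k N))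
    (hdeg : ∀ P, (r P).deg = P.deg)
    (hcons : ∀ f : ↥(helper8991.gaussF A π N), redk h f ≠ 0 →
      ∀ D : Divisor L (laurentBaseChange L (modularFunctionFieldFull N)),
        (∀ P, D P = P.ord (f : ↥(laurentBaseChange L (modularFunctionFieldFull N)))) →
          ∀ Q, Finsupp.mapDomain r D Q = Q.ord (redk h f)) :
    ReductionInputsAlong A π N :=
  ⟨r, isPlaceReductionAlong_of_cons h r hdeg hcons, principalGeneratedByIntegral_of_red h⟩

/-- **(P3), lattice form**: `(RED)` and the lattice hypotheses of `helper5413` for the Gauss
valuation subring give `ReductionInputsAlong A π N`. -/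
theorem reductionInputsAlong_of_latHyp
    [HasPrincipalDivisors L ↥(laurentBaseChange L (modularFunctionFieldFull N))]
    (h : Stmt_Red A π N) {g c : ℤ}
    {E₀ : Divisor L (laurentBaseChange L (modularFunctionFieldFull N))}
    {E₀k : Divisor k (modularFunctionFieldFullC k N)}
    (H : helper5413.LatHyp (helper8991.gaussF A π N) (redk h) g c E₀ E₀k) :
    ReductionInputsAlong A π N :=
  reductionInputsAlong_of_cons h H.placeRed H.deg_placeRed
    (fun _ hf _ hD Q => H.mapDomain_placeRed_div hf hD Q)

end Main

section Qbar

variable (A : ValuationSubring (AlgebraicClosure ℚ)) (N : ℕ) [NeZero N]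

/-- `ReductionInputsModL A N` from `(RED)` and a place map with conservation of number. -/
theorem reductionInputsModL_of_cons
    (h : Stmt_Red A (IsLocalRing.residue A) N)
    (r : Place (AlgebraicClosure ℚ) (modularFunctionFieldBar N) →
      Place (IsLocalRing.ResidueField A)
        (modularFunctionFieldFullC (IsLocalRing.ResidueField A) N))
    (hdeg : ∀ P, (r P).deg = P.deg)
    (hcons : ∀ f : ↥(helper8991.gaussF A (IsLocalRing.residue A) N), redk h f ≠ 0 →
      ∀ D : Divisor (AlgebraicClosure ℚ) (modularFunctionFieldBar N),
        (∀ P, D P = P.ord (f : ↥(modularFunctionFieldBar N))) →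
          ∀ Q, Finsupp.mapDomain r D Q = Q.ord (redk h f)) :
    ReductionInputsModL A N :=
  haveI := Fermat.Agent.S37.helper5162.hasPrincipalDivisors_FN N
  reductionInputsAlong_of_cons h r hdeg hcons

/-- `ReductionInputsModL A N` from `(RED)` and the lattice hypotheses of `helper5413`. -/
theorem reductionInputsModL_of_latHyp
    (h : Stmt_Red A (IsLocalRing.residue A) N) {g c : ℤ}
    {E₀ : Divisor (AlgebraicClosure ℚ) (modularFunctionFieldBar N)}
    {E₀k : Divisor (IsLocalRing.ResidueField A)
      (modularFunctionFieldFullC (IsLocalRing.ResidueField A) N)}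
    (H : helper5413.LatHyp (helper8991.gaussF A (IsLocalRing.residue A) N) (redk h) g c E₀ E₀k) :
    ReductionInputsModL A N :=
  haveI := Fermat.Agent.S37.helper5162.hasPrincipalDivisors_FN N
  reductionInputsAlong_of_latHyp h H

end Qbar

end Fermat.Agent.S37.helper1210
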