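/-
S37-KRON-MATCH (helper1232): abstract glue of the point-level Kronecker congruence.

* `exists_forall_ne_zero`      : finitely many nonzero linear maps on a vector space over an
                                 infinite field are simultaneously nonzero at some vector.
* `exists_separating`          : finitely many algebra homs `B →ₐ[k] K` are separated by one `f`.
* `exists_separating_of_surjective` : same for `B →ₐ[A] K` when `A → K` is onto and `K` infinite.
* `multiset_algHom_eq_of_prod_eq` (M1), `multiset_algHom_eq_of_prod_eq_of_surjective` (M1')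
* `mem_closure_of_mapDomain_eq_zero`, `sub_mem_closure_of_mapDomain_eq` (M2', Finsupp form)
* `sub_mem_closure_of_map_eq` (M2, Multiset form)
* `kronecker_match`, `kronecker_match_indexed` (+ `_of_surjective` variants) (M3)
* `match_of_prod_eq_of_factor`, `kronecker_match_of_factor`, `kronecker_match_indexed_of_factor`
  (M4: several charts), `map_mem_of_mem_closure` (transport to `Pic⁰`)

Mathlib only; no modular vocabulary.
-/
import Mathlib

set_option autoImplicit false

namespace Fermat.Agent.S37.helper1232

open Polynomial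

/-! ### Avoiding finitely many proper subspaces -/

section Avoid

variable {k V W : Type*} [Field k] [Infinite k] [AddCommGroup V] [Module k V]
  [AddCommGroup W] [Module k W]

/-- Finitely many nonzero linear maps on a vector space over an infinite field do not vanish
simultaneously... more precisely there is a vector at which none of them vanishes. -/
theorem exists_forall_ne_zero (L : Finset (V →ₗ[k] W)) (hL : (0 : V →ₗ[k] W) ∉ L) :
    ∃ v : V, ∀ l ∈ L, l v ≠ 0 := by
  classical
  set S : Finset (Subspace k V) := L.image LinearMap.ker with hS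
  have hS' : (⊤ : Subspace k V) ∉ S := by
    intro h
    rw [hS, Finset.mem_image] at h
    obtain ⟨l, hl, hker⟩ := h
    rw [LinearMap.ker_eq_top] at hker
    exact hL (hker ▸ hl)
  have hne := Subspace.biUnion_ne_univ_of_top_notMem hS'
  obtain ⟨v, hv⟩ : ∃ v : V, v ∉ ⋃ p ∈ S, (p : Set V) := by
    by_contra hcon
    push Not at hcon
    exact hne (Set.eq_univ_of_forall hcon)
  refine ⟨v, fun l hl hlv => hv ?_⟩
  simp only [Set.mem_iUnion]
  exact ⟨LinearMap.ker l, Finset.mem_image_of_mem _ hl, hlv⟩

end Avoid

/-! ### Separating finitely many homomorphisms by one element -/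

section Separation

variable {k B K : Type*} [Field k] [Infinite k] [CommRing B] [Algebra k B] [Field K] [Algebra k K]

/-- Finitely many `k`-algebra homs `B → K` (`k` an infinite field) are separated by a single
element of `B`. -/
theorem exists_separating (Φ : Finset (B →ₐ[k] K)) :
    ∃ f : B, ∀ φ ∈ Φ, ∀ ψ ∈ Φ, φ f = ψ f → φ = ψ := by
  classical
  set L : Finset (B →ₗ[k] K) :=
    ((Φ ×ˢ Φ).filter fun p => p.1 ≠ p.2).image fun p => p.1.toLinearMap - p.2.toLinearMap with hLdef
  have hL : (0 : B →ₗ[k] K) ∉ L := by
    intro h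
    rw [hLdef, Finset.mem_image] at h
    obtain ⟨⟨φ, ψ⟩, hp, h0⟩ := h
    rw [Finset.mem_filter] at hp
    apply hp.2
    ext x
    have := LinearMap.congr_fun h0 x
    simpa [sub_eq_zero] using this
  obtain ⟨f, hf⟩ := exists_forall_ne_zero L hL
  refine ⟨f, fun φ hφ ψ hψ hfe => ?_⟩
  by_contra hne
  refine hf (φ.toLinearMap - ψ.toLinearMap) ?_ ?_
  · rw [hLdef, Finset.mem_image]
    exact ⟨(φ, ψ), Finset.mem_filter.mpr ⟨Finset.mem_product.mpr ⟨hφ, hψ⟩, hne⟩, rfl⟩
  · simp [hfe]

end Separation

section SeparationSurj

variable {A B K : Type*} [CommRing A] [CommRing B] [Algebra A B] [Field K] [Infinite K]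
  [Algebra A K]

/-- Finitely many `A`-algebra homs `B → K` are separated by a single element of `B`, when
`A → K` is surjective onto an infinite field `K` (e.g. `A` a valuation ring, `K` its residue
field). -/
theorem exists_separating_of_surjective (hsurj : Function.Surjective (algebraMap A K))
    (Φ : Finset (B →ₐ[A] K)) :
    ∃ f : B, ∀ φ ∈ Φ, ∀ ψ ∈ Φ, φ f = ψ f → φ = ψ := by
  classical
  set P : Finset ((B →ₐ[A] K) × (B →ₐ[A] K)) := (Φ ×ˢ Φ).filter fun p => p.1 ≠ p.2 with hP
  -- for each pair of distinct homs an element on which they differ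
  have hg : ∀ p : P, ∃ g : B, p.1.1 g ≠ p.1.2 g := by
    rintro ⟨⟨φ, ψ⟩, hp⟩
    rw [hP, Finset.mem_filter] at hp
    by_contra hcon
    push Not at hcon
    exact hp.2 (AlgHom.ext hcon)
  choose g hg using hg
  -- the linear forms on `P → K`
  let lin : P → ((P → K) →ₗ[K] K) := fun q =>
    ∑ p : P, (q.1.1 (g p) - q.1.2 (g p)) • LinearMap.proj p
  have hlin : ∀ (q : P) (c : P → K), lin q c = ∑ p : P, (q.1.1 (g p) - q.1.2 (g p)) * c p := by
    intro q c
    simp [lin, LinearMap.sum_apply]
  set L : Finset ((P → K) →ₗ[K] K) := Finset.univ.image lin with hLdef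
  have hL : (0 : (P → K) →ₗ[K] K) ∉ L := by
    intro h
    rw [hLdef, Finset.mem_image] at h
    obtain ⟨q, -, h0⟩ := h
    have h1 := LinearMap.congr_fun h0 (Pi.single q 1)
    rw [hlin, LinearMap.zero_apply, Finset.sum_eq_single q] at h1
    · rw [Pi.single_eq_same, mul_one, sub_eq_zero] at h1
      exact hg q h1
    · intro p _ hpq
      rw [Pi.single_eq_of_ne hpq, mul_zero]
    · intro hq
      exact absurd (Finset.mem_univ q) hq
  obtain ⟨c, hc⟩ := exists_forall_ne_zero L hL
  choose a ha using fun p : P => hsurj (c p)
  refine ⟨∑ p : P, a p • g p, fun φ hφ ψ hψ hfe => ?_⟩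
  by_contra hne
  have hq : (φ, ψ) ∈ P := by
    rw [hP, Finset.mem_filter]
    exact ⟨Finset.mem_product.mpr ⟨hφ, hψ⟩, hne⟩
  refine hc (lin ⟨(φ, ψ), hq⟩) (Finset.mem_image_of_mem _ (Finset.mem_univ _)) ?_
  rw [hlin]
  have hφf : φ (∑ p : P, a p • g p) = ∑ p : P, c p * φ (g p) := by
    rw [map_sum]
    refine Finset.sum_congr rfl fun p _ => ?_
    rw [map_smul, Algebra.smul_def, ha]
  have hψf : ψ (∑ p : P, a p • g p) = ∑ p : P, c p * ψ (g p) := by
    rw [map_sum]
    refine Finset.sum_congr rfl fun p _ => ?_
    rw [map_smul, Algebra.smul_def, ha]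
  rw [hφf, hψf] at hfe
  have : ∑ p : P, (φ (g p) - ψ (g p)) * c p
      = ∑ p : P, c p * φ (g p) - ∑ p : P, c p * ψ (g p) := by
    rw [← Finset.sum_sub_distrib]
    refine Finset.sum_congr rfl fun p _ => ?_
    ring
  rw [this, hfe, sub_self]

end SeparationSurj

/-! ### (M1) multisets of homomorphisms are determined by their value polynomials -/

section MultisetHom

variable {R B K : Type*} [CommSemiring R] [CommRing B] [Algebra R B] [Field K] [Algebra R K]

/-- Core: if some `f` separates the homs occurring in `s + t`, and the multisets of values at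
`f` agree, then `s = t`. -/
theorem multiset_eq_of_separating (s t : Multiset (B →ₐ[R] K)) (f : B)
    (hf : ∀ φ ∈ s + t, ∀ ψ ∈ s + t, φ f = ψ f → φ = ψ)
    (h : (s.map fun φ => X - C (φ f)).prod = (t.map fun φ => X - C (φ f)).prod) :
    s = t := by
  classical
  have hroots : s.map (fun φ => φ f) = t.map (fun φ => φ f) := by
    have e : ∀ u : Multiset (B →ₐ[R] K),
        (u.map fun φ => X - C (φ f)) = (u.map fun φ => φ f).map fun a => X - C a := by
      intro u
      rw [Multiset.map_map]
      rfl
    have h1 := congrArg Polynomial.roots h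
    rwa [e s, e t, roots_multiset_prod_X_sub_C, roots_multiset_prod_X_sub_C] at h1
  have key : ∀ (u : Multiset (B →ₐ[R] K)) (φ₀ : B →ₐ[R] K), φ₀ ∈ s + t →
      (∀ φ ∈ u, φ ∈ s + t) →
      Multiset.count (φ₀ f) (u.map fun φ => φ f) = Multiset.count φ₀ u := by
    intro u φ₀ hφ₀ hu
    rw [Multiset.count_map, Multiset.count_eq_card_filter_eq]
    congr 1
    refine Multiset.filter_congr fun φ hφ => ?_
    constructor
    · intro hv
      exact hf φ₀ hφ₀ φ (hu φ hφ) hv
    · intro hv
      rw [hv]
  ext φ₀
  by_cases hmem : φ₀ ∈ s + t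
  · rw [← key s φ₀ hmem (fun φ hφ => Multiset.mem_add.mpr (Or.inl hφ)),
      ← key t φ₀ hmem (fun φ hφ => Multiset.mem_add.mpr (Or.inr hφ)), hroots]
  · rw [Multiset.mem_add, not_or] at hmem
    rw [Multiset.count_eq_zero_of_notMem hmem.1, Multiset.count_eq_zero_of_notMem hmem.2]

end MultisetHom

section M1

variable {k B K : Type*} [Field k] [Infinite k] [CommRing B] [Algebra k B] [Field K] [Algebra k K]

/-- **(M1) Separation.** Two finite multisets of `k`-algebra homs `B → K` (`k` an infinite
field) such that `∏ (X - φ f)` agree for every `f : B` are equal. -/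
theorem multiset_algHom_eq_of_prod_eq (s t : Multiset (B →ₐ[k] K))
    (h : ∀ f : B, (s.map fun φ => X - C (φ f)).prod = (t.map fun φ => X - C (φ f)).prod) :
    s = t := by
  classical
  obtain ⟨f, hf⟩ := exists_separating (s + t).toFinset
  exact multiset_eq_of_separating s t f
    (fun φ hφ ψ hψ => hf φ (Multiset.mem_toFinset.mpr hφ) ψ (Multiset.mem_toFinset.mpr hψ)) (h f)

end M1

section M1'

variable {A B K : Type*} [CommRing A] [CommRing B] [Algebra A B] [Field K] [Infinite K]
  [Algebra A K]

/-- **(M1') Separation, residue-field form.** `A → K` surjective onto an infinite field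
(e.g. a valuation ring and its residue field): two finite multisets of `A`-algebra homs
`B → K` with equal value polynomials for every `f : B` are equal. -/
theorem multiset_algHom_eq_of_prod_eq_of_surjective
    (hsurj : Function.Surjective (algebraMap A K)) (s t : Multiset (B →ₐ[A] K))
    (h : ∀ f : B, (s.map fun φ => X - C (φ f)).prod = (t.map fun φ => X - C (φ f)).prod) :
    s = t := by
  classical
  obtain ⟨f, hf⟩ := exists_separating_of_surjective hsurj (s + t).toFinset
  exact multiset_eq_of_separating s t f
    (fun φ hφ ψ hψ => hf φ (Multiset.mem_toFinset.mpr hφ) ψ (Multiset.mem_toFinset.mpr hψ)) (h f)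

end M1'

/-! ### (M2) matching: divisors with equal pushforward differ by "same-residue" pairs -/

section Matching

variable {P S : Type*}

/-- The generating set of the "kernel of specialisation": differences of two points with the
same image under `r`. -/
def sameFibrePairs (r : P → S) : Set (P →₀ ℤ) :=
  {D | ∃ v w : P, r v = r w ∧ D = Finsupp.single v 1 - Finsupp.single w 1}

theorem single_sub_single_mem (r : P → S) {v w : P} (h : r v = r w) :
    (Finsupp.single v (1 : ℤ) - Finsupp.single w 1) ∈ AddSubgroup.closure (sameFibrePairs r) :=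
  AddSubgroup.subset_closure ⟨v, w, h, rfl⟩

/-- **(M2') Matching, `Finsupp` form.** A divisor whose pushforward along `r` vanishes lies in
the subgroup generated by `[v] - [w]`, `r v = r w`. -/
theorem mem_closure_of_mapDomain_eq_zero (r : P → S) (E : P →₀ ℤ)
    (h : Finsupp.mapDomain r E = 0) : E ∈ AddSubgroup.closure (sameFibrePairs r) := by
  classical
  rcases isEmpty_or_nonempty P with hP | hP
  · have : E = 0 := Subsingleton.elim _ _
    rw [this]
    exact AddSubgroup.zero_mem _
  -- a base point in each fibre
  set c : P → P := fun v => Function.invFun r (r v) with hc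
  have hrc : ∀ v, r (c v) = r v := fun v => Function.invFun_eq ⟨v, rfl⟩
  have h0 : Finsupp.mapDomain c E = 0 := by
    have : c = Function.invFun r ∘ r := rfl
    rw [this, Finsupp.mapDomain_comp, h, Finsupp.mapDomain_zero]
  have hE : E = E - Finsupp.mapDomain c E := by rw [h0, sub_zero]
  rw [hE]
  -- now `E - c_* E` is a sum of multiples of generators
  have gen : ∀ D : P →₀ ℤ, D - Finsupp.mapDomain c D ∈ AddSubgroup.closure (sameFibrePairs r) := by
    intro D
    induction D using Finsupp.induction_linear with
    | zero => simp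
    | add D₁ D₂ h₁ h₂ =>
      have : D₁ + D₂ - Finsupp.mapDomain c (D₁ + D₂)
          = (D₁ - Finsupp.mapDomain c D₁) + (D₂ - Finsupp.mapDomain c D₂) := by
        rw [Finsupp.mapDomain_add]; abel
      rw [this]
      exact AddSubgroup.add_mem _ h₁ h₂
    | single v n =>
      rw [Finsupp.mapDomain_single]
      have : (Finsupp.single v n - Finsupp.single (c v) n : P →₀ ℤ)
          = n • (Finsupp.single v (1 : ℤ) - Finsupp.single (c v) 1) := by
        rw [smul_sub, Finsupp.smul_single, Finsupp.smul_single, smul_eq_mul, mul_one]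
      rw [this]
      exact AddSubgroup.zsmul_mem _ (single_sub_single_mem r (hrc v).symm) n
  exact gen E

/-- **(M2') Matching, difference form.** -/
theorem sub_mem_closure_of_mapDomain_eq (r : P → S) (D D' : P →₀ ℤ)
    (h : Finsupp.mapDomain r D = Finsupp.mapDomain r D') :
    D - D' ∈ AddSubgroup.closure (sameFibrePairs r) := by
  apply mem_closure_of_mapDomain_eq_zero
  rw [Finsupp.mapDomain_sub, h, sub_self]

/-- The divisor of a multiset of points. -/
noncomputable def divOfMultiset (s : Multiset P) : P →₀ ℤ :=
  (s.map fun v => Finsupp.single v (1 : ℤ)).sum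

@[simp] theorem divOfMultiset_zero : divOfMultiset (0 : Multiset P) = 0 := by
  simp [divOfMultiset]

@[simp] theorem divOfMultiset_cons (v : P) (s : Multiset P) :
    divOfMultiset (v ::ₘ s) = Finsupp.single v 1 + divOfMultiset s := by
  simp [divOfMultiset]

@[simp] theorem divOfMultiset_add (s t : Multiset P) :
    divOfMultiset (s + t) = divOfMultiset s + divOfMultiset t := by
  simp [divOfMultiset]

theorem divOfMultiset_replicate (n : ℕ) (v : P) :
    divOfMultiset (Multiset.replicate n v) = Finsupp.single v (n : ℤ) := by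
  induction n with
  | zero => simp
  | succ n ih =>
    rw [Multiset.replicate_succ, divOfMultiset_cons, ih, ← Finsupp.single_add]
    congr 1
    push_cast
    ring

theorem mapDomain_divOfMultiset (r : P → S) (s : Multiset P) :
    Finsupp.mapDomain r (divOfMultiset s) = divOfMultiset (s.map r) := by
  induction s using Multiset.induction_on with
  | empty => simp
  | cons v s ih =>
    rw [divOfMultiset_cons, Finsupp.mapDomain_add, Finsupp.mapDomain_single, ih,
      Multiset.map_cons, divOfMultiset_cons]

theorem divOfMultiset_sum_replicate {ι : Type*} (I : Finset ι) (pt : ι → P) (e : ι → ℕ) :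
    divOfMultiset (∑ w ∈ I, Multiset.replicate (e w) (pt w))
      = ∑ w ∈ I, Finsupp.single (pt w) (e w : ℤ) := by
  classical
  induction I using Finset.induction_on with
  | empty => simp
  | insert a I ha ih =>
    rw [Finset.sum_insert ha, Finset.sum_insert ha, divOfMultiset_add, divOfMultiset_replicate,
      ih]

theorem prod_map_sum_replicate {ι M : Type*} [CommMonoid M] (I : Finset ι) (pt : ι → P)
    (e : ι → ℕ) (g : P → M) :
    ((∑ w ∈ I, Multiset.replicate (e w) (pt w)).map g).prod = ∏ w ∈ I, g (pt w) ^ e w := by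
  classical
  induction I using Finset.induction_on with
  | empty => simp
  | insert a I ha ih =>
    rw [Finset.sum_insert ha, Finset.prod_insert ha, Multiset.map_add, Multiset.prod_add, ih,
      Multiset.map_replicate, Multiset.prod_replicate]

/-- **(M2) Matching, `Multiset` form.** Two multisets of points with the same multiset of
`r`-images have divisors differing by an element of the subgroup generated by `[v] - [w]`,
`r v = r w`. -/
theorem sub_mem_closure_of_map_eq (r : P → S) (s t : Multiset P) (h : s.map r = t.map r) :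
    divOfMultiset s - divOfMultiset t ∈ AddSubgroup.closure (sameFibrePairs r) := by
  apply sub_mem_closure_of_mapDomain_eq
  rw [mapDomain_divOfMultiset, mapDomain_divOfMultiset, h]

end Matching

/-! ### (M3) the packaged Kronecker matching statements -/

section Kronecker

variable {k B K : Type*} [Field k] [Infinite k] [CommRing B] [Algebra k B] [Field K] [Algebra k K]
variable {P : Type*}

/-- **(M3, general).** `ev : P → (B →ₐ[k] K)` attaches to each point its residue hom.  If two
multisets of points have the same value polynomials `∏ (X - f(Q))` for every `f`, then their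
divisors differ by an element of the subgroup generated by `[v] - [w]`, `ev v = ev w`. -/
theorem match_of_prod_eq (ev : P → (B →ₐ[k] K)) (T T' : Multiset P)
    (h : ∀ f : B, (T.map fun Q => X - C (ev Q f)).prod = (T'.map fun Q => X - C (ev Q f)).prod) :
    divOfMultiset T - divOfMultiset T' ∈ AddSubgroup.closure (sameFibrePairs ev) := by
  apply sub_mem_closure_of_map_eq
  apply multiset_algHom_eq_of_prod_eq
  intro f
  simpa [Multiset.map_map, Function.comp_def] using h f

/-- **(M3, Kronecker form).** If for every `f` the value polynomial of the multiset `T`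
(`= T_ℓ(φ P)` with multiplicities) is `(X - f(P₁)) * (X - f(P₂)) ^ ℓ`, then
`[P₁] - T + ℓ [P₂]` lies in the subgroup generated by `[v] - [w]`, `ev v = ev w`. -/
theorem kronecker_match (ev : P → (B →ₐ[k] K)) (T : Multiset P) (P₁ P₂ : P) (ℓ : ℕ)
    (h : ∀ f : B, (T.map fun Q => X - C (ev Q f)).prod
      = (X - C (ev P₁ f)) * (X - C (ev P₂ f)) ^ ℓ) :
    Finsupp.single P₁ (1 : ℤ) - divOfMultiset T + Finsupp.single P₂ (ℓ : ℤ)
      ∈ AddSubgroup.closure (sameFibrePairs ev) := by
  have h' := match_of_prod_eq ev T (P₁ ::ₘ Multiset.replicate ℓ P₂) (fun f => by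
    rw [h f, Multiset.map_cons, Multiset.prod_cons, Multiset.map_replicate,
      Multiset.prod_replicate])
  rw [divOfMultiset_cons, divOfMultiset_replicate] at h'
  have := AddSubgroup.neg_mem _ h'
  convert this using 1
  abel

/-- **(M3, indexed Kronecker form)**, matching the shape "product over the fibre with
multiplicities": `I` a finite index set (places `w` above `P` along `β`), `pt w` the point
below `w` along `α`, `e w` the multiplicity. -/
theorem kronecker_match_indexed {ι : Type*} (ev : P → (B →ₐ[k] K)) (I : Finset ι)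
    (pt : ι → P) (e : ι → ℕ) (P₁ P₂ : P) (ℓ : ℕ)
    (h : ∀ f : B, ∏ w ∈ I, (X - C (ev (pt w) f)) ^ e w
      = (X - C (ev P₁ f)) * (X - C (ev P₂ f)) ^ ℓ) :
    Finsupp.single P₁ (1 : ℤ) - ∑ w ∈ I, Finsupp.single (pt w) (e w : ℤ)
        + Finsupp.single P₂ (ℓ : ℤ)
      ∈ AddSubgroup.closure (sameFibrePairs ev) := by
  rw [← divOfMultiset_sum_replicate]
  exact kronecker_match ev _ P₁ P₂ ℓ fun f => by
    rw [prod_map_sum_replicate I pt e (fun Q => X - C (ev Q f)), h f]

end Kronecker

section KroneckerSurj

variable {A B K : Type*} [CommRing A] [CommRing B] [Algebra A B] [Field K] [Infinite K]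
  [Algebra A K]
variable {P : Type*}

/-- (M3, general), residue-field form (`A → K` surjective, `K` infinite). -/
theorem match_of_prod_eq_of_surjective (hsurj : Function.Surjective (algebraMap A K))
    (ev : P → (B →ₐ[A] K)) (T T' : Multiset P)
    (h : ∀ f : B, (T.map fun Q => X - C (ev Q f)).prod = (T'.map fun Q => X - C (ev Q f)).prod) :
    divOfMultiset T - divOfMultiset T' ∈ AddSubgroup.closure (sameFibrePairs ev) := by
  apply sub_mem_closure_of_map_eq
  apply multiset_algHom_eq_of_prod_eq_of_surjective hsurj
  intro f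
  simpa [Multiset.map_map, Function.comp_def] using h f

/-- (M3, Kronecker form), residue-field form. -/
theorem kronecker_match_of_surjective (hsurj : Function.Surjective (algebraMap A K))
    (ev : P → (B →ₐ[A] K)) (T : Multiset P) (P₁ P₂ : P) (ℓ : ℕ)
    (h : ∀ f : B, (T.map fun Q => X - C (ev Q f)).prod
      = (X - C (ev P₁ f)) * (X - C (ev P₂ f)) ^ ℓ) :
    Finsupp.single P₁ (1 : ℤ) - divOfMultiset T + Finsupp.single P₂ (ℓ : ℤ)
      ∈ AddSubgroup.closure (sameFibrePairs ev) := by
  have h' := match_of_prod_eq_of_surjective hsurj ev T (P₁ ::ₘ Multiset.replicate ℓ P₂)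
    (fun f => by
      rw [h f, Multiset.map_cons, Multiset.prod_cons, Multiset.map_replicate,
        Multiset.prod_replicate])
  rw [divOfMultiset_cons, divOfMultiset_replicate] at h'
  have := AddSubgroup.neg_mem _ h'
  convert this using 1
  abel

/-- (M3, indexed Kronecker form), residue-field form. -/
theorem kronecker_match_indexed_of_surjective {ι : Type*}
    (hsurj : Function.Surjective (algebraMap A K))
    (ev : P → (B →ₐ[A] K)) (I : Finset ι)
    (pt : ι → P) (e : ι → ℕ) (P₁ P₂ : P) (ℓ : ℕ)
    (h : ∀ f : B, ∏ w ∈ I, (X - C (ev (pt w) f)) ^ e w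
      = (X - C (ev P₁ f)) * (X - C (ev P₂ f)) ^ ℓ) :
    Finsupp.single P₁ (1 : ℤ) - ∑ w ∈ I, Finsupp.single (pt w) (e w : ℤ)
        + Finsupp.single P₂ (ℓ : ℤ)
      ∈ AddSubgroup.closure (sameFibrePairs ev) := by
  rw [← divOfMultiset_sum_replicate]
  exact kronecker_match_of_surjective hsurj ev _ P₁ P₂ ℓ fun f => by
    rw [prod_map_sum_replicate I pt e (fun Q => X - C (ev Q f)), h f]

end KroneckerSurj

/-! ### (M4) chart-relative forms: `r : P → S` arbitrary, factoring through a chart on the points involved

These are the forms for a specialisation map `r` with several charts (finite chart / chart at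
infinity): `S` is any type of "residue data", and on the points occurring in the statement `r`
factors as `ι ∘ ev` for the residue homs `ev` on ONE chart algebra `B`. -/

section Factor

variable {A B K : Type*} [CommRing A] [CommRing B] [Algebra A B] [Field K] [Infinite K]
  [Algebra A K]
variable {P S : Type*}

/-- (M4, general) two multisets of points lying in one chart, with equal value polynomials on
that chart, have divisors differing by an element of the subgroup generated by `[v] - [w]`,
`r v = r w`. -/
theorem match_of_prod_eq_of_factor (hsurj : Function.Surjective (algebraMap A K))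
    (r : P → S) (ι : (B →ₐ[A] K) → S) (ev : P → (B →ₐ[A] K)) (T T' : Multiset P)
    (hT : ∀ Q ∈ T, r Q = ι (ev Q)) (hT' : ∀ Q ∈ T', r Q = ι (ev Q))
    (h : ∀ f : B, (T.map fun Q => X - C (ev Q f)).prod = (T'.map fun Q => X - C (ev Q f)).prod) :
    divOfMultiset T - divOfMultiset T' ∈ AddSubgroup.closure (sameFibrePairs r) := by
  apply sub_mem_closure_of_map_eq
  have hev : T.map ev = T'.map ev := by
    apply multiset_algHom_eq_of_prod_eq_of_surjective hsurj
    intro f
    simpa [Multiset.map_map, Function.comp_def] using h f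
  calc T.map r = T.map (fun Q => ι (ev Q)) := Multiset.map_congr rfl hT
    _ = (T.map ev).map ι := by rw [Multiset.map_map]; rfl
    _ = (T'.map ev).map ι := by rw [hev]
    _ = T'.map (fun Q => ι (ev Q)) := by rw [Multiset.map_map]; rfl
    _ = T'.map r := (Multiset.map_congr rfl hT').symm

/-- (M4, Kronecker form) chart-relative version of `kronecker_match_of_surjective`. -/
theorem kronecker_match_of_factor (hsurj : Function.Surjective (algebraMap A K))
    (r : P → S) (ι : (B →ₐ[A] K) → S) (ev : P → (B →ₐ[A] K)) (T : Multiset P) (P₁ P₂ : P)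
    (ℓ : ℕ) (hT : ∀ Q ∈ T, r Q = ι (ev Q)) (h₁ : r P₁ = ι (ev P₁)) (h₂ : r P₂ = ι (ev P₂))
    (h : ∀ f : B, (T.map fun Q => X - C (ev Q f)).prod
      = (X - C (ev P₁ f)) * (X - C (ev P₂ f)) ^ ℓ) :
    Finsupp.single P₁ (1 : ℤ) - divOfMultiset T + Finsupp.single P₂ (ℓ : ℤ)
      ∈ AddSubgroup.closure (sameFibrePairs r) := by
  have h' := match_of_prod_eq_of_factor hsurj r ι ev T (P₁ ::ₘ Multiset.replicate ℓ P₂) hT
    (fun Q hQ => by
      rcases Multiset.mem_cons.mp hQ with rfl | hQ
      · exact h₁
      · rw [Multiset.eq_of_mem_replicate hQ]; exact h₂)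
    (fun f => by
      rw [h f, Multiset.map_cons, Multiset.prod_cons, Multiset.map_replicate,
        Multiset.prod_replicate])
  rw [divOfMultiset_cons, divOfMultiset_replicate] at h'
  have := AddSubgroup.neg_mem _ h'
  convert this using 1
  abel

/-- (M4, indexed Kronecker form) chart-relative version of
`kronecker_match_indexed_of_surjective`. -/
theorem kronecker_match_indexed_of_factor {κ : Type*}
    (hsurj : Function.Surjective (algebraMap A K))
    (r : P → S) (ι : (B →ₐ[A] K) → S) (ev : P → (B →ₐ[A] K)) (I : Finset κ)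
    (pt : κ → P) (e : κ → ℕ) (P₁ P₂ : P) (ℓ : ℕ)
    (hT : ∀ w ∈ I, r (pt w) = ι (ev (pt w))) (h₁ : r P₁ = ι (ev P₁)) (h₂ : r P₂ = ι (ev P₂))
    (h : ∀ f : B, ∏ w ∈ I, (X - C (ev (pt w) f)) ^ e w
      = (X - C (ev P₁ f)) * (X - C (ev P₂ f)) ^ ℓ) :
    Finsupp.single P₁ (1 : ℤ) - ∑ w ∈ I, Finsupp.single (pt w) (e w : ℤ)
        + Finsupp.single P₂ (ℓ : ℤ)
      ∈ AddSubgroup.closure (sameFibrePairs r) := by
  classical
  rw [← divOfMultiset_sum_replicate]
  refine kronecker_match_of_factor hsurj r ι ev _ P₁ P₂ ℓ ?_ h₁ h₂ fun f => by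
    rw [prod_map_sum_replicate I pt e (fun Q => X - C (ev Q f)), h f]
  intro Q hQ
  rw [Multiset.mem_sum] at hQ
  obtain ⟨w, hw, hQw⟩ := hQ
  rw [Multiset.eq_of_mem_replicate hQw]
  exact hT w hw

end Factor

/-! ### Transport of the kernel subgroup along an additive map (e.g. `Div⁰ → Pic⁰`) -/

section Transport

variable {P S G : Type*} [AddCommGroup G]

/-- If an additive map `π` sends every generator `[v] - [w]` (`r v = r w`) into a subgroup `H`,
it sends the whole generated subgroup into `H`. -/
theorem map_mem_of_mem_closure (r : P → S) (π : (P →₀ ℤ) →+ G) (H : AddSubgroup G)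
    (hgen : ∀ v w : P, r v = r w → π (Finsupp.single v 1 - Finsupp.single w 1) ∈ H)
    {D : P →₀ ℤ} (hD : D ∈ AddSubgroup.closure (sameFibrePairs r)) : π D ∈ H := by
  induction hD using AddSubgroup.closure_induction with
  | mem E hE =>
    obtain ⟨v, w, hvw, rfl⟩ := hE
    exact hgen v w hvw
  | zero => rw [map_zero]; exact H.zero_mem
  | add E E' _ _ hE hE' => rw [map_add]; exact H.add_mem hE hE'
  | neg E _ hE => rw [map_neg]; exact H.neg_mem hE

end Transport

end Fermat.Agent.S37.helper1232
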