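import Fermat.Agent.S18.helper508_GaussMod
import Fermat.Agent.S37.helper5413_LatticeReduction

/-!
# S37-CONSMOD (helper1268): from conservation at the Gauss ring to `ReductionInputsModL`

The frozen statement S18 takes the Prelude hypothesis `ReductionInputsModL A N`, i.e.
`IsPlaceReductionAlong A (residue A) N r ∧ PrincipalGeneratedByIntegral A (residue A) N` for some
place reduction `r`.  The abstract producers of a place reduction (e.g. the lattice reduction
`helper5413.LatHyp.exists_placeReduction`) speak about a valuation subring `O` of the function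
field and a residue map `red : O →+* Fk`.

This file is the adapter at the concrete Gauss valuation ring of `helper508_GaussMod`
(`gaussValuationSubring N ℓ hℓN A hA`, `gaussResidue N ℓ hℓN A hA`):

* `isPlaceReductionAlong_of_cons` : a degree preserving `r` with the conservation law
  `r_*(div f) = div (gaussResidue f)` for the Gauss units `f` is a Prelude place reduction;
* `principalGeneratedByIntegral` : the principal divisors are generated by the integral ones
  (unconditional, from the unit form `Q(j) f = c u` of `helper508`);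
* `reductionInputsAlong_of_cons`, `reductionInputsModL_of_cons` : the Prelude Prop;
* `reductionInputsAlong_of_latHyp`, `reductionInputsModL_of_latHyp` : the same from the lattice
  hypotheses `helper5413.LatHyp` at the Gauss ring.
-/

set_option autoImplicit false

noncomputable section

namespace Fermat.Agent.S37.helper1268

open ModularCurve AlgebraicCurve Polynomial
open Fermat.Agent.S18.helper508

section PlaceLemma

variable {K F : Type*} [Field K] [Field F] [Algebra K F]

/-- A nonzero constant has order `0` at every place. -/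
theorem ord_algebraMap_eq_zero' (P : Place K F) {c : K} (hc : c ≠ 0) :
    P.ord (algebraMap K F c) = 0 := by
  let u : P.toValuationSubringˣ :=
    { val := ⟨algebraMap K F c, P.algebraMap_mem' c⟩
      inv := ⟨algebraMap K F c⁻¹, P.algebraMap_mem' c⁻¹⟩
      val_inv := Subtype.ext (by
        show algebraMap K F c * algebraMap K F c⁻¹ = 1
        rw [← map_mul, mul_inv_cancel₀ hc, map_one])
      inv_val := Subtype.ext (by
        show algebraMap K F c⁻¹ * algebraMap K F c = 1
        rw [← map_mul, inv_mul_cancel₀ hc, map_one]) }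
  exact P.ord_coe_unit u

end PlaceLemma

section Main

variable (N : ℕ) [NeZero N] (ℓ : ℕ) [Fact ℓ.Prime] (hℓN : ¬ ℓ ∣ N)
variable {L : Type*} [Field L] [Algebra ℚ L] (A : ValuationSubring L)
  (hA : (ℓ : L) ∈ A.nonunits)

/-- **Conservation at the Gauss ring gives a Prelude place reduction.** -/
theorem isPlaceReductionAlong_of_cons
    (r : Place L ↥(laurentBaseChange L (modularFunctionFieldFull N)) →
      Place (IsLocalRing.ResidueField A)
        ↥(modularFunctionFieldFullC (IsLocalRing.ResidueField A) N))
    (hdeg : ∀ P, (r P).deg = P.deg)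
    (hcons : ∀ f : ↥(gaussValuationSubring N ℓ hℓN A hA),
      gaussResidue N ℓ hℓN A hA f ≠ 0 →
      ∀ D : Divisor L ↥(laurentBaseChange L (modularFunctionFieldFull N)),
        (∀ P, D P = P.ord (f : ↥(laurentBaseChange L (modularFunctionFieldFull N)))) →
        ∀ Q, Finsupp.mapDomain r D Q = Q.ord (gaussResidue N ℓ hℓN A hA f)) :
    IsPlaceReductionAlong A (IsLocalRing.residue A) N r := by
  refine ⟨hdeg, ?_⟩
  intro y hy hyk hne D hD Q
  have hres : gaussResidue N ℓ hℓN A hA
      ⟨⟨coeffMap A.subtype y, hy⟩, coeffMap_mem_gaussValuationSubring N ℓ hℓN A hA y hy⟩ =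
      ⟨coeffMap (IsLocalRing.residue A) y, hyk⟩ :=
    Subtype.ext (gaussResidue_coeffMap N ℓ hℓN A hA y hy)
  have h := hcons
    ⟨⟨coeffMap A.subtype y, hy⟩, coeffMap_mem_gaussValuationSubring N ℓ hℓN A hA y hy⟩
    (by
      rw [hres]
      intro h0
      exact hne (congrArg Subtype.val h0))
    D hD Q
  rw [hres] at h
  exact h

include hℓN hA in
/-- **Principal divisors are generated by the integral principal divisors** (at every level
`N` prime to `ℓ`): every nonzero `f` of the function field satisfies `Q(j) f = c u` with `u` and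
`Q(j)` integral series with nonzero reduction. -/
theorem principalGeneratedByIntegral
    [HasPrincipalDivisors L ↥(laurentBaseChange L (modularFunctionFieldFull N))] :
    PrincipalGeneratedByIntegral A (IsLocalRing.residue A) N := by
  intro D hD
  obtain ⟨f, hf0, hDf⟩ := hD
  have hb := gaussBasis_isBasisZ N ℓ hℓN
  have hk := gaussBasis_indepRes N ℓ hℓN A hA
  have hf0' : (f : LaurentSeries L) ≠ 0 := fun h => hf0 (Subtype.ext h)
  obtain ⟨c, Q, u, hc, hQ, hu0, hu, hrel⟩ := exists_unit_form hb hk f.2 hf0'
  -- the two integral series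
  have hQA : cA A (aeval (jqModC A) Q) = aeval (jqModC L) (Q.map A.subtype) := cA_aeval A Q
  have hQF : coeffMap A.subtype (aeval (jqModC A) Q) ∈
      laurentBaseChange L (modularFunctionFieldFull N) := by
    show cA A (aeval (jqModC A) Q) ∈ _
    rw [hQA]
    exact aeval_mem_of_mem _ (jqModC_mem_bar L N) _
  have hQπ : coeffMap (IsLocalRing.residue A) (aeval (jqModC A) Q) ≠ 0 := by
    show cπ A (aeval (jqModC A) Q) ≠ 0
    rw [cπ_aeval]
    exact aeval_jqModC_ne_zero hQ
  have hu' : coeffMap A.subtype u ∈ laurentBaseChange L (modularFunctionFieldFull N) := hu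
  -- elements of the function field
  set gu : ↥(laurentBaseChange L (modularFunctionFieldFull N)) := ⟨coeffMap A.subtype u, hu'⟩
    with hgu
  set gQ : ↥(laurentBaseChange L (modularFunctionFieldFull N)) :=
    ⟨coeffMap A.subtype (aeval (jqModC A) Q), hQF⟩ with hgQ
  have hgu0 : gu ≠ 0 := by
    intro h
    have h1 : cA A u = 0 := congrArg Subtype.val h
    have h2 : u = 0 := cA_injective A (by rw [h1, map_zero])
    exact hu0 (by rw [h2, map_zero])
  have hgQ0 : gQ ≠ 0 := by
    intro h
    have h1 : cA A (aeval (jqModC A) Q) = 0 := congrArg Subtype.val h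
    rw [hQA] at h1
    exact aeval_map_subtype_ne_zero hQ h1
  have hmul : gQ * f =
      algebraMap L ↥(laurentBaseChange L (modularFunctionFieldFull N)) c * gu := by
    apply Subtype.ext
    show cA A (aeval (jqModC A) Q) * (f : LaurentSeries L) =
      algebraMap L (LaurentSeries L) c * cA A u
    rw [hQA]
    exact hrel
  have hcF : algebraMap L ↥(laurentBaseChange L (modularFunctionFieldFull N)) c ≠ 0 := by
    simpa using hc
  have hord : ∀ P : Place L ↥(laurentBaseChange L (modularFunctionFieldFull N)),
      P.ord f = P.ord gu - P.ord gQ := by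
    intro P
    have h1 := congrArg P.ord hmul
    rw [P.ord_mul hgQ0 hf0, P.ord_mul hcF hgu0, ord_algebraMap_eq_zero' P hc] at h1
    linarith
  obtain ⟨Eu, hEu, -⟩ :=
    HasPrincipalDivisors.exists_divisor (K := L) gu hgu0
  obtain ⟨EQ, hEQ, -⟩ :=
    HasPrincipalDivisors.exists_divisor (K := L) gQ hgQ0
  have hDE : D = Eu - EQ := by
    ext P
    rw [Finsupp.sub_apply, hDf P, hord P, hEu P, hEQ P]
  rw [hDE]
  refine sub_mem (AddSubgroup.subset_closure ?_) (AddSubgroup.subset_closure ?_)
  · exact ⟨u, hu', coeffMap_residue_mem_fullC N ℓ hℓN A hA u hu', hu0, hEu⟩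
  · exact ⟨aeval (jqModC A) Q, hQF,
      coeffMap_residue_mem_fullC N ℓ hℓN A hA _ hQF, hQπ, hEQ⟩

/-- **Adapter**: a degree preserving map on places with the conservation law at the Gauss ring
gives the Prelude reduction inputs. -/
theorem reductionInputsAlong_of_cons
    [HasPrincipalDivisors L ↥(laurentBaseChange L (modularFunctionFieldFull N))]
    (r : Place L ↥(laurentBaseChange L (modularFunctionFieldFull N)) →
      Place (IsLocalRing.ResidueField A)
        ↥(modularFunctionFieldFullC (IsLocalRing.ResidueField A) N))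
    (hdeg : ∀ P, (r P).deg = P.deg)
    (hcons : ∀ f : ↥(gaussValuationSubring N ℓ hℓN A hA),
      gaussResidue N ℓ hℓN A hA f ≠ 0 →
      ∀ D : Divisor L ↥(laurentBaseChange L (modularFunctionFieldFull N)),
        (∀ P, D P = P.ord (f : ↥(laurentBaseChange L (modularFunctionFieldFull N)))) →
        ∀ Q, Finsupp.mapDomain r D Q = Q.ord (gaussResidue N ℓ hℓN A hA f)) :
    ReductionInputsAlong A (IsLocalRing.residue A) N :=
  ⟨r, isPlaceReductionAlong_of_cons N ℓ hℓN A hA r hdeg hcons,
    principalGeneratedByIntegral N ℓ hℓN A hA⟩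

/-- **Adapter, lattice form**: the lattice hypotheses `helper5413.LatHyp` at the Gauss ring give
the Prelude reduction inputs. -/
theorem reductionInputsAlong_of_latHyp
    [HasPrincipalDivisors L ↥(laurentBaseChange L (modularFunctionFieldFull N))]
    {g c : ℤ} {E₀ : Divisor L ↥(laurentBaseChange L (modularFunctionFieldFull N))}
    {E₀k : Divisor (IsLocalRing.ResidueField A)
      ↥(modularFunctionFieldFullC (IsLocalRing.ResidueField A) N)}
    (H : Fermat.Agent.S37.helper5413.LatHyp (gaussValuationSubring N ℓ hℓN A hA)
      (gaussResidue N ℓ hℓN A hA) g c E₀ E₀k) :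
    ReductionInputsAlong A (IsLocalRing.residue A) N := by
  obtain ⟨r, hdeg, hcons, -⟩ := H.exists_placeReduction
  exact reductionInputsAlong_of_cons N ℓ hℓN A hA r hdeg
    (fun f hf D hD Q => hcons f hf D hD Q)

end Main

section Qbar

variable (N : ℕ) [NeZero N] (ℓ : ℕ) [Fact ℓ.Prime] (hℓN : ¬ ℓ ∣ N)
variable (A : ValuationSubring (AlgebraicClosure ℚ)) (hA : A.LiesOverPrime ℓ)

/-- **The hypothesis of the frozen S18 statement** from a degree preserving map on places with
the conservation law at the Gauss ring. -/
theorem reductionInputsModL_of_cons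
    [HasPrincipalDivisors (AlgebraicClosure ℚ) ↥(modularFunctionFieldBar N)]
    (r : Place (AlgebraicClosure ℚ) ↥(modularFunctionFieldBar N) →
      Place (IsLocalRing.ResidueField A)
        ↥(modularFunctionFieldFullC (IsLocalRing.ResidueField A) N))
    (hdeg : ∀ P, (r P).deg = P.deg)
    (hcons : ∀ f : ↥(gaussValuationSubring N ℓ hℓN A hA),
      gaussResidue N ℓ hℓN A hA f ≠ 0 →
      ∀ D : Divisor (AlgebraicClosure ℚ) ↥(modularFunctionFieldBar N),
        (∀ P, D P = P.ord (f : ↥(modularFunctionFieldBar N))) →
        ∀ Q, Finsupp.mapDomain r D Q = Q.ord (gaussResidue N ℓ hℓN A hA f)) :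
    ReductionInputsModL A N :=
  reductionInputsAlong_of_cons N ℓ hℓN A hA r hdeg hcons

/-- **The hypothesis of the frozen S18 statement** from the lattice hypotheses at the Gauss
ring. -/
theorem reductionInputsModL_of_latHyp
    [HasPrincipalDivisors (AlgebraicClosure ℚ) ↥(modularFunctionFieldBar N)]
    {g c : ℤ} {E₀ : Divisor (AlgebraicClosure ℚ) ↥(modularFunctionFieldBar N)}
    {E₀k : Divisor (IsLocalRing.ResidueField A)
      ↥(modularFunctionFieldFullC (IsLocalRing.ResidueField A) N)}
    (H : Fermat.Agent.S37.helper5413.LatHyp (gaussValuationSubring N ℓ hℓN A hA)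
      (gaussResidue N ℓ hℓN A hA) g c E₀ E₀k) :
    ReductionInputsModL A N :=
  reductionInputsAlong_of_latHyp N ℓ hℓN A hA H

end Qbar

end Fermat.Agent.S37.helper1268

end
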