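import Fermat.Agent.S24.helper137_CuspDatum
import Fermat.Agent.S24.helper1644_AnalyticJ

/-!
# S37 (helper137): the Atkin–Lehner / Fricke embedding at `ℓ` of the function field of level `N ℓ`

`ℚ̄(j(q^e) : e ∣ N ℓ)`, `ℓ` prime not dividing `N`, has a `ℚ̄`-embedding into `ℚ̄((q))` which
sends `j(q^d) ↦ j(q^(d ℓ²))` and `j(q^(d ℓ)) ↦ j(q^(d ℓ))` for `d ∣ N`
(`exists_swap`).  Analytically it is `τ ↦ W_ℓ (ℓ τ)`.

Everything is derived from the S24 cusp dictionary (`helper137_CuspDict`, `helper137_CuspDatum`)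
and the analytic `q`-expansion of `j` (`helper1644_AnalyticJ`).
-/

set_option autoImplicit false

open ModularCurve AlgebraicCurve UpperHalfPlane Complex
open scoped MatrixGroups Real

namespace Fermat.Agent.S37.helper137

open Fermat.Agent.S24.helper24
open Fermat.Agent.S24.helper137

attribute [local instance] algK

/-- The analytic `q`-expansion of `j`, unconditionally. -/
theorem stmt_JExp : Stmt_JExp := by
  intro τ
  have h := Fermat.Agent.S24.helper1644.hasSum_jNumQ τ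
  have hq : Function.Periodic.qParam 1 (τ : ℂ) = cexp (2 * π * Complex.I * τ) := by
    simp [Function.Periodic.qParam]
  rw [hq] at h
  exact h

theorem isExp_jFun_jqC : IsExp 1 jFun jqC := isExp_jFun stmt_JExp

/-! ## The index map -/

/-- `e ↦ e` if `ℓ ∣ e`, and `e ↦ e ℓ²` otherwise. -/
def sig (ℓ e : ℕ) : ℕ := if ℓ ∣ e then e else e * ℓ ^ 2

theorem sig_of_dvd {ℓ e : ℕ} (h : ℓ ∣ e) : sig ℓ e = e := if_pos h

theorem sig_of_not_dvd {ℓ e : ℕ} (h : ¬ ℓ ∣ e) : sig ℓ e = e * ℓ ^ 2 := if_neg h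

theorem sig_ne_zero {ℓ e : ℕ} (hℓ : ℓ ≠ 0) (he : e ≠ 0) : sig ℓ e ≠ 0 := by
  unfold sig
  split_ifs
  · exact he
  · exact Nat.mul_ne_zero he (pow_ne_zero _ hℓ)

/-! ## Affine maps of the upper half plane -/

theorem affH_affH_one {a a' : ℤ} (ha : 0 < a) (ha' : 0 < a') (τ : ℍ) :
    affH a 0 1 (affH a' 0 1 τ) = affH (a * a') 0 1 τ := by
  apply UpperHalfPlane.ext
  rw [coe_affH ha one_pos, coe_affH ha' one_pos, coe_affH (mul_pos ha ha') one_pos]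
  push_cast
  ring

theorem affH_div_affH {d l : ℤ} (hd : 0 < d) (hl : 0 < l) (τ : ℍ) :
    affH d 0 l (affH (l ^ 2) 0 1 τ) = affH (d * l) 0 1 τ := by
  apply UpperHalfPlane.ext
  rw [coe_affH hd hl, coe_affH (pow_pos hl 2) one_pos, coe_affH (mul_pos hd hl) one_pos]
  have hl0 : (l : ℂ) ≠ 0 := by exact_mod_cast hl.ne'
  push_cast
  field_simp
  ring

theorem affH_sq_affH_inv {l : ℤ} (hl : 0 < l) (x : ℍ) :
    affH (l ^ 2) 0 1 (affH 1 0 (l ^ 2) x) = x := by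
  apply UpperHalfPlane.ext
  rw [coe_affH (pow_pos hl 2) one_pos, coe_affH one_pos (pow_pos hl 2)]
  have hl0 : (l : ℂ) ≠ 0 := by exact_mod_cast hl.ne'
  push_cast
  field_simp
  ring

/-! ## The Atkin–Lehner matrix -/

/-- An element of `Γ₀(N)` with lower right entry `ℓ`. -/
theorem exists_gamma {N ℓ : ℕ} (h : Nat.Coprime ℓ N) :
    ∃ γ : SL(2, ℤ), γ 1 0 = N ∧ γ 1 1 = ℓ := by
  have hc : IsCoprime (ℓ : ℤ) (N : ℤ) := Nat.isCoprime_iff_coprime.mpr h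
  obtain ⟨a, b, hab⟩ := hc
  refine ⟨⟨!![a, -b; N, ℓ], ?_⟩, rfl, rfl⟩
  rw [Matrix.det_fin_two_of]
  linarith

theorem det_eq (γ : SL(2, ℤ)) : γ 0 0 * γ 1 1 - γ 0 1 * γ 1 0 = 1 := by
  have h := γ.det_coe
  rw [Matrix.det_fin_two] at h
  exact h

/-- `j(d · γ x) = j(d x)` for `d ∣ N`. -/
theorem jFun_affH_gamma_of_dvd {N ℓ d : ℕ} (γ : SL(2, ℤ)) (h10 : γ 1 0 = N) (h11 : γ 1 1 = ℓ)
    (hd0 : 0 < d) (hd : d ∣ N) (x : ℍ) :
    jFun (affH d 0 1 (γ • x)) = jFun (affH d 0 1 x) := by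
  obtain ⟨k, rfl⟩ := hd
  have hdet := det_eq γ
  let δ : SL(2, ℤ) := ⟨!![γ 0 0, d * γ 0 1; k, ℓ], by
    rw [Matrix.det_fin_two_of]
    rw [h10, h11] at hdet
    push_cast at hdet
    linarith⟩
  have hδ00 : δ 0 0 = γ 0 0 := rfl
  have hδ01 : δ 0 1 = d * γ 0 1 := rfl
  have hδ10 : δ 1 0 = k := rfl
  have hδ11 : δ 1 1 = ℓ := rfl
  have hdpos : (0 : ℤ) < d := by exact_mod_cast hd0
  rw [affH_smul_eq δ γ d d 0 1 hdpos hdpos one_pos (by rw [hδ00]; ring)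
    (by rw [hδ00, hδ01]; ring) (by rw [hδ10, h10]; push_cast; ring)
    (by rw [hδ10, hδ11, h11]; ring) x, jFun_smul]

/-- `j(d ℓ · γ x) = j(d x / ℓ)` for `d ∣ N`. -/
theorem jFun_affH_gamma_of_dvd_mul {N ℓ d : ℕ} (γ : SL(2, ℤ)) (h10 : γ 1 0 = N)
    (h11 : γ 1 1 = ℓ) (hℓ0 : 0 < ℓ) (hd0 : 0 < d) (hd : d ∣ N) (x : ℍ) :
    jFun (affH ((d : ℤ) * ℓ) 0 1 (γ • x)) = jFun (affH d 0 ℓ x) := by
  obtain ⟨k, rfl⟩ := hd
  have hdet := det_eq γ
  let δ : SL(2, ℤ) := ⟨!![ℓ * γ 0 0, d * γ 0 1; k, 1], by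
    rw [Matrix.det_fin_two_of]
    rw [h10, h11] at hdet
    push_cast at hdet
    linarith⟩
  have hδ00 : δ 0 0 = ℓ * γ 0 0 := rfl
  have hδ01 : δ 0 1 = d * γ 0 1 := rfl
  have hδ10 : δ 1 0 = k := rfl
  have hδ11 : δ 1 1 = 1 := rfl
  have hdpos : (0 : ℤ) < d := by exact_mod_cast hd0
  have hℓpos : (0 : ℤ) < ℓ := by exact_mod_cast hℓ0
  rw [affH_smul_eq δ γ ((d : ℤ) * ℓ) d 0 ℓ (mul_pos hdpos hℓpos) hdpos hℓpos
    (by rw [hδ00]; ring) (by rw [hδ00, hδ01]; ring) (by rw [hδ10, h10]; push_cast; ring)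
    (by rw [hδ10, hδ11, h11]; ring) x, jFun_smul]

/-- The analytic swap: `j(e · W(τ)) = j(sig e · τ)` for `e ∣ N ℓ`, `W τ = γ (ℓ² τ)`. -/
theorem jConj_swap {N ℓ e : ℕ} (hℓ : ℓ.Prime) (γ : SL(2, ℤ))
    (h10 : γ 1 0 = N) (h11 : γ 1 1 = ℓ) (he0 : 0 < e) (he : e ∣ N * ℓ) (τ : ℍ) :
    jConj e 1 (γ • affH ((ℓ : ℤ) ^ 2) 0 1 τ) = jConj (sig ℓ e) 1 τ := by
  have hℓpos : (0 : ℤ) < ℓ := by exact_mod_cast hℓ.pos
  simp only [jConj, inv_one, one_smul]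
  by_cases hdvd : ℓ ∣ e
  · obtain ⟨d, rfl⟩ := hdvd
    have hdN : d ∣ N := by
      rw [mul_comm N ℓ] at he
      exact (Nat.mul_dvd_mul_iff_left hℓ.pos).mp he
    have hd0 : 0 < d := by
      rcases Nat.eq_zero_or_pos d with h | h
      · rw [h, mul_zero] at he0; exact absurd he0 (lt_irrefl 0)
      · exact h
    rw [sig_of_dvd (dvd_mul_right ℓ d)]
    have hcast : ((ℓ * d : ℕ) : ℤ) = (d : ℤ) * ℓ := by push_cast; ring
    rw [hcast, jFun_affH_gamma_of_dvd_mul γ h10 h11 hℓ.pos hd0 hdN,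
      affH_div_affH (by exact_mod_cast hd0) hℓpos]
  · have heN : e ∣ N := by
      have hcop : Nat.Coprime e ℓ := (Nat.Coprime.symm ((Nat.Prime.coprime_iff_not_dvd hℓ).mpr hdvd))
      exact hcop.dvd_of_dvd_mul_right he
    rw [sig_of_not_dvd hdvd, jFun_affH_gamma_of_dvd γ h10 h11 he0 heN,
      affH_affH_one (by exact_mod_cast he0) (pow_pos hℓpos 2)]
    congr 2

/-! ## The kernel lemma in `∀ τ` form -/

theorem Psi_jSeries (M m : ℕ) [NeZero M] [NeZero m] :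
    Psi M (jSeries m) = qExpand ℂ (M * m) jqC := by
  show qExpand ℂ M (coeffMap phi0 (coeffEmb Kbar (qExpand ℚ m jq))) = _
  rw [coeffEmb, coeffMap_coeffMap, coeffMap_qExpand, qExpand_qExpand]
  congr 1
  exact coeffMap_congr (Subsingleton.elim _ _) jq

/-- A polynomial relation among the `j(q^e)`, `e ∣ M`, holds iff it holds among the functions
`τ ↦ j(e τ)`. -/
theorem aeval_genF_eq_zero_iff_forall (M : ℕ) [NeZero M] (P : MvPolynomial (Dv M) Kbar) :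
    MvPolynomial.aeval (genF M) P = 0 ↔
      ∀ τ : ℍ, MvPolynomial.eval₂ phi0 (fun e : Dv M => jConj e.1 1 τ) P = 0 := by
  have hE : ∀ d : Dv M, IsExp M (jConj d.1 1) (Psi M (genS M d)) := by
    intro d
    have := d.neZero
    rw [Psi_genS]
    exact isExp_jConj_one isExp_jFun_jqC M d.1
  rw [aeval_genF_eq_zero_iff isExp_jFun_jqC M 1 (fun d => Psi M (genS M d)) hE P,
    MvPolynomial.aeval_def]
  exact IsExp.eval₂_eq_zero_iff phi0 hE P

/-- The same for an arbitrary family of exponents. -/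
theorem aeval_jSeries_eq_zero_iff_forall {ι : Type*} (m : ι → ℕ) [∀ i, NeZero (m i)]
    (P : MvPolynomial ι Kbar) :
    MvPolynomial.aeval (fun i => jSeries (m i)) P = 0 ↔
      ∀ τ : ℍ, MvPolynomial.eval₂ phi0 (fun i => jConj (m i) 1 τ) P = 0 := by
  have hE : ∀ i, IsExp 1 (jConj (m i) 1) (Psi 1 (jSeries (m i))) := by
    intro i
    rw [Psi_jSeries]
    exact isExp_jConj_one isExp_jFun_jqC 1 (m i)
  have h4 : MvPolynomial.eval₂ ((HahnSeries.C : ℂ →+* LaurentSeries ℂ).comp phi0)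
      (fun i => Psi 1 (jSeries (m i))) P = Psi 1 (MvPolynomial.aeval (fun i => jSeries (m i)) P) := by
    rw [MvPolynomial.aeval_def, MvPolynomial.hom_eval₂]
    congr 1
    exact RingHom.ext fun a => (Psi_algebraMap 1 a).symm
  rw [← IsExp.eval₂_eq_zero_iff phi0 hE P, h4, map_eq_zero_iff (Psi 1) (Psi_injective 1)]

/-! ## The swap embedding -/

section Swap

variable (N ℓ : ℕ) [NeZero N] [NeZero ℓ]

instance sig_neZero (e : Dv (N * ℓ)) : NeZero (sig ℓ e.1) :=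
  ⟨sig_ne_zero (NeZero.ne ℓ) e.neZero.ne⟩

/-- The target family `e ↦ j(q^(sig e))`. -/
noncomputable def swapTarget (e : Dv (N * ℓ)) : LaurentSeries Kbar := jSeries (sig ℓ e.1)

variable {N ℓ}

/-- **The Atkin–Lehner embedding at `ℓ`.** -/
theorem exists_swap (hℓ : ℓ.Prime) (hN : Nat.Coprime ℓ N) :
    ∃ w : FN (N * ℓ) →ₐ[Kbar] LaurentSeries Kbar,
      ∀ e : Dv (N * ℓ), w (genF (N * ℓ) e) = swapTarget N ℓ e := by
  obtain ⟨γ, h10, h11⟩ := exists_gamma hN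
  have hℓpos : (0 : ℤ) < ℓ := by exact_mod_cast hℓ.pos
  refine exists_algHom (N * ℓ) (swapTarget N ℓ) fun P => ?_
  have h2 : MvPolynomial.aeval (swapTarget N ℓ) P = 0 ↔
      ∀ τ : ℍ, MvPolynomial.eval₂ phi0 (fun e : Dv (N * ℓ) => jConj (sig ℓ e.1) 1 τ) P = 0 :=
    aeval_jSeries_eq_zero_iff_forall (fun e : Dv (N * ℓ) => sig ℓ e.1) P
  rw [aeval_genF_eq_zero_iff_forall, h2]
  have key : ∀ τ : ℍ, (fun e : Dv (N * ℓ) => jConj e.1 1 (γ • affH ((ℓ : ℤ) ^ 2) 0 1 τ))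
      = fun e : Dv (N * ℓ) => jConj (sig ℓ e.1) 1 τ := by
    intro τ
    funext e
    exact jConj_swap hℓ γ h10 h11 (Nat.pos_of_ne_zero e.neZero.ne) e.2 τ
  constructor
  · intro h τ
    rw [← key]
    exact h _
  · intro h τ
    have h' := h (affH 1 0 ((ℓ : ℤ) ^ 2) (γ⁻¹ • τ))
    rw [← key, affH_sq_affH_inv hℓpos, smul_inv_smul] at h'
    exact h'

end Swap

end Fermat.Agent.S37.helper137
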