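import Mathlib
import Fermat.Prelude.Def_AlgebraicCurve_Repartitions
import Fermat.Prelude.Def_AlgebraicCurve_BaseChangeGalois

/-!
# S37: rigidity of positive maps on divisors (helper1719)

Abstract engine for clauses (R1) and (R2) of the Eichler–Shimura congruence **from conservation
of number alone**.

* `mass` : the sum of the coefficients of a finitely supported integer function.
* `IsMassBounded Λ c` : an additive map `Λ` between divisor groups is positive and multiplies the
  mass of effective divisors by at most `c`.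
* `BoundedRep deg P g` : every divisor of degree `0` is, modulo the subgroup `P` (principal
  divisors), a difference of two effective divisors of mass at most `g`
  (`boundedRep_of_riemann`: this is Riemann's inequality on the source curve only).
* `rigidity` / `rigidity_pos` : two mass-bounded positive additive maps that agree on `P` agree on
  every divisor of degree `0`.  (If `n • D ≡ E₁ - E₂` then `n • δ D = δ E₁ - δ E₂` is bounded
  independently of `n`.)
* `map_smul_eq_of_degree_eq_zero` (shape of (R1)) and `map_eichlerShimura_eq_zero` (shape of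
  (R2)): consumer forms for a mass-bounded `Φ : Divisor K F →+ (S →₀ ℤ)`, to be checked only on a
  generating set of the principal divisors.
-/

set_option autoImplicit false

noncomputable section

namespace Fermat.Agent.S37.helper1719

open AlgebraicCurve

/-! ### Mass -/

section Mass

variable {α β : Type*}

/-- The sum of the coefficients of a finitely supported integer-valued function. -/
def mass : (α →₀ ℤ) →+ ℤ := Finsupp.liftAddHom fun _ => AddMonoidHom.id ℤ

@[simp]
theorem mass_single (a : α) (n : ℤ) : mass (Finsupp.single a n) = n := by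
  simp [mass]

theorem mass_eq_sum (D : α →₀ ℤ) : mass D = ∑ a ∈ D.support, D a := by
  simp [mass, Finsupp.sum]

theorem mass_mapDomain (f : α → β) (D : α →₀ ℤ) : mass (Finsupp.mapDomain f D) = mass D := by
  induction D using Finsupp.induction with
  | zero => simp
  | single_add a n D _ _ ih =>
    rw [Finsupp.mapDomain_add, map_add, map_add, ih, Finsupp.mapDomain_single, mass_single,
      mass_single]

theorem mass_nonneg {D : α →₀ ℤ} (hD : 0 ≤ D) : 0 ≤ mass D := by
  rw [mass_eq_sum]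
  exact Finset.sum_nonneg fun a _ => Finsupp.le_def.mp hD a

/-- A coefficient of an effective divisor is at most its mass. -/
theorem apply_le_mass {D : α →₀ ℤ} (hD : 0 ≤ D) (a : α) : D a ≤ mass D := by
  classical
  rw [mass_eq_sum]
  by_cases ha : a ∈ D.support
  · exact Finset.single_le_sum (f := fun b => D b) (fun b _ => Finsupp.le_def.mp hD b) ha
  · rw [Finsupp.notMem_support_iff.mp ha]
    exact Finset.sum_nonneg fun b _ => Finsupp.le_def.mp hD b

theorem apply_nonneg {D : α →₀ ℤ} (hD : 0 ≤ D) (a : α) : 0 ≤ D a :=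
  Finsupp.le_def.mp hD a

theorem single_nonneg (a : α) {n : ℤ} (hn : 0 ≤ n) : (0 : α →₀ ℤ) ≤ Finsupp.single a n := by
  classical
  rw [Finsupp.le_def]
  intro b
  rw [Finsupp.single_apply]
  split_ifs <;> simp [hn]

end Mass

/-! ### Mass-bounded positive maps -/

section MassBounded

variable {α β γ : Type*}

/-- An additive map between groups of integer divisors is *mass-bounded by `c`* if it sends
effective divisors to effective divisors of mass at most `c` times the mass. -/
def IsMassBounded (Λ : (α →₀ ℤ) →+ (β →₀ ℤ)) (c : ℕ) : Prop :=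
  ∀ E : α →₀ ℤ, 0 ≤ E → 0 ≤ Λ E ∧ mass (Λ E) ≤ c * mass E

theorem IsMassBounded.mono {Λ : (α →₀ ℤ) →+ (β →₀ ℤ)} {c c' : ℕ} (h : IsMassBounded Λ c)
    (hc : c ≤ c') : IsMassBounded Λ c' := fun E hE =>
  ⟨(h E hE).1, (h E hE).2.trans
    (mul_le_mul_of_nonneg_right (by exact_mod_cast hc) (mass_nonneg hE))⟩

theorem IsMassBounded.add {Λ₁ Λ₂ : (α →₀ ℤ) →+ (β →₀ ℤ)} {c₁ c₂ : ℕ}
    (h₁ : IsMassBounded Λ₁ c₁) (h₂ : IsMassBounded Λ₂ c₂) :
    IsMassBounded (Λ₁ + Λ₂) (c₁ + c₂) := fun E hE => by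
  refine ⟨?_, ?_⟩
  · rw [AddMonoidHom.add_apply]
    exact add_nonneg (h₁ E hE).1 (h₂ E hE).1
  · rw [AddMonoidHom.add_apply, map_add]
    have e1 := (h₁ E hE).2
    have e2 := (h₂ E hE).2
    push_cast
    linarith

theorem IsMassBounded.nsmul {Λ : (α →₀ ℤ) →+ (β →₀ ℤ)} {c : ℕ} (h : IsMassBounded Λ c)
    (n : ℕ) : IsMassBounded (n • Λ) (n * c) := fun E hE => by
  refine ⟨?_, ?_⟩
  · rw [AddMonoidHom.nsmul_apply]
    exact nsmul_nonneg (h E hE).1 n
  · rw [AddMonoidHom.nsmul_apply, map_nsmul, nsmul_eq_mul]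
    have e1 := (h E hE).2
    have hn : (0 : ℤ) ≤ n := Int.natCast_nonneg n
    push_cast
    nlinarith

theorem IsMassBounded.comp {Λ₂ : (β →₀ ℤ) →+ (γ →₀ ℤ)} {Λ₁ : (α →₀ ℤ) →+ (β →₀ ℤ)}
    {c₁ c₂ : ℕ} (h₂ : IsMassBounded Λ₂ c₂) (h₁ : IsMassBounded Λ₁ c₁) :
    IsMassBounded (Λ₂.comp Λ₁) (c₂ * c₁) := fun E hE => by
  obtain ⟨p1, b1⟩ := h₁ E hE
  obtain ⟨p2, b2⟩ := h₂ (Λ₁ E) p1
  refine ⟨p2, ?_⟩
  rw [AddMonoidHom.comp_apply]
  have hc2 : (0 : ℤ) ≤ c₂ := Int.natCast_nonneg c₂
  push_cast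
  nlinarith

/-- Pushing divisors forward along a map of points is mass-bounded by `1`. -/
theorem isMassBounded_mapDomain (f : α → β) :
    IsMassBounded (Finsupp.mapDomain.addMonoidHom f : (α →₀ ℤ) →+ (β →₀ ℤ)) 1 := fun E hE => by
  refine ⟨?_, ?_⟩
  · rw [Finsupp.mapDomain.addMonoidHom_apply]
    exact Finsupp.mapDomain_mono hE |>.trans_eq' (by simp)
  · rw [Finsupp.mapDomain.addMonoidHom_apply, mass_mapDomain]
    simp

/-- To check mass-boundedness it suffices to look at the divisors of single points. -/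
theorem isMassBounded_of_single (Λ : (α →₀ ℤ) →+ (β →₀ ℤ)) (c : ℕ)
    (h : ∀ a : α, 0 ≤ Λ (Finsupp.single a 1) ∧ mass (Λ (Finsupp.single a 1)) ≤ c) :
    IsMassBounded Λ c := by
  classical
  intro E hE
  have hdecomp : E = ∑ a ∈ E.support, (E a).toNat • Finsupp.single a (1 : ℤ) := by
    conv_lhs => rw [← Finsupp.sum_single E]
    rw [Finsupp.sum]
    refine Finset.sum_congr rfl fun a _ => ?_
    rw [Finsupp.smul_single, nsmul_eq_mul, mul_one, Int.toNat_of_nonneg (apply_nonneg hE a)]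
  have hΛ : Λ E = ∑ a ∈ E.support, (E a).toNat • Λ (Finsupp.single a (1 : ℤ)) := by
    conv_lhs => rw [hdecomp]
    rw [map_sum]
    exact Finset.sum_congr rfl fun a _ => map_nsmul Λ _ _
  refine ⟨?_, ?_⟩
  · rw [hΛ]
    exact Finset.sum_nonneg fun a _ => nsmul_nonneg (h a).1 _
  · rw [hΛ, map_sum, mass_eq_sum E, Finset.mul_sum]
    refine Finset.sum_le_sum fun a _ => ?_
    rw [map_nsmul, nsmul_eq_mul]
    have h1 := (h a).2
    have h2 : ((E a).toNat : ℤ) = E a := Int.toNat_of_nonneg (apply_nonneg hE a)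
    have h3 : (0 : ℤ) ≤ E a := apply_nonneg hE a
    rw [h2]
    nlinarith

/-- Pointwise bound for the difference of two mass-bounded maps. -/
theorem IsMassBounded.abs_sub_apply_le {Λ₁ Λ₂ : (α →₀ ℤ) →+ (β →₀ ℤ)} {c₁ c₂ : ℕ}
    (h₁ : IsMassBounded Λ₁ c₁) (h₂ : IsMassBounded Λ₂ c₂) {E : α →₀ ℤ} (hE : 0 ≤ E) (b : β) :
    |(Λ₁ - Λ₂) E b| ≤ ((c₁ + c₂ : ℕ) : ℤ) * mass E := by
  obtain ⟨p1, b1⟩ := h₁ E hE
  obtain ⟨p2, b2⟩ := h₂ E hE
  have u1 := apply_le_mass p1 b
  have u2 := apply_le_mass p2 b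
  have l1 := apply_nonneg p1 b
  have l2 := apply_nonneg p2 b
  rw [AddMonoidHom.sub_apply, Finsupp.sub_apply, abs_le]
  push_cast
  constructor <;> nlinarith [mass_nonneg hE]

end MassBounded

/-! ### Rigidity -/

section Rigidity

variable {α S : Type*}

/-- **Bounded representatives.** Every divisor of degree zero is, modulo the subgroup `P`, a
difference of two effective divisors of mass at most `g`. -/
def BoundedRep (deg : (α →₀ ℤ) →+ ℤ) (P : AddSubgroup (α →₀ ℤ)) (g : ℕ) : Prop :=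
  ∀ D : α →₀ ℤ, deg D = 0 → ∃ E₁ E₂ : α →₀ ℤ, 0 ≤ E₁ ∧ 0 ≤ E₂ ∧ mass E₁ ≤ g ∧ mass E₂ ≤ g ∧
    D - (E₁ - E₂) ∈ P

variable {deg : (α →₀ ℤ) →+ ℤ} {P : AddSubgroup (α →₀ ℤ)} {g : ℕ}

/-- **Rigidity.** An additive map `δ` on divisors which kills `P` and is bounded on effective
divisors by a multiple of the mass vanishes on every divisor of degree zero. -/
theorem rigidity (hBR : BoundedRep deg P g) (δ : (α →₀ ℤ) →+ (S →₀ ℤ)) (C : ℕ)
    (hP : ∀ D ∈ P, δ D = 0)
    (hbd : ∀ E : α →₀ ℤ, 0 ≤ E → ∀ Q : S, |δ E Q| ≤ (C : ℤ) * mass E)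
    {D : α →₀ ℤ} (hD : deg D = 0) : δ D = 0 := by
  ext Q
  rw [Finsupp.zero_apply]
  set n : ℕ := 2 * C * g + 1 with hn
  have hnD : deg (n • D) = 0 := by rw [map_nsmul, hD, smul_zero]
  obtain ⟨E₁, E₂, h1, h2, m1, m2, hmem⟩ := hBR (n • D) hnD
  have hδ : δ (n • D) = δ E₁ - δ E₂ := by
    have := hP _ hmem
    rw [map_sub, map_sub, sub_eq_zero] at this
    exact this
  have hQ : (n : ℤ) * δ D Q = δ E₁ Q - δ E₂ Q := by
    have := congrArg (fun x : S →₀ ℤ => x Q) hδ
    simpa [map_nsmul, Finsupp.smul_apply, Finsupp.sub_apply] using this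
  have b1 := hbd E₁ h1 Q
  have b2 := hbd E₂ h2 Q
  have hC : (0 : ℤ) ≤ C := Int.natCast_nonneg C
  have hg : (0 : ℤ) ≤ g := Int.natCast_nonneg g
  have e1 : |δ E₁ Q| ≤ (C : ℤ) * g := b1.trans (mul_le_mul_of_nonneg_left m1 hC)
  have e2 : |δ E₂ Q| ≤ (C : ℤ) * g := b2.trans (mul_le_mul_of_nonneg_left m2 hC)
  have habs : |(n : ℤ) * δ D Q| ≤ 2 * C * g := by
    rw [hQ]
    calc |δ E₁ Q - δ E₂ Q| ≤ |δ E₁ Q| + |δ E₂ Q| := abs_sub _ _
      _ ≤ C * g + C * g := add_le_add e1 e2
      _ = 2 * C * g := by ring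
  by_contra hne
  have hpos : (1 : ℤ) ≤ |δ D Q| := Int.one_le_abs hne
  have hncast : (n : ℤ) = 2 * C * g + 1 := by rw [hn]; push_cast; ring
  rw [abs_mul, abs_of_nonneg (Int.natCast_nonneg n), hncast] at habs
  have hCg : (0 : ℤ) ≤ 2 * C * g := by positivity
  nlinarith

/-- **Rigidity for positive maps.** Two mass-bounded positive additive maps which agree on `P`
agree on every divisor of degree zero. -/
theorem rigidity_pos (hBR : BoundedRep deg P g) {Λ₁ Λ₂ : (α →₀ ℤ) →+ (S →₀ ℤ)} {c₁ c₂ : ℕ}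
    (h₁ : IsMassBounded Λ₁ c₁) (h₂ : IsMassBounded Λ₂ c₂) (hP : ∀ D ∈ P, Λ₁ D = Λ₂ D)
    {D : α →₀ ℤ} (hD : deg D = 0) : Λ₁ D = Λ₂ D := by
  have := rigidity hBR (Λ₁ - Λ₂) (c₁ + c₂)
    (fun D hD => by rw [AddMonoidHom.sub_apply, hP D hD, sub_self])
    (fun E hE Q => h₁.abs_sub_apply_le h₂ hE Q) hD
  rwa [AddMonoidHom.sub_apply, sub_eq_zero] at this

/-- Agreement of two additive maps on a subgroup follows from agreement on generators. -/
theorem eqOn_of_le_closure {M : Type*} [AddCommGroup M] {Λ₁ Λ₂ : (α →₀ ℤ) →+ M}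
    {G₀ : Set (α →₀ ℤ)} (hgen : P ≤ AddSubgroup.closure G₀) (h : ∀ D ∈ G₀, Λ₁ D = Λ₂ D) :
    ∀ D ∈ P, Λ₁ D = Λ₂ D := by
  intro D hD
  have hD' := hgen hD
  clear hD
  induction hD' using AddSubgroup.closure_induction with
  | mem E hE => exact h E hE
  | zero => rw [map_zero, map_zero]
  | add E E' _ _ hE hE' => rw [map_add, map_add, hE, hE']
  | neg E _ hE => rw [map_neg, map_neg, hE]

end Rigidity

/-! ### Prelude vocabulary: degrees, Riemann's inequality, bounded representatives -/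

section Curve

variable {K F : Type*} [Field K] [Field F] [Algebra K F]

/-- When all places have degree one, the degree of a divisor is its mass. -/
theorem degree_eq_mass (hdeg : ∀ v : Place K F, v.deg = 1) (D : Divisor K F) :
    Divisor.degree D = mass D := by
  induction D using Finsupp.induction with
  | zero => simp
  | single_add v n D _ _ ih =>
    rw [map_add, map_add, ih, Divisor.degree_single, mass_single, hdeg v]
    simp

/-- A positive additive map between divisor groups of curves all of whose places have degree one,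
multiplying degrees by `c`, is mass-bounded by `c`. -/
theorem isMassBounded_of_degree {K' F' : Type*} [Field K'] [Field F'] [Algebra K' F']
    (hdeg : ∀ v : Place K F, v.deg = 1) (hdeg' : ∀ v : Place K' F', v.deg = 1)
    (T : Divisor K F →+ Divisor K' F') (c : ℕ) (hTpos : ∀ E, 0 ≤ E → 0 ≤ T E)
    (hTdeg : ∀ E, Divisor.degree (T E) = (c : ℤ) * Divisor.degree E) : IsMassBounded T c :=
  fun E hE => ⟨hTpos E hE, by rw [← degree_eq_mass hdeg', ← degree_eq_mass hdeg, hTdeg E]⟩

/-- The action of a semilinear automorphism on divisors is mass-bounded by `1`. -/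
theorem isMassBounded_smul (γ : SemilinearAut K F) :
    IsMassBounded (DistribSMul.toAddMonoidHom (Divisor K F) γ) 1 := fun E hE => by
  refine ⟨?_, ?_⟩
  · show 0 ≤ γ • E
    rw [Finsupp.le_def]
    intro w
    rw [SemilinearAut.divisor_smul_apply]
    exact Finsupp.le_def.mp hE _
  · show mass (γ • E) ≤ ((1 : ℕ) : ℤ) * mass E
    rw [SemilinearAut.divisor_smul_def, mass_mapDomain]
    simp

/-- **Bounded representatives from Riemann's inequality** (existence form): if every divisor of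
degree at least `g` has a nonzero section, then every divisor of degree `0` is linearly equivalent
to `E - g • P₀` with `E` effective of degree `g`. -/
theorem boundedRep_of_riemann [HasPrincipalDivisors K F] (hdeg : ∀ v : Place K F, v.deg = 1)
    (P₀ : Place K F) (g : ℕ)
    (hR : ∀ D : Divisor K F, (g : ℤ) ≤ Divisor.degree D →
      ∃ f : F, f ≠ 0 ∧ f ∈ riemannRochSpace D) :
    BoundedRep (Divisor.degree (K := K) (F := F)) (Divisor.principal (K := K) (F := F)) g := by
  intro D hD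
  set E₂ : Divisor K F := Finsupp.single P₀ (g : ℤ) with hE₂
  have hE₂deg : Divisor.degree E₂ = g := by
    rw [hE₂, Divisor.degree_single, hdeg P₀]
    simp
  have hdeg' : (g : ℤ) ≤ Divisor.degree (D + E₂) := by
    rw [map_add, hD, hE₂deg, zero_add]
  obtain ⟨f, hf0, hf⟩ := hR (D + E₂) hdeg'
  obtain ⟨Z, hZ, hZ0⟩ := HasPrincipalDivisors.exists_divisor (K := K) f hf0
  refine ⟨Z + (D + E₂), E₂, ?_, single_nonneg P₀ (Int.natCast_nonneg g), ?_, ?_, ?_⟩
  · rw [Finsupp.le_def]
    intro v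
    rw [Finsupp.zero_apply, Finsupp.add_apply, hZ v]
    rcases mem_riemannRochSpace_iff.mp hf v with h | h
    · exact absurd h hf0
    · linarith
  · rw [← degree_eq_mass hdeg, map_add, map_add, hZ0, hD, hE₂deg]
    simp
  · rw [hE₂, mass_single]
  · have : D - (Z + (D + E₂) - E₂) = -Z := by abel
    rw [this]
    exact AddSubgroup.neg_mem _ ⟨f, hf0, hZ⟩

/-- **Bounded representatives from Riemann's inequality** (dimension form):
`deg D + 1 - g ≤ l(D)` for all `D`. -/
theorem boundedRep_of_finrank [HasPrincipalDivisors K F] (hdeg : ∀ v : Place K F, v.deg = 1)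
    (P₀ : Place K F) (g : ℕ)
    (hR : ∀ D : Divisor K F,
      Divisor.degree D + 1 - (g : ℤ) ≤ (Module.finrank K (riemannRochSpace D) : ℤ)) :
    BoundedRep (Divisor.degree (K := K) (F := F)) (Divisor.principal (K := K) (F := F)) g := by
  refine boundedRep_of_riemann hdeg P₀ g fun D hD => ?_
  by_contra hno
  push Not at hno
  have hbot : riemannRochSpace D = ⊥ := by
    rw [Submodule.eq_bot_iff]
    intro f hf
    by_contra hf0
    exact hno f hf0 hf
  have h := hR D
  rw [hbot, finrank_bot] at h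
  simp only [Nat.cast_zero] at h
  linarith

variable {S : Type*} {g : ℕ}

/-- **Shape of (R1).** If a mass-bounded `Φ` satisfies `Φ (γ • D) = Φ D` on a generating set of
the principal divisors, then it does so on every divisor of degree zero. -/
theorem map_smul_eq_of_degree_eq_zero
    (hBR : BoundedRep (Divisor.degree (K := K) (F := F)) (Divisor.principal (K := K) (F := F)) g)
    (Φ : Divisor K F →+ (S →₀ ℤ)) {c : ℕ} (hΦ : IsMassBounded Φ c) (γ : SemilinearAut K F)
    {G₀ : Set (Divisor K F)}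
    (hgen : Divisor.principal (K := K) (F := F) ≤ AddSubgroup.closure G₀)
    (h : ∀ D ∈ G₀, Φ (γ • D) = Φ D) {D : Divisor K F} (hD : Divisor.degree D = 0) :
    Φ (γ • D) = Φ D := by
  have h₁ : IsMassBounded (Φ.comp (DistribSMul.toAddMonoidHom (Divisor K F) γ)) (c * 1) :=
    hΦ.comp (isMassBounded_smul γ)
  exact rigidity_pos hBR h₁ hΦ
    (eqOn_of_le_closure (Λ₁ := Φ.comp (DistribSMul.toAddMonoidHom (Divisor K F) γ)) (Λ₂ := Φ)
      hgen h) hD

/-- **Shape of (R2).** If a mass-bounded `Φ`, a semilinear automorphism `γ` and a mass-bounded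
endomorphism `T` of the divisor group satisfy `Φ (γ • γ • D) + ℓ • Φ D = Φ (T (γ • D))` on a
generating set of the principal divisors, then `Φ (γ • γ • D - T (γ • D) + ℓ • D) = 0` for every
divisor `D` of degree zero. -/
theorem map_eichlerShimura_eq_zero
    (hBR : BoundedRep (Divisor.degree (K := K) (F := F)) (Divisor.principal (K := K) (F := F)) g)
    (Φ : Divisor K F →+ (S →₀ ℤ)) {c : ℕ} (hΦ : IsMassBounded Φ c) (γ : SemilinearAut K F)
    (T : Divisor K F →+ Divisor K F) {cT : ℕ} (hT : IsMassBounded T cT) (ℓ : ℕ)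
    {G₀ : Set (Divisor K F)}
    (hgen : Divisor.principal (K := K) (F := F) ≤ AddSubgroup.closure G₀)
    (h : ∀ D ∈ G₀, Φ (γ • γ • D) + ℓ • Φ D = Φ (T (γ • D)))
    {D : Divisor K F} (hD : Divisor.degree D = 0) :
    Φ (γ • γ • D - T (γ • D) + ℓ • D) = 0 := by
  set sγ : Divisor K F →+ Divisor K F := DistribSMul.toAddMonoidHom (Divisor K F) γ with hsγ
  have hs : IsMassBounded sγ 1 := isMassBounded_smul γ
  set Λ₁ : Divisor K F →+ (S →₀ ℤ) := Φ.comp (sγ.comp sγ) + ℓ • Φ with hΛ₁
  set Λ₂ : Divisor K F →+ (S →₀ ℤ) := Φ.comp (T.comp sγ) with hΛ₂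
  have h₁ : IsMassBounded Λ₁ (c * (1 * 1) + ℓ * c) := (hΦ.comp (hs.comp hs)).add (hΦ.nsmul ℓ)
  have h₂ : IsMassBounded Λ₂ (c * (cT * 1)) := hΦ.comp (hT.comp hs)
  have key : Λ₁ D = Λ₂ D :=
    rigidity_pos hBR h₁ h₂ (eqOn_of_le_closure (Λ₁ := Λ₁) (Λ₂ := Λ₂) hgen h) hD
  have e1 : Λ₁ D = Φ (γ • γ • D) + ℓ • Φ D := rfl
  have e2 : Λ₂ D = Φ (T (γ • D)) := rfl
  rw [map_add, map_sub, map_nsmul, ← e2, ← key, e1]
  abel

end Curve

end Fermat.Agent.S37.helper1719

end
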