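import Fermat.Agent.S37.helper1719_Rigidity
import Fermat.Agent.S37.helper8353_TopKernel
import Fermat.Agent.S37.helper5162_HeckeUnfold
import Fermat.Agent.S37.helper7934_NormTrick
import Fermat.Agent.S37.helper9304_PicInj
import Fermat.Agent.Lib.helper3858_ResidueQbar
import Fermat.Agent.Lib.helper7516_LaurentFrob
import Fermat.Prelude.Def_ModularCurve_ReductionModL

/-!
# S37 through the frozen S18 interface (helper1719)

Kernel `W := ker (reductionModL A (N * r) ∘ α^*)`, where `α : F_N → F_{N r}` is the inclusion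
(`heckeAlphaBar`) and `N * r` is an auxiliary level at which a place reduction with conservation
of number (`ReductionInputsModL A (N * r)`) is available (`r = 1` allowed).

* (R1), (R2) for `W` come from conservation alone, through the rigidity lemma of
  `helper1719_Rigidity` (Riemann's inequality on the generic fibre at level `N` only), the
  coefficientwise Galois action on integral `q`-expansions, and the function-level Kronecker
  congruence in `α`-norm form (`KronNorm`, a hypothesis here).
* (R3) for `W` is the frozen statement S18 at level `N * r` (`S18At`, a hypothesis here) together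
  with the norm trick along `α`.
-/

set_option autoImplicit false

noncomputable section

namespace Fermat.Agent.S37.helper1719

open ModularCurve AlgebraicCurve IsLocalRing
open Fermat.Agent.S37.helper8353 (Qb GQ)
open Fermat.Agent.S24.helper24 (FN)

/-! ### Coefficientwise Galois action on integral `q`-expansions -/

section Coeff

variable (A : ValuationSubring Qb)

/-- The restriction to `A` of an element of the decomposition group of `A`. -/
def resHom {σ : GQ} (hσ : σ ∈ A.decompositionSubgroup ℚ) : A →+* A where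
  toFun a := ⟨σ a, Fermat.Agent.Lib.helper3858.apply_mem_of_mem_decompositionSubgroup hσ a.2⟩
  map_one' := Subtype.ext (map_one σ)
  map_mul' a b := Subtype.ext (map_mul σ (a : Qb) (b : Qb))
  map_zero' := Subtype.ext (map_zero σ)
  map_add' a b := Subtype.ext (map_add σ (a : Qb) (b : Qb))

theorem subtype_comp_resHom {σ : GQ} (hσ : σ ∈ A.decompositionSubgroup ℚ) :
    A.subtype.comp (resHom A hσ) = (σ : Qb →+* Qb).comp A.subtype :=
  RingHom.ext fun _ => rfl

/-- The coefficientwise action of `σ` on an integral series lifts the action on `ℚ̄((q))`. -/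
theorem coeffMap_subtype_resHom {σ : GQ} (hσ : σ ∈ A.decompositionSubgroup ℚ)
    (y : LaurentSeries A) :
    coeffMap A.subtype (coeffMap (resHom A hσ) y)
      = coeffMap (σ : Qb →+* Qb) (coeffMap A.subtype y) := by
  rw [coeffMap_coeffMap, coeffMap_coeffMap, subtype_comp_resHom]

/-- Inertia acts trivially on reductions. -/
theorem coeffMap_residue_resHom_of_inertia {τ : GQ} (hτ : τ ∈ A.inertiaSubgroupIn ℚ)
    (hτ' : τ ∈ A.decompositionSubgroup ℚ) (y : LaurentSeries A) :
    coeffMap (residue A) (coeffMap (resHom A hτ') y) = coeffMap (residue A) y := by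
  rw [coeffMap_coeffMap]
  refine coeffMap_congr (RingHom.ext fun a => ?_) y
  exact Fermat.Agent.Lib.helper3858.residue_apply_of_mem_inertiaSubgroupIn hτ a.2 _

/-- A Frobenius element acts on reductions through the coefficientwise `ℓ`-th power map `φ`. -/
theorem coeffMap_residue_resHom_of_frobenius {σ : GQ} {ℓ : ℕ} (hσ : A.IsFrobeniusAt σ ℓ)
    (φ : ResidueField A →+* ResidueField A) (hφ : ∀ a, φ a = a ^ ℓ) (y : LaurentSeries A) :
    coeffMap (residue A) (coeffMap (resHom A hσ.mem_decompositionSubgroup) y)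
      = coeffMap φ (coeffMap (residue A) y) := by
  rw [coeffMap_coeffMap, coeffMap_coeffMap]
  refine coeffMap_congr (RingHom.ext fun a => ?_) y
  rw [RingHom.comp_apply, RingHom.comp_apply, hφ]
  exact Fermat.Agent.Lib.helper3858.residue_apply_of_isFrobeniusAt hσ a.2 _

end Coeff

/-! ### The function field of the special fibre is stable under coefficientwise ring maps -/

section FrobStable

variable {k : Type*} [Field k]

/-- `F_{k,M} = k(j(q^d) : d ∣ M)` is stable under the coefficientwise action of any ring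
endomorphism of `k` (for instance the Frobenius). -/
theorem coeffMap_mem_fullC (φ : k →+* k) (M : ℕ) {x : LaurentSeries k}
    (hx : x ∈ modularFunctionFieldFullC k M) :
    coeffMap φ x ∈ modularFunctionFieldFullC k M := by
  let T : IntermediateField k (LaurentSeries k) :=
    Subfield.toIntermediateField
      ((modularFunctionFieldFullC k M).toSubfield.comap (coeffMap φ)) (fun c => by
        show coeffMap φ (algebraMap k (LaurentSeries k) c) ∈ modularFunctionFieldFullC k M
        rw [coeffMap_algebraMap]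
        exact (modularFunctionFieldFullC k M).algebraMap_mem _)
  have hT : ∀ z : LaurentSeries k, z ∈ T ↔ coeffMap φ z ∈ modularFunctionFieldFullC k M :=
    fun z => Iff.rfl
  have hle : modularFunctionFieldFullC k M ≤ T := by
    rw [modularFunctionFieldFullC, IntermediateField.adjoin_le_iff]
    rintro z ⟨d, hne, hd, rfl⟩
    have := hne
    rw [SetLike.mem_coe, hT, coeffMap_qExpand, coeffMap_jqModC]
    exact jqModCd_mem_full k M hd
  exact (hT x).mp (hle hx)

/-- A coefficientwise ring map of a field is injective on Laurent series. -/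
theorem coeffMap_ne_zero (φ : k →+* k) {x : LaurentSeries k} (hx : x ≠ 0) : coeffMap φ x ≠ 0 := by
  intro h
  apply hx
  ext n
  have := congrArg (fun s : LaurentSeries k => s.coeff n) h
  simp only [coeffMap_coeff, HahnSeries.coeff_zero] at this
  rw [HahnSeries.coeff_zero]
  exact (map_eq_zero φ).mp this

end FrobStable

/-! ### The divisor-level reduction map `Φ = r_* ∘ α^*` and conservation -/

/-- The function field of the special fibre at `A`, level `M`. -/
abbrev FkA (A : ValuationSubring Qb) (M : ℕ) : Type :=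
  ↥(modularFunctionFieldFullC (ResidueField A) M)

set_option synthInstance.maxHeartbeats 400000 in
/-- Shortcut instance (the generic search is slow, cf. the Prelude's `maxHeartbeats`). -/
instance instAlgebraFkA (A : ValuationSubring Qb) (M : ℕ) : Algebra (ResidueField A) (FkA A M) :=
  inferInstance

section Phi

open Fermat.Agent.S37.helper5162 (heckeAlphaBarIntegral heckeBetaBarIntegral place_deg_eq_one)

variable (A : ValuationSubring Qb) (N r : ℕ) [NeZero N] [NeZero r]

/-- Integrality of the inclusion `α : F_N → F_{N r}`, in unfolded form. -/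
theorem alphaIntegral : (heckeAlphaBar Qb N r).toRingHom.IsIntegral := heckeAlphaBarIntegral N r

/-- Integrality of `β : F_N → F_{N r}`, in unfolded form. -/
theorem betaIntegral : (heckeBetaBar Qb N r).toRingHom.IsIntegral := heckeBetaBarIntegral N r

/-- Pull-back of divisors along the inclusion `α : F_N → F_{N r}` is mass-bounded. -/
theorem isMassBounded_pullbackAlpha :
    IsMassBounded (Divisor.pullbackAlong (heckeAlphaBar Qb N r) (alphaIntegral N r))
      (finrankAlong Qb (heckeAlphaBar Qb N r)) :=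
  isMassBounded_of_degree (place_deg_eq_one N) (place_deg_eq_one (N * r)) _ _
    (fun E hE => by
      rw [Finsupp.le_def]
      intro w
      rw [Finsupp.zero_apply, Divisor.pullbackAlong_apply]
      exact mul_nonneg (Int.natCast_nonneg _) (Finsupp.le_def.mp hE _))
    (fun E => Divisor.degree_pullbackAlong _ _
      (Fermat.Agent.S37.helper8426.fundamentalIdentityAlong_heckeAlphaBar N r) E)

/-- `Φ = r_* ∘ α^*`: pull a divisor of level `N` back to level `N r` and push it to the special
fibre with the Prelude place reduction. -/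
def redDiv (h : ReductionInputsModL A (N * r)) :
    Divisor Qb (FN N) →+ Divisor (ResidueField A) (FkA A (N * r)) :=
  (Finsupp.mapDomain.addMonoidHom (placeReductionModL h)).comp
    (Divisor.pullbackAlong (heckeAlphaBar Qb N r) (alphaIntegral N r))

theorem redDiv_apply (h : ReductionInputsModL A (N * r)) (D : Divisor Qb (FN N)) :
    redDiv A N r h D = Finsupp.mapDomain (placeReductionModL h)
      (Divisor.pullbackAlong (heckeAlphaBar Qb N r) (alphaIntegral N r) D) :=
  rfl

theorem isMassBounded_redDiv (h : ReductionInputsModL A (N * r)) :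
    IsMassBounded (redDiv A N r h) (1 * finrankAlong Qb (heckeAlphaBar Qb N r)) :=
  (isMassBounded_mapDomain _).comp (isMassBounded_pullbackAlpha N r)

/-- **Conservation of number for `Φ`**: on the divisor of a function of level `N` with
`A`-integral `q`-expansion `y` and nonzero reduction (lying in the special function field of
level `N r`), `Φ` is the divisor of the reduction. -/
theorem redDiv_apply_of_integral (h : ReductionInputsModL A (N * r)) (y : LaurentSeries A)
    (hy : coeffMap A.subtype y ∈ modularFunctionFieldBar N)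
    (hyk : coeffMap (residue A) y ∈ modularFunctionFieldFullC (ResidueField A) (N * r))
    (hne : coeffMap (residue A) y ≠ 0)
    (D : Divisor Qb (FN N)) (hD : ∀ P, D P = P.ord (⟨coeffMap A.subtype y, hy⟩ : FN N))
    (Q : Place (ResidueField A) (FkA A (N * r))) :
    redDiv A N r h D Q = Q.ord (⟨coeffMap (residue A) y, hyk⟩ : FkA A (N * r)) := by
  set f : FN N := ⟨coeffMap A.subtype y, hy⟩ with hf
  have hy' : coeffMap A.subtype y ∈ modularFunctionFieldBar (N * r) := by
    have := (heckeAlphaBar Qb N r f).2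
    rwa [coe_heckeAlphaBar] at this
  have hαf : heckeAlphaBar Qb N r f = ⟨coeffMap A.subtype y, hy'⟩ :=
    Subtype.ext (coe_heckeAlphaBar N r f)
  refine (isPlaceReductionModL_placeReductionModL h).2 y hy' hyk hne _ (fun P' => ?_) Q
  rw [Divisor.pullbackAlong_apply, hD, ← hαf]
  exact (Place.ord_restrictAlong _ _ P' f).symm

end Phi

/-! ### (R1) and (R2) at divisor level -/

section R12

open Fermat.Agent.S37.helper5162 (heckeAlphaBarIntegral heckeBetaBarIntegral place_deg_eq_one)

variable (A : ValuationSubring Qb) (N r : ℕ) [NeZero N] [NeZero r]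

/-- The divisor of `γ • f` is `γ • div f`. -/
theorem smul_divisor_apply_of_ord {K F : Type*} [Field K] [Field F] [Algebra K F]
    (γ : SemilinearAut K F) {f : F} {D : Divisor K F} (hD : ∀ P, D P = P.ord f)
    (P : Place K F) : (γ • D) P = P.ord (γ • f) := by
  rw [SemilinearAut.divisor_smul_apply, hD]
  have := SemilinearAut.ord_smul γ (γ⁻¹ • P) f
  rw [smul_inv_smul] at this
  exact this.symm

omit [NeZero N] in
/-- The Galois conjugate of a function with integral expansion `y`, as a subtype element. -/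
theorem arithmeticGalois_smul_mk {σ : GQ} (hσ : σ ∈ A.decompositionSubgroup ℚ)
    (y : LaurentSeries A) (hy : coeffMap A.subtype y ∈ modularFunctionFieldBar N) :
    ∃ hy' : coeffMap A.subtype (coeffMap (resHom A hσ) y) ∈ modularFunctionFieldBar N,
      arithmeticGalois (modularFunctionFieldFull N) σ • (⟨coeffMap A.subtype y, hy⟩ : FN N)
        = ⟨coeffMap A.subtype (coeffMap (resHom A hσ) y), hy'⟩ := by
  have hmem : coeffMap A.subtype (coeffMap (resHom A hσ) y) ∈ modularFunctionFieldBar N := by
    rw [coeffMap_subtype_resHom]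
    exact coeffMap_mem_laurentBaseChange σ hy
  refine ⟨hmem, Subtype.ext ?_⟩
  rw [coe_arithmeticGalois_smul]
  exact (coeffMap_subtype_resHom A hσ y).symm

/-- **(R1) at divisor level**: `Φ (τ • D) = Φ D` for `τ` in the inertia group of `A` and `D` of
degree zero. -/
theorem redDiv_smul_of_inertia (h : ReductionInputsModL A (N * r)) {g : ℕ}
    (hBR : BoundedRep (Divisor.degree (K := Qb) (F := FN N))
      (Divisor.principal (K := Qb) (F := FN N)) g)
    (hgen : PrincipalGeneratedByIntegral A (residue A) N)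
    {τ : GQ} (hτ : τ ∈ A.inertiaSubgroupIn ℚ) {D : Divisor Qb (FN N)}
    (hD : Divisor.degree D = 0) :
    redDiv A N r h (arithmeticGalois (modularFunctionFieldFull N) τ • D) = redDiv A N r h D := by
  refine map_smul_eq_of_degree_eq_zero hBR (redDiv A N r h) (isMassBounded_redDiv A N r h)
    (arithmeticGalois (modularFunctionFieldFull N) τ) hgen (fun E hE => ?_) hD
  obtain ⟨y, hy, hyk, hne, hEy⟩ := hE
  have hτ' : τ ∈ A.decompositionSubgroup ℚ :=
    Fermat.Agent.Lib.helper954.mem_decomposition_of_mem_inertia hτ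
  have hyk' : coeffMap (residue A) y ∈ modularFunctionFieldFullC (ResidueField A) (N * r) :=
    full_degeneracyC_le (ResidueField A) (dvd_mul_right N r) hyk
  obtain ⟨hy', hsmul⟩ := arithmeticGalois_smul_mk A N hτ' y hy
  have hred : coeffMap (residue A) (coeffMap (resHom A hτ') y) = coeffMap (residue A) y :=
    coeffMap_residue_resHom_of_inertia A hτ hτ' y
  have hyk'' : coeffMap (residue A) (coeffMap (resHom A hτ') y)
      ∈ modularFunctionFieldFullC (ResidueField A) (N * r) := by rw [hred]; exact hyk'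
  have hne'' : coeffMap (residue A) (coeffMap (resHom A hτ') y) ≠ 0 := by rw [hred]; exact hne
  ext Q
  rw [redDiv_apply_of_integral A N r h y hy hyk' hne E hEy Q,
    redDiv_apply_of_integral A N r h _ hy' hyk'' hne'' _
      (fun P => by rw [smul_divisor_apply_of_ord _ hEy, hsmul]) Q]
  congr 1
  exact Subtype.ext hred

/-- **Function-level Kronecker congruence in `α`-norm form at `A`.**  For every function `f` of
level `N` with `A`-integral `q`-expansion `y`, the norm of `f(q^ℓ)` from level `N ℓ` down to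
level `N` (along the inclusion `α`) has an `A`-integral `q`-expansion `z` whose reduction is
`ȳ(q^ℓ) * ȳ^φ(q)`, where `φ` is the `ℓ`-th power map applied to the coefficients. -/
def KronNorm (A : ValuationSubring Qb) (N ℓ : ℕ) [NeZero N] [NeZero ℓ] : Prop :=
  ∀ (y : LaurentSeries A) (hy : coeffMap A.subtype y ∈ modularFunctionFieldBar N),
    ∃ (z : LaurentSeries A) (hz : coeffMap A.subtype z ∈ modularFunctionFieldBar N),
      (⟨coeffMap A.subtype z, hz⟩ : FN N) =
        @Algebra.norm (FN N) (FN (N * ℓ)) _ _ (algebraAlong (heckeAlphaBar Qb N ℓ))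
          (heckeBetaBar Qb N ℓ ⟨coeffMap A.subtype y, hy⟩) ∧
      ∀ φ : ResidueField A →+* ResidueField A, (∀ a, φ a = a ^ ℓ) →
        coeffMap (residue A) z =
          qExpand (ResidueField A) ℓ (coeffMap (residue A) y) * coeffMap φ (coeffMap (residue A) y)

variable (ℓ : ℕ) [NeZero ℓ]

/-- Push-forward along `α` is mass-bounded by `1`. -/
theorem isMassBounded_pushforwardAlpha :
    IsMassBounded (Divisor.pushforwardAlong (heckeAlphaBar Qb N ℓ) (alphaIntegral N ℓ)) 1 :=
  isMassBounded_of_single _ _ fun w => by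
    rw [Divisor.pushforwardAlong_single]
    have h1 : w.inertiaDegAlong (heckeAlphaBar Qb N ℓ) (alphaIntegral N ℓ) = 1 :=
      Fermat.Agent.S37.helper5162.inertiaDegAlong_heckeAlphaBar N ℓ w
    rw [h1]
    refine ⟨single_nonneg _ (by norm_num), ?_⟩
    rw [mass_single]
    norm_num

/-- Pull-back along `β` is mass-bounded by the degree of `β`. -/
theorem isMassBounded_pullbackBeta :
    IsMassBounded (Divisor.pullbackAlong (heckeBetaBar Qb N ℓ) (betaIntegral N ℓ))
      (finrankAlong Qb (heckeBetaBar Qb N ℓ)) :=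
  isMassBounded_of_degree (place_deg_eq_one N) (place_deg_eq_one (N * ℓ)) _ _
    (fun E hE => by
      rw [Finsupp.le_def]
      intro w
      rw [Finsupp.zero_apply, Divisor.pullbackAlong_apply]
      exact mul_nonneg (Int.natCast_nonneg _) (Finsupp.le_def.mp hE _))
    (fun E => Divisor.degree_pullbackAlong _ _
      (Fermat.Agent.S37.helper8426.fundamentalIdentityAlong_heckeBetaBar N ℓ) E)

/-- The Hecke correspondence `T_ℓ = α_* β^*` on divisors is mass-bounded. -/
theorem isMassBounded_heckeDiv :
    IsMassBounded (heckeDivBar (heckeAlphaBarIntegral N ℓ) (heckeBetaBarIntegral N ℓ))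
      (1 * finrankAlong Qb (heckeBetaBar Qb N ℓ)) :=
  (isMassBounded_pushforwardAlpha N ℓ).comp (isMassBounded_pullbackBeta N ℓ)

/-- `T_ℓ (div g) = div (N_α (β g))`. -/
theorem heckeDiv_apply_of_ord {g : FN N} (hg : g ≠ 0) {E : Divisor Qb (FN N)}
    (hE : ∀ P, E P = P.ord g) (P : Place Qb (FN N)) :
    heckeDivBar (heckeAlphaBarIntegral N ℓ) (heckeBetaBarIntegral N ℓ) E P =
      P.ord (@Algebra.norm (FN N) (FN (N * ℓ)) _ _ (algebraAlong (heckeAlphaBar Qb N ℓ))
        (heckeBetaBar Qb N ℓ g)) := by
  have hβg : heckeBetaBar Qb N ℓ g ≠ 0 := fun h0 =>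
    hg ((map_eq_zero (heckeBetaBar Qb N ℓ)).mp h0)
  have hpull : ∀ w : Place Qb (FN (N * ℓ)),
      Divisor.pullbackAlong (heckeBetaBar Qb N ℓ) (betaIntegral N ℓ) E w
        = w.ord (heckeBetaBar Qb N ℓ g) := fun w => by
    rw [Divisor.pullbackAlong_apply, hE]
    exact (Place.ord_restrictAlong _ _ w g).symm
  exact (Fermat.Agent.S37.helper8426.normFormulaAlong_heckeAlphaBar N ℓ) _ hβg _ hpull P

/-- A series with nonzero reduction is nonzero in `ℚ̄((q))`. -/
theorem coeffMap_subtype_ne_zero {y : LaurentSeries A} (hne : coeffMap (residue A) y ≠ 0) :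
    coeffMap A.subtype y ≠ 0 := by
  intro h0
  apply hne
  ext n
  have h1 := congrArg (fun s : LaurentSeries Qb => s.coeff n) h0
  simp only [coeffMap_coeff, HahnSeries.coeff_zero] at h1
  have h2 : y.coeff n = 0 := Subtype.ext h1
  rw [coeffMap_coeff, h2, map_zero, HahnSeries.coeff_zero]

set_option maxHeartbeats 1600000 in
/-- **(R2) at divisor level**: `Φ (σ σ D - T_ℓ (σ D) + ℓ D) = 0` for a Frobenius element `σ` at
`A` and `D` of degree zero, from the function-level Kronecker congruence. -/
theorem redDiv_eichlerShimura (h : ReductionInputsModL A (N * r)) {g : ℕ}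
    (hBR : BoundedRep (Divisor.degree (K := Qb) (F := FN N))
      (Divisor.principal (K := Qb) (F := FN N)) g)
    (hgen : PrincipalGeneratedByIntegral A (residue A) N)
    (hℓ : ℓ.Prime) (hA : A.LiesOverPrime ℓ) {σ : GQ} (hσ : A.IsFrobeniusAt σ ℓ)
    (hK : KronNorm A N ℓ) {D : Divisor Qb (FN N)} (hD : Divisor.degree D = 0) :
    redDiv A N r h
      (arithmeticGalois (modularFunctionFieldFull N) σ •
          arithmeticGalois (modularFunctionFieldFull N) σ • D
        - heckeDivBar (heckeAlphaBarIntegral N ℓ) (heckeBetaBarIntegral N ℓ)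
            (arithmeticGalois (modularFunctionFieldFull N) σ • D)
        + ℓ • D) = 0 := by
  have : CharP (ResidueField A) ℓ := Fermat.Agent.Lib.helper3858.charP_residueField A hℓ hA
  have : ExpChar (ResidueField A) ℓ := ExpChar.prime hℓ
  set φ : ResidueField A →+* ResidueField A := frobenius (ResidueField A) ℓ with hφdef
  have hφ : ∀ a, φ a = a ^ ℓ := fun a => frobenius_def ℓ a
  refine map_eichlerShimura_eq_zero hBR (redDiv A N r h) (isMassBounded_redDiv A N r h)
    (arithmeticGalois (modularFunctionFieldFull N) σ) _ (isMassBounded_heckeDiv N ℓ) ℓ hgen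
    (fun E hE => ?_) hD
  obtain ⟨y, hy, hyk, hne, hEy⟩ := hE
  have hσ' : σ ∈ A.decompositionSubgroup ℚ := hσ.mem_decompositionSubgroup
  have hyk' : coeffMap (residue A) y ∈ modularFunctionFieldFullC (ResidueField A) (N * r) :=
    full_degeneracyC_le (ResidueField A) (dvd_mul_right N r) hyk
  -- `y₁ = σ y`, `y₂ = σ σ y`
  obtain ⟨hy₁, hsmul₁⟩ := arithmeticGalois_smul_mk A N hσ' y hy
  obtain ⟨hy₂, hsmul₂⟩ := arithmeticGalois_smul_mk A N hσ' (coeffMap (resHom A hσ') y) hy₁
  have hred₁ : coeffMap (residue A) (coeffMap (resHom A hσ') y)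
      = coeffMap φ (coeffMap (residue A) y) :=
    coeffMap_residue_resHom_of_frobenius A hσ φ hφ y
  have hred₂ : coeffMap (residue A) (coeffMap (resHom A hσ') (coeffMap (resHom A hσ') y))
      = coeffMap φ (coeffMap φ (coeffMap (residue A) y)) := by
    rw [coeffMap_residue_resHom_of_frobenius A hσ φ hφ, hred₁]
  have hm₁ : coeffMap φ (coeffMap (residue A) y)
      ∈ modularFunctionFieldFullC (ResidueField A) (N * r) := coeffMap_mem_fullC φ _ hyk'
  have hm₂ : coeffMap φ (coeffMap φ (coeffMap (residue A) y))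
      ∈ modularFunctionFieldFullC (ResidueField A) (N * r) := coeffMap_mem_fullC φ _ hm₁
  have hn₁ : coeffMap φ (coeffMap (residue A) y) ≠ 0 := coeffMap_ne_zero φ hne
  have hn₂ : coeffMap φ (coeffMap φ (coeffMap (residue A) y)) ≠ 0 := coeffMap_ne_zero φ hn₁
  -- Kronecker for `σ y`
  obtain ⟨z, hz, hnorm, hzred⟩ := hK (coeffMap (resHom A hσ') y) hy₁
  have hzred' : coeffMap (residue A) z
      = coeffMap (residue A) y ^ ℓ * coeffMap φ (coeffMap φ (coeffMap (residue A) y)) := by
    rw [hzred φ hφ, hred₁, hφdef, Fermat.Agent.Lib.helper7516.qExpand_coeffMap_frobenius]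
  have hzk : coeffMap (residue A) z ∈ modularFunctionFieldFullC (ResidueField A) (N * r) := by
    rw [hzred']
    exact mul_mem (pow_mem hyk' ℓ) hm₂
  have hzne : coeffMap (residue A) z ≠ 0 := by
    rw [hzred']
    exact mul_ne_zero (pow_ne_zero ℓ hne) hn₂
  -- the three divisors
  have hg₁ : (⟨coeffMap A.subtype (coeffMap (resHom A hσ') y), hy₁⟩ : FN N) ≠ 0 := fun h0 =>
    coeffMap_subtype_ne_zero A (hred₁ ▸ hn₁) (congrArg Subtype.val h0)
  have hE₁ : ∀ P : Place Qb (FN N), (arithmeticGalois (modularFunctionFieldFull N) σ • E) P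
      = P.ord (⟨coeffMap A.subtype (coeffMap (resHom A hσ') y), hy₁⟩ : FN N) := fun P => by
    rw [smul_divisor_apply_of_ord _ hEy, hsmul₁]
  have hE₂ : ∀ P : Place Qb (FN N), (arithmeticGalois (modularFunctionFieldFull N) σ •
      arithmeticGalois (modularFunctionFieldFull N) σ • E) P
      = P.ord (⟨coeffMap A.subtype (coeffMap (resHom A hσ') (coeffMap (resHom A hσ') y)), hy₂⟩ :
          FN N) := fun P => by
    rw [smul_divisor_apply_of_ord _ hE₁, hsmul₂]
  have hET : ∀ P : Place Qb (FN N),
      heckeDivBar (heckeAlphaBarIntegral N ℓ) (heckeBetaBarIntegral N ℓ)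
        (arithmeticGalois (modularFunctionFieldFull N) σ • E) P
      = P.ord (⟨coeffMap A.subtype z, hz⟩ : FN N) := fun P =>
    (heckeDiv_apply_of_ord N ℓ hg₁ hE₁ P).trans (congrArg P.ord hnorm.symm)
  ext Q
  rw [Finsupp.add_apply, Finsupp.smul_apply,
    redDiv_apply_of_integral A N r h _ hy₂ (hred₂ ▸ hm₂) (hred₂ ▸ hn₂) _ hE₂ Q,
    redDiv_apply_of_integral A N r h y hy hyk' hne E hEy Q,
    redDiv_apply_of_integral A N r h z hz hzk hzne _ hET Q]
  have e1 : (⟨coeffMap (residue A) z, hzk⟩ : FkA A (N * r))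
      = (⟨coeffMap (residue A) y, hyk'⟩ : FkA A (N * r)) ^ ℓ
        * (⟨coeffMap φ (coeffMap φ (coeffMap (residue A) y)), hm₂⟩ : FkA A (N * r)) :=
    Subtype.ext hzred'
  have e2 : (⟨coeffMap (residue A) (coeffMap (resHom A hσ') (coeffMap (resHom A hσ') y)),
        hred₂ ▸ hm₂⟩ : FkA A (N * r))
      = (⟨coeffMap φ (coeffMap φ (coeffMap (residue A) y)), hm₂⟩ : FkA A (N * r)) :=
    Subtype.ext hred₂
  have hy0 : (⟨coeffMap (residue A) y, hyk'⟩ : FkA A (N * r)) ≠ 0 := fun h0 =>
    hne (congrArg Subtype.val h0)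
  have hF0 : (⟨coeffMap φ (coeffMap φ (coeffMap (residue A) y)), hm₂⟩ : FkA A (N * r)) ≠ 0 :=
    fun h0 => hn₂ (congrArg Subtype.val h0)
  rw [e1, e2, Place.ord_mul Q (pow_ne_zero ℓ hy0) hF0]
  have hpow := Q.ord_zpow (⟨coeffMap (residue A) y, hyk'⟩ : FkA A (N * r)) (ℓ : ℤ)
  rw [zpow_natCast] at hpow
  rw [hpow, nsmul_eq_mul]
  ring

end R12

/-! ### The `Pic0` level and the kernel statement -/

section Pic

open Fermat.Agent.S37.helper5162 (heckeAlphaBarIntegral heckeBetaBarIntegral place_deg_eq_one)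

/-- The frozen statement S18 at level `M`, as a proposition. -/
def S18At (M : ℕ) [NeZero M] : Prop :=
  ∀ {ℓ : ℕ} [Fact ℓ.Prime], ¬ ℓ ∣ M → ∀ (A : ValuationSubring (AlgebraicClosure ℚ)),
    A.LiesOverPrime ℓ → ReductionInputsModL A M → ∀ m : ℕ, ¬ ℓ ∣ m → ∀ z : JZero M,
      m • z = 0 → reductionModL A M z = 0 → z = 0

variable (A : ValuationSubring Qb) (N r : ℕ) [NeZero N] [NeZero r]

/-- `ρ = reductionModL A (N r) ∘ α^* : J₀(N) → Pic0 (F_{k, N r})`. -/
def redPic : JZero N →+ JZeroC (ResidueField A) (N * r) :=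
  (reductionModL A (N * r)).comp
    (Fermat.Agent.S37.helper9304.pic0PullbackAlong (heckeAlphaBar Qb N r) (alphaIntegral N r)
      (Fermat.Agent.S37.helper8426.fundamentalIdentityAlong_heckeAlphaBar N r))

/-- `ρ` kills the class of a degree-zero divisor killed by `Φ`. -/
theorem redPic_mk_eq_zero (h : ReductionInputsModL A (N * r))
    (D : Divisor.degZero (K := Qb) (F := FN N))
    (hD : redDiv A N r h (D : Divisor Qb (FN N)) = 0) : redPic A N r (Pic0.mk D) = 0 := by
  rw [redPic, AddMonoidHom.comp_apply, Fermat.Agent.S37.helper9304.pic0PullbackAlong_mk,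
    reductionModL_mk h]
  have h0 : reductionDegZeroAlong (placeReductionModL h)
      (isPlaceReductionModL_placeReductionModL h).1
      ⟨Divisor.pullbackAlong (heckeAlphaBar Qb N r) (alphaIntegral N r) (D : Divisor Qb (FN N)),
        Divisor.pullbackAlong_mem_degZero _ _
          (Fermat.Agent.S37.helper8426.fundamentalIdentityAlong_heckeAlphaBar N r) D.2⟩ = 0 :=
    Subtype.ext hD
  rw [h0]
  rfl

/-- **(R1)** for `ker ρ`. -/
theorem redPic_inertia (h : ReductionInputsModL A (N * r)) {g : ℕ}
    (hBR : BoundedRep (Divisor.degree (K := Qb) (F := FN N))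
      (Divisor.principal (K := Qb) (F := FN N)) g)
    (hgen : PrincipalGeneratedByIntegral A (residue A) N)
    {τ : GQ} (hτ : τ ∈ A.inertiaSubgroupIn ℚ) (x : JZero N) :
    redPic A N r (τ • x - x) = 0 := by
  obtain ⟨D, rfl⟩ := Pic0.mk_surjective x
  rw [galois_smul_pic0_def, SemilinearAut.pic0_smul_mk]
  have hmk : Pic0.mk (SemilinearAut.degZeroSMulHom
      (arithmeticGalois (modularFunctionFieldFull N) τ) D) - Pic0.mk D
      = Pic0.mk (SemilinearAut.degZeroSMulHom
          (arithmeticGalois (modularFunctionFieldFull N) τ) D - D) := rfl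
  rw [hmk]
  refine redPic_mk_eq_zero A N r h _ ?_
  rw [AddSubgroup.coe_sub, SemilinearAut.coe_degZeroSMulHom, map_sub,
    redDiv_smul_of_inertia A N r h hBR hgen hτ (Divisor.mem_degZero.mp D.2), sub_self]

/-- **(R2)** for `ker ρ`: the Eichler–Shimura element of every Frobenius `σ` at `A` dies. -/
theorem redPic_eichlerShimura (h : ReductionInputsModL A (N * r)) {g : ℕ}
    (hBR : BoundedRep (Divisor.degree (K := Qb) (F := FN N))
      (Divisor.principal (K := Qb) (F := FN N)) g)
    (hgen : PrincipalGeneratedByIntegral A (residue A) N)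
    {ℓ : ℕ} (hℓ : ℓ.Prime) (hA : A.LiesOverPrime ℓ) {σ : GQ} (hσ : A.IsFrobeniusAt σ ℓ)
    (hK : haveI : NeZero ℓ := ⟨hℓ.ne_zero⟩; KronNorm A N ℓ) (x : JZero N) :
    redPic A N r (σ • σ • x - heckeOperatorBar N ⟨ℓ, hℓ⟩ (σ • x) + ℓ • x) = 0 := by
  have : NeZero ℓ := ⟨hℓ.ne_zero⟩
  obtain ⟨D, rfl⟩ := Pic0.mk_surjective x
  rw [galois_smul_pic0_def, galois_smul_pic0_def, SemilinearAut.pic0_smul_mk,
    SemilinearAut.pic0_smul_mk, Fermat.Agent.S37.helper5162.heckeOperatorBar_mk N ⟨ℓ, hℓ⟩]
  set γ := arithmeticGalois (modularFunctionFieldFull N) σ with hγ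
  set D₁ := SemilinearAut.degZeroSMulHom γ D with hD₁
  set TD := Pic0.degZeroCorrespondence (heckeBetaBar Qb N ℓ) (heckeAlphaBar Qb N ℓ)
    (heckeBetaBarIntegral N ℓ) (heckeAlphaBarIntegral N ℓ)
    (Fermat.Agent.S37.helper8426.fundamentalIdentityAlong_heckeBetaBar N ℓ) D₁ with hTD
  have hmk : Pic0.mk (SemilinearAut.degZeroSMulHom γ D₁) - Pic0.mk TD + ℓ • Pic0.mk D
      = Pic0.mk (SemilinearAut.degZeroSMulHom γ D₁ - TD + ℓ • D) := rfl
  rw [hmk]
  refine redPic_mk_eq_zero A N r h _ ?_
  have hcoe : ((SemilinearAut.degZeroSMulHom γ D₁ - TD + ℓ • D :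
      Divisor.degZero (K := Qb) (F := FN N)) : Divisor Qb (FN N))
      = γ • γ • (D : Divisor Qb (FN N))
        - heckeDivBar (heckeAlphaBarIntegral N ℓ) (heckeBetaBarIntegral N ℓ)
            (γ • (D : Divisor Qb (FN N)))
        + ℓ • (D : Divisor Qb (FN N)) := rfl
  rw [hcoe]
  exact redDiv_eichlerShimura A N r ℓ h hBR hgen hℓ hA hσ hK (Divisor.mem_degZero.mp D.2)

/-- **(R3)** for `ker ρ`: no `q`-torsion for primes `q ≠ ℓ`, from the frozen S18 at level `N r`
and the norm trick along `α` (whose degree divides a power of `ℓ`). -/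
theorem redPic_torsion (hS18 : S18At (N * r)) (h : ReductionInputsModL A (N * r))
    {ℓ : ℕ} (hℓ : ℓ.Prime) (hℓM : ¬ ℓ ∣ N * r) (hA : A.LiesOverPrime ℓ)
    {e : ℕ} (hdeg : finrankAlong Qb (heckeAlphaBar Qb N r) ∣ ℓ ^ e)
    {q : ℕ} (hq : q.Prime) (hqℓ : q ≠ ℓ) {x : JZero N} (hx : redPic A N r x = 0)
    (hqx : q • x = 0) : x = 0 := by
  have : Fact ℓ.Prime := ⟨hℓ⟩
  set pb := Fermat.Agent.S37.helper9304.pic0PullbackAlong (heckeAlphaBar Qb N r)
    (alphaIntegral N r) (Fermat.Agent.S37.helper8426.fundamentalIdentityAlong_heckeAlphaBar N r)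
    with hpb
  have hz : pb x = 0 := by
    refine hS18 hℓM A hA h q (fun hd => hqℓ ((Nat.prime_dvd_prime_iff_eq hℓ hq).mp hd).symm)
      (pb x) ?_ hx
    rw [← map_nsmul, hqx, map_zero]
  obtain ⟨D, rfl⟩ := Pic0.mk_surjective x
  rw [hpb, Fermat.Agent.S37.helper9304.pic0PullbackAlong_mk] at hz
  have hprin : (Divisor.pullbackAlong (heckeAlphaBar Qb N r) (alphaIntegral N r)
      (D : Divisor Qb (FN N))).IsPrincipal := by
    have := (QuotientAddGroup.eq_zero_iff _).mp hz
    rwa [AddSubgroup.mem_addSubgroupOf] at this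
  have hcop : Nat.Coprime q (finrankAlong Qb (heckeAlphaBar Qb N r)) :=
    Nat.Coprime.coprime_dvd_right hdeg
      (Nat.Coprime.pow_right e ((Nat.coprime_primes hq hℓ).mpr hqℓ))
  exact Fermat.Agent.S37.helper7934.pic0_eq_zero_of_coprime (heckeAlphaBar Qb N r)
    (alphaIntegral N r)
    (Fermat.Agent.S37.helper7934.sumRamInertiaAlong_of_deg_eq_one _ _
      (Fermat.Agent.S37.helper8426.fundamentalIdentityAlong_heckeAlphaBar N r)
      (place_deg_eq_one N))
    (Fermat.Agent.S37.helper5162.finiteAlong_heckeAlphaBar N r)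
    (Fermat.Agent.S37.helper8426.normFormulaAlong_heckeAlphaBar N r) hqx hcop D rfl hprin

end Pic

/-! ### The kernel statement -/

section Final

open Fermat.Agent.S37.helper8353 (Stmt_KernelAll)

/-- **S37 through the frozen S18 interface.**  Suppose that for every prime `ℓ ∤ N` and every
valuation subring `A` of `ℚ̄` over `ℓ` there is an auxiliary level `N r` (`r = 1` allowed), prime
to `ℓ`, with `[F_{N r} : F_N]` dividing a power of `ℓ`, at which

* a place reduction with conservation of number exists (`ReductionInputsModL A (N r)`),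
* the frozen statement S18 holds (`S18At (N r)`),

and that at level `N` the principal divisors are generated by those of `A`-integral functions
and the function-level Kronecker congruence `KronNorm A N ℓ` holds.  If moreover degree-zero
divisors of `F_N` have bounded representatives (Riemann's inequality in characteristic zero), then
the kernel form `Stmt_KernelAll N` of S37 holds. -/
theorem stmt_KernelAll_of_reduction (N : ℕ) [NeZero N]
    (hBR : ∃ g : ℕ, BoundedRep (Divisor.degree (K := Qb) (F := FN N))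
      (Divisor.principal (K := Qb) (F := FN N)) g)
    (haux : ∀ ℓ : ℕ, ∀ hℓ : ℓ.Prime, ¬ ℓ ∣ N → ∀ A : ValuationSubring Qb, A.LiesOverPrime ℓ →
      ∃ (r : ℕ) (_ : NeZero r), ¬ ℓ ∣ N * r ∧
        (∃ e : ℕ, finrankAlong Qb (heckeAlphaBar Qb N r) ∣ ℓ ^ e) ∧
        ReductionInputsModL A (N * r) ∧ S18At (N * r) ∧
        PrincipalGeneratedByIntegral A (residue A) N ∧
        (haveI : NeZero ℓ := ⟨hℓ.ne_zero⟩; KronNorm A N ℓ)) :
    Stmt_KernelAll N := by
  obtain ⟨g, hBR⟩ := hBR
  intro ℓ hℓ hℓN A hA
  obtain ⟨r, hr, hℓM, ⟨e, hdeg⟩, h, hS18, hgen, hK⟩ := haux ℓ hℓ hℓN A hA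
  have := hr
  refine ⟨(redPic A N r).ker, fun τ hτ x => ?_, fun σ hσ x => ?_, fun q hq hqℓ x hx hqx => ?_⟩
  · exact (AddMonoidHom.mem_ker).mpr (redPic_inertia A N r h hBR hgen hτ x)
  · exact (AddMonoidHom.mem_ker).mpr (redPic_eichlerShimura A N r h hBR hgen hℓ hA hσ hK x)
  · exact redPic_torsion A N r hS18 h hℓ hℓM hA hdeg hq hqℓ ((AddMonoidHom.mem_ker).mp hx) hqx

/-- `S18At` does not depend on the way the level is written. -/
theorem S18At.congr {M M' : ℕ} [NeZero M] [NeZero M'] (h : M = M') (hS : S18At M) :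
    S18At M' := by
  subst h
  exact hS

/-- A surjective homomorphism of function fields has degree one. -/
theorem finrankAlong_eq_one_of_surjective {K F F' : Type*} [Field K] [Field F] [Field F']
    [Algebra K F] [Algebra K F'] (φ : F →ₐ[K] F') (hφ : Function.Surjective φ) :
    finrankAlong K φ = 1 := by
  let _ : Algebra F F' := algebraAlong φ
  unfold finrankAlong
  refine finrank_eq_one (1 : F') one_ne_zero fun w => ?_
  obtain ⟨c, rfl⟩ := hφ w
  refine ⟨c, ?_⟩
  rw [Algebra.smul_def, mul_one]
  rfl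

/-- The inclusion `F_N → F_{N * 1}` has degree one. -/
theorem finrankAlong_alpha_one (N : ℕ) [NeZero N] :
    finrankAlong Qb (heckeAlphaBar Qb N 1) = 1 := by
  have hEq : modularFunctionFieldBar (N * 1) = modularFunctionFieldBar N := by
    rw [Nat.mul_one]
  refine finrankAlong_eq_one_of_surjective _ fun w => ?_
  have hw : (w : LaurentSeries Qb) ∈ modularFunctionFieldBar N :=
    Eq.mp (congrArg (fun S : IntermediateField Qb (LaurentSeries Qb) =>
      (w : LaurentSeries Qb) ∈ S) hEq) w.2
  exact ⟨⟨(w : LaurentSeries Qb), hw⟩, Subtype.ext (coe_heckeAlphaBar N 1 _)⟩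

/-- **Same-level form** (`r = 1`): if a place reduction with conservation of number exists at
level `N` itself for every `ℓ ∤ N`, then S37 (kernel form) follows from the frozen S18 at level
`N`, Riemann's inequality on `F_N` and the function-level Kronecker congruence. -/
theorem stmt_KernelAll_of_reduction_level (N : ℕ) [NeZero N]
    (hBR : ∃ g : ℕ, BoundedRep (Divisor.degree (K := Qb) (F := FN N))
      (Divisor.principal (K := Qb) (F := FN N)) g)
    (hS18 : S18At N)
    (hRI : ∀ ℓ : ℕ, ℓ.Prime → ¬ ℓ ∣ N → ∀ A : ValuationSubring Qb, A.LiesOverPrime ℓ →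
      ReductionInputsModL A N)
    (hK : ∀ ℓ : ℕ, ∀ hℓ : ℓ.Prime, ¬ ℓ ∣ N → ∀ A : ValuationSubring Qb, A.LiesOverPrime ℓ →
      (haveI : NeZero ℓ := ⟨hℓ.ne_zero⟩; KronNorm A N ℓ)) :
    Stmt_KernelAll N := by
  refine stmt_KernelAll_of_reduction N hBR fun ℓ hℓ hℓN A hA => ?_
  have h := hRI ℓ hℓ hℓN A hA
  refine ⟨1, inferInstance, by rwa [Nat.mul_one], ⟨0, by rw [finrankAlong_alpha_one]; exact one_dvd _⟩, ?_,
    S18At.congr (Nat.mul_one N).symm hS18, h.choose_spec.2, hK ℓ hℓ hℓN A hA⟩
  rw [Nat.mul_one]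
  exact h

open Fermat.Agent.S37.helper8353 (result_of_kernelAll) in
/-- The frozen conclusion of S37 from the hypotheses of `stmt_KernelAll_of_reduction`. -/
theorem result_of_reduction (N p : ℕ) [NeZero N] (hcomm : HeckeOperatorsCommuteBar N)
    (hBR : ∃ g : ℕ, BoundedRep (Divisor.degree (K := Qb) (F := FN N))
      (Divisor.principal (K := Qb) (F := FN N)) g)
    (haux : ∀ ℓ : ℕ, ∀ hℓ : ℓ.Prime, ¬ ℓ ∣ N → ∀ A : ValuationSubring Qb, A.LiesOverPrime ℓ →
      ∃ (r : ℕ) (_ : NeZero r), ¬ ℓ ∣ N * r ∧
        (∃ e : ℕ, finrankAlong Qb (heckeAlphaBar Qb N r) ∣ ℓ ^ e) ∧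
        ReductionInputsModL A (N * r) ∧ S18At (N * r) ∧
        PrincipalGeneratedByIntegral A (residue A) N ∧
        (haveI : NeZero ℓ := ⟨hℓ.ne_zero⟩; KronNorm A N ℓ)) :
    letI := heckeModuleBar N
    ∀ (_ : SMulCommClass GQ HeckeAlg (JZero N)),
      SpecializationExists (K := ℚ) (L := Qb) N p (JZero N) :=
  result_of_kernelAll p hcomm (stmt_KernelAll_of_reduction N hBR haux)

end Final

end Fermat.Agent.S37.helper1719

end
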