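import Fermat.Agent.S37.helper1719_ViaS18
import Fermat.Agent.S37.helper6267_RiemannModular
import Fermat.Agent.S37.helper137_KroneckerNorm
import Fermat.Agent.S37.helper2648_ReductionInputsBar

/-!
# S37 through the frozen S18 interface: the soft hypotheses discharged (helper1719)

`helper1719_ViaS18.stmt_KernelAll_of_reduction` has five kinds of hypotheses.  Three of them are
theorems on main and are discharged here:

* bounded representatives on `F_N` (Riemann's inequality in characteristic zero,
  `helper6267.hasRiemannBound_FN`);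
* the function-level Kronecker congruence in `α`-norm form (`helper137.norm_alpha_beta_integral`);
* principal divisors are generated by integral ones (`helper2648.principalGeneratedByIntegral_bar`).

What is left is exactly: a place reduction with conservation of number at ONE auxiliary level
(`ReductionInputsModL A (N * r)`) and the frozen statement S18 at that level (`S18At (N * r)`),
with `[F_{N r} : F_N]` dividing a power of `ℓ` (`r = 1` allowed: then there is no condition).
-/

set_option autoImplicit false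

noncomputable section

namespace Fermat.Agent.S37.helper1719

open ModularCurve AlgebraicCurve IsLocalRing
open Fermat.Agent.S37.helper8353 (Qb GQ Stmt_KernelAll result_of_kernelAll)
open Fermat.Agent.S24.helper24 (FN)

/-- Bounded representatives on `F_N / ℚ̄` (Riemann's inequality). -/
theorem boundedRep_FN (N : ℕ) [NeZero N] :
    ∃ g : ℕ, BoundedRep (Divisor.degree (K := Qb) (F := FN N))
      (Divisor.principal (K := Qb) (F := FN N)) g := by
  by_cases hne : Nonempty (Place Qb (FN N))
  · obtain ⟨P₀⟩ := hne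
    exact ⟨_, boundedRep_of_finrank
      (fun v => Fermat.Agent.S37.helper5162.place_deg_eq_one N v) P₀ _
      (Fermat.Agent.S18.helper981.riemannGenus_mem
        (Fermat.Agent.S37.helper6267.hasRiemannBound_FN N))⟩
  · rw [not_nonempty_iff] at hne
    refine ⟨0, fun D _ => ⟨0, 0, le_rfl, le_rfl, by simp, by simp, ?_⟩⟩
    have hD : D = 0 := Subsingleton.elim _ _
    rw [hD]
    simp

/-- The function-level Kronecker congruence in `α`-norm form, at every place over `ℓ ∤ N`. -/
theorem kronNorm_of_liesOver (A : ValuationSubring Qb) (N ℓ : ℕ) [NeZero N] [NeZero ℓ]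
    (hℓ : ℓ.Prime) (hℓN : ¬ ℓ ∣ N) (hA : A.LiesOverPrime ℓ) : KronNorm A N ℓ := by
  have : Fact ℓ.Prime := ⟨hℓ⟩
  have : CharP (ResidueField A) ℓ := Fermat.Agent.Lib.helper3858.charP_residueField A hℓ hA
  have : ExpChar (ResidueField A) ℓ := ExpChar.prime hℓ
  intro y hy
  obtain ⟨z, hz1, hz2⟩ := Fermat.Agent.S37.helper137.norm_alpha_beta_integral A hℓ
    ((Nat.Prime.coprime_iff_not_dvd hℓ).mpr hℓN) ⟨coeffMap A.subtype y, hy⟩ y rfl
  refine ⟨z, by rw [hz1]; exact SetLike.coe_mem _, Subtype.ext hz1, fun φ hφ => ?_⟩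
  have hφ' : φ = frobenius (ResidueField A) ℓ := RingHom.ext fun a => by rw [hφ, frobenius_def]
  rw [hz2, hφ']

/-- **S37 (kernel form) from conservation + frozen S18 at one auxiliary level per `ℓ`.** -/
theorem stmt_KernelAll_of_conservation (N : ℕ) [NeZero N]
    (haux : ∀ ℓ : ℕ, ℓ.Prime → ¬ ℓ ∣ N → ∀ A : ValuationSubring Qb, A.LiesOverPrime ℓ →
      ∃ (r : ℕ) (_ : NeZero r), ¬ ℓ ∣ N * r ∧
        (∃ e : ℕ, finrankAlong Qb (heckeAlphaBar Qb N r) ∣ ℓ ^ e) ∧
        ReductionInputsModL A (N * r) ∧ S18At (N * r)) :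
    Stmt_KernelAll N := by
  refine stmt_KernelAll_of_reduction N (boundedRep_FN N) fun ℓ hℓ hℓN A hA => ?_
  obtain ⟨r, hr, h1, h2, h3, h4⟩ := haux ℓ hℓ hℓN A hA
  have : Fact ℓ.Prime := ⟨hℓ⟩
  have : NeZero ℓ := ⟨hℓ.ne_zero⟩
  exact ⟨r, hr, h1, h2, h3, h4,
    Fermat.Agent.S37.helper2648.principalGeneratedByIntegral_bar N ℓ hℓN A hA,
    kronNorm_of_liesOver A N ℓ hℓ hℓN hA⟩

/-- **Same-level form**: S37 (kernel form) from conservation at level `N` for every `ℓ ∤ N` and
the frozen S18 at level `N`. -/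
theorem stmt_KernelAll_of_conservation_level (N : ℕ) [NeZero N] (hS18 : S18At N)
    (hRI : ∀ ℓ : ℕ, ℓ.Prime → ¬ ℓ ∣ N → ∀ A : ValuationSubring Qb, A.LiesOverPrime ℓ →
      ReductionInputsModL A N) :
    Stmt_KernelAll N :=
  stmt_KernelAll_of_reduction_level N (boundedRep_FN N) hS18 hRI fun ℓ hℓ hℓN A hA =>
    haveI : NeZero ℓ := ⟨hℓ.ne_zero⟩
    kronNorm_of_liesOver A N ℓ hℓ hℓN hA

/-- The frozen conclusion of S37 from conservation + frozen S18 at one auxiliary level per `ℓ`. -/
theorem result_of_conservation (N p : ℕ) [NeZero N] (hcomm : HeckeOperatorsCommuteBar N)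
    (haux : ∀ ℓ : ℕ, ℓ.Prime → ¬ ℓ ∣ N → ∀ A : ValuationSubring Qb, A.LiesOverPrime ℓ →
      ∃ (r : ℕ) (_ : NeZero r), ¬ ℓ ∣ N * r ∧
        (∃ e : ℕ, finrankAlong Qb (heckeAlphaBar Qb N r) ∣ ℓ ^ e) ∧
        ReductionInputsModL A (N * r) ∧ S18At (N * r)) :
    letI := heckeModuleBar N
    ∀ (_ : SMulCommClass GQ HeckeAlg (JZero N)),
      SpecializationExists (K := ℚ) (L := Qb) N p (JZero N) :=
  result_of_kernelAll p hcomm (stmt_KernelAll_of_conservation N haux)

/-- The frozen conclusion of S37 from conservation at level `N` and the frozen S18 at level `N`. -/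
theorem result_of_conservation_level (N p : ℕ) [NeZero N] (hcomm : HeckeOperatorsCommuteBar N)
    (hS18 : S18At N)
    (hRI : ∀ ℓ : ℕ, ℓ.Prime → ¬ ℓ ∣ N → ∀ A : ValuationSubring Qb, A.LiesOverPrime ℓ →
      ReductionInputsModL A N) :
    letI := heckeModuleBar N
    ∀ (_ : SMulCommClass GQ HeckeAlg (JZero N)),
      SpecializationExists (K := ℚ) (L := Qb) N p (JZero N) :=
  result_of_kernelAll p hcomm (stmt_KernelAll_of_conservation_level N hS18 hRI)

end Fermat.Agent.S37.helper1719

end
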