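import Mathlib

set_option autoImplicit false
set_option linter.style.haveILetI false
set_option linter.unusedSectionVars false

namespace Fermat.Agent.S37.helper4314

open Polynomial IntermediateField

section Chart

variable (O : Type*) {F : Type*} [CommRing O] [Field F] [Algebra O F]

/-- The chart attached to a coordinate `x`: the integral closure of `O[x]` in `F`,
as an `O`-subalgebra of `F`. -/
def chart (x : F) : Subalgebra O F :=
  (integralClosure (Algebra.adjoin O {x}) F).restrictScalars O

theorem mem_chart {x b : F} : b ∈ chart O x ↔ IsIntegral (Algebra.adjoin O {x}) b := Iff.rfl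

theorem isIntegral_self_adjoin (x : F) : IsIntegral (Algebra.adjoin O {x}) x := by
  have : x = algebraMap (Algebra.adjoin O {x}) F
      ⟨x, Algebra.subset_adjoin (Set.mem_singleton x)⟩ := rfl
  rw [this]
  exact isIntegral_algebraMap

theorem self_mem_chart (x : F) : x ∈ chart O x := isIntegral_self_adjoin O x

theorem chart_root_closed {x : F} {m : ℕ} (hm : m ≠ 0) {w : F} (h : w ^ m ∈ chart O x) :
    w ∈ chart O x :=
  IsIntegral.of_pow (Nat.pos_of_ne_zero hm) h

end Chart

section Finite

variable {O K F : Type*} [CommRing O] [IsDomain O] [IsDiscreteValuationRing O] [Field K]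
  [CharZero K] [Algebra O K] [IsFractionRing O K] [Field F] [Algebra K F] [Algebra O F]
  [IsScalarTower O K F]

omit [IsDiscreteValuationRing O] [CharZero K] in
theorem transcendental_base {x : F} (hx : Transcendental K x) : Transcendental O x :=
  fun h => hx (h.extendScalars (IsFractionRing.injective O K))

theorem fg_aux (x : F) (hx : Transcendental K x) [FiniteDimensional K⟮x⟯ F] :
    (integralClosure (Polynomial.aeval (R := O) x).range F).toSubmodule.FG := by
  classical
  have hinj : Function.Injective (Polynomial.aeval (R := O) x) :=
    transcendental_iff_injective.mp (transcendental_base hx)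
  set A : Subalgebra O F := (Polynomial.aeval (R := O) x).range with hA
  haveI : IsNoetherianRing A :=
    isNoetherianRing_of_surjective (Polynomial O) _
      (Polynomial.aeval (R := O) x).rangeRestrict.toRingHom (AlgHom.rangeRestrict_surjective _)
  haveI : IsIntegrallyClosed A :=
    IsIntegrallyClosed.of_equiv (AlgEquiv.ofInjective _ hinj).toRingEquiv
  haveI : FaithfulSMul A F := (faithfulSMul_iff_algebraMap_injective A F).mpr Subtype.val_injective
  letI : Algebra (FractionRing A) F := FractionRing.liftAlgebra A F
  haveI : IsScalarTower A (FractionRing A) F := FractionRing.isScalarTower_liftAlgebra A F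
  haveI : CharZero F := charZero_of_injective_algebraMap (algebraMap K F).injective
  haveI : CharZero (FractionRing A) := (algebraMap (FractionRing A) F).charZero
  -- the image of `Frac A` contains `K(x)`
  have hle : K⟮x⟯.toSubfield ≤ (algebraMap (FractionRing A) F).fieldRange := by
    rw [IntermediateField.adjoin_toSubfield, Subfield.closure_le]
    rintro y (⟨k, rfl⟩ | hy)
    · obtain ⟨a, b, -, rfl⟩ := IsFractionRing.div_surjective O k
      have h1 : ∀ c : O, algebraMap O F c ∈ (algebraMap (FractionRing A) F).fieldRange := by
        intro c
        refine ⟨algebraMap A (FractionRing A) (algebraMap O A c), ?_⟩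
        rw [← IsScalarTower.algebraMap_apply A (FractionRing A) F]
        rfl
      rw [map_div₀, ← IsScalarTower.algebraMap_apply O K F, ← IsScalarTower.algebraMap_apply O K F]
      exact div_mem (h1 a) (h1 b)
    · rw [Set.mem_singleton_iff] at hy
      subst hy
      refine ⟨algebraMap A (FractionRing A) ⟨y, ⟨Polynomial.X, by simp⟩⟩, ?_⟩
      rw [← IsScalarTower.algebraMap_apply A (FractionRing A) F]
      rfl
  haveI : FiniteDimensional (FractionRing A) F := by
    obtain ⟨s, hs⟩ := (Module.Finite.fg_top : (⊤ : Submodule K⟮x⟯ F).FG)
    refine ⟨⟨s, ?_⟩⟩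
    rw [eq_top_iff]
    rintro f -
    have hf : f ∈ Submodule.span K⟮x⟯ (s : Set F) := by rw [hs]; trivial
    induction hf using Submodule.span_induction with
    | mem v hv => exact Submodule.subset_span hv
    | zero => exact Submodule.zero_mem _
    | add v w _ _ ihv ihw => exact Submodule.add_mem _ ihv ihw
    | smul c v _ ih =>
      obtain ⟨c', hc'⟩ := hle c.2
      have : c • v = c' • v := by
        rw [Algebra.smul_def c' v, hc']
        rfl
      rw [this]
      exact Submodule.smul_mem _ _ ih
  have hfin : Module.Finite A (integralClosure A F) :=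
    IsIntegralClosure.finite A (FractionRing A) F (integralClosure A F)
  exact Module.Finite.iff_fg.mp hfin

theorem fg_aux' (x : F) (hx : Transcendental K x) [FiniteDimensional K⟮x⟯ F]
    (S : Subalgebra O F) (hS : S = (Polynomial.aeval (R := O) x).range) :
    (integralClosure S F).toSubmodule.FG := by
  subst hS
  exact fg_aux x hx

/-- The chart `B₀` (integral closure of `O[x]` in `F`) is a finitely generated
`O[x]`-module. -/
theorem chart_fg (x : F) (hx : Transcendental K x) [FiniteDimensional K⟮x⟯ F] :
    (integralClosure (Algebra.adjoin O {x}) F).toSubmodule.FG :=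
  fg_aux' x hx _ (Algebra.adjoin_singleton_eq_range_aeval O x)

end Finite

end Fermat.Agent.S37.helper4314
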