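/-
S37 Track B, KUMMER-TRIV (board #1047): clearing denominators between the two charts
`O[u]`, `O[v]` (`u * v = 1`) of a line.  Mathlib only.
-/
import Mathlib

set_option autoImplicit false

namespace Fermat.Agent.S37.helper4314

open Finset Polynomial

section ClearDenominators

variable {O E : Type*} [CommRing O] [CommRing E] [Algebra O E]

/-- Elements of `O[v]` become elements of `O[u]` after multiplication by a large power of
`u = v⁻¹`. -/
theorem exists_pow_mul_mem_adjoin (u v : E) (huv : u * v = 1) (a : E)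
    (ha : a ∈ Algebra.adjoin O {v}) :
    ∃ n : ℕ, ∀ m ≥ n, u ^ m * a ∈ Algebra.adjoin O {u} := by
  have hu : u ∈ Algebra.adjoin O {u} := Algebra.subset_adjoin (Set.mem_singleton u)
  induction ha using Algebra.adjoin_induction with
  | mem a ha =>
    rw [Set.mem_singleton_iff] at ha
    subst ha
    refine ⟨1, fun m hm => ?_⟩
    obtain ⟨k, rfl⟩ : ∃ k, m = k + 1 := ⟨m - 1, by omega⟩
    rw [pow_succ, mul_assoc, huv, mul_one]
    exact Subalgebra.pow_mem _ hu k
  | algebraMap r =>
    exact ⟨0, fun m _ => Subalgebra.mul_mem _ (Subalgebra.pow_mem _ hu m)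
      (Subalgebra.algebraMap_mem _ r)⟩
  | add a b _ _ iha ihb =>
    obtain ⟨n1, h1⟩ := iha
    obtain ⟨n2, h2⟩ := ihb
    refine ⟨max n1 n2, fun m hm => ?_⟩
    rw [mul_add]
    exact Subalgebra.add_mem _ (h1 m (le_trans (le_max_left _ _) hm))
      (h2 m (le_trans (le_max_right _ _) hm))
  | mul a b _ _ iha ihb =>
    obtain ⟨n1, h1⟩ := iha
    obtain ⟨n2, h2⟩ := ihb
    refine ⟨n1 + n2, fun m hm => ?_⟩
    obtain ⟨k, rfl⟩ : ∃ k, m = n1 + k := ⟨m - n1, by omega⟩
    have : u ^ (n1 + k) * (a * b) = (u ^ n1 * a) * (u ^ k * b) := by ring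
    rw [this]
    exact Subalgebra.mul_mem _ (h1 n1 le_rfl) (h2 k (by omega))

/-- Clearing denominators: an element integral over `O[v]` becomes integral over `O[u]`
after multiplication by a power of `u = v⁻¹`. -/
theorem isIntegral_clear_denominators (u v : E) (huv : u * v = 1) (b : E)
    (hb : IsIntegral (Algebra.adjoin O {v}) b) :
    ∃ n : ℕ, IsIntegral (Algebra.adjoin O {u}) (u ^ n * b) := by
  classical
  obtain ⟨q, hq, hqb⟩ := hb
  set d := q.natDegree with hd
  have hex : ∀ i : ℕ, ∃ n : ℕ, ∀ m ≥ n, u ^ m * ((q.coeff i : Algebra.adjoin O {v}) : E)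
      ∈ Algebra.adjoin O {u} := fun i =>
    exists_pow_mul_mem_adjoin u v huv _ (q.coeff i).2
  choose nf hnf using hex
  obtain ⟨N, hN⟩ : ∃ N, N = (range d).sup nf + 1 := ⟨_, rfl⟩
  have hmem : ∀ i, i < d → u ^ (N * (d - i)) * ((q.coeff i : Algebra.adjoin O {v}) : E)
      ∈ Algebra.adjoin O {u} := by
    intro i hi
    refine hnf i _ ?_
    have h1 : nf i ≤ (range d).sup nf := le_sup (mem_range.mpr hi)
    have h2 : 1 ≤ d - i := by omega
    calc nf i ≤ N := by omega
      _ = N * 1 := (mul_one N).symm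
      _ ≤ N * (d - i) := Nat.mul_le_mul_left N h2
  let cf : ℕ → Algebra.adjoin O {u} := fun i =>
    if hi : i < d then ⟨_, hmem i hi⟩ else 0
  let q' : (Algebra.adjoin O {u})[X] := X ^ d + ∑ i ∈ range d, C (cf i) * X ^ i
  refine ⟨N, q', ?_, ?_⟩
  · refine monic_X_pow_add ?_
    refine lt_of_le_of_lt (degree_sum_le _ _) ?_
    refine (Finset.sup_lt_iff (WithBot.bot_lt_coe d)).mpr fun i hi => ?_
    refine lt_of_le_of_lt (degree_C_mul_X_pow_le i _) ?_
    exact WithBot.coe_lt_coe.mpr (mem_range.mp hi)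
  · have hq' : eval₂ (algebraMap (Algebra.adjoin O {v}) E) b q
        = b ^ d + ∑ i ∈ range d, ((q.coeff i : Algebra.adjoin O {v}) : E) * b ^ i := by
      conv_lhs => rw [hq.as_sum]
      simp [eval₂_add, eval₂_finsetSum, ← hd]
    rw [hq'] at hqb
    show eval₂ (algebraMap (Algebra.adjoin O {u}) E) (u ^ N * b) q' = 0
    simp only [q', eval₂_add, eval₂_pow, eval₂_X, eval₂_finsetSum, eval₂_mul, eval₂_C]
    have h3 : ∀ i ∈ range d, algebraMap (Algebra.adjoin O {u}) E (cf i) * (u ^ N * b) ^ i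
        = u ^ (N * d) * (((q.coeff i : Algebra.adjoin O {v}) : E) * b ^ i) := by
      intro i hi
      have hi' := mem_range.mp hi
      simp only [cf, dif_pos hi']
      show u ^ (N * (d - i)) * ((q.coeff i : Algebra.adjoin O {v}) : E) * (u ^ N * b) ^ i = _
      have : N * d = N * (d - i) + N * i := by
        rw [← Nat.mul_add]; congr 1; omega
      rw [mul_pow, ← pow_mul, this, pow_add]
      ring
    rw [sum_congr rfl h3, ← mul_sum, mul_pow, ← pow_mul, ← mul_add, hqb, mul_zero]

end ClearDenominators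

end Fermat.Agent.S37.helper4314
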