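/-
S37/S18-KUMMER-W1 (board #1286): abstract core of torsion injectivity in WEIGHT-ONE form.
No Kummer extension, no idempotents: everything happens inside the field `F`.

For a subring `B` of `F`, `m : ℕ`, `U : F`, the weight-one module is
`{c : F | c ^ m * U ∈ B}` (written out explicitly in all statements).
-/
import Mathlib

set_option autoImplicit false

namespace Fermat.Agent.S37.helper7942

section Basic

variable {F : Type*} [Field F]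

/-- Binomial expansion to first order in any commutative ring. -/
theorem one_add_pow_eq (R : Type*) [CommRing R] (y : R) (m : ℕ) :
    ∃ c : R, (1 + y) ^ m = 1 + (m : R) * y + y ^ 2 * c := by
  induction m with
  | zero => exact ⟨0, by simp⟩
  | succ k ih =>
    obtain ⟨c, hc⟩ := ih
    refine ⟨(k : R) + c + y * c, ?_⟩
    rw [pow_succ, hc]
    push_cast
    ring

/-- The weight-one set is closed under addition when `B` is closed under `m`-th roots. -/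
theorem wOne_add (B : Subring F) (m : ℕ) (U : F) (hN : ∀ x : F, x ^ m ∈ B → x ∈ B)
    {c c' : F} (hc : c ^ m * U ∈ B) (hc' : c' ^ m * U ∈ B) : (c + c') ^ m * U ∈ B := by
  rw [add_pow, Finset.sum_mul]
  refine Subring.sum_mem B fun i hi => ?_
  have hi' : i ≤ m := Nat.lt_succ_iff.mp (Finset.mem_range.mp hi)
  obtain ⟨k, rfl⟩ := Nat.exists_eq_add_of_le hi'
  have hk : i + k - i = k := by omega
  rw [hk]
  have ht : c ^ i * c' ^ k * U ∈ B := by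
    apply hN
    have : (c ^ i * c' ^ k * U) ^ (i + k) = (c ^ (i + k) * U) ^ i * (c' ^ (i + k) * U) ^ k := by
      ring
    rw [this]
    exact B.mul_mem (B.pow_mem hc i) (B.pow_mem hc' k)
  have : c ^ i * c' ^ k * (((i + k).choose i : ℕ) : F) * U
      = (c ^ i * c' ^ k * U) * (((i + k).choose i : ℕ) : F) := by ring
  rw [this]
  exact B.mul_mem ht (natCast_mem B _)

theorem wOne_mul (B : Subring F) (m : ℕ) (U : F) {b c : F} (hb : b ∈ B)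
    (hc : c ^ m * U ∈ B) : (b * c) ^ m * U ∈ B := by
  have : (b * c) ^ m * U = b ^ m * (c ^ m * U) := by ring
  rw [this]
  exact B.mul_mem (B.pow_mem hb m) hc

theorem wOne_neg (B : Subring F) (m : ℕ) (U : F) {c : F}
    (hc : c ^ m * U ∈ B) : (-c) ^ m * U ∈ B := by
  have : (-c) ^ m * U = (-1 : F) ^ m * (c ^ m * U) := by rw [neg_pow]; ring
  rw [this]
  exact B.mul_mem (B.pow_mem (B.neg_mem B.one_mem) m) hc

theorem wOne_sub (B : Subring F) (m : ℕ) (U : F) (hN : ∀ x : F, x ^ m ∈ B → x ∈ B)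
    {c c' : F} (hc : c ^ m * U ∈ B) (hc' : c' ^ m * U ∈ B) : (c - c') ^ m * U ∈ B := by
  rw [sub_eq_add_neg]
  exact wOne_add B m U hN hc (wOne_neg B m U hc')

theorem wOne_zero (B : Subring F) {m : ℕ} (hm : m ≠ 0) (U : F) : (0 : F) ^ m * U ∈ B := by
  rw [zero_pow hm, zero_mul]
  exact B.zero_mem

theorem wOne_mono {B B' : Subring F} (h : B ≤ B') {m : ℕ} {U c : F}
    (hc : c ^ m * U ∈ B) : c ^ m * U ∈ B' := h hc

/-- Iterated saturation. -/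
theorem sat_pow (B V : Subring F) (π : F) (hS : ∀ x ∈ V, π * x ∈ B → x ∈ B) (hπV : π ∈ V) :
    ∀ (k : ℕ) (x : F), x ∈ V → π ^ k * x ∈ B → x ∈ B := by
  intro k
  induction k with
  | zero => intro x _ hx; simpa using hx
  | succ k ih =>
    intro x hxV hx
    apply ih x hxV
    apply hS _ (V.mul_mem (V.pow_mem hπV k) hxV)
    have : π * (π ^ k * x) = π ^ (k + 1) * x := by ring
    rw [this]; exact hx

end Basic

section OneAdd

variable {F : Type*} [Field F]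

/-- `1 + π V`. -/
def oneAdd (V : Subring F) (π : F) : Set F := {y | ∃ w ∈ V, y = 1 + π * w}

theorem oneAdd_mul (V : Subring F) (π : F) (hπ : π ∈ V) {y y' : F} (hy : y ∈ oneAdd V π)
    (hy' : y' ∈ oneAdd V π) : y * y' ∈ oneAdd V π := by
  obtain ⟨w, hw, rfl⟩ := hy
  obtain ⟨w', hw', rfl⟩ := hy'
  refine ⟨w + w' + π * w * w', ?_, by ring⟩
  exact V.add_mem (V.add_mem hw hw') (V.mul_mem (V.mul_mem hπ hw) hw')

theorem one_mem_oneAdd (V : Subring F) (π : F) : (1 : F) ∈ oneAdd V π :=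
  ⟨0, V.zero_mem, by ring⟩

theorem oneAdd_pow (V : Subring F) (π : F) (hπ : π ∈ V) {y : F} (hy : y ∈ oneAdd V π) (n : ℕ) :
    y ^ n ∈ oneAdd V π := by
  induction n with
  | zero => simpa using one_mem_oneAdd V π
  | succ n ih => rw [pow_succ]; exact oneAdd_mul V π hπ ih hy

theorem oneAdd_mem (V : Subring F) (π : F) (hπ : π ∈ V) {y : F} (hy : y ∈ oneAdd V π) : y ∈ V := by
  obtain ⟨w, hw, rfl⟩ := hy
  exact V.add_mem V.one_mem (V.mul_mem hπ hw)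

theorem oneAdd_ne_zero (V : Subring F) (π : F) (hπV : π⁻¹ ∉ V) {y : F} (hy : y ∈ oneAdd V π) :
    y ≠ 0 := by
  obtain ⟨w, hw, rfl⟩ := hy
  intro h
  apply hπV
  have hπ0 : π ≠ 0 := by
    rintro rfl
    simp at h
  have : π⁻¹ = -w := by
    field_simp
    linear_combination h
  rw [this]
  exact V.neg_mem hw

theorem oneAdd_inv (V : Subring F) (π : F) (hJ : ∀ w ∈ V, (1 + π * w)⁻¹ ∈ V) {y : F}
    (hy : y ∈ oneAdd V π) : y⁻¹ ∈ V := by
  obtain ⟨w, hw, rfl⟩ := hy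
  exact hJ w hw

/-- A sum of `m` elements of `1 + π V` lies in `m + π V`. -/
theorem sum_oneAdd (V : Subring F) (π : F) (m : ℕ) (f : ℕ → F)
    (hf : ∀ i ∈ Finset.range m, f i ∈ oneAdd V π) :
    ∃ s ∈ V, ∑ i ∈ Finset.range m, f i = (m : F) + π * s := by
  induction m with
  | zero => exact ⟨0, V.zero_mem, by simp⟩
  | succ k ih =>
    obtain ⟨s, hs, hsum⟩ := ih fun i hi => hf i (Finset.mem_range.mpr
      (Nat.lt_succ_of_lt (Finset.mem_range.mp hi)))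
    obtain ⟨w, hw, hfk⟩ := hf k (Finset.mem_range.mpr (Nat.lt_succ_self k))
    refine ⟨s + w, V.add_mem hs hw, ?_⟩
    rw [Finset.sum_range_succ, hsum, hfk]
    push_cast
    ring

end OneAdd

section Newton

variable {F : Type*} [Field F]

/-- First step: the glued element is an `m`-th root of `U⁻¹` modulo `π B`. -/
theorem first_step (B V : Subring F) (hBV : B ≤ V) (π : F) (hπ : π ∈ B)
    (hS : ∀ x ∈ V, π * x ∈ B → x ∈ B) (m : ℕ) (U : F) (hU : U ∈ oneAdd V π)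
    {a : F} (ha : a ^ m * U ∈ B) (haV : a ∈ oneAdd V π) :
    ∃ β ∈ B, a ^ m * U = 1 + π * β := by
  have hπV : π ∈ V := hBV hπ
  obtain ⟨w, hw, hw'⟩ := oneAdd_mul V π hπV (oneAdd_pow V π hπV haV m) hU
  refine ⟨w, hS w hw ?_, hw'⟩
  have : π * w = a ^ m * U - 1 := by rw [hw']; ring
  rw [this]
  exact B.sub_mem ha B.one_mem

/-- One Newton step `a ↦ a (1 - (a^m U - 1)/m)`. -/
theorem newton_step (B V : Subring F) (hBV : B ≤ V) (π : F) (hπ : π ∈ B)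
    (m : ℕ) (hminv : (m : F)⁻¹ ∈ B) (hmF : (m : F) ≠ 0) (U : F) (n : ℕ) (hn : 1 ≤ n)
    {a : F} (ha : ∃ β ∈ B, a ^ m * U = 1 + π ^ n * β) (haV : a ∈ oneAdd V π) :
    ∃ a' : F, (∃ β ∈ B, a' ^ m * U = 1 + π ^ (n + 1) * β) ∧ a' ∈ oneAdd V π := by
  obtain ⟨β, hβ, haU⟩ := ha
  obtain ⟨k, rfl⟩ := Nat.exists_eq_add_of_le' hn
  have hπV : π ∈ V := hBV hπ
  have hyB : -(π ^ (k + 1) * β * (m : F)⁻¹) ∈ B :=
    B.neg_mem (B.mul_mem (B.mul_mem (B.pow_mem hπ _) hβ) hminv)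
  obtain ⟨c, hc⟩ := one_add_pow_eq B ⟨-(π ^ (k + 1) * β * (m : F)⁻¹), hyB⟩ m
  have hc' : (1 + -(π ^ (k + 1) * β * (m : F)⁻¹)) ^ m
      = 1 + (m : F) * -(π ^ (k + 1) * β * (m : F)⁻¹)
        + (-(π ^ (k + 1) * β * (m : F)⁻¹)) ^ 2 * (c : F) := by
    have := congrArg Subtype.val hc
    simpa using this
  refine ⟨a * (1 + -(π ^ (k + 1) * β * (m : F)⁻¹)),
    ⟨π ^ k * β ^ 2 * (-1 + (1 + π ^ (k + 1) * β) * (c : F) * ((m : F)⁻¹) ^ 2), ?_, ?_⟩, ?_⟩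
  · refine B.mul_mem (B.mul_mem (B.pow_mem hπ _) (B.pow_mem hβ _)) ?_
    refine B.add_mem (B.neg_mem B.one_mem) ?_
    refine B.mul_mem (B.mul_mem ?_ c.2) (B.pow_mem hminv _)
    exact B.add_mem B.one_mem (B.mul_mem (B.pow_mem hπ _) hβ)
  · have h1 : (a * (1 + -(π ^ (k + 1) * β * (m : F)⁻¹))) ^ m * U
        = (a ^ m * U) * (1 + -(π ^ (k + 1) * β * (m : F)⁻¹)) ^ m := by rw [mul_pow]; ring
    rw [h1, haU, hc']
    field_simp
    ring
  · apply oneAdd_mul V π hπV haV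
    refine ⟨-(π ^ k * β * (m : F)⁻¹), ?_, by ring⟩
    exact V.neg_mem (V.mul_mem (V.mul_mem (V.pow_mem hπV _) (hBV hβ)) (hBV hminv))

/-- Newton iteration to any level. -/
theorem exists_newton (B V : Subring F) (hBV : B ≤ V) (π : F) (hπ : π ∈ B)
    (m : ℕ) (hminv : (m : F)⁻¹ ∈ B) (hmF : (m : F) ≠ 0) (U : F)
    {a : F} (ha : ∃ β ∈ B, a ^ m * U = 1 + π * β) (haV : a ∈ oneAdd V π) (n : ℕ) (hn : 1 ≤ n) :
    ∃ a' : F, (∃ β ∈ B, a' ^ m * U = 1 + π ^ n * β) ∧ a' ∈ oneAdd V π := by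
  induction n, hn using Nat.le_induction with
  | base => exact ⟨a, by simpa using ha, haV⟩
  | succ n hn ih =>
    obtain ⟨a', ha', haV'⟩ := ih
    exact newton_step B V hBV π hπ m hminv hmF U n hn ha' haV'

end Newton

section Core

variable {F : Type*} [Field F]

/-- **Weight-one Kummer core, existence form.**  Two charts `B0`, `Binf`, overlap `R`, Gauss ring
`V`.  If the weight-one modules have compatible generators modulo `π` (`hG0`, `hGi`) and the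
weight-one Čech `H¹` has bounded `π`-torsion (`hH1`), then the weight-one `H⁰` is nonzero. -/
theorem kummer_core_exists (B0 Binf R V : Subring F)
    (h0R : B0 ≤ R) (hiR : Binf ≤ R) (hRV : R ≤ V)
    (π : F) (hπ0 : π ∈ B0) (hπi : π ∈ Binf) (hπV : π⁻¹ ∉ V)
    (m : ℕ) (hmF : (m : F) ≠ 0) (hm0 : (m : F)⁻¹ ∈ B0) (hmi : (m : F)⁻¹ ∈ Binf)
    (hN0 : ∀ x : F, x ^ m ∈ B0 → x ∈ B0) (hNi : ∀ x : F, x ^ m ∈ Binf → x ∈ Binf)
    (hNR : ∀ x : F, x ^ m ∈ R → x ∈ R)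
    (hS0 : ∀ x ∈ V, π * x ∈ B0 → x ∈ B0) (hSi : ∀ x ∈ V, π * x ∈ Binf → x ∈ Binf)
    (hSR : ∀ x ∈ V, π * x ∈ R → x ∈ R)
    (hJ : ∀ w ∈ V, (1 + π * w)⁻¹ ∈ V)
    (U : F) (hU : U ∈ oneAdd V π)
    (hG0 : ∃ a : F, a ^ m * U ∈ B0 ∧ a ∈ oneAdd V π)
    (hGi : ∃ b : F, b ^ m * U ∈ Binf ∧ b ∈ oneAdd V π)
    (hH1 : ∃ c0 : ℕ, ∀ r : F, r ^ m * U ∈ R →
      (∃ α β : F, α ^ m * U ∈ B0 ∧ β ^ m * U ∈ Binf ∧ π ^ (c0 + 1) * r = α - β) →
      ∃ α β : F, α ^ m * U ∈ B0 ∧ β ^ m * U ∈ Binf ∧ π ^ c0 * r = α - β) :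
    ∃ c : F, c ≠ 0 ∧ c ^ m * U ∈ B0 ∧ c ^ m * U ∈ Binf := by
  have hm : m ≠ 0 := by rintro rfl; simp at hmF
  have h0V : B0 ≤ V := h0R.trans hRV
  have hiV : Binf ≤ V := hiR.trans hRV
  have hπVm : π ∈ V := h0V hπ0
  have hπne : π ≠ 0 := by rintro rfl; exact hπV (by simp)
  obtain ⟨c0, hc0⟩ := hH1
  obtain ⟨a1, ha1, ha1V⟩ := hG0
  obtain ⟨b1, hb1, hb1V⟩ := hGi
  obtain ⟨a, ⟨βa, hβa, haU⟩, haV⟩ := exists_newton B0 V h0V π hπ0 m hm0 hmF U
    (first_step B0 V h0V π hπ0 hS0 m U hU ha1 ha1V) ha1V (c0 + 1) (Nat.succ_le_succ (Nat.zero_le _))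
  obtain ⟨b, ⟨βb, hβb, hbU⟩, hbV⟩ := exists_newton Binf V hiV π hπi m hmi hmF U
    (first_step Binf V hiV π hπi hSi m U hU hb1 hb1V) hb1V (c0 + 1)
    (Nat.succ_le_succ (Nat.zero_le _))
  have haI : a ^ m * U ∈ B0 := by
    rw [haU]; exact B0.add_mem B0.one_mem (B0.mul_mem (B0.pow_mem hπ0 _) hβa)
  have hbI : b ^ m * U ∈ Binf := by
    rw [hbU]; exact Binf.add_mem Binf.one_mem (Binf.mul_mem (Binf.pow_mem hπi _) hβb)
  -- the geometric sum `S = ∑ a^i b^(m-1-i)` is `m` modulo `π V`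
  obtain ⟨s, hs, hS⟩ := sum_oneAdd V π m (fun i => a ^ i * b ^ (m - 1 - i)) fun i _ =>
    oneAdd_mul V π hπVm (oneAdd_pow V π hπVm haV i) (oneAdd_pow V π hπVm hbV _)
  have hgeom : (∑ i ∈ Finset.range m, a ^ i * b ^ (m - 1 - i)) * (a - b) = a ^ m - b ^ m :=
    (Commute.all a b).geom_sum₂_mul m
  -- `S * U` is invertible in `V`
  have hSunit : ((m : F) + π * s) ∈ {y | y ≠ 0 ∧ y⁻¹ ∈ V} := by
    have h1 : (m : F) + π * s = (m : F) * (1 + π * ((m : F)⁻¹ * s)) := by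
      field_simp
    have h2 : (1 + π * ((m : F)⁻¹ * s)) ∈ oneAdd V π := ⟨_, V.mul_mem (h0V hm0) hs, rfl⟩
    refine ⟨?_, ?_⟩
    · rw [h1]; exact mul_ne_zero hmF (oneAdd_ne_zero V π hπV h2)
    · rw [h1, mul_inv]; exact V.mul_mem (h0V hm0) (oneAdd_inv V π hJ h2)
  have hUne : U ≠ 0 := oneAdd_ne_zero V π hπV hU
  have hUinv : U⁻¹ ∈ V := oneAdd_inv V π hJ hU
  -- `a - b = π ^ (c0+1) * ρ` with `ρ ∈ V`
  set ρ : F := (βa - βb) * ((m : F) + π * s)⁻¹ * U⁻¹ with hρ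
  have hρV : ρ ∈ V :=
    V.mul_mem (V.mul_mem (V.sub_mem (h0V hβa) (hiV hβb)) hSunit.2) hUinv
  have hab : a - b = π ^ (c0 + 1) * ρ := by
    have h3 : (a ^ m - b ^ m) * U = π ^ (c0 + 1) * (βa - βb) := by
      have : (a ^ m - b ^ m) * U = a ^ m * U - b ^ m * U := by ring
      rw [this, haU, hbU]; ring
    rw [← hgeom, hS] at h3
    rw [hρ]
    have hne := hSunit.1
    field_simp
    linear_combination h3
  -- `ρ` lies in the weight-one module of the overlap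
  have hρR : ρ ^ m * U ∈ R := by
    have h4 : (a - b) ^ m * U ∈ R :=
      wOne_sub R m U hNR (h0R haI) (hiR hbI)
    have h5 : (a - b) ^ m * U = π ^ ((c0 + 1) * m) * (ρ ^ m * U) := by
      rw [hab, mul_pow, ← pow_mul, mul_assoc]
    rw [h5] at h4
    refine sat_pow R V π hSR hπVm _ _ ?_ h4
    exact V.mul_mem (V.pow_mem hρV m) (oneAdd_mem V π hπVm hU)
  obtain ⟨α, β, hα, hβ, hαβ⟩ := hc0 ρ hρR ⟨a, b, haI, hbI, hab.symm⟩
  have hcb : a - π * α = b - π * β := by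
    have : a - b = π * (α - β) := by rw [hab, ← hαβ]; ring
    linear_combination this
  refine ⟨a - π * α, ?_, ?_, ?_⟩
  · intro h0
    apply hπV
    have ha' : a = π * α := by linear_combination h0
    obtain ⟨j, rfl⟩ := Nat.exists_eq_succ_of_ne_zero hm
    have h6 : (1 : F) = π * (π ^ j * (α ^ (j + 1) * U) - π ^ c0 * βa) := by
      have : (π * α) ^ (j + 1) * U = 1 + π ^ (c0 + 1) * βa := by rw [← ha']; exact haU
      linear_combination -this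
    have h7 : π⁻¹ = π ^ j * (α ^ (j + 1) * U) - π ^ c0 * βa := by
      field_simp
      linear_combination h6
    rw [h7]
    exact V.sub_mem (V.mul_mem (V.pow_mem hπVm _) (h0V hα))
      (V.mul_mem (V.pow_mem hπVm _) (h0V hβa))
  · exact wOne_sub B0 m U hN0 haI (wOne_mul B0 m U hπ0 hα)
  · rw [hcb]
    exact wOne_sub Binf m U hNi hbI (wOne_mul Binf m U hπi hβ)

/-- **Weight-one Kummer core, contradiction form**: if moreover the weight-one `H⁰` vanishes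
(`hH0`), the hypotheses are contradictory. -/
theorem kummer_core (B0 Binf R V : Subring F)
    (h0R : B0 ≤ R) (hiR : Binf ≤ R) (hRV : R ≤ V)
    (π : F) (hπ0 : π ∈ B0) (hπi : π ∈ Binf) (hπV : π⁻¹ ∉ V)
    (m : ℕ) (hmF : (m : F) ≠ 0) (hm0 : (m : F)⁻¹ ∈ B0) (hmi : (m : F)⁻¹ ∈ Binf)
    (hN0 : ∀ x : F, x ^ m ∈ B0 → x ∈ B0) (hNi : ∀ x : F, x ^ m ∈ Binf → x ∈ Binf)
    (hNR : ∀ x : F, x ^ m ∈ R → x ∈ R)
    (hS0 : ∀ x ∈ V, π * x ∈ B0 → x ∈ B0) (hSi : ∀ x ∈ V, π * x ∈ Binf → x ∈ Binf)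
    (hSR : ∀ x ∈ V, π * x ∈ R → x ∈ R)
    (hJ : ∀ w ∈ V, (1 + π * w)⁻¹ ∈ V)
    (U : F) (hU : U ∈ oneAdd V π)
    (hG0 : ∃ a : F, a ^ m * U ∈ B0 ∧ a ∈ oneAdd V π)
    (hGi : ∃ b : F, b ^ m * U ∈ Binf ∧ b ∈ oneAdd V π)
    (hH0 : ∀ c : F, c ^ m * U ∈ B0 → c ^ m * U ∈ Binf → c = 0)
    (hH1 : ∃ c0 : ℕ, ∀ r : F, r ^ m * U ∈ R →
      (∃ α β : F, α ^ m * U ∈ B0 ∧ β ^ m * U ∈ Binf ∧ π ^ (c0 + 1) * r = α - β) →
      ∃ α β : F, α ^ m * U ∈ B0 ∧ β ^ m * U ∈ Binf ∧ π ^ c0 * r = α - β) :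
    False := by
  obtain ⟨c, hc, h0, hi⟩ := kummer_core_exists B0 Binf R V h0R hiR hRV π hπ0 hπi hπV m hmF hm0 hmi
    hN0 hNi hNR hS0 hSi hSR hJ U hU hG0 hGi hH1
  exact hc (hH0 c h0 hi)

end Core

section Glue

variable {F : Type*} [Field F]

/-- **Gluing** (ideal of denominators): if at every maximal ideal `z ∋ π` of the chart `B`
there is `g ∈ 1 + π V` with `g ^ m * U` integral at `z` (i.e. `s * (g^m U) ∈ B` for some
`s ∉ z`), then the weight-one module of `B` contains an element of `1 + π V`. -/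
theorem glue_of_local (B V : Subring F) (hBV : B ≤ V) (π : F) (hπ : π ∈ B)
    (m : ℕ) (hm : m ≠ 0) (hN : ∀ x : F, x ^ m ∈ B → x ∈ B) (U : F)
    (hloc : ∀ z : Ideal B, z.IsMaximal → (⟨π, hπ⟩ : B) ∈ z →
      ∃ (g : F) (s : B), s ∉ z ∧ g ∈ oneAdd V π ∧ (s : F) * (g ^ m * U) ∈ B) :
    ∃ a : F, a ^ m * U ∈ B ∧ a ∈ oneAdd V π := by
  -- the ideal of all `s` such that `s + π V` meets the weight-one module
  let I : Ideal B :=
    { carrier := {s | ∃ a : F, a ^ m * U ∈ B ∧ ∃ w ∈ V, a = (s : F) + π * w}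
      add_mem' := by
        rintro s s' ⟨a, ha, w, hw, rfl⟩ ⟨a', ha', w', hw', rfl⟩
        refine ⟨_, wOne_add B m U hN ha ha', w + w', V.add_mem hw hw', ?_⟩
        push_cast; ring
      zero_mem' := ⟨0, wOne_zero B hm U, 0, V.zero_mem, by simp⟩
      smul_mem' := by
        rintro b s ⟨a, ha, w, hw, rfl⟩
        refine ⟨_, wOne_mul B m U b.2 ha, (b : F) * w, V.mul_mem (hBV b.2) hw, ?_⟩
        simp only [smul_eq_mul, Subring.coe_mul]; ring }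
  have hπI : (⟨π, hπ⟩ : B) ∈ I :=
    ⟨0, wOne_zero B hm U, -1, V.neg_mem V.one_mem, by simp⟩
  have htop : I = ⊤ := by
    by_contra hne
    obtain ⟨z, hz, hIz⟩ := Ideal.exists_le_maximal I hne
    obtain ⟨g, s, hsz, ⟨w, hw, rfl⟩, hs⟩ := hloc z hz (hIz hπI)
    apply hsz
    apply hIz
    obtain ⟨j, rfl⟩ := Nat.exists_eq_succ_of_ne_zero hm
    refine ⟨(s : F) * (1 + π * w), ?_, (s : F) * w, V.mul_mem (hBV s.2) hw, by ring⟩
    have : ((s : F) * (1 + π * w)) ^ (j + 1) * U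
        = (s : F) ^ j * ((s : F) * ((1 + π * w) ^ (j + 1) * U)) := by
      rw [mul_pow, pow_succ (s : F) j]; ring
    rw [this]
    exact B.mul_mem (B.pow_mem s.2 j) hs
  have h1 : (1 : B) ∈ I := by rw [htop]; exact Submodule.mem_top
  obtain ⟨a, ha, w, hw, haw⟩ := h1
  exact ⟨a, ha, w, hw, by simpa using haw⟩

/-- Variant of `glue_of_local` in the shape of the (LOC) hypothesis of KUMMER-TRIV
(helper4314, board #1047): `U * u₂ = u₁ * g ^ m` with `u₂ ∉ z`, `g ∈ 1 + π V`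
(only `u₁ ∈ B` is used, not `u₁ ∉ z`). -/
theorem glue_of_local' (B V : Subring F) (hBV : B ≤ V) (π : F) (hπ : π ∈ B) (hπV : π⁻¹ ∉ V)
    (hJ : ∀ w ∈ V, (1 + π * w)⁻¹ ∈ V)
    (m : ℕ) (hm : m ≠ 0) (hN : ∀ x : F, x ^ m ∈ B → x ∈ B) (U : F)
    (hloc : ∀ z : Ideal B, z.IsMaximal → (⟨π, hπ⟩ : B) ∈ z →
      ∃ (g : F) (u₁ u₂ : B), u₂ ∉ z ∧ g ∈ oneAdd V π ∧ U * (u₂ : F) = (u₁ : F) * g ^ m) :
    ∃ a : F, a ^ m * U ∈ B ∧ a ∈ oneAdd V π := by
  refine glue_of_local B V hBV π hπ m hm hN U fun z hz hπz => ?_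
  obtain ⟨g, u₁, u₂, hu₂, hg, hU⟩ := hloc z hz hπz
  have hg0 : g ≠ 0 := oneAdd_ne_zero V π hπV hg
  have hπm : π ∈ V := hBV hπ
  refine ⟨g⁻¹, u₂, hu₂, ?_, ?_⟩
  · -- `g⁻¹ ∈ 1 + π V`
    obtain ⟨w, hw, rfl⟩ := hg
    refine ⟨-(w * (1 + π * w)⁻¹), V.neg_mem (V.mul_mem hw (hJ w hw)), ?_⟩
    field_simp
    ring
  · have : (u₂ : F) * (g⁻¹ ^ m * U) = (u₁ : F) := by
      rw [inv_pow]
      field_simp
      linear_combination hU
    rw [this]
    exact u₁.2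

end Glue

end Fermat.Agent.S37.helper7942
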