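/-
S37 / S18 shared brick (partner leaf of KUMMER-W1, board #1286):
bounded `π`-torsion of the twisted Čech `H¹` of a two-chart model.

For a subalgebra `B` of a field `F` and `U : F`, `m : ℕ` put
`I_B = {c | U * c ^ m ∈ B}` (the "weight one" module of the Kummer cover `y ^ m = U`).
If `B₀` lies in a finitely generated `O[x]`-module, `B₀ ⊆ B₁[x]` and `O` is noetherian,
then `I_{B₀[1/x]} / (I_{B₀} + I_{B₁})` has bounded `π`-power torsion.

Mathlib only.
-/
import Mathlib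

namespace Fermat.Agent.S37.helper8935

open Polynomial

variable {O F : Type*} [CommRing O] [Field F] [Algebra O F]

/-! ### The twisted modules `I_B` -/

/-- Key closure property: for a subalgebra `B` which is closed under `m`-th roots,
`{c | U * c ^ m ∈ B}` is closed under addition. -/
theorem twist_add_mem (B : Subalgebra O F) {U : F} {m : ℕ}
    (hroot : ∀ w : F, w ^ m ∈ B → w ∈ B) {c c' : F}
    (hc : U * c ^ m ∈ B) (hc' : U * c' ^ m ∈ B) : U * (c + c') ^ m ∈ B := by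
  rw [add_pow, Finset.mul_sum]
  refine Subalgebra.sum_mem _ fun i hi => ?_
  have hi' : i ≤ m := Nat.lt_succ_iff.mp (Finset.mem_range.mp hi)
  have key : U * (c ^ i * c' ^ (m - i)) ∈ B := by
    apply hroot
    have h1 : (U * (c ^ i * c' ^ (m - i))) ^ m = (U * c ^ m) ^ i * (U * c' ^ m) ^ (m - i) := by
      have h2 : U ^ m = U ^ i * U ^ (m - i) := by rw [← pow_add, Nat.add_sub_cancel' hi']
      rw [mul_pow, mul_pow, mul_pow, mul_pow, ← pow_mul, ← pow_mul, ← pow_mul, ← pow_mul, h2,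
        mul_comm i m, mul_comm (m - i) m]
      ring
    rw [h1]
    exact B.mul_mem (B.pow_mem hc _) (B.pow_mem hc' _)
  have h3 : U * (c ^ i * c' ^ (m - i) * (m.choose i : F))
      = U * (c ^ i * c' ^ (m - i)) * (m.choose i : F) := by ring
  rw [h3]
  exact B.mul_mem key (natCast_mem B _)

/-- `I_B` is stable under multiplication by `B`. -/
theorem twist_mul_mem (B : Subalgebra O F) {U : F} {m : ℕ} {b c : F}
    (hb : b ∈ B) (hc : U * c ^ m ∈ B) : U * (b * c) ^ m ∈ B := by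
  have : U * (b * c) ^ m = b ^ m * (U * c ^ m) := by ring
  rw [this]
  exact B.mul_mem (B.pow_mem hb _) hc

/-- The twisted module `I_B = {c | U * c ^ m ∈ B}` as an `O`-submodule of `F`. -/
def twist (B : Subalgebra O F) (U : F) (m : ℕ) (hm : m ≠ 0)
    (hroot : ∀ w : F, w ^ m ∈ B → w ∈ B) : Submodule O F where
  carrier := {c | U * c ^ m ∈ B}
  add_mem' := fun hc hc' => twist_add_mem B hroot hc hc'
  zero_mem' := by
    show U * (0 : F) ^ m ∈ B
    rw [zero_pow hm, mul_zero]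
    exact B.zero_mem
  smul_mem' := fun o c hc => by
    show U * (o • c) ^ m ∈ B
    rw [Algebra.smul_def]
    exact twist_mul_mem B (B.algebraMap_mem o) hc

theorem mem_twist {B : Subalgebra O F} {U : F} {m : ℕ} {hm : m ≠ 0}
    {hroot : ∀ w : F, w ^ m ∈ B → w ∈ B} {c : F} :
    c ∈ twist B U m hm hroot ↔ U * c ^ m ∈ B := Iff.rfl

/-- `I_B` as a module over `O[x] = Algebra.adjoin O {x}`, for `x ∈ B`. -/
def twistAdjoin (B : Subalgebra O F) (U : F) (m : ℕ) (hm : m ≠ 0)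
    (hroot : ∀ w : F, w ^ m ∈ B → w ∈ B) (x : F) (hx : x ∈ B) :
    Submodule (Algebra.adjoin O {x}) F where
  carrier := {c | U * c ^ m ∈ B}
  add_mem' := fun hc hc' => twist_add_mem B hroot hc hc'
  zero_mem' := (twist B U m hm hroot).zero_mem
  smul_mem' := fun a c hc => by
    show U * (a • c) ^ m ∈ B
    rw [Subalgebra.smul_def]
    exact twist_mul_mem B (Algebra.adjoin_le (Set.singleton_subset_iff.mpr hx) a.2) hc

/-- `O[x]` is noetherian when `O` is. -/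
theorem isNoetherianRing_adjoin_singleton [IsNoetherianRing O] (x : F) :
    IsNoetherianRing (Algebra.adjoin O {x}) := by
  rw [Algebra.adjoin_singleton_eq_range_aeval]
  exact isNoetherianRing_of_surjective (Polynomial O) _
    (Polynomial.aeval x).rangeRestrict.toRingHom (AlgHom.rangeRestrict_surjective _)

/-- If the chart `B` lies in a finitely generated `O[x]`-module and `U⁻¹` has a denominator in `B`,
then `I_B` is a finitely generated `O[x]`-module (`O` noetherian). -/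
theorem twistAdjoin_fg [IsNoetherianRing O] (B : Subalgebra O F) (U : F) (hU : U ≠ 0) (m : ℕ)
    (hm : m ≠ 0) (hroot : ∀ w : F, w ^ m ∈ B → w ∈ B) (x : F) (hx : x ∈ B)
    (hfg : ∃ S : Finset F, (B : Set F) ⊆ Submodule.span (Algebra.adjoin O {x}) (S : Set F))
    (hden : ∃ d ∈ B, d ≠ 0 ∧ d * U⁻¹ ∈ B) :
    (twistAdjoin B U m hm hroot x hx).FG := by
  obtain ⟨S, hS⟩ := hfg
  obtain ⟨d, hdB, hd0, hdU⟩ := hden
  have : IsNoetherianRing (Algebra.adjoin O {x}) := isNoetherianRing_adjoin_singleton x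
  let N : Submodule (Algebra.adjoin O {x}) F :=
    Submodule.span _ ((fun e => d⁻¹ * e) '' (S : Set F))
  have : IsNoetherian (Algebra.adjoin O {x}) N :=
    isNoetherian_span_of_finite _ ((S.finite_toSet).image _)
  refine Submodule.FG.of_le_of_isNoetherian (T := N) ?_
  intro c hc
  have hc' : U * c ^ m ∈ B := hc
  have hdc : d * c ∈ B := by
    apply hroot
    have h1 : (d * c) ^ m = d ^ (m - 1) * (d * U⁻¹) * (U * c ^ m) := by
      have h2 : d ^ m = d ^ (m - 1) * d := by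
        rw [← pow_succ, Nat.sub_add_cancel (Nat.one_le_iff_ne_zero.mpr hm)]
      rw [mul_pow, h2]
      field_simp
    rw [h1]
    exact B.mul_mem (B.mul_mem (B.pow_mem hdB _) hdU) hc'
  have h1 : ∀ y ∈ Submodule.span (Algebra.adjoin O {x}) (S : Set F), d⁻¹ * y ∈ N := by
    intro y hy
    induction hy using Submodule.span_induction with
    | mem y hy => exact Submodule.subset_span ⟨y, hy, rfl⟩
    | zero => simp
    | add y z _ _ hy hz => rw [mul_add]; exact N.add_mem hy hz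
    | smul a y _ hy =>
      have h3 : d⁻¹ * (a • y) = a • (d⁻¹ * y) := by
        rw [Subalgebra.smul_def, Subalgebra.smul_def]; ring
      rw [h3]; exact N.smul_mem a hy
  have h4 := h1 (d * c) (hS hdc)
  rwa [← mul_assoc, inv_mul_cancel₀ hd0, one_mul] at h4

/-! ### The Čech computation -/

/-- **Čech covering lemma** (twisted form).  If `I_{B₀} = ∑ O[x] e` with `e` ranging over a finite
set `E`, and `B₀ ⊆ B₁[x]`, then every element of `I_{B₀[1/x]}` lies in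
`I_{B₀} + I_{B₁} + (a finitely generated O-module)`. -/
theorem twist_cech_fg (x U : F) (hx : x ≠ 0) (m : ℕ) (hm : m ≠ 0)
    (B₀ B₁ : Subalgebra O F) (hx0 : x ∈ B₀) (hx1 : x⁻¹ ∈ B₁)
    (hroot0 : ∀ w : F, w ^ m ∈ B₀ → w ∈ B₀) (hroot1 : ∀ w : F, w ^ m ∈ B₁ → w ∈ B₁)
    (hov : ∀ b ∈ B₀, ∃ n : ℕ, x⁻¹ ^ n * b ∈ B₁)
    (hfg : (twistAdjoin B₀ U m hm hroot0 x hx0).FG) :
    ∃ T : Finset F, ∀ r : F, (∃ n : ℕ, x ^ n * (U * r ^ m) ∈ B₀) →
      r ∈ (twist B₀ U m hm hroot0 ⊔ twist B₁ U m hm hroot1) ⊔ Submodule.span O (T : Set F) := by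
  classical
  obtain ⟨E, hE⟩ := hfg
  have hm1 : m - 1 + 1 = m := Nat.sub_add_cancel (Nat.one_le_iff_ne_zero.mpr hm)
  -- `E ⊆ I_{B₀}`
  have hE0 : ∀ e ∈ E, U * e ^ m ∈ B₀ := fun e he => by
    have h1 : e ∈ twistAdjoin B₀ U m hm hroot0 x hx0 := hE ▸ Submodule.subset_span he
    exact h1
  -- exponents pushing the generators into `I_{B₁}`
  have hk : ∀ e : F, ∃ k : ℕ, e ∈ E → U * (x⁻¹ ^ k * e) ^ m ∈ B₁ := by
    intro e
    by_cases he : e ∈ E
    · obtain ⟨n, hn⟩ := hov _ (hE0 e he)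
      refine ⟨n, fun _ => ?_⟩
      have h1 : U * (x⁻¹ ^ n * e) ^ m = (x⁻¹ ^ n) ^ (m - 1) * (x⁻¹ ^ n * (U * e ^ m)) := by
        have h2 : (x⁻¹ ^ n) ^ m = (x⁻¹ ^ n) ^ (m - 1) * x⁻¹ ^ n := by
          rw [← pow_succ, hm1]
        rw [mul_pow, h2]; ring
      rw [h1]
      exact B₁.mul_mem (B₁.pow_mem (B₁.pow_mem hx1 _) _) hn
    · exact ⟨0, fun h => absurd h he⟩
  choose k hk using hk
  set k₀ := E.sup k with hk₀
  set I0 := twist B₀ U m hm hroot0 with hI0
  set I1 := twist B₁ U m hm hroot1 with hI1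
  have hbig : ∀ e ∈ E, ∀ j, k₀ ≤ j → x⁻¹ ^ j * e ∈ I1 := by
    intro e he j hj
    have hkj : k e ≤ j := le_trans (Finset.le_sup he) hj
    have h1 : x⁻¹ ^ j * e = x⁻¹ ^ (j - k e) * (x⁻¹ ^ k e * e) := by
      rw [← mul_assoc, ← pow_add, Nat.sub_add_cancel hkj]
    rw [h1]
    exact twist_mul_mem B₁ (B₁.pow_mem hx1 _) (hk e he)
  let T : Finset F := (E ×ˢ Finset.range k₀).image (fun p => x⁻¹ ^ p.2 * p.1)
  refine ⟨T, ?_⟩
  set Vt : Submodule O F := Submodule.span O (T : Set F) with hVt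
  set P : Submodule O F := I0 ⊔ I1 with hP
  have hA : ∀ e ∈ E, ∀ j : ℕ, x⁻¹ ^ j * e ∈ P ⊔ Vt := by
    intro e he j
    by_cases hj : k₀ ≤ j
    · exact Submodule.mem_sup_left (Submodule.mem_sup_right (hbig e he j hj))
    · refine Submodule.mem_sup_right (Submodule.subset_span ?_)
      exact Finset.mem_coe.mpr (Finset.mem_image.mpr
        ⟨(e, j), Finset.mem_product.mpr ⟨he, Finset.mem_range.mpr (not_le.mp hj)⟩, rfl⟩)
  have hB : ∀ e ∈ E, ∀ i j : ℕ, x⁻¹ ^ j * (x ^ i * e) ∈ P ⊔ Vt := by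
    intro e he i j
    rcases le_total j i with hji | hij
    · obtain ⟨d, rfl⟩ := Nat.exists_eq_add_of_le hji
      have h1 : x⁻¹ ^ j * (x ^ (j + d) * e) = x ^ d * e := by
        rw [pow_add, inv_pow]; field_simp
      rw [h1]
      exact Submodule.mem_sup_left (Submodule.mem_sup_left
        (twist_mul_mem B₀ (B₀.pow_mem hx0 _) (hE0 e he)))
    · obtain ⟨d, rfl⟩ := Nat.exists_eq_add_of_le hij
      have h1 : x⁻¹ ^ (i + d) * (x ^ i * e) = x⁻¹ ^ d * e := by
        rw [pow_add, inv_pow, inv_pow]; field_simp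
      rw [h1]
      exact hA e he d
  -- the `O`-span of the `x ^ i * e`
  set W : Submodule O F := Submodule.span O {w | ∃ i : ℕ, ∃ e ∈ E, w = x ^ i * e} with hW
  have hWx : ∀ w ∈ W, x * w ∈ W := by
    intro w hw
    induction hw using Submodule.span_induction with
    | mem w hw =>
      obtain ⟨i, e, he, rfl⟩ := hw
      exact Submodule.subset_span ⟨i + 1, e, he, by rw [pow_succ]; ring⟩
    | zero => simp
    | add y z _ _ hy hz => rw [mul_add]; exact W.add_mem hy hz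
    | smul o y _ hy => rw [mul_smul_comm]; exact W.smul_mem o hy
  have hWA : ∀ a ∈ Algebra.adjoin O {x}, ∀ w ∈ W, a * w ∈ W := by
    intro a ha
    induction ha using Algebra.adjoin_induction with
    | mem y hy =>
      rw [Set.mem_singleton_iff] at hy
      subst hy
      exact hWx
    | algebraMap o =>
      intro w hw
      rw [← Algebra.smul_def]
      exact W.smul_mem o hw
    | add y z _ _ hy hz =>
      intro w hw
      rw [add_mul]
      exact W.add_mem (hy w hw) (hz w hw)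
    | mul y z _ _ hy hz =>
      intro w hw
      rw [mul_assoc]
      exact hy _ (hz w hw)
  let W' : Submodule (Algebra.adjoin O {x}) F :=
    { carrier := W
      add_mem' := fun ha hb => W.add_mem ha hb
      zero_mem' := W.zero_mem
      smul_mem' := fun a w hw => by
        show a • w ∈ W
        rw [Subalgebra.smul_def]
        exact hWA a a.2 w hw }
  have hI0W : ∀ c : F, U * c ^ m ∈ B₀ → c ∈ W := by
    intro c hc
    have h1 : c ∈ twistAdjoin B₀ U m hm hroot0 x hx0 := hc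
    rw [← hE] at h1
    have h2 : Submodule.span (Algebra.adjoin O {x}) (E : Set F) ≤ W' := by
      refine Submodule.span_le.mpr fun e he => ?_
      show e ∈ W
      exact Submodule.subset_span ⟨0, e, he, by simp⟩
    exact h2 h1
  have hD : ∀ j : ℕ, ∀ w ∈ W, x⁻¹ ^ j * w ∈ P ⊔ Vt := by
    intro j w hw
    induction hw using Submodule.span_induction with
    | mem w hw =>
      obtain ⟨i, e, he, rfl⟩ := hw
      exact hB e he i j
    | zero => simp
    | add y z _ _ hy hz => rw [mul_add]; exact (P ⊔ Vt).add_mem hy hz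
    | smul o y _ hy => rw [mul_smul_comm]; exact (P ⊔ Vt).smul_mem o hy
  intro r ⟨n, hn⟩
  have h1 : U * (x ^ n * r) ^ m ∈ B₀ := by
    have h2 : U * (x ^ n * r) ^ m = (x ^ n) ^ (m - 1) * (x ^ n * (U * r ^ m)) := by
      have h3 : (x ^ n) ^ m = (x ^ n) ^ (m - 1) * x ^ n := by rw [← pow_succ, hm1]
      rw [mul_pow, h3]; ring
    rw [h2]
    exact B₀.mul_mem (B₀.pow_mem (B₀.pow_mem hx0 _) _) hn
  have h4 : r = x⁻¹ ^ n * (x ^ n * r) := by
    rw [inv_pow]; field_simp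
  rw [h4]
  exact hD n _ (hI0W _ h1)

/-! ### Bounded torsion -/

/-- **Bounded torsion modulo a submodule.**  Let `P`, `V` be `O`-submodules of an `O`-module `M`,
with `V` finitely generated and `O` noetherian.  Then there is `c` such that for every
`r ∈ P ⊔ V`: `π ^ (c + 1) • r ∈ P → π ^ c • r ∈ P`. -/
theorem exists_pow_smul_mem_bound [IsNoetherianRing O] {M : Type*} [AddCommGroup M] [Module O M]
    (π : O) (P V : Submodule O M) (hV : V.FG) :
    ∃ c : ℕ, ∀ r ∈ P ⊔ V, π ^ (c + 1) • r ∈ P → π ^ c • r ∈ P := by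
  set R' : Submodule O (M ⧸ P) := V.map P.mkQ with hR'
  have hfg : R'.FG := hV.map _
  have hnoeth : IsNoetherian O R' := isNoetherian_of_fg_of_noetherian R' hfg
  let f : ℕ →o Submodule O R' :=
    { toFun := fun n => LinearMap.ker ((π ^ n) • (LinearMap.id : R' →ₗ[O] R'))
      monotone' := by
        intro a b hab q hq
        rw [LinearMap.mem_ker, LinearMap.smul_apply, LinearMap.id_apply] at hq ⊢
        obtain ⟨d, rfl⟩ := Nat.exists_eq_add_of_le hab
        rw [pow_add, mul_comm, mul_smul, hq, smul_zero] }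
  obtain ⟨c, hc⟩ := monotone_stabilizes_iff_noetherian.mpr hnoeth f
  refine ⟨c, fun r hr hr1 => ?_⟩
  obtain ⟨y, hy, v, hv, rfl⟩ := Submodule.mem_sup.mp hr
  have hv1 : π ^ (c + 1) • v ∈ P := by
    have h1 : π ^ (c + 1) • v = π ^ (c + 1) • (y + v) - π ^ (c + 1) • y := by
      rw [smul_add]; abel
    rw [h1]
    exact P.sub_mem hr1 (P.smul_mem _ hy)
  have hq : (⟨P.mkQ v, Submodule.mem_map_of_mem hv⟩ : R') ∈ f (c + 1) := by
    show (⟨P.mkQ v, Submodule.mem_map_of_mem hv⟩ : R') ∈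
      LinearMap.ker ((π ^ (c + 1)) • (LinearMap.id : R' →ₗ[O] R'))
    rw [LinearMap.mem_ker, LinearMap.smul_apply, LinearMap.id_apply]
    apply Subtype.ext
    show π ^ (c + 1) • P.mkQ v = 0
    rw [← map_smul, Submodule.mkQ_apply, Submodule.Quotient.mk_eq_zero]
    exact hv1
  rw [← hc (c + 1) (Nat.le_succ c)] at hq
  have hq' : (⟨P.mkQ v, Submodule.mem_map_of_mem hv⟩ : R') ∈
      LinearMap.ker ((π ^ c) • (LinearMap.id : R' →ₗ[O] R')) := hq
  rw [LinearMap.mem_ker, LinearMap.smul_apply, LinearMap.id_apply] at hq'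
  have h2 : π ^ c • P.mkQ v = 0 := congrArg Subtype.val hq'
  rw [← map_smul, Submodule.mkQ_apply, Submodule.Quotient.mk_eq_zero] at h2
  rw [smul_add]
  exact P.add_mem (P.smul_mem _ hy) h2

/-- **(H1), submodule form.**  Bounded `π`-torsion of the twisted Čech `H¹`:
`I_{B₀[1/x]} / (I_{B₀} + I_{B₁})`, where `I_B = {c | U * c ^ m ∈ B}`.

Hypotheses: `O` noetherian; `x ∈ B₀`, `x⁻¹ ∈ B₁`; `B₀`, `B₁` closed under `m`-th roots;
`B₀ ⊆ B₁[x]`; `B₀` lies in a finitely generated `O[x]`-module; `U⁻¹` has a denominator in `B₀`. -/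
theorem h1_bound_sup [IsNoetherianRing O] (π : O) (x U : F) (hx : x ≠ 0) (hU : U ≠ 0)
    (m : ℕ) (hm : m ≠ 0)
    (B₀ B₁ : Subalgebra O F) (hx0 : x ∈ B₀) (hx1 : x⁻¹ ∈ B₁)
    (hroot0 : ∀ w : F, w ^ m ∈ B₀ → w ∈ B₀) (hroot1 : ∀ w : F, w ^ m ∈ B₁ → w ∈ B₁)
    (hov : ∀ b ∈ B₀, ∃ n : ℕ, x⁻¹ ^ n * b ∈ B₁)
    (hfg : ∃ S : Finset F, (B₀ : Set F) ⊆ Submodule.span (Algebra.adjoin O {x}) (S : Set F))
    (hden : ∃ d ∈ B₀, d ≠ 0 ∧ d * U⁻¹ ∈ B₀) :
    ∃ c : ℕ, ∀ r : F, (∃ n : ℕ, x ^ n * (U * r ^ m) ∈ B₀) →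
      π ^ (c + 1) • r ∈ twist B₀ U m hm hroot0 ⊔ twist B₁ U m hm hroot1 →
      π ^ c • r ∈ twist B₀ U m hm hroot0 ⊔ twist B₁ U m hm hroot1 := by
  obtain ⟨T, hT⟩ := twist_cech_fg x U hx m hm B₀ B₁ hx0 hx1 hroot0 hroot1 hov
    (twistAdjoin_fg B₀ U hU m hm hroot0 x hx0 hfg hden)
  obtain ⟨c, hc⟩ := exists_pow_smul_mem_bound π
    (twist B₀ U m hm hroot0 ⊔ twist B₁ U m hm hroot1) (Submodule.span O (T : Set F))
    (Submodule.fg_span T.finite_toSet)
  exact ⟨c, fun r hr => hc r (hT r hr)⟩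

/-- **(H1), element form** (the shape of hypothesis (H1) of `kummer_core`, board #1286):
there is `c` such that for every `r` with `U * r ^ m ∈ B₀[1/x]`,
`π ^ (c+1) * r ∈ I_{B₀} + I_{B₁}` implies `π ^ c * r ∈ I_{B₀} + I_{B₁}`. -/
theorem h1_bound [IsNoetherianRing O] (π : O) (x U : F) (hx : x ≠ 0) (hU : U ≠ 0)
    (m : ℕ) (hm : m ≠ 0)
    (B₀ B₁ : Subalgebra O F) (hx0 : x ∈ B₀) (hx1 : x⁻¹ ∈ B₁)
    (hroot0 : ∀ w : F, w ^ m ∈ B₀ → w ∈ B₀) (hroot1 : ∀ w : F, w ^ m ∈ B₁ → w ∈ B₁)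
    (hov : ∀ b ∈ B₀, ∃ n : ℕ, x⁻¹ ^ n * b ∈ B₁)
    (hfg : ∃ S : Finset F, (B₀ : Set F) ⊆ Submodule.span (Algebra.adjoin O {x}) (S : Set F))
    (hden : ∃ d ∈ B₀, d ≠ 0 ∧ d * U⁻¹ ∈ B₀) :
    ∃ c : ℕ, ∀ r : F, (∃ n : ℕ, x ^ n * (U * r ^ m) ∈ B₀) →
      (∃ y z : F, U * y ^ m ∈ B₀ ∧ U * z ^ m ∈ B₁ ∧ algebraMap O F π ^ (c + 1) * r = y + z) →
      ∃ y z : F, U * y ^ m ∈ B₀ ∧ U * z ^ m ∈ B₁ ∧ algebraMap O F π ^ c * r = y + z := by
  obtain ⟨c, hc⟩ := h1_bound_sup π x U hx hU m hm B₀ B₁ hx0 hx1 hroot0 hroot1 hov hfg hden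
  refine ⟨c, fun r hr ⟨y, z, hy, hz, hyz⟩ => ?_⟩
  have hsm : ∀ (n : ℕ) (w : F), π ^ n • w = algebraMap O F π ^ n * w := fun n w => by
    rw [Algebra.smul_def, map_pow]
  have h1 : π ^ (c + 1) • r ∈ twist B₀ U m hm hroot0 ⊔ twist B₁ U m hm hroot1 := by
    rw [hsm, hyz]
    exact Submodule.add_mem_sup (mem_twist.mpr hy) (mem_twist.mpr hz)
  obtain ⟨y', hy', z', hz', h2⟩ := Submodule.mem_sup.mp (hc r hr h1)
  exact ⟨y', z', hy', hz', by rw [← hsm, h2]⟩

end Fermat.Agent.S37.helper8935
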