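/-
S37/S18-KUMMER-W1 (board #1286), part 2: the one-call wrapper `kummer_w1` of the weight-one
Kummer core (`helper7942_KummerWeightOne`), using the Čech `H¹` bound of `helper8935_H1Bound`.

Two-chart model `B0`, `Binf` (subalgebras of a field `F` over a noetherian ring `O`), Gauss ring
`V`.  Inputs: special fibre integral (`hS0`, `hSi`), global functions on the special fibre are
constants (`hH3`), and the local condition (LOC) in INTEGRAL form at every closed point of the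
special fibre of both charts.  Output: a nonzero `c` with `c ^ m * U ∈ B0 ∩ Binf`; if moreover
`B0 ∩ Binf` consists of constants, `U = κ * f ^ m`.
-/
import Fermat.Agent.S37.helper7942_KummerWeightOne
import Fermat.Agent.S37.helper8935_H1Bound

set_option autoImplicit false

namespace Fermat.Agent.S37.helper7942

section Overlap

variable {F : Type*} [Field F]

/-- The overlap chart `B[1/x] = {y | ∃ n, x ^ n * y ∈ B}`. -/
def overlap (B : Subring F) (x : F) (hx : x ∈ B) : Subring F where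
  carrier := {y | ∃ n : ℕ, x ^ n * y ∈ B}
  mul_mem' := by
    rintro a b ⟨n, hn⟩ ⟨k, hk⟩
    refine ⟨n + k, ?_⟩
    have : x ^ (n + k) * (a * b) = (x ^ n * a) * (x ^ k * b) := by ring
    rw [this]
    exact B.mul_mem hn hk
  one_mem' := ⟨0, by simp⟩
  add_mem' := by
    rintro a b ⟨n, hn⟩ ⟨k, hk⟩
    refine ⟨n + k, ?_⟩
    have : x ^ (n + k) * (a + b) = x ^ k * (x ^ n * a) + x ^ n * (x ^ k * b) := by ring
    rw [this]
    exact B.add_mem (B.mul_mem (B.pow_mem hx k) hn) (B.mul_mem (B.pow_mem hx n) hk)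
  zero_mem' := ⟨0, by simp⟩
  neg_mem' := by
    rintro a ⟨n, hn⟩
    exact ⟨n, by rw [mul_neg]; exact B.neg_mem hn⟩

theorem mem_overlap (B : Subring F) (x : F) (hx : x ∈ B) (y : F) :
    y ∈ overlap B x hx ↔ ∃ n : ℕ, x ^ n * y ∈ B := Iff.rfl

theorem le_overlap (B : Subring F) (x : F) (hx : x ∈ B) : B ≤ overlap B x hx :=
  fun y hy => ⟨0, by simpa using hy⟩

theorem overlap_le (B V : Subring F) (x : F) (hx : x ∈ B) (hBV : B ≤ V) (hx0 : x ≠ 0)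
    (hxV : x⁻¹ ∈ V) : overlap B x hx ≤ V := by
  rintro y ⟨n, hn⟩
  have : y = x⁻¹ ^ n * (x ^ n * y) := by
    rw [← mul_assoc, ← mul_pow, inv_mul_cancel₀ hx0, one_pow, one_mul]
  rw [this]
  exact V.mul_mem (V.pow_mem hxV n) (hBV hn)

theorem overlap_root (B : Subring F) (x : F) (hx : x ∈ B) (m : ℕ) (hm : m ≠ 0)
    (hN : ∀ y : F, y ^ m ∈ B → y ∈ B) :
    ∀ y : F, y ^ m ∈ overlap B x hx → y ∈ overlap B x hx := by
  rintro y ⟨n, hn⟩
  refine ⟨n, hN _ ?_⟩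
  obtain ⟨j, rfl⟩ := Nat.exists_eq_succ_of_ne_zero hm
  have : (x ^ n * y) ^ (j + 1) = (x ^ n) ^ j * (x ^ n * y ^ (j + 1)) := by
    rw [mul_pow, pow_succ (x ^ n) j]; ring
  rw [this]
  exact B.mul_mem (B.pow_mem (B.pow_mem hx n) j) hn

theorem overlap_sat (B V : Subring F) (x : F) (hx : x ∈ B) (hxV : x ∈ V) (π : F)
    (hS : ∀ y ∈ V, π * y ∈ B → y ∈ B) :
    ∀ y ∈ V, π * y ∈ overlap B x hx → y ∈ overlap B x hx := by
  rintro y hy ⟨n, hn⟩
  refine ⟨n, hS _ (V.mul_mem (V.pow_mem hxV n) hy) ?_⟩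
  have : π * (x ^ n * y) = x ^ n * (π * y) := by ring
  rw [this]
  exact hn

end Overlap

section Const

variable {F : Type*} [Field F]

/-- **Gluing** (ideal of denominators), general form: (LOC) is only needed at the maximal ideals
containing the ideal of denominators `{s | (s + π V) ∩ I_B ≠ ∅}`, `I_B = {a | a ^ m * U ∈ B}`. -/
theorem glue_of_local_gen (B V : Subring F) (hBV : B ≤ V) (π : F)
    (m : ℕ) (hm : m ≠ 0) (hN : ∀ x : F, x ^ m ∈ B → x ∈ B) (U : F)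
    (hloc : ∀ z : Ideal B, z.IsMaximal →
      (∀ s : B, (∃ a : F, a ^ m * U ∈ B ∧ ∃ w ∈ V, a = (s : F) + π * w) → s ∈ z) →
      ∃ (g : F) (s : B), s ∉ z ∧ g ∈ oneAdd V π ∧ (s : F) * (g ^ m * U) ∈ B) :
    ∃ a : F, a ^ m * U ∈ B ∧ a ∈ oneAdd V π := by
  let I : Ideal B :=
    { carrier := {s | ∃ a : F, a ^ m * U ∈ B ∧ ∃ w ∈ V, a = (s : F) + π * w}
      add_mem' := by
        rintro s s' ⟨a, ha, w, hw, rfl⟩ ⟨a', ha', w', hw', rfl⟩
        refine ⟨_, wOne_add B m U hN ha ha', w + w', V.add_mem hw hw', ?_⟩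
        push_cast; ring
      zero_mem' := ⟨0, wOne_zero B hm U, 0, V.zero_mem, by simp⟩
      smul_mem' := by
        rintro b s ⟨a, ha, w, hw, rfl⟩
        refine ⟨_, wOne_mul B m U b.2 ha, (b : F) * w, V.mul_mem (hBV b.2) hw, ?_⟩
        simp only [smul_eq_mul, Subring.coe_mul]; ring }
  have htop : I = ⊤ := by
    by_contra hne
    obtain ⟨z, hz, hIz⟩ := Ideal.exists_le_maximal I hne
    obtain ⟨g, s, hsz, ⟨w, hw, rfl⟩, hs⟩ := hloc z hz fun s hs => hIz hs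
    apply hsz
    apply hIz
    obtain ⟨j, rfl⟩ := Nat.exists_eq_succ_of_ne_zero hm
    refine ⟨(s : F) * (1 + π * w), ?_, (s : F) * w, V.mul_mem (hBV s.2) hw, by ring⟩
    have : ((s : F) * (1 + π * w)) ^ (j + 1) * U
        = (s : F) ^ j * ((s : F) * ((1 + π * w) ^ (j + 1) * U)) := by
      rw [mul_pow, pow_succ (s : F) j]; ring
    rw [this]
    exact B.mul_mem (B.pow_mem s.2 j) hs
  have h1 : (1 : B) ∈ I := by rw [htop]; exact Submodule.mem_top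
  obtain ⟨a, ha, w, hw, haw⟩ := h1
  exact ⟨a, ha, w, hw, by simpa using haw⟩

/-- **Constant on a chart** (ideal of denominators), general form: (LOC) is only needed at the
maximal ideals containing the ideal of denominators `{s | s * U ∈ B + π V}`. -/
theorem const_of_local_gen (B V : Subring F) (hBV : B ≤ V) (π : F) (hπ : π ∈ B)
    (m : ℕ) (U : F) (hUV : U ∈ V)
    (hloc : ∀ z : Ideal B, z.IsMaximal →
      (∀ s : B, (∃ b ∈ B, ∃ w ∈ V, (s : F) * U = b + π * w) → s ∈ z) →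
      ∃ (g : F) (s : B), s ∉ z ∧ g ∈ oneAdd V π ∧ (s : F) * (g ^ m * U) ∈ B) :
    ∃ b ∈ B, ∃ w ∈ V, U = b + π * w := by
  let I : Ideal B :=
    { carrier := {s | ∃ b ∈ B, ∃ w ∈ V, (s : F) * U = b + π * w}
      add_mem' := by
        rintro s s' ⟨b, hb, w, hw, h⟩ ⟨b', hb', w', hw', h'⟩
        refine ⟨b + b', B.add_mem hb hb', w + w', V.add_mem hw hw', ?_⟩
        push_cast
        rw [add_mul, h, h']
        ring
      zero_mem' := ⟨0, B.zero_mem, 0, V.zero_mem, by simp⟩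
      smul_mem' := by
        rintro t s ⟨b, hb, w, hw, h⟩
        refine ⟨t * b, B.mul_mem t.2 hb, t * w, V.mul_mem (hBV t.2) hw, ?_⟩
        simp only [smul_eq_mul, Subring.coe_mul]
        rw [mul_assoc, h]
        ring }
  have htop : I = ⊤ := by
    by_contra hne
    obtain ⟨z, hz, hIz⟩ := Ideal.exists_le_maximal I hne
    obtain ⟨g, s, hsz, hg, hs⟩ := hloc z hz fun s hs => hIz hs
    apply hsz
    apply hIz
    obtain ⟨w1, hw1, hgm⟩ := oneAdd_pow V π (hBV hπ) hg m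
    refine ⟨(s : F) * (g ^ m * U), hs, -((s : F) * w1 * U),
      V.neg_mem (V.mul_mem (V.mul_mem (hBV s.2) hw1) hUV), ?_⟩
    rw [hgm]
    ring
  have h1 : (1 : B) ∈ I := by rw [htop]; exact Submodule.mem_top
  obtain ⟨b, hb, w, hw, h⟩ := h1
  exact ⟨b, hb, w, hw, by simpa using h⟩

/-- Constant on a chart, (LOC) at all maximal ideals containing `π`. -/
theorem const_of_local (B V : Subring F) (hBV : B ≤ V) (π : F) (hπ : π ∈ B)
    (m : ℕ) (U : F) (hUV : U ∈ V)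
    (hloc : ∀ z : Ideal B, z.IsMaximal → (⟨π, hπ⟩ : B) ∈ z →
      ∃ (g : F) (s : B), s ∉ z ∧ g ∈ oneAdd V π ∧ (s : F) * (g ^ m * U) ∈ B) :
    ∃ b ∈ B, ∃ w ∈ V, U = b + π * w :=
  const_of_local_gen B V hBV π hπ m U hUV fun z hz hIz =>
    hloc z hz (hIz ⟨π, hπ⟩ ⟨0, B.zero_mem, U, hUV, by simp⟩)

/-- Constant on the chart at infinity: from the constant on the finite chart and (LOC) at the
maximal ideals of `Binf` containing `π` and `x⁻¹` (the cusp points) only. -/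
theorem const_at_infinity (B0 Binf V : Subring F) (hiV : Binf ≤ V) (π : F) (hπi : π ∈ Binf)
    (x : F) (hxi : x⁻¹ ∈ Binf) (hov0 : ∀ b ∈ B0, ∃ n : ℕ, x⁻¹ ^ n * b ∈ Binf)
    (m : ℕ) (U : F) (hUV : U ∈ V)
    (hc0 : ∃ b ∈ B0, ∃ w ∈ V, U = b + π * w)
    (hloc : ∀ z : Ideal Binf, z.IsMaximal → (⟨π, hπi⟩ : Binf) ∈ z → (⟨x⁻¹, hxi⟩ : Binf) ∈ z →
      ∃ (g : F) (s : Binf), s ∉ z ∧ g ∈ oneAdd V π ∧ (s : F) * (g ^ m * U) ∈ Binf) :
    ∃ b ∈ Binf, ∃ w ∈ V, U = b + π * w := by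
  refine const_of_local_gen Binf V hiV π hπi m U hUV fun z hz hIz => ?_
  refine hloc z hz (hIz ⟨π, hπi⟩ ⟨0, Binf.zero_mem, U, hUV, by simp⟩) ?_
  obtain ⟨b0, hb0, w0, hw0, hU⟩ := hc0
  obtain ⟨n, hn⟩ := hov0 b0 hb0
  have hpow : (⟨x⁻¹, hxi⟩ : Binf) ^ n ∈ z := by
    refine hIz _ ⟨x⁻¹ ^ n * b0, hn, x⁻¹ ^ n * w0, V.mul_mem (V.pow_mem (hiV hxi) n) hw0, ?_⟩
    simp only [SubmonoidClass.coe_pow]
    rw [hU]; ring
  exact hz.isPrime.mem_of_pow_mem n hpow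

/-- Gluing on the chart at infinity: from the gluing on the finite chart and (LOC) at the maximal
ideals of `Binf` containing `π` and `x⁻¹` (the cusp points) only. -/
theorem glue_at_infinity (B0 Binf V : Subring F) (hiV : Binf ≤ V) (π : F) (hπi : π ∈ Binf)
    (x : F) (hxi : x⁻¹ ∈ Binf) (hov0 : ∀ b ∈ B0, ∃ n : ℕ, x⁻¹ ^ n * b ∈ Binf)
    (m : ℕ) (hm : m ≠ 0) (hNi : ∀ y : F, y ^ m ∈ Binf → y ∈ Binf) (U : F)
    (hG0 : ∃ a : F, a ^ m * U ∈ B0 ∧ a ∈ oneAdd V π)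
    (hloc : ∀ z : Ideal Binf, z.IsMaximal → (⟨π, hπi⟩ : Binf) ∈ z → (⟨x⁻¹, hxi⟩ : Binf) ∈ z →
      ∃ (g : F) (s : Binf), s ∉ z ∧ g ∈ oneAdd V π ∧ (s : F) * (g ^ m * U) ∈ Binf) :
    ∃ b : F, b ^ m * U ∈ Binf ∧ b ∈ oneAdd V π := by
  refine glue_of_local_gen Binf V hiV π m hm hNi U fun z hz hIz => ?_
  refine hloc z hz (hIz ⟨π, hπi⟩ ⟨0, wOne_zero Binf hm U, -1, V.neg_mem V.one_mem, by simp⟩) ?_
  obtain ⟨a0, ha0, w0, hw0, rfl⟩ := hG0
  obtain ⟨n, hn⟩ := hov0 _ ha0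
  have hpow : (⟨x⁻¹, hxi⟩ : Binf) ^ n ∈ z := by
    refine hIz _ ⟨x⁻¹ ^ n * (1 + π * w0), ?_, x⁻¹ ^ n * w0,
      V.mul_mem (V.pow_mem (hiV hxi) n) hw0, ?_⟩
    · obtain ⟨j, rfl⟩ := Nat.exists_eq_succ_of_ne_zero hm
      have : (x⁻¹ ^ n * (1 + π * w0)) ^ (j + 1) * U
          = (x⁻¹ ^ n) ^ j * (x⁻¹ ^ n * ((1 + π * w0) ^ (j + 1) * U)) := by
        rw [mul_pow, pow_succ (x⁻¹ ^ n) j]; ring
      rw [this]
      exact Binf.mul_mem (Binf.pow_mem (Binf.pow_mem hxi n) j) hn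
    · simp only [SubmonoidClass.coe_pow]
      ring
  exact hz.isPrime.mem_of_pow_mem n hpow

end Const

section Wrapper

variable {O F : Type*} [CommRing O] [IsNoetherianRing O] [Field F] [Algebra O F]

/-- **Weight-one Kummer core, one-call form.**  See the header of this file. -/
theorem kummer_w1 (B0 Binf : Subalgebra O F) (V : Subring F)
    (h0V : B0.toSubring ≤ V) (hiV : Binf.toSubring ≤ V)
    (π : O) (hπV : (algebraMap O F π)⁻¹ ∉ V)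
    (hO : ∀ κ : O, IsUnit κ ∨ ∃ κ' : O, κ = π * κ')
    (x : F) (hx : x ≠ 0) (hx0 : x ∈ B0) (hxi : x⁻¹ ∈ Binf)
    (hov0 : ∀ b ∈ B0, ∃ n : ℕ, x⁻¹ ^ n * b ∈ Binf)
    (hovi : ∀ b ∈ Binf, ∃ n : ℕ, x ^ n * b ∈ B0)
    (m : ℕ) (hmO : IsUnit (m : O))
    (hN0 : ∀ y : F, y ^ m ∈ B0 → y ∈ B0) (hNi : ∀ y : F, y ^ m ∈ Binf → y ∈ Binf)
    (hS0 : ∀ y ∈ V, algebraMap O F π * y ∈ B0 → y ∈ B0)
    (hSi : ∀ y ∈ V, algebraMap O F π * y ∈ Binf → y ∈ Binf)
    (hJ : ∀ w ∈ V, (1 + algebraMap O F π * w)⁻¹ ∈ V)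
    (hfg : ∃ S : Finset F, (B0 : Set F) ⊆ Submodule.span (Algebra.adjoin O {x}) (S : Set F))
    (hH3 : ∀ b ∈ B0, ∀ b' ∈ Binf, (∃ w ∈ V, b - b' = algebraMap O F π * w) →
      ∃ κ : O, ∃ w ∈ V, b = algebraMap O F κ + algebraMap O F π * w)
    (U : F) (hUV : U ∈ V) (hUV' : U⁻¹ ∈ V) (hU0 : U ≠ 0)
    (hden : ∃ d ∈ B0, d ≠ 0 ∧ d * U⁻¹ ∈ B0)
    (hloc0 : ∀ z : Ideal B0.toSubring, z.IsMaximal →
      (⟨algebraMap O F π, B0.algebraMap_mem π⟩ : B0.toSubring) ∈ z →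
      ∃ (g : F) (s : B0.toSubring), s ∉ z ∧ g ∈ oneAdd V (algebraMap O F π) ∧
        (s : F) * (g ^ m * U) ∈ B0.toSubring)
    (hloci : ∀ z : Ideal Binf.toSubring, z.IsMaximal →
      (⟨algebraMap O F π, Binf.algebraMap_mem π⟩ : Binf.toSubring) ∈ z →
      (⟨x⁻¹, hxi⟩ : Binf.toSubring) ∈ z →
      ∃ (g : F) (s : Binf.toSubring), s ∉ z ∧ g ∈ oneAdd V (algebraMap O F π) ∧
        (s : F) * (g ^ m * U) ∈ Binf.toSubring) :
    ∃ c : F, c ≠ 0 ∧ c ^ m * U ∈ B0 ∧ c ^ m * U ∈ Binf := by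
  set πF : F := algebraMap O F π with hπF
  have hπ0 : πF ∈ B0.toSubring := B0.algebraMap_mem π
  have hπi : πF ∈ Binf.toSubring := Binf.algebraMap_mem π
  have hπVm : πF ∈ V := h0V hπ0
  have hπne : πF ≠ 0 := by
    intro h
    apply hπV
    rw [h, inv_zero]
    exact V.zero_mem
  -- the exponent
  obtain ⟨mu, hmu⟩ := hmO
  have hmF : (m : F) ≠ 0 := by
    have h1 : (m : F) = algebraMap O F (mu : O) := by rw [hmu, map_natCast]
    rw [h1]
    exact ((mu.isUnit).map (algebraMap O F)).ne_zero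
  have hm : m ≠ 0 := by rintro rfl; simp at hmF
  have hminv : ∀ B : Subalgebra O F, (m : F)⁻¹ ∈ B := by
    intro B
    have h1 : (m : F)⁻¹ = algebraMap O F ((mu⁻¹ : Oˣ) : O) := by
      have h2 : (m : F) * algebraMap O F ((mu⁻¹ : Oˣ) : O) = 1 := by
        have h3 : (m : F) = algebraMap O F (mu : O) := by rw [hmu, map_natCast]
        rw [h3, ← map_mul, Units.mul_inv, map_one]
      exact inv_eq_of_mul_eq_one_right h2
    rw [h1]
    exact B.algebraMap_mem _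
  -- Step 1: `U` is a constant modulo `π V`
  have hconst0 := const_of_local B0.toSubring V h0V πF hπ0 m U hUV hloc0
  obtain ⟨bi, hbi, wi, hwi, hUbi⟩ := const_at_infinity B0.toSubring Binf.toSubring V hiV πF hπi
    x hxi hov0 m U hUV hconst0 hloci
  obtain ⟨b0, hb0, w0, hw0, hUb0⟩ := hconst0
  obtain ⟨κ, w, hw, hκ⟩ := hH3 b0 hb0 bi hbi ⟨wi - w0, V.sub_mem hwi hw0, by
    linear_combination hUbi - hUb0⟩
  have hUκ : U = algebraMap O F κ + πF * (w + w0) := by rw [hUb0, hκ]; ring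
  -- Step 2: the constant is a unit of `O`
  have hκu : IsUnit κ := by
    rcases hO κ with h | ⟨κ', rfl⟩
    · exact h
    · exfalso
      apply hπV
      have h1 : U = πF * (algebraMap O F κ' + (w + w0)) := by rw [hUκ, map_mul]; ring
      have h2 : πF⁻¹ = U⁻¹ * (algebraMap O F κ' + (w + w0)) := by
        rw [h1] at hU0
        have hne : algebraMap O F κ' + (w + w0) ≠ 0 := right_ne_zero_of_mul hU0
        rw [h1, mul_inv]
        field_simp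
      rw [h2]
      exact V.mul_mem hUV' (V.add_mem (h0V (B0.algebraMap_mem κ')) (V.add_mem hw hw0))
  obtain ⟨κu, rfl⟩ := hκu
  set κF : F := algebraMap O F (κu : O) with hκF
  have hκne : κF ≠ 0 := ((κu.isUnit).map (algebraMap O F)).ne_zero
  have hκinv : κF⁻¹ = algebraMap O F ((κu⁻¹ : Oˣ) : O) := by
    have h2 : κF * algebraMap O F ((κu⁻¹ : Oˣ) : O) = 1 := by
      rw [hκF, ← map_mul, Units.mul_inv, map_one]
    exact inv_eq_of_mul_eq_one_right h2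
  have hκinv0 : κF⁻¹ ∈ B0 := by rw [hκinv]; exact B0.algebraMap_mem _
  have hκinvi : κF⁻¹ ∈ Binf := by rw [hκinv]; exact Binf.algebraMap_mem _
  have hκ0 : κF ∈ B0 := B0.algebraMap_mem _
  have hκi : κF ∈ Binf := Binf.algebraMap_mem _
  -- Step 3: rescale
  set U' : F := κF⁻¹ * U with hU'
  have hU'1 : U' ∈ oneAdd V πF := by
    refine ⟨κF⁻¹ * (w + w0), V.mul_mem (h0V hκinv0) (V.add_mem hw hw0), ?_⟩
    rw [hU', hUκ]
    field_simp
  have hU'ne : U' ≠ 0 := mul_ne_zero (inv_ne_zero hκne) hU0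
  have hloc0' : ∀ z : Ideal B0.toSubring, z.IsMaximal → (⟨πF, hπ0⟩ : B0.toSubring) ∈ z →
      ∃ (g : F) (s : B0.toSubring), s ∉ z ∧ g ∈ oneAdd V πF ∧
        (s : F) * (g ^ m * U') ∈ B0.toSubring := by
    intro z hz hπz
    obtain ⟨g, s, hs, hg, hsg⟩ := hloc0 z hz hπz
    refine ⟨g, s, hs, hg, ?_⟩
    have : (s : F) * (g ^ m * U') = κF⁻¹ * ((s : F) * (g ^ m * U)) := by rw [hU']; ring
    rw [this]
    exact B0.toSubring.mul_mem hκinv0 hsg
  have hloci' : ∀ z : Ideal Binf.toSubring, z.IsMaximal → (⟨πF, hπi⟩ : Binf.toSubring) ∈ z →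
      (⟨x⁻¹, hxi⟩ : Binf.toSubring) ∈ z →
      ∃ (g : F) (s : Binf.toSubring), s ∉ z ∧ g ∈ oneAdd V πF ∧
        (s : F) * (g ^ m * U') ∈ Binf.toSubring := by
    intro z hz hπz hxz
    obtain ⟨g, s, hs, hg, hsg⟩ := hloci z hz hπz hxz
    refine ⟨g, s, hs, hg, ?_⟩
    have : (s : F) * (g ^ m * U') = κF⁻¹ * ((s : F) * (g ^ m * U)) := by rw [hU']; ring
    rw [this]
    exact Binf.toSubring.mul_mem hκinvi hsg
  -- Step 4: glue
  have hG0 := glue_of_local B0.toSubring V h0V πF hπ0 m hm hN0 U' hloc0'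
  have hGi := glue_at_infinity B0.toSubring Binf.toSubring V hiV πF hπi x hxi hov0 m hm hNi U'
    hG0 hloci'
  -- Step 5: the overlap chart
  have hxiV : x⁻¹ ∈ V := hiV hxi
  have hxV : x ∈ V := h0V hx0
  have hiR : Binf.toSubring ≤ overlap B0.toSubring x hx0 := fun y hy => hovi y hy
  -- Step 6: the `H¹` bound
  have hden' : ∃ d ∈ B0, d ≠ 0 ∧ d * U'⁻¹ ∈ B0 := by
    obtain ⟨d, hd, hd0, hdU⟩ := hden
    refine ⟨d, hd, hd0, ?_⟩
    have : d * U'⁻¹ = κF * (d * U⁻¹) := by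
      rw [hU', mul_inv, inv_inv]; ring
    rw [this]
    exact B0.mul_mem hκ0 hdU
  obtain ⟨c0, hc0⟩ := helper8935.h1_bound π x U' hx hU'ne m hm B0 Binf hx0 hxi hN0 hNi hov0 hfg
    hden'
  have hH1 : ∃ c0 : ℕ, ∀ r : F, r ^ m * U' ∈ overlap B0.toSubring x hx0 →
      (∃ α β : F, α ^ m * U' ∈ B0.toSubring ∧ β ^ m * U' ∈ Binf.toSubring ∧
        πF ^ (c0 + 1) * r = α - β) →
      ∃ α β : F, α ^ m * U' ∈ B0.toSubring ∧ β ^ m * U' ∈ Binf.toSubring ∧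
        πF ^ c0 * r = α - β := by
    refine ⟨c0, fun r hr ⟨α, β, hα, hβ, hαβ⟩ => ?_⟩
    obtain ⟨n, hn⟩ := hr
    obtain ⟨y, z, hy, hz, hyz⟩ := hc0 r ⟨n, by rw [mul_comm U']; exact hn⟩
      ⟨α, -β, by rw [mul_comm]; exact hα, by rw [mul_comm]; exact wOne_neg Binf.toSubring m U' hβ,
        by rw [hαβ]; ring⟩
    refine ⟨y, -z, by rw [mul_comm]; exact hy, ?_, by rw [hyz]; ring⟩
    have hz' : z ^ m * U' ∈ Binf.toSubring := by rw [mul_comm]; exact hz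
    exact wOne_neg Binf.toSubring m U' hz'
  -- Step 7: the core
  obtain ⟨c, hc, hc0', hci'⟩ := kummer_core_exists B0.toSubring Binf.toSubring
    (overlap B0.toSubring x hx0) V (le_overlap _ x hx0) hiR
    (overlap_le _ V x hx0 h0V hx hxiV) πF hπ0 hπi hπV m hmF (hminv B0) (hminv Binf)
    hN0 hNi (overlap_root _ x hx0 m hm hN0) hS0 hSi (overlap_sat _ V x hx0 hxV πF hS0) hJ
    U' hU'1 hG0 hGi hH1
  refine ⟨c, hc, ?_, ?_⟩
  · have : c ^ m * U = κF * (c ^ m * U') := by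
      rw [hU']; field_simp
    rw [this]
    exact B0.mul_mem hκ0 hc0'
  · have : c ^ m * U = κF * (c ^ m * U') := by
      rw [hU']; field_simp
    rw [this]
    exact Binf.mul_mem hκi hci'

/-- **Weight-one Kummer core with constants**: if moreover the global functions `B0 ∩ Binf`
are constants, then `U` is a constant times an `m`-th power. -/
theorem kummer_w1_const (B0 Binf : Subalgebra O F) (V : Subring F)
    (h0V : B0.toSubring ≤ V) (hiV : Binf.toSubring ≤ V)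
    (π : O) (hπV : (algebraMap O F π)⁻¹ ∉ V)
    (hO : ∀ κ : O, IsUnit κ ∨ ∃ κ' : O, κ = π * κ')
    (x : F) (hx : x ≠ 0) (hx0 : x ∈ B0) (hxi : x⁻¹ ∈ Binf)
    (hov0 : ∀ b ∈ B0, ∃ n : ℕ, x⁻¹ ^ n * b ∈ Binf)
    (hovi : ∀ b ∈ Binf, ∃ n : ℕ, x ^ n * b ∈ B0)
    (m : ℕ) (hmO : IsUnit (m : O))
    (hN0 : ∀ y : F, y ^ m ∈ B0 → y ∈ B0) (hNi : ∀ y : F, y ^ m ∈ Binf → y ∈ Binf)
    (hS0 : ∀ y ∈ V, algebraMap O F π * y ∈ B0 → y ∈ B0)
    (hSi : ∀ y ∈ V, algebraMap O F π * y ∈ Binf → y ∈ Binf)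
    (hJ : ∀ w ∈ V, (1 + algebraMap O F π * w)⁻¹ ∈ V)
    (hfg : ∃ S : Finset F, (B0 : Set F) ⊆ Submodule.span (Algebra.adjoin O {x}) (S : Set F))
    (hH3 : ∀ b ∈ B0, ∀ b' ∈ Binf, (∃ w ∈ V, b - b' = algebraMap O F π * w) →
      ∃ κ : O, ∃ w ∈ V, b = algebraMap O F κ + algebraMap O F π * w)
    (hconst : ∀ y : F, y ∈ B0 → y ∈ Binf → ∃ κ : O, y = algebraMap O F κ)
    (U : F) (hUV : U ∈ V) (hUV' : U⁻¹ ∈ V) (hU0 : U ≠ 0)
    (hden : ∃ d ∈ B0, d ≠ 0 ∧ d * U⁻¹ ∈ B0)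
    (hloc0 : ∀ z : Ideal B0.toSubring, z.IsMaximal →
      (⟨algebraMap O F π, B0.algebraMap_mem π⟩ : B0.toSubring) ∈ z →
      ∃ (g : F) (s : B0.toSubring), s ∉ z ∧ g ∈ oneAdd V (algebraMap O F π) ∧
        (s : F) * (g ^ m * U) ∈ B0.toSubring)
    (hloci : ∀ z : Ideal Binf.toSubring, z.IsMaximal →
      (⟨algebraMap O F π, Binf.algebraMap_mem π⟩ : Binf.toSubring) ∈ z →
      (⟨x⁻¹, hxi⟩ : Binf.toSubring) ∈ z →
      ∃ (g : F) (s : Binf.toSubring), s ∉ z ∧ g ∈ oneAdd V (algebraMap O F π) ∧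
        (s : F) * (g ^ m * U) ∈ Binf.toSubring) :
    ∃ (κ : O) (f : F), U = algebraMap O F κ * f ^ m := by
  obtain ⟨c, hc, h0, hi⟩ := kummer_w1 B0 Binf V h0V hiV π hπV hO x hx hx0 hxi hov0 hovi m hmO
    hN0 hNi hS0 hSi hJ hfg hH3 U hUV hUV' hU0 hden hloc0 hloci
  obtain ⟨κ, hκ⟩ := hconst _ h0 hi
  refine ⟨κ, c⁻¹, ?_⟩
  rw [← hκ, inv_pow]
  field_simp

end Wrapper

end Fermat.Agent.S37.helper7942
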