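import Mathlib
import Fermat.Agent.S37.helper7942_KummerWrap
import Fermat.Agent.S37.helper4314_ChartFinite
import Fermat.Agent.S37.helper4314_ClearDen

/-!
# S37 / S18 : KUMMER-TRIV on the two integral-closure charts (helper1812)

Instantiation of the landed weight-one wrapper `helper7942.kummer_w1_const` at the two charts
`B₀ = helper4314.chart O x` (integral closure of `O[x]` in `F`) and
`B_∞ = helper4314.chart O x⁻¹` (integral closure of `O[x⁻¹]`), with every structural hypothesis
discharged:

* root-closedness, `B ⊆ V`, both overlaps, the denominator of `U⁻¹`;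
* (CONST) `B₀ ∩ B_∞ ⊆ O`: an element integral over `O[x]` and over `O[x⁻¹]` is integral
  over `O` (`ktIsIntegralOfTwoCharts`, by the valuative criterion
  `iInf_valuationSubring_superset`).

What is left to the modular instance is exactly: finiteness of `B₀` over `O[x]`
(`helper4314.chart_fg`), (H2) saturation, (H3) constants modulo `π`, and (LOC).

`ktLocOfFrac` converts the output shape of the (LOC) producers (`helper1812.exists_loc`)
into the (LOC) shape consumed here.
-/

set_option autoImplicit false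

namespace Fermat.Agent.S37.helper1812

open Fermat.Agent.S37

/-! ## Valuation subring facts -/

section ValSub

variable {F : Type*} [Field F]

theorem ktMulMemNonunits (V : ValuationSubring F) {a y : F} (ha : a ∈ V)
    (hy : y ∈ V.nonunits) : a * y ∈ V.nonunits := by
  rw [V.mem_nonunits_iff] at hy ⊢
  rw [map_mul]
  have h1 : V.valuation a ≤ 1 := (V.valuation_le_one_iff a).mpr ha
  calc V.valuation a * V.valuation y ≤ 1 * V.valuation y := mul_le_mul_left h1 _
    _ = V.valuation y := one_mul _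
    _ < 1 := hy

theorem ktOneAddInvMem (V : ValuationSubring F) {y : F} (hy : y ∈ V.nonunits) :
    (1 + y)⁻¹ ∈ V := by
  have h2 : V.valuation (1 + y) = 1 :=
    V.valuation.map_one_add_of_lt (V.mem_nonunits_iff.mp hy)
  apply (V.valuation_le_one_iff _).mp
  rw [map_inv₀, h2, inv_one]

/-- An element integral over a ring whose image lies in a valuation subring lies in it. -/
theorem ktMemOfIsIntegral (V : ValuationSubring F) {R : Type*} [CommRing R] [Algebra R F]
    (hR : ∀ r : R, algebraMap R F r ∈ V) {b : F} (hb : IsIntegral R b) : b ∈ V := by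
  obtain ⟨q, hq, hqb⟩ := hb
  let φ : R →+* V := (algebraMap R F).codRestrict V.toSubring hR
  have hint : IsIntegral V b := by
    refine ⟨q.map φ, hq.map φ, ?_⟩
    rw [Polynomial.eval₂_map]
    exact hqb
  obtain ⟨y, hy⟩ := IsIntegrallyClosed.isIntegral_iff.mp hint
  rw [← hy]
  exact y.2

end ValSub

/-! ## Properness of the two-chart cover -/

section Proper

variable {O F : Type*} [CommRing O] [Field F] [Algebra O F]

/-- Integrality over the range of `algebraMap O F` is integrality over `O`. -/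
theorem ktIsIntegralOfRange {b : F} (hb : IsIntegral (algebraMap O F).range b) :
    IsIntegral O b := by
  obtain ⟨q, hq, hqb⟩ := hb
  have hsurj : Function.Surjective (algebraMap O F).rangeRestrict :=
    (algebraMap O F).rangeRestrict_surjective
  have hlift : q ∈ Polynomial.lifts (algebraMap O F).rangeRestrict := by
    rw [Polynomial.lifts_iff_coeff_lifts]
    intro n
    exact hsurj _
  obtain ⟨q', hq'map, -, hq'monic⟩ := Polynomial.lifts_and_natDegree_eq_and_monic hlift hq
  refine ⟨q', hq'monic, ?_⟩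
  rw [← hq'map, Polynomial.eval₂_map] at hqb
  exact hqb

/-- `O[x] ⊆ V` as soon as `O ⊆ V` and `x ∈ V`. -/
theorem ktAdjoinMem (V : ValuationSubring F) (hOV : ∀ c : O, algebraMap O F c ∈ V) {x : F}
    (hx : x ∈ V) (r : Algebra.adjoin O {x}) : algebraMap (Algebra.adjoin O {x}) F r ∈ V := by
  let V' : Subalgebra O F := { V.toSubring.toSubsemiring with algebraMap_mem' := hOV }
  have hle : Algebra.adjoin O {x} ≤ V' :=
    Algebra.adjoin_le (Set.singleton_subset_iff.mpr (show x ∈ V' from hx))
  exact hle r.2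

/-- **Properness of the two-chart cover** (valuative criterion): an element integral over both
`O[x]` and `O[x⁻¹]` is integral over `O`. -/
theorem ktIsIntegralOfTwoCharts (x : F) {b : F}
    (hb0 : IsIntegral (Algebra.adjoin O {x}) b) (hb1 : IsIntegral (Algebra.adjoin O {x⁻¹}) b) :
    IsIntegral O b := by
  apply ktIsIntegralOfRange
  have hmem : b ∈ (⨅ V : {V : ValuationSubring F // Set.range (algebraMap O F) ⊆ V.toSubring},
      V.1.toSubring) := by
    rw [Subring.mem_iInf]
    rintro ⟨V, hV⟩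
    have hOV : ∀ c : O, algebraMap O F c ∈ V := fun c => hV ⟨c, rfl⟩
    rcases V.mem_or_inv_mem x with hx | hx
    · exact ktMemOfIsIntegral V (ktAdjoinMem V hOV hx) hb0
    · exact ktMemOfIsIntegral V (ktAdjoinMem V hOV hx) hb1
  rw [iInf_valuationSubring_superset] at hmem
  have h2 : IsIntegral (Subring.closure (Set.range (algebraMap O F))) b := hmem
  have h3 : Subring.closure (Set.range (algebraMap O F)) = (algebraMap O F).range := by
    rw [← RingHom.coe_range, Subring.closure_eq]
  rw [h3] at h2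
  exact h2

end Proper

/-! ## The two-chart theorem -/

section Main

variable {O F : Type*} [CommRing O] [IsNoetherianRing O] [Field F] [Algebra O F]

/-- **KUMMER-TRIV for the two integral-closure charts** (instance of
`helper7942.kummer_w1_const`).

`B₀ = helper4314.chart O x`, `B_∞ = helper4314.chart O x⁻¹` (integral closures of `O[x]`, `O[x⁻¹]` in `F`);
`V` a valuation subring of `F` containing `O`, `x`, `x⁻¹`, in which `π` is a nonzero non-unit;
`O` integrally closed in `F` (`hOcl`), every element of `O` a unit or a multiple of `π` (`hO`).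

* (FIN) `hfg` : `B₀` is a finitely generated `O[x]`-module (`helper4314.chart_fg`);
* (H2) `hS0`, `hSi` : `B ∩ π V = π B` on both charts;
* (H3) `hH3` : `b ∈ B₀`, `b' ∈ B_∞`, `b - b' ∈ π V` imply `b ∈ O + π V`;
* (LOC) `hloc0` at every maximal ideal `z ∋ π` of `B₀`, `hloci` at every maximal ideal
  `z ∋ π, x⁻¹` of `B_∞` (the cusp points): `s * (g ^ m * U) ∈ B` with `s ∉ z`, `g ∈ 1 + π V`.

Then `U = κ * f ^ m` with `κ ∈ O`, for every `m` invertible in `O`. -/
theorem kummer_trivial_charts
    (π : O) (hO : ∀ κ : O, IsUnit κ ∨ ∃ κ' : O, κ = π * κ')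
    (V : ValuationSubring F) (hπ0 : algebraMap O F π ≠ 0) (hπV : algebraMap O F π ∈ V.nonunits)
    (hOV : ∀ c : O, algebraMap O F c ∈ V)
    (hOcl : ∀ f : F, IsIntegral O f → f ∈ (algebraMap O F).range)
    (x : F) (hx : x ≠ 0) (hxV : x ∈ V) (hxV' : x⁻¹ ∈ V)
    (m : ℕ) (hm : IsUnit (m : O))
    (hfg : (integralClosure (Algebra.adjoin O {x}) F).toSubmodule.FG)
    (hS0 : ∀ y ∈ V, algebraMap O F π * y ∈ helper4314.chart O x → y ∈ helper4314.chart O x)
    (hSi : ∀ y ∈ V, algebraMap O F π * y ∈ helper4314.chart O x⁻¹ → y ∈ helper4314.chart O x⁻¹)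
    (hH3 : ∀ b ∈ helper4314.chart O x, ∀ b' ∈ helper4314.chart O x⁻¹, (∃ w ∈ V, b - b' = algebraMap O F π * w) →
      ∃ κ : O, ∃ w ∈ V, b = algebraMap O F κ + algebraMap O F π * w)
    (U : F) (hUV : U ∈ V) (hUV' : U⁻¹ ∈ V) (hU0 : U ≠ 0)
    (hUalg : IsAlgebraic (Algebra.adjoin O {x}) U)
    (hloc0 : ∀ z : Ideal (helper4314.chart O x), z.IsMaximal → algebraMap O (helper4314.chart O x) π ∈ z →
      ∃ (g : F) (s : helper4314.chart O x), s ∉ z ∧ g ∈ helper7942.oneAdd V.toSubring (algebraMap O F π) ∧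
        (s : F) * (g ^ m * U) ∈ helper4314.chart O x)
    (hloci : ∀ z : Ideal (helper4314.chart O x⁻¹), z.IsMaximal → algebraMap O (helper4314.chart O x⁻¹) π ∈ z →
      (⟨x⁻¹, helper4314.self_mem_chart O x⁻¹⟩ : helper4314.chart O x⁻¹) ∈ z →
      ∃ (g : F) (s : helper4314.chart O x⁻¹), s ∉ z ∧
        g ∈ helper7942.oneAdd V.toSubring (algebraMap O F π) ∧
        (s : F) * (g ^ m * U) ∈ helper4314.chart O x⁻¹) :
    ∃ (κ : O) (f : F), U = algebraMap O F κ * f ^ m := by
  classical
  have hm0 : m ≠ 0 := by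
    rintro rfl
    rw [Nat.cast_zero] at hm
    have hu : IsUnit (1 : O) := isUnit_one
    have h10 : (1 : O) = 0 := by
      obtain ⟨u, hu0⟩ := hm
      have := u.mul_inv
      rw [hu0, zero_mul] at this
      exact this.symm
    -- then `O` is trivial, so `algebraMap O F π = 0`
    apply hπ0
    have : π = 0 := by rw [← mul_one π, h10, mul_zero]
    rw [this, map_zero]
  have hpinv : (algebraMap O F π)⁻¹ ∉ V.toSubring := by
    rcases V.mem_nonunits_iff_or.mp hπV with h | h
    · exact absurd h hπ0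
    · exact h
  have h0V : (helper4314.chart O x).toSubring ≤ V.toSubring := fun b hb =>
    ktMemOfIsIntegral V (ktAdjoinMem V hOV hxV) (helper4314.mem_chart O |>.mp hb)
  have hiV : (helper4314.chart O x⁻¹).toSubring ≤ V.toSubring := fun b hb =>
    ktMemOfIsIntegral V (ktAdjoinMem V hOV hxV') (helper4314.mem_chart O |>.mp hb)
  have hJ : ∀ w ∈ V.toSubring, (1 + algebraMap O F π * w)⁻¹ ∈ V.toSubring := fun w hw => by
    apply ktOneAddInvMem V
    rw [mul_comm]
    exact ktMulMemNonunits V hw hπV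
  -- the ring isomorphisms between the subalgebra and subring incarnations of the charts
  let e0 : (helper4314.chart O x).toSubring ≃+* helper4314.chart O x :=
    { toFun := fun a => ⟨a.1, a.2⟩
      invFun := fun a => ⟨a.1, a.2⟩
      left_inv := fun _ => rfl
      right_inv := fun _ => rfl
      map_mul' := fun _ _ => rfl
      map_add' := fun _ _ => rfl }
  let ei : (helper4314.chart O x⁻¹).toSubring ≃+* helper4314.chart O x⁻¹ :=
    { toFun := fun a => ⟨a.1, a.2⟩
      invFun := fun a => ⟨a.1, a.2⟩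
      left_inv := fun _ => rfl
      right_inv := fun _ => rfl
      map_mul' := fun _ _ => rfl
      map_add' := fun _ _ => rfl }
  refine helper7942.kummer_w1_const (helper4314.chart O x) (helper4314.chart O x⁻¹) V.toSubring h0V hiV π hpinv hO x hx
    (helper4314.self_mem_chart O x) (helper4314.self_mem_chart O x⁻¹) ?_ ?_ m hm
    (fun y hy => helper4314.chart_root_closed O hm0 hy)
    (fun y hy => helper4314.chart_root_closed O hm0 hy) hS0 hSi hJ ?_ hH3 ?_ U hUV hUV' hU0 ?_
    ?_ ?_
  · -- overlap `B₀ ⊆ B_∞[x]`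
    intro b hb
    obtain ⟨n, hn⟩ := helper4314.isIntegral_clear_denominators (O := O) x⁻¹ x
      (inv_mul_cancel₀ hx) b hb
    exact ⟨n, hn⟩
  · -- overlap `B_∞ ⊆ B₀[x⁻¹]`
    intro b hb
    obtain ⟨n, hn⟩ := helper4314.isIntegral_clear_denominators (O := O) x x⁻¹
      (mul_inv_cancel₀ hx) b hb
    exact ⟨n, hn⟩
  · -- finiteness
    obtain ⟨S, hS⟩ := hfg
    refine ⟨S, fun b hb => ?_⟩
    rw [hS]
    exact hb
  · -- constants
    intro y hy0 hyi
    obtain ⟨c, hc⟩ := hOcl y (ktIsIntegralOfTwoCharts x hy0 hyi)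
    exact ⟨c, hc.symm⟩
  · -- denominator of `U⁻¹`
    obtain ⟨y, hy0, hy⟩ := (IsAlgebraic.inv_iff.mpr hUalg).exists_integral_multiple
    refine ⟨(y : F), isIntegral_algebraMap (x := y), ?_, hy⟩
    intro h0
    exact hy0 (Subtype.ext h0)
  · -- (LOC) on the finite chart
    intro z hz hπz
    have hz' : (z.comap e0.symm.toRingHom).IsMaximal :=
      Ideal.comap_isMaximal_of_surjective _ e0.symm.surjective
    obtain ⟨g, s, hs, hg, hsU⟩ := hloc0 (z.comap e0.symm.toRingHom) hz' hπz
    exact ⟨g, e0.symm s, hs, hg, hsU⟩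
  · -- (LOC) at the cusp points of the chart at infinity
    intro z hz hπz hxz
    have hz' : (z.comap ei.symm.toRingHom).IsMaximal :=
      Ideal.comap_isMaximal_of_surjective _ ei.symm.surjective
    obtain ⟨g, s, hs, hg, hsU⟩ := hloci (z.comap ei.symm.toRingHom) hz' hπz hxz
    exact ⟨g, ei.symm s, hs, hg, hsU⟩

end Main

/-! ## Adapter for the (LOC) producers -/

section Adapter

variable {F B : Type*} [Field F] [CommRing B] [Algebra B F]

/-- From `g * b = a`, `b ∉ (π)`, `a - b ∈ (π)` to `g ≡ 1` modulo the maximal ideal of the Gauss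
ring.  Only the saturation (H2) of the chart and `𝔪_V = π V` are needed. -/
theorem ktCongrOneOfFrac (hinj : Function.Injective (algebraMap B F)) (V : ValuationSubring F)
    (hBV : ∀ b : B, algebraMap B F b ∈ V) (π : B) (hπV : algebraMap B F π ∈ V.nonunits)
    (hVmax : ∀ y ∈ V.nonunits, ∃ w ∈ V, y = algebraMap B F π * w)
    (hsat : ∀ y ∈ V, algebraMap B F π * y ∈ (algebraMap B F).range →
      y ∈ (algebraMap B F).range)
    {g : F} {a b : B} (hb : b ∉ Ideal.span {π}) (hab : a - b ∈ Ideal.span {π})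
    (hg : g * algebraMap B F b = algebraMap B F a) : g - 1 ∈ V.nonunits := by
  -- `b` is a unit of `V`
  have hbnon : algebraMap B F b ∉ V.nonunits := by
    intro h
    obtain ⟨w, hw, hbw⟩ := hVmax _ h
    obtain ⟨b₂, hb₂⟩ := hsat w hw (by rw [← hbw]; exact ⟨b, rfl⟩)
    apply hb
    rw [Ideal.mem_span_singleton']
    refine ⟨b₂, hinj ?_⟩
    rw [map_mul, hb₂, hbw, mul_comm]
  have hbval : V.valuation (algebraMap B F b) = 1 := by
    rcases lt_or_eq_of_le ((V.valuation_le_one_iff _).mpr (hBV b)) with h | h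
    · exact absurd (V.mem_nonunits_iff.mpr h) hbnon
    · exact h
  have hb0 : algebraMap B F b ≠ 0 := by
    intro h0
    rw [h0, map_zero] at hbval
    exact zero_ne_one hbval
  -- `a - b ∈ π V`
  obtain ⟨c, hc⟩ := Ideal.mem_span_singleton'.mp hab
  have hsub : algebraMap B F a - algebraMap B F b ∈ V.nonunits := by
    rw [← map_sub, ← hc, map_mul]
    exact ktMulMemNonunits V (hBV c) hπV
  have hg1 : g - 1 = (algebraMap B F a - algebraMap B F b) * (algebraMap B F b)⁻¹ := by
    rw [← hg]
    field_simp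
  rw [V.mem_nonunits_iff, hg1, map_mul, map_inv₀, hbval, inv_one, mul_one]
  exact V.mem_nonunits_iff.mp hsub

/-- **(LOC) adapter**: the output of the (LOC) producers (`helper1812.exists_loc`:
`U * u₂ = u₁ * g ^ m`, `u₂ ∉ z`, `g * b = a` with `b ∉ (π)`, `a - b ∈ (π)`) gives the integral
form of (LOC) consumed by `kummer_trivial_charts` / `helper7942.kummer_w1`. -/
theorem ktLocOfFrac (hinj : Function.Injective (algebraMap B F)) (V : ValuationSubring F)
    (hBV : ∀ b : B, algebraMap B F b ∈ V) (π : B) (hπV : algebraMap B F π ∈ V.nonunits)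
    (hVmax : ∀ y ∈ V.nonunits, ∃ w ∈ V, y = algebraMap B F π * w)
    (hsat : ∀ y ∈ V, algebraMap B F π * y ∈ (algebraMap B F).range →
      y ∈ (algebraMap B F).range)
    (z : Ideal B) (m : ℕ) (U : F)
    (h : ∃ (g : F) (u₁ u₂ : B), u₁ ∉ z ∧ u₂ ∉ z ∧
      U * algebraMap B F u₂ = algebraMap B F u₁ * g ^ m ∧
      ∃ a b : B, b ∉ Ideal.span {π} ∧ a - b ∈ Ideal.span {π} ∧
        g * algebraMap B F b = algebraMap B F a) :
    ∃ (g' : F) (s : B), s ∉ z ∧ g' ∈ helper7942.oneAdd V.toSubring (algebraMap B F π) ∧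
      algebraMap B F s * (g' ^ m * U) ∈ (algebraMap B F).range := by
  obtain ⟨g, u₁, u₂, -, hu₂, hU, a, b, hb, hab, hg⟩ := h
  -- `a ∉ (π)` as well
  have ha : a ∉ Ideal.span {π} := by
    intro ha
    apply hb
    have : b = a - (a - b) := by ring
    rw [this]
    exact Ideal.sub_mem _ ha hab
  have hba : b - a ∈ Ideal.span {π} := by
    have : b - a = -(a - b) := by ring
    rw [this]
    exact neg_mem hab
  -- `g ≠ 0`
  have hg1 := ktCongrOneOfFrac hinj V hBV π hπV hVmax hsat hb hab hg
  have hg0 : g ≠ 0 := by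
    intro h0
    have h1 : (1 : F) ∈ V.nonunits := by
      have : (1 : F) = -(g - 1) := by rw [h0]; ring
      rw [this]
      exact V.nonunits.neg_mem hg1
    rw [V.mem_nonunits_iff, map_one] at h1
    exact lt_irrefl _ h1
  have hb0 : algebraMap B F b ≠ 0 := by
    intro h0
    apply hb
    have : b = 0 := hinj (by rw [h0, map_zero])
    rw [this]
    exact Ideal.zero_mem _
  have ha0 : algebraMap B F a ≠ 0 := by
    rw [← hg]
    exact mul_ne_zero hg0 hb0
  have hginv : g⁻¹ * algebraMap B F a = algebraMap B F b := by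
    rw [← hg]
    field_simp
  have hg2 := ktCongrOneOfFrac hinj V hBV π hπV hVmax hsat ha hba hginv
  obtain ⟨w, hw, hgw⟩ := hVmax _ hg2
  refine ⟨g⁻¹, u₂, hu₂, ⟨w, hw, by rw [← hgw]; ring⟩, u₁, ?_⟩
  have hgm : g ^ m ≠ 0 := pow_ne_zero m hg0
  calc algebraMap B F u₁ = algebraMap B F u₁ * g ^ m * (g ^ m)⁻¹ := by field_simp
    _ = U * algebraMap B F u₂ * (g ^ m)⁻¹ := by rw [hU]
    _ = algebraMap B F u₂ * (g⁻¹ ^ m * U) := by rw [inv_pow]; ring

end Adapter

end Fermat.Agent.S37.helper1812
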