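import Mathlib

/-!
# S37-LOCUNIT: local conservation of number at a regular closed point

Abstract commutative algebra (Mathlib only).  `B` is a noetherian integrally closed domain with
fraction field `F`, `z` a maximal ideal, `π ∈ z` a prime element and `t ∈ z` with
`z B_z = (π, t) B_z` (elementwise: `LocGen z π t`).  This is what two-dimensional purity gives
at a closed point of the special fibre of a normal model of a curve over a DVR.

Everything is stated elementwise in `B` and `F` (no localisation types):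

* `IntegralAt 𝔮 u`, `UnitAt 𝔮 u` : `u ∈ B_𝔮`, `u ∈ B_𝔮ˣ` for `u : F`;
* `GeneratesAt 𝔮 ϖ`, `PrincipalAt 𝔮` : `𝔮 B_𝔮 = ϖ B_𝔮`;
* `integralAt_of_forall_principalAt` (A1): the Krull property `B_z = ⋂ B_𝔮` over the primes
  `𝔮 ≤ z` with `𝔮 B_𝔮` principal;
* `exists_forall_mul_mem_span_of_section` (A2): a prime `𝔭 ≤ z` (the kernel of a section) with
  `π ∉ 𝔭` containing `s` with `(π, s) = z` at `z` is generated by `s` at `z`;
* `exists_unit_congr` (A3): such an `s` is `unit * t` modulo `π`;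
* `exists_loc_of_unitAt`, `exists_loc` (A4): the producer of hypothesis (LOC) of the
  torsion-injectivity core.
-/

set_option autoImplicit false
set_option linter.unusedSectionVars false

namespace Fermat.Agent.S37.helper1812

open Ideal

section Defs

variable {B : Type*} [CommRing B] {F : Type*} [Field F] [Algebra B F]

/-- Elementwise form of `𝔮 B_𝔮 = ϖ B_𝔮`. -/
def GeneratesAt (𝔮 : Ideal B) (ϖ : B) : Prop :=
  ϖ ∈ 𝔮 ∧ ∀ a ∈ 𝔮, ∃ σ, σ ∉ 𝔮 ∧ ∃ b, σ * a = b * ϖ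

/-- Elementwise form of "`𝔮 B_𝔮` is principal". -/
def PrincipalAt (𝔮 : Ideal B) : Prop := ∃ ϖ, GeneratesAt 𝔮 ϖ

/-- Elementwise form of `u ∈ B_𝔮` for `u` in the fraction field. -/
def IntegralAt (𝔮 : Ideal B) (u : F) : Prop :=
  ∃ σ, σ ∉ 𝔮 ∧ ∃ r : B, u * algebraMap B F σ = algebraMap B F r

/-- Elementwise form of `u ∈ B_𝔮ˣ` for `u` in the fraction field. -/
def UnitAt (𝔮 : Ideal B) (u : F) : Prop :=
  ∃ σ, σ ∉ 𝔮 ∧ ∃ r : B, r ∉ 𝔮 ∧ u * algebraMap B F σ = algebraMap B F r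

/-- Elementwise form of `z B_z = (π, t) B_z`. -/
def LocGen (z : Ideal B) (π t : B) : Prop :=
  ∀ a ∈ z, ∃ σ, σ ∉ z ∧ σ * a ∈ Ideal.span {π, t}

end Defs

section Basic

variable {B : Type*} [CommRing B] [IsDomain B] {F : Type*} [Field F] [Algebra B F]
  [IsFractionRing B F]

omit [IsDomain B] [IsFractionRing B F] in
theorem UnitAt.integralAt {𝔮 : Ideal B} {u : F} (h : UnitAt 𝔮 u) : IntegralAt 𝔮 u := by
  obtain ⟨σ, hσ, r, -, h⟩ := h
  exact ⟨σ, hσ, r, h⟩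

theorem algebraMap_ne_zero_of_not_mem {𝔮 : Ideal B} {σ : B} (hσ : σ ∉ 𝔮) :
    algebraMap B F σ ≠ 0 := by
  intro h
  have : σ = 0 := (IsFractionRing.injective B F) (by rw [h, map_zero])
  exact hσ (this ▸ 𝔮.zero_mem)

theorem UnitAt.ne_zero {𝔮 : Ideal B} {u : F} (h : UnitAt 𝔮 u) : u ≠ 0 := by
  obtain ⟨σ, hσ, r, hr, h⟩ := h
  rintro rfl
  rw [zero_mul] at h
  exact algebraMap_ne_zero_of_not_mem (F := F) hr h.symm

theorem UnitAt.inv {𝔮 : Ideal B} {u : F} (h : UnitAt 𝔮 u) : UnitAt 𝔮 u⁻¹ := by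
  have hu := h.ne_zero
  obtain ⟨σ, hσ, r, hr, h⟩ := h
  refine ⟨r, hr, σ, hσ, ?_⟩
  rw [← h]
  field_simp

theorem UnitAt.mul {𝔮 : Ideal B} [𝔮.IsPrime] {u v : F} (hu : UnitAt 𝔮 u) (hv : UnitAt 𝔮 v) :
    UnitAt 𝔮 (u * v) := by
  obtain ⟨σ, hσ, r, hr, h⟩ := hu
  obtain ⟨σ', hσ', r', hr', h'⟩ := hv
  refine ⟨σ * σ', fun hm => (Ideal.IsPrime.mem_or_mem ‹_› hm).elim hσ hσ', r * r',
    fun hm => (Ideal.IsPrime.mem_or_mem ‹_› hm).elim hr hr', ?_⟩
  rw [map_mul, map_mul, ← h, ← h']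
  ring

theorem UnitAt.div {𝔮 : Ideal B} [𝔮.IsPrime] {u v : F} (hu : UnitAt 𝔮 u) (hv : UnitAt 𝔮 v) :
    UnitAt 𝔮 (u / v) := by
  rw [div_eq_mul_inv]
  exact hu.mul hv.inv

theorem UnitAt.pow {𝔮 : Ideal B} [𝔮.IsPrime] {u : F} (hu : UnitAt 𝔮 u) (n : ℕ) :
    UnitAt 𝔮 (u ^ n) := by
  obtain ⟨σ, hσ, r, hr, h⟩ := hu
  refine ⟨σ ^ n, fun hm => hσ (Ideal.IsPrime.mem_of_pow_mem ‹_› n hm), r ^ n,
    fun hm => hr (Ideal.IsPrime.mem_of_pow_mem ‹_› n hm), ?_⟩
  rw [map_pow, map_pow, ← h, mul_pow]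

theorem unitAt_algebraMap {𝔮 : Ideal B} {r : B} (hr : r ∉ 𝔮) (h1 : (1 : B) ∉ 𝔮) :
    UnitAt 𝔮 (algebraMap B F r) :=
  ⟨1, h1, r, hr, by rw [map_one, mul_one]⟩

theorem unitAt_of_le {𝔮 z : Ideal B} (h : 𝔮 ≤ z) {u : F} (hu : UnitAt z u) : UnitAt 𝔮 u := by
  obtain ⟨σ, hσ, r, hr, e⟩ := hu
  exact ⟨σ, fun hm => hσ (h hm), r, fun hm => hr (h hm), e⟩

theorem unitAt_of_integralAt_inv {𝔮 : Ideal B} [𝔮.IsPrime] {u : F} (hu0 : u ≠ 0)
    (h1 : IntegralAt 𝔮 u) (h2 : IntegralAt 𝔮 u⁻¹) : UnitAt 𝔮 u := by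
  obtain ⟨σ, hσ, r, h⟩ := h1
  obtain ⟨σ', hσ', r', h'⟩ := h2
  refine ⟨σ, hσ, r, fun hr => ?_, h⟩
  have hprod : r * r' = σ * σ' := by
    apply IsFractionRing.injective B F
    rw [map_mul, map_mul, ← h, ← h']
    field_simp
  have : σ * σ' ∈ 𝔮 := hprod ▸ 𝔮.mul_mem_right r' hr
  exact (Ideal.IsPrime.mem_or_mem ‹_› this).elim hσ hσ'

end Basic


section Section

variable {B : Type*} [CommRing B] [IsDomain B]

/-- (A2) **Sections are principal.**  Let `z` be a maximal ideal with `z B_z = (π, s) B_z`,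
and let `𝔭 ≤ z` be a prime with `s ∈ 𝔭`, `π ∉ 𝔭` (the kernel of a section through `z` whose
local equation is `s`).  Then `𝔭 B_z = s B_z`, with a uniform denominator. -/
theorem exists_forall_mul_mem_span_of_section [IsNoetherianRing B] (z : Ideal B) [z.IsMaximal]
    (π s : B) (hπz : π ∈ z) (hloc : LocGen z π s) (𝔭 : Ideal B) [𝔭.IsPrime] (h𝔭z : 𝔭 ≤ z)
    (hs : s ∈ 𝔭) (hπ : π ∉ 𝔭) :
    ∃ r, r ∉ z ∧ ∀ a ∈ 𝔭, r * a ∈ Ideal.span {s} := by
  -- Step 1: `𝔭 ≤ z * 𝔭 + (s)`.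
  have h1 : 𝔭 ≤ z * 𝔭 ⊔ Ideal.span {s} := by
    intro a ha
    obtain ⟨σ, hσ, hσa⟩ := hloc a (h𝔭z ha)
    obtain ⟨c, d, hcd⟩ := Ideal.mem_span_pair.mp hσa
    have hv : c ∈ 𝔭 := by
      have : c * π ∈ 𝔭 := by
        have : c * π = σ * a - d * s := by rw [← hcd]; ring
        rw [this]
        exact 𝔭.sub_mem (𝔭.mul_mem_left _ ha) (𝔭.mul_mem_left _ hs)
      exact (Ideal.IsPrime.mem_or_mem ‹_› this).resolve_right hπ
    obtain ⟨τ, i, hi, hτ⟩ := Ideal.IsMaximal.exists_inv ‹z.IsMaximal› hσ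
    have ha' : a = (τ * π) * c + i * a + (τ * d) * s := by
      have : a = (τ * σ + i) * a := by rw [hτ, one_mul]
      calc a = (τ * σ + i) * a := this
        _ = τ * (σ * a) + i * a := by ring
        _ = τ * (c * π + d * s) + i * a := by rw [hcd]
        _ = (τ * π) * c + i * a + (τ * d) * s := by ring
    rw [ha']
    refine Ideal.add_mem _ (Ideal.add_mem _ ?_ ?_) ?_
    · exact Ideal.mem_sup_left (Ideal.mul_mem_mul (z.mul_mem_left _ hπz) hv)
    · exact Ideal.mem_sup_left (Ideal.mul_mem_mul hi ha)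
    · exact Ideal.mem_sup_right (Ideal.mul_mem_left _ _ (Ideal.subset_span rfl))
  -- Step 2: Nakayama in `B ⧸ (s)`.
  set q : B →ₗ[B] (B ⧸ Ideal.span {s}) := (Ideal.span {s} : Submodule B B).mkQ with hq
  set N : Submodule B (B ⧸ Ideal.span {s}) := Submodule.map q 𝔭 with hN
  have hNfg : N.FG := (IsNoetherian.noetherian (𝔭 : Submodule B B)).map q
  have hle : N ≤ z • N := by
    rw [hN, ← Submodule.map_smul'']
    intro n hn
    obtain ⟨a, ha, rfl⟩ := hn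
    have := h1 ha
    obtain ⟨x, hx, y, hy, rfl⟩ := Submodule.mem_sup.mp this
    refine ⟨x, ?_, ?_⟩
    · simpa using hx
    · rw [map_add]
      have : q y = 0 := by
        rw [hq, Submodule.mkQ_apply]
        exact (Submodule.Quotient.mk_eq_zero _).mpr hy
      rw [this, add_zero]
  obtain ⟨r, hr1, hr⟩ := Submodule.exists_sub_one_mem_and_smul_eq_zero_of_fg_of_le_smul z N hNfg hle
  refine ⟨r, fun hrz => ?_, fun a ha => ?_⟩
  · have : (1 : B) ∈ z := by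
      have := z.sub_mem hrz hr1
      simpa using this
    exact (Ideal.IsMaximal.ne_top ‹_›) ((Ideal.eq_top_iff_one z).mpr this)
  · have h0 := hr (q a) ⟨a, ha, rfl⟩
    rw [← map_smul, hq, Submodule.mkQ_apply, Submodule.Quotient.mk_eq_zero] at h0
    simpa using h0

/-- (A2') The kernel of a section is generated by its local equation. -/
theorem generatesAt_of_section [IsNoetherianRing B] (z : Ideal B) [z.IsMaximal]
    (π s : B) (hπz : π ∈ z) (hloc : LocGen z π s) (𝔭 : Ideal B) [𝔭.IsPrime] (h𝔭z : 𝔭 ≤ z)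
    (hs : s ∈ 𝔭) (hπ : π ∉ 𝔭) : GeneratesAt 𝔭 s := by
  obtain ⟨r, hr, h⟩ := exists_forall_mul_mem_span_of_section z π s hπz hloc 𝔭 h𝔭z hs hπ
  refine ⟨hs, fun a ha => ⟨r, fun hm => hr (h𝔭z hm), ?_⟩⟩
  obtain ⟨b, hb⟩ := Ideal.mem_span_singleton'.mp (h a ha)
  exact ⟨b, hb.symm⟩

/-- (A3) Two local equations at `z` differ by a unit modulo `π`. -/
theorem exists_unit_congr (z : Ideal B) [z.IsPrime] (π t s : B) (hπ : Prime π) (hπz : π ∈ z)
    (htz : t ∈ z) (hsz : s ∈ z) (hloct : LocGen z π t) (hlocs : LocGen z π s) :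
    ∃ w w', w ∉ z ∧ w' ∉ z ∧ w' * s - w * t ∈ Ideal.span {π} := by
  obtain ⟨σ, hσ, hσt⟩ := hlocs t htz
  obtain ⟨σ', hσ', hσs⟩ := hloct s hsz
  obtain ⟨α, β, hαβ⟩ := Ideal.mem_span_pair.mp hσt
  obtain ⟨α', β', hαβ'⟩ := Ideal.mem_span_pair.mp hσs
  -- `σ t = α π + β s`, `σ' s = α' π + β' t`
  have key : (σ * σ' - β * β') * s ∈ Ideal.span {π} := by
    have : (σ * σ' - β * β') * s = (σ * α' + β' * α) * π := by
      have e1 : σ * (σ' * s) = σ * (α' * π + β' * t) := by rw [hαβ']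
      have e2 : β' * (σ * t) = β' * (α * π + β * s) := by rw [hαβ]
      linear_combination e1 + e2
    rw [this]
    exact Ideal.mul_mem_left _ _ (Ideal.subset_span rfl)
  have hprime : (Ideal.span {π}).IsPrime := (Ideal.span_singleton_prime hπ.ne_zero).mpr hπ
  have hπle : Ideal.span {π} ≤ z := (Ideal.span_singleton_le_iff_mem z).mpr hπz
  rcases Ideal.IsPrime.mem_or_mem hprime key with h | h
  · -- `σ σ' - β β' ∈ (π) ≤ z`, so `β β' ∉ z`
    have hββ' : β * β' ∉ z := by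
      intro hm
      have : σ * σ' ∈ z := by
        have := z.add_mem (hπle h) hm
        simpa using this
      exact (Ideal.IsPrime.mem_or_mem ‹_› this).elim hσ hσ'
    have hβ' : β' ∉ z := fun hm => hββ' (z.mul_mem_left _ hm)
    refine ⟨β', σ', hβ', hσ', ?_⟩
    have : σ' * s - β' * t = α' * π := by rw [← hαβ']; ring
    rw [this]
    exact Ideal.mul_mem_left _ _ (Ideal.subset_span rfl)
  · -- `s ∈ (π)`; then `t ∈ (π)` too
    have ht : t ∈ Ideal.span {π} := by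
      have : σ * t ∈ Ideal.span {π} := by
        rw [← hαβ]
        exact Ideal.add_mem _ (Ideal.mul_mem_left _ _ (Ideal.subset_span rfl))
          (Ideal.mul_mem_left _ _ h)
      exact (Ideal.IsPrime.mem_or_mem hprime this).resolve_left (fun hm => hσ (hπle hm))
    have h1 : (1 : B) ∉ z := fun h1 => (Ideal.IsPrime.ne_top ‹_›) ((Ideal.eq_top_iff_one z).mpr h1)
    refine ⟨1, 1, h1, h1, ?_⟩
    rw [one_mul, one_mul]
    exact Ideal.sub_mem _ h ht

end Section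


section Loc

variable {B : Type*} [CommRing B] [IsDomain B] {F : Type*} [Field F] [Algebra B F]
  [IsFractionRing B F]

omit [IsDomain B] in
theorem prod_not_mem {I : Ideal B} [I.IsPrime] {ι : Type*} (s : Finset ι) (f : ι → B)
    (h : ∀ i ∈ s, f i ∉ I) : ∏ i ∈ s, f i ∉ I := by
  classical
  induction s using Finset.induction_on with
  | empty =>
    rw [Finset.prod_empty]
    exact fun h1 => (Ideal.IsPrime.ne_top ‹_›) ((Ideal.eq_top_iff_one I).mpr h1)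
  | insert a s ha ih =>
    rw [Finset.prod_insert ha]
    intro hm
    rcases Ideal.IsPrime.mem_or_mem ‹_› hm with h1 | h1
    · exact h a (Finset.mem_insert_self a s) h1
    · exact ih (fun i hi => h i (Finset.mem_insert_of_mem hi)) h1

/-- A local equation at `z` is not divisible by `π` (when `t` is not). -/
theorem not_mem_span_of_locGen (z : Ideal B) [z.IsPrime] (π t s : B) (hπ : Prime π)
    (hπz : π ∈ z) (htz : t ∈ z) (hsz : s ∈ z) (ht : t ∉ Ideal.span {π}) (hloct : LocGen z π t)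
    (hlocs : LocGen z π s) : s ∉ Ideal.span {π} := by
  intro hs
  obtain ⟨w, w', hw, -, hww⟩ := exists_unit_congr z π t s hπ hπz htz hsz hloct hlocs
  have hprime : (Ideal.span {π}).IsPrime := (Ideal.span_singleton_prime hπ.ne_zero).mpr hπ
  have hπle : Ideal.span {π} ≤ z := (Ideal.span_singleton_le_iff_mem z).mpr hπz
  have : w * t ∈ Ideal.span {π} := by
    have h2 := Ideal.sub_mem _ (Ideal.mul_mem_left _ w' hs) hww
    simpa using h2
  rcases Ideal.IsPrime.mem_or_mem hprime this with h | h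
  · exact hw (hπle h)
  · exact ht h

/-- (A4, core) **The producer of (LOC).**  `z B_z = (π, t) B_z`, `π` prime, `π ∤ t`.  Let
`sx i`, `sy i` (`i < m`, the SAME number of each) be local equations at `z` (elements of `z`
with `(π, sx i) = z` at `z`).  If `U * ∏ sy ^ p / ∏ sx ^ p` is a unit at `z`, then
`U = (u1 / u2) * g ^ p` with `u1, u2 ∉ z` and `g = a / b`, `b ∉ (π)`, `a ≡ b mod π`
(i.e. `g ≡ 1` at the generic point of the special fibre). -/
theorem exists_loc_of_unitAt (z : Ideal B) [z.IsPrime] (π t : B) (hπ : Prime π) (hπz : π ∈ z)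
    (htz : t ∈ z) (ht : t ∉ Ideal.span {π}) (hloc : LocGen z π t)
    {m : ℕ} (sx sy : Fin m → B)
    (hsx : ∀ i, sx i ∈ z ∧ LocGen z π (sx i)) (hsy : ∀ i, sy i ∈ z ∧ LocGen z π (sy i))
    (p : ℕ) (U : F)
    (hU : UnitAt z (U * (∏ i, algebraMap B F (sy i)) ^ p / (∏ i, algebraMap B F (sx i)) ^ p)) :
    ∃ (g : F) (u1 u2 : B), u1 ∉ z ∧ u2 ∉ z ∧
      U * algebraMap B F u2 = algebraMap B F u1 * g ^ p ∧
      ∃ a b : B, b ∉ Ideal.span {π} ∧ a - b ∈ Ideal.span {π} ∧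
        g * algebraMap B F b = algebraMap B F a := by
  classical
  have hprime : (Ideal.span {π}).IsPrime := (Ideal.span_singleton_prime hπ.ne_zero).mpr hπ
  have hπle : Ideal.span {π} ≤ z := (Ideal.span_singleton_le_iff_mem z).mpr hπz
  have hx := fun i => exists_unit_congr z π t (sx i) hπ hπz htz (hsx i).1 hloc (hsx i).2
  have hy := fun i => exists_unit_congr z π t (sy i) hπ hπz htz (hsy i).1 hloc (hsy i).2
  choose w w' hw hw' hww using hx
  choose v v' hv hv' hvv using hy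
  have hsxπ : ∀ i, sx i ∉ Ideal.span {π} := fun i =>
    not_mem_span_of_locGen z π t (sx i) hπ hπz htz (hsx i).1 ht hloc (hsx i).2
  have hsyπ : ∀ i, sy i ∉ Ideal.span {π} := fun i =>
    not_mem_span_of_locGen z π t (sy i) hπ hπz htz (hsy i).1 ht hloc (hsy i).2
  obtain ⟨W, hWdef⟩ : ∃ W : B, W = ∏ i, w i := ⟨_, rfl⟩
  obtain ⟨W', hW'def⟩ : ∃ W' : B, W' = ∏ i, w' i := ⟨_, rfl⟩
  obtain ⟨V, hVdef⟩ : ∃ V : B, V = ∏ i, v i := ⟨_, rfl⟩
  obtain ⟨V', hV'def⟩ : ∃ V' : B, V' = ∏ i, v' i := ⟨_, rfl⟩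
  obtain ⟨X, hXdef⟩ : ∃ X : B, X = ∏ i, sx i := ⟨_, rfl⟩
  obtain ⟨Y, hYdef⟩ : ∃ Y : B, Y = ∏ i, sy i := ⟨_, rfl⟩
  have hWz : W ∉ z := hWdef ▸ prod_not_mem _ _ fun i _ => hw i
  have hW'z : W' ∉ z := hW'def ▸ prod_not_mem _ _ fun i _ => hw' i
  have hVz : V ∉ z := hVdef ▸ prod_not_mem _ _ fun i _ => hv i
  have hV'z : V' ∉ z := hV'def ▸ prod_not_mem _ _ fun i _ => hv' i
  have hXπ : X ∉ Ideal.span {π} := hXdef ▸ prod_not_mem _ _ fun i _ => hsxπ i
  have hYπ : Y ∉ Ideal.span {π} := hYdef ▸ prod_not_mem _ _ fun i _ => hsyπ i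
  obtain ⟨σ, hσ, r, hr, hUr⟩ := hU
  obtain ⟨a, hadef⟩ : ∃ a : B, a = W' * X * V := ⟨_, rfl⟩
  obtain ⟨b, hbdef⟩ : ∃ b : B, b = V' * Y * W := ⟨_, rfl⟩
  have hbπ : b ∉ Ideal.span {π} := by
    intro hm
    rw [hbdef] at hm
    rcases Ideal.IsPrime.mem_or_mem hprime hm with h | h
    · rcases Ideal.IsPrime.mem_or_mem hprime h with h | h
      · exact hV'z (hπle h)
      · exact hYπ h
    · exact hWz (hπle h)
  have hab : a - b ∈ Ideal.span {π} := by
    rw [← Ideal.Quotient.eq]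
    have e1 : ∀ i, Ideal.Quotient.mk (Ideal.span {π}) (w' i * sx i)
        = Ideal.Quotient.mk (Ideal.span {π}) (w i * t) := fun i => Ideal.Quotient.eq.mpr (hww i)
    have e2 : ∀ i, Ideal.Quotient.mk (Ideal.span {π}) (v' i * sy i)
        = Ideal.Quotient.mk (Ideal.span {π}) (v i * t) := fun i => Ideal.Quotient.eq.mpr (hvv i)
    have ea : a = (∏ i, w' i * sx i) * V := by
      rw [hadef, hW'def, hXdef, Finset.prod_mul_distrib]
    have eb : b = (∏ i, v' i * sy i) * W := by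
      rw [hbdef, hV'def, hYdef, Finset.prod_mul_distrib]
    have ea' : Ideal.Quotient.mk (Ideal.span {π}) a
        = Ideal.Quotient.mk (Ideal.span {π}) ((∏ i, w i * t) * V) := by
      rw [ea, map_mul, map_mul, map_prod, map_prod]
      simp only [e1]
    have eb' : Ideal.Quotient.mk (Ideal.span {π}) b
        = Ideal.Quotient.mk (Ideal.span {π}) ((∏ i, v i * t) * W) := by
      rw [eb, map_mul, map_mul, map_prod, map_prod]
      simp only [e2]
    rw [ea', eb']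
    congr 1
    rw [Finset.prod_mul_distrib, Finset.prod_mul_distrib, ← hWdef, ← hVdef]
    ring
  have hb0 : algebraMap B F b ≠ 0 := algebraMap_ne_zero_of_not_mem hbπ
  have hX0 : algebraMap B F X ≠ 0 := algebraMap_ne_zero_of_not_mem hXπ
  have hY0 : algebraMap B F Y ≠ 0 := algebraMap_ne_zero_of_not_mem hYπ
  have hσ0 : algebraMap B F σ ≠ 0 := algebraMap_ne_zero_of_not_mem hσ
  have hW0 : algebraMap B F W ≠ 0 := algebraMap_ne_zero_of_not_mem hWz
  have hV'0 : algebraMap B F V' ≠ 0 := algebraMap_ne_zero_of_not_mem hV'z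
  have hW'0 : algebraMap B F W' ≠ 0 := algebraMap_ne_zero_of_not_mem hW'z
  have hV0 : algebraMap B F V ≠ 0 := algebraMap_ne_zero_of_not_mem hVz
  refine ⟨algebraMap B F a / algebraMap B F b, r * (V' * W) ^ p, σ * (W' * V) ^ p, ?_, ?_, ?_,
    a, b, hbπ, hab, by field_simp⟩
  · intro hm
    rcases Ideal.IsPrime.mem_or_mem ‹_› hm with h | h
    · exact hr h
    · rcases Ideal.IsPrime.mem_or_mem ‹_› (Ideal.IsPrime.mem_of_pow_mem ‹_› p h) with h | h
      · exact hV'z h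
      · exact hWz h
  · intro hm
    rcases Ideal.IsPrime.mem_or_mem ‹_› hm with h | h
    · exact hσ h
    · rcases Ideal.IsPrime.mem_or_mem ‹_› (Ideal.IsPrime.mem_of_pow_mem ‹_› p h) with h | h
      · exact hW'z h
      · exact hVz h
  · have hXY : (∏ i, algebraMap B F (sx i)) = algebraMap B F X := by rw [hXdef, map_prod]
    have hYX : (∏ i, algebraMap B F (sy i)) = algebraMap B F Y := by rw [hYdef, map_prod]
    rw [hXY, hYX] at hUr
    have hU' : U = algebraMap B F r * algebraMap B F X ^ p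
        / (algebraMap B F σ * algebraMap B F Y ^ p) := by
      rw [← hUr]
      field_simp
    rw [hU', hadef, hbdef]
    simp only [map_mul, map_pow]
    generalize algebraMap B F r = r₁
    generalize algebraMap B F X = x₁ at hX0 ⊢
    generalize algebraMap B F Y = y₁ at hY0 ⊢
    generalize algebraMap B F σ = σ₁ at hσ0 ⊢
    generalize algebraMap B F W = w₁ at hW0 ⊢
    generalize algebraMap B F W' = w₂ at hW'0 ⊢
    generalize algebraMap B F V = v₁ at hV0 ⊢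
    generalize algebraMap B F V' = v₂ at hV'0 ⊢
    rw [div_pow, mul_pow, mul_pow, mul_pow, mul_pow, mul_pow, mul_pow]
    have hYp : y₁ ^ p ≠ 0 := pow_ne_zero _ hY0
    have hWp : w₁ ^ p ≠ 0 := pow_ne_zero _ hW0
    have hVp : v₂ ^ p ≠ 0 := pow_ne_zero _ hV'0
    field_simp

end Loc


section Krull

variable {B : Type*} [CommRing B] [IsDomain B] [IsNoetherianRing B] [IsIntegrallyClosed B]
  {F : Type*} [Field F] [Algebra B F] [IsFractionRing B F]

/-- (A1) **Krull property, elementwise and without height theory.**  In a noetherian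
integrally closed domain, an element of the fraction field lies in `B_z` as soon as it lies in
`B_𝔮` for every nonzero prime `𝔮 ≤ z` such that `𝔮 B_𝔮` is principal. -/
theorem integralAt_of_forall_principalAt (z : Ideal B) [z.IsPrime] (u : F)
    (h : ∀ 𝔮 : Ideal B, 𝔮.IsPrime → 𝔮 ≤ z → 𝔮 ≠ ⊥ → PrincipalAt 𝔮 → IntegralAt 𝔮 u) :
    IntegralAt z u := by
  classical
  obtain ⟨a, b, hb, rfl⟩ := IsFractionRing.div_surjective (A := B) u
  have hb0 : b ≠ 0 := nonZeroDivisors.ne_zero hb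
  have hbF : algebraMap B F b ≠ 0 := fun h0 =>
    hb0 ((IsFractionRing.injective B F) (by rw [h0, map_zero]))
  have h1z : (1 : B) ∉ z := fun h1 => (Ideal.IsPrime.ne_top ‹_›) ((Ideal.eq_top_iff_one z).mpr h1)
  by_contra hcon
  -- the colon ideal `(b : a)`, saturated at `z`
  let I' : Ideal B :=
    { carrier := {c | ∃ σ, σ ∉ z ∧ σ * c * a ∈ Ideal.span {b}}
      add_mem' := by
        rintro c c' ⟨σ, hσ, h⟩ ⟨σ', hσ', h'⟩
        refine ⟨σ * σ', fun hm => (Ideal.IsPrime.mem_or_mem ‹_› hm).elim hσ hσ', ?_⟩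
        have : σ * σ' * (c + c') * a = σ' * (σ * c * a) + σ * (σ' * c' * a) := by ring
        rw [this]
        exact Ideal.add_mem _ (Ideal.mul_mem_left _ _ h) (Ideal.mul_mem_left _ _ h')
      zero_mem' := ⟨1, h1z, by simp⟩
      smul_mem' := by
        rintro x c ⟨σ, hσ, h⟩
        refine ⟨σ, hσ, ?_⟩
        have : σ * (x • c) * a = x * (σ * c * a) := by rw [smul_eq_mul]; ring
        rw [this]
        exact Ideal.mul_mem_left _ _ h }
  have hI' : ∀ c, c ∈ I' ↔ ∃ σ, σ ∉ z ∧ σ * c * a ∈ Ideal.span {b} := fun c => Iff.rfl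
  have h1 : (1 : B) ∉ I' := by
    rintro ⟨σ, hσ, h⟩
    obtain ⟨d, hd⟩ := Ideal.mem_span_singleton'.mp h
    apply hcon
    refine ⟨σ, hσ, d, ?_⟩
    rw [div_mul_eq_mul_div, div_eq_iff hbF, ← map_mul, ← map_mul]
    congr 1
    rw [hd, mul_one, mul_comm]
  have : Nontrivial (B ⧸ I') :=
    Ideal.Quotient.nontrivial_iff.mpr (fun htop => h1 (htop ▸ Submodule.mem_top))
  obtain ⟨𝔮, h𝔮⟩ := associatedPrimes.nonempty B (B ⧸ I')
  obtain ⟨h𝔮prime, x, hx⟩ := isAssociatedPrime_iff.mp h𝔮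
  obtain ⟨c, rfl⟩ := Ideal.Quotient.mk_surjective x
  have hmem : ∀ r, r ∈ 𝔮 ↔ r * c ∈ I' := by
    intro r
    rw [hx, Submodule.mem_colon_singleton, Submodule.mem_bot]
    show r • (Submodule.Quotient.mk c : B ⧸ I') = 0 ↔ _
    rw [← Submodule.Quotient.mk_smul, Submodule.Quotient.mk_eq_zero, smul_eq_mul]
  have hc : c ∉ I' := by
    intro hc
    have : (1 : B) ∈ 𝔮 := (hmem 1).mpr (by rwa [one_mul])
    exact h𝔮prime.ne_top ((Ideal.eq_top_iff_one 𝔮).mpr this)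
  have h𝔮z : 𝔮 ≤ z := by
    intro r hr
    by_contra hrz
    obtain ⟨σ, hσ, hσr⟩ := (hmem r).mp hr
    apply hc
    refine ⟨σ * r, fun hm => (Ideal.IsPrime.mem_or_mem ‹_› hm).elim hσ hrz, ?_⟩
    have : σ * r * c * a = σ * (r * c) * a := by ring
    rw [this]
    exact hσr
  have hb𝔮 : b ∈ 𝔮 := by
    rw [hmem]
    refine ⟨1, h1z, ?_⟩
    have : 1 * (b * c) * a = (c * a) * b := by ring
    rw [this]
    exact Ideal.mul_mem_left _ _ (Ideal.subset_span rfl)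
  have h𝔮bot : 𝔮 ≠ ⊥ := fun hbot => hb0 (by rw [hbot] at hb𝔮; exact hb𝔮)
  -- a uniform denominator for `𝔮`
  obtain ⟨S, hS⟩ := (IsNoetherian.noetherian (𝔮 : Submodule B B))
  have hSσ : ∀ s ∈ S, ∃ σ, σ ∉ z ∧ σ * (s * c) * a ∈ Ideal.span {b} := fun s hs =>
    (hmem s).mp (hS ▸ Submodule.subset_span hs)
  choose! τ hτz hτ using hSσ
  obtain ⟨σ, hσdef⟩ : ∃ σ : B, σ = ∏ s ∈ S, τ s := ⟨_, rfl⟩
  have hσz : σ ∉ z := hσdef ▸ prod_not_mem _ _ fun s hs => hτz s hs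
  have hσ𝔮 : ∀ r ∈ 𝔮, σ * r * c * a ∈ Ideal.span {b} := by
    intro r hr
    rw [← hS] at hr
    induction hr using Submodule.span_induction with
    | mem s hs =>
      have hdvd : τ s ∣ σ := hσdef ▸ Finset.dvd_prod_of_mem τ hs
      obtain ⟨e, he⟩ := hdvd
      have : σ * s * c * a = e * (τ s * (s * c) * a) := by rw [he]; ring
      rw [this]
      exact Ideal.mul_mem_left _ _ (hτ s hs)
    | zero => simp
    | add x y _ _ hx hy =>
      have : σ * (x + y) * c * a = σ * x * c * a + σ * y * c * a := by ring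
      rw [this]
      exact Ideal.add_mem _ hx hy
    | smul k x _ hx =>
      have : σ * (k • x) * c * a = k * (σ * x * c * a) := by rw [smul_eq_mul]; ring
      rw [this]
      exact Ideal.mul_mem_left _ _ hx
  -- the element `y = σ c a / b`
  set y : F := algebraMap B F (σ * c * a) / algebraMap B F b with hy
  have hy𝔮 : ∀ r ∈ 𝔮, ∃ d : B, y * algebraMap B F r = algebraMap B F d := by
    intro r hr
    obtain ⟨d, hd⟩ := Ideal.mem_span_singleton'.mp (hσ𝔮 r hr)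
    refine ⟨d, ?_⟩
    rw [hy, div_mul_eq_mul_div, div_eq_iff hbF, ← map_mul, ← map_mul]
    congr 1
    rw [hd]
    ring
  by_cases hcase : ∀ r ∈ 𝔮, ∀ d : B, y * algebraMap B F r = algebraMap B F d → d ∈ 𝔮
  · -- `y 𝔮 ≤ 𝔮`: then `y` is integral, hence in `B`, contradiction
    have hint : IsIntegral B y := by
      refine isIntegral_of_smul_mem_submodule (M := F)
        (Submodule.map (Algebra.linearMap B F) (𝔮 : Submodule B B)) ?_ ?_ y ?_
      · intro hbot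
        have : algebraMap B F b ∈ Submodule.map (Algebra.linearMap B F) (𝔮 : Submodule B B) :=
          ⟨b, hb𝔮, rfl⟩
        rw [hbot, Submodule.mem_bot] at this
        exact hbF this
      · exact (IsNoetherian.noetherian (𝔮 : Submodule B B)).map _
      · rintro n ⟨r, hr, rfl⟩
        obtain ⟨d, hd⟩ := hy𝔮 r hr
        refine ⟨d, hcase r hr d hd, ?_⟩
        rw [Algebra.linearMap_apply, Algebra.linearMap_apply, smul_eq_mul, hd]
    obtain ⟨d, hd⟩ := IsIntegrallyClosed.isIntegral_iff.mp hint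
    apply hc
    refine ⟨σ, hσz, ?_⟩
    rw [Ideal.mem_span_singleton']
    refine ⟨d, ?_⟩
    apply IsFractionRing.injective B F
    rw [map_mul, hd, hy, div_mul_cancel₀ _ hbF]
  · -- `y r₀ = d₀ ∉ 𝔮` for some `r₀ ∈ 𝔮`: then `𝔮 B_𝔮 = r₀ B_𝔮`
    push Not at hcase
    obtain ⟨r₀, hr₀, d₀, hd₀, hd₀𝔮⟩ := hcase
    have hprinc : PrincipalAt 𝔮 := by
      refine ⟨r₀, hr₀, fun a' ha' => ⟨d₀, hd₀𝔮, ?_⟩⟩
      obtain ⟨d', hd'⟩ := hy𝔮 a' ha'
      refine ⟨d', ?_⟩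
      apply IsFractionRing.injective B F
      rw [map_mul, map_mul, ← hd₀, ← hd']
      ring
    obtain ⟨ρ, hρ, e, he⟩ := h 𝔮 h𝔮prime h𝔮z h𝔮bot hprinc
    apply hρ
    rw [hmem]
    refine ⟨1, h1z, ?_⟩
    rw [Ideal.mem_span_singleton']
    refine ⟨c * e, ?_⟩
    apply IsFractionRing.injective B F
    have he' : algebraMap B F a * algebraMap B F ρ = algebraMap B F e * algebraMap B F b := by
      rw [← he]
      field_simp
    simp only [map_mul, map_one]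
    linear_combination (-(algebraMap B F c)) * he'

/-- (A1') Unit version of the Krull property. -/
theorem unitAt_of_forall_principalAt (z : Ideal B) [z.IsPrime] (u : F) (hu0 : u ≠ 0)
    (h : ∀ 𝔮 : Ideal B, 𝔮.IsPrime → 𝔮 ≤ z → 𝔮 ≠ ⊥ → PrincipalAt 𝔮 → UnitAt 𝔮 u) :
    UnitAt z u :=
  unitAt_of_integralAt_inv hu0
    (integralAt_of_forall_principalAt z u fun 𝔮 h1 h2 h3 h4 => (h 𝔮 h1 h2 h3 h4).integralAt)
    (integralAt_of_forall_principalAt z u⁻¹ fun 𝔮 h1 h2 h3 h4 =>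
      (h 𝔮 h1 h2 h3 h4).inv.integralAt)

end Krull


section Main

variable {B : Type*} [CommRing B] [IsDomain B] {F : Type*} [Field F] [Algebra B F]
  [IsFractionRing B F]

theorem unitAt_one {𝔮 : Ideal B} [𝔮.IsPrime] : UnitAt 𝔮 (1 : F) := by
  have h1 : (1 : B) ∉ 𝔮 := fun h1 => (Ideal.IsPrime.ne_top ‹_›) ((Ideal.eq_top_iff_one 𝔮).mpr h1)
  exact ⟨1, h1, 1, h1, by rw [map_one, mul_one]⟩

theorem UnitAt.prod {𝔮 : Ideal B} [𝔮.IsPrime] {ι : Type*} (s : Finset ι) (f : ι → F)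
    (h : ∀ i ∈ s, UnitAt 𝔮 (f i)) : UnitAt 𝔮 (∏ i ∈ s, f i) := by
  classical
  induction s using Finset.induction_on with
  | empty => rw [Finset.prod_empty]; exact unitAt_one
  | insert a s ha ih =>
    rw [Finset.prod_insert ha]
    exact (h a (Finset.mem_insert_self a s)).mul
      (ih fun i hi => h i (Finset.mem_insert_of_mem hi))

/-- (H2) A prime `𝔮` with `𝔮 B_𝔮` principal which contains the generator `s` of a prime `𝔭`
(`r 𝔭 ≤ (s)` with `r ∉ 𝔮`, `s ≠ 0`) equals `𝔭`: such primes have "height one". -/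
theorem eq_of_principalAt_of_mem (𝔭 𝔮 : Ideal B) [𝔭.IsPrime] [𝔮.IsPrime] (s r : B)
    (hs : s ∈ 𝔭) (hs0 : s ≠ 0) (hr : r ∉ 𝔮) (hgen : ∀ a ∈ 𝔭, r * a ∈ Ideal.span {s})
    (h𝔮 : PrincipalAt 𝔮) (hs𝔮 : s ∈ 𝔮) : 𝔮 = 𝔭 := by
  have hle : 𝔭 ≤ 𝔮 := by
    intro a ha
    have : r * a ∈ 𝔮 := by
      obtain ⟨c, hc⟩ := Ideal.mem_span_singleton'.mp (hgen a ha)
      rw [← hc]
      exact 𝔮.mul_mem_left _ hs𝔮
    exact (Ideal.IsPrime.mem_or_mem ‹_› this).resolve_left hr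
  obtain ⟨ϖ, hϖ, hgen𝔮⟩ := h𝔮
  have hϖ𝔭 : ϖ ∈ 𝔭 := by
    by_contra hcon
    obtain ⟨σ, hσ, b, hb⟩ := hgen𝔮 s hs𝔮
    have hb𝔭 : b ∈ 𝔭 := by
      have : b * ϖ ∈ 𝔭 := hb ▸ 𝔭.mul_mem_left _ hs
      exact (Ideal.IsPrime.mem_or_mem ‹_› this).resolve_right hcon
    obtain ⟨c, hc⟩ := Ideal.mem_span_singleton'.mp (hgen b hb𝔭)
    have key : s * (r * σ - c * ϖ) = 0 := by
      have e1 : r * (σ * s) = r * (b * ϖ) := by rw [hb]
      linear_combination e1 - ϖ * hc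
    have h0 : r * σ - c * ϖ = 0 := (mul_eq_zero.mp key).resolve_left hs0
    have : r * σ ∈ 𝔮 := by
      have : r * σ = c * ϖ := sub_eq_zero.mp h0
      rw [this]
      exact 𝔮.mul_mem_left _ hϖ
    exact (Ideal.IsPrime.mem_or_mem ‹_› this).elim hr hσ
  refine le_antisymm (fun a ha => ?_) hle
  obtain ⟨σ, hσ, b, hb⟩ := hgen𝔮 a ha
  have : σ * a ∈ 𝔭 := hb ▸ 𝔭.mul_mem_left _ hϖ𝔭
  exact (Ideal.IsPrime.mem_or_mem ‹_› this).resolve_left (fun hm => hσ (hle hm))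

/-- The only prime with principal localisation containing the prime element `π` is `(π)`. -/
theorem eq_span_of_principalAt_of_mem (𝔮 : Ideal B) [𝔮.IsPrime] (π : B) (hπ : Prime π)
    (h𝔮 : PrincipalAt 𝔮) (hπ𝔮 : π ∈ 𝔮) : 𝔮 = Ideal.span {π} := by
  have : (Ideal.span {π}).IsPrime := (Ideal.span_singleton_prime hπ.ne_zero).mpr hπ
  have h1 : (1 : B) ∉ 𝔮 := fun h1 => (Ideal.IsPrime.ne_top ‹_›) ((Ideal.eq_top_iff_one 𝔮).mpr h1)
  exact eq_of_principalAt_of_mem (Ideal.span {π}) 𝔮 π 1 (Ideal.subset_span rfl) hπ.ne_zero h1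
    (fun a ha => by rwa [one_mul]) h𝔮 hπ𝔮

/-- (A4) **The producer of (LOC), divisor form.**  As `exists_loc_of_unitAt`, but the unit
hypothesis is only required at the primes `𝔮 ≤ z` with `𝔮 B_𝔮` principal: `U` is a unit of
`B_(π)` (a "Gauss unit") and `U * ∏ sy ^ p / ∏ sx ^ p` is a unit at every horizontal such
prime. -/
theorem exists_loc [IsNoetherianRing B] [IsIntegrallyClosed B]
    (z : Ideal B) [z.IsPrime] (π t : B) (hπ : Prime π) (hπz : π ∈ z)
    (htz : t ∈ z) (ht : t ∉ Ideal.span {π}) (hloc : LocGen z π t)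
    {m : ℕ} (sx sy : Fin m → B)
    (hsx : ∀ i, sx i ∈ z ∧ LocGen z π (sx i)) (hsy : ∀ i, sy i ∈ z ∧ LocGen z π (sy i))
    (p : ℕ) (U : F) (hvert : UnitAt (Ideal.span {π}) U)
    (hhor : ∀ 𝔮 : Ideal B, 𝔮.IsPrime → 𝔮 ≤ z → 𝔮 ≠ ⊥ → π ∉ 𝔮 → PrincipalAt 𝔮 →
      UnitAt 𝔮 (U * (∏ i, algebraMap B F (sy i)) ^ p / (∏ i, algebraMap B F (sx i)) ^ p)) :
    ∃ (g : F) (u1 u2 : B), u1 ∉ z ∧ u2 ∉ z ∧
      U * algebraMap B F u2 = algebraMap B F u1 * g ^ p ∧
      ∃ a b : B, b ∉ Ideal.span {π} ∧ a - b ∈ Ideal.span {π} ∧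
        g * algebraMap B F b = algebraMap B F a := by
  have hprime : (Ideal.span {π}).IsPrime := (Ideal.span_singleton_prime hπ.ne_zero).mpr hπ
  have h1π : (1 : B) ∉ Ideal.span {π} :=
    fun h1 => hprime.ne_top ((Ideal.eq_top_iff_one _).mpr h1)
  have hsxπ : ∀ i, sx i ∉ Ideal.span {π} := fun i =>
    not_mem_span_of_locGen z π t (sx i) hπ hπz htz (hsx i).1 ht hloc (hsx i).2
  have hsyπ : ∀ i, sy i ∉ Ideal.span {π} := fun i =>
    not_mem_span_of_locGen z π t (sy i) hπ hπz htz (hsy i).1 ht hloc (hsy i).2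
  have hvert' : UnitAt (Ideal.span {π})
      (U * (∏ i, algebraMap B F (sy i)) ^ p / (∏ i, algebraMap B F (sx i)) ^ p) :=
    (hvert.mul ((UnitAt.prod _ _ fun i _ => unitAt_algebraMap (hsyπ i) h1π).pow p)).div
      ((UnitAt.prod _ _ fun i _ => unitAt_algebraMap (hsxπ i) h1π).pow p)
  refine exists_loc_of_unitAt z π t hπ hπz htz ht hloc sx sy hsx hsy p U ?_
  refine unitAt_of_forall_principalAt z _ hvert'.ne_zero fun 𝔮 h𝔮 h𝔮z h𝔮bot h𝔮pr => ?_
  by_cases hπ𝔮 : π ∈ 𝔮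
  · have : 𝔮 = Ideal.span {π} := eq_span_of_principalAt_of_mem 𝔮 π hπ h𝔮pr hπ𝔮
    rw [this]
    exact hvert'
  · exact hhor 𝔮 h𝔮 h𝔮z h𝔮bot hπ𝔮 h𝔮pr

end Main

end Fermat.Agent.S37.helper1812
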