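/-
S37-TB-LOCPLACE (board #1701, helper1949): the PLACE FORM of the local hypothesis (LOC).

Dictionary between the Prelude places of a function field `F / K` and the horizontal primes of a
chart `B` (a noetherian integrally closed domain with fraction field `F`) at a regular closed
point `z` of the special fibre (`z B_z = (π, t) B_z`, `π` prime, elementwise: `LocGen z π t`).

* `exists_mul_eq_mul_pow` : at a prime `𝔮` with `𝔮 B_𝔮 = ϖ B_𝔮` every nonzero element of `B` is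
  `unit_𝔮 * ϖ ^ n` (noetherian induction; no Krull intersection theorem).
* `placeAt 𝔮 ϖ` : the Prelude place of `F / K` with valuation ring `B_𝔮 = {u | IntegralAt 𝔮 u}`.
* `centre v` : the centre on `B` of a place `v` with `B ⊆ 𝒪_v`; it is a prime ideal, and
  `centre v = 𝔮` forces `v = placeAt 𝔮 ϖ`.
* `exists_loc_of_places` : the consumer theorem.  If `P i`, `Q i` (`i < m`) are places that are
  integral points through `z` and `ord_v U = p * (#{i | P i = v} - #{i | Q i = v})` for every place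
  `v` centred in `z`, then `U * u2 = u1 * g ^ p` with `u1, u2 ∉ z` and `g ≡ 1` at the generic
  point of the special fibre: the conclusion of `helper1812.exists_loc`, which is consumed here.
-/
import Mathlib
import Fermat.Prelude.Def_AlgebraicCurve_DivisorClassGroup
import Fermat.Agent.S24.helper1370_PlaceBasics
import Fermat.Agent.S37.helper1812_LocUnit

set_option autoImplicit false
set_option linter.unusedSectionVars false

noncomputable section

namespace Fermat.Agent.S37.helper1949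

open AlgebraicCurve
open Fermat.Agent.S37.helper1812
open Fermat.Agent.S24

section IntegralBasics

variable {B : Type*} [CommRing B] [IsDomain B] {F : Type*} [Field F] [Algebra B F]
  [IsFractionRing B F]

theorem one_notMem_of_isPrime (𝔮 : Ideal B) [h𝔮 : 𝔮.IsPrime] : (1 : B) ∉ 𝔮 :=
  fun h1 => h𝔮.ne_top ((Ideal.eq_top_iff_one 𝔮).mpr h1)

theorem mul_notMem_of_isPrime {𝔮 : Ideal B} [h𝔮 : 𝔮.IsPrime] {a b : B} (ha : a ∉ 𝔮)
    (hb : b ∉ 𝔮) : a * b ∉ 𝔮 :=
  fun h => (h𝔮.mem_or_mem h).elim ha hb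

theorem integralAt_algebraMap (𝔮 : Ideal B) [𝔮.IsPrime] (b : B) :
    IntegralAt 𝔮 (algebraMap B F b) :=
  ⟨1, one_notMem_of_isPrime 𝔮, b, by rw [map_one, mul_one]⟩

theorem IntegralAt.add' {𝔮 : Ideal B} [𝔮.IsPrime] {u v : F} (hu : IntegralAt 𝔮 u)
    (hv : IntegralAt 𝔮 v) : IntegralAt 𝔮 (u + v) := by
  obtain ⟨σ, hσ, r, h⟩ := hu
  obtain ⟨σ', hσ', r', h'⟩ := hv
  refine ⟨σ * σ', mul_notMem_of_isPrime hσ hσ', σ' * r + σ * r', ?_⟩
  rw [map_mul, map_add, map_mul, map_mul, ← h, ← h']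
  ring

theorem IntegralAt.mul' {𝔮 : Ideal B} [𝔮.IsPrime] {u v : F} (hu : IntegralAt 𝔮 u)
    (hv : IntegralAt 𝔮 v) : IntegralAt 𝔮 (u * v) := by
  obtain ⟨σ, hσ, r, h⟩ := hu
  obtain ⟨σ', hσ', r', h'⟩ := hv
  refine ⟨σ * σ', mul_notMem_of_isPrime hσ hσ', r * r', ?_⟩
  rw [map_mul, map_mul, ← h, ← h']
  ring

theorem IntegralAt.neg' {𝔮 : Ideal B} {u : F} (hu : IntegralAt 𝔮 u) : IntegralAt 𝔮 (-u) := by
  obtain ⟨σ, hσ, r, h⟩ := hu
  exact ⟨σ, hσ, -r, by rw [map_neg, ← h, neg_mul]⟩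

theorem IntegralAt.pow' {𝔮 : Ideal B} [𝔮.IsPrime] {u : F} (hu : IntegralAt 𝔮 u) (n : ℕ) :
    IntegralAt 𝔮 (u ^ n) := by
  induction n with
  | zero =>
    rw [pow_zero]
    simpa using integralAt_algebraMap (F := F) 𝔮 (1 : B)
  | succ n ih =>
    rw [pow_succ]
    exact IntegralAt.mul' ih hu

/-- No positive power of a local generator is a unit at `𝔮`. -/
theorem not_unitAt_pow_succ {𝔮 : Ideal B} [𝔮.IsPrime] {ϖ : B} (hϖ : ϖ ∈ 𝔮) (k : ℕ) :
    ¬ UnitAt 𝔮 (algebraMap B F ϖ ^ (k + 1)) := by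
  rintro ⟨σ, -, r, hr, h⟩
  apply hr
  have : ϖ ^ (k + 1) * σ = r := by
    apply IsFractionRing.injective B F
    rw [map_mul, map_pow, h]
  rw [← this, pow_succ]
  exact 𝔮.mul_mem_right _ (𝔮.mul_mem_left _ hϖ)

end IntegralBasics

section Decomposition

variable {B : Type*} [CommRing B] [IsDomain B]

/-- The `𝔮`-saturation of the principal ideal `(a)`. -/
def satIdeal (𝔮 : Ideal B) [𝔮.IsPrime] (a : B) : Ideal B where
  carrier := {b | ∃ σ, σ ∉ 𝔮 ∧ σ * b ∈ Ideal.span {a}}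
  zero_mem' := ⟨1, one_notMem_of_isPrime 𝔮, by simp⟩
  add_mem' := by
    rintro b b' ⟨σ, hσ, h⟩ ⟨σ', hσ', h'⟩
    refine ⟨σ * σ', mul_notMem_of_isPrime hσ hσ', ?_⟩
    have e : σ * σ' * (b + b') = σ' * (σ * b) + σ * (σ' * b') := by ring
    rw [e]
    exact Ideal.add_mem _ (Ideal.mul_mem_left _ _ h) (Ideal.mul_mem_left _ _ h')
  smul_mem' := by
    rintro c b ⟨σ, hσ, h⟩
    refine ⟨σ, hσ, ?_⟩
    have e : σ * (c • b) = c * (σ * b) := by rw [smul_eq_mul]; ring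
    rw [e]
    exact Ideal.mul_mem_left _ _ h

theorem mem_satIdeal {𝔮 : Ideal B} [𝔮.IsPrime] {a b : B} :
    b ∈ satIdeal 𝔮 a ↔ ∃ σ, σ ∉ 𝔮 ∧ σ * b ∈ Ideal.span {a} := Iff.rfl

/-- **Local factorisation at a prime with principal localisation.**  If `𝔮 B_𝔮 = ϖ B_𝔮`, every
nonzero `a : B` is `(c / σ) * ϖ ^ n` with `c, σ ∉ 𝔮`. -/
theorem exists_mul_eq_mul_pow [IsNoetherianRing B] {𝔮 : Ideal B} [h𝔮 : 𝔮.IsPrime] {ϖ : B}
    (hϖ : GeneratesAt 𝔮 ϖ) {a : B} (ha : a ≠ 0) :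
    ∃ (n : ℕ) (σ c : B), σ ∉ 𝔮 ∧ c ∉ 𝔮 ∧ σ * a = c * ϖ ^ n := by
  suffices H : ∀ I : Ideal B, ∀ a : B, a ≠ 0 → satIdeal 𝔮 a = I →
      ∃ (n : ℕ) (σ c : B), σ ∉ 𝔮 ∧ c ∉ 𝔮 ∧ σ * a = c * ϖ ^ n from H _ a ha rfl
  intro I
  induction I using IsNoetherian.induction with
  | hgt I ih =>
    intro a ha hI
    by_cases haq : a ∈ 𝔮
    · obtain ⟨σ1, hσ1, a1, h1⟩ := hϖ.2 a haq
      have hσ10 : σ1 ≠ 0 := fun h0 => hσ1 (h0 ▸ 𝔮.zero_mem)
      have ha1 : a1 ≠ 0 := by
        rintro rfl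
        rw [zero_mul] at h1
        exact (mul_ne_zero hσ10 ha) h1
      have hlt : I < satIdeal 𝔮 a1 := by
        rw [← hI]
        refine lt_of_le_of_ne ?_ ?_
        · rintro b ⟨σ, hσ, hb⟩
          obtain ⟨d, hd⟩ := Ideal.mem_span_singleton'.mp hb
          refine ⟨σ * σ1, mul_notMem_of_isPrime hσ hσ1,
            Ideal.mem_span_singleton'.mpr ⟨d * ϖ, ?_⟩⟩
          linear_combination σ1 * hd - d * h1
        · intro heq
          have hmem : a1 ∈ satIdeal 𝔮 a := by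
            rw [heq]
            exact ⟨1, one_notMem_of_isPrime 𝔮, by
              rw [one_mul]; exact Ideal.mem_span_singleton_self a1⟩
          obtain ⟨σ, hσ, hb⟩ := hmem
          obtain ⟨d, hd⟩ := Ideal.mem_span_singleton'.mp hb
          have key : a1 * (σ * σ1 - d * ϖ) = 0 := by
            linear_combination (-σ1) * hd + d * h1
          have h0 : σ * σ1 - d * ϖ = 0 := (mul_eq_zero.mp key).resolve_left ha1
          have hmem' : σ * σ1 ∈ 𝔮 := by
            have e : σ * σ1 = d * ϖ := sub_eq_zero.mp h0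
            rw [e]
            exact 𝔮.mul_mem_left _ hϖ.1
          exact mul_notMem_of_isPrime hσ hσ1 hmem'
      obtain ⟨n, σ, c, hσ, hc, h⟩ := ih _ hlt a1 ha1 rfl
      refine ⟨n + 1, σ * σ1, c, mul_notMem_of_isPrime hσ hσ1, hc, ?_⟩
      rw [pow_succ]
      linear_combination σ * h1 + ϖ * h
    · exact ⟨0, 1, a, one_notMem_of_isPrime 𝔮, haq, by rw [pow_zero, one_mul, mul_one]⟩

end Decomposition

section PlaceAt

variable {B : Type*} [CommRing B] [IsDomain B] {F : Type*} [Field F] [Algebra B F]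
  [IsFractionRing B F]

/-- Every nonzero element of the fraction field is a unit at `𝔮` times an integral power of the
local generator. -/
theorem exists_unitAt_mul_zpow [IsNoetherianRing B] {𝔮 : Ideal B} [𝔮.IsPrime] {ϖ : B}
    (hϖ : GeneratesAt 𝔮 ϖ) (hϖ0 : ϖ ≠ 0) {u : F} (hu : u ≠ 0) :
    ∃ (n : ℤ) (ε : F), UnitAt 𝔮 ε ∧ u = ε * algebraMap B F ϖ ^ n := by
  obtain ⟨a, b, hb, rfl⟩ := IsFractionRing.div_surjective (A := B) u
  have hb0 : b ≠ 0 := nonZeroDivisors.ne_zero hb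
  have hbF : algebraMap B F b ≠ 0 := fun h =>
    hb0 ((IsFractionRing.injective B F) (by rw [h, map_zero]))
  have ha0 : a ≠ 0 := by
    rintro rfl
    rw [map_zero, zero_div] at hu
    exact hu rfl
  have hϖF : algebraMap B F ϖ ≠ 0 := fun h =>
    hϖ0 ((IsFractionRing.injective B F) (by rw [h, map_zero]))
  obtain ⟨n, σ, c, hσ, hc, h⟩ := exists_mul_eq_mul_pow hϖ ha0
  obtain ⟨n', σ', c', hσ', hc', h'⟩ := exists_mul_eq_mul_pow hϖ hb0
  have hσF := algebraMap_ne_zero_of_not_mem (F := F) hσ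
  have hσ'F := algebraMap_ne_zero_of_not_mem (F := F) hσ'
  have hcF := algebraMap_ne_zero_of_not_mem (F := F) hc
  have hc'F := algebraMap_ne_zero_of_not_mem (F := F) hc'
  have hF : algebraMap B F σ * algebraMap B F a = algebraMap B F c * algebraMap B F ϖ ^ n := by
    rw [← map_mul, h, map_mul, map_pow]
  have hF' : algebraMap B F σ' * algebraMap B F b
      = algebraMap B F c' * algebraMap B F ϖ ^ n' := by
    rw [← map_mul, h', map_mul, map_pow]
  refine ⟨(n : ℤ) - n', algebraMap B F (c * σ') / algebraMap B F (σ * c'), ?_, ?_⟩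
  · exact (unitAt_algebraMap (mul_notMem_of_isPrime hc hσ') (one_notMem_of_isPrime 𝔮)).div
      (unitAt_algebraMap (mul_notMem_of_isPrime hσ hc') (one_notMem_of_isPrime 𝔮))
  · have ha' : algebraMap B F a = algebraMap B F c * algebraMap B F ϖ ^ n / algebraMap B F σ := by
      rw [eq_div_iff hσF, mul_comm]; exact hF
    have hb' : algebraMap B F b
        = algebraMap B F c' * algebraMap B F ϖ ^ n' / algebraMap B F σ' := by
      rw [eq_div_iff hσ'F, mul_comm]; exact hF'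
    rw [ha', hb', zpow_sub₀ hϖF, zpow_natCast, zpow_natCast, map_mul, map_mul]
    field_simp

/-- `IntegralAt` forces a non-negative exponent. -/
theorem zpow_nonneg_of_integralAt {𝔮 : Ideal B} [𝔮.IsPrime] {ϖ : B} (hϖ : ϖ ∈ 𝔮)
    (hϖ0 : ϖ ≠ 0) {n : ℤ} {ε : F} (hε : UnitAt 𝔮 ε)
    (h : IntegralAt 𝔮 (ε * algebraMap B F ϖ ^ n)) : 0 ≤ n := by
  by_contra hn
  push Not at hn
  obtain ⟨k, hk⟩ : ∃ k : ℕ, n = -((k : ℤ) + 1) := ⟨(-n - 1).toNat, by omega⟩
  have hϖF : algebraMap B F ϖ ≠ 0 := fun h =>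
    hϖ0 ((IsFractionRing.injective B F) (by rw [h, map_zero]))
  have hinv : IntegralAt 𝔮 ((algebraMap B F ϖ ^ (k + 1))⁻¹) := by
    have e : (algebraMap B F ϖ ^ (k + 1))⁻¹ = ε⁻¹ * (ε * algebraMap B F ϖ ^ n) := by
      have hε0 := hε.ne_zero
      rw [hk, zpow_neg, ← mul_assoc, inv_mul_cancel₀ hε0, one_mul]
      congr 1
      rw [← zpow_natCast]
      push_cast
      ring_nf
    rw [e]
    exact IntegralAt.mul' hε.inv.integralAt h
  have hint : IntegralAt 𝔮 (algebraMap B F ϖ ^ (k + 1)) := by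
    rw [← map_pow]
    exact integralAt_algebraMap 𝔮 _
  exact not_unitAt_pow_succ (F := F) hϖ k
    (unitAt_of_integralAt_inv (pow_ne_zero _ hϖF) hint hinv)

/-- The valuation subring `B_𝔮` of `F` attached to a prime `𝔮` with `𝔮 B_𝔮 = ϖ B_𝔮`. -/
def valuationSubringAt [IsNoetherianRing B] (𝔮 : Ideal B) [𝔮.IsPrime] (ϖ : B)
    (hϖ : GeneratesAt 𝔮 ϖ) (hϖ0 : ϖ ≠ 0) : ValuationSubring F where
  carrier := {u | IntegralAt 𝔮 u}
  mul_mem' := fun hu hv => IntegralAt.mul' hu hv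
  one_mem' := by
    show IntegralAt 𝔮 (1 : F)
    simpa using integralAt_algebraMap (F := F) 𝔮 (1 : B)
  add_mem' := fun hu hv => IntegralAt.add' hu hv
  zero_mem' := by
    show IntegralAt 𝔮 (0 : F)
    simpa using integralAt_algebraMap (F := F) 𝔮 (0 : B)
  neg_mem' := fun hu => IntegralAt.neg' hu
  mem_or_inv_mem' := by
    intro u
    by_cases hu : u = 0
    · left
      subst hu
      show IntegralAt 𝔮 (0 : F)
      simpa using integralAt_algebraMap (F := F) 𝔮 (0 : B)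
    · obtain ⟨n, ε, hε, rfl⟩ := exists_unitAt_mul_zpow hϖ hϖ0 hu
      rcases le_total 0 n with hn | hn
      · left
        obtain ⟨k, rfl⟩ := Int.eq_ofNat_of_zero_le hn
        show IntegralAt 𝔮 (ε * algebraMap B F ϖ ^ (k : ℤ))
        rw [zpow_natCast, ← map_pow]
        exact IntegralAt.mul' hε.integralAt (integralAt_algebraMap 𝔮 _)
      · right
        obtain ⟨k, hk⟩ := Int.eq_ofNat_of_zero_le (neg_nonneg.mpr hn)
        show IntegralAt 𝔮 (ε * algebraMap B F ϖ ^ n)⁻¹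
        have e : (ε * algebraMap B F ϖ ^ n)⁻¹ = ε⁻¹ * algebraMap B F (ϖ ^ k) := by
          rw [mul_inv, ← zpow_neg, hk, zpow_natCast, map_pow]
        rw [e]
        exact IntegralAt.mul' hε.inv.integralAt (integralAt_algebraMap 𝔮 _)

theorem mem_valuationSubringAt [IsNoetherianRing B] {𝔮 : Ideal B} [𝔮.IsPrime] {ϖ : B}
    {hϖ : GeneratesAt 𝔮 ϖ} {hϖ0 : ϖ ≠ 0} {u : F} :
    u ∈ valuationSubringAt (F := F) 𝔮 ϖ hϖ hϖ0 ↔ IntegralAt 𝔮 u := Iff.rfl

section Units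

variable [IsNoetherianRing B] {𝔮 : Ideal B} [𝔮.IsPrime] {ϖ : B} {hϖ : GeneratesAt 𝔮 ϖ}
  {hϖ0 : ϖ ≠ 0}

/-- Units of `B_𝔮` are the elements that are units at `𝔮`. -/
theorem isUnit_valuationSubringAt_iff (x : valuationSubringAt (F := F) 𝔮 ϖ hϖ hϖ0) :
    IsUnit x ↔ UnitAt 𝔮 (x : F) := by
  constructor
  · intro hx
    obtain ⟨y, hy⟩ := hx.exists_right_inv
    have hy' : (x : F) * (y : F) = 1 := congrArg Subtype.val hy
    have hx0 : (x : F) ≠ 0 := left_ne_zero_of_mul_eq_one hy'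
    have hinv : (x : F)⁻¹ = (y : F) := (eq_inv_of_mul_eq_one_right hy').symm
    refine unitAt_of_integralAt_inv hx0 x.2 ?_
    rw [hinv]
    exact y.2
  · intro hx
    refine IsUnit.of_mul_eq_one
      (⟨(x : F)⁻¹, hx.inv.integralAt⟩ : valuationSubringAt (F := F) 𝔮 ϖ hϖ hϖ0) ?_
    apply Subtype.ext
    show (x : F) * (x : F)⁻¹ = 1
    exact mul_inv_cancel₀ hx.ne_zero

/-- The local generator as an element of `B_𝔮`. -/
def genAt (𝔮 : Ideal B) [𝔮.IsPrime] (ϖ : B) (hϖ : GeneratesAt 𝔮 ϖ) (hϖ0 : ϖ ≠ 0) :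
    valuationSubringAt (F := F) 𝔮 ϖ hϖ hϖ0 :=
  ⟨algebraMap B F ϖ, integralAt_algebraMap 𝔮 ϖ⟩

theorem not_isUnit_genAt : ¬ IsUnit (genAt (F := F) 𝔮 ϖ hϖ hϖ0) := by
  intro h
  have h1 := (isUnit_valuationSubringAt_iff _).mp h
  have h2 : UnitAt 𝔮 (algebraMap B F ϖ ^ (0 + 1)) := by
    rw [zero_add, pow_one]
    exact h1
  exact not_unitAt_pow_succ (F := F) hϖ.1 0 h2

theorem genAt_ne_zero : genAt (F := F) 𝔮 ϖ hϖ hϖ0 ≠ 0 := by
  intro h
  have h1 : algebraMap B F ϖ = 0 := congrArg Subtype.val h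
  exact hϖ0 ((IsFractionRing.injective B F) (by rw [h1, map_zero]))

/-- Every nonzero element of `B_𝔮` is associated to a power of the generator. -/
theorem exists_associated_pow_genAt (x : valuationSubringAt (F := F) 𝔮 ϖ hϖ hϖ0)
    (hx : x ≠ 0) : ∃ n : ℕ, Associated (genAt (F := F) 𝔮 ϖ hϖ hϖ0 ^ n) x := by
  have hx0 : (x : F) ≠ 0 := fun h => hx (Subtype.ext h)
  obtain ⟨n, ε, hε, hxε⟩ := exists_unitAt_mul_zpow hϖ hϖ0 hx0
  have hn : 0 ≤ n := zpow_nonneg_of_integralAt hϖ.1 hϖ0 hε (hxε ▸ x.2)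
  obtain ⟨k, rfl⟩ := Int.eq_ofNat_of_zero_le hn
  have hεu : IsUnit (⟨ε, hε.integralAt⟩ : valuationSubringAt (F := F) 𝔮 ϖ hϖ hϖ0) :=
    (isUnit_valuationSubringAt_iff _).mpr hε
  refine ⟨k, hεu.unit, ?_⟩
  apply Subtype.ext
  show algebraMap B F ϖ ^ k * ε = (x : F)
  rw [hxε, zpow_natCast, mul_comm]

theorem irreducible_genAt : Irreducible (genAt (F := F) 𝔮 ϖ hϖ hϖ0) := by
  set g := genAt (F := F) 𝔮 ϖ hϖ hϖ0 with hg
  have hg0 : g ≠ 0 := genAt_ne_zero
  have hgu : ¬ IsUnit g := not_isUnit_genAt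
  refine ⟨hgu, fun a b hab => ?_⟩
  have ha0 : a ≠ 0 := by
    rintro rfl
    rw [zero_mul] at hab
    exact hg0 hab
  have hb0 : b ≠ 0 := by
    rintro rfl
    rw [mul_zero] at hab
    exact hg0 hab
  obtain ⟨m, ua, hua⟩ := exists_associated_pow_genAt a ha0
  obtain ⟨n, ub, hub⟩ := exists_associated_pow_genAt b hb0
  rw [← hg] at hua hub
  have hprod : g = g ^ (m + n) * ((ua : valuationSubringAt (F := F) 𝔮 ϖ hϖ hϖ0) * ub) := by
    have e : a * b = g ^ (m + n) * ((ua : valuationSubringAt (F := F) 𝔮 ϖ hϖ hϖ0) * ub) := by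
      rw [← hua, ← hub, pow_add]
      ring
    exact hab.trans e
  rcases Nat.eq_zero_or_pos m with hm | hm
  · left
    subst hm
    rw [pow_zero, one_mul] at hua
    rw [← hua]
    exact ua.isUnit
  rcases Nat.eq_zero_or_pos n with hn | hn
  · right
    subst hn
    rw [pow_zero, one_mul] at hub
    rw [← hub]
    exact ub.isUnit
  exfalso
  obtain ⟨k, hk⟩ : ∃ k, m + n = k + 2 := ⟨m + n - 2, by omega⟩
  rw [hk] at hprod
  have h1 : g * (1 - g * (g ^ k * ((ua : valuationSubringAt (F := F) 𝔮 ϖ hϖ hϖ0) * ub))) = 0 := by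
    have e : g ^ (k + 2) = g * (g * g ^ k) := by ring
    rw [e] at hprod
    linear_combination hprod
  have h2 : g * (g ^ k * ((ua : valuationSubringAt (F := F) 𝔮 ϖ hϖ hϖ0) * ub)) = 1 :=
    (sub_eq_zero.mp ((mul_eq_zero.mp h1).resolve_left hg0)).symm
  exact hgu (IsUnit.of_mul_eq_one _ h2)

end Units

variable {K : Type*} [Field K] [Algebra K F]

/-- **The place of `F / K` attached to a horizontal prime with principal localisation.**  Its
valuation ring is `B_𝔮 = {u | IntegralAt 𝔮 u}`. -/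
def placeAt [IsNoetherianRing B] (𝔮 : Ideal B) [𝔮.IsPrime] (ϖ : B) (hϖ : GeneratesAt 𝔮 ϖ)
    (hϖ0 : ϖ ≠ 0) (hK : ∀ c : K, IntegralAt 𝔮 (algebraMap K F c)) : Place K F where
  toValuationSubring := valuationSubringAt 𝔮 ϖ hϖ hϖ0
  algebraMap_mem' := hK
  ne_top' := by
    intro htop
    have hmem : (algebraMap B F ϖ)⁻¹ ∈ valuationSubringAt (F := F) 𝔮 ϖ hϖ hϖ0 := by
      rw [htop]
      exact ValuationSubring.mem_top _
    have hϖF : algebraMap B F ϖ ≠ 0 := fun h =>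
      hϖ0 ((IsFractionRing.injective B F) (by rw [h, map_zero]))
    have h1 : UnitAt 𝔮 (algebraMap B F ϖ ^ (0 + 1)) := by
      rw [zero_add, pow_one]
      exact unitAt_of_integralAt_inv hϖF (integralAt_algebraMap 𝔮 ϖ) hmem
    exact not_unitAt_pow_succ (F := F) hϖ.1 0 h1
  isPrincipalIdealRing' := by
    have hfact : IsDiscreteValuationRing.HasUnitMulPowIrreducibleFactorization
        (valuationSubringAt (F := F) 𝔮 ϖ hϖ hϖ0) :=
      ⟨genAt 𝔮 ϖ hϖ hϖ0, irreducible_genAt, fun {x} hx => exists_associated_pow_genAt x hx⟩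
    exact (IsDiscreteValuationRing.ofHasUnitMulPowIrreducibleFactorization hfact).toIsPrincipalIdealRing

section PlaceAtLemmas

variable [IsNoetherianRing B] {𝔮 : Ideal B} [𝔮.IsPrime] {ϖ : B} {hϖ : GeneratesAt 𝔮 ϖ}
  {hϖ0 : ϖ ≠ 0} {hK : ∀ c : K, IntegralAt 𝔮 (algebraMap K F c)}

theorem mem_placeAt {u : F} :
    u ∈ (placeAt 𝔮 ϖ hϖ hϖ0 hK).toValuationSubring ↔ IntegralAt 𝔮 u := Iff.rfl

/-- `0 ≤ ord` at `placeAt 𝔮` means integrality at `𝔮`. -/
theorem placeAt_ord_nonneg_iff {u : F} :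
    0 ≤ (placeAt 𝔮 ϖ hϖ hϖ0 hK).ord u ↔ IntegralAt 𝔮 u :=
  (helper1370.ord_nonneg_iff_mem _).trans mem_placeAt

theorem placeAt_ord_algebraMap_nonneg (b : B) :
    0 ≤ (placeAt 𝔮 ϖ hϖ hϖ0 hK).ord (algebraMap B F b) :=
  placeAt_ord_nonneg_iff.mpr (integralAt_algebraMap 𝔮 b)

/-- Units at `𝔮` have order `0`. -/
theorem placeAt_ord_eq_zero_of_unitAt {u : F} (hu : UnitAt 𝔮 u) :
    (placeAt 𝔮 ϖ hϖ hϖ0 hK).ord u = 0 := by
  have h1 : 0 ≤ (placeAt 𝔮 ϖ hϖ hϖ0 hK).ord u := placeAt_ord_nonneg_iff.mpr hu.integralAt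
  have h2 : 0 ≤ (placeAt 𝔮 ϖ hϖ hϖ0 hK).ord u⁻¹ := placeAt_ord_nonneg_iff.mpr hu.inv.integralAt
  rw [Place.ord_inv] at h2
  omega

/-- An element of order `0` at `placeAt 𝔮` is a unit at `𝔮`. -/
theorem unitAt_of_placeAt_ord_eq_zero {u : F} (hu0 : u ≠ 0)
    (hu : (placeAt 𝔮 ϖ hϖ hϖ0 hK).ord u = 0) : UnitAt 𝔮 u := by
  refine unitAt_of_integralAt_inv hu0 (placeAt_ord_nonneg_iff.mp (by rw [hu])) ?_
  exact (placeAt_ord_nonneg_iff (hK := hK) (hϖ := hϖ) (hϖ0 := hϖ0)).mp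
    (by rw [Place.ord_inv, hu, neg_zero])

/-- The local generator is a uniformiser of `placeAt 𝔮`. -/
theorem placeAt_ord_gen : (placeAt 𝔮 ϖ hϖ hϖ0 hK).ord (algebraMap B F ϖ) = 1 :=
  (placeAt 𝔮 ϖ hϖ hϖ0 hK).ord_coe_irreducible
    (irreducible_genAt (F := F) (𝔮 := 𝔮) (ϖ := ϖ) (hϖ := hϖ) (hϖ0 := hϖ0))

/-- For a nonzero `b : B`: positive order at `placeAt 𝔮` means `b ∈ 𝔮`. -/
theorem placeAt_ord_pos_iff {b : B} (hb : b ≠ 0) :
    0 < (placeAt 𝔮 ϖ hϖ hϖ0 hK).ord (algebraMap B F b) ↔ b ∈ 𝔮 := by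
  have hbF : algebraMap B F b ≠ 0 := fun h =>
    hb ((IsFractionRing.injective B F) (by rw [h, map_zero]))
  constructor
  · intro hpos
    by_contra hbq
    have := placeAt_ord_eq_zero_of_unitAt (hK := hK) (hϖ := hϖ) (hϖ0 := hϖ0)
      (unitAt_algebraMap (F := F) hbq (one_notMem_of_isPrime 𝔮))
    omega
  · intro hbq
    have h1 := placeAt_ord_algebraMap_nonneg (hK := hK) (hϖ := hϖ) (hϖ0 := hϖ0) b
    by_contra hnp
    have h0 : (placeAt 𝔮 ϖ hϖ hϖ0 hK).ord (algebraMap B F b) = 0 := by omega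
    obtain ⟨σ, hσ, r, hr, h⟩ := unitAt_of_placeAt_ord_eq_zero hbF h0
    apply hr
    have e : b * σ = r := by
      apply IsFractionRing.injective B F
      rw [map_mul, h]
    rw [← e]
    exact 𝔮.mul_mem_right _ hbq

/-- Any other local generator of `𝔮` is a uniformiser of `placeAt 𝔮` as well. -/
theorem placeAt_ord_of_generatesAt {ϖ' : B} (hϖ' : GeneratesAt 𝔮 ϖ') :
    (placeAt 𝔮 ϖ hϖ hϖ0 hK).ord (algebraMap B F ϖ') = 1 := by
  obtain ⟨σ, hσ, c, h1⟩ := hϖ.2 ϖ' hϖ'.1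
  obtain ⟨σ', hσ', c', h2⟩ := hϖ'.2 ϖ hϖ.1
  have hcq : c ∉ 𝔮 := by
    intro hc
    have key : ϖ * (σ * σ' - c * c') = 0 := by
      linear_combination σ * h2 + c' * h1
    have h0 : σ * σ' = c * c' := sub_eq_zero.mp ((mul_eq_zero.mp key).resolve_left hϖ0)
    exact mul_notMem_of_isPrime hσ hσ' (h0 ▸ 𝔮.mul_mem_right _ hc)
  have hσF := algebraMap_ne_zero_of_not_mem (F := F) hσ
  have hcF := algebraMap_ne_zero_of_not_mem (F := F) hcq
  have hϖF : algebraMap B F ϖ ≠ 0 := fun h =>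
    hϖ0 ((IsFractionRing.injective B F) (by rw [h, map_zero]))
  have e : algebraMap B F ϖ' = algebraMap B F c / algebraMap B F σ * algebraMap B F ϖ := by
    have h1F : algebraMap B F σ * algebraMap B F ϖ' = algebraMap B F c * algebraMap B F ϖ := by
      rw [← map_mul, h1, map_mul]
    field_simp
    linear_combination h1F
  have hunit : UnitAt 𝔮 (algebraMap B F c / algebraMap B F σ) :=
    (unitAt_algebraMap hcq (one_notMem_of_isPrime 𝔮)).div
      (unitAt_algebraMap hσ (one_notMem_of_isPrime 𝔮))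
  rw [e, Place.ord_mul _ hunit.ne_zero hϖF, placeAt_ord_eq_zero_of_unitAt hunit, placeAt_ord_gen,
    zero_add]

end PlaceAtLemmas

end PlaceAt

section Centre

variable {B : Type*} [CommRing B] [IsDomain B] {F : Type*} [Field F] [Algebra B F]
  [IsFractionRing B F] {K : Type*} [Field K] [Algebra K F]

/-- The ring homomorphism `B → 𝒪_v` for a place `v` with `B ⊆ 𝒪_v`. -/
def toValHom (v : Place K F) (hv : ∀ b : B, 0 ≤ v.ord (algebraMap B F b)) :
    B →+* v.toValuationSubring :=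
  (algebraMap B F).codRestrict v.toValuationSubring.toSubring
    (fun b => (helper1370.mem_iff v).mpr (hv b))

@[simp]
theorem coe_toValHom (v : Place K F) (hv : ∀ b : B, 0 ≤ v.ord (algebraMap B F b)) (b : B) :
    ((toValHom v hv b : v.toValuationSubring) : F) = algebraMap B F b := rfl

/-- The centre on `B` of a place `v` with `B ⊆ 𝒪_v`. -/
def centre (v : Place K F) (hv : ∀ b : B, 0 ≤ v.ord (algebraMap B F b)) : Ideal B :=
  (IsLocalRing.maximalIdeal v.toValuationSubring).comap (toValHom v hv)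

instance centre_isPrime (v : Place K F) (hv : ∀ b : B, 0 ≤ v.ord (algebraMap B F b)) :
    (centre v hv).IsPrime :=
  Ideal.comap_isPrime _ _

theorem mem_centre_iff (v : Place K F) (hv : ∀ b : B, 0 ≤ v.ord (algebraMap B F b)) {b : B} :
    b ∈ centre v hv ↔ b = 0 ∨ 0 < v.ord (algebraMap B F b) := by
  rw [centre, Ideal.mem_comap]
  by_cases hb : b = 0
  · subst hb
    simp
  · have hne : toValHom v hv b ≠ 0 := by
      intro h
      have h1 : algebraMap B F b = 0 := congrArg Subtype.val h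
      exact hb ((IsFractionRing.injective B F) (by rw [h1, map_zero]))
    rw [← helper1370.ord_pos_iff_mem_maximalIdeal v hne, coe_toValHom]
    simp [hb]

theorem mem_centre_of_pos (v : Place K F) (hv : ∀ b : B, 0 ≤ v.ord (algebraMap B F b)) {b : B}
    (hb : 0 < v.ord (algebraMap B F b)) : b ∈ centre v hv :=
  (mem_centre_iff v hv).mpr (Or.inr hb)

/-- Elements outside the centre have order `0`. -/
theorem ord_eq_zero_of_notMem_centre (v : Place K F)
    (hv : ∀ b : B, 0 ≤ v.ord (algebraMap B F b)) {b : B} (hb : b ∉ centre v hv) :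
    v.ord (algebraMap B F b) = 0 := by
  have h1 := hv b
  have h2 : ¬ 0 < v.ord (algebraMap B F b) := fun h => hb (mem_centre_of_pos v hv h)
  omega

variable [IsNoetherianRing B]

/-- The centre of `placeAt 𝔮` is `𝔮`. -/
theorem centre_placeAt {𝔮 : Ideal B} [𝔮.IsPrime] {ϖ : B} {hϖ : GeneratesAt 𝔮 ϖ}
    {hϖ0 : ϖ ≠ 0} {hK : ∀ c : K, IntegralAt 𝔮 (algebraMap K F c)} :
    centre (placeAt 𝔮 ϖ hϖ hϖ0 hK) placeAt_ord_algebraMap_nonneg = 𝔮 := by
  ext b
  rw [mem_centre_iff]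
  by_cases hb : b = 0
  · subst hb
    simp
  · rw [placeAt_ord_pos_iff hb]
    simp [hb]

/-- **Uniqueness.**  A place of `F / K` with `B ⊆ 𝒪_v` and centre `𝔮` is `placeAt 𝔮`. -/
theorem eq_placeAt_of_centre_eq {𝔮 : Ideal B} [𝔮.IsPrime] {ϖ : B} {hϖ : GeneratesAt 𝔮 ϖ}
    {hϖ0 : ϖ ≠ 0} {hK : ∀ c : K, IntegralAt 𝔮 (algebraMap K F c)} (v : Place K F)
    (hv : ∀ b : B, 0 ≤ v.ord (algebraMap B F b)) (hc : centre v hv = 𝔮) :
    placeAt 𝔮 ϖ hϖ hϖ0 hK = v := by
  apply helper1370.eq_of_le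
  intro u hu
  obtain ⟨σ, hσ, r, h⟩ := mem_placeAt.mp hu
  rw [helper1370.mem_iff]
  by_cases hu0 : u = 0
  · rw [hu0, Place.ord_zero]
  have hσF := algebraMap_ne_zero_of_not_mem (F := F) hσ
  have hσ0 : v.ord (algebraMap B F σ) = 0 :=
    ord_eq_zero_of_notMem_centre v hv (by rw [hc]; exact hσ)
  have h1 := Place.ord_mul v hu0 hσF
  rw [h, hσ0, add_zero] at h1
  rw [← h1]
  exact hv r

end Centre

section Main

variable {K : Type*} [Field K] {F : Type*} [Field F] [Algebra K F]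
  {B : Type*} [CommRing B] [IsDomain B] [IsNoetherianRing B] [IsIntegrallyClosed B]
  [Algebra B F] [IsFractionRing B F]

/-- `P` is an integral point through the closed point `z` of the chart `B`: `B ⊆ 𝒪_P`, the
centre of `P` on `B` lies in `z`, and `z ⊆ centre + (π)` (elementwise).  This holds for the
evaluation section `B → O` at a `K`-rational point whose reduction is `z`. -/
def IsSectionPlace (z : Ideal B) (π : B) (P : Place K F) : Prop :=
  (∀ b : B, 0 ≤ P.ord (algebraMap B F b)) ∧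
  (∀ b : B, 0 < P.ord (algebraMap B F b) → b ∈ z) ∧
  (∀ a ∈ z, ∃ k c : B, (k = 0 ∨ 0 < P.ord (algebraMap B F k)) ∧ a = k + c * π)

/-- A section place through a regular closed point has a local equation: an element `s` of its
centre with `(π, s) B_z = z B_z`, which generates the centre near `z`. -/
theorem IsSectionPlace.exists_local_equation (z : Ideal B) [z.IsMaximal] (π t : B)
    (hπ : Prime π) (hπz : π ∈ z) (htz : t ∈ z) (ht : t ∉ Ideal.span {π}) (hloc : LocGen z π t)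
    (hπK : ∃ c : K, algebraMap K F c = algebraMap B F π)
    {P : Place K F} (hP : IsSectionPlace z π P) :
    ∃ s : B, s ≠ 0 ∧ s ∈ z ∧ LocGen z π s ∧ 0 < P.ord (algebraMap B F s) ∧
      GeneratesAt (centre P hP.1) s ∧
      ∃ r : B, r ∉ z ∧ ∀ a ∈ centre P hP.1, r * a ∈ Ideal.span {s} := by
  obtain ⟨k, c, hk, hkt⟩ := hP.2.2 t htz
  have hk0 : k ≠ 0 := by
    rintro rfl
    apply ht
    rw [hkt, zero_add]
    exact Ideal.mul_mem_left _ _ (Ideal.mem_span_singleton_self π)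
  have hkpos : 0 < P.ord (algebraMap B F k) := hk.resolve_left hk0
  have hkz : k ∈ z := hP.2.1 k hkpos
  have hlock : LocGen z π k := by
    intro a ha
    obtain ⟨σ, hσ, hσa⟩ := hloc a ha
    obtain ⟨α, β, hαβ⟩ := Ideal.mem_span_pair.mp hσa
    refine ⟨σ, hσ, Ideal.mem_span_pair.mpr ⟨α + β * c, β, ?_⟩⟩
    rw [← hαβ, hkt]
    ring
  have hcz : centre P hP.1 ≤ z := by
    intro b hb
    rcases (mem_centre_iff P hP.1).mp hb with rfl | hb
    · exact z.zero_mem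
    · exact hP.2.1 b hb
  have hπc : π ∉ centre P hP.1 := by
    intro hmem
    obtain ⟨c0, hc0⟩ := hπK
    rcases (mem_centre_iff P hP.1).mp hmem with h0 | hpos
    · exact hπ.ne_zero h0
    · rw [← hc0, helper1370.ord_algebraMap] at hpos
      exact lt_irrefl _ hpos
  have hkc : k ∈ centre P hP.1 := mem_centre_of_pos P hP.1 hkpos
  refine ⟨k, hk0, hkz, hlock, hkpos,
    generatesAt_of_section z π k hπz hlock (centre P hP.1) hcz hkc hπc,
    exists_forall_mul_mem_span_of_section z π k hπz hlock (centre P hP.1) hcz hkc hπc⟩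

/-- Order of the local equation of a section place at a horizontal place `placeAt 𝔮`, `𝔮 ≤ z`:
it is `1` if the section place is `placeAt 𝔮` and `0` otherwise. -/
theorem ord_local_equation {z : Ideal B} {𝔮 : Ideal B} [𝔮.IsPrime] (h𝔮z : 𝔮 ≤ z) {ϖ : B}
    {hϖ : GeneratesAt 𝔮 ϖ} {hϖ0 : ϖ ≠ 0} {hK : ∀ c : K, IntegralAt 𝔮 (algebraMap K F c)}
    {P : Place K F} (hP1 : ∀ b : B, 0 ≤ P.ord (algebraMap B F b)) {s : B} (hs0 : s ≠ 0)
    (hspos : 0 < P.ord (algebraMap B F s)) (hgen : GeneratesAt (centre P hP1) s)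
    {r : B} (hr : r ∉ z) (hrgen : ∀ a ∈ centre P hP1, r * a ∈ Ideal.span {s}) :
    (P = placeAt 𝔮 ϖ hϖ hϖ0 hK → (placeAt 𝔮 ϖ hϖ hϖ0 hK).ord (algebraMap B F s) = 1) ∧
    (P ≠ placeAt 𝔮 ϖ hϖ hϖ0 hK → (placeAt 𝔮 ϖ hϖ hϖ0 hK).ord (algebraMap B F s) = 0) := by
  have hsc : s ∈ centre P hP1 := mem_centre_of_pos P hP1 hspos
  by_cases hmem : s ∈ 𝔮
  · -- then `𝔮` is the centre of `P` and `P = placeAt 𝔮`
    have heq : 𝔮 = centre P hP1 :=
      eq_of_principalAt_of_mem (centre P hP1) 𝔮 s r hsc hs0 (fun h => hr (h𝔮z h)) hrgen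
        ⟨ϖ, hϖ⟩ hmem
    have hPv : placeAt 𝔮 ϖ hϖ hϖ0 hK = P := eq_placeAt_of_centre_eq P hP1 heq.symm
    refine ⟨fun _ => ?_, fun hne => absurd hPv.symm hne⟩
    have hgen' : GeneratesAt 𝔮 s := by rw [heq]; exact hgen
    exact placeAt_ord_of_generatesAt hgen'
  · refine ⟨fun hPv => ?_, fun _ => ?_⟩
    · exfalso
      rw [hPv] at hspos
      exact hmem ((placeAt_ord_pos_iff hs0).mp hspos)
    · have h1 := placeAt_ord_algebraMap_nonneg (hK := hK) (hϖ := hϖ) (hϖ0 := hϖ0) s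
      have h2 : ¬ 0 < (placeAt 𝔮 ϖ hϖ hϖ0 hK).ord (algebraMap B F s) :=
        fun h => hmem ((placeAt_ord_pos_iff hs0).mp h)
      omega

/-- **(LOC), place form.**  `B` a noetherian integrally closed domain with fraction field `F`,
`F / K` with the Prelude places, `z` a maximal ideal of `B` with regular pair `(π, t)`
(`π` prime, `π ∤ t`, `LocGen z π t`), `π` a constant and `K ⊆ B[1/π]`.  Let `P i`, `Q i`
(`i < m`, the SAME number of each) be section places through `z`, and `U : F` a unit at the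
vertical prime `(π)` such that for every place `v` of `F / K` centred on `B` inside `z`
`ord_v U = p * (#{i | P i = v} - #{i | Q i = v})`.  Then `U * u2 = u1 * g ^ p` with
`u1, u2 ∉ z` and `g = a / b`, `b ∉ (π)`, `a ≡ b mod π`. -/
theorem exists_loc_of_places (z : Ideal B) [z.IsMaximal] (π t : B) (hπ : Prime π)
    (hπz : π ∈ z) (htz : t ∈ z) (ht : t ∉ Ideal.span {π}) (hloc : LocGen z π t)
    (hπK : ∃ c : K, algebraMap K F c = algebraMap B F π)
    (hK : ∀ c : K, ∃ (n : ℕ) (b : B),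
      algebraMap K F c * algebraMap B F π ^ n = algebraMap B F b)
    {m : ℕ} (P Q : Fin m → Place K F)
    (hP : ∀ i, IsSectionPlace z π (P i)) (hQ : ∀ i, IsSectionPlace z π (Q i))
    (p : ℕ) (U : F) (hvert : UnitAt (Ideal.span {π}) U)
    (hdiv : ∀ v : Place K F, (∀ b : B, 0 ≤ v.ord (algebraMap B F b)) →
      (∀ b : B, 0 < v.ord (algebraMap B F b) → b ∈ z) →
      v.ord U = p * ((Nat.card {i // P i = v} : ℤ) - (Nat.card {i // Q i = v} : ℤ))) :
    ∃ (g : F) (u1 u2 : B), u1 ∉ z ∧ u2 ∉ z ∧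
      U * algebraMap B F u2 = algebraMap B F u1 * g ^ p ∧
      ∃ a b : B, b ∉ Ideal.span {π} ∧ a - b ∈ Ideal.span {π} ∧
        g * algebraMap B F b = algebraMap B F a := by
  classical
  -- local equations of the sections
  choose sx hsx0 hsxz hsxloc hsxpos hsxgen rx hrx hrxgen using
    fun i => (hP i).exists_local_equation z π t hπ hπz htz ht hloc hπK
  choose sy hsy0 hsyz hsyloc hsypos hsygen ry hry hrygen using
    fun i => (hQ i).exists_local_equation z π t hπ hπz htz ht hloc hπK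
  have hsxF : ∀ i, algebraMap B F (sx i) ≠ 0 := fun i h =>
    hsx0 i ((IsFractionRing.injective B F) (by rw [h, map_zero]))
  have hsyF : ∀ i, algebraMap B F (sy i) ≠ 0 := fun i h =>
    hsy0 i ((IsFractionRing.injective B F) (by rw [h, map_zero]))
  refine exists_loc z π t hπ hπz htz ht hloc sx sy (fun i => ⟨hsxz i, hsxloc i⟩)
    (fun i => ⟨hsyz i, hsyloc i⟩) p U hvert ?_
  intro 𝔮 h𝔮 h𝔮z h𝔮bot hπ𝔮 h𝔮pr
  obtain ⟨ϖ, hϖ⟩ := h𝔮pr
  have hϖ0 : ϖ ≠ 0 := by
    rintro rfl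
    apply h𝔮bot
    rw [eq_bot_iff]
    intro a ha
    obtain ⟨σ, hσ, b, hb⟩ := hϖ.2 a ha
    rw [mul_zero] at hb
    have hσ0 : σ ≠ 0 := fun h0 => hσ (h0 ▸ 𝔮.zero_mem)
    exact (Submodule.mem_bot B).mpr ((mul_eq_zero.mp hb).resolve_left hσ0)
  have hK𝔮 : ∀ c : K, IntegralAt 𝔮 (algebraMap K F c) := by
    intro c
    obtain ⟨n, b, hnb⟩ := hK c
    exact ⟨π ^ n, fun h => hπ𝔮 (h𝔮.mem_of_pow_mem n h), b, by rw [map_pow]; exact hnb⟩
  set v : Place K F := placeAt 𝔮 ϖ hϖ hϖ0 hK𝔮 with hv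
  have hv1 : ∀ b : B, 0 ≤ v.ord (algebraMap B F b) := fun b => placeAt_ord_algebraMap_nonneg b
  have hv2 : ∀ b : B, 0 < v.ord (algebraMap B F b) → b ∈ z := by
    intro b hb
    have hb0 : b ≠ 0 := by
      rintro rfl
      rw [map_zero, Place.ord_zero] at hb
      exact lt_irrefl _ hb
    exact h𝔮z ((placeAt_ord_pos_iff hb0).mp hb)
  have hd := hdiv v hv1 hv2
  -- orders of the local equations
  have hordx : ∀ i, v.ord (algebraMap B F (sx i)) = if P i = v then 1 else 0 := by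
    intro i
    have h := ord_local_equation (K := K) (F := F) h𝔮z (hϖ := hϖ) (hϖ0 := hϖ0) (hK := hK𝔮)
      (hP i).1 (hsx0 i) (hsxpos i) (hsxgen i) (hrx i) (hrxgen i)
    by_cases hPv : P i = v
    · rw [if_pos hPv]; exact h.1 hPv
    · rw [if_neg hPv]; exact h.2 hPv
  have hordy : ∀ i, v.ord (algebraMap B F (sy i)) = if Q i = v then 1 else 0 := by
    intro i
    have h := ord_local_equation (K := K) (F := F) h𝔮z (hϖ := hϖ) (hϖ0 := hϖ0) (hK := hK𝔮)
      (hQ i).1 (hsy0 i) (hsypos i) (hsygen i) (hry i) (hrygen i)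
    by_cases hQv : Q i = v
    · rw [if_pos hQv]; exact h.1 hQv
    · rw [if_neg hQv]; exact h.2 hQv
  have hcardP : (Nat.card {i // P i = v} : ℤ) = ∑ i, (if P i = v then (1 : ℤ) else 0) := by
    rw [Nat.card_eq_fintype_card, Fintype.card_subtype, Finset.sum_boole]
  have hcardQ : (Nat.card {i // Q i = v} : ℤ) = ∑ i, (if Q i = v then (1 : ℤ) else 0) := by
    rw [Nat.card_eq_fintype_card, Fintype.card_subtype, Finset.sum_boole]
  have hprodx : v.ord (∏ i, algebraMap B F (sx i)) = (Nat.card {i // P i = v} : ℤ) := by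
    rw [helper1370.ord_prod v _ _ (fun i _ => hsxF i), hcardP]
    exact Finset.sum_congr rfl fun i _ => hordx i
  have hprody : v.ord (∏ i, algebraMap B F (sy i)) = (Nat.card {i // Q i = v} : ℤ) := by
    rw [helper1370.ord_prod v _ _ (fun i _ => hsyF i), hcardQ]
    exact Finset.sum_congr rfl fun i _ => hordy i
  have hU0 : U ≠ 0 := hvert.ne_zero
  have hpx0 : (∏ i, algebraMap B F (sx i)) ^ p ≠ 0 :=
    pow_ne_zero _ (Finset.prod_ne_zero_iff.mpr fun i _ => hsxF i)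
  have hpy0 : (∏ i, algebraMap B F (sy i)) ^ p ≠ 0 :=
    pow_ne_zero _ (Finset.prod_ne_zero_iff.mpr fun i _ => hsyF i)
  have hV0 : U * (∏ i, algebraMap B F (sy i)) ^ p / (∏ i, algebraMap B F (sx i)) ^ p ≠ 0 :=
    div_ne_zero (mul_ne_zero hU0 hpy0) hpx0
  have hordV : v.ord (U * (∏ i, algebraMap B F (sy i)) ^ p
      / (∏ i, algebraMap B F (sx i)) ^ p) = 0 := by
    rw [helper1370.ord_div v (mul_ne_zero hU0 hpy0) hpx0, Place.ord_mul v hU0 hpy0,
      helper1370.ord_pow, helper1370.ord_pow, hprodx, hprody, hd]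
    ring
  exact unitAt_of_placeAt_ord_eq_zero hV0 hordV

end Main

end Fermat.Agent.S37.helper1949
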