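/-
S37-TB-LOCCFE (board #1909, helper1949): the place form of (LOC) with the divisor hypothesis
UPSTAIRS, on the constant field extension `F = F₀ · K` (`K = ℚ̄`, `K₀` a number field), where the
divisor `D` and the relation `q • D = div U` live.

* `valuationSubring_le_of_comap_le` (Mathlib only): if `F = span_{F₀} K`, `V₁`, `V₂` are valuation
  rings of `F` containing `K`, `V₁ ∩ F₀ ⊆ V₂ ∩ F₀` and `V₁ ∩ F₀` has residue field `K₀`, then
  `V₁ ⊆ V₂`.
* `eq_of_restrictConst_eq` : a place of `F / K` whose restriction to `F₀ / K₀` is `K₀`-rational is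
  the ONLY place of `F / K` above its restriction.
* `exists_loc_of_places_fintype` : `exists_loc_of_places` for an arbitrary finite index type.
* `exists_loc_of_pairs` : the pairs form (a family of pairs of places, each pair either through
  the closed point `z` or away from it).
* `exists_loc_of_places_constExt`, `exists_loc_of_pairs_constExt` : the same with places of
  `F / K` and the divisor hypothesis asked at the places of `F / K`.
* `isSectionPlace_of_ringHom` : `IsSectionPlace` from a section `x : B →+* O`.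
-/
import Mathlib
import Fermat.Prelude.Def_AlgebraicCurve_DivisorClassGroup
import Fermat.Agent.Lib.helper1998_PlaceRestrict
import Fermat.Agent.S37.helper1949_LocPlace

set_option autoImplicit false
set_option linter.unusedSectionVars false

noncomputable section

namespace Fermat.Agent.S37.helper1949

open AlgebraicCurve
open Fermat.Agent.S37.helper1812
open Fermat.Agent.S24
open Fermat.Agent.Lib.helper1998

section ValuationBasics

variable {F : Type*} [Field F]

theorem valuation_lt_one_iff_inv_notMem (V : ValuationSubring F) (x : F) :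
    V.valuation x < 1 ↔ x = 0 ∨ x⁻¹ ∉ V := by
  rcases eq_or_ne x 0 with rfl | hx
  · simp
  · have hpos : 0 < V.valuation x := zero_lt_iff.mpr ((Valuation.ne_zero_iff _).mpr hx)
    rw [← ValuationSubring.valuation_le_one_iff, map_inv₀, not_le, one_lt_inv₀ hpos]
    simp [hx]

theorem valuation_eq_one_of_mem_of_inv_mem (V : ValuationSubring F) {x : F} (hx : x ∈ V)
    (hx' : x⁻¹ ∈ V) (hx0 : x ≠ 0) : V.valuation x = 1 := by
  apply le_antisymm ((ValuationSubring.valuation_le_one_iff V x).mpr hx)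
  by_contra hlt
  rw [not_le] at hlt
  rcases (valuation_lt_one_iff_inv_notMem V x).mp hlt with h | h
  · exact hx0 h
  · exact h hx'

end ValuationBasics

section Uniqueness

variable {K₀ K F₀ F : Type*} [Field K₀] [Field K] [Field F₀] [Field F]
  [Algebra K₀ F₀] [Algebra F₀ F] [Algebra K₀ F] [IsScalarTower K₀ F₀ F]
  [Algebra K₀ K] [Algebra K F] [IsScalarTower K₀ K F]

/-- `F = F₀ · K` in span form: every element of `F` is an `F₀`-combination of constants. -/
theorem span_range_algebraMap_eq_top [Algebra.IsAlgebraic K₀ K]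
    (hgen : IntermediateField.adjoin F₀ (Set.range (algebraMap K F)) = ⊤) :
    Submodule.span F₀ (Set.range (algebraMap K F)) = ⊤ := by
  have hS : ∀ y ∈ Set.range (algebraMap K F), IsAlgebraic F₀ y := by
    rintro y ⟨a, rfl⟩
    have h1 : IsIntegral K₀ (algebraMap K F a) :=
      ((Algebra.IsAlgebraic.isAlgebraic (R := K₀) a).isIntegral).map
        (IsScalarTower.toAlgHom K₀ K F)
    exact h1.tower_top.isAlgebraic
  have h1 := IntermediateField.adjoin_toSubalgebra_of_isAlgebraic hS
  rw [hgen] at h1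
  have h2 : Subalgebra.toSubmodule (Algebra.adjoin F₀ (Set.range (algebraMap K F))) = ⊤ := by
    rw [← h1]
    simp
  rw [Algebra.adjoin_eq_span] at h2
  have e : Set.range (algebraMap K F)
      = ((MonoidHom.mrange ((algebraMap K F : K →+* F) : K →* F) : Submonoid F) : Set F) := by
    ext y
    simp
  rw [e, Submonoid.closure_eq] at h2
  rw [e]
  exact h2

/-- Every element of `F = F₀ · K` is a finite `F₀`-combination of members of a `K₀`-basis of
`K`. -/
theorem exists_finsupp_eq_sum (hspan : Submodule.span F₀ (Set.range (algebraMap K F)) = ⊤)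
    {ι : Type*} (b : Module.Basis ι K₀ K) (x : F) :
    ∃ g : ι →₀ F₀, x = g.sum fun j a => algebraMap F₀ F a * algebraMap K F (b j) := by
  have hx : x ∈ Submodule.span F₀ (Set.range (algebraMap K F)) := by
    rw [hspan]
    trivial
  induction hx using Submodule.span_induction with
  | mem y hy =>
    obtain ⟨c, rfl⟩ := hy
    refine ⟨(b.repr c).mapRange (algebraMap K₀ F₀) (map_zero _), ?_⟩
    rw [Finsupp.sum_mapRange_index (fun j => by rw [map_zero, zero_mul])]
    conv_lhs => rw [← b.linearCombination_repr c, Finsupp.linearCombination_apply, map_finsuppSum]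
    refine Finsupp.sum_congr fun j _ => ?_
    rw [Algebra.smul_def, map_mul, ← IsScalarTower.algebraMap_apply K₀ K F,
      ← IsScalarTower.algebraMap_apply K₀ F₀ F]
  | zero => exact ⟨0, by simp⟩
  | add y y' _ _ hy hy' =>
    obtain ⟨g, rfl⟩ := hy
    obtain ⟨g', rfl⟩ := hy'
    refine ⟨g + g', ?_⟩
    rw [Finsupp.sum_add_index' (fun j => by rw [map_zero, zero_mul])
      (fun j a a' => by rw [map_add, add_mul])]
  | smul a y _ hy =>
    obtain ⟨g, rfl⟩ := hy
    refine ⟨a • g, ?_⟩
    rw [Finsupp.sum_smul_index' (fun j => by rw [map_zero, zero_mul]), Finsupp.smul_sum]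
    refine Finsupp.sum_congr fun j _ => ?_
    rw [smul_eq_mul, map_mul, Algebra.smul_def, mul_assoc]

/-- **Valuation rings of a constant field extension above a rational valuation ring.**  Let
`F = span_{F₀} K`, `V₁`, `V₂` valuation rings of `F` containing `K`, with `V₁ ∩ F₀ ⊆ V₂ ∩ F₀` and
such that every element of `V₁ ∩ F₀` is congruent to a constant of `K₀` modulo the maximal ideal
of `V₁`.  Then `V₁ ⊆ V₂`. -/
theorem valuationSubring_le_of_comap_le
    (hspan : Submodule.span F₀ (Set.range (algebraMap K F)) = ⊤)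
    (V₁ V₂ : ValuationSubring F) (hK₁ : ∀ c : K, algebraMap K F c ∈ V₁)
    (hK₂ : ∀ c : K, algebraMap K F c ∈ V₂)
    (hle : ∀ f : F₀, algebraMap F₀ F f ∈ V₁ → algebraMap F₀ F f ∈ V₂)
    (hrat : ∀ f : F₀, algebraMap F₀ F f ∈ V₁ →
      ∃ a : K₀, V₁.valuation (algebraMap F₀ F (f - algebraMap K₀ F₀ a)) < 1) :
    V₁ ≤ V₂ := by
  classical
  intro x hx
  rcases eq_or_ne x 0 with rfl | hx0
  · exact V₂.zero_mem
  let b := Module.Basis.ofVectorSpace K₀ K
  obtain ⟨g, hg⟩ := exists_finsupp_eq_sum hspan b x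
  have hne : g.support.Nonempty := by
    rw [Finsupp.support_nonempty_iff]
    rintro rfl
    exact hx0 (by rw [hg, Finsupp.sum_zero_index])
  obtain ⟨j₀, hj₀, hmax⟩ := Finset.exists_max_image g.support
    (fun j => V₁.valuation (algebraMap F₀ F (g j))) hne
  have hg0 : g j₀ ≠ 0 := Finsupp.mem_support_iff.mp hj₀
  have hg0F : algebraMap F₀ F (g j₀) ≠ 0 := (map_ne_zero _).mpr hg0
  have hpos : 0 < V₁.valuation (algebraMap F₀ F (g j₀)) :=
    zero_lt_iff.mpr ((Valuation.ne_zero_iff _).mpr hg0F)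
  -- the normalised coefficients
  have hh : ∀ j ∈ g.support, algebraMap F₀ F (g j / g j₀) ∈ V₁ := by
    intro j hj
    rw [← ValuationSubring.valuation_le_one_iff, map_div₀, map_div₀, div_le_one₀ hpos]
    exact hmax j hj
  have hrat' : ∀ j, ∃ a : K₀, j ∈ g.support →
      V₁.valuation (algebraMap F₀ F (g j / g j₀ - algebraMap K₀ F₀ a)) < 1 := by
    intro j
    by_cases hj : j ∈ g.support
    · obtain ⟨a, ha⟩ := hrat _ (hh j hj)
      exact ⟨a, fun _ => ha⟩
    · exact ⟨0, fun h => absurd h hj⟩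
  choose a ha using hrat'
  -- the constant term
  have hc0 : (∑ j ∈ g.support, a j • b j) ≠ 0 := by
    intro h0
    have hli := b.linearIndependent
    rw [linearIndependent_iff'] at hli
    have h2 := hli g.support a h0 j₀ hj₀
    have h1 := ha j₀ hj₀
    rw [h2, map_zero, sub_zero, div_self hg0, map_one, map_one] at h1
    exact lt_irrefl _ h1
  have hxu : x = algebraMap F₀ F (g j₀) *
      ∑ j ∈ g.support, algebraMap F₀ F (g j / g j₀) * algebraMap K F (b j) := by
    rw [hg, Finsupp.sum, Finset.mul_sum]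
    refine Finset.sum_congr rfl fun j _ => ?_
    rw [← mul_assoc, ← map_mul, mul_div_cancel₀ _ hg0]
  have hu_eq : ∑ j ∈ g.support, algebraMap F₀ F (g j / g j₀) * algebraMap K F (b j)
      = algebraMap K F (∑ j ∈ g.support, a j • b j)
        + ∑ j ∈ g.support,
          algebraMap F₀ F (g j / g j₀ - algebraMap K₀ F₀ (a j)) * algebraMap K F (b j) := by
    rw [map_sum, ← Finset.sum_add_distrib]
    refine Finset.sum_congr rfl fun j _ => ?_
    rw [Algebra.smul_def, map_mul, ← IsScalarTower.algebraMap_apply K₀ K F,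
      IsScalarTower.algebraMap_apply K₀ F₀ F, map_sub]
    ring
  have hρ1 : V₁.valuation (∑ j ∈ g.support,
      algebraMap F₀ F (g j / g j₀ - algebraMap K₀ F₀ (a j)) * algebraMap K F (b j)) < 1 := by
    refine Valuation.map_sum_lt _ one_ne_zero fun j hj => ?_
    rw [map_mul]
    exact mul_lt_one_of_lt_of_le (ha j hj)
      ((ValuationSubring.valuation_le_one_iff _ _).mpr (hK₁ _))
  have hc1 : V₁.valuation (algebraMap K F (∑ j ∈ g.support, a j • b j)) = 1 := by
    refine valuation_eq_one_of_mem_of_inv_mem V₁ (hK₁ _) ?_ ((map_ne_zero _).mpr hc0)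
    rw [← map_inv₀]
    exact hK₁ _
  have hu1 : V₁.valuation
      (∑ j ∈ g.support, algebraMap F₀ F (g j / g j₀) * algebraMap K F (b j)) = 1 := by
    rw [hu_eq, Valuation.map_add_eq_of_lt_left _ (by rw [hc1]; exact hρ1), hc1]
  have hgV₁ : algebraMap F₀ F (g j₀) ∈ V₁ := by
    rw [← ValuationSubring.valuation_le_one_iff]
    have h3 := (ValuationSubring.valuation_le_one_iff V₁ x).mpr hx
    rwa [hxu, map_mul, hu1, mul_one] at h3
  have huV₂ : ∑ j ∈ g.support, algebraMap F₀ F (g j / g j₀) * algebraMap K F (b j) ∈ V₂ :=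
    Subring.sum_mem V₂.toSubring fun j hj => V₂.mul_mem _ _ (hle _ (hh j hj)) (hK₂ _)
  rw [hxu]
  exact V₂.mul_mem _ _ (hle _ hgV₁) huV₂

/-- **Uniqueness of the place above a rational place.**  In a constant field extension
`F = F₀ · K` (`K / K₀` algebraic), a place of `F / K` whose restriction to `F₀ / K₀` has residue
field `K₀` is the only place of `F / K` with that restriction. -/
theorem eq_of_restrictConst_eq [Algebra.IsAlgebraic K₀ K] [Algebra.IsAlgebraic F₀ F]
    (hgen : IntermediateField.adjoin F₀ (Set.range (algebraMap K F)) = ⊤) {v₁ v₂ : Place K F}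
    (hrat : Function.Surjective
      (algebraMap K₀ (restrictConst (K₀ := K₀) (F₀ := F₀) v₁).ResidueField))
    (h : restrictConst (K₀ := K₀) (F₀ := F₀) v₁ = restrictConst (K₀ := K₀) (F₀ := F₀) v₂) :
    v₁ = v₂ := by
  apply helper1370.eq_of_le
  refine valuationSubring_le_of_comap_le (K₀ := K₀) (F₀ := F₀)
    (span_range_algebraMap_eq_top (K₀ := K₀) hgen) _ _ v₁.algebraMap_mem' v₂.algebraMap_mem' ?_ ?_
  · intro f hf
    have h1 : f ∈ (restrictConst (K₀ := K₀) (F₀ := F₀) v₁).toValuationSubring := hf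
    rw [h] at h1
    exact h1
  · intro f hf
    obtain ⟨a, ha⟩ := hrat (IsLocalRing.residue
      (restrictConst (K₀ := K₀) (F₀ := F₀) v₁).toValuationSubring ⟨f, hf⟩)
    refine ⟨a, ?_⟩
    have h0 : IsLocalRing.residue (restrictConst (K₀ := K₀) (F₀ := F₀) v₁).toValuationSubring
        (⟨f, hf⟩ - algebraMap K₀ (restrictConst (K₀ := K₀) (F₀ := F₀) v₁).toValuationSubring a)
        = 0 := by
      rw [map_sub, sub_eq_zero]
      exact ha.symm
    rw [IsLocalRing.residue_eq_zero_iff, ValuationSubring.valuation_lt_one_iff] at h0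
    rw [valuation_lt_one_iff_inv_notMem] at h0 ⊢
    rcases h0 with h0 | h0
    · left
      have h0' : f - algebraMap K₀ F₀ a = 0 := h0
      rw [h0', map_zero]
    · right
      intro hmem
      apply h0
      show algebraMap F₀ F (f - algebraMap K₀ F₀ a)⁻¹ ∈ v₁.toValuationSubring
      rw [map_inv₀]
      exact hmem

end Uniqueness

section Fintype

variable {K : Type*} [Field K] {F : Type*} [Field F] [Algebra K F]
  {B : Type*} [CommRing B] [IsDomain B] [IsNoetherianRing B] [IsIntegrallyClosed B]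
  [Algebra B F] [IsFractionRing B F]

/-- `v` is centred on the chart `B` inside the closed point `z`. -/
def CentredIn (z : Ideal B) (v : Place K F) : Prop :=
  (∀ b : B, 0 ≤ v.ord (algebraMap B F b)) ∧ (∀ b : B, 0 < v.ord (algebraMap B F b) → b ∈ z)

theorem IsSectionPlace.centredIn {z : Ideal B} {π : B} {P : Place K F}
    (h : IsSectionPlace z π P) : CentredIn z P :=
  ⟨h.1, h.2.1⟩

/-- `IsSectionPlace` from a section: a ring homomorphism `x : B →+* O` whose kernel is the centre
of `P`, with `z ⊇ ker x` and `x z ⊆ x(π) · x(B)`. -/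
theorem isSectionPlace_of_ringHom {O : Type*} [CommRing O] (x : B →+* O) (z : Ideal B) (π : B)
    (P : Place K F) (hB : ∀ b : B, 0 ≤ P.ord (algebraMap B F b))
    (hker : ∀ b : B, x b = 0 ↔ b = 0 ∨ 0 < P.ord (algebraMap B F b))
    (hz0 : ∀ b : B, x b = 0 → b ∈ z)
    (hz : ∀ a ∈ z, ∃ c : B, x a = x c * x π) : IsSectionPlace z π P := by
  refine ⟨hB, fun b hb => hz0 b ((hker b).mpr (Or.inr hb)), fun a ha => ?_⟩
  obtain ⟨c, hc⟩ := hz a ha
  exact ⟨a - c * π, c, (hker _).mp (by rw [map_sub, map_mul, hc, sub_self]), by ring⟩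

/-- `exists_loc_of_places` for families indexed by an arbitrary finite type. -/
theorem exists_loc_of_places_fintype (z : Ideal B) [z.IsMaximal] (π t : B) (hπ : Prime π)
    (hπz : π ∈ z) (htz : t ∈ z) (ht : t ∉ Ideal.span {π}) (hloc : LocGen z π t)
    (hπK : ∃ c : K, algebraMap K F c = algebraMap B F π)
    (hK : ∀ c : K, ∃ (n : ℕ) (b : B),
      algebraMap K F c * algebraMap B F π ^ n = algebraMap B F b)
    {ι : Type*} [Finite ι] (P Q : ι → Place K F)
    (hP : ∀ i, IsSectionPlace z π (P i)) (hQ : ∀ i, IsSectionPlace z π (Q i))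
    (p : ℕ) (U : F) (hvert : UnitAt (Ideal.span {π}) U)
    (hdiv : ∀ v : Place K F, CentredIn z v →
      v.ord U = p * ((Nat.card {i // P i = v} : ℤ) - (Nat.card {i // Q i = v} : ℤ))) :
    ∃ (g : F) (u1 u2 : B), u1 ∉ z ∧ u2 ∉ z ∧
      U * algebraMap B F u2 = algebraMap B F u1 * g ^ p ∧
      ∃ a b : B, b ∉ Ideal.span {π} ∧ a - b ∈ Ideal.span {π} ∧
        g * algebraMap B F b = algebraMap B F a := by
  classical
  let e : ι ≃ Fin (Nat.card ι) := Finite.equivFin ι
  refine exists_loc_of_places z π t hπ hπz htz ht hloc hπK hK (fun i => P (e.symm i))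
    (fun i => Q (e.symm i)) (fun i => hP _) (fun i => hQ _) p U hvert ?_
  intro v hv1 hv2
  rw [hdiv v ⟨hv1, hv2⟩]
  have h1 : Nat.card {i : Fin (Nat.card ι) // P (e.symm i) = v} = Nat.card {i // P i = v} :=
    Nat.card_congr (e.symm.subtypeEquiv fun i => Iff.rfl)
  have h2 : Nat.card {i : Fin (Nat.card ι) // Q (e.symm i) = v} = Nat.card {i // Q i = v} :=
    Nat.card_congr (e.symm.subtypeEquiv fun i => Iff.rfl)
  rw [h1, h2]

/-- **(LOC), pairs form.**  `a k`, `b k` (`k < n`) pairs of places such that each pair is either a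
pair of section places through `z` or a pair of places not centred in `z` (pairs with the same
reduction), and `ord_v U = p * (#{k | a k = v} - #{k | b k = v})` at every place centred in
`z`. -/
theorem exists_loc_of_pairs (z : Ideal B) [z.IsMaximal] (π t : B) (hπ : Prime π)
    (hπz : π ∈ z) (htz : t ∈ z) (ht : t ∉ Ideal.span {π}) (hloc : LocGen z π t)
    (hπK : ∃ c : K, algebraMap K F c = algebraMap B F π)
    (hK : ∀ c : K, ∃ (n : ℕ) (b : B),
      algebraMap K F c * algebraMap B F π ^ n = algebraMap B F b)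
    {κ : Type*} [Finite κ] (a b : κ → Place K F)
    (hab : ∀ k, (IsSectionPlace z π (a k) ∧ IsSectionPlace z π (b k)) ∨
      (¬ CentredIn z (a k) ∧ ¬ CentredIn z (b k)))
    (p : ℕ) (U : F) (hvert : UnitAt (Ideal.span {π}) U)
    (hdiv : ∀ v : Place K F, CentredIn z v →
      v.ord U = p * ((Nat.card {k // a k = v} : ℤ) - (Nat.card {k // b k = v} : ℤ))) :
    ∃ (g : F) (u1 u2 : B), u1 ∉ z ∧ u2 ∉ z ∧
      U * algebraMap B F u2 = algebraMap B F u1 * g ^ p ∧
      ∃ a b : B, b ∉ Ideal.span {π} ∧ a - b ∈ Ideal.span {π} ∧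
        g * algebraMap B F b = algebraMap B F a := by
  classical
  have hQ : ∀ i : {k // IsSectionPlace z π (a k)}, IsSectionPlace z π (b i.1) := by
    intro i
    rcases hab i.1 with h | h
    · exact h.2
    · exact absurd i.2.centredIn h.1
  refine exists_loc_of_places_fintype z π t hπ hπz htz ht hloc hπK hK
    (ι := {k // IsSectionPlace z π (a k)}) (fun i => a i.1) (fun i => b i.1) (fun i => i.2) hQ
    p U hvert ?_
  intro v hv
  rw [hdiv v hv]
  have h1 : Nat.card {i : {k // IsSectionPlace z π (a k)} // a i.1 = v}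
      = Nat.card {k // a k = v} := by
    refine Nat.card_congr ⟨fun i => ⟨i.1.1, i.2⟩, fun k => ⟨⟨k.1, ?_⟩, k.2⟩, fun i => rfl,
      fun k => rfl⟩
    rcases hab k.1 with h | h
    · exact h.1
    · exact absurd (by rw [k.2]; exact hv) h.1
  have h2 : Nat.card {i : {k // IsSectionPlace z π (a k)} // b i.1 = v}
      = Nat.card {k // b k = v} := by
    refine Nat.card_congr ⟨fun i => ⟨i.1.1, i.2⟩, fun k => ⟨⟨k.1, ?_⟩, k.2⟩, fun i => rfl,
      fun k => rfl⟩
    rcases hab k.1 with h | h
    · exact h.1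
    · exact absurd (by rw [k.2]; exact hv) h.2
  rw [h1, h2]

end Fintype

section ConstExt

variable {K₀ K F₀ F : Type*} [Field K₀] [Field K] [Field F₀] [Field F]
  [Algebra K₀ F₀] [Algebra F₀ F] [Algebra K₀ F] [IsScalarTower K₀ F₀ F]
  [Algebra K₀ K] [Algebra K F] [IsScalarTower K₀ K F]
  {B : Type*} [CommRing B] [IsDomain B] [IsNoetherianRing B] [IsIntegrallyClosed B]
  [Algebra B F₀] [IsFractionRing B F₀]

variable (K₀ F₀) in
/-- A place of the big field `F / K` which is a `K₀`-rational section place through `z` of the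
chart `B` of `F₀ / K₀`. -/
def IsRatSectionPlace [Algebra.IsAlgebraic F₀ F] (z : Ideal B) (π : B) (P : Place K F) : Prop :=
  Function.Surjective (algebraMap K₀ (restrictConst (K₀ := K₀) (F₀ := F₀) P).ResidueField) ∧
    IsSectionPlace z π (restrictConst (K₀ := K₀) (F₀ := F₀) P)

/-- `CentredIn` for a restricted place, in terms of the orders upstairs. -/
theorem centredIn_restrictConst_iff [Algebra.IsAlgebraic F₀ F] (z : Ideal B) (v : Place K F) :
    CentredIn z (restrictConst (K₀ := K₀) (F₀ := F₀) v) ↔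
      (∀ b : B, algebraMap F₀ F (algebraMap B F₀ b) ∈ v.toValuationSubring) ∧
      (∀ b : B, b ≠ 0 → (algebraMap F₀ F (algebraMap B F₀ b))⁻¹ ∉ v.toValuationSubring → b ∈ z) := by
  have hinj : Function.Injective (algebraMap B F₀) := IsFractionRing.injective B F₀
  have key : ∀ b : B, b ≠ 0 →
      (0 < (restrictConst (K₀ := K₀) (F₀ := F₀) v).ord (algebraMap B F₀ b) ↔
        (algebraMap B F₀ b ∈ (restrictConst (K₀ := K₀) (F₀ := F₀) v).toValuationSubring ∧
          (algebraMap F₀ F (algebraMap B F₀ b))⁻¹ ∉ v.toValuationSubring)) := by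
    intro b hb
    have hb0 : algebraMap B F₀ b ≠ 0 := fun h => hb (hinj (by rw [h, map_zero]))
    have h1 := helper1370.mem_iff (restrictConst (K₀ := K₀) (F₀ := F₀) v) (f := algebraMap B F₀ b)
    have h2 := helper1370.mem_iff (restrictConst (K₀ := K₀) (F₀ := F₀) v)
      (f := (algebraMap B F₀ b)⁻¹)
    rw [Place.ord_inv] at h2
    have h3 : (algebraMap B F₀ b)⁻¹ ∈ (restrictConst (K₀ := K₀) (F₀ := F₀) v).toValuationSubring ↔
        (algebraMap F₀ F (algebraMap B F₀ b))⁻¹ ∈ v.toValuationSubring := by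
      rw [mem_restrictConst_iff, map_inv₀]
    rw [h1, ← h3, h2]
    constructor
    · intro h
      exact ⟨by omega, by omega⟩
    · rintro ⟨h4, h5⟩
      omega
  constructor
  · rintro ⟨h1, h2⟩
    have h1' : ∀ b : B, algebraMap B F₀ b
        ∈ (restrictConst (K₀ := K₀) (F₀ := F₀) v).toValuationSubring :=
      fun b => (helper1370.mem_iff _).mpr (h1 b)
    refine ⟨fun b => (mem_restrictConst_iff (K₀ := K₀) v _).mp (h1' b), fun b hb hinv => h2 b ?_⟩
    exact (key b hb).mpr ⟨h1' b, hinv⟩
  · rintro ⟨h1, h2⟩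
    refine ⟨fun b => (helper1370.mem_iff (restrictConst (K₀ := K₀) (F₀ := F₀) v)).mp
      ((mem_restrictConst_iff (K₀ := K₀) v _).mpr (h1 b)), fun b hb => ?_⟩
    have hb0 : b ≠ 0 := by
      rintro rfl
      rw [map_zero, Place.ord_zero] at hb
      exact lt_irrefl _ hb
    exact h2 b hb0 ((key b hb0).mp hb).2

variable [PerfectField K₀] [Algebra.IsAlgebraic K₀ K] [Algebra.IsAlgebraic F₀ F]

/-- **(LOC), place form on a constant field extension.**  The chart `B`, the closed point `z`
and the function `U` live on `F₀ / K₀`; the places `P i`, `Q i` and the divisor hypothesis live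
on `F = F₀ · K` over `K` (algebraic over `K₀`).  Each `P i`, `Q i` is a `K₀`-rational section
place through `z`. -/
theorem exists_loc_of_places_constExt
    (hgen : IntermediateField.adjoin F₀ (Set.range (algebraMap K F)) = ⊤)
    (z : Ideal B) [z.IsMaximal] (π t : B) (hπ : Prime π)
    (hπz : π ∈ z) (htz : t ∈ z) (ht : t ∉ Ideal.span {π}) (hloc : LocGen z π t)
    (hπK : ∃ c : K₀, algebraMap K₀ F₀ c = algebraMap B F₀ π)
    (hK : ∀ c : K₀, ∃ (n : ℕ) (b : B),
      algebraMap K₀ F₀ c * algebraMap B F₀ π ^ n = algebraMap B F₀ b)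
    {ι : Type*} [Finite ι] (P Q : ι → Place K F)
    (hP : ∀ i, IsRatSectionPlace K₀ F₀ z π (P i)) (hQ : ∀ i, IsRatSectionPlace K₀ F₀ z π (Q i))
    (p : ℕ) (U : F₀) (hvert : UnitAt (Ideal.span {π}) U)
    (hdiv : ∀ v : Place K F, CentredIn z (restrictConst (K₀ := K₀) (F₀ := F₀) v) →
      v.ord (algebraMap F₀ F U)
        = p * ((Nat.card {i // P i = v} : ℤ) - (Nat.card {i // Q i = v} : ℤ))) :
    ∃ (g : F₀) (u1 u2 : B), u1 ∉ z ∧ u2 ∉ z ∧
      U * algebraMap B F₀ u2 = algebraMap B F₀ u1 * g ^ p ∧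
      ∃ a b : B, b ∉ Ideal.span {π} ∧ a - b ∈ Ideal.span {π} ∧
        g * algebraMap B F₀ b = algebraMap B F₀ a := by
  refine exists_loc_of_places_fintype z π t hπ hπz htz ht hloc hπK hK
    (fun i => restrictConst (K₀ := K₀) (F₀ := F₀) (P i))
    (fun i => restrictConst (K₀ := K₀) (F₀ := F₀) (Q i)) (fun i => (hP i).2) (fun i => (hQ i).2)
    p U hvert ?_
  intro w hw
  obtain ⟨v, rfl⟩ := restrictConst_surjective (K₀ := K₀) (F₀ := F₀) hgen w
  rw [ord_restrictConst (K₀ := K₀) hgen v U, hdiv v hw]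
  have h1 : Nat.card {i // restrictConst (K₀ := K₀) (F₀ := F₀) (P i)
      = restrictConst (K₀ := K₀) (F₀ := F₀) v} = Nat.card {i // P i = v} :=
    Nat.card_congr (Equiv.subtypeEquivRight fun i =>
      ⟨fun h => eq_of_restrictConst_eq (K₀ := K₀) (F₀ := F₀) hgen (hP i).1 h,
        fun h => by rw [h]⟩)
  have h2 : Nat.card {i // restrictConst (K₀ := K₀) (F₀ := F₀) (Q i)
      = restrictConst (K₀ := K₀) (F₀ := F₀) v} = Nat.card {i // Q i = v} :=
    Nat.card_congr (Equiv.subtypeEquivRight fun i =>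
      ⟨fun h => eq_of_restrictConst_eq (K₀ := K₀) (F₀ := F₀) hgen (hQ i).1 h,
        fun h => by rw [h]⟩)
  rw [h1, h2]

/-- **(LOC), pairs form on a constant field extension.**  `a k`, `b k` pairs of places of
`F / K`; each pair is either a pair of `K₀`-rational section places through `z` or a pair of
places whose restrictions are not centred in `z`; the divisor hypothesis
`ord_v U = p * (#{k | a k = v} - #{k | b k = v})` is asked at the places `v` of `F / K` whose
restriction is centred in `z`. -/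
theorem exists_loc_of_pairs_constExt
    (hgen : IntermediateField.adjoin F₀ (Set.range (algebraMap K F)) = ⊤)
    (z : Ideal B) [z.IsMaximal] (π t : B) (hπ : Prime π)
    (hπz : π ∈ z) (htz : t ∈ z) (ht : t ∉ Ideal.span {π}) (hloc : LocGen z π t)
    (hπK : ∃ c : K₀, algebraMap K₀ F₀ c = algebraMap B F₀ π)
    (hK : ∀ c : K₀, ∃ (n : ℕ) (b : B),
      algebraMap K₀ F₀ c * algebraMap B F₀ π ^ n = algebraMap B F₀ b)
    {κ : Type*} [Finite κ] (a b : κ → Place K F)
    (hab : ∀ k, (IsRatSectionPlace K₀ F₀ z π (a k) ∧ IsRatSectionPlace K₀ F₀ z π (b k)) ∨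
      (¬ CentredIn z (restrictConst (K₀ := K₀) (F₀ := F₀) (a k)) ∧
        ¬ CentredIn z (restrictConst (K₀ := K₀) (F₀ := F₀) (b k))))
    (p : ℕ) (U : F₀) (hvert : UnitAt (Ideal.span {π}) U)
    (hdiv : ∀ v : Place K F, CentredIn z (restrictConst (K₀ := K₀) (F₀ := F₀) v) →
      v.ord (algebraMap F₀ F U)
        = p * ((Nat.card {k // a k = v} : ℤ) - (Nat.card {k // b k = v} : ℤ))) :
    ∃ (g : F₀) (u1 u2 : B), u1 ∉ z ∧ u2 ∉ z ∧
      U * algebraMap B F₀ u2 = algebraMap B F₀ u1 * g ^ p ∧
      ∃ a b : B, b ∉ Ideal.span {π} ∧ a - b ∈ Ideal.span {π} ∧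
        g * algebraMap B F₀ b = algebraMap B F₀ a := by
  classical
  have hQ : ∀ i : {k // IsRatSectionPlace K₀ F₀ z π (a k)}, IsRatSectionPlace K₀ F₀ z π (b i.1) := by
    intro i
    rcases hab i.1 with h | h
    · exact h.2
    · exact absurd i.2.2.centredIn h.1
  refine exists_loc_of_places_constExt hgen z π t hπ hπz htz ht hloc hπK hK
    (ι := {k // IsRatSectionPlace K₀ F₀ z π (a k)}) (fun i => a i.1) (fun i => b i.1)
    (fun i => i.2) hQ p U hvert ?_
  intro v hv
  rw [hdiv v hv]
  have h1 : Nat.card {i : {k // IsRatSectionPlace K₀ F₀ z π (a k)} // a i.1 = v}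
      = Nat.card {k // a k = v} := by
    refine Nat.card_congr ⟨fun i => ⟨i.1.1, i.2⟩, fun k => ⟨⟨k.1, ?_⟩, k.2⟩, fun i => rfl,
      fun k => rfl⟩
    rcases hab k.1 with h | h
    · exact h.1
    · exact absurd (by rw [k.2]; exact hv) h.1
  have h2 : Nat.card {i : {k // IsRatSectionPlace K₀ F₀ z π (a k)} // b i.1 = v}
      = Nat.card {k // b k = v} := by
    refine Nat.card_congr ⟨fun i => ⟨i.1.1, i.2⟩, fun k => ⟨⟨k.1, ?_⟩, k.2⟩, fun i => rfl,
      fun k => rfl⟩
    rcases hab k.1 with h | h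
    · exact h.1
    · exact absurd (by rw [k.2]; exact hv) h.2
  rw [h1, h2]

end ConstExt

end Fermat.Agent.S37.helper1949
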