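/-
S37-E3 NRM, part 2 (helper2023, board #1396): chart FAMILIES.

On top of `helper2023_ChartNormal`:
* `placeRed_congr` : the lattice place reduction does not depend on the anchor;
* `exists_moebius` : from ONE anchored chart (coordinate `x`) one gets the `LatHyp` and the
  `ChartHyp` of every chart `1/(x - a)`, `a ∈ A` (in particular the chart at infinity `1/x`),
  with the same place reduction;
* `chartRel_iff` : for the two charts `x`, `1/x`: `ChartRel A {chart x, chart 1/x} P P'`
  holds iff `r P = r P'` — for ALL places `P`, `P'`;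
* `mapDomain_placeRed_eq_zero_of_mem_closure`, `ord_red_eq_zero_of_nsmul_eq_div` : the local
  formula (G3) in closure form; `exists_rep_of_mem_relSubgroup` : divisor representatives of
  the elements of `helper2025.relSubgroup`.
-/
import Mathlib
import Fermat.Agent.S37.helper2023_ChartNormal

set_option autoImplicit false

noncomputable section

open AlgebraicCurve

namespace Fermat.Agent.S37.helper2023

open Fermat.Agent.S37.helper5413 Fermat.Agent.S37.helper2025

section Family

variable {L F k Fk : Type*} [Field L] [Field F] [Algebra L F] [Field k] [Field Fk] [Algebra k Fk]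
variable {O : ValuationSubring F} {red : O →+* Fk} {g c : ℤ}
  {E₀ : Divisor L F} {E₀k : Divisor k Fk}
variable {A : ValuationSubring L} {π : A →+* k} {x : O}

/-- The place reduction of a `LatHyp` does not depend on the anchor divisors. -/
theorem placeRed_congr {E₁ : Divisor L F} {E₁k : Divisor k Fk}
    (H : LatHyp O red g c E₀ E₀k) (H' : LatHyp O red g c E₁ E₁k) :
    H'.placeRed = H.placeRed := by
  funext P
  obtain ⟨T, hT⟩ := H.exists_thr_le
  exact H'.placeRed_eq_of hT (H.rho_add_single hT P)

theorem degree_mapDomain_placeRed (H : LatHyp O red g c E₀ E₀k) (D : Divisor L F) :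
    Divisor.degree (Finsupp.mapDomain H.placeRed D) = Divisor.degree D := by
  induction D using Finsupp.induction_linear with
  | zero => simp
  | add X Y hX hY => rw [Finsupp.mapDomain_add, map_add, map_add, hX, hY]
  | single P n =>
    rw [Finsupp.mapDomain_single, Divisor.degree_single, Divisor.degree_single, H.deg_placeRed]

/-! ### The local formula (G3) in closure form -/

/-- A divisor in the subgroup generated by the differences `[v] - [w]` of places with the same
reduction has zero reduction. -/
theorem mapDomain_placeRed_eq_zero_of_mem_closure (H : LatHyp O red g c E₀ E₀k)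
    {rel : Place L F → Place L F → Prop}
    (hrel : ∀ v w, rel v w → H.placeRed v = H.placeRed w) {D : Divisor L F}
    (hD : D ∈ AddSubgroup.closure {D : Divisor L F | ∃ v w, rel v w ∧ D = pointDiff v w}) :
    Finsupp.mapDomain H.placeRed D = 0 := by
  induction hD using AddSubgroup.closure_induction with
  | mem D hD =>
    obtain ⟨v, w, hvw, rfl⟩ := hD
    rw [pointDiff, Finsupp.mapDomain_sub, Finsupp.mapDomain_single, Finsupp.mapDomain_single,
      hrel v w hvw, sub_self]
  | zero => exact Finsupp.mapDomain_zero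
  | add D D' _ _ h h' => rw [Finsupp.mapDomain_add, h, h', add_zero]
  | neg D _ h =>
    rw [← Finsupp.mapDomain.addMonoidHom_apply, map_neg, Finsupp.mapDomain.addMonoidHom_apply, h,
      neg_zero]

/-- **Local formula (G3).** If the divisor of a Gauss unit `U` is a multiple of a divisor in the
closure of the pairs with equal reduction, then `red U` has neither zeros nor poles. -/
theorem ord_red_eq_zero_of_nsmul_eq_div (H : LatHyp O red g c E₀ E₀k)
    {rel : Place L F → Place L F → Prop}
    (hrel : ∀ v w, rel v w → H.placeRed v = H.placeRed w) {D : Divisor L F}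
    (hD : D ∈ AddSubgroup.closure {D : Divisor L F | ∃ v w, rel v w ∧ D = pointDiff v w})
    {U : O} (hU : red U ≠ 0) {n : ℕ} (hdiv : ∀ P, (n • D) P = P.ord (U : F))
    (Q : Place k Fk) : Q.ord (red U) = 0 := by
  have h1 := H.mapDomain_placeRed_div hU hdiv Q
  rw [Finsupp.mapDomain_smul, mapDomain_placeRed_eq_zero_of_mem_closure H hrel hD, smul_zero,
    Finsupp.zero_apply] at h1
  exact h1.symm

/-- Every element of `relSubgroup rel` is the class of a degree-zero divisor lying in the
subgroup of divisors generated by the pairs `[v] - [w]`, `rel v w`. -/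
theorem exists_rep_of_mem_relSubgroup {rel : Place L F → Place L F → Prop} {z : Pic0 L F}
    (hz : z ∈ relSubgroup rel) :
    ∃ D : Divisor.degZero (K := L) (F := F), Pic0.mk D = z ∧
      (D : Divisor L F) ∈
        AddSubgroup.closure {D : Divisor L F | ∃ v w, rel v w ∧ D = pointDiff v w} := by
  induction hz using AddSubgroup.closure_induction with
  | mem z hz =>
    obtain ⟨v, w, hd, hr, rfl⟩ := hz
    exact ⟨⟨pointDiff v w, pointDiff_mem_degZero hd⟩, rfl,
      AddSubgroup.subset_closure ⟨v, w, hr, rfl⟩⟩
  | zero => exact ⟨0, rfl, AddSubgroup.zero_mem _⟩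
  | add z z' _ _ h h' =>
    obtain ⟨D, rfl, hD⟩ := h
    obtain ⟨D', rfl, hD'⟩ := h'
    exact ⟨D + D', rfl, AddSubgroup.add_mem _ hD hD'⟩
  | neg z _ h =>
    obtain ⟨D, rfl, hD⟩ := h
    exact ⟨-D, rfl, AddSubgroup.neg_mem _ hD⟩

/-! ### Moebius change of the anchor -/

/-- **Moebius anchors.** From the chart of the coordinate `x` one gets, for every `a ∈ A`, the
lattice hypotheses and the chart hypotheses of the coordinate `x' = 1/(x - a)` (whose poles are
the points of the fibre `x = a`).  For `a = 0` this is the chart at infinity. -/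
theorem exists_moebius (H : LatHyp O red g c E₀ E₀k) (C : ChartHyp O red A π x E₀ E₀k) (a : A) :
    ∃ (x' : O) (E₁ : Divisor L F) (E₁k : Divisor k Fk),
      (x' : F) = ((x : F) - algebraMap L F (a : L))⁻¹ ∧
      (∀ P : Place L F, E₁ P = max 0 (P.ord ((x : F) - algebraMap L F (a : L)))) ∧
      LatHyp O red g c E₁ E₁k ∧ ChartHyp O red A π x' E₁ E₁k := by
  classical
  have hredw_ne := red_sub_const_ne_zero H C a
  have hredw : red (x - C.const a) = red x - algebraMap k Fk (π a) := by
    rw [map_sub, C.red_const']
  have hu : IsUnit (x - C.const a) := H.isUnit_of_red_ne_zero hredw_ne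
  obtain ⟨x', hx'⟩ := hu.exists_right_inv
  have hwF : ((x - C.const a : O) : F) = (x : F) - algebraMap L F (a : L) := rfl
  have hw0 : ((x - C.const a : O) : F) ≠ 0 := LatHyp.coe_ne_zero_of_red_ne_zero hredw_ne
  have hx'F : (x' : F) = ((x : F) - algebraMap L F (a : L))⁻¹ := by
    have h1 : ((x - C.const a : O) : F) * (x' : F) = 1 :=
      congrArg (fun z : O => (z : F)) hx'
    rw [← hwF]
    exact eq_inv_of_mul_eq_one_right h1
  have hredx' : red x' = (red (x - C.const a))⁻¹ := by
    have h1 : red (x - C.const a) * red x' = 1 := by rw [← map_mul, hx', map_one]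
    exact eq_inv_of_mul_eq_one_right h1
  obtain ⟨D, hD⟩ : ∃ D : Divisor L F, ∀ P, D P = P.ord ((x - C.const a : O) : F) :=
    ⟨Finsupp.ofSupportFinite _ (C.finL _ hw0), fun P => rfl⟩
  obtain ⟨Dk, hDk⟩ : ∃ Dk : Divisor k Fk, ∀ Q, Dk Q = Q.ord (red (x - C.const a)) :=
    ⟨Finsupp.ofSupportFinite _ (H.finite_ord _ hredw_ne), fun Q => rfl⟩
  have hE₁ : ∀ P : Place L F, (D + E₀) P = max 0 (P.ord ((x : F) - algebraMap L F (a : L))) := by
    intro P
    rw [Finsupp.add_apply, hD, C.E₀_eq, hwF]
    by_cases hneg : P.ord (x : F) < 0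
    · rw [Fermat.Agent.S24.helper1370.ord_sub_algebraMap_of_ord_neg P hneg,
        max_eq_right (by linarith), max_eq_left (by linarith)]
      ring
    · have h0 := not_lt.mp hneg
      have h1 := Fermat.Agent.S24.helper1370.ord_sub_algebraMap_nonneg P h0 (a : L)
      rw [max_eq_left (by linarith), max_eq_right h1, add_zero]
  have hE₁k : ∀ Q : Place k Fk,
      (Dk + E₀k) Q = max 0 (Q.ord (red x - algebraMap k Fk (π a))) := by
    intro Q
    rw [Finsupp.add_apply, hDk, C.E₀k_eq, hredw]
    by_cases hneg : Q.ord (red x) < 0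
    · rw [Fermat.Agent.S24.helper1370.ord_sub_algebraMap_of_ord_neg Q hneg,
        max_eq_right (by linarith), max_eq_left (by linarith)]
      ring
    · have h0 := not_lt.mp hneg
      have h1 := Fermat.Agent.S24.helper1370.ord_sub_algebraMap_nonneg Q h0 (π a)
      rw [max_eq_left (by linarith), max_eq_right h1, add_zero]
  have hdegD : Divisor.degree D = 0 := H.deg0 _ hw0 D hD
  have hDk_eq : Dk = Finsupp.mapDomain H.placeRed D := by
    ext Q
    rw [hDk, H.mapDomain_placeRed_div hredw_ne hD Q]
  have hdegDk : Divisor.degree Dk = 0 := by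
    rw [hDk_eq, degree_mapDomain_placeRed, hdegD]
  refine ⟨x', D + E₀, Dk + E₀k, hx'F, hE₁, ?_, ?_⟩
  · refine
      { red_nonunit := H.red_nonunit
        degL := H.degL
        degk := H.degk
        finite_ord := H.finite_ord
        deg0 := H.deg0
        lat := H.lat
        rk := H.rk
        E₀_pos := ?_
        E₀k_le := ?_
        anchor := ?_ }
    · rw [map_add, hdegD, zero_add]; exact H.E₀_pos
    · rw [map_add, map_add, hdegD, hdegDk, zero_add, zero_add]; exact H.E₀k_le
    · intro m f hf
      by_cases hrf : red f = 0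
      · rw [hrf]; exact Submodule.zero_mem _
      have hf0 : (f : F) ≠ 0 := LatHyp.coe_ne_zero_of_red_ne_zero hrf
      have hmem : ((f * (x - C.const a) ^ m : O) : F) ∈ riemannRochSpace (m • E₀) := by
        rw [mem_rr_nsmul_iff]
        right
        intro P
        have h1 := (mem_rr_nsmul_iff.mp hf).resolve_left hf0 P
        have hcoe : ((f * (x - C.const a) ^ m : O) : F)
            = (f : F) * ((x - C.const a : O) : F) ^ m := rfl
        rw [hcoe, P.ord_mul hf0 (pow_ne_zero m hw0), Fermat.Agent.S24.helper1370.ord_pow]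
        rw [Finsupp.add_apply, hD] at h1
        linarith [mul_add (m : ℤ) (P.ord ((x - C.const a : O) : F)) (E₀ P)]
      have h2 := H.anchor m (f * (x - C.const a) ^ m) hmem
      rw [map_mul, map_pow] at h2
      rw [mem_rr_nsmul_iff]
      right
      intro Q
      have h3 := (mem_rr_nsmul_iff.mp h2).resolve_left
        (mul_ne_zero hrf (pow_ne_zero m hredw_ne)) Q
      rw [Q.ord_mul hrf (pow_ne_zero m hredw_ne), Fermat.Agent.S24.helper1370.ord_pow] at h3
      rw [Finsupp.add_apply, hDk]
      linarith [mul_add (m : ℤ) (Q.ord (red (x - C.const a))) (E₀k Q)]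
  · exact
      { A_le := C.A_le
        O_le := C.O_le
        red_const := C.red_const
        π_surj := C.π_surj
        E₀_eq := fun P => by rw [hE₁ P, hx'F, Place.ord_inv, neg_neg]
        E₀k_eq := fun Q => by rw [hE₁k Q, hredx', hredw, Place.ord_inv, neg_neg]
        finL := C.finL }

/-! ### The two charts `x`, `1/x` cover all places -/

theorem red_x_ne_zero (H : LatHyp O red g c E₀ E₀k) (C : ChartHyp O red A π x E₀ E₀k) :
    red x ≠ 0 := by
  obtain ⟨Q, hQ⟩ := exists_pole_red H C
  intro h0
  rw [h0, Place.ord_zero] at hQ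
  exact lt_irrefl _ hQ

/-- Every place is a chart point of `x`, or a chart point of `1/x` at which `1/x` has
non-unit value. -/
theorem chartPt_or (H : LatHyp O red g c E₀ E₀k) {x' : O} (hx' : (x' : F) = (x : F)⁻¹)
    (P : Place L F) :
    (∃ a : A, HasValueAt P (x : F) (a : L)) ∨
      (∃ b : A, HasValueAt P (x' : F) (b : L) ∧ ¬ IsUnit b) := by
  by_cases hxP : (x : F) ∈ P.toValuationSubring
  · obtain ⟨a, ha⟩ := exists_hasValueAt (residue_surjective_of_deg_eq_one P (H.degL P)) hxP
    by_cases haA : a ∈ A
    · exact Or.inl ⟨⟨a, haA⟩, ha⟩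
    · right
      have hinv : a⁻¹ ∈ A := (A.mem_or_inv_mem a).resolve_left haA
      have ha0 : a ≠ 0 := fun h => haA (h ▸ A.zero_mem)
      refine ⟨⟨a⁻¹, hinv⟩, ?_, ?_⟩
      · rw [hx']; exact ha.inv ha0
      · intro hu
        obtain ⟨b', hb'⟩ := hu.exists_right_inv
        have h1 : a⁻¹ * (b' : L) = 1 := congrArg (fun z : A => (z : L)) hb'
        have h2 : (b' : L) = a := by
          have := eq_inv_of_mul_eq_one_right h1
          rwa [inv_inv] at this
        exact haA (h2 ▸ b'.2)
  · right
    refine ⟨0, ?_, not_isUnit_zero⟩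
    rw [hx']
    exact hasValueAt_inv_zero_of_not_mem hxP

/-- a chart point of `1/x` with non-unit value reduces to a pole of `x̄`. -/
theorem E₀k_pos_of_nonunit {E₁ : Divisor L F} {E₁k : Divisor k Fk} {x' : O}
    (H : LatHyp O red g c E₀ E₀k) (C : ChartHyp O red A π x E₀ E₀k)
    (hx' : (x' : F) = (x : F)⁻¹) (H' : LatHyp O red g c E₁ E₁k)
    (C' : ChartHyp O red A π x' E₁ E₁k) {P : Place L F} {b : A}
    (hb : HasValueAt P (x' : F) (b : L)) (hbu : ¬ IsUnit b) :
    0 < E₀k (H.placeRed P) := by
  have h1 := (placeRed_chartPt H' C' hb).2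
  rw [ChartHyp.π_eq_zero H C hbu, placeRed_congr H H'] at h1
  have hrx := red_x_ne_zero H C
  have hx0 : (x : F) ≠ 0 := LatHyp.coe_ne_zero_of_red_ne_zero hrx
  have hxx : x' * x = 1 := by
    apply Subtype.ext
    show (x' : F) * (x : F) = 1
    rw [hx', inv_mul_cancel₀ hx0]
  have hmul : red x' * red x = 1 := by rw [← map_mul, hxx, map_one]
  have hrx' : red x' ≠ 0 := left_ne_zero_of_mul_eq_one hmul
  rw [hasValueAt_iff_ord, map_zero, sub_zero] at h1
  have h2 := h1.resolve_left hrx'
  have hrxe : red x = (red x')⁻¹ := eq_inv_of_mul_eq_one_right hmul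
  rw [C.E₀k_eq, hrxe, Place.ord_inv, neg_neg]
  exact lt_max_of_lt_right h2

/-- **Two-chart theorem**: for the charts of `x` and of `1/x`, the crude chart relation
("same residue homomorphism on one of the two charts") is EXACTLY the fibre relation of the
lattice place reduction, for all places. -/
theorem chartRel_iff {E₁ : Divisor L F} {E₁k : Divisor k Fk} {x' : O}
    (H : LatHyp O red g c E₀ E₀k) (C : ChartHyp O red A π x E₀ E₀k)
    (hx' : (x' : F) = (x : F)⁻¹) (H' : LatHyp O red g c E₁ E₁k)
    (C' : ChartHyp O red A π x' E₁ E₁k) (P P' : Place L F) :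
    ChartRel A {chartSet O E₀, chartSet O E₁} P P' ↔ H.placeRed P = H.placeRed P' := by
  constructor
  · rintro ⟨R, hR, hs⟩
    rcases hR with rfl | hR
    · exact ((sameResidueOn_iff H C P P').mp hs).2.2
    · rw [Set.mem_singleton_iff] at hR
      subst hR
      have := ((sameResidueOn_iff H' C' P P').mp hs).2.2
      rwa [placeRed_congr H H'] at this
  · intro hr
    rcases chartPt_or (A := A) H hx' P with ⟨a, ha⟩ | ⟨b, hb, hbu⟩
    · rcases chartPt_or (A := A) H hx' P' with ⟨a', ha'⟩ | ⟨b', hb', hbu'⟩
      · exact ⟨chartSet O E₀, Set.mem_insert _ _,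
          (sameResidueOn_iff H C P P').mpr
            ⟨inChart_chartSet H C ha, inChart_chartSet H C ha', hr⟩⟩
      · exfalso
        have h1 := (placeRed_chartPt H C ha).1
        have h2 := E₀k_pos_of_nonunit H C hx' H' C' hb' hbu'
        rw [hr] at h1
        rw [h1] at h2
        exact lt_irrefl _ h2
    · rcases chartPt_or (A := A) H hx' P' with ⟨a', ha'⟩ | ⟨b', hb', hbu'⟩
      · exfalso
        have h1 := (placeRed_chartPt H C ha').1
        have h2 := E₀k_pos_of_nonunit H C hx' H' C' hb hbu
        rw [hr, h1] at h2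
        exact lt_irrefl _ h2
      · refine ⟨chartSet O E₁, Set.mem_insert_of_mem _ rfl,
          (sameResidueOn_iff H' C' P P').mpr
            ⟨inChart_chartSet H' C' hb, inChart_chartSet H' C' hb', ?_⟩⟩
        rw [placeRed_congr H H']
        exact hr

/-- **Packaged form**: the chart at infinity exists, and the crude relation on the two charts
is the fibre relation of the place reduction. -/
theorem exists_chartRel_iff (H : LatHyp O red g c E₀ E₀k) (C : ChartHyp O red A π x E₀ E₀k) :
    ∃ E₁ : Divisor L F, (∀ P : Place L F, E₁ P = max 0 (P.ord (x : F))) ∧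
      ∀ P P' : Place L F,
        ChartRel A {chartSet O E₀, chartSet O E₁} P P' ↔ H.placeRed P = H.placeRed P' := by
  obtain ⟨x', E₁, E₁k, hx', hE₁, H', C'⟩ := exists_moebius H C 0
  have hx'' : (x' : F) = (x : F)⁻¹ := by
    rw [hx']; simp
  refine ⟨E₁, fun P => ?_, fun P P' => chartRel_iff H C hx'' H' C' P P'⟩
  rw [hE₁ P]; simp

/-- Consequence: the relation subgroup of the two-chart crude relation is the relation subgroup
of "same place reduction". -/
theorem relSubgroup_chartRel_eq {E₁ : Divisor L F} {E₁k : Divisor k Fk} {x' : O}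
    (H : LatHyp O red g c E₀ E₀k) (C : ChartHyp O red A π x E₀ E₀k)
    (hx' : (x' : F) = (x : F)⁻¹) (H' : LatHyp O red g c E₁ E₁k)
    (C' : ChartHyp O red A π x' E₁ E₁k) :
    relSubgroup (ChartRel A {chartSet O E₀, chartSet O E₁})
      = relSubgroup fun P P' : Place L F => H.placeRed P = H.placeRed P' :=
  le_antisymm (relSubgroup_mono fun P P' h => (chartRel_iff H C hx' H' C' P P').mp h)
    (relSubgroup_mono fun P P' h => (chartRel_iff H C hx' H' C' P P').mpr h)

end Family

end Fermat.Agent.S37.helper2023

end
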