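/-
S37/S18-NONSPECIAL (backup copy, board #1309; owner copy: board #1278).

Producer of hypothesis (NS) of the abstract torsion core (board #1163/#1208):
on a function field `F/K` (Prelude vocabulary `Place` / `Divisor` / `riemannRochSpace`)
in ANY characteristic, assume only

* every Riemann-Roch space is finite-dimensional,
* Riemann's EQUALITY `dim L(D) = deg D + 1 - g` for `deg D ≥ c`,
* all places have degree one, `dim L(0) = 1`, and there are infinitely many places.

Then outside any finite set of places there are `g` pairwise distinct places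
`s_1, …, s_g` with `L(s_1 + ⋯ + s_g) = L(0)`.

No Riemann inequality, no duality, no step bound `l(D + s) ≤ l(D) + 1` is used.
-/
import Mathlib
import Fermat.Prelude.Def_AlgebraicCurve_Repartitions

set_option autoImplicit false

noncomputable section

namespace Fermat.Agent.S37.helper2293

open AlgebraicCurve

variable {K F : Type*} [Field K] [Field F] [Algebra K F]

/-- The reduced divisor `∑_{s ∈ T} s`. -/
def sumPlaces (T : Finset (Place K F)) : Divisor K F :=
  ∑ s ∈ T, Finsupp.single s (1 : ℤ)

theorem sumPlaces_apply_of_notMem {T : Finset (Place K F)} {v : Place K F} (hv : v ∉ T) :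
    sumPlaces T v = 0 := by
  classical
  rw [sumPlaces, Finsupp.finsetSum_apply]
  refine Finset.sum_eq_zero fun s hs => ?_
  rw [Finsupp.single_apply, if_neg]
  rintro rfl
  exact hv hs

theorem sumPlaces_apply_nonneg (T : Finset (Place K F)) (v : Place K F) :
    0 ≤ sumPlaces T v := by
  classical
  rw [sumPlaces, Finsupp.finsetSum_apply]
  refine Finset.sum_nonneg fun s _ => ?_
  rw [Finsupp.single_apply]
  split_ifs <;> norm_num

theorem sumPlaces_apply_of_mem {T : Finset (Place K F)} {v : Place K F} (hv : v ∈ T) :
    sumPlaces T v = 1 := by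
  classical
  rw [sumPlaces, Finsupp.finsetSum_apply, Finset.sum_eq_single v]
  · rw [Finsupp.single_eq_same]
  · intro s _ hsv
    rw [Finsupp.single_apply, if_neg hsv]
  · intro h
    exact absurd hv h

open Classical in
theorem sumPlaces_insert {T : Finset (Place K F)} {a : Place K F} (ha : a ∉ T) :
    sumPlaces (insert a T) = sumPlaces T + Finsupp.single a (1 : ℤ) := by
  rw [sumPlaces, Finset.sum_insert ha, add_comm]
  rfl

theorem degree_sumPlaces (hdeg : ∀ v : Place K F, v.deg = 1) (T : Finset (Place K F)) :
    Divisor.degree (sumPlaces T) = T.card := by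
  rw [sumPlaces, map_sum]
  simp [Divisor.degree_single, hdeg]

/-- Monotonicity of Riemann-Roch spaces (pointwise form). -/
theorem rrSpace_mono {D E : Divisor K F} (h : ∀ v, D v ≤ E v) :
    riemannRochSpace D ≤ riemannRochSpace E := by
  intro f hf
  rw [mem_riemannRochSpace_iff] at hf ⊢
  intro v
  rcases hf v with h0 | h1
  · exact Or.inl h0
  · exact Or.inr (le_trans (neg_le_neg (h v)) h1)

theorem rrSpace_le_add_single (D : Divisor K F) (s : Place K F) :
    riemannRochSpace D ≤ riemannRochSpace (D + Finsupp.single s (1 : ℤ)) := by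
  classical
  refine rrSpace_mono fun v => ?_
  rw [Finsupp.add_apply, Finsupp.single_apply]
  split_ifs <;> omega

/-- `s` is a jump of `D` if `L(D + s) ≠ L(D)`. -/
def IsJump (D : Divisor K F) (s : Place K F) : Prop :=
  ¬ riemannRochSpace (D + Finsupp.single s (1 : ℤ)) ≤ riemannRochSpace D

theorem not_isJump_iff {D : Divisor K F} {s : Place K F} :
    ¬ IsJump D s ↔ riemannRochSpace (D + Finsupp.single s (1 : ℤ)) = riemannRochSpace D := by
  rw [IsJump, not_not]
  exact ⟨fun h => le_antisymm h (rrSpace_le_add_single D s), fun h => h.le⟩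

/-- A witness of a jump has a pole of order exactly one more than allowed at `s`. -/
theorem exists_witness_of_isJump {D : Divisor K F} {s : Place K F} (h : IsJump D s) :
    ∃ f : F, f ∈ riemannRochSpace (D + Finsupp.single s (1 : ℤ)) ∧ f ≠ 0 ∧ s.ord f < -D s := by
  classical
  obtain ⟨f, hf, hfD⟩ := SetLike.not_le_iff_exists.mp h
  refine ⟨f, hf, ?_, ?_⟩
  · rintro rfl
    exact hfD (Submodule.zero_mem _)
  · rw [mem_riemannRochSpace_iff] at hf hfD
    push Not at hfD
    obtain ⟨v, hv0, hv⟩ := hfD
    by_cases hvs : v = s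
    · subst hvs
      exact hv
    · exfalso
      rcases hf v with h0 | h1
      · exact hv0 h0
      · rw [Finsupp.add_apply, Finsupp.single_apply, if_neg (Ne.symm hvs), add_zero] at h1
        omega

/-- Jump persistence: a jump of `D` stays a jump of `D + E` for every effective `E`
not containing `s`. -/
theorem IsJump.add {D : Divisor K F} {s : Place K F} (h : IsJump D s) {E : Divisor K F}
    (hE : ∀ v, 0 ≤ E v) (hEs : E s = 0) : IsJump (D + E) s := by
  obtain ⟨f, hf, hf0, hfs⟩ := exists_witness_of_isJump h
  intro hle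
  have hmem : f ∈ riemannRochSpace (D + E + Finsupp.single s (1 : ℤ)) := by
    refine rrSpace_mono (fun v => ?_) hf
    have := hE v
    simp only [Finsupp.add_apply]
    omega
  have h2 := hle hmem
  rw [mem_riemannRochSpace_iff] at h2
  rcases h2 s with h0 | h1
  · exact hf0 h0
  · rw [Finsupp.add_apply, hEs, add_zero] at h1
    omega

section Finite

variable (hfin : ∀ D : Divisor K F, Module.Finite K (riemannRochSpace D))
include hfin

/-- Along a finite set of jumps of `D` the dimension grows by at least the cardinality. -/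
theorem finrank_add_card_le {D : Divisor K F} (T : Finset (Place K F))
    (hT : ∀ s ∈ T, IsJump D s) :
    Module.finrank K (riemannRochSpace D) + T.card ≤
      Module.finrank K (riemannRochSpace (D + sumPlaces T)) := by
  classical
  induction T using Finset.induction_on with
  | empty => rw [sumPlaces, Finset.sum_empty, add_zero, Finset.card_empty, Nat.add_zero]
  | insert a T ha ih =>
    have ih' := ih fun s hs => hT s (Finset.mem_insert_of_mem hs)
    have hj : IsJump (D + sumPlaces T) a :=
      (hT a (Finset.mem_insert_self a T)).add (sumPlaces_apply_nonneg T)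
        (sumPlaces_apply_of_notMem ha)
    have hlt : riemannRochSpace (D + sumPlaces T) <
        riemannRochSpace (D + sumPlaces T + Finsupp.single a (1 : ℤ)) :=
      lt_of_le_not_ge (rrSpace_le_add_single _ a) hj
    have hfd := hfin (D + sumPlaces T + Finsupp.single a (1 : ℤ))
    have := Submodule.finrank_lt_finrank_of_lt hlt
    rw [sumPlaces_insert ha, Finset.card_insert_of_notMem ha, ← add_assoc D]
    omega

/-- If `dim L(D) > deg D + 1 - g` then `D` has only finitely many jumps. -/
theorem finite_jumps (hdeg : ∀ v : Place K F, v.deg = 1) (g : ℕ) (c : ℤ)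
    (heq : ∀ D : Divisor K F, c ≤ Divisor.degree D →
      (Module.finrank K (riemannRochSpace D) : ℤ) = Divisor.degree D + 1 - g)
    {D : Divisor K F}
    (hD : Divisor.degree D + 1 - g < (Module.finrank K (riemannRochSpace D) : ℤ)) :
    {s : Place K F | IsJump D s}.Finite := by
  classical
  by_contra hinf
  rw [Set.not_finite] at hinf
  obtain ⟨T, hTsub, hTcard⟩ := hinf.exists_subset_card_eq (c - Divisor.degree D).toNat
  have hchain := finrank_add_card_le hfin T fun s hs => hTsub hs
  have hdegT : Divisor.degree (D + sumPlaces T) = Divisor.degree D + T.card := by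
    rw [map_add, degree_sumPlaces hdeg]
  have hc : c ≤ Divisor.degree (D + sumPlaces T) := by
    rw [hdegT, hTcard]
    have := Int.self_le_toNat (c - Divisor.degree D)
    omega
  have h1 := heq _ hc
  rw [hdegT] at h1
  have h2 : (Module.finrank K (riemannRochSpace D) : ℤ) + T.card ≤
      (Module.finrank K (riemannRochSpace (D + sumPlaces T)) : ℤ) := by
    exact_mod_cast hchain
  omega

/-- Greedy construction: finite sets of `j ≤ g` places outside `S` with `L(∑ s) = L(0)`. -/
theorem exists_finset_nonspecial [Infinite (Place K F)] (hdeg : ∀ v : Place K F, v.deg = 1)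
    (g : ℕ) (c : ℤ)
    (heq : ∀ D : Divisor K F, c ≤ Divisor.degree D →
      (Module.finrank K (riemannRochSpace D) : ℤ) = Divisor.degree D + 1 - g)
    (h0 : Module.finrank K (riemannRochSpace (0 : Divisor K F)) = 1)
    (S : Set (Place K F)) (hS : S.Finite) (j : ℕ) (hj : j ≤ g) :
    ∃ T : Finset (Place K F), T.card = j ∧ (∀ s ∈ T, s ∉ S) ∧
      riemannRochSpace (sumPlaces T) = riemannRochSpace (0 : Divisor K F) := by
  classical
  induction j with
  | zero => exact ⟨∅, rfl, by simp, by simp [sumPlaces]⟩
  | succ j ih =>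
    obtain ⟨T, hTcard, hTS, hTL⟩ := ih (by omega)
    have hgt : Divisor.degree (sumPlaces T) + 1 - g <
        (Module.finrank K (riemannRochSpace (sumPlaces T)) : ℤ) := by
      rw [hTL, h0, degree_sumPlaces hdeg, hTcard]
      push_cast
      omega
    have hJ := finite_jumps hfin hdeg g c heq hgt
    have hbad : (S ∪ (T : Set (Place K F)) ∪ {s | IsJump (sumPlaces T) s}).Finite :=
      (hS.union T.finite_toSet).union hJ
    obtain ⟨a, ha⟩ := hbad.exists_notMem
    simp only [Set.mem_union, Finset.mem_coe, Set.mem_ofPred_eq, not_or] at ha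
    obtain ⟨⟨haS, haT⟩, haJ⟩ := ha
    refine ⟨insert a T, ?_, ?_, ?_⟩
    · rw [Finset.card_insert_of_notMem haT, hTcard]
    · intro s hs
      rcases Finset.mem_insert.mp hs with rfl | hs
      · exact haS
      · exact hTS s hs
    · rw [sumPlaces_insert haT, not_isJump_iff.mp haJ, hTL]

/-- **Non-special reduced divisors exist** (finset form). -/
theorem exists_finset_nonspecial_card [Infinite (Place K F)]
    (hdeg : ∀ v : Place K F, v.deg = 1) (g : ℕ) (c : ℤ)
    (heq : ∀ D : Divisor K F, c ≤ Divisor.degree D →
      (Module.finrank K (riemannRochSpace D) : ℤ) = Divisor.degree D + 1 - g)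
    (h0 : Module.finrank K (riemannRochSpace (0 : Divisor K F)) = 1)
    (S : Set (Place K F)) (hS : S.Finite) :
    ∃ T : Finset (Place K F), T.card = g ∧ (∀ s ∈ T, s ∉ S) ∧
      riemannRochSpace (sumPlaces T) = riemannRochSpace (0 : Divisor K F) :=
  exists_finset_nonspecial hfin hdeg g c heq h0 S hS g le_rfl

/-- **Non-special reduced divisors exist** (`Fin g`-indexed form): outside any finite set
`S` there are `g` pairwise distinct places `s i` with `L(∑ s i) = L(0)`. -/
theorem exists_nonspecial [Infinite (Place K F)]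
    (hdeg : ∀ v : Place K F, v.deg = 1) (g : ℕ) (c : ℤ)
    (heq : ∀ D : Divisor K F, c ≤ Divisor.degree D →
      (Module.finrank K (riemannRochSpace D) : ℤ) = Divisor.degree D + 1 - g)
    (h0 : Module.finrank K (riemannRochSpace (0 : Divisor K F)) = 1)
    (S : Set (Place K F)) (hS : S.Finite) :
    ∃ s : Fin g → Place K F, Function.Injective s ∧ (∀ i, s i ∉ S) ∧
      riemannRochSpace (∑ i, Finsupp.single (s i) (1 : ℤ)) =
        riemannRochSpace (0 : Divisor K F) := by
  classical
  obtain ⟨T, hTcard, hTS, hTL⟩ := exists_finset_nonspecial_card hfin hdeg g c heq h0 S hS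
  let e : Fin g ≃ T := (T.equivFinOfCardEq hTcard).symm
  refine ⟨fun i => (e i : Place K F), fun i j hij => e.injective (Subtype.ext hij),
    fun i => hTS _ (e i).2, ?_⟩
  have hsum : (∑ i, Finsupp.single ((e i : Place K F)) (1 : ℤ)) = sumPlaces T := by
    rw [sumPlaces, ← Finset.sum_coe_sort T (fun s => Finsupp.single s (1 : ℤ))]
    exact Equiv.sum_comp e (fun t : T => Finsupp.single (t : Place K F) (1 : ℤ))
  rw [hsum, hTL]

/-- Variant with an additional base place `Q0` outside `S` and different from all `s i`. -/
theorem exists_nonspecial_with_base [Infinite (Place K F)]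
    (hdeg : ∀ v : Place K F, v.deg = 1) (g : ℕ) (c : ℤ)
    (heq : ∀ D : Divisor K F, c ≤ Divisor.degree D →
      (Module.finrank K (riemannRochSpace D) : ℤ) = Divisor.degree D + 1 - g)
    (h0 : Module.finrank K (riemannRochSpace (0 : Divisor K F)) = 1)
    (S : Set (Place K F)) (hS : S.Finite) :
    ∃ (s : Fin g → Place K F) (Q0 : Place K F), Function.Injective s ∧ (∀ i, s i ∉ S) ∧
      Q0 ∉ S ∧ (∀ i, s i ≠ Q0) ∧
      riemannRochSpace (∑ i, Finsupp.single (s i) (1 : ℤ)) =
        riemannRochSpace (0 : Divisor K F) := by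
  classical
  obtain ⟨s, hs, hsS, hsL⟩ := exists_nonspecial hfin hdeg g c heq h0 S hS
  obtain ⟨Q0, hQ0⟩ := (hS.union (Set.finite_range s)).exists_notMem
  simp only [Set.mem_union, Set.mem_range, not_or, not_exists] at hQ0
  exact ⟨s, Q0, hs, hsS, hQ0.1, hQ0.2, hsL⟩

/-- `l`-form: the non-special divisor has a one-dimensional Riemann-Roch space. -/
theorem exists_nonspecial_finrank [Infinite (Place K F)]
    (hdeg : ∀ v : Place K F, v.deg = 1) (g : ℕ) (c : ℤ)
    (heq : ∀ D : Divisor K F, c ≤ Divisor.degree D →
      (Module.finrank K (riemannRochSpace D) : ℤ) = Divisor.degree D + 1 - g)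
    (h0 : Module.finrank K (riemannRochSpace (0 : Divisor K F)) = 1)
    (S : Set (Place K F)) (hS : S.Finite) :
    ∃ s : Fin g → Place K F, Function.Injective s ∧ (∀ i, s i ∉ S) ∧
      Module.finrank K (riemannRochSpace (∑ i, Finsupp.single (s i) (1 : ℤ))) = 1 := by
  obtain ⟨s, hs, hsS, hsL⟩ := exists_nonspecial hfin hdeg g c heq h0 S hS
  exact ⟨s, hs, hsS, by rw [hsL, h0]⟩

end Finite

/-- Membership in `L(∑ s i)` from pointwise pole bounds (no injectivity needed). -/
theorem mem_rrSpace_sum_single {ι : Type*} [Fintype ι] (s : ι → Place K F) {w : F}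
    (h1 : ∀ v : Place K F, (∀ i, s i ≠ v) → 0 ≤ v.ord w)
    (h2 : ∀ i, -1 ≤ (s i).ord w) :
    w ∈ riemannRochSpace (∑ i, Finsupp.single (s i) (1 : ℤ)) := by
  classical
  rw [mem_riemannRochSpace_iff]
  intro v
  right
  rw [Finsupp.finsetSum_apply]
  by_cases hv : ∃ i, s i = v
  · obtain ⟨i0, rfl⟩ := hv
    have hge : (1 : ℤ) ≤ ∑ i, (Finsupp.single (s i) (1 : ℤ)) (s i0) := by
      have hle := Finset.single_le_sum
        (f := fun i => (Finsupp.single (s i) (1 : ℤ)) (s i0))
        (fun i _ => by
          show (0 : ℤ) ≤ (Finsupp.single (s i) (1 : ℤ)) (s i0)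
          rw [Finsupp.single_apply]; split_ifs <;> norm_num)
        (Finset.mem_univ i0)
      simpa using hle
    have := h2 i0
    omega
  · push Not at hv
    have hz : ∑ i, (Finsupp.single (s i) (1 : ℤ)) v = 0 :=
      Finset.sum_eq_zero fun i _ => by rw [Finsupp.single_apply, if_neg (hv i)]
    rw [hz]
    simpa using h1 v hv

/-- **Consumer form of (NS)**: if `L(∑ s i) = L(0)` and `L(0)` consists of constants, then a
function regular off the `s i` with at most simple poles at the `s i` is constant. -/
theorem const_of_ord_of_nonspecial {ι : Type*} [Fintype ι] (s : ι → Place K F)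
    (hs : riemannRochSpace (∑ i, Finsupp.single (s i) (1 : ℤ)) =
      riemannRochSpace (0 : Divisor K F))
    (hconst : ∀ f ∈ riemannRochSpace (0 : Divisor K F), ∃ a : K, f = algebraMap K F a)
    {w : F} (h1 : ∀ v : Place K F, (∀ i, s i ≠ v) → 0 ≤ v.ord w)
    (h2 : ∀ i, -1 ≤ (s i).ord w) : ∃ a : K, w = algebraMap K F a :=
  hconst w (hs ▸ mem_rrSpace_sum_single s h1 h2)

end Fermat.Agent.S37.helper2293
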