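import Mathlib
import Fermat.Agent.S16.helper903_DeuringCore

/-!
# S37 / S18 : the Kummer idempotent (helper2488)

Step (N1)(b) of the torsion-injectivity argument: the *producer* of the non-trivial compatible
pair of idempotents on the special fibre of the Kummer cover `F(U^(1/p))`, which the two-chart
Čech lemma (`S37/helper4706_IdemCech`) then kills.  Pure commutative algebra, no modular vocabulary.

* `locIntegral B F' M` : the integral closure of `M⁻¹B` in `F'` (no localisation type is built);
* `PiMem π M x`        : `x ∈ π · locIntegral B F' M`;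
* `exists_idem_chart`  : one normal chart `B`;
* `exists_idem_two_charts` : two charts inside their overlap.
-/

set_option autoImplicit false

namespace Fermat.Agent.S37.helper2488

open Polynomial

/-! ## `locIntegral` -/

section LocIntegral

/-- Elements of `F'` that become integral over `B` after multiplication by an element of the
submonoid `M`: the integral closure of `M⁻¹B` in `F'`, without building the localisation. -/
def locIntegral (B : Type*) [CommRing B] (F' : Type*) [CommRing F'] [Algebra B F']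
    (M : Submonoid B) : Subalgebra B F' where
  carrier := {x | ∃ s ∈ M, IsIntegral B (algebraMap B F' s * x)}
  mul_mem' := by
    rintro x y ⟨s, hs, hx⟩ ⟨t, ht, hy⟩
    refine ⟨s * t, M.mul_mem hs ht, ?_⟩
    have e : algebraMap B F' (s * t) * (x * y) =
        (algebraMap B F' s * x) * (algebraMap B F' t * y) := by
      rw [map_mul]; ring
    rw [e]
    exact hx.mul hy
  add_mem' := by
    rintro x y ⟨s, hs, hx⟩ ⟨t, ht, hy⟩
    refine ⟨s * t, M.mul_mem hs ht, ?_⟩
    have e : algebraMap B F' (s * t) * (x + y) =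
        algebraMap B F' t * (algebraMap B F' s * x) +
          algebraMap B F' s * (algebraMap B F' t * y) := by
      rw [map_mul]; ring
    rw [e]
    exact (isIntegral_algebraMap.mul hx).add (isIntegral_algebraMap.mul hy)
  algebraMap_mem' b := ⟨1, M.one_mem, by
    rw [map_one, one_mul]; exact isIntegral_algebraMap⟩

variable {B : Type*} [CommRing B] {F' : Type*} [CommRing F'] [Algebra B F']

theorem mem_locIntegral {M : Submonoid B} {x : F'} :
    x ∈ locIntegral B F' M ↔ ∃ s ∈ M, IsIntegral B (algebraMap B F' s * x) := Iff.rfl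

theorem locIntegral_mono {M M' : Submonoid B} (h : M ≤ M') :
    locIntegral B F' M ≤ locIntegral B F' M' :=
  fun _ ⟨s, hs, hx⟩ => ⟨s, h hs, hx⟩

theorem mem_locIntegral_of_isIntegral (M : Submonoid B) {x : F'} (hx : IsIntegral B x) :
    x ∈ locIntegral B F' M :=
  ⟨1, M.one_mem, by rwa [map_one, one_mul]⟩

theorem mem_locIntegral_bot {x : F'} : x ∈ locIntegral B F' ⊥ ↔ IsIntegral B x := by
  constructor
  · rintro ⟨s, hs, hx⟩
    rw [Submonoid.mem_bot] at hs
    rwa [hs, map_one, one_mul] at hx
  · exact mem_locIntegral_of_isIntegral ⊥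

theorem mem_locIntegral_of_pow {M : Submonoid B} {x : F'} {n : ℕ} (hn : 0 < n)
    (hx : x ^ n ∈ locIntegral B F' M) : x ∈ locIntegral B F' M := by
  obtain ⟨s, hs, hx⟩ := hx
  refine ⟨s, hs, IsIntegral.of_pow hn ?_⟩
  have e : (algebraMap B F' s * x) ^ n =
      algebraMap B F' s ^ (n - 1) * (algebraMap B F' s * x ^ n) := by
    rw [mul_pow, ← mul_assoc, ← pow_succ, Nat.sub_add_cancel hn]
  rw [e]
  exact (isIntegral_algebraMap.pow _).mul hx

theorem map_mem_locIntegral {F : Type*} [CommRing F] [Algebra B F] [Algebra F F']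
    [IsScalarTower B F F'] {M : Submonoid B} {a : F} (ha : a ∈ locIntegral B F M) :
    algebraMap F F' a ∈ locIntegral B F' M := by
  obtain ⟨s, hs, h⟩ := ha
  refine ⟨s, hs, ?_⟩
  have e : algebraMap B F' s * algebraMap F F' a = algebraMap F F' (algebraMap B F s * a) := by
    rw [map_mul, ← IsScalarTower.algebraMap_apply]
  rw [e]
  exact h.algebraMap

/-- `x ∈ π · (integral closure of M⁻¹B in F')`. -/
def PiMem (π : B) (M : Submonoid B) (x : F') : Prop :=
  ∃ r ∈ locIntegral B F' M, x = algebraMap B F' π * r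

namespace PiMem

variable {π : B} {M : Submonoid B} {x x' : F'}

theorem zero : PiMem π M (0 : F') := ⟨0, zero_mem _, by rw [mul_zero]⟩

theorem add (h : PiMem π M x) (h' : PiMem π M x') : PiMem π M (x + x') := by
  obtain ⟨r, hr, rfl⟩ := h
  obtain ⟨r', hr', rfl⟩ := h'
  exact ⟨r + r', add_mem hr hr', by ring⟩

theorem neg (h : PiMem π M x) : PiMem π M (-x) := by
  obtain ⟨r, hr, rfl⟩ := h
  exact ⟨-r, neg_mem hr, by ring⟩

theorem sub (h : PiMem π M x) (h' : PiMem π M x') : PiMem π M (x - x') := by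
  rw [sub_eq_add_neg]
  exact h.add h'.neg

theorem mul_left (h : PiMem π M x) {c : F'} (hc : c ∈ locIntegral B F' M) :
    PiMem π M (c * x) := by
  obtain ⟨r, hr, rfl⟩ := h
  exact ⟨c * r, mul_mem hc hr, by ring⟩

theorem mul_right (h : PiMem π M x) {c : F'} (hc : c ∈ locIntegral B F' M) :
    PiMem π M (x * c) := by
  rw [mul_comm]
  exact h.mul_left hc

theorem sum {ι : Type*} (s : Finset ι) (f : ι → F') (h : ∀ i ∈ s, PiMem π M (f i)) :
    PiMem π M (∑ i ∈ s, f i) :=
  Finset.sum_induction f (PiMem π M) (fun _ _ ha hb => ha.add hb) zero h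

theorem mono {M' : Submonoid B} (hM : M ≤ M') (h : PiMem π M x) : PiMem π M' x := by
  obtain ⟨r, hr, rfl⟩ := h
  exact ⟨r, locIntegral_mono hM hr, rfl⟩

theorem mem (h : PiMem π M x) : x ∈ locIntegral B F' M := by
  obtain ⟨r, hr, rfl⟩ := h
  exact mul_mem (Subalgebra.algebraMap_mem _ π) hr

theorem map {F : Type*} [CommRing F] [Algebra B F] [Algebra F F'] [IsScalarTower B F F']
    {a : F} (h : PiMem π M a) : PiMem π M (algebraMap F F' a) := by
  obtain ⟨r, hr, rfl⟩ := h
  exact ⟨algebraMap F F' r, map_mem_locIntegral hr, by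
    rw [map_mul, ← IsScalarTower.algebraMap_apply]⟩

/-- Introduction rule from an explicit fraction. -/
theorem of_eq {K : Type*} [Field K] [Algebra B K] {π : B} {M : Submonoid B} {x : K} {s b : B}
    (hs : s ∈ M) (hs0 : algebraMap B K s ≠ 0)
    (h : algebraMap B K s * x = algebraMap B K (π * b)) : PiMem π M x := by
  refine ⟨(algebraMap B K s)⁻¹ * algebraMap B K b, ⟨s, hs, ?_⟩, ?_⟩
  · rw [← mul_assoc, mul_inv_cancel₀ hs0, one_mul]
    exact isIntegral_algebraMap
  · rw [map_mul] at h
    field_simp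
    linear_combination h

end PiMem

end LocIntegral

/-- Saturation: an element integral over `B` which is divisible by the prime `π` in the integral
closure of `M⁻¹B` (`M` prime to `π`) is divisible by `π` in the integral closure of `B`. -/
theorem PiMem.saturate {B F' : Type*} [CommRing B] [IsDomain B] [IsIntegrallyClosed B]
    [Field F'] [Algebra B F'] [FaithfulSMul B F'] {π : B} (hπ : Prime π) {M : Submonoid B}
    (hM : ∀ s ∈ M, ¬ π ∣ s) {x : F'} (hx : IsIntegral B x) (h : PiMem π M x) :
    PiMem π ⊥ x := by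
  obtain ⟨r, ⟨s, hs, hr⟩, rfl⟩ := h
  have key : algebraMap B F' s * (algebraMap B F' π * r) =
      algebraMap B F' π ^ 1 * (algebraMap B F' s * r) := by ring
  obtain ⟨w, hw, hw'⟩ :=
    Fermat.Agent.S16.helper903.isIntegral_div_prime_pow hπ (hM s hs) 1 hx hr key
  exact ⟨w, mem_locIntegral_bot.mpr hw, by rw [hw', pow_one]⟩

/-- Traces of the powers of a Kummer generator vanish. -/
theorem trace_gen_pow_eq_zero {F F' : Type*} [Field F] [Field F'] [Algebra F F']
    (pb : PowerBasis F F') {U : F} (hgen : pb.gen ^ pb.dim = algebraMap F F' U) {j : ℕ}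
    (hj0 : 0 < j) (hj : j < pb.dim) : Algebra.trace F F' (pb.gen ^ j) = 0 := by
  rw [Algebra.trace_eq_matrix_trace pb.basis, Matrix.trace]
  refine Finset.sum_eq_zero fun i _ => ?_
  rw [Matrix.diag_apply, Algebra.leftMulMatrix_eq_repr_mul, PowerBasis.basis_eq_pow, ← pow_add]
  by_cases h : j + (i : ℕ) < pb.dim
  · have e : pb.gen ^ (j + (i : ℕ)) = pb.basis ⟨j + i, h⟩ := by rw [PowerBasis.basis_eq_pow]
    rw [e, Module.Basis.repr_self, Finsupp.single_apply, if_neg]
    intro heq
    have := congrArg Fin.val heq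
    simp at this
    omega
  · have hlt : j + (i : ℕ) - pb.dim < pb.dim := by have := i.2; omega
    have e : pb.gen ^ (j + (i : ℕ)) = U • pb.basis ⟨j + i - pb.dim, hlt⟩ := by
      rw [PowerBasis.basis_eq_pow, Algebra.smul_def, ← hgen, ← pow_add]
      congr 1
      simp only
      omega
    rw [e, map_smul, Module.Basis.repr_self, Finsupp.smul_apply, Finsupp.single_apply, if_neg,
      smul_zero]
    intro heq
    have := congrArg Fin.val heq
    simp at this
    omega

/-! ## One chart -/

section Chart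

variable {B F F' : Type*} [CommRing B] [IsDomain B] [IsIntegrallyClosed B]
  [Field F] [Algebra B F] [IsFractionRing B F]
  [Field F'] [Algebra F F'] [Algebra B F'] [IsScalarTower B F F']

/-- The submonoid of elements not divisible by the prime `π` (the complement of `(π)`). -/
def ndvd {π : B} (hπ : Prime π) : Submonoid B where
  carrier := {s | ¬ π ∣ s}
  mul_mem' := fun {_ _} ha hb h => (hπ.dvd_or_dvd h).elim ha hb
  one_mem' := hπ.not_dvd_one

omit [IsDomain B] [IsIntegrallyClosed B] in
theorem mem_ndvd {π : B} (hπ : Prime π) {s : B} : s ∈ ndvd hπ ↔ ¬ π ∣ s := Iff.rfl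

/-- The would-be idempotent `(1/p) ∑_{i<p} y^i` of the Kummer algebra. -/
noncomputable def kummerE (p : ℕ) (y : F') : F' := (p : F')⁻¹ * ∑ i ∈ Finset.range p, y ^ i

/-- **One-chart Kummer idempotent.**  `B` a normal domain with fraction field `F`, `π` a prime
element, `p` a prime number invertible in `B`, `F' = F(y)` with `y^p = U` of degree `p`.
If `U ≡ 1` modulo `π` in `B_(π)` and, at every maximal ideal `z ∋ π`, `U g^p ∈ B_z` for some
`g ≡ 1` modulo `π B_(π)`, then the element `E = (1/p) ∑ y^i` is congruent modulo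
`π · (integral closure of B_(π))` to an element `e` integral over `B`, which is a non-trivial
idempotent modulo `π · (integral closure of B)`. -/
theorem exists_idem_chart {π : B} (hπ : Prime π) {p : ℕ} (hp : p.Prime) (hpB : IsUnit (p : B))
    (pb : PowerBasis F F') (hdim : pb.dim = p) {U : F} (hgen : pb.gen ^ p = algebraMap F F' U)
    (hgauss : PiMem π (ndvd hπ) (U - 1))
    (hloc : ∀ z : Ideal B, z.IsMaximal → π ∈ z → ∃ g : F, PiMem π (ndvd hπ) (g - 1) ∧
      ∃ t, t ∉ z ∧ ∃ b : B, algebraMap B F t * (U * g ^ p) = algebraMap B F b) :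
    ∃ e : F', IsIntegral B e ∧ PiMem π (ndvd hπ) (e - kummerE p pb.gen) ∧
      PiMem π ⊥ (e ^ 2 - e) ∧ ¬ PiMem π ⊥ e ∧ ¬ PiMem π ⊥ (e - 1) := by
  classical
  set y := pb.gen with hy
  have hp0 : 0 < p := hp.pos
  have hinjBF : Function.Injective (algebraMap B F) := IsFractionRing.injective B F
  have hinj : Function.Injective (algebraMap B F') := by
    rw [IsScalarTower.algebraMap_eq B F F']
    exact (algebraMap F F').injective.comp hinjBF
  have : FaithfulSMul B F' := (faithfulSMul_iff_algebraMap_injective B F').mpr hinj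
  -- the inverse of `p`
  obtain ⟨pu, hpu⟩ := hpB
  set q : B := ↑pu⁻¹ with hq
  have hqp : q * (p : B) = 1 := by rw [← hpu]; exact pu.inv_mul
  have hqF' : algebraMap B F' q * (p : F') = 1 := by
    have := congrArg (algebraMap B F') hqp
    rwa [map_mul, map_natCast, map_one] at this
  have hqF : algebraMap B F q * (p : F) = 1 := by
    have := congrArg (algebraMap B F) hqp
    rwa [map_mul, map_natCast, map_one] at this
  have hqinv : algebraMap B F' q = ((p : F'))⁻¹ := eq_inv_of_mul_eq_one_left hqF'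
  set Mπ := ndvd hπ with hMπ
  -- `U` and `y` lie in the Gauss ring
  have hU : U ∈ locIntegral B F Mπ := by
    have h1 : U = (U - 1) + 1 := by ring
    rw [h1]
    exact add_mem hgauss.mem (one_mem _)
  have hyR : y ∈ locIntegral B F' Mπ :=
    mem_locIntegral_of_pow hp0 (by rw [hgen]; exact map_mem_locIntegral hU)
  set S : F' := ∑ i ∈ Finset.range p, y ^ i with hS
  have hSR : S ∈ locIntegral B F' Mπ := sum_mem fun i _ => pow_mem hyR i
  set E : F' := kummerE p y with hE
  have hEdef : E = algebraMap B F' q * S := by rw [hE, kummerE, hqinv]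
  have hER : E ∈ locIntegral B F' Mπ := by
    rw [hEdef]
    exact mul_mem (Subalgebra.algebraMap_mem _ q) hSR
  have hgaussF' : PiMem π Mπ (algebraMap F F' U - 1) := by
    have := hgauss.map (F' := F')
    rwa [map_sub, map_one] at this
  have hyS : (y - 1) * S = algebraMap F F' U - 1 := by rw [hS, mul_geom_sum, hgen]
  -- `E` is idempotent modulo `π R'`
  have hEE : PiMem π Mπ (E ^ 2 - E) := by
    set T : F' := ∑ i ∈ Finset.range p, ∑ k ∈ Finset.range i, y ^ k with hT
    have hTR : T ∈ locIntegral B F' Mπ := sum_mem fun i _ => sum_mem fun k _ => pow_mem hyR k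
    have h1 : S ^ 2 - (p : F') * S = (algebraMap F F' U - 1) * T := by
      have h0 : S ^ 2 - (p : F') * S = ∑ i ∈ Finset.range p, S * (y ^ i - 1) := by
        rw [← Finset.mul_sum, Finset.sum_sub_distrib, ← hS]
        simp only [Finset.sum_const, Finset.card_range, nsmul_eq_mul, mul_one]
        ring
      rw [h0, hT, Finset.mul_sum]
      refine Finset.sum_congr rfl fun i _ => ?_
      rw [← hyS, ← mul_geom_sum y i]
      ring
    have h2 : E ^ 2 - E = algebraMap B F' q ^ 2 * T * (algebraMap F F' U - 1) := by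
      rw [hEdef]
      linear_combination (algebraMap B F' q) ^ 2 * h1 + (algebraMap B F' q * S) * hqF'
    rw [h2]
    exact hgaussF'.mul_left (mul_mem (pow_mem (Subalgebra.algebraMap_mem _ q) 2) hTR)
  -- the conductor ideal
  let I : Ideal B :=
    { carrier := {a | ∃ e : F', IsIntegral B e ∧ PiMem π Mπ (e - algebraMap B F' a * E)}
      add_mem' := by
        rintro a b ⟨e, he, h⟩ ⟨e', he', h'⟩
        refine ⟨e + e', he.add he', ?_⟩
        have e1 : e + e' - algebraMap B F' (a + b) * E =
            (e - algebraMap B F' a * E) + (e' - algebraMap B F' b * E) := by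
          rw [map_add]; ring
        rw [e1]
        exact h.add h'
      zero_mem' := ⟨0, isIntegral_zero, by
        rw [map_zero, zero_mul, sub_zero]; exact PiMem.zero⟩
      smul_mem' := by
        rintro c a ⟨e, he, h⟩
        refine ⟨algebraMap B F' c * e, isIntegral_algebraMap.mul he, ?_⟩
        have e1 : algebraMap B F' c * e - algebraMap B F' (c • a) * E =
            algebraMap B F' c * (e - algebraMap B F' a * E) := by
          rw [smul_eq_mul, map_mul]; ring
        rw [e1]
        exact h.mul_left (Subalgebra.algebraMap_mem _ c) }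
  have hπI : π ∈ I := ⟨0, isIntegral_zero, by
    have e1 : (0 : F') - algebraMap B F' π * E = algebraMap B F' π * (-E) := by ring
    rw [e1]
    exact ⟨-E, neg_mem hER, rfl⟩⟩
  have hItop : I = ⊤ := by
    by_contra hne
    obtain ⟨z, hz, hIz⟩ := Ideal.exists_le_maximal I hne
    have := hz.isPrime
    have hπz : π ∈ z := hIz hπI
    obtain ⟨g, hg1, t, htz, b, hgt⟩ := hloc z hz hπz
    have hMz : z.primeCompl ≤ Mπ := fun s hs hd => hs (Ideal.mem_of_dvd z hd hπz)
    have hgR : g ∈ locIntegral B F Mπ := by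
      have h1 : g = (g - 1) + 1 := by ring
      rw [h1]
      exact add_mem hg1.mem (one_mem _)
    set γ : F' := algebraMap F F' g with hγ
    have hγR : γ ∈ locIntegral B F' Mπ := map_mem_locIntegral hgR
    have hγ1 : PiMem π Mπ (γ - 1) := by
      have := hg1.map (F' := F')
      rwa [map_sub, map_one] at this
    set y' : F' := y * γ with hy'
    have hUg : U * g ^ p ∈ locIntegral B F z.primeCompl :=
      ⟨t, htz, by rw [hgt]; exact isIntegral_algebraMap⟩
    have hy'z : y' ∈ locIntegral B F' z.primeCompl := by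
      refine mem_locIntegral_of_pow hp0 ?_
      have e1 : y' ^ p = algebraMap F F' (U * g ^ p) := by
        rw [hy', mul_pow, hgen, map_mul, map_pow]
      rw [e1]
      exact map_mem_locIntegral hUg
    set Ez : F' := algebraMap B F' q * ∑ i ∈ Finset.range p, y' ^ i with hEz
    have hEzz : Ez ∈ locIntegral B F' z.primeCompl :=
      mul_mem (Subalgebra.algebraMap_mem _ q) (sum_mem fun i _ => pow_mem hy'z i)
    obtain ⟨t', ht', hint⟩ := hEzz
    have hdiff : PiMem π Mπ (Ez - E) := by
      have e1 : Ez - E = algebraMap B F' q *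
          ∑ i ∈ Finset.range p, y ^ i * ((γ - 1) * ∑ k ∈ Finset.range i, γ ^ k) := by
        rw [hEz, hEdef, hS, ← mul_sub, ← Finset.sum_sub_distrib]
        congr 1
        refine Finset.sum_congr rfl fun i _ => ?_
        rw [mul_geom_sum, hy', mul_pow]
        ring
      rw [e1]
      refine (PiMem.sum _ _ fun i _ => ?_).mul_left (Subalgebra.algebraMap_mem _ q)
      exact (hγ1.mul_right (sum_mem fun k _ => pow_mem hγR k)).mul_left (pow_mem hyR i)
    have htI : t' ∈ I := by
      refine ⟨algebraMap B F' t' * Ez, hint, ?_⟩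
      have e1 : algebraMap B F' t' * Ez - algebraMap B F' t' * E =
          algebraMap B F' t' * (Ez - E) := by ring
      rw [e1]
      exact hdiff.mul_left (Subalgebra.algebraMap_mem _ t')
    exact ht' (hIz htI)
  obtain ⟨e, he, h⟩ : (1 : B) ∈ I := by rw [hItop]; trivial
  rw [map_one, one_mul] at h
  have heR : e ∈ locIntegral B F' Mπ := mem_locIntegral_of_isIntegral _ he
  have hee : PiMem π Mπ (e ^ 2 - e) := by
    have e1 : e ^ 2 - e = (e + E - 1) * (e - E) + (E ^ 2 - E) := by ring
    rw [e1]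
    exact (h.mul_left (sub_mem (add_mem heR hER) (one_mem _))).add hEE
  have hsat : PiMem π ⊥ (e ^ 2 - e) :=
    PiMem.saturate hπ (fun s hs => hs) ((he.pow 2).sub he) hee
  -- traces
  have : FiniteDimensional F F' := pb.finite
  have htr_pow : ∀ j, 0 < j → j < p → Algebra.trace F F' (y ^ j) = 0 := fun j h0 hj =>
    trace_gen_pow_eq_zero pb (by rw [hdim]; exact hgen) h0 (by rw [hdim]; exact hj)
  have htr_alg : ∀ a : F, Algebra.trace F F' (algebraMap F F' a) = (p : F) * a := by
    intro a
    rw [Algebra.trace_algebraMap, pb.finrank, hdim, nsmul_eq_mul]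
  have htrS : Algebra.trace F F' S = (p : F) := by
    rw [hS, map_sum, Finset.sum_eq_single 0]
    · rw [pow_zero, ← (algebraMap F F').map_one, htr_alg, mul_one]
    · intro j hj hj0
      exact htr_pow j (Nat.pos_of_ne_zero hj0) (Finset.mem_range.mp hj)
    · intro h0
      exact absurd (Finset.mem_range.mpr hp0) h0
  have htr_smul : ∀ (c : B) (x : F'), Algebra.trace F F' (algebraMap B F' c * x) =
      algebraMap B F c * Algebra.trace F F' x := by
    intro c x
    rw [IsScalarTower.algebraMap_apply B F F', ← Algebra.smul_def, map_smul, smul_eq_mul]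
  have htrE : Algebra.trace F F' E = 1 := by
    rw [hEdef, htr_smul, htrS, hqF]
  have htrR : ∀ r ∈ locIntegral B F' Mπ, ∃ s, ¬ π ∣ s ∧ ∃ b : B,
      algebraMap B F s * Algebra.trace F F' r = algebraMap B F b := by
    rintro r ⟨s, hs, hr⟩
    refine ⟨s, hs, ?_⟩
    have h1 : IsIntegral B (Algebra.trace F F' (algebraMap B F' s * r)) :=
      Algebra.isIntegral_trace hr
    rw [htr_smul] at h1
    obtain ⟨b, hb⟩ := IsIntegrallyClosed.isIntegral_iff.mp h1
    exact ⟨b, hb.symm⟩
  have hne0 : ¬ PiMem π ⊥ e := by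
    intro h0
    have hE' : PiMem π Mπ E := by
      have e1 : E = e - (e - E) := by ring
      rw [e1]
      exact (h0.mono bot_le).sub h
    obtain ⟨r, hr, hEr⟩ := hE'
    obtain ⟨s, hs, b, hb⟩ := htrR r hr
    have h3 : (1 : F) = algebraMap B F π * Algebra.trace F F' r := by
      rw [← htrE, hEr, htr_smul]
    have h4 : algebraMap B F s = algebraMap B F (π * b) := by
      rw [map_mul, ← hb]
      linear_combination (algebraMap B F s) * h3
    exact hs ⟨b, hinjBF h4⟩
  have hne1 : ¬ PiMem π ⊥ (e - 1) := by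
    intro h1
    have hE1 : PiMem π Mπ (y * (E - 1)) := by
      have e1 : E - 1 = (e - 1) - (e - E) := by ring
      rw [e1]
      exact ((h1.mono bot_le).sub h).mul_left hyR
    obtain ⟨r, hr, hEr⟩ := hE1
    obtain ⟨s, hs, b, hb⟩ := htrR r hr
    have htr : Algebra.trace F F' (y * (E - 1)) = U := by
      have h5 : y * (E - 1) = algebraMap B F' q * (S + algebraMap F F' (U - 1)) - y := by
        rw [hEdef, map_sub, map_one]
        linear_combination (algebraMap B F' q) * hyS
      have hy1 : Algebra.trace F F' y = 0 := by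
        have := htr_pow 1 one_pos hp.one_lt
        rwa [pow_one] at this
      rw [h5, map_sub, htr_smul, map_add, htrS, htr_alg, hy1]
      linear_combination U * hqF
    have h3 : U = algebraMap B F π * Algebra.trace F F' r := by
      rw [← htr, hEr, htr_smul]
    obtain ⟨r0, ⟨s0, hs0, hr0⟩, hUr0⟩ := hgauss
    obtain ⟨b0, hb0⟩ := IsIntegrallyClosed.isIntegral_iff.mp hr0
    have h4 : algebraMap B F (s * s0) = algebraMap B F (π * (s0 * b - s * b0)) := by
      simp only [map_mul, map_sub]
      rw [hb0, ← hb]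
      have hU1 : U = 1 + algebraMap B F π * r0 := by linear_combination hUr0
      linear_combination (algebraMap B F s * algebraMap B F s0) * h3 -
        (algebraMap B F s * algebraMap B F s0) * hU1
    have h5 : π ∣ s * s0 := ⟨_, hinjBF h4⟩
    exact (hπ.dvd_or_dvd h5).elim hs hs0
  exact ⟨e, he, h, hsat, hne0, hne1⟩

end Chart

/-! ## Two charts -/

/-- Transport of `PiMem` along a ring extension `B → B'` of the base. -/
theorem PiMem.tower {B B' F' : Type*} [CommRing B] [CommRing B'] [CommRing F'] [Algebra B B']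
    [Algebra B F'] [Algebra B' F'] [IsScalarTower B B' F'] {π : B} {M : Submonoid B}
    {M' : Submonoid B'} (hM : ∀ s ∈ M, algebraMap B B' s ∈ M') {x : F'} (h : PiMem π M x) :
    PiMem (algebraMap B B' π) M' x := by
  obtain ⟨r, ⟨s, hs, hr⟩, rfl⟩ := h
  refine ⟨r, ⟨algebraMap B B' s, hM s hs, ?_⟩, ?_⟩
  · rw [← IsScalarTower.algebraMap_apply]
    exact hr.tower_top
  · rw [← IsScalarTower.algebraMap_apply]

/-- Normalisation helper for the local hypothesis: if `U g₀^p ∈ B_z` and `g₀ ≡ w` modulo
`π B_(π)` for a unit `w` of `B_z`, then `g := g₀ / w` satisfies the hypothesis of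
`exists_idem_chart` at `z`. -/
theorem loc_of_unit {B F : Type*} [CommRing B] [IsDomain B] [Field F] [Algebra B F]
    {π : B} (hπ : Prime π) (z : Ideal B) [z.IsPrime] (hπz : π ∈ z) {p : ℕ} {U g₀ w : F}
    (hw0 : w ≠ 0) (hw : w⁻¹ ∈ locIntegral B F z.primeCompl)
    (hgw : PiMem π (ndvd hπ) (g₀ - w)) (hU : U * g₀ ^ p ∈ locIntegral B F z.primeCompl) :
    ∃ g : F, PiMem π (ndvd hπ) (g - 1) ∧ U * g ^ p ∈ locIntegral B F z.primeCompl := by
  have hMz : z.primeCompl ≤ ndvd hπ := fun s hs hd => hs (Ideal.mem_of_dvd z hd hπz)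
  refine ⟨g₀ * w⁻¹, ?_, ?_⟩
  · have e1 : g₀ * w⁻¹ - 1 = (g₀ - w) * w⁻¹ := by field_simp
    rw [e1]
    exact hgw.mul_right (locIntegral_mono hMz hw)
  · have e1 : U * (g₀ * w⁻¹) ^ p = U * g₀ ^ p * w⁻¹ ^ p := by ring
    rw [e1]
    exact mul_mem hU (pow_mem hw p)

section TwoCharts

variable {B0 B1 B01 F F' : Type*}
  [CommRing B0] [IsDomain B0] [IsIntegrallyClosed B0]
  [CommRing B1] [IsDomain B1] [IsIntegrallyClosed B1]
  [CommRing B01] [IsDomain B01] [IsIntegrallyClosed B01]
  [Field F] [Algebra B0 F] [IsFractionRing B0 F] [Algebra B1 F] [IsFractionRing B1 F]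
  [Algebra B01 F] [IsFractionRing B01 F]
  [Algebra B0 B01] [IsScalarTower B0 B01 F] [Algebra B1 B01] [IsScalarTower B1 B01 F]
  [Field F'] [Algebra F F'] [Algebra B0 F'] [IsScalarTower B0 F F']
  [Algebra B1 F'] [IsScalarTower B1 F F'] [Algebra B01 F'] [IsScalarTower B01 F F']

/-- **Two-chart Kummer idempotents.**  Two normal charts `B0`, `B1` inside their overlap `B01`
(same fraction field `F`, the same prime element `π`, with `π B01 ∩ B_i = π B_i`).
Under the hypotheses of `exists_idem_chart` on both charts there are `e0`, `e1` integral over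
`B0`, `B1`, idempotent modulo `π`, congruent modulo `π` on the overlap, and non-trivial. -/
theorem exists_idem_two_charts {π0 : B0} {π1 : B1} {π01 : B01}
    (hπ0 : Prime π0) (hπ1 : Prime π1) (hπ01 : Prime π01)
    (h0 : algebraMap B0 B01 π0 = π01) (h1 : algebraMap B1 B01 π1 = π01)
    (hsat0 : ∀ s : B0, ¬ π0 ∣ s → ¬ π01 ∣ algebraMap B0 B01 s)
    (hsat1 : ∀ s : B1, ¬ π1 ∣ s → ¬ π01 ∣ algebraMap B1 B01 s)
    {p : ℕ} (hp : p.Prime) (hpB0 : IsUnit (p : B0)) (hpB1 : IsUnit (p : B1))
    (pb : PowerBasis F F') (hdim : pb.dim = p) {U : F} (hgen : pb.gen ^ p = algebraMap F F' U)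
    (hgauss0 : PiMem π0 (ndvd hπ0) (U - 1)) (hgauss1 : PiMem π1 (ndvd hπ1) (U - 1))
    (hloc0 : ∀ z : Ideal B0, z.IsMaximal → π0 ∈ z → ∃ g : F, PiMem π0 (ndvd hπ0) (g - 1) ∧
      ∃ t, t ∉ z ∧ ∃ b : B0, algebraMap B0 F t * (U * g ^ p) = algebraMap B0 F b)
    (hloc1 : ∀ z : Ideal B1, z.IsMaximal → π1 ∈ z → ∃ g : F, PiMem π1 (ndvd hπ1) (g - 1) ∧
      ∃ t, t ∉ z ∧ ∃ b : B1, algebraMap B1 F t * (U * g ^ p) = algebraMap B1 F b) :
    ∃ e0 e1 : F', IsIntegral B0 e0 ∧ IsIntegral B1 e1 ∧
      PiMem π0 ⊥ (e0 ^ 2 - e0) ∧ PiMem π1 ⊥ (e1 ^ 2 - e1) ∧ PiMem π01 ⊥ (e0 - e1) ∧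
      ¬ PiMem π0 ⊥ e0 ∧ ¬ PiMem π0 ⊥ (e0 - 1) := by
  have t0 : IsScalarTower B0 B01 F' := IsScalarTower.of_algebraMap_eq fun x => by
    rw [IsScalarTower.algebraMap_apply B0 F F', IsScalarTower.algebraMap_apply B0 B01 F,
      ← IsScalarTower.algebraMap_apply B01 F F']
  have t1 : IsScalarTower B1 B01 F' := IsScalarTower.of_algebraMap_eq fun x => by
    rw [IsScalarTower.algebraMap_apply B1 F F', IsScalarTower.algebraMap_apply B1 B01 F,
      ← IsScalarTower.algebraMap_apply B01 F F']
  have hinj : Function.Injective (algebraMap B01 F') := by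
    rw [IsScalarTower.algebraMap_eq B01 F F']
    exact (algebraMap F F').injective.comp (IsFractionRing.injective B01 F)
  have : FaithfulSMul B01 F' := (faithfulSMul_iff_algebraMap_injective B01 F').mpr hinj
  obtain ⟨e0, he0, hE0, hid0, hn0, hn1⟩ :=
    exists_idem_chart hπ0 hp hpB0 pb hdim hgen hgauss0 hloc0
  obtain ⟨e1, he1, hE1, hid1, -, -⟩ :=
    exists_idem_chart hπ1 hp hpB1 pb hdim hgen hgauss1 hloc1
  refine ⟨e0, e1, he0, he1, hid0, hid1, ?_, hn0, hn1⟩
  have hE0' : PiMem π01 (ndvd hπ01) (e0 - kummerE p pb.gen) := by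
    have := hE0.tower (B' := B01) (M' := ndvd hπ01) (fun s hs => hsat0 s hs)
    rwa [h0] at this
  have hE1' : PiMem π01 (ndvd hπ01) (e1 - kummerE p pb.gen) := by
    have := hE1.tower (B' := B01) (M' := ndvd hπ01) (fun s hs => hsat1 s hs)
    rwa [h1] at this
  have hd : PiMem π01 (ndvd hπ01) (e0 - e1) := by
    have e : e0 - e1 = (e0 - kummerE p pb.gen) - (e1 - kummerE p pb.gen) := by ring
    rw [e]
    exact hE0'.sub hE1'
  exact PiMem.saturate hπ01 (fun s hs => hs) (he0.tower_top.sub he1.tower_top) hd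

end TwoCharts

/-- Kummer bookkeeping: to show that `U` is a `p`-th power in `F` it suffices to refute every
field `F' = F(y)`, `y^p = U`, of degree `p` over `F`. -/
theorem exists_pow_eq_of_forall_powerBasis.{u} {F : Type u} [Field F] {p : ℕ} (hp : p.Prime)
    (U : F)
    (H : ∀ (F' : Type u) [Field F'] [Algebra F F'] (pb : PowerBasis F F'),
      pb.dim = p → pb.gen ^ p = algebraMap F F' U → False) :
    ∃ V : F, V ^ p = U := by
  by_contra hno
  have hirr : Irreducible (X ^ p - C U : F[X]) :=
    X_pow_sub_C_irreducible_of_prime hp fun b hb => hno ⟨b, hb⟩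
  have : Fact (Irreducible (X ^ p - C U : F[X])) := ⟨hirr⟩
  have hne : (X ^ p - C U : F[X]) ≠ 0 := hirr.ne_zero
  refine H (AdjoinRoot (X ^ p - C U : F[X])) (AdjoinRoot.powerBasis hne) ?_ ?_
  · rw [AdjoinRoot.powerBasis_dim, natDegree_X_pow_sub_C]
  · rw [AdjoinRoot.powerBasis_gen]
    have h := AdjoinRoot.eval₂_root (X ^ p - C U : F[X])
    rw [eval₂_sub, eval₂_X_pow, eval₂_C, sub_eq_zero] at h
    rw [h]
    rfl

end Fermat.Agent.S37.helper2488
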