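import Mathlib

/-!
# Cech-style triviality of compatible idempotents (abstract brick, Mathlib only)

Abstract algebra behind step (N1)(c)-(d) of the S37/S18 torsion-injectivity argument.

Data: a local ring `O`, an element `π : O`, three commutative `O`-algebras `R0`, `Rinf`, `R`
(two "charts" and their "overlap") with `O`-algebra maps `f0 : R0 → R`, `finf : Rinf → R`.

Hypotheses:
* the only pairs `(x, y)` that agree on the overlap are the constants from `O`;
* the `π`-power torsion of the "first Cech cohomology" `R / (f0 R0 + finf Rinf)` has bounded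
  exponent (automatic when that quotient is a finitely generated module over noetherian `O`).

Conclusion: a pair of idempotents `e0` of `R0 / π`, `einf` of `Rinf / π` that agree in `R / π`
is trivial: both are `0` or both are `1`.

The proof lifts the idempotents modulo `π ^ (c + 1)` by Newton iteration, uses uniqueness of
idempotent lifts on the overlap, and kills the Cech obstruction with the torsion bound.
-/

namespace Fermat.Agent.S37.helper4706

section Newton

variable {R : Type*} [CommRing R]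

/-- One Newton step `a ↦ 3a² - 2a³` for idempotents: the defect is squared. -/
theorem idem_newton_step (I : Ideal R) (n : ℕ) (a : R) (h : a ^ 2 - a ∈ I ^ n) :
    (3 * a ^ 2 - 2 * a ^ 3) ^ 2 - (3 * a ^ 2 - 2 * a ^ 3) ∈ I ^ (n + n) ∧
      (3 * a ^ 2 - 2 * a ^ 3) - a ∈ I ^ n := by
  constructor
  · have e : (3 * a ^ 2 - 2 * a ^ 3) ^ 2 - (3 * a ^ 2 - 2 * a ^ 3)
        = (a ^ 2 - a) * (a ^ 2 - a) * (4 * (a ^ 2 - a) - 3) := by ring
    rw [e, pow_add]
    exact Ideal.mul_mem_right _ _ (Ideal.mul_mem_mul h h)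
  · have e : (3 * a ^ 2 - 2 * a ^ 3) - a = (a ^ 2 - a) * (-(2 * a - 1)) := by ring
    rw [e]
    exact Ideal.mul_mem_right _ _ h

/-- An element that is idempotent modulo `I` can be corrected by an element of `I` to an
element that is idempotent modulo `I ^ (n + 1)`. -/
theorem exists_idem_lift (I : Ideal R) (a : R) (h : a ^ 2 - a ∈ I) (n : ℕ) :
    ∃ a' : R, a' ^ 2 - a' ∈ I ^ (n + 1) ∧ a' - a ∈ I := by
  induction n with
  | zero => exact ⟨a, by simpa using h, by simp⟩
  | succ n ih =>
    obtain ⟨a', h1, h2⟩ := ih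
    obtain ⟨h3, h4⟩ := idem_newton_step I (n + 1) a' h1
    refine ⟨3 * a' ^ 2 - 2 * a' ^ 3, ?_, ?_⟩
    · exact Ideal.pow_le_pow_right (by omega) h3
    · have e : (3 * a' ^ 2 - 2 * a' ^ 3) - a
          = ((3 * a' ^ 2 - 2 * a' ^ 3) - a') + (a' - a) := by ring
      rw [e]
      exact I.add_mem (Ideal.pow_le_self (by omega) h4) h2

/-- Uniqueness of idempotent lifts, element form: two elements idempotent modulo `I ^ n`
and congruent modulo `I` are congruent modulo `I ^ n`. -/
theorem sub_mem_pow_of_idem (I : Ideal R) (n : ℕ) (a b : R) (ha : a ^ 2 - a ∈ I ^ n)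
    (hb : b ^ 2 - b ∈ I ^ n) (hab : a - b ∈ I) : a - b ∈ I ^ n := by
  rw [← Ideal.Quotient.eq]
  apply eq_of_isNilpotent_sub_of_isIdempotentElem
  · unfold IsIdempotentElem
    rw [← map_mul, Ideal.Quotient.eq]
    have e : a * a - a = a ^ 2 - a := by ring
    rw [e]; exact ha
  · unfold IsIdempotentElem
    rw [← map_mul, Ideal.Quotient.eq]
    have e : b * b - b = b ^ 2 - b := by ring
    rw [e]; exact hb
  · refine ⟨n, ?_⟩
    rw [← map_sub, ← map_pow, Ideal.Quotient.eq_zero_iff_mem]
    exact Ideal.pow_mem_pow hab n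

end Newton

section Cech

variable {O R0 Rinf R : Type*} [CommRing O] [CommRing R0] [CommRing Rinf] [CommRing R]
  [Algebra O R0] [Algebra O Rinf] [Algebra O R]

/-- **Compatible idempotents are trivial** (bounded-torsion form).

`hinter`: the only pairs agreeing on the overlap are constants.
`hc`: a class of `R / (f0 R0 + finf Rinf)` killed by `π ^ (c + 1)` is killed by `π ^ c`. -/
theorem idem_trivial_of_bounded_torsion [IsLocalRing O] (f0 : R0 →ₐ[O] R) (finf : Rinf →ₐ[O] R)
    (π : O)
    (hinter : ∀ x y, f0 x = finf y → ∃ o : O, x = algebraMap O R0 o ∧ y = algebraMap O Rinf o)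
    (c : ℕ)
    (hc : ∀ x : R, (∃ u v, algebraMap O R π ^ (c + 1) * x = f0 u + finf v) →
      ∃ u v, algebraMap O R π ^ c * x = f0 u + finf v)
    (e0 : R0) (einf : Rinf)
    (h0 : e0 ^ 2 - e0 ∈ Ideal.span {algebraMap O R0 π})
    (hinf : einf ^ 2 - einf ∈ Ideal.span {algebraMap O Rinf π})
    (hag : f0 e0 - finf einf ∈ Ideal.span {algebraMap O R π}) :
    (e0 ∈ Ideal.span {algebraMap O R0 π} ∧ einf ∈ Ideal.span {algebraMap O Rinf π}) ∨
      (e0 - 1 ∈ Ideal.span {algebraMap O R0 π} ∧
        einf - 1 ∈ Ideal.span {algebraMap O Rinf π}) := by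
  set I0 : Ideal R0 := Ideal.span {algebraMap O R0 π} with hI0
  set Iinf : Ideal Rinf := Ideal.span {algebraMap O Rinf π} with hIinf
  set I : Ideal R := Ideal.span {algebraMap O R π} with hI
  have hπ0 : algebraMap O R0 π ∈ I0 := Ideal.subset_span rfl
  have hπinf : algebraMap O Rinf π ∈ Iinf := Ideal.subset_span rfl
  obtain ⟨a, ha1, ha2⟩ := exists_idem_lift I0 e0 h0 c
  obtain ⟨b, hb1, hb2⟩ := exists_idem_lift Iinf einf hinf c
  have hmap0 : ∀ k x, x ∈ I0 ^ k → f0 x ∈ I ^ k := by
    intro k x hx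
    have e : (I0 ^ k).map (f0 : R0 →+* R) = I ^ k := by
      rw [Ideal.map_pow, hI0, Ideal.map_span, Set.image_singleton]
      simp [hI]
    rw [← e]
    exact Ideal.mem_map_of_mem (f0 : R0 →+* R) hx
  have hmapinf : ∀ k x, x ∈ Iinf ^ k → finf x ∈ I ^ k := by
    intro k x hx
    have e : (Iinf ^ k).map (finf : Rinf →+* R) = I ^ k := by
      rw [Ideal.map_pow, hIinf, Ideal.map_span, Set.image_singleton]
      simp [hI]
    rw [← e]
    exact Ideal.mem_map_of_mem (finf : Rinf →+* R) hx
  have h1 : f0 a ^ 2 - f0 a ∈ I ^ (c + 1) := by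
    have := hmap0 (c + 1) _ ha1
    simpa using this
  have h2 : finf b ^ 2 - finf b ∈ I ^ (c + 1) := by
    have := hmapinf (c + 1) _ hb1
    simpa using this
  have h3 : f0 a - finf b ∈ I := by
    have e : f0 a - finf b = f0 (a - e0) + (f0 e0 - finf einf) - finf (b - einf) := by
      simp only [map_sub]; ring
    rw [e]
    have k1 : f0 (a - e0) ∈ I := by
      have := hmap0 1 _ (by simpa using ha2)
      simpa using this
    have k2 : finf (b - einf) ∈ I := by
      have := hmapinf 1 _ (by simpa using hb2)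
      simpa using this
    exact I.sub_mem (I.add_mem k1 hag) k2
  have h4 := sub_mem_pow_of_idem I (c + 1) _ _ h1 h2 h3
  rw [hI, Ideal.span_singleton_pow, Ideal.mem_span_singleton'] at h4
  obtain ⟨x, hx⟩ := h4
  obtain ⟨u, v, huv⟩ := hc x ⟨a, -b, by rw [mul_comm, hx, map_neg]; ring⟩
  have h5 : f0 (a - algebraMap O R0 π * u) = finf (b + algebraMap O Rinf π * v) := by
    simp only [map_sub, map_add, map_mul, AlgHom.commutes]
    have e : f0 a - finf b = algebraMap O R π * (f0 u + finf v) := by
      rw [← huv, ← hx]; ring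
    linear_combination e
  obtain ⟨o, ho1, ho2⟩ := hinter _ _ h5
  have k0 : e0 - algebraMap O R0 o ∈ I0 := by
    have e : e0 - algebraMap O R0 o = -(a - e0) + algebraMap O R0 π * u := by
      rw [← ho1]; ring
    rw [e]
    exact I0.add_mem (I0.neg_mem ha2) (I0.mul_mem_right _ hπ0)
  have kinf : einf - algebraMap O Rinf o ∈ Iinf := by
    have e : einf - algebraMap O Rinf o = -(b - einf) - algebraMap O Rinf π * v := by
      rw [← ho2]; ring
    rw [e]
    exact Iinf.sub_mem (Iinf.neg_mem hb2) (Iinf.mul_mem_right _ hπinf)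
  rcases IsLocalRing.isUnit_or_isUnit_one_sub_self o with ho | ho
  · right
    obtain ⟨o', ho'⟩ := ho.exists_left_inv
    constructor
    · have hm : algebraMap O R0 o' * algebraMap O R0 o = 1 := by
        rw [← map_mul, ho', map_one]
      have e : e0 - 1 = algebraMap O R0 o' *
          (-(e0 - algebraMap O R0 o) * (e0 - 1) + (e0 ^ 2 - e0)) := by
        linear_combination (-(e0 - 1)) * hm
      rw [e]
      exact I0.mul_mem_left _ (I0.add_mem (I0.mul_mem_right _ (I0.neg_mem k0)) h0)
    · have hm : algebraMap O Rinf o' * algebraMap O Rinf o = 1 := by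
        rw [← map_mul, ho', map_one]
      have e : einf - 1 = algebraMap O Rinf o' *
          (-(einf - algebraMap O Rinf o) * (einf - 1) + (einf ^ 2 - einf)) := by
        linear_combination (-(einf - 1)) * hm
      rw [e]
      exact Iinf.mul_mem_left _ (Iinf.add_mem (Iinf.mul_mem_right _ (Iinf.neg_mem kinf)) hinf)
  · left
    obtain ⟨o', ho'⟩ := ho.exists_left_inv
    constructor
    · have hm : algebraMap O R0 o' * (1 - algebraMap O R0 o) = 1 := by
        rw [← map_one (algebraMap O R0), ← map_sub, ← map_mul, ho']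
      have e : e0 = algebraMap O R0 o' *
          ((e0 - algebraMap O R0 o) * e0 - (e0 ^ 2 - e0)) := by
        linear_combination (-e0) * hm
      rw [e]
      exact I0.mul_mem_left _ (I0.sub_mem (I0.mul_mem_right _ k0) h0)
    · have hm : algebraMap O Rinf o' * (1 - algebraMap O Rinf o) = 1 := by
        rw [← map_one (algebraMap O Rinf), ← map_sub, ← map_mul, ho']
      have e : einf = algebraMap O Rinf o' *
          ((einf - algebraMap O Rinf o) * einf - (einf ^ 2 - einf)) := by
        linear_combination (-einf) * hm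
      rw [e]
      exact Iinf.mul_mem_left _ (Iinf.sub_mem (Iinf.mul_mem_right _ kinf) hinf)

/-- Bounded `π`-power torsion of `R / S` for a submodule `S` with finitely generated
complement over a noetherian ring. -/
theorem exists_torsion_bound [IsNoetherianRing O] (S : Submodule O R)
    (hfg : ∃ V : Submodule O R, V.FG ∧ V ⊔ S = ⊤) (π : O) :
    ∃ c : ℕ, ∀ x : R, π ^ (c + 1) • x ∈ S → π ^ c • x ∈ S := by
  obtain ⟨V, hV, hVS⟩ := hfg
  have hfin : Module.Finite O (R ⧸ S) := by
    have hsurj : Function.Surjective (S.mkQ.comp V.subtype) := by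
      intro y
      obtain ⟨x, rfl⟩ := S.mkQ_surjective y
      have hx : x ∈ V ⊔ S := by rw [hVS]; trivial
      obtain ⟨v, hv, s, hs, rfl⟩ := Submodule.mem_sup.mp hx
      refine ⟨⟨v, hv⟩, ?_⟩
      simp only [LinearMap.coe_comp, Function.comp_apply, Submodule.subtype_apply, map_add]
      have hz : S.mkQ s = 0 := (Submodule.Quotient.mk_eq_zero S).mpr hs
      rw [hz, add_zero]
    have : Module.Finite O V := Module.Finite.iff_fg.mpr hV
    exact Module.Finite.of_surjective _ hsurj
  have : IsNoetherian O (R ⧸ S) := isNoetherian_of_isNoetherianRing_of_finite O (R ⧸ S)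
  let T : ℕ →o Submodule O (R ⧸ S) :=
    { toFun := fun k => LinearMap.ker ((π ^ k) • (LinearMap.id : (R ⧸ S) →ₗ[O] (R ⧸ S)))
      monotone' := by
        intro k m hkm y hy
        simp only [LinearMap.mem_ker, LinearMap.smul_apply, LinearMap.id_coe, id_eq] at hy ⊢
        obtain ⟨d, rfl⟩ := Nat.exists_eq_add_of_le hkm
        rw [pow_add, mul_comm, mul_smul, hy, smul_zero] }
  obtain ⟨c, hc⟩ := monotone_stabilizes_iff_noetherian.mpr ‹IsNoetherian O (R ⧸ S)› T
  refine ⟨c, fun x hx => ?_⟩
  have h1 : S.mkQ x ∈ T (c + 1) := by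
    change S.mkQ x ∈ LinearMap.ker ((π ^ (c + 1)) • (LinearMap.id : (R ⧸ S) →ₗ[O] (R ⧸ S)))
    simp only [LinearMap.mem_ker, LinearMap.smul_apply, LinearMap.id_coe, id_eq]
    rw [← map_smul]
    exact (Submodule.Quotient.mk_eq_zero S).mpr hx
  rw [← hc (c + 1) (Nat.le_succ c)] at h1
  change S.mkQ x ∈ LinearMap.ker ((π ^ c) • (LinearMap.id : (R ⧸ S) →ₗ[O] (R ⧸ S))) at h1
  simp only [LinearMap.mem_ker, LinearMap.smul_apply, LinearMap.id_coe, id_eq] at h1
  rw [← map_smul] at h1
  exact (Submodule.Quotient.mk_eq_zero S).mp h1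

/-- **Compatible idempotents are trivial** (finite-`H¹` form): if `R` is spanned over `O` by
the two charts together with a finitely generated `O`-submodule, `O` is a noetherian local
ring, and the only pairs agreeing on the overlap are the constants, then a pair of elements
idempotent modulo `π` and agreeing modulo `π` on the overlap is `(0, 0)` or `(1, 1)`
modulo `π`. -/
theorem idem_trivial_of_fg [IsLocalRing O] [IsNoetherianRing O] (f0 : R0 →ₐ[O] R)
    (finf : Rinf →ₐ[O] R) (π : O)
    (hinter : ∀ x y, f0 x = finf y → ∃ o : O, x = algebraMap O R0 o ∧ y = algebraMap O Rinf o)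
    (hfg : ∃ V : Submodule O R, V.FG ∧
      V ⊔ (LinearMap.range f0.toLinearMap ⊔ LinearMap.range finf.toLinearMap) = ⊤)
    (e0 : R0) (einf : Rinf)
    (h0 : e0 ^ 2 - e0 ∈ Ideal.span {algebraMap O R0 π})
    (hinf : einf ^ 2 - einf ∈ Ideal.span {algebraMap O Rinf π})
    (hag : f0 e0 - finf einf ∈ Ideal.span {algebraMap O R π}) :
    (e0 ∈ Ideal.span {algebraMap O R0 π} ∧ einf ∈ Ideal.span {algebraMap O Rinf π}) ∨
      (e0 - 1 ∈ Ideal.span {algebraMap O R0 π} ∧
        einf - 1 ∈ Ideal.span {algebraMap O Rinf π}) := by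
  obtain ⟨c, hc⟩ := exists_torsion_bound
    (LinearMap.range f0.toLinearMap ⊔ LinearMap.range finf.toLinearMap) hfg π
  have hmem : ∀ y : R, y ∈ LinearMap.range f0.toLinearMap ⊔ LinearMap.range finf.toLinearMap ↔
      ∃ u v, y = f0 u + finf v := by
    intro y
    rw [Submodule.mem_sup]
    constructor
    · rintro ⟨_, ⟨u, rfl⟩, _, ⟨v, rfl⟩, rfl⟩
      exact ⟨u, v, rfl⟩
    · rintro ⟨u, v, rfl⟩
      exact ⟨_, ⟨u, rfl⟩, _, ⟨v, rfl⟩, rfl⟩
  refine idem_trivial_of_bounded_torsion f0 finf π hinter c ?_ e0 einf h0 hinf hag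
  intro x hx
  have e1 : ∀ k : ℕ, algebraMap O R π ^ k * x = π ^ k • x := by
    intro k
    rw [Algebra.smul_def, map_pow]
  rw [e1] at hx ⊢
  exact (hmem _).mp (hc x ((hmem _).mpr hx))

end Cech

end Fermat.Agent.S37.helper4706
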