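import Mathlib
import Fermat.Agent.S37.helper2488_KummerIdem
import Fermat.Agent.S37.helper4706_IdemCech

/-!
# S37 / S18 : Kummer idempotents against the Čech lemma (helper2488)

`false_of_kummer_cech` : the two-chart Kummer idempotents of `helper2488_KummerIdem` contradict
the Čech rigidity of idempotents (`helper4706_IdemCech.idem_trivial_of_fg`) as soon as the three
integral closures (of the two charts and of the overlap, in the Kummer extension `F'`) have
constant global sections and finitely generated `H¹`.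

`exists_pow_eq_of_kummer_cech` : consequently `U` is a `p`-th power in `F`.
-/

set_option autoImplicit false

namespace Fermat.Agent.S37.helper2488

section Bridge

variable {O B F' : Type*} [CommRing O] [CommRing B] [CommRing F'] [Algebra O B] [Algebra B F']
  [Algebra O F'] [IsScalarTower O B F']

theorem mem_span_of_piMem (ϖ : O) {x : integralClosure B F'}
    (h : PiMem (algebraMap O B ϖ) ⊥ (x : F')) :
    x ∈ Ideal.span {algebraMap O (integralClosure B F') ϖ} := by
  obtain ⟨r, hr, hx⟩ := h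
  rw [Ideal.mem_span_singleton']
  refine ⟨⟨r, mem_locIntegral_bot.mp hr⟩, Subtype.ext ?_⟩
  show r * algebraMap O F' ϖ = (x : F')
  rw [hx, IsScalarTower.algebraMap_apply O B F', mul_comm]

theorem piMem_of_mem_span (ϖ : O) {x : integralClosure B F'}
    (h : x ∈ Ideal.span {algebraMap O (integralClosure B F') ϖ}) :
    PiMem (algebraMap O B ϖ) ⊥ (x : F') := by
  rw [Ideal.mem_span_singleton'] at h
  obtain ⟨w, hw⟩ := h
  refine ⟨(w : F'), mem_locIntegral_bot.mpr w.2, ?_⟩
  have := congrArg (Subtype.val) hw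
  rw [← this, ← IsScalarTower.algebraMap_apply O B F', mul_comm]
  rfl

end Bridge

section Final

variable {O B0 B1 B01 F F' : Type*}
  [CommRing O] [IsLocalRing O] [IsNoetherianRing O]
  [CommRing B0] [IsDomain B0] [IsIntegrallyClosed B0]
  [CommRing B1] [IsDomain B1] [IsIntegrallyClosed B1]
  [CommRing B01] [IsDomain B01] [IsIntegrallyClosed B01]
  [Field F] [Algebra B0 F] [IsFractionRing B0 F] [Algebra B1 F] [IsFractionRing B1 F]
  [Algebra B01 F] [IsFractionRing B01 F]
  [Algebra B0 B01] [IsScalarTower B0 B01 F] [Algebra B1 B01] [IsScalarTower B1 B01 F]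
  [Field F'] [Algebra F F'] [Algebra B0 F'] [IsScalarTower B0 F F']
  [Algebra B1 F'] [IsScalarTower B1 F F'] [Algebra B01 F'] [IsScalarTower B01 F F']
  [Algebra O B0] [Algebra O B1] [Algebra O B01] [Algebra O F']
  [IsScalarTower O B0 F'] [IsScalarTower O B1 F'] [IsScalarTower O B01 F']
  [IsScalarTower O B0 B01] [IsScalarTower O B1 B01]

/-- **Kummer idempotents against Čech rigidity.**  In the situation of
`exists_idem_two_charts` (charts `B0`, `B1` inside `B01`, all `O`-algebras, `π` coming from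
the local noetherian ring `O`), if moreover the integral closures `B0'`, `B1'`, `B01'` in the
Kummer extension `F' = F(U^(1/p))` satisfy

* `hinter` : `B0' ∩ B1' = O` (global functions are constants), and
* `hfg`    : `B01' / (B0' + B1')` is a finitely generated `O`-module,

then we have a contradiction.  (So such an `F'` of degree `p` cannot exist.) -/
theorem false_of_kummer_cech (ϖ : O)
    (hπ0 : Prime (algebraMap O B0 ϖ)) (hπ1 : Prime (algebraMap O B1 ϖ))
    (hπ01 : Prime (algebraMap O B01 ϖ))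
    (hsat0 : ∀ s : B0, ¬ algebraMap O B0 ϖ ∣ s → ¬ algebraMap O B01 ϖ ∣ algebraMap B0 B01 s)
    (hsat1 : ∀ s : B1, ¬ algebraMap O B1 ϖ ∣ s → ¬ algebraMap O B01 ϖ ∣ algebraMap B1 B01 s)
    {p : ℕ} (hp : p.Prime) (hpB0 : IsUnit (p : B0)) (hpB1 : IsUnit (p : B1))
    (pb : PowerBasis F F') (hdim : pb.dim = p) {U : F} (hgen : pb.gen ^ p = algebraMap F F' U)
    (hgauss0 : PiMem (algebraMap O B0 ϖ) (ndvd hπ0) (U - 1))
    (hgauss1 : PiMem (algebraMap O B1 ϖ) (ndvd hπ1) (U - 1))
    (hloc0 : ∀ z : Ideal B0, z.IsMaximal → algebraMap O B0 ϖ ∈ z → ∃ g : F,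
      PiMem (algebraMap O B0 ϖ) (ndvd hπ0) (g - 1) ∧
      ∃ t, t ∉ z ∧ ∃ b : B0, algebraMap B0 F t * (U * g ^ p) = algebraMap B0 F b)
    (hloc1 : ∀ z : Ideal B1, z.IsMaximal → algebraMap O B1 ϖ ∈ z → ∃ g : F,
      PiMem (algebraMap O B1 ϖ) (ndvd hπ1) (g - 1) ∧
      ∃ t, t ∉ z ∧ ∃ b : B1, algebraMap B1 F t * (U * g ^ p) = algebraMap B1 F b)
    (hinter : ∀ x : F', IsIntegral B0 x → IsIntegral B1 x → ∃ o : O, x = algebraMap O F' o)
    (hfg : ∃ (n : ℕ) (v : Fin n → F'), (∀ i, IsIntegral B01 (v i)) ∧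
      ∀ x : F', IsIntegral B01 x → ∃ (c : Fin n → O) (a b : F'),
        IsIntegral B0 a ∧ IsIntegral B1 b ∧ x = ∑ i, c i • v i + a + b) :
    False := by
  have t0 : IsScalarTower B0 B01 F' := IsScalarTower.of_algebraMap_eq fun x => by
    rw [IsScalarTower.algebraMap_apply B0 F F', IsScalarTower.algebraMap_apply B0 B01 F,
      ← IsScalarTower.algebraMap_apply B01 F F']
  have t1 : IsScalarTower B1 B01 F' := IsScalarTower.of_algebraMap_eq fun x => by
    rw [IsScalarTower.algebraMap_apply B1 F F', IsScalarTower.algebraMap_apply B1 B01 F,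
      ← IsScalarTower.algebraMap_apply B01 F F']
  obtain ⟨e0, e1, he0, he1, hid0, hid1, hag, hn0, hn1⟩ :=
    exists_idem_two_charts hπ0 hπ1 hπ01
      (IsScalarTower.algebraMap_apply O B0 B01 ϖ).symm
      (IsScalarTower.algebraMap_apply O B1 B01 ϖ).symm
      hsat0 hsat1 hp hpB0 hpB1 pb hdim hgen hgauss0 hgauss1 hloc0 hloc1
  -- the three integral closures and the restriction maps
  let f0 : integralClosure B0 F' →ₐ[O] integralClosure B01 F' :=
    { toFun := fun x => ⟨x.1, (show IsIntegral _ x.1 from x.2).tower_top⟩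
      map_one' := rfl
      map_mul' := fun _ _ => rfl
      map_zero' := rfl
      map_add' := fun _ _ => rfl
      commutes' := fun _ => rfl }
  let f1 : integralClosure B1 F' →ₐ[O] integralClosure B01 F' :=
    { toFun := fun x => ⟨x.1, (show IsIntegral _ x.1 from x.2).tower_top⟩
      map_one' := rfl
      map_mul' := fun _ _ => rfl
      map_zero' := rfl
      map_add' := fun _ _ => rfl
      commutes' := fun _ => rfl }
  have hinter' : ∀ (x : integralClosure B0 F') (y : integralClosure B1 F'), f0 x = f1 y →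
      ∃ o : O, x = algebraMap O (integralClosure B0 F') o ∧
        y = algebraMap O (integralClosure B1 F') o := by
    intro x y hxy
    have hxy' : (x : F') = (y : F') := congrArg Subtype.val hxy
    obtain ⟨o, ho⟩ := hinter x.1 x.2 (by rw [hxy']; exact y.2)
    exact ⟨o, Subtype.ext ho, Subtype.ext (hxy' ▸ ho)⟩
  have hfg' : ∃ V : Submodule O (integralClosure B01 F'), V.FG ∧
      V ⊔ (LinearMap.range f0.toLinearMap ⊔ LinearMap.range f1.toLinearMap) = ⊤ := by
    obtain ⟨n, v, hv, hspan⟩ := hfg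
    let w : Fin n → integralClosure B01 F' := fun i => ⟨v i, hv i⟩
    refine ⟨Submodule.span O (Set.range w), Submodule.fg_span (Set.finite_range w), ?_⟩
    rw [eq_top_iff]
    rintro ⟨x, hx⟩ -
    obtain ⟨c, a, b, ha, hb, hxab⟩ := hspan x hx
    rw [Submodule.mem_sup]
    refine ⟨∑ i, c i • w i, ?_, f0 ⟨a, ha⟩ + f1 ⟨b, hb⟩, ?_, ?_⟩
    · exact Submodule.sum_mem _ fun i _ =>
        Submodule.smul_mem _ _ (Submodule.subset_span ⟨i, rfl⟩)
    · exact Submodule.mem_sup.mpr ⟨_, ⟨⟨a, ha⟩, rfl⟩, _, ⟨⟨b, hb⟩, rfl⟩, rfl⟩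
    · apply Subtype.ext
      show ((∑ i, c i • w i + (f0 ⟨a, ha⟩ + f1 ⟨b, hb⟩) : integralClosure B01 F') : F') = x
      rw [hxab, add_assoc]
      simp only [Subalgebra.coe_add, AddSubmonoidClass.coe_finsetSum, Subalgebra.coe_smul]
      rfl
  have key := Fermat.Agent.S37.helper4706.idem_trivial_of_fg f0 f1 ϖ hinter' hfg'
    ⟨e0, he0⟩ ⟨e1, he1⟩ (mem_span_of_piMem ϖ hid0) (mem_span_of_piMem ϖ hid1)
    (mem_span_of_piMem ϖ hag)
  rcases key with ⟨h, -⟩ | ⟨h, -⟩
  · exact hn0 (piMem_of_mem_span ϖ h)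
  · exact hn1 (piMem_of_mem_span ϖ h)

end Final

end Fermat.Agent.S37.helper2488
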