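import Fermat.Agent.S37.helper2025_GaloisCharts

/-!
# S37-C3 CRUDE: the crude specialisation relation does not depend on the chart (helper2553)

Plan module C3 of the S37 plan.  Everything up to the last section is algebraic (no
`q`-expansions, no modular vocabulary): `K` a field with a valuation subring `A`, `F` a field
over `K`, `Place K F` the Prelude places, `t : F` a non-constant coordinate function.  Vocabulary
of `helper2025_GaloisPoints` / `helper2025_GaloisCharts` (`HasValueAt`, `InChart`,
`SameResidueOn`, `ChartRel`, `relSubgroup`, `intChart`, `finChart`, `infChart`, `specKernel`).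

* `exists_mul_mem_intChart` : SCALING.  If every new generator `y ∈ Y` is a fraction with a
  denominator in a submonoid `Γ` of the ring generated by `G`, then every function integral over
  the ring generated by `G ∪ Y` becomes integral over the ring generated by `G` after
  multiplication by an element of `Γ`.
* `sameResidueOn_union_of_unitAt` : LOCALISATION INVARIANCE.  Adjoining to a chart generators
  that are fractions with denominators of unit value at `v` does not change the relation "same
  residue map".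
* `ptChart A t S` : the chart of the functions integral over `A[1/(t - s) : s ∈ S]` (poles only
  on the fibres `t = s`, `s ∈ S`), `Vis A t S v` : the place `v` is visible in this chart.
  `inChart_ptChart` is the evaluation lemma off a set of fibres; `vis_iff_of_hasValueAt`,
  `vis_of_hasValueAt_inv` compute visibility.
* `crudeRel A t` : the crude relation (same residue map on the finite `A`-chart or on the local
  `A`-chart at infinity); it is an equivalence relation (`crudeRel_equivalence`) and
  **it is computed by every point chart `ptChart A t S` in which the first place is visible**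
  (`crudeRel_iff_sameResidueOn_ptChart`), in particular by every family of point charts
  containing the one-point charts (`chartRel_ptCharts_iff`, `crudeRel_iff_exists_ptChart`).
* `crudeKernel A t` : the subgroup of `Pic0` attached to the crude relation; it is the
  specialisation kernel of the two standard charts and of every family of point charts
  (`specKernel_stdCharts_eq`, `specKernel_ptCharts_eq`).
* arithmetic setting: stability of the crude relation / kernel under the decomposition group,
  Galois stability of the point charts, and (R1) through point charts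
  (`inertia_smul_sub_mem_crudeKernel`).
-/

set_option autoImplicit false

noncomputable section

open AlgebraicCurve ModularCurve

namespace Fermat.Agent.S37.helper2553

open Fermat.Agent.S37.helper2025

/-! ## Scaling -/

section Scaling

variable {F : Type*} [Field F]

/-- monotonicity of `intChart` with respect to the generated ring. -/
theorem intChart_subset_of_subset_closure {G G' : Set F} (h : G ⊆ Subring.closure G') :
    intChart G ⊆ intChart G' := by
  intro f hf
  obtain ⟨p, hp, hpx⟩ := hf
  have hle : Subring.closure G ≤ Subring.closure G' := Subring.closure_le.mpr h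
  refine ⟨p.map (Subring.inclusion hle), hp.map _, ?_⟩
  rw [Polynomial.eval₂_map]
  exact hpx

theorem intChart_mono {G G' : Set F} (h : G ⊆ G') : intChart G ⊆ intChart G' :=
  intChart_subset_of_subset_closure (h.trans Subring.subset_closure)

/-- SCALING, ring level: if every `y ∈ Y` has a denominator in the submonoid `Γ` of the ring
generated by `G`, so does every element of the ring generated by `G ∪ Y`. -/
theorem exists_mul_mem_closure {G Y : Set F} (Γ : Submonoid F)
    (hΓ : ∀ γ ∈ Γ, γ ∈ Subring.closure G)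
    (hY : ∀ y ∈ Y, ∃ γ ∈ Γ, γ * y ∈ Subring.closure G) {x : F}
    (hx : x ∈ Subring.closure (G ∪ Y)) : ∃ γ ∈ Γ, γ * x ∈ Subring.closure G := by
  induction hx using Subring.closure_induction with
  | mem x hx =>
      rcases hx with hx | hx
      · exact ⟨1, Γ.one_mem, by rw [one_mul]; exact Subring.subset_closure hx⟩
      · exact hY x hx
  | zero => exact ⟨1, Γ.one_mem, by rw [mul_zero]; exact zero_mem _⟩
  | one => exact ⟨1, Γ.one_mem, by rw [mul_one]; exact one_mem _⟩
  | add x y _ _ hx hy =>
      obtain ⟨γ, hγ, h1⟩ := hx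
      obtain ⟨δ, hδ, h2⟩ := hy
      refine ⟨γ * δ, Γ.mul_mem hγ hδ, ?_⟩
      have e : γ * δ * (x + y) = δ * (γ * x) + γ * (δ * y) := by ring
      rw [e]
      exact add_mem (mul_mem (hΓ δ hδ) h1) (mul_mem (hΓ γ hγ) h2)
  | neg x _ hx =>
      obtain ⟨γ, hγ, h1⟩ := hx
      exact ⟨γ, hγ, by rw [mul_neg]; exact neg_mem h1⟩
  | mul x y _ _ hx hy =>
      obtain ⟨γ, hγ, h1⟩ := hx
      obtain ⟨δ, hδ, h2⟩ := hy
      refine ⟨γ * δ, Γ.mul_mem hγ hδ, ?_⟩
      have e : γ * δ * (x * y) = (γ * x) * (δ * y) := by ring
      rw [e]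
      exact mul_mem h1 h2

/-- a common denominator for finitely many elements. -/
theorem exists_mul_mem_closure_finset {G Y : Set F} (Γ : Submonoid F)
    (hΓ : ∀ γ ∈ Γ, γ ∈ Subring.closure G)
    (hY : ∀ y ∈ Y, ∃ γ ∈ Γ, γ * y ∈ Subring.closure G) {ι : Type*} (s : Finset ι)
    (c : ι → F) (hc : ∀ i ∈ s, c i ∈ Subring.closure (G ∪ Y)) :
    ∃ γ ∈ Γ, ∀ i ∈ s, γ * c i ∈ Subring.closure G := by
  classical
  induction s using Finset.induction_on with
  | empty => exact ⟨1, Γ.one_mem, fun i hi => absurd hi (Finset.notMem_empty i)⟩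
  | insert a s _ ih =>
      obtain ⟨γ, hγ, h1⟩ := ih (fun i hi => hc i (Finset.mem_insert_of_mem hi))
      obtain ⟨δ, hδ, h2⟩ := exists_mul_mem_closure Γ hΓ hY (hc a (Finset.mem_insert_self a s))
      refine ⟨γ * δ, Γ.mul_mem hγ hδ, fun i hi => ?_⟩
      rcases Finset.mem_insert.mp hi with rfl | hi
      · have e : γ * δ * c i = γ * (δ * c i) := by ring
        rw [e]
        exact mul_mem (hΓ γ hγ) h2
      · have e : γ * δ * c i = δ * (γ * c i) := by ring
        rw [e]
        exact mul_mem (hΓ δ hδ) (h1 i hi)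

/-- SCALING, integral level: if every `y ∈ Y` has a denominator in the submonoid `Γ` of the ring
generated by `G`, then every function integral over the ring generated by `G ∪ Y` becomes
integral over the ring generated by `G` after multiplication by an element of `Γ`. -/
theorem exists_mul_mem_intChart {G Y : Set F} (Γ : Submonoid F)
    (hΓ : ∀ γ ∈ Γ, γ ∈ Subring.closure G)
    (hY : ∀ y ∈ Y, ∃ γ ∈ Γ, γ * y ∈ Subring.closure G) {f : F}
    (hf : f ∈ intChart (G ∪ Y)) : ∃ γ ∈ Γ, γ * f ∈ intChart G := by
  classical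
  obtain ⟨p, hp, hpf⟩ := hf
  -- a common denominator for the coefficients of `p`
  obtain ⟨γ, hγ, hc⟩ := exists_mul_mem_closure_finset Γ hΓ hY p.support
    (fun i => ((p.coeff i : Subring.closure (G ∪ Y)) : F)) (fun i _ => (p.coeff i).2)
  refine ⟨γ, hγ, ?_⟩
  have hle : Subring.closure G ≤ Subring.closure (G ∪ Y) :=
    Subring.closure_mono Set.subset_union_left
  set s : Subring.closure (G ∪ Y) := ⟨γ, hle (hΓ γ hγ)⟩ with hs
  -- the scaled polynomial, as a polynomial over `F`
  set q : Polynomial F := (Polynomial.scaleRoots p s).map (Subring.closure (G ∪ Y)).subtype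
    with hq
  have hqm : q.Monic := ((Polynomial.monic_scaleRoots_iff s).mpr hp).map _
  have hroot : Polynomial.eval (γ * f) q = 0 := by
    rw [hq, Polynomial.eval_map]
    have h0 := Polynomial.scaleRoots_eval₂_eq_zero (Subring.closure (G ∪ Y)).subtype (s := s) hpf
    exact h0
  have hcoeff : ∀ i, q.coeff i ∈ Subring.closure G := by
    intro i
    rw [hq, Polynomial.coeff_map, Polynomial.coeff_scaleRoots]
    show ((p.coeff i : Subring.closure (G ∪ Y)) : F) * γ ^ (p.natDegree - i) ∈ _
    rcases lt_trichotomy i p.natDegree with hi | hi | hi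
    · have hpos : p.natDegree - i = (p.natDegree - i - 1) + 1 := by omega
      have hne : p.coeff i = 0 ∨ i ∈ p.support := by
        by_cases h0 : p.coeff i = 0
        · exact Or.inl h0
        · exact Or.inr (Polynomial.mem_support_iff.mpr h0)
      rcases hne with h0 | hsupp
      · rw [h0]
        simp
      · rw [hpos, pow_succ]
        have e : ((p.coeff i : Subring.closure (G ∪ Y)) : F) * (γ ^ (p.natDegree - i - 1) * γ)
            = γ ^ (p.natDegree - i - 1) * (γ * ((p.coeff i : Subring.closure (G ∪ Y)) : F)) := by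
          ring
        rw [e]
        exact mul_mem (pow_mem (hΓ γ hγ) _) (hc i hsupp)
    · rw [hi, hp.coeff_natDegree]
      simp
    · rw [Polynomial.coeff_eq_zero_of_natDegree_lt hi]
      simp
  -- lift `q` to the ring generated by `G`
  have hqc : (↑q.coeffs : Set F) ⊆ Subring.closure G := by
    intro x hx
    obtain ⟨n, _, rfl⟩ := Polynomial.mem_coeffs_iff.mp (Finset.mem_coe.mp hx)
    exact hcoeff n
  refine ⟨q.toSubring (Subring.closure G) hqc,
    (Polynomial.monic_toSubring q (Subring.closure G) hqc).mpr hqm, ?_⟩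
  have e1 : (q.toSubring (Subring.closure G) hqc).map (algebraMap (Subring.closure G) F) = q :=
    Polynomial.map_toSubring q (Subring.closure G) hqc
  rw [Polynomial.eval₂_eq_eval_map, e1]
  exact hroot

end Scaling

/-! ## Localisation invariance -/

section Local

variable {K F : Type*} [Field K] [Field F] [Algebra K F]

/-- two `A`-integral elements with product `1` are units of `A`. -/
theorem valuation_eq_one_of_mul_eq_one {A : ValuationSubring K} {x y : K} (hx : x ∈ A)
    (hy : y ∈ A) (h : x * y = 1) : A.valuation x = 1 := by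
  apply le_antisymm ((A.valuation_le_one_iff x).mpr hx)
  have h1 : A.valuation x * A.valuation y = 1 := by rw [← map_mul, h, map_one]
  rw [← h1]
  exact mul_le_of_le_one_right' ((A.valuation_le_one_iff y).mpr hy)

/-- `γ` takes at the place `v` a value which is a unit of `A`. -/
def UnitAt (A : ValuationSubring K) (v : Place K F) (γ : F) : Prop :=
  ∃ c : K, HasValueAt v γ c ∧ A.valuation c = 1

theorem unitAt_one (A : ValuationSubring K) (v : Place K F) : UnitAt A v (1 : F) :=
  ⟨1, hasValueAt_one v, map_one _⟩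

theorem UnitAt.mul {A : ValuationSubring K} {v : Place K F} {γ δ : F} (h₁ : UnitAt A v γ)
    (h₂ : UnitAt A v δ) : UnitAt A v (γ * δ) := by
  obtain ⟨c, hc, hc1⟩ := h₁
  obtain ⟨d, hd, hd1⟩ := h₂
  exact ⟨c * d, hc.mul hd, by rw [map_mul, hc1, hd1, one_mul]⟩

/-- unit value plus a value in the maximal ideal is a unit value. -/
theorem UnitAt.add_of_lt {A : ValuationSubring K} {v : Place K F} {γ δ : F}
    (h₁ : UnitAt A v γ) {d : K} (hd : HasValueAt v δ d) (hd1 : A.valuation d < 1) :
    UnitAt A v (γ + δ) := by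
  obtain ⟨c, hc, hc1⟩ := h₁
  refine ⟨c + d, hc.add hd, ?_⟩
  rw [Valuation.map_add_eq_of_lt_left _ (by rw [hc1]; exact hd1), hc1]

/-- division by a function with unit value. -/
theorem hasValueAt_of_mul {A : ValuationSubring K} {v : Place K F} {γ f : F} {c d : K}
    (hc : HasValueAt v γ c) (hc1 : A.valuation c = 1) (hd : HasValueAt v (γ * f) d) :
    HasValueAt v f (c⁻¹ * d) := by
  have hc0 : c ≠ 0 := by
    intro h0
    rw [h0, map_zero] at hc1
    exact zero_ne_one hc1
  have hγ0 : γ ≠ 0 := by
    rintro rfl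
    exact hc0 (hc.unique (hasValueAt_zero v))
  have h := (hc.inv hc0).mul hd
  rwa [inv_mul_cancel_left₀ hγ0] at h

/-- the submonoid of the elements of the ring generated by `G` with unit value at `v`. -/
def unitSubmonoid (A : ValuationSubring K) (v : Place K F) (G : Set F) : Submonoid F where
  carrier := {γ | γ ∈ Subring.closure G ∧ UnitAt A v γ}
  mul_mem' := fun h₁ h₂ => ⟨mul_mem h₁.1 h₂.1, h₁.2.mul h₂.2⟩
  one_mem' := ⟨one_mem _, unitAt_one A v⟩

theorem mem_unitSubmonoid {A : ValuationSubring K} {v : Place K F} {G : Set F} {γ : F} :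
    γ ∈ unitSubmonoid A v G ↔ γ ∈ Subring.closure G ∧ UnitAt A v γ := Iff.rfl

/-- LOCALISATION INVARIANCE, membership: adjoining to the generators of a chart fractions whose
denominators have unit value at `v` keeps `v` in the chart. -/
theorem inChart_union_of_unitAt {A : ValuationSubring K} {G Y : Set F} {v : Place K F}
    (hv : InChart A (intChart G) v)
    (hY : ∀ y ∈ Y, ∃ γ ∈ Subring.closure G, UnitAt A v γ ∧ γ * y ∈ Subring.closure G) :
    InChart A (intChart (G ∪ Y)) v := by
  intro f hf
  obtain ⟨γ, hγ, hγf⟩ := exists_mul_mem_intChart (unitSubmonoid A v G) (fun γ hγ => hγ.1)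
    (fun y hy => by
      obtain ⟨γ, h1, h2, h3⟩ := hY y hy
      exact ⟨γ, ⟨h1, h2⟩, h3⟩) hf
  obtain ⟨c, hc, hc1⟩ := hγ.2
  obtain ⟨d, hdA, hd⟩ := hv _ hγf
  refine ⟨c⁻¹ * d, A.mul_mem _ _ ?_ hdA, hasValueAt_of_mul hc hc1 hd⟩
  rw [← A.valuation_le_one_iff, map_inv₀, hc1, inv_one]

/-- LOCALISATION INVARIANCE: adjoining to the generators of a chart fractions whose denominators
have unit value at `v` does not change the relation "same residue map". -/
theorem sameResidueOn_union_of_unitAt {A : ValuationSubring K} {G Y : Set F} {v w : Place K F}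
    (h : SameResidueOn A (intChart G) v w)
    (hY : ∀ y ∈ Y, ∃ γ ∈ Subring.closure G, UnitAt A v γ ∧ γ * y ∈ Subring.closure G) :
    SameResidueOn A (intChart (G ∪ Y)) v w := by
  -- unit values are transported from `v` to `w`
  have htr : ∀ γ ∈ Subring.closure G, UnitAt A v γ → UnitAt A w γ := by
    rintro γ hγ ⟨c, hc, hc1⟩
    obtain ⟨c', _, hc'⟩ := h.2.1 γ (mem_intChart_of_mem_closure hγ)
    have hlt := h.2.2 γ (mem_intChart_of_mem_closure hγ) c c' hc hc'
    refine ⟨c', hc', ?_⟩
    have e : c' = c + -(c - c') := by ring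
    rw [e, Valuation.map_add_eq_of_lt_left _ (by rw [Valuation.map_neg, hc1]; exact hlt), hc1]
  have hv' : InChart A (intChart (G ∪ Y)) v := inChart_union_of_unitAt h.1 hY
  have hw' : InChart A (intChart (G ∪ Y)) w := inChart_union_of_unitAt h.2.1 (fun y hy => by
    obtain ⟨γ, h1, h2, h3⟩ := hY y hy
    exact ⟨γ, h1, htr γ h1 h2, h3⟩)
  refine ⟨hv', hw', fun f hf a b ha hb => ?_⟩
  obtain ⟨γ, hγ, hγf⟩ := exists_mul_mem_intChart (unitSubmonoid A v G) (fun γ hγ => hγ.1)
    (fun y hy => by
      obtain ⟨γ, h1, h2, h3⟩ := hY y hy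
      exact ⟨γ, ⟨h1, h2⟩, h3⟩) hf
  obtain ⟨c, hc, hc1⟩ := hγ.2
  obtain ⟨c', hc', _⟩ := htr γ hγ.1 hγ.2
  have hcc' := h.2.2 γ (mem_intChart_of_mem_closure hγ.1) c c' hc hc'
  have h1 := h.2.2 (γ * f) hγf (c * a) (c' * b) (hc.mul ha) (hc'.mul hb)
  have hbA : b ∈ A := hw'.value_mem hf hb
  have e : c * (a - b) = (c * a - c' * b) + -((c - c') * b) := by ring
  have h2 : A.valuation (c * (a - b)) < 1 := by
    rw [e]
    refine lt_of_le_of_lt (Valuation.map_add _ _ _) (max_lt h1 ?_)
    rw [Valuation.map_neg, map_mul]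
    exact lt_of_le_of_lt (mul_le_of_le_one_right' ((A.valuation_le_one_iff b).mpr hbA)) hcc'
  rwa [map_mul, hc1, one_mul] at h2

end Local

/-! ## Point charts -/

section PtChart

variable {K F : Type*} [Field K] [Field F] [Algebra K F]

/-- generators of the chart "poles only on the fibres `t = s`, `s ∈ S`": the `A`-integral
constants and the functions `1 / (t - s)`, `s ∈ S`. -/
def ptGen (A : ValuationSubring K) (t : F) (S : Set K) : Set F :=
  algebraMap K F '' (A : Set K) ∪ (fun s => (t - algebraMap K F s)⁻¹) '' S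

/-- the chart of the functions integral over `A[1 / (t - s) : s ∈ S]`. -/
def ptChart (A : ValuationSubring K) (t : F) (S : Set K) : Set F := intChart (ptGen A t S)

/-- the place `v` is visible in the chart `ptChart A t S`: it stays away from the fibres `t = s`,
`s ∈ S`, modulo the maximal ideal of `A` (`1 / (t - s)` has an `A`-integral value at `v`). -/
def Vis (A : ValuationSubring K) (t : F) (S : Set K) (v : Place K F) : Prop :=
  ∀ s ∈ S, ∃ c ∈ A, HasValueAt v (t - algebraMap K F s)⁻¹ c

theorem algebraMap_mem_ptGen {A : ValuationSubring K} (t : F) (S : Set K) {a : K} (ha : a ∈ A) :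
    algebraMap K F a ∈ ptGen A t S := Or.inl ⟨a, ha, rfl⟩

theorem inv_sub_mem_ptGen (A : ValuationSubring K) (t : F) {S : Set K} {s : K} (hs : s ∈ S) :
    (t - algebraMap K F s)⁻¹ ∈ ptGen A t S := Or.inr ⟨s, hs, rfl⟩

theorem ptGen_mono (A : ValuationSubring K) (t : F) {S S' : Set K} (h : S ⊆ S') :
    ptGen A t S ⊆ ptGen A t S' :=
  Set.union_subset_union_right _ (Set.image_mono h)

theorem ptChart_mono (A : ValuationSubring K) (t : F) {S S' : Set K} (h : S ⊆ S') :
    ptChart A t S ⊆ ptChart A t S' :=
  intChart_mono (ptGen_mono A t h)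

theorem Vis.mono {A : ValuationSubring K} {t : F} {S S' : Set K} {v : Place K F} (h : S ⊆ S')
    (hv : Vis A t S' v) : Vis A t S v := fun s hs => hv s (h hs)

theorem Vis.union {A : ValuationSubring K} {t : F} {S S' : Set K} {v : Place K F}
    (hv : Vis A t S v) (hv' : Vis A t S' v) : Vis A t (S ∪ S') v := by
  rintro s (hs | hs)
  · exact hv s hs
  · exact hv' s hs

/-- EVALUATION OFF A SET OF FIBRES: a visible place lies in the chart, i.e. every function
integral over `A[1 / (t - s) : s ∈ S]` has an `A`-integral value at it. -/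
theorem inChart_ptChart (A : ValuationSubring K) (v : Place K F)
    (hv : Function.Surjective (algebraMap K v.ResidueField)) {t : F} {S : Set K}
    (h : Vis A t S v) : InChart A (ptChart A t S) v := by
  refine inChart_of_isIntegral_closure A v hv (ptGen A t S) ?_ _ (fun f hf => hf)
  rintro g (⟨a, ha, rfl⟩ | ⟨s, hs, rfl⟩)
  · exact ⟨a, ha, hasValueAt_algebraMap v a⟩
  · exact h s hs

theorem vis_of_inChart {A : ValuationSubring K} {t : F} {S : Set K} {v : Place K F}
    (h : InChart A (ptChart A t S) v) : Vis A t S v :=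
  fun _ hs => h _ (subset_intChart _ (inv_sub_mem_ptGen A t hs))

theorem inChart_ptChart_iff (A : ValuationSubring K) (v : Place K F)
    (hv : Function.Surjective (algebraMap K v.ResidueField)) {t : F} {S : Set K} :
    InChart A (ptChart A t S) v ↔ Vis A t S v :=
  ⟨fun h => vis_of_inChart h, inChart_ptChart A v hv⟩

/-- at a place where `t` has the `A`-integral value `a`, visibility means: `a - s` is a unit of
`A` for all `s ∈ S`. -/
theorem vis_iff_of_hasValueAt {A : ValuationSubring K} {t : F}
    (ht : ∀ c : K, t ≠ algebraMap K F c) {S : Set K} (hS : ∀ s ∈ S, s ∈ A) {v : Place K F}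
    {a : K} (ha : a ∈ A) (hta : HasValueAt v t a) :
    Vis A t S v ↔ ∀ s ∈ S, A.valuation (a - s) = 1 := by
  constructor
  · intro h s hs
    obtain ⟨c, hcA, hc⟩ := h s hs
    have hval : HasValueAt v (t - algebraMap K F s) (a - s) := hta.sub (hasValueAt_algebraMap v s)
    have hprod := hval.mul hc
    rw [mul_inv_cancel₀ (sub_ne_zero.mpr (ht s))] at hprod
    exact valuation_eq_one_of_mul_eq_one (sub_mem ha (hS s hs)) hcA
      (hprod.unique (hasValueAt_one v))
  · intro h s hs
    have hval : HasValueAt v (t - algebraMap K F s) (a - s) := hta.sub (hasValueAt_algebraMap v s)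
    have h0 : a - s ≠ 0 := by
      intro h0
      have h1 := h s hs
      rw [h0, map_zero] at h1
      exact zero_ne_one h1
    refine ⟨(a - s)⁻¹, ?_, hval.inv h0⟩
    rw [← A.valuation_le_one_iff, map_inv₀, h s hs, inv_one]

/-- a place where `1 / t` has a value in the maximal ideal of `A` is visible in every point
chart. -/
theorem vis_of_hasValueAt_inv {A : ValuationSubring K} {t : F}
    (ht : ∀ c : K, t ≠ algebraMap K F c) {S : Set K} (hS : ∀ s ∈ S, s ∈ A) {v : Place K F}
    {a : K} (ha : A.valuation a < 1) (hta : HasValueAt v t⁻¹ a) : Vis A t S v := by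
  intro s hs
  have ht0 : t ≠ 0 := fun h0 => ht 0 (by rw [h0, map_zero])
  have hsA := hS s hs
  have hval : HasValueAt v (1 + t⁻¹ * algebraMap K F (-s)) (1 + a * -s) :=
    (hasValueAt_one v).add (hta.mul (hasValueAt_algebraMap v (-s)))
  have hlt : A.valuation (a * -s) < 1 := by
    rw [map_mul, Valuation.map_neg]
    exact lt_of_le_of_lt (mul_le_of_le_one_right' ((A.valuation_le_one_iff s).mpr hsA)) ha
  have h1 : A.valuation (1 + a * -s) = 1 := A.valuation.map_one_add_of_lt hlt
  have hne : (1 + a * -s) ≠ 0 := by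
    intro h0
    rw [h0, map_zero] at h1
    exact zero_ne_one h1
  have e : (t - algebraMap K F s)⁻¹ = t⁻¹ * (1 + t⁻¹ * algebraMap K F (-s))⁻¹ := by
    rw [← mul_inv, mul_add, mul_one, ← mul_assoc, mul_inv_cancel₀ ht0, one_mul, map_neg,
      sub_eq_add_neg]
  rw [e]
  refine ⟨a * (1 + a * -s)⁻¹, A.mul_mem _ _ ((A.valuation_le_one_iff a).mp (le_of_lt ha)) ?_,
    hta.mul (hval.inv hne)⟩
  rw [← A.valuation_le_one_iff, map_inv₀, h1, inv_one]

end PtChart

/-! ## Comparison of the point charts with the two standard charts -/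

section Compare

variable {K F : Type*} [Field K] [Field F] [Algebra K F]
variable {A : ValuationSubring K} {t : F} {S : Set K} {v w : Place K F}

theorem inv_ne_algebraMap (ht : ∀ c : K, t ≠ algebraMap K F c) (c : K) :
    t⁻¹ ≠ algebraMap K F c := by
  intro h
  apply ht c⁻¹
  rw [map_inv₀, ← h, inv_inv]

/-- FINITE CHART ⟹ POINT CHART: two places with the same residue map on the finite chart have
the same residue map on every point chart in which the first one is visible. -/
theorem sameResidueOn_ptChart_of_finChart (ht : ∀ c : K, t ≠ algebraMap K F c)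
    (hS : ∀ s ∈ S, s ∈ A) (h : SameResidueOn A (finChart A t) v w) (hvis : Vis A t S v) :
    SameResidueOn A (ptChart A t S) v w := by
  obtain ⟨a, haA, hta⟩ := h.1 t (subset_intChart _ (self_mem_finGen A t))
  have h1 : SameResidueOn A
      (intChart (finGen A t ∪ (fun s => (t - algebraMap K F s)⁻¹) '' S)) v w := by
    refine sameResidueOn_union_of_unitAt h ?_
    rintro y ⟨s, hs, rfl⟩
    have hsA := hS s hs
    refine ⟨t - algebraMap K F s, sub_mem (Subring.subset_closure (self_mem_finGen A t))
      (Subring.subset_closure (algebraMap_mem_finGen t hsA)), ?_, ?_⟩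
    · exact ⟨a - s, hta.sub (hasValueAt_algebraMap v s),
        (vis_iff_of_hasValueAt ht hS haA hta).mp hvis s hs⟩
    · rw [mul_inv_cancel₀ (sub_ne_zero.mpr (ht s))]
      exact one_mem _
  refine h1.mono (intChart_mono ?_)
  show algebraMap K F '' (A : Set K) ∪ (fun s => (t - algebraMap K F s)⁻¹) '' S
    ⊆ (algebraMap K F '' (A : Set K) ∪ {t}) ∪ (fun s => (t - algebraMap K F s)⁻¹) '' S
  exact Set.union_subset_union_left _ Set.subset_union_left

/-- POINT CHART ⟹ FINITE CHART, at a place of finite type (`t` has an `A`-integral value). -/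
theorem sameResidueOn_finChart_of_ptChart (ht : ∀ c : K, t ≠ algebraMap K F c)
    (hS : ∀ s ∈ S, s ∈ A) (hne : S.Nonempty) (h : SameResidueOn A (ptChart A t S) v w)
    (hfin : ∃ a ∈ A, HasValueAt v t a) : SameResidueOn A (finChart A t) v w := by
  obtain ⟨b, hb⟩ := hne
  obtain ⟨a, haA, hta⟩ := hfin
  have hbA := hS b hb
  have hne : t - algebraMap K F b ≠ 0 := sub_ne_zero.mpr (ht b)
  have hg : (t - algebraMap K F b)⁻¹ ∈ ptGen A t S := inv_sub_mem_ptGen A t hb
  have h1 : SameResidueOn A (intChart (ptGen A t S ∪ {t})) v w := by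
    refine sameResidueOn_union_of_unitAt h ?_
    intro y hy
    rw [Set.mem_singleton_iff] at hy
    subst hy
    refine ⟨(y - algebraMap K F b)⁻¹, Subring.subset_closure hg, ?_, ?_⟩
    · obtain ⟨c, hcA, hc⟩ := h.1 _ (subset_intChart _ hg)
      have hval : HasValueAt v (y - algebraMap K F b) (a - b) :=
        hta.sub (hasValueAt_algebraMap v b)
      have hprod := hc.mul hval
      rw [inv_mul_cancel₀ hne] at hprod
      exact ⟨c, hc, valuation_eq_one_of_mul_eq_one hcA (sub_mem haA hbA)
        (hprod.unique (hasValueAt_one v))⟩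
    · have e : (y - algebraMap K F b)⁻¹ * y
          = 1 + algebraMap K F b * (y - algebraMap K F b)⁻¹ := by
        field_simp
        ring
      rw [e]
      exact add_mem (one_mem _) (mul_mem (Subring.subset_closure (algebraMap_mem_ptGen y S hbA))
        (Subring.subset_closure hg))
  refine h1.mono (intChart_mono ?_)
  show algebraMap K F '' (A : Set K) ∪ {t}
    ⊆ (algebraMap K F '' (A : Set K) ∪ (fun s => (t - algebraMap K F s)⁻¹) '' S) ∪ {t}
  exact Set.union_subset_union_left _ Set.subset_union_left

/-- the generators of a point chart lie in the ring of the local chart at infinity. -/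
theorem ptGen_subset_closure_infGen (ht : ∀ c : K, t ≠ algebraMap K F c)
    (hS : ∀ s ∈ S, s ∈ A) : ptGen A t S ⊆ Subring.closure (infGen A t⁻¹) := by
  rintro x (⟨a, ha, rfl⟩ | ⟨s, hs, rfl⟩)
  · exact Subring.subset_closure (Or.inl (algebraMap_mem_finGen _ ha))
  · have ht0 : t ≠ 0 := fun h0 => ht 0 (by rw [h0, map_zero])
    have hc : algebraMap K F (-s) ∈ Subring.closure (finGen A t⁻¹) :=
      Subring.subset_closure (algebraMap_mem_finGen _ (A.neg_mem _ (hS s hs)))
    have e : (t - algebraMap K F s)⁻¹ = t⁻¹ * (1 + t⁻¹ * algebraMap K F (-s))⁻¹ := by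
      rw [← mul_inv, mul_add, mul_one, ← mul_assoc, mul_inv_cancel₀ ht0, one_mul, map_neg,
        sub_eq_add_neg]
    show (t - algebraMap K F s)⁻¹ ∈ Subring.closure (infGen A t⁻¹)
    rw [e]
    exact mul_mem (Subring.subset_closure (Or.inl (self_mem_finGen A t⁻¹)))
      (Subring.subset_closure (Or.inr ⟨_, hc, rfl⟩))

theorem ptChart_subset_infChart (ht : ∀ c : K, t ≠ algebraMap K F c) (hS : ∀ s ∈ S, s ∈ A) :
    ptChart A t S ⊆ infChart A t⁻¹ :=
  intChart_subset_of_subset_closure (ptGen_subset_closure_infGen ht hS)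

/-- CHART AT INFINITY ⟹ POINT CHART (every point chart; no visibility hypothesis). -/
theorem sameResidueOn_ptChart_of_infChart (ht : ∀ c : K, t ≠ algebraMap K F c)
    (hS : ∀ s ∈ S, s ∈ A) (h : SameResidueOn A (infChart A t⁻¹) v w) :
    SameResidueOn A (ptChart A t S) v w :=
  h.mono (ptChart_subset_infChart ht hS)

/-- POINT CHART ⟹ CHART AT INFINITY, at a place of infinite type (`1 / t` has a value in the
maximal ideal of `A`). -/
theorem sameResidueOn_infChart_of_ptChart (ht : ∀ c : K, t ≠ algebraMap K F c)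
    (hS : ∀ s ∈ S, s ∈ A) (hne : S.Nonempty) (h : SameResidueOn A (ptChart A t S) v w)
    (hinf : ∃ a : K, A.valuation a < 1 ∧ HasValueAt v t⁻¹ a) :
    SameResidueOn A (infChart A t⁻¹) v w := by
  obtain ⟨b, hb⟩ := hne
  obtain ⟨a, ha, hua⟩ := hinf
  have hbA := hS b hb
  have ht0 : t ≠ 0 := fun h0 => ht 0 (by rw [h0, map_zero])
  have hne : t - algebraMap K F b ≠ 0 := sub_ne_zero.mpr (ht b)
  obtain ⟨g, hg⟩ : ∃ g : F, g = (t - algebraMap K F b)⁻¹ := ⟨_, rfl⟩
  have hgG : g ∈ ptGen A t S := by rw [hg]; exact inv_sub_mem_ptGen A t hb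
  -- the value of `g` at `v` lies in the maximal ideal of `A`
  obtain ⟨e, heA, hge⟩ := h.1 g (subset_intChart _ hgG)
  have he : A.valuation e < 1 := by
    have e1 : g = t⁻¹ * (1 + algebraMap K F b * g) := by
      rw [hg]
      field_simp
      ring
    have hv1 : HasValueAt v (t⁻¹ * (1 + algebraMap K F b * g)) (a * (1 + b * e)) :=
      hua.mul ((hasValueAt_one v).add ((hasValueAt_algebraMap v b).mul hge))
    rw [← e1] at hv1
    rw [hge.unique hv1, map_mul]
    exact lt_of_le_of_lt (mul_le_of_le_one_right' ((A.valuation_le_one_iff _).mpr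
      (A.add_mem _ _ A.one_mem (A.mul_mem _ _ hbA heA)))) ha
  -- the denominator `γ₀ = 1 + b g = t g` of `1 / t`
  obtain ⟨γ₀, hγ₀⟩ : ∃ γ₀ : F, γ₀ = 1 + algebraMap K F b * g := ⟨_, rfl⟩
  have hγ₀G : γ₀ ∈ Subring.closure (ptGen A t S) := by
    rw [hγ₀]
    exact add_mem (one_mem _) (mul_mem (Subring.subset_closure (algebraMap_mem_ptGen t S hbA))
      (Subring.subset_closure hgG))
  have hγ₀u : UnitAt A v γ₀ := by
    rw [hγ₀]
    refine (unitAt_one A v).add_of_lt ((hasValueAt_algebraMap v b).mul hge) ?_
    rw [map_mul]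
    exact lt_of_le_of_lt (mul_le_of_le_one_left' ((A.valuation_le_one_iff b).mpr hbA)) he
  have hγ₀t : γ₀ * t⁻¹ = g := by
    rw [hγ₀, hg]
    field_simp
    ring
  -- every generator of `A[1/t]` has a denominator with unit value
  have hfinY : ∀ y ∈ finGen A t⁻¹, ∃ γ ∈ unitSubmonoid A v (ptGen A t S),
      γ * y ∈ Subring.closure (ptGen A t S) := by
    rintro y (⟨x, hx, rfl⟩ | hy)
    · exact ⟨1, (unitSubmonoid A v _).one_mem, by
        rw [one_mul]; exact Subring.subset_closure (algebraMap_mem_ptGen t S hx)⟩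
    · rw [Set.mem_singleton_iff] at hy
      rw [hy]
      exact ⟨γ₀, ⟨hγ₀G, hγ₀u⟩, by rw [hγ₀t]; exact Subring.subset_closure hgG⟩
  have hcl : ∀ c ∈ Subring.closure (finGen A t⁻¹), ∃ γ ∈ unitSubmonoid A v (ptGen A t S),
      γ * c ∈ Subring.closure (ptGen A t S) := by
    intro c hc
    have hc' : c ∈ Subring.closure (ptGen A t S ∪ finGen A t⁻¹) :=
      Subring.closure_mono Set.subset_union_right hc
    exact exists_mul_mem_closure (unitSubmonoid A v (ptGen A t S)) (fun γ hγ => hγ.1) hfinY hc'
  have h1 : SameResidueOn A (intChart (ptGen A t S ∪ infGen A t⁻¹)) v w := by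
    refine sameResidueOn_union_of_unitAt h ?_
    rintro y (hy | ⟨c, hc, rfl⟩)
    · obtain ⟨γ, hγ, hγy⟩ := hfinY y hy
      exact ⟨γ, hγ.1, hγ.2, hγy⟩
    · obtain ⟨γ₁, hγ₁, hγ₁c⟩ := hcl c hc
      by_cases h0 : 1 + t⁻¹ * c = 0
      · refine ⟨1, one_mem _, unitAt_one A v, ?_⟩
        rw [h0, inv_zero, mul_zero]
        exact zero_mem _
      · obtain ⟨d, hdA, hd⟩ := h.1 _ (mem_intChart_of_mem_closure hγ₁c)
        refine ⟨γ₀ * γ₁ + g * (γ₁ * c), add_mem (mul_mem hγ₀G hγ₁.1)
          (mul_mem (Subring.subset_closure hgG) hγ₁c), ?_, ?_⟩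
        · refine (hγ₀u.mul hγ₁.2).add_of_lt (hge.mul hd) ?_
          rw [map_mul]
          exact lt_of_le_of_lt (mul_le_of_le_one_right' ((A.valuation_le_one_iff d).mpr hdA)) he
        · have e2 : (γ₀ * γ₁ + g * (γ₁ * c)) * (1 + t⁻¹ * c)⁻¹ = γ₀ * γ₁ := by
            rw [← hγ₀t]
            have e3 : γ₀ * γ₁ + γ₀ * t⁻¹ * (γ₁ * c) = γ₀ * γ₁ * (1 + t⁻¹ * c) := by ring
            rw [e3, mul_assoc, mul_inv_cancel₀ h0, mul_one]
          rw [e2]
          exact mul_mem hγ₀G hγ₁.1
  exact h1.mono (intChart_mono Set.subset_union_right)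

end Compare

/-! ## The crude relation -/

section Crude

variable {K F : Type*} [Field K] [Field F] [Algebra K F]
variable {A : ValuationSubring K} {t : F} {S : Set K} {u v w : Place K F}

/-- THE CRUDE RELATION: `v` and `w` have the same residue map on the finite `A`-chart with
coordinate `t`, or on the local `A`-chart at infinity. -/
def crudeRel (A : ValuationSubring K) (t : F) (v w : Place K F) : Prop :=
  SameResidueOn A (finChart A t) v w ∨ SameResidueOn A (infChart A t⁻¹) v w

/-- the finite and the infinite type exclude each other. -/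
theorem not_inChart_finChart_of_inChart_infChart (ht : ∀ c : K, t ≠ algebraMap K F c)
    (h₀ : InChart A (finChart A t) v) (h₁ : InChart A (infChart A t⁻¹) v) : False := by
  obtain ⟨a, haA, hta⟩ := h₀ t (subset_intChart _ (self_mem_finGen A t))
  obtain ⟨a', _, hta'⟩ := h₁ t⁻¹
    (subset_intChart _ (finGen_subset_infGen A t⁻¹ (self_mem_finGen A t⁻¹)))
  have hlt := valuation_lt_one_of_inChart_infChart (inv_ne_algebraMap ht) h₁ hta'
  have ht0 : t ≠ 0 := fun h0 => ht 0 (by rw [h0, map_zero])
  have hprod := hta.mul hta'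
  rw [mul_inv_cancel₀ ht0] at hprod
  have e : a * a' = 1 := hprod.unique (hasValueAt_one v)
  have h2 : A.valuation (a * a') < 1 := by
    rw [map_mul]
    exact lt_of_le_of_lt (mul_le_of_le_one_left' ((A.valuation_le_one_iff a).mpr haA)) hlt
  rw [e, map_one] at h2
  exact lt_irrefl _ h2

theorem crudeRel_refl (hv : Function.Surjective (algebraMap K v.ResidueField)) :
    crudeRel A t v v := by
  rcases finChart_or_infChart A v hv t with h | h
  · exact Or.inl (SameResidueOn.refl h)
  · exact Or.inr (SameResidueOn.refl h)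

theorem crudeRel.symm (h : crudeRel A t v w) : crudeRel A t w v :=
  h.imp SameResidueOn.symm SameResidueOn.symm

theorem crudeRel.trans (ht : ∀ c : K, t ≠ algebraMap K F c) (h₁ : crudeRel A t u v)
    (h₂ : crudeRel A t v w) : crudeRel A t u w := by
  rcases h₁ with h₁ | h₁ <;> rcases h₂ with h₂ | h₂
  · exact Or.inl (h₁.trans h₂)
  · exact (not_inChart_finChart_of_inChart_infChart ht h₁.2.1 h₂.1).elim
  · exact (not_inChart_finChart_of_inChart_infChart ht h₂.1 h₁.2.1).elim
  · exact Or.inr (h₁.trans h₂)

/-- the crude relation is an equivalence relation (places with residue field `K`, `t`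
non-constant). -/
theorem crudeRel_equivalence (A : ValuationSubring K) {t : F}
    (ht : ∀ c : K, t ≠ algebraMap K F c)
    (hres : ∀ v : Place K F, Function.Surjective (algebraMap K v.ResidueField)) :
    Equivalence (crudeRel A t) :=
  ⟨fun v => crudeRel_refl (hres v), fun h => h.symm, fun h₁ h₂ => h₁.trans ht h₂⟩

/-- finite type or infinite type, element form. -/
theorem hasValueAt_or_hasValueAt_inv (A : ValuationSubring K) (t : F)
    (ht : ∀ c : K, t ≠ algebraMap K F c) (v : Place K F)
    (hv : Function.Surjective (algebraMap K v.ResidueField)) :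
    (∃ a ∈ A, HasValueAt v t a) ∨ (∃ a : K, A.valuation a < 1 ∧ HasValueAt v t⁻¹ a) := by
  rcases finChart_or_infChart A v hv t with h0 | h0
  · exact Or.inl (h0 t (subset_intChart _ (self_mem_finGen A t)))
  · obtain ⟨a, _, hta⟩ := h0 t⁻¹
      (subset_intChart _ (finGen_subset_infGen A t⁻¹ (self_mem_finGen A t⁻¹)))
    exact Or.inr ⟨a, valuation_lt_one_of_inChart_infChart (inv_ne_algebraMap ht) h0 hta, hta⟩

/-- the crude relation implies the same residue map on every point chart in which the first
place is visible. -/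
theorem crudeRel.sameResidueOn_ptChart (ht : ∀ c : K, t ≠ algebraMap K F c)
    (hS : ∀ s ∈ S, s ∈ A) (h : crudeRel A t v w) (hvis : Vis A t S v) :
    SameResidueOn A (ptChart A t S) v w := by
  rcases h with h | h
  · exact sameResidueOn_ptChart_of_finChart ht hS h hvis
  · exact sameResidueOn_ptChart_of_infChart ht hS h

/-- the same residue map on ONE point chart (`S ⊆ A` nonempty) implies the crude relation. -/
theorem crudeRel_of_sameResidueOn (ht : ∀ c : K, t ≠ algebraMap K F c)
    (hv : Function.Surjective (algebraMap K v.ResidueField)) (hS : ∀ s ∈ S, s ∈ A)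
    (hne : S.Nonempty) (h : SameResidueOn A (ptChart A t S) v w) : crudeRel A t v w := by
  rcases hasValueAt_or_hasValueAt_inv A t ht v hv with h0 | h0
  · exact Or.inl (sameResidueOn_finChart_of_ptChart ht hS hne h h0)
  · exact Or.inr (sameResidueOn_infChart_of_ptChart ht hS hne h h0)

/-- **THE CRUDE RELATION DOES NOT DEPEND ON THE CHART**: for every nonempty set `S` of
`A`-integral constants such that `v` is visible in the chart `ptChart A t S` (functions integral
over `A[1 / (t - s) : s ∈ S]`), the crude relation is "same residue map on `ptChart A t S`". -/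
theorem crudeRel_iff_sameResidueOn_ptChart (ht : ∀ c : K, t ≠ algebraMap K F c)
    (hv : Function.Surjective (algebraMap K v.ResidueField)) (hS : ∀ s ∈ S, s ∈ A)
    (hne : S.Nonempty) (hvis : Vis A t S v) :
    crudeRel A t v w ↔ SameResidueOn A (ptChart A t S) v w :=
  ⟨fun h => h.sameResidueOn_ptChart ht hS hvis, fun h => crudeRel_of_sameResidueOn ht hv hS hne h⟩

/-- the crude relation transports visibility. -/
theorem crudeRel.vis (ht : ∀ c : K, t ≠ algebraMap K F c) (hS : ∀ s ∈ S, s ∈ A)
    (h : crudeRel A t v w) (hvis : Vis A t S v) : Vis A t S w :=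
  vis_of_inChart (h.sameResidueOn_ptChart ht hS hvis).2.1

/-- every place is visible in a one-point chart. -/
theorem exists_vis_singleton (A : ValuationSubring K) (t : F)
    (ht : ∀ c : K, t ≠ algebraMap K F c) (v : Place K F)
    (hv : Function.Surjective (algebraMap K v.ResidueField)) : ∃ s ∈ A, Vis A t {s} v := by
  rcases hasValueAt_or_hasValueAt_inv A t ht v hv with ⟨a, haA, hta⟩ | ⟨a, ha, hta⟩
  · have hsA : a + 1 ∈ A := A.add_mem _ _ haA A.one_mem
    refine ⟨a + 1, hsA, ?_⟩
    refine (vis_iff_of_hasValueAt ht (fun s hs => by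
      rw [Set.mem_singleton_iff] at hs; rw [hs]; exact hsA) haA hta).mpr ?_
    intro s hs
    rw [Set.mem_singleton_iff] at hs
    rw [hs]
    have e : a - (a + 1) = -1 := by ring
    rw [e, Valuation.map_neg, map_one]
  · refine ⟨0, A.zero_mem, ?_⟩
    exact vis_of_hasValueAt_inv ht (fun s hs => by
      rw [Set.mem_singleton_iff] at hs; rw [hs]; exact A.zero_mem) ha hta

/-- the crude relation is "same residue map on some one-point chart `A[1 / (t - s)]`". -/
theorem crudeRel_iff_exists_ptChart (ht : ∀ c : K, t ≠ algebraMap K F c)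
    (hv : Function.Surjective (algebraMap K v.ResidueField)) :
    crudeRel A t v w ↔ ∃ s ∈ A, SameResidueOn A (ptChart A t {s}) v w := by
  constructor
  · intro h
    obtain ⟨s, hsA, hvis⟩ := exists_vis_singleton A t ht v hv
    exact ⟨s, hsA, h.sameResidueOn_ptChart ht (fun s' hs' => by
      rw [Set.mem_singleton_iff] at hs'; rw [hs']; exact hsA) hvis⟩
  · rintro ⟨s, hsA, h⟩
    exact crudeRel_of_sameResidueOn ht hv (fun s' hs' => by
      rw [Set.mem_singleton_iff] at hs'; rw [hs']; exact hsA) (Set.singleton_nonempty s) h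

/-- the family of the two standard charts computes the crude relation (by definition). -/
theorem chartRel_std_iff : ChartRel A {finChart A t, infChart A t⁻¹} v w ↔ crudeRel A t v w := by
  constructor
  · rintro ⟨R, hR, h⟩
    rcases hR with rfl | hR
    · exact Or.inl h
    · rw [Set.mem_singleton_iff] at hR
      subst hR
      exact Or.inr h
  · rintro (h | h)
    · exact ⟨_, Or.inl rfl, h⟩
    · exact ⟨_, Or.inr rfl, h⟩

/-- the family of point charts indexed by a family `𝓢` of sets of constants. -/
def ptCharts (A : ValuationSubring K) (t : F) (𝓢 : Set (Set K)) : Set (Set F) :=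
  ptChart A t '' 𝓢

/-- **every family of point charts containing the one-point charts computes the crude
relation**: e.g. `𝓢 = {{s} | s ∈ A}` (the charts `B_a` of the plan), `𝓢 =` the finite nonempty
subsets of `A` (a Hecke-stable family), `𝓢 =` all nonempty subsets of `A`. -/
theorem chartRel_ptCharts_iff (ht : ∀ c : K, t ≠ algebraMap K F c)
    (hv : Function.Surjective (algebraMap K v.ResidueField)) {𝓢 : Set (Set K)}
    (h𝓢 : ∀ S ∈ 𝓢, S.Nonempty ∧ ∀ s ∈ S, s ∈ A) (hsing : ∀ s ∈ A, {s} ∈ 𝓢) :
    ChartRel A (ptCharts A t 𝓢) v w ↔ crudeRel A t v w := by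
  constructor
  · rintro ⟨R, ⟨S, hS, rfl⟩, h⟩
    exact crudeRel_of_sameResidueOn ht hv (h𝓢 S hS).2 (h𝓢 S hS).1 h
  · intro h
    obtain ⟨s, hsA, h'⟩ := (crudeRel_iff_exists_ptChart ht hv).mp h
    exact ⟨_, ⟨{s}, hsing s hsA, rfl⟩, h'⟩

end Crude

/-! ## Subgroups of `Pic0` -/

section Kernel

variable {K F : Type*} [Field K] [Field F] [Algebra K F]

/-- `relSubgroup` depends only on the relation. -/
theorem relSubgroup_congr {r r' : Place K F → Place K F → Prop} (h : ∀ v w, r v w ↔ r' v w) :
    relSubgroup r = relSubgroup r' :=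
  le_antisymm (relSubgroup_mono fun v w => (h v w).mp) (relSubgroup_mono fun v w => (h v w).mpr)

/-- THE CRUDE KERNEL: the subgroup of `Pic0` generated by the classes `[v] - [w]` of places
(of the same degree) related by the crude relation. -/
def crudeKernel (A : ValuationSubring K) (t : F) : AddSubgroup (Pic0 K F) :=
  relSubgroup (crudeRel A t)

/-- the crude kernel is the kernel attached to the two standard charts. -/
theorem relSubgroup_chartRel_std_eq (A : ValuationSubring K) (t : F) :
    relSubgroup (ChartRel A {finChart A t, infChart A t⁻¹}) = crudeKernel A t :=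
  relSubgroup_congr fun _ _ => chartRel_std_iff

/-- the crude kernel is the kernel attached to every family of point charts containing the
one-point charts. -/
theorem relSubgroup_chartRel_ptCharts_eq (A : ValuationSubring K) {t : F}
    (ht : ∀ c : K, t ≠ algebraMap K F c)
    (hres : ∀ v : Place K F, Function.Surjective (algebraMap K v.ResidueField))
    {𝓢 : Set (Set K)} (h𝓢 : ∀ S ∈ 𝓢, S.Nonempty ∧ ∀ s ∈ S, s ∈ A) (hsing : ∀ s ∈ A, {s} ∈ 𝓢) :
    relSubgroup (ChartRel A (ptCharts A t 𝓢)) = crudeKernel A t :=
  relSubgroup_congr fun v _ => chartRel_ptCharts_iff ht (hres v) h𝓢 hsing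

end Kernel

/-! ## Galois behaviour (arithmetic setting) -/

section Arithmetic

open scoped Pointwise

variable {L : Type*} [Field L] [Algebra ℚ L]
variable {F₀ : IntermediateField ℚ (LaurentSeries ℚ)}

/-- the specialisation kernel of the two standard charts is the crude kernel. -/
theorem specKernel_stdCharts_eq (A : ValuationSubring L) (t : laurentBaseChange L F₀) :
    specKernel A (stdCharts A t) = crudeKernel A t :=
  relSubgroup_chartRel_std_eq A t

/-- the specialisation kernel of every family of point charts containing the one-point charts is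
the crude kernel, hence equal to the specialisation kernel of the two standard charts. -/
theorem specKernel_ptCharts_eq (A : ValuationSubring L) {t : laurentBaseChange L F₀}
    (ht : ∀ c : L, t ≠ algebraMap L (laurentBaseChange L F₀) c)
    (hres : ∀ v : Place L (laurentBaseChange L F₀),
      Function.Surjective (algebraMap L v.ResidueField))
    {𝓢 : Set (Set L)} (h𝓢 : ∀ S ∈ 𝓢, S.Nonempty ∧ ∀ s ∈ S, s ∈ A) (hsing : ∀ s ∈ A, {s} ∈ 𝓢) :
    specKernel A (ptCharts A t 𝓢) = specKernel A (stdCharts A t) :=
  (relSubgroup_chartRel_ptCharts_eq A ht hres h𝓢 hsing).trans (specKernel_stdCharts_eq A t).symm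

/-- DECOMPOSITION GROUP STABILITY of the crude relation (rational coordinate function). -/
theorem crudeRel.galois {A : ValuationSubring L} {σ : L ≃ₐ[ℚ] L}
    (hσ : σ ∈ A.decompositionSubgroup ℚ) {t : laurentBaseChange L F₀} (ht : IsRational F₀ t)
    {v w : Place L (laurentBaseChange L F₀)} (h : crudeRel A t v w) :
    crudeRel A t (arithmeticGalois F₀ σ • v) (arithmeticGalois F₀ σ • w) := by
  rcases h with h | h
  · exact Or.inl (h.galois' hσ (fun _ hf => inv_smul_mem_finChart hσ ht hf))
  · exact Or.inr (h.galois' hσ (fun _ hf => inv_smul_mem_infChart hσ ht.inv hf))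

/-- GALOIS STABILITY of a point chart with rational coordinate function and a `σ`-stable set of
fibres. -/
theorem galois_smul_mem_ptChart {A : ValuationSubring L} {σ : L ≃ₐ[ℚ] L}
    (hσ : σ ∈ A.decompositionSubgroup ℚ) {t : laurentBaseChange L F₀} (ht : IsRational F₀ t)
    {S : Set L} (hS : ∀ s ∈ S, σ s ∈ S) {f : laurentBaseChange L F₀}
    (hf : f ∈ ptChart A t S) : arithmeticGalois F₀ σ • f ∈ ptChart A t S := by
  refine ringEquiv_mem_intChart (SemilinearAut.toRingAut (arithmeticGalois F₀ σ)) ?_ hf
  rintro x (⟨a, ha, rfl⟩ | ⟨s, hs, rfl⟩)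
  · apply Subring.subset_closure
    show arithmeticGalois F₀ σ • algebraMap L (laurentBaseChange L F₀) a ∈ ptGen A t S
    rw [arithmeticGalois_smul_algebraMap]
    exact algebraMap_mem_ptGen t S ((apply_mem_of_mem_decomposition A hσ).mpr ha)
  · apply Subring.subset_closure
    show arithmeticGalois F₀ σ • (t - algebraMap L (laurentBaseChange L F₀) s)⁻¹ ∈ ptGen A t S
    rw [smul_inv'', smul_sub, arithmeticGalois_smul_eq_self σ ht, arithmeticGalois_smul_algebraMap]
    exact inv_sub_mem_ptGen A t (hS s hs)

/-- **(R1) through ONE point chart**: if `v` is visible in the point chart `ptChart A t S`, the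
chart is stable under `τ⁻¹` and satisfies the congruence `τ⁻¹ f - f ∈ 𝔪_A · chart`, then `τ • v`
and `v` are related by the crude relation. -/
theorem crudeRel_inertia_of_ptChart {A : ValuationSubring L} {t : laurentBaseChange L F₀}
    (ht : ∀ c : L, t ≠ algebraMap L (laurentBaseChange L F₀) c)
    (hres : ∀ v : Place L (laurentBaseChange L F₀),
      Function.Surjective (algebraMap L v.ResidueField))
    {τ : L ≃ₐ[ℚ] L} (hτ : τ ∈ A.inertiaSubgroupIn ℚ) {S : Set L} (hS : ∀ s ∈ S, s ∈ A)
    (hne : S.Nonempty)
    (hst : ∀ f ∈ ptChart A t S, (arithmeticGalois F₀ τ)⁻¹ • f ∈ ptChart A t S)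
    (hcong : ∀ f ∈ ptChart A t S, ∃ c : L, A.valuation c < 1 ∧ ∃ h ∈ ptChart A t S,
      (arithmeticGalois F₀ τ)⁻¹ • f - f = algebraMap L (laurentBaseChange L F₀) c * h)
    {v : Place L (laurentBaseChange L F₀)} (hvis : Vis A t S v) :
    crudeRel A t (arithmeticGalois F₀ τ • v) v :=
  crudeRel_of_sameResidueOn ht (hres _) hS hne
    (sameResidueOn_inertia' hτ hst hcong (inChart_ptChart A v (hres v) hvis))

/-- **(R1) for the crude kernel, through point charts**: if every place is visible in a point
chart which is stable under `τ⁻¹` and satisfies the congruence `τ⁻¹ f - f ∈ 𝔪_A · chart`, then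
inertia acts trivially on `Pic0` modulo the crude kernel. -/
theorem inertia_smul_sub_mem_crudeKernel {A : ValuationSubring L} {t : laurentBaseChange L F₀}
    (ht : ∀ c : L, t ≠ algebraMap L (laurentBaseChange L F₀) c)
    (hres : ∀ v : Place L (laurentBaseChange L F₀),
      Function.Surjective (algebraMap L v.ResidueField))
    {τ : L ≃ₐ[ℚ] L} (hτ : τ ∈ A.inertiaSubgroupIn ℚ)
    (hcov : ∀ v : Place L (laurentBaseChange L F₀), ∃ S : Set L, (∀ s ∈ S, s ∈ A) ∧ S.Nonempty ∧
      Vis A t S v ∧ (∀ f ∈ ptChart A t S, (arithmeticGalois F₀ τ)⁻¹ • f ∈ ptChart A t S) ∧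
      (∀ f ∈ ptChart A t S, ∃ c : L, A.valuation c < 1 ∧ ∃ h ∈ ptChart A t S,
        (arithmeticGalois F₀ τ)⁻¹ • f - f = algebraMap L (laurentBaseChange L F₀) c * h))
    (x : Pic0 L (laurentBaseChange L F₀)) : τ • x - x ∈ crudeKernel A t := by
  rw [galois_smul_pic0_def]
  refine smul_sub_mem_relSubgroup (arithmeticGalois F₀ τ) (fun v => ?_) x
  obtain ⟨S, hS, hne, hvis, hst, hcong⟩ := hcov v
  exact crudeRel_inertia_of_ptChart ht hres hτ hS hne hst hcong hvis

/-- the crude kernel is stable under the decomposition group of `A` (in particular under every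
Frobenius element at `A`). -/
theorem decomposition_smul_mem_crudeKernel {A : ValuationSubring L}
    {t : laurentBaseChange L F₀} (ht : IsRational F₀ t) {σ : L ≃ₐ[ℚ] L}
    (hσ : σ ∈ A.decompositionSubgroup ℚ) {x : Pic0 L (laurentBaseChange L F₀)}
    (hx : x ∈ crudeKernel A t) : σ • x ∈ crudeKernel A t := by
  rw [galois_smul_pic0_def]
  exact smul_mem_relSubgroup (arithmeticGalois F₀ σ) (fun _ _ hvw => hvw.galois hσ ht) hx

end Arithmetic

end Fermat.Agent.S37.helper2553
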