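/-
S37-C4-RN4 DEGLINE (board #1551): degree of a new line `x' = y + c * h ^ r`.

`K ⊆ F` fields, `h : F` transcendental over `K`, `F` finite over `K(h)`, `y : F` integral over
`K[h]`.  Then for all large `r` and all `c ≠ 0` the element `x' = y + c * h ^ r` is transcendental
over `K` and `[F : K(x')] = r * [F : K(h)]`.

Pure field algebra (no places, no valuations): the substitution `(X, Y) ↦ (H, X' - c H ^ r)` is an
automorphism of the bivariate polynomial ring; it sends the minimal polynomial of `y` over `K[h]`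
to an irreducible polynomial whose `H`-degree is `r * deg` with a unit leading coefficient; by
Gauss's lemma it is the minimal polynomial of `h` over `K(x')`.
-/
import Mathlib

set_option autoImplicit false

open Polynomial

namespace Fermat.Agent.S37.helper2716

noncomputable section

section Subst

variable {K : Type*} [Field K] (c : K) (r : ℕ)

/-- The substitution `X ↦ H`, `Y ↦ X' - c H ^ r` from `K[X][Y]` to `K[X'][H]`
(inner variable `X'`, outer variable `H`). -/
def substHom : K[X][X] →+* K[X][X] :=
  eval₂RingHom (mapRingHom (C : K →+* K[X])) (C X - C (C c) * X ^ r)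

/-- The inverse substitution `H ↦ X`, `X' ↦ Y + c X ^ r`. -/
def substInv : K[X][X] →+* K[X][X] :=
  eval₂RingHom (eval₂RingHom (C.comp C : K →+* K[X][X]) (X + C (C c * X ^ r))) (C X)

theorem substInv_comp_substHom : (substInv c r).comp (substHom c r) = RingHom.id _ := by
  apply ringHom_ext'
  · apply ringHom_ext'
    · ext a
      simp [substHom, substInv]
    · simp [substHom, substInv]
  · simp [substHom, substInv]

theorem substHom_comp_substInv : (substHom c r).comp (substInv c r) = RingHom.id _ := by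
  apply ringHom_ext'
  · apply ringHom_ext'
    · ext a
      simp [substHom, substInv]
    · simp [substHom, substInv, eval₂_pow]
  · simp [substHom, substInv]

/-- The substitution as a ring automorphism of `K[X][X]`. -/
def substEquiv : K[X][X] ≃+* K[X][X] :=
  RingEquiv.ofRingHom (substHom c r) (substInv c r) (substHom_comp_substInv c r)
    (substInv_comp_substHom c r)

@[simp]
theorem substEquiv_apply (p : K[X][X]) : substEquiv c r p = substHom c r p := rfl

end Subst

section Degree

variable {K : Type*} [Field K] (c : K) (r : ℕ)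

theorem substHom_eq_sum (q : K[X][X]) :
    substHom c r q = ∑ i ∈ Finset.range (q.natDegree + 1),
      (q.coeff i).map C * (C X - C (C c) * X ^ r) ^ i := by
  simp [substHom, eval₂_eq_sum_range]

theorem natDegree_line (hc : c ≠ 0) (hr : 0 < r) :
    (C X - C (C c) * X ^ r : K[X][X]).natDegree = r := by
  have h1 : (C (C c) * X ^ r : K[X][X]).natDegree = r :=
    natDegree_C_mul_X_pow r (C c) (by simpa using hc)
  have h2 : (C X : K[X][X]).natDegree < (C (C c) * X ^ r : K[X][X]).natDegree := by
    rw [h1, natDegree_C]; exact hr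
  rw [natDegree_sub_eq_right_of_natDegree_lt h2, h1]

theorem leadingCoeff_line (hc : c ≠ 0) (hr : 0 < r) :
    (C X - C (C c) * X ^ r : K[X][X]).leadingCoeff = - C c := by
  have h1 : (C (C c) * X ^ r : K[X][X]).natDegree = r :=
    natDegree_C_mul_X_pow r (C c) (by simpa using hc)
  have h2 : (C X : K[X][X]).natDegree < (C (C c) * X ^ r : K[X][X]).natDegree := by
    rw [h1, natDegree_C]; exact hr
  rw [leadingCoeff_sub_of_degree_lt' (degree_lt_degree h2), leadingCoeff_C_mul_X_pow]

theorem line_ne_zero (hc : c ≠ 0) (hr : 0 < r) : (C X - C (C c) * X ^ r : K[X][X]) ≠ 0 := by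
  intro h0
  have := natDegree_line c r hc hr
  rw [h0, natDegree_zero] at this
  omega

theorem natDegree_line_pow (hc : c ≠ 0) (hr : 0 < r) (i : ℕ) :
    ((C X - C (C c) * X ^ r : K[X][X]) ^ i).natDegree = i * r := by
  rw [Polynomial.natDegree_pow, natDegree_line c r hc hr]

/-- Degree and leading coefficient (in the outer variable `H`) of the substituted polynomial. -/
theorem natDegree_substHom {q : K[X][X]} (hq : q.Monic) (hc : c ≠ 0) (hr0 : 0 < r)
    (hr : ∀ i < q.natDegree, (q.coeff i).natDegree < r) :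
    (substHom c r q).natDegree = q.natDegree * r ∧
      (substHom c r q).leadingCoeff = (- C c) ^ q.natDegree := by
  set T : K[X][X] := C X - C (C c) * X ^ r with hT
  have hT0 : T ≠ 0 := line_ne_zero c r hc hr0
  have hTm : (T ^ q.natDegree).natDegree = q.natDegree * r := natDegree_line_pow c r hc hr0 _
  have hTm0 : T ^ q.natDegree ≠ 0 := pow_ne_zero _ hT0
  have hsum : substHom c r q =
      (∑ i ∈ Finset.range q.natDegree, (q.coeff i).map C * T ^ i) + T ^ q.natDegree := by
    rw [substHom_eq_sum, Finset.sum_range_succ, hq.coeff_natDegree, Polynomial.map_one, one_mul]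
  have hlt : (∑ i ∈ Finset.range q.natDegree, (q.coeff i).map C * T ^ i).degree
      < (T ^ q.natDegree).degree := by
    rw [degree_eq_natDegree hTm0, hTm]
    refine lt_of_le_of_lt (degree_sum_le _ _) ?_
    rw [Finset.sup_lt_iff (WithBot.bot_lt_coe _)]
    intro i hi
    rw [Finset.mem_range] at hi
    refine lt_of_le_of_lt degree_le_natDegree ?_
    rw [Nat.cast_lt]
    calc ((q.coeff i).map C * T ^ i).natDegree
        ≤ ((q.coeff i).map C).natDegree + (T ^ i).natDegree := natDegree_mul_le
      _ ≤ (q.coeff i).natDegree + i * r := by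
          rw [natDegree_line_pow c r hc hr0 i]
          exact Nat.add_le_add_right natDegree_map_le _
      _ < r + i * r := Nat.add_lt_add_right (hr i hi) _
      _ = (i + 1) * r := by ring
      _ ≤ q.natDegree * r := Nat.mul_le_mul_right r hi
  refine ⟨?_, ?_⟩
  · rw [hsum, natDegree_add_eq_right_of_degree_lt hlt, hTm]
  · rw [hsum, leadingCoeff_add_of_degree_lt hlt, leadingCoeff_pow, leadingCoeff_line c r hc hr0]

end Degree

section Eval

variable {K F : Type*} [Field K] [CommRing F] [Algebra K F] (c : K) (r : ℕ)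

/-- Evaluating the substituted polynomial at `X' = x'`, `H = h` is evaluating the original one at
`X = h`, `Y = x' - c h ^ r`. -/
theorem eval₂_substHom (x' h : F) (p : K[X][X]) :
    eval₂ (aeval x' : K[X] →ₐ[K] F).toRingHom h (substHom c r p) =
      eval₂ (aeval h : K[X] →ₐ[K] F).toRingHom (x' - algebraMap K F c * h ^ r) p := by
  have key : (eval₂RingHom (aeval x' : K[X] →ₐ[K] F).toRingHom h).comp (substHom c r) =
      eval₂RingHom (aeval h : K[X] →ₐ[K] F).toRingHom (x' - algebraMap K F c * h ^ r) := by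
    apply ringHom_ext'
    · apply ringHom_ext'
      · ext a
        simp [substHom]
      · simp [substHom]
    · simp [substHom]
  exact RingHom.congr_fun key p

end Eval

section Main

open IntermediateField algebraAdjoinAdjoin

variable {K F : Type*} [Field K] [Field F] [Algebra K F]

/-- The degree of `F` over an intermediate field only depends on the underlying set. -/
theorem finrank_eq_of_coe_eq {E₁ E₂ : Type*} [Field E₁] [Field E₂] [Algebra E₁ F] [Algebra E₂ F]
    (L₁ : IntermediateField E₁ F) (L₂ : IntermediateField E₂ F)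
    (h : (L₁ : Set F) = (L₂ : Set F)) : Module.finrank L₁ F = Module.finrank L₂ F := by
  have h12 : ∀ x : F, x ∈ L₁ → x ∈ L₂ := fun x hx => by
    have : x ∈ (L₂ : Set F) := h ▸ hx
    exact this
  have h21 : ∀ x : F, x ∈ L₂ → x ∈ L₁ := fun x hx => by
    have : x ∈ (L₁ : Set F) := h ▸ hx
    exact this
  let e : L₁ ≃+* L₂ :=
    { toFun := fun x => ⟨x.1, h12 x.1 x.2⟩
      invFun := fun x => ⟨x.1, h21 x.1 x.2⟩
      left_inv := fun x => rfl
      right_inv := fun x => rfl
      map_mul' := fun x y => rfl
      map_add' := fun x y => rfl }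
  exact Algebra.finrank_eq_of_equiv_equiv e (RingEquiv.refl F) (by ext x; rfl)

/-- Transitivity of integrality for singly generated subalgebras: if `b` is integral over `R[a]`
and `z` is integral over `R[b]`, then `z` is integral over `R[a]`. -/
theorem isIntegral_adjoin_trans {R A : Type*} [CommRing R] [CommRing A] [Algebra R A] {a b z : A}
    (hb : IsIntegral (Algebra.adjoin R {a}) b) (hz : IsIntegral (Algebra.adjoin R {b}) z) :
    IsIntegral (Algebra.adjoin R {a}) z := by
  have hT : Algebra.IsIntegral (Algebra.adjoin R {a})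
      (Algebra.adjoin (Algebra.adjoin R {a}) {b}) :=
    Algebra.IsIntegral.adjoin (by intro x hx; rw [Set.mem_singleton_iff] at hx; rw [hx]; exact hb)
  have hbT : b ∈ Algebra.adjoin (Algebra.adjoin R {a}) {b} :=
    Algebra.subset_adjoin (Set.mem_singleton b)
  have hle : Algebra.adjoin R {b} ≤
      (Algebra.adjoin (Algebra.adjoin R {a}) {b}).restrictScalars R :=
    Algebra.adjoin_le (Set.singleton_subset_iff.mpr hbT)
  have hzT : IsIntegral (Algebra.adjoin (Algebra.adjoin R {a}) {b}) z := by
    have := IsIntegral.map_of_comp_eq (Subalgebra.inclusion hle).toRingHom (RingHom.id A)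
      (by ext; rfl) hz
    exact this
  exact isIntegral_trans z hzT

/-- If `b ∈ R[a]` and `z` is integral over `R[b]`, then `z` is integral over `R[a]`. -/
theorem isIntegral_adjoin_of_mem {R A : Type*} [CommRing R] [CommRing A] [Algebra R A] {a b z : A}
    (hb : b ∈ Algebra.adjoin R {a}) (hz : IsIntegral (Algebra.adjoin R {b}) z) :
    IsIntegral (Algebra.adjoin R {a}) z :=
  isIntegral_adjoin_trans (isIntegral_algebraMap (R := Algebra.adjoin R {a}) (x := ⟨b, hb⟩)) hz

/-- Scaling a generator by a nonzero constant does not change the generated subfield. -/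
theorem intermediateField_adjoin_algebraMap_mul {c : K} (hc : c ≠ 0) (x : F) :
    K⟮algebraMap K F c * x⟯ = K⟮x⟯ := by
  apply le_antisymm
  · rw [adjoin_simple_le_iff]
    exact mul_mem (IntermediateField.algebraMap_mem _ c) (mem_adjoin_simple_self K x)
  · rw [adjoin_simple_le_iff]
    have hmem := mul_mem (IntermediateField.algebraMap_mem K⟮algebraMap K F c * x⟯ c⁻¹)
      (mem_adjoin_simple_self K (algebraMap K F c * x))
    rwa [← mul_assoc, ← map_mul, inv_mul_cancel₀ hc, map_one, one_mul] at hmem

/-- Scaling by a nonzero constant preserves transcendence. -/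
theorem transcendental_algebraMap_mul {c : K} (hc : c ≠ 0) {x : F} (hx : Transcendental K x) :
    Transcendental K (algebraMap K F c * x) := by
  intro halg
  apply hx
  have hz : x = algebraMap K F c⁻¹ * (algebraMap K F c * x) := by
    rw [← mul_assoc, ← map_mul, inv_mul_cancel₀ hc, map_one, one_mul]
  rw [hz]
  exact (isAlgebraic_algebraMap c⁻¹).mul halg

/-- **The new line `x' = y + c * h ^ r`, full statement.**  If `h` is transcendental over `K`, `F` is
finite over `K(h)` and `y` is integral over `K[h]`, then for all large `r` and all `c ≠ 0` the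
element `x' = y + c * h ^ r` is transcendental over `K`, `[F : K(x')] = r * [F : K(h)]`, `h` is
integral over `K[x']`, and `K[x']` and `K[h]` have the same integral closure in `F`. -/
theorem exists_line_add_mul_pow (h y : F) (hh : Transcendental K h)
    [FiniteDimensional K⟮h⟯ F] (hy : IsIntegral (Algebra.adjoin K {h}) y) :
    ∃ r₀ : ℕ, ∀ r, r₀ ≤ r → ∀ c : K, c ≠ 0 →
      Transcendental K (y + algebraMap K F c * h ^ r) ∧
      FiniteDimensional K⟮y + algebraMap K F c * h ^ r⟯ F ∧
      Module.finrank K⟮y + algebraMap K F c * h ^ r⟯ F = r * Module.finrank K⟮h⟯ F ∧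
      IsIntegral (Algebra.adjoin K {y + algebraMap K F c * h ^ r}) h ∧
      ∀ z : F, IsIntegral (Algebra.adjoin K {y + algebraMap K F c * h ^ r}) z ↔
        IsIntegral (Algebra.adjoin K {h}) z := by
  classical
  have : UniqueFactorizationMonoid (Algebra.adjoin K {h}) :=
    hh.uniqueFactorizationMonoid_adjoin
  let eh : K[X] ≃ₐ[K] Algebra.adjoin K {h} := Polynomial.algEquivOfTranscendental K h hh
  -- the minimal polynomial of `y` over `K[h]`
  have hqh_monic : (minpoly (Algebra.adjoin K {h}) y).Monic := minpoly.monic hy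
  have hqh_irr : Irreducible (minpoly (Algebra.adjoin K {h}) y) :=
    (minpoly.prime_of_isIntegrallyClosed hy).irreducible
  have hqh_map : minpoly K⟮h⟯ y = (minpoly (Algebra.adjoin K {h}) y).map
      (algebraMap (Algebra.adjoin K {h}) K⟮h⟯) :=
    minpoly.isIntegrallyClosed_eq_field_fractions' K⟮h⟯ hy
  have hy' : IsIntegral K⟮h⟯ y := IsIntegral.of_finite K⟮h⟯ y
  -- transported to `K[X][X]`
  set q : K[X][X] := (minpoly (Algebra.adjoin K {h}) y).map
    (eh.symm : Algebra.adjoin K {h} →+* K[X]) with hq
  have hq_monic : q.Monic := hqh_monic.map _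
  have hq_irr : Irreducible q := by
    have := (MulEquiv.irreducible_iff (Polynomial.mapEquiv eh.symm.toRingEquiv)
      (x := minpoly (Algebra.adjoin K {h}) y)).mpr hqh_irr
    exact this
  have hq_deg : q.natDegree = (minpoly K⟮h⟯ y).natDegree := by
    rw [hq, hqh_map, hqh_monic.natDegree_map, hqh_monic.natDegree_map]
  have hq_eval : eval₂ (aeval h : K[X] →ₐ[K] F).toRingHom y q = 0 := by
    rw [hq, eval₂_map]
    have hcomp : ((aeval h : K[X] →ₐ[K] F).toRingHom).comp
        (eh.symm : Algebra.adjoin K {h} →+* K[X]) = algebraMap (Algebra.adjoin K {h}) F := by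
      ext a
      obtain ⟨f, rfl⟩ := eh.surjective a
      simp [eh]
    rw [hcomp]
    exact minpoly.aeval (Algebra.adjoin K {h}) y
  have hm : q.natDegree ≠ 0 := by
    rw [hq_deg]; exact (minpoly.natDegree_pos hy').ne'
  refine ⟨1 + (Finset.range q.natDegree).sup (fun i => (q.coeff i).natDegree), ?_⟩
  intro r hr c hc
  have hr0 : 0 < r := by omega
  have hcoef : ∀ i < q.natDegree, (q.coeff i).natDegree < r := by
    intro i hi
    have h1 : (q.coeff i).natDegree ≤
        (Finset.range q.natDegree).sup (fun i => (q.coeff i).natDegree) :=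
      Finset.le_sup (f := fun i => (q.coeff i).natDegree) (Finset.mem_range.mpr hi)
    omega
  set x' : F := y + algebraMap K F c * h ^ r with hx'
  obtain ⟨hGdeg, hGlead⟩ := natDegree_substHom c r hq_monic hc hr0 hcoef
  have hGirr : Irreducible (substHom c r q) := by
    rw [← substEquiv_apply]
    exact (MulEquiv.irreducible_iff (substEquiv c r)).mpr hq_irr
  have hGev : eval₂ (aeval x' : K[X] →ₐ[K] F).toRingHom h (substHom c r q) = 0 := by
    rw [eval₂_substHom, hx', add_sub_cancel_right]
    exact hq_eval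
  have hdegpos : 0 < q.natDegree * r := Nat.mul_pos (Nat.pos_of_ne_zero hm) hr0
  -- the polynomial over `K(x')`
  set φ : K[X] →+* K⟮x'⟯ := (aeval (AdjoinSimple.gen K x') : K[X] →ₐ[K] K⟮x'⟯).toRingHom with hφ
  set P : K⟮x'⟯[X] := (substHom c r q).map φ with hP
  have hlead_ne : φ (substHom c r q).leadingCoeff ≠ 0 := by
    rw [hGlead, hφ]
    simp [hc]
  have hPdeg : P.natDegree = q.natDegree * r := by
    rw [hP, natDegree_map_of_leadingCoeff_ne_zero _ hlead_ne, hGdeg]
  have hφcomp : (algebraMap K⟮x'⟯ F).comp φ = (aeval x' : K[X] →ₐ[K] F).toRingHom := by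
    apply ringHom_ext'
    · ext a
      simp [hφ]
    · simp [hφ]
  have hPev : aeval h P = 0 := by
    rw [hP, aeval_def, eval₂_map, hφcomp]
    exact hGev
  have hP0 : P ≠ 0 := by
    intro h0
    rw [h0, natDegree_zero] at hPdeg
    omega
  have hh_alg : IsAlgebraic K⟮x'⟯ h := ⟨P, hP0, hPev⟩
  -- transcendence of `x'`
  have hx'tr : Transcendental K x' := by
    intro halg
    have : Algebra.IsAlgebraic K K⟮x'⟯ := isAlgebraic_adjoin_simple halg.isIntegral
    exact hh (hh_alg.restrictScalars K)
  -- Gauss's lemma over `K[x']`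
  have : UniqueFactorizationMonoid (Algebra.adjoin K {x'}) :=
    hx'tr.uniqueFactorizationMonoid_adjoin
  let ex : K[X] ≃ₐ[K] Algebra.adjoin K {x'} := Polynomial.algEquivOfTranscendental K x' hx'tr
  have hG1irr : Irreducible ((substHom c r q).map (ex : K[X] →+* Algebra.adjoin K {x'})) := by
    have := (MulEquiv.irreducible_iff (Polynomial.mapEquiv ex.toRingEquiv)
      (x := substHom c r q)).mpr hGirr
    exact this
  have hG1deg : ((substHom c r q).map (ex : K[X] →+* Algebra.adjoin K {x'})).natDegree
      = q.natDegree * r := by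
    exact (natDegree_map_eq_of_injective
      (f := (ex : K[X] →+* Algebra.adjoin K {x'})) ex.injective _).trans hGdeg
  have hG1prim := hG1irr.isPrimitive (by rw [hG1deg]; omega)
  have hPirr : Irreducible P := by
    have h1 := (hG1prim.irreducible_iff_irreducible_map_fraction_map (K := K⟮x'⟯)).mp hG1irr
    have h2 : ((substHom c r q).map (ex : K[X] →+* Algebra.adjoin K {x'})).map
        (algebraMap (Algebra.adjoin K {x'}) K⟮x'⟯) = P := by
      rw [hP, Polynomial.map_map]
      congr 1
      apply ringHom_ext'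
      · ext a
        simp [hφ, ex]
      · simp [hφ, ex]
    rwa [h2] at h1
  have hmin : (minpoly K⟮x'⟯ h).natDegree = q.natDegree * r := by
    rw [← minpoly.eq_of_irreducible hPirr hPev,
      natDegree_mul_C (inv_ne_zero (leadingCoeff_ne_zero.mpr hP0)), hPdeg]
  -- degrees
  have hfr1 : Module.finrank K⟮x'⟯ K⟮x'⟯⟮h⟯ = q.natDegree * r := by
    rw [adjoin.finrank hh_alg.isIntegral, hmin]
  have hfr2 : Module.finrank K⟮h⟯ K⟮h⟯⟮y⟯ = q.natDegree := by
    rw [adjoin.finrank hy', hq_deg]
  have hres : (K⟮h⟯⟮y⟯).restrictScalars K = (K⟮x'⟯⟮h⟯).restrictScalars K := by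
    rw [adjoin_adjoin_left, adjoin_adjoin_left]
    have hc_mem : ∀ E : IntermediateField K F, algebraMap K F c ∈ E := fun E => E.algebraMap_mem c
    apply le_antisymm
    · rw [adjoin_le_iff]
      rintro z (rfl | rfl)
      · exact subset_adjoin K _ (Or.inr rfl)
      · have hxm : x' ∈ adjoin K ({x'} ∪ {h} : Set F) := subset_adjoin K _ (Or.inl rfl)
        have hhm : h ∈ adjoin K ({x'} ∪ {h} : Set F) := subset_adjoin K _ (Or.inr rfl)
        have : z = x' - algebraMap K F c * h ^ r := by rw [hx']; ring
        rw [this]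
        exact sub_mem hxm (mul_mem (hc_mem _) (pow_mem hhm r))
    · rw [adjoin_le_iff]
      rintro z (rfl | rfl)
      · have hym : y ∈ adjoin K ({h} ∪ {y} : Set F) := subset_adjoin K _ (Or.inr rfl)
        have hhm : h ∈ adjoin K ({h} ∪ {y} : Set F) := subset_adjoin K _ (Or.inl rfl)
        exact add_mem hym (mul_mem (hc_mem _) (pow_mem hhm r))
      · exact subset_adjoin K _ (Or.inl rfl)
  have hset : ((K⟮h⟯⟮y⟯ : IntermediateField K⟮h⟯ F) : Set F) =
      ((K⟮x'⟯⟮h⟯ : IntermediateField K⟮x'⟯ F) : Set F) :=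
    congrArg (fun E : IntermediateField K F => (E : Set F)) hres
  have hd := finrank_eq_of_coe_eq (K⟮h⟯⟮y⟯) (K⟮x'⟯⟮h⟯) hset
  have ht1 : Module.finrank K⟮h⟯ F = q.natDegree * Module.finrank K⟮h⟯⟮y⟯ F := by
    rw [← hfr2]
    exact (Module.finrank_mul_finrank K⟮h⟯ K⟮h⟯⟮y⟯ F).symm
  have ht2 : Module.finrank K⟮x'⟯ F = q.natDegree * r * Module.finrank K⟮x'⟯⟮h⟯ F := by
    rw [← hfr1]
    exact (Module.finrank_mul_finrank K⟮x'⟯ K⟮x'⟯⟮h⟯ F).symm
  have hfin : Module.finrank K⟮x'⟯ F = r * Module.finrank K⟮h⟯ F := by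
    rw [ht2, ht1, hd]
    ring
  -- integrality of `h` over `K[x']`
  have hexcomp : (algebraMap (Algebra.adjoin K {x'}) F).comp
      (ex : K[X] →+* Algebra.adjoin K {x'}) = (aeval x' : K[X] →ₐ[K] F).toRingHom := by
    apply ringHom_ext'
    · ext a
      simp [ex]
    · simp [ex]
  have hint : IsIntegral (Algebra.adjoin K {x'}) h := by
    have hmonic : (C (C ((-c) ^ q.natDegree)⁻¹) * substHom c r q).Monic := by
      apply monic_C_mul_of_mul_leadingCoeff_eq_one
      rw [hGlead, ← C_neg, ← C_pow, ← C_mul, inv_mul_cancel₀ (pow_ne_zero _ (neg_ne_zero.mpr hc)),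
        C_1]
    refine ⟨(C (C ((-c) ^ q.natDegree)⁻¹) * substHom c r q).map
      (ex : K[X] →+* Algebra.adjoin K {x'}), hmonic.map _, ?_⟩
    rw [eval₂_map, hexcomp, eval₂_mul, hGev, mul_zero]
  have hx'int : IsIntegral (Algebra.adjoin K {h}) x' := by
    refine hy.add ?_
    have hmem : algebraMap K F c * h ^ r ∈ Algebra.adjoin K {h} :=
      Subalgebra.mul_mem _ (Subalgebra.algebraMap_mem _ c)
        (Subalgebra.pow_mem _ (Algebra.self_mem_adjoin_singleton K h) r)
    exact isIntegral_algebraMap (R := Algebra.adjoin K {h}) (A := F)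
      (x := ⟨algebraMap K F c * h ^ r, hmem⟩)
  refine ⟨hx'tr, ?_, hfin, hint, fun z =>
    ⟨fun hz => isIntegral_adjoin_trans hx'int hz, fun hz => isIntegral_adjoin_trans hint hz⟩⟩
  apply Module.finite_of_finrank_pos
  rw [hfin]
  exact Nat.mul_pos hr0 Module.finrank_pos

/-- **Degree of a new line.**  If `h` is transcendental over `K`, `F` is finite over `K(h)` and
`y` is integral over `K[h]`, then for all large `r` and all `c ≠ 0` the element
`x' = y + c * h ^ r` is transcendental over `K`, and `[F : K(x')] = r * [F : K(h)]`. -/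
theorem exists_finrank_adjoin_add_mul_pow (h y : F) (hh : Transcendental K h)
    [FiniteDimensional K⟮h⟯ F] (hy : IsIntegral (Algebra.adjoin K {h}) y) :
    ∃ r₀ : ℕ, ∀ r, r₀ ≤ r → ∀ c : K, c ≠ 0 →
      Transcendental K (y + algebraMap K F c * h ^ r) ∧
      FiniteDimensional K⟮y + algebraMap K F c * h ^ r⟯ F ∧
      Module.finrank K⟮y + algebraMap K F c * h ^ r⟯ F = r * Module.finrank K⟮h⟯ F := by
  obtain ⟨r₀, H⟩ := exists_line_add_mul_pow h y hh hy
  exact ⟨r₀, fun r hr c hc => ⟨(H r hr c hc).1, (H r hr c hc).2.1, (H r hr c hc).2.2.1⟩⟩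

/-- **The new line in the form `x' = h ^ r + c * y`** (the same field as for `y + c⁻¹ * h ^ r`). -/
theorem exists_line_pow_add_mul (h y : F) (hh : Transcendental K h)
    [FiniteDimensional K⟮h⟯ F] (hy : IsIntegral (Algebra.adjoin K {h}) y) :
    ∃ r₀ : ℕ, ∀ r, r₀ ≤ r → ∀ c : K, c ≠ 0 →
      Transcendental K (h ^ r + algebraMap K F c * y) ∧
      FiniteDimensional K⟮h ^ r + algebraMap K F c * y⟯ F ∧
      Module.finrank K⟮h ^ r + algebraMap K F c * y⟯ F = r * Module.finrank K⟮h⟯ F ∧
      IsIntegral (Algebra.adjoin K {h ^ r + algebraMap K F c * y}) h ∧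
      ∀ z : F, IsIntegral (Algebra.adjoin K {h ^ r + algebraMap K F c * y}) z ↔
        IsIntegral (Algebra.adjoin K {h}) z := by
  obtain ⟨r₀, H⟩ := exists_line_add_mul_pow h y hh hy
  refine ⟨r₀, fun r hr c hc => ?_⟩
  have e : h ^ r + algebraMap K F c * y =
      algebraMap K F c * (y + algebraMap K F c⁻¹ * h ^ r) := by
    rw [mul_add, ← mul_assoc, ← map_mul, mul_inv_cancel₀ hc, map_one, one_mul, add_comm]
  obtain ⟨h1, h2, h3, h4, h5⟩ := H r hr c⁻¹ (inv_ne_zero hc)
  have hmem1 : algebraMap K F c * (y + algebraMap K F c⁻¹ * h ^ r) ∈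
      Algebra.adjoin K {y + algebraMap K F c⁻¹ * h ^ r} :=
    Subalgebra.mul_mem _ (Subalgebra.algebraMap_mem _ c) (Algebra.self_mem_adjoin_singleton K _)
  have hmem2 : y + algebraMap K F c⁻¹ * h ^ r ∈
      Algebra.adjoin K {algebraMap K F c * (y + algebraMap K F c⁻¹ * h ^ r)} := by
    have hmem := Subalgebra.mul_mem _ (Subalgebra.algebraMap_mem
      (Algebra.adjoin K {algebraMap K F c * (y + algebraMap K F c⁻¹ * h ^ r)}) c⁻¹)
      (Algebra.self_mem_adjoin_singleton K (algebraMap K F c * (y + algebraMap K F c⁻¹ * h ^ r)))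
    rwa [← mul_assoc, ← map_mul, inv_mul_cancel₀ hc, map_one, one_mul] at hmem
  have hiff : ∀ z : F,
      IsIntegral (Algebra.adjoin K {algebraMap K F c * (y + algebraMap K F c⁻¹ * h ^ r)}) z ↔
        IsIntegral (Algebra.adjoin K {y + algebraMap K F c⁻¹ * h ^ r}) z :=
    fun z => ⟨isIntegral_adjoin_of_mem hmem1, isIntegral_adjoin_of_mem hmem2⟩
  rw [e, intermediateField_adjoin_algebraMap_mul hc]
  exact ⟨transcendental_algebraMap_mul hc h1, h2, h3, (hiff h).mpr h4,
    fun z => (hiff z).trans (h5 z)⟩

end Main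

end

end Fermat.Agent.S37.helper2716
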