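import Mathlib
import Fermat.Prelude.Def_AlgebraicCurve_Correspondence
import Fermat.Agent.S37.helper1187_RelFunctionField

/-!
# S37 / S18 (helper2842): the norm formula for function fields in ANY characteristic

`helper1187_RelFunctionField` (and `helper8426_RelNorm`) prove the norm formula
`ord_v (N_{F'/F} f) = ∑_{w | v} f(w|v) ord_w f` through Mathlib's
`Ideal.relNorm_eq_pow_of_isMaximal`, which needs `PerfectField (FractionRing O_v)`; this
fails for the function field `k(x)` of the special fibre (characteristic `ℓ`).

Here the same formula is proved with NO hypothesis on the characteristic, for a finite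
separable extension `F'/F` all of whose places upstairs have residue field `K`
(e.g. `K` algebraically closed): the relative norm of a prime `P` of the integral closure of
`O_v` is computed by a counting argument (`relNorm (m S) = m ^ n`, `∑ e = n`,
`relNorm P ≤ m`) instead of a Galois closure.
-/

set_option autoImplicit false
set_option linter.unusedSectionVars false
set_option linter.deprecated false
set_option linter.style.haveILetI false

noncomputable section

namespace Fermat.Agent.S37.helper2842

open AlgebraicCurve IsDedekindDomain WithZero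
open Fermat.Agent.S37.helper1187

section Abstract

open IsLocalRing Ideal

variable {R S : Type*} [CommRing R] [IsDomain R] [IsDiscreteValuationRing R]
  [CommRing S] [IsDedekindDomain S] [Algebra R S] [Module.Finite R S] [Module.IsTorsionFree R S]

/-- The relative norm of a nonzero prime is a positive power of the maximal ideal. -/
theorem exists_relNorm_eq_pow_pos (P : HeightOneSpectrum S) :
    ∃ s : ℕ, s ≠ 0 ∧ relNorm R P.asIdeal = maximalIdeal R ^ s := by
  have hlo : P.asIdeal.LiesOver (maximalIdeal R) := liesOver_maximalIdeal P
  obtain ⟨s, hs⟩ := exists_relNorm_eq_pow_of_isPrime P.asIdeal (maximalIdeal R)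
  refine ⟨s, ?_, hs⟩
  rintro rfl
  have hle := relNorm_le_comap (R := R) P.asIdeal
  rw [hs, pow_zero, Ideal.one_eq_top, top_le_iff] at hle
  have h1 : (1 : R) ∈ comap (algebraMap R S) P.asIdeal := by rw [hle]; trivial
  rw [Ideal.mem_comap, map_one] at h1
  exact P.isPrime.ne_top ((Ideal.eq_top_iff_one _).mpr h1)

open Classical in
/-- The relative norm of a nonzero ideal, computed prime by prime from the exponents of the
relative norms of the primes. -/
theorem relNorm_eq_pow_of [Fintype (HeightOneSpectrum S)] (s : HeightOneSpectrum S → ℕ)
    (hs : ∀ P : HeightOneSpectrum S, relNorm R P.asIdeal = maximalIdeal R ^ s P)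
    (I : Ideal S) (hI : I ≠ ⊥) :
    relNorm R I = (maximalIdeal R) ^
      (∑ P : HeightOneSpectrum S, s P * multiplicity P.asIdeal I) := by
  induction I using UniqueFactorizationMonoid.induction_on_prime with
  | h₁ => exact absurd rfl hI
  | h₂ I hIu =>
    rw [Ideal.isUnit_iff] at hIu
    subst hIu
    rw [relNorm_top]
    have : ∀ P : HeightOneSpectrum S, multiplicity P.asIdeal (⊤ : Ideal S) = 0 := by
      intro P
      rw [multiplicity_eq_zero, Ideal.dvd_iff_le]
      intro hle
      exact P.isPrime.ne_top (top_le_iff.mp hle)
    simp [this, Ideal.one_eq_top]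
  | h₃ I Q hI0 hQ ih =>
    have hQp : Q.IsPrime := Ideal.isPrime_of_prime hQ
    have hQ0 : Q ≠ ⊥ := hQ.ne_zero
    set Q₀ : HeightOneSpectrum S := ⟨Q, hQp, hQ0⟩ with hQ₀
    have hI' : I ≠ ⊥ := hI0
    rw [map_mul, ih hI', show Q = Q₀.asIdeal from rfl, hs Q₀, ← pow_add]
    congr 1
    have hmul : ∀ P : HeightOneSpectrum S,
        multiplicity P.asIdeal (Q₀.asIdeal * I)
          = (if P = Q₀ then 1 else 0) + multiplicity P.asIdeal I := by
      intro P
      have hP : Prime P.asIdeal := Ideal.prime_of_isPrime P.ne_bot P.isPrime
      rw [multiplicity_mul hP, multiplicity_prime P hQ Q₀ rfl]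
      exact FiniteMultiplicity.of_not_isUnit hP.not_unit (mul_ne_zero hQ0 hI')
    simp_rw [hmul, mul_add, Finset.sum_add_distrib]
    congr 1
    simp [Finset.sum_ite_eq']

section fields

variable (K₀ L : Type*) [Field K₀] [Field L] [Algebra R K₀] [IsFractionRing R K₀]
  [Algebra S L] [IsFractionRing S L] [Algebra K₀ L] [Algebra R L] [IsScalarTower R S L]
  [IsScalarTower R K₀ L]

include K₀ L in

/-- **Counting argument.** If all primes of `S` have inertia degree one over the discrete
valuation ring `R`, then the relative norm of every nonzero prime of `S` is the maximal ideal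
of `R`.  No hypothesis on the fraction field of `R` (it need not be perfect). -/
theorem relNorm_eq_maximalIdeal [Fintype (HeightOneSpectrum S)]
    (hf : ∀ P : HeightOneSpectrum S, inertiaDeg' (maximalIdeal R) P.asIdeal = 1)
    (P : HeightOneSpectrum S) : relNorm R P.asIdeal = maximalIdeal R := by
  classical
  choose s hs0 hs using fun P : HeightOneSpectrum S => exists_relNorm_eq_pow_pos (R := R) P
  have hp0 : maximalIdeal R ≠ ⊥ := maximalIdeal_ne_bot'
  have hmap0 : map (algebraMap R S) (maximalIdeal R) ≠ ⊥ := by
    rw [Ne, map_eq_bot_iff_of_injective (FaithfulSMul.algebraMap_injective R S)]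
    exact hp0
  have h1 := relNorm_eq_pow_of s hs (map (algebraMap R S) (maximalIdeal R)) hmap0
  rw [relNorm_algebraMap S] at h1
  have hinj : Module.finrank R S
      = ∑ P : HeightOneSpectrum S,
          s P * multiplicity P.asIdeal (map (algebraMap R S) (maximalIdeal R)) :=
    (Ideal.pow_right_strictAnti (maximalIdeal R) hp0
      (IsLocalRing.maximalIdeal.isMaximal R).ne_top).injective h1
  have hsum := sum_e_f (R := R) (S := S) K₀ L
  rw [IsFractionRing.finrank_eq R K₀ S L] at hsum
  have hmul : ∀ P : HeightOneSpectrum S,
      multiplicity P.asIdeal (map (algebraMap R S) (maximalIdeal R))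
        = ramificationIdx' (maximalIdeal R) P.asIdeal := fun P =>
    (IsDedekindDomain.ramificationIdx'_eq_multiplicity hmap0 P.isPrime).symm
  have he0 : ∀ P : HeightOneSpectrum S, ramificationIdx' (maximalIdeal R) P.asIdeal ≠ 0 := by
    intro P
    have hlo : P.asIdeal.LiesOver (maximalIdeal R) := liesOver_maximalIdeal P
    refine IsDedekindDomain.ramificationIdx'_ne_zero hmap0 P.isPrime ?_
    rw [Ideal.map_le_iff_le_comap]
    exact le_of_eq hlo.over
  simp_rw [hmul] at hinj
  simp_rw [hf, mul_one] at hsum
  have hle : ∀ P ∈ (Finset.univ : Finset (HeightOneSpectrum S)),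
      ramificationIdx' (maximalIdeal R) P.asIdeal
        ≤ s P * ramificationIdx' (maximalIdeal R) P.asIdeal := fun P _ =>
    Nat.le_mul_of_pos_left _ (Nat.pos_of_ne_zero (hs0 P))
  have heq := (Finset.sum_eq_sum_iff_of_le hle).mp (hsum.trans hinj) P (Finset.mem_univ P)
  have hsP : s P = 1 := by
    have h2 : 1 * ramificationIdx' (maximalIdeal R) P.asIdeal
        = s P * ramificationIdx' (maximalIdeal R) P.asIdeal := by rw [one_mul]; exact heq
    exact (Nat.eq_of_mul_eq_mul_right (Nat.pos_of_ne_zero (he0 P)) h2).symm
  rw [hs P, hsP, pow_one]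

variable [IsIntegralClosure S R L] [FiniteDimensional K₀ L] [Fintype (HeightOneSpectrum S)]

/-- The norm formula for integral elements, all inertia degrees being one. -/
theorem ord_norm_algebraMap_of_inertiaDeg_one
    (hf : ∀ P : HeightOneSpectrum S, inertiaDeg' (maximalIdeal R) P.asIdeal = 1)
    (a : S) (ha : a ≠ 0) :
    -(log ((IsDiscreteValuationRing.maximalIdeal R).valuation K₀
        (Algebra.norm K₀ (algebraMap S L a))))
      = ∑ P : HeightOneSpectrum S, -(log (P.valuation L (algebraMap S L a))) := by
  classical
  have haL : algebraMap S L a ≠ 0 := by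
    simpa using ha
  have hN0 : Algebra.norm K₀ (algebraMap S L a) ≠ 0 := Algebra.norm_ne_zero_iff.mpr haL
  have hint := Algebra.algebraMap_intNorm (A := R) (K := K₀) (L := L) (B := S) a
  have hne : Algebra.intNorm R S a ≠ 0 := by
    intro h0
    rw [h0, map_zero] at hint
    exact hN0 hint.symm
  rw [← hint, HeightOneSpectrum.valuation_of_algebraMap,
    HeightOneSpectrum.intValuation_eq_exp_neg_multiplicity _ hne, log_exp, neg_neg]
  have h1 := relNorm_eq_pow_of (R := R) (S := S) (fun _ => 1)
    (fun P => by rw [relNorm_eq_maximalIdeal K₀ L hf P, pow_one]) (Ideal.span {a})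
    (by rw [Ne, Ideal.span_singleton_eq_bot]; exact ha)
  rw [relNorm_singleton] at h1
  have hprime : Prime (maximalIdeal R) :=
    Ideal.prime_of_isPrime maximalIdeal_ne_bot' inferInstance
  have h2 : (IsDiscreteValuationRing.maximalIdeal R).asIdeal = maximalIdeal R := rfl
  rw [h2, h1, multiplicity_pow_self_of_prime hprime]
  push_cast
  refine Finset.sum_congr rfl fun P _ => ?_
  rw [HeightOneSpectrum.valuation_of_algebraMap, P.intValuation_eq_exp_neg_multiplicity ha,
    log_exp, neg_neg, one_mul]

/-- The norm formula `ord_p (N x) = ∑_P ord_P x`, all inertia degrees being one. -/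
theorem ord_norm_of_inertiaDeg_one
    (hf : ∀ P : HeightOneSpectrum S, inertiaDeg' (maximalIdeal R) P.asIdeal = 1)
    (x : L) (hx : x ≠ 0) :
    -(log ((IsDiscreteValuationRing.maximalIdeal R).valuation K₀ (Algebra.norm K₀ x)))
      = ∑ P : HeightOneSpectrum S, -(log (P.valuation L x)) := by
  obtain ⟨a, b, hb, rfl⟩ := IsFractionRing.div_surjective (A := S) x
  have hb0 : b ≠ 0 := nonZeroDivisors.ne_zero hb
  have hbL : algebraMap S L b ≠ 0 := by simpa using hb0
  have ha0 : a ≠ 0 := by
    rintro rfl
    simp at hx
  have haL : algebraMap S L a ≠ 0 := by simpa using ha0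
  have hmul : algebraMap S L a / algebraMap S L b * algebraMap S L b = algebraMap S L a :=
    div_mul_cancel₀ _ hbL
  have ha' := ord_norm_algebraMap_of_inertiaDeg_one (R := R) K₀ L hf a ha0
  have hb' := ord_norm_algebraMap_of_inertiaDeg_one (R := R) K₀ L hf b hb0
  have hnz : ∀ y : L, y ≠ 0 →
      (IsDiscreteValuationRing.maximalIdeal R).valuation K₀ (Algebra.norm K₀ y) ≠ 0 := by
    intro y hy
    exact (Valuation.ne_zero_iff _).mpr (Algebra.norm_ne_zero_iff.mpr hy)
  have hN : log ((IsDiscreteValuationRing.maximalIdeal R).valuation K₀
        (Algebra.norm K₀ (algebraMap S L a / algebraMap S L b)))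
      + log ((IsDiscreteValuationRing.maximalIdeal R).valuation K₀
        (Algebra.norm K₀ (algebraMap S L b)))
      = log ((IsDiscreteValuationRing.maximalIdeal R).valuation K₀
        (Algebra.norm K₀ (algebraMap S L a))) := by
    rw [← log_mul (hnz _ hx) (hnz _ hbL), ← map_mul, ← map_mul, hmul]
  have hP : ∀ P : HeightOneSpectrum S,
      log (P.valuation L (algebraMap S L a / algebraMap S L b))
        + log (P.valuation L (algebraMap S L b)) = log (P.valuation L (algebraMap S L a)) := by
    intro P
    rw [← log_mul ((Valuation.ne_zero_iff _).mpr hx) ((Valuation.ne_zero_iff _).mpr hbL),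
      ← map_mul, hmul]
  have hsum : ∑ P : HeightOneSpectrum S,
        -(log (P.valuation L (algebraMap S L a / algebraMap S L b)))
      = (∑ P : HeightOneSpectrum S, -(log (P.valuation L (algebraMap S L a))))
        - ∑ P : HeightOneSpectrum S, -(log (P.valuation L (algebraMap S L b))) := by
    rw [← Finset.sum_sub_distrib]
    refine Finset.sum_congr rfl fun P _ => ?_
    rw [← hP P]
    ring
  rw [hsum, ← ha', ← hb', ← hN]
  ring

end fields

end Abstract

section Bridge

open IsLocalRing

variable {K F F' : Type*} [Field K] [Field F] [Field F'] [Algebra K F] [Algebra K F']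
  [Algebra F F'] [IsScalarTower K F F']

/-- If every place of `F'` has residue field `K`, all inertia degrees are one. -/
theorem place_inertiaDeg_eq_one [Algebra.IsIntegral F F']
    (hres : ∀ w : Place K F', Function.Surjective (algebraMap K w.ResidueField))
    (w : Place K F') : w.inertiaDeg F = 1 := by
  rw [Place.inertiaDeg, finrank_eq_one_iff_of_nonzero' (1 : w.ResidueField) one_ne_zero]
  intro x
  obtain ⟨c, rfl⟩ := hres w x
  refine ⟨algebraMap K (w.restrict F).ResidueField c, ?_⟩
  rw [Algebra.smul_def, mul_one, ← IsScalarTower.algebraMap_apply]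

attribute [local instance] isScalarTower_valuationSubring

variable [FiniteDimensional F F'] [Algebra.IsSeparable F F']

attribute [local instance] intClosureFinite_of_isSeparable

attribute [local instance] isDedekindDomain_OS isFractionRing_OS finite_OS

variable (v : Place K F)

/-- Under `hres`, every prime of the integral closure of `O_v` has inertia degree one. -/
theorem inertiaDeg'_eq_one
    (hres : ∀ w : Place K F', Function.Surjective (algebraMap K w.ResidueField))
    (P : HeightOneSpectrum (OS F' v)) :
    Ideal.inertiaDeg' (maximalIdeal v.toValuationSubring) P.asIdeal = 1 := by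
  rw [← inertiaDeg_placeOf v P]
  exact place_inertiaDeg_eq_one hres _

/-- `∑_{w | v} ord_w(f) = ord_v(N f)` in divisor form, any characteristic. -/
theorem pushforward_apply_eq_ord_norm
    (hres : ∀ w : Place K F', Function.Surjective (algebraMap K w.ResidueField))
    {f : F'} (hf : f ≠ 0) (D : Divisor K F') (hD : ∀ w, D w = w.ord f) :
    Divisor.pushforward F D v = v.ord (Algebra.norm F f) := by
  classical
  haveI : Finite (HeightOneSpectrum (OS F' v)) :=
    finite_heightOneSpectrum v.toValuationSubring (OS F' v)
  letI : Fintype (HeightOneSpectrum (OS F' v)) := Fintype.ofFinite _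
  rw [Divisor.pushforward_apply, ← Finset.sum_filter]
  have hsub : D.support.filter (fun w => w.restrict F = v)
      ⊆ Finset.univ.image (placeOf (F' := F') v) := by
    intro w hw
    rw [Finset.mem_filter] at hw
    rw [Finset.mem_image]
    exact ⟨primeOf w hw.2, Finset.mem_univ _, placeOf_primeOf w hw.2⟩
  rw [Finset.sum_subset hsub (by
    intro w hw hnot
    rw [Finset.mem_image] at hw
    obtain ⟨P, -, rfl⟩ := hw
    rw [Finset.mem_filter, not_and_or] at hnot
    rcases hnot with h | h
    · rw [Finsupp.notMem_support_iff.mp h, zero_mul]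
    · exact absurd (placeOf_restrict v P) h)]
  rw [Finset.sum_image (fun P _ Q _ h => placeOf_injective v h)]
  simp_rw [hD, inertiaDeg_placeOf, inertiaDeg'_eq_one v hres, ord_placeOf]
  have key := ord_norm_of_inertiaDeg_one (R := v.toValuationSubring) (S := OS F' v) F F'
    (inertiaDeg'_eq_one v hres) f hf
  rw [Place.ord, Place.adicValuation, Place.heightOneSpectrum, key]
  refine Finset.sum_congr rfl fun P _ => ?_
  push_cast
  ring

end Bridge

section Main

variable {K F F' : Type*} [Field K] [Field F] [Field F'] [Algebra K F] [Algebra K F']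

section Alg

variable [Algebra F F'] [IsScalarTower K F F'] [FiniteDimensional F F']
  [Algebra.IsSeparable F F']

attribute [local instance] intClosureFinite_of_isSeparable

/-- **Fundamental identity** `∑ e f = n` for a finite separable extension of function fields,
in any characteristic (this is `helper1187.sum_ramificationIndex_mul_inertiaDeg`, packaged). -/
theorem sumRamificationInertia_of_separable [HasPrincipalDivisors K F'] :
    SumRamificationInertia K F F' :=
  ⟨fun v => sum_ramificationIndex_mul_inertiaDeg v⟩

/-- **Fundamental identity** `∑ e(w|v) deg w = [F' : F] deg v`, any characteristic. -/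
theorem fundamentalIdentity_of_separable [HasPrincipalDivisors K F'] :
    FundamentalIdentity K F F' := by
  haveI : SumRamificationInertia K F F' := sumRamificationInertia_of_separable
  infer_instance

/-- **Norm formula**, any characteristic: for a finite separable extension `F'/F` all of whose
places upstairs have residue field `K`, the pushforward of the divisor of `f` is the divisor of
`N_{F'/F} f`. -/
theorem pushforwardNormFormula_of_separable
    (hres : ∀ w : Place K F', Function.Surjective (algebraMap K w.ResidueField)) :
    Divisor.PushforwardNormFormula K F F' :=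
  fun _ hf D hD v => pushforward_apply_eq_ord_norm v hres hf D hD

/-- **Local norm formula**, any characteristic:
`ord_v (N_{F'/F} f) = ∑_{w | v} ord_w f`. -/
theorem ord_norm_eq_sum_fiber [HasPrincipalDivisors K F']
    (hres : ∀ w : Place K F', Function.Surjective (algebraMap K w.ResidueField))
    (v : Place K F) {f : F'} (hf : f ≠ 0) :
    v.ord (Algebra.norm F f) = ∑ w ∈ v.fiber F', w.ord f := by
  classical
  obtain ⟨D, hD, -⟩ := HasPrincipalDivisors.exists_divisor (K := K) f hf
  rw [← pushforward_apply_eq_ord_norm v hres hf D hD, Divisor.pushforward_apply,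
    ← Finset.sum_filter]
  have hterm : ∀ w : Place K F', D w * (w.inertiaDeg F : ℤ) = w.ord f := by
    intro w
    rw [place_inertiaDeg_eq_one hres w, hD]
    simp
  simp_rw [hterm]
  apply Finset.sum_subset
  · intro w hw
    rw [Finset.mem_filter] at hw
    exact Place.mem_fiber.mpr hw.2
  · intro w hw hnot
    rw [Finset.mem_filter, not_and] at hnot
    have hsupp : w ∉ D.support := fun h => hnot h (Place.mem_fiber.mp hw)
    rw [Finsupp.notMem_support_iff, hD] at hsupp
    exact hsupp

/-- Sum of the ramification indices over a fibre: `∑_{w | v} e(w|v) = [F' : F]` when all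
places upstairs have residue field `K`. -/
theorem sum_ramificationIndex_fiber [HasPrincipalDivisors K F']
    (hres : ∀ w : Place K F', Function.Surjective (algebraMap K w.ResidueField))
    (v : Place K F) :
    ∑ w ∈ v.fiber F', (w.ramificationIndex F : ℤ) = (Module.finrank F F' : ℤ) := by
  rw [← sum_ramificationIndex_mul_inertiaDeg v]
  refine Finset.sum_congr rfl fun w _ => ?_
  rw [place_inertiaDeg_eq_one hres w]
  simp

end Alg

section Along

/-- The fundamental identity along a `K`-algebra map making `F'` finite separable over `F`. -/
theorem fundamentalIdentityAlong_of_separable [HasPrincipalDivisors K F'] (φ : F →ₐ[K] F')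
    (hφ : φ.toRingHom.IsIntegral) (hfin : FiniteAlong K φ)
    (hsep : letI := algebraAlong φ; Algebra.IsSeparable F F') :
    FundamentalIdentityAlong K φ hφ := by
  letI := algebraAlong φ
  haveI := isScalarTower_along φ
  haveI : Module.Finite F F' := hfin
  haveI : Algebra.IsSeparable F F' := hsep
  exact fundamentalIdentity_of_separable

/-- The norm formula along a `K`-algebra map making `F'` finite separable over `F`. -/
theorem normFormulaAlong_of_separable (φ : F →ₐ[K] F') (hfin : FiniteAlong K φ)
    (hsep : letI := algebraAlong φ; Algebra.IsSeparable F F')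
    (hres : ∀ w : Place K F', Function.Surjective (algebraMap K w.ResidueField)) :
    NormFormulaAlong K φ hfin := by
  letI := algebraAlong φ
  haveI := isScalarTower_along φ
  haveI : Module.Finite F F' := hfin
  haveI : Algebra.IsSeparable F F' := hsep
  exact pushforwardNormFormula_of_separable hres

end Along

end Main

end Fermat.Agent.S37.helper2842
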