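import Fermat.Agent.Lib.helper28_IgusaLocal
import Fermat.Agent.S37.helper2025_GaloisCharts

/-!
# (R1) for the two standard `A`-charts of the `j`-line (helper28, S37)

The congruences `hcong₀` / `hcong₁` of `helper2025.inertia_smul_sub_mem_specKernel_stdCharts`
are PROVED here from the Igusa kernel lemma (`Lib/helper28_IgusaLocal`), for every level `N`
prime to the residue characteristic of `A` (`GoodLevel A N`):

* `hcong_finChart_jF` : `f ∈ finChart A j`, `τ` in the inertia group of `A` ⟹
  `τ⁻¹ f - f = c h` with `c ∈ 𝔪_A`, `h ∈ finChart A j`;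
* `hcong_infChart_jF` : the same for the local chart at infinity `infChart A j⁻¹`;
* `inertia_smul_sub_mem_specKernel_jCharts` : **(R1)** `τ x - x ∈ specKernel A (stdCharts A j)`.

Also: the dictionary between the charts of `helper2025_GaloisCharts` (subsets of the field
`F = laurentBaseChange L F₀`) and chart rings inside `L((q))` (`mem_finChart_iff`,
`mem_infChart_iff`), and `goodLevel_of_liesOverPrime`.
-/

set_option autoImplicit false

noncomputable section

namespace Fermat.Agent.S37.helper28

open ModularCurve HahnSeries Polynomial AlgebraicCurve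
open Fermat.Agent.Lib.helper28 Fermat.Agent.S37.helper2025

section Dictionary

variable {L : Type} [Field L] [Algebra ℚ L] (A : ValuationSubring L)
variable {F₀ : IntermediateField ℚ (LaurentSeries ℚ)}

/-- the inclusion `F → L((q))` as a ring hom. -/
abbrev incF (L : Type) [Field L] [Algebra ℚ L] (F₀ : IntermediateField ℚ (LaurentSeries ℚ)) :
    ↥(laurentBaseChange L F₀) →+* LaurentSeries L :=
  algebraMap ↥(laurentBaseChange L F₀) (LaurentSeries L)

theorem incF_injective : Function.Injective (incF L F₀) := Subtype.val_injective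

theorem image_finGen (t : ↥(laurentBaseChange L F₀)) :
    incF L F₀ '' (finGen A t) = finGenE A (t : LaurentSeries L) := by
  rw [finGen, finGenE, Set.image_union, Set.image_image, Set.image_singleton]
  rfl

theorem map_closure_finGen (t : ↥(laurentBaseChange L F₀)) :
    (Subring.closure (finGen A t)).map (incF L F₀) =
      Subring.closure (finGenE A (t : LaurentSeries L)) := by
  rw [RingHom.map_closure, image_finGen]

theorem image_infGen (u : ↥(laurentBaseChange L F₀)) :
    incF L F₀ '' (infGen A u) = infGenE A (u : LaurentSeries L) := by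
  rw [infGen, infGenE, Set.image_union, image_finGen]
  congr 1
  ext x
  constructor
  · rintro ⟨_, ⟨c, hc, rfl⟩, rfl⟩
    refine ⟨incF L F₀ c, ?_, ?_⟩
    · rw [← map_closure_finGen]
      exact ⟨c, hc, rfl⟩
    · rw [map_inv₀, map_add, map_one, map_mul]
      rfl
  · rintro ⟨c', hc', rfl⟩
    rw [← map_closure_finGen] at hc'
    obtain ⟨c, hc, rfl⟩ := hc'
    refine ⟨(1 + u * c)⁻¹, ⟨c, hc, rfl⟩, ?_⟩
    rw [map_inv₀, map_add, map_one, map_mul]
    rfl

theorem map_closure_infGen (u : ↥(laurentBaseChange L F₀)) :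
    (Subring.closure (infGen A u)).map (incF L F₀) =
      Subring.closure (infGenE A (u : LaurentSeries L)) := by
  rw [RingHom.map_closure, image_infGen]

/-- the finite chart of `helper2025_GaloisCharts` in terms of the chart ring `A[t] ⊆ L((q))`. -/
theorem mem_finChart_iff {t f : ↥(laurentBaseChange L F₀)} :
    f ∈ finChart A t ↔
      IsIntegral (Subring.closure (finGenE A (t : LaurentSeries L))) (f : LaurentSeries L) := by
  rw [← map_closure_finGen]
  exact ⟨fun h => isIntegral_subring_map (incF L F₀) h,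
    fun h => isIntegral_subring_of_map (incF L F₀) incF_injective h⟩

/-- the local chart at infinity of `helper2025_GaloisCharts` in terms of the chart ring
`A[u]_(1 + u A[u]) ⊆ L((q))`. -/
theorem mem_infChart_iff {u f : ↥(laurentBaseChange L F₀)} :
    f ∈ infChart A u ↔
      IsIntegral (Subring.closure (infGenE A (u : LaurentSeries L))) (f : LaurentSeries L) := by
  rw [← map_closure_infGen]
  exact ⟨fun h => isIntegral_subring_map (incF L F₀) h,
    fun h => isIntegral_subring_of_map (incF L F₀) incF_injective h⟩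

end Dictionary

section GoodLevel

variable {L : Type} [Field L] (A : ValuationSubring L)

/-- a valuation ring over a prime `ℓ ∤ N` has `GoodLevel`. -/
theorem goodLevel_of_liesOverPrime {ℓ : ℕ} (hℓ : ℓ.Prime) (hA : A.LiesOverPrime ℓ) (N : ℕ)
    (hN : ¬ ℓ ∣ N) : GoodLevel A N := by
  intro p hp hpN h0
  have hpℓ : p ≠ ℓ := fun h => hN (h ▸ hpN)
  have hcop : IsCoprime (p : ℤ) (ℓ : ℤ) :=
    Nat.isCoprime_iff_coprime.mpr ((Nat.coprime_primes hp hℓ).mpr hpℓ)
  obtain ⟨a, b, hab⟩ := hcop
  have h1 : A.valuation ((p : ℕ) : L) < 1 := by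
    have h2 : IsLocalRing.residue A ((p : ℕ) : A) = 0 := by rw [map_natCast]; exact h0
    have h3 := (A.valuation_lt_one_iff _).mp ((IsLocalRing.residue_eq_zero_iff _).mp h2)
    simpa using h3
  have h2 : A.valuation ((ℓ : ℕ) : L) < 1 := A.mem_nonunits_iff.mp hA
  have hint : ∀ z : ℤ, A.valuation (z : L) ≤ 1 := fun z =>
    (A.valuation_le_one_iff _).mpr (intCast_mem A z)
  have h3 : A.valuation ((a : L) * (p : L) + (b : L) * (ℓ : L)) < 1 := by
    refine lt_of_le_of_lt (Valuation.map_add _ _ _) (max_lt ?_ ?_)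
    · rw [map_mul]
      exact lt_of_le_of_lt (mul_le_of_le_one_left' (hint a)) h1
    · rw [map_mul]
      exact lt_of_le_of_lt (mul_le_of_le_one_left' (hint b)) h2
  have h4 : ((a : L) * (p : L) + (b : L) * (ℓ : L)) = 1 := by
    have := congrArg (fun z : ℤ => (z : L)) hab
    simpa using this
  rw [h4, map_one] at h3
  exact lt_irrefl _ h3

end GoodLevel

section R1

variable {L : Type} [Field L] [Algebra ℚ L] (A : ValuationSubring L) (N : ℕ) [NeZero N]

/-- `j` as an element of `F = laurentBaseChange L (modularFunctionFieldFull N)`. -/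
def jF (L : Type) [Field L] [Algebra ℚ L] (N : ℕ) :
    ↥(laurentBaseChange L (modularFunctionFieldFull N)) :=
  ⟨jqModC L, (Fermat.Agent.S18.helper8991.mem_laurentBaseChange_full_iff N).mpr
    (jqModC_mem_full L N)⟩

omit [NeZero N] in
@[simp] theorem coe_jF : ((jF L N : ↥(laurentBaseChange L (modularFunctionFieldFull N))) :
    LaurentSeries L) = jqModC L := rfl

omit [NeZero N] in
theorem coe_jF_inv : (((jF L N)⁻¹ : ↥(laurentBaseChange L (modularFunctionFieldFull N))) :
    LaurentSeries L) = (jqModC L)⁻¹ := rfl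

omit [NeZero N] in
theorem isRational_jF : IsRational (modularFunctionFieldFull N) (jF L N) :=
  ⟨jqModC ℚ, coeffMap_jqModC _⟩

/-- the common core of `hcong₀` / `hcong₁`. -/
theorem hcong_of_klSub (hN : GoodLevel A N) {R : Subring (LaurentSeries L)}
    (hR : R ≤ gaussFRing A N) (hKL : KLSub A R (gaussFSet A N))
    {τ : L ≃ₐ[ℚ] L} (hτ : τ ∈ A.inertiaSubgroupIn ℚ)
    {f : ↥(laurentBaseChange L (modularFunctionFieldFull N))}
    (hf : IsIntegral R (f : LaurentSeries L))
    (hτf : IsIntegral R
      (((arithmeticGalois (modularFunctionFieldFull N) τ)⁻¹ • f :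
        ↥(laurentBaseChange L (modularFunctionFieldFull N))) : LaurentSeries L)) :
    ∃ c : L, A.valuation c < 1 ∧ ∃ h : ↥(laurentBaseChange L (modularFunctionFieldFull N)),
      IsIntegral R (h : LaurentSeries L) ∧
      (arithmeticGalois (modularFunctionFieldFull N) τ)⁻¹ • f - f =
        algebraMap L ↥(laurentBaseChange L (modularFunctionFieldFull N)) c * h := by
  have hτ' : τ⁻¹ ∈ A.inertiaSubgroupIn ℚ := inv_mem hτ
  have hD' := mem_decomposition_of_mem_inertiaSubgroupIn A hτ'
  have hcoe : (((arithmeticGalois (modularFunctionFieldFull N) τ)⁻¹ • f :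
      ↥(laurentBaseChange L (modularFunctionFieldFull N))) : LaurentSeries L) =
      coeffMap ((τ⁻¹ : L ≃ₐ[ℚ] L) : L →+* L) (f : LaurentSeries L) := by
    rw [← map_inv]
    rfl
  rw [hcoe] at hτf
  have hmem : coeffMap ((τ⁻¹ : L ≃ₐ[ℚ] L) : L →+* L) (f : LaurentSeries L) ∈
      laurentBaseChange L (modularFunctionFieldFull N) := by
    rw [← hcoe]
    exact Subtype.property _
  obtain ⟨c, g, hc, hyg, hg, hgint⟩ := exists_eq_smul_of_inertia A N hN hR hKL
    ((τ⁻¹ : L ≃ₐ[ℚ] L) : L →+* L)
    (fun a ha => (apply_mem_of_mem_decomposition A hD').mpr ha)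
    (fun a ha => inertia_apply_sub A hτ' ha) f.2 hmem hf hτf
  refine ⟨(c : L), (A.valuation_lt_one_iff c).mp hc, ⟨g, hg.1⟩, hgint, ?_⟩
  apply Subtype.ext
  show (((arithmeticGalois (modularFunctionFieldFull N) τ)⁻¹ • f :
      ↥(laurentBaseChange L (modularFunctionFieldFull N))) : LaurentSeries L) -
      (f : LaurentSeries L) = algebraMap L (LaurentSeries L) (c : L) * g
  rw [hcoe, hyg]

/-- **`hcong₀`**: the inertia congruence on the finite chart `finChart A j`. -/
theorem hcong_finChart_jF (hN : GoodLevel A N) {τ : L ≃ₐ[ℚ] L}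
    (hτ : τ ∈ A.inertiaSubgroupIn ℚ) :
    ∀ f ∈ finChart A (jF L N), ∃ c : L, A.valuation c < 1 ∧ ∃ h ∈ finChart A (jF L N),
      (arithmeticGalois (modularFunctionFieldFull N) τ)⁻¹ • f - f =
        algebraMap L ↥(laurentBaseChange L (modularFunctionFieldFull N)) c * h := by
  intro f hf
  have hD := mem_decomposition_of_mem_inertiaSubgroupIn A hτ
  have hτf := inv_smul_mem_finChart hD (isRational_jF N) hf
  rw [mem_finChart_iff, coe_jF] at hf hτf
  obtain ⟨c, hc, h, hh, e⟩ := hcong_of_klSub A N hN (closure_finGenE_jq_le A N)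
    (klSub_finChart_jq A N hN) hτ hf hτf
  exact ⟨c, hc, h, (mem_finChart_iff A).mpr (by rw [coe_jF]; exact hh), e⟩

/-- **`hcong₁`**: the inertia congruence on the local chart at infinity `infChart A j⁻¹`. -/
theorem hcong_infChart_jF (hN : GoodLevel A N) {τ : L ≃ₐ[ℚ] L}
    (hτ : τ ∈ A.inertiaSubgroupIn ℚ) :
    ∀ f ∈ infChart A (jF L N)⁻¹, ∃ c : L, A.valuation c < 1 ∧ ∃ h ∈ infChart A (jF L N)⁻¹,
      (arithmeticGalois (modularFunctionFieldFull N) τ)⁻¹ • f - f =
        algebraMap L ↥(laurentBaseChange L (modularFunctionFieldFull N)) c * h := by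
  intro f hf
  have hD := mem_decomposition_of_mem_inertiaSubgroupIn A hτ
  have hτf := inv_smul_mem_infChart hD (isRational_jF N).inv hf
  rw [mem_infChart_iff, coe_jF_inv] at hf hτf
  obtain ⟨c, hc, h, hh, e⟩ := hcong_of_klSub A N hN (closure_infGenE_jq_inv_le A N)
    (klSub_infChart_jq A N hN) hτ hf hτf
  exact ⟨c, hc, h, (mem_infChart_iff A).mpr (by rw [coe_jF_inv]; exact hh), e⟩

/-- **(R1) for the two standard `A`-charts of the `j`-line**: inertia acts trivially on `Pic0`
modulo the specialisation kernel of `{finChart A j, infChart A j⁻¹}`, at every level `N` prime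
to the residue characteristic. -/
theorem inertia_smul_sub_mem_specKernel_jCharts (hN : GoodLevel A N)
    (hres : ∀ v : Place L ↥(laurentBaseChange L (modularFunctionFieldFull N)),
      Function.Surjective (algebraMap L v.ResidueField))
    {τ : L ≃ₐ[ℚ] L} (hτ : τ ∈ A.inertiaSubgroupIn ℚ)
    (x : Pic0 L ↥(laurentBaseChange L (modularFunctionFieldFull N))) :
    τ • x - x ∈ specKernel A (stdCharts A (jF L N)) :=
  inertia_smul_sub_mem_specKernel_stdCharts hres (isRational_jF N) hτ
    (hcong_finChart_jF A N hN hτ) (hcong_infChart_jF A N hN hτ) x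

end R1

end Fermat.Agent.S37.helper28
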