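import Mathlib
import Fermat.Prelude.Def_ModularCurve_HeckeModule
import Fermat.Agent.Lib.helper54_Frobenius

/-!
# S37: route-independent top reduction (helper2905)

The frozen statement S37 (`SpecializationExists N p (JZero N)`) asks, for every prime `ℓ ∤ N p`
and every valuation subring `A` of `ℚ̄` over `ℓ`, for a Hecke module `J'`, a Hecke-equivariant
additive map `sp : J → J'` and an endomorphism `F` of `J'` such that `sp` kills the inertia
action, intertwines every Frobenius with `F`, is injective on `p`-power torsion, and such that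
`F² - T_ℓ F + ℓ = 0` on `J'`.

This file shows that all of this follows from a *kernel subgroup*: an additive subgroup `Kr` of
`J` (no Hecke stability, no Frobenius stability required) which

* contains `τ x - x` for `τ` in the inertia group of `A`,
* contains `σ₀² x - T_ℓ σ₀ x + ℓ x` for ONE Frobenius element `σ₀` at `A`,
* contains no nonzero `p`-power torsion element.

In particular `Kr` may be the kernel of any additive map `sp₀ : J →+ P` into any abelian group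
(`P` needs no Hecke action and no Frobenius).
-/

set_option autoImplicit false

namespace Fermat.Agent.S37.helper2905

open ModularCurve

/-! ## Two Frobenius elements differ by inertia -/

section Frobenius

variable {K L : Type*} [Field K] [Field L] [Algebra K L]

/-- Two Frobenius elements at the same valuation subring differ by an element of the inertia
group. -/
theorem mul_inv_mem_inertiaSubgroupIn {A : ValuationSubring L} {σ σ₀ : L ≃ₐ[K] L} {q : ℕ}
    (hσ : A.IsFrobeniusAt σ q) (hσ₀ : A.IsFrobeniusAt σ₀ q) :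
    σ * σ₀⁻¹ ∈ A.inertiaSubgroupIn K := by
  obtain ⟨h, hf⟩ := hσ
  obtain ⟨h₀, hf₀⟩ := hσ₀
  refine ⟨⟨σ, h⟩ * (⟨σ₀, h₀⟩ : A.decompositionSubgroup K)⁻¹, ?_, rfl⟩
  show _ ∈ A.inertiaSubgroup K
  rw [ValuationSubring.inertiaSubgroup, MonoidHom.mem_ker]
  ext x
  show (⟨σ, h⟩ * (⟨σ₀, h₀⟩ : A.decompositionSubgroup K)⁻¹) • x = x
  rw [mul_smul, hf]
  have h1 := hf₀ ((⟨σ₀, h₀⟩ : A.decompositionSubgroup K)⁻¹ • x)
  rw [smul_inv_smul] at h1
  exact h1.symm

/-- The inertia group is stable under conjugation by elements of the decomposition group. -/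
theorem conj_mem_inertiaSubgroupIn {A : ValuationSubring L} {σ τ : L ≃ₐ[K] L}
    (hσ : σ ∈ A.decompositionSubgroup K) (hτ : τ ∈ A.inertiaSubgroupIn K) :
    σ * τ * σ⁻¹ ∈ A.inertiaSubgroupIn K := by
  obtain ⟨t, ht, rfl⟩ := hτ
  have hn : (A.inertiaSubgroup K).Normal := by
    unfold ValuationSubring.inertiaSubgroup
    infer_instance
  refine ⟨⟨σ, hσ⟩ * t * (⟨σ, hσ⟩ : A.decompositionSubgroup K)⁻¹, ?_, rfl⟩
  exact hn.conj_mem t ht _

end Frobenius

/-! ## The abstract reduction -/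

section Abstract

variable {K L : Type*} [Field K] [Field L] [Algebra K L]
variable (p : ℕ) (J : Type) [AddCommGroup J] [Module HeckeAlg J]
  [DistribMulAction (L ≃ₐ[K] L) J] [SMulCommClass (L ≃ₐ[K] L) HeckeAlg J]

/-- The Eichler–Shimura operator `σ² - T σ + ℓ` attached to a Galois element `σ`. -/
noncomputable def esOp (T : HeckeAlg) (ℓ : ℕ) (σ : L ≃ₐ[K] L) (x : J) : J :=
  σ • σ • x - T • (σ • x) + ℓ • x

omit [SMulCommClass (L ≃ₐ[K] L) HeckeAlg J] in
theorem esOp_def (T : HeckeAlg) (ℓ : ℕ) (σ : L ≃ₐ[K] L) (x : J) :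
    esOp J T ℓ σ x = σ • σ • x - T • (σ • x) + ℓ • x := rfl

theorem smul_esOp (T : HeckeAlg) (ℓ : ℕ) (σ : L ≃ₐ[K] L) (S : HeckeAlg) (x : J) :
    S • esOp J T ℓ σ x = esOp J T ℓ σ (S • x) := by
  simp only [esOp, smul_add, smul_sub]
  rw [← smul_comm σ S (σ • x), smul_comm S T (σ • x), ← smul_comm σ S x, smul_comm S ℓ x]

/-- The generators of the universal kernel: inertia augmentation and Eichler–Shimura image. -/
noncomputable def kerGens (A : ValuationSubring L) (T : HeckeAlg) (ℓ : ℕ) (σ₀ : L ≃ₐ[K] L) : Set J :=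
  {y | (∃ τ ∈ A.inertiaSubgroupIn K, ∃ x : J, y = τ • x - x) ∨ ∃ x : J, y = esOp J T ℓ σ₀ x}

theorem smul_mem_kerGens (A : ValuationSubring L) (T : HeckeAlg) (ℓ : ℕ) (σ₀ : L ≃ₐ[K] L)
    (S : HeckeAlg) {y : J} (hy : y ∈ kerGens J A T ℓ σ₀) : S • y ∈ kerGens J A T ℓ σ₀ := by
  rcases hy with ⟨τ, hτ, x, rfl⟩ | ⟨x, rfl⟩
  · refine Or.inl ⟨τ, hτ, S • x, ?_⟩
    rw [smul_sub, smul_comm τ S x]
  · exact Or.inr ⟨S • x, smul_esOp J T ℓ σ₀ S x⟩

/-- The universal kernel as a Hecke submodule: the additive subgroup generated by `kerGens`. -/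
noncomputable def kerSub (A : ValuationSubring L) (T : HeckeAlg) (ℓ : ℕ) (σ₀ : L ≃ₐ[K] L) :
    Submodule HeckeAlg J where
  carrier := AddSubgroup.closure (kerGens J A T ℓ σ₀)
  add_mem' := fun ha hb => AddSubgroup.add_mem _ ha hb
  zero_mem' := AddSubgroup.zero_mem _
  smul_mem' := by
    intro S y hy
    have hy' : y ∈ AddSubgroup.closure (kerGens J A T ℓ σ₀) := hy
    show S • y ∈ AddSubgroup.closure (kerGens J A T ℓ σ₀)
    induction hy' using AddSubgroup.closure_induction with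
    | mem z hz => exact AddSubgroup.subset_closure (smul_mem_kerGens J A T ℓ σ₀ S hz)
    | zero => rw [smul_zero]; exact AddSubgroup.zero_mem _
    | add a b ha hb iha ihb => rw [smul_add]; exact AddSubgroup.add_mem _ (iha ha) (ihb hb)
    | neg a ha iha => rw [smul_neg]; exact AddSubgroup.neg_mem _ (iha ha)

theorem mem_kerSub_iff (A : ValuationSubring L) (T : HeckeAlg) (ℓ : ℕ) (σ₀ : L ≃ₐ[K] L)
    (y : J) : y ∈ kerSub J A T ℓ σ₀ ↔ y ∈ AddSubgroup.closure (kerGens J A T ℓ σ₀) := Iff.rfl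

theorem kerSub_le (A : ValuationSubring L) (T : HeckeAlg) (ℓ : ℕ) (σ₀ : L ≃ₐ[K] L)
    (Kr : AddSubgroup J)
    (hI : ∀ τ ∈ A.inertiaSubgroupIn K, ∀ x : J, τ • x - x ∈ Kr)
    (hES : ∀ x : J, esOp J T ℓ σ₀ x ∈ Kr) {y : J} (hy : y ∈ kerSub J A T ℓ σ₀) : y ∈ Kr := by
  rw [mem_kerSub_iff] at hy
  refine (AddSubgroup.closure_le Kr).mpr ?_ hy
  rintro z (⟨τ, hτ, x, rfl⟩ | ⟨x, rfl⟩)
  · exact hI τ hτ x
  · exact hES x

theorem inertia_sub_mem_kerSub (A : ValuationSubring L) (T : HeckeAlg) (ℓ : ℕ)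
    (σ₀ : L ≃ₐ[K] L) {τ : L ≃ₐ[K] L} (hτ : τ ∈ A.inertiaSubgroupIn K) (x : J) :
    τ • x - x ∈ kerSub J A T ℓ σ₀ :=
  AddSubgroup.subset_closure (Or.inl ⟨τ, hτ, x, rfl⟩)

theorem esOp_mem_kerSub (A : ValuationSubring L) (T : HeckeAlg) (ℓ : ℕ) (σ₀ : L ≃ₐ[K] L)
    (x : J) : esOp J T ℓ σ₀ x ∈ kerSub J A T ℓ σ₀ :=
  AddSubgroup.subset_closure (Or.inr ⟨x, rfl⟩)

/-- The Galois element `σ` as a Hecke-linear endomorphism of `J`. -/
noncomputable def galLin (σ : L ≃ₐ[K] L) : J →ₗ[HeckeAlg] J where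
  toFun x := σ • x
  map_add' := smul_add σ
  map_smul' S x := smul_comm σ S x

@[simp] theorem galLin_apply (σ : L ≃ₐ[K] L) (x : J) : galLin J σ x = σ • x := rfl

theorem smul_mem_kerSub (A : ValuationSubring L) (T : HeckeAlg) (ℓ : ℕ) {σ₀ : L ≃ₐ[K] L}
    (hσ₀ : σ₀ ∈ A.decompositionSubgroup K) {y : J} (hy : y ∈ kerSub J A T ℓ σ₀) :
    σ₀ • y ∈ kerSub J A T ℓ σ₀ := by
  rw [mem_kerSub_iff] at hy ⊢
  induction hy using AddSubgroup.closure_induction with
  | mem z hz =>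
    rcases hz with ⟨τ, hτ, x, rfl⟩ | ⟨x, rfl⟩
    · refine AddSubgroup.subset_closure (Or.inl ⟨σ₀ * τ * σ₀⁻¹,
        conj_mem_inertiaSubgroupIn hσ₀ hτ, σ₀ • x, ?_⟩)
      rw [smul_sub, mul_smul, mul_smul, inv_smul_smul]
    · refine AddSubgroup.subset_closure (Or.inr ⟨σ₀ • x, ?_⟩)
      simp only [esOp, smul_add, smul_sub]
      rw [smul_comm σ₀ T (σ₀ • x), smul_comm σ₀ ℓ x]
  | zero => rw [smul_zero]; exact AddSubgroup.zero_mem _
  | add a b _ _ iha ihb => rw [smul_add]; exact AddSubgroup.add_mem _ iha ihb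
  | neg a _ iha => rw [smul_neg]; exact AddSubgroup.neg_mem _ iha

/-- **Abstract top reduction.**  A kernel subgroup `Kr` (containing the inertia augmentation and
the image of the Eichler–Shimura operator of one Frobenius `σ₀`, and without `p`-power torsion)
produces the specialisation datum demanded by `SpecializationExists`. -/
theorem exists_specialization_of_kernel (A : ValuationSubring L) (ℓ : ℕ) (hℓ : ℓ.Prime)
    (σ₀ : L ≃ₐ[K] L) (hσ₀ : A.IsFrobeniusAt σ₀ ℓ) (Kr : AddSubgroup J)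
    (hI : ∀ τ ∈ A.inertiaSubgroupIn K, ∀ x : J, τ • x - x ∈ Kr)
    (hES : ∀ x : J, σ₀ • σ₀ • x - heckeGen ⟨ℓ, hℓ⟩ • (σ₀ • x) + ℓ • x ∈ Kr)
    (htors : ∀ x ∈ Kr, (∃ n : ℕ, p ^ n • x = 0) → x = 0) :
    ∃ (J' : Type) (_ : AddCommGroup J') (_ : Module HeckeAlg J') (sp : J →+ J')
      (F : J' →+ J'),
      IsSpecialization (K := K) p J J' A ℓ sp F ∧ SpecialFibreRelation J' ℓ hℓ F := by
  set T : HeckeAlg := heckeGen ⟨ℓ, hℓ⟩ with hT
  set M : Submodule HeckeAlg J := kerSub J A T ℓ σ₀ with hM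
  have hdec : σ₀ ∈ A.decompositionSubgroup K := hσ₀.mem_decompositionSubgroup
  have hstab : M ≤ M.comap (galLin J σ₀) := fun y hy => smul_mem_kerSub J A T ℓ hdec hy
  let F : (J ⧸ M) →ₗ[HeckeAlg] (J ⧸ M) := M.mapQ M (galLin J σ₀) hstab
  refine ⟨J ⧸ M, inferInstance, inferInstance, M.mkQ.toAddMonoidHom, F.toAddMonoidHom,
    ⟨?_, ?_, ?_, ?_⟩, ?_⟩
  · -- Hecke equivariance
    intro S x
    exact M.mkQ.map_smul S x
  · -- inertia
    intro τ hτ x
    show M.mkQ (τ • x) = M.mkQ x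
    rw [← sub_eq_zero, ← map_sub, Submodule.mkQ_apply, Submodule.Quotient.mk_eq_zero]
    exact inertia_sub_mem_kerSub J A T ℓ σ₀ hτ x
  · -- Frobenius
    intro σ hσ x
    show M.mkQ (σ • x) = M.mapQ M (galLin J σ₀) hstab (M.mkQ x)
    rw [Submodule.mkQ_apply, Submodule.mkQ_apply, Submodule.mapQ_apply, galLin_apply,
      ← sub_eq_zero, ← Submodule.Quotient.mk_sub, Submodule.Quotient.mk_eq_zero]
    have h1 := inertia_sub_mem_kerSub J A T ℓ σ₀
      (mul_inv_mem_inertiaSubgroupIn hσ hσ₀) (σ₀ • x)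
    rwa [mul_smul, inv_smul_smul] at h1
  · -- torsion
    intro x hx hsp
    have hxM : x ∈ M := by
      have : M.mkQ x = 0 := hsp
      rwa [Submodule.mkQ_apply, Submodule.Quotient.mk_eq_zero] at this
    exact htors x (kerSub_le J A T ℓ σ₀ Kr hI hES hxM) hx
  · -- the Eichler–Shimura relation on the quotient
    intro y
    obtain ⟨x, rfl⟩ := M.mkQ_surjective y
    show M.mapQ M (galLin J σ₀) hstab (M.mapQ M (galLin J σ₀) hstab (M.mkQ x))
        - T • M.mapQ M (galLin J σ₀) hstab (M.mkQ x) + ℓ • M.mkQ x = 0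
    rw [Submodule.mkQ_apply, Submodule.mapQ_apply, Submodule.mapQ_apply, galLin_apply,
      galLin_apply, ← Submodule.Quotient.mk_smul, ← Submodule.Quotient.mk_sub,
      ← Submodule.Quotient.mk_smul, ← Submodule.Quotient.mk_add,
      Submodule.Quotient.mk_eq_zero]
    exact esOp_mem_kerSub J A T ℓ σ₀ x

end Abstract

/-! ## The reduction for `JZero N` -/

section JZeroRed

local notation "Qb" => AlgebraicClosure ℚ
local notation "GQ" => (AlgebraicClosure ℚ ≃ₐ[ℚ] AlgebraicClosure ℚ)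

/-- **S37, top reduction (kernel form).**  The frozen conclusion follows from kernel subgroups
`Kr ℓ A` of `JZero N`: for one Frobenius `σ₀` at `A`, `Kr` contains `τ x - x` (`τ` in inertia)
and `σ₀² x - T_ℓ (σ₀ x) + ℓ x`, and has no nonzero `p`-power torsion. -/
theorem specializationExists_of_kernel (N p : ℕ) [NeZero N]
    (hcomm : ModularCurve.HeckeOperatorsCommuteBar N) :
    letI := ModularCurve.heckeModuleBar N
    ∀ (_ : SMulCommClass GQ ModularCurve.HeckeAlg (ModularCurve.JZero N)),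
      (∀ ℓ : ℕ, (hℓ : ℓ.Prime) → ¬ ℓ ∣ N * p → ∀ A : ValuationSubring Qb, A.LiesOverPrime ℓ →
        ∃ σ₀ : GQ, A.IsFrobeniusAt σ₀ ℓ ∧ ∃ Kr : AddSubgroup (ModularCurve.JZero N),
          (∀ τ ∈ A.inertiaSubgroupIn ℚ, ∀ x : ModularCurve.JZero N, τ • x - x ∈ Kr) ∧
          (∀ x : ModularCurve.JZero N,
            σ₀ • σ₀ • x - ModularCurve.heckeOperatorBar N ⟨ℓ, hℓ⟩ (σ₀ • x) + ℓ • x ∈ Kr) ∧
          (∀ x ∈ Kr, (∃ n : ℕ, p ^ n • x = 0) → x = 0)) →
      ModularCurve.SpecializationExists (K := ℚ) (L := Qb) N p (ModularCurve.JZero N) := by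
  let _ := ModularCurve.heckeModuleBar N
  intro _ H ℓ hℓ hℓNp A hA
  obtain ⟨σ₀, hσ₀, Kr, hI, hES, htors⟩ := H ℓ hℓ hℓNp A hA
  refine exists_specialization_of_kernel p (ModularCurve.JZero N) A ℓ hℓ σ₀ hσ₀ Kr hI ?_ htors
  intro x
  rw [ModularCurve.heckeModuleBar_heckeGen_smul hcomm]
  exact hES x

/-- **S37, top reduction (`sp₀` form).**  It suffices to give, for every `ℓ ∤ N p`, every `A`
over `ℓ` and every Frobenius `σ₀` at `A`, an additive map `sp₀` from `JZero N` to some abelian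
group (no further structure on the target) which is inertia-invariant, kills
`σ₀² x - T_ℓ (σ₀ x) + ℓ x`, and is injective on `p`-power torsion. -/
theorem specializationExists_of_sp (N p : ℕ) [NeZero N]
    (hcomm : ModularCurve.HeckeOperatorsCommuteBar N) :
    letI := ModularCurve.heckeModuleBar N
    ∀ (_ : SMulCommClass GQ ModularCurve.HeckeAlg (ModularCurve.JZero N)),
      (∀ ℓ : ℕ, (hℓ : ℓ.Prime) → ¬ ℓ ∣ N * p → ∀ A : ValuationSubring Qb, A.LiesOverPrime ℓ →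
        ∀ σ₀ : GQ, A.IsFrobeniusAt σ₀ ℓ →
          ∃ (P : Type) (_ : AddCommGroup P) (sp₀ : ModularCurve.JZero N →+ P),
            (∀ τ ∈ A.inertiaSubgroupIn ℚ, ∀ x : ModularCurve.JZero N, sp₀ (τ • x) = sp₀ x) ∧
            (∀ x : ModularCurve.JZero N,
              sp₀ (σ₀ • σ₀ • x - ModularCurve.heckeOperatorBar N ⟨ℓ, hℓ⟩ (σ₀ • x) + ℓ • x)
                = 0) ∧
            (∀ x : ModularCurve.JZero N, (∃ n : ℕ, p ^ n • x = 0) → sp₀ x = 0 → x = 0)) →
      ModularCurve.SpecializationExists (K := ℚ) (L := Qb) N p (ModularCurve.JZero N) := by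
  let _ := ModularCurve.heckeModuleBar N
  intro inst H
  refine specializationExists_of_kernel N p hcomm inst ?_
  intro ℓ hℓ hℓNp A hA
  obtain ⟨σ₀, hσ₀⟩ := Fermat.Agent.Lib.helper54.exists_isFrobeniusAt hℓ A hA
  obtain ⟨P, _, sp₀, h1, h2, h3⟩ := H ℓ hℓ hℓNp A hA σ₀ hσ₀
  refine ⟨σ₀, hσ₀, sp₀.ker, ?_, ?_, ?_⟩
  · intro τ hτ x
    rw [AddMonoidHom.mem_ker, map_sub, h1 τ hτ x, sub_self]
  · intro x
    rw [AddMonoidHom.mem_ker]
    exact h2 x
  · intro x hx hn
    exact h3 x hn (AddMonoidHom.mem_ker.mp hx)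

end JZeroRed

end Fermat.Agent.S37.helper2905
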