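import Mathlib

/-!
# S37/S18-TAMEREG: regular pairs downstairs at tame branch points, by group invariants

Setting: `R → S` rings, `H` a finite group acting on `S` with invariants `R`
(`Algebra.IsInvariant R S H`), `(Nat.card H : R)` a unit (tameness), `J` an ideal of `R`
(in the application `J = span {lam}`), `n` a maximal ideal of `R`.

If at every maximal ideal `m` of `S` over `n` the ring `(S ⧸ J S)_m` is a domain with total
divisibility (e.g. a discrete valuation ring), then the same holds for `(R ⧸ J)_n`, and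
`n (R ⧸ J)_n` is principal.  Everything is first stated in *element form* (no quotient or
localisation types), then in the `Localization.AtPrime` form used by the consumers:
`maximalIdeal (Localization.AtPrime n) = span {lam, t}` and `Prime lam`.
-/

set_option autoImplicit false

namespace Fermat.Agent.S37.helper3178

open scoped Pointwise

section ElementForm

variable {S : Type*} [CommRing S]

/-- `x` divides `y` in `(S ⧸ I)_m`, in element form. -/
def LocDvd (I m : Ideal S) (x y : S) : Prop :=
  ∃ u : S, u ∉ m ∧ u * y ∈ Ideal.span {x} ⊔ I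

/-- `x = 0` in `(S ⧸ I)_m`, in element form. -/
def LocZero (I m : Ideal S) (x : S) : Prop :=
  ∃ u : S, u ∉ m ∧ u * x ∈ I

theorem LocDvd.refl (I m : Ideal S) (hm : m ≠ ⊤) (x : S) : LocDvd I m x x :=
  ⟨1, (Ideal.ne_top_iff_one m).mp hm, by
    rw [one_mul]; exact Ideal.mem_sup_left (Ideal.mem_span_singleton_self x)⟩

theorem LocDvd.trans {I m : Ideal S} [m.IsPrime] {x y z : S} (hxy : LocDvd I m x y)
    (hyz : LocDvd I m y z) : LocDvd I m x z := by
  obtain ⟨u, hu, hxy⟩ := hxy
  obtain ⟨v, hv, hyz⟩ := hyz
  refine ⟨u * v, fun h => (Ideal.IsPrime.mem_or_mem ‹_› h).elim hu hv, ?_⟩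
  obtain ⟨a, b, hb, hab⟩ := Ideal.mem_span_singleton_sup.mp hxy
  obtain ⟨c, d, hd, hcd⟩ := Ideal.mem_span_singleton_sup.mp hyz
  refine Ideal.mem_span_singleton_sup.mpr ⟨c * a, c * b + u * d, ?_, ?_⟩
  · exact I.add_mem (I.mul_mem_left _ hb) (I.mul_mem_left _ hd)
  · linear_combination c * hab + u * hcd

theorem LocDvd.add {I m : Ideal S} [m.IsPrime] {t y z : S} (hy : LocDvd I m t y)
    (hz : LocDvd I m t z) : LocDvd I m t (y + z) := by
  obtain ⟨u, hu, hy⟩ := hy
  obtain ⟨v, hv, hz⟩ := hz
  refine ⟨u * v, fun h => (Ideal.IsPrime.mem_or_mem ‹_› h).elim hu hv, ?_⟩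
  have : u * v * (y + z) = v * (u * y) + u * (v * z) := by ring
  rw [this]
  exact Ideal.add_mem _ (Ideal.mul_mem_left _ _ hy) (Ideal.mul_mem_left _ _ hz)

theorem LocDvd.mul_left {I m : Ideal S} {t y : S} (hy : LocDvd I m t y) (a : S) :
    LocDvd I m t (a * y) := by
  obtain ⟨u, hu, hy⟩ := hy
  refine ⟨u, hu, ?_⟩
  have : u * (a * y) = a * (u * y) := by ring
  rw [this]
  exact Ideal.mul_mem_left _ _ hy

theorem LocDvd.zero (I m : Ideal S) (hm : m ≠ ⊤) (t : S) : LocDvd I m t 0 :=
  ⟨1, (Ideal.ne_top_iff_one m).mp hm, by rw [mul_zero]; exact Ideal.zero_mem _⟩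

/-- A finitely generated prime ideal `n` such that `(S ⧸ I)_n` has total divisibility has a
generator modulo `I`, locally at `n`. -/
theorem exists_generator_of_total (I n : Ideal S) [n.IsPrime] (hfg : n.FG)
    (htot : ∀ x y : S, LocDvd I n x y ∨ LocDvd I n y x) :
    ∃ t ∈ n, ∀ x ∈ n, LocDvd I n t x := by
  classical
  have hn : n ≠ ⊤ := Ideal.IsPrime.ne_top ‹_›
  obtain ⟨s, hs⟩ := hfg
  have key : ∀ s : Finset S, (∀ x ∈ s, x ∈ n) → ∃ t ∈ n, ∀ x ∈ s, LocDvd I n t x := by
    intro s
    induction s using Finset.induction_on with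
    | empty => exact fun _ => ⟨0, n.zero_mem, fun x hx => absurd hx (Finset.notMem_empty x)⟩
    | insert a s _ ih =>
      intro hsub
      obtain ⟨t, htn, ht⟩ := ih fun x hx => hsub x (Finset.mem_insert_of_mem hx)
      rcases htot t a with h | h
      · refine ⟨t, htn, fun x hx => ?_⟩
        rcases Finset.mem_insert.mp hx with rfl | hx
        · exact h
        · exact ht x hx
      · refine ⟨a, hsub a (Finset.mem_insert_self a s), fun x hx => ?_⟩
        rcases Finset.mem_insert.mp hx with rfl | hx
        · exact LocDvd.refl I n hn _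
        · exact h.trans (ht x hx)
  obtain ⟨t, htn, ht⟩ := key s fun x hx => by
    rw [← hs]; exact Ideal.subset_span hx
  refine ⟨t, htn, fun x hx => ?_⟩
  rw [← hs] at hx
  induction hx using Submodule.span_induction with
  | mem x hx => exact ht x hx
  | zero => exact LocDvd.zero I n hn t
  | add x y _ _ hx hy => exact hx.add hy
  | smul a x _ hx => exact hx.mul_left a

end ElementForm

section Invariants

variable {R S : Type*} [CommRing R] [CommRing S] [Algebra R S]

/-- The extension of an ideal of `R` to `S` is stable under the group action. -/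
theorem smul_mem_map {H : Type*} [Group H] [MulSemiringAction H S] [SMulCommClass H R S]
    (J : Ideal R) (h : H) {b : S} (hb : b ∈ J.map (algebraMap R S)) :
    h • b ∈ J.map (algebraMap R S) := by
  have hcomp : (MulSemiringAction.toRingHom H S h).comp (algebraMap R S) = algebraMap R S := by
    ext r
    simp [MulSemiringAction.toRingHom_apply, smul_algebraMap]
  have := Ideal.mem_map_of_mem (MulSemiringAction.toRingHom H S h) hb
  rwa [Ideal.map_map, hcomp] at this

/-- **Key lemma.** An `H`-stable ideal `𝔞` of `S` which is not contained in ONE maximal ideal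
`m₀` over the maximal ideal `n` of `R` contains the image of an element of `R \ n`. -/
theorem exists_notMem_of_stable {H : Type*} [Group H] [Finite H] [MulSemiringAction H S]
    [SMulCommClass H R S] [Algebra.IsInvariant R S H] (n : Ideal R) [n.IsMaximal] (𝔞 : Ideal S)
    (hst : ∀ (h : H) (u : S), u ∈ 𝔞 → h • u ∈ 𝔞)
    (m₀ : Ideal S) [m₀.IsMaximal] (hm₀ : m₀.comap (algebraMap R S) = n) (h𝔞 : ¬ 𝔞 ≤ m₀) :
    ∃ w : R, w ∉ n ∧ algebraMap R S w ∈ 𝔞 := by
  by_contra hcon
  have hle : 𝔞.comap (algebraMap R S) ≤ n := fun w hw => by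
    by_contra hwn
    exact hcon ⟨w, hwn, hw⟩
  have hint : Algebra.IsIntegral R S := Algebra.IsInvariant.isIntegral R S H
  obtain ⟨Q, hQ𝔞, hQp, hQn⟩ := Ideal.exists_ideal_over_prime_of_isIntegral n 𝔞 hle
  obtain ⟨g, hg⟩ := Algebra.IsInvariant.exists_smul_of_under_eq R S H m₀ Q
    (by rw [Ideal.under_def, Ideal.under_def, hm₀, hQn])
  apply h𝔞
  intro u hu
  have h1 : g • u ∈ Q := hQ𝔞 (hst g u hu)
  rw [hg] at h1
  exact Ideal.smul_mem_pointwise_smul_iff.mp h1

/-- The sum over the group is invariant. -/
theorem smul_sum_smul {H : Type*} [Group H] [Fintype H] [MulSemiringAction H S] (g : H) (c : S) : g • (∑ h : H, h • c) = ∑ h : H, h • c := by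
  rw [Finset.smul_sum]
  simp_rw [smul_smul]
  exact Fintype.sum_equiv (Equiv.mulLeft g) _ _ fun _ => rfl

/-- **Descent of local vanishing.** -/
theorem locZero_descend (H : Type*) [Group H] [Finite H] [MulSemiringAction H S]
    [SMulCommClass H R S] [Algebra.IsInvariant R S H] (J : Ideal R)
    (hJ : ∀ r : R, algebraMap R S r ∈ J.map (algebraMap R S) → r ∈ J)
    (n : Ideal R) [n.IsMaximal] (m₀ : Ideal S) [m₀.IsMaximal]
    (hm₀ : m₀.comap (algebraMap R S) = n) (x : R)
    (h : LocZero (J.map (algebraMap R S)) m₀ (algebraMap R S x)) : LocZero J n x := by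
  obtain ⟨u, hu, hux⟩ := h
  set I := J.map (algebraMap R S) with hI
  let 𝔞 : Ideal S := Submodule.comap (LinearMap.mulRight S (algebraMap R S x)) I
  have hmem : ∀ v : S, v ∈ 𝔞 ↔ v * algebraMap R S x ∈ I := fun v => by
    simp [𝔞, Submodule.mem_comap]
  have hst : ∀ (h : H) (v : S), v ∈ 𝔞 → h • v ∈ 𝔞 := by
    intro h v hv
    rw [hmem] at hv ⊢
    have := smul_mem_map J h hv
    rwa [smul_mul', smul_algebraMap] at this
  obtain ⟨w, hw, hw𝔞⟩ := exists_notMem_of_stable (H := H) n 𝔞 hst m₀ hm₀
    (fun hle => hu (hle ((hmem u).mpr hux)))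
  refine ⟨w, hw, hJ _ ?_⟩
  rw [map_mul]
  exact (hmem _).mp hw𝔞

/-- **Descent of local divisibility** (tame case: the order of the group is a unit). -/
theorem locDvd_descend (H : Type*) [Group H] [Finite H] [MulSemiringAction H S]
    [SMulCommClass H R S] [Algebra.IsInvariant R S H] (J : Ideal R)
    (hJ : ∀ r : R, algebraMap R S r ∈ J.map (algebraMap R S) → r ∈ J)
    (hcard : IsUnit (Nat.card H : R))
    (n : Ideal R) [n.IsMaximal] (m₀ : Ideal S) [m₀.IsMaximal]
    (hm₀ : m₀.comap (algebraMap R S) = n) (x y : R)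
    (h : LocDvd (J.map (algebraMap R S)) m₀ (algebraMap R S x) (algebraMap R S y)) :
    LocDvd J n x y := by
  classical
  cases nonempty_fintype H
  obtain ⟨u, hu, huy⟩ := h
  set I := J.map (algebraMap R S) with hI
  let 𝔞 : Ideal S := Submodule.comap (LinearMap.mulRight S (algebraMap R S y))
    (Ideal.span {algebraMap R S x} ⊔ I)
  have hmem : ∀ v : S, v ∈ 𝔞 ↔ v * algebraMap R S y ∈ Ideal.span {algebraMap R S x} ⊔ I :=
    fun v => by simp [𝔞, Submodule.mem_comap]
  have hst : ∀ (h : H) (v : S), v ∈ 𝔞 → h • v ∈ 𝔞 := by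
    intro h v hv
    rw [hmem] at hv ⊢
    obtain ⟨a, b, hb, hab⟩ := Ideal.mem_span_singleton_sup.mp hv
    refine Ideal.mem_span_singleton_sup.mpr ⟨h • a, h • b, smul_mem_map J h hb, ?_⟩
    have := congrArg (fun z => h • z) hab
    simp only [smul_add, smul_mul', smul_algebraMap] at this
    exact this
  obtain ⟨w, hw, hw𝔞⟩ := exists_notMem_of_stable (H := H) n 𝔞 hst m₀ hm₀
    (fun hle => hu (hle ((hmem u).mpr huy)))
  obtain ⟨c, i, hi, hci⟩ := Ideal.mem_span_singleton_sup.mp ((hmem _).mp hw𝔞)
  -- average over the group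
  obtain ⟨a, ha⟩ := Algebra.IsInvariant.isInvariant (A := R) (G := H) (∑ h : H, h • c)
    (fun g => smul_sum_smul g c)
  have hsum : ∑ h : H, h • i ∈ I := Ideal.sum_mem _ fun h _ => smul_mem_map J h hi
  have hkey : algebraMap R S ((Fintype.card H : R) * w * y - a * x) = ∑ h : H, h • i := by
    have h1 : ∀ h : H, h • c * algebraMap R S x + h • i
        = algebraMap R S w * algebraMap R S y := by
      intro h
      have := congrArg (fun z => h • z) hci
      simp only [smul_add, smul_mul', smul_algebraMap] at this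
      exact this
    have h2 : ∑ h : H, (h • c * algebraMap R S x + h • i)
        = (Fintype.card H : S) * (algebraMap R S w * algebraMap R S y) := by
      rw [Finset.sum_congr rfl fun h _ => h1 h, Finset.sum_const, Finset.card_univ,
        nsmul_eq_mul]
    rw [Finset.sum_add_distrib, ← Finset.sum_mul, ← ha] at h2
    rw [map_sub, map_mul, map_mul, map_mul, map_natCast]
    linear_combination (-1 : S) * h2
  have hmemJ : (Fintype.card H : R) * w * y - a * x ∈ J := hJ _ (hkey ▸ hsum)
  rw [Nat.card_eq_fintype_card] at hcard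
  refine ⟨(Fintype.card H : R) * w, fun hmem' => ?_, ?_⟩
  · rcases Ideal.IsPrime.mem_or_mem (Ideal.IsMaximal.isPrime ‹n.IsMaximal›) hmem' with h' | h'
    · exact (Ideal.IsMaximal.isPrime ‹n.IsMaximal›).ne_top (Ideal.eq_top_of_isUnit_mem _ h' hcard)
    · exact hw h'
  · refine Ideal.mem_span_singleton_sup.mpr ⟨a, _, hmemJ, ?_⟩
    ring

/-- For `J = span {lam}` with `lam` a non-zero-divisor on `S` and `R → S` injective, the
contraction of `J S` is `J` (no tameness needed). -/
theorem mem_span_of_map_mem (H : Type*) [Group H] [MulSemiringAction H S]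
    [SMulCommClass H R S] [Algebra.IsInvariant R S H] (lam : R)
    (hreg : ∀ s : S, algebraMap R S lam * s = 0 → s = 0)
    (hinj : Function.Injective (algebraMap R S)) (r : R)
    (hr : algebraMap R S r ∈ (Ideal.span {lam}).map (algebraMap R S)) : r ∈ Ideal.span {lam} := by
  rw [Ideal.map_span, Set.image_singleton, Ideal.mem_span_singleton'] at hr
  obtain ⟨s, hs⟩ := hr
  have hinv : ∀ h : H, h • s = s := by
    intro h
    have h1 := congrArg (fun z => h • z) hs
    simp only [smul_mul', smul_algebraMap] at h1
    have h2 : algebraMap R S lam * (h • s - s) = 0 := by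
      rw [mul_sub, mul_comm, h1, mul_comm, hs, sub_self]
    exact sub_eq_zero.mp (hreg _ h2)
  obtain ⟨a, ha⟩ := Algebra.IsInvariant.isInvariant (A := R) (G := H) s hinv
  rw [Ideal.mem_span_singleton']
  refine ⟨a, hinj ?_⟩
  rw [map_mul, ha, hs]

/-- **TAMEREG, element form.**  `H` finite acting on `S` with invariants `R`, `|H|` a unit of
`R`, `J` an ideal of `R` with `J S ∩ R = J`, `n` a maximal ideal of `R`, `m₀` ONE maximal ideal
of `S` over `n`.  If `(S ⧸ J S)_{m₀}` is a domain with total divisibility, then so is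
`(R ⧸ J)_n`. -/
theorem tame_descent (H : Type*) [Group H] [Finite H] [MulSemiringAction H S]
    [SMulCommClass H R S] [Algebra.IsInvariant R S H] (J : Ideal R)
    (hJ : ∀ r : R, algebraMap R S r ∈ J.map (algebraMap R S) → r ∈ J)
    (hcard : IsUnit (Nat.card H : R))
    (n : Ideal R) [n.IsMaximal] (m₀ : Ideal S) [m₀.IsMaximal]
    (hm₀ : m₀.comap (algebraMap R S) = n)
    (hdom : ∀ x y : S, x * y ∈ J.map (algebraMap R S) →
      LocZero (J.map (algebraMap R S)) m₀ x ∨ LocZero (J.map (algebraMap R S)) m₀ y)
    (htot : ∀ x y : S, LocDvd (J.map (algebraMap R S)) m₀ x y ∨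
      LocDvd (J.map (algebraMap R S)) m₀ y x) :
    (∀ x y : R, x * y ∈ J → LocZero J n x ∨ LocZero J n y) ∧
    (∀ x y : R, LocDvd J n x y ∨ LocDvd J n y x) := by
  refine ⟨fun x y hxy => ?_, fun x y => ?_⟩
  · have h1 : algebraMap R S x * algebraMap R S y ∈ J.map (algebraMap R S) := by
      rw [← map_mul]; exact Ideal.mem_map_of_mem _ hxy
    rcases hdom _ _ h1 with h | h
    · exact Or.inl (locZero_descend H J hJ n m₀ hm₀ x h)
    · exact Or.inr (locZero_descend H J hJ n m₀ hm₀ y h)
  · rcases htot (algebraMap R S x) (algebraMap R S y) with h | h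
    · exact Or.inl (locDvd_descend H J hJ hcard n m₀ hm₀ x y h)
    · exact Or.inr (locDvd_descend H J hJ hcard n m₀ hm₀ y x h)

/-- **TAMEREG, element form, with a local generator.** -/
theorem tame_descent_generator (H : Type*) [Group H] [Finite H] [MulSemiringAction H S]
    [SMulCommClass H R S] [Algebra.IsInvariant R S H] (J : Ideal R)
    (hJ : ∀ r : R, algebraMap R S r ∈ J.map (algebraMap R S) → r ∈ J)
    (hcard : IsUnit (Nat.card H : R))
    (n : Ideal R) [n.IsMaximal] (hfg : n.FG) (m₀ : Ideal S) [m₀.IsMaximal]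
    (hm₀ : m₀.comap (algebraMap R S) = n)
    (hdom : ∀ x y : S, x * y ∈ J.map (algebraMap R S) →
      LocZero (J.map (algebraMap R S)) m₀ x ∨ LocZero (J.map (algebraMap R S)) m₀ y)
    (htot : ∀ x y : S, LocDvd (J.map (algebraMap R S)) m₀ x y ∨
      LocDvd (J.map (algebraMap R S)) m₀ y x) :
    (∀ x y : R, x * y ∈ J → LocZero J n x ∨ LocZero J n y) ∧
    ∃ t ∈ n, ∀ x ∈ n, LocDvd J n t x := by
  obtain ⟨h1, h2⟩ := tame_descent H J hJ hcard n m₀ hm₀ hdom htot
  exact ⟨h1, exists_generator_of_total J n hfg h2⟩

end Invariants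

section LocalizationForm

variable {S : Type*} [CommRing S]

/-- `x = 0` in `(S ⧸ lam)_m` iff `lam ∣ x` in `S_m`. -/
theorem locZero_iff_dvd (m : Ideal S) [m.IsPrime] (lam x : S) :
    LocZero (Ideal.span {lam}) m x ↔
      algebraMap S (Localization.AtPrime m) lam ∣ algebraMap S (Localization.AtPrime m) x := by
  constructor
  · rintro ⟨u, hu, hux⟩
    obtain ⟨a, ha⟩ := Ideal.mem_span_singleton'.mp hux
    have hunit : IsUnit (algebraMap S (Localization.AtPrime m) u) :=
      IsLocalization.map_units (Localization.AtPrime m) (⟨u, hu⟩ : m.primeCompl)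
    obtain ⟨v, hv⟩ := hunit.exists_left_inv
    refine ⟨v * algebraMap S (Localization.AtPrime m) a, ?_⟩
    have h1 : algebraMap S (Localization.AtPrime m) u * algebraMap S (Localization.AtPrime m) x
        = algebraMap S (Localization.AtPrime m) a * algebraMap S (Localization.AtPrime m) lam := by
      rw [← map_mul, ← map_mul, ha]
    linear_combination v * h1 - (algebraMap S (Localization.AtPrime m) x) * hv
  · rintro ⟨z, hz⟩
    obtain ⟨c, v, rfl⟩ := IsLocalization.exists_mk'_eq m.primeCompl z
    have h1 : algebraMap S (Localization.AtPrime m) (x * v)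
        = algebraMap S (Localization.AtPrime m) (lam * c) := by
      rw [map_mul, map_mul, hz, mul_assoc, IsLocalization.mk'_spec]
    obtain ⟨u, hu⟩ := (IsLocalization.eq_iff_exists m.primeCompl _).mp h1
    refine ⟨u * v, fun h => ?_, ?_⟩
    · rcases Ideal.IsPrime.mem_or_mem ‹m.IsPrime› h with h | h
      · exact u.2 h
      · exact v.2 h
    · rw [Ideal.mem_span_singleton']
      exact ⟨u * c, by linear_combination -hu⟩

/-- `x ∣ y` in `(S ⧸ lam)_m` iff `y ∈ (x, lam)` in `S_m`. -/
theorem locDvd_iff_mem_span (m : Ideal S) [m.IsPrime] (lam x y : S) :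
    LocDvd (Ideal.span {lam}) m x y ↔
      algebraMap S (Localization.AtPrime m) y ∈
        Ideal.span {algebraMap S (Localization.AtPrime m) x,
          algebraMap S (Localization.AtPrime m) lam} := by
  constructor
  · rintro ⟨u, hu, huy⟩
    obtain ⟨a, b, hb, hab⟩ := Ideal.mem_span_singleton_sup.mp huy
    obtain ⟨c, hc⟩ := Ideal.mem_span_singleton'.mp hb
    have hunit : IsUnit (algebraMap S (Localization.AtPrime m) u) :=
      IsLocalization.map_units (Localization.AtPrime m) (⟨u, hu⟩ : m.primeCompl)
    obtain ⟨v, hv⟩ := hunit.exists_left_inv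
    rw [Ideal.mem_span_pair]
    refine ⟨v * algebraMap S (Localization.AtPrime m) a,
      v * algebraMap S (Localization.AtPrime m) c, ?_⟩
    have h1 : algebraMap S (Localization.AtPrime m) u * algebraMap S (Localization.AtPrime m) y
        = algebraMap S (Localization.AtPrime m) a * algebraMap S (Localization.AtPrime m) x
          + algebraMap S (Localization.AtPrime m) c * algebraMap S (Localization.AtPrime m) lam := by
      rw [← map_mul, ← map_mul, ← map_mul, ← map_add, hc, hab]
    linear_combination (algebraMap S (Localization.AtPrime m) y) * hv - v * h1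
  · intro h
    obtain ⟨p, q, hpq⟩ := Ideal.mem_span_pair.mp h
    obtain ⟨p0, v, rfl⟩ := IsLocalization.exists_mk'_eq m.primeCompl p
    obtain ⟨q0, w, rfl⟩ := IsLocalization.exists_mk'_eq m.primeCompl q
    have h1 : algebraMap S (Localization.AtPrime m) (y * v * w)
        = algebraMap S (Localization.AtPrime m) (p0 * w * x + q0 * v * lam) := by
      have e1 := IsLocalization.mk'_spec (Localization.AtPrime m) p0 v
      have e2 := IsLocalization.mk'_spec (Localization.AtPrime m) q0 w
      simp only [map_mul, map_add]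
      rw [← hpq, ← e1, ← e2]
      ring
    obtain ⟨u, hu⟩ := (IsLocalization.eq_iff_exists m.primeCompl _).mp h1
    refine ⟨u * v * w, fun h => ?_, ?_⟩
    · rcases Ideal.IsPrime.mem_or_mem ‹m.IsPrime› h with h | h
      · rcases Ideal.IsPrime.mem_or_mem ‹m.IsPrime› h with h | h
        · exact u.2 h
        · exact v.2 h
      · exact w.2 h
    · refine Ideal.mem_span_singleton_sup.mpr ⟨u * p0 * w, u * q0 * v * lam, ?_, ?_⟩
      · exact Ideal.mul_mem_left _ _ (Ideal.mem_span_singleton_self lam)
      · linear_combination -hu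

/-- Upstairs, domain clause: if `lam` is prime in `S_m` then `(S ⧸ lam)_m` is a domain
(element form). -/
theorem locZero_or_of_prime (m : Ideal S) [m.IsPrime] (lam : S)
    (hp : Prime (algebraMap S (Localization.AtPrime m) lam)) (x y : S)
    (hxy : x * y ∈ Ideal.span {lam}) :
    LocZero (Ideal.span {lam}) m x ∨ LocZero (Ideal.span {lam}) m y := by
  obtain ⟨a, ha⟩ := Ideal.mem_span_singleton'.mp hxy
  have hdvd : algebraMap S (Localization.AtPrime m) lam ∣
      algebraMap S (Localization.AtPrime m) x * algebraMap S (Localization.AtPrime m) y :=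
    ⟨algebraMap S (Localization.AtPrime m) a, by rw [← map_mul, ← map_mul, ← ha, mul_comm]⟩
  rcases hp.dvd_or_dvd hdvd with h | h
  · exact Or.inl ((locZero_iff_dvd m lam x).mpr h)
  · exact Or.inr ((locZero_iff_dvd m lam y).mpr h)

/-- Upstairs, divisibility clause: a regular pair `(lam, s)` at `m` (i.e. `(S ⧸ lam)_m` is a
discrete valuation ring or a field) gives total divisibility in `(S ⧸ lam)_m` (element form). -/
theorem locDvd_total_of_regular_pair [IsNoetherianRing S] (m : Ideal S) [m.IsPrime] (lam s : S)
    (hmax : IsLocalRing.maximalIdeal (Localization.AtPrime m) =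
      Ideal.span {algebraMap S (Localization.AtPrime m) lam,
        algebraMap S (Localization.AtPrime m) s})
    (hp : Prime (algebraMap S (Localization.AtPrime m) lam)) (x y : S) :
    LocDvd (Ideal.span {lam}) m x y ∨ LocDvd (Ideal.span {lam}) m y x := by
  set T := Localization.AtPrime m with hT
  set P : Ideal T := Ideal.span {algebraMap S T lam} with hP
  have hPprime : P.IsPrime := (Ideal.span_singleton_prime hp.ne_zero).mpr hp
  have hdomQ : IsDomain (T ⧸ P) := Ideal.Quotient.isDomain P
  have hlocQ : IsLocalRing (T ⧸ P) :=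
    IsLocalRing.of_surjective' (Ideal.Quotient.mk P) Ideal.Quotient.mk_surjective
  -- the maximal ideal of the quotient is generated by the image of `s`
  have hmaxQ : IsLocalRing.maximalIdeal (T ⧸ P) =
      Ideal.span {Ideal.Quotient.mk P (algebraMap S T s)} := by
    apply le_antisymm
    · intro z hz
      obtain ⟨t, rfl⟩ := Ideal.Quotient.mk_surjective z
      have ht : t ∈ IsLocalRing.maximalIdeal T := by
        rw [IsLocalRing.mem_maximalIdeal, mem_nonunits_iff]
        intro hunit
        exact hz (hunit.map (Ideal.Quotient.mk P))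
      rw [hmax, Ideal.mem_span_pair] at ht
      obtain ⟨a, b, hab⟩ := ht
      rw [Ideal.mem_span_singleton']
      refine ⟨Ideal.Quotient.mk P b, ?_⟩
      rw [← hab, map_add, map_mul, map_mul]
      have : Ideal.Quotient.mk P (algebraMap S T lam) = 0 :=
        Ideal.Quotient.eq_zero_iff_mem.mpr (Ideal.mem_span_singleton_self _)
      rw [this, mul_zero, zero_add]
    · rw [Ideal.span_le, Set.singleton_subset_iff, SetLike.mem_coe, IsLocalRing.mem_maximalIdeal,
        mem_nonunits_iff]
      intro hunit
      obtain ⟨z, hz⟩ := hunit.exists_right_inv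
      obtain ⟨t, rfl⟩ := Ideal.Quotient.mk_surjective z
      rw [← map_mul, ← map_one (Ideal.Quotient.mk P), Ideal.Quotient.eq] at hz
      have hsm : algebraMap S T s ∈ IsLocalRing.maximalIdeal T := by
        rw [hmax]; exact Ideal.subset_span (Set.mem_insert_of_mem _ (Set.mem_singleton _))
      have hPle : P ≤ IsLocalRing.maximalIdeal T := by
        rw [hP, Ideal.span_le, Set.singleton_subset_iff, hmax]
        exact Ideal.subset_span (Set.mem_insert _ _)
      have h1 : (1 : T) ∈ IsLocalRing.maximalIdeal T := by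
        have h2 := (IsLocalRing.maximalIdeal T).sub_mem
          ((IsLocalRing.maximalIdeal T).mul_mem_right t hsm) (hPle hz)
        have e : (1 : T) = algebraMap S T s * t - (algebraMap S T s * t - 1) := by ring
        rw [e]
        exact h2
      exact (Ideal.ne_top_iff_one _).mp (IsLocalRing.maximalIdeal.isMaximal T).ne_top h1
  have hprinc : (IsLocalRing.maximalIdeal (T ⧸ P)).IsPrincipal := ⟨⟨_, hmaxQ⟩⟩
  have hval : ValuationRing (T ⧸ P) :=
    ((tfae_of_isNoetherianRing_of_isLocalRing_of_isDomain (R := T ⧸ P)).out 4 1).mp hprinc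
  -- transport the two cases
  have key : ∀ x y : S, (∃ c : T ⧸ P, Ideal.Quotient.mk P (algebraMap S T x) * c =
      Ideal.Quotient.mk P (algebraMap S T y)) → LocDvd (Ideal.span {lam}) m x y := by
    intro x y ⟨c, hc⟩
    obtain ⟨c, rfl⟩ := Ideal.Quotient.mk_surjective c
    rw [← map_mul, Ideal.Quotient.eq, hP, Ideal.mem_span_singleton'] at hc
    obtain ⟨d, hd⟩ := hc
    rw [locDvd_iff_mem_span, Ideal.mem_span_pair]
    exact ⟨c, -d, by linear_combination -hd⟩
  obtain ⟨c, hc | hc⟩ := ValuationRing.cond (Ideal.Quotient.mk P (algebraMap S T x))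
    (Ideal.Quotient.mk P (algebraMap S T y))
  · exact Or.inl (key x y ⟨c, hc⟩)
  · exact Or.inr (key y x ⟨c, hc⟩)

/-- Downstairs: the element form gives a regular pair in `Localization.AtPrime n`. -/
theorem regular_pair_of_element_form (n : Ideal S) [n.IsPrime] (lam t : S) (hlam : lam ∈ n)
    (ht : t ∈ n) (hne : algebraMap S (Localization.AtPrime n) lam ≠ 0)
    (hdom : ∀ x y : S, x * y ∈ Ideal.span {lam} →
      LocZero (Ideal.span {lam}) n x ∨ LocZero (Ideal.span {lam}) n y)
    (hgen : ∀ x ∈ n, LocDvd (Ideal.span {lam}) n t x) :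
    IsLocalRing.maximalIdeal (Localization.AtPrime n) =
        Ideal.span {algebraMap S (Localization.AtPrime n) lam,
          algebraMap S (Localization.AtPrime n) t} ∧
      Prime (algebraMap S (Localization.AtPrime n) lam) := by
  set T := Localization.AtPrime n with hT
  have hmaxeq : IsLocalRing.maximalIdeal T = n.map (algebraMap S T) :=
    (Localization.AtPrime.map_eq_maximalIdeal (I := n)).symm
  have hlamT : algebraMap S T lam ∈ IsLocalRing.maximalIdeal T := by
    rw [hmaxeq]; exact Ideal.mem_map_of_mem _ hlam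
  refine ⟨?_, hne, ?_, ?_⟩
  · rw [hmaxeq]
    apply le_antisymm
    · rw [Ideal.map_le_iff_le_comap]
      intro x hx
      rw [Ideal.mem_comap, Ideal.span_pair_comm]
      exact (locDvd_iff_mem_span n lam t x).mp (hgen x hx)
    · rw [Ideal.span_le]
      rintro z (rfl | rfl)
      · exact Ideal.mem_map_of_mem _ hlam
      · exact Ideal.mem_map_of_mem _ ht
  · intro hunit
    exact (IsLocalRing.mem_maximalIdeal _).mp hlamT hunit
  · intro a b hab
    obtain ⟨a0, v, rfl⟩ := IsLocalization.exists_mk'_eq n.primeCompl a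
    obtain ⟨b0, w, rfl⟩ := IsLocalization.exists_mk'_eq n.primeCompl b
    have hv : IsUnit (algebraMap S T v) := IsLocalization.map_units T v
    have hw : IsUnit (algebraMap S T w) := IsLocalization.map_units T w
    have ea := IsLocalization.mk'_spec T a0 v
    have eb := IsLocalization.mk'_spec T b0 w
    have h1 : algebraMap S T lam ∣ algebraMap S T (a0 * b0) := by
      rw [map_mul, ← ea, ← eb]
      obtain ⟨z, hz⟩ := hab
      refine ⟨z * algebraMap S T v * algebraMap S T w, ?_⟩
      linear_combination (algebraMap S T v * algebraMap S T w) * hz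
    obtain ⟨u, hu, hux⟩ := (locZero_iff_dvd n lam (a0 * b0)).mpr h1
    have hun : IsUnit (algebraMap S T u) :=
      IsLocalization.map_units T (⟨u, hu⟩ : n.primeCompl)
    rcases hdom (u * a0) b0 (by rwa [mul_assoc]) with h | h
    · left
      have h2 := (locZero_iff_dvd n lam (u * a0)).mp h
      rw [map_mul] at h2
      have h3 : algebraMap S T lam ∣ algebraMap S T a0 := (hun.dvd_mul_left).mp h2
      rw [← ea] at h3
      exact (hv.dvd_mul_right).mp h3
    · right
      have h2 := (locZero_iff_dvd n lam b0).mp h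
      rw [← eb] at h2
      exact (hw.dvd_mul_right).mp h2

end LocalizationForm

section Main

variable {R S : Type*} [CommRing R] [CommRing S] [Algebra R S]

/-- **TAMEREG, consumer form.**  `R → S` injective, `H` a finite group acting on `S` with
invariants `R`, `|H|` a unit of `R` (tameness), `lam : R` a non-zero-divisor on `S`, `n` a
finitely generated maximal ideal of `R` containing `lam`, `m₀` ONE maximal ideal of `S` over
`n`.  If `(lam, s)` is a regular pair at `m₀` upstairs (`maximalIdeal S_{m₀} = (lam, s)`,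
`lam` prime in `S_{m₀}`), then there is `t ∈ n` such that `(lam, t)` is a regular pair at `n`
downstairs: `maximalIdeal R_n = (lam, t)` and `lam` is prime in `R_n`. -/
theorem regular_pair_of_tame_cover (H : Type*) [Group H] [Finite H] [MulSemiringAction H S]
    [SMulCommClass H R S] [Algebra.IsInvariant R S H] [IsNoetherianRing S]
    (hinj : Function.Injective (algebraMap R S))
    (hcard : IsUnit (Nat.card H : R)) (lam : R)
    (hreg : ∀ s : S, algebraMap R S lam * s = 0 → s = 0)
    (n : Ideal R) [n.IsMaximal] (hfg : n.FG) (hlam : lam ∈ n)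
    (m₀ : Ideal S) [m₀.IsMaximal] (hm₀ : m₀.comap (algebraMap R S) = n) (s : S)
    (hmax : IsLocalRing.maximalIdeal (Localization.AtPrime m₀) =
      Ideal.span {algebraMap S (Localization.AtPrime m₀) (algebraMap R S lam),
        algebraMap S (Localization.AtPrime m₀) s})
    (hp : Prime (algebraMap S (Localization.AtPrime m₀) (algebraMap R S lam))) :
    ∃ t ∈ n, IsLocalRing.maximalIdeal (Localization.AtPrime n) =
        Ideal.span {algebraMap R (Localization.AtPrime n) lam,
          algebraMap R (Localization.AtPrime n) t} ∧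
      Prime (algebraMap R (Localization.AtPrime n) lam) := by
  have hmap : (Ideal.span {lam}).map (algebraMap R S) = Ideal.span {algebraMap R S lam} := by
    rw [Ideal.map_span, Set.image_singleton]
  have hJ := mem_span_of_map_mem (S := S) H lam hreg hinj
  obtain ⟨hdom, t, htn, ht⟩ := tame_descent_generator H (Ideal.span {lam}) hJ hcard n hfg m₀ hm₀
    (by rw [hmap]; exact locZero_or_of_prime m₀ _ hp)
    (by rw [hmap]; exact locDvd_total_of_regular_pair m₀ _ s hmax hp)
  refine ⟨t, htn, regular_pair_of_element_form n lam t hlam htn ?_ hdom ht⟩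
  intro h0
  rw [← map_zero (algebraMap R (Localization.AtPrime n))] at h0
  obtain ⟨u, hu⟩ := (IsLocalization.eq_iff_exists n.primeCompl _).mp h0
  rw [mul_zero] at hu
  have h1 : algebraMap R S lam * algebraMap R S u = 0 := by
    rw [← map_mul, mul_comm, hu, map_zero]
  have h2 : (u : R) = 0 := hinj (by rw [hreg _ h1, map_zero])
  exact u.2 (h2 ▸ n.zero_mem)

end Main

section Galois

variable (A K L B : Type*) [CommRing A] [CommRing B] [Field K] [Field L]
  [Algebra A K] [Algebra B L] [IsFractionRing A K] [IsFractionRing B L]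
  [Algebra A B] [Algebra K L] [Algebra A L] [IsScalarTower A K L] [IsScalarTower A B L]
  [IsIntegrallyClosed A] [IsIntegralClosure B A L]

/-- **TAMEREG, Galois (AKLB) form.**  `A` integrally closed with fraction field `K`, `L/K`
finite Galois of degree invertible in `A`, `B` the integral closure of `A` in `L` (noetherian).
A regular pair `(lam, s)` at ONE maximal ideal `m₀` of `B` over `n` descends to a regular pair
`(lam, t)` at `n`. -/
theorem regular_pair_of_tame_galois [FiniteDimensional K L] [IsGalois K L] [IsNoetherianRing B]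
    (hcard : IsUnit (Module.finrank K L : A)) (lam : A) (hlam0 : lam ≠ 0)
    (n : Ideal A) [n.IsMaximal] (hfg : n.FG) (hlam : lam ∈ n)
    (m₀ : Ideal B) [m₀.IsMaximal] (hm₀ : m₀.comap (algebraMap A B) = n) (s : B)
    (hmax : IsLocalRing.maximalIdeal (Localization.AtPrime m₀) =
      Ideal.span {algebraMap B (Localization.AtPrime m₀) (algebraMap A B lam),
        algebraMap B (Localization.AtPrime m₀) s})
    (hp : Prime (algebraMap B (Localization.AtPrime m₀) (algebraMap A B lam))) :
    ∃ t ∈ n, IsLocalRing.maximalIdeal (Localization.AtPrime n) =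
        Ideal.span {algebraMap A (Localization.AtPrime n) lam,
          algebraMap A (Localization.AtPrime n) t} ∧
      Prime (algebraMap A (Localization.AtPrime n) lam) := by
  let := IsIntegralClosure.MulSemiringAction A K L B
  have : Algebra.IsInvariant A B Gal(L/K) := Algebra.isInvariant_of_isGalois A K L B
  have : SMulCommClass Gal(L/K) A B := ⟨fun g a b => by
    change galRestrict A K L B g (a • b) = a • galRestrict A K L B g b
    exact map_smul _ a b⟩
  have hinjL : Function.Injective (algebraMap A L) := by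
    rw [IsScalarTower.algebraMap_eq A K L]
    exact (algebraMap K L).injective.comp (IsFractionRing.injective A K)
  have hinj : Function.Injective (algebraMap A B) := by
    rw [IsScalarTower.algebraMap_eq A B L] at hinjL
    exact Function.Injective.of_comp hinjL
  have : IsDomain B := (IsFractionRing.injective B L).isDomain (algebraMap B L)
  have hreg : ∀ s : B, algebraMap A B lam * s = 0 → s = 0 := by
    intro s hs
    rcases mul_eq_zero.mp hs with h | h
    · exact absurd (hinj (h.trans (map_zero _).symm)) hlam0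
    · exact h
  have hcard' : IsUnit (Nat.card Gal(L/K) : A) := by
    rwa [IsGalois.card_aut_eq_finrank]
  exact regular_pair_of_tame_cover Gal(L/K) hinj hcard' lam hreg n hfg hlam m₀ hm₀ s hmax hp

end Galois

end Fermat.Agent.S37.helper3178
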