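import Fermat.Agent.S37.helper3258_ChartTrackB
import Fermat.Prelude.Thm_ModularCurve_coeffMap_qExpand

/-!
# S37 (helper3258): stability of the two Track-B charts, modular instance

For every `m ≥ 1`: `j(q)` and `j(q^m)` are integral over each other's polynomial ring (from the
prime-level modular relations of S28), hence for every valuation subring `A` of `ℚ̄` and every
level `N` the two Track-B charts `helper37.finChart A ·`, `helper37.cuspChart A ·` at the levels
`N` and `N * m` are compatible with `heckeAlphaBar` / `heckeBetaBar`: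

* the maps `α`, `β` send the level-`N` chart into the level-`N * m` chart;
* the coefficients of the characteristic polynomial (along `α` or along `β`) of an element of
  the level-`N * m` chart lie in the level-`N` chart.
-/

set_option autoImplicit false
set_option linter.style.haveILetI false

namespace Fermat.Agent.S37.helper3258

open ModularCurve AlgebraicCurve Polynomial
open Fermat.Agent.S28
open Fermat.Agent.S24.helper24 (Kbar FN jBar)
open Fermat.Agent.S37.helper37 (polyRing finChartOf cuspChartOf finChart cuspChart)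
open Fermat.Agent.S37.helper869 (charpolyAlong)

/-! ## Integer `q`-series -/

section Series

/-- ring homomorphisms preserve integrality over `ℤ[v]` (for arbitrary `ℤ`-algebra
instances). -/
theorem isIntegral_map_adjoin_int {B B' : Type*} [CommRing B] [CommRing B'] [Algebra ℤ B]
    [Algebra ℤ B'] (f : B →+* B') {v z : B} (hz : IsIntegral (Algebra.adjoin ℤ {v}) z) :
    IsIntegral (Algebra.adjoin ℤ {f v}) (f z) := by
  have hmem : ∀ a ∈ Algebra.adjoin ℤ {v}, f a ∈ Algebra.adjoin ℤ {f v} := by
    intro a ha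
    induction ha using Algebra.adjoin_induction with
    | mem y hy =>
      rw [Set.mem_singleton_iff.mp hy]
      exact Algebra.self_mem_adjoin_singleton ℤ _
    | algebraMap r =>
      rw [eq_intCast (algebraMap ℤ B) r, map_intCast]
      exact intCast_mem _ r
    | add y z _ _ hy hz =>
      rw [map_add]
      exact add_mem hy hz
    | mul y z _ _ hy hz =>
      rw [map_mul]
      exact mul_mem hy hz
  obtain ⟨n, a, ha, h⟩ := exists_monic_rel_of_isIntegral _ hz
  refine isIntegral_of_monic_rel (f z) n (fun i => f (a i))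
    (fun i _ => isIntegral_of_mem_subalgebra _ (hmem _ (ha i))) ?_
  have h' := congrArg f h
  simpa [map_add, map_sum, map_mul, map_pow] using h'

theorem isIntegral_adjoin_of_isIntegralElem_evalJ {v z : LaurentSeries ℤ}
    (h : (helper328.evalJ v).IsIntegralElem z) : IsIntegral (Algebra.adjoin ℤ {v}) z := by
  rw [isIntegral_adjoin_singleton_iff]
  have e : helper328.evalJ v = Polynomial.eval₂RingHom (algebraMap ℤ (LaurentSeries ℤ)) v := by
    unfold helper328.evalJ
    congr 1
    exact Subsingleton.elim _ _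
  rw [← e]
  exact h

/-- `j(q^m)` is integral over `ℤ[j(q)]` and `j(q)` is integral over `ℤ[j(q^m)]`, for every
`m ≥ 1`. -/
theorem isIntegral_jq_qExpand_both : ∀ (m : ℕ) [NeZero m],
    IsIntegral (Algebra.adjoin ℤ {jqModC ℤ}) (qExpand ℤ m (jqModC ℤ)) ∧
      IsIntegral (Algebra.adjoin ℤ {qExpand ℤ m (jqModC ℤ)}) (jqModC ℤ) := by
  intro m
  induction m using Nat.strong_induction_on with
  | _ m ih =>
    intro hm0
    rcases eq_or_ne m 1 with rfl | hm1
    · rw [qExpand_one_apply]
      exact ⟨isIntegral_of_mem_subalgebra _ (Algebra.self_mem_adjoin_singleton ℤ _),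
        isIntegral_of_mem_subalgebra _ (Algebra.self_mem_adjoin_singleton ℤ _)⟩
    · obtain ⟨p, hp, hpm⟩ := Nat.exists_prime_and_dvd hm1
      haveI : NeZero p := ⟨hp.ne_zero⟩
      haveI : Fact p.Prime := ⟨hp⟩
      obtain ⟨d, rfl⟩ := hpm
      have hd0 : d ≠ 0 := fun h => hm0.out (by rw [h, mul_zero])
      haveI : NeZero d := ⟨hd0⟩
      have hlt : d < p * d := by
        have := hp.two_le
        nlinarith [Nat.pos_of_ne_zero hd0]
      obtain ⟨ihd1, ihd2⟩ := ih d hlt
      obtain ⟨Φ, hΦ, -, hr1, hr2⟩ := helper28.primeRel_int p (helper508.stmt_FormalPrime p)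
      have hp1 : IsIntegral (Algebra.adjoin ℤ {jqModC ℤ}) (qExpand ℤ p (jqModC ℤ)) :=
        isIntegral_adjoin_of_isIntegralElem_evalJ ⟨Φ, hΦ, by rw [← Polynomial.eval_map]; exact hr1⟩
      have hp2 : IsIntegral (Algebra.adjoin ℤ {qExpand ℤ p (jqModC ℤ)}) (jqModC ℤ) :=
        isIntegral_adjoin_of_isIntegralElem_evalJ ⟨Φ, hΦ, by rw [← Polynomial.eval_map]; exact hr2⟩
      have hV1 : IsIntegral (Algebra.adjoin ℤ {qExpand ℤ p (jqModC ℤ)})
          (qExpand ℤ (p * d) (jqModC ℤ)) := by
        have h := isIntegral_map_adjoin_int (qExpand ℤ p) ihd1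
        rw [qExpand_qExpand] at h
        exact h
      have hV2 : IsIntegral (Algebra.adjoin ℤ {qExpand ℤ (p * d) (jqModC ℤ)})
          (qExpand ℤ p (jqModC ℤ)) := by
        have h := isIntegral_map_adjoin_int (qExpand ℤ p) ihd2
        rw [qExpand_qExpand] at h
        exact h
      exact ⟨isIntegral_adjoin_trans hp1 hV1, isIntegral_adjoin_trans hV2 hp2⟩

/-- the same over any commutative ring of coefficients. -/
theorem isIntegral_jqModC_qExpand_both (R : Type*) [CommRing R] (m : ℕ) [NeZero m] :
    IsIntegral (Algebra.adjoin ℤ {jqModC R}) (qExpand R m (jqModC R)) ∧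
      IsIntegral (Algebra.adjoin ℤ {qExpand R m (jqModC R)}) (jqModC R) := by
  obtain ⟨h1, h2⟩ := isIntegral_jq_qExpand_both m
  have h1' := isIntegral_map_adjoin_int (coeffMap (Int.castRingHom R)) h1
  have h2' := isIntegral_map_adjoin_int (coeffMap (Int.castRingHom R)) h2
  rw [coeffMap_qExpand, coeffMap_jqModC] at h1' h2'
  exact ⟨h1', h2'⟩

end Series

/-! ## Transport to a subfield -/

section Transport

/-- integrality over `ℤ[ι x]` in an overring gives integrality over `A'[x]`, for an injective
ring homomorphism `ι`. -/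
theorem isIntegral_adjoin_of_int {S F' A' : Type*} [CommRing S] [Algebra ℤ S] [CommRing F']
    [CommRing A'] [Algebra A' F'] (ι : F' →+* S) (hι : Function.Injective ι) {x y : F'}
    (h : IsIntegral (Algebra.adjoin ℤ {ι x}) (ι y)) : IsIntegral (Algebra.adjoin A' {x}) y := by
  obtain ⟨n, b, hb, hrel⟩ := exists_monic_rel_of_isIntegral _ h
  have hex : ∀ c ∈ Algebra.adjoin ℤ {ι x}, ∃ a ∈ Algebra.adjoin A' {x}, ι a = c := by
    intro c hc
    induction hc using Algebra.adjoin_induction with
    | mem y hy =>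
      exact ⟨x, Algebra.self_mem_adjoin_singleton A' x, (Set.mem_singleton_iff.mp hy).symm⟩
    | algebraMap r =>
      exact ⟨(r : F'), intCast_mem _ r, by rw [map_intCast, eq_intCast (algebraMap ℤ S) r]⟩
    | add y z _ _ hy hz =>
      obtain ⟨a1, h1, rfl⟩ := hy
      obtain ⟨a2, h2, rfl⟩ := hz
      exact ⟨a1 + a2, add_mem h1 h2, map_add ι a1 a2⟩
    | mul y z _ _ hy hz =>
      obtain ⟨a1, h1, rfl⟩ := hy
      obtain ⟨a2, h2, rfl⟩ := hz
      exact ⟨a1 * a2, mul_mem h1 h2, map_mul ι a1 a2⟩
  choose a ha haι using fun i => hex (b i) (hb i)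
  refine isIntegral_of_monic_rel y n a (fun i _ => isIntegral_of_mem_subalgebra _ (ha i)) ?_
  apply hι
  rw [map_add, map_pow, map_sum, map_zero, ← hrel]
  congr 1
  refine Finset.sum_congr rfl fun i _ => ?_
  rw [map_mul, map_pow, haι]

/-- the same for the function field `FN M ⊆ ℚ̄((q))`. -/
theorem isIntegral_adjoin_of_int_val {M : ℕ} {A' : Type*} [CommRing A'] [Algebra A' (FN M)]
    {x y : FN M}
    (h : IsIntegral (Algebra.adjoin ℤ {(x : LaurentSeries Kbar)}) (y : LaurentSeries Kbar)) :
    IsIntegral (Algebra.adjoin A' {x}) y :=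
  isIntegral_adjoin_of_int (modularFunctionFieldBar M).val.toRingHom Subtype.val_injective
    (x := x) (y := y) h

end Transport

/-! ## The modular charts -/

section Modular

variable (A : ValuationSubring Kbar) (N m : ℕ) [NeZero N] [NeZero m]

omit [NeZero N] in
theorem coe_jBar_eq_jqModC (M : ℕ) : ((jBar M : FN M) : LaurentSeries Kbar) = jqModC Kbar := by
  rw [Fermat.Agent.S24.helper24.coe_jBar, ← jqModC_rat, coeffEmb, coeffMap_jqModC]

theorem heckeAlphaBar_jBar : heckeAlphaBar Kbar N m (jBar N) = jBar (N * m) := by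
  apply Subtype.ext
  rw [coe_heckeAlphaBar, coe_jBar_eq_jqModC, coe_jBar_eq_jqModC]

omit [NeZero N] in
theorem coe_heckeBetaBar_jBar :
    ((heckeBetaBar Kbar N m (jBar N) : FN (N * m)) : LaurentSeries Kbar)
      = qExpand Kbar m (jqModC Kbar) := by
  rw [coe_heckeBetaBar, coe_jBar_eq_jqModC]

omit [NeZero N] in
/-- `j` is integral over `A[β_m j]` at level `N * m`. -/
theorem jBar_mem_finChartOf_heckeBetaBar_jBar :
    jBar (N * m) ∈ finChartOf A (heckeBetaBar Kbar N m (jBar N)) := by
  rw [mem_finChartOf_iff_adjoin]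
  refine isIntegral_adjoin_of_int_val ?_
  rw [coe_heckeBetaBar_jBar, coe_jBar_eq_jqModC]
  exact (isIntegral_jqModC_qExpand_both Kbar m).2

omit [NeZero N] in
/-- `β_m j` is integral over `A[j]` at level `N * m`. -/
theorem heckeBetaBar_jBar_mem_finChartOf_jBar :
    heckeBetaBar Kbar N m (jBar N) ∈ finChartOf A (jBar (N * m)) := by
  rw [mem_finChartOf_iff_adjoin]
  refine isIntegral_adjoin_of_int_val ?_
  rw [coe_heckeBetaBar_jBar, coe_jBar_eq_jqModC]
  exact (isIntegral_jqModC_qExpand_both Kbar m).1

omit [NeZero N] in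
theorem jBar_mul_inv (M : ℕ) : jBar M * (jBar M)⁻¹ = 1 :=
  mul_inv_cancel₀ (Fermat.Agent.S37.helper9343.jBar_ne_zero M)

omit [NeZero N] in
theorem heckeBetaBar_jBar_mul_inv :
    heckeBetaBar Kbar N m (jBar N) * heckeBetaBar Kbar N m (jBar N)⁻¹ = 1 := by
  rw [← map_mul, jBar_mul_inv, map_one]

/-! ### The degeneracy maps preserve the charts -/

/-- `α` maps the finite chart of level `N` into the finite chart of level `N * m`. -/
theorem heckeAlphaBar_mem_finChart {h : FN N} (hh : h ∈ finChart A N) :
    heckeAlphaBar Kbar N m h ∈ finChart A (N * m) := by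
  have h1 := map_mem_finChartOf A (heckeAlphaBar Kbar N m) hh
  rw [heckeAlphaBar_jBar] at h1
  exact h1

/-- `α` maps the cusp chart of level `N` into the cusp chart of level `N * m`. -/
theorem heckeAlphaBar_mem_cuspChart {h : FN N} (hh : h ∈ cuspChart A N) :
    heckeAlphaBar Kbar N m h ∈ cuspChart A (N * m) := by
  have h1 := map_mem_cuspChartOf A (heckeAlphaBar Kbar N m) hh
  rw [map_inv₀, heckeAlphaBar_jBar] at h1
  exact h1

omit [NeZero N] in
/-- `β_m` maps the finite chart of level `N` into the finite chart of level `N * m`. -/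
theorem heckeBetaBar_mem_finChart {h : FN N} (hh : h ∈ finChart A N) :
    heckeBetaBar Kbar N m h ∈ finChart A (N * m) :=
  finChartOf_le_of_mem A (heckeBetaBar_jBar_mem_finChartOf_jBar A N m)
    (map_mem_finChartOf A (heckeBetaBar Kbar N m) hh)

omit [NeZero N] in
/-- `β_m` maps the cusp chart of level `N` into the cusp chart of level `N * m`. -/
theorem heckeBetaBar_mem_cuspChart {h : FN N} (hh : h ∈ cuspChart A N) :
    heckeBetaBar Kbar N m h ∈ cuspChart A (N * m) :=
  cuspChartOf_le_of_mem A (heckeBetaBar_jBar_mul_inv N m) (jBar_mul_inv (N * m))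
    (jBar_mem_finChartOf_heckeBetaBar_jBar A N m)
    (map_mem_cuspChartOf A (heckeBetaBar Kbar N m) hh)

/-! ### Characteristic polynomials along `β_m` and along `α` -/

omit [NeZero N] in
/-- finite chart, along `β_m`: the hypothesis `hcoeff` of the transfer lemma. -/
theorem finChart_charpolyAlong_heckeBetaBar (hfin : FiniteAlong Kbar (heckeBetaBar Kbar N m))
    {w : FN (N * m)} (hw : w ∈ finChart A (N * m)) (i : ℕ) :
    (charpolyAlong (heckeBetaBar Kbar N m) hfin w).coeff i ∈ finChart A N :=
  finChartOf_charpolyAlong_coeff A (heckeBetaBar Kbar N m) hfin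
    (jBar_mem_finChartOf_heckeBetaBar_jBar A N m) hw i

omit [NeZero N] in
/-- cusp chart, along `β_m`. -/
theorem cuspChart_charpolyAlong_heckeBetaBar (hfin : FiniteAlong Kbar (heckeBetaBar Kbar N m))
    {w : FN (N * m)} (hw : w ∈ cuspChart A (N * m)) (i : ℕ) :
    (charpolyAlong (heckeBetaBar Kbar N m) hfin w).coeff i ∈ cuspChart A N :=
  cuspChartOf_charpolyAlong_coeff A (heckeBetaBar Kbar N m) hfin (jBar_mul_inv N)
    (jBar_mul_inv (N * m)) (heckeBetaBar_jBar_mem_finChartOf_jBar A N m) hw i

/-- finite chart, along `α`. -/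
theorem finChart_charpolyAlong_heckeAlphaBar (hfin : FiniteAlong Kbar (heckeAlphaBar Kbar N m))
    {w : FN (N * m)} (hw : w ∈ finChart A (N * m)) (i : ℕ) :
    (charpolyAlong (heckeAlphaBar Kbar N m) hfin w).coeff i ∈ finChart A N := by
  refine finChartOf_charpolyAlong_coeff A (heckeAlphaBar Kbar N m) hfin
    (x' := jBar (N * m)) ?_ hw i
  rw [heckeAlphaBar_jBar]
  exact helper37.polyRing_le_finChartOf A _ (helper37.self_mem_polyRing A _)

/-- cusp chart, along `α`. -/
theorem cuspChart_charpolyAlong_heckeAlphaBar (hfin : FiniteAlong Kbar (heckeAlphaBar Kbar N m))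
    {w : FN (N * m)} (hw : w ∈ cuspChart A (N * m)) (i : ℕ) :
    (charpolyAlong (heckeAlphaBar Kbar N m) hfin w).coeff i ∈ cuspChart A N := by
  refine cuspChartOf_charpolyAlong_coeff A (heckeAlphaBar Kbar N m) hfin (jBar_mul_inv N)
    (jBar_mul_inv (N * m)) ?_ hw i
  rw [heckeAlphaBar_jBar]
  exact helper37.polyRing_le_finChartOf A _ (helper37.self_mem_polyRing A _)

/-! ### Hecke forms (`T_m = α_* β^*` and its transpose) -/

/-- finite chart: coefficients of the characteristic polynomial of `α h` along `β_m`. -/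
theorem finChart_charpolyAlong_beta_alpha (hfin : FiniteAlong Kbar (heckeBetaBar Kbar N m))
    {h : FN N} (hh : h ∈ finChart A N) (i : ℕ) :
    (charpolyAlong (heckeBetaBar Kbar N m) hfin (heckeAlphaBar Kbar N m h)).coeff i
      ∈ finChart A N :=
  finChart_charpolyAlong_heckeBetaBar A N m hfin (heckeAlphaBar_mem_finChart A N m hh) i

/-- cusp chart: coefficients of the characteristic polynomial of `α h` along `β_m`. -/
theorem cuspChart_charpolyAlong_beta_alpha (hfin : FiniteAlong Kbar (heckeBetaBar Kbar N m))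
    {h : FN N} (hh : h ∈ cuspChart A N) (i : ℕ) :
    (charpolyAlong (heckeBetaBar Kbar N m) hfin (heckeAlphaBar Kbar N m h)).coeff i
      ∈ cuspChart A N :=
  cuspChart_charpolyAlong_heckeBetaBar A N m hfin (heckeAlphaBar_mem_cuspChart A N m hh) i

/-- finite chart: coefficients of the characteristic polynomial of `β_m h` along `α`. -/
theorem finChart_charpolyAlong_alpha_beta (hfin : FiniteAlong Kbar (heckeAlphaBar Kbar N m))
    {h : FN N} (hh : h ∈ finChart A N) (i : ℕ) :
    (charpolyAlong (heckeAlphaBar Kbar N m) hfin (heckeBetaBar Kbar N m h)).coeff i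
      ∈ finChart A N :=
  finChart_charpolyAlong_heckeAlphaBar A N m hfin (heckeBetaBar_mem_finChart A N m hh) i

/-- cusp chart: coefficients of the characteristic polynomial of `β_m h` along `α`. -/
theorem cuspChart_charpolyAlong_alpha_beta (hfin : FiniteAlong Kbar (heckeAlphaBar Kbar N m))
    {h : FN N} (hh : h ∈ cuspChart A N) (i : ℕ) :
    (charpolyAlong (heckeAlphaBar Kbar N m) hfin (heckeBetaBar Kbar N m h)).coeff i
      ∈ cuspChart A N :=
  cuspChart_charpolyAlong_heckeAlphaBar A N m hfin (heckeBetaBar_mem_cuspChart A N m hh) i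

end Modular

end Fermat.Agent.S37.helper3258
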