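import Fermat.Agent.S37.helper3258_HeckeChart
import Fermat.Agent.S37.helper37_TrackB
import Fermat.Agent.S37.helper869_Xfer

/-!
# S37 (helper3258): chart stability in the Track-B vocabulary

Adapter of `helper3258_HeckeChart` (cusp ring saturation, key inclusion, charpoly coefficients) to
the objects of `helper37_TrackB` (`polyRing`, `finChartOf`, `cuspChartOf`) and to
`helper869.charpolyAlong`.

* dictionary: `mem_finChartOf_iff_adjoin`, `mem_cuspChartOf_iff_cuspRing`;
* coordinate change: `finChartOf_le_of_mem`, `cuspChartOf_le_of_mem` (mutually integral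
  coordinates give equal charts, of both types);
* stability along `φ` for an arbitrary element of the upstairs chart:
  `finChartOf_charpolyAlong_coeff`, `cuspChartOf_charpolyAlong_coeff`;
* maps: `map_mem_finChartOf`, `map_mem_cuspChartOf`, and the Hecke forms
  `finChartOf_charpolyAlong_map_coeff`, `cuspChartOf_charpolyAlong_map_coeff`.
-/

set_option autoImplicit false
set_option linter.style.haveILetI false

namespace Fermat.Agent.S37.helper3258

open AlgebraicCurve
open Fermat.Agent.S37.helper37 (polyRing finChartOf cuspChartOf)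
open Fermat.Agent.S37.helper869 (charpolyAlong)

/-! ## Subring helpers -/

section SubringHelpers

variable {B : Type*} [CommRing B]

theorem isIntegral_of_mem_subring (S : Subring B) {r : B} (hr : r ∈ S) : IsIntegral S r :=
  isIntegral_algebraMap (x := (⟨r, hr⟩ : S))

/-- relation form of integrality over a subring. -/
theorem exists_monic_rel_of_isIntegral_subring (S : Subring B) {w : B} (hw : IsIntegral S w) :
    ∃ (n : ℕ) (a : ℕ → B), (∀ i, a i ∈ S) ∧
      w ^ n + ∑ i ∈ Finset.range n, a i * w ^ i = 0 := by
  obtain ⟨P, hP, hPw⟩ := hw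
  refine ⟨P.natDegree, fun i => (P.coeff i : B), fun i => (P.coeff i).2, ?_⟩
  rw [Polynomial.eval₂_eq_sum_range, Finset.sum_range_succ, hP.coeff_natDegree, map_one,
    one_mul] at hPw
  rw [add_comm]
  exact hPw

end SubringHelpers

section AdjoinTrans

variable {A' B : Type*} [CommRing A'] [CommRing B] [Algebra A' B]

/-- transitivity: `x` integral over `A[v]` and `w` integral over `A[x]` give `w` integral over
`A[v]`. -/
theorem isIntegral_adjoin_trans {v x w : B} (hx : IsIntegral (Algebra.adjoin A' {v}) x)
    (hw : IsIntegral (Algebra.adjoin A' {x}) w) : IsIntegral (Algebra.adjoin A' {v}) w := by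
  have h2 : ∀ p ∈ Algebra.adjoin A' {x}, IsIntegral (Algebra.adjoin A' {v}) p := by
    intro p hp
    induction hp using Algebra.adjoin_induction with
    | mem y hy =>
      rw [Set.mem_singleton_iff.mp hy]
      exact hx
    | algebraMap r => exact isIntegral_of_mem_subalgebra _ (Subalgebra.algebraMap_mem _ r)
    | add y z _ _ hy hz => exact hy.add hz
    | mul y z _ _ hy hz => exact hy.mul hz
  obtain ⟨n, a, ha, hrel⟩ := exists_monic_rel_of_isIntegral _ hw
  exact isIntegral_of_monic_rel w n a (fun i _ => h2 _ (ha i)) hrel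

end AdjoinTrans

/-! ## Dictionary with the Track-B charts -/

section Dict

variable {K F : Type*} [Field K] [Field F] [Algebra K F] (A : ValuationSubring K)

theorem range_algebraMap_valuationSubring :
    Set.range (algebraMap (↥A) F) = algebraMap K F '' (A : Set K) := by
  ext x
  constructor
  · rintro ⟨a, rfl⟩
    exact ⟨a.1, a.2, rfl⟩
  · rintro ⟨a, ha, rfl⟩
    exact ⟨⟨a, ha⟩, rfl⟩

theorem polyRing_eq_adjoin (t : F) :
    polyRing A t = (Algebra.adjoin (↥A) {t}).toSubring := by
  rw [Algebra.adjoin_eq_ring_closure, range_algebraMap_valuationSubring]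
  rfl

theorem mem_polyRing_iff_adjoin {t x : F} :
    x ∈ polyRing A t ↔ x ∈ Algebra.adjoin (↥A) {t} := by
  rw [polyRing_eq_adjoin]
  exact Iff.rfl

theorem isIntegral_polyRing_iff_adjoin {t f : F} :
    IsIntegral (polyRing A t) f ↔ IsIntegral (Algebra.adjoin (↥A) {t}) f := by
  constructor
  · intro h
    obtain ⟨n, a, ha, hrel⟩ := exists_monic_rel_of_isIntegral_subring _ h
    exact isIntegral_of_monic_rel f n a
      (fun i _ => isIntegral_of_mem_subalgebra _ ((mem_polyRing_iff_adjoin A).mp (ha i))) hrel
  · intro h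
    obtain ⟨n, a, ha, hrel⟩ := exists_monic_rel_of_isIntegral _ h
    exact isIntegral_of_monic_rel f n a
      (fun i _ => isIntegral_of_mem_subring _ ((mem_polyRing_iff_adjoin A).mpr (ha i))) hrel

/-- the finite Track-B chart is the integral closure of `Algebra.adjoin A {t}`. -/
theorem mem_finChartOf_iff_adjoin {t f : F} :
    f ∈ finChartOf A t ↔ IsIntegral (Algebra.adjoin (↥A) {t}) f :=
  isIntegral_polyRing_iff_adjoin A

/-- the Track-B cusp chart is the cusp ring of `helper3258_HeckeChart`. -/
theorem mem_cuspChartOf_iff_cuspRing {u f : F} :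
    f ∈ cuspChartOf A u ↔ f ∈ cuspRing (↥A) u := by
  constructor
  · rintro ⟨a, ha, hint⟩
    exact ⟨1 + u * a, ⟨a, (mem_polyRing_iff_adjoin A).mp ha, rfl⟩,
      (isIntegral_polyRing_iff_adjoin A).mp hint⟩
  · rintro ⟨_, ⟨a, ha, rfl⟩, hint⟩
    exact ⟨a, (mem_polyRing_iff_adjoin A).mpr ha, (isIntegral_polyRing_iff_adjoin A).mpr hint⟩

/-! ## Coordinate change -/

/-- **coordinate change, finite chart**: if `x` is integral over `A[y]`, the finite chart with
coordinate `x` is contained in the one with coordinate `y`. -/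
theorem finChartOf_le_of_mem {x y : F} (hx : x ∈ finChartOf A y) :
    finChartOf A x ≤ finChartOf A y := by
  intro f hf
  rw [mem_finChartOf_iff_adjoin] at hx hf ⊢
  exact isIntegral_adjoin_trans hx hf

/-- **coordinate change, cusp chart**: if `y` is integral over `A[x]`, `u' = 1/x`, `v = 1/y`, the
cusp chart with coordinate `u'` is contained in the one with coordinate `v`. -/
theorem cuspChartOf_le_of_mem {x u' y v : F} (hxu : x * u' = 1) (hyv : y * v = 1)
    (hy : y ∈ finChartOf A x) : cuspChartOf A u' ≤ cuspChartOf A v := by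
  intro f hf
  rw [mem_cuspChartOf_iff_cuspRing] at hf ⊢
  exact cuspRing_le_of_isIntegral hxu hyv ((mem_finChartOf_iff_adjoin A).mp hy) hf

/-- mutually integral coordinates give the same finite chart. -/
theorem finChartOf_eq_of_mem {x y : F} (hx : x ∈ finChartOf A y) (hy : y ∈ finChartOf A x) :
    finChartOf A x = finChartOf A y :=
  le_antisymm (finChartOf_le_of_mem A hx) (finChartOf_le_of_mem A hy)

/-- mutually integral coordinates give the same cusp chart. -/
theorem cuspChartOf_eq_of_mem {x u' y v : F} (hxu : x * u' = 1) (hyv : y * v = 1)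
    (hx : x ∈ finChartOf A y) (hy : y ∈ finChartOf A x) : cuspChartOf A u' = cuspChartOf A v :=
  le_antisymm (cuspChartOf_le_of_mem A hxu hyv hy) (cuspChartOf_le_of_mem A hyv hxu hx)

/-- `u'` lies in the cusp chart with coordinate `v`, and a power of it is a multiple of `v`
there ("cuspidal discs are stable"), when `y = 1/v` is integral over `A[x]`, `x = 1/u'`. -/
theorem cusp_coordinate_mem_cuspChartOf {x u' y v : F} (hxu : x * u' = 1) (hyv : y * v = 1)
    (hy : y ∈ finChartOf A x) :
    u' ∈ cuspChartOf A v ∧ ∃ (n : ℕ) (c : F), c ∈ cuspChartOf A v ∧ u' ^ n = v * c := by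
  obtain ⟨h1, n, c, hc, hn⟩ :=
    cusp_uniformizer_mem (A := ↥A) hxu hyv ((mem_finChartOf_iff_adjoin A).mp hy)
  exact ⟨(mem_cuspChartOf_iff_cuspRing A).mpr h1, n, c, (mem_cuspChartOf_iff_cuspRing A).mpr hc, hn⟩

end Dict

/-! ## Maps and stability along an algebra homomorphism -/

section Along

variable {K F F' : Type*} [Field K] [Field F] [Field F'] [Algebra K F] [Algebra K F']
  (A : ValuationSubring K)

/-- a `K`-algebra homomorphism maps the finite chart into the finite chart. -/
theorem map_mem_finChartOf (ψ : F →ₐ[K] F') {t h : F} (hh : h ∈ finChartOf A t) :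
    ψ h ∈ finChartOf A (ψ t) := by
  rw [mem_finChartOf_iff_adjoin] at hh ⊢
  exact isIntegral_map_adjoin (ψ.restrictScalars (↥A)) hh

/-- a `K`-algebra homomorphism maps the cusp chart into the cusp chart. -/
theorem map_mem_cuspChartOf (ψ : F →ₐ[K] F') {u h : F} (hh : h ∈ cuspChartOf A u) :
    ψ h ∈ cuspChartOf A (ψ u) := by
  rw [mem_cuspChartOf_iff_cuspRing] at hh ⊢
  exact map_mem_cuspRing (ψ.restrictScalars (↥A)) hh

/-- **finite chart, stability along `φ`**: if `x'` is integral over `A[φ t]` and `w` lies in the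
finite chart of `F'` with coordinate `x'`, the coefficients of the characteristic polynomial of
`w` along `φ` lie in the finite chart of `F` with coordinate `t`. -/
theorem finChartOf_charpolyAlong_coeff (φ : F →ₐ[K] F') (hfin : FiniteAlong K φ) {t : F}
    {x' w : F'} (hx' : x' ∈ finChartOf A (φ t)) (hw : w ∈ finChartOf A x') (i : ℕ) :
    (charpolyAlong φ hfin w).coeff i ∈ finChartOf A t := by
  letI := algebraAlong φ
  haveI : Module.Finite F F' := hfin
  haveI : IsScalarTower (↥A) F F' :=
    IsScalarTower.of_algebraMap_eq (fun a => (φ.commutes (a : K)).symm)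
  rw [mem_finChartOf_iff_adjoin] at hx' hw ⊢
  have h1 : IsIntegral (Algebra.adjoin (↥A) {algebraMap F F' t}) w :=
    isIntegral_adjoin_trans hx' hw
  have h2 : IsIntegral (Algebra.adjoin (↥A) {t}) w :=
    isIntegral_adjoin_of_isIntegral_adjoin_algebraMap h1
  exact isIntegral_charpoly_lmul_coeff (K := F) h2 i

/-- **cusp chart, stability along `φ`**: `t u = 1` in `F`, `x' u'' = 1` in `F'`; if `φ t` is
integral over `A[x']` and `w` lies in the cusp chart of `F'` with coordinate `u''`, the
coefficients of the characteristic polynomial of `w` along `φ` lie in the cusp chart of `F` with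
coordinate `u`. -/
theorem cuspChartOf_charpolyAlong_coeff (φ : F →ₐ[K] F') (hfin : FiniteAlong K φ) {t u : F}
    (htu : t * u = 1) {x' u'' w : F'} (hxu : x' * u'' = 1) (hφ : φ t ∈ finChartOf A x')
    (hw : w ∈ cuspChartOf A u'') (i : ℕ) :
    (charpolyAlong φ hfin w).coeff i ∈ cuspChartOf A u := by
  letI := algebraAlong φ
  haveI : Module.Finite F F' := hfin
  haveI : IsScalarTower (↥A) F F' :=
    IsScalarTower.of_algebraMap_eq (fun a => (φ.commutes (a : K)).symm)
  rw [mem_cuspChartOf_iff_cuspRing] at hw ⊢
  rw [mem_finChartOf_iff_adjoin] at hφ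
  by_cases h0 : (0 : F) ∈ cuspOnes (↥A) u
  · exact cuspRing_eq_top_of_zero_mem h0 _
  · have h2 : w ∈ cuspRing (↥A) (algebraMap F F' u) :=
      cuspRing_le_of_isIntegral (x := x') (u' := u'') (y := algebraMap F F' t)
        (v := algebraMap F F' u) hxu (by rw [← map_mul, htu, map_one]) hφ hw
    have h3 : IsIntegral (cuspRing (↥A) u) w :=
      isIntegral_cuspRing_of_mem_cuspRing_algebraMap h2 h0
    have h4 := isIntegral_charpoly_lmul_coeff (K := F) h3 i
    exact mem_cuspRing_of_isIntegral_of_le le_rfl h4

/-- **Hecke form, finite chart**: if `ψ t` is integral over `A[φ t]`, then for `h` in the finite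
chart the coefficients of the characteristic polynomial of `ψ h` along `φ` are in the finite
chart. -/
theorem finChartOf_charpolyAlong_map_coeff (φ ψ : F →ₐ[K] F') (hfin : FiniteAlong K φ) {t : F}
    (hψ : ψ t ∈ finChartOf A (φ t)) {h : F} (hh : h ∈ finChartOf A t) (i : ℕ) :
    (charpolyAlong φ hfin (ψ h)).coeff i ∈ finChartOf A t :=
  finChartOf_charpolyAlong_coeff A φ hfin hψ (map_mem_finChartOf A ψ hh) i

/-- **Hecke form, cusp chart**: if `φ t` is integral over `A[ψ t]` and `u = 1/t`, then for `h` in
the cusp chart the coefficients of the characteristic polynomial of `ψ h` along `φ` are in the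
cusp chart. -/
theorem cuspChartOf_charpolyAlong_map_coeff (φ ψ : F →ₐ[K] F') (hfin : FiniteAlong K φ)
    {t u : F} (htu : t * u = 1) (hφ : φ t ∈ finChartOf A (ψ t)) {h : F}
    (hh : h ∈ cuspChartOf A u) (i : ℕ) :
    (charpolyAlong φ hfin (ψ h)).coeff i ∈ cuspChartOf A u :=
  cuspChartOf_charpolyAlong_coeff A φ hfin htu (by rw [← map_mul, htu, map_one]) hφ
    (map_mem_cuspChartOf A ψ hh) i

end Along

end Fermat.Agent.S37.helper3258
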