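import Mathlib

/-!
# S37 (helper3258): T_ℓ-stability of the two point charts (KRON-CHART, backup copy)

Abstract setting: `A` a commutative ring, `F`, `F'` fields (or rings), `F'` an `F`-algebra
(the structure map is `β`), `α : F →ₐ[A] F'`, `j : F`.

* finite chart: the integral closure of `A[j]`;
* cusp chart: the saturation `cuspRing A u = {z | ∃ t ∈ 1 + u A[u], t * z integral over A[u]}`,
  `u = 1/j`.

Both are stable under "charpoly coefficients of `α h` over `β F`".
-/

set_option autoImplicit false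

namespace Fermat.Agent.S37.helper3258

open Polynomial

/-! ## Generic integrality helpers -/

section Generic

variable {R B : Type*} [CommRing R] [CommRing B] [Algebra R B]

/-- A root of a monic relation `w ^ n + ∑_{i ∈ s} a i * w ^ e i = 0` (`e i < n`) with integral
coefficients is integral. -/
theorem isIntegral_of_monic_rel' {ι : Type*} (s : Finset ι) (w : B) (n : ℕ) (a : ι → B)
    (e : ι → ℕ) (ha : ∀ i ∈ s, IsIntegral R (a i)) (he : ∀ i ∈ s, e i < n)
    (h : w ^ n + ∑ i ∈ s, a i * w ^ e i = 0) : IsIntegral R w := by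
  classical
  let a' : ι → integralClosure R B := fun i => if hi : i ∈ s then ⟨a i, ha i hi⟩ else 0
  let q : (integralClosure R B)[X] := ∑ i ∈ s, C (a' i) * X ^ e i
  have hq : q.degree < n := by
    rw [← Polynomial.mem_degreeLT]
    refine Submodule.sum_mem _ fun i hi => ?_
    rw [Polynomial.mem_degreeLT]
    refine (Polynomial.degree_C_mul_X_pow_le _ _).trans_lt ?_
    exact_mod_cast he i hi
  have hmonic : (X ^ n + q).Monic := Polynomial.monic_X_pow_add hq
  have hw : IsIntegral (integralClosure R B) w := by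
    refine ⟨X ^ n + q, hmonic, ?_⟩
    simp only [q, eval₂_add, eval₂_pow, eval₂_X, eval₂_finsetSum, eval₂_mul, eval₂_C]
    rw [← h]
    congr 1
    refine Finset.sum_congr rfl fun i hi => ?_
    simp [a', hi]
  exact isIntegral_trans w hw

/-- A root of a monic relation `w ^ n + ∑_{i<n} a i * w ^ i = 0` with integral coefficients
is integral. -/
theorem isIntegral_of_monic_rel (w : B) (n : ℕ) (a : ℕ → B)
    (ha : ∀ i < n, IsIntegral R (a i))
    (h : w ^ n + ∑ i ∈ Finset.range n, a i * w ^ i = 0) : IsIntegral R w :=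
  isIntegral_of_monic_rel' (Finset.range n) w n a id (fun i hi => ha i (Finset.mem_range.mp hi))
    (fun _ hi => Finset.mem_range.mp hi) h

end Generic

/-- Coefficients of the characteristic polynomial of multiplication by an integral element
are integral (any finite-dimensional commutative algebra over a field). -/
theorem isIntegral_charpoly_lmul_coeff {R K L : Type*} [CommRing R] [Field K] [CommRing L]
    [Algebra R K] [Algebra K L] [Algebra R L] [IsScalarTower R K L] [Module.Finite K L]
    {x : L} (hx : IsIntegral R x) (i : ℕ) :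
    IsIntegral R ((Algebra.lmul K L x).charpoly.coeff i) := by
  classical
  obtain ⟨P, hP, hPx⟩ := hx
  have key : IsIntegral R (((Algebra.lmul K L x).charpoly.map
      (algebraMap K (AlgebraicClosure K))).coeff i) := by
    refine Polynomial.isIntegral_coeff_of_factors _ ?_ (IsAlgClosed.splits _) ?_ i
    · rw [((Algebra.lmul K L x).charpoly_monic.map _).leadingCoeff]
      exact isIntegral_one
    · intro μ hμ
      rw [← LinearMap.charpoly_baseChange, Algebra.baseChange_lmul,
        ← Module.End.hasEigenvalue_iff_isRoot_charpoly] at hμ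
      obtain ⟨v, hv⟩ := hμ.exists_hasEigenvector
      have h1 : aeval (Algebra.lmul (AlgebraicClosure K) (TensorProduct K (AlgebraicClosure K) L)
          ((1 : AlgebraicClosure K) ⊗ₜ[K] x))
          ((P.map (algebraMap R K)).map (algebraMap K (AlgebraicClosure K))) = 0 := by
        rw [Polynomial.aeval_algHom_apply, aeval_map_algebraMap]
        have h2 : aeval ((1 : AlgebraicClosure K) ⊗ₜ[K] x) (P.map (algebraMap R K)) = 0 := by
          have h3 : aeval x (P.map (algebraMap R K)) = 0 := by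
            rw [aeval_map_algebraMap]; exact hPx
          have h4 := Polynomial.aeval_algHom_apply
            (Algebra.TensorProduct.includeRight : L →ₐ[K] TensorProduct K (AlgebraicClosure K) L)
            x (P.map (algebraMap R K))
          rw [h3, map_zero] at h4
          simpa using h4
        rw [h2, map_zero]
      have h5 := Module.End.aeval_apply_of_hasEigenvector hv
        (p := (P.map (algebraMap R K)).map (algebraMap K (AlgebraicClosure K)))
      rw [h1, LinearMap.zero_apply] at h5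
      have h6 : ((P.map (algebraMap R K)).map (algebraMap K (AlgebraicClosure K))).eval μ = 0 := by
        rcases smul_eq_zero.mp h5.symm with h | h
        · exact h
        · exact absurd h hv.2
      refine ⟨P, hP, ?_⟩
      rw [Polynomial.map_map, ← IsScalarTower.algebraMap_eq, Polynomial.eval_map] at h6
      exact h6
  rw [coeff_map] at key
  exact (isIntegral_algebraMap_iff (algebraMap K (AlgebraicClosure K)).injective).mp key

/-! ## Subalgebra helpers -/

section Sub

variable {A B : Type*} [CommRing A] [CommRing B] [Algebra A B]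

theorem isIntegral_of_mem_subalgebra (S : Subalgebra A B) {r : B} (hr : r ∈ S) :
    IsIntegral S r :=
  isIntegral_algebraMap (x := (⟨r, hr⟩ : S))

/-- relation form of integrality over a subalgebra. -/
theorem exists_monic_rel_of_isIntegral (S : Subalgebra A B) {w : B} (hw : IsIntegral S w) :
    ∃ (n : ℕ) (a : ℕ → B), (∀ i, a i ∈ S) ∧
      w ^ n + ∑ i ∈ Finset.range n, a i * w ^ i = 0 := by
  obtain ⟨P, hP, hPw⟩ := hw
  refine ⟨P.natDegree, fun i => (P.coeff i : B), fun i => (P.coeff i).2, ?_⟩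
  rw [Polynomial.eval₂_eq_sum_range, Finset.sum_range_succ, hP.coeff_natDegree, map_one,
    one_mul] at hPw
  rw [add_comm]
  exact hPw

end Sub

/-! ## The cusp ring -/

section Cusp

variable (A : Type*) {B : Type*} [CommRing A] [CommRing B] [Algebra A B]

/-- `1 + v * A[v]`, as a submonoid of `B`. -/
def cuspOnes (v : B) : Submonoid B where
  carrier := {t | ∃ r ∈ Algebra.adjoin A {v}, t = 1 + v * r}
  one_mem' := ⟨0, zero_mem _, by simp⟩
  mul_mem' := by
    rintro _ _ ⟨r, hr, rfl⟩ ⟨r', hr', rfl⟩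
    exact ⟨r + r' + v * r * r',
      add_mem (add_mem hr hr')
        (mul_mem (mul_mem (Algebra.self_mem_adjoin_singleton A v) hr) hr'), by ring⟩

variable {A}

theorem mem_cuspOnes_iff {v t : B} :
    t ∈ cuspOnes A v ↔ ∃ r ∈ Algebra.adjoin A {v}, t = 1 + v * r := Iff.rfl

theorem cuspOnes_le_adjoin {v t : B} (ht : t ∈ cuspOnes A v) : t ∈ Algebra.adjoin A {v} := by
  obtain ⟨r, hr, rfl⟩ := ht
  exact add_mem (one_mem _) (mul_mem (Algebra.self_mem_adjoin_singleton A v) hr)

theorem isIntegral_of_mem_cuspOnes {v t : B} (ht : t ∈ cuspOnes A v) :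
    IsIntegral (Algebra.adjoin A {v}) t :=
  isIntegral_of_mem_subalgebra _ (cuspOnes_le_adjoin ht)

variable (A)

/-- The semi-local cusp ring `{z | ∃ t ∈ 1 + v A[v], t * z integral over A[v]}`. -/
def cuspRing (v : B) : Subalgebra A B where
  carrier := {z | ∃ t ∈ cuspOnes A v, IsIntegral (Algebra.adjoin A {v}) (t * z)}
  mul_mem' := by
    rintro z z' ⟨t, ht, hz⟩ ⟨t', ht', hz'⟩
    refine ⟨t * t', mul_mem ht ht', ?_⟩
    have e : t * t' * (z * z') = (t * z) * (t' * z') := by ring
    rw [e]
    exact hz.mul hz'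
  add_mem' := by
    rintro z z' ⟨t, ht, hz⟩ ⟨t', ht', hz'⟩
    refine ⟨t * t', mul_mem ht ht', ?_⟩
    have e : t * t' * (z + z') = t' * (t * z) + t * (t' * z') := by ring
    rw [e]
    exact ((isIntegral_of_mem_cuspOnes ht').mul hz).add ((isIntegral_of_mem_cuspOnes ht).mul hz')
  algebraMap_mem' := fun a => ⟨1, one_mem _, by
    rw [one_mul]
    exact isIntegral_of_mem_subalgebra _ (Subalgebra.algebraMap_mem _ a)⟩

variable {A}

theorem mem_cuspRing_iff {v z : B} :
    z ∈ cuspRing A v ↔ ∃ t ∈ cuspOnes A v, IsIntegral (Algebra.adjoin A {v}) (t * z) := Iff.rfl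

theorem mem_cuspRing_of_isIntegral {v z : B} (hz : IsIntegral (Algebra.adjoin A {v}) z) :
    z ∈ cuspRing A v := ⟨1, one_mem _, by rwa [one_mul]⟩

theorem adjoin_le_cuspRing (v : B) : Algebra.adjoin A {v} ≤ cuspRing A v :=
  fun _ hr => mem_cuspRing_of_isIntegral (isIntegral_of_mem_subalgebra _ hr)

theorem cuspRing_eq_top_of_zero_mem {v : B} (h0 : (0 : B) ∈ cuspOnes A v) (z : B) :
    z ∈ cuspRing A v := ⟨0, h0, by rw [zero_mul]; exact isIntegral_zero⟩

/-- common denominators in the cusp ring. -/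
theorem exists_common_cuspOnes {v : B} (c : ℕ → B) (n : ℕ)
    (hc : ∀ i < n, c i ∈ cuspRing A v) :
    ∃ T ∈ cuspOnes A v, ∀ i < n, IsIntegral (Algebra.adjoin A {v}) (T * c i) := by
  induction n with
  | zero => exact ⟨1, one_mem _, fun i hi => absurd hi (Nat.not_lt_zero i)⟩
  | succ n ih =>
    obtain ⟨T, hT, hTc⟩ := ih (fun i hi => hc i (Nat.lt_succ_of_lt hi))
    obtain ⟨t, ht, htc⟩ := hc n (Nat.lt_succ_self n)
    refine ⟨T * t, mul_mem hT ht, fun i hi => ?_⟩
    rcases Nat.lt_succ_iff_lt_or_eq.mp hi with h | rfl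
    · have e : T * t * c i = t * (T * c i) := by ring
      rw [e]
      exact (isIntegral_of_mem_cuspOnes ht).mul (hTc i h)
    · have e : T * t * c i = T * (t * c i) := by ring
      rw [e]
      exact (isIntegral_of_mem_cuspOnes hT).mul htc

/-- (P2) the cusp ring is integrally closed in `B` (relation form). -/
theorem mem_cuspRing_of_monic_rel {v : B} (z : B) (n : ℕ) (c : ℕ → B)
    (hc : ∀ i < n, c i ∈ cuspRing A v)
    (h : z ^ n + ∑ i ∈ Finset.range n, c i * z ^ i = 0) : z ∈ cuspRing A v := by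
  obtain ⟨T, hT, hTc⟩ := exists_common_cuspOnes c n hc
  refine ⟨T, hT, ?_⟩
  have hTint : IsIntegral (Algebra.adjoin A {v}) T := isIntegral_of_mem_cuspOnes hT
  refine isIntegral_of_monic_rel (T * z) n (fun i => T ^ (n - 1 - i) * (T * c i))
    (fun i hi => (hTint.pow _).mul (hTc i hi)) ?_
  have e : (T * z) ^ n + ∑ i ∈ Finset.range n, T ^ (n - 1 - i) * (T * c i) * (T * z) ^ i
      = T ^ n * (z ^ n + ∑ i ∈ Finset.range n, c i * z ^ i) := by
    rw [mul_add, Finset.mul_sum, mul_pow]
    congr 1
    refine Finset.sum_congr rfl fun i hi => ?_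
    have hi' := Finset.mem_range.mp hi
    have e1 : T ^ n = T ^ (n - 1 - i) * T * T ^ i := by
      rw [← pow_succ, ← pow_add]
      congr 1
      omega
    rw [e1, mul_pow]
    ring
  rw [e, h, mul_zero]

/-- (P2) integral over a subalgebra of the cusp ring implies member of the cusp ring. -/
theorem mem_cuspRing_of_isIntegral_of_le {v : B} {S : Subalgebra A B} (hS : S ≤ cuspRing A v)
    {z : B} (hz : IsIntegral S z) : z ∈ cuspRing A v := by
  obtain ⟨n, a, ha, h⟩ := exists_monic_rel_of_isIntegral S hz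
  exact mem_cuspRing_of_monic_rel z n a (fun i _ => hS (ha i)) h

/-- (U) the norm trick: if `c` is integral over `A[v]` and `(1 + v c) z` is integral over `A[v]`,
then `t z` is integral over `A[v]` for some `t ∈ 1 + v A[v]`. -/
theorem exists_cuspOnes_of_one_add_mul {v c z : B}
    (hc : IsIntegral (Algebra.adjoin A {v}) c)
    (hz : IsIntegral (Algebra.adjoin A {v}) ((1 + v * c) * z)) :
    ∃ t ∈ cuspOnes A v, IsIntegral (Algebra.adjoin A {v}) (t * z) := by
  obtain ⟨n, a, ha, hrel⟩ := exists_monic_rel_of_isIntegral _ hc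
  have hvint : IsIntegral (Algebra.adjoin A {v}) v :=
    isIntegral_of_mem_subalgebra _ (Algebra.self_mem_adjoin_singleton A v)
  have hdint : IsIntegral (Algebra.adjoin A {v}) (v * c) := hvint.mul hc
  -- `d ^ i = (-1) ^ i + (1 + d) * m i`, with `d = v * c`
  let m : ℕ → B := fun i => ∑ j ∈ Finset.range i, (v * c) ^ j * (-1) ^ (i - 1 - j)
  have hm : ∀ i, (v * c) ^ i = (-1) ^ i + (1 + v * c) * m i := by
    intro i
    have h1 := (Commute.all (v * c) (-1)).mul_geom_sum₂ i
    have h2 : (1 + v * c) * m i = (v * c) ^ i - (-1) ^ i := by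
      rw [← h1]
      simp only [m]
      ring
    rw [h2]
    ring
  have hmint : ∀ i, IsIntegral (Algebra.adjoin A {v}) (m i) := fun i =>
    IsIntegral.sum _ fun j _ => (hdint.pow j).mul ((isIntegral_one.neg).pow _)
  -- the relation for `d = v * c`
  have hrel2 : (v * c) ^ n + ∑ i ∈ Finset.range n, a i * v ^ (n - i) * (v * c) ^ i = 0 := by
    have e : (v * c) ^ n + ∑ i ∈ Finset.range n, a i * v ^ (n - i) * (v * c) ^ i
        = v ^ n * (c ^ n + ∑ i ∈ Finset.range n, a i * c ^ i) := by
      rw [mul_add, Finset.mul_sum, mul_pow]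
      congr 1
      refine Finset.sum_congr rfl fun i hi => ?_
      have hi' := Finset.mem_range.mp hi
      have e1 : v ^ n = v ^ (n - i) * v ^ i := by
        rw [← pow_add]
        congr 1
        omega
      rw [e1, mul_pow]
      ring
    rw [e, hrel, mul_zero]
  let ρ : B := ∑ i ∈ Finset.range n, a i * v ^ (n - 1 - i) * (-1) ^ (i + n)
  let M : B := m n + ∑ i ∈ Finset.range n, a i * v ^ (n - i) * m i
  have hρ : ρ ∈ Algebra.adjoin A {v} :=
    sum_mem fun i _ => mul_mem (mul_mem (ha i) (pow_mem (Algebra.self_mem_adjoin_singleton A v) _))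
      (pow_mem (neg_mem (one_mem _)) _)
  have hMint : IsIntegral (Algebra.adjoin A {v}) M :=
    (hmint n).add (IsIntegral.sum _ fun i _ =>
      ((isIntegral_of_mem_subalgebra _ (ha i)).mul (hvint.pow _)).mul (hmint i))
  have hterm : ∀ i ∈ Finset.range n, a i * v ^ (n - i) * (v * c) ^ i
      = (-1) ^ n * (v * (a i * v ^ (n - 1 - i) * (-1) ^ (i + n)))
        + (1 + v * c) * (a i * v ^ (n - i) * m i) := by
    intro i hi
    have hi' := Finset.mem_range.mp hi
    have e1 : v ^ (n - i) = v * v ^ (n - 1 - i) := by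
      rw [← pow_succ']
      congr 1
      omega
    have e2 : ((-1 : B)) ^ n * (-1) ^ (i + n) = (-1) ^ i := by
      rw [← pow_add, show n + (i + n) = i + 2 * n by ring, pow_add, pow_mul]
      simp
    rw [hm i, e1]
    linear_combination (-(a i * v * v ^ (n - 1 - i))) * e2
  have hK : (-1) ^ n * (1 + v * ρ) + (1 + v * c) * M = 0 := by
    have e3 : (-1) ^ n * (1 + v * ρ) + (1 + v * c) * M
        = (v * c) ^ n + ∑ i ∈ Finset.range n, a i * v ^ (n - i) * (v * c) ^ i := by
      rw [Finset.sum_congr rfl hterm, hm n]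
      simp only [ρ, M, Finset.sum_add_distrib, Finset.mul_sum, mul_add]
      ring
    rw [e3, hrel2]
  refine ⟨1 + v * ρ, ⟨ρ, hρ, rfl⟩, ?_⟩
  have e4 : (1 + v * ρ) * z = (-((-1) ^ n) * M) * ((1 + v * c) * z) := by
    have e5 : ((-1 : B)) ^ n * (-1) ^ n = 1 := by
      rw [← mul_pow]
      simp
    linear_combination ((-1) ^ n * z) * hK - ((1 + v * ρ) * z) * e5
  rw [e4]
  exact (((isIntegral_one.neg).pow n).neg.mul hMint).mul hz

/-- (P3) elements of `1 + v * cuspRing` act invertibly on the cusp ring. -/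
theorem mem_cuspRing_of_one_add_mul {v c z : B} (hc : c ∈ cuspRing A v)
    (hz : (1 + v * c) * z ∈ cuspRing A v) : z ∈ cuspRing A v := by
  obtain ⟨t, ht, htc⟩ := hc
  obtain ⟨t₂, ht₂, hz⟩ := hz
  obtain ⟨ρ, hρ, rfl⟩ := ht
  have hc' : IsIntegral (Algebra.adjoin A {v}) (ρ + (1 + v * ρ) * c) :=
    (isIntegral_of_mem_subalgebra _ hρ).add htc
  have h2 : IsIntegral (Algebra.adjoin A {v})
      ((1 + v * (ρ + (1 + v * ρ) * c)) * (t₂ * z)) := by
    have e : (1 + v * (ρ + (1 + v * ρ) * c)) * (t₂ * z)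
        = (1 + v * ρ) * (t₂ * ((1 + v * c) * z)) := by ring
    rw [e]
    exact (isIntegral_of_mem_cuspOnes ⟨ρ, hρ, rfl⟩).mul hz
  obtain ⟨t₃, ht₃, h3⟩ := exists_cuspOnes_of_one_add_mul hc' h2
  exact ⟨t₃ * t₂, mul_mem ht₃ ht₂, by rwa [mul_assoc]⟩

/-- (P5) `1 + e` acts invertibly on the cusp ring when `e ^ N ∈ v * cuspRing`. -/
theorem mem_cuspRing_of_one_add_nilp_mul {v e γ z : B} (N : ℕ) (he : e ∈ cuspRing A v)
    (hγ : γ ∈ cuspRing A v) (heN : e ^ N = v * γ) (hz : (1 + e) * z ∈ cuspRing A v) :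
    z ∈ cuspRing A v := by
  have hgC : ∑ k ∈ Finset.range N, (-e) ^ k ∈ cuspRing A v :=
    sum_mem fun k _ => pow_mem (neg_mem he) k
  have h1 : (1 + e) * ∑ k ∈ Finset.range N, (-e) ^ k = 1 + v * (-((-1) ^ N) * γ) := by
    have h2 := mul_neg_geom_sum (-e) N
    rw [sub_neg_eq_add] at h2
    rw [h2, neg_pow, heN]
    ring
  refine mem_cuspRing_of_one_add_mul (c := -((-1) ^ N) * γ)
    (mul_mem (neg_mem (pow_mem (neg_mem (one_mem _)) N)) hγ) ?_
  rw [← h1]
  have e3 : (1 + e) * (∑ k ∈ Finset.range N, (-e) ^ k) * z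
      = (∑ k ∈ Finset.range N, (-e) ^ k) * ((1 + e) * z) := by ring
  rw [e3]
  exact mul_mem hgC hz

/-- Step 1: the relation between `u' = 1/x` and `v = 1/y` coming from one monic relation of
`y` over `A[x]`. -/
theorem exists_cusp_rel {x u' y v : B} (hxu : x * u' = 1) (hyv : y * v = 1)
    (hy : IsIntegral (Algebra.adjoin A {x}) y) :
    ∃ (D : ℕ) (b : ℕ → B), (∀ k, b k ∈ Algebra.adjoin A {v}) ∧
      (1 + v * b 0) * u' ^ (D + 1) + v * ∑ k ∈ Finset.range D, b (k + 1) * u' ^ (D - k) = 0 := by
  obtain ⟨m, p, hp, hrel⟩ := exists_monic_rel_of_isIntegral _ hy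
  have h1 : 1 + v * ∑ i ∈ Finset.range m, p i * v ^ (m - 1 - i) = 0 := by
    have e : 1 + v * ∑ i ∈ Finset.range m, p i * v ^ (m - 1 - i)
        = v ^ m * (y ^ m + ∑ i ∈ Finset.range m, p i * y ^ i) := by
      rw [mul_add, Finset.mul_sum, Finset.mul_sum, ← mul_pow, mul_comm v y, hyv, one_pow]
      congr 1
      refine Finset.sum_congr rfl fun i hi => ?_
      have hi' := Finset.mem_range.mp hi
      have e1 : v ^ m = v * v ^ (m - 1 - i) * v ^ i := by
        rw [← pow_succ', ← pow_add]
        congr 1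
        omega
      have e2 : v ^ i * y ^ i = 1 := by rw [← mul_pow, mul_comm v y, hyv, one_pow]
      rw [e1]
      linear_combination (-(v * v ^ (m - 1 - i) * p i)) * e2
    rw [e, hrel, mul_zero]
  -- the sum is a polynomial in `x` with coefficients in `A[v]`
  have hE : ∑ i ∈ Finset.range m, p i * v ^ (m - 1 - i)
      ∈ (Polynomial.aeval (R := Algebra.adjoin A {v}) x).range := by
    have hxT : x ∈ (Polynomial.aeval (R := Algebra.adjoin A {v}) x).range := ⟨X, by simp⟩
    have hRT : ∀ r ∈ Algebra.adjoin A {v},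
        r ∈ (Polynomial.aeval (R := Algebra.adjoin A {v}) x).range :=
      fun r hr => ⟨C ⟨r, hr⟩, by simp⟩
    have hAT : Algebra.adjoin A {x}
        ≤ ((Polynomial.aeval (R := Algebra.adjoin A {v}) x).range).restrictScalars A :=
      Algebra.adjoin_le (by simpa using hxT)
    exact sum_mem fun i _ => mul_mem (hAT (hp i))
      (hRT _ (pow_mem (Algebra.self_mem_adjoin_singleton A v) _))
  obtain ⟨q, hq⟩ := hE
  refine ⟨q.natDegree, fun k => (q.coeff k : B), fun k => (q.coeff k).2, ?_⟩
  have hq' : (Polynomial.aeval x) q = ∑ i ∈ Finset.range m, p i * v ^ (m - 1 - i) := hq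
  rw [← hq', Polynomial.aeval_eq_sum_range, Finset.sum_range_succ'] at h1
  have e : (1 + v * (q.coeff 0 : B)) * u' ^ (q.natDegree + 1)
        + v * ∑ k ∈ Finset.range q.natDegree, (q.coeff (k + 1) : B) * u' ^ (q.natDegree - k)
      = u' ^ (q.natDegree + 1) * (1 + v * (∑ k ∈ Finset.range q.natDegree,
          q.coeff (k + 1) • x ^ (k + 1) + q.coeff 0 • x ^ 0)) := by
    rw [mul_add, mul_add, mul_add, Finset.mul_sum, Finset.mul_sum, Finset.mul_sum]
    have e0 : ∀ k ∈ Finset.range q.natDegree,
        v * ((q.coeff (k + 1) : B) * u' ^ (q.natDegree - k))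
          = u' ^ (q.natDegree + 1) * (v * (q.coeff (k + 1) • x ^ (k + 1))) := by
      intro k hk
      have hk' := Finset.mem_range.mp hk
      have e1 : u' ^ (q.natDegree + 1) = u' ^ (q.natDegree - k) * u' ^ (k + 1) := by
        rw [← pow_add]
        congr 1
        omega
      have e2 : u' ^ (k + 1) * x ^ (k + 1) = 1 := by
        rw [← mul_pow, mul_comm u' x, hxu, one_pow]
      rw [e1, Algebra.smul_def]
      show v * ((q.coeff (k + 1) : B) * u' ^ (q.natDegree - k))
        = u' ^ (q.natDegree - k) * u' ^ (k + 1) * (v * ((q.coeff (k + 1) : B) * x ^ (k + 1)))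
      linear_combination (-(v * (q.coeff (k + 1) : B) * u' ^ (q.natDegree - k))) * e2
    rw [Finset.sum_congr rfl e0, Algebra.smul_def]
    show (1 + v * (q.coeff 0 : B)) * u' ^ (q.natDegree + 1) + _
      = u' ^ (q.natDegree + 1) * 1 + (_ + u' ^ (q.natDegree + 1) * (v * ((q.coeff 0 : B) * x ^ 0)))
    rw [pow_zero]
    ring
  rw [e, h1, mul_zero]

/-- (P4), integral form: `t₀ * u'` is integral over `A[v]` for some `t₀ ∈ 1 + v A[v]`, and a
power of it lies in `v * (integral closure)`. -/
theorem exists_cusp_uniformizer {x u' y v : B} (hxu : x * u' = 1) (hyv : y * v = 1)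
    (hy : IsIntegral (Algebra.adjoin A {x}) y) :
    ∃ t₀ ∈ cuspOnes A v, ∃ (N : ℕ) (γ : B), IsIntegral (Algebra.adjoin A {v}) (t₀ * u') ∧
      IsIntegral (Algebra.adjoin A {v}) γ ∧ (t₀ * u') ^ N = v * γ := by
  obtain ⟨D, b, hb, hrel⟩ := exists_cusp_rel hxu hyv hy
  have ht₀S : 1 + v * b 0 ∈ cuspOnes A v := ⟨b 0, hb 0, rfl⟩
  have ht₀int := isIntegral_of_mem_cuspOnes ht₀S
  have hvint : IsIntegral (Algebra.adjoin A {v}) v :=
    isIntegral_of_mem_subalgebra _ (Algebra.self_mem_adjoin_singleton A v)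
  have hrelω : ((1 + v * b 0) * u') ^ (D + 1) + ∑ k ∈ Finset.range D,
      (v * b (k + 1) * (1 + v * b 0) ^ k) * ((1 + v * b 0) * u') ^ (D - k) = 0 := by
    have e : ((1 + v * b 0) * u') ^ (D + 1) + ∑ k ∈ Finset.range D,
          (v * b (k + 1) * (1 + v * b 0) ^ k) * ((1 + v * b 0) * u') ^ (D - k)
        = (1 + v * b 0) ^ D * ((1 + v * b 0) * u' ^ (D + 1)
            + v * ∑ k ∈ Finset.range D, b (k + 1) * u' ^ (D - k)) := by
      rw [mul_add, Finset.mul_sum, Finset.mul_sum, mul_pow]
      congr 1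
      · ring
      · refine Finset.sum_congr rfl fun k hk => ?_
        have hk' := Finset.mem_range.mp hk
        have e1 : (1 + v * b 0) ^ D = (1 + v * b 0) ^ k * (1 + v * b 0) ^ (D - k) := by
          rw [← pow_add]
          congr 1
          omega
        rw [e1, mul_pow]
        ring
    rw [e, hrel, mul_zero]
  have hωint : IsIntegral (Algebra.adjoin A {v}) ((1 + v * b 0) * u') :=
    isIntegral_of_monic_rel' (Finset.range D) _ (D + 1)
      (fun k => v * b (k + 1) * (1 + v * b 0) ^ k) (fun k => D - k)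
      (fun k _ => (hvint.mul (isIntegral_of_mem_subalgebra _ (hb _))).mul (ht₀int.pow k))
      (fun k _ => by omega) hrelω
  refine ⟨1 + v * b 0, ht₀S, D + 1,
    -∑ k ∈ Finset.range D, (b (k + 1) * (1 + v * b 0) ^ k) * ((1 + v * b 0) * u') ^ (D - k),
    hωint, ?_, ?_⟩
  · exact (IsIntegral.sum _ fun k _ =>
      ((isIntegral_of_mem_subalgebra _ (hb _)).mul (ht₀int.pow k)).mul (hωint.pow _)).neg
  · rw [mul_neg, Finset.mul_sum]
    have e : ∀ k ∈ Finset.range D,
        v * (b (k + 1) * (1 + v * b 0) ^ k * ((1 + v * b 0) * u') ^ (D - k))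
          = (v * b (k + 1) * (1 + v * b 0) ^ k) * ((1 + v * b 0) * u') ^ (D - k) :=
      fun k _ => by ring
    rw [Finset.sum_congr rfl e]
    linear_combination hrelω

/-- (P4), cusp-ring form: `u'` lies in the cusp ring of `v` and a power of it is a multiple
of `v` there. -/
theorem cusp_uniformizer_mem {x u' y v : B} (hxu : x * u' = 1) (hyv : y * v = 1)
    (hy : IsIntegral (Algebra.adjoin A {x}) y) :
    u' ∈ cuspRing A v ∧ ∃ (N : ℕ) (γ' : B), γ' ∈ cuspRing A v ∧ u' ^ N = v * γ' := by
  obtain ⟨t₀, ht₀, N, γ, hω, hγ, hpow⟩ := exists_cusp_uniformizer hxu hyv hy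
  refine ⟨⟨t₀, ht₀, hω⟩, N, y * u' ^ N, ⟨t₀ ^ N, pow_mem ht₀ N, ?_⟩, ?_⟩
  · have e : t₀ ^ N * (y * u' ^ N) = γ := by
      have e1 : t₀ ^ N * (y * u' ^ N) = y * (t₀ * u') ^ N := by
        rw [mul_pow]
        ring
      rw [e1, hpow, ← mul_assoc, hyv, one_mul]
    rw [e]
    exact hγ
  · rw [← mul_assoc, mul_comm v y, hyv, one_mul]

/-- **Key lemma** (cusp chart): if `y` is integral over `A[x]`, `u' = 1/x`, `v = 1/y`, then the
cusp ring of `u'` is contained in the cusp ring of `v`. -/
theorem cuspRing_le_of_isIntegral {x u' y v : B} (hxu : x * u' = 1) (hyv : y * v = 1)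
    (hy : IsIntegral (Algebra.adjoin A {x}) y) : cuspRing A u' ≤ cuspRing A v := by
  obtain ⟨hu', N, γ', hγ', hN⟩ := cusp_uniformizer_mem hxu hyv hy
  have hle : Algebra.adjoin A {u'} ≤ cuspRing A v := Algebra.adjoin_le (by simpa using hu')
  rintro z ⟨s, ⟨r, hr, rfl⟩, hint⟩
  have h1 : (1 + u' * r) * z ∈ cuspRing A v := mem_cuspRing_of_isIntegral_of_le hle hint
  refine mem_cuspRing_of_one_add_nilp_mul (e := u' * r) (γ := γ' * r ^ N) N
    (mul_mem hu' (hle hr)) (mul_mem hγ' (pow_mem (hle hr) N)) ?_ h1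
  rw [mul_pow, hN]
  ring

end Cusp

/-! ## Functoriality -/

section Map

variable {A B B' : Type*} [CommRing A] [CommRing B] [CommRing B'] [Algebra A B] [Algebra A B']

theorem map_mem_adjoin_singleton (φ : B →ₐ[A] B') {v r : B} (hr : r ∈ Algebra.adjoin A {v}) :
    φ r ∈ Algebra.adjoin A {φ v} := by
  rw [← AlgHom.map_adjoin_singleton]
  exact Subalgebra.mem_map.mpr ⟨r, hr, rfl⟩

theorem exists_of_mem_adjoin_map (φ : B →ₐ[A] B') {v : B} {r' : B'}
    (hr : r' ∈ Algebra.adjoin A {φ v}) : ∃ r ∈ Algebra.adjoin A {v}, φ r = r' := by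
  rw [← AlgHom.map_adjoin_singleton] at hr
  exact Subalgebra.mem_map.mp hr

theorem isIntegral_map_adjoin (φ : B →ₐ[A] B') {v z : B}
    (hz : IsIntegral (Algebra.adjoin A {v}) z) :
    IsIntegral (Algebra.adjoin A {φ v}) (φ z) := by
  obtain ⟨n, a, ha, h⟩ := exists_monic_rel_of_isIntegral _ hz
  refine isIntegral_of_monic_rel (φ z) n (fun i => φ (a i))
    (fun i _ => isIntegral_of_mem_subalgebra _ (map_mem_adjoin_singleton φ (ha i))) ?_
  have h' := congrArg φ h
  simpa [map_add, map_sum, map_mul, map_pow] using h'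

theorem map_mem_cuspOnes (φ : B →ₐ[A] B') {v t : B} (ht : t ∈ cuspOnes A v) :
    φ t ∈ cuspOnes A (φ v) := by
  obtain ⟨r, hr, rfl⟩ := ht
  exact ⟨φ r, map_mem_adjoin_singleton φ hr, by simp⟩

theorem map_mem_cuspRing (φ : B →ₐ[A] B') {v z : B} (hz : z ∈ cuspRing A v) :
    φ z ∈ cuspRing A (φ v) := by
  obtain ⟨t, ht, hz⟩ := hz
  refine ⟨φ t, map_mem_cuspOnes φ ht, ?_⟩
  rw [← map_mul]
  exact isIntegral_map_adjoin φ hz

end Map

/-! ## The two charts along `β` (the structure map of `F'` over `F`) -/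

section Tower

variable {A F F' : Type*} [CommRing A] [CommRing F] [CommRing F'] [Algebra A F] [Algebra A F']
  [Algebra F F'] [IsScalarTower A F F']

/-- integrality over `A[β u] ⊆ F'` is integrality over `A[u] ⊆ F` acting through `β`. -/
theorem isIntegral_adjoin_of_isIntegral_adjoin_algebraMap {u : F} {w : F'}
    (hw : IsIntegral (Algebra.adjoin A {algebraMap F F' u}) w) :
    IsIntegral (Algebra.adjoin A {u}) w := by
  obtain ⟨n, a', ha', h⟩ := exists_monic_rel_of_isIntegral _ hw
  have hex : ∀ i, ∃ a ∈ Algebra.adjoin A {u}, algebraMap F F' a = a' i := fun i =>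
    exists_of_mem_adjoin_map (IsScalarTower.toAlgHom A F F') (ha' i)
  choose a ha haa using hex
  refine isIntegral_of_monic_rel w n a' (fun i _ => ?_) h
  rw [← haa i]
  exact isIntegral_algebraMap (x := (⟨a i, ha i⟩ : Algebra.adjoin A {u}))

/-- (C1), element form: the finite chart (integral closure of `A[j]`) is stable under `α`
followed by "integral over `β`". -/
theorem isIntegral_adjoin_of_finite_chart (α : F →ₐ[A] F') {j : F}
    (hα : IsIntegral (Algebra.adjoin A {algebraMap F F' j}) (α j))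
    {h : F} (hh : IsIntegral (Algebra.adjoin A {j}) h) :
    IsIntegral (Algebra.adjoin A {j}) (α h) := by
  have h1 : IsIntegral (Algebra.adjoin A {α j}) (α h) := isIntegral_map_adjoin α hh
  have h2 : ∀ p ∈ Algebra.adjoin A {α j},
      IsIntegral (Algebra.adjoin A {algebraMap F F' j}) p := by
    intro p hp
    induction hp using Algebra.adjoin_induction with
    | mem x hx =>
      rw [Set.mem_singleton_iff.mp hx]
      exact hα
    | algebraMap r => exact isIntegral_of_mem_subalgebra _ (Subalgebra.algebraMap_mem _ r)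
    | add x y _ _ hx hy => exact hx.add hy
    | mul x y _ _ hx hy => exact hx.mul hy
  obtain ⟨n, a, ha, hrel⟩ := exists_monic_rel_of_isIntegral _ h1
  have h3 : IsIntegral (Algebra.adjoin A {algebraMap F F' j}) (α h) :=
    isIntegral_of_monic_rel (α h) n a (fun i _ => h2 _ (ha i)) hrel
  exact isIntegral_adjoin_of_isIntegral_adjoin_algebraMap h3

end Tower

section Charpoly

variable {A F F' : Type*} [CommRing A] [Field F] [CommRing F'] [Algebra A F] [Algebra A F']
  [Algebra F F'] [IsScalarTower A F F']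

/-- **(C1)** finite chart: if `α j` is integral over `A[β j]` and `h` is integral over `A[j]`,
then every coefficient of the characteristic polynomial of `α h` over `F` (acting through `β`)
is integral over `A[j]`. -/
theorem finiteChart_charpoly_coeff [Module.Finite F F'] (α : F →ₐ[A] F') {j : F}
    (hα : IsIntegral (Algebra.adjoin A {algebraMap F F' j}) (α j))
    {h : F} (hh : IsIntegral (Algebra.adjoin A {j}) h) (i : ℕ) :
    IsIntegral (Algebra.adjoin A {j}) ((Algebra.lmul F F' (α h)).charpoly.coeff i) :=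
  isIntegral_charpoly_lmul_coeff (isIntegral_adjoin_of_finite_chart α hα hh) i

/-- an element of the cusp ring of `β u` in `F'` is integral over the cusp ring of `u` in `F`. -/
theorem isIntegral_cuspRing_of_mem_cuspRing_algebraMap {u : F} {w : F'}
    (hw : w ∈ cuspRing A (algebraMap F F' u)) (h0 : (0 : F) ∉ cuspOnes A u) :
    IsIntegral (cuspRing A u) w := by
  obtain ⟨t, ⟨r', hr', rfl⟩, hint⟩ := hw
  obtain ⟨r, hr, rfl⟩ := exists_of_mem_adjoin_map (IsScalarTower.toAlgHom A F F') hr'
  obtain ⟨n, a', ha', hrel⟩ := exists_monic_rel_of_isIntegral _ hint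
  have hex : ∀ i, ∃ a ∈ Algebra.adjoin A {u}, algebraMap F F' a = a' i := fun i =>
    exists_of_mem_adjoin_map (IsScalarTower.toAlgHom A F F') (ha' i)
  choose a ha haa using hex
  have ht₀ : 1 + u * r ∈ cuspOnes A u := ⟨r, hr, rfl⟩
  have ht₀ne : 1 + u * r ≠ 0 := fun h => h0 (h ▸ ht₀)
  -- the coefficients `a i / t₀ ^ (n - i)` lie in the cusp ring
  have hc : ∀ i, a i * ((1 + u * r)⁻¹) ^ (n - i) ∈ cuspRing A u := fun i =>
    ⟨(1 + u * r) ^ (n - i), pow_mem ht₀ _, by
      have e : (1 + u * r) ^ (n - i) * (a i * ((1 + u * r)⁻¹) ^ (n - i)) = a i := by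
        rw [mul_comm (a i), ← mul_assoc, ← mul_pow, mul_inv_cancel₀ ht₀ne, one_pow, one_mul]
      rw [e]
      exact isIntegral_of_mem_subalgebra _ (ha i)⟩
  refine isIntegral_of_monic_rel w n
    (fun i => algebraMap F F' (a i * ((1 + u * r)⁻¹) ^ (n - i))) (fun i _ => ?_) ?_
  · exact isIntegral_algebraMap (x := (⟨_, hc i⟩ : cuspRing A u))
  · have hβt : algebraMap F F' ((1 + u * r)⁻¹) * (1 + algebraMap F F' u * algebraMap F F' r) = 1 := by
      rw [← map_mul, ← map_one (algebraMap F F'), ← map_add, ← map_mul, inv_mul_cancel₀ ht₀ne]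
    have hrel' : ((1 + algebraMap F F' u * algebraMap F F' r) * w) ^ n
        + ∑ i ∈ Finset.range n, a' i * ((1 + algebraMap F F' u * algebraMap F F' r) * w) ^ i = 0 := hrel
    have e : w ^ n + ∑ i ∈ Finset.range n,
          algebraMap F F' (a i * ((1 + u * r)⁻¹) ^ (n - i)) * w ^ i
        = (algebraMap F F' ((1 + u * r)⁻¹)) ^ n
          * (((1 + algebraMap F F' u * algebraMap F F' r) * w) ^ n
            + ∑ i ∈ Finset.range n,
              a' i * ((1 + algebraMap F F' u * algebraMap F F' r) * w) ^ i) := by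
      rw [mul_add, Finset.mul_sum, ← mul_pow, ← mul_assoc, hβt, one_mul]
      congr 1
      refine Finset.sum_congr rfl fun i hi => ?_
      have hi' := Finset.mem_range.mp hi
      have e1 : (algebraMap F F' ((1 + u * r)⁻¹)) ^ n
          = (algebraMap F F' ((1 + u * r)⁻¹)) ^ (n - i) * (algebraMap F F' ((1 + u * r)⁻¹)) ^ i := by
        rw [← pow_add]
        congr 1
        omega
      have e2 : (algebraMap F F' ((1 + u * r)⁻¹)) ^ i
          * ((1 + algebraMap F F' u * algebraMap F F' r) * w) ^ i = w ^ i := by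
        rw [← mul_pow, ← mul_assoc, hβt, one_mul]
      rw [e1, map_mul, map_pow, haa i]
      linear_combination (-(a' i * algebraMap F F' ((1 + u * r)⁻¹) ^ (n - i))) * e2
    rw [e, hrel', mul_zero]

/-- **(C2)** cusp chart: if `β j` is integral over `A[α j]`, `u = 1/j` and `h` lies in the cusp
ring of `u`, then every coefficient of the characteristic polynomial of `α h` over `F` (acting
through `β`) lies in the cusp ring of `u`. -/
theorem cuspRing_charpoly_coeff_mem [Module.Finite F F'] (α : F →ₐ[A] F') {j u : F}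
    (hju : j * u = 1) (hβ : IsIntegral (Algebra.adjoin A {α j}) (algebraMap F F' j))
    {h : F} (hh : h ∈ cuspRing A u) (i : ℕ) :
    (Algebra.lmul F F' (α h)).charpoly.coeff i ∈ cuspRing A u := by
  by_cases h0 : (0 : F) ∈ cuspOnes A u
  · exact cuspRing_eq_top_of_zero_mem h0 _
  · have h1 : α h ∈ cuspRing A (α u) := map_mem_cuspRing α hh
    have h2 : α h ∈ cuspRing A (algebraMap F F' u) :=
      cuspRing_le_of_isIntegral (x := α j) (u' := α u) (y := algebraMap F F' j)
        (v := algebraMap F F' u) (by rw [← map_mul, hju, map_one])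
        (by rw [← map_mul, hju, map_one]) hβ h1
    have h3 : IsIntegral (cuspRing A u) (α h) :=
      isIntegral_cuspRing_of_mem_cuspRing_algebraMap h2 h0
    have h4 := isIntegral_charpoly_lmul_coeff (K := F) h3 i
    exact mem_cuspRing_of_isIntegral_of_le le_rfl h4

end Charpoly

section CharpolyMore

variable {A F F' : Type*} [CommRing A] [Field F] [CommRing F'] [Algebra A F] [Algebra A F']
  [Algebra F F'] [IsScalarTower A F F']

/-- (C1), norm form. -/
theorem finiteChart_norm [Module.Finite F F'] (α : F →ₐ[A] F') {j : F}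
    (hα : IsIntegral (Algebra.adjoin A {algebraMap F F' j}) (α j))
    {h : F} (hh : IsIntegral (Algebra.adjoin A {j}) h) :
    IsIntegral (Algebra.adjoin A {j}) (Algebra.norm F (α h)) := by
  rw [Algebra.norm_apply, LinearMap.det_eq_sign_charpoly_coeff]
  exact ((isIntegral_one.neg).pow _).mul (finiteChart_charpoly_coeff α hα hh 0)

/-- (C2), norm form. -/
theorem cuspRing_norm_mem [Module.Finite F F'] (α : F →ₐ[A] F') {j u : F}
    (hju : j * u = 1) (hβ : IsIntegral (Algebra.adjoin A {α j}) (algebraMap F F' j))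
    {h : F} (hh : h ∈ cuspRing A u) : Algebra.norm F (α h) ∈ cuspRing A u := by
  rw [Algebra.norm_apply, LinearMap.det_eq_sign_charpoly_coeff]
  exact mul_mem (pow_mem (neg_mem (one_mem _)) _) (cuspRing_charpoly_coeff_mem α hju hβ hh 0)

/-- (C2), uniform form: one `t ∈ 1 + u A[u]` clears all coefficients. -/
theorem exists_cuspOnes_charpoly_coeff [Module.Finite F F'] (α : F →ₐ[A] F') {j u : F}
    (hju : j * u = 1) (hβ : IsIntegral (Algebra.adjoin A {α j}) (algebraMap F F' j))
    {h : F} (hh : h ∈ cuspRing A u) :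
    ∃ t ∈ cuspOnes A u, ∀ i, IsIntegral (Algebra.adjoin A {u})
      (t * (Algebra.lmul F F' (α h)).charpoly.coeff i) := by
  obtain ⟨T, hT, hTc⟩ := exists_common_cuspOnes
    (fun i => (Algebra.lmul F F' (α h)).charpoly.coeff i)
    ((Algebra.lmul F F' (α h)).charpoly.natDegree + 1)
    (fun i _ => cuspRing_charpoly_coeff_mem α hju hβ hh i)
  refine ⟨T, hT, fun i => ?_⟩
  by_cases hi : i < (Algebra.lmul F F' (α h)).charpoly.natDegree + 1
  · exact hTc i hi
  · rw [Polynomial.coeff_eq_zero_of_natDegree_lt (by omega), mul_zero]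
    exact isIntegral_zero

/-- (C1), `LinearMap.mulLeft` form. -/
theorem finiteChart_charpoly_mulLeft_coeff [Module.Finite F F'] (α : F →ₐ[A] F') {j : F}
    (hα : IsIntegral (Algebra.adjoin A {algebraMap F F' j}) (α j))
    {h : F} (hh : IsIntegral (Algebra.adjoin A {j}) h) (i : ℕ) :
    IsIntegral (Algebra.adjoin A {j}) ((LinearMap.mulLeft F (α h)).charpoly.coeff i) :=
  finiteChart_charpoly_coeff α hα hh i

/-- (C2), `LinearMap.mulLeft` form. -/
theorem cuspRing_charpoly_mulLeft_coeff_mem [Module.Finite F F'] (α : F →ₐ[A] F') {j u : F}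
    (hju : j * u = 1) (hβ : IsIntegral (Algebra.adjoin A {α j}) (algebraMap F F' j))
    {h : F} (hh : h ∈ cuspRing A u) (i : ℕ) :
    (LinearMap.mulLeft F (α h)).charpoly.coeff i ∈ cuspRing A u :=
  cuspRing_charpoly_coeff_mem α hju hβ hh i

end CharpolyMore

/-! ## Bridge to the `RingHom.IsIntegralElem` vocabulary -/

section Bridge

variable {A B : Type*} [CommRing A] [CommRing B] [Algebra A B]

/-- integral over `A[v]` = integral for the evaluation hom `A[X] → B`, `X ↦ v`. -/
theorem isIntegral_adjoin_singleton_iff {v z : B} :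
    IsIntegral (Algebra.adjoin A {v}) z ↔
      (Polynomial.eval₂RingHom (algebraMap A B) v).IsIntegralElem z := by
  constructor
  · intro hz
    obtain ⟨n, a, ha, hrel⟩ := exists_monic_rel_of_isIntegral _ hz
    have hex : ∀ i, ∃ P : A[X], Polynomial.eval₂RingHom (algebraMap A B) v P = a i := by
      intro i
      have h1 := ha i
      rw [Algebra.adjoin_singleton_eq_range_aeval] at h1
      obtain ⟨P, hP⟩ := h1
      exact ⟨P, hP⟩
    choose P hP using hex
    let _ : Algebra A[X] B := (Polynomial.eval₂RingHom (algebraMap A B) v).toAlgebra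
    have h2 : IsIntegral A[X] z :=
      isIntegral_of_monic_rel z n a (fun i _ => by
        rw [← hP i]
        exact isIntegral_algebraMap (R := A[X]) (A := B) (x := P i)) hrel
    exact h2
  · rintro ⟨p, hp, hpz⟩
    rw [Polynomial.eval₂_eq_sum_range, Finset.sum_range_succ, hp.coeff_natDegree, map_one,
      one_mul, add_comm] at hpz
    refine isIntegral_of_monic_rel z p.natDegree
      (fun i => Polynomial.eval₂RingHom (algebraMap A B) v (p.coeff i)) (fun i _ => ?_) hpz
    refine isIntegral_of_mem_subalgebra _ ?_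
    rw [Algebra.adjoin_singleton_eq_range_aeval]
    exact ⟨p.coeff i, rfl⟩

end Bridge

end Fermat.Agent.S37.helper3258
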