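/-
S37 plan module C4 REDNORM (helper3285): characteristic polynomial, norm and trace commute with
reduction in a valued field extension that has an orthonormal basis ("equal degrees").

Setting: `F` a field with a valuation `v`, `M` a field with `Algebra M F` (the base, e.g. the
line `L(x')`), reduction data in the model-agnostic style of `helper1733.isIntegral_red_of_isIntegral`:
ring homs `ιO : OO →+* F`, `ιA : AA →+* M` whose images are the elements of value `≤ 1`,
reductions `red : OO →+* Fk`, `res : AA →+* Mk` whose kernels are the elements of value `< 1`,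
both onto, and `j : AA →+* OO` compatible with `M → F` and with `Mk → Fk`.

Main results (`D : RedData v ιO ιA j red res`):
* `RedData.isOrtho_of_linearIndependent` : lifts of a residually independent family are orthonormal;
* `RedData.exists_isOrtho_basis` : if `finrank M F ≤ finrank Mk Fk` there is an orthonormal basis;
* `RedData.redBasis` : the residues of an orthonormal basis form a basis of `Fk` over `Mk`;
  `RedData.finrank_eq`;
* `RedData.leftMulMatrix_red` : the matrix of multiplication by `red f` is the reduced matrix;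
* `RedData.norm_red`, `RedData.trace_red`, `RedData.charpoly_red`,
  `RedData.mulLeft_charpoly_red` : norm, trace, characteristic polynomial commute with reduction.
Everything builds on the landed S18 kit `helper1733_ValuedKit` (`IsOrtho`).

Constructors (section `Canonical`): `RedData.ofValuation`, `RedData.ofValuationSubring`,
`RedData.ofValuation'` (for `W : ValuationSubring F`, the base ring is `W.comap (algebraMap M F)`,
the inclusion is `comapIncl M W`, only `red`, `res` and their compatibility are supplied), and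
`RedData.canonical` (both residue fields are `IsLocalRing.ResidueField`).

The line instance (section `Line`): for a valuation ring `O` of `F ⊇ K` with a reduction map
`red : O →+* Fk ⊇ k` over constants (`RedConst K k O red`) and `x ∈ O` with `ξ = red x`
transcendental over `k`: `RedConst.resTranscendental` (Gauss valuation on `K(x)`),
`RedConst.lineRes : O ∩ K(x) →+* k(ξ)` (onto), `RedConst.lineRedData`, and the consumer forms
`RedConst.norm_red_line` (= hypothesis `hnorm` of `helper815.sum_fiber_red_eq`),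
`trace_red_line`, `charpoly_red_line`, `norm_red_line_poly`, `exists_isOrtho_basis_line`,
`norm_red_line_of_finrank_le`, `finrank_line_eq`.
-/
import Mathlib
import Fermat.Agent.S18.helper1733_ValuedKit

set_option autoImplicit false

namespace Fermat.Agent.S37.helper3285

open Polynomial
open Fermat.Agent.S18.helper1733

/-- Reduction data for a valued field extension `F / M`: the elements of value `≤ 1` of `F`
(resp. `M`) are the image of `ιO` (resp. `ιA`), the reductions `red`, `res` are onto with kernel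
the elements of value `< 1`, and `j` is compatible with `M → F` and `Mk → Fk`. -/
structure RedData {F : Type*} [Field F] {Γ₀ : Type*} [LinearOrderedCommGroupWithZero Γ₀]
    (v : Valuation F Γ₀) {M : Type*} [Field M] [Algebra M F]
    {OO AA Fk Mk : Type*} [CommRing OO] [CommRing AA] [Field Fk] [Field Mk] [Algebra Mk Fk]
    (ιO : OO →+* F) (ιA : AA →+* M) (j : AA →+* OO) (red : OO →+* Fk) (res : AA →+* Mk) :
    Prop where
  injO : Function.Injective ιO
  leO : ∀ x, v (ιO x) ≤ 1
  rangeO : ∀ f : F, v f ≤ 1 → f ∈ Set.range ιO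
  redZero : ∀ x, red x = 0 ↔ v (ιO x) < 1
  rangeA : ∀ a : M, v (algebraMap M F a) ≤ 1 → a ∈ Set.range ιA
  resZero : ∀ a, res a = 0 ↔ v (algebraMap M F (ιA a)) < 1
  compO : ∀ a, ιO (j a) = algebraMap M F (ιA a)
  compRed : ∀ a, red (j a) = algebraMap Mk Fk (res a)
  surjRes : Function.Surjective res
  surjRed : Function.Surjective red

namespace RedData

variable {F : Type*} [Field F] {Γ₀ : Type*} [LinearOrderedCommGroupWithZero Γ₀]
  {v : Valuation F Γ₀} {M : Type*} [Field M] [Algebra M F]
  {OO AA Fk Mk : Type*} [CommRing OO] [CommRing AA] [Field Fk] [Field Mk] [Algebra Mk Fk]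
  {ιO : OO →+* F} {ιA : AA →+* M} {j : AA →+* OO} {red : OO →+* Fk} {res : AA →+* Mk}

section Basic

variable (D : RedData v ιO ιA j red res)
include D

/-- `res` only depends on the image in `M`. -/
theorem res_eq_of_eq {a b : AA} (h : ιA a = ιA b) : res a = res b := by
  rw [← sub_eq_zero, ← map_sub, D.resZero, map_sub, h, sub_self, map_zero, map_zero]
  exact zero_lt_one

/-- `red` only depends on the image in `F`. -/
theorem red_eq_of_eq {a b : OO} (h : ιO a = ιO b) : red a = red b := by
  rw [D.injO h]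

/-- the elements of `AA` have value `≤ 1`. -/
theorem leA (a : AA) : v (algebraMap M F (ιA a)) ≤ 1 := by
  rw [← D.compO]
  exact D.leO _

/-- `red x` is nonzero iff `x` has value one. -/
theorem red_ne_zero_iff (x : OO) : red x ≠ 0 ↔ v (ιO x) = 1 := by
  rw [Ne, D.redZero, not_lt]
  exact ⟨fun h => le_antisymm (D.leO x) h, fun h => h.ge⟩

/-- **(RN1)** Lifts of a residually independent family are orthonormal. -/
theorem isOrtho_of_linearIndependent {κ : Type*} (bO : κ → OO)
    (hli : LinearIndependent Mk (fun i => red (bO i))) :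
    IsOrtho v M (fun i => ιO (bO i)) := by
  classical
  refine isOrtho_of_unitForm fun s c hc hk => ?_
  obtain ⟨k, hk, hk1⟩ := hk
  have hlift : ∀ i, ∃ a : AA, i ∈ s → ιA a = c i := by
    intro i
    by_cases hi : i ∈ s
    · obtain ⟨a, ha⟩ := D.rangeA (c i) (hc i hi)
      exact ⟨a, fun _ => ha⟩
    · exact ⟨0, fun h => absurd h hi⟩
  choose a ha using hlift
  have hsum : ∑ i ∈ s, c i • ιO (bO i) = ιO (∑ i ∈ s, j (a i) * bO i) := by
    rw [map_sum]
    refine Finset.sum_congr rfl fun i hi => ?_
    rw [map_mul, D.compO, ha i hi, Algebra.smul_def]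
  rw [hsum]
  refine le_antisymm (D.leO _) (not_lt.mp fun hlt => ?_)
  have h0 : red (∑ i ∈ s, j (a i) * bO i) = 0 := (D.redZero _).mpr hlt
  rw [map_sum] at h0
  have h0' : ∑ i ∈ s, res (a i) • red (bO i) = 0 := by
    rw [← h0]
    refine Finset.sum_congr rfl fun i _ => ?_
    rw [map_mul, D.compRed, Algebra.smul_def]
  have hk0 : res (a k) = 0 := linearIndependent_iff'.mp hli s (fun i => res (a i)) h0' k hk
  have hlt' := (D.resZero _).mp hk0
  rw [ha k hk, hk1] at hlt'
  exact lt_irrefl _ hlt'

/-- The residues of an orthonormal family are linearly independent. -/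
theorem linearIndependent_red {κ : Type*} {u : κ → F} (hu : IsOrtho v M u) (bO : κ → OO)
    (hbO : ∀ i, ιO (bO i) = u i) : LinearIndependent Mk (fun i => red (bO i)) := by
  classical
  rw [linearIndependent_iff']
  intro s c hc k hk
  choose a ha using fun i => D.surjRes (c i)
  have h0 : red (∑ i ∈ s, j (a i) * bO i) = 0 := by
    rw [map_sum, ← hc]
    refine Finset.sum_congr rfl fun i _ => ?_
    rw [map_mul, D.compRed, ha, Algebra.smul_def]
  have hlt := (D.redZero _).mp h0
  have hsum : ιO (∑ i ∈ s, j (a i) * bO i) = ∑ i ∈ s, ιA (a i) • u i := by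
    rw [map_sum]
    refine Finset.sum_congr rfl fun i _ => ?_
    rw [map_mul, D.compO, hbO, Algebra.smul_def]
  rw [hsum] at hlt
  have hlt' := (hu.coeff_le s (fun i => ιA (a i)) hk).trans_lt hlt
  rw [← ha k]
  exact (D.resZero _).mpr hlt'

end Basic

section Basis

variable (D : RedData v ιO ιA j red res) {ι : Type*} [Fintype ι]
include D

/-- The residues of an orthonormal basis span the residue field. -/
theorem span_red_eq_top (bb : Module.Basis ι M F) (hb : IsOrtho v M bb) (bO : ι → OO)
    (hbO : ∀ i, ιO (bO i) = bb i) :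
    Submodule.span Mk (Set.range fun i => red (bO i)) = ⊤ := by
  classical
  rw [eq_top_iff]
  rintro y -
  obtain ⟨fO, rfl⟩ := D.surjRed y
  have hc : ∀ i, v (algebraMap M F (bb.repr (ιO fO) i)) ≤ 1 := fun i => by
    have h := hb.coeff_le_univ (fun i => bb.repr (ιO fO) i) i
    rw [bb.sum_repr] at h
    exact h.trans (D.leO fO)
  choose a ha using fun i => D.rangeA _ (hc i)
  have hf : fO = ∑ i, j (a i) * bO i := by
    apply D.injO
    rw [map_sum]
    conv_lhs => rw [← bb.sum_repr (ιO fO)]
    refine Finset.sum_congr rfl fun i _ => ?_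
    rw [map_mul, D.compO, hbO, ha, Algebra.smul_def]
  rw [hf, map_sum]
  refine Submodule.sum_mem _ fun i _ => ?_
  rw [map_mul, D.compRed, ← Algebra.smul_def]
  exact Submodule.smul_mem _ _ (Submodule.subset_span ⟨i, rfl⟩)

/-- **(RN2)** The residues of an orthonormal basis form a basis of the residue field. -/
noncomputable def redBasis (bb : Module.Basis ι M F) (hb : IsOrtho v M bb) (bO : ι → OO)
    (hbO : ∀ i, ιO (bO i) = bb i) : Module.Basis ι Mk Fk :=
  Module.Basis.mk (D.linearIndependent_red hb bO hbO) (D.span_red_eq_top bb hb bO hbO).ge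

@[simp]
theorem redBasis_apply (bb : Module.Basis ι M F) (hb : IsOrtho v M bb) (bO : ι → OO)
    (hbO : ∀ i, ιO (bO i) = bb i) (i : ι) : D.redBasis bb hb bO hbO i = red (bO i) := by
  rw [redBasis, Module.Basis.mk_apply]

/-- Equal degrees: the residue extension has the same degree. -/
theorem finrank_eq (bb : Module.Basis ι M F) (hb : IsOrtho v M bb) :
    Module.finrank Mk Fk = Module.finrank M F := by
  classical
  choose bO hbO using fun i => D.rangeO (bb i) (hb.le_one i)
  rw [Module.finrank_eq_card_basis (D.redBasis bb hb bO hbO), Module.finrank_eq_card_basis bb]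

/-- The residue extension is finite. -/
theorem finite_residue (bb : Module.Basis ι M F) (hb : IsOrtho v M bb) : Module.Finite Mk Fk := by
  classical
  choose bO hbO using fun i => D.rangeO (bb i) (hb.le_one i)
  exact Module.Finite.of_basis (D.redBasis bb hb bO hbO)

end Basis

section Matrix

variable (D : RedData v ιO ιA j red res) {ι : Type*} [Fintype ι] [DecidableEq ι]
include D

/-- In an orthonormal basis the matrix of multiplication by an element of value `≤ 1` lifts to
a matrix over `AA`. -/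
theorem exists_matrix (bb : Module.Basis ι M F) (hb : IsOrtho v M bb) {f : F} (hf : v f ≤ 1) :
    ∃ N : Matrix ι ι AA, ∀ i k, ιA (N i k) = Algebra.leftMulMatrix bb f i k := by
  choose N hN using fun i k => D.rangeA _ (hb.leftMulMatrix_le_one bb hf i k)
  exact ⟨N, hN⟩

/-- **(RN2)** The matrix of multiplication by `red f` in the residue basis is the reduction of
the matrix of multiplication by `f` in the orthonormal basis. -/
theorem leftMulMatrix_red (bb : Module.Basis ι M F) (hb : IsOrtho v M bb) (bO : ι → OO)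
    (hbO : ∀ i, ιO (bO i) = bb i) (fO : OO) (N : Matrix ι ι AA)
    (hN : ∀ i k, ιA (N i k) = Algebra.leftMulMatrix bb (ιO fO) i k) :
    Algebra.leftMulMatrix (D.redBasis bb hb bO hbO) (red fO) = N.map res := by
  ext i k
  rw [Algebra.leftMulMatrix_eq_repr_mul, Matrix.map_apply]
  have key : fO * bO k = ∑ i, j (N i k) * bO i := by
    apply D.injO
    rw [map_mul, map_sum, hbO]
    conv_lhs => rw [← bb.sum_repr (ιO fO * bb k)]
    refine Finset.sum_congr rfl fun i _ => ?_
    rw [RingHom.map_mul ιO, D.compO, hbO, hN, Algebra.leftMulMatrix_eq_repr_mul,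
      Algebra.smul_def]
  have key2 : red fO * D.redBasis bb hb bO hbO k
      = ∑ i, res (N i k) • D.redBasis bb hb bO hbO i := by
    simp only [redBasis_apply]
    rw [← map_mul, key, map_sum]
    refine Finset.sum_congr rfl fun i _ => ?_
    rw [map_mul, D.compRed, Algebra.smul_def]
  rw [key2, Module.Basis.repr_sum_self]

/-- **(RN3, norm)** The norm commutes with reduction: any lift `nA` of `Algebra.norm M f`
reduces to the norm of `red f` over the residue field of the base. -/
theorem norm_red (bb : Module.Basis ι M F) (hb : IsOrtho v M bb) (fO : OO) (nA : AA)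
    (hn : ιA nA = Algebra.norm M (ιO fO)) : Algebra.norm Mk (red fO) = res nA := by
  choose bO hbO using fun i => D.rangeO (bb i) (hb.le_one i)
  obtain ⟨N, hN⟩ := D.exists_matrix bb hb (D.leO fO)
  rw [Algebra.norm_eq_matrix_det (D.redBasis bb hb bO hbO), D.leftMulMatrix_red bb hb bO hbO fO N hN]
  have h1 : (N.map res).det = res N.det := by
    rw [RingHom.map_det]; rfl
  rw [h1]
  refine D.res_eq_of_eq ?_
  rw [hn, Algebra.norm_eq_matrix_det bb, RingHom.map_det]
  congr 1
  ext i k
  exact hN i k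

/-- The norm of an element of value `≤ 1` has value `≤ 1` (it lifts to `AA`). -/
theorem exists_norm_lift (bb : Module.Basis ι M F) (hb : IsOrtho v M bb) {f : F} (hf : v f ≤ 1) :
    ∃ nA : AA, ιA nA = Algebra.norm M f := by
  obtain ⟨N, hN⟩ := D.exists_matrix bb hb hf
  refine ⟨N.det, ?_⟩
  rw [Algebra.norm_eq_matrix_det bb, RingHom.map_det]
  congr 1
  ext i k
  exact hN i k

/-- The norm of an element of value `≤ 1` has value `≤ 1`. -/
theorem norm_le_one (bb : Module.Basis ι M F) (hb : IsOrtho v M bb) {f : F} (hf : v f ≤ 1) :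
    v (algebraMap M F (Algebra.norm M f)) ≤ 1 := by
  obtain ⟨nA, hn⟩ := D.exists_norm_lift bb hb hf
  rw [← hn]
  exact D.leA nA

/-- The norm of an element of value `1` has value `1`. -/
theorem norm_eq_one (bb : Module.Basis ι M F) (hb : IsOrtho v M bb) {f : F} (hf : v f = 1) :
    v (algebraMap M F (Algebra.norm M f)) = 1 := by
  have hf0 : f ≠ 0 := by
    intro h
    rw [h, map_zero] at hf
    exact zero_ne_one hf
  have hinv : v f⁻¹ = 1 := by rw [map_inv₀, hf, inv_one]
  have h1 := D.norm_le_one bb hb hf.le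
  have h2 := D.norm_le_one bb hb hinv.le
  have hmul : v (algebraMap M F (Algebra.norm M f)) * v (algebraMap M F (Algebra.norm M f⁻¹))
      = 1 := by
    rw [← map_mul, ← map_mul, ← map_mul, mul_inv_cancel₀ hf0, map_one, map_one, map_one]
  refine le_antisymm h1 ?_
  calc (1 : Γ₀) = v (algebraMap M F (Algebra.norm M f)) * v (algebraMap M F (Algebra.norm M f⁻¹)) :=
        hmul.symm
    _ ≤ v (algebraMap M F (Algebra.norm M f)) * 1 := mul_le_mul' le_rfl h2
    _ = v (algebraMap M F (Algebra.norm M f)) := mul_one _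

/-- **(RN3, trace)** The trace commutes with reduction. -/
theorem trace_red (bb : Module.Basis ι M F) (hb : IsOrtho v M bb) (fO : OO) (tA : AA)
    (ht : ιA tA = Algebra.trace M F (ιO fO)) : Algebra.trace Mk Fk (red fO) = res tA := by
  choose bO hbO using fun i => D.rangeO (bb i) (hb.le_one i)
  obtain ⟨N, hN⟩ := D.exists_matrix bb hb (D.leO fO)
  rw [Algebra.trace_eq_matrix_trace (D.redBasis bb hb bO hbO),
    D.leftMulMatrix_red bb hb bO hbO fO N hN]
  have h1 : (N.map res).trace = res N.trace := by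
    rw [Matrix.trace, Matrix.trace, map_sum]
    rfl
  rw [h1]
  refine D.res_eq_of_eq ?_
  rw [ht, Algebra.trace_eq_matrix_trace bb, Matrix.trace, Matrix.trace, map_sum]
  refine Finset.sum_congr rfl fun i _ => ?_
  exact hN i i

/-- The trace of an element of value `≤ 1` lifts to `AA`. -/
theorem exists_trace_lift (bb : Module.Basis ι M F) (hb : IsOrtho v M bb) {f : F}
    (hf : v f ≤ 1) : ∃ tA : AA, ιA tA = Algebra.trace M F f := by
  obtain ⟨N, hN⟩ := D.exists_matrix bb hb hf
  refine ⟨N.trace, ?_⟩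
  rw [Algebra.trace_eq_matrix_trace bb, Matrix.trace, Matrix.trace, map_sum]
  refine Finset.sum_congr rfl fun i _ => ?_
  exact hN i i

/-- The characteristic polynomial of multiplication by an element of value `≤ 1` lifts to
`AA[X]` (monic of the same degree). -/
theorem exists_charpoly_lift (bb : Module.Basis ι M F) (hb : IsOrtho v M bb) {f : F}
    (hf : v f ≤ 1) : ∃ P : AA[X], P.Monic ∧ P.map ιA = (Algebra.leftMulMatrix bb f).charpoly := by
  obtain ⟨N, hN⟩ := D.exists_matrix bb hb hf
  refine ⟨N.charpoly, Matrix.charpoly_monic N, ?_⟩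
  rw [← Matrix.charpoly_map]
  congr 1
  ext i k
  exact hN i k

/-- **(RN3, characteristic polynomial, matrix form)** Any lift `P` of the characteristic
polynomial of multiplication by `f` (in the orthonormal basis) reduces to the characteristic
polynomial of multiplication by `red f` (in the residue basis). -/
theorem charpoly_red (bb : Module.Basis ι M F) (hb : IsOrtho v M bb) (bO : ι → OO)
    (hbO : ∀ i, ιO (bO i) = bb i) (fO : OO) (P : AA[X])
    (hP : P.map ιA = (Algebra.leftMulMatrix bb (ιO fO)).charpoly) :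
    (Algebra.leftMulMatrix (D.redBasis bb hb bO hbO) (red fO)).charpoly = P.map res := by
  obtain ⟨N, hN⟩ := D.exists_matrix bb hb (D.leO fO)
  rw [D.leftMulMatrix_red bb hb bO hbO fO N hN, Matrix.charpoly_map]
  have hNP : N.charpoly.map ιA = P.map ιA := by
    rw [hP, ← Matrix.charpoly_map]
    congr 1
    ext i k
    exact hN i k
  ext n
  rw [coeff_map, coeff_map]
  refine D.res_eq_of_eq ?_
  have := congrArg (fun q => q.coeff n) hNP
  simpa [coeff_map] using this

/-- **(RN3, characteristic polynomial, linear-map form)** Any lift `P` of the characteristic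
polynomial of `LinearMap.mulLeft M f` reduces to the characteristic polynomial of
`LinearMap.mulLeft Mk (red f)`. -/
theorem mulLeft_charpoly_red [Module.Finite M F] [Module.Finite Mk Fk]
    (bb : Module.Basis ι M F) (hb : IsOrtho v M bb) (fO : OO) (P : AA[X])
    (hP : P.map ιA = (LinearMap.mulLeft M (ιO fO)).charpoly) :
    (LinearMap.mulLeft Mk (red fO)).charpoly = P.map res := by
  choose bO hbO using fun i => D.rangeO (bb i) (hb.le_one i)
  have h1 : (Algebra.leftMulMatrix bb (ιO fO)).charpoly = (LinearMap.mulLeft M (ιO fO)).charpoly := by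
    rw [Algebra.leftMulMatrix_apply, LinearMap.charpoly_toMatrix]
    rfl
  have h2 : (Algebra.leftMulMatrix (D.redBasis bb hb bO hbO) (red fO)).charpoly
      = (LinearMap.mulLeft Mk (red fO)).charpoly := by
    rw [Algebra.leftMulMatrix_apply, LinearMap.charpoly_toMatrix]
    rfl
  rw [← h2]
  exact D.charpoly_red bb hb bO hbO fO P (hP.trans h1.symm)

/-- The characteristic polynomial of `LinearMap.mulLeft M f`, `v f ≤ 1`, lifts to `AA[X]`. -/
theorem exists_mulLeft_charpoly_lift [Module.Finite M F] (bb : Module.Basis ι M F)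
    (hb : IsOrtho v M bb) {f : F} (hf : v f ≤ 1) : ∃ P : AA[X], P.Monic ∧ P.map ιA = (LinearMap.mulLeft M f).charpoly := by
  obtain ⟨P, hPm, hP⟩ := D.exists_charpoly_lift bb hb hf
  refine ⟨P, hPm, hP.trans ?_⟩
  rw [Algebra.leftMulMatrix_apply, LinearMap.charpoly_toMatrix]
  rfl

end Matrix

section Exists

variable (D : RedData v ιO ιA j red res)
include D

/-- **(RN1, basis form)** `n = finrank M F` residually independent elements lift to an
orthonormal basis. -/
theorem exists_isOrtho_basis_of_linearIndependent [Module.Finite M F]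
    (bk : Fin (Module.finrank M F) → Fk) (hbk : LinearIndependent Mk bk) :
    ∃ bb : Module.Basis (Fin (Module.finrank M F)) M F, IsOrtho v M bb ∧
      ∃ bO : Fin (Module.finrank M F) → OO, (∀ i, ιO (bO i) = bb i) ∧ ∀ i, red (bO i) = bk i := by
  classical
  choose bO hbO using fun i => D.surjRed (bk i)
  have hli : LinearIndependent Mk (fun i => red (bO i)) := by
    have : (fun i => red (bO i)) = bk := funext hbO
    rw [this]; exact hbk
  have hortho := D.isOrtho_of_linearIndependent bO hli
  have hliF := hortho.linearIndependent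
  have : Nonempty (Fin (Module.finrank M F)) := ⟨⟨0, Module.finrank_pos⟩⟩
  refine ⟨basisOfLinearIndependentOfCardEqFinrank hliF (by simp), ?_, bO, fun i => ?_, hbO⟩
  · have : ⇑(basisOfLinearIndependentOfCardEqFinrank hliF (by simp)) = fun i => ιO (bO i) :=
      coe_basisOfLinearIndependentOfCardEqFinrank hliF _
    rw [this]
    exact hortho
  · rw [coe_basisOfLinearIndependentOfCardEqFinrank]

/-- **(RN1)** Equal degrees give an orthonormal basis: if the residue extension has degree at
least `finrank M F` (it is then equal), `F` has an orthonormal basis over `M`. -/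
theorem exists_isOrtho_basis [Module.Finite M F] [Module.Finite Mk Fk]
    (hdeg : Module.finrank M F ≤ Module.finrank Mk Fk) :
    ∃ bb : Module.Basis (Fin (Module.finrank M F)) M F, IsOrtho v M bb := by
  classical
  set bk := Module.finBasis Mk Fk
  have hli : LinearIndependent Mk (fun i : Fin (Module.finrank M F) => bk (Fin.castLE hdeg i)) :=
    bk.linearIndependent.comp _ (Fin.castLE_injective hdeg)
  obtain ⟨bb, hbb, -⟩ := D.exists_isOrtho_basis_of_linearIndependent _ hli
  exact ⟨bb, hbb⟩

end Exists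

end RedData

section Canonical

variable {F : Type*} [Field F]

/-- The inclusion of the valuation ring `W ∩ M` of the base `M` into the valuation ring `W`. -/
def comapIncl (M : Type*) [Field M] [Algebra M F] (W : ValuationSubring F) :
    ↥(W.comap (algebraMap M F)) →+* ↥W :=
  ((algebraMap M F).comp (W.comap (algebraMap M F)).subtype).codRestrict W.toSubring
    (fun a => a.2)

variable {M : Type*} [Field M] [Algebra M F]

@[simp]
theorem coe_comapIncl (W : ValuationSubring F) (a : ↥(W.comap (algebraMap M F))) :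
    ((comapIncl M W a : W) : F) = algebraMap M F (a : M) := rfl

/-- **Constructor, valuation shape.** `W` is the valuation ring of `v`, `red : W →+* Fk` is onto
with kernel the elements of value `< 1`, and `res : W ∩ M →+* Mk` is onto and compatible with
`red`. All other fields of `RedData` are automatic. -/
theorem RedData.ofValuation {Γ₀ : Type*} [LinearOrderedCommGroupWithZero Γ₀] (v : Valuation F Γ₀)
    (W : ValuationSubring F) (hW : ∀ f : F, f ∈ W ↔ v f ≤ 1)
    {Fk Mk : Type*} [Field Fk] [Field Mk] [Algebra Mk Fk]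
    (red : ↥W →+* Fk) (res : ↥(W.comap (algebraMap M F)) →+* Mk)
    (hred : Function.Surjective red) (hker : ∀ x : W, red x = 0 ↔ v (x : F) < 1)
    (hres : Function.Surjective res)
    (hcomp : ∀ a, red (comapIncl M W a) = algebraMap Mk Fk (res a)) :
    RedData v W.subtype (W.comap (algebraMap M F)).subtype (comapIncl M W) red res where
  injO := Subtype.val_injective
  leO x := (hW _).mp x.2
  rangeO f hf := ⟨⟨f, (hW f).mpr hf⟩, rfl⟩
  redZero := hker
  rangeA a ha := ⟨⟨a, (hW _).mpr ha⟩, rfl⟩
  resZero a := by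
    rw [← map_eq_zero_iff (algebraMap Mk Fk) (algebraMap Mk Fk).injective, ← hcomp, hker]
    rfl
  compO _ := rfl
  compRed := hcomp
  surjRes := hres
  surjRed := hred

/-- **Constructor, `ValuationSubring` shape**: `v = W.valuation`, `red` onto with kernel the
maximal ideal of `W`. -/
theorem RedData.ofValuationSubring (W : ValuationSubring F)
    {Fk Mk : Type*} [Field Fk] [Field Mk] [Algebra Mk Fk]
    (red : ↥W →+* Fk) (res : ↥(W.comap (algebraMap M F)) →+* Mk)
    (hred : Function.Surjective red) (hker : RingHom.ker red = IsLocalRing.maximalIdeal ↥W)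
    (hres : Function.Surjective res)
    (hcomp : ∀ a, red (comapIncl M W a) = algebraMap Mk Fk (res a)) :
    RedData W.valuation W.subtype (W.comap (algebraMap M F)).subtype (comapIncl M W) red res :=
  RedData.ofValuation W.valuation W (fun f => (W.valuation_le_one_iff f).symm) red res hred
    (fun x => by
      rw [← RingHom.mem_ker, hker, ← ValuationSubring.valuation_lt_one_iff])
    hres hcomp

/-- **Constructor for an arbitrary valuation `v`** with `W = v.valuationSubring`. -/
theorem RedData.ofValuation' {Γ₀ : Type*} [LinearOrderedCommGroupWithZero Γ₀] (v : Valuation F Γ₀)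
    {Fk Mk : Type*} [Field Fk] [Field Mk] [Algebra Mk Fk]
    (red : ↥v.valuationSubring →+* Fk)
    (res : ↥(v.valuationSubring.comap (algebraMap M F)) →+* Mk)
    (hred : Function.Surjective red) (hker : ∀ x : v.valuationSubring, red x = 0 ↔ v (x : F) < 1)
    (hres : Function.Surjective res)
    (hcomp : ∀ a, red (comapIncl M v.valuationSubring a) = algebraMap Mk Fk (res a)) :
    RedData v v.valuationSubring.subtype (v.valuationSubring.comap (algebraMap M F)).subtype
      (comapIncl M v.valuationSubring) red res :=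
  RedData.ofValuation v v.valuationSubring (fun f => Valuation.mem_valuationSubring_iff v f) red res
    hred hker hres hcomp

instance isLocalHom_comapIncl (W : ValuationSubring F) : IsLocalHom (comapIncl M W) := by
  refine ⟨fun a ha => ?_⟩
  obtain ⟨u, hu⟩ := ha.exists_right_inv
  have hu' : algebraMap M F (a : M) * (u : F) = 1 := congrArg Subtype.val hu
  have ha0 : (a : M) ≠ 0 := by
    intro h
    rw [h, map_zero, zero_mul] at hu'
    exact zero_ne_one hu'
  have hinv : algebraMap M F ((a : M)⁻¹) = (u : F) := by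
    rw [map_inv₀]
    exact inv_eq_of_mul_eq_one_right hu'
  have hmem : (a : M)⁻¹ ∈ W.comap (algebraMap M F) := by
    rw [ValuationSubring.mem_comap, hinv]
    exact u.2
  exact IsUnit.of_mul_eq_one ⟨(a : M)⁻¹, hmem⟩ (Subtype.ext (mul_inv_cancel₀ ha0))

/-- The residue field of `W` as an algebra over the residue field of `W ∩ M` (not an instance). -/
noncomputable abbrev residueAlgebra (M : Type*) [Field M] [Algebra M F] (W : ValuationSubring F) :
    Algebra (IsLocalRing.ResidueField ↥(W.comap (algebraMap M F))) (IsLocalRing.ResidueField ↥W) :=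
  (IsLocalRing.ResidueField.map (comapIncl M W)).toAlgebra

/-- **The canonical reduction data** of a valuation subring `W` of `F` over a subfield `M`:
residue fields of `W` and of `W ∩ M`. -/
theorem RedData.canonical (M : Type*) [Field M] [Algebra M F] (W : ValuationSubring F) :
    letI := residueAlgebra M W
    RedData W.valuation W.subtype (W.comap (algebraMap M F)).subtype (comapIncl M W)
      (IsLocalRing.residue ↥W) (IsLocalRing.residue ↥(W.comap (algebraMap M F))) :=
  letI := residueAlgebra M W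
  RedData.ofValuationSubring W _ _ IsLocalRing.residue_surjective IsLocalRing.ker_residue
    IsLocalRing.residue_surjective (fun _ => rfl)

end Canonical

section Line

open IntermediateField Polynomial

/-- Every polynomial with coefficients in a valuation subring lifts to a polynomial over it. -/
theorem exists_map_subtype_eq {K : Type*} [Field K] (A : ValuationSubring K) (p : K[X])
    (hp : ∀ m, p.coeff m ∈ A) : ∃ q : (↥A)[X], q.map A.subtype = p := by
  refine ⟨∑ i ∈ p.support, monomial i (⟨p.coeff i, hp i⟩ : ↥A), ?_⟩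
  rw [Polynomial.map_sum]
  conv_rhs => rw [← p.sum_monomial_eq, Polynomial.sum_def]
  refine Finset.sum_congr rfl fun i _ => ?_
  rw [map_monomial]
  rfl

/-- Polynomial expressions in `ξ` lie in `k⟮ξ⟯`. -/
theorem aeval_mem_adjoin_simple {k Fk : Type*} [Field k] [Field Fk] [Algebra k Fk] (ξ : Fk)
    (q : k[X]) : aeval ξ q ∈ k⟮ξ⟯ :=
  (mem_adjoin_simple_iff k _).mpr ⟨q, 1, by simp⟩

/-- The value in `F` of the evaluation in `O` of a polynomial over `O ∩ K`. -/
theorem coe_eval₂_comapIncl {K F : Type*} [Field K] [Field F] [Algebra K F]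
    {O : ValuationSubring F} {x : F} (hxO : x ∈ O) (P : (↥(O.comap (algebraMap K F)))[X]) :
    ((P.eval₂ (comapIncl K O) ⟨x, hxO⟩ : ↥O) : F)
      = aeval x (P.map (O.comap (algebraMap K F)).subtype) := by
  have h1 : ((P.eval₂ (comapIncl K O) ⟨x, hxO⟩ : ↥O) : F)
      = O.subtype (P.eval₂ (comapIncl K O) ⟨x, hxO⟩) := rfl
  rw [h1, hom_eval₂, aeval_def, eval₂_map]
  rfl

/-- **Reduction over constants.** `O` is a valuation ring of `F ⊇ K` with a reduction map
`red : O →+* Fk ⊇ k` which is onto, has kernel the non-units, maps constants to constants and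
hits every constant of `k`.  (For the Gauss valuation of a function field over a valued field.) -/
structure RedConst (K k : Type*) {F Fk : Type*} [Field K] [Field F] [Algebra K F] [Field k]
    [Field Fk] [Algebra k Fk] (O : ValuationSubring F) (red : ↥O →+* Fk) : Prop where
  surj : Function.Surjective red
  unit : ∀ y : O, red y ≠ 0 → IsUnit y
  const : ∀ (a : K) (h : algebraMap K F a ∈ O),
    ∃ b : k, red ⟨algebraMap K F a, h⟩ = algebraMap k Fk b
  lift : ∀ b : k, ∃ (a : K) (h : algebraMap K F a ∈ O),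
    red ⟨algebraMap K F a, h⟩ = algebraMap k Fk b

namespace RedConst

variable {K F k Fk : Type*} [Field K] [Field F] [Algebra K F] [Field k] [Field Fk] [Algebra k Fk]
  {O : ValuationSubring F} {red : ↥O →+* Fk}

section Basic

variable (H : RedConst K k O red)
include H

theorem ker_eq : RingHom.ker red = IsLocalRing.maximalIdeal ↥O := by
  ext y
  rw [RingHom.mem_ker, IsLocalRing.mem_maximalIdeal, mem_nonunits_iff]
  constructor
  · intro h0 hu
    exact (hu.map red).ne_zero h0
  · intro hnu
    by_contra h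
    exact hnu (H.unit y h)

theorem red_eq_zero_iff (y : O) : red y = 0 ↔ O.valuation (y : F) < 1 := by
  rw [← RingHom.mem_ker, H.ker_eq, ValuationSubring.valuation_lt_one_iff]

theorem red_ne_zero_iff (y : O) : red y ≠ 0 ↔ O.valuation (y : F) = 1 := by
  rw [Ne, H.red_eq_zero_iff, not_lt]
  exact ⟨fun h => le_antisymm (O.valuation_le_one y) h, fun h => h.ge⟩

theorem isUnit_iff (y : O) : IsUnit y ↔ red y ≠ 0 := by
  rw [H.red_ne_zero_iff, ValuationSubring.valuation_eq_one_iff]

end Basic

theorem exists_rho (H : RedConst K k O red) (a : ↥(O.comap (algebraMap K F))) :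
    ∃ b : k, red (comapIncl K O a) = algebraMap k Fk b :=
  H.const (a : K) (ValuationSubring.mem_comap.mp a.2)

/-- The reduction of a constant (as a function; see `rho`). -/
noncomputable def rhoFun (H : RedConst K k O red) (a : ↥(O.comap (algebraMap K F))) : k :=
  (H.exists_rho a).choose

theorem rhoFun_spec (H : RedConst K k O red) (a : ↥(O.comap (algebraMap K F))) :
    algebraMap k Fk (H.rhoFun a) = red (comapIncl K O a) :=
  (H.exists_rho a).choose_spec.symm

/-- The reduction of the constants: the ring hom `O ∩ K →+* k` induced by `red`. -/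
noncomputable def rho (H : RedConst K k O red) : ↥(O.comap (algebraMap K F)) →+* k where
  toFun := H.rhoFun
  map_one' := (algebraMap k Fk).injective (by
    rw [H.rhoFun_spec, map_one, map_one, map_one])
  map_mul' a b := (algebraMap k Fk).injective (by
    rw [H.rhoFun_spec, map_mul (algebraMap k Fk), H.rhoFun_spec, H.rhoFun_spec, map_mul, map_mul])
  map_zero' := (algebraMap k Fk).injective (by
    rw [H.rhoFun_spec, map_zero, map_zero, map_zero])
  map_add' a b := (algebraMap k Fk).injective (by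
    rw [H.rhoFun_spec, map_add (algebraMap k Fk), H.rhoFun_spec, H.rhoFun_spec, map_add, map_add])

section Rho

variable (H : RedConst K k O red)
include H

theorem rho_spec (a : ↥(O.comap (algebraMap K F))) :
    algebraMap k Fk (H.rho a) = red (comapIncl K O a) :=
  H.rhoFun_spec a

theorem rho_eq (a : ↥(O.comap (algebraMap K F))) {b : k}
    (hb : red (comapIncl K O a) = algebraMap k Fk b) : H.rho a = b :=
  (algebraMap k Fk).injective (by rw [H.rho_spec, hb])

theorem rho_surjective : Function.Surjective H.rho := by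
  intro b
  obtain ⟨a, h, hab⟩ := H.lift b
  exact ⟨⟨a, h⟩, H.rho_eq _ hab⟩

theorem red_comp_comapIncl :
    red.comp (comapIncl K O) = (algebraMap k Fk).comp H.rho :=
  RingHom.ext fun a => (H.rho_spec a).symm

/-- The reduction of the evaluation in `O` of a polynomial over `O ∩ K`. -/
theorem red_eval₂ {x : F} (hxO : x ∈ O) (P : (↥(O.comap (algebraMap K F)))[X]) :
    red (P.eval₂ (comapIncl K O) ⟨x, hxO⟩) = aeval (red ⟨x, hxO⟩) (P.map H.rho) := by
  rw [hom_eval₂, aeval_def, eval₂_map, H.red_comp_comapIncl]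

/-- **(L1)** A residually transcendental element in the sense of the reduction map is
residually transcendental in the sense of the S18 valued-field kit (Gauss valuation on `K(x)`). -/
theorem resTranscendental {x : F} (hxO : x ∈ O) (hξ : Transcendental k (red ⟨x, hxO⟩)) :
    ResTranscendental O.valuation K x := by
  intro p hp1 hp2
  obtain ⟨i0, hi0⟩ := hp2
  obtain ⟨P, rfl⟩ := exists_map_subtype_eq (O.comap (algebraMap K F)) p
    (fun i => (O.valuation_le_one_iff _).mp (hp1 i))
  rw [← coe_eval₂_comapIncl hxO, ← H.red_ne_zero_iff, H.red_eval₂]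
  intro h0
  have hP0 : P.map H.rho = 0 := (transcendental_iff.mp hξ) _ h0
  have hc : H.rho (P.coeff i0) = 0 := by
    have := congrArg (fun q => q.coeff i0) hP0
    simpa [coeff_map] using this
  have hne : red (comapIncl K O (P.coeff i0)) ≠ 0 := by
    rw [H.red_ne_zero_iff]
    rw [coeff_map] at hi0
    exact hi0
  exact hne (by rw [← H.rho_spec, hc, map_zero])

/-- The reduction of an element of `O ∩ K(x)` lies in `k(ξ)`. -/
theorem red_mem_adjoin {x : F} (hxO : x ∈ O) {ξ : Fk} (hxξ : red ⟨x, hxO⟩ = ξ)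
    (hξ : Transcendental k ξ) (r : ↥(O.comap (algebraMap K⟮x⟯ F))) :
    red (comapIncl K⟮x⟯ O r) ∈ k⟮ξ⟯ := by
  subst hxξ
  have hT := H.resTranscendental hxO hξ
  obtain ⟨p, q, hpq⟩ := (mem_adjoin_simple_iff K _).mp (r : K⟮x⟯).2
  have hzero : ((r : K⟮x⟯) : F) = 0 → red (comapIncl K⟮x⟯ O r) ∈ k⟮red ⟨x, hxO⟩⟯ := by
    intro h0
    have : comapIncl K⟮x⟯ O r = 0 := Subtype.ext h0
    rw [this, map_zero]
    exact zero_mem _
  by_cases hp : p = 0
  · exact hzero (by rw [hpq, hp, map_zero, zero_div])
  by_cases hq : q = 0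
  · exact hzero (by rw [hpq, hq, map_zero, div_zero])
  obtain ⟨a, ha, hva⟩ := hT.exists_smul_eq_one hp
  obtain ⟨b, hb, hvb⟩ := hT.exists_smul_eq_one hq
  have hp1 : aeval x (C a * p) = a • aeval x p := by rw [map_mul, aeval_C, Algebra.smul_def]
  have hq1 : aeval x (C b * q) = b • aeval x q := by rw [map_mul, aeval_C, Algebra.smul_def]
  obtain ⟨P, hP⟩ := exists_map_subtype_eq (O.comap (algebraMap K F)) (C a * p)
    (fun i => (O.valuation_le_one_iff _).mp (hT.coeff_le_one (by rw [hp1, hva]) i))
  obtain ⟨Q, hQ⟩ := exists_map_subtype_eq (O.comap (algebraMap K F)) (C b * q)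
    (fun i => (O.valuation_le_one_iff _).mp (hT.coeff_le_one (by rw [hq1, hvb]) i))
  have huP : ((P.eval₂ (comapIncl K O) ⟨x, hxO⟩ : ↥O) : F) = a • aeval x p := by
    rw [coe_eval₂_comapIncl, hP, hp1]
  have huQ : ((Q.eval₂ (comapIncl K O) ⟨x, hxO⟩ : ↥O) : F) = b • aeval x q := by
    rw [coe_eval₂_comapIncl, hQ, hq1]
  have hQunit : IsUnit (Q.eval₂ (comapIncl K O) ⟨x, hxO⟩ : ↥O) :=
    (O.valuation_eq_one_iff _).mpr (by rw [huQ]; exact hvb)
  obtain ⟨wQ, hwQ⟩ := hQunit.exists_right_inv
  have hwQ' : ((Q.eval₂ (comapIncl K O) ⟨x, hxO⟩ : ↥O) : F) * (wQ : F) = 1 :=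
    congrArg Subtype.val hwQ
  have hq0 : aeval x q ≠ 0 := hT.aeval_ne_zero hq
  have ha0 : algebraMap K F a ≠ 0 := fun h => ha ((map_eq_zero _).mp h)
  have hb0 : algebraMap K F b ≠ 0 := fun h => hb ((map_eq_zero _).mp h)
  have hwQF : (wQ : F) = (b • aeval x q)⁻¹ := by
    rw [huQ] at hwQ'
    exact eq_inv_of_mul_eq_one_right hwQ'
  have hr : ((r : K⟮x⟯) : F)
      = algebraMap K F (b / a) * ((P.eval₂ (comapIncl K O) ⟨x, hxO⟩ : ↥O) : F) * (wQ : F) := by
    rw [hpq, huP, hwQF, Algebra.smul_def, Algebra.smul_def, map_div₀]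
    field_simp
  have hvr : O.valuation (algebraMap K F (b / a)) ≤ 1 := by
    have h1 : O.valuation ((r : K⟮x⟯) : F) ≤ 1 := (O.valuation_le_one_iff _).mpr r.2
    rw [hr, map_mul, map_mul, huP, hva, mul_one, hwQF, map_inv₀, hvb, inv_one, mul_one] at h1
    exact h1
  have hc : b / a ∈ O.comap (algebraMap K F) := (O.valuation_le_one_iff _).mp hvr
  have hrO : comapIncl K⟮x⟯ O r
      = comapIncl K O ⟨b / a, hc⟩ * P.eval₂ (comapIncl K O) ⟨x, hxO⟩ * wQ := Subtype.ext hr
  have hredw : red wQ = (red (Q.eval₂ (comapIncl K O) ⟨x, hxO⟩))⁻¹ :=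
    eq_inv_of_mul_eq_one_right (by rw [← map_mul, hwQ, map_one])
  rw [hrO, map_mul, map_mul, ← H.rho_spec, hredw, H.red_eval₂, H.red_eval₂]
  exact mul_mem (mul_mem (IntermediateField.algebraMap_mem _ _) (aeval_mem_adjoin_simple _ _))
    (inv_mem (aeval_mem_adjoin_simple _ _))

/-- Every element of `k(ξ)` is the reduction of an element of `O ∩ K(x)`. -/
theorem exists_red_eq {x : F} (hxO : x ∈ O) {ξ : Fk} (hxξ : red ⟨x, hxO⟩ = ξ) (y : k⟮ξ⟯) :
    ∃ r : ↥(O.comap (algebraMap K⟮x⟯ F)), red (comapIncl K⟮x⟯ O r) = (y : Fk) := by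
  subst hxξ
  obtain ⟨pb, qb, hy⟩ := (mem_adjoin_simple_iff k _).mp y.2
  by_cases hq0 : aeval (red ⟨x, hxO⟩) qb = 0
  · exact ⟨0, by rw [map_zero, map_zero, hy, hq0, div_zero]⟩
  obtain ⟨P, rfl⟩ := Polynomial.map_surjective H.rho H.rho_surjective pb
  obtain ⟨Q, rfl⟩ := Polynomial.map_surjective H.rho H.rho_surjective qb
  have hQunit : IsUnit (Q.eval₂ (comapIncl K O) ⟨x, hxO⟩ : ↥O) :=
    H.unit _ (by rw [H.red_eval₂]; exact hq0)
  obtain ⟨wQ, hwQ⟩ := hQunit.exists_right_inv
  have hwQ' : ((Q.eval₂ (comapIncl K O) ⟨x, hxO⟩ : ↥O) : F) * (wQ : F) = 1 :=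
    congrArg Subtype.val hwQ
  have hwQF : (wQ : F) = (((Q.eval₂ (comapIncl K O) ⟨x, hxO⟩ : ↥O) : F))⁻¹ :=
    eq_inv_of_mul_eq_one_right hwQ'
  have hmem : (((P.eval₂ (comapIncl K O) ⟨x, hxO⟩ * wQ : ↥O)) : F) ∈ K⟮x⟯ := by
    have h1 : (((P.eval₂ (comapIncl K O) ⟨x, hxO⟩ * wQ : ↥O)) : F)
        = ((P.eval₂ (comapIncl K O) ⟨x, hxO⟩ : ↥O) : F) * (wQ : F) := rfl
    rw [h1, hwQF, coe_eval₂_comapIncl, coe_eval₂_comapIncl]
    exact mul_mem (aeval_mem_adjoin_simple _ _) (inv_mem (aeval_mem_adjoin_simple _ _))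
  have hredw : red wQ = (red (Q.eval₂ (comapIncl K O) ⟨x, hxO⟩))⁻¹ :=
    eq_inv_of_mul_eq_one_right (by rw [← map_mul, hwQ, map_one])
  refine ⟨⟨⟨_, hmem⟩, (P.eval₂ (comapIncl K O) ⟨x, hxO⟩ * wQ : ↥O).2⟩, ?_⟩
  have h2 : comapIncl K⟮x⟯ O ⟨⟨_, hmem⟩, (P.eval₂ (comapIncl K O) ⟨x, hxO⟩ * wQ : ↥O).2⟩
      = P.eval₂ (comapIncl K O) ⟨x, hxO⟩ * wQ := Subtype.ext rfl
  rw [h2, map_mul, hredw, H.red_eval₂, H.red_eval₂, hy, div_eq_mul_inv]

end Rho

section LineRes

variable (H : RedConst K k O red) {x : F} (hxO : x ∈ O) {ξ : Fk} (hxξ : red ⟨x, hxO⟩ = ξ)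
  (hξ : Transcendental k ξ)

/-- **(L2)** The residue map of the line: `red` restricted to `O ∩ K(x)`, with values in
`k(ξ)`, `ξ = red x`. -/
noncomputable def lineRes : ↥(O.comap (algebraMap K⟮x⟯ F)) →+* ↥k⟮ξ⟯ :=
  (red.comp (comapIncl K⟮x⟯ O)).codRestrict k⟮ξ⟯ (fun r => H.red_mem_adjoin hxO hxξ hξ r)

@[simp]
theorem coe_lineRes (r : ↥(O.comap (algebraMap K⟮x⟯ F))) :
    ((H.lineRes hxO hxξ hξ r : ↥k⟮ξ⟯) : Fk) = red (comapIncl K⟮x⟯ O r) := rfl

theorem algebraMap_lineRes (r : ↥(O.comap (algebraMap K⟮x⟯ F))) :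
    algebraMap ↥k⟮ξ⟯ Fk (H.lineRes hxO hxξ hξ r) = red (comapIncl K⟮x⟯ O r) := rfl

theorem lineRes_surjective : Function.Surjective (H.lineRes hxO hxξ hξ) := by
  intro y
  obtain ⟨r, hr⟩ := H.exists_red_eq hxO hxξ y
  exact ⟨r, Subtype.ext hr⟩

/-- **(L2)** The reduction data of the line `K(x) ⊆ F`: the residue field of `O ∩ K(x)` is
`k(ξ)`. All results of `RedData` apply to `M = K⟮x⟯`, `Mk = k⟮ξ⟯`. -/
theorem lineRedData :
    RedData O.valuation O.subtype (O.comap (algebraMap K⟮x⟯ F)).subtype (comapIncl K⟮x⟯ O) red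
      (H.lineRes hxO hxξ hξ) :=
  RedData.ofValuationSubring O red _ H.surj H.ker_eq (H.lineRes_surjective hxO hxξ hξ)
    (fun _ => rfl)

include H hxO hxξ hξ

/-- **(L3, norm)** The norm to the line commutes with reduction, in the shape of the hypothesis
`hnorm` of `helper815.sum_fiber_red_eq`: for an orthonormal `K(x)`-basis of `F` and `u ∈ O`, the
norm of `u` to `K(x)` lies in `O` and reduces to the norm of `red u` to `k(ξ)`. -/
theorem norm_red_line {ι : Type*} [Fintype ι] (bb : Module.Basis ι K⟮x⟯ F)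
    (hb : IsOrtho O.valuation K⟮x⟯ bb) {u : F} (huO : u ∈ O) :
    ∃ h : algebraMap K⟮x⟯ F (Algebra.norm K⟮x⟯ u) ∈ O,
      red ⟨algebraMap K⟮x⟯ F (Algebra.norm K⟮x⟯ u), h⟩ =
        algebraMap k⟮ξ⟯ Fk (Algebra.norm k⟮ξ⟯ (red ⟨u, huO⟩)) := by
  classical
  have D := H.lineRedData hxO hxξ hξ
  obtain ⟨nA, hn⟩ := D.exists_norm_lift bb hb ((O.valuation_le_one_iff u).mpr huO)
  have hn' : ((nA : ↥K⟮x⟯)) = Algebra.norm K⟮x⟯ u := hn
  have hred := D.norm_red bb hb (⟨u, huO⟩ : ↥O) nA hn
  have hmem : algebraMap K⟮x⟯ F (Algebra.norm K⟮x⟯ u) ∈ O := by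
    have h1 := ValuationSubring.mem_comap.mp nA.2
    rwa [hn'] at h1
  refine ⟨hmem, ?_⟩
  rw [hred]
  have h2 : (⟨algebraMap K⟮x⟯ F (Algebra.norm K⟮x⟯ u), hmem⟩ : ↥O) = comapIncl K⟮x⟯ O nA :=
    Subtype.ext (congrArg (algebraMap K⟮x⟯ F) hn'.symm)
  rw [h2]
  rfl

/-- **(L3, trace)** The trace to the line commutes with reduction. -/
theorem trace_red_line {ι : Type*} [Fintype ι] (bb : Module.Basis ι K⟮x⟯ F)
    (hb : IsOrtho O.valuation K⟮x⟯ bb) {u : F} (huO : u ∈ O) :
    ∃ h : algebraMap K⟮x⟯ F (Algebra.trace K⟮x⟯ F u) ∈ O,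
      red ⟨algebraMap K⟮x⟯ F (Algebra.trace K⟮x⟯ F u), h⟩ =
        algebraMap k⟮ξ⟯ Fk (Algebra.trace k⟮ξ⟯ Fk (red ⟨u, huO⟩)) := by
  classical
  have D := H.lineRedData hxO hxξ hξ
  obtain ⟨tA, ht⟩ := D.exists_trace_lift bb hb ((O.valuation_le_one_iff u).mpr huO)
  have ht' : ((tA : ↥K⟮x⟯)) = Algebra.trace K⟮x⟯ F u := ht
  have hred := D.trace_red bb hb (⟨u, huO⟩ : ↥O) tA ht
  have hmem : algebraMap K⟮x⟯ F (Algebra.trace K⟮x⟯ F u) ∈ O := by
    have h1 := ValuationSubring.mem_comap.mp tA.2
    rwa [ht'] at h1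
  refine ⟨hmem, ?_⟩
  rw [hred]
  have h2 : (⟨algebraMap K⟮x⟯ F (Algebra.trace K⟮x⟯ F u), hmem⟩ : ↥O) = comapIncl K⟮x⟯ O tA :=
    Subtype.ext (congrArg (algebraMap K⟮x⟯ F) ht'.symm)
  rw [h2]
  rfl

/-- **(L3, existence)** Equal degrees on the line give an orthonormal basis. -/
theorem exists_isOrtho_basis_line [FiniteDimensional K⟮x⟯ F] [FiniteDimensional k⟮ξ⟯ Fk]
    (hdeg : Module.finrank K⟮x⟯ F ≤ Module.finrank k⟮ξ⟯ Fk) :
    ∃ bb : Module.Basis (Fin (Module.finrank K⟮x⟯ F)) K⟮x⟯ F, IsOrtho O.valuation K⟮x⟯ bb :=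
  (H.lineRedData hxO hxξ hξ).exists_isOrtho_basis hdeg

/-- **(L3, hnorm from degrees)** If `[F : K(x)] ≤ [Fk : k(ξ)]`, the norm to the line commutes
with reduction for every `u ∈ O`. -/
theorem norm_red_line_of_finrank_le [FiniteDimensional K⟮x⟯ F] [FiniteDimensional k⟮ξ⟯ Fk]
    (hdeg : Module.finrank K⟮x⟯ F ≤ Module.finrank k⟮ξ⟯ Fk) {u : F} (huO : u ∈ O) :
    ∃ h : algebraMap K⟮x⟯ F (Algebra.norm K⟮x⟯ u) ∈ O,
      red ⟨algebraMap K⟮x⟯ F (Algebra.norm K⟮x⟯ u), h⟩ =
        algebraMap k⟮ξ⟯ Fk (Algebra.norm k⟮ξ⟯ (red ⟨u, huO⟩)) := by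
  obtain ⟨bb, hb⟩ := H.exists_isOrtho_basis_line hxO hxξ hξ hdeg
  exact H.norm_red_line hxO hxξ hξ bb hb huO

/-- Equal degrees: an orthonormal basis forces `[Fk : k(ξ)] = [F : K(x)]`. -/
theorem finrank_line_eq {ι : Type*} [Fintype ι] (bb : Module.Basis ι K⟮x⟯ F)
    (hb : IsOrtho O.valuation K⟮x⟯ bb) :
    Module.finrank k⟮ξ⟯ Fk = Module.finrank K⟮x⟯ F :=
  (H.lineRedData hxO hxξ hξ).finrank_eq bb hb

/-- The residue extension of the line is finite when `F` has an orthonormal `K(x)`-basis. -/
theorem finite_line_residue {ι : Type*} [Fintype ι] (bb : Module.Basis ι K⟮x⟯ F)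
    (hb : IsOrtho O.valuation K⟮x⟯ bb) : Module.Finite k⟮ξ⟯ Fk :=
  (H.lineRedData hxO hxξ hξ).finite_residue bb hb

/-- **(L3, characteristic polynomial)** For an orthonormal `K(x)`-basis and `u ∈ O`, the
characteristic polynomial of multiplication by `u` over `K(x)` lifts to a monic polynomial over
`O ∩ K(x)` whose reduction is the characteristic polynomial of multiplication by `red u` over
`k(ξ)`. -/
theorem charpoly_red_line [FiniteDimensional K⟮x⟯ F] [FiniteDimensional k⟮ξ⟯ Fk]
    {ι : Type*} [Fintype ι] (bb : Module.Basis ι K⟮x⟯ F)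
    (hb : IsOrtho O.valuation K⟮x⟯ bb) {u : F} (huO : u ∈ O) :
    ∃ P : (↥(O.comap (algebraMap K⟮x⟯ F)))[X], P.Monic ∧
      P.map (O.comap (algebraMap K⟮x⟯ F)).subtype = (LinearMap.mulLeft K⟮x⟯ u).charpoly ∧
      P.map (H.lineRes hxO hxξ hξ) = (LinearMap.mulLeft k⟮ξ⟯ (red ⟨u, huO⟩)).charpoly := by
  classical
  have D := H.lineRedData hxO hxξ hξ
  obtain ⟨P, hPm, hP⟩ := D.exists_mulLeft_charpoly_lift bb hb ((O.valuation_le_one_iff u).mpr huO)
  exact ⟨P, hPm, hP, (D.mulLeft_charpoly_red bb hb (⟨u, huO⟩ : ↥O) P hP).symm⟩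

/-- **(L3, polynomial norm)** If moreover the norm of `u ∈ O` to the line is a polynomial `p(x)`
(e.g. `u` integral over `K[x]`), then `p` has coefficients in `O ∩ K` and its coefficientwise
reduction `p̄` satisfies `p̄(ξ) = N_{Fk/k(ξ)}(red u)`. -/
theorem norm_red_line_poly {ι : Type*} [Fintype ι] (bb : Module.Basis ι K⟮x⟯ F)
    (hb : IsOrtho O.valuation K⟮x⟯ bb) {u : F} (huO : u ∈ O) (p : K[X])
    (hp : algebraMap K⟮x⟯ F (Algebra.norm K⟮x⟯ u) = aeval x p) :
    ∃ P : (↥(O.comap (algebraMap K F)))[X], P.map (O.comap (algebraMap K F)).subtype = p ∧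
      aeval ξ (P.map H.rho) = algebraMap k⟮ξ⟯ Fk (Algebra.norm k⟮ξ⟯ (red ⟨u, huO⟩)) := by
  obtain ⟨hmem, hred⟩ := H.norm_red_line hxO hxξ hξ bb hb huO
  have hT : ResTranscendental O.valuation K x := H.resTranscendental hxO (by rw [hxξ]; exact hξ)
  have hle : O.valuation (aeval x p) ≤ 1 := by
    rw [← hp]
    exact (O.valuation_le_one_iff _).mpr hmem
  obtain ⟨P, hP⟩ := exists_map_subtype_eq (O.comap (algebraMap K F)) p
    (fun i => (O.valuation_le_one_iff _).mp (hT.coeff_le_one hle i))
  refine ⟨P, hP, ?_⟩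
  have h2 : (⟨algebraMap K⟮x⟯ F (Algebra.norm K⟮x⟯ u), hmem⟩ : ↥O)
      = P.eval₂ (comapIncl K O) ⟨x, hxO⟩ :=
    Subtype.ext (hp.trans (by rw [coe_eval₂_comapIncl, hP]))
  rw [← hred, h2, H.red_eval₂, hxξ]

end LineRes

end RedConst

end Line

end Fermat.Agent.S37.helper3285
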