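/-
S37 REDNORM, pair form (helper3285): thin wrappers around `helper3285_RedNorm` for the situation
met by every "norm commutes with reduction" consumer at two levels:

* a finite field extension `F / M` (any `[Algebra M F]`, e.g. `(heckeAlphaBar ..).toAlgebra`),
* a valuation subring `W` of `F` and a valuation subring `W'` of `M` with `W ∩ M = W'`,
* surjective reductions `red : W →+* Fk`, `res : W' →+* Mk` (kernel of `red` = non-units),
  compatible with `M → F` and `Mk → Fk`,
* the residue extension has at least the generic degree.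

Then the norm (trace) of every element of `W` lies in `W'` and reduces to the norm (trace) of the
reduction; units go to units; the two degrees are equal.  No completeness, no separability,
no discreteness.
-/
import Fermat.Agent.S37.helper3285_RedNorm

set_option autoImplicit false

namespace Fermat.Agent.S37.helper3285

open Fermat.Agent.S18.helper1733

section Pair

variable {M F : Type*} [Field M] [Field F] [Algebra M F]

/-- The inclusion `W' → W` of a valuation subring of the base into a valuation subring of `F`
lying over it. -/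
def pairIncl (W : ValuationSubring F) (W' : ValuationSubring M)
    (hW : ∀ a : M, a ∈ W' → algebraMap M F a ∈ W) : ↥W' →+* ↥W :=
  ((algebraMap M F).comp W'.subtype).codRestrict W.toSubring (fun a => hW a a.2)

@[simp]
theorem coe_pairIncl (W : ValuationSubring F) (W' : ValuationSubring M)
    (hW : ∀ a : M, a ∈ W' → algebraMap M F a ∈ W) (a : W') :
    ((pairIncl W W' hW a : W) : F) = algebraMap M F (a : M) := rfl

variable {Fk Mk : Type*} [Field Fk] [Field Mk] [Algebra Mk Fk]

/-- **Constructor, pair shape.** `W' = W ∩ M`, `red` onto with kernel the non-units of `W`,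
`res` onto and compatible with `red`. -/
theorem RedData.ofPair (W : ValuationSubring F) (W' : ValuationSubring M)
    (hW : ∀ a : M, algebraMap M F a ∈ W ↔ a ∈ W')
    (red : ↥W →+* Fk) (res : ↥W' →+* Mk)
    (hred : Function.Surjective red) (hker : ∀ x : W, red x = 0 ↔ (x : F) ∈ W.nonunits)
    (hres : Function.Surjective res)
    (hcomp : ∀ a : W', red (pairIncl W W' (fun a ha => (hW a).mpr ha) a) =
      algebraMap Mk Fk (res a)) :
    RedData W.valuation W.subtype W'.subtype (pairIncl W W' (fun a ha => (hW a).mpr ha))
      red res where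
  injO := Subtype.val_injective
  leO x := (W.valuation_le_one_iff _).mpr x.2
  rangeO f hf := ⟨⟨f, (W.valuation_le_one_iff f).mp hf⟩, rfl⟩
  redZero x := by
    rw [hker, ValuationSubring.mem_nonunits_iff]
    rfl
  rangeA a ha := ⟨⟨a, (hW a).mp ((W.valuation_le_one_iff _).mp ha)⟩, rfl⟩
  resZero a := by
    rw [← map_eq_zero_iff (algebraMap Mk Fk) (algebraMap Mk Fk).injective, ← hcomp, hker,
      ValuationSubring.mem_nonunits_iff]
    rfl
  compO _ := rfl
  compRed := hcomp
  surjRes := hres
  surjRed := hred

variable (W : ValuationSubring F) (W' : ValuationSubring M)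
  (hW : ∀ a : M, algebraMap M F a ∈ W ↔ a ∈ W')
  (red : ↥W →+* Fk) (res : ↥W' →+* Mk)
  (hred : Function.Surjective red) (hker : ∀ x : W, red x = 0 ↔ (x : F) ∈ W.nonunits)
  (hres : Function.Surjective res)
  (hcomp : ∀ a : W', red (pairIncl W W' (fun a ha => (hW a).mpr ha) a) =
    algebraMap Mk Fk (res a))

include hW hred hker hres hcomp

/-- An orthonormal basis exists as soon as the residue degree is at least the generic degree. -/
theorem pair_exists_isOrtho_basis [Module.Finite M F] [Module.Finite Mk Fk]
    (hdeg : Module.finrank M F ≤ Module.finrank Mk Fk) :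
    ∃ bb : Module.Basis (Fin (Module.finrank M F)) M F, IsOrtho W.valuation M bb :=
  (RedData.ofPair W W' hW red res hred hker hres hcomp).exists_isOrtho_basis hdeg

/-- **Degrees are equal** once the residue degree is at least the generic degree. -/
theorem pair_finrank_eq [Module.Finite M F] [Module.Finite Mk Fk]
    (hdeg : Module.finrank M F ≤ Module.finrank Mk Fk) :
    Module.finrank Mk Fk = Module.finrank M F := by
  obtain ⟨bb, hb⟩ := pair_exists_isOrtho_basis W W' hW red res hred hker hres hcomp hdeg
  exact (RedData.ofPair W W' hW red res hred hker hres hcomp).finrank_eq bb hb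

/-- **Norm commutes with reduction (pair form)**: the norm of an element of `W` lies in `W'`
and its reduction is the norm of the reduction. -/
theorem pair_norm_red [Module.Finite M F] [Module.Finite Mk Fk]
    (hdeg : Module.finrank M F ≤ Module.finrank Mk Fk) (f : W) :
    ∃ h : Algebra.norm M (f : F) ∈ W', res ⟨_, h⟩ = Algebra.norm Mk (red f) := by
  classical
  have D := RedData.ofPair W W' hW red res hred hker hres hcomp
  obtain ⟨bb, hb⟩ := D.exists_isOrtho_basis hdeg
  obtain ⟨nA, hn⟩ := D.exists_norm_lift bb hb (f := (f : F)) ((W.valuation_le_one_iff _).mpr f.2)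
  have hn' : (nA : M) = Algebra.norm M (f : F) := hn
  refine ⟨hn' ▸ nA.2, ?_⟩
  have h1 := D.norm_red bb hb f nA hn
  rw [h1]
  congr 1
  exact Subtype.ext hn'.symm

/-- **Trace commutes with reduction (pair form).** -/
theorem pair_trace_red [Module.Finite M F] [Module.Finite Mk Fk]
    (hdeg : Module.finrank M F ≤ Module.finrank Mk Fk) (f : W) :
    ∃ h : Algebra.trace M F (f : F) ∈ W', res ⟨_, h⟩ = Algebra.trace Mk Fk (red f) := by
  classical
  have D := RedData.ofPair W W' hW red res hred hker hres hcomp
  obtain ⟨bb, hb⟩ := D.exists_isOrtho_basis hdeg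
  obtain ⟨tA, ht⟩ := D.exists_trace_lift bb hb (f := (f : F)) ((W.valuation_le_one_iff _).mpr f.2)
  have ht' : (tA : M) = Algebra.trace M F (f : F) := ht
  refine ⟨ht' ▸ tA.2, ?_⟩
  have h1 := D.trace_red bb hb f tA ht
  rw [h1]
  congr 1
  exact Subtype.ext ht'.symm

/-- The norm of a unit of `W` is a unit of `W'` (pair form). -/
theorem pair_norm_unit [Module.Finite M F] [Module.Finite Mk Fk]
    (hdeg : Module.finrank M F ≤ Module.finrank Mk Fk) {f : F} (hf : f ∈ W) (hf' : f⁻¹ ∈ W) :
    Algebra.norm M f ∈ W' ∧ (Algebra.norm M f)⁻¹ ∈ W' := by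
  obtain ⟨h1, -⟩ := pair_norm_red W W' hW red res hred hker hres hcomp hdeg ⟨f, hf⟩
  obtain ⟨h2, -⟩ := pair_norm_red W W' hW red res hred hker hres hcomp hdeg ⟨f⁻¹, hf'⟩
  refine ⟨h1, ?_⟩
  have hmul : Algebra.norm M f⁻¹ = (Algebra.norm M f)⁻¹ := by
    by_cases hf0 : f = 0
    · rw [hf0, inv_zero, Algebra.norm_zero, inv_zero]
    · have h3 : Algebra.norm M f * Algebra.norm M f⁻¹ = 1 := by
        rw [← map_mul, mul_inv_cancel₀ hf0, map_one]
      exact eq_inv_of_mul_eq_one_right h3
  rw [← hmul]
  exact h2

end Pair

end Fermat.Agent.S37.helper3285
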