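import Mathlib
import Fermat.Prelude.Def_AlgebraicCurve_Correspondence
import Fermat.Agent.S18.helper981_Riemann

/-!
# S37-RIGID (backup copy, helper3298): the rigidity lemma for additive maps on divisors

Abstract part of the route "S37 from the frozen S18 statement + conservation" (chat #211).

Let `δ : Div(F) →+ (S →₀ ℤ)` be an additive map on the divisor group of a function field `F/K`.
If

* `δ` kills principal divisors,
* `δ` is bounded on effective divisors: `|δ E s| ≤ C * deg E` for `E ≥ 0`,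
* every divisor of degree `0` is, modulo principal divisors, a difference `E₁ - E₂` of two
  effective divisors of degree `≤ g` (`BoundedRep`, a consequence of Riemann's inequality),

then `δ` kills every divisor of degree `0` (`rigidity`).  Indeed `n • D ∼ E₁ - E₂` gives
`|n * δ D s| ≤ 2 C g` for every `n`.

The file also provides

* `boundedRep_of_riemannBound` : `BoundedRep` from `helper981.HasRiemannBound`;
* the calculus of bounded maps (`IsBddOnEffective`, `PosBdd`, `IsPosDeg`) with the instances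
  needed in the application: semilinear automorphisms, pull-back, push-forward, correspondences
  and `Finsupp.mapDomain` after a pull-back.

Everything is generic (Prelude `Place` / `Divisor` vocabulary); no modular input.
-/

set_option autoImplicit false

noncomputable section

namespace Fermat.Agent.S37.helper3298

open AlgebraicCurve

/-! ### Finitely supported integer functions -/

section Finsupp

variable {X Y : Type*}

/-- An additive map on `X →₀ ℤ` which is nonnegative on the `single x n`, `n ≥ 0`, is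
nonnegative on all nonnegative elements. -/
theorem map_nonneg_of_single (P : (X →₀ ℤ) →+ (Y →₀ ℤ))
    (h : ∀ (x : X) (n : ℤ), 0 ≤ n → 0 ≤ P (Finsupp.single x n)) {E : X →₀ ℤ} (hE : 0 ≤ E) :
    0 ≤ P E := by
  classical
  rw [← Finsupp.sum_single E, Finsupp.sum, map_sum]
  exact Finset.sum_nonneg fun x _ => h x (E x) (Finsupp.le_def.mp hE x)

theorem mapDomain_nonneg (r : X → Y) {E : X →₀ ℤ} (hE : 0 ≤ E) : 0 ≤ Finsupp.mapDomain r E := by
  classical
  refine map_nonneg_of_single (Finsupp.mapDomain.addMonoidHom r) (fun x n hn => ?_) hE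
  rw [Finsupp.mapDomain.addMonoidHom_apply, Finsupp.mapDomain_single]
  exact Finsupp.single_nonneg.mpr hn

/-- The coefficients of `mapDomain r E` are bounded by the total mass of `E ≥ 0`. -/
theorem mapDomain_apply_le_sum (r : X → Y) {E : X →₀ ℤ} (hE : 0 ≤ E) (y : Y) :
    Finsupp.mapDomain r E y ≤ E.sum fun _ n => n := by
  classical
  rw [Finsupp.mapDomain, Finsupp.sum_apply, Finsupp.sum, Finsupp.sum]
  refine Finset.sum_le_sum fun x _ => ?_
  rw [Finsupp.single_apply]
  split_ifs
  · exact le_rfl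
  · exact Finsupp.le_def.mp hE x

end Finsupp

/-! ### The rigidity lemma -/

section Rigidity

variable {K F : Type*} [Field K] [Field F] [Algebra K F] {S : Type*}

/-- **Bounded representatives**: every divisor of degree `0` is linearly equivalent to a
difference of two effective divisors of degree at most `g`. -/
def BoundedRep (K F : Type*) [Field K] [Field F] [Algebra K F] (g : ℤ) : Prop :=
  ∀ D : Divisor K F, Divisor.degree D = 0 →
    ∃ E₁ E₂ : Divisor K F, 0 ≤ E₁ ∧ 0 ≤ E₂ ∧ Divisor.degree E₁ ≤ g ∧ Divisor.degree E₂ ≤ g ∧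
      D - (E₁ - E₂) ∈ Divisor.principal (K := K) (F := F)

/-- `δ` is bounded on effective divisors by `C` times the degree. -/
def IsBddOnEffective (δ : Divisor K F →+ (S →₀ ℤ)) (C : ℤ) : Prop :=
  ∀ E : Divisor K F, 0 ≤ E → ∀ s : S, |δ E s| ≤ C * Divisor.degree E

/-- **Rigidity lemma.**  An additive map on divisors which kills principal divisors and is
bounded on effective divisors kills all divisors of degree `0`, as soon as degree-`0` divisors
have bounded representatives. -/
theorem rigidity (δ : Divisor K F →+ (S →₀ ℤ)) {C g : ℤ} (hC : 0 ≤ C)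
    (hprin : ∀ D ∈ Divisor.principal (K := K) (F := F), δ D = 0)
    (hbdd : IsBddOnEffective δ C) (hrep : BoundedRep K F g)
    (D : Divisor K F) (hD : Divisor.degree D = 0) : δ D = 0 := by
  ext s
  rw [Finsupp.zero_apply]
  have key : ∀ n : ℕ, |(n : ℤ) * δ D s| ≤ 2 * (C * g) := by
    intro n
    obtain ⟨E₁, E₂, h1, h2, hd1, hd2, hp⟩ := hrep (n • D) (by rw [map_nsmul, hD, smul_zero])
    have h0 := hprin _ hp
    rw [map_sub, map_sub, sub_eq_zero, map_nsmul] at h0
    have h3 : (n : ℤ) * δ D s = δ E₁ s - δ E₂ s := by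
      have h4 := congrArg (fun T : S →₀ ℤ => T s) h0
      simpa [Finsupp.smul_apply, Finsupp.sub_apply] using h4
    rw [h3]
    have b1 := hbdd E₁ h1 s
    have b2 := hbdd E₂ h2 s
    have b3 : |δ E₁ s - δ E₂ s| ≤ |δ E₁ s| + |δ E₂ s| := abs_sub _ _
    have c1 := mul_le_mul_of_nonneg_left hd1 hC
    have c2 := mul_le_mul_of_nonneg_left hd2 hC
    linarith
  by_contra hne
  have h1 : (1 : ℤ) ≤ |δ D s| := Int.one_le_abs hne
  have h2 := key ((2 * (C * g)).toNat + 1)
  rw [abs_mul, Nat.abs_cast] at h2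
  have h3 : 2 * (C * g) ≤ ((2 * (C * g)).toNat : ℤ) := Int.self_le_toNat _
  push_cast at h2
  nlinarith

/-- Rigidity, for maps that are only known to vanish on a generating set of the principal
divisors. -/
theorem rigidity_of_generators (δ : Divisor K F →+ (S →₀ ℤ)) {C g : ℤ} (hC : 0 ≤ C)
    (G : Set (Divisor K F))
    (hG : Divisor.principal (K := K) (F := F) ≤ AddSubgroup.closure G)
    (hgen : ∀ D ∈ G, δ D = 0)
    (hbdd : IsBddOnEffective δ C) (hrep : BoundedRep K F g)
    (D : Divisor K F) (hD : Divisor.degree D = 0) : δ D = 0 := by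
  refine rigidity δ hC (fun E hE => ?_) hbdd hrep D hD
  have hE' := hG hE
  clear hE
  induction hE' using AddSubgroup.closure_induction with
  | mem E hE => exact hgen E hE
  | zero => exact map_zero δ
  | add E E' _ _ hE hE' => rw [map_add, hE, hE', add_zero]
  | neg E _ hE => rw [map_neg, hE, neg_zero]

theorem IsBddOnEffective.sub {δ₁ δ₂ : Divisor K F →+ (S →₀ ℤ)} {C₁ C₂ : ℤ}
    (h₁ : IsBddOnEffective δ₁ C₁) (h₂ : IsBddOnEffective δ₂ C₂) :
    IsBddOnEffective (δ₁ - δ₂) (C₁ + C₂) := by
  intro E hE s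
  have b1 := h₁ E hE s
  have b2 := h₂ E hE s
  have b3 : |δ₁ E s - δ₂ E s| ≤ |δ₁ E s| + |δ₂ E s| := abs_sub _ _
  rw [AddMonoidHom.sub_apply, Finsupp.sub_apply]
  linarith

theorem IsBddOnEffective.add {δ₁ δ₂ : Divisor K F →+ (S →₀ ℤ)} {C₁ C₂ : ℤ}
    (h₁ : IsBddOnEffective δ₁ C₁) (h₂ : IsBddOnEffective δ₂ C₂) :
    IsBddOnEffective (δ₁ + δ₂) (C₁ + C₂) := by
  intro E hE s
  have b1 := h₁ E hE s
  have b2 := h₂ E hE s
  have b3 : |δ₁ E s + δ₂ E s| ≤ |δ₁ E s| + |δ₂ E s| := abs_add_le _ _
  rw [AddMonoidHom.add_apply, Finsupp.add_apply]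
  linarith

theorem IsBddOnEffective.nsmul {δ : Divisor K F →+ (S →₀ ℤ)} {C : ℤ}
    (h : IsBddOnEffective δ C) (n : ℕ) : IsBddOnEffective (n • δ) (n * C) := by
  intro E hE s
  have b1 := h E hE s
  rw [AddMonoidHom.smul_apply, Finsupp.smul_apply, nsmul_eq_mul, abs_mul, Nat.abs_cast, mul_assoc]
  exact mul_le_mul_of_nonneg_left b1 (Nat.cast_nonneg n)

/-- A positive additive map whose values are bounded by `d` times the degree. -/
def PosBdd (Φ : Divisor K F →+ (S →₀ ℤ)) (d : ℤ) : Prop :=
  ∀ E : Divisor K F, 0 ≤ E → ∀ s : S, 0 ≤ Φ E s ∧ Φ E s ≤ d * Divisor.degree E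

theorem PosBdd.isBddOnEffective {Φ : Divisor K F →+ (S →₀ ℤ)} {d : ℤ} (h : PosBdd Φ d) :
    IsBddOnEffective Φ d := by
  intro E hE s
  obtain ⟨h0, h1⟩ := h E hE s
  rwa [abs_of_nonneg h0]

/-- A positive additive endomorphism of the divisor group which multiplies degrees by `c`. -/
structure IsPosDeg (Q : Divisor K F →+ Divisor K F) (c : ℤ) : Prop where
  pos : ∀ E : Divisor K F, 0 ≤ E → 0 ≤ Q E
  deg : ∀ E : Divisor K F, Divisor.degree (Q E) = c * Divisor.degree E

theorem IsPosDeg.id : IsPosDeg (AddMonoidHom.id (Divisor K F)) 1 :=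
  ⟨fun _ hE => hE, fun E => by rw [AddMonoidHom.id_apply, one_mul]⟩

theorem IsPosDeg.comp {Q₁ Q₂ : Divisor K F →+ Divisor K F} {c₁ c₂ : ℤ}
    (h₁ : IsPosDeg Q₁ c₁) (h₂ : IsPosDeg Q₂ c₂) : IsPosDeg (Q₁.comp Q₂) (c₁ * c₂) :=
  ⟨fun E hE => h₁.pos _ (h₂.pos E hE), fun E => by
    rw [AddMonoidHom.comp_apply, h₁.deg, h₂.deg, mul_assoc]⟩

theorem PosBdd.comp {Φ : Divisor K F →+ (S →₀ ℤ)} {d : ℤ} (hΦ : PosBdd Φ d)
    {Q : Divisor K F →+ Divisor K F} {c : ℤ} (hQ : IsPosDeg Q c) :
    PosBdd (Φ.comp Q) (d * c) := by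
  intro E hE s
  obtain ⟨h0, h1⟩ := hΦ (Q E) (hQ.pos E hE) s
  refine ⟨h0, ?_⟩
  rw [AddMonoidHom.comp_apply, mul_assoc, ← hQ.deg]
  exact h1

/-- The action of a semilinear automorphism is positive and preserves degrees. -/
theorem isPosDeg_smul (g : SemilinearAut K F) :
    IsPosDeg (DistribSMul.toAddMonoidHom (Divisor K F) g) 1 := by
  refine ⟨fun E hE => ?_, fun E => ?_⟩
  · rw [Finsupp.le_def]
    intro w
    rw [DistribSMul.toAddMonoidHom_apply, SemilinearAut.divisor_smul_apply, Finsupp.zero_apply]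
    exact Finsupp.le_def.mp hE _
  · rw [DistribSMul.toAddMonoidHom_apply, SemilinearAut.degree_smul, one_mul]

end Rigidity

/-! ### Pull-back, push-forward, correspondences -/

section Along

variable {K F F' : Type*} [Field K] [Field F] [Field F'] [Algebra K F] [Algebra K F']

theorem pullbackAlong_nonneg [HasPrincipalDivisors K F'] (φ : F →ₐ[K] F')
    (hφ : φ.toRingHom.IsIntegral) {E : Divisor K F} (hE : 0 ≤ E) :
    0 ≤ Divisor.pullbackAlong φ hφ E := by
  rw [Finsupp.le_def]
  intro w
  rw [Divisor.pullbackAlong_apply, Finsupp.zero_apply]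
  exact mul_nonneg (Int.natCast_nonneg _) (Finsupp.le_def.mp hE _)

theorem pushforwardAlong_nonneg (φ : F →ₐ[K] F') (hφ : φ.toRingHom.IsIntegral)
    {E : Divisor K F'} (hE : 0 ≤ E) : 0 ≤ Divisor.pushforwardAlong φ hφ E := by
  refine map_nonneg_of_single (Divisor.pushforwardAlong φ hφ) (fun w n hn => ?_) hE
  rw [Divisor.pushforwardAlong_single]
  exact Finsupp.single_nonneg.mpr (mul_nonneg hn (Int.natCast_nonneg _))

/-- The pull-back along `φ` of the divisor of `f` is the divisor of `φ f`. -/
theorem pullbackAlong_apply_of_ord [HasPrincipalDivisors K F'] (φ : F →ₐ[K] F')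
    (hφ : φ.toRingHom.IsIntegral) {D : Divisor K F} {f : F} (hD : ∀ v, D v = v.ord f)
    (w : Place K F') : Divisor.pullbackAlong φ hφ D w = w.ord (φ f) := by
  rw [Divisor.pullbackAlong_apply, hD, Place.ord_restrictAlong φ hφ]

/-- A correspondence `ψ_* φ^*` is positive and multiplies degrees by `[F' : φ F]`. -/
theorem isPosDeg_correspondence [HasPrincipalDivisors K F'] (φ ψ : F →ₐ[K] F')
    (hφ : φ.toRingHom.IsIntegral) (hψ : ψ.toRingHom.IsIntegral)
    (hFI : FundamentalIdentityAlong K φ hφ) :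
    IsPosDeg (Divisor.correspondence φ ψ hφ hψ) (finrankAlong K φ) :=
  ⟨fun _ hE => pushforwardAlong_nonneg ψ hψ (pullbackAlong_nonneg φ hφ hE),
    fun E => Divisor.degree_correspondence φ ψ hφ hψ hFI E⟩

/-- **The basic bounded map**: pull back along `φ`, then push the places forward by an
arbitrary map `r` (e.g. a place reduction).  If all places upstairs have degree one it is
positive and bounded by `[F' : φ F]` times the degree. -/
theorem posBdd_mapDomain_pullbackAlong [HasPrincipalDivisors K F'] {S : Type*}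
    (φ : F →ₐ[K] F') (hφ : φ.toRingHom.IsIntegral) (hFI : FundamentalIdentityAlong K φ hφ)
    (hdeg' : ∀ w : Place K F', w.deg = 1) (r : Place K F' → S) :
    PosBdd ((Finsupp.mapDomain.addMonoidHom r).comp (Divisor.pullbackAlong φ hφ))
      (finrankAlong K φ) := by
  intro E hE s
  have hpos := pullbackAlong_nonneg φ hφ hE
  rw [AddMonoidHom.comp_apply, Finsupp.mapDomain.addMonoidHom_apply]
  refine ⟨Finsupp.le_def.mp (mapDomain_nonneg r hpos) s, ?_⟩
  refine (mapDomain_apply_le_sum r hpos s).trans ?_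
  rw [← Fermat.Agent.S18.helper981.degree_eq_sum hdeg', Divisor.degree_pullbackAlong φ hφ hFI]

end Along

/-! ### Bounded representatives from Riemann's inequality -/

section Riemann

open Fermat.Agent.S18.helper981

variable {K F : Type*} [Field K] [Field F] [Algebra K F]

/-- **Bounded representatives from Riemann's inequality.**  If `deg D - l(D)` is bounded above
by `γ`, then every divisor of degree `0` is linearly equivalent to `E₁ - E₂` with `E₁, E₂ ≥ 0`
of degree `max (γ + 1) 0`. -/
theorem boundedRep_of_riemannBound [HasPrincipalDivisors K F]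
    (hdeg : ∀ v : Place K F, v.deg = 1) (P₀ : Place K F) {γ : ℤ}
    (hγ : ∀ D : Divisor K F,
      Divisor.degree D - (Module.finrank K (riemannRochSpace D) : ℤ) ≤ γ) :
    BoundedRep K F (max (γ + 1) 0) := by
  intro D hD
  set m : ℤ := max (γ + 1) 0 with hm
  have hm0 : 0 ≤ m := le_max_right _ _
  have hm1 : γ + 1 ≤ m := le_max_left _ _
  set D' : Divisor K F := D + Finsupp.single P₀ m with hD'
  have hdegD' : Divisor.degree D' = m := by
    rw [hD', map_add, hD, zero_add, Divisor.degree_single, hdeg]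
    simp
  have hpos : 0 < Module.finrank K (riemannRochSpace D') := by
    have h1 := hγ D'
    rw [hdegD'] at h1
    have : (0 : ℤ) < Module.finrank K (riemannRochSpace D') := by linarith
    exact_mod_cast this
  have hfin := finite_riemannRochSpace hdeg P₀ D'
  obtain ⟨⟨z, hz⟩, hz0⟩ := Module.finrank_pos_iff_exists_ne_zero.mp hpos
  have hz0' : z ≠ 0 := fun h => hz0 (Subtype.ext h)
  obtain ⟨Z, hZ, hZ0⟩ := HasPrincipalDivisors.exists_divisor (K := K) z hz0'
  refine ⟨Z + D', Finsupp.single P₀ m, ?_, ?_, ?_, ?_, ?_⟩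
  · rw [Finsupp.le_def]
    intro v
    rw [Finsupp.zero_apply, Finsupp.add_apply, hZ v]
    rcases mem_riemannRochSpace_iff.mp hz v with h | h
    · exact absurd h hz0'
    · linarith
  · exact Finsupp.single_nonneg.mpr hm0
  · rw [map_add, hZ0, zero_add, hdegD']
  · rw [Divisor.degree_single, hdeg]
    simp
  · have h1 : D - (Z + D' - Finsupp.single P₀ m) = -Z := by
      rw [hD']
      abel
    rw [h1]
    exact AddSubgroup.neg_mem _ ⟨z, hz0', hZ⟩

/-- Bounded representatives from `helper981.HasRiemannBound`. -/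
theorem exists_boundedRep [HasPrincipalDivisors K F]
    (hdeg : ∀ v : Place K F, v.deg = 1) (P₀ : Place K F) (h : HasRiemannBound K F) :
    ∃ g : ℤ, BoundedRep K F g := by
  obtain ⟨γ, hγ⟩ := h
  exact ⟨_, boundedRep_of_riemannBound hdeg P₀ hγ⟩

end Riemann

end Fermat.Agent.S37.helper3298

end
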