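import Fermat.Agent.S37.helper3298_Rigidity
import Fermat.Agent.S37.helper1138_Assembly
import Fermat.Agent.S37.helper5162_HeckeUnfold
import Fermat.Agent.S37.helper5176_LevelDescent
import Fermat.Agent.S37.helper7934_NormTrick
import Fermat.Agent.S18.helper508_GaussMod
import Fermat.Agent.Lib.helper7516_LaurentFrob
import Fermat.Prelude.Def_ModularCurve_ReductionModL

/-!
# S37-RIGID (backup copy, helper3298): S37 from the frozen S18 statement + conservation

Wiring of the route of chat #211 (owner helper1719) on top of the abstract rigidity lemma of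
`helper3298_Rigidity`.

Fix a level `N`, a prime `ℓ ∤ N`, a valuation subring `A` of `ℚ̄` over `ℓ`, and an auxiliary
level `N * r` with `ℓ ∤ N * r` at which the Prelude reduction data `ReductionInputsModL A (N * r)`
exist (place reduction `ρ` with conservation).  Put

  `redPull D := ρ_* (π^* D)`,  `π : F_N ⊆ F_{N r}` the inclusion (`heckeAlphaBar`),
  `auxKernel := ker (reductionModL A (N r) ∘ π^*) ≤ J₀(N)`.

* `redPull_inertia` : `redPull (τ D) = redPull D` for `τ` in the inertia group, `deg D = 0`;
* `redPull_es` : `redPull (σσD) - redPull (T_ℓ (σ D)) + ℓ • redPull D = 0` for every Frobenius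
  `σ` at `A`, `deg D = 0`  (from the function-level Kronecker congruence `KronRed`);
* `auxKernel_inertia`, `auxKernel_es`, `auxKernel_torsion` : (R1), (R2), (R3) for `auxKernel`,
  (R3) being the frozen S18 statement at level `N r` (`S18At`, a hypothesis) + the norm trick;
* `stmt_KernelAll_of_packages` : `helper8353.Stmt_KernelAll N` from a family of auxiliary levels;
* `result_of_packages` : the frozen statement S37.

Inputs that are hypotheses here (all other inputs are landed theorems):
`PrincipalGeneratedByIntegral A _ N`, `helper981.HasRiemannBound ℚ̄ F_N`, `KronRed N ℓ A`,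
`ReductionInputsModL A (N r)`, `S18At (N r) ℓ A`.
-/

set_option autoImplicit false
set_option synthInstance.maxHeartbeats 400000

noncomputable section

namespace Fermat.Agent.S37.helper3298

open AlgebraicCurve ModularCurve
open Fermat.Agent.S37.helper8353 (Qb GQ)
open Fermat.Agent.S37.helper1138 (FNb gal)

/-! ### Divisors of functions -/

section DivOf

variable {K F F' : Type*} [Field K] [Field F] [Field F'] [Algebra K F] [Algebra K F']

/-- `D` is the divisor of the function `f`. -/
def IsDivOf (D : Divisor K F) (f : F) : Prop := ∀ v : Place K F, D v = v.ord f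

theorem IsDivOf.smul {D : Divisor K F} {f : F} (h : IsDivOf D f) (g : SemilinearAut K F) :
    IsDivOf (g • D) (g • f) := by
  intro w
  rw [SemilinearAut.divisor_smul_apply, h (g⁻¹ • w)]
  have h1 := SemilinearAut.ord_smul g (g⁻¹ • w) f
  rw [smul_inv_smul] at h1
  exact h1.symm

theorem IsDivOf.pullbackAlong [HasPrincipalDivisors K F'] {D : Divisor K F} {f : F}
    (h : IsDivOf D f) (φ : F →ₐ[K] F') (hφ : φ.toRingHom.IsIntegral) :
    IsDivOf (Divisor.pullbackAlong φ hφ D) (φ f) :=
  fun w => pullbackAlong_apply_of_ord φ hφ h w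

/-- The norm along `φ : F → F'`. -/
def normAlong (φ : F →ₐ[K] F') (f' : F') : F :=
  letI := algebraAlong φ
  Algebra.norm F f'

theorem IsDivOf.pushforwardAlong {D' : Divisor K F'} {f' : F'} (h : IsDivOf D' f')
    (hf' : f' ≠ 0) (φ : F →ₐ[K] F') (hφ : φ.toRingHom.IsIntegral) (hfin : FiniteAlong K φ)
    (hN : NormFormulaAlong K φ hfin) :
    IsDivOf (Divisor.pushforwardAlong φ hφ D') (normAlong φ f') := by
  letI := algebraAlong φ
  haveI := isScalarTower_along φ
  haveI := isIntegral_along φ hφ
  haveI : Module.Finite F F' := hfin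
  intro v
  exact hN f' hf' D' h v

end DivOf

/-! ### Galois action on integral `q`-series -/

section GaloisSeries

variable (A : ValuationSubring Qb)

/-- The restriction to `A` of an element of the decomposition group of `A`. -/
def decompHom {σ : GQ} (hσ : σ ∈ A.decompositionSubgroup ℚ) : A →+* A :=
  MulSemiringAction.toRingHom (A.decompositionSubgroup ℚ) A ⟨σ, hσ⟩

theorem coe_decompHom {σ : GQ} (hσ : σ ∈ A.decompositionSubgroup ℚ) (a : A) :
    ((decompHom A hσ a : A) : Qb) = σ (a : Qb) := rfl

theorem coeffMap_subtype_decompHom {σ : GQ} (hσ : σ ∈ A.decompositionSubgroup ℚ)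
    (y : LaurentSeries A) :
    coeffMap A.subtype (coeffMap (decompHom A hσ) y) =
      coeffMap (σ : Qb →+* Qb) (coeffMap A.subtype y) := by
  rw [coeffMap_coeffMap, coeffMap_coeffMap]
  exact coeffMap_congr (RingHom.ext fun a => rfl) y

theorem mem_decomposition_of_mem_inertia {τ : GQ} (hτ : τ ∈ A.inertiaSubgroupIn ℚ) :
    τ ∈ A.decompositionSubgroup ℚ := by
  obtain ⟨g, _, rfl⟩ := hτ
  exact g.2

/-- Inertia acts trivially on the residue field. -/
theorem residue_decompHom_of_inertia {τ : GQ} (hτ : τ ∈ A.inertiaSubgroupIn ℚ) (a : A) :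
    IsLocalRing.residue A (decompHom A (mem_decomposition_of_mem_inertia A hτ) a) =
      IsLocalRing.residue A a := by
  obtain ⟨g, hg, rfl⟩ := hτ
  have hker : MulSemiringAction.toRingAut (A.decompositionSubgroup ℚ)
      (IsLocalRing.ResidueField A) g = 1 := hg
  have h1 : g • (IsLocalRing.residue A a) = IsLocalRing.residue A a := by
    have := congrArg (fun e : RingAut (IsLocalRing.ResidueField A) =>
      e (IsLocalRing.residue A a)) hker
    exact this
  exact h1

theorem coeffMap_residue_decompHom_of_inertia {τ : GQ} (hτ : τ ∈ A.inertiaSubgroupIn ℚ)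
    (y : LaurentSeries A) :
    coeffMap (IsLocalRing.residue A)
        (coeffMap (decompHom A (mem_decomposition_of_mem_inertia A hτ)) y) =
      coeffMap (IsLocalRing.residue A) y := by
  rw [coeffMap_coeffMap]
  exact coeffMap_congr (RingHom.ext fun a => residue_decompHom_of_inertia A hτ a) y

/-- A Frobenius element acts as the `ℓ`-th power on the residue field. -/
theorem residue_decompHom_of_frobenius {σ : GQ} {ℓ : ℕ} (hσ : A.IsFrobeniusAt σ ℓ) (a : A) :
    IsLocalRing.residue A (decompHom A hσ.mem_decompositionSubgroup a) =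
      IsLocalRing.residue A a ^ ℓ :=
  hσ.smul_residue_eq (IsLocalRing.residue A a)

/-- **Frobenius on reduced series**: if `σ` is a Frobenius at `A` over `ℓ`, the reduction
`ȳ₁` of `σ y` satisfies `ȳ₁(q^ℓ) = ȳ ^ ℓ`. -/
theorem qExpand_coeffMap_residue_decompHom_of_frobenius {σ : GQ} {ℓ : ℕ} [Fact ℓ.Prime]
    (hA : A.LiesOverPrime ℓ) (hσ : A.IsFrobeniusAt σ ℓ) (y : LaurentSeries A) :
    qExpand (IsLocalRing.ResidueField A) ℓ
        (coeffMap (IsLocalRing.residue A)
          (coeffMap (decompHom A hσ.mem_decompositionSubgroup) y)) =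
      coeffMap (IsLocalRing.residue A) y ^ ℓ := by
  haveI : CharP (IsLocalRing.ResidueField A) ℓ :=
    Fermat.Agent.S18.helper508.charP_residueField ℓ A hA
  haveI : ExpChar (IsLocalRing.ResidueField A) ℓ := ExpChar.prime Fact.out
  rw [← Fermat.Agent.Lib.helper7516.qExpand_coeffMap_frobenius ℓ
    (coeffMap (IsLocalRing.residue A) y), coeffMap_coeffMap, coeffMap_coeffMap]
  congr 1
  refine coeffMap_congr (RingHom.ext fun a => ?_) y
  rw [RingHom.comp_apply, RingHom.comp_apply, residue_decompHom_of_frobenius A hσ a,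
    frobenius_def]

end GaloisSeries

/-! ### Integral series as functions of level `N` -/

section Series

variable (N : ℕ) [NeZero N] (A : ValuationSubring Qb)

/-- The function of `F_N` given by an `A`-integral `q`-series lying in `F_N`. -/
def serFn (y : LaurentSeries A) (hy : coeffMap A.subtype y ∈ modularFunctionFieldBar N) :
    FNb N :=
  ⟨coeffMap A.subtype y, hy⟩

omit [NeZero N] in
theorem coe_serFn (y : LaurentSeries A) (hy : coeffMap A.subtype y ∈ modularFunctionFieldBar N) :
    ((serFn N A y hy : FNb N) : LaurentSeries Qb) = coeffMap A.subtype y := rfl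

omit [NeZero N] in
theorem coeffMap_subtype_injective :
    Function.Injective (coeffMap A.subtype : LaurentSeries A → LaurentSeries Qb) := by
  intro x y hxy
  ext n
  have h := congrArg (fun s : LaurentSeries Qb => s.coeff n) hxy
  simpa using h

omit [NeZero N] in
theorem serFn_ne_zero {y : LaurentSeries A}
    (hy : coeffMap A.subtype y ∈ modularFunctionFieldBar N) (hy0 : y ≠ 0) :
    serFn N A y hy ≠ 0 := by
  intro h
  apply hy0
  apply coeffMap_subtype_injective A
  rw [map_zero]
  exact congrArg Subtype.val h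

omit [NeZero N] in
theorem mem_decompHom {σ : GQ} (hσ : σ ∈ A.decompositionSubgroup ℚ) {y : LaurentSeries A}
    (hy : coeffMap A.subtype y ∈ modularFunctionFieldBar N) :
    coeffMap A.subtype (coeffMap (decompHom A hσ) y) ∈ modularFunctionFieldBar N := by
  rw [coeffMap_subtype_decompHom]
  exact coeffMap_mem_laurentBaseChange σ hy

omit [NeZero N] in
/-- The Galois action on the function of an integral series is the action on coefficients. -/
theorem gal_smul_serFn {σ : GQ} (hσ : σ ∈ A.decompositionSubgroup ℚ) (y : LaurentSeries A)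
    (hy : coeffMap A.subtype y ∈ modularFunctionFieldBar N) :
    gal N σ • serFn N A y hy =
      serFn N A (coeffMap (decompHom A hσ) y) (mem_decompHom N A hσ hy) := by
  apply Subtype.ext
  rw [coe_serFn, coeffMap_subtype_decompHom]
  rfl

end Series

/-! ### The reduction of the pulled-back divisor -/

section RedPull

open Fermat.Agent.S37.helper5162 (heckeAlphaBarIntegral heckeBetaBarIntegral)

variable (N : ℕ) [NeZero N] (A : ValuationSubring Qb) (r : ℕ) [NeZero r]

/-- `D ↦ ρ_* (π^* D)`: pull a divisor of `F_N` back to the auxiliary level `N * r` and push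
it to the special fibre by the Prelude place reduction. -/
def redPull (h' : ReductionInputsModL A (N * r)) :
    Divisor Qb (FNb N) →+
      Divisor (IsLocalRing.ResidueField A)
        (modularFunctionFieldFullC (IsLocalRing.ResidueField A) (N * r)) :=
  (Finsupp.mapDomain.addMonoidHom (placeReductionModL h')).comp
    (Divisor.pullbackAlong (heckeAlphaBar Qb N r) (heckeAlphaBarIntegral N r))

theorem redPull_apply (h' : ReductionInputsModL A (N * r)) (D : Divisor Qb (FNb N)) :
    redPull N A r h' D =
      Finsupp.mapDomain (placeReductionModL h')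
        (Divisor.pullbackAlong (heckeAlphaBar Qb N r) (heckeAlphaBarIntegral N r) D) := rfl

/-- `redPull` is positive and bounded by `[F_{N r} : F_N]` times the degree. -/
theorem posBdd_redPull (h' : ReductionInputsModL A (N * r)) :
    PosBdd (redPull N A r h') (finrankAlong Qb (heckeAlphaBar Qb N r)) :=
  posBdd_mapDomain_pullbackAlong (heckeAlphaBar Qb N r) (heckeAlphaBarIntegral N r)
    (Fermat.Agent.S37.helper8426.fundamentalIdentityAlong_heckeAlphaBar N r)
    (Fermat.Agent.S37.helper5162.place_deg_eq_one (N * r)) (placeReductionModL h')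

/-- An integral series of level `N` is an integral series of level `N * r`. -/
theorem mem_level_mul {y : LaurentSeries A}
    (hy : coeffMap A.subtype y ∈ modularFunctionFieldBar N) :
    coeffMap A.subtype y ∈ modularFunctionFieldBar (N * r) := by
  have h := (heckeAlphaBar Qb N r (serFn N A y hy)).2
  rwa [coe_heckeAlphaBar] at h

/-- **Conservation through the pull-back**: for an `A`-integral series `y` of level `N` with
nonzero reduction `ȳ`, `redPull (div y) = div ȳ`. -/
theorem redPull_apply_of_integral (h' : ReductionInputsModL A (N * r))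
    {D : Divisor Qb (FNb N)} (y : LaurentSeries A)
    (hy : coeffMap A.subtype y ∈ modularFunctionFieldBar N) (hD : IsDivOf D (serFn N A y hy))
    (z : LaurentSeries (IsLocalRing.ResidueField A))
    (hz : z ∈ modularFunctionFieldFullC (IsLocalRing.ResidueField A) (N * r))
    (hyz : coeffMap (IsLocalRing.residue A) y = z) (hz0 : z ≠ 0)
    (Q : Place (IsLocalRing.ResidueField A)
      (modularFunctionFieldFullC (IsLocalRing.ResidueField A) (N * r))) :
    redPull N A r h' D Q =
      Q.ord (⟨z, hz⟩ : modularFunctionFieldFullC (IsLocalRing.ResidueField A) (N * r)) := by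
  subst hyz
  have hy' := mem_level_mul N A r hy
  have hα : heckeAlphaBar Qb N r (serFn N A y hy) = ⟨coeffMap A.subtype y, hy'⟩ :=
    Subtype.ext (coe_heckeAlphaBar _ _ _)
  have h1 := hD.pullbackAlong (heckeAlphaBar Qb N r) (heckeAlphaBarIntegral N r)
  rw [hα] at h1
  exact (isPlaceReductionModL_placeReductionModL h').2 y hy' hz hz0 _ h1 Q

/-- The reduction of an integral series of level `N` lies in the function field of the special
fibre at level `N * r` (GAUSSMOD, `helper508`). -/
theorem residue_mem_level_mul (ℓ : ℕ) [Fact ℓ.Prime] (hA : A.LiesOverPrime ℓ)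
    (hℓM : ¬ ℓ ∣ N * r) {y : LaurentSeries A}
    (hy : coeffMap A.subtype y ∈ modularFunctionFieldBar N) :
    coeffMap (IsLocalRing.residue A) y ∈
      modularFunctionFieldFullC (IsLocalRing.ResidueField A) (N * r) :=
  Fermat.Agent.S18.helper508.coeffMap_residue_mem_fullC (N * r) ℓ hℓM A hA y
    (mem_level_mul N A r hy)

/-- **(R1) on divisors.**  For `τ` in the inertia group of `A` and `D` of degree `0`:
`redPull (τ D) = redPull D`. -/
theorem redPull_inertia (ℓ : ℕ) [Fact ℓ.Prime] (hA : A.LiesOverPrime ℓ) (hℓM : ¬ ℓ ∣ N * r)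
    (h' : ReductionInputsModL A (N * r))
    (hPGI : PrincipalGeneratedByIntegral A (IsLocalRing.residue A) N)
    {g : ℤ} (hrep : BoundedRep Qb (FNb N) g)
    {τ : GQ} (hτ : τ ∈ A.inertiaSubgroupIn ℚ)
    (D : Divisor Qb (FNb N)) (hD : Divisor.degree D = 0) :
    redPull N A r h' (gal N τ • D) = redPull N A r h' D := by
  have hτd := mem_decomposition_of_mem_inertia A hτ
  set Φ := redPull N A r h' with hΦdef
  have hΦ := posBdd_redPull N A r h'
  set d : ℤ := (finrankAlong Qb (heckeAlphaBar Qb N r) : ℤ) with hd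
  have hd0 : 0 ≤ d := Int.natCast_nonneg _
  set S := DistribSMul.toAddMonoidHom (Divisor Qb (FNb N)) (gal N τ) with hS
  have hbdd : IsBddOnEffective (Φ.comp S - Φ) (d * 1 + d) :=
    (hΦ.comp (isPosDeg_smul (gal N τ))).isBddOnEffective.sub hΦ.isBddOnEffective
  have key := rigidity_of_generators (Φ.comp S - Φ) (C := d * 1 + d) (g := g) (by positivity)
    (integralPrincipalDivisors A (IsLocalRing.residue A) N) hPGI ?_ hbdd hrep D hD
  · rw [AddMonoidHom.sub_apply, AddMonoidHom.comp_apply, sub_eq_zero] at key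
    exact key
  · rintro E ⟨y, hy, -, hne, hE⟩
    have hE' : IsDivOf E (serFn N A y hy) := hE
    rw [AddMonoidHom.sub_apply, AddMonoidHom.comp_apply, sub_eq_zero]
    ext Q
    have hk := residue_mem_level_mul N A r ℓ hA hℓM hy
    have h1 := hE'.smul (gal N τ)
    rw [gal_smul_serFn N A hτd y hy] at h1
    rw [hS, DistribSMul.toAddMonoidHom_apply,
      redPull_apply_of_integral N A r h' _ (mem_decompHom N A hτd hy) h1 _ hk
        (coeffMap_residue_decompHom_of_inertia A hτ y) hne Q,
      redPull_apply_of_integral N A r h' y hy hE' _ hk rfl hne Q]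

end RedPull

/-! ### The function-level Kronecker congruence and (R2) on divisors -/

section Kronecker

open Fermat.Agent.S37.helper5162 (heckeAlphaBarIntegral heckeBetaBarIntegral
  finiteAlong_heckeAlphaBar)

theorem ord_pow_nat {K F : Type*} [Field K] [Field F] [Algebra K F] (v : Place K F) (f : F)
    (n : ℕ) : v.ord (f ^ n) = n * v.ord f := by
  have h := v.ord_zpow f (n : ℤ)
  rwa [zpow_natCast] at h

variable (N : ℕ) [NeZero N] (ℓ : ℕ) [NeZero ℓ]

/-- `ν f = Norm_α (β f)`, the function with `T_ℓ (div f) = div (ν f)`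
(`α` the inclusion `F_N ⊆ F_{Nℓ}`, `β : q ↦ q^ℓ`). -/
def heckeNorm (f : FNb N) : FNb N :=
  normAlong (heckeAlphaBar Qb N ℓ) (heckeBetaBar Qb N ℓ f)

/-- `T_ℓ (div f) = div (ν f)`. -/
theorem isDivOf_heckeDivBar {D : Divisor Qb (FNb N)} {f : FNb N} (h : IsDivOf D f)
    (hf : f ≠ 0) :
    IsDivOf (heckeDivBar (heckeAlphaBarIntegral N ℓ) (heckeBetaBarIntegral N ℓ) D)
      (heckeNorm N ℓ f) := by
  have h1 := h.pullbackAlong (heckeBetaBar Qb N ℓ) (heckeBetaBarIntegral N ℓ)
  have hβ0 : heckeBetaBar Qb N ℓ f ≠ 0 := (map_ne_zero _).mpr hf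
  exact h1.pushforwardAlong hβ0 (heckeAlphaBar Qb N ℓ) (heckeAlphaBarIntegral N ℓ)
    (finiteAlong_heckeAlphaBar N ℓ)
    (Fermat.Agent.S37.helper8426.normFormulaAlong_heckeAlphaBar N ℓ)

/-- **Function-level Kronecker congruence, norm form** (the output of KRON-FF + KRON-SERIES):
for every `A`-integral series `y` of level `N`, the function `ν y = Norm_α (β y)` is given by
an `A`-integral series `z` whose reduction satisfies
`z̄(q^ℓ) = ȳ(q^{ℓ²}) * ȳ(q)^ℓ`  (i.e. `z̄ = ȳ(q^ℓ) * Fr ȳ`). -/
def KronRed (A : ValuationSubring Qb) : Prop :=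
  ∀ (y : LaurentSeries A) (hy : coeffMap A.subtype y ∈ modularFunctionFieldBar N),
    ∃ z : LaurentSeries A,
      coeffMap A.subtype z = ((heckeNorm N ℓ (serFn N A y hy) : FNb N) : LaurentSeries Qb) ∧
      qExpand (IsLocalRing.ResidueField A) ℓ (coeffMap (IsLocalRing.residue A) z) =
        qExpand (IsLocalRing.ResidueField A) ℓ
            (qExpand (IsLocalRing.ResidueField A) ℓ (coeffMap (IsLocalRing.residue A) y)) *
          coeffMap (IsLocalRing.residue A) y ^ ℓ

variable (A : ValuationSubring Qb) (r : ℕ) [NeZero r]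

/-- **(R2) on divisors.**  For every Frobenius `σ` at `A` and `D` of degree `0`:
`redPull (σσD) - redPull (T_ℓ (σD)) + ℓ • redPull D = 0`. -/
theorem redPull_es [Fact ℓ.Prime] (hA : A.LiesOverPrime ℓ) (hℓM : ¬ ℓ ∣ N * r)
    (h' : ReductionInputsModL A (N * r))
    (hPGI : PrincipalGeneratedByIntegral A (IsLocalRing.residue A) N)
    (hKron : KronRed N ℓ A)
    {g : ℤ} (hrep : BoundedRep Qb (FNb N) g)
    {σ : GQ} (hσ : A.IsFrobeniusAt σ ℓ)
    (D : Divisor Qb (FNb N)) (hD : Divisor.degree D = 0) :
    redPull N A r h' (gal N σ • gal N σ • D)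
      - redPull N A r h'
          (heckeDivBar (heckeAlphaBarIntegral N ℓ) (heckeBetaBarIntegral N ℓ) (gal N σ • D))
      + ℓ • redPull N A r h' D = 0 := by
  have hσd := hσ.mem_decompositionSubgroup
  set Φ := redPull N A r h' with hΦdef
  have hΦ := posBdd_redPull N A r h'
  set d : ℤ := (finrankAlong Qb (heckeAlphaBar Qb N r) : ℤ) with hd
  have hd0 : 0 ≤ d := Int.natCast_nonneg _
  set c : ℤ := (finrankAlong Qb (heckeBetaBar Qb N ℓ) : ℤ) with hc
  have hc0 : 0 ≤ c := Int.natCast_nonneg _
  set S := DistribSMul.toAddMonoidHom (Divisor Qb (FNb N)) (gal N σ) with hS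
  set T := heckeDivBar (heckeAlphaBarIntegral N ℓ) (heckeBetaBarIntegral N ℓ) with hT
  have hSpos : IsPosDeg S 1 := isPosDeg_smul (gal N σ)
  have hTpos : IsPosDeg T c :=
    isPosDeg_correspondence (heckeBetaBar Qb N ℓ) (heckeAlphaBar Qb N ℓ)
      (heckeBetaBarIntegral N ℓ) (heckeAlphaBarIntegral N ℓ)
      (Fermat.Agent.S37.helper8426.fundamentalIdentityAlong_heckeBetaBar N ℓ)
  have hbdd : IsBddOnEffective (Φ.comp (S.comp S) - Φ.comp (T.comp S) + ℓ • Φ)
      (d * (1 * 1) + d * (c * 1) + ℓ * d) :=
    ((hΦ.comp (hSpos.comp hSpos)).isBddOnEffective.sub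
      (hΦ.comp (hTpos.comp hSpos)).isBddOnEffective).add (hΦ.isBddOnEffective.nsmul ℓ)
  have key := rigidity_of_generators (Φ.comp (S.comp S) - Φ.comp (T.comp S) + ℓ • Φ)
    (C := d * (1 * 1) + d * (c * 1) + ℓ * d) (g := g) (by positivity)
    (integralPrincipalDivisors A (IsLocalRing.residue A) N) hPGI ?_ hbdd hrep D hD
  · exact key
  · rintro E ⟨y, hy, -, hne, hE⟩
    have hE' : IsDivOf E (serFn N A y hy) := hE
    -- the three integral series
    set y₁ := coeffMap (decompHom A hσd) y with hy₁def
    have hy₁ : coeffMap A.subtype y₁ ∈ modularFunctionFieldBar N := mem_decompHom N A hσd hy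
    set y₂ := coeffMap (decompHom A hσd) y₁ with hy₂def
    have hy₂ : coeffMap A.subtype y₂ ∈ modularFunctionFieldBar N := mem_decompHom N A hσd hy₁
    obtain ⟨z, hz1, hz2⟩ := hKron y₁ hy₁
    have hz : coeffMap A.subtype z ∈ modularFunctionFieldBar N := by
      rw [hz1]
      exact (heckeNorm N ℓ (serFn N A y₁ hy₁)).2
    have hnorm : heckeNorm N ℓ (serFn N A y₁ hy₁) = serFn N A z hz := Subtype.ext hz1.symm
    -- their reductions
    have f1 : qExpand (IsLocalRing.ResidueField A) ℓ (coeffMap (IsLocalRing.residue A) y₁)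
        = coeffMap (IsLocalRing.residue A) y ^ ℓ :=
      qExpand_coeffMap_residue_decompHom_of_frobenius A hA hσ y
    have f2 : qExpand (IsLocalRing.ResidueField A) ℓ (coeffMap (IsLocalRing.residue A) y₂)
        = coeffMap (IsLocalRing.residue A) y₁ ^ ℓ :=
      qExpand_coeffMap_residue_decompHom_of_frobenius A hA hσ y₁
    have hne₁ : coeffMap (IsLocalRing.residue A) y₁ ≠ 0 := by
      intro h0
      rw [h0, map_zero] at f1
      exact pow_ne_zero ℓ hne f1.symm
    have hne₂ : coeffMap (IsLocalRing.residue A) y₂ ≠ 0 := by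
      intro h0
      rw [h0, map_zero] at f2
      exact pow_ne_zero ℓ hne₁ f2.symm
    have hzbar : coeffMap (IsLocalRing.residue A) z =
        coeffMap (IsLocalRing.residue A) y ^ ℓ * coeffMap (IsLocalRing.residue A) y₂ := by
      apply qExpand_injective (R := IsLocalRing.ResidueField A) ℓ
      rw [hz2, f1, map_mul, map_pow, f2]
    have hy₁0 : y₁ ≠ 0 := by
      intro h0
      exact hne₁ (by rw [h0, map_zero])
    have hk := residue_mem_level_mul N A r ℓ hA hℓM hy
    have hk₂ := residue_mem_level_mul N A r ℓ hA hℓM hy₂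
    have hkz := residue_mem_level_mul N A r ℓ hA hℓM hz
    -- the three divisors
    have hA1 := (hE'.smul (gal N σ)).smul (gal N σ)
    rw [gal_smul_serFn N A hσd y hy, gal_smul_serFn N A hσd y₁ hy₁] at hA1
    have hB1 := isDivOf_heckeDivBar N ℓ (hE'.smul (gal N σ))
      (by rw [gal_smul_serFn N A hσd y hy]; exact serFn_ne_zero N A hy₁ hy₁0)
    rw [gal_smul_serFn N A hσd y hy, hnorm] at hB1
    rw [AddMonoidHom.add_apply, AddMonoidHom.sub_apply, AddMonoidHom.comp_apply,
      AddMonoidHom.comp_apply, AddMonoidHom.comp_apply, AddMonoidHom.comp_apply,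
      AddMonoidHom.smul_apply]
    ext Q
    rw [Finsupp.add_apply, Finsupp.sub_apply, Finsupp.smul_apply, Finsupp.zero_apply, hS,
      DistribSMul.toAddMonoidHom_apply, DistribSMul.toAddMonoidHom_apply,
      redPull_apply_of_integral N A r h' y₂ hy₂ hA1 _ hk₂ rfl hne₂ Q,
      redPull_apply_of_integral N A r h' z hz hB1 _ hkz rfl
        (by rw [hzbar]; exact mul_ne_zero (pow_ne_zero ℓ hne) hne₂) Q,
      redPull_apply_of_integral N A r h' y hy hE' _ hk rfl hne Q]
    have hmul : (⟨coeffMap (IsLocalRing.residue A) z, hkz⟩ :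
        modularFunctionFieldFullC (IsLocalRing.ResidueField A) (N * r)) =
        ⟨coeffMap (IsLocalRing.residue A) y, hk⟩ ^ ℓ *
          ⟨coeffMap (IsLocalRing.residue A) y₂, hk₂⟩ := Subtype.ext hzbar
    have hy0' : (⟨coeffMap (IsLocalRing.residue A) y, hk⟩ :
        modularFunctionFieldFullC (IsLocalRing.ResidueField A) (N * r)) ≠ 0 := fun h0 =>
      hne (congrArg Subtype.val h0)
    have hy₂0' : (⟨coeffMap (IsLocalRing.residue A) y₂, hk₂⟩ :
        modularFunctionFieldFullC (IsLocalRing.ResidueField A) (N * r)) ≠ 0 := fun h0 =>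
      hne₂ (congrArg Subtype.val h0)
    rw [hmul, Q.ord_mul (pow_ne_zero ℓ hy0') hy₂0', ord_pow_nat, nsmul_eq_mul]
    ring

end Kronecker

end Fermat.Agent.S37.helper3298

end
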