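/-
S37-LATINST (helper3441, board #1867): the CONCRETE instance of node (L) of the S37 lattice track.

For `ℓ ∤ M`, an algebraically closed field `L ⊇ ℚ`, a valuation subring `A` of `L` over `ℓ`, the
landed Gauss pair `helper508.gaussValuationSubring` / `helper508.gaussResidue` of
`F = laurentBaseChange L (modularFunctionFieldFull M)` onto `F_k = modularFunctionFieldFullC k M`
satisfies `helper5413.LatHyp`, as soon as the genus does not drop (`GenusEq`, the conclusion of
`helper8566.exists_genus_two_fibres`, or `riemannGenus L F ≤ riemannGenus k F_k`).  The anchor is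
the `j`-line; every other input is discharged from landed S18 files.
-/
import Mathlib
import Fermat.Agent.S37.helper3441_LatticeSupply
import Fermat.Agent.S18.helper1733_GaussOrtho
import Fermat.Agent.S18.helper981_FundEq
import Fermat.Agent.S18.helper6458_PrincipalDegSep
import Fermat.Agent.S18.helper9392_Separable
import Fermat.Agent.S18.helper6381_HLine
import Fermat.Agent.Lib.helper6879_ResidueQbar
import Fermat.Agent.S24.helper1370_PlaceBasics
import Fermat.Agent.S18.helper3537_InputsPlaces
import Fermat.Agent.S37.helper6835_NonSpecial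

set_option autoImplicit false
set_option synthInstance.maxHeartbeats 400000

noncomputable section

open AlgebraicCurve ModularCurve IntermediateField

namespace Fermat.Agent.S37.helper3441

open Fermat.Agent.S18

/-! ## The special fibre `F_k = modularFunctionFieldFullC k M`, `char k = p ∤ M` -/

section SpecialFibre

variable (k : Type) [Field k] (p : ℕ) [Fact p.Prime] [CharP k p] (M : ℕ) [NeZero M]

/-- The `j̄`-line on the special fibre: `j̄` is transcendental and `[F_k : k(j̄)] = ψ(M)`. -/
theorem fullC_line (hpM : ¬ p ∣ M) :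
    Transcendental k (helper9392.jbarC k M) ∧
      FiniteDimensional k⟮helper9392.jbarC k M⟯ (modularFunctionFieldFullC k M) ∧
      Module.finrank k⟮helper9392.jbarC k M⟯ (modularFunctionFieldFullC k M) = dedekindPsi M := by
  have hNk : ∀ q : ℕ, q.Prime → q ∣ M → (q : k) ≠ 0 := by
    intro q hq hqM h0
    have h1 : p ∣ q := (CharP.cast_eq_zero_iff k p q).mp h0
    have hpq : p = q := (Nat.prime_dvd_prime_iff_eq Fact.out hq).mp h1
    exact hpM (hpq ▸ hqM)
  have h := helper6381.subtype_of_relfinrank (modularFunctionFieldFullC k M)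
    (helper9392.jbarC k M) 1 (dedekindPsi M)
    (Fermat.Agent.S28.helper1595.dedekindPsi_pos (NeZero.pos M))
    (helper6381.transcendental_jqModC k) (by
      rw [one_mul, relfinrank_eq_toNat_relrank]
      have h2 := helper6381.relrank_full_eq_psi k M hNk
      show Cardinal.toNat ((k⟮jqModC k⟯).relrank (modularFunctionFieldFullC k M)) = dedekindPsi M
      rw [h2, Cardinal.toNat_natCast])
  simpa using h

end SpecialFibre

section SpecialPlaces

/-- The cusp place of the special fibre (any field, any level). -/
theorem fullC_nonempty_place (k : Type*) [Field k] (M : ℕ) :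
    Nonempty (Place k (modularFunctionFieldFullC k M)) := by
  refine ⟨Fermat.Agent.S24.helper1370.ofAlgHom (HahnSeries.addVal ℤ k) ?_
    (modularFunctionFieldFullC k M).val ⟨helper9392.jbarC k M, ?_, ?_⟩⟩
  · intro a ha
    have hne : algebraMap k (LaurentSeries k) a ≠ 0 := (map_ne_zero _).mpr ha
    rw [HahnSeries.addVal_apply_of_ne hne]
    have h1 : algebraMap k (LaurentSeries k) a = HahnSeries.C a := by
      rw [HahnSeries.algebraMap_apply']
      exact HahnSeries.ofPowerSeries_C a
    rw [h1, HahnSeries.order_C]
    rfl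
  · intro h
    have := congrArg Subtype.val h
    exact jqModC_ne_zero_of_nontrivial k this
  · show HahnSeries.addVal ℤ k (jqModC k) ≠ 0
    rw [HahnSeries.addVal_apply_of_ne (jqModC_ne_zero_of_nontrivial k), helper9392.order_jqModC]
    decide

variable (k : Type) [Field k] [IsAlgClosed k] (p : ℕ) [Fact p.Prime] [CharP k p] (M : ℕ) [NeZero M]

include p in
/-- Principal divisors on the special fibre have degree zero (`p ∤ M`). -/
theorem fullC_hasPrincipalDivisors (hpM : ¬ p ∣ M) :
    HasPrincipalDivisors k (modularFunctionFieldFullC k M) := by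
  obtain ⟨htr, hfin, -⟩ := fullC_line k p M hpM
  have := hfin
  have := helper9392.isSeparable_modularFunctionFieldFullC_of_isAlgClosed k p M
  exact helper6458.hasPrincipalDivisors_of_isSeparable (helper9392.jbarC k M) htr

include p in
/-- All places of the special fibre have degree one (`p ∤ M`). -/
theorem fullC_place_deg_eq_one (hpM : ¬ p ∣ M) (v : Place k (modularFunctionFieldFullC k M)) :
    v.deg = 1 := by
  obtain ⟨htr, hfin, -⟩ := fullC_line k p M hpM
  have := hfin
  have := helper9392.isSeparable_modularFunctionFieldFullC_of_isAlgClosed k p M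
  exact helper6458.place_deg_eq_one_of_isSeparable (helper9392.jbarC k M) htr v

include p in
/-- All Riemann–Roch spaces of the special fibre are finite-dimensional (`p ∤ M`). -/
theorem fullC_finite_riemannRochSpace (hpM : ¬ p ∣ M)
    (D : Divisor k (modularFunctionFieldFullC k M)) : Module.Finite k (riemannRochSpace D) := by
  have := fullC_hasPrincipalDivisors k p M hpM
  obtain ⟨Q₀⟩ := fullC_nonempty_place k M
  exact helper981.finite_riemannRochSpace (fullC_place_deg_eq_one k p M hpM) Q₀ D

include p in
/-- **Riemann's theorem on the special fibre** (`p ∤ M`), with `g = riemannGenus k F_k`. -/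
theorem fullC_riemann (hpM : ¬ p ∣ M) :
    (∀ D : Divisor k (modularFunctionFieldFullC k M),
      Divisor.degree D + 1 - (helper981.riemannGenus k (modularFunctionFieldFullC k M) : ℤ)
        ≤ (Module.finrank k (riemannRochSpace D) : ℤ)) ∧
    ∃ c : ℤ, ∀ D : Divisor k (modularFunctionFieldFullC k M), c ≤ Divisor.degree D →
      (Module.finrank k (riemannRochSpace D) : ℤ)
        = Divisor.degree D + 1 - (helper981.riemannGenus k (modularFunctionFieldFullC k M) : ℤ) := by
  have := fullC_hasPrincipalDivisors k p M hpM
  obtain ⟨htr, hfin, -⟩ := fullC_line k p M hpM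
  have := hfin
  obtain ⟨Q₀⟩ := fullC_nonempty_place k M
  exact helper981.exists_forall_finrank_eq_of_transcendental (helper9392.jbarC k M) htr Q₀
    (fullC_place_deg_eq_one k p M hpM)

include p in
/-- The special fibre has infinitely many places (`p ∤ M`). -/
theorem fullC_infinite_places (hpM : ¬ p ∣ M) :
    (Set.univ : Set (Place k (modularFunctionFieldFullC k M))).Infinite := by
  have := fullC_hasPrincipalDivisors k p M hpM
  obtain ⟨htr, -, -⟩ := fullC_line k p M hpM
  obtain ⟨Q₀⟩ := fullC_nonempty_place k M
  refine Fermat.Agent.S37.helper6835.infinite_places_of_not_const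
    (fullC_place_deg_eq_one k p M hpM) Q₀ (helper9392.jbarC k M) fun a ha => htr ?_
  rw [ha]
  exact isAlgebraic_algebraMap a

end SpecialPlaces

/-! ## The Gauss pair: the elementary supplier facts -/

section Gauss

variable (M : ℕ) [NeZero M] (ℓ : ℕ) [Fact ℓ.Prime] (hℓM : ¬ ℓ ∣ M)
variable {L : Type} [Field L] [Algebra ℚ L] (A : ValuationSubring L)
  (hA : (ℓ : L) ∈ A.nonunits)

/-- **(hVG)** the Gauss valuation has the value group of the constants. -/
theorem gauss_hVG (f : ↥(laurentBaseChange L (modularFunctionFieldFull M))) (hf : f ≠ 0) :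
    ∃ c : L, (helper508.gaussValuationSubring M ℓ hℓM A hA).valuation
        (algebraMap L ↥(laurentBaseChange L (modularFunctionFieldFull M)) c) =
      (helper508.gaussValuationSubring M ℓ hℓM A hA).valuation f := by
  obtain ⟨c, w, -, hfw, hw, hwi⟩ := helper508.exists_const_mul_unit M ℓ hℓM A hA f hf
  refine ⟨c, ?_⟩
  have hw0 : w ≠ 0 := by
    rintro rfl
    rw [mul_zero] at hfw
    exact hf hfw
  have h1 := ((helper508.gaussValuationSubring M ℓ hℓM A hA).valuation_le_one_iff w).mpr hw
  have h2 := ((helper508.gaussValuationSubring M ℓ hℓM A hA).valuation_le_one_iff w⁻¹).mpr hwi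
  rw [map_inv₀] at h2
  have hpos : 0 < (helper508.gaussValuationSubring M ℓ hℓM A hA).valuation w :=
    zero_lt_iff.mpr ((map_ne_zero _).mpr hw0)
  have h3 := (inv_le_one₀ hpos).mp h2
  rw [hfw, map_mul, le_antisymm h1 h3, mul_one]

/-- **(hred)** the kernel of the Gauss residue map is the open unit ball. -/
theorem gauss_hred (f : ↥(helper508.gaussValuationSubring M ℓ hℓM A hA)) :
    helper508.gaussResidue M ℓ hℓM A hA f = 0 ↔
      (helper508.gaussValuationSubring M ℓ hℓM A hA).valuation
        (f : ↥(laurentBaseChange L (modularFunctionFieldFull M))) < 1 := by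
  rw [helper508.gaussResidue_eq_zero_iff, ← ValuationSubring.valuation_lt_one_iff,
    IsLocalRing.mem_maximalIdeal, mem_nonunits_iff]

/-- **(hredk_surj)** every constant of the special fibre is the residue of a constant. -/
theorem gauss_hredk_surj (c' : IsLocalRing.ResidueField A) :
    ∃ (c : L) (hc : algebraMap L ↥(laurentBaseChange L (modularFunctionFieldFull M)) c ∈
        helper508.gaussValuationSubring M ℓ hℓM A hA),
      helper508.gaussResidue M ℓ hℓM A hA ⟨_, hc⟩ =
        algebraMap (IsLocalRing.ResidueField A)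
          ↥(modularFunctionFieldFullC (IsLocalRing.ResidueField A) M) c' := by
  obtain ⟨a, rfl⟩ := IsLocalRing.residue_surjective c'
  have hc : algebraMap L ↥(laurentBaseChange L (modularFunctionFieldFull M)) (a : L) ∈
      helper508.gaussValuationSubring M ℓ hℓM A hA :=
    (helper508.algebraMap_mem_gaussValuationSubring_iff M ℓ hℓM A hA _).mpr a.2
  exact ⟨a, hc, helper1733.gaussResidue_algebraMap M ℓ hℓM A hA (a : L) hc⟩

/-- The residue of `j` is `j̄`. -/
theorem gauss_red_j :
    helper508.gaussResidue M ℓ hℓM A hA
        ⟨helper1733.gaussJ L M, helper1733.gaussJ_mem M ℓ hℓM A hA⟩ =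
      helper9392.jbarC (IsLocalRing.ResidueField A) M := by
  apply Subtype.ext
  rw [helper1733.gaussResidue_of_eq M ℓ hℓM A hA _ (jqModC A) (coeffMap_jqModC _).symm]
  exact coeffMap_jqModC _

end Gauss

/-! ## The concrete lattice hypotheses -/

section Main

variable (M : ℕ) [NeZero M] (ℓ : ℕ) [Fact ℓ.Prime] (hℓM : ¬ ℓ ∣ M)
variable {L : Type} [Field L] [Algebra ℚ L] [IsAlgClosed L] (A : ValuationSubring L)
  (hA : (ℓ : L) ∈ A.nonunits)

set_option maxHeartbeats 1000000 in
/-- **(L), concrete.**  The landed Gauss pair at level `M` (`ℓ ∤ M`) satisfies the lattice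
hypotheses `helper5413.LatHyp` with anchor the pole divisors of `j`, `j̄`, for every pair
`(g, c)` such that Riemann's inequality holds on the generic fibre with `g` and the reverse
inequality holds on the special fibre in degree `≥ c` with the same `g`. -/
theorem latHyp_gauss_of_riemann (g : ℕ) (c : ℤ)
    (hRiemF : ∀ D : Divisor L ↥(laurentBaseChange L (modularFunctionFieldFull M)),
      Divisor.degree D + 1 - (g : ℤ) ≤ (Module.finrank L (riemannRochSpace D) : ℤ))
    (hRiemk : ∀ D' : Divisor (IsLocalRing.ResidueField A)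
        ↥(modularFunctionFieldFullC (IsLocalRing.ResidueField A) M),
      c ≤ Divisor.degree D' →
        (Module.finrank (IsLocalRing.ResidueField A) (riemannRochSpace D') : ℤ) ≤
          Divisor.degree D' + 1 - (g : ℤ)) :
    ∃ (E₀ : Divisor L ↥(laurentBaseChange L (modularFunctionFieldFull M)))
      (E₀k : Divisor (IsLocalRing.ResidueField A)
        ↥(modularFunctionFieldFullC (IsLocalRing.ResidueField A) M)),
      (∀ P, E₀ P = max 0 (-(P.ord (helper1733.gaussJ L M)))) ∧
      (∀ Q, E₀k Q = max 0 (-(Q.ord (helper9392.jbarC (IsLocalRing.ResidueField A) M)))) ∧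
      helper5413.LatHyp (helper508.gaussValuationSubring M ℓ hℓM A hA)
        (helper508.gaussResidue M ℓ hℓM A hA) (g : ℤ) c E₀ E₀k := by
  classical
  have : CharZero L := algebraRat.charZero L
  -- generic fibre
  have hres := helper1733.gauss_resTranscendental M ℓ hℓM A hA
  have hxT : Transcendental L (helper1733.gaussJ L M) := hres.transcendental
  have hortho := helper1733.gauss_isOrtho M ℓ hℓM A hA
  have hspan := helper1733.gauss_span_eq_top M ℓ hℓM A hA
  have : FiniteDimensional L⟮helper1733.gaussJ L M⟯
      ↥(laurentBaseChange L (modularFunctionFieldFull M)) :=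
    Module.Finite.of_basis (Module.Basis.mk hortho.linearIndependent hspan.ge)
  have hPF : HasPrincipalDivisors L ↥(laurentBaseChange L (modularFunctionFieldFull M)) :=
    Fermat.Agent.S24.helper204.hasPrincipalDivisors (helper1733.gaussJ L M) hxT
  have degL : ∀ P : Place L ↥(laurentBaseChange L (modularFunctionFieldFull M)), P.deg = 1 :=
    Fermat.Agent.S24.helper204.place_deg_eq_one (helper1733.gaussJ L M) hxT
  obtain ⟨P₀⟩ := helper3537.nonempty_place (K := L) (helper1733.gaussJ L M) hxT
  -- special fibre
  have : IsAlgClosed (IsLocalRing.ResidueField A) :=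
    Fermat.Agent.Lib.helper6879.isAlgClosed_residueField A
  have : CharP (IsLocalRing.ResidueField A) ℓ := helper508.charP_residueField ℓ A hA
  obtain ⟨hxbT, hfink', hdegk'⟩ := fullC_line (IsLocalRing.ResidueField A) ℓ M hℓM
  have := hfink'
  have hPk : HasPrincipalDivisors (IsLocalRing.ResidueField A)
      ↥(modularFunctionFieldFullC (IsLocalRing.ResidueField A) M) :=
    fullC_hasPrincipalDivisors (IsLocalRing.ResidueField A) ℓ M hℓM
  have degk := fullC_place_deg_eq_one (IsLocalRing.ResidueField A) ℓ M hℓM
  obtain ⟨Q₀⟩ := fullC_nonempty_place (IsLocalRing.ResidueField A) M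
  -- the pole divisors of `j`, `j̄`
  have hx0 : helper1733.gaussJ L M ≠ 0 := fun h => hxT (h ▸ isAlgebraic_zero)
  have hxb0 : helper9392.jbarC (IsLocalRing.ResidueField A) M ≠ 0 :=
    fun h => hxbT (h ▸ isAlgebraic_zero)
  obtain ⟨Xinf, hXinf⟩ := helper981.exists_poleDivisor (K := L) hx0
  obtain ⟨Yinf, hYinf⟩ := helper981.exists_poleDivisor (K := IsLocalRing.ResidueField A) hxb0
  have hdX : Divisor.degree Xinf = ((dedekindPsi M : ℕ) : ℤ) := by
    rw [helper981.degree_poleDivisor_eq_finrank degL P₀ _ hxT Xinf hXinf,
      helper1733.gauss_finrank M ℓ hℓM A hA]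
  have hdY : Divisor.degree Yinf = ((dedekindPsi M : ℕ) : ℤ) := by
    rw [helper981.degree_poleDivisor_eq_finrank degk Q₀ _ hxbT Yinf hYinf, hdegk']
  have hdpos : (0 : ℤ) < ((dedekindPsi M : ℕ) : ℤ) := by
    exact_mod_cast Fermat.Agent.S28.helper1595.dedekindPsi_pos (NeZero.pos M)
  refine ⟨Xinf, Yinf, hXinf, hYinf, ?_⟩
  refine latHyp_of_supply (helper508.gaussValuationSubring M ℓ hℓM A hA)
    (gauss_hVG M ℓ hℓM A hA) (helper508.gaussResidue M ℓ hℓM A hA)
    (gauss_hred M ℓ hℓM A hA) (gauss_hredk_surj M ℓ hℓM A hA) Xinf Yinf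
    ((dedekindPsi M : ℕ) : ℤ) hdpos hdX hdY ?_ ?_ (g : ℤ) hRiemF
    (fun E => helper981.finite_riemannRochSpace degk Q₀ E) c hRiemk degL degk
  · -- (RC)
    intro n f hf hfL
    have hYinf' : helper6292.IsPoleDivisor
        (helper508.gaussResidue M ℓ hℓM A hA
          ⟨helper1733.gaussJ L M, helper1733.gaussJ_mem M ℓ hℓM A hA⟩) Yinf := by
      rw [gauss_red_j]
      exact hYinf
    exact helper1733.red_mem_riemannRochSpace_of_isOrtho
      (helper508.gaussValuationSubring M ℓ hℓM A hA) (helper508.gaussResidue M ℓ hℓM A hA)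
      (helper1733.gauss_compat M ℓ hℓM A hA) (helper1733.gaussJ_mem M ℓ hℓM A hA) hres hortho
      hspan hXinf hYinf' n hf hfL
  · -- (CART)
    intro E
    have : Module.Finite L (riemannRochSpace E) := helper981.finite_riemannRochSpace degL P₀ E
    obtain ⟨e, -, heO, hespan⟩ :=
      helper1733.gauss_exists_isOrtho_basis M ℓ hℓM A hA (riemannRochSpace E)
    refine ⟨_, e, heO.linearIndependent, hespan, fun a => ⟨fun h i => ?_, fun h => ?_⟩⟩
    · have h1 := heO.2 Finset.univ a i (Finset.mem_univ i)
      exact (ValuationSubring.valuation_le_one_iff _ _).mp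
        (h1.trans ((ValuationSubring.valuation_le_one_iff _ _).mpr h))
    · refine Subring.sum_mem _ fun i _ => ?_
      rw [Algebra.smul_def]
      exact Subring.mul_mem _ (h i) ((ValuationSubring.valuation_le_one_iff _ _).mp (heO.1 i))

end Main

/-! ## Consumer forms -/

section Consumers

variable (M : ℕ) [NeZero M] (ℓ : ℕ) [Fact ℓ.Prime] (hℓM : ¬ ℓ ∣ M)
variable {L : Type} [Field L] [Algebra ℚ L] [IsAlgClosed L] (A : ValuationSubring L)
  (hA : (ℓ : L) ∈ A.nonunits)

/-- **The genus hypothesis** (line-independent): Riemann's inequality on the generic fibre with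
some `g`, and the reverse inequality in large degree on the special fibre with the same `g`.
This is VERBATIM the conclusion of `Fermat.Agent.S18.helper8566.exists_genus_two_fibres`. -/
def GenusEq (L F k Fk : Type*) [Field L] [Field F] [Algebra L F] [Field k] [Field Fk]
    [Algebra k Fk] : Prop :=
  ∃ g : ℕ,
    (∀ D : Divisor L F,
      Divisor.degree D + 1 - (g : ℤ) ≤ (Module.finrank L (riemannRochSpace D) : ℤ)) ∧
    (∃ c : ℤ, ∀ D' : Divisor k Fk, c ≤ Divisor.degree D' →
      (Module.finrank k (riemannRochSpace D') : ℤ) ≤ Divisor.degree D' + 1 - (g : ℤ))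

include ℓ hℓM A hA in
/-- The genus hypothesis from the inequality of Riemann genera `g(F) ≤ g(F_k)` ("the genus does
not drop under reduction"). -/
theorem genusEq_of_riemannGenus_le
    (hg : helper981.riemannGenus L ↥(laurentBaseChange L (modularFunctionFieldFull M)) ≤
      helper981.riemannGenus (IsLocalRing.ResidueField A)
        ↥(modularFunctionFieldFullC (IsLocalRing.ResidueField A) M)) :
    GenusEq L ↥(laurentBaseChange L (modularFunctionFieldFull M)) (IsLocalRing.ResidueField A)
      ↥(modularFunctionFieldFullC (IsLocalRing.ResidueField A) M) := by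
  have : CharZero L := algebraRat.charZero L
  -- generic fibre
  have hres := helper1733.gauss_resTranscendental M ℓ hℓM A hA
  have hxT : Transcendental L (helper1733.gaussJ L M) := hres.transcendental
  have : FiniteDimensional L⟮helper1733.gaussJ L M⟯
      ↥(laurentBaseChange L (modularFunctionFieldFull M)) :=
    Module.Finite.of_basis (Module.Basis.mk (helper1733.gauss_isOrtho M ℓ hℓM A hA).linearIndependent
      (helper1733.gauss_span_eq_top M ℓ hℓM A hA).ge)
  have hPF : HasPrincipalDivisors L ↥(laurentBaseChange L (modularFunctionFieldFull M)) :=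
    Fermat.Agent.S24.helper204.hasPrincipalDivisors (helper1733.gaussJ L M) hxT
  have degL : ∀ P : Place L ↥(laurentBaseChange L (modularFunctionFieldFull M)), P.deg = 1 :=
    Fermat.Agent.S24.helper204.place_deg_eq_one (helper1733.gaussJ L M) hxT
  obtain ⟨P₀⟩ := helper3537.nonempty_place (K := L) (helper1733.gaussJ L M) hxT
  -- special fibre
  have : IsAlgClosed (IsLocalRing.ResidueField A) :=
    Fermat.Agent.Lib.helper6879.isAlgClosed_residueField A
  have : CharP (IsLocalRing.ResidueField A) ℓ := helper508.charP_residueField ℓ A hA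
  obtain ⟨hxbT, hfink', -⟩ := fullC_line (IsLocalRing.ResidueField A) ℓ M hℓM
  have := hfink'
  have hPk : HasPrincipalDivisors (IsLocalRing.ResidueField A)
      ↥(modularFunctionFieldFullC (IsLocalRing.ResidueField A) M) :=
    fullC_hasPrincipalDivisors (IsLocalRing.ResidueField A) ℓ M hℓM
  have degk := fullC_place_deg_eq_one (IsLocalRing.ResidueField A) ℓ M hℓM
  obtain ⟨Q₀⟩ := fullC_nonempty_place (IsLocalRing.ResidueField A) M
  obtain ⟨hF, -⟩ := helper981.exists_forall_finrank_eq_of_transcendental
    (helper1733.gaussJ L M) hxT P₀ degL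
  obtain ⟨-, c, hc⟩ := helper981.exists_forall_finrank_eq_of_transcendental
    (helper9392.jbarC (IsLocalRing.ResidueField A) M) hxbT Q₀ degk
  refine ⟨_, hF, c, fun D' hD' => ?_⟩
  rw [hc D' hD']
  have : ((helper981.riemannGenus L ↥(laurentBaseChange L (modularFunctionFieldFull M)) : ℕ) : ℤ) ≤
      (helper981.riemannGenus (IsLocalRing.ResidueField A)
        ↥(modularFunctionFieldFullC (IsLocalRing.ResidueField A) M) : ℕ) := by
    exact_mod_cast hg
  linarith

/-- **(L), concrete, existential form**: the genus hypothesis gives `helper5413.LatHyp` for the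
landed Gauss pair at level `M`, anchored at the pole divisors of `j`, `j̄`. -/
theorem latHyp_gauss
    (hG : GenusEq L ↥(laurentBaseChange L (modularFunctionFieldFull M))
      (IsLocalRing.ResidueField A) ↥(modularFunctionFieldFullC (IsLocalRing.ResidueField A) M)) :
    ∃ (g : ℕ) (c : ℤ) (E₀ : Divisor L ↥(laurentBaseChange L (modularFunctionFieldFull M)))
      (E₀k : Divisor (IsLocalRing.ResidueField A)
        ↥(modularFunctionFieldFullC (IsLocalRing.ResidueField A) M)),
      (∀ P, E₀ P = max 0 (-(P.ord (helper1733.gaussJ L M)))) ∧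
      (∀ Q, E₀k Q = max 0 (-(Q.ord (helper9392.jbarC (IsLocalRing.ResidueField A) M)))) ∧
      helper5413.LatHyp (helper508.gaussValuationSubring M ℓ hℓM A hA)
        (helper508.gaussResidue M ℓ hℓM A hA) (g : ℤ) c E₀ E₀k := by
  obtain ⟨g, hF, c, hk⟩ := hG
  obtain ⟨E₀, E₀k, h1, h2, H⟩ := latHyp_gauss_of_riemann M ℓ hℓM A hA g c hF hk
  exact ⟨g, c, E₀, E₀k, h1, h2, H⟩

/-- **Conservation of number for the Gauss pair** (the `hcons` input of the producers of the
Prelude Prop `ReductionInputsAlong` / `ReductionInputsModL`): under the genus hypothesis there is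
a degree-preserving map `r` from the places of the generic fibre to the places of the special
fibre with `r_* (div f) = div (red f)` for every Gauss unit `f`. -/
theorem exists_placeReduction_gauss
    (hG : GenusEq L ↥(laurentBaseChange L (modularFunctionFieldFull M))
      (IsLocalRing.ResidueField A) ↥(modularFunctionFieldFullC (IsLocalRing.ResidueField A) M)) :
    ∃ r : Place L ↥(laurentBaseChange L (modularFunctionFieldFull M)) →
        Place (IsLocalRing.ResidueField A)
          ↥(modularFunctionFieldFullC (IsLocalRing.ResidueField A) M),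
      (∀ P, (r P).deg = P.deg) ∧
      ∀ f : ↥(helper508.gaussValuationSubring M ℓ hℓM A hA),
        helper508.gaussResidue M ℓ hℓM A hA f ≠ 0 →
        ∀ D : Divisor L ↥(laurentBaseChange L (modularFunctionFieldFull M)),
          (∀ P, D P = P.ord (f : ↥(laurentBaseChange L (modularFunctionFieldFull M)))) →
          ∀ Q, Finsupp.mapDomain r D Q = Q.ord (helper508.gaussResidue M ℓ hℓM A hA f) := by
  obtain ⟨g, c, E₀, E₀k, -, -, H⟩ := latHyp_gauss M ℓ hℓM A hA hG
  exact ⟨H.placeRed, H.deg_placeRed, fun f hfne D hD Q => H.mapDomain_placeRed_div hfne hD Q⟩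

end Consumers

end Fermat.Agent.S37.helper3441
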