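/-
S37-GENUSINST (helper3441): producers of the genus hypothesis `GenusEq` of the concrete lattice
node `helper3441_LatticeInstance`, from the landed S18 chart-genus chain.

* `genusEq_of_chartGenus_le` : abstract two-fibre statement.  If the chart genus
  (`helper789.chartGenus`) of the generic fibre on some line `x` is at most the chart genus of
  the special fibre on some line `xb`, then `GenusEq` holds.
* `genusEq_of_unramified` : `GenusEq` from the hypotheses of
  `helper4445.genus_field_of_unramified` (abstract Gauss data, one branch value `c0`).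
* `genusEq_gauss_j` : the `j`-line instance, `ℓ ≥ 5`, every level `M` with `ℓ ∤ M`: no hypothesis.
* `latHyp_gauss_j`, `exists_placeReduction_gauss_j` : hence the lattice hypotheses and the
  conservation of number for the Gauss pair at level `M`, unconditionally for `ℓ ≥ 5`.
-/
import Mathlib
import Fermat.Agent.S37.helper3441_LatticeInstance
import Fermat.Agent.S18.helper4445_GenusAsm
import Fermat.Agent.S18.helper8185_RamData

set_option autoImplicit false
set_option synthInstance.maxHeartbeats 400000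

noncomputable section

open AlgebraicCurve ModularCurve IntermediateField

namespace Fermat.Agent.S37.helper3441

open Fermat.Agent.S18

section Abstract

variable {L F k Fk : Type*} [Field L] [Field F] [Algebra L F] [Field k] [Field Fk] [Algebra k Fk]

/-- **Chart genus inequality ⟹ `GenusEq`.**  Both fibres over algebraically closed constant
fields with principal divisors and places of degree one; `x`, `xb` ANY transcendental elements
of the two fibres with finite degree.  If `γ(F, x) ≤ γ(Fk, xb)` (chart genera of `helper789`),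
the genus hypothesis holds with `g = γ(F, x)`. -/
theorem genusEq_of_chartGenus_le [IsAlgClosed L] [HasPrincipalDivisors L F]
    (degL : ∀ v : Place L F, v.deg = 1) (P₀ : Place L F)
    (x : F) (hx : Transcendental L x) [FiniteDimensional L⟮x⟯ F]
    [IsAlgClosed k] [HasPrincipalDivisors k Fk]
    (degk : ∀ v : Place k Fk, v.deg = 1) (Q₀ : Place k Fk)
    (xb : Fk) (hxb : Transcendental k xb) [FiniteDimensional k⟮xb⟯ Fk]
    (hγ : helper789.chartGenus L x ≤ helper789.chartGenus k xb) :
    GenusEq L F k Fk := by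
  obtain ⟨-, -, hF⟩ := helper4445.genus_generic degL P₀ x hx
  refine ⟨helper789.chartGenus L x, hF, ?_⟩
  have hxb0 : xb ≠ 0 := fun h => hxb (h ▸ isAlgebraic_zero)
  obtain ⟨Yinf, hYinf⟩ := helper981.exists_poleDivisor (K := k) hxb0
  obtain ⟨Y0, hY0⟩ := helper981.exists_zeroDivisor (K := k) hxb0
  have hRB := helper981.hasRiemannBound_of_transcendental' xb hxb Q₀ degk
  have hd : Divisor.degree Yinf = ((Module.finrank k⟮xb⟯ Fk : ℕ) : ℤ) :=
    helper981.degree_poleDivisor_eq_finrank degk Q₀ xb hxb Yinf hYinf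
  obtain ⟨c, hc⟩ := helper8566.exists_riemann_eq_of_chart degk Q₀ hRB hxb0 (Xinf := Yinf)
    (X0 := Y0) hYinf hY0 (helper8566.chartIntegral_of_perfect xb)
    (helper8566.chartIntegral_inv_of_perfect xb) hd Module.finrank_pos
    (helper789.hchart_of_isAlgClosed xb hxb (helper8566.chartSpace k xb) fun a b g => Iff.rfl)
  refine ⟨c, fun D' hD' => ?_⟩
  rw [hc D' hD']
  have : ((helper789.chartGenus L x : ℕ) : ℤ) ≤ (helper789.chartGenus k xb : ℕ) := by
    exact_mod_cast hγ
  linarith

/-- **The chart-genus inequality from unramifiedness away from `0`, `c0`, `∞`** (abstract Gauss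
data; the hypotheses are those of `helper4445.genus_field_of_unramified`). -/
theorem chartGenus_le_of_unramified [IsAlgClosed L] [CharZero L] [IsAlgClosed k]
    (O : ValuationSubring F) (red : O →+* Fk)
    (hred : ∀ f : O, red f = 0 ↔ O.valuation (f : F) < 1)
    (hredk_surj : ∀ c' : k, ∃ (c : L) (hc : algebraMap L F c ∈ O),
      red ⟨algebraMap L F c, hc⟩ = algebraMap k Fk c')
    (hcompat : ∀ (a : L) (ha : algebraMap L F a ∈ O),
      ∃ c : k, red ⟨algebraMap L F a, ha⟩ = algebraMap k Fk c)
    {x : F} (hx : x ∈ O) (hres : helper1733.ResTranscendental O.valuation L x)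
    {ι : Type*} [Fintype ι] {b : ι → F} (hb : helper1733.IsOrtho O.valuation L⟮x⟯ b)
    (hspan : Submodule.span L⟮x⟯ (Set.range b) = ⊤)
    (hxt : Transcendental k (red ⟨x, hx⟩))
    [FiniteDimensional k⟮red ⟨x, hx⟩⟯ Fk] [Algebra.IsSeparable k⟮red ⟨x, hx⟩⟯ Fk]
    (c0 : L) (hc0 : algebraMap L F c0 ∈ O) (c0b : k)
    (hc0b : red ⟨algebraMap L F c0, hc0⟩ = algebraMap k Fk c0b) (hc0b0 : c0b ≠ 0)
    (hunr : ∀ (v : Place L F) (c : L), c ≠ 0 → c ≠ c0 →
      0 < v.ord (x - algebraMap L F c) → v.ord (x - algebraMap L F c) = 1) :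
    helper789.chartGenus L x ≤ helper789.chartGenus k (red ⟨x, hx⟩) := by
  have hxL : Transcendental L x := hres.transcendental
  have : FiniteDimensional L⟮x⟯ F :=
    Module.Finite.of_basis (Module.Basis.mk hb.linearIndependent hspan.ge)
  have hdpos : 0 < Module.finrank L⟮x⟯ F := Module.finrank_pos
  refine helper4445.chartGenus_le_chart_one_branch O red hred hredk_surj hcompat hx hres hb hspan
    hxt c0 hc0 c0b hc0b hc0b0 (Module.finrank L⟮x⟯ F) hdpos (Module.finrank L⟮x⟯ F) hdpos ?_ ?_
  · intro y hy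
    have h := (helper3384.cert_of_isOmega_single x hxL c0 hunr y hy).1
    simpa only [map_sub, Polynomial.aeval_X, Polynomial.aeval_C] using h
  · intro y hy
    have h := (helper3384.cert_of_isOmega_single x hxL c0 hunr y hy).2
    simpa only [map_sub, map_mul, map_one, Polynomial.aeval_X, Polynomial.aeval_C] using h

/-- **`GenusEq` for abstract Gauss data** with one nonzero finite branch value `c0` of nonzero
reduction (hypotheses of `helper4445.genus_field_of_unramified`, plus the place basics of the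
special fibre). -/
theorem genusEq_of_unramified [IsAlgClosed L] [CharZero L] [IsAlgClosed k]
    [HasPrincipalDivisors L F] (degL : ∀ v : Place L F, v.deg = 1) (P₀ : Place L F)
    [HasPrincipalDivisors k Fk] (degk : ∀ v : Place k Fk, v.deg = 1) (Q₀ : Place k Fk)
    (O : ValuationSubring F) (red : O →+* Fk)
    (hred : ∀ f : O, red f = 0 ↔ O.valuation (f : F) < 1)
    (hredk_surj : ∀ c' : k, ∃ (c : L) (hc : algebraMap L F c ∈ O),
      red ⟨algebraMap L F c, hc⟩ = algebraMap k Fk c')
    (hcompat : ∀ (a : L) (ha : algebraMap L F a ∈ O),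
      ∃ c : k, red ⟨algebraMap L F a, ha⟩ = algebraMap k Fk c)
    {x : F} (hx : x ∈ O) (hres : helper1733.ResTranscendental O.valuation L x)
    {ι : Type*} [Fintype ι] {b : ι → F} (hb : helper1733.IsOrtho O.valuation L⟮x⟯ b)
    (hspan : Submodule.span L⟮x⟯ (Set.range b) = ⊤)
    (hxt : Transcendental k (red ⟨x, hx⟩))
    [FiniteDimensional k⟮red ⟨x, hx⟩⟯ Fk] [Algebra.IsSeparable k⟮red ⟨x, hx⟩⟯ Fk]
    (c0 : L) (hc0 : algebraMap L F c0 ∈ O) (c0b : k)
    (hc0b : red ⟨algebraMap L F c0, hc0⟩ = algebraMap k Fk c0b) (hc0b0 : c0b ≠ 0)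
    (hunr : ∀ (v : Place L F) (c : L), c ≠ 0 → c ≠ c0 →
      0 < v.ord (x - algebraMap L F c) → v.ord (x - algebraMap L F c) = 1) :
    GenusEq L F k Fk := by
  have : FiniteDimensional L⟮x⟯ F :=
    Module.Finite.of_basis (Module.Basis.mk hb.linearIndependent hspan.ge)
  exact genusEq_of_chartGenus_le degL P₀ x hres.transcendental degk Q₀ (red ⟨x, hx⟩) hxt
    (chartGenus_le_of_unramified O red hred hredk_surj hcompat hx hres hb hspan hxt c0 hc0 c0b
      hc0b hc0b0 hunr)

end Abstract

/-! ## The `j`-line, `ℓ ≥ 5` -/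

section JLine

variable (M : ℕ) [NeZero M] (ℓ : ℕ) [Fact ℓ.Prime] (hℓM : ¬ ℓ ∣ M)
  (A : ValuationSubring (AlgebraicClosure ℚ)) (hA : (ℓ : AlgebraicClosure ℚ) ∈ A.nonunits)

omit [NeZero M] in
/-- The two landed models of `j ∈ F̄_M` agree. -/
theorem gaussJ_eq_jBar :
    helper1733.gaussJ (AlgebraicClosure ℚ) M = Fermat.Agent.S24.helper24.jBar M := by
  apply Subtype.ext
  rw [helper1733.coe_gaussJ, Fermat.Agent.S24.helper24.coe_jBar]
  exact (map_jqModC (algebraMap ℚ (AlgebraicClosure ℚ))).symm

include hA in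
/-- `1728` is a unit of the residue field for `ℓ ≥ 5`. -/
theorem residue_1728_ne_zero (h5 : 5 ≤ ℓ) : (1728 : IsLocalRing.ResidueField A) ≠ 0 := by
  have : CharP (IsLocalRing.ResidueField A) ℓ := helper508.charP_residueField ℓ A hA
  intro h0
  have h1 : ((1728 : ℕ) : IsLocalRing.ResidueField A) = 0 := by exact_mod_cast h0
  have h2 : ℓ ∣ 1728 := (CharP.cast_eq_zero_iff (IsLocalRing.ResidueField A) ℓ 1728).mp h1
  have hp : ℓ.Prime := Fact.out
  have h3 : (1728 : ℕ) = 2 ^ 6 * 3 ^ 3 := by norm_num
  rw [h3] at h2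
  rcases (Nat.Prime.dvd_mul hp).mp h2 with h | h
  · have := Nat.le_of_dvd (by norm_num) (hp.dvd_of_dvd_pow h)
    omega
  · have := Nat.le_of_dvd (by norm_num) (hp.dvd_of_dvd_pow h)
    omega

include hℓM hA in
set_option maxHeartbeats 1000000 in
/-- **The genus hypothesis on the `j`-line**: for `ℓ ≥ 5`, `ℓ ∤ M`, every place `A` of `ℚ̄` over
`ℓ`, the genus of `F̄_M` does not drop under reduction.  No hypothesis. -/
theorem genusEq_gauss_j (h5 : 5 ≤ ℓ) :
    GenusEq (AlgebraicClosure ℚ) ↥(modularFunctionFieldBar M) (IsLocalRing.ResidueField A)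
      ↥(modularFunctionFieldFullC (IsLocalRing.ResidueField A) M) := by
  -- generic fibre
  have hres := helper1733.gauss_resTranscendental M ℓ hℓM A hA
  have hxT : Transcendental (AlgebraicClosure ℚ) (helper1733.gaussJ (AlgebraicClosure ℚ) M) :=
    hres.transcendental
  have hortho := helper1733.gauss_isOrtho M ℓ hℓM A hA
  have hspan := helper1733.gauss_span_eq_top M ℓ hℓM A hA
  have : FiniteDimensional (AlgebraicClosure ℚ)⟮helper1733.gaussJ (AlgebraicClosure ℚ) M⟯
      ↥(modularFunctionFieldBar M) :=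
    Module.Finite.of_basis (Module.Basis.mk hortho.linearIndependent hspan.ge)
  have hPF : HasPrincipalDivisors (AlgebraicClosure ℚ) ↥(modularFunctionFieldBar M) :=
    Fermat.Agent.S24.helper204.hasPrincipalDivisors (helper1733.gaussJ (AlgebraicClosure ℚ) M) hxT
  have degL : ∀ P : Place (AlgebraicClosure ℚ) ↥(modularFunctionFieldBar M), P.deg = 1 :=
    Fermat.Agent.S24.helper204.place_deg_eq_one (helper1733.gaussJ (AlgebraicClosure ℚ) M) hxT
  obtain ⟨P₀⟩ := helper3537.nonempty_place (K := AlgebraicClosure ℚ)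
    (helper1733.gaussJ (AlgebraicClosure ℚ) M) hxT
  -- special fibre
  have : IsAlgClosed (IsLocalRing.ResidueField A) :=
    Fermat.Agent.Lib.helper6879.isAlgClosed_residueField A
  have : CharP (IsLocalRing.ResidueField A) ℓ := helper508.charP_residueField ℓ A hA
  obtain ⟨hxbT, hfink', -⟩ := fullC_line (IsLocalRing.ResidueField A) ℓ M hℓM
  have hsep := helper9392.isSeparable_modularFunctionFieldFullC_of_isAlgClosed
    (IsLocalRing.ResidueField A) ℓ M
  have hPk : HasPrincipalDivisors (IsLocalRing.ResidueField A)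
      ↥(modularFunctionFieldFullC (IsLocalRing.ResidueField A) M) :=
    fullC_hasPrincipalDivisors (IsLocalRing.ResidueField A) ℓ M hℓM
  have degk := fullC_place_deg_eq_one (IsLocalRing.ResidueField A) ℓ M hℓM
  obtain ⟨Q₀⟩ := fullC_nonempty_place (IsLocalRing.ResidueField A) M
  have e := gauss_red_j M ℓ hℓM A hA
  have hxt : Transcendental (IsLocalRing.ResidueField A)
      (helper508.gaussResidue M ℓ hℓM A hA ⟨helper1733.gaussJ (AlgebraicClosure ℚ) M,
        helper1733.gaussJ_mem M ℓ hℓM A hA⟩) := by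
    rw [e]; exact hxbT
  have : FiniteDimensional (IsLocalRing.ResidueField A)⟮helper508.gaussResidue M ℓ hℓM A hA
      ⟨helper1733.gaussJ (AlgebraicClosure ℚ) M, helper1733.gaussJ_mem M ℓ hℓM A hA⟩⟯
      ↥(modularFunctionFieldFullC (IsLocalRing.ResidueField A) M) := by
    rw [e]; exact hfink'
  have : Algebra.IsSeparable (IsLocalRing.ResidueField A)⟮helper508.gaussResidue M ℓ hℓM A hA
      ⟨helper1733.gaussJ (AlgebraicClosure ℚ) M, helper1733.gaussJ_mem M ℓ hℓM A hA⟩⟯
      ↥(modularFunctionFieldFullC (IsLocalRing.ResidueField A) M) := by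
    rw [e]; exact hsep
  -- the branch value `1728`
  have h1728A : (1728 : AlgebraicClosure ℚ) ∈ A := ofNat_mem A 1728
  have hc0 : algebraMap (AlgebraicClosure ℚ) ↥(modularFunctionFieldBar M) 1728 ∈
      helper508.gaussValuationSubring M ℓ hℓM A hA :=
    (helper508.algebraMap_mem_gaussValuationSubring_iff M ℓ hℓM A hA _).mpr h1728A
  have hc0b : helper508.gaussResidue M ℓ hℓM A hA ⟨_, hc0⟩ =
      algebraMap (IsLocalRing.ResidueField A)
        ↥(modularFunctionFieldFullC (IsLocalRing.ResidueField A) M) 1728 := by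
    rw [helper1733.gaussResidue_algebraMap M ℓ hℓM A hA 1728 hc0]
    have h1 : (⟨1728, (helper508.algebraMap_mem_gaussValuationSubring_iff M ℓ hℓM A hA _).mp hc0⟩ :
        A) = 1728 := Subtype.ext rfl
    rw [h1, map_ofNat]
  refine genusEq_of_unramified degL P₀ degk Q₀ (helper508.gaussValuationSubring M ℓ hℓM A hA)
    (helper508.gaussResidue M ℓ hℓM A hA) (gauss_hred M ℓ hℓM A hA)
    (gauss_hredk_surj M ℓ hℓM A hA) (helper1733.gauss_compat M ℓ hℓM A hA)
    (helper1733.gaussJ_mem M ℓ hℓM A hA) hres hortho hspan hxt 1728 hc0 1728 hc0b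
    (residue_1728_ne_zero ℓ A hA h5) ?_
  intro v c hc0' hc' hv
  rw [gaussJ_eq_jBar] at hv ⊢
  exact helper8185.ord_j_sub_eq_one M c hc0' hc' v hv

/-- **(L) at level `M`, unconditionally for `ℓ ≥ 5`**: the lattice hypotheses for the landed
Gauss pair. -/
theorem latHyp_gauss_j (h5 : 5 ≤ ℓ) :
    ∃ (g : ℕ) (c : ℤ) (E₀ : Divisor (AlgebraicClosure ℚ) ↥(modularFunctionFieldBar M))
      (E₀k : Divisor (IsLocalRing.ResidueField A)
        ↥(modularFunctionFieldFullC (IsLocalRing.ResidueField A) M)),
      (∀ P, E₀ P = max 0 (-(P.ord (helper1733.gaussJ (AlgebraicClosure ℚ) M)))) ∧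
      (∀ Q, E₀k Q = max 0 (-(Q.ord (helper9392.jbarC (IsLocalRing.ResidueField A) M)))) ∧
      helper5413.LatHyp (helper508.gaussValuationSubring M ℓ hℓM A hA)
        (helper508.gaussResidue M ℓ hℓM A hA) (g : ℤ) c E₀ E₀k :=
  latHyp_gauss M ℓ hℓM A hA (genusEq_gauss_j M ℓ hℓM A hA h5)

/-- **Conservation of number at level `M`, unconditionally for `ℓ ≥ 5`.** -/
theorem exists_placeReduction_gauss_j (h5 : 5 ≤ ℓ) :
    ∃ r : Place (AlgebraicClosure ℚ) ↥(modularFunctionFieldBar M) →
        Place (IsLocalRing.ResidueField A)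
          ↥(modularFunctionFieldFullC (IsLocalRing.ResidueField A) M),
      (∀ P, (r P).deg = P.deg) ∧
      ∀ f : ↥(helper508.gaussValuationSubring M ℓ hℓM A hA),
        helper508.gaussResidue M ℓ hℓM A hA f ≠ 0 →
        ∀ D : Divisor (AlgebraicClosure ℚ) ↥(modularFunctionFieldBar M),
          (∀ P, D P = P.ord (f : ↥(modularFunctionFieldBar M))) →
          ∀ Q, Finsupp.mapDomain r D Q = Q.ord (helper508.gaussResidue M ℓ hℓM A hA f) :=
  exists_placeReduction_gauss M ℓ hℓM A hA (genusEq_gauss_j M ℓ hℓM A hA h5)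

end JLine

end Fermat.Agent.S37.helper3441
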