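import Mathlib
import Fermat.Prelude.Def_ModularCurve_HeckeModule
import Fermat.Agent.S37.helper1138_Assembly

/-!
# S37: degree-zero variants of the divisor-level assembly (helper3587)

`helper1138.Stmt_DivKernel` / `Stmt_Csp` ask for the crude relations (D1), (D2) for every single
PLACE `v` (a divisor of degree one).  Producers that obtain (D1), (D2) by RIGIDITY
(`helper6267.eq_on_degZero_of_bounded`, `intertwine_on_degZero`, `eichlerShimura_on_degZero`,
`correspondence_eq_on_degZero`) only get them for divisors of DEGREE ZERO: on a single place the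
two sides may differ by a constant divisor.  Since the relation subgroup `relBar` only involves
classes of degree-zero divisors, the place-by-place hypotheses are not needed.  This file gives
the same assembly with (D1), (D2) quantified over degree-zero divisors only:

* `relBar_le_classesOf_degZero`      : `relBar N A ℓ σ ≤ classesOf Kdiv`;
* `Stmt_DivKernel0`, `stmt_Kernel_of_divKernel0`, `result_of_divKernel0`;
* `Stmt_Csp0`, `stmt_DivKernel0_of_csp0`, `result_of_csp0`;
* `stmt_DivKernel0_of_divKernel`, `stmt_Csp0_of_csp` : the place forms imply the degree-zero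
  forms (so nothing is lost by targeting the degree-zero forms).
-/

set_option autoImplicit false

noncomputable section

open AlgebraicCurve ModularCurve

namespace Fermat.Agent.S37.helper3587

open Fermat.Agent.S37.helper8353 (Qb GQ relBar esBar Stmt_Core Stmt_Kernel)
open Fermat.Agent.S37.helper1138

section Modular

variable {N : ℕ} [NeZero N]

section Hecke

variable (ℓ : ℕ) [NeZero ℓ]
variable (hα : HeckeAlphaBarIntegral Qb N ℓ) (hβ : HeckeBetaBarIntegral Qb N ℓ)
variable [HasPrincipalDivisors Qb (laurentBaseChange Qb (modularFunctionFieldFull (N * ℓ)))]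

/-- **(R1) + (R2) from degree-zero divisors.**  If a subgroup `Kdiv` of the divisor group
contains `g_τ D - D` for `τ` in the inertia group of `A` and the crude Kronecker divisor
`g_σ g_σ D - α_* β^* (g_σ D) + ℓ D` for every divisor `D` of DEGREE ZERO, then the relation
subgroup `relBar N A ℓ σ` consists of classes of divisors of `Kdiv`. -/
theorem relBar_le_classesOf_degZero (hℓ : ℓ.Prime)
    (hFI : FundamentalIdentityAlong Qb (heckeBetaBar Qb N ℓ) hβ)
    (hfin : FiniteAlong Qb (heckeAlphaBar Qb N ℓ))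
    (hN : NormFormulaAlong Qb (heckeAlphaBar Qb N ℓ) hfin)
    (A : ValuationSubring Qb) (σ : GQ) (Kdiv : AddSubgroup (Divisor Qb (FNb N)))
    (hD1 : ∀ τ ∈ A.inertiaSubgroupIn ℚ, ∀ D : Divisor.degZero (K := Qb) (F := FNb N),
      gal N τ • (D : Divisor Qb (FNb N)) - (D : Divisor Qb (FNb N)) ∈ Kdiv)
    (hD2 : ∀ D : Divisor.degZero (K := Qb) (F := FNb N),
      esDiv ℓ hα hβ σ (D : Divisor Qb (FNb N)) ∈ Kdiv) :
    relBar N A ⟨ℓ, hℓ⟩ σ ≤ classesOf Kdiv := by
  unfold relBar
  rw [AddSubgroup.closure_le]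
  rintro y (⟨τ, hτ, x, rfl⟩ | ⟨x, rfl⟩)
  · obtain ⟨D, rfl⟩ := Pic0.mk_surjective x
    rw [galois_smul_mk]
    exact ⟨SemilinearAut.degZeroSMulHom (gal N τ) D - D, hD1 τ hτ D, rfl⟩
  · obtain ⟨D, rfl⟩ := Pic0.mk_surjective x
    show esBar N ⟨ℓ, hℓ⟩ σ (Pic0.mk D) ∈ classesOf Kdiv
    unfold esBar
    rw [galois_smul_mk, galois_smul_mk, heckeOperatorBar_mk ℓ hα hβ hℓ hFI hfin hN]
    refine ⟨SemilinearAut.degZeroSMulHom (gal N σ) (SemilinearAut.degZeroSMulHom (gal N σ) D)
      - Pic0.degZeroCorrespondence (heckeBetaBar Qb N ℓ) (heckeAlphaBar Qb N ℓ) hβ hα hFI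
          (SemilinearAut.degZeroSMulHom (gal N σ) D) + ℓ • D, ?_, rfl⟩
    have h := hD2 D
    rw [esDiv_apply] at h
    exact h

end Hecke

section Global

variable (N)

/-- **Divisor-level crude package, degree-zero form.**  As `helper1138.Stmt_DivKernel`, but (D1)
and (D2) are only required for divisors of degree zero:

* (D1⁰) `g_τ D - D ∈ Kdiv` for `τ` in the inertia group of `A` and `deg D = 0`;
* (D2⁰) `g_σ g_σ D - α_* β^* (g_σ D) + ℓ D ∈ Kdiv` for `deg D = 0`;
* (D3) a degree-zero divisor of `Kdiv` whose class is killed by a prime `q ≠ ℓ` is principal. -/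
def Stmt_DivKernel0 : Prop :=
  ∀ ℓ : ℕ, ∀ hℓ : ℓ.Prime, ¬ ℓ ∣ N →
    ∀ A : ValuationSubring Qb, A.LiesOverPrime ℓ →
      ∃ σ : GQ, A.IsFrobeniusAt σ ℓ ∧ ∃ Kdiv : AddSubgroup (Divisor Qb (FNb N)),
        (∀ τ ∈ A.inertiaSubgroupIn ℚ, ∀ D : Divisor.degZero (K := Qb) (F := FNb N),
          gal N τ • (D : Divisor Qb (FNb N)) - (D : Divisor Qb (FNb N)) ∈ Kdiv) ∧
        (haveI : NeZero ℓ := ⟨hℓ.ne_zero⟩
          ∀ (hα : HeckeAlphaBarIntegral Qb N ℓ) (hβ : HeckeBetaBarIntegral Qb N ℓ)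
            [HasPrincipalDivisors Qb (laurentBaseChange Qb (modularFunctionFieldFull (N * ℓ)))]
            (D : Divisor.degZero (K := Qb) (F := FNb N)),
            gal N σ • gal N σ • (D : Divisor Qb (FNb N))
              - heckeDivBar hα hβ (gal N σ • (D : Divisor Qb (FNb N)))
              + ℓ • (D : Divisor Qb (FNb N)) ∈ Kdiv) ∧
        (∀ q : ℕ, q.Prime → q ≠ ℓ → ∀ D : Divisor.degZero (K := Qb) (F := FNb N),
          (D : Divisor Qb (FNb N)) ∈ Kdiv → q • (Pic0.mk D : JZero N) = 0 →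
            (Pic0.mk D : JZero N) = 0)

variable {N}

/-- `HeckeInputsAlong` at every prime level and the degree-zero divisor-level crude package give
the kernel form `helper8353.Stmt_Kernel N` of the core statement of S37. -/
theorem stmt_Kernel_of_divKernel0
    (hHI : ∀ (ℓ : ℕ) [NeZero ℓ], HeckeInputsAlong Qb N ℓ) (h : Stmt_DivKernel0 N) :
    Stmt_Kernel N := by
  intro ℓ hℓ hℓN A hA
  obtain ⟨σ, hσ, Kdiv, h1, h2, h3⟩ := h ℓ hℓ hℓN A hA
  have : NeZero ℓ := ⟨hℓ.ne_zero⟩
  obtain ⟨hα, hβ, hP, hfin, hFI, hN⟩ := hHI ℓ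
  have := hP
  have hle : relBar N A ⟨ℓ, hℓ⟩ σ ≤ classesOf Kdiv :=
    relBar_le_classesOf_degZero ℓ hα hβ hℓ hFI hfin hN A σ Kdiv h1
      (fun D => by rw [esDiv_apply]; exact h2 hα hβ D)
  refine ⟨σ, hσ, classesOf Kdiv, ?_, ?_, ?_⟩
  · intro τ hτ x
    exact hle (AddSubgroup.subset_closure (Or.inl ⟨τ, hτ, x, rfl⟩))
  · intro x
    exact hle (AddSubgroup.subset_closure (Or.inr ⟨x, rfl⟩))
  · rintro q hq hqℓ _ ⟨D, hD, rfl⟩ hqD
    exact h3 q hq hqℓ D hD hqD

/-- The core statement for every `p` from the degree-zero divisor-level crude package. -/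
theorem stmt_Core_of_divKernel0
    (hHI : ∀ (ℓ : ℕ) [NeZero ℓ], HeckeInputsAlong Qb N ℓ) (h : Stmt_DivKernel0 N) (p : ℕ) :
    Stmt_Core N p :=
  Fermat.Agent.S37.helper8353.stmt_Core_of_kernel (stmt_Kernel_of_divKernel0 hHI h) p

/-- **The frozen statement S37 from the degree-zero divisor-level crude package** (and
`HeckeInputsAlong`, which is `helper8426.heckeInputsAlong` on main). -/
theorem result_of_divKernel0 (p : ℕ) (hcomm : HeckeOperatorsCommuteBar N)
    (hHI : ∀ (ℓ : ℕ) [NeZero ℓ], HeckeInputsAlong Qb N ℓ) (h : Stmt_DivKernel0 N) :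
    letI := heckeModuleBar N
    ∀ (_ : SMulCommClass GQ HeckeAlg (JZero N)),
      SpecializationExists (K := ℚ) (L := Qb) N p (JZero N) :=
  Fermat.Agent.S37.helper8353.result_of_kernel p hcomm (stmt_Kernel_of_divKernel0 hHI h)

/-- The place-by-place package implies the degree-zero package. -/
theorem stmt_DivKernel0_of_divKernel (h : Stmt_DivKernel N) : Stmt_DivKernel0 N := by
  intro ℓ hℓ hℓN A hA
  obtain ⟨σ, hσ, Kdiv, h1, h2, h3⟩ := h ℓ hℓ hℓN A hA
  refine ⟨σ, hσ, Kdiv, ?_, ?_, h3⟩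
  · intro τ hτ D
    have h := map_mem_of_single Kdiv (inertiaDiv (N := N) τ)
      (fun v => by
        rw [inertiaDiv_apply, SemilinearAut.smul_single]
        exact h1 τ hτ v) (D : Divisor Qb (FNb N))
    rw [inertiaDiv_apply] at h
    exact h
  · intro hα hβ _ D
    have : NeZero ℓ := ⟨hℓ.ne_zero⟩
    have h := map_mem_of_single Kdiv (esDiv ℓ hα hβ σ)
      (fun v => by
        rw [esDiv_single]
        exact h2 hα hβ v) (D : Divisor Qb (FNb N))
    rw [esDiv_apply] at h
    exact h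

variable (N)

/-- **`csp` form, degree-zero version.**  The package for `Kdiv = ker csp`, where
`csp : Div(F_N) →+ G` is any additive map (a "crude specialisation"; `G` and `csp` may depend on
`ℓ`, `A`), with (C1), (C2) required on divisors of degree zero only:

* (C1⁰) `csp (g_τ D) = csp D` for `τ` in inertia, `deg D = 0`;
* (C2⁰) `csp (α_* β^* (g_σ D)) = csp (g_σ g_σ D) + ℓ • csp D` for `deg D = 0`;
* (C3) `csp D = 0`, `deg D = 0`, `q • [D] = 0` (`q ≠ ℓ` prime) ⟹ `[D] = 0`. -/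
def Stmt_Csp0 : Prop :=
  ∀ ℓ : ℕ, ∀ hℓ : ℓ.Prime, ¬ ℓ ∣ N →
    ∀ A : ValuationSubring Qb, A.LiesOverPrime ℓ →
      ∃ σ : GQ, A.IsFrobeniusAt σ ℓ ∧ ∃ (G : Type) (_ : AddCommGroup G)
        (csp : Divisor Qb (FNb N) →+ G),
        (∀ τ ∈ A.inertiaSubgroupIn ℚ, ∀ D : Divisor.degZero (K := Qb) (F := FNb N),
          csp (gal N τ • (D : Divisor Qb (FNb N))) = csp (D : Divisor Qb (FNb N))) ∧
        (haveI : NeZero ℓ := ⟨hℓ.ne_zero⟩
          ∀ (hα : HeckeAlphaBarIntegral Qb N ℓ) (hβ : HeckeBetaBarIntegral Qb N ℓ)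
            [HasPrincipalDivisors Qb (laurentBaseChange Qb (modularFunctionFieldFull (N * ℓ)))]
            (D : Divisor.degZero (K := Qb) (F := FNb N)),
            csp (heckeDivBar hα hβ (gal N σ • (D : Divisor Qb (FNb N))))
              = csp (gal N σ • gal N σ • (D : Divisor Qb (FNb N)))
                + ℓ • csp (D : Divisor Qb (FNb N))) ∧
        (∀ q : ℕ, q.Prime → q ≠ ℓ → ∀ D : Divisor.degZero (K := Qb) (F := FNb N),
          csp (D : Divisor Qb (FNb N)) = 0 → q • (Pic0.mk D : JZero N) = 0 →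
            (Pic0.mk D : JZero N) = 0)

variable {N}

theorem stmt_DivKernel0_of_csp0 (h : Stmt_Csp0 N) : Stmt_DivKernel0 N := by
  intro ℓ hℓ hℓN A hA
  obtain ⟨σ, hσ, G, _, csp, h1, h2, h3⟩ := h ℓ hℓ hℓN A hA
  refine ⟨σ, hσ, csp.ker, ?_, ?_, ?_⟩
  · intro τ hτ D
    rw [AddMonoidHom.mem_ker, map_sub, h1 τ hτ D, sub_self]
  · intro hα hβ _ D
    rw [AddMonoidHom.mem_ker, map_add, map_sub, map_nsmul, h2 hα hβ D]
    abel
  · intro q hq hqℓ D hD hqD
    exact h3 q hq hqℓ D (AddMonoidHom.mem_ker.mp hD) hqD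

/-- The place-by-place `csp` package implies the degree-zero `csp` package (same `σ`, `csp`). -/
theorem stmt_Csp0_of_csp (h : Stmt_Csp N) : Stmt_Csp0 N := by
  intro ℓ hℓ hℓN A hA
  obtain ⟨σ, hσ, G, _, csp, h1, h2, h3⟩ := h ℓ hℓ hℓN A hA
  refine ⟨σ, hσ, G, _, csp, ?_, ?_, h3⟩
  · intro τ hτ D
    have h := map_mem_of_single (⊥ : AddSubgroup G) (csp.comp (inertiaDiv (N := N) τ))
      (fun v => by
        rw [AddSubgroup.mem_bot, AddMonoidHom.comp_apply, inertiaDiv_apply,
          SemilinearAut.smul_single, map_sub, h1 τ hτ v, sub_self])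
      (D : Divisor Qb (FNb N))
    rw [AddSubgroup.mem_bot, AddMonoidHom.comp_apply, inertiaDiv_apply, map_sub,
      sub_eq_zero] at h
    exact h
  · intro hα hβ _ D
    have : NeZero ℓ := ⟨hℓ.ne_zero⟩
    have h := map_mem_of_single (⊥ : AddSubgroup G) (csp.comp (esDiv ℓ hα hβ σ))
      (fun v => by
        rw [AddSubgroup.mem_bot, AddMonoidHom.comp_apply, esDiv_single, map_add, map_sub,
          map_nsmul, h2 hα hβ v]
        abel)
      (D : Divisor Qb (FNb N))
    rw [AddSubgroup.mem_bot, AddMonoidHom.comp_apply, esDiv_apply, map_add, map_sub,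
      map_nsmul, sub_add_eq_add_sub, sub_eq_zero] at h
    exact h.symm

/-- `helper8353.Stmt_Kernel N` from the degree-zero `csp` package. -/
theorem stmt_Kernel_of_csp0
    (hHI : ∀ (ℓ : ℕ) [NeZero ℓ], HeckeInputsAlong Qb N ℓ) (h : Stmt_Csp0 N) :
    Stmt_Kernel N :=
  stmt_Kernel_of_divKernel0 hHI (stmt_DivKernel0_of_csp0 h)

/-- **The frozen statement S37 from the degree-zero `csp` package.** -/
theorem result_of_csp0 (p : ℕ) (hcomm : HeckeOperatorsCommuteBar N)
    (hHI : ∀ (ℓ : ℕ) [NeZero ℓ], HeckeInputsAlong Qb N ℓ) (h : Stmt_Csp0 N) :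
    letI := heckeModuleBar N
    ∀ (_ : SMulCommClass GQ HeckeAlg (JZero N)),
      SpecializationExists (K := ℚ) (L := Qb) N p (JZero N) :=
  result_of_divKernel0 p hcomm hHI (stmt_DivKernel0_of_csp0 h)

end Global

end Modular

end Fermat.Agent.S37.helper3587
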