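/-
S37-HECKEBC, backup implementation (helper367; board row 1497, backup of row 1474).

**A correspondence commutes with base change along a "level raising" map, on divisors.**

Generic part (Mathlib + Prelude `Place`/`Divisor` vocabulary + weak approximation
`Fermat.Agent.S27.helper1070.exists_ord_eq`).  Setting: a commutative diagram of function fields

      F₁ --π₁--> F₁'
      ^ ^         ^ ^
    α | | β    α' | | β'
      F  --π-->   F'

(`π₁ ∘ α = α' ∘ π`, `π₁ ∘ β = β' ∘ π`, all maps integral), `T = α_* β^*` on `Div F`,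
`T' = α'_* β'^*` on `Div F'`.

* `eq_zero_of_principal_of_support` (MOVE): an additive map `Δ : Div F →+ Div F'` which kills
  principal divisors and such that, for every place `Q` of `F'`, only finitely many places `P`
  have `Q` in the support of `Δ [P]`, is zero.
* `pullbackAlong_correspondence_of_principal`: if `π^* T D = T' π^* D` for all PRINCIPAL `D`,
  then it holds for ALL divisors `D`.
* `pullbackAlong_correspondence_of_ord_norm` / `pullbackAlong_correspondence`: the same from the
  norm formulas along `α`, `α'` and the norm compatibility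
  `N_{α'} (β' (π f)) = π (N_α (β f))` (only the equality of all orders is used).

No linear disjointness, no compositum, no local degrees.
-/
import Mathlib
import Fermat.Prelude.Def_AlgebraicCurve_Correspondence
import Fermat.Agent.S27.helper1070_Approx

set_option autoImplicit false

open AlgebraicCurve

namespace Fermat.Agent.S37.helper367

noncomputable section

/-! ### MOVE: an additive map on divisors with "finite-to-one" supports that kills principal
divisors is zero -/

section Move

variable {K F F' : Type*} [Field K] [Field F] [Field F'] [Algebra K F] [Algebra K F']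

/-- If `Δ [P]` vanishes at `Q` for every `P` outside `S Q`, then `Δ D` vanishes at `Q` for every
divisor `D` which is zero on `S Q`. -/
theorem apply_eq_zero_of_forall_mem (Δ : Divisor K F →+ Divisor K F')
    (S : Place K F' → Finset (Place K F))
    (hsupp : ∀ (P : Place K F) (n : ℤ) (Q : Place K F'),
      P ∉ S Q → Δ (Finsupp.single P n) Q = 0)
    (D : Divisor K F) (Q : Place K F') (hD : ∀ v ∈ S Q, D v = 0) : Δ D Q = 0 := by
  have h1 : Δ D = D.sum (fun v n => Δ (Finsupp.single v n)) := by
    conv_lhs => rw [← Finsupp.sum_single D]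
    exact map_finsuppSum Δ D _
  rw [h1, Finsupp.sum, Finsupp.finsetSum_apply]
  refine Finset.sum_eq_zero fun v _ => ?_
  by_cases hvS : v ∈ S Q
  · rw [hD v hvS, Finsupp.single_zero, map_zero]
    rfl
  · exact hsupp v _ Q hvS

/-- **MOVE.** An additive map `Δ : Div F →+ Div F'` that kills principal divisors and has
"finite-to-one supports" (`Δ [P]` can be nonzero at `Q` only for `P` in a finite set `S Q`) is
zero.  Proof: weak approximation gives `f` with `ord_P f = 1` and `ord_v f = 0` on
`S Q \ {P}`; then `0 = Δ (div f) Q = Δ [P] Q`. -/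
theorem eq_zero_of_principal_of_support [HasPrincipalDivisors K F]
    (Δ : Divisor K F →+ Divisor K F')
    (hprin : ∀ D : Divisor K F, D.IsPrincipal → Δ D = 0)
    (S : Place K F' → Finset (Place K F))
    (hsupp : ∀ (P : Place K F) (n : ℤ) (Q : Place K F'),
      P ∉ S Q → Δ (Finsupp.single P n) Q = 0) :
    Δ = 0 := by
  classical
  have key : ∀ P : Place K F, Δ (Finsupp.single P 1) = 0 := by
    intro P
    ext Q
    obtain ⟨f, hf0, hf⟩ := Fermat.Agent.S27.helper1070.exists_ord_eq (insert P (S Q))
      (fun v => if v = P then 1 else 0)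
    obtain ⟨Df, hDf, -⟩ := HasPrincipalDivisors.exists_divisor (K := K) f hf0
    have h1 : Δ Df = 0 := hprin Df ⟨f, hf0, hDf⟩
    have h2 : Δ (Df - Finsupp.single P 1) Q = 0 := by
      refine apply_eq_zero_of_forall_mem Δ S hsupp _ Q fun v hv => ?_
      rw [Finsupp.sub_apply, hDf v, hf v (Finset.mem_insert_of_mem hv)]
      by_cases hvP : v = P
      · subst hvP
        simp
      · rw [if_neg hvP, Finsupp.single_eq_of_ne hvP, sub_zero]
    rw [map_sub, h1, zero_sub, Finsupp.neg_apply, neg_eq_zero] at h2
    rw [h2]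
    rfl
  refine Finsupp.addHom_ext fun P n => ?_
  have hn : Finsupp.single P n = n • Finsupp.single P (1 : ℤ) := by
    rw [Finsupp.smul_single, smul_eq_mul, mul_one]
  rw [hn, map_zsmul, key P, smul_zero]
  rfl

end Move

/-! ### Supports of pull-backs and push-forwards; functoriality of restriction -/

section Supports

variable {K F F' F'' : Type*} [Field K] [Field F] [Field F'] [Field F'']
  [Algebra K F] [Algebra K F'] [Algebra K F'']

/-- Restriction of places is functorial. -/
theorem restrictAlong_restrictAlong (φ : F →ₐ[K] F') (ψ : F' →ₐ[K] F'')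
    (hφ : φ.toRingHom.IsIntegral) (hψ : ψ.toRingHom.IsIntegral)
    (hψφ : (ψ.comp φ).toRingHom.IsIntegral) (w : Place K F'') :
    (w.restrictAlong ψ hψ).restrictAlong φ hφ = w.restrictAlong (ψ.comp φ) hψφ :=
  Place.ext rfl

/-- The composite of integral maps is integral (algebra-hom form). -/
theorem isIntegral_comp (φ : F →ₐ[K] F') (ψ : F' →ₐ[K] F'')
    (hφ : φ.toRingHom.IsIntegral) (hψ : ψ.toRingHom.IsIntegral) :
    (ψ.comp φ).toRingHom.IsIntegral :=
  RingHom.IsIntegral.trans φ.toRingHom ψ.toRingHom hφ hψ

/-- The push-forward vanishes at `v` if the divisor vanishes on the fibre over `v`. -/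
theorem pushforwardAlong_apply_eq_zero (φ : F →ₐ[K] F') (hφ : φ.toRingHom.IsIntegral)
    (D : Divisor K F') (v : Place K F)
    (h : ∀ w : Place K F', w.restrictAlong φ hφ = v → D w = 0) :
    Divisor.pushforwardAlong φ hφ D v = 0 := by
  have h1 : Divisor.pushforwardAlong φ hφ D
      = D.sum (fun w n => Divisor.pushforwardAlong φ hφ (Finsupp.single w n)) := by
    conv_lhs => rw [← Finsupp.sum_single D]
    exact map_finsuppSum (Divisor.pushforwardAlong φ hφ) D _
  rw [h1, Finsupp.sum, Finsupp.finsetSum_apply]
  refine Finset.sum_eq_zero fun w _ => ?_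
  rw [Divisor.pushforwardAlong_single]
  by_cases hw : w.restrictAlong φ hφ = v
  · rw [h w hw, zero_mul, Finsupp.single_zero]
    rfl
  · exact Finsupp.single_eq_of_ne (Ne.symm hw)

/-- The pull-back vanishes at `w` if the divisor vanishes at the restriction of `w`. -/
theorem pullbackAlong_apply_eq_zero [HasPrincipalDivisors K F'] (φ : F →ₐ[K] F')
    (hφ : φ.toRingHom.IsIntegral) (D : Divisor K F) (w : Place K F')
    (h : D (w.restrictAlong φ hφ) = 0) : Divisor.pullbackAlong φ hφ D w = 0 := by
  rw [Divisor.pullbackAlong_apply, h, mul_zero]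

/-- The pull-back of the divisor of `f` is the divisor of `φ f`. -/
theorem pullbackAlong_apply_eq_ord [HasPrincipalDivisors K F'] (φ : F →ₐ[K] F')
    (hφ : φ.toRingHom.IsIntegral) {D : Divisor K F} {f : F} (hD : ∀ v, D v = v.ord f)
    (w : Place K F') : Divisor.pullbackAlong φ hφ D w = w.ord (φ f) := by
  rw [Divisor.pullbackAlong_apply, hD, ← Place.ord_restrictAlong]

/-- The norm along an algebra hom. -/
def normAlong (φ : F →ₐ[K] F') : F' →* F :=
  letI := algebraAlong φ
  Algebra.norm F

/-- The push-forward of the divisor of `g` is the divisor of its norm (norm formula). -/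
theorem pushforwardAlong_apply_eq_ord (φ : F →ₐ[K] F') (hφ : φ.toRingHom.IsIntegral)
    (hfin : FiniteAlong K φ) (hN : NormFormulaAlong K φ hfin)
    {D : Divisor K F'} {g : F'} (hg : g ≠ 0) (hD : ∀ w, D w = w.ord g) (v : Place K F) :
    Divisor.pushforwardAlong φ hφ D v = v.ord (normAlong φ g) :=
  hN g hg D hD v

end Supports

/-! ### The base change theorem -/

section BaseChange

variable {K F F₁ F' F₁' : Type*} [Field K] [Field F] [Field F₁] [Field F'] [Field F₁']
  [Algebra K F] [Algebra K F₁] [Algebra K F'] [Algebra K F₁']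
  [HasPrincipalDivisors K F] [HasPrincipalDivisors K F₁] [HasPrincipalDivisors K F']
  [HasPrincipalDivisors K F₁']
  (α β : F →ₐ[K] F₁) (α' β' : F' →ₐ[K] F₁') (π : F →ₐ[K] F') (π₁ : F₁ →ₐ[K] F₁')
  (hα : α.toRingHom.IsIntegral) (hβ : β.toRingHom.IsIntegral)
  (hα' : α'.toRingHom.IsIntegral) (hβ' : β'.toRingHom.IsIntegral)
  (hπ : π.toRingHom.IsIntegral) (hπ₁ : π₁.toRingHom.IsIntegral)

omit [HasPrincipalDivisors K F] in
include hπ₁ in
/-- Support statement: `π^* T [P]` and `T' π^* [P]` can be nonzero at `Q` only if
`P = W|_β` for some place `W` of `F₁` with `W|_α = Q|_π`. -/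
theorem correspondence_single_apply_eq_zero
    (hcα : π₁.comp α = α'.comp π) (hcβ : π₁.comp β = β'.comp π)
    (P : Place K F) (n : ℤ) (Q : Place K F')
    (hP : ∀ W : Place K F₁, W.restrictAlong α hα = Q.restrictAlong π hπ →
      W.restrictAlong β hβ ≠ P) :
    Divisor.pullbackAlong π hπ (Divisor.correspondence β α hβ hα (Finsupp.single P n)) Q = 0 ∧
    Divisor.correspondence β' α' hβ' hα' (Divisor.pullbackAlong π hπ (Finsupp.single P n)) Q
      = 0 := by
  constructor
  · refine pullbackAlong_apply_eq_zero π hπ _ Q ?_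
    rw [Divisor.correspondence_apply]
    refine pushforwardAlong_apply_eq_zero α hα _ _ fun W hW => ?_
    refine pullbackAlong_apply_eq_zero β hβ _ W ?_
    exact Finsupp.single_eq_of_ne (hP W hW)
  · rw [Divisor.correspondence_apply]
    refine pushforwardAlong_apply_eq_zero α' hα' _ _ fun W' hW' => ?_
    refine pullbackAlong_apply_eq_zero β' hβ' _ W' ?_
    refine pullbackAlong_apply_eq_zero π hπ _ _ ?_
    refine Finsupp.single_eq_of_ne ?_
    -- `(W'|β')|π = (W'|π₁)|β` and `(W'|π₁)|α = (W'|α')|π = Q|π`
    have e1 : (W'.restrictAlong β' hβ').restrictAlong π hπ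
        = (W'.restrictAlong π₁ hπ₁).restrictAlong β hβ := by
      rw [restrictAlong_restrictAlong π β' hπ hβ' (isIntegral_comp π β' hπ hβ'),
        restrictAlong_restrictAlong β π₁ hβ hπ₁ (isIntegral_comp β π₁ hβ hπ₁)]
      exact (Place.restrictAlong_congr hcβ _ _ W').symm
    have e2 : (W'.restrictAlong π₁ hπ₁).restrictAlong α hα = Q.restrictAlong π hπ := by
      rw [← hW', restrictAlong_restrictAlong π α' hπ hα' (isIntegral_comp π α' hπ hα'),
        restrictAlong_restrictAlong α π₁ hα hπ₁ (isIntegral_comp α π₁ hα hπ₁)]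
      exact Place.restrictAlong_congr hcα _ _ W'
    rw [e1]
    exact hP _ e2

include hπ₁ in
/-- **Base change of a correspondence, reduction to principal divisors.**  If
`π^* (T D) = T' (π^* D)` for all principal divisors `D` of `F`, then for all divisors. -/
theorem pullbackAlong_correspondence_of_principal
    (hcα : π₁.comp α = α'.comp π) (hcβ : π₁.comp β = β'.comp π)
    (hprin : ∀ D : Divisor K F, D.IsPrincipal →
      Divisor.pullbackAlong π hπ (Divisor.correspondence β α hβ hα D)
        = Divisor.correspondence β' α' hβ' hα' (Divisor.pullbackAlong π hπ D))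
    (D : Divisor K F) :
    Divisor.pullbackAlong π hπ (Divisor.correspondence β α hβ hα D)
      = Divisor.correspondence β' α' hβ' hα' (Divisor.pullbackAlong π hπ D) := by
  classical
  set Δ : Divisor K F →+ Divisor K F' :=
    (Divisor.pullbackAlong π hπ).comp (Divisor.correspondence β α hβ hα)
      - (Divisor.correspondence β' α' hβ' hα').comp (Divisor.pullbackAlong π hπ) with hΔ
  have hΔ0 : Δ = 0 := by
    refine eq_zero_of_principal_of_support Δ (fun D hD => ?_)
      (fun Q => (Place.fiberAlong α hα (Q.restrictAlong π hπ)).image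
        fun W => W.restrictAlong β hβ) ?_
    · rw [hΔ, AddMonoidHom.sub_apply, AddMonoidHom.comp_apply, AddMonoidHom.comp_apply,
        hprin D hD, sub_self]
    · intro P n Q hP
      have hP' : ∀ W : Place K F₁, W.restrictAlong α hα = Q.restrictAlong π hπ →
          W.restrictAlong β hβ ≠ P := fun W hW hWP =>
        hP (Finset.mem_image.mpr ⟨W, Place.mem_fiberAlong.mpr hW, hWP⟩)
      obtain ⟨h1, h2⟩ := correspondence_single_apply_eq_zero α β α' β' π π₁ hα hβ hα' hβ' hπ hπ₁
        hcα hcβ P n Q hP'
      rw [hΔ, AddMonoidHom.sub_apply, AddMonoidHom.comp_apply, AddMonoidHom.comp_apply,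
        Finsupp.sub_apply, h1, h2, sub_zero]
  have h := DFunLike.congr_fun hΔ0 D
  rw [hΔ, AddMonoidHom.sub_apply, AddMonoidHom.comp_apply, AddMonoidHom.comp_apply,
    AddMonoidHom.zero_apply, sub_eq_zero] at h
  exact h

include hπ₁ in
/-- **Base change of a correspondence** from the norm formulas along `α` and `α'` and the
equality of all orders of `N_{α'} (β' (π f))` and `π (N_α (β f))`. -/
theorem pullbackAlong_correspondence_of_ord_norm
    (hcα : π₁.comp α = α'.comp π) (hcβ : π₁.comp β = β'.comp π)
    (hfin : FiniteAlong K α) (hN : NormFormulaAlong K α hfin)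
    (hfin' : FiniteAlong K α') (hN' : NormFormulaAlong K α' hfin')
    (hNU : ∀ f : F, f ≠ 0 → ∀ Q : Place K F',
      Q.ord (normAlong α' (β' (π f))) = Q.ord (π (normAlong α (β f))))
    (D : Divisor K F) :
    Divisor.pullbackAlong π hπ (Divisor.correspondence β α hβ hα D)
      = Divisor.correspondence β' α' hβ' hα' (Divisor.pullbackAlong π hπ D) := by
  refine pullbackAlong_correspondence_of_principal α β α' β' π π₁ hα hβ hα' hβ' hπ hπ₁ hcα hcβ
    (fun D hD => ?_) D
  obtain ⟨f, hf0, hDf⟩ := hD
  have hβf : β f ≠ 0 := (map_ne_zero β).mpr hf0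
  have hβ'πf : β' (π f) ≠ 0 := (map_ne_zero β').mpr ((map_ne_zero π).mpr hf0)
  ext Q
  rw [Divisor.correspondence_apply, Divisor.correspondence_apply]
  rw [pullbackAlong_apply_eq_ord π hπ
    (pushforwardAlong_apply_eq_ord α hα hfin hN hβf (pullbackAlong_apply_eq_ord β hβ hDf)) Q]
  rw [pushforwardAlong_apply_eq_ord α' hα' hfin' hN' hβ'πf
    (pullbackAlong_apply_eq_ord β' hβ' (pullbackAlong_apply_eq_ord π hπ hDf)) Q]
  exact (hNU f hf0 Q).symm

include hπ₁ in
/-- **Base change of a correspondence** (`(BC-gen)`): norm formulas along `α`, `α'` and the norm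
compatibility `N_{α'} (β' (π f)) = π (N_α (β f))` give
`π^* (α_* β^* D) = α'_* β'^* (π^* D)` for ALL divisors `D` of `F`. -/
theorem pullbackAlong_correspondence
    (hcα : π₁.comp α = α'.comp π) (hcβ : π₁.comp β = β'.comp π)
    (hfin : FiniteAlong K α) (hN : NormFormulaAlong K α hfin)
    (hfin' : FiniteAlong K α') (hN' : NormFormulaAlong K α' hfin')
    (hNU : ∀ f : F, normAlong α' (β' (π f)) = π (normAlong α (β f)))
    (D : Divisor K F) :
    Divisor.pullbackAlong π hπ (Divisor.correspondence β α hβ hα D)
      = Divisor.correspondence β' α' hβ' hα' (Divisor.pullbackAlong π hπ D) :=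
  pullbackAlong_correspondence_of_ord_norm α β α' β' π π₁ hα hβ hα' hβ' hπ hπ₁ hcα hcβ
    hfin hN hfin' hN' (fun f _ Q => by rw [hNU f]) D

end BaseChange

end

end Fermat.Agent.S37.helper367
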