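/-
S37-HECKEBC, backup implementation (helper367; board row 1497): the MODULAR instance, with the
norm compatibility `(NU)` PROVED (no hypothesis left).

`ℓ` prime, `ℓ ∤ N r`.  `F = F_N`, `F' = F_{N r}`, `F₁ = F_{N ℓ}`, `F₁' = F_{N r ℓ}`
(`FN M = modularFunctionFieldBar M ⊆ ℚ̄((q))`), `α`, `β` = `heckeAlphaBar`, `heckeBetaBar` at
levels `N` and `N r`, `π = heckeAlphaBar ℚ̄ N r` and `π₁ = levelRaise N r ℓ` the inclusions.

* `normAlong_alpha_levelRaise` : `N_{α'} (π₁ x) = π (N_α x)` for all `x : F_{N ℓ}`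
  (linear disjointness of `F_{N r}` and `F_{N ℓ}` over `F_N` with the common power basis
  `1, j(q^ℓ), …, j(q^ℓ)^ℓ`; the degree of `j(q^ℓ)` over `F_{N r}` is `≥ ℓ` by ramification at the
  Atkin–Lehner image of the cusp `∞` (`helper137.exists_swap_alpha_beta`), divides
  `ℓ + 1 = [F_{N r ℓ} : F_{N r}]`, hence equals `ℓ + 1`).
* `normAlong_beta_levelRaise` : the same along `β` (ramification at the cusp `∞` itself).
* `pullbackAlong_heckeDivBar` : **`π^* (T_ℓ D) = T_ℓ (π^* D)` for all divisors `D` of `F_N`**,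
  `T_ℓ = heckeDivBar = α_* β^*` the Prelude Hecke correspondence at levels `N` and `N r`.
* `pullbackAlong_heckeDivBarTranspose` : the same for the transposed correspondence `β_* α^*`.
-/
import Fermat.Agent.S37.helper367_HeckeBC
import Fermat.Agent.S37.helper367_NormBC
import Fermat.Agent.S37.helper8426_HeckeInputs
import Fermat.Agent.S37.helper137_KroneckerFF
import Fermat.Agent.S37.helper9343_BetaAdapter

set_option autoImplicit false
set_option linter.style.haveILetI false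

open ModularCurve AlgebraicCurve IntermediateField

namespace Fermat.Agent.S37.helper367

open Fermat.Agent.S24.helper24

noncomputable section

variable (N r ℓ : ℕ) [NeZero N] [NeZero r] [NeZero ℓ]

/-! ### The inclusion `F_{N ℓ} ⊆ F_{N r ℓ}` -/

theorem levelRaise_le :
    modularFunctionFieldBar (N * ℓ) ≤ modularFunctionFieldBar (N * r * ℓ) := by
  rw [modularFunctionFieldBar, laurentBaseChange, IntermediateField.adjoin_le_iff]
  rintro _ ⟨y, hy, rfl⟩
  exact coeffEmb_mem_laurentBaseChange _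
    (full_degeneracy_le (Nat.mul_dvd_mul_right (dvd_mul_right N r) ℓ) hy)

/-- The inclusion `π₁ : F_{N ℓ} → F_{N r ℓ}`. -/
def levelRaise : FN (N * ℓ) →ₐ[Kbar] FN (N * r * ℓ) :=
  IntermediateField.inclusion (levelRaise_le N r ℓ)

@[simp]
theorem coe_levelRaise (x : FN (N * ℓ)) :
    ((levelRaise N r ℓ x : FN (N * r * ℓ)) : LaurentSeries Kbar) = (x : LaurentSeries Kbar) :=
  IntermediateField.coe_inclusion _ x

/-- `π₁ ∘ α = α' ∘ π`. -/
theorem levelRaise_comp_alpha :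
    (levelRaise N r ℓ).comp (heckeAlphaBar Kbar N ℓ)
      = (heckeAlphaBar Kbar (N * r) ℓ).comp (heckeAlphaBar Kbar N r) :=
  AlgHom.ext fun x => Subtype.ext (by
    rw [AlgHom.comp_apply, AlgHom.comp_apply, coe_levelRaise, coe_heckeAlphaBar,
      coe_heckeAlphaBar, coe_heckeAlphaBar])

/-- `π₁ ∘ β = β' ∘ π`. -/
theorem levelRaise_comp_beta :
    (levelRaise N r ℓ).comp (heckeBetaBar Kbar N ℓ)
      = (heckeBetaBar Kbar (N * r) ℓ).comp (heckeAlphaBar Kbar N r) :=
  AlgHom.ext fun x => Subtype.ext (by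
    rw [AlgHom.comp_apply, AlgHom.comp_apply, coe_levelRaise, coe_heckeBetaBar,
      coe_heckeBetaBar, coe_heckeAlphaBar])

theorem levelRaise_jBar : levelRaise N r ℓ (jBar (N * ℓ)) = jBar (N * r * ℓ) :=
  Subtype.ext (by rw [coe_levelRaise, coe_jBar, coe_jBar])

instance finiteDimensional_levelRaise_jBar :
    FiniteDimensional Kbar⟮levelRaise N r ℓ (jBar (N * ℓ))⟯ (FN (N * r * ℓ)) := by
  rw [levelRaise_jBar]
  infer_instance

theorem finiteAlong_levelRaise : FiniteAlong Kbar (levelRaise N r ℓ) :=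
  Fermat.Agent.S37.helper5162.finiteAlong_of_finiteDimensional _ (jBar (N * ℓ))

theorem levelRaise_isIntegral : (levelRaise N r ℓ).toRingHom.IsIntegral :=
  Fermat.Agent.S37.helper5162.isIntegral_of_finiteAlong _ (finiteAlong_levelRaise N r ℓ)

/-! ### `q`-orders -/

theorem order_coeffEmb_jq : (coeffEmb Kbar jq).order = -1 := by
  have h := Fermat.Agent.S37.helper9343.orderTop_coeffEmb_jq
  rw [← HahnSeries.order_eq_orderTop_of_ne_zero Fermat.Agent.S37.helper9343.coeffEmb_jq_ne_zero]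
    at h
  exact_mod_cast h

theorem int_eq_of_dvd_sub {ℓ : ℕ} {i j : ℕ} (hi : i < ℓ) (hj : j < ℓ)
    (h : (ℓ : ℤ) ∣ (i : ℤ) - j) : i = j := by
  have h0 : (i : ℤ) - j = 0 :=
    Int.eq_zero_of_abs_lt_dvd h (abs_lt.mpr ⟨by omega, by omega⟩)
  omega

/-! ### The norm compatibility `(NU)` -/

variable {N r ℓ}

/-- **`(NU)` along `α`**: `N_{F_{N r ℓ} / F_{N r}} (x) = N_{F_{N ℓ} / F_N} (x)` for
`x ∈ F_{N ℓ}`. -/
theorem normAlong_alpha_levelRaise (hℓ : ℓ.Prime) (hco : Nat.Coprime ℓ (N * r))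
    (x : FN (N * ℓ)) :
    normAlong (heckeAlphaBar Kbar (N * r) ℓ) (levelRaise N r ℓ x)
      = heckeAlphaBar Kbar N r (normAlong (heckeAlphaBar Kbar N ℓ) x) := by
  letI := algebraAlong (heckeAlphaBar Kbar N ℓ)
  letI := algebraAlong (heckeAlphaBar Kbar (N * r) ℓ)
  haveI : FiniteDimensional (FN N) (FN (N * ℓ)) :=
    Fermat.Agent.S37.helper5162.finiteAlong_heckeAlphaBar N ℓ
  haveI : FiniteDimensional (FN (N * r)) (FN (N * r * ℓ)) :=
    Fermat.Agent.S37.helper5162.finiteAlong_heckeAlphaBar (N * r) ℓ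
  have hcoN : Nat.Coprime ℓ N := Nat.Coprime.coprime_mul_right_right hco
  have hrank : Module.finrank (FN N) (FN (N * ℓ)) = ℓ + 1 :=
    Fermat.Agent.S37.helper137.finrankAlong_alpha hℓ hcoN
  have hrank' : Module.finrank (FN (N * r)) (FN (N * r * ℓ)) = ℓ + 1 :=
    Fermat.Agent.S37.helper137.finrankAlong_alpha hℓ hco
  -- the generator `y = j(q^ℓ)`
  have hπ₁y : levelRaise N r ℓ (heckeBetaBar Kbar N ℓ (jBar N))
      = heckeBetaBar Kbar (N * r) ℓ (jBar (N * r)) := Subtype.ext (by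
    rw [coe_levelRaise, coe_heckeBetaBar, coe_heckeBetaBar, coe_jBar, coe_jBar])
  have hdeg : (minpoly (FN (N * r)) (levelRaise N r ℓ (heckeBetaBar Kbar N ℓ (jBar N)))).natDegree
      = Module.finrank (FN (N * r)) (FN (N * r * ℓ)) := by
    apply natDegree_minpoly_eq_finrank_of_lt
    rw [hrank']
    obtain ⟨w, hwα, hwβ⟩ := Fermat.Agent.S37.helper137.exists_swap_alpha_beta hℓ hco
    have hj0 : qExpand Kbar ℓ (coeffEmb Kbar jq) ≠ 0 :=
      (map_ne_zero_iff _ (qExpand_injective ℓ)).mpr Fermat.Agent.S37.helper9343.coeffEmb_jq_ne_zero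
    have hle : ℓ ≤ (minpoly (FN (N * r))
        (levelRaise N r ℓ (heckeBetaBar Kbar N ℓ (jBar N)))).natDegree := by
      refine le_natDegree_minpoly_of_order (w : FN (N * r * ℓ) →+* LaurentSeries Kbar)
        ((ℓ : ℤ) ^ 2) (-(ℓ : ℤ)) ℓ ?_ _ (IsIntegral.of_finite _ _) ?_ ?_ ?_
      · intro c hc
        show ((ℓ : ℤ) ^ 2) ∣ (w (heckeAlphaBar Kbar (N * r) ℓ c)).order
        rw [hwα, Fermat.Agent.S37.helper9343.order_qExpand (ℓ ^ 2)
          (Fermat.Agent.S37.helper9343.coe_ne_zero _ hc)]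
        exact ⟨_, by push_cast; rfl⟩
      · show w (levelRaise N r ℓ (heckeBetaBar Kbar N ℓ (jBar N))) ≠ 0
        rw [hπ₁y, hwβ, coe_jBar]
        exact hj0
      · show (w (levelRaise N r ℓ (heckeBetaBar Kbar N ℓ (jBar N)))).order = -(ℓ : ℤ)
        rw [hπ₁y, hwβ, coe_jBar, Fermat.Agent.S37.helper9343.order_qExpand ℓ
          Fermat.Agent.S37.helper9343.coeffEmb_jq_ne_zero, order_coeffEmb_jq]
        ring
      · intro i j hi hj hdvd
        obtain ⟨c, hc⟩ := hdvd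
        have hℓ0 : (ℓ : ℤ) ≠ 0 := by exact_mod_cast hℓ.ne_zero
        refine int_eq_of_dvd_sub hi hj ⟨-c, mul_left_cancel₀ hℓ0 ?_⟩
        linear_combination (-1 : ℤ) * hc
    have h2 : 2 ≤ ℓ := hℓ.two_le
    omega
  exact norm_map_of_natDegree_minpoly (heckeAlphaBar Kbar N r).toRingHom
    (levelRaise N r ℓ).toRingHom
    (fun a => congrArg (fun φ : FN N →ₐ[Kbar] FN (N * r * ℓ) => φ a) (levelRaise_comp_alpha N r ℓ))
    (hrank.trans hrank'.symm) (heckeBetaBar Kbar N ℓ (jBar N)) hdeg x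

/-- **`(NU)` along `β`**: the norms along `q ↦ q^ℓ` at levels `N` and `N r` agree on
`F_{N ℓ}`. -/
theorem normAlong_beta_levelRaise (hℓ : ℓ.Prime) (hco : Nat.Coprime ℓ (N * r))
    (x : FN (N * ℓ)) :
    normAlong (heckeBetaBar Kbar (N * r) ℓ) (levelRaise N r ℓ x)
      = heckeAlphaBar Kbar N r (normAlong (heckeBetaBar Kbar N ℓ) x) := by
  letI := algebraAlong (heckeBetaBar Kbar N ℓ)
  letI := algebraAlong (heckeBetaBar Kbar (N * r) ℓ)
  haveI : FiniteDimensional (FN N) (FN (N * ℓ)) :=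
    Fermat.Agent.S37.helper5162.finiteAlong_heckeBetaBar N ℓ
  haveI : FiniteDimensional (FN (N * r)) (FN (N * r * ℓ)) :=
    Fermat.Agent.S37.helper5162.finiteAlong_heckeBetaBar (N * r) ℓ
  have hcoN : Nat.Coprime ℓ N := Nat.Coprime.coprime_mul_right_right hco
  have hrank : Module.finrank (FN N) (FN (N * ℓ)) = ℓ + 1 :=
    Fermat.Agent.S37.helper137.finrankAlong_beta hℓ hcoN
  have hrank' : Module.finrank (FN (N * r)) (FN (N * r * ℓ)) = ℓ + 1 :=
    Fermat.Agent.S37.helper137.finrankAlong_beta hℓ hco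
  -- the generator `y = j(q)`
  have hπ₁y : levelRaise N r ℓ (heckeAlphaBar Kbar N ℓ (jBar N))
      = heckeAlphaBar Kbar (N * r) ℓ (jBar (N * r)) := Subtype.ext (by
    rw [coe_levelRaise, coe_heckeAlphaBar, coe_heckeAlphaBar, coe_jBar, coe_jBar])
  have hdeg : (minpoly (FN (N * r))
      (levelRaise N r ℓ (heckeAlphaBar Kbar N ℓ (jBar N)))).natDegree
      = Module.finrank (FN (N * r)) (FN (N * r * ℓ)) := by
    apply natDegree_minpoly_eq_finrank_of_lt
    rw [hrank']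
    have hle : ℓ ≤ (minpoly (FN (N * r))
        (levelRaise N r ℓ (heckeAlphaBar Kbar N ℓ (jBar N)))).natDegree := by
      refine le_natDegree_minpoly_of_order
        ((modularFunctionFieldBar (N * r * ℓ)).val : FN (N * r * ℓ) →+* LaurentSeries Kbar)
        (ℓ : ℤ) (-1) ℓ ?_ _ (IsIntegral.of_finite _ _) ?_ ?_ ?_
      · intro c hc
        show (ℓ : ℤ) ∣ ((heckeBetaBar Kbar (N * r) ℓ c : FN (N * r * ℓ)) :
          LaurentSeries Kbar).order
        rw [coe_heckeBetaBar, Fermat.Agent.S37.helper9343.order_qExpand ℓ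
          (Fermat.Agent.S37.helper9343.coe_ne_zero _ hc)]
        exact ⟨_, rfl⟩
      · show ((levelRaise N r ℓ (heckeAlphaBar Kbar N ℓ (jBar N)) : FN (N * r * ℓ)) :
          LaurentSeries Kbar) ≠ 0
        rw [hπ₁y, coe_heckeAlphaBar, coe_jBar]
        exact Fermat.Agent.S37.helper9343.coeffEmb_jq_ne_zero
      · show ((levelRaise N r ℓ (heckeAlphaBar Kbar N ℓ (jBar N)) : FN (N * r * ℓ)) :
          LaurentSeries Kbar).order = -1
        rw [hπ₁y, coe_heckeAlphaBar, coe_jBar, order_coeffEmb_jq]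
      · intro i j hi hj hdvd
        obtain ⟨c, hc⟩ := hdvd
        refine int_eq_of_dvd_sub hi hj ⟨-c, ?_⟩
        linear_combination (-1 : ℤ) * hc
    have h2 : 2 ≤ ℓ := hℓ.two_le
    omega
  exact norm_map_of_natDegree_minpoly (heckeAlphaBar Kbar N r).toRingHom
    (levelRaise N r ℓ).toRingHom
    (fun a => congrArg (fun φ : FN N →ₐ[Kbar] FN (N * r * ℓ) => φ a) (levelRaise_comp_beta N r ℓ))
    (hrank.trans hrank'.symm) (heckeAlphaBar Kbar N ℓ (jBar N)) hdeg x

/-! ### Hecke commutes with level raising, on divisors -/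

/-- **`(BC-mod)`: the Hecke correspondence commutes with level raising on divisors.**
`ℓ` prime, `ℓ ∤ N r`, `π : F_N ⊆ F_{N r}`:  `π^* (T_ℓ^{(N)} D) = T_ℓ^{(N r)} (π^* D)` for ALL
divisors `D` of `F_N`, with `T_ℓ = heckeDivBar = α_* β^*` (Prelude). -/
theorem pullbackAlong_heckeDivBar (hℓ : ℓ.Prime) (hco : Nat.Coprime ℓ (N * r))
    (hα : HeckeAlphaBarIntegral Kbar N ℓ) (hβ : HeckeBetaBarIntegral Kbar N ℓ)
    (hα' : HeckeAlphaBarIntegral Kbar (N * r) ℓ) (hβ' : HeckeBetaBarIntegral Kbar (N * r) ℓ)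
    (hπ : HeckeAlphaBarIntegral Kbar N r) (D : Divisor Kbar (FN N)) :
    Divisor.pullbackAlong (heckeAlphaBar Kbar N r) hπ (heckeDivBar hα hβ D)
      = heckeDivBar hα' hβ' (Divisor.pullbackAlong (heckeAlphaBar Kbar N r) hπ D) :=
  pullbackAlong_correspondence (heckeAlphaBar Kbar N ℓ) (heckeBetaBar Kbar N ℓ)
    (heckeAlphaBar Kbar (N * r) ℓ) (heckeBetaBar Kbar (N * r) ℓ) (heckeAlphaBar Kbar N r)
    (levelRaise N r ℓ) hα hβ hα' hβ' hπ (levelRaise_isIntegral N r ℓ)
    (levelRaise_comp_alpha N r ℓ) (levelRaise_comp_beta N r ℓ)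
    (Fermat.Agent.S37.helper5162.finiteAlong_heckeAlphaBar N ℓ)
    (Fermat.Agent.S37.helper8426.normFormulaAlong_heckeAlphaBar N ℓ)
    (Fermat.Agent.S37.helper5162.finiteAlong_heckeAlphaBar (N * r) ℓ)
    (Fermat.Agent.S37.helper8426.normFormulaAlong_heckeAlphaBar (N * r) ℓ)
    (fun f => by
      have h := congrArg (fun φ : FN N →ₐ[Kbar] FN (N * r * ℓ) => φ f) (levelRaise_comp_beta N r ℓ)
      simp only [AlgHom.comp_apply] at h
      rw [← h]
      exact normAlong_alpha_levelRaise hℓ hco _) D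

/-- The transposed Hecke correspondence `β_* α^*` also commutes with level raising. -/
theorem pullbackAlong_heckeDivBarTranspose (hℓ : ℓ.Prime) (hco : Nat.Coprime ℓ (N * r))
    (hα : HeckeAlphaBarIntegral Kbar N ℓ) (hβ : HeckeBetaBarIntegral Kbar N ℓ)
    (hα' : HeckeAlphaBarIntegral Kbar (N * r) ℓ) (hβ' : HeckeBetaBarIntegral Kbar (N * r) ℓ)
    (hπ : HeckeAlphaBarIntegral Kbar N r) (D : Divisor Kbar (FN N)) :
    Divisor.pullbackAlong (heckeAlphaBar Kbar N r) hπ (heckeDivBarTranspose hα hβ D)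
      = heckeDivBarTranspose hα' hβ' (Divisor.pullbackAlong (heckeAlphaBar Kbar N r) hπ D) :=
  pullbackAlong_correspondence (heckeBetaBar Kbar N ℓ) (heckeAlphaBar Kbar N ℓ)
    (heckeBetaBar Kbar (N * r) ℓ) (heckeAlphaBar Kbar (N * r) ℓ) (heckeAlphaBar Kbar N r)
    (levelRaise N r ℓ) hβ hα hβ' hα' hπ (levelRaise_isIntegral N r ℓ)
    (levelRaise_comp_beta N r ℓ) (levelRaise_comp_alpha N r ℓ)
    (Fermat.Agent.S37.helper5162.finiteAlong_heckeBetaBar N ℓ)
    (Fermat.Agent.S37.helper8426.normFormulaAlong_heckeBetaBar N ℓ)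
    (Fermat.Agent.S37.helper5162.finiteAlong_heckeBetaBar (N * r) ℓ)
    (Fermat.Agent.S37.helper8426.normFormulaAlong_heckeBetaBar (N * r) ℓ)
    (fun f => by
      have h := congrArg (fun φ : FN N →ₐ[Kbar] FN (N * r * ℓ) => φ f) (levelRaise_comp_alpha N r ℓ)
      simp only [AlgHom.comp_apply] at h
      rw [← h]
      exact normAlong_beta_levelRaise hℓ hco _) D

end

end Fermat.Agent.S37.helper367
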