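import Fermat.Agent.S37.helper3783_RationalPoints

/-!
# S37/S18-RATPT, part 2 : `K`-valued points and `O`-valued sections

GENERIC PART (no Laurent series; cheap instances).  `L` a field, `F` a field over `L`,
`v : Place L F`; `K` a field with `φ : K →+* L`, `FK` a field over `K` with `ι : FK →+* F`
(think `K = K₀` a number field inside `L = Qbar`, `FK` the `K₀`-form of `F`).
`IsRatPoint φ ι v` says that `v` is a `K`-RATIONAL point: residue field `L`, `ι` is compatible
with the constants, and the value at `v` of every function of `FK` lies in `K`.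

* `traceVS ι v` : the trace of the valuation ring of `v` on `FK`.
* `IsRatPoint.evalK : traceVS ι v →+* K` : evaluation at `v`; `K`-linear, kernel = maximal ideal;
  hence every place `w` of `FK/K` with valuation ring `traceVS ι v` has residue field `K` and
  degree one (`residue_surjective_of_eq`, `deg_eq_one_of_eq`).
* `compVS A ι v hres` : functions of `FK` with `A`-integral value at `v` (`A` a valuation ring
  of `L`); integrally closed (`mem_compVS_of_isIntegral`).
* `IsRatPoint.sectionA A : compVS A ι v _ →+* A.comap φ` : THE SECTION with values in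
  `O = A ∩ K`; two rational points with the same `A`-residues give sections congruent modulo the
  maximal ideal of `O` (`sectionA_sub_mem_nonunits`).

ARITHMETIC PART.  `isRatPoint_of_isDefinedOver` : a place of `laurentBaseChange L F₀` defined over
`K₀` is a rational point for `φ = algebraMap K₀ L`, `ι = iota F₀ K₀`;
`exists_finite_package` : finitely many places and functions are simultaneously defined over one
finite extension `K₀` of `ℚ`, with uniformisers in the `K₀`-form and pairwise distinct traces;
all of it stable under enlarging `K₀`.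
-/

set_option autoImplicit false

noncomputable section

open AlgebraicCurve ModularCurve HahnSeries IntermediateField
open scoped Pointwise

namespace Fermat.Agent.S37.helper3783

open Fermat.Agent.S37.helper2025

section Generic

variable {K L FK F : Type*} [Field K] [Field L] [Field FK] [Field F] [Algebra L F] [Algebra K FK]

/-- the trace on `FK` of the valuation ring of the place `v` of `F`. -/
def traceVS (ι : FK →+* F) (v : Place L F) : ValuationSubring FK :=
  v.toValuationSubring.comap ι

theorem mem_traceVS {ι : FK →+* F} {v : Place L F} {f : FK} :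
    f ∈ traceVS ι v ↔ ι f ∈ v.toValuationSubring := Iff.rfl

theorem mem_nonunits_traceVS {ι : FK →+* F} {v : Place L F} {f : FK} :
    f ∈ (traceVS ι v).nonunits ↔ ι f ∈ v.toValuationSubring.nonunits := by
  rw [ValuationSubring.mem_nonunits_iff_or, ValuationSubring.mem_nonunits_iff_or, mem_traceVS,
    map_inv₀, map_eq_zero]

/-- the functions of `FK` with `A`-integral value at `v`. -/
def compVS (A : ValuationSubring L) (ι : FK →+* F) (v : Place L F)
    (hres : Function.Surjective (algebraMap L v.ResidueField)) : ValuationSubring FK :=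
  (compositeValuationSubring A v hres).comap ι

theorem mem_compVS {A : ValuationSubring L} {ι : FK →+* F} {v : Place L F}
    {hres : Function.Surjective (algebraMap L v.ResidueField)} {f : FK} :
    f ∈ compVS A ι v hres ↔ ∃ a ∈ A, HasValueAt v (ι f) a := Iff.rfl

theorem compVS_le {A : ValuationSubring L} {ι : FK →+* F} {v : Place L F}
    {hres : Function.Surjective (algebraMap L v.ResidueField)} :
    compVS A ι v hres ≤ traceVS ι v := by
  rintro f ⟨a, -, ha⟩
  exact ha.mem

/-- (RP4) INTEGRAL FUNCTIONS HAVE `A`-INTEGRAL VALUES: a function of `FK` integral over a subring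
of functions with `A`-integral values at `v` has an `A`-integral value at `v`. -/
theorem mem_compVS_of_isIntegral {A : ValuationSubring L} {ι : FK →+* F} {v : Place L F}
    {hres : Function.Surjective (algebraMap L v.ResidueField)}
    (R : Subring FK) (hR : ∀ g ∈ R, g ∈ compVS A ι v hres)
    {f : FK} (hf : IsIntegral R f) : f ∈ compVS A ι v hres := by
  have hle : R ≤ (compVS A ι v hres).toSubring := fun g hg => hR g hg
  have hint : IsIntegral (compVS A ι v hres) f := by
    obtain ⟨p, hp, hpx⟩ := hf
    refine ⟨p.map (Subring.inclusion hle), hp.map _, ?_⟩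
    rw [Polynomial.eval₂_map]
    exact hpx
  obtain ⟨y, hy⟩ := IsIntegrallyClosed.isIntegral_iff.mp hint
  rw [← hy]
  exact y.2

/-- `v` is a `K`-RATIONAL POINT of the `K`-form `FK` (embedded by `ι`, constants by `φ`). -/
structure IsRatPoint (φ : K →+* L) (ι : FK →+* F) (v : Place L F) : Prop where
  residue_surjective : Function.Surjective (algebraMap L v.ResidueField)
  map_algebraMap : ∀ c : K, ι (algebraMap K FK c) = algebraMap L F (φ c)
  value_mem : ∀ (f : FK) (a : L), HasValueAt v (ι f) a → ∃ c : K, φ c = a

namespace IsRatPoint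

variable {φ : K →+* L} {ι : FK →+* F} {v : Place L F}

theorem exists_value (h : IsRatPoint φ ι v) {f : FK} (hf : f ∈ traceVS ι v) :
    ∃ c : K, HasValueAt v (ι f) (φ c) := by
  obtain ⟨a, ha⟩ := exists_hasValueAt h.residue_surjective (mem_traceVS.mp hf)
  obtain ⟨c, rfl⟩ := h.value_mem f a ha
  exact ⟨c, ha⟩

/-- (RP3) the `K`-VALUED POINT: evaluation at `v` of the functions of `FK` regular at `v`. -/
def evalK (h : IsRatPoint φ ι v) : traceVS ι v →+* K where
  toFun f := Classical.choose (h.exists_value f.2)
  map_one' := φ.injective <|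
    (Classical.choose_spec (h.exists_value (1 : traceVS ι v).2)).unique
      (by simpa using hasValueAt_one v)
  map_mul' f g := φ.injective <|
    (Classical.choose_spec (h.exists_value (f * g).2)).unique
      (by
        simpa using (Classical.choose_spec (h.exists_value f.2)).mul
          (Classical.choose_spec (h.exists_value g.2)))
  map_zero' := φ.injective <|
    (Classical.choose_spec (h.exists_value (0 : traceVS ι v).2)).unique
      (by simpa using hasValueAt_zero v)
  map_add' f g := φ.injective <|
    (Classical.choose_spec (h.exists_value (f + g).2)).unique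
      (by
        simpa using (Classical.choose_spec (h.exists_value f.2)).add
          (Classical.choose_spec (h.exists_value g.2)))

theorem hasValueAt_evalK (h : IsRatPoint φ ι v) (f : traceVS ι v) :
    HasValueAt v (ι (f : FK)) (φ (h.evalK f)) :=
  Classical.choose_spec (h.exists_value f.2)

theorem evalK_eq_of_hasValueAt (h : IsRatPoint φ ι v) (f : traceVS ι v) {c : K}
    (hc : HasValueAt v (ι (f : FK)) (φ c)) : h.evalK f = c :=
  φ.injective ((h.hasValueAt_evalK f).unique hc)

theorem algebraMap_mem_traceVS (h : IsRatPoint φ ι v) (c : K) :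
    algebraMap K FK c ∈ traceVS ι v := by
  rw [mem_traceVS, h.map_algebraMap]
  exact v.algebraMap_mem' _

/-- `evalK` is `K`-linear. -/
theorem evalK_algebraMap (h : IsRatPoint φ ι v) (c : K) :
    h.evalK ⟨algebraMap K FK c, h.algebraMap_mem_traceVS c⟩ = c := by
  apply h.evalK_eq_of_hasValueAt
  rw [h.map_algebraMap]
  exact hasValueAt_algebraMap v (φ c)

/-- the kernel of `evalK` is the maximal ideal. -/
theorem evalK_eq_zero_iff (h : IsRatPoint φ ι v) (f : traceVS ι v) :
    h.evalK f = 0 ↔ (f : FK) ∈ (traceVS ι v).nonunits := by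
  rw [mem_nonunits_traceVS]
  constructor
  · intro h0
    have h1 := h.hasValueAt_evalK f
    rw [h0, map_zero, hasValueAt_iff_mem_nonunits, map_zero, sub_zero] at h1
    exact h1
  · intro h0
    apply h.evalK_eq_of_hasValueAt
    rw [map_zero, hasValueAt_iff_mem_nonunits, map_zero, sub_zero]
    exact h0

/-- (RP3) `K`-RATIONALITY of the trace: every function of `FK` regular at `v` is congruent to a
constant of `K` modulo the maximal ideal. -/
theorem exists_sub_algebraMap_mem_nonunits (h : IsRatPoint φ ι v) {f : FK}
    (hf : f ∈ traceVS ι v) :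
    ∃ c : K, f - algebraMap K FK c ∈ (traceVS ι v).nonunits := by
  refine ⟨h.evalK ⟨f, hf⟩, ?_⟩
  exact (h.evalK_eq_zero_iff
    (⟨f, hf⟩ - ⟨algebraMap K FK (h.evalK ⟨f, hf⟩), h.algebraMap_mem_traceVS _⟩)).mp
    (by rw [map_sub, evalK_algebraMap, sub_self])

/-- (RP3, Place form) a place `w` of `FK/K` whose valuation ring is the trace of `v` has residue
field `K`. -/
theorem residue_surjective_of_eq (h : IsRatPoint φ ι v) (w : Place K FK)
    (hw : w.toValuationSubring = traceVS ι v) :
    Function.Surjective (algebraMap K w.ResidueField) := by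
  intro y
  obtain ⟨f, rfl⟩ := IsLocalRing.residue_surjective y
  have hf : (f : FK) ∈ traceVS ι v := hw ▸ f.2
  obtain ⟨c, hc⟩ := h.exists_sub_algebraMap_mem_nonunits hf
  refine ⟨c, ?_⟩
  have h0 : algebraMap K w.ResidueField c
      = IsLocalRing.residue w.toValuationSubring (algebraMap K w.toValuationSubring c) := rfl
  rw [h0, eq_comm, ← sub_eq_zero, ← map_sub, IsLocalRing.residue_eq_zero_iff,
    ← ValuationSubring.coe_mem_nonunits_iff]
  rw [← hw] at hc
  exact hc

/-- (RP3, Place form) such a place has degree one. -/
theorem deg_eq_one_of_eq (h : IsRatPoint φ ι v) (w : Place K FK)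
    (hw : w.toValuationSubring = traceVS ι v) : w.deg = 1 := by
  have hbij : Function.Bijective (algebraMap K w.ResidueField) :=
    ⟨(algebraMap K w.ResidueField).injective, h.residue_surjective_of_eq w hw⟩
  have e : K ≃ₗ[K] w.ResidueField :=
    LinearEquiv.ofBijective (Algebra.linearMap K w.ResidueField) hbij
  rw [Place.deg, ← e.finrank_eq, Module.finrank_self]

/-- the inclusion of the functions with `A`-integral value into the functions regular at `v`. -/
def inclTrace (A : ValuationSubring L) (ι : FK →+* F) (v : Place L F)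
    (hres : Function.Surjective (algebraMap L v.ResidueField)) :
    compVS A ι v hres →+* traceVS ι v where
  toFun f := ⟨f, compVS_le f.2⟩
  map_one' := rfl
  map_mul' _ _ := rfl
  map_zero' := rfl
  map_add' _ _ := rfl

theorem evalK_inclTrace_mem (h : IsRatPoint φ ι v) (A : ValuationSubring L)
    (f : compVS A ι v h.residue_surjective) :
    h.evalK (inclTrace A ι v h.residue_surjective f) ∈ A.comap φ := by
  obtain ⟨a, ha, hfa⟩ := mem_compVS.mp f.2
  rw [ValuationSubring.mem_comap]
  have h1 := (h.hasValueAt_evalK (inclTrace A ι v h.residue_surjective f)).unique hfa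
  exact h1 ▸ ha

/-- (RP4) THE SECTION: the functions of `FK` with `A`-integral value at the rational point `v`
are evaluated in `O = A.comap φ` (`= A ∩ K`). -/
def sectionA (h : IsRatPoint φ ι v) (A : ValuationSubring L) :
    compVS A ι v h.residue_surjective →+* A.comap φ :=
  (h.evalK.comp (inclTrace A ι v h.residue_surjective)).codRestrict (A.comap φ)
    (h.evalK_inclTrace_mem A)

theorem coe_sectionA (h : IsRatPoint φ ι v) (A : ValuationSubring L)
    (f : compVS A ι v h.residue_surjective) :
    ((h.sectionA A f : A.comap φ) : K) = h.evalK (inclTrace A ι v h.residue_surjective f) := rfl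

theorem hasValueAt_sectionA (h : IsRatPoint φ ι v) (A : ValuationSubring L)
    (f : compVS A ι v h.residue_surjective) :
    HasValueAt v (ι (f : FK)) (φ ((h.sectionA A f : A.comap φ) : K)) :=
  h.hasValueAt_evalK (inclTrace A ι v h.residue_surjective f)

/-- the section is `O`-linear on constants. -/
theorem sectionA_algebraMap (h : IsRatPoint φ ι v) (A : ValuationSubring L) (c : K)
    (hc : algebraMap K FK c ∈ compVS A ι v h.residue_surjective) :
    ((h.sectionA A ⟨algebraMap K FK c, hc⟩ : A.comap φ) : K) = c :=
  h.evalK_algebraMap c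

/-- (RP4) SAME RESIDUE ⟹ SAME CLOSED POINT: if the values of `f` at two rational points `v`, `w`
are congruent modulo the maximal ideal of `A`, the two sections agree on `f` modulo the maximal
ideal of `O = A ∩ K`. -/
theorem sectionA_sub_mem_nonunits {w : Place L F} (h : IsRatPoint φ ι v)
    (h' : IsRatPoint φ ι w) (A : ValuationSubring L) (f : FK)
    (hfv : f ∈ compVS A ι v h.residue_surjective) (hfw : f ∈ compVS A ι w h'.residue_surjective)
    (hcong : ∀ a b : L, HasValueAt v (ι f) a → HasValueAt w (ι f) b → A.valuation (a - b) < 1) :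
    ((h.sectionA A ⟨f, hfv⟩ : A.comap φ) : K) - ((h'.sectionA A ⟨f, hfw⟩ : A.comap φ) : K)
      ∈ (A.comap φ).nonunits := by
  have h1 := hcong _ _ (h.hasValueAt_sectionA A ⟨f, hfv⟩) (h'.hasValueAt_sectionA A ⟨f, hfw⟩)
  rw [← ValuationSubring.mem_nonunits_iff, ValuationSubring.mem_nonunits_iff_or,
    ← map_sub, ← map_inv₀, map_eq_zero] at h1
  rw [ValuationSubring.mem_nonunits_iff_or]
  rcases h1 with h1 | h1
  · exact Or.inl h1
  · exact Or.inr fun hmem => h1 (ValuationSubring.mem_comap.mp hmem)

end IsRatPoint

end Generic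

section GenericPackage

variable {K F : Type*} [Field K] [Field F] [Algebra K F]

/-- finitely many functions carry all the data of finitely many places: a set fixing each place
under semilinear automorphisms, a uniformiser of each place, and a function separating each pair
of distinct places. -/
theorem exists_finset_package [HasPrincipalDivisors K F] (T : Finset (Place K F)) :
    ∃ S : Finset F,
      (∀ v ∈ T, ∀ g : SemilinearAut K F, (∀ x ∈ S, g • x = x) → g • v = v) ∧
      (∀ v ∈ T, ∃ t ∈ S, v.ord t = 1) ∧
      (∀ v ∈ T, ∀ w ∈ T, v ≠ w → ∃ g ∈ S, g ∈ v.toValuationSubring ∧ g ∉ w.toValuationSubring) := by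
  classical
  choose Sfix hSfix using fun v : Place K F => exists_finset_forall_smul_eq v
  have hunif : ∀ v : Place K F, ∃ t : F, v.ord t = 1 := by
    intro v
    obtain ⟨π, hπ⟩ := IsDiscreteValuationRing.exists_irreducible v.toValuationSubring
    exact ⟨π, v.ord_coe_irreducible hπ⟩
  choose unif hunif using hunif
  have hsep : ∀ v w : Place K F, ∃ g : F,
      v ≠ w → g ∈ v.toValuationSubring ∧ g ∉ w.toValuationSubring := by
    intro v w
    by_cases h : v = w
    · exact ⟨0, fun h' => absurd h h'⟩
    · obtain ⟨g, hg⟩ := exists_mem_not_mem_of_ne h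
      exact ⟨g, fun _ => hg⟩
  choose sep hsep using hsep
  refine ⟨T.biUnion (fun v => Sfix v ∪ {unif v} ∪ T.image (sep v)), ?_, ?_, ?_⟩
  · intro v hv g hg
    refine hSfix v g fun x hx => hg x ?_
    exact Finset.mem_biUnion.mpr ⟨v, hv, Finset.mem_union_left _ (Finset.mem_union_left _ hx)⟩
  · intro v hv
    refine ⟨unif v, ?_, hunif v⟩
    exact Finset.mem_biUnion.mpr ⟨v, hv, Finset.mem_union_left _
      (Finset.mem_union_right _ (Finset.mem_singleton_self _))⟩
  · intro v hv w hw hne
    refine ⟨sep v w, ?_, hsep v w hne⟩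
    exact Finset.mem_biUnion.mpr ⟨v, hv, Finset.mem_union_right _ (Finset.mem_image_of_mem _ hw)⟩

end GenericPackage

section Arithmetic

variable {L : Type*} [Field L] [Algebra ℚ L]

/-- the embedding of the `K₀`-form `laurentBaseChange K₀ F₀` into `F = laurentBaseChange L F₀`. -/
abbrev iota (F₀ : IntermediateField ℚ (LaurentSeries ℚ)) (K₀ : IntermediateField ℚ L) :
    laurentBaseChange K₀ F₀ →+* laurentBaseChange L F₀ :=
  baseChangeHom F₀ (algebraMap K₀ L)

variable {F₀ : IntermediateField ℚ (LaurentSeries ℚ)}

theorem iota_mem_descSub (K₀ : IntermediateField ℚ L) (f : laurentBaseChange K₀ F₀) :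
    ((iota F₀ K₀ f : laurentBaseChange L F₀) : LaurentSeries L) ∈ descSub F₀ K₀ :=
  mem_descSub_iff_range.mpr ⟨f, rfl⟩

/-- coefficientwise base change along a field homomorphism with image inside `K₀` lands in the
functions defined over `K₀`. -/
theorem coeffMap_mem_descSub_of_forall_mem {K : Type*} [Field K] [Algebra ℚ K] (φ : K →+* L)
    {K₀ : IntermediateField ℚ L} (hφ : ∀ c : K, φ c ∈ K₀) {x : LaurentSeries K}
    (hx : x ∈ laurentBaseChange K F₀) : coeffMap φ x ∈ descSub F₀ K₀ := by
  rw [mem_laurentBaseChange_iff] at hx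
  induction hx using Subfield.closure_induction with
  | mem y hy =>
      rcases hy with ⟨a, rfl⟩ | ⟨z, hz, rfl⟩
      · rw [coeffMap_algebraMap_general]
        exact algebraMap_mem_descSub (hφ a)
      · rw [coeffMap_coeffEmb_general]
        exact coeffEmb_mem_descSub K₀ hz
  | one => simp
  | add x y _ _ hx hy => simpa using add_mem hx hy
  | neg x _ hx => simpa using neg_mem hx
  | inv x _ hx => simpa using inv_mem hx
  | mul x y _ _ hx hy => simpa using mul_mem hx hy

/-- (RP3) RATIONAL POINTS, generic form: `K` any field with a homomorphism `φ : K → L` whose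
image lies in `K₀` (e.g. an abstract number field with a chosen embedding, or `K = K₀`).  A place
defined over `K₀` (fixed by `Gal(L/K₀)`), with residue field `L`, whose `K₀`-values are attained
(`hφ'`), is a `K`-rational point of the `K`-form `laurentBaseChange K F₀`: all of
`IsRatPoint.evalK`, `IsRatPoint.sectionA`, `IsRatPoint.deg_eq_one_of_eq`, ... apply with
`ι = baseChangeHom F₀ φ`. -/
theorem isRatPoint_of_isDefinedOver_of_range [IsAlgClosed L] [Algebra.IsAlgebraic ℚ L]
    {K : Type*} [Field K] [Algebra ℚ K] (φ : K →+* L)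
    {K₀ : IntermediateField ℚ L} (hφ : ∀ c : K, φ c ∈ K₀) (hφ' : ∀ a ∈ K₀, ∃ c : K, φ c = a)
    {v : Place L (laurentBaseChange L F₀)}
    (hv : IsDefinedOver F₀ K₀ v) (hres : Function.Surjective (algebraMap L v.ResidueField)) :
    IsRatPoint φ (baseChangeHom F₀ φ) v where
  residue_surjective := hres
  map_algebraMap c := baseChangeHom_algebraMap F₀ φ c
  value_mem f a ha :=
    hφ' a (value_mem_of_isDefinedOver hv (coeffMap_mem_descSub_of_forall_mem φ hφ f.2) ha)

/-- the `K`-algebra structure of the `K`-form (named, so that statements about `K = ↥K₀` do not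
have to re-synthesise it). -/
@[reducible] def formAlgebra (K : Type*) [Field K] [Algebra ℚ K]
    (F₀ : IntermediateField ℚ (LaurentSeries ℚ)) : Algebra K (laurentBaseChange K F₀) :=
  inferInstance

/-- (RP3) a place defined over `K₀`, with residue field `L`, is a `K₀`-rational point of the
`K₀`-form (`φ = algebraMap K₀ L`, `ι = iota F₀ K₀`). -/
theorem isRatPoint_of_isDefinedOver [IsAlgClosed L] [Algebra.IsAlgebraic ℚ L]
    {K₀ : IntermediateField ℚ L} {v : Place L (laurentBaseChange L F₀)}
    (hv : IsDefinedOver F₀ K₀ v) (hres : Function.Surjective (algebraMap L v.ResidueField)) :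
    @IsRatPoint K₀ L (laurentBaseChange K₀ F₀) (laurentBaseChange L F₀) _ _ _ _ _
      (formAlgebra K₀ F₀) (algebraMap K₀ L) (iota F₀ K₀) v :=
  isRatPoint_of_isDefinedOver_of_range (algebraMap K₀ L) (fun c => c.2)
    (fun a ha => ⟨⟨a, ha⟩, rfl⟩) hv hres

/-- (RP6) THE PACKAGE: finitely many places `T` and functions `S` of `F = laurentBaseChange L F₀`
are simultaneously defined over a finite extension `K₀` of `ℚ` (containing a prescribed one),
and for EVERY `K₁ ≥ K₀`: the functions come from the `K₁`-form, the places are defined over `K₁`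
(hence `K₁`-rational), each has a uniformiser in the `K₁`-form, and distinct places of `T` have
distinct traces on the `K₁`-form. -/
theorem exists_finite_package [Algebra.IsAlgebraic ℚ L]
    [HasPrincipalDivisors L (laurentBaseChange L F₀)]
    (T : Finset (Place L (laurentBaseChange L F₀))) (S : Finset (laurentBaseChange L F₀))
    (K₀₀ : IntermediateField ℚ L) [FiniteDimensional ℚ K₀₀] :
    ∃ K₀ : IntermediateField ℚ L, K₀₀ ≤ K₀ ∧ FiniteDimensional ℚ K₀ ∧
      ∀ K₁ : IntermediateField ℚ L, K₀ ≤ K₁ →
        (∀ x ∈ S, ∃ x₁ : laurentBaseChange K₁ F₀, iota F₀ K₁ x₁ = x) ∧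
        (∀ v ∈ T, IsDefinedOver F₀ K₁ v) ∧
        (∀ v ∈ T, ∃ t : laurentBaseChange K₁ F₀, v.ord (iota F₀ K₁ t) = 1) ∧
        (∀ v ∈ T, ∀ w ∈ T, traceVS (iota F₀ K₁) v = traceVS (iota F₀ K₁) w → v = w) := by
  classical
  obtain ⟨S', hfix, hunif, hsep⟩ := exists_finset_package T
  obtain ⟨K₀, hle, hfin, hK⟩ := exists_finite_forall_mem_descSub (F₀ := F₀) (S ∪ S') K₀₀
  refine ⟨K₀, hle, hfin, fun K₁ h₁ => ?_⟩
  have hK₁ : ∀ x ∈ S ∪ S', ∃ x₁ : laurentBaseChange K₁ F₀, iota F₀ K₁ x₁ = x := fun x hx =>
    mem_descSub_iff_range.mp (descSub_mono h₁ (hK x hx))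
  refine ⟨fun x hx => hK₁ x (Finset.mem_union_left _ hx), ?_, ?_, ?_⟩
  · intro v hv σ hσ
    refine hfix v hv _ fun x hx => ?_
    exact arithmeticGalois_smul_eq_self_of_mem_descSub σ hσ
      (descSub_mono h₁ (hK x (Finset.mem_union_right _ hx)))
  · intro v hv
    obtain ⟨t, ht, hord⟩ := hunif v hv
    obtain ⟨t₁, rfl⟩ := hK₁ t (Finset.mem_union_right _ ht)
    exact ⟨t₁, hord⟩
  · intro v hv w hw heq
    by_contra hne
    obtain ⟨g, hg, hgv, hgw⟩ := hsep v hv w hw hne
    obtain ⟨g₁, rfl⟩ := hK₁ g (Finset.mem_union_right _ hg)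
    have h2 : g₁ ∈ traceVS (iota F₀ K₁) v := hgv
    rw [heq] at h2
    exact hgw h2

end Arithmetic

end Fermat.Agent.S37.helper3783
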