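import Fermat.Agent.S37.helper37_TrackB
import Fermat.Agent.S37.helper28_InertiaCharts

/-!
# S37, Track B: closing the nodes (architect helper37)

Producers of the nodes of `helper37_TrackB` are wired here as they land on main, so that the
Spec file stays stable.

* `nodeR1 N : NodeR1 N` — UNCONDITIONAL, from `helper28_InertiaCharts` (IGUSA-KL inertia
  congruences on the two standard charts of the `j`-line) and `helper2025_GaloisCharts`.
* `inertia_smul_sub_mem_kernelB'` — (R1) on `J₀(N)` for the Track-B kernel, unconditional.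
* `stmt_Kernel_of_nodes'`, `result_of_nodes'` — the top assembly with (R1) discharged:
  `NodeR2pt N` + `NodeXfer N 4/9` + `NodeTors (N*4)/(N*9)` ⟹ `helper8353.Stmt_Kernel N`.
-/

set_option autoImplicit false

noncomputable section

namespace Fermat.Agent.S37.helper37

open ModularCurve AlgebraicCurve
open Fermat.Agent.S24.helper24 (Kbar FN jBar)
open Fermat.Agent.S37.helper2025 (HasValueAt InChart SameResidueOn ChartRel relSubgroup pointDiff
  specKernel)

/-- The coordinate `j` of `helper28_InertiaCharts` is `jBar`. -/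
theorem jF_eq_jBar (N : ℕ) : helper28.jF Kbar N = jBar N := by
  apply Subtype.ext
  rw [helper28.coe_jF, Fermat.Agent.S24.helper24.coe_jBar]
  exact (coeffMap_jqModC (algebraMap ℚ Kbar)).symm

/-- **Node (R1) holds**: inertia does not move reductions on the two full `A`-charts. -/
theorem nodeR1 (N : ℕ) [NeZero N] : NodeR1 N := by
  intro ℓ hℓ hℓN A hA τ hτ v
  have hN := helper28.goodLevel_of_liesOverPrime A hℓ hA N hℓN
  have hD := helper2025.mem_decomposition_of_mem_inertiaSubgroupIn A hτ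
  unfold SameRed
  rw [charts_eq_stdCharts, ← jF_eq_jBar]
  rcases helper2025.finChart_or_infChart A v (helper5162.residueField_surjective N v)
    (helper28.jF Kbar N) with h | h
  · exact ⟨_, Or.inl rfl, helper2025.sameResidueOn_inertia' hτ
      (fun f hf => helper2025.inv_smul_mem_finChart hD (helper28.isRational_jF N) hf)
      (helper28.hcong_finChart_jF A N hN hτ) h⟩
  · exact ⟨_, Or.inr rfl, helper2025.sameResidueOn_inertia' hτ
      (fun f hf => helper2025.inv_smul_mem_infChart hD (helper28.isRational_jF N).inv hf)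
      (helper28.hcong_infChart_jF A N hN hτ) h⟩

variable {N : ℕ} [NeZero N]

/-- **(R1) for the Track-B kernel, unconditional.** -/
theorem inertia_smul_sub_mem_kernelB' {ℓ : ℕ} (hℓ : ℓ.Prime) (hℓN : ¬ ℓ ∣ N)
    {A : ValuationSubring Kbar} (hA : A.LiesOverPrime ℓ) {τ : GQ}
    (hτ : τ ∈ A.inertiaSubgroupIn ℚ) (x : JZero N) : τ • x - x ∈ kernelB A N :=
  inertia_smul_sub_mem_kernelB (nodeR1 N) hℓ hℓN hA hτ x

/-- **Track B, top assembly with (R1) discharged.** -/
theorem stmt_Kernel_of_nodes' (h2 : NodeR2pt N)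
    (hodd : ∀ ℓ : ℕ, ℓ.Prime → ¬ ℓ ∣ N → ℓ ≠ 2 → NodeXfer N 4 ℓ ∧ NodeTors (N * 4) ℓ)
    (htwo : ¬ 2 ∣ N → NodeXfer N 9 2 ∧ NodeTors (N * 9) 2) :
    helper8353.Stmt_Kernel N :=
  stmt_Kernel_of_nodes (nodeR1 N) (nodeR2_of_pt h2) hodd htwo

/-- **Track B ⟹ frozen S37**, with (R1) discharged. -/
theorem result_of_nodes' (p : ℕ) (hcomm : HeckeOperatorsCommuteBar N) (h2 : NodeR2pt N)
    (hodd : ∀ ℓ : ℕ, ℓ.Prime → ¬ ℓ ∣ N → ℓ ≠ 2 → NodeXfer N 4 ℓ ∧ NodeTors (N * 4) ℓ)
    (htwo : ¬ 2 ∣ N → NodeXfer N 9 2 ∧ NodeTors (N * 9) 2) :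
    letI := heckeModuleBar N
    ∀ (_ : SMulCommClass GQ HeckeAlg (JZero N)),
      SpecializationExists (K := ℚ) (L := Kbar) N p (JZero N) :=
  helper8353.result_of_kernel p hcomm (stmt_Kernel_of_nodes' h2 hodd htwo)

end Fermat.Agent.S37.helper37

end
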