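import Fermat.Agent.S37.helper37_TrackB
import Fermat.Agent.S37.helper1812_LocUnit

/-!
# S37, Track B: the GENERIC layer theorem — Spec (architect helper37)

Generic setting (no modular vocabulary): `K₀` a field (the number-field layer), `F₀ / K₀` a
function field, `O : ValuationSubring K₀` a discrete valuation ring with uniformiser `π`,
`x : F₀` the coordinate, `V : ValuationSubring F₀` the Gauss valuation ring (`V ∩ K₀ = O`,
`𝔪_V = π V`).  The two charts are the `Subring`s of `helper37_TrackB`

  `B0 := finChartOf O x`   (integral closure of `O[x]`),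
  `Binf := finChartOf O x⁻¹` (integral closure of `O[1/x]`, the FULL chart at infinity).

## Vocabulary

* `chartConst O t c`, `chartCoord O t` : a constant `c : O` / the coordinate `t` as elements of
  the chart `finChartOf O t`;
* `LayerFrame O π x V`   : the frame (DVR, Gauss ring, constants, (H3));
* `ChartFrame O π t V`   : per-chart hypotheses ((H2) saturation, finiteness, fractions);
* `IsEvalAt O t P ev`    : `ev : finChartOf O t →+* O` is the evaluation at the place `P`
                           (an `O`-point of the chart);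
* `EvalPair O t P Q`     : `P`, `Q` are `O`-points of the chart with the same reduction;
* `CuspPair O u P Q`     : the same, and the reduction is a cusp point (`u ↦ 0` mod `π`);
* `Centred O t z v`      : the place `v` is centred on the chart inside the ideal `z`;
* `RegAt O t π z`        : (REG) a regular pair `(π, s)` at the closed point `z`;
* `LocAt O t π q U z`    : (LOC) `U = (u1/u2) · g ^ q` near `z`, `g ≡ 1 mod π`.

## Statements (Props; each has an owner, see team chat)

* `StmtLayerLoc`     (GL) : (REG) at `z` + pairs + divisor condition ⟹ (LOC) at `z`;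
* `StmtLayerKummer`  (GK) : (LOC) at all closed points over `π` of `B0` and at the cusp points
                            of `Binf` ⟹ `U = κ · f ^ q`;
* `StmtLayerGeneric` (G)  : the layer theorem consumed by the modular wiring:
                            (REG) everywhere + pairs + divisor condition ⟹ `U = κ · f ^ q`.
-/

set_option autoImplicit false

noncomputable section

namespace Fermat.Agent.S37.helper37

open AlgebraicCurve

section LayerVocabulary

variable {K₀ F₀ : Type*} [Field K₀] [Field F₀] [Algebra K₀ F₀]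

/-- A constant of `O` as an element of the chart `finChartOf O t`. -/
def chartConst (O : ValuationSubring K₀) (t : F₀) (c : ↥O) : ↥(finChartOf O t) :=
  ⟨algebraMap K₀ F₀ (c : K₀), polyRing_le_finChartOf O t (const_mem_polyRing O t c.2)⟩

@[simp]
theorem coe_chartConst (O : ValuationSubring K₀) (t : F₀) (c : ↥O) :
    ((chartConst O t c : ↥(finChartOf O t)) : F₀) = algebraMap K₀ F₀ (c : K₀) := rfl

/-- The coordinate `t` as an element of the chart `finChartOf O t`. -/
def chartCoord (O : ValuationSubring K₀) (t : F₀) : ↥(finChartOf O t) :=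
  ⟨t, polyRing_le_finChartOf O t (self_mem_polyRing O t)⟩

@[simp]
theorem coe_chartCoord (O : ValuationSubring K₀) (t : F₀) :
    ((chartCoord O t : ↥(finChartOf O t)) : F₀) = t := rfl

/-- **The frame of a layer**: `O` is a DVR with uniformiser `π`; `V` is a valuation ring of
`F₀` with `V ∩ K₀ = O` in which every nonzero function is a power of `π` times a unit (the Gauss
valuation ring); `x` is a unit of `V`; `K₀` is algebraically closed in `F₀`; and (H3): an
element of the finite chart which is congruent modulo `π V` to an element of the chart at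
infinity is congruent to a constant. -/
structure LayerFrame (O : ValuationSubring K₀) (π : ↥O) (x : F₀) (V : ValuationSubring F₀) :
    Prop where
  dvr : IsDiscreteValuationRing ↥O
  irreducible : Irreducible π
  comap : ∀ c : K₀, algebraMap K₀ F₀ c ∈ V ↔ c ∈ O
  unif : ∀ y : F₀, y ≠ 0 → ∃ n : ℤ, V.valuation (y * algebraMap K₀ F₀ (π : K₀) ^ n) = 1
  x_mem : x ∈ V
  x_inv_mem : x⁻¹ ∈ V
  x_ne_zero : x ≠ 0
  const : ∀ y : F₀, IsIntegral K₀ y → ∃ c : K₀, y = algebraMap K₀ F₀ c
  h3 : ∀ b ∈ finChartOf O x, ∀ b' ∈ finChartOf O x⁻¹,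
    (∃ w ∈ V, b - b' = algebraMap K₀ F₀ (π : K₀) * w) →
      ∃ κ : ↥O, ∃ w ∈ V, b = algebraMap K₀ F₀ (κ : K₀) + algebraMap K₀ F₀ (π : K₀) * w

/-- **Per-chart hypotheses** for the chart `finChartOf O t` (`t = x` or `t = x⁻¹`):
(H2) saturation `π V ∩ B = π B`; finiteness over `O[t]`; every function is a fraction. -/
structure ChartFrame (O : ValuationSubring K₀) (π : ↥O) (t : F₀) (V : ValuationSubring F₀) :
    Prop where
  sat : ∀ y ∈ V, algebraMap K₀ F₀ (π : K₀) * y ∈ finChartOf O t → y ∈ finChartOf O t
  fg : ∃ S : Finset F₀, ∀ b ∈ finChartOf O t,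
    b ∈ Submodule.span ↥(polyRing O t) (S : Set F₀)
  frac : ∀ f : F₀, ∃ d ∈ finChartOf O t, d ≠ 0 ∧ d * f ∈ finChartOf O t

/-- `ev` is the evaluation at the place `P` on the chart `finChartOf O t`: an `O`-algebra
retraction whose kernel is the centre of `P` (so `P` is an `O`-integral `K₀`-rational point of
the chart). -/
def IsEvalAt (O : ValuationSubring K₀) (t : F₀) (P : Place K₀ F₀)
    (ev : ↥(finChartOf O t) →+* ↥O) : Prop :=
  (∀ c : ↥O, ev (chartConst O t c) = c) ∧
  ∀ b : ↥(finChartOf O t), ev b = 0 ↔ ((b : F₀) = 0 ∨ 0 < P.ord (b : F₀))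

/-- `P` and `Q` are `O`-points of the chart `finChartOf O t` with the same reduction. -/
def EvalPair (O : ValuationSubring K₀) (t : F₀) (P Q : Place K₀ F₀) : Prop :=
  ∃ evP evQ : ↥(finChartOf O t) →+* ↥O, IsEvalAt O t P evP ∧ IsEvalAt O t Q evQ ∧
    ∀ b, evP b - evQ b ∈ IsLocalRing.maximalIdeal ↥O

/-- `P` and `Q` are `O`-points of the chart `finChartOf O u` with the same reduction, and this
reduction is a CUSP point (`u ↦ 0` modulo the maximal ideal). -/
def CuspPair (O : ValuationSubring K₀) (u : F₀) (P Q : Place K₀ F₀) : Prop :=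
  ∃ evP evQ : ↥(finChartOf O u) →+* ↥O, IsEvalAt O u P evP ∧ IsEvalAt O u Q evQ ∧
    (∀ b, evP b - evQ b ∈ IsLocalRing.maximalIdeal ↥O) ∧
    evP (chartCoord O u) ∈ IsLocalRing.maximalIdeal ↥O

/-- The place `v` is centred on the chart `finChartOf O t` inside the ideal `z`. -/
def Centred (O : ValuationSubring K₀) (t : F₀) (z : Ideal ↥(finChartOf O t))
    (v : Place K₀ F₀) : Prop :=
  (∀ b : ↥(finChartOf O t), 0 ≤ v.ord (b : F₀)) ∧
  ∀ b : ↥(finChartOf O t), 0 < v.ord (b : F₀) → b ∈ z

/-- **(REG)** at the closed point `z` of the chart `finChartOf O t`: a regular pair `(π, s)`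
(`z B_z = (π, s) B_z`, `s ∉ π B`). -/
def RegAt (O : ValuationSubring K₀) (t : F₀) (π : ↥O) (z : Ideal ↥(finChartOf O t)) : Prop :=
  ∃ s : ↥(finChartOf O t), s ∈ z ∧ s ∉ Ideal.span {chartConst O t π} ∧
    helper1812.LocGen z (chartConst O t π) s

/-- **(LOC)** at the closed point `z` of the chart `finChartOf O t` for the function `U` and the
exponent `q`: `U · u2 = u1 · g ^ q` with `u1, u2 ∉ z` and `g = a / b`, `b ∉ π B`, `a ≡ b` mod
`π B` (the OUTPUT shape of `helper1949.exists_loc_of_places`). -/
def LocAt (O : ValuationSubring K₀) (t : F₀) (π : ↥O) (q : ℕ) (U : F₀)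
    (z : Ideal ↥(finChartOf O t)) : Prop :=
  ∃ (g : F₀) (u1 u2 : ↥(finChartOf O t)), u1 ∉ z ∧ u2 ∉ z ∧
    U * (u2 : F₀) = (u1 : F₀) * g ^ q ∧
    ∃ a b : ↥(finChartOf O t), b ∉ Ideal.span {chartConst O t π} ∧
      a - b ∈ Ideal.span {chartConst O t π} ∧ g * (b : F₀) = (a : F₀)

end LayerVocabulary

/-! ## The three statements -/

/-- **(GL) LOC from regular pairs and sections**, one chart, one closed point.
`U` a unit of the Gauss ring whose divisor is `q · Σ ([P i] - [Q i])`; every pair is either a
pair of `O`-points of the chart with the same reduction, or consists of two places not centred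
in `z`.  Then (LOC) holds at every closed point `z ∋ π` where (REG) holds. -/
def StmtLayerLoc : Prop :=
  ∀ (K₀ F₀ : Type) [Field K₀] [Field F₀] [Algebra K₀ F₀] (O : ValuationSubring K₀) (π : ↥O)
    (x : F₀) (V : ValuationSubring F₀) (t : F₀),
    LayerFrame O π x V → (t = x ∨ t = x⁻¹) → ChartFrame O π t V →
    ∀ (q : ℕ) (U : F₀), V.valuation U = 1 →
    ∀ (m : ℕ) (P Q : Fin m → Place K₀ F₀),
      (∀ v : Place K₀ F₀, v.ord U =
        q * ((Nat.card {i // P i = v} : ℤ) - (Nat.card {i // Q i = v} : ℤ))) →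
    ∀ z : Ideal ↥(finChartOf O t), z.IsMaximal → chartConst O t π ∈ z →
      (∀ i, EvalPair O t (P i) (Q i) ∨ (¬ Centred O t z (P i) ∧ ¬ Centred O t z (Q i))) →
      RegAt O t π z → LocAt O t π q U z

/-- **(GK) the Kummer core on the two charts.**  `q` a unit of `O`, `U` a unit of the Gauss
ring with (LOC) at every closed point over `π` of the finite chart and at every cusp point
(`π, x⁻¹ ∈ z`) of the chart at infinity.  Then `U = κ · f ^ q`. -/
def StmtLayerKummer : Prop :=
  ∀ (K₀ F₀ : Type) [Field K₀] [Field F₀] [Algebra K₀ F₀] (O : ValuationSubring K₀) (π : ↥O)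
    (x : F₀) (V : ValuationSubring F₀),
    LayerFrame O π x V → ChartFrame O π x V → ChartFrame O π x⁻¹ V →
    ∀ (q : ℕ), (∃ c : ↥O, (c : K₀) * (q : K₀) = 1) →
    ∀ U : F₀, V.valuation U = 1 →
      (∀ z : Ideal ↥(finChartOf O x), z.IsMaximal → chartConst O x π ∈ z → LocAt O x π q U z) →
      (∀ z : Ideal ↥(finChartOf O x⁻¹), z.IsMaximal → chartConst O x⁻¹ π ∈ z →
        chartCoord O x⁻¹ ∈ z → LocAt O x⁻¹ π q U z) →
      ∃ (κ : K₀) (f : F₀), U = algebraMap K₀ F₀ κ * f ^ q

/-- **(G) the generic layer theorem.**  (REG) at every closed point over `π` of the finite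
chart and at every cusp point of the chart at infinity; finitely many pairs of places, each a
pair of `O`-points of the finite chart with the same reduction or a pair of `O`-points of the
chart at infinity reducing to the same cusp point; `U ≠ 0` with divisor `q · Σ ([P i] - [Q i])`,
`q` a unit of `O`.  Then `U = κ · f ^ q`. -/
def StmtLayerGeneric : Prop :=
  ∀ (K₀ F₀ : Type) [Field K₀] [Field F₀] [Algebra K₀ F₀] (O : ValuationSubring K₀) (π : ↥O)
    (x : F₀) (V : ValuationSubring F₀),
    LayerFrame O π x V → ChartFrame O π x V → ChartFrame O π x⁻¹ V →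
    (∀ z : Ideal ↥(finChartOf O x), z.IsMaximal → chartConst O x π ∈ z → RegAt O x π z) →
    (∀ z : Ideal ↥(finChartOf O x⁻¹), z.IsMaximal → chartConst O x⁻¹ π ∈ z →
      chartCoord O x⁻¹ ∈ z → RegAt O x⁻¹ π z) →
    ∀ (q : ℕ), (∃ c : ↥O, (c : K₀) * (q : K₀) = 1) →
    ∀ (m : ℕ) (P Q : Fin m → Place K₀ F₀),
      (∀ i, EvalPair O x (P i) (Q i) ∨ CuspPair O x⁻¹ (P i) (Q i)) →
    ∀ U : F₀, U ≠ 0 →
      (∀ v : Place K₀ F₀, v.ord U =
        q * ((Nat.card {i // P i = v} : ℤ) - (Nat.card {i // Q i = v} : ℤ))) →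
      ∃ (κ : K₀) (f : F₀), U = algebraMap K₀ F₀ κ * f ^ q

end Fermat.Agent.S37.helper37

end
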