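import Fermat.Agent.S37.helper37_TrackBClose
import Fermat.Agent.S37.helper37_TrackBLayer
import Fermat.Agent.S37.helper3783_RationalSections
import Fermat.Agent.S24.helper1370_PlaceBasics

/-!
# S37, Track B: the torsion node `NodeTors` — Spec of the layer statement and the descent
(architect helper37)

`NodeTors M ℓ` (see `helper37_TrackB`) is reduced here to a statement at ONE number-field layer:

* `FL M K₀`   : the `K₀`-form `laurentBaseChange K₀ (modularFunctionFieldFull M)` of the function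
                field of level `M` (`K₀ : IntermediateField ℚ ℚ̄`);
* `iotaL M K₀`: its base change map to `FN M` (coefficientwise, `helper3783.iota`);
* `NodeLayer M ℓ` : for `A ∣ ℓ`, `q ≠ ℓ` prime, and every SUFFICIENTLY LARGE number field
  `K₀ ⊆ ℚ̄`: if `U₀ ∈ FL M K₀` is nonzero and its divisor (upstairs, on the places of `FN M`) is
  `q · Σ_i ([v i] - [w i])` for finitely many pairs of places `v i ~ w i` (same reduction on one
  of the two `A`-charts) which are all DEFINED OVER `K₀`, then `U₀ = κ · f ^ q` with `κ ∈ K₀`,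
  `f ∈ FL M K₀`.
* `nodeTors_of_layer : NodeLayer M ℓ → NodeTors M ℓ` — PROVED here (RATPT package
  `helper3783.exists_finite_package`: the function and the support descend to a finite layer).

The layer statement is in turn reduced to the GENERIC layer theorem
`StmtLayerGeneric` of `helper37_TrackBLayer` and three MODULAR nodes at the layer
(`OL A K₀ = A ∩ K₀`, `jL M K₀` = the function `j` of the `K₀`-form):

* `NodeFrame M ℓ` : the frame — uniformiser `π` of `OL A K₀`, the Gauss valuation ring `V` of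
  `FL M K₀`, `LayerFrame` and the two `ChartFrame`s (charts `finChartOf (OL A K₀) (jL M K₀)^{±1}`);
* `NodeReg M ℓ`   : (REG) at every closed point over `π` of the finite chart and at every cusp
  point of the chart at infinity;
* `NodeDesc M ℓ`  : descent of pairs: places `v i ~ w i` of `FN M` defined over `K₀` restrict to
  places `P i`, `Q i` of `FL M K₀` which form `EvalPair`s / `CuspPair`s, and the divisor
  condition descends;
* `nodeLayer_of_generic : StmtLayerGeneric → NodeFrame M ℓ → NodeReg M ℓ → NodeDesc M ℓ →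
  NodeLayer M ℓ` and `nodeTors_of_generic` — PROVED here.
-/

set_option autoImplicit false

noncomputable section

namespace Fermat.Agent.S37.helper37

open ModularCurve AlgebraicCurve
open Fermat.Agent.S24.helper24 (Kbar FN jBar)
open Fermat.Agent.S37.helper2025 (HasValueAt InChart SameResidueOn ChartRel relSubgroup pointDiff
  specKernel)

/-! ## The layer statement -/

section Layer

/-- The `K₀`-form of the function field of level `M`. -/
abbrev FL (M : ℕ) (K₀ : IntermediateField ℚ Kbar) : Type :=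
  ↥(laurentBaseChange K₀ (modularFunctionFieldFull M))

/-- Base change `FL M K₀ → FN M` (coefficientwise along `K₀ ⊆ ℚ̄`). -/
abbrev iotaL (M : ℕ) (K₀ : IntermediateField ℚ Kbar) : FL M K₀ →+* FN M :=
  helper3783.iota (modularFunctionFieldFull M) K₀

/-- The `K₀`-algebra structure of the `K₀`-form (named instance: the generic instance search
through the intermediate-field towers of `↥K₀` is very slow). -/
instance instAlgebraFL (M : ℕ) (K₀ : IntermediateField ℚ Kbar) : Algebra ↥K₀ (FL M K₀) :=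
  helper3783.formAlgebra ↥K₀ (modularFunctionFieldFull M)

/-- **Node (LAYER).**  The Kummer statement at one (sufficiently large) number-field layer. -/
def NodeLayer (M ℓ : ℕ) : Prop :=
  ∀ A : ValuationSubring Kbar, A.LiesOverPrime ℓ → ∀ q : ℕ, q.Prime → q ≠ ℓ →
    ∃ K₀₀ : IntermediateField ℚ Kbar, FiniteDimensional ℚ K₀₀ ∧
      ∀ K₀ : IntermediateField ℚ Kbar, K₀₀ ≤ K₀ → FiniteDimensional ℚ K₀ →
        ∀ (m : ℕ) (v w : Fin m → Place Kbar (FN M)),
          (∀ i, SameRed A M (v i) (w i)) →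
          (∀ i, helper3783.IsDefinedOver (modularFunctionFieldFull M) K₀ (v i)) →
          (∀ i, helper3783.IsDefinedOver (modularFunctionFieldFull M) K₀ (w i)) →
          ∀ U₀ : FL M K₀, U₀ ≠ 0 →
            (∀ P : Place Kbar (FN M), P.ord (iotaL M K₀ U₀) =
              q * ((Nat.card {i // v i = P} : ℤ) - (Nat.card {i // w i = P} : ℤ))) →
            ∃ (κ : K₀) (f : FL M K₀), U₀ = algebraMap K₀ (FL M K₀) κ * f ^ q

/-- The layer `A ∩ K₀` of the valuation ring `A` of `ℚ̄` (`= helper6879.layer A K₀`). -/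
abbrev OL (A : ValuationSubring Kbar) (K₀ : IntermediateField ℚ Kbar) : ValuationSubring ↥K₀ :=
  A.comap (algebraMap ↥K₀ Kbar)

/-- The function `j` of the `K₀`-form. -/
abbrev jL (M : ℕ) (K₀ : IntermediateField ℚ Kbar) : FL M K₀ := helper28.jF ↥K₀ M

/-- **Node (FRAME).**  At every sufficiently large number-field layer: a uniformiser `π` of
`A ∩ K₀`, the Gauss valuation ring `V` of the `K₀`-form, with `LayerFrame` and the two
`ChartFrame`s for the coordinate `j`. -/
def NodeFrame (M ℓ : ℕ) : Prop :=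
  ∀ A : ValuationSubring Kbar, A.LiesOverPrime ℓ →
    ∃ K₀₀ : IntermediateField ℚ Kbar, FiniteDimensional ℚ K₀₀ ∧
      ∀ K₀ : IntermediateField ℚ Kbar, K₀₀ ≤ K₀ → FiniteDimensional ℚ K₀ →
        ∃ (π : ↥(OL A K₀)) (V : ValuationSubring (FL M K₀)),
          LayerFrame (OL A K₀) π (jL M K₀) V ∧ ChartFrame (OL A K₀) π (jL M K₀) V ∧
            ChartFrame (OL A K₀) π (jL M K₀)⁻¹ V

/-- **Node (REG).**  At every sufficiently large number-field layer, for every uniformiser `π`
of `A ∩ K₀`: a regular pair at every closed point over `π` of the finite chart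
`finChartOf (OL A K₀) j`, and at every cusp point (`π, 1/j ∈ z`) of the chart at infinity
`finChartOf (OL A K₀) (1/j)`. -/
def NodeReg (M ℓ : ℕ) : Prop :=
  ∀ A : ValuationSubring Kbar, A.LiesOverPrime ℓ →
    ∃ K₀₀ : IntermediateField ℚ Kbar, FiniteDimensional ℚ K₀₀ ∧
      ∀ K₀ : IntermediateField ℚ Kbar, K₀₀ ≤ K₀ → FiniteDimensional ℚ K₀ →
        ∀ π : ↥(OL A K₀), Irreducible π →
          (∀ z : Ideal ↥(finChartOf (OL A K₀) (jL M K₀)), z.IsMaximal →
            chartConst (OL A K₀) (jL M K₀) π ∈ z → RegAt (OL A K₀) (jL M K₀) π z) ∧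
          (∀ z : Ideal ↥(finChartOf (OL A K₀) (jL M K₀)⁻¹), z.IsMaximal →
            chartConst (OL A K₀) (jL M K₀)⁻¹ π ∈ z → chartCoord (OL A K₀) (jL M K₀)⁻¹ ∈ z →
            RegAt (OL A K₀) (jL M K₀)⁻¹ π z)

/-- **Node (DESC).**  Places `v i ~ w i` (same reduction on one of the two `A`-charts) defined
over the number field `K₀` restrict to places `P i`, `Q i` of the `K₀`-form which are pairs of
`O`-points of the finite chart with the same reduction, or pairs of `O`-points of the chart at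
infinity reducing to the same cusp point; and a divisor condition upstairs descends to the
layer. -/
def NodeDesc (M ℓ : ℕ) : Prop :=
  ∀ A : ValuationSubring Kbar, A.LiesOverPrime ℓ →
    ∃ K₀₀ : IntermediateField ℚ Kbar, FiniteDimensional ℚ K₀₀ ∧
      ∀ K₀ : IntermediateField ℚ Kbar, K₀₀ ≤ K₀ → FiniteDimensional ℚ K₀ →
        ∀ (m : ℕ) (v w : Fin m → Place Kbar (FN M)),
          (∀ i, SameRed A M (v i) (w i)) →
          (∀ i, helper3783.IsDefinedOver (modularFunctionFieldFull M) K₀ (v i)) →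
          (∀ i, helper3783.IsDefinedOver (modularFunctionFieldFull M) K₀ (w i)) →
          ∃ P Q : Fin m → Place ↥K₀ (FL M K₀),
            (∀ i, EvalPair (OL A K₀) (jL M K₀) (P i) (Q i) ∨
              CuspPair (OL A K₀) (jL M K₀)⁻¹ (P i) (Q i)) ∧
            ∀ (U₀ : FL M K₀) (p : ℤ),
              (∀ P' : Place Kbar (FN M), P'.ord (iotaL M K₀ U₀) =
                p * ((Nat.card {i // v i = P'} : ℤ) - (Nat.card {i // w i = P'} : ℤ))) →
              ∀ P₀ : Place ↥K₀ (FL M K₀), P₀.ord U₀ =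
                p * ((Nat.card {i // P i = P₀} : ℤ) - (Nat.card {i // Q i = P₀} : ℤ))

end Layer

/-! ## Descent: `NodeLayer → NodeTors` -/

section Descent

variable {A : ValuationSubring Kbar} {M : ℕ}

/-- Counting form of a sum of point differences. -/
theorem sum_pointDiff_apply {m : ℕ} (v w : Fin m → Place Kbar (FN M)) (P : Place Kbar (FN M)) :
    (∑ i, pointDiff (v i) (w i)) P =
      (Nat.card {i // v i = P} : ℤ) - (Nat.card {i // w i = P} : ℤ) := by
  classical
  have key : ∀ u : Fin m → Place Kbar (FN M),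
      (∑ i, (Finsupp.single (u i) (1 : ℤ)) P) = (Nat.card {i // u i = P} : ℤ) := by
    intro u
    have h1 : ∀ i, (Finsupp.single (u i) (1 : ℤ)) P = if u i = P then 1 else 0 := fun i => by
      rw [Finsupp.single_apply]
    rw [Finset.sum_congr rfl (fun i _ => h1 i), Finset.sum_boole, Nat.card_eq_fintype_card,
      Fintype.card_subtype]
  rw [Finsupp.finsetSum_apply]
  simp only [pointDiff, Finsupp.sub_apply]
  rw [Finset.sum_sub_distrib, key v, key w]

/-- Every element of `divKernel A M` is a finite sum of point differences `[v i] - [w i]` with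
`v i ~ w i`. -/
theorem exists_pairs_of_mem_divKernel {D : Divisor Kbar (FN M)} (hD : D ∈ divKernel A M) :
    ∃ (m : ℕ) (v w : Fin m → Place Kbar (FN M)), (∀ i, SameRed A M (v i) (w i)) ∧
      D = ∑ i, pointDiff (v i) (w i) := by
  unfold divKernel at hD
  induction hD using AddSubgroup.closure_induction with
  | mem D hD =>
      obtain ⟨v, w, hvw, rfl⟩ := hD
      exact ⟨1, fun _ => v, fun _ => w, fun _ => hvw, by simp⟩
  | zero => exact ⟨0, Fin.elim0, Fin.elim0, fun i => i.elim0, by simp⟩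
  | add D₁ D₂ _ _ h₁ h₂ =>
      obtain ⟨m₁, v₁, w₁, h₁, rfl⟩ := h₁
      obtain ⟨m₂, v₂, w₂, h₂, rfl⟩ := h₂
      refine ⟨m₁ + m₂, Fin.append v₁ v₂, Fin.append w₁ w₂, ?_, ?_⟩
      · intro i
        induction i using Fin.addCases with
        | left i => simpa using h₁ i
        | right i => simpa using h₂ i
      · rw [Fin.sum_univ_add]
        simp
  | neg D _ h =>
      obtain ⟨m, v, w, h, rfl⟩ := h
      refine ⟨m, w, v, fun i => (h i).symm, ?_⟩
      rw [← Finset.sum_neg_distrib]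
      refine Finset.sum_congr rfl fun i _ => ?_
      simp [pointDiff]

/-- **Descent to one layer.**  The layer statement implies the torsion node. -/
theorem nodeTors_of_layer {ℓ : ℕ} [NeZero M] (h : NodeLayer M ℓ) : NodeTors M ℓ := by
  classical
  have : Algebra.IsAlgebraic ℚ Kbar := AlgebraicClosure.isAlgebraic ℚ
  intro A hA q hq hqℓ D hD hprin
  obtain ⟨m, v, w, hvw, rfl⟩ := exists_pairs_of_mem_divKernel hD
  obtain ⟨U, hU0, hU⟩ := hprin
  obtain ⟨K₀₀, hfin₀, hK⟩ := h A hA q hq hqℓ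
  obtain ⟨K₀, hle, hfin, hpack⟩ :=
    helper3783.exists_finite_package (F₀ := modularFunctionFieldFull M)
      (Finset.univ.image v ∪ Finset.univ.image w) {U} K₀₀
  obtain ⟨hS, hT, -, -⟩ := hpack K₀ le_rfl
  obtain ⟨U₀, hU₀⟩ := hS U (Finset.mem_singleton_self U)
  have hU₀0 : U₀ ≠ 0 := by
    rintro rfl
    exact hU0 (by rw [← hU₀, map_zero])
  have hdiv : ∀ P : Place Kbar (FN M), P.ord (iotaL M K₀ U₀) =
      q * ((Nat.card {i // v i = P} : ℤ) - (Nat.card {i // w i = P} : ℤ)) := by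
    intro P
    have h1 := hU P
    rw [Finsupp.smul_apply, sum_pointDiff_apply, nsmul_eq_mul] at h1
    show P.ord (helper3783.iota (modularFunctionFieldFull M) K₀ U₀) = _
    rw [hU₀, ← h1]
  obtain ⟨κ, f, hκf⟩ := hK K₀ hle hfin m v w hvw
    (fun i => hT _ (Finset.mem_union_left _ (Finset.mem_image_of_mem v (Finset.mem_univ i))))
    (fun i => hT _ (Finset.mem_union_right _ (Finset.mem_image_of_mem w (Finset.mem_univ i))))
    U₀ hU₀0 hdiv
  have hκ0 : κ ≠ 0 := by
    rintro rfl
    exact hU₀0 (by rw [hκf, map_zero, zero_mul])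
  have hf0 : f ≠ 0 := by
    rintro rfl
    exact hU₀0 (by rw [hκf, zero_pow hq.ne_zero, mul_zero])
  have hUeq : U = algebraMap Kbar (FN M) (algebraMap K₀ Kbar κ) * (iotaL M K₀ f) ^ q := by
    rw [← hU₀, hκf, map_mul, map_pow]
    congr 1
    exact helper3783.baseChangeHom_algebraMap (modularFunctionFieldFull M) (algebraMap K₀ Kbar) κ
  have hιf0 : iotaL M K₀ f ≠ 0 := (map_ne_zero _).mpr hf0
  refine ⟨iotaL M K₀ f, hιf0, fun P => ?_⟩
  have h1 := hU P
  rw [Finsupp.smul_apply, nsmul_eq_mul, hUeq,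
    Fermat.Agent.S24.helper1370.ord_algebraMap_mul P ((map_ne_zero _).mpr hκ0),
    Fermat.Agent.S24.helper1370.ord_pow] at h1
  have hq0 : (q : ℤ) ≠ 0 := Nat.cast_ne_zero.mpr hq.ne_zero
  exact mul_left_cancel₀ hq0 h1

end Descent

/-! ## The layer statement from the generic layer theorem and the modular nodes -/

section Wiring

/-- A prime `q ≠ ℓ` is a unit of every valuation ring of `ℚ̄` over `ℓ`. -/
theorem natCast_inv_mem_of_liesOverPrime {A : ValuationSubring Kbar} {ℓ q : ℕ}
    (hA : A.LiesOverPrime ℓ) (hq : q.Prime) (hℓ : ℓ.Prime) (hqℓ : q ≠ ℓ) :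
    ((q : Kbar))⁻¹ ∈ A := by
  have hcop : Nat.Coprime q ℓ := (Nat.coprime_primes hq hℓ).mpr hqℓ
  have hl : A.valuation (ℓ : Kbar) < 1 := A.mem_nonunits_iff.mp hA
  have hint : ∀ n : ℤ, A.valuation (n : Kbar) ≤ 1 := fun n =>
    (A.valuation_le_one_iff _).mpr (intCast_mem A n)
  have hq1 : A.valuation (q : Kbar) = 1 := by
    refine le_antisymm ((A.valuation_le_one_iff _).mpr (natCast_mem A q)) ?_
    by_contra hlt
    rw [not_le] at hlt
    have hb : (q : ℤ) * Nat.gcdA q ℓ + (ℓ : ℤ) * Nat.gcdB q ℓ = 1 := by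
      have := Nat.gcd_eq_gcd_ab q ℓ
      rw [hcop] at this
      exact_mod_cast this.symm
    have hb' : (q : Kbar) * (Nat.gcdA q ℓ : Kbar) + (ℓ : Kbar) * (Nat.gcdB q ℓ : Kbar) = 1 := by
      exact_mod_cast congrArg (Int.cast : ℤ → Kbar) hb
    have h1 : A.valuation ((q : Kbar) * (Nat.gcdA q ℓ : Kbar)) < 1 := by
      rw [map_mul]
      exact mul_lt_one_of_lt_of_le hlt (hint _)
    have h2 : A.valuation ((ℓ : Kbar) * (Nat.gcdB q ℓ : Kbar)) < 1 := by
      rw [map_mul]
      exact mul_lt_one_of_lt_of_le hl (hint _)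
    have h3 := A.valuation.map_add_lt h1 h2
    rw [hb', map_one] at h3
    exact lt_irrefl _ h3
  have hq0 : (q : Kbar) ≠ 0 := by
    intro h0
    rw [h0, map_zero] at hq1
    exact zero_ne_one hq1
  rw [← A.valuation_le_one_iff, map_inv₀, hq1, inv_one]

/-- **The layer statement** from the generic layer theorem and the three modular nodes. -/
theorem nodeLayer_of_generic {M ℓ : ℕ} (hℓ : ℓ.Prime) (hG : StmtLayerGeneric)
    (hF : NodeFrame M ℓ) (hR : NodeReg M ℓ) (hD : NodeDesc M ℓ) : NodeLayer M ℓ := by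
  intro A hA q hq hqℓ
  obtain ⟨K₁, hfin₁, hF'⟩ := hF A hA
  obtain ⟨K₂, hfin₂, hR'⟩ := hR A hA
  obtain ⟨K₃, hfin₃, hD'⟩ := hD A hA
  have hfin₁₂ : FiniteDimensional ℚ ↥(K₁ ⊔ K₂) := IntermediateField.finiteDimensional_sup K₁ K₂
  refine ⟨K₁ ⊔ K₂ ⊔ K₃, IntermediateField.finiteDimensional_sup (K₁ ⊔ K₂) K₃, ?_⟩
  intro K₀ hle hfin m v w hvw hv hw U₀ hU₀ hdiv
  obtain ⟨π, V, hframe, hc0, hci⟩ :=
    hF' K₀ ((le_sup_left.trans le_sup_left).trans hle) hfin
  obtain ⟨hreg0, hregi⟩ :=
    hR' K₀ ((le_sup_right.trans le_sup_left).trans hle) hfin π hframe.irreducible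
  obtain ⟨P, Q, hpairs, hdesc⟩ := hD' K₀ (le_sup_right.trans hle) hfin m v w hvw hv hw
  have hqunit : ∃ c : ↥(OL A K₀), (c : K₀) * (q : K₀) = 1 := by
    have hmem : ((q : K₀))⁻¹ ∈ OL A K₀ := by
      show algebraMap K₀ Kbar ((q : K₀))⁻¹ ∈ A
      rw [map_inv₀, map_natCast]
      exact natCast_inv_mem_of_liesOverPrime hA hq hℓ hqℓ
    have hq0 : (q : K₀) ≠ 0 := Nat.cast_ne_zero.mpr hq.ne_zero
    exact ⟨⟨_, hmem⟩, inv_mul_cancel₀ hq0⟩
  exact hG K₀ (FL M K₀) (OL A K₀) π (jL M K₀) V hframe hc0 hci hreg0 hregi q hqunit m P Q hpairs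
    U₀ hU₀ (hdesc U₀ q hdiv)

/-- **Track B, the torsion node** from the generic layer theorem and the three modular nodes. -/
theorem nodeTors_of_generic {M ℓ : ℕ} [NeZero M] (hℓ : ℓ.Prime) (hG : StmtLayerGeneric)
    (hF : NodeFrame M ℓ) (hR : NodeReg M ℓ) (hD : NodeDesc M ℓ) : NodeTors M ℓ :=
  nodeTors_of_layer (nodeLayer_of_generic hℓ hG hF hR hD)

/-- **Track B, top assembly in terms of the layer nodes**: `NodeR2pt N`, the generic layer
theorem, and for each `ℓ ∤ N` the transfer node and the three modular layer nodes at the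
auxiliary level (`4N` for `ℓ` odd, `9N` for `ℓ = 2`) give `helper8353.Stmt_Kernel N`. -/
theorem stmt_Kernel_of_layer {N : ℕ} [NeZero N] (h2 : NodeR2pt N) (hG : StmtLayerGeneric)
    (hodd : ∀ ℓ : ℕ, ℓ.Prime → ¬ ℓ ∣ N → ℓ ≠ 2 →
      NodeXfer N 4 ℓ ∧ NodeFrame (N * 4) ℓ ∧ NodeReg (N * 4) ℓ ∧ NodeDesc (N * 4) ℓ)
    (htwo : ¬ 2 ∣ N →
      NodeXfer N 9 2 ∧ NodeFrame (N * 9) 2 ∧ NodeReg (N * 9) 2 ∧ NodeDesc (N * 9) 2) :
    helper8353.Stmt_Kernel N :=
  stmt_Kernel_of_nodes' h2
    (fun ℓ hℓ hℓN hℓ2 =>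
      ⟨(hodd ℓ hℓ hℓN hℓ2).1,
        nodeTors_of_generic hℓ hG (hodd ℓ hℓ hℓN hℓ2).2.1 (hodd ℓ hℓ hℓN hℓ2).2.2.1
          (hodd ℓ hℓ hℓN hℓ2).2.2.2⟩)
    (fun h => ⟨(htwo h).1,
      nodeTors_of_generic Nat.prime_two hG (htwo h).2.1 (htwo h).2.2.1 (htwo h).2.2.2⟩)

end Wiring

end Fermat.Agent.S37.helper37

end
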