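/-
S37 Track B, KUMMER-TRIV (board #1047): abstract Kummer triviality on a two-chart model.

Two charts `B0`, `Binf` (subrings of the function field `F`) inside a Gauss valuation ring `V`
with maximal ideal `π V`; if `U` is, locally at every closed point of the special fibre of
both charts, a unit times an `m`-th power of an element of `1 + π V` (hypothesis (LOC)),
then some `f ^ m * U`, `f ≠ 0`, is a global section of both charts.

Assembled from the landed weight-one core (`helper7942.kummer_core_exists`,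
`helper7942.glue_of_local'`) and the landed `H¹` bound (`helper8935.h1_bound`).
-/
import Mathlib
import Fermat.Agent.S37.helper7942_KummerWeightOne
import Fermat.Agent.S37.helper8935_H1Bound

set_option autoImplicit false

namespace Fermat.Agent.S37.helper4314

open Fermat.Agent.S37.helper7942 (oneAdd oneAdd_pow wOne_add wOne_mul wOne_neg wOne_sub)

section Overlap

variable {F : Type*} [Field F]

/-- The ring `B[1/x]` (for `u = x⁻¹`): `{b | ∃ n, u ^ n * b ∈ B}`. -/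
def ovRing (B : Subring F) (u : F) (hu : u ∈ B) : Subring F where
  carrier := {b | ∃ n : ℕ, u ^ n * b ∈ B}
  mul_mem' := by
    rintro a b ⟨n, hn⟩ ⟨k, hk⟩
    refine ⟨n + k, ?_⟩
    have : u ^ (n + k) * (a * b) = (u ^ n * a) * (u ^ k * b) := by ring
    rw [this]
    exact B.mul_mem hn hk
  one_mem' := ⟨0, by simp⟩
  add_mem' := by
    rintro a b ⟨n, hn⟩ ⟨k, hk⟩
    refine ⟨n + k, ?_⟩
    have : u ^ (n + k) * (a + b) = u ^ k * (u ^ n * a) + u ^ n * (u ^ k * b) := by ring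
    rw [this]
    exact B.add_mem (B.mul_mem (B.pow_mem hu k) hn) (B.mul_mem (B.pow_mem hu n) hk)
  zero_mem' := ⟨0, by simp⟩
  neg_mem' := by
    rintro a ⟨n, hn⟩
    exact ⟨n, by rw [mul_neg]; exact B.neg_mem hn⟩

theorem mem_ovRing {B : Subring F} {u : F} {hu : u ∈ B} {b : F} :
    b ∈ ovRing B u hu ↔ ∃ n : ℕ, u ^ n * b ∈ B := Iff.rfl

/-- Extension of the `H¹` bound from cochains on `B0[1/x]` to cochains on `Binf[x]`,
under the weak converse overlap `(OV')`. -/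
theorem h1_extend (B0 Binf : Subring F) (x : F) (hx : x ≠ 0) (hx0 : x ∈ B0) (hxi : x⁻¹ ∈ Binf)
    (m : ℕ) (hm : m ≠ 0)
    (hNi : ∀ w : F, w ^ m ∈ Binf → w ∈ Binf)
    (hov' : ∀ b ∈ Binf, ∃ a ∈ Binf, (∃ n : ℕ, x ^ n * a ∈ B0) ∧
      ∃ n : ℕ, x ^ n * ((1 + x⁻¹ * a) * b) ∈ B0)
    (p : F) (hpi : p ∈ Binf) (U : F) (c : ℕ)
    (h1 : ∀ r : F, (∃ n : ℕ, x ^ n * (r ^ m * U) ∈ B0) →
      (∃ α β : F, α ^ m * U ∈ B0 ∧ β ^ m * U ∈ Binf ∧ p ^ (c + 1) * r = α - β) →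
      ∃ α β : F, α ^ m * U ∈ B0 ∧ β ^ m * U ∈ Binf ∧ p ^ c * r = α - β)
    (r : F) (hr : ∃ n : ℕ, x⁻¹ ^ n * (r ^ m * U) ∈ Binf)
    (hr' : ∃ α β : F, α ^ m * U ∈ B0 ∧ β ^ m * U ∈ Binf ∧ p ^ (c + 1) * r = α - β) :
    ∃ α β : F, α ^ m * U ∈ B0 ∧ β ^ m * U ∈ Binf ∧ p ^ c * r = α - β := by
  obtain ⟨n, hn⟩ := hr
  obtain ⟨α, β, hα, hβ, hαβ⟩ := hr'
  obtain ⟨u, hu⟩ : ∃ u : F, u = x⁻¹ := ⟨_, rfl⟩
  rw [← hu] at hn hxi hov'
  have hxu : x * u = 1 := by rw [hu]; exact mul_inv_cancel₀ hx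
  obtain ⟨A, hA⟩ : ∃ A : Subring F, A = ovRing B0 x hx0 := ⟨_, rfl⟩
  have huA : u ∈ A := by
    rw [hA]
    exact ⟨1, by rw [pow_one, hxu]; exact B0.one_mem⟩
  have hxA : x ∈ A := by
    rw [hA]
    exact ⟨0, by simpa using hx0⟩
  -- `ρ := u ^ n * r` is a section on `Binf`
  have hρ : (u ^ n * r) ^ m * U ∈ Binf := by
    obtain ⟨j, rfl⟩ := Nat.exists_eq_succ_of_ne_zero hm
    have : (u ^ n * r) ^ (j + 1) * U = (u ^ n) ^ j * (u ^ n * (r ^ (j + 1) * U)) := by ring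
    rw [this]
    exact Binf.mul_mem (Binf.pow_mem (Binf.pow_mem hxi n) j) hn
  obtain ⟨a, hai, ⟨k, hk⟩, N, hN⟩ := hov' _ hρ
  have haA : a ∈ A := by rw [hA]; exact ⟨k, hk⟩
  obtain ⟨s, hs⟩ : ∃ s : F, s = 1 + u * a := ⟨_, rfl⟩
  rw [← hs] at hN
  have hsA : s ∈ A := by rw [hs]; exact A.add_mem A.one_mem (A.mul_mem huA haA)
  have hsr : (s * r) ^ m * U ∈ A := by
    obtain ⟨j, rfl⟩ := Nat.exists_eq_succ_of_ne_zero hm
    have h1' : s * ((u ^ n * r) ^ (j + 1) * U) ∈ A := by rw [hA]; exact ⟨N, hN⟩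
    have h2 : (x ^ n) ^ (j + 1) * (u ^ n) ^ (j + 1) = 1 := by
      rw [← mul_pow, ← mul_pow, hxu, one_pow, one_pow]
    have : (s * r) ^ (j + 1) * U
        = (x ^ n) ^ (j + 1) * s ^ j * (s * ((u ^ n * r) ^ (j + 1) * U)) := by
      calc (s * r) ^ (j + 1) * U
          = ((x ^ n) ^ (j + 1) * (u ^ n) ^ (j + 1)) * ((s * r) ^ (j + 1) * U) := by
            rw [h2, one_mul]
        _ = _ := by ring
    rw [this]
    exact A.mul_mem (A.mul_mem (A.pow_mem (A.pow_mem hxA n) _) (A.pow_mem hsA j)) h1'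
  -- Bezout: `1 = s * Bz + (-(u a)) ^ n`
  have hbez : ∀ n : ℕ, ∃ Bz : F, Bz ∈ A ∧ Bz ∈ Binf ∧ 1 = s * Bz + (-(u * a)) ^ n := by
    intro n
    induction n with
    | zero => exact ⟨0, A.zero_mem, Binf.zero_mem, by simp⟩
    | succ n ih =>
      obtain ⟨Bz, h1, h2, h3⟩ := ih
      refine ⟨Bz + (-(u * a)) ^ n, A.add_mem h1 (A.pow_mem (A.neg_mem (A.mul_mem huA haA)) n),
        Binf.add_mem h2 (Binf.pow_mem (Binf.neg_mem (Binf.mul_mem hxi hai)) n), ?_⟩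
      have : (-(u * a)) ^ (n + 1) = (-(u * a)) ^ n * (1 - s) := by rw [pow_succ, hs]; ring
      rw [this]
      linear_combination h3
  obtain ⟨Bz, hBzA, -, hBz⟩ := hbez n
  obtain ⟨r1, hr1⟩ : ∃ r1 : F, r1 = Bz * (s * r) := ⟨_, rfl⟩
  obtain ⟨β1, hβ1⟩ : ∃ β1 : F, β1 = (-a) ^ n * (u ^ n * r) := ⟨_, rfl⟩
  have hsplit : r = r1 + β1 := by
    have : (-(u * a)) ^ n = (-a) ^ n * u ^ n := by rw [← mul_pow]; congr 1; ring
    rw [this] at hBz
    calc r = (s * Bz + (-a) ^ n * u ^ n) * r := by rw [← hBz, one_mul]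
      _ = r1 + β1 := by rw [hr1, hβ1]; ring
  have hr1A : r1 ^ m * U ∈ A := by
    have : r1 ^ m * U = Bz ^ m * ((s * r) ^ m * U) := by rw [hr1]; ring
    rw [this]
    exact A.mul_mem (A.pow_mem hBzA m) hsr
  have hβ1i : β1 ^ m * U ∈ Binf := by
    have : β1 ^ m * U = ((-a) ^ n) ^ m * ((u ^ n * r) ^ m * U) := by rw [hβ1]; ring
    rw [this]
    exact Binf.mul_mem (Binf.pow_mem (Binf.pow_mem (Binf.neg_mem hai) n) m) hρ
  rw [hA] at hr1A
  obtain ⟨α', β', hα', hβ', h'⟩ := h1 r1 hr1A ⟨α, β + p ^ (c + 1) * β1, hα,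
    wOne_add Binf m U hNi hβ (wOne_mul Binf m U (Binf.pow_mem hpi _) hβ1i), by
      rw [hsplit] at hαβ; linear_combination hαβ⟩
  refine ⟨α', β' - p ^ c * β1, hα',
    wOne_sub Binf m U hNi hβ' (wOne_mul Binf m U (Binf.pow_mem hpi _) hβ1i), ?_⟩
  rw [hsplit]
  linear_combination h'

/-- Step A: if `U` is locally (at every closed point of the special fibre of the chart `B`)
of the form `(u₁ / u₂) * g ^ m` with `g ∈ 1 + p V`, then `U` is congruent modulo `p V` to an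
element of `B`. -/
theorem exists_chart_approx (B V : Subring F) (hBV : B ≤ V) (p : F) (hp : p ∈ B)
    (m : ℕ) (U : F) (hUV : U ∈ V)
    (hloc : ∀ z : Ideal B, z.IsMaximal → (⟨p, hp⟩ : B) ∈ z →
      ∃ (g : F) (u₁ u₂ : B), u₂ ∉ z ∧ g ∈ oneAdd V p ∧ U * (u₂ : F) = (u₁ : F) * g ^ m) :
    ∃ b ∈ B, ∃ y ∈ V, U - b = p * y := by
  let I : Ideal B :=
    { carrier := {s | ∃ b ∈ B, ∃ y ∈ V, (s : F) * U - b = p * y}
      add_mem' := by
        rintro s s' ⟨b, hb, y, hy, h⟩ ⟨b', hb', y', hy', h'⟩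
        refine ⟨b + b', B.add_mem hb hb', y + y', V.add_mem hy hy', ?_⟩
        push_cast
        linear_combination h + h'
      zero_mem' := ⟨0, B.zero_mem, 0, V.zero_mem, by simp⟩
      smul_mem' := by
        rintro t s ⟨b, hb, y, hy, h⟩
        refine ⟨t * b, B.mul_mem t.2 hb, t * y, V.mul_mem (hBV t.2) hy, ?_⟩
        simp only [smul_eq_mul, Subring.coe_mul]
        linear_combination (t : F) * h }
  have hpI : (⟨p, hp⟩ : B) ∈ I := ⟨0, B.zero_mem, U, hUV, by simp⟩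
  have htop : I = ⊤ := by
    by_contra hne
    obtain ⟨z, hz, hIz⟩ := Ideal.exists_le_maximal I hne
    obtain ⟨g, u₁, u₂, hu₂, hg, hU⟩ := hloc z hz (hIz hpI)
    apply hu₂
    apply hIz
    obtain ⟨w, hw, hgw⟩ := oneAdd_pow V p (hBV hp) hg m
    refine ⟨u₁, u₁.2, (u₁ : F) * w, V.mul_mem (hBV u₁.2) hw, ?_⟩
    rw [mul_comm, hU, hgw]
    ring
  have h1 : (1 : B) ∈ I := by rw [htop]; exact Submodule.mem_top
  obtain ⟨b, hb, y, hy, h⟩ := h1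
  exact ⟨b, hb, y, hy, by simpa using h⟩

end Overlap

section Main

variable {O F : Type*} [CommRing O] [Field F] [Algebra O F]

/-- **KUMMER-TRIV, abstract two-chart form.**

`O` is a noetherian local ring with maximal ideal `(π)` (e.g. a DVR), `m` is a unit of `O`;
`B0`, `Binf` are two charts (subrings of the field `F` containing `O`) inside a valuation
ring `V` of `F` whose maximal ideal is `π V` (the Gauss ring of the special fibre), with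
`x ∈ B0`, `x⁻¹ ∈ Binf`.  Structural hypotheses: both charts are closed under `m`-th roots
(`hN0`, `hNi`), saturated in `V` with respect to `π` (`hS0`, `hSi`; "(H2)"), `B0 ⊆ Binf[x]`
(`hov`), the weak converse overlap `hov'` (with `a = 0` it says `Binf ⊆ B0[1/x]`; the general
form covers the chart at infinity localised at `1 + x⁻¹ O[x⁻¹]`), `B0` lies in a finitely
generated `O[x]`-module (`hfg`), every element of `F` has a denominator in `B0` (`hfrac`), and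
a section on both charts modulo `π` is a constant modulo `π` (`hH3`).

If `U ≠ 0` satisfies (LOC) on both charts, then `f ^ m * U` is a global section for some
`f ≠ 0`. -/
theorem kummer_trivial_abstract [IsNoetherianRing O]
    (π : O) (hOloc : ∀ c : O, IsUnit c ∨ ∃ d : O, c = π * d)
    (m : ℕ) (hm : IsUnit (m : O))
    (B0 Binf : Subring F) (V : ValuationSubring F)
    (hO0 : ∀ c : O, algebraMap O F c ∈ B0) (hOi : ∀ c : O, algebraMap O F c ∈ Binf)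
    (h0V : ∀ b ∈ B0, b ∈ V) (hiV : ∀ b ∈ Binf, b ∈ V)
    (hπV : (algebraMap O F π)⁻¹ ∉ V)
    (hmax : ∀ a ∈ V, a⁻¹ ∉ V → ∃ b ∈ V, a = algebraMap O F π * b)
    (x : F) (hx : x ≠ 0) (hx0 : x ∈ B0) (hxi : x⁻¹ ∈ Binf)
    (hN0 : ∀ w : F, w ^ m ∈ B0 → w ∈ B0) (hNi : ∀ w : F, w ^ m ∈ Binf → w ∈ Binf)
    (hS0 : ∀ y ∈ V, algebraMap O F π * y ∈ B0 → y ∈ B0)
    (hSi : ∀ y ∈ V, algebraMap O F π * y ∈ Binf → y ∈ Binf)
    (hov : ∀ b ∈ B0, ∃ n : ℕ, x⁻¹ ^ n * b ∈ Binf)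
    (hov' : ∀ b ∈ Binf, ∃ a ∈ Binf, (∃ n : ℕ, x ^ n * a ∈ B0) ∧
      ∃ n : ℕ, x ^ n * ((1 + x⁻¹ * a) * b) ∈ B0)
    (hfg : ∃ S : Finset F, (B0 : Set F) ⊆ Submodule.span (Algebra.adjoin O {x}) (S : Set F))
    (hfrac : ∀ f : F, ∃ d ∈ B0, d ≠ 0 ∧ d * f ∈ B0)
    (hH3 : ∀ b ∈ B0, ∀ b' ∈ Binf, (∃ y ∈ V, b - b' = algebraMap O F π * y) →
      ∃ c : O, ∃ y ∈ V, b - algebraMap O F c = algebraMap O F π * y)
    (U : F) (hU : U ≠ 0)
    (hloc0 : ∀ z : Ideal B0, z.IsMaximal → (⟨algebraMap O F π, hO0 π⟩ : B0) ∈ z →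
      ∃ (g : F) (u₁ u₂ : B0), u₁ ∉ z ∧ u₂ ∉ z ∧ (∃ y ∈ V, g - 1 = algebraMap O F π * y) ∧
        U * (u₂ : F) = (u₁ : F) * g ^ m)
    (hloci : ∀ z : Ideal Binf, z.IsMaximal → (⟨algebraMap O F π, hOi π⟩ : Binf) ∈ z →
      ∃ (g : F) (u₁ u₂ : Binf), u₁ ∉ z ∧ u₂ ∉ z ∧ (∃ y ∈ V, g - 1 = algebraMap O F π * y) ∧
        U * (u₂ : F) = (u₁ : F) * g ^ m) :
    ∃ f : F, f ≠ 0 ∧ f ^ m * U ∈ B0 ∧ f ^ m * U ∈ Binf := by
  classical
  obtain ⟨p, hp⟩ : ∃ p : F, p = algebraMap O F π := ⟨_, rfl⟩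
  simp only [← hp] at hπV hmax hS0 hSi hH3 hloc0 hloci
  obtain ⟨Vs, hVs⟩ : ∃ Vs : Subring F, Vs = V.toSubring := ⟨_, rfl⟩
  have memVs : ∀ a : F, a ∈ Vs ↔ a ∈ V := fun a => by rw [hVs]; rfl
  have h0V' : B0 ≤ Vs := fun b hb => (memVs b).mpr (h0V b hb)
  have hiV' : Binf ≤ Vs := fun b hb => (memVs b).mpr (hiV b hb)
  have hp0 : p ∈ B0 := by rw [hp]; exact hO0 π
  have hpi : p ∈ Binf := by rw [hp]; exact hOi π
  have hpVs : p ∈ Vs := h0V' hp0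
  have hπVs : p⁻¹ ∉ Vs := fun h => hπV ((memVs _).mp h)
  have hpne : p ≠ 0 := by
    rintro rfl
    exact hπVs (by simp)
  -- `m`
  obtain ⟨k, hk⟩ := hm.exists_right_inv
  have hmk : (m : F) * algebraMap O F k = 1 := by
    have := congrArg (algebraMap O F) hk
    rwa [map_mul, map_natCast, map_one] at this
  have hmF : (m : F) ≠ 0 := left_ne_zero_of_mul_eq_one hmk
  have hminv : (m : F)⁻¹ = algebraMap O F k := (eq_inv_of_mul_eq_one_right hmk).symm ▸ rfl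
  have hm0 : m ≠ 0 := by
    rintro rfl
    simp at hmF
  -- units of `V`
  have hunit : ∀ a ∈ Vs, (∀ y ∈ Vs, a ≠ p * y) → a⁻¹ ∈ Vs := by
    intro a ha hne
    by_contra hcon
    obtain ⟨b, hb, hab⟩ := hmax a ((memVs a).mp ha) (fun h => hcon ((memVs _).mpr h))
    exact hne b ((memVs b).mpr hb) hab
  have hJ : ∀ w ∈ Vs, (1 + p * w)⁻¹ ∈ Vs := by
    intro w hw
    refine hunit _ (Vs.add_mem Vs.one_mem (Vs.mul_mem hpVs hw)) fun y hy hEq => hπVs ?_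
    have : p⁻¹ = y - w := by
      rw [inv_eq_iff_eq_inv, eq_comm, inv_eq_of_mul_eq_one_left]
      linear_combination -hEq
    rw [this]
    exact Vs.sub_mem hy hw
  -- elements of a chart outside a closed point of the special fibre are units of `V`
  have hunitB : ∀ (B : Subring F) (hB : B ≤ Vs) (hpB : p ∈ B)
      (_ : ∀ y ∈ V, p * y ∈ B → y ∈ B) (z : Ideal B), (⟨p, hpB⟩ : B) ∈ z →
      ∀ u : B, u ∉ z → (u : F)⁻¹ ∈ Vs := by
    intro B hB hpB hS z hpz u hu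
    refine hunit _ (hB u.2) fun y hy hEq => hu ?_
    have hyB : y ∈ B := hS y ((memVs y).mp hy) (hEq ▸ u.2)
    have : u = (⟨p, hpB⟩ : B) * ⟨y, hyB⟩ := Subtype.ext hEq
    rw [this]
    exact z.mul_mem_right _ hpz
  have hgmem : ∀ g : F, (∃ y ∈ V, g - 1 = p * y) → g ∈ oneAdd Vs p := by
    rintro g ⟨y, hy, hg⟩
    exact ⟨y, (memVs y).mpr hy, by linear_combination hg⟩
  -- `U` is a unit of `V`
  have hUV : U ∈ Vs ∧ U⁻¹ ∈ Vs := by
    have hne : Ideal.span {(⟨p, hp0⟩ : B0)} ≠ ⊤ := by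
      intro htop
      rw [Ideal.eq_top_iff_one, Ideal.mem_span_singleton'] at htop
      obtain ⟨b, hb⟩ := htop
      apply hπVs
      have hb' : (b : F) * p = 1 := congrArg Subtype.val hb
      rw [← eq_inv_of_mul_eq_one_left hb']
      exact h0V' b.2
    obtain ⟨z, hz, hle⟩ := Ideal.exists_le_maximal _ hne
    have hpz : (⟨p, hp0⟩ : B0) ∈ z := hle (Ideal.mem_span_singleton_self _)
    obtain ⟨g, u₁, u₂, hu₁, hu₂, hg, hUeq⟩ := hloc0 z hz hpz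
    have hg' := hgmem g hg
    have hgV : g ∈ Vs := helper7942.oneAdd_mem Vs p hpVs hg'
    have hgi : g⁻¹ ∈ Vs := by
      obtain ⟨w, hw, rfl⟩ := hg'
      exact hJ w hw
    have hu₁i := hunitB B0 h0V' hp0 hS0 z hpz u₁ hu₁
    have hu₂i := hunitB B0 h0V' hp0 hS0 z hpz u₂ hu₂
    have hu₂0 : (u₂ : F) ≠ 0 := by
      intro h0
      rw [h0, inv_zero] at hu₂i
      exact hu₂ (by
        have : u₂ = 0 := Subtype.ext h0
        rw [this]; exact z.zero_mem)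
    have hu₁0 : (u₁ : F) ≠ 0 := by
      intro h0
      exact hu₁ (by
        have : u₁ = 0 := Subtype.ext h0
        rw [this]; exact z.zero_mem)
    have hg0 : g ≠ 0 := helper7942.oneAdd_ne_zero Vs p hπVs hg'
    constructor
    · have : U = (u₁ : F) * g ^ m * (u₂ : F)⁻¹ := by
        rw [← hUeq]; field_simp
      rw [this]
      exact Vs.mul_mem (Vs.mul_mem (h0V' u₁.2) (Vs.pow_mem hgV m)) hu₂i
    · have : U⁻¹ = (u₂ : F) * g⁻¹ ^ m * (u₁ : F)⁻¹ := by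
        have hU' : U = (u₁ : F) * g ^ m * (u₂ : F)⁻¹ := by
          rw [← hUeq]; field_simp
        rw [hU', inv_pow]
        field_simp
      rw [this]
      exact Vs.mul_mem (Vs.mul_mem (h0V' u₂.2) (Vs.pow_mem hgi m)) hu₁i
  -- Step A on both charts
  obtain ⟨b0, hb0, y0, hy0, hUb0⟩ := exists_chart_approx B0 Vs h0V' p hp0 m U hUV.1
    (fun z hz hpz => by
      obtain ⟨g, u₁, u₂, -, hu₂, hg, hUeq⟩ := hloc0 z hz hpz
      exact ⟨g, u₁, u₂, hu₂, hgmem g hg, hUeq⟩)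
  obtain ⟨bi, hbi, yi, hyi, hUbi⟩ := exists_chart_approx Binf Vs hiV' p hpi m U hUV.1
    (fun z hz hpz => by
      obtain ⟨g, u₁, u₂, -, hu₂, hg, hUeq⟩ := hloci z hz hpz
      exact ⟨g, u₁, u₂, hu₂, hgmem g hg, hUeq⟩)
  obtain ⟨c, y, hy, hc⟩ := hH3 b0 hb0 bi hbi
    ⟨yi - y0, (memVs _).mp (Vs.sub_mem hyi hy0), by linear_combination hUbi - hUb0⟩
  have hUc : U - algebraMap O F c = p * (y0 + y) := by linear_combination hUb0 + hc
  have hcu : IsUnit c := by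
    rcases hOloc c with h | ⟨d, rfl⟩
    · exact h
    · exfalso
      apply hπVs
      have hd : algebraMap O F d ∈ Vs := h0V' (hO0 d)
      have : p⁻¹ = (algebraMap O F d + y0 + y) * U⁻¹ := by
        rw [map_mul, ← hp] at hUc
        have hUt : U = p * (algebraMap O F d + y0 + y) := by linear_combination hUc
        apply inv_eq_of_mul_eq_one_right
        rw [← mul_assoc, ← hUt, mul_inv_cancel₀ hU]
      rw [this]
      exact Vs.mul_mem (Vs.add_mem (Vs.add_mem hd hy0) ((memVs y).mpr hy)) hUV.2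
  obtain ⟨c', hcc'⟩ := hcu.exists_right_inv
  obtain ⟨κ, hκ⟩ : ∃ κ : F, κ = algebraMap O F c := ⟨_, rfl⟩
  obtain ⟨κ', hκ'⟩ : ∃ κ' : F, κ' = algebraMap O F c' := ⟨_, rfl⟩
  have hκκ' : κ * κ' = 1 := by
    rw [hκ, hκ', ← map_mul, hcc', map_one]
  rw [← hκ] at hUc
  have hκ0 : κ ∈ B0 := by rw [hκ]; exact hO0 c
  have hκi : κ ∈ Binf := by rw [hκ]; exact hOi c
  have hκ'0 : κ' ∈ B0 := by rw [hκ']; exact hO0 c'
  have hκ'i : κ' ∈ Binf := by rw [hκ']; exact hOi c'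
  -- the normalised function `U₁ = κ' U ∈ 1 + p V`
  obtain ⟨U₁, hU₁⟩ : ∃ U₁ : F, U₁ = κ' * U := ⟨_, rfl⟩
  have hUU₁ : U = κ * U₁ := by
    rw [hU₁, ← mul_assoc, hκκ', one_mul]
  have hκ'ne : κ' ≠ 0 := right_ne_zero_of_mul_eq_one hκκ'
  have hU₁ne : U₁ ≠ 0 := by rw [hU₁]; exact mul_ne_zero hκ'ne hU
  have hU₁mem : U₁ ∈ oneAdd Vs p := by
    refine ⟨κ' * (y0 + y), Vs.mul_mem (h0V' hκ'0) (Vs.add_mem hy0 ((memVs y).mpr hy)), ?_⟩
    rw [hU₁]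
    linear_combination κ' * hUc + hκκ'
  have hG0 : ∃ a : F, a ^ m * U₁ ∈ B0 ∧ a ∈ oneAdd Vs p :=
    helper7942.glue_of_local' B0 Vs h0V' p hp0 hπVs hJ m hm0 hN0 U₁ (fun z hz hpz => by
      obtain ⟨g, u₁, u₂, -, hu₂, hg, hUeq⟩ := hloc0 z hz hpz
      refine ⟨g, ⟨κ' * u₁, B0.mul_mem hκ'0 u₁.2⟩, u₂, hu₂, hgmem g hg, ?_⟩
      show U₁ * (u₂ : F) = κ' * (u₁ : F) * g ^ m
      rw [hU₁]
      linear_combination κ' * hUeq)
  have hGi : ∃ a : F, a ^ m * U₁ ∈ Binf ∧ a ∈ oneAdd Vs p :=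
    helper7942.glue_of_local' Binf Vs hiV' p hpi hπVs hJ m hm0 hNi U₁ (fun z hz hpz => by
      obtain ⟨g, u₁, u₂, -, hu₂, hg, hUeq⟩ := hloci z hz hpz
      refine ⟨g, ⟨κ' * u₁, Binf.mul_mem hκ'i u₁.2⟩, u₂, hu₂, hgmem g hg, ?_⟩
      show U₁ * (u₂ : F) = κ' * (u₁ : F) * g ^ m
      rw [hU₁]
      linear_combination κ' * hUeq)
  -- the overlap ring
  obtain ⟨R, hR⟩ : ∃ R : Subring F, R = ovRing Binf x⁻¹ hxi := ⟨_, rfl⟩
  have h0R : B0 ≤ R := fun b hb => by rw [hR]; exact hov b hb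
  have hiR : Binf ≤ R := fun b hb => by rw [hR]; exact ⟨0, by simpa using hb⟩
  have hxVs : x ∈ Vs := h0V' hx0
  have hxiVs : x⁻¹ ∈ Vs := hiV' hxi
  have hRV : R ≤ Vs := by
    intro b hb
    rw [hR] at hb
    obtain ⟨n, hn⟩ := hb
    have : b = x ^ n * (x⁻¹ ^ n * b) := by
      rw [← mul_assoc, ← mul_pow, mul_inv_cancel₀ hx, one_pow, one_mul]
    rw [this]
    exact Vs.mul_mem (Vs.pow_mem hxVs n) (hiV' hn)
  have hNR : ∀ w : F, w ^ m ∈ R → w ∈ R := by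
    intro w hw
    rw [hR] at hw ⊢
    obtain ⟨n, hn⟩ := hw
    refine ⟨n, hNi _ ?_⟩
    obtain ⟨j, rfl⟩ := Nat.exists_eq_succ_of_ne_zero hm0
    have : (x⁻¹ ^ n * w) ^ (j + 1) = (x⁻¹ ^ n) ^ j * (x⁻¹ ^ n * w ^ (j + 1)) := by ring
    rw [this]
    exact Binf.mul_mem (Binf.pow_mem (Binf.pow_mem hxi n) j) hn
  have hSR : ∀ y ∈ Vs, p * y ∈ R → y ∈ R := by
    intro y hy hpy
    rw [hR] at hpy ⊢
    obtain ⟨n, hn⟩ := hpy
    refine ⟨n, hSi _ ((memVs _).mp (Vs.mul_mem (Vs.pow_mem hxiVs n) hy)) ?_⟩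
    have : p * (x⁻¹ ^ n * y) = x⁻¹ ^ n * (p * y) := by ring
    rw [this]
    exact hn
  -- the `H¹` bound
  let A0 : Subalgebra O F := { B0.toSubsemiring with algebraMap_mem' := hO0 }
  let Ai : Subalgebra O F := { Binf.toSubsemiring with algebraMap_mem' := hOi }
  obtain ⟨c0, hc0⟩ := helper8935.h1_bound π x U₁ hx hU₁ne m hm0 A0 Ai hx0 hxi hN0 hNi hov hfg
    (hfrac U₁⁻¹)
  rw [← hp] at hc0
  have h1 : ∀ r : F, (∃ n : ℕ, x ^ n * (r ^ m * U₁) ∈ B0) →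
      (∃ α β : F, α ^ m * U₁ ∈ B0 ∧ β ^ m * U₁ ∈ Binf ∧ p ^ (c0 + 1) * r = α - β) →
      ∃ α β : F, α ^ m * U₁ ∈ B0 ∧ β ^ m * U₁ ∈ Binf ∧ p ^ c0 * r = α - β := by
    rintro r ⟨n, hn⟩ ⟨α, β, hα, hβ, hαβ⟩
    obtain ⟨y', z', hy', hz', hyz⟩ := hc0 r ⟨n, by rw [mul_comm U₁]; exact hn⟩
      ⟨α, -β, by rw [mul_comm]; exact hα, by rw [mul_comm]; exact wOne_neg Binf m U₁ hβ,
        by rw [hαβ]; ring⟩
    refine ⟨y', -z', by rw [mul_comm]; exact hy', wOne_neg Binf m U₁ (by rw [mul_comm]; exact hz'),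
      by rw [hyz]; ring⟩
  obtain ⟨f, hf, hf0, hfi⟩ := helper7942.kummer_core_exists B0 Binf R Vs h0R hiR hRV p hp0 hpi
    hπVs m hmF (by rw [hminv]; exact hO0 k) (by rw [hminv]; exact hOi k) hN0 hNi hNR
    (fun y hy => hS0 y ((memVs y).mp hy)) (fun y hy => hSi y ((memVs y).mp hy)) hSR hJ U₁ hU₁mem
    hG0 hGi ⟨c0, fun r hr hr' => h1_extend B0 Binf x hx hx0 hxi m hm0 hNi hov' p hpi U₁ c0 h1 r
      (by rw [hR] at hr; exact hr) hr'⟩
  refine ⟨f, hf, ?_, ?_⟩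
  · have : f ^ m * U = κ * (f ^ m * U₁) := by rw [hUU₁]; ring
    rw [this]
    exact B0.mul_mem hκ0 hf0
  · have : f ^ m * U = κ * (f ^ m * U₁) := by rw [hUU₁]; ring
    rw [this]
    exact Binf.mul_mem hκi hfi

/-- Final step: a global section is a constant. -/
theorem kummer_trivial_of_const {K : Type*} [Field K] [Algebra K F] (B0 Binf : Subring F)
    (hconst : ∀ b ∈ B0, b ∈ Binf → ∃ κ : K, b = algebraMap K F κ)
    (m : ℕ) (U : F) (h : ∃ f : F, f ≠ 0 ∧ f ^ m * U ∈ B0 ∧ f ^ m * U ∈ Binf) :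
    ∃ (κ : K) (f : F), U = algebraMap K F κ * f ^ m := by
  obtain ⟨f, hf, h0, hi⟩ := h
  obtain ⟨κ, hκ⟩ := hconst _ h0 hi
  refine ⟨κ, f⁻¹, ?_⟩
  rw [← hκ, inv_pow]
  field_simp

end Main

end Fermat.Agent.S37.helper4314
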