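import Mathlib

/-!
# Hecke-stability of the two point charts (helper4381, S37-KRON-CHART)

Mathlib-only, statement-agnostic algebra behind the point-level Kronecker congruence.

Setting: `F ⊆ F'` a finite extension of fields (the `F`-algebra structure on `F'` plays the role
of `β`), `α : F → F'` a second embedding, `j : F`, `C : Set F` a set of "constants" on which
`α` and `β` agree.  Charts are given by GENERATORS, as `{f | IsIntegral (Subring.closure G) f}`
(the shape of `intChart` / `finGen` / `infGen` of `helper2025_GaloisCharts`):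

* finite chart: `G = C ∪ {j}`;
* semi-local chart at the cusps: `G = cuspGen C u`, `u = j⁻¹`, i.e. `C`, `u` and the inverses of
  the functions `1 + u * c`, `c ∈ C[u]`.

Main results.

* `isIntegral_charpoly_coeff`: coefficients of the characteristic polynomial of an integral element
  are integral.
* `isIntegral_subring_iff`, `isIntegral_closure_iff`: valuative criterion of integrality.
* `charpoly_coeff_isIntegral_closure` (G1): if `α g` is integral over `β(closure G)` for all
  generators `g ∈ G`, the chart of `G` is Hecke-stable: for `h` in the chart all coefficients of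
  the characteristic polynomial of `α h` over `F` are in the chart.
* `finite_chart_stable` (C1) and `cusp_chart_stable` (C2): the two charts are Hecke-stable as soon
  as `α j` is integral over `C[β j]`, resp. `β j` is integral over `C[α j]`.
* `mem_of_isIntegral_closure` (C3), `cuspGen_subset_of_isIntegral` (C4), `mem_or_cuspGen_subset`:
  the point forms, for a valuation subring `W` (e.g. the composite of a place and a valuation
  ring of the constants): finite type and cusp type are preserved, and they cover.
* `charpoly_coeff_finite_chart`, `charpoly_coeff_cusp_chart`: the same for `α : F →ₐ[A] F'` and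
  `C = Set.range (algebraMap A F)`, in `Algebra.adjoin` vocabulary.
* `isIntegral_closure_cuspGen_iff`: generator form = saturation form of the cusp chart
  (`f` is in the chart iff `(1 + u * a) * f` is integral over `C[u]` for some `a ∈ C[u]`).
-/

set_option autoImplicit false

noncomputable section

namespace Fermat.Agent.S37.helper4381

open Polynomial

section Charpoly

variable {R F F' : Type*} [CommRing R] [Field F] [Field F'] [Algebra R F] [Algebra F F']
  [Algebra R F'] [IsScalarTower R F F'] [FiniteDimensional F F']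

/-- Coefficients of the characteristic polynomial (over `F`) of an element of `F'` that is integral
over `R` are integral over `R`. -/
theorem isIntegral_charpoly_coeff {x : F'} (hx : IsIntegral R x) (i : ℕ) :
    IsIntegral R ((LinearMap.mulLeft F x).charpoly.coeff i) := by
  classical
  obtain ⟨p, hpm, hpx⟩ := hx
  let b := Module.finBasis F F'
  set M : Matrix _ _ F := Algebra.leftMulMatrix b x with hM
  have hMc : M.charpoly = (LinearMap.mulLeft F x).charpoly := by
    rw [hM, Algebra.leftMulMatrix_apply, LinearMap.charpoly_toMatrix]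
    rfl
  rw [← hMc]
  let Ω := AlgebraicClosure F
  let g : F →ₐ[R] Ω := IsScalarTower.toAlgHom R F Ω
  -- the matrix over Ω
  set N : Matrix _ _ Ω := g.mapMatrix M with hN
  have hNc : N.charpoly = M.charpoly.map (algebraMap F Ω) := by
    rw [hN]
    exact Matrix.charpoly_map M (algebraMap F Ω)
  -- `p` kills `M`, hence `N`
  have hMp : aeval M p = 0 := by
    have h1 : aeval (((Algebra.leftMulMatrix b).restrictScalars R) x) p
        = ((Algebra.leftMulMatrix b).restrictScalars R) (aeval x p) :=
      Polynomial.aeval_algHom_apply _ _ _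
    have h2 : aeval x p = 0 := by rw [aeval_def]; exact hpx
    rw [h2, map_zero] at h1
    exact h1
  have hNp : aeval N p = 0 := by
    rw [hN, Polynomial.aeval_algHom_apply, hMp, map_zero]
  rw [← isIntegral_algebraMap_iff (algebraMap F Ω).injective, ← coeff_map, ← hNc]
  refine Polynomial.isIntegral_coeff_of_factors _ ?_ (IsAlgClosed.splits _) ?_ i
  · rw [(Matrix.charpoly_monic N).leadingCoeff]; exact isIntegral_one
  · intro μ hμ
    have hspec : μ ∈ spectrum Ω N := Matrix.mem_spectrum_of_isRoot_charpoly hμ
    have h3 := spectrum.subset_polynomial_aeval N (p.map (algebraMap R Ω)) ⟨μ, hspec, rfl⟩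
    rw [Polynomial.aeval_map_algebraMap, hNp] at h3
    have : Nontrivial (Matrix (Fin (Module.finrank F F')) (Fin (Module.finrank F F')) Ω) := by
      by_contra hne
      rw [not_nontrivial_iff_subsingleton] at hne
      rw [spectrum.of_subsingleton] at hspec
      exact hspec
    rw [spectrum.zero_eq, Set.mem_singleton_iff] at h3
    refine ⟨p, hpm, ?_⟩
    rw [← eval_map]
    exact h3

end Charpoly

section Transfer

variable {A E E' : Type*} [CommRing A] [CommRing E] [CommRing E'] [Algebra A E] [Algebra A E']

/-- Elements of a subalgebra are integral over it. -/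
theorem isIntegral_of_mem (R : Subalgebra A E) {z : E} (hz : z ∈ R) : IsIntegral R z :=
  (isIntegral_algebraMap (R := R) (A := E) (x := ⟨z, hz⟩))

/-- Integrality over a smaller subalgebra implies integrality over a bigger one. -/
theorem isIntegral_of_le {R₁ R₂ : Subalgebra A E} (h : R₁ ≤ R₂) {z : E} (hz : IsIntegral R₁ z) :
    IsIntegral R₂ z :=
  hz.map_of_comp_eq (Subalgebra.inclusion h).toRingHom (RingHom.id E) (by ext; rfl)

/-- Integrality is preserved by an algebra hom, over the image subalgebra. -/
theorem isIntegral_map (φ : E →ₐ[A] E') (R : Subalgebra A E) {z : E} (hz : IsIntegral R z) :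
    IsIntegral (R.map φ) (φ z) :=
  hz.map_of_comp_eq
    (((φ.comp R.val).codRestrict (R.map φ) fun r => ⟨r, r.2, rfl⟩).toRingHom)
    φ.toRingHom (by ext; rfl)

/-- Transitivity for subalgebras of one ring. -/
theorem isIntegral_trans_subalgebra {S T : Subalgebra A E} (hT : ∀ t ∈ T, IsIntegral S t) {x : E}
    (hx : IsIntegral T x) : IsIntegral S x := by
  let IC : Subalgebra S E := integralClosure S E
  have hx' : IsIntegral IC x := by
    refine hx.map_of_comp_eq
      ({ toFun := fun t => ⟨(t : E), hT t t.2⟩
         map_one' := rfl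
         map_mul' := fun _ _ => rfl
         map_zero' := rfl
         map_add' := fun _ _ => rfl } : T →+* IC) (RingHom.id E) (by ext; rfl)
  exact isIntegral_trans (R := S) (A := IC) x hx'

end Transfer

section Valuative

variable {E : Type*} [Field E]

/-- VALUATIVE CRITERION: an element is integral over a subring of a field iff it lies in every
valuation subring containing the subring. -/
theorem isIntegral_subring_iff (R : Subring E) (z : E) :
    IsIntegral R z ↔ ∀ V : ValuationSubring E, R ≤ V.toSubring → z ∈ V := by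
  have h := iInf_valuationSubring_superset (K := E) (s := (R : Set E))
  rw [Subring.closure_eq] at h
  have h2 : z ∈ (integralClosure R E).toSubring ↔ IsIntegral R z := Iff.rfl
  rw [← h2, ← h]
  simp only [Subring.mem_iInf, Subtype.forall]
  constructor
  · intro H V hV
    exact H V hV
  · intro H V hV
    exact H V hV

/-- Generator form of the valuative criterion. -/
theorem isIntegral_closure_iff (G : Set E) (z : E) :
    IsIntegral (Subring.closure G) z ↔ ∀ V : ValuationSubring E, G ⊆ V → z ∈ V := by
  rw [isIntegral_subring_iff]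
  constructor
  · intro H V hV
    exact H V (Subring.closure_le.mpr hV)
  · intro H V hV
    exact H V (Subring.closure_le.mp hV)

theorem isIntegral_closure_mono {G G' : Set E} (h : G ⊆ G') {z : E}
    (hz : IsIntegral (Subring.closure G) z) : IsIntegral (Subring.closure G') z := by
  rw [isIntegral_closure_iff] at hz ⊢
  exact fun V hV => hz V (h.trans hV)

theorem isIntegral_closure_of_mem {G : Set E} {z : E} (hz : z ∈ G) :
    IsIntegral (Subring.closure G) z := by
  rw [isIntegral_closure_iff]
  exact fun V hV => hV hz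

/-- Transitivity on generators. -/
theorem isIntegral_closure_trans {G G' : Set E}
    (h : ∀ g ∈ G', IsIntegral (Subring.closure G) g) {z : E}
    (hz : IsIntegral (Subring.closure G') z) : IsIntegral (Subring.closure G) z := by
  rw [isIntegral_closure_iff] at hz ⊢
  intro V hV
  exact hz V fun g hg => (isIntegral_closure_iff G g).mp (h g hg) V hV

/-- Integrality is preserved by a field homomorphism, on generators. -/
theorem isIntegral_closure_map {E' : Type*} [Field E'] (φ : E →+* E') (G : Set E) {z : E}
    (hz : IsIntegral (Subring.closure G) z) : IsIntegral (Subring.closure (φ '' G)) (φ z) := by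
  rw [isIntegral_closure_iff] at hz ⊢
  intro V hV
  have := hz (V.comap φ) fun g hg => by
    show g ∈ V.comap φ
    rw [ValuationSubring.mem_comap]
    exact hV ⟨g, hg, rfl⟩
  exact ValuationSubring.mem_comap.mp this

theorem isIntegral_subring_of_mem {R : Subring E} {z : E} (hz : z ∈ R) : IsIntegral R z := by
  rw [isIntegral_subring_iff]
  exact fun V hV => hV hz

end Valuative

section Cusp

variable {E : Type*} [Field E]

/-- Generators of the semi-local chart at the cusps: the constants `C`, the coordinate `u`
(`= 1/t`) and the inverses of the functions `1 + u * c`, `c ∈ C[u]`. -/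
def cuspGen (C : Set E) (u : E) : Set E :=
  (C ∪ {u}) ∪ {x | ∃ c ∈ Subring.closure (C ∪ {u}), x = (1 + u * c)⁻¹}

theorem val_mul_lt_one (W : ValuationSubring E) {a b : E} (ha : a ∈ W)
    (hb : W.valuation b < 1) : W.valuation (a * b) < 1 := by
  rw [map_mul]
  have ha' : W.valuation a ≤ 1 := (W.valuation_le_one_iff a).mpr ha
  calc W.valuation a * W.valuation b ≤ 1 * W.valuation b := mul_le_mul' ha' le_rfl
    _ = W.valuation b := one_mul _
    _ < 1 := hb

theorem val_eq_one_of_inv_mem (W : ValuationSubring E) {a : E} (ha : a ∈ W) (ha' : a⁻¹ ∈ W)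
    (h0 : a ≠ 0) : W.valuation a = 1 := by
  have h1 : W.valuation a ≤ 1 := (W.valuation_le_one_iff a).mpr ha
  rcases lt_or_eq_of_le h1 with h | h
  · exfalso
    have := val_mul_lt_one W ha' h
    rw [inv_mul_cancel₀ h0, map_one] at this
    exact lt_irrefl _ this
  · exact h

theorem val_lt_one_of_inv_not_mem (W : ValuationSubring E) {a : E} (ha : a⁻¹ ∉ W) :
    W.valuation a < 1 := by
  have haW : a ∈ W := (W.mem_or_inv_mem a).resolve_right ha
  have h1 : W.valuation a ≤ 1 := (W.valuation_le_one_iff a).mpr haW
  rcases lt_or_eq_of_le h1 with h | h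
  · exact h
  · exfalso
    apply ha
    rw [← W.valuation_le_one_iff, map_inv₀, h, inv_one]

theorem mem_of_val_lt_one (W : ValuationSubring E) {a : E} (ha : W.valuation a < 1) : a ∈ W :=
  (W.valuation_le_one_iff a).mp (le_of_lt ha)

/-- The subring `S + 𝔪_W` of a valuation subring `W`, for a subring `S ≤ W`. -/
def addMax (W : ValuationSubring E) (S : Subring E) (hS : S ≤ W.toSubring) : Subring E where
  carrier := {a | ∃ s ∈ S, W.valuation (a - s) < 1}
  mul_mem' := by
    rintro a b ⟨s, hs, ha⟩ ⟨t, ht, hb⟩
    refine ⟨s * t, S.mul_mem hs ht, ?_⟩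
    have haW : a ∈ W := by
      have := W.add_mem _ _ (mem_of_val_lt_one W ha) (hS hs)
      simpa using this
    have e : a * b - s * t = a * (b - t) + t * (a - s) := by ring
    rw [e]
    exact Valuation.map_add_lt _ (val_mul_lt_one W haW hb) (val_mul_lt_one W (hS ht) ha)
  one_mem' := ⟨1, S.one_mem, by simp⟩
  add_mem' := by
    rintro a b ⟨s, hs, ha⟩ ⟨t, ht, hb⟩
    refine ⟨s + t, S.add_mem hs ht, ?_⟩
    have e : a + b - (s + t) = (a - s) + (b - t) := by ring
    rw [e]
    exact Valuation.map_add_lt _ ha hb
  zero_mem' := ⟨0, S.zero_mem, by simp⟩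
  neg_mem' := by
    rintro a ⟨s, hs, ha⟩
    refine ⟨-s, S.neg_mem hs, ?_⟩
    have e : -a - -s = -(a - s) := by ring
    rw [e, Valuation.map_neg]
    exact ha

theorem mem_addMax {W : ValuationSubring E} {S : Subring E} {hS : S ≤ W.toSubring} {a : E} :
    a ∈ addMax W S hS ↔ ∃ s ∈ S, W.valuation (a - s) < 1 := Iff.rfl

/-- If `y⁻¹ ∈ R` and `y` is integral over the subring `R`, then `1 + y⁻¹ * g = 0` for some
`g ∈ R`. -/
theorem exists_one_add_inv_mul_eq_zero (R : Subring E) {y : E} (hy0 : y ≠ 0) (hyi : y⁻¹ ∈ R)
    (hy : IsIntegral R y) : ∃ g ∈ R, 1 + y⁻¹ * g = 0 := by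
  obtain ⟨p, hpm, hpy⟩ := hy
  let _ : Invertible y := invertibleOfNonzero hy0
  have h1 : eval₂ (algebraMap R E) (⅟y) p.reverse = 0 :=
    (Polynomial.eval₂_reverse_eq_zero_iff _ y p).mpr hpy
  rw [invOf_eq_inv] at h1
  have h2 : p.reverse = p.reverse.divX * X + C 1 := by
    have := Polynomial.divX_mul_X_add p.reverse
    rw [Polynomial.coeff_zero_reverse, hpm.leadingCoeff] at this
    exact this.symm
  rw [h2, eval₂_add, eval₂_mul, eval₂_X, eval₂_C, map_one] at h1
  refine ⟨eval₂ (algebraMap R E) y⁻¹ p.reverse.divX, ?_, ?_⟩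
  · have h3 : eval₂ (algebraMap R E) y⁻¹ p.reverse.divX
        = ((p.reverse.divX.eval ⟨y⁻¹, hyi⟩ : R) : E) :=
      Polynomial.eval₂_at_apply (algebraMap R E) (⟨y⁻¹, hyi⟩ : R)
    rw [h3]
    exact Subtype.property _
  · rw [← h1]
    ring

/-- (C4) CUSPIDAL DISCS ARE STABLE.  Let `W` be a valuation subring containing the generators
of the cusp chart for the coordinate `y⁻¹`.  If `y` is integral over `C[x]`, then `W` contains the
generators of the cusp chart for the coordinate `x⁻¹`. -/
theorem cuspGen_subset_of_isIntegral (W : ValuationSubring E) (C : Set E) {x y : E}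
    (hy0 : y ≠ 0) (hint : IsIntegral (Subring.closure (C ∪ {x})) y)
    (hne : ∀ g ∈ Subring.closure (C ∪ {y⁻¹}), 1 + y⁻¹ * g ≠ 0)
    (hW : cuspGen C y⁻¹ ⊆ W) : cuspGen C x⁻¹ ⊆ W := by
  have hC : C ⊆ W := fun c hc => hW (Or.inl (Or.inl hc))
  have hyi : y⁻¹ ∈ W := hW (Or.inl (Or.inr rfl))
  set S : Subring E := Subring.closure (C ∪ {y⁻¹}) with hSdef
  have hS : S ≤ W.toSubring := Subring.closure_le.mpr (by
    rintro g (hg | hg)
    · exact hC hg
    · rw [Set.mem_singleton_iff] at hg; rw [hg]; exact hyi)
  have hunit : ∀ g ∈ S, W.valuation (1 + y⁻¹ * g) = 1 := by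
    intro g hg
    refine val_eq_one_of_inv_mem W ?_ ?_ (hne g hg)
    · exact W.add_mem _ _ W.one_mem (W.mul_mem _ _ hyi (hS hg))
    · exact hW (Or.inr ⟨g, hg, rfl⟩)
  have hSR2 : S ≤ addMax W S hS := fun s hs => ⟨s, hs, by simp⟩
  have hmR2 : ∀ a, W.valuation a < 1 → a ∈ addMax W S hS :=
    fun a ha => ⟨0, S.zero_mem, by simpa using ha⟩
  have hCR2 : C ⊆ addMax W S hS := fun c hc => hSR2 (Subring.subset_closure (Or.inl hc))
  have key : ¬ IsIntegral (addMax W S hS) y := by
    intro hy
    obtain ⟨g1, hg1, h1⟩ := exists_one_add_inv_mul_eq_zero (addMax W S hS) hy0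
      (hSR2 (Subring.subset_closure (Or.inr rfl))) hy
    obtain ⟨s, hs, hm⟩ := hg1
    have e : 1 + y⁻¹ * s = -(y⁻¹ * (g1 - s)) := by
      have : 1 + y⁻¹ * s = (1 + y⁻¹ * g1) - y⁻¹ * (g1 - s) := by ring
      rw [this, h1]; ring
    have h2 := hunit s hs
    rw [e, Valuation.map_neg] at h2
    exact absurd h2 (ne_of_lt (val_mul_lt_one W hyi hm))
  have hx_not : ¬ IsIntegral (addMax W S hS) x := by
    intro hx
    apply key
    rw [isIntegral_subring_iff] at hx ⊢
    intro V hV
    refine (isIntegral_closure_iff _ y).mp hint V ?_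
    rintro g (hg | hg)
    · exact hV (hCR2 hg)
    · rw [Set.mem_singleton_iff] at hg; rw [hg]; exact hx V hV
  -- Claim 1: `x⁻¹ ∈ W`
  have hxi : x⁻¹ ∈ W := by
    by_contra hxi
    exact hx_not (isIntegral_subring_of_mem (hmR2 x (val_lt_one_of_inv_not_mem W hxi)))
  have hS' : Subring.closure (C ∪ {x⁻¹}) ≤ W.toSubring := Subring.closure_le.mpr (by
    rintro g (hg | hg)
    · exact hC hg
    · rw [Set.mem_singleton_iff] at hg; rw [hg]; exact hxi)
  -- Claim 2: the functions `1 + x⁻¹ * g` are units of `W`
  have hinv : ∀ g ∈ Subring.closure (C ∪ {x⁻¹}), (1 + x⁻¹ * g)⁻¹ ∈ W := by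
    intro g hg
    by_contra hnot
    have hμ : W.valuation (1 + x⁻¹ * g) < 1 := val_lt_one_of_inv_not_mem W hnot
    have hgW : g ∈ W := hS' hg
    have hx0 : x ≠ 0 := by
      rintro rfl
      apply hnot
      simp only [inv_zero, zero_mul, add_zero, inv_one]
      exact W.one_mem
    have hxW : x ∈ W := by
      by_contra hxW
      have hxi' : W.valuation x⁻¹ < 1 := val_lt_one_of_inv_not_mem W (by rwa [inv_inv])
      have h3 : W.valuation (x⁻¹ * g) < 1 := by
        rw [mul_comm]; exact val_mul_lt_one W hgW hxi'
      have h4 := W.valuation.map_one_add_of_lt h3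
      rw [h4] at hμ
      exact lt_irrefl _ hμ
    apply hx_not
    rw [isIntegral_subring_iff]
    intro V hV
    by_contra hxV
    have hxiV : x⁻¹ ∈ V := (V.mem_or_inv_mem x).resolve_left hxV
    have hgV : g ∈ V := by
      have : Subring.closure (C ∪ {x⁻¹}) ≤ V.toSubring := Subring.closure_le.mpr (by
        rintro c (hc | hc)
        · exact hV (hCR2 hc)
        · rw [Set.mem_singleton_iff] at hc; rw [hc]; exact hxiV)
      exact this hg
    have h5 : x * (1 + x⁻¹ * g) ∈ V := hV (hmR2 _ (val_mul_lt_one W hxW hμ))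
    have e : x = x * (1 + x⁻¹ * g) - g := by
      field_simp
      ring
    apply hxV
    rw [e]
    exact V.sub_mem h5 hgV
  rintro z ((hz | hz) | ⟨g, hg, rfl⟩)
  · exact hC hz
  · rw [Set.mem_singleton_iff] at hz; rw [hz]; exact hxi
  · exact hinv g hg

/-- Image of the cusp generators under a field homomorphism. -/
theorem image_cuspGen {E' : Type*} [Field E'] (φ : E →+* E') (C : Set E) (u : E) :
    φ '' cuspGen C u = cuspGen (φ '' C) (φ u) := by
  have hcl : Subring.closure (φ '' C ∪ {φ u}) = (Subring.closure (C ∪ {u})).map φ := by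
    rw [RingHom.map_closure, Set.image_union, Set.image_singleton]
  ext z
  constructor
  · rintro ⟨w, ((hw | hw) | ⟨c, hc, rfl⟩), rfl⟩
    · exact Or.inl (Or.inl ⟨w, hw, rfl⟩)
    · rw [Set.mem_singleton_iff] at hw; rw [hw]; exact Or.inl (Or.inr rfl)
    · refine Or.inr ⟨φ c, ?_, ?_⟩
      · rw [hcl]; exact ⟨c, hc, rfl⟩
      · rw [map_inv₀, map_add, map_one, map_mul]
  · rintro ((⟨w, hw, rfl⟩ | hz) | ⟨c', hc', rfl⟩)
    · exact ⟨w, Or.inl (Or.inl hw), rfl⟩
    · rw [Set.mem_singleton_iff] at hz; rw [hz]; exact ⟨u, Or.inl (Or.inr rfl), rfl⟩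
    · rw [hcl] at hc'
      obtain ⟨c, hc, rfl⟩ := hc'
      refine ⟨(1 + u * c)⁻¹, Or.inr ⟨c, hc, rfl⟩, ?_⟩
      rw [map_inv₀, map_add, map_one, map_mul]

/-- (C3) finite type is stable. -/
theorem mem_of_isIntegral_closure (W : ValuationSubring E) (C : Set E) (hC : C ⊆ W) {x y : E}
    (hint : IsIntegral (Subring.closure (C ∪ {y})) x) (hy : y ∈ W) : x ∈ W := by
  refine (isIntegral_closure_iff _ x).mp hint W ?_
  rintro g (hg | hg)
  · exact hC hg
  · rw [Set.mem_singleton_iff] at hg; rw [hg]; exact hy

/-- The two chart types cover: a valuation subring containing the constants either contains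
`t` (finite type) or the generators of the cusp chart with coordinate `t⁻¹`. -/
theorem mem_or_cuspGen_subset (W : ValuationSubring E) (C : Set E) (hC : C ⊆ W) (t : E) :
    t ∈ W ∨ cuspGen C t⁻¹ ⊆ W := by
  by_cases ht : t ∈ W
  · exact Or.inl ht
  · right
    have hti : W.valuation t⁻¹ < 1 := val_lt_one_of_inv_not_mem W (by rwa [inv_inv])
    have htiW : t⁻¹ ∈ W := mem_of_val_lt_one W hti
    have hS : Subring.closure (C ∪ {t⁻¹}) ≤ W.toSubring := Subring.closure_le.mpr (by
      rintro g (hg | hg)
      · exact hC hg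
      · rw [Set.mem_singleton_iff] at hg; rw [hg]; exact htiW)
    rintro z ((hz | hz) | ⟨g, hg, rfl⟩)
    · exact hC hz
    · rw [Set.mem_singleton_iff] at hz; rw [hz]; exact htiW
    · have h3 : W.valuation (t⁻¹ * g) < 1 := by
        rw [mul_comm]; exact val_mul_lt_one W (hS hg) hti
      have h4 := W.valuation.map_one_add_of_lt h3
      refine (W.valuation_le_one_iff _).mp ?_
      rw [map_inv₀, h4, inv_one]

end Cusp

section Chart

variable {F F' : Type*} [Field F] [Field F'] [Algebra F F']

/-- Integrality over the image subring gives integrality over the subring acting through `F`. -/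
theorem isIntegral_of_isIntegral_map (R : Subring F) {z : F'}
    (hz : IsIntegral (R.map (algebraMap F F')) z) : IsIntegral R z := by
  obtain ⟨p, hpm, hpz⟩ := hz
  let ψ : R →+* R.map (algebraMap F F') :=
    ((algebraMap F F').comp R.subtype).codRestrict (R.map (algebraMap F F'))
      (fun r => ⟨r, r.2, rfl⟩)
  have hψ : Function.Surjective ψ := by
    rintro ⟨_, r, hr, rfl⟩
    exact ⟨⟨r, hr⟩, rfl⟩
  obtain ⟨q, hq, -, hqm⟩ := Polynomial.lifts_and_natDegree_eq_and_monic
    ((Polynomial.mem_lifts p).mpr (Polynomial.map_surjective ψ hψ p)) hpm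
  refine ⟨q, hqm, ?_⟩
  rw [← hq, Polynomial.eval₂_map] at hpz
  exact hpz

variable [FiniteDimensional F F']

/-- (G1) HECKE-STABILITY OF A CHART GIVEN BY GENERATORS.  If `α g` is integral over the subring
generated by `β(G)` for every generator `g ∈ G`, then for every `h` integral over the subring
generated by `G`, all coefficients of the characteristic polynomial of `α h` over `F` (w.r.t. the
structure map `β = algebraMap F F'`) are integral over the subring generated by `G`. -/
theorem charpoly_coeff_isIntegral_closure (α : F →+* F') (G : Set F)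
    (hG : ∀ g ∈ G, IsIntegral (Subring.closure (algebraMap F F' '' G)) (α g))
    {h : F} (hh : IsIntegral (Subring.closure G) h) (i : ℕ) :
    IsIntegral (Subring.closure G) ((LinearMap.mulLeft F (α h)).charpoly.coeff i) := by
  have h1 : IsIntegral (Subring.closure (α '' G)) (α h) := isIntegral_closure_map α G hh
  have h2 : IsIntegral (Subring.closure (algebraMap F F' '' G)) (α h) := by
    refine isIntegral_closure_trans ?_ h1
    rintro _ ⟨g, hg, rfl⟩
    exact hG g hg
  have h3 : IsIntegral (Subring.closure G) (α h) := by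
    apply isIntegral_of_isIntegral_map
    rw [RingHom.map_closure]
    exact h2
  exact isIntegral_charpoly_coeff h3 i

/-- (C1) THE FINITE CHART IS HECKE-STABLE.  `C` a set of constants on which `α` and `β` agree;
if `α j` is integral over `C[β j]` and `h` is integral over `C[j]`, then all coefficients of the
characteristic polynomial of `α h` over `F` are integral over `C[j]`. -/
theorem finite_chart_stable (α : F →+* F') (C : Set F)
    (hC : ∀ c ∈ C, α c = algebraMap F F' c) (j : F)
    (hj : IsIntegral (Subring.closure (algebraMap F F' '' C ∪ {algebraMap F F' j})) (α j))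
    {h : F} (hh : IsIntegral (Subring.closure (C ∪ {j})) h) (i : ℕ) :
    IsIntegral (Subring.closure (C ∪ {j})) ((LinearMap.mulLeft F (α h)).charpoly.coeff i) := by
  refine charpoly_coeff_isIntegral_closure α (C ∪ {j}) ?_ hh i
  rw [Set.image_union, Set.image_singleton]
  rintro g (hg | hg)
  · rw [hC g hg]
    exact isIntegral_closure_of_mem (Or.inl ⟨g, hg, rfl⟩)
  · rw [Set.mem_singleton_iff] at hg
    rw [hg]
    exact hj

/-- (C2) THE SEMI-LOCAL CHART AT THE CUSPS IS HECKE-STABLE.  `C` a set of constants on which `α`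
and `β` agree, `u = j⁻¹`; if `β j` is integral over `C[α j]` and `h` is integral over
`C[u]` localised at `1 + u C[u]`, then so are all coefficients of the characteristic polynomial of
`α h` over `F`.  (`hne` holds as soon as `j` is transcendental over the constants, e.g. by
`one_add_mul_ne_zero_of_valuation` at a pole of `j`.) -/
theorem cusp_chart_stable (α : F →+* F') (C : Set F)
    (hC : ∀ c ∈ C, α c = algebraMap F F' c) (j : F) (hj0 : j ≠ 0)
    (hj : IsIntegral (Subring.closure (algebraMap F F' '' C ∪ {α j})) (algebraMap F F' j))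
    (hne : ∀ g ∈ Subring.closure (C ∪ {j⁻¹}), 1 + j⁻¹ * g ≠ 0)
    {h : F} (hh : IsIntegral (Subring.closure (cuspGen C j⁻¹)) h) (i : ℕ) :
    IsIntegral (Subring.closure (cuspGen C j⁻¹))
      ((LinearMap.mulLeft F (α h)).charpoly.coeff i) := by
  refine charpoly_coeff_isIntegral_closure α (cuspGen C j⁻¹) ?_ hh i
  intro g hg
  have h1 : α g ∈ cuspGen (algebraMap F F' '' C) (α j)⁻¹ := by
    have h0 : α g ∈ α '' cuspGen C j⁻¹ := ⟨g, hg, rfl⟩
    rw [image_cuspGen, map_inv₀] at h0
    have hCC : α '' C = algebraMap F F' '' C := Set.image_congr hC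
    rwa [hCC] at h0
  rw [image_cuspGen, map_inv₀, isIntegral_closure_iff]
  intro V hV
  refine cuspGen_subset_of_isIntegral V (algebraMap F F' '' C) ?_ hj ?_ hV h1
  · exact (map_ne_zero (algebraMap F F')).mpr hj0
  · intro g' hg'
    have hcl : Subring.closure (algebraMap F F' '' C ∪ {(algebraMap F F' j)⁻¹})
        = (Subring.closure (C ∪ {j⁻¹})).map (algebraMap F F') := by
      rw [RingHom.map_closure, Set.image_union, Set.image_singleton, map_inv₀]
    rw [hcl] at hg'
    obtain ⟨g0, hg0, rfl⟩ := hg'
    have := hne g0 hg0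
    rw [← map_inv₀, ← map_mul, ← map_one (algebraMap F F'), ← map_add]
    exact (map_ne_zero (algebraMap F F')).mpr this

end Chart

section NeZero

variable {E : Type*} [Field E]

/-- The non-vanishing hypothesis `hne` of the cusp chart, from a valuation subring containing the
constants in which `u` is a non-unit (e.g. a pole of `j = u⁻¹`). -/
theorem one_add_mul_ne_zero_of_valuation (V : ValuationSubring E) (C : Set E) (hC : C ⊆ V)
    {u : E} (hu : V.valuation u < 1) : ∀ g ∈ Subring.closure (C ∪ {u}), 1 + u * g ≠ 0 := by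
  intro g hg h0
  have hS : Subring.closure (C ∪ {u}) ≤ V.toSubring := Subring.closure_le.mpr (by
    rintro c (hc | hc)
    · exact hC hc
    · rw [Set.mem_singleton_iff] at hc; rw [hc]; exact mem_of_val_lt_one V hu)
  have h3 : V.valuation (u * g) < 1 := by
    rw [mul_comm]; exact val_mul_lt_one V (hS hg) hu
  have h4 := V.valuation.map_one_add_of_lt h3
  rw [h0, map_zero] at h4
  exact zero_ne_one h4

end NeZero

section Adjoin

variable {A E : Type*} [CommRing A] [CommRing E] [Algebra A E]

/-- Integrality over a subalgebra and over its underlying subring agree. -/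
theorem isIntegral_toSubring_iff (S : Subalgebra A E) (z : E) :
    IsIntegral S.toSubring z ↔ IsIntegral S z := by
  constructor
  · intro hz
    exact hz.map_of_comp_eq (RingHom.id S) (RingHom.id E) (by ext; rfl)
  · intro hz
    exact hz.map_of_comp_eq (RingHom.id S) (RingHom.id E) (by ext; rfl)

/-- `Algebra.adjoin` form versus generator form of a chart. -/
theorem isIntegral_adjoin_iff_closure (s : Set E) (z : E) :
    IsIntegral (Algebra.adjoin A s) z ↔
      IsIntegral (Subring.closure (Set.range (algebraMap A E) ∪ s)) z := by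
  rw [← isIntegral_toSubring_iff, Algebra.adjoin_eq_ring_closure]

theorem mem_adjoin_iff_closure (s : Set E) (z : E) :
    z ∈ Algebra.adjoin A s ↔ z ∈ Subring.closure (Set.range (algebraMap A E) ∪ s) := by
  rw [← Algebra.adjoin_eq_ring_closure]
  exact Iff.rfl

end Adjoin

section AdjoinChart

variable {A F F' : Type*} [CommRing A] [Field F] [Field F'] [Algebra A F] [Algebra A F']
  [Algebra F F'] [IsScalarTower A F F'] [FiniteDimensional F F']

omit [FiniteDimensional F F'] in
theorem image_range_algebraMap :
    algebraMap F F' '' Set.range (algebraMap A F) = Set.range (algebraMap A F') := by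
  rw [← Set.range_comp, IsScalarTower.algebraMap_eq A F F']
  rfl

/-- (C1), `Algebra.adjoin` form: if `α j` is integral over `A[β j]` and `h` is integral over
`A[j]`, every coefficient of the characteristic polynomial of `α h` over `F` is integral over
`A[j]`. -/
theorem charpoly_coeff_finite_chart (α : F →ₐ[A] F') (j : F)
    (hj : IsIntegral (Algebra.adjoin A {algebraMap F F' j}) (α j)) {h : F}
    (hh : IsIntegral (Algebra.adjoin A {j}) h) (i : ℕ) :
    IsIntegral (Algebra.adjoin A {j}) ((LinearMap.mulLeft F (α h)).charpoly.coeff i) := by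
  rw [isIntegral_adjoin_iff_closure] at hj hh ⊢
  refine finite_chart_stable (α : F →+* F') (Set.range (algebraMap A F)) ?_ j ?_ hh i
  · rintro _ ⟨a, rfl⟩
    rw [← IsScalarTower.algebraMap_apply A F F']
    exact α.commutes a
  · rw [image_range_algebraMap]
    exact hj

/-- (C2), `Algebra.adjoin` form of the hypotheses: if `β j` is integral over `A[α j]`, the
semi-local chart at the cusps (generators `cuspGen (Set.range (algebraMap A F)) j⁻¹`) is
Hecke-stable. -/
theorem charpoly_coeff_cusp_chart (α : F →ₐ[A] F') (j : F) (hj0 : j ≠ 0)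
    (hj : IsIntegral (Algebra.adjoin A {α j}) (algebraMap F F' j))
    (hne : ∀ g ∈ Algebra.adjoin A {j⁻¹}, 1 + j⁻¹ * g ≠ 0) {h : F}
    (hh : IsIntegral (Subring.closure (cuspGen (Set.range (algebraMap A F)) j⁻¹)) h) (i : ℕ) :
    IsIntegral (Subring.closure (cuspGen (Set.range (algebraMap A F)) j⁻¹))
      ((LinearMap.mulLeft F (α h)).charpoly.coeff i) := by
  rw [isIntegral_adjoin_iff_closure] at hj
  refine cusp_chart_stable (α : F →+* F') (Set.range (algebraMap A F)) ?_ j hj0 ?_ ?_ hh i
  · rintro _ ⟨a, rfl⟩
    rw [← IsScalarTower.algebraMap_apply A F F']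
    exact α.commutes a
  · rw [image_range_algebraMap]
    exact hj
  · intro g hg
    exact hne g ((mem_adjoin_iff_closure _ g).mpr hg)

end AdjoinChart

section Saturation

variable {E : Type*} [Field E]

/-- `z ∈ T[z⁻¹]` implies that `z` is integral over `T` (generator form). -/
theorem isIntegral_closure_of_mem_closure_inv (G : Set E) {z : E}
    (hz : z ∈ Subring.closure (G ∪ {z⁻¹})) : IsIntegral (Subring.closure G) z := by
  rw [isIntegral_closure_iff]
  intro V hV
  by_contra hzV
  have hzi : z⁻¹ ∈ V := (V.mem_or_inv_mem z).resolve_left hzV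
  have hle : Subring.closure (G ∪ {z⁻¹}) ≤ V.toSubring := Subring.closure_le.mpr (by
    rintro g (hg | hg)
    · exact hV hg
    · rw [Set.mem_singleton_iff] at hg; rw [hg]; exact hzi)
  exact hzV (hle hz)

/-- `z` integral over `T` implies `z ∈ T[z⁻¹]` (generator form). -/
theorem mem_closure_inv_of_isIntegral_closure (G : Set E) {z : E}
    (hz : IsIntegral (Subring.closure G) z) : z ∈ Subring.closure (G ∪ {z⁻¹}) := by
  rcases eq_or_ne z 0 with rfl | hz0
  · exact Subring.zero_mem _
  have h1 : IsIntegral (Subring.closure (G ∪ {z⁻¹})) z :=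
    isIntegral_closure_mono Set.subset_union_left hz
  obtain ⟨g, hg, h0⟩ := exists_one_add_inv_mul_eq_zero (Subring.closure (G ∪ {z⁻¹})) hz0
    (Subring.subset_closure (Or.inr rfl)) h1
  have e : z = -g := by
    have : z * (1 + z⁻¹ * g) = z + g := by field_simp
    rw [h0, mul_zero] at this
    exact eq_neg_of_add_eq_zero_left this.symm
  have hneg : -g ∈ Subring.closure (G ∪ {z⁻¹}) := Subring.neg_mem _ hg
  rw [← e] at hneg
  exact hneg

/-- Clearing the denominators `1 + u * a` of an element of `C[u]_{1 + u C[u]}[w]`. -/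
theorem exists_mul_mem_closure_of_mem_closure_cuspGen (C : Set E) (u w : E) {g : E}
    (hg : g ∈ Subring.closure (cuspGen C u ∪ {w})) :
    ∃ a ∈ Subring.closure (C ∪ {u}), (1 + u * a) * g ∈ Subring.closure ((C ∪ {u}) ∪ {w}) := by
  have hle : Subring.closure (C ∪ {u}) ≤ Subring.closure ((C ∪ {u}) ∪ {w}) :=
    Subring.closure_mono Set.subset_union_left
  induction hg using Subring.closure_induction with
  | mem x hx =>
    rcases hx with ((hx | hx) | ⟨c, hc, rfl⟩) | hx
    · have h : x ∈ Subring.closure ((C ∪ {u}) ∪ {w}) :=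
        Subring.subset_closure (Or.inl (Or.inl hx))
      exact ⟨0, Subring.zero_mem _, by simpa using h⟩
    · have h : x ∈ Subring.closure ((C ∪ {u}) ∪ {w}) :=
        Subring.subset_closure (Or.inl (Or.inr hx))
      exact ⟨0, Subring.zero_mem _, by simpa using h⟩
    · by_cases h0 : 1 + u * c = 0
      · exact ⟨0, Subring.zero_mem _, by rw [h0, inv_zero, mul_zero]; exact Subring.zero_mem _⟩
      · exact ⟨c, hc, by rw [mul_inv_cancel₀ h0]; exact Subring.one_mem _⟩
    · have h : x ∈ Subring.closure ((C ∪ {u}) ∪ {w}) := Subring.subset_closure (Or.inr hx)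
      exact ⟨0, Subring.zero_mem _, by simpa using h⟩
  | zero => exact ⟨0, Subring.zero_mem _, by simp⟩
  | one => exact ⟨0, Subring.zero_mem _, by simp⟩
  | add x y _ _ hx hy =>
    obtain ⟨a, ha, hxa⟩ := hx
    obtain ⟨b, hb, hyb⟩ := hy
    have hu : u ∈ Subring.closure (C ∪ {u}) := Subring.subset_closure (Or.inr rfl)
    refine ⟨a + b + u * (a * b), ?_, ?_⟩
    · exact Subring.add_mem _ (Subring.add_mem _ ha hb) (Subring.mul_mem _ hu (Subring.mul_mem _ ha hb))
    · have e : (1 + u * (a + b + u * (a * b))) * (x + y)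
          = (1 + u * b) * ((1 + u * a) * x) + (1 + u * a) * ((1 + u * b) * y) := by ring
      rw [e]
      have h1a : 1 + u * a ∈ Subring.closure ((C ∪ {u}) ∪ {w}) :=
        hle (Subring.add_mem _ (Subring.one_mem _) (Subring.mul_mem _ hu ha))
      have h1b : 1 + u * b ∈ Subring.closure ((C ∪ {u}) ∪ {w}) :=
        hle (Subring.add_mem _ (Subring.one_mem _) (Subring.mul_mem _ hu hb))
      exact Subring.add_mem _ (Subring.mul_mem _ h1b hxa) (Subring.mul_mem _ h1a hyb)
  | neg x _ hx =>
    obtain ⟨a, ha, hxa⟩ := hx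
    exact ⟨a, ha, by rw [mul_neg]; exact Subring.neg_mem _ hxa⟩
  | mul x y _ _ hx hy =>
    obtain ⟨a, ha, hxa⟩ := hx
    obtain ⟨b, hb, hyb⟩ := hy
    have hu : u ∈ Subring.closure (C ∪ {u}) := Subring.subset_closure (Or.inr rfl)
    refine ⟨a + b + u * (a * b), ?_, ?_⟩
    · exact Subring.add_mem _ (Subring.add_mem _ ha hb) (Subring.mul_mem _ hu (Subring.mul_mem _ ha hb))
    · have e : (1 + u * (a + b + u * (a * b))) * (x * y)
          = ((1 + u * a) * x) * ((1 + u * b) * y) := by ring
      rw [e]
      exact Subring.mul_mem _ hxa hyb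

/-- SATURATION FORM = GENERATOR FORM of the semi-local chart at the cusps: `f` is integral over
`C[u]` localised at `1 + u C[u]` iff `(1 + u * a) * f` is integral over `C[u]` for some
`a ∈ C[u]`.  (Integral closure commutes with this localisation.) -/
theorem isIntegral_closure_cuspGen_iff (C : Set E) (u : E)
    (hne : ∀ a ∈ Subring.closure (C ∪ {u}), 1 + u * a ≠ 0) (f : E) :
    IsIntegral (Subring.closure (cuspGen C u)) f ↔
      ∃ a ∈ Subring.closure (C ∪ {u}),
        IsIntegral (Subring.closure (C ∪ {u})) ((1 + u * a) * f) := by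
  constructor
  · intro hf
    have h1 := mem_closure_inv_of_isIntegral_closure (cuspGen C u) hf
    obtain ⟨a, ha, h2⟩ := exists_mul_mem_closure_of_mem_closure_cuspGen C u f⁻¹ h1
    refine ⟨a, ha, ?_⟩
    rw [isIntegral_closure_iff]
    intro V hV
    by_contra hsf
    have hsfi : ((1 + u * a) * f)⁻¹ ∈ V := (V.mem_or_inv_mem _).resolve_left hsf
    have hR : Subring.closure (C ∪ {u}) ≤ V.toSubring := Subring.closure_le.mpr hV
    have hs : 1 + u * a ∈ V :=
      hR (Subring.add_mem _ (Subring.one_mem _)
        (Subring.mul_mem _ (Subring.subset_closure (Or.inr rfl)) ha))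
    have hfi : f⁻¹ ∈ V := by
      have e : f⁻¹ = (1 + u * a) * ((1 + u * a) * f)⁻¹ := by
        rw [mul_inv, ← mul_assoc, mul_inv_cancel₀ (hne a ha), one_mul]
      rw [e]
      exact V.mul_mem _ _ hs hsfi
    have hle : Subring.closure ((C ∪ {u}) ∪ {f⁻¹}) ≤ V.toSubring := Subring.closure_le.mpr (by
      rintro g (hg | hg)
      · exact hV hg
      · rw [Set.mem_singleton_iff] at hg; rw [hg]; exact hfi)
    exact hsf (hle h2)
  · rintro ⟨a, ha, hf⟩
    rw [isIntegral_closure_iff] at hf ⊢
    intro V hV
    have h1 : (1 + u * a) * f ∈ V := hf V fun g hg => hV (Or.inl hg)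
    have h2 : (1 + u * a)⁻¹ ∈ V := hV (Or.inr ⟨a, ha, rfl⟩)
    have e : f = (1 + u * a)⁻¹ * ((1 + u * a) * f) := by
      rw [← mul_assoc, inv_mul_cancel₀ (hne a ha), one_mul]
    rw [e]
    exact V.mul_mem _ _ h2 h1

end Saturation

end Fermat.Agent.S37.helper4381
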