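import Fermat.Agent.S37.helper4381_ModEq
import Fermat.Agent.S37.helper37_TrackB

/-!
# The two Track-B charts and the degeneracy maps (helper4381, S37-TB-MODEQ)

Vocabulary of `helper37_TrackB`: `finChart A M`, `cuspChart A M : Subring (FN M)`.
For `α = heckeAlphaBar Kbar N m`, `β = heckeBetaBar Kbar N m` (all `m ≥ 1`, every `A`):

* (E3) `finChartOf_beta`, `cuspChartOf_beta`: the coordinate `β j = j(q^m)` defines the same two
  charts at level `N * m` as `j`;
* (E4) `heckeAlphaBar_mem_finChart`, `heckeBetaBar_mem_finChart`, `heckeAlphaBar_mem_cuspChart`,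
  `heckeBetaBar_mem_cuspChart`: `α` and `β` map the charts of level `N` into those of level `N * m`;
* (E5) `coeff_charpolyAlong_alpha_mem_finChart`, `coeff_charpolyAlong_beta_mem_finChart`,
  `coeff_charpolyAlong_alpha_mem_cuspChart`, `coeff_charpolyAlong_beta_mem_cuspChart`: the
  coefficients of the characteristic polynomial (along `α`, resp. `β`) of a function of a chart of
  level `N * m` lie in the chart of level `N` (the `hcoeff` input of the transfer theorems; with
  (E4): Hecke-stability of both charts).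
* `isIntegralElem_alpha_finChart`, `isIntegralElem_alpha_cuspChart`: the first clause of
  `helper5404.ChartKron` for the two charts; `coeff_charpolyAlong_beta_alpha_mem_finChart` etc.:
  Hecke-stability in the composed form.
-/

set_option autoImplicit false

noncomputable section

namespace Fermat.Agent.S37.helper4381

open Polynomial ModularCurve AlgebraicCurve
open Fermat.Agent.S24.helper24 (Kbar FN jBar)

section Generic

variable {K F F' : Type*} [Field K] [Field F] [Field F'] [Algebra K F] [Algebra K F']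

/-- the `A`-integral constants of `F`. -/
def constSet (A : ValuationSubring K) (F : Type*) [Field F] [Algebra K F] : Set F :=
  algebraMap K F '' (A : Set K)

theorem image_constSet (φ : F →ₐ[K] F') (A : ValuationSubring K) :
    φ '' constSet A F = constSet A F' := by
  unfold constSet
  rw [Set.image_image]
  refine Set.image_congr fun a _ => ?_
  exact φ.commutes a

theorem mem_finChartOf_iff {A : ValuationSubring K} {t f : F} :
    f ∈ helper37.finChartOf A t ↔ IntOver (constSet A F ∪ {t}) f := Iff.rfl

theorem mem_cuspChartOf_iff {A : ValuationSubring K} {u f : F}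
    (hne : ∀ a ∈ Subring.closure (constSet A F ∪ {u}), 1 + u * a ≠ 0) :
    f ∈ helper37.cuspChartOf A u ↔ IntOver (cuspGen (constSet A F) u) f :=
  helper37.mem_cuspChartOf.trans (isIntegral_closure_cuspGen_iff (constSet A F) u hne f).symm

/-- coefficients of the characteristic polynomial along `φ` of a function integral over the
subring generated by `φ '' G` are integral over the subring generated by `G`. -/
theorem coeff_charpolyAlong_intOver (φ : F →ₐ[K] F') (hfin : FiniteAlong K φ) (G : Set F)
    {h : F'} (hh : IntOver (φ '' G) h) (i : ℕ) :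
    IntOver G ((helper869.charpolyAlong φ hfin h).coeff i) := by
  refine helper869.isIntegral_coeff_charpolyAlong φ hfin (Subring.closure G) ?_ i
  refine helper869.isIntegralElem_of_mem_intChart φ G (φ '' G) ?_ hh
  rintro _ ⟨g, hg, rfl⟩
  exact ⟨g, Subring.subset_closure hg, rfl⟩

/-- the non-vanishing hypothesis of the cusp chart at a place where `u` vanishes. -/
theorem one_add_mul_ne_zero_of_ord_pos (A : ValuationSubring K) (v : Place K F) {u : F}
    (hu : 0 < v.ord u) : ∀ g ∈ Subring.closure (constSet A F ∪ {u}), 1 + u * g ≠ 0 := by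
  obtain ⟨-, hmem, hmax⟩ := (Fermat.Agent.S24.helper1370.ord_pos_iff v).mp hu
  have hval : v.toValuationSubring.valuation u < 1 :=
    (ValuationSubring.valuation_lt_one_iff v.toValuationSubring ⟨u, hmem⟩).mp hmax
  refine one_add_mul_ne_zero_of_valuation v.toValuationSubring (constSet A F) ?_ hval
  rintro _ ⟨a, -, rfl⟩
  exact v.algebraMap_mem' a

end Generic

section Modular

variable (A : ValuationSubring Kbar) (N m : ℕ) [NeZero N] [NeZero m]

theorem mem_finChart_iff (M : ℕ) {f : FN M} :
    f ∈ helper37.finChart A M ↔ IntOver (constSet A (FN M) ∪ {jBar M}) f := Iff.rfl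

theorem hne_jBar_inv (M : ℕ) :
    ∀ a ∈ Subring.closure (constSet A (FN M) ∪ {(jBar M)⁻¹}), 1 + (jBar M)⁻¹ * a ≠ 0 :=
  one_add_mul_ne_zero_of_ord_pos A (helper9343.qPlace M)
    (by rw [helper9343.qPlace_ord_jBar_inv]; exact zero_lt_one)

omit [NeZero N] in
theorem hne_beta_inv :
    ∀ a ∈ Subring.closure (constSet A (FN (N * m)) ∪ {(heckeBetaBar Kbar N m (jBar N))⁻¹}),
      1 + (heckeBetaBar Kbar N m (jBar N))⁻¹ * a ≠ 0 := by
  refine one_add_mul_ne_zero_of_ord_pos A (helper9343.qPlace (N * m)) ?_
  rw [Place.ord_inv, helper9343.qPlace_ord_heckeBetaBar N m (helper9343.jBar_ne_zero N),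
    helper9343.qPlace_ord_jBar]
  have : (0 : ℤ) < m := by exact_mod_cast Nat.pos_of_ne_zero (NeZero.ne m)
  linarith

theorem mem_cuspChart_iff (M : ℕ) {f : FN M} :
    f ∈ helper37.cuspChart A M ↔ IntOver (cuspGen (constSet A (FN M)) (jBar M)⁻¹) f :=
  mem_cuspChartOf_iff (hne_jBar_inv A M)

omit [NeZero N] in
/-- (E3, finite chart) the coordinate `j(q^m)` defines the same finite chart at level `N m`. -/
theorem finChartOf_beta :
    helper37.finChartOf A (heckeBetaBar Kbar N m (jBar N)) = helper37.finChart A (N * m) := by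
  ext f
  rw [mem_finChartOf_iff, mem_finChart_iff]
  exact intOver_beta_iff N m _ f

omit [NeZero N] in
/-- (E3, cusp chart) the coordinate `1/j(q^m)` defines the same cusp chart at level `N m`. -/
theorem cuspChartOf_beta :
    helper37.cuspChartOf A (heckeBetaBar Kbar N m (jBar N))⁻¹ = helper37.cuspChart A (N * m) := by
  ext f
  rw [mem_cuspChartOf_iff (hne_beta_inv A N m), mem_cuspChart_iff]
  refine intOver_cuspGen_beta_iff N m _ (helper9343.jBar_ne_zero _) ?_ (hne_jBar_inv A _)
    (hne_beta_inv A N m) f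
  exact (map_ne_zero_iff _ (heckeBetaBar Kbar N m).toRingHom.injective).mpr
    (helper9343.jBar_ne_zero N)

/-- (E4) `α` maps the finite chart of level `N` into the finite chart of level `N m`. -/
theorem heckeAlphaBar_mem_finChart {h : FN N} (hh : h ∈ helper37.finChart A N) :
    heckeAlphaBar Kbar N m h ∈ helper37.finChart A (N * m) := by
  rw [mem_finChart_iff] at hh ⊢
  have h1 := isIntegral_closure_map (heckeAlphaBar Kbar N m : FN N →+* FN (N * m)) _ hh
  rw [Set.image_union, Set.image_singleton] at h1
  have e1 : ((heckeAlphaBar Kbar N m : FN N →+* FN (N * m)) '' constSet A (FN N))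
      = constSet A (FN (N * m)) := image_constSet (heckeAlphaBar Kbar N m) A
  have e2 : (heckeAlphaBar Kbar N m : FN N →+* FN (N * m)) (jBar N) = jBar (N * m) :=
    heckeAlphaBar_jBar N m
  rw [e1, e2] at h1
  exact h1

omit [NeZero N] in
/-- (E4) `β` maps the finite chart of level `N` into the finite chart of level `N m`. -/
theorem heckeBetaBar_mem_finChart {h : FN N} (hh : h ∈ helper37.finChart A N) :
    heckeBetaBar Kbar N m h ∈ helper37.finChart A (N * m) := by
  rw [← finChartOf_beta A N m, mem_finChartOf_iff]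
  rw [mem_finChart_iff] at hh
  have h1 := isIntegral_closure_map (heckeBetaBar Kbar N m : FN N →+* FN (N * m)) _ hh
  rw [Set.image_union, Set.image_singleton] at h1
  have e1 : ((heckeBetaBar Kbar N m : FN N →+* FN (N * m)) '' constSet A (FN N))
      = constSet A (FN (N * m)) := image_constSet (heckeBetaBar Kbar N m) A
  rw [e1] at h1
  exact h1

/-- (E4) `α` maps the cusp chart of level `N` into the cusp chart of level `N m`. -/
theorem heckeAlphaBar_mem_cuspChart {h : FN N} (hh : h ∈ helper37.cuspChart A N) :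
    heckeAlphaBar Kbar N m h ∈ helper37.cuspChart A (N * m) := by
  rw [mem_cuspChart_iff] at hh ⊢
  have h1 := isIntegral_closure_map (heckeAlphaBar Kbar N m : FN N →+* FN (N * m)) _ hh
  rw [image_cuspGen, map_inv₀] at h1
  have e1 : ((heckeAlphaBar Kbar N m : FN N →+* FN (N * m)) '' constSet A (FN N))
      = constSet A (FN (N * m)) := image_constSet (heckeAlphaBar Kbar N m) A
  have e2 : (heckeAlphaBar Kbar N m : FN N →+* FN (N * m)) (jBar N) = jBar (N * m) :=
    heckeAlphaBar_jBar N m
  rw [e1, e2] at h1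
  exact h1

omit [NeZero N] in
/-- (E4) `β` maps the cusp chart of level `N` into the cusp chart of level `N m`. -/
theorem heckeBetaBar_mem_cuspChart {h : FN N} (hh : h ∈ helper37.cuspChart A N) :
    heckeBetaBar Kbar N m h ∈ helper37.cuspChart A (N * m) := by
  rw [← cuspChartOf_beta A N m, mem_cuspChartOf_iff (hne_beta_inv A N m)]
  rw [mem_cuspChart_iff] at hh
  have h1 := isIntegral_closure_map (heckeBetaBar Kbar N m : FN N →+* FN (N * m)) _ hh
  rw [image_cuspGen, map_inv₀] at h1
  have e1 : ((heckeBetaBar Kbar N m : FN N →+* FN (N * m)) '' constSet A (FN N))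
      = constSet A (FN (N * m)) := image_constSet (heckeBetaBar Kbar N m) A
  rw [e1] at h1
  exact h1

/-- (E5) finite chart, along `α`. -/
theorem coeff_charpolyAlong_alpha_mem_finChart
    (hfin : FiniteAlong Kbar (heckeAlphaBar Kbar N m)) {h : FN (N * m)}
    (hh : h ∈ helper37.finChart A (N * m)) (i : ℕ) :
    (helper869.charpolyAlong (heckeAlphaBar Kbar N m) hfin h).coeff i ∈ helper37.finChart A N := by
  rw [mem_finChart_iff] at hh ⊢
  refine coeff_charpolyAlong_intOver (heckeAlphaBar Kbar N m) hfin _ ?_ i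
  rw [Set.image_union, Set.image_singleton, image_constSet, heckeAlphaBar_jBar]
  exact hh

omit [NeZero N] in
/-- (E5) finite chart, along `β`. -/
theorem coeff_charpolyAlong_beta_mem_finChart
    (hfin : FiniteAlong Kbar (heckeBetaBar Kbar N m)) {h : FN (N * m)}
    (hh : h ∈ helper37.finChart A (N * m)) (i : ℕ) :
    (helper869.charpolyAlong (heckeBetaBar Kbar N m) hfin h).coeff i ∈ helper37.finChart A N := by
  rw [← finChartOf_beta A N m, mem_finChartOf_iff] at hh
  rw [mem_finChart_iff]
  refine coeff_charpolyAlong_intOver (heckeBetaBar Kbar N m) hfin _ ?_ i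
  rw [Set.image_union, Set.image_singleton, image_constSet]
  exact hh

/-- (E5) cusp chart, along `α`. -/
theorem coeff_charpolyAlong_alpha_mem_cuspChart
    (hfin : FiniteAlong Kbar (heckeAlphaBar Kbar N m)) {h : FN (N * m)}
    (hh : h ∈ helper37.cuspChart A (N * m)) (i : ℕ) :
    (helper869.charpolyAlong (heckeAlphaBar Kbar N m) hfin h).coeff i
      ∈ helper37.cuspChart A N := by
  rw [mem_cuspChart_iff] at hh ⊢
  refine coeff_charpolyAlong_intOver (heckeAlphaBar Kbar N m) hfin _ ?_ i
  have e : (heckeAlphaBar Kbar N m) '' cuspGen (constSet A (FN N)) (jBar N)⁻¹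
      = cuspGen (constSet A (FN (N * m))) (jBar (N * m))⁻¹ := by
    have := image_cuspGen (heckeAlphaBar Kbar N m : FN N →+* FN (N * m))
      (constSet A (FN N)) (jBar N)⁻¹
    rw [map_inv₀] at this
    have e1 : ((heckeAlphaBar Kbar N m : FN N →+* FN (N * m)) '' constSet A (FN N))
        = constSet A (FN (N * m)) := image_constSet (heckeAlphaBar Kbar N m) A
    have e2 : (heckeAlphaBar Kbar N m : FN N →+* FN (N * m)) (jBar N) = jBar (N * m) :=
      heckeAlphaBar_jBar N m
    rw [e1, e2] at this
    exact this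
  rw [e]
  exact hh

omit [NeZero N] in
/-- (E5) cusp chart, along `β`. -/
theorem coeff_charpolyAlong_beta_mem_cuspChart
    (hfin : FiniteAlong Kbar (heckeBetaBar Kbar N m)) {h : FN (N * m)}
    (hh : h ∈ helper37.cuspChart A (N * m)) (i : ℕ) :
    (helper869.charpolyAlong (heckeBetaBar Kbar N m) hfin h).coeff i
      ∈ helper37.cuspChart A N := by
  rw [← cuspChartOf_beta A N m, mem_cuspChartOf_iff (hne_beta_inv A N m)] at hh
  rw [mem_cuspChart_iff]
  refine coeff_charpolyAlong_intOver (heckeBetaBar Kbar N m) hfin _ ?_ i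
  have e : (heckeBetaBar Kbar N m) '' cuspGen (constSet A (FN N)) (jBar N)⁻¹
      = cuspGen (constSet A (FN (N * m))) (heckeBetaBar Kbar N m (jBar N))⁻¹ := by
    have := image_cuspGen (heckeBetaBar Kbar N m : FN N →+* FN (N * m))
      (constSet A (FN N)) (jBar N)⁻¹
    rw [map_inv₀] at this
    have e1 : ((heckeBetaBar Kbar N m : FN N →+* FN (N * m)) '' constSet A (FN N))
        = constSet A (FN (N * m)) := image_constSet (heckeBetaBar Kbar N m) A
    rw [e1] at this
    exact this
  rw [e]
  exact hh

end Modular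

section Kron

/-- monotonicity of `RingHom.IsIntegralElem` in the source subring. -/
theorem isIntegralElem_of_le {F F' : Type*} [CommRing F] [CommRing F'] (φ : F →+* F')
    {S T : Subring F} (hle : S ≤ T) {x : F'} (hx : (φ.comp S.subtype).IsIntegralElem x) :
    (φ.comp T.subtype).IsIntegralElem x := by
  obtain ⟨p, hp, hpx⟩ := hx
  refine ⟨p.map (Subring.inclusion hle), hp.map _, ?_⟩
  rw [Polynomial.eval₂_map]
  exact hpx

variable (A : ValuationSubring Kbar) (N ℓ : ℕ) [NeZero N] [NeZero ℓ]

/-- first clause of `helper5404.ChartKron` for the finite chart: `α b` is integral over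
`β (finChart A N)`. -/
theorem isIntegralElem_alpha_finChart {b : FN N} (hb : b ∈ helper37.finChart A N) :
    ((heckeBetaBar Kbar N ℓ).toRingHom.comp (helper37.finChart A N).subtype).IsIntegralElem
      (heckeAlphaBar Kbar N ℓ b) := by
  have h1 := heckeAlphaBar_mem_finChart A N ℓ hb
  rw [← finChartOf_beta A N ℓ, mem_finChartOf_iff] at h1
  have h2 : IntOver ((heckeBetaBar Kbar N ℓ) '' (constSet A (FN N) ∪ {jBar N}))
      (heckeAlphaBar Kbar N ℓ b) := by
    rw [Set.image_union, Set.image_singleton, image_constSet]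
    exact h1
  have h3 := helper869.isIntegralElem_of_mem_intChart (heckeBetaBar Kbar N ℓ)
    (constSet A (FN N) ∪ {jBar N}) _ (by
      rintro _ ⟨g, hg, rfl⟩
      exact ⟨g, Subring.subset_closure hg, rfl⟩) h2
  exact isIntegralElem_of_le _ (helper37.polyRing_le_finChartOf A (jBar N)) h3

/-- first clause of `helper5404.ChartKron` for the cusp chart: `α b` is integral over
`β (cuspChart A N)`. -/
theorem isIntegralElem_alpha_cuspChart {b : FN N} (hb : b ∈ helper37.cuspChart A N) :
    ((heckeBetaBar Kbar N ℓ).toRingHom.comp (helper37.cuspChart A N).subtype).IsIntegralElem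
      (heckeAlphaBar Kbar N ℓ b) := by
  have h1 := heckeAlphaBar_mem_cuspChart A N ℓ hb
  rw [← cuspChartOf_beta A N ℓ, mem_cuspChartOf_iff (hne_beta_inv A N ℓ)] at h1
  have h2 : IntOver ((heckeBetaBar Kbar N ℓ) '' cuspGen (constSet A (FN N)) (jBar N)⁻¹)
      (heckeAlphaBar Kbar N ℓ b) := by
    have e := image_cuspGen (heckeBetaBar Kbar N ℓ : FN N →+* FN (N * ℓ))
      (constSet A (FN N)) (jBar N)⁻¹
    rw [map_inv₀] at e
    have e1 : ((heckeBetaBar Kbar N ℓ : FN N →+* FN (N * ℓ)) '' constSet A (FN N))
        = constSet A (FN (N * ℓ)) := image_constSet (heckeBetaBar Kbar N ℓ) A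
    rw [e1] at e
    have e' : (heckeBetaBar Kbar N ℓ) '' cuspGen (constSet A (FN N)) (jBar N)⁻¹
        = cuspGen (constSet A (FN (N * ℓ))) (heckeBetaBar Kbar N ℓ (jBar N))⁻¹ := e
    rw [e']
    exact h1
  have h3 := helper869.isIntegralElem_of_mem_intChart (heckeBetaBar Kbar N ℓ)
    (cuspGen (constSet A (FN N)) (jBar N)⁻¹) _ (by
      rintro _ ⟨g, hg, rfl⟩
      exact ⟨g, Subring.subset_closure hg, rfl⟩) h2
  refine isIntegralElem_of_le _ ?_ h3
  rw [Subring.closure_le]
  intro g hg
  exact (mem_cuspChart_iff A N).mpr (isIntegral_closure_of_mem hg)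

/-- Hecke-stability of the finite chart: the coefficients of the characteristic polynomial along
`β` of `α b`, `b ∈ finChart A N`, lie in `finChart A N`. -/
theorem coeff_charpolyAlong_beta_alpha_mem_finChart
    (hfin : FiniteAlong Kbar (heckeBetaBar Kbar N ℓ)) {b : FN N}
    (hb : b ∈ helper37.finChart A N) (i : ℕ) :
    (helper869.charpolyAlong (heckeBetaBar Kbar N ℓ) hfin (heckeAlphaBar Kbar N ℓ b)).coeff i
      ∈ helper37.finChart A N :=
  coeff_charpolyAlong_beta_mem_finChart A N ℓ hfin (heckeAlphaBar_mem_finChart A N ℓ hb) i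

/-- Hecke-stability of the cusp chart. -/
theorem coeff_charpolyAlong_beta_alpha_mem_cuspChart
    (hfin : FiniteAlong Kbar (heckeBetaBar Kbar N ℓ)) {b : FN N}
    (hb : b ∈ helper37.cuspChart A N) (i : ℕ) :
    (helper869.charpolyAlong (heckeBetaBar Kbar N ℓ) hfin (heckeAlphaBar Kbar N ℓ b)).coeff i
      ∈ helper37.cuspChart A N :=
  coeff_charpolyAlong_beta_mem_cuspChart A N ℓ hfin (heckeAlphaBar_mem_cuspChart A N ℓ hb) i

/-- the transposed forms (`β b` over `α F_N`). -/
theorem coeff_charpolyAlong_alpha_beta_mem_finChart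
    (hfin : FiniteAlong Kbar (heckeAlphaBar Kbar N ℓ)) {b : FN N}
    (hb : b ∈ helper37.finChart A N) (i : ℕ) :
    (helper869.charpolyAlong (heckeAlphaBar Kbar N ℓ) hfin (heckeBetaBar Kbar N ℓ b)).coeff i
      ∈ helper37.finChart A N :=
  coeff_charpolyAlong_alpha_mem_finChart A N ℓ hfin (heckeBetaBar_mem_finChart A N ℓ hb) i

theorem coeff_charpolyAlong_alpha_beta_mem_cuspChart
    (hfin : FiniteAlong Kbar (heckeAlphaBar Kbar N ℓ)) {b : FN N}
    (hb : b ∈ helper37.cuspChart A N) (i : ℕ) :
    (helper869.charpolyAlong (heckeAlphaBar Kbar N ℓ) hfin (heckeBetaBar Kbar N ℓ b)).coeff i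
      ∈ helper37.cuspChart A N :=
  coeff_charpolyAlong_alpha_mem_cuspChart A N ℓ hfin (heckeBetaBar_mem_cuspChart A N ℓ hb) i

end Kron

end Fermat.Agent.S37.helper4381
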