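import Fermat.Agent.S37.helper4381_HeckeChart
import Fermat.Agent.S28.helper28_PrimeIrr
import Fermat.Agent.S28.helper508_FormalPrime
import Fermat.Agent.S24.helper24_Spec
import Fermat.Prelude.Thm_ModularCurve_coeffMap_qExpand
import Fermat.Prelude.Def_ModularCurve_HeckeOperator

/-!
# The modular equation as an integrality statement (helper4381, S37-TB-MODEQ)

For every `m ≥ 1` the series `j(q)` and `j(q^m)` are integral over each other's polynomial rings
`ℤ[j(q^m)]`, `ℤ[j(q)]` (from the S28 relation `Φ_p` at primes, by induction on `m`).  In the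
function field `F_{N m}` over `ℚ̄`:

* `heckeAlphaBar_jBar` : `α (jBar N) = jBar (N * m)`;
* `isIntegral_jBar_of_beta`, `isIntegral_beta_of_jBar` : `jBar (N * m)` and `β (jBar N) = j(q^m)`
  are integral over the subring generated by the other one (and any set `C`);
* `intOver_beta_iff` : the finite charts for the two coordinates coincide;
* `intOver_cuspGen_beta_iff` : the cusp charts for the two coordinates coincide.
-/

set_option autoImplicit false

noncomputable section

namespace Fermat.Agent.S37.helper4381

open Polynomial ModularCurve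
open Fermat.Agent.S24.helper24 (Kbar FN jBar)
open Fermat.Agent.S28

section Generic

variable {E : Type*} [Field E]

/-- If `x` is integral over `C[y]`, the finite chart of `x` is contained in that of `y`. -/
theorem isIntegral_closure_fin_of_isIntegral (C : Set E) {x y : E}
    (hint : IsIntegral (Subring.closure (C ∪ {y})) x) {f : E}
    (hf : IsIntegral (Subring.closure (C ∪ {x})) f) :
    IsIntegral (Subring.closure (C ∪ {y})) f := by
  refine isIntegral_closure_trans ?_ hf
  rintro g (hg | hg)
  · exact isIntegral_closure_of_mem (Or.inl hg)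
  · rw [Set.mem_singleton_iff] at hg
    rw [hg]
    exact hint

/-- If `y` is integral over `C[x]`, the cusp chart of `x⁻¹` is contained in that of `y⁻¹`. -/
theorem isIntegral_closure_cuspGen_of_isIntegral (C : Set E) {x y : E} (hy0 : y ≠ 0)
    (hint : IsIntegral (Subring.closure (C ∪ {x})) y)
    (hne : ∀ g ∈ Subring.closure (C ∪ {y⁻¹}), 1 + y⁻¹ * g ≠ 0) {f : E}
    (hf : IsIntegral (Subring.closure (cuspGen C x⁻¹)) f) :
    IsIntegral (Subring.closure (cuspGen C y⁻¹)) f := by
  rw [isIntegral_closure_iff] at hf ⊢
  intro V hV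
  exact hf V (cuspGen_subset_of_isIntegral V C hy0 hint hne hV)

/-- Descent of integrality to a subfield (generator form). -/
theorem isIntegral_closure_of_algebraMap {F F' : Type*} [Field F] [Field F'] [Algebra F F']
    (G : Set F) {z : F}
    (h : IsIntegral (Subring.closure (algebraMap F F' '' G)) (algebraMap F F' z)) :
    IsIntegral (Subring.closure G) z := by
  have h1 : IsIntegral ((Subring.closure G).map (algebraMap F F')) (algebraMap F F' z) := by
    rw [RingHom.map_closure]
    exact h
  have h2 := isIntegral_of_isIntegral_map (Subring.closure G) h1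
  exact (isIntegral_algebraMap_iff (algebraMap F F').injective).mp h2

end Generic

section Series

/-- A monic two-variable integer relation `Φ(a, b) = 0` makes `a` integral over the subring
generated by `b`. -/
theorem isIntegral_closure_singleton_of_evalJ {R : Type*} [CommRing R] (a b : LaurentSeries R)
    (Φ : Polynomial (Polynomial ℤ)) (hΦ : Φ.Monic)
    (h : (Φ.map (helper328.evalJ b)).eval a = 0) :
    IsIntegral (Subring.closure ({b} : Set (LaurentSeries R))) a := by
  let ψ : Polynomial ℤ →+* Subring.closure ({b} : Set (LaurentSeries R)) :=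
    Polynomial.eval₂RingHom (Int.castRingHom _) ⟨b, Subring.subset_closure rfl⟩
  have hψ : (Subring.closure ({b} : Set (LaurentSeries R))).subtype.comp ψ
      = helper328.evalJ b := by
    apply Polynomial.ringHom_ext
    · intro n
      simp [ψ, helper328.evalJ]
    · simp [ψ, helper328.evalJ]
  refine ⟨Φ.map ψ, hΦ.map ψ, ?_⟩
  rw [Polynomial.eval₂_map]
  have h2 : (algebraMap (Subring.closure ({b} : Set (LaurentSeries R))) (LaurentSeries R)).comp ψ
      = helper328.evalJ b := hψ
  rw [h2, ← Polynomial.eval_map]
  exact h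

/-- The prime case: `j(q)` and `j(q^p)` are integral over each other. -/
theorem isIntegral_jq_qExpand_prime (p : ℕ) [NeZero p] (hp : p.Prime) :
    IsIntegral (Subring.closure ({qExpand Kbar p (jqModC Kbar)} : Set (LaurentSeries Kbar)))
        (jqModC Kbar) ∧
      IsIntegral (Subring.closure ({jqModC Kbar} : Set (LaurentSeries Kbar)))
        (qExpand Kbar p (jqModC Kbar)) := by
  have : Fact p.Prime := ⟨hp⟩
  obtain ⟨Φ, hΦ, -, h1, h2⟩ := Fermat.Agent.S28.helper28.primeRel_int p
    (Fermat.Agent.S28.helper508.stmt_FormalPrime p)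
  let g : LaurentSeries ℤ →+* LaurentSeries Kbar := coeffMap (Int.castRingHom Kbar)
  have hgJ : g (jqModC ℤ) = jqModC Kbar := coeffMap_jqModC _
  have hgV : g (qExpand ℤ p (jqModC ℤ)) = qExpand Kbar p (jqModC Kbar) := by
    show coeffMap (Int.castRingHom Kbar) (qExpand ℤ p (jqModC ℤ)) = _
    rw [coeffMap_qExpand, coeffMap_jqModC]
  have t : ∀ x y : LaurentSeries ℤ, (Φ.map (helper328.evalJ y)).eval x = 0 →
      (Φ.map (helper328.evalJ (g y))).eval (g x) = 0 := by
    intro x y hxy
    have h0 := congrArg g hxy
    rw [map_zero, ← Polynomial.eval_map_apply, Polynomial.map_map,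
      Fermat.Agent.S28.helper28.ringHom_comp_evalJ] at h0
    exact h0
  constructor
  · have h3 := t _ _ h2
    rw [hgJ, hgV] at h3
    exact isIntegral_closure_singleton_of_evalJ _ _ Φ hΦ h3
  · have h3 := t _ _ h1
    rw [hgJ, hgV] at h3
    exact isIntegral_closure_singleton_of_evalJ _ _ Φ hΦ h3

/-- `j(q)` and `j(q^m)` are integral over each other, for every `m ≥ 1`. -/
theorem isIntegral_jq_qExpand : ∀ (m : ℕ) [NeZero m],
    IsIntegral (Subring.closure ({qExpand Kbar m (jqModC Kbar)} : Set (LaurentSeries Kbar)))
        (jqModC Kbar) ∧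
      IsIntegral (Subring.closure ({jqModC Kbar} : Set (LaurentSeries Kbar)))
        (qExpand Kbar m (jqModC Kbar)) := by
  intro m
  induction m using Nat.strong_induction_on with
  | _ m ih =>
    intro hm
    rcases eq_or_ne m 1 with rfl | hm1
    · rw [qExpand_one_apply]
      exact ⟨isIntegral_closure_of_mem rfl, isIntegral_closure_of_mem rfl⟩
    · obtain ⟨p, hp, hpm⟩ := Nat.exists_prime_and_dvd hm1
      obtain ⟨m', rfl⟩ := hpm
      have hm'0 : m' ≠ 0 := fun h => hm.out (by rw [h, mul_zero])
      have : NeZero p := ⟨hp.ne_zero⟩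
      have : NeZero m' := ⟨hm'0⟩
      have hlt : m' < p * m' := by
        have := hp.two_le
        nlinarith [Nat.pos_of_ne_zero hm'0]
      obtain ⟨ih1, ih2⟩ := ih m' hlt
      obtain ⟨hp1, hp2⟩ := isIntegral_jq_qExpand_prime p hp
      have hV : qExpand Kbar (p * m') (jqModC Kbar)
          = qExpand Kbar p (qExpand Kbar m' (jqModC Kbar)) := (qExpand_qExpand m' p (jqModC Kbar)).symm
      rw [hV]
      constructor
      · refine isIntegral_closure_trans ?_ hp1
        intro g hg
        rw [Set.mem_singleton_iff] at hg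
        rw [hg]
        have h3 := isIntegral_closure_map (qExpand Kbar p) {qExpand Kbar m' (jqModC Kbar)} ih1
        rwa [Set.image_singleton] at h3
      · have h3 := isIntegral_closure_map (qExpand Kbar p) {jqModC Kbar} ih2
        rw [Set.image_singleton] at h3
        refine isIntegral_closure_trans ?_ h3
        intro g hg
        rw [Set.mem_singleton_iff] at hg
        rw [hg]
        exact hp2

end Series

section Modular

/-- `z` is integral over the subring generated by `G`.  (A wrapper: stating
`IsIntegral (Subring.closure G) z` directly at the concrete type `FN M` makes instance search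
expensive; `IntOver G z` is definitionally the same and is `f ∈ helper2025.intChart G`.) -/
def IntOver {E : Type*} [Field E] (G : Set E) (z : E) : Prop :=
  IsIntegral (Subring.closure G) z

theorem intOver_iff {E : Type*} [Field E] {G : Set E} {z : E} :
    IntOver G z ↔ IsIntegral (Subring.closure G) z := Iff.rfl

theorem coe_jBar_eq_jqModC (M : ℕ) :
    ((jBar M : FN M) : LaurentSeries Kbar) = jqModC Kbar := by
  rw [Fermat.Agent.S24.helper24.coe_jBar, ← jqModC_rat]
  exact coeffMap_jqModC _

variable (N m : ℕ) [NeZero N] [NeZero m]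

/-- (E0) `α j = j`. -/
theorem heckeAlphaBar_jBar : heckeAlphaBar Kbar N m (jBar N) = jBar (N * m) := by
  apply Subtype.ext
  rw [coe_heckeAlphaBar, coe_jBar_eq_jqModC, coe_jBar_eq_jqModC]

omit [NeZero N] in
theorem coe_heckeBetaBar_jBar :
    ((heckeBetaBar Kbar N m (jBar N) : FN (N * m)) : LaurentSeries Kbar)
      = qExpand Kbar m (jqModC Kbar) := by
  rw [coe_heckeBetaBar, coe_jBar_eq_jqModC]

omit [NeZero N] in
/-- (E1) `j(q)` is integral over `ℤ[j(q^m)]` in `F_{N m}`. -/
theorem isIntegral_jBar_of_beta (C : Set (FN (N * m))) :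
    IntOver (C ∪ {heckeBetaBar Kbar N m (jBar N)}) (jBar (N * m)) := by
  refine isIntegral_closure_mono (Set.subset_union_right) ?_
  apply isIntegral_closure_of_algebraMap (F' := LaurentSeries Kbar)
  rw [Set.image_singleton]
  have h := (isIntegral_jq_qExpand m).1
  rw [← coe_heckeBetaBar_jBar N m, ← coe_jBar_eq_jqModC (N * m)] at h
  exact h

omit [NeZero N] in
/-- (E2) `j(q^m)` is integral over `ℤ[j(q)]` in `F_{N m}`. -/
theorem isIntegral_beta_of_jBar (C : Set (FN (N * m))) :
    IntOver (C ∪ {jBar (N * m)}) (heckeBetaBar Kbar N m (jBar N)) := by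
  refine isIntegral_closure_mono (Set.subset_union_right) ?_
  apply isIntegral_closure_of_algebraMap (F' := LaurentSeries Kbar)
  rw [Set.image_singleton]
  have h := (isIntegral_jq_qExpand m).2
  rw [← coe_heckeBetaBar_jBar N m, ← coe_jBar_eq_jqModC (N * m)] at h
  exact h

omit [NeZero N] in
/-- The finite charts (generator form) for the coordinates `j(q^m)` and `j(q)` coincide. -/
theorem intOver_beta_iff (C : Set (FN (N * m))) (f : FN (N * m)) :
    IntOver (C ∪ {heckeBetaBar Kbar N m (jBar N)}) f ↔ IntOver (C ∪ {jBar (N * m)}) f :=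
  ⟨isIntegral_closure_fin_of_isIntegral C (isIntegral_beta_of_jBar N m C),
    isIntegral_closure_fin_of_isIntegral C (isIntegral_jBar_of_beta N m C)⟩

omit [NeZero N] in
/-- The cusp charts (generator form) for the coordinates `1/j(q^m)` and `1/j(q)` coincide. -/
theorem intOver_cuspGen_beta_iff (C : Set (FN (N * m)))
    (hj0 : jBar (N * m) ≠ 0) (hb0 : heckeBetaBar Kbar N m (jBar N) ≠ 0)
    (hne₁ : ∀ g ∈ Subring.closure (C ∪ {(jBar (N * m))⁻¹}), 1 + (jBar (N * m))⁻¹ * g ≠ 0)
    (hne₂ : ∀ g ∈ Subring.closure (C ∪ {(heckeBetaBar Kbar N m (jBar N))⁻¹}),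
      1 + (heckeBetaBar Kbar N m (jBar N))⁻¹ * g ≠ 0) (f : FN (N * m)) :
    IntOver (cuspGen C (heckeBetaBar Kbar N m (jBar N))⁻¹) f ↔
      IntOver (cuspGen C (jBar (N * m))⁻¹) f :=
  ⟨isIntegral_closure_cuspGen_of_isIntegral C hj0 (isIntegral_jBar_of_beta N m C) hne₁,
    isIntegral_closure_cuspGen_of_isIntegral C hb0 (isIntegral_beta_of_jBar N m C) hne₂⟩

end Modular

end Fermat.Agent.S37.helper4381
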