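/-
S37-HOMSEP (helper4511): finite multisets of ring homomorphisms `B → k` into a field are
determined by the multisets of their values.  Mathlib-only, Spec-independent.

* `eq_or_eq_of_forall_eq_or_eq` (H1): a ring hom that agrees pointwise with `s₁` or `s₂`
  is `s₁` or `s₂`.
* `kronecker_finsupp` (H2): if `∏ i, (X - t i f) ^ e i = (X - s₁ f) * (X - s₂ f) ^ ℓ` for all `f`,
  then `∑ i, e i • [t i] = [s₁] + ℓ • [s₂]` as finitely supported functions on homs.
* `finsupp_eq_of_forall_prod_eq` (H3): over a base `A → k` with infinite range, equality of the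
  value polynomials for all `f` forces equality of the hom-multisets.
-/
import Mathlib

set_option autoImplicit false

namespace Fermat.Agent.S37.helper4511

open Polynomial

/-- (H1) A ring homomorphism which agrees pointwise with one of two ring homomorphisms is
one of them (a group is not the union of two proper subgroups). -/
theorem eq_or_eq_of_forall_eq_or_eq {B k : Type*} [NonAssocSemiring B] [NonAssocRing k]
    (t s₁ s₂ : B →+* k) (h : ∀ f, t f = s₁ f ∨ t f = s₂ f) : t = s₁ ∨ t = s₂ := by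
  by_contra hcon
  rw [not_or] at hcon
  obtain ⟨h1, h2⟩ := hcon
  obtain ⟨a, ha⟩ : ∃ a, t a ≠ s₁ a := by
    by_contra hh
    exact h1 (RingHom.ext fun x => not_not.mp fun hx => hh ⟨x, hx⟩)
  obtain ⟨b, hb⟩ : ∃ b, t b ≠ s₂ b := by
    by_contra hh
    exact h2 (RingHom.ext fun x => not_not.mp fun hx => hh ⟨x, hx⟩)
  have ha2 : t a = s₂ a := (h a).resolve_left ha
  have hb1 : t b = s₁ b := (h b).resolve_right hb
  rcases h (a + b) with hab | hab
  · rw [map_add, map_add, hb1] at hab
    exact ha (add_right_cancel hab)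
  · rw [map_add, map_add, ha2] at hab
    exact hb (add_left_cancel hab)

/-- Root count of a product of powers of linear factors. -/
theorem count_roots_prod_X_sub_C_pow {k ι : Type*} [Field k] [DecidableEq k]
    (S : Finset ι) (a : ι → k) (e : ι → ℕ) (c : k) :
    (∏ i ∈ S, (X - C (a i)) ^ e i).roots.count c = ∑ i ∈ S, if a i = c then e i else 0 := by
  classical
  have hne : ∀ T : Finset ι, (∏ i ∈ T, (X - C (a i)) ^ e i) ≠ 0 := fun T =>
    Finset.prod_ne_zero_iff.mpr fun i _ => pow_ne_zero _ (X_sub_C_ne_zero _)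
  induction S using Finset.induction_on with
  | empty => simp
  | insert i S hi ih =>
    have h0 : (X - C (a i)) ^ e i * ∏ j ∈ S, (X - C (a j)) ^ e j ≠ 0 := by
      have h1 := hne (insert i S)
      rwa [Finset.prod_insert hi] at h1
    rw [Finset.prod_insert hi, roots_mul h0, Multiset.count_add, ih, Finset.sum_insert hi,
      roots_pow, Multiset.count_nsmul, roots_X_sub_C, Multiset.count_singleton]
    by_cases hc : a i = c
    · simp [hc]
    · have hc' : ¬ c = a i := fun h => hc h.symm
      simp [hc, hc']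

/-- Value form of the count: the product identity gives, for every `c`, the weighted count. -/
theorem sum_ite_eq_of_prod_eq {k ι κ : Type*} [Field k] [DecidableEq k]
    (S : Finset ι) (a : ι → k) (e : ι → ℕ) (T : Finset κ) (b : κ → k) (d : κ → ℕ)
    (h : ∏ i ∈ S, (X - C (a i)) ^ e i = ∏ j ∈ T, (X - C (b j)) ^ d j) (c : k) :
    (∑ i ∈ S, if a i = c then e i else 0) = ∑ j ∈ T, if b j = c then d j else 0 := by
  rw [← count_roots_prod_X_sub_C_pow, ← count_roots_prod_X_sub_C_pow, h]

/-- (H2) **Kronecker multiplicities.**  If for every `f : B` the polynomial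
`∏ i ∈ S, (X - t i f) ^ e i` equals `(X - s₁ f) * (X - s₂ f) ^ ℓ`, then the weighted family
`(t i, e i)` is `[s₁] + ℓ • [s₂]` as a finitely supported function on ring homomorphisms. -/
theorem kronecker_finsupp {B k ι : Type*} [CommRing B] [Field k]
    (S : Finset ι) (t : ι → B →+* k) (e : ι → ℕ) (s₁ s₂ : B →+* k) (ℓ : ℕ)
    (h : ∀ f : B, ∏ i ∈ S, (X - C (t i f)) ^ e i = (X - C (s₁ f)) * (X - C (s₂ f)) ^ ℓ) :
    ∑ i ∈ S, Finsupp.single (t i) (e i) = Finsupp.single s₁ 1 + Finsupp.single s₂ ℓ := by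
  classical
  -- weighted counts of values
  have hcount : ∀ (f : B) (c : k), (∑ i ∈ S, if t i f = c then e i else 0)
      = (if s₁ f = c then 1 else 0) + (if s₂ f = c then ℓ else 0) := by
    intro f c
    have h2 : (X - C (s₁ f)) * (X - C (s₂ f)) ^ ℓ
        = ∏ j ∈ (Finset.univ : Finset Bool),
            (X - C (if j then s₁ f else s₂ f)) ^ (if j then 1 else ℓ) := by
      simp
    have h3 := sum_ite_eq_of_prod_eq S (fun i => t i f) e (Finset.univ : Finset Bool)
      (fun j => if j then s₁ f else s₂ f) (fun j => if j then 1 else ℓ) ((h f).trans h2) c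
    rw [h3]
    simp
  -- every `t i` of positive weight is `s₁` or `s₂`
  have hmem : ∀ i ∈ S, e i ≠ 0 → t i = s₁ ∨ t i = s₂ := by
    intro i hi hei
    refine eq_or_eq_of_forall_eq_or_eq _ _ _ fun f => ?_
    have hc := hcount f (t i f)
    by_contra hcon
    rw [not_or] at hcon
    rw [if_neg (fun h' => hcon.1 h'.symm), if_neg (fun h' => hcon.2 h'.symm), add_zero] at hc
    have hle : (if t i f = t i f then e i else 0) ≤ ∑ j ∈ S, if t j f = t i f then e j else 0 :=
      Finset.single_le_sum (f := fun j => if t j f = t i f then e j else 0)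
        (fun j _ => Nat.zero_le _) hi
    rw [hc, if_pos rfl] at hle
    exact hei (Nat.le_zero.mp hle)
  -- a test element for each hom `u`
  have key : ∀ u : B →+* k, ∃ f₀ : B, (s₁ = u ↔ s₁ f₀ = u f₀) ∧ (s₂ = u ↔ s₂ f₀ = u f₀) := by
    intro u
    by_cases h1 : s₁ = u
    · by_cases h2 : s₂ = u
      · exact ⟨0, by simp [h1], by simp [h2]⟩
      · obtain ⟨f₀, hf₀⟩ : ∃ f₀, s₂ f₀ ≠ u f₀ := by
          by_contra hh
          exact h2 (RingHom.ext fun x => not_not.mp fun hx => hh ⟨x, hx⟩)
        exact ⟨f₀, by simp [h1], by simp [h2, hf₀]⟩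
    · by_cases h2 : s₂ = u
      · obtain ⟨f₀, hf₀⟩ : ∃ f₀, s₁ f₀ ≠ u f₀ := by
          by_contra hh
          exact h1 (RingHom.ext fun x => not_not.mp fun hx => hh ⟨x, hx⟩)
        exact ⟨f₀, by simp [h1, hf₀], by simp [h2]⟩
      · obtain ⟨f₀, hf₀⟩ : ∃ f₀, ¬ (u f₀ = s₁ f₀ ∨ u f₀ = s₂ f₀) := by
          by_contra hh
          rcases eq_or_eq_of_forall_eq_or_eq u s₁ s₂
            (fun f => not_not.mp fun hf => hh ⟨f, hf⟩) with h' | h'
          · exact h1 h'.symm
          · exact h2 h'.symm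
        rw [not_or] at hf₀
        exact ⟨f₀, iff_of_false h1 (fun h' => hf₀.1 h'.symm),
          iff_of_false h2 (fun h' => hf₀.2 h'.symm)⟩
  ext u
  obtain ⟨f₀, h1, h2⟩ := key u
  have hc := hcount f₀ (u f₀)
  simp only [Finsupp.coe_finsetSum, Finset.sum_apply, Finsupp.single_apply, Finsupp.coe_add,
    Pi.add_apply]
  have hL : (∑ i ∈ S, if t i = u then e i else 0) = ∑ i ∈ S, if t i f₀ = u f₀ then e i else 0 := by
    refine Finset.sum_congr rfl fun i hi => ?_
    by_cases hei : e i = 0
    · simp [hei]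
    · rcases hmem i hi hei with h' | h'
      · rw [h']
        by_cases hu : s₁ = u
        · rw [if_pos hu, if_pos (h1.mp hu)]
        · rw [if_neg hu, if_neg (fun h'' => hu (h1.mpr h''))]
      · rw [h']
        by_cases hu : s₂ = u
        · rw [if_pos hu, if_pos (h2.mp hu)]
        · rw [if_neg hu, if_neg (fun h'' => hu (h2.mpr h''))]
  rw [hL, hc]
  congr 1
  · by_cases hu : s₁ = u
    · rw [if_pos hu, if_pos (h1.mp hu)]
    · rw [if_neg hu, if_neg (fun h'' => hu (h1.mpr h''))]
  · by_cases hu : s₂ = u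
    · rw [if_pos hu, if_pos (h2.mp hu)]
    · rw [if_neg hu, if_neg (fun h'' => hu (h2.mpr h''))]

/-- Finitely many pairs of distinct ring homomorphisms `B → k`, all restricting to the same
`ρ : A → k` of infinite range along `φ : A → B`, are separated by a single element. -/
theorem exists_separating_pairs {A B k : Type*} [CommRing A] [CommRing B] [Field k]
    (φ : A →+* B) (ρ : A →+* k) (hinf : (Set.range ρ).Infinite)
    (P : Finset ((B →+* k) × (B →+* k)))
    (hcomp : ∀ p ∈ P, p.1.comp φ = ρ ∧ p.2.comp φ = ρ) (hne : ∀ p ∈ P, p.1 ≠ p.2) :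
    ∃ g : B, ∀ p ∈ P, p.1 g ≠ p.2 g := by
  classical
  induction P using Finset.induction_on with
  | empty => exact ⟨0, by simp⟩
  | insert p₀ P hp₀ ih =>
    obtain ⟨g, hg⟩ := ih (fun p hp => hcomp p (Finset.mem_insert_of_mem hp))
      (fun p hp => hne p (Finset.mem_insert_of_mem hp))
    by_cases h0 : p₀.1 g = p₀.2 g
    · obtain ⟨w, hw⟩ : ∃ w, p₀.1 w ≠ p₀.2 w := by
        by_contra hh
        exact hne p₀ (Finset.mem_insert_self _ _)
          (RingHom.ext fun x => not_not.mp fun hx => hh ⟨x, hx⟩)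
      obtain ⟨c, hc, hcbad⟩ := hinf.exists_notMem_finset
        (P.image fun p => (p.2 w - p.1 w) / (p.1 g - p.2 g))
      obtain ⟨r, rfl⟩ := hc
      refine ⟨w + φ r * g, fun p hp => ?_⟩
      have h1 := (hcomp p hp).1
      have h2 := (hcomp p hp).2
      have e1 : p.1 (φ r) = ρ r := by rw [← h1]; rfl
      have e2 : p.2 (φ r) = ρ r := by rw [← h2]; rfl
      rw [map_add, map_add, map_mul, map_mul, e1, e2]
      rcases Finset.mem_insert.mp hp with rfl | hp'
      · rw [h0]
        intro h'
        exact hw (add_right_cancel h')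
      · have hgp := hg p hp'
        intro h'
        apply hcbad
        refine Finset.mem_image.mpr ⟨p, hp', ?_⟩
        have hd : p.1 g - p.2 g ≠ 0 := sub_ne_zero.mpr hgp
        rw [div_eq_iff hd]
        linear_combination -h'
    · refine ⟨g, fun p hp => ?_⟩
      rcases Finset.mem_insert.mp hp with rfl | hp'
      · exact h0
      · exact hg p hp'

/-- A finite set of ring homomorphisms `B → k` with a common restriction of infinite range
has a separating element. -/
theorem exists_separating {A B k : Type*} [CommRing A] [CommRing B] [Field k]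
    (φ : A →+* B) (ρ : A →+* k) (hinf : (Set.range ρ).Infinite)
    (H : Finset (B →+* k)) (hcomp : ∀ t ∈ H, t.comp φ = ρ) :
    ∃ g : B, ∀ t ∈ H, ∀ u ∈ H, t g = u g → t = u := by
  classical
  obtain ⟨g, hg⟩ := exists_separating_pairs φ ρ hinf ((H ×ˢ H).filter fun p => p.1 ≠ p.2)
    (by
      intro p hp
      rw [Finset.mem_filter, Finset.mem_product] at hp
      exact ⟨hcomp _ hp.1.1, hcomp _ hp.1.2⟩)
    (by
      intro p hp
      exact (Finset.mem_filter.mp hp).2)
  refine ⟨g, fun t ht u hu htu => ?_⟩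
  by_contra hne
  exact hg (t, u) (by rw [Finset.mem_filter, Finset.mem_product]; exact ⟨⟨ht, hu⟩, hne⟩) htu

/-- (H3) **Separation.**  Two weighted finite families of ring homomorphisms `B → k`, all
restricting to the same `ρ : A → k` of infinite range, which have the same value polynomial
`∏ (X - t f) ^ e` for every `f : B`, are equal as finitely supported functions on homs. -/
theorem finsupp_eq_of_forall_prod_eq {A B k ι κ : Type*} [CommRing A] [CommRing B] [Field k]
    (φ : A →+* B) (ρ : A →+* k) (hinf : (Set.range ρ).Infinite)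
    (S : Finset ι) (t : ι → B →+* k) (e : ι → ℕ) (T : Finset κ) (u : κ → B →+* k) (d : κ → ℕ)
    (ht : ∀ i ∈ S, (t i).comp φ = ρ) (hu : ∀ j ∈ T, (u j).comp φ = ρ)
    (h : ∀ f : B, ∏ i ∈ S, (X - C (t i f)) ^ e i = ∏ j ∈ T, (X - C (u j f)) ^ d j) :
    ∑ i ∈ S, Finsupp.single (t i) (e i) = ∑ j ∈ T, Finsupp.single (u j) (d j) := by
  classical
  obtain ⟨g, hg⟩ := exists_separating φ ρ hinf (S.image t ∪ T.image u) (by
    intro v hv
    rcases Finset.mem_union.mp hv with hv | hv
    · obtain ⟨i, hi, rfl⟩ := Finset.mem_image.mp hv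
      exact ht i hi
    · obtain ⟨j, hj, rfl⟩ := Finset.mem_image.mp hv
      exact hu j hj)
  ext v
  simp only [Finsupp.coe_finsetSum, Finset.sum_apply, Finsupp.single_apply]
  by_cases hv : v ∈ S.image t ∪ T.image u
  · have hc := sum_ite_eq_of_prod_eq S (fun i => t i g) e T (fun j => u j g) d (h g) (v g)
    have hL : (∑ i ∈ S, if t i = v then e i else 0) = ∑ i ∈ S, if t i g = v g then e i else 0 := by
      refine Finset.sum_congr rfl fun i hi => ?_
      have hti : t i ∈ S.image t ∪ T.image u :=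
        Finset.mem_union_left _ (Finset.mem_image_of_mem t hi)
      by_cases hh : t i = v
      · rw [if_pos hh, if_pos (by rw [hh])]
      · rw [if_neg hh, if_neg (fun h' => hh (hg _ hti _ hv h'))]
    have hR : (∑ j ∈ T, if u j = v then d j else 0) = ∑ j ∈ T, if u j g = v g then d j else 0 := by
      refine Finset.sum_congr rfl fun j hj => ?_
      have huj : u j ∈ S.image t ∪ T.image u :=
        Finset.mem_union_right _ (Finset.mem_image_of_mem u hj)
      by_cases hh : u j = v
      · rw [if_pos hh, if_pos (by rw [hh])]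
      · rw [if_neg hh, if_neg (fun h' => hh (hg _ huj _ hv h'))]
    rw [hL, hR, hc]
  · have hL : ∀ i ∈ S, t i ≠ v := fun i hi h' =>
      hv (h' ▸ Finset.mem_union_left _ (Finset.mem_image_of_mem t hi))
    have hR : ∀ j ∈ T, u j ≠ v := fun j hj h' =>
      hv (h' ▸ Finset.mem_union_right _ (Finset.mem_image_of_mem u hj))
    rw [Finset.sum_eq_zero (fun i hi => if_neg (hL i hi)),
      Finset.sum_eq_zero (fun j hj => if_neg (hR j hj))]

/-- (H3), `AlgHom` form. -/
theorem finsupp_eq_of_forall_prod_eq_algHom {A B k ι κ : Type*} [CommRing A] [CommRing B]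
    [Field k] [Algebra A B] [Algebra A k] (hinf : (Set.range (algebraMap A k)).Infinite)
    (S : Finset ι) (t : ι → B →ₐ[A] k) (e : ι → ℕ) (T : Finset κ) (u : κ → B →ₐ[A] k)
    (d : κ → ℕ)
    (h : ∀ f : B, ∏ i ∈ S, (X - C (t i f)) ^ e i = ∏ j ∈ T, (X - C (u j f)) ^ d j) :
    ∑ i ∈ S, Finsupp.single (t i) (e i) = ∑ j ∈ T, Finsupp.single (u j) (d j) := by
  classical
  have hinj : Function.Injective (fun v : B →ₐ[A] k => (v : B →+* k)) := fun v w hvw =>
    AlgHom.ext fun x => RingHom.congr_fun hvw x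
  have key := finsupp_eq_of_forall_prod_eq (algebraMap A B) (algebraMap A k) hinf S
    (fun i => (t i : B →+* k)) e T (fun j => (u j : B →+* k)) d
    (fun i _ => (t i).comp_algebraMap) (fun j _ => (u j).comp_algebraMap) h
  apply Finsupp.mapDomain_injective hinj
  simpa [Finsupp.mapDomain_finsetSum, Finsupp.mapDomain_single] using key

/-- (H2), `AlgHom` form. -/
theorem kronecker_finsupp_algHom {A B k ι : Type*} [CommRing A] [CommRing B]
    [Field k] [Algebra A B] [Algebra A k]
    (S : Finset ι) (t : ι → B →ₐ[A] k) (e : ι → ℕ) (s₁ s₂ : B →ₐ[A] k) (ℓ : ℕ)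
    (h : ∀ f : B, ∏ i ∈ S, (X - C (t i f)) ^ e i = (X - C (s₁ f)) * (X - C (s₂ f)) ^ ℓ) :
    ∑ i ∈ S, Finsupp.single (t i) (e i) = Finsupp.single s₁ 1 + Finsupp.single s₂ ℓ := by
  classical
  have hinj : Function.Injective (fun v : B →ₐ[A] k => (v : B →+* k)) := fun v w hvw =>
    AlgHom.ext fun x => RingHom.congr_fun hvw x
  have key := kronecker_finsupp S (fun i => (t i : B →+* k)) e (s₁ : B →+* k) (s₂ : B →+* k) ℓ h
  apply Finsupp.mapDomain_injective hinj
  simpa [Finsupp.mapDomain_finsetSum, Finsupp.mapDomain_single, Finsupp.mapDomain_add] using key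

/-- (H2) with integer weights (divisor form). -/
theorem kronecker_finsupp_int {B k ι : Type*} [CommRing B] [Field k]
    (S : Finset ι) (t : ι → B →+* k) (e : ι → ℕ) (s₁ s₂ : B →+* k) (ℓ : ℕ)
    (h : ∀ f : B, ∏ i ∈ S, (X - C (t i f)) ^ e i = (X - C (s₁ f)) * (X - C (s₂ f)) ^ ℓ) :
    ∑ i ∈ S, Finsupp.single (t i) (e i : ℤ)
      = Finsupp.single s₁ (1 : ℤ) + Finsupp.single s₂ (ℓ : ℤ) := by
  have key := congrArg (Finsupp.mapRange.addMonoidHom (Nat.castAddMonoidHom ℤ))
    (kronecker_finsupp S t e s₁ s₂ ℓ h)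
  simpa [map_sum, map_add] using key

/-- (H3) with integer weights (divisor form). -/
theorem finsupp_eq_of_forall_prod_eq_int {A B k ι κ : Type*} [CommRing A] [CommRing B] [Field k]
    (φ : A →+* B) (ρ : A →+* k) (hinf : (Set.range ρ).Infinite)
    (S : Finset ι) (t : ι → B →+* k) (e : ι → ℕ) (T : Finset κ) (u : κ → B →+* k) (d : κ → ℕ)
    (ht : ∀ i ∈ S, (t i).comp φ = ρ) (hu : ∀ j ∈ T, (u j).comp φ = ρ)
    (h : ∀ f : B, ∏ i ∈ S, (X - C (t i f)) ^ e i = ∏ j ∈ T, (X - C (u j f)) ^ d j) :
    ∑ i ∈ S, Finsupp.single (t i) (e i : ℤ) = ∑ j ∈ T, Finsupp.single (u j) (d j : ℤ) := by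
  have key := congrArg (Finsupp.mapRange.addMonoidHom (Nat.castAddMonoidHom ℤ))
    (finsupp_eq_of_forall_prod_eq φ ρ hinf S t e T u d ht hu h)
  simpa [map_sum] using key

end Fermat.Agent.S37.helper4511
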