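import Fermat.Agent.S37.helper4612_NormValue

/-!
# S37-KRON-VAL (helper4612): the value of a characteristic polynomial at a place

`F'/F` a finite extension of fields with places over `K` (Prelude vocabulary), `v` a place of `F`
such that every place `w` of `F'` over `v` has residue field `K`.  If `H : F'` has the value
`c w : K` at every `w` over `v`, then the characteristic polynomial of `H` over `F` has,
coefficient by coefficient, the values of `∏_{w | v} (X - C (c w)) ^ e(w | v)` at `v`
(the *fibre formula*).  Also the forms along a `K`-algebra homomorphism `φ : F →ₐ[K] F'`.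
-/

set_option autoImplicit false
set_option linter.unusedSectionVars false
set_option linter.style.haveILetI false

open AlgebraicCurve Polynomial

namespace Fermat.Agent.S37.helper4612

/-- A polynomial over a `K`-algebra all of whose values at the points of the infinite field `K`
lie in a `K`-subspace `M` has all its coefficients in `M`. -/
theorem coeff_mem_of_forall_eval_mem {K F : Type*} [Field K] [Infinite K] [CommRing F]
    [Algebra K F] (M : Submodule K F) (D : F[X])
    (h : ∀ a : K, D.eval (algebraMap K F a) ∈ M) (i : ℕ) : D.coeff i ∈ M := by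
  by_contra hi
  obtain ⟨φ, hφ, hφM⟩ := Submodule.exists_le_ker_of_notMem hi
  let p : K[X] := ∑ j ∈ D.support, Polynomial.monomial j (φ (D.coeff j))
  have hp : ∀ a : K, p.eval a = 0 := by
    intro a
    have h1 : φ (D.eval (algebraMap K F a)) = 0 := hφM (h a)
    rw [Polynomial.eval_eq_sum, Polynomial.sum, map_sum] at h1
    rw [Polynomial.eval_finsetSum, ← h1]
    refine Finset.sum_congr rfl fun j _ => ?_
    rw [Polynomial.eval_monomial, ← map_pow, mul_comm (D.coeff j), ← Algebra.smul_def, map_smul,
      smul_eq_mul, mul_comm]
  have hp0 : p = 0 := Polynomial.funext (fun a => by rw [hp a, Polynomial.eval_zero])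
  have hc : p.coeff i = φ (D.coeff i) := by
    simp only [p, Polynomial.finsetSum_coeff, Polynomial.coeff_monomial]
    rw [Finset.sum_ite_eq' D.support i]
    split_ifs with hi'
    · rfl
    · rw [Polynomial.notMem_support_iff.mp hi', map_zero]
  rw [hp0, Polynomial.coeff_zero] at hc
  exact hφ hc.symm

/-- Cayley–Hamilton for the characteristic polynomial of an element of a finite extension. -/
theorem aeval_charpoly_mulLeft {F F' : Type*} [Field F] [Field F'] [Algebra F F']
    [Module.Finite F F'] (H : F') : aeval H (LinearMap.mulLeft F H).charpoly = 0 := by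
  have h1 := LinearMap.aeval_self_charpoly (LinearMap.mulLeft F H)
  have h2 : aeval (Algebra.lmul F F' H) (LinearMap.mulLeft F H).charpoly =
      Algebra.lmul F F' (aeval H (LinearMap.mulLeft F H).charpoly) :=
    Polynomial.aeval_algHom_apply (Algebra.lmul F F') H _
  have h3 : Algebra.lmul F F' H = LinearMap.mulLeft F H := rfl
  rw [h3, h1] at h2
  have h4 := congrArg (fun f : F' →ₗ[F] F' => f 1) h2
  simpa using h4.symm

section PlaceLevel

variable {K F F' : Type*} [Field K] [Field F] [Field F'] [Algebra K F] [Algebra K F']

/-- The maximal ideal of the valuation ring of a place, as a `K`-subspace of `F`. -/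
def nonunitsSubmodule (v : Place K F) : Submodule K F where
  carrier := v.toValuationSubring.nonunits
  add_mem' := by
    intro x y hx hy
    rw [SetLike.mem_coe, ValuationSubring.mem_nonunits_iff] at hx hy ⊢
    exact Valuation.map_add_lt _ hx hy
  zero_mem' := by
    rw [SetLike.mem_coe, ValuationSubring.mem_nonunits_iff, map_zero]
    exact zero_lt_one
  smul_mem' := by
    intro a x hx
    rw [SetLike.mem_coe, ValuationSubring.mem_nonunits_iff_exists_mem_maximalIdeal] at hx ⊢
    obtain ⟨hx, hxm⟩ := hx
    rw [Algebra.smul_def]
    exact ⟨v.toValuationSubring.mul_mem _ _ (v.algebraMap_mem' a) hx,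
      Ideal.mul_mem_left _ (algebraMap K v.toValuationSubring a) hxm⟩

theorem mem_nonunitsSubmodule {v : Place K F} {x : F} :
    x ∈ nonunitsSubmodule v ↔ x ∈ v.toValuationSubring.nonunits := Iff.rfl

variable [Algebra F F'] [IsScalarTower K F F'] [Module.Finite F F'] [CharZero F]
  (v : Place K F) [HasPrincipalDivisors K F']

/-- **Fibre formula for the characteristic polynomial.**  If `H : F'` has the value `c w : K` at
every place `w` of `F'` over `v` (and these places have residue field `K`), then every
coefficient of the characteristic polynomial of `H` over `F` has at `v` the value of the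
corresponding coefficient of `∏_{w | v} (X - C (c w)) ^ e(w | v)`. -/
theorem charpoly_coeff_sub_mem_nonunits
    (hres : ∀ w ∈ v.fiber F', Function.Surjective (algebraMap K w.ResidueField))
    (H : F') (c : Place K F' → K)
    (hc : ∀ w ∈ v.fiber F', H - algebraMap K F' (c w) ∈ w.toValuationSubring.nonunits) (i : ℕ) :
    (LinearMap.mulLeft F H).charpoly.coeff i -
        algebraMap K F ((∏ w ∈ v.fiber F', (X - C (c w)) ^ w.ramificationIndex F).coeff i)
      ∈ v.toValuationSubring.nonunits := by
  have : CharZero K := RingHom.charZero (algebraMap K F)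
  have key := coeff_mem_of_forall_eval_mem (nonunitsSubmodule v)
    ((LinearMap.mulLeft F H).charpoly -
      (∏ w ∈ v.fiber F', (X - C (c w)) ^ w.ramificationIndex F).map (algebraMap K F))
    (fun a => ?_) i
  · rwa [coeff_sub, coeff_map, mem_nonunitsSubmodule] at key
  · rw [mem_nonunitsSubmodule]
    have h1 : (LinearMap.mulLeft F H).charpoly.eval (algebraMap K F a) =
        Algebra.norm F (algebraMap K F' a - H) := by
      rw [LinearMap.eval_charpoly, Algebra.norm_apply]
      congr 1
      ext x
      simp [Algebra.smul_def, ← IsScalarTower.algebraMap_apply]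
    have h2 : ((∏ w ∈ v.fiber F', (X - C (c w)) ^ w.ramificationIndex F).map
        (algebraMap K F)).eval (algebraMap K F a) =
        algebraMap K F (∏ w ∈ v.fiber F', (a - c w) ^ w.ramificationIndex F) := by
      rw [eval_map, eval₂_at_apply, eval_prod]
      simp
    rw [eval_sub, h1, h2]
    refine norm_sub_prod_mem_nonunits v hres (algebraMap K F' a - H) (fun w => a - c w)
      (fun w hw => ?_)
    have h3 := hc w hw
    rw [ValuationSubring.mem_nonunits_iff] at h3 ⊢
    have h4 : algebraMap K F' a - H - algebraMap K F' (a - c w) =
        -(H - algebraMap K F' (c w)) := by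
      rw [(algebraMap K F').map_sub]
      ring
    rwa [h4, Valuation.map_neg]

/-- The coefficients of the characteristic polynomial of `H` are regular at `v`. -/
theorem charpoly_coeff_mem
    (hres : ∀ w ∈ v.fiber F', Function.Surjective (algebraMap K w.ResidueField))
    (H : F') (c : Place K F' → K)
    (hc : ∀ w ∈ v.fiber F', H - algebraMap K F' (c w) ∈ w.toValuationSubring.nonunits) (i : ℕ) :
    (LinearMap.mulLeft F H).charpoly.coeff i ∈ v.toValuationSubring := by
  have h1 := v.toValuationSubring.add_mem _ _
    (v.toValuationSubring.nonunits_subset (charpoly_coeff_sub_mem_nonunits v hres H c hc i))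
    (v.algebraMap_mem' ((∏ w ∈ v.fiber F', (X - C (c w)) ^ w.ramificationIndex F).coeff i))
  rwa [sub_add_cancel] at h1

/-- The fibre formula in valuation form (the shape `HasValueAt` of the transfer leaf). -/
theorem charpoly_coeff_valuation_lt_one
    (hres : ∀ w ∈ v.fiber F', Function.Surjective (algebraMap K w.ResidueField))
    (H : F') (c : Place K F' → K)
    (hc : ∀ w ∈ v.fiber F',
      w.toValuationSubring.valuation (H - algebraMap K F' (c w)) < 1) (i : ℕ) :
    v.toValuationSubring.valuation ((LinearMap.mulLeft F H).charpoly.coeff i -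
        algebraMap K F ((∏ w ∈ v.fiber F', (X - C (c w)) ^ w.ramificationIndex F).coeff i)) < 1 :=
  (ValuationSubring.mem_nonunits_iff _).mp (charpoly_coeff_sub_mem_nonunits v hres H c
    (fun w hw => (ValuationSubring.mem_nonunits_iff _).mpr (hc w hw)) i)

end PlaceLevel

section Restrict

variable {K F F' : Type*} [Field K] [Field F] [Field F'] [Algebra K F] [Algebra K F']
  [Algebra F F'] [IsScalarTower K F F'] [Algebra.IsIntegral F F']

/-- The maximal ideal of the restriction of a place is the preimage of the maximal ideal. -/
theorem mem_nonunits_restrict_iff (w : Place K F') (f : F) :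
    f ∈ (w.restrict F).toValuationSubring.nonunits ↔
      algebraMap F F' f ∈ w.toValuationSubring.nonunits := by
  rw [ValuationSubring.mem_nonunits_iff_or, ValuationSubring.mem_nonunits_iff_or,
    Place.restrict_toValuationSubring, ValuationSubring.mem_comap, map_inv₀, map_eq_zero]

/-- `f` has the value `a` at the restriction of `w` iff its image has the value `a` at `w`. -/
theorem sub_mem_nonunits_restrict_iff (w : Place K F') (f : F) (a : K) :
    f - algebraMap K F a ∈ (w.restrict F).toValuationSubring.nonunits ↔
      algebraMap F F' f - algebraMap K F' a ∈ w.toValuationSubring.nonunits := by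
  rw [mem_nonunits_restrict_iff, map_sub, ← IsScalarTower.algebraMap_apply]

end Restrict

section Along

variable {K F F' : Type*} [Field K] [Field F] [Field F'] [Algebra K F] [Algebra K F']

/-- The characteristic polynomial of `H : F'` over `F`, for the `F`-algebra structure on `F'`
given by `φ : F →ₐ[K] F'`. -/
noncomputable def charpolyAlong (φ : F →ₐ[K] F') (hfin : FiniteAlong K φ) (H : F') : F[X] :=
  letI := algebraAlong φ
  haveI : Module.Finite F F' := hfin
  (LinearMap.mulLeft F H).charpoly

theorem charpolyAlong_monic (φ : F →ₐ[K] F') (hfin : FiniteAlong K φ) (H : F') :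
    (charpolyAlong φ hfin H).Monic := by
  letI := algebraAlong φ
  haveI : Module.Finite F F' := hfin
  exact LinearMap.charpoly_monic _

/-- Cayley–Hamilton along `φ`. -/
theorem eval₂_charpolyAlong (φ : F →ₐ[K] F') (hfin : FiniteAlong K φ) (H : F') :
    (charpolyAlong φ hfin H).eval₂ φ.toRingHom H = 0 := by
  letI := algebraAlong φ
  haveI : Module.Finite F F' := hfin
  exact aeval_charpoly_mulLeft H

/-- `f` has the value `a` at the place below `w` along `φ` iff `φ f` has the value `a` at `w`. -/
theorem sub_mem_nonunits_restrictAlong_iff (φ : F →ₐ[K] F') (hφ : φ.toRingHom.IsIntegral)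
    (w : Place K F') (f : F) (a : K) :
    f - algebraMap K F a ∈ (w.restrictAlong φ hφ).toValuationSubring.nonunits ↔
      φ f - algebraMap K F' a ∈ w.toValuationSubring.nonunits := by
  letI := algebraAlong φ
  haveI := isScalarTower_along φ
  haveI := isIntegral_along φ hφ
  exact sub_mem_nonunits_restrict_iff w f a

variable [CharZero F] [HasPrincipalDivisors K F']

/-- **Value of a norm at a place**, along `φ : F →ₐ[K] F'`. -/
theorem normAlong_sub_prod_mem_nonunits (φ : F →ₐ[K] F') (hφ : φ.toRingHom.IsIntegral)
    (hfin : FiniteAlong K φ) (v : Place K F)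
    (hres : ∀ w ∈ Place.fiberAlong φ hφ v, Function.Surjective (algebraMap K w.ResidueField))
    (H : F') (c : Place K F' → K)
    (hc : ∀ w ∈ Place.fiberAlong φ hφ v,
      H - algebraMap K F' (c w) ∈ w.toValuationSubring.nonunits) :
    (letI := algebraAlong φ; Algebra.norm F H) -
        algebraMap K F (∏ w ∈ Place.fiberAlong φ hφ v, c w ^ w.ramificationIndexAlong φ)
      ∈ v.toValuationSubring.nonunits := by
  letI := algebraAlong φ
  haveI := isScalarTower_along φ
  haveI : Module.Finite F F' := hfin
  exact norm_sub_prod_mem_nonunits v hres H c hc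

/-- **Fibre formula for the characteristic polynomial**, along `φ : F →ₐ[K] F'`. -/
theorem charpolyAlong_coeff_sub_mem_nonunits (φ : F →ₐ[K] F') (hφ : φ.toRingHom.IsIntegral)
    (hfin : FiniteAlong K φ) (v : Place K F)
    (hres : ∀ w ∈ Place.fiberAlong φ hφ v, Function.Surjective (algebraMap K w.ResidueField))
    (H : F') (c : Place K F' → K)
    (hc : ∀ w ∈ Place.fiberAlong φ hφ v,
      H - algebraMap K F' (c w) ∈ w.toValuationSubring.nonunits) (i : ℕ) :
    (charpolyAlong φ hfin H).coeff i -
        algebraMap K F ((∏ w ∈ Place.fiberAlong φ hφ v,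
          (X - C (c w)) ^ w.ramificationIndexAlong φ).coeff i)
      ∈ v.toValuationSubring.nonunits := by
  letI := algebraAlong φ
  haveI := isScalarTower_along φ
  haveI : Module.Finite F F' := hfin
  exact charpoly_coeff_sub_mem_nonunits v hres H c hc i

/-- The coefficients of the characteristic polynomial along `φ` are regular at `v`. -/
theorem charpolyAlong_coeff_mem (φ : F →ₐ[K] F') (hφ : φ.toRingHom.IsIntegral)
    (hfin : FiniteAlong K φ) (v : Place K F)
    (hres : ∀ w ∈ Place.fiberAlong φ hφ v, Function.Surjective (algebraMap K w.ResidueField))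
    (H : F') (c : Place K F' → K)
    (hc : ∀ w ∈ Place.fiberAlong φ hφ v,
      H - algebraMap K F' (c w) ∈ w.toValuationSubring.nonunits) (i : ℕ) :
    (charpolyAlong φ hfin H).coeff i ∈ v.toValuationSubring := by
  letI := algebraAlong φ
  haveI := isScalarTower_along φ
  haveI : Module.Finite F F' := hfin
  exact charpoly_coeff_mem v hres H c hc i

/-- **Correspondence form.**  For `β : F →ₐ[K] F'` finite and `α : F₁ →ₐ[K] F'` integral, and
`h : F₁` with value `c u` at the places `u = W|_α` below the places `W` of the fibre of `v`
along `β`: the characteristic polynomial of `α h` over `β(F)` has at `v`, coefficientwise, the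
values of `∏_{W | v} (X - C (c (W|_α))) ^ e_β(W)`; i.e. the multiset of values of `h` on the
divisor `α_* β^* [v]` is the root multiset of the reduced characteristic polynomial. -/
theorem charpolyAlong_comp_coeff_sub_mem_nonunits {F₁ : Type*} [Field F₁] [Algebra K F₁]
    (β : F →ₐ[K] F') (hβ : β.toRingHom.IsIntegral) (hfin : FiniteAlong K β)
    (α : F₁ →ₐ[K] F') (hα : α.toRingHom.IsIntegral) (v : Place K F)
    (hres : ∀ w ∈ Place.fiberAlong β hβ v, Function.Surjective (algebraMap K w.ResidueField))
    (h : F₁) (c : Place K F₁ → K)
    (hc : ∀ w ∈ Place.fiberAlong β hβ v,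
      h - algebraMap K F₁ (c (w.restrictAlong α hα)) ∈
        (w.restrictAlong α hα).toValuationSubring.nonunits) (i : ℕ) :
    (charpolyAlong β hfin (α h)).coeff i -
        algebraMap K F ((∏ w ∈ Place.fiberAlong β hβ v,
          (X - C (c (w.restrictAlong α hα))) ^ w.ramificationIndexAlong β).coeff i)
      ∈ v.toValuationSubring.nonunits :=
  charpolyAlong_coeff_sub_mem_nonunits β hβ hfin v hres (α h)
    (fun w => c (w.restrictAlong α hα))
    (fun w hw => (sub_mem_nonunits_restrictAlong_iff α hα w h _).mp (hc w hw)) i

end Along

end Fermat.Agent.S37.helper4612
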