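import Fermat.Agent.S37.helper4612_CharpolyValue
import Fermat.Agent.S37.helper7465_Transfer

/-!
# S37 (helper4612): the fibre formula plugged into the transfer leaf

`helper7465_Transfer` takes the fibre formula for characteristic polynomials (KRON-VAL / B4 CPF)
as a hypothesis `CharpolyValueAt` / `CharpolyValueAlong` on an abstract `χ`.  Here the
hypothesis is discharged for the genuine characteristic polynomial, so that the transfer
theorems only keep the integrality hypothesis `hcoeff` on the chart algebras.
-/

set_option autoImplicit false
set_option linter.unusedSectionVars false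
set_option linter.style.haveILetI false

open AlgebraicCurve Polynomial

namespace Fermat.Agent.S37.helper4612

open Fermat.Agent.S37.helper7465

section Instance

variable {K F F' : Type*} [Field K] [Field F] [Field F'] [Algebra K F] [Algebra K F']
  [Algebra F F'] [IsScalarTower K F F'] [Module.Finite F F'] [CharZero F]
  [HasPrincipalDivisors K F']

/-- The characteristic polynomial satisfies the fibre formula `CharpolyValueAt`. -/
theorem charpolyValueAt_charpoly
    (hres : ∀ w : Place K F', Function.Surjective (algebraMap K w.ResidueField))
    (S' : Set F') :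
    CharpolyValueAt K S' (fun h : F' => (LinearMap.mulLeft F h).charpoly) := by
  intro v h c _ hc i
  exact charpoly_coeff_valuation_lt_one v (fun w _ => hres w) h c hc i

/-- Transfer (T1) with the genuine characteristic polynomial. -/
theorem isRegAt_of_restrict_eq_charpoly (O : ValuationSubring K) (B : Subring F)
    (B' : Subring F')
    (hcoeff : ∀ h ∈ B', ∀ i, (LinearMap.mulLeft F h).charpoly.coeff i ∈ B)
    (hres : ∀ w : Place K F', Function.Surjective (algebraMap K w.ResidueField))
    {v : Place K F} (hv : IsRegAt O (B : Set F) v) {w : Place K F'}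
    (hw : w.restrict F = v) :
    IsRegAt O (B' : Set F') w :=
  isRegAt_of_restrict_eq O B B' _ (fun _ _ => LinearMap.charpoly_monic _)
    (fun h _ => aeval_charpoly_mulLeft h) hcoeff (charpolyValueAt_charpoly hres _) hres hv hw

/-- Transfer (T3) with the genuine characteristic polynomial: the pull-back of divisors maps
the point-level kernel of the chart `B` into the point-level kernel of the chart `B'`, as soon
as the characteristic polynomials of the elements of `B'` have coefficients in `B`. -/
theorem map_pullback_ptKernel_le_charpoly (O : ValuationSubring K) (B : Subring F)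
    (B' : Subring F')
    (hconst : ∀ a ∈ O, algebraMap K F' a ∈ B')
    (hcoeff : ∀ h ∈ B', ∀ i, (LinearMap.mulLeft F h).charpoly.coeff i ∈ B)
    (hres : ∀ w : Place K F', Function.Surjective (algebraMap K w.ResidueField)) :
    (ptKernel O (B : Set F)).map (Divisor.pullback F') ≤ ptKernel O (B' : Set F') :=
  map_pullback_ptKernel_le O B B' _ hconst (fun _ _ => LinearMap.charpoly_monic _)
    (fun h _ => aeval_charpoly_mulLeft h) hcoeff (charpolyValueAt_charpoly hres _) hres

end Instance

section Along

variable {K F F' : Type*} [Field K] [Field F] [Field F'] [Algebra K F] [Algebra K F']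
  [CharZero F] [HasPrincipalDivisors K F']

/-- The characteristic polynomial along `φ` satisfies the fibre formula `CharpolyValueAlong`. -/
theorem charpolyValueAlong_charpolyAlong (φ : F →ₐ[K] F') (hφ : φ.toRingHom.IsIntegral)
    (hfin : FiniteAlong K φ)
    (hres : ∀ w : Place K F', Function.Surjective (algebraMap K w.ResidueField))
    (S' : Set F') :
    CharpolyValueAlong K φ hφ S' (charpolyAlong φ hfin) := by
  intro v h c _ hc i
  exact (ValuationSubring.mem_nonunits_iff _).mp
    (charpolyAlong_coeff_sub_mem_nonunits φ hφ hfin v (fun w _ => hres w) h c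
      (fun w hw => (ValuationSubring.mem_nonunits_iff _).mpr (hc w hw)) i)

/-- Transfer (T1) along `φ` with the genuine characteristic polynomial. -/
theorem isRegAt_of_restrictAlong_eq_charpolyAlong (φ : F →ₐ[K] F')
    (hφ : φ.toRingHom.IsIntegral) (hfin : FiniteAlong K φ)
    (O : ValuationSubring K) (B : Subring F) (B' : Subring F')
    (hcoeff : ∀ h ∈ B', ∀ i, (charpolyAlong φ hfin h).coeff i ∈ B)
    (hres : ∀ w : Place K F', Function.Surjective (algebraMap K w.ResidueField))
    {v : Place K F} (hv : IsRegAt O (B : Set F) v) {w : Place K F'}
    (hw : w.restrictAlong φ hφ = v) :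
    IsRegAt O (B' : Set F') w :=
  isRegAt_of_restrictAlong_eq φ hφ O B B' _ (fun h _ => charpolyAlong_monic φ hfin h)
    (fun h _ => eval₂_charpolyAlong φ hfin h) hcoeff
    (charpolyValueAlong_charpolyAlong φ hφ hfin hres _) hres hv hw

/-- Transfer (T3) along `φ` with the genuine characteristic polynomial. -/
theorem map_pullbackAlong_ptKernel_le_charpolyAlong (φ : F →ₐ[K] F')
    (hφ : φ.toRingHom.IsIntegral) (hfin : FiniteAlong K φ)
    (O : ValuationSubring K) (B : Subring F) (B' : Subring F')
    (hconst : ∀ a ∈ O, algebraMap K F' a ∈ B')
    (hcoeff : ∀ h ∈ B', ∀ i, (charpolyAlong φ hfin h).coeff i ∈ B)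
    (hres : ∀ w : Place K F', Function.Surjective (algebraMap K w.ResidueField)) :
    (ptKernel O (B : Set F)).map (Divisor.pullbackAlong φ hφ) ≤ ptKernel O (B' : Set F') :=
  map_pullbackAlong_ptKernel_le φ hφ O B B' _ hconst (fun h _ => charpolyAlong_monic φ hfin h)
    (fun h _ => eval₂_charpolyAlong φ hfin h) hcoeff
    (charpolyValueAlong_charpolyAlong φ hφ hfin hres _) hres

end Along

end Fermat.Agent.S37.helper4612
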