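import Fermat.Agent.S37.helper4612_TransferAdapter
import Fermat.Agent.S37.helper869_Xfer

/-!
# S37 (helper4612): the fibre formula plugged into E1 XFER

`helper869_Xfer` (module E1 of the plan) keeps exactly one geometric hypothesis besides `hres`:
the fibre formula `hval : CharpolyValueAlong K φ hφ _ (helper869.charpolyAlong φ hfin)`
(module B4 CPF).  It is discharged here by `helper4612.charpolyAlong_coeff_sub_mem_nonunits`,
giving `hval`-free forms of the E1 theorems (in characteristic zero).
-/

set_option autoImplicit false
set_option linter.unusedSectionVars false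

open AlgebraicCurve Polynomial

namespace Fermat.Agent.S37.helper4612

open Fermat.Agent.S37.helper7465 Fermat.Agent.S37.helper2025

variable {K F F' : Type*} [Field K] [Field F] [Field F'] [Algebra K F] [Algebra K F']
  [CharZero F] [HasPrincipalDivisors K F']

/-- **B4 CPF in the shape consumed by E1 XFER**: the fibre formula for the characteristic
polynomial along `φ` (the definition of `helper869`), for all functions. -/
theorem charpolyValueAlong_univ (φ : F →ₐ[K] F') (hφ : φ.toRingHom.IsIntegral)
    (hfin : FiniteAlong K φ)
    (hres : ∀ w : Place K F', Function.Surjective (algebraMap K w.ResidueField)) :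
    CharpolyValueAlong K φ hφ Set.univ (helper869.charpolyAlong φ hfin) :=
  charpolyValueAlong_charpolyAlong φ hφ hfin hres Set.univ

/-- The same on an arbitrary set of functions. -/
theorem charpolyValueAlong_of_hres (φ : F →ₐ[K] F') (hφ : φ.toRingHom.IsIntegral)
    (hfin : FiniteAlong K φ)
    (hres : ∀ w : Place K F', Function.Surjective (algebraMap K w.ResidueField))
    (S' : Set F') :
    CharpolyValueAlong K φ hφ S' (helper869.charpolyAlong φ hfin) :=
  charpolyValueAlong_charpolyAlong φ hφ hfin hres S'

/-- E1 for one integral-closure chart, without `hval`. -/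
theorem map_pullbackAlong_ptKernel_intChart_le
    (φ : F →ₐ[K] F') (hφ : φ.toRingHom.IsIntegral) (hfin : FiniteAlong K φ)
    (O : ValuationSubring K) (G : Set F) (G' : Set F')
    (hG : G' ⊆ ((Subring.closure G).map φ.toRingHom : Set F'))
    (hconst : ∀ a ∈ O, algebraMap K F' a ∈ intChart G')
    (hres : ∀ w : Place K F', Function.Surjective (algebraMap K w.ResidueField)) :
    (ptKernel O (intChart G)).map (Divisor.pullbackAlong φ hφ) ≤ ptKernel O (intChart G') :=
  helper869.map_pullbackAlong_ptKernel_intChart_le φ hφ hfin O G G' hG hconst
    (charpolyValueAlong_of_hres φ hφ hfin hres _) hres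

/-- E1 for the finite chart, without `hval`. -/
theorem map_pullbackAlong_ptKernel_finChart_le
    (φ : F →ₐ[K] F') (hφ : φ.toRingHom.IsIntegral) (hfin : FiniteAlong K φ)
    (O : ValuationSubring K) (t : F)
    (hres : ∀ w : Place K F', Function.Surjective (algebraMap K w.ResidueField)) :
    (ptKernel O (finChart O t)).map (Divisor.pullbackAlong φ hφ) ≤
      ptKernel O (finChart O (φ t)) :=
  helper869.map_pullbackAlong_ptKernel_finChart_le φ hφ hfin O t
    (charpolyValueAlong_of_hres φ hφ hfin hres _) hres

/-- E1 for the local chart at infinity, without `hval`. -/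
theorem map_pullbackAlong_ptKernel_infChart_le
    (φ : F →ₐ[K] F') (hφ : φ.toRingHom.IsIntegral) (hfin : FiniteAlong K φ)
    (O : ValuationSubring K) (u : F)
    (hres : ∀ w : Place K F', Function.Surjective (algebraMap K w.ResidueField)) :
    (ptKernel O (infChart O u)).map (Divisor.pullbackAlong φ hφ) ≤
      ptKernel O (infChart O (φ u)) :=
  helper869.map_pullbackAlong_ptKernel_infChart_le φ hφ hfin O u
    (charpolyValueAlong_of_hres φ hφ hfin hres _) hres

/-- **E1 for the two standard charts**, without `hval`: the pull-back along `φ` maps the
divisor-level specialisation kernel of the standard charts with coordinate `t` into the one with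
coordinate `φ t`. -/
theorem map_pullbackAlong_chartDivKernel_stdCharts_le
    (φ : F →ₐ[K] F') (hφ : φ.toRingHom.IsIntegral) (hfin : FiniteAlong K φ)
    (A : ValuationSubring K) (t : F)
    (hres : ∀ w : Place K F', Function.Surjective (algebraMap K w.ResidueField)) :
    (helper869.chartDivKernel A {finChart A t, infChart A t⁻¹}).map (Divisor.pullbackAlong φ hφ)
      ≤ helper869.chartDivKernel A {finChart A (φ t), infChart A (φ t)⁻¹} :=
  helper869.map_pullbackAlong_chartDivKernel_stdCharts_le' φ hφ hfin A t
    (charpolyValueAlong_univ φ hφ hfin hres) hres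

end Fermat.Agent.S37.helper4612
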