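import Fermat.Statements.S37
import Fermat.Agent.Lib.helper54_Frobenius

/-!
# S37: formal reduction to a "kernel of reduction" subgroup (helper4699)

`SpecializationExists N p (JZero N)` follows (given the two hypotheses of the frozen statement)
from the existence, for every prime `ℓ ∤ N p` and every valuation subring `A` of `ℚ̄` over `ℓ`,
of ONE Frobenius element `σ₀` at `A` and ONE additive subgroup `W` of `JZero N` such that

* `τ • x - x ∈ W` for every `τ` in the inertia group at `A` and every `x`;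
* `σ₀ • σ₀ • x - T_ℓ (σ₀ • x) + ℓ • x ∈ W` for every `x` (`T_ℓ = heckeOperatorBar N ℓ`);
* `W` contains no nonzero element killed by a power of `p`.

No Hecke-stability or Frobenius-stability of `W`, no Hecke-module structure on the target and
no Frobenius endomorphism of the target are needed: the witness is `J ⧸ M` for the subgroup `M`
generated by the two families of relations, which is automatically Hecke- and `σ₀`-stable.
Everything here is formal; the mathematical content of S37 is the construction of `W`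
(the kernel of reduction modulo `ℓ`).
-/

set_option autoImplicit false

noncomputable section

namespace Fermat.Agent.S37.helper4699

open ModularCurve

/-- The absolute Galois group of `ℚ`. -/
abbrev GQ : Type := AlgebraicClosure ℚ ≃ₐ[ℚ] AlgebraicClosure ℚ

/-- Two Frobenius elements at the same valuation subring differ by an element of inertia. -/
theorem inv_mul_mem_inertiaSubgroupIn {A : ValuationSubring (AlgebraicClosure ℚ)} {ℓ : ℕ}
    {σ σ₀ : GQ} (h : A.IsFrobeniusAt σ ℓ) (h₀ : A.IsFrobeniusAt σ₀ ℓ) :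
    σ₀⁻¹ * σ ∈ A.inertiaSubgroupIn ℚ := by
  obtain ⟨hσ, hf⟩ := h
  obtain ⟨hσ₀, hf₀⟩ := h₀
  refine Subgroup.mem_map.mpr
    ⟨(⟨σ₀, hσ₀⟩ : A.decompositionSubgroup ℚ)⁻¹ * ⟨σ, hσ⟩, ?_, rfl⟩
  show MulSemiringAction.toRingAut (A.decompositionSubgroup ℚ) (IsLocalRing.ResidueField A)
    ((⟨σ₀, hσ₀⟩ : A.decompositionSubgroup ℚ)⁻¹ * ⟨σ, hσ⟩) = 1
  ext x
  show ((⟨σ₀, hσ₀⟩ : A.decompositionSubgroup ℚ)⁻¹ * ⟨σ, hσ⟩) • x = x
  rw [mul_smul, hf x, ← hf₀ x, inv_smul_smul]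

/-- Inertia is normalised by the decomposition group. -/
theorem conj_mem_inertiaSubgroupIn {A : ValuationSubring (AlgebraicClosure ℚ)}
    {σ₀ τ : GQ} (hσ₀ : σ₀ ∈ A.decompositionSubgroup ℚ) (hτ : τ ∈ A.inertiaSubgroupIn ℚ) :
    σ₀ * τ * σ₀⁻¹ ∈ A.inertiaSubgroupIn ℚ := by
  obtain ⟨t, ht, rfl⟩ := Subgroup.mem_map.mp hτ
  have hn : (A.inertiaSubgroup ℚ).Normal := by
    unfold ValuationSubring.inertiaSubgroup
    exact MonoidHom.normal_ker _
  exact Subgroup.mem_map.mpr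
    ⟨(⟨σ₀, hσ₀⟩ : A.decompositionSubgroup ℚ) * t * (⟨σ₀, hσ₀⟩ : A.decompositionSubgroup ℚ)⁻¹,
      hn.conj_mem t ht _, rfl⟩

section Core

variable {N : ℕ} [NeZero N]

/-- The set of "universal relations" at `(A, σ₀, ℓ)`. -/
def relSet (A : ValuationSubring (AlgebraicClosure ℚ)) (σ₀ : GQ) (ℓ : Nat.Primes) :
    Set (JZero N) :=
  {y | (∃ τ ∈ A.inertiaSubgroupIn ℚ, ∃ x : JZero N, y = τ • x - x) ∨
    (∃ x : JZero N, y = σ₀ • σ₀ • x - heckeOperatorBar N ℓ (σ₀ • x) + (ℓ : ℕ) • x)}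

/-- The subgroup generated by the universal relations. -/
def relSubgroup (A : ValuationSubring (AlgebraicClosure ℚ)) (σ₀ : GQ) (ℓ : Nat.Primes) :
    AddSubgroup (JZero N) :=
  AddSubgroup.closure (relSet (N := N) A σ₀ ℓ)

theorem relSubgroup_le {A : ValuationSubring (AlgebraicClosure ℚ)} {σ₀ : GQ} {ℓ : Nat.Primes}
    {W : AddSubgroup (JZero N)}
    (h1 : ∀ τ ∈ A.inertiaSubgroupIn ℚ, ∀ x : JZero N, τ • x - x ∈ W)
    (h2 : ∀ x : JZero N,
      σ₀ • σ₀ • x - heckeOperatorBar N ℓ (σ₀ • x) + (ℓ : ℕ) • x ∈ W) :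
    relSubgroup (N := N) A σ₀ ℓ ≤ W := by
  refine (AddSubgroup.closure_le W).mpr ?_
  rintro y (⟨τ, hτ, x, rfl⟩ | ⟨x, rfl⟩)
  · exact h1 τ hτ x
  · exact h2 x

end Core

/-- **Formal reduction of S37.** -/
theorem specializationExists_of_kernel (N p : ℕ) [NeZero N]
    (hcomm : HeckeOperatorsCommuteBar N)
    (H : ∀ ℓ : ℕ, (hℓ : ℓ.Prime) → ¬ ℓ ∣ N * p →
      ∀ A : ValuationSubring (AlgebraicClosure ℚ), A.LiesOverPrime ℓ →
        ∃ σ₀ : GQ, A.IsFrobeniusAt σ₀ ℓ ∧ ∃ W : AddSubgroup (JZero N),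
          (∀ τ ∈ A.inertiaSubgroupIn ℚ, ∀ x : JZero N, τ • x - x ∈ W) ∧
          (∀ x : JZero N,
            σ₀ • σ₀ • x - heckeOperatorBar N ⟨ℓ, hℓ⟩ (σ₀ • x) + ℓ • x ∈ W) ∧
          (∀ x ∈ W, (∃ n : ℕ, p ^ n • x = 0) → x = 0)) :
    letI := heckeModuleBar N
    ∀ (_ : SMulCommClass GQ HeckeAlg (JZero N)),
      SpecializationExists (K := ℚ) (L := AlgebraicClosure ℚ) N p (JZero N) := by
  letI := heckeModuleBar N
  intro hsmul ℓ hℓ hℓNp A hA
  obtain ⟨σ₀, hσ₀, W, hW1, hW2, hW3⟩ := H ℓ hℓ hℓNp A hA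
  have hσ₀dec : σ₀ ∈ A.decompositionSubgroup ℚ := hσ₀.mem_decompositionSubgroup
  set ℓ' : Nat.Primes := ⟨ℓ, hℓ⟩ with hℓ'
  have hgen : ∀ z : JZero N, heckeGen ℓ' • z = heckeOperatorBar N ℓ' z :=
    fun z => heckeModuleBar_heckeGen_smul hcomm ℓ' z
  -- the universal relation subgroup and its stability properties
  set M₀ : AddSubgroup (JZero N) := relSubgroup (N := N) A σ₀ ℓ' with hM₀
  have hM₀W : M₀ ≤ W := relSubgroup_le hW1 hW2
  have hrel1 : ∀ τ ∈ A.inertiaSubgroupIn ℚ, ∀ x : JZero N, τ • x - x ∈ M₀ := fun τ hτ x =>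
    AddSubgroup.subset_closure (Or.inl ⟨τ, hτ, x, rfl⟩)
  have hrel2 : ∀ x : JZero N,
      σ₀ • σ₀ • x - heckeOperatorBar N ℓ' (σ₀ • x) + (ℓ : ℕ) • x ∈ M₀ := fun x =>
    AddSubgroup.subset_closure (Or.inr ⟨x, rfl⟩)
  have hσzero : σ₀ • (0 : JZero N) = 0 := smul_zero (A := JZero N) σ₀
  have hσadd : ∀ x y : JZero N, σ₀ • (x + y) = σ₀ • x + σ₀ • y := fun x y => smul_add (A := JZero N) σ₀ x y
  have hσsub : ∀ x y : JZero N, σ₀ • (x - y) = σ₀ • x - σ₀ • y := fun x y => smul_sub (A := JZero N) σ₀ x y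
  have hσneg : ∀ x : JZero N, σ₀ • (-x) = -(σ₀ • x) := fun x => smul_neg (A := JZero N) σ₀ x
  have hσnsmul : ∀ (n : ℕ) (x : JZero N), σ₀ • (n • x) = n • (σ₀ • x) := fun n x =>
    map_nsmul (DistribSMul.toAddMonoidHom (JZero N) σ₀) n x
  have hσt : ∀ (t : HeckeAlg) (x : JZero N), σ₀ • (t • x) = t • (σ₀ • x) := fun t x =>
    smul_comm σ₀ t x
  have hsmulM : ∀ (t : HeckeAlg) (y : JZero N), y ∈ M₀ → t • y ∈ M₀ := by
    intro t y hy
    induction hy using AddSubgroup.closure_induction with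
    | mem y hy =>
      rcases hy with ⟨τ, hτ, x, rfl⟩ | ⟨x, rfl⟩
      · have : t • (τ • x - x) = τ • (t • x) - t • x := by
          rw [smul_sub, smul_comm τ t x]
        rw [this]
        exact hrel1 τ hτ (t • x)
      · have e1 : t • (σ₀ • (σ₀ • x)) = σ₀ • (σ₀ • (t • x)) := by
          rw [hσt t x, hσt t (σ₀ • x)]
        have e2 : t • (heckeGen ℓ' • (σ₀ • x)) = heckeGen ℓ' • (σ₀ • (t • x)) := by
          rw [hσt t x, smul_comm t (heckeGen ℓ') (σ₀ • x)]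
        have e3 : t • ((ℓ : ℕ) • x) = (ℓ : ℕ) • (t • x) := smul_comm t (ℓ : ℕ) x
        have : t • (σ₀ • σ₀ • x - heckeOperatorBar N ℓ' (σ₀ • x) + (ℓ : ℕ) • x) =
            σ₀ • σ₀ • (t • x) - heckeOperatorBar N ℓ' (σ₀ • (t • x)) + (ℓ : ℕ) • (t • x) := by
          rw [← hgen, ← hgen, smul_add, smul_sub, e1, e2, e3]
        rw [this]
        exact hrel2 (t • x)
    | zero => rw [smul_zero]; exact M₀.zero_mem
    | add y z _ _ hy hz => rw [smul_add]; exact M₀.add_mem hy hz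
    | neg y _ hy => rw [smul_neg]; exact M₀.neg_mem hy
  have hσM : ∀ y : JZero N, y ∈ M₀ → σ₀ • y ∈ M₀ := by
    intro y hy
    induction hy using AddSubgroup.closure_induction with
    | mem y hy =>
      rcases hy with ⟨τ, hτ, x, rfl⟩ | ⟨x, rfl⟩
      · have : σ₀ • (τ • x - x) = (σ₀ * τ * σ₀⁻¹) • (σ₀ • x) - σ₀ • x := by
          rw [hσsub, mul_smul, mul_smul, inv_smul_smul]
        rw [this]
        exact hrel1 _ (conj_mem_inertiaSubgroupIn hσ₀dec hτ) (σ₀ • x)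
      · have : σ₀ • (σ₀ • σ₀ • x - heckeOperatorBar N ℓ' (σ₀ • x) + (ℓ : ℕ) • x) =
            σ₀ • σ₀ • (σ₀ • x) - heckeOperatorBar N ℓ' (σ₀ • (σ₀ • x)) + (ℓ : ℕ) • (σ₀ • x) := by
          rw [← hgen, ← hgen, hσadd, hσsub, hσt (heckeGen ℓ') (σ₀ • x), hσnsmul]
        rw [this]
        exact hrel2 (σ₀ • x)
    | zero => rw [hσzero]; exact M₀.zero_mem
    | add y z _ _ hy hz => rw [hσadd]; exact M₀.add_mem hy hz
    | neg y _ hy => rw [hσneg]; exact M₀.neg_mem hy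
  -- package as a Hecke submodule
  let M : Submodule HeckeAlg (JZero N) :=
    { carrier := M₀
      add_mem' := fun ha hb => M₀.add_mem ha hb
      zero_mem' := M₀.zero_mem
      smul_mem' := fun t y hy => hsmulM t y hy }
  have hmemM : ∀ y : JZero N, y ∈ M ↔ y ∈ M₀ := fun y => Iff.rfl
  -- Frobenius as a Hecke-linear endomorphism
  let φ : JZero N →ₗ[HeckeAlg] JZero N :=
    { toFun := fun x => σ₀ • x
      map_add' := fun x y => hσadd x y
      map_smul' := fun t x => by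
        simp only [RingHom.id_apply]
        exact smul_comm σ₀ t x }
  have hφM : M ≤ M.comap φ := fun y hy => hσM y hy
  refine ⟨JZero N ⧸ M, inferInstance, inferInstance, M.mkQ.toAddMonoidHom,
    (M.mapQ M φ hφM).toAddMonoidHom, ⟨?_, ?_, ?_, ?_⟩, ?_⟩
  · -- Hecke equivariance
    intro T x
    exact map_smul M.mkQ T x
  · -- inertia
    intro τ hτ x
    show M.mkQ (τ • x) = M.mkQ x
    rw [← sub_eq_zero, ← map_sub, Submodule.mkQ_apply, Submodule.Quotient.mk_eq_zero]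
    exact hrel1 τ hτ x
  · -- Frobenius
    intro σ hσ x
    show M.mkQ (σ • x) = M.mapQ M φ hφM (M.mkQ x)
    rw [Submodule.mkQ_apply, Submodule.mkQ_apply, Submodule.mapQ_apply]
    show Submodule.Quotient.mk (σ • x) = Submodule.Quotient.mk (σ₀ • x)
    rw [← sub_eq_zero, ← Submodule.Quotient.mk_sub, Submodule.Quotient.mk_eq_zero]
    have hτ := inv_mul_mem_inertiaSubgroupIn hσ hσ₀
    have : σ • x - σ₀ • x = σ₀ • ((σ₀⁻¹ * σ) • x - x) := by
      rw [hσsub, mul_smul, smul_inv_smul]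
    rw [this]
    exact hσM _ (hrel1 _ hτ x)
  · -- injectivity on `p`-power torsion
    intro x hx hx0
    have hxM : x ∈ M := by
      rw [← Submodule.Quotient.mk_eq_zero]
      exact hx0
    exact hW3 x (hM₀W hxM) hx
  · -- the quadratic relation on the quotient
    intro y
    obtain ⟨x, rfl⟩ := M.mkQ_surjective y
    show M.mapQ M φ hφM (M.mapQ M φ hφM (M.mkQ x)) -
      heckeGen ⟨ℓ, hℓ⟩ • M.mapQ M φ hφM (M.mkQ x) + ℓ • M.mkQ x = 0
    rw [Submodule.mkQ_apply, Submodule.mapQ_apply, Submodule.mapQ_apply,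
      ← Submodule.Quotient.mk_smul, ← Submodule.Quotient.mk_sub, ← Submodule.Quotient.mk_smul,
      ← Submodule.Quotient.mk_add, Submodule.Quotient.mk_eq_zero]
    show σ₀ • σ₀ • x - heckeGen ℓ' • (σ₀ • x) + ℓ • x ∈ M₀
    rw [hgen]
    exact hrel2 x

/-- Variant of the formal reduction in which the relation is required for every Frobenius
element; existence of a Frobenius element comes from `Lib/helper54_Frobenius`. -/
theorem specializationExists_of_kernel' (N p : ℕ) [NeZero N]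
    (hcomm : HeckeOperatorsCommuteBar N)
    (H : ∀ ℓ : ℕ, (hℓ : ℓ.Prime) → ¬ ℓ ∣ N * p →
      ∀ A : ValuationSubring (AlgebraicClosure ℚ), A.LiesOverPrime ℓ →
        ∃ W : AddSubgroup (JZero N),
          (∀ τ ∈ A.inertiaSubgroupIn ℚ, ∀ x : JZero N, τ • x - x ∈ W) ∧
          (∀ σ : GQ, A.IsFrobeniusAt σ ℓ → ∀ x : JZero N,
            σ • σ • x - heckeOperatorBar N ⟨ℓ, hℓ⟩ (σ • x) + ℓ • x ∈ W) ∧
          (∀ x ∈ W, (∃ n : ℕ, p ^ n • x = 0) → x = 0)) :
    letI := heckeModuleBar N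
    ∀ (_ : SMulCommClass GQ HeckeAlg (JZero N)),
      SpecializationExists (K := ℚ) (L := AlgebraicClosure ℚ) N p (JZero N) := by
  refine specializationExists_of_kernel N p hcomm ?_
  intro ℓ hℓ hℓNp A hA
  obtain ⟨W, h1, h2, h3⟩ := H ℓ hℓ hℓNp A hA
  obtain ⟨σ₀, hσ₀⟩ := Fermat.Agent.Lib.helper54.exists_isFrobeniusAt hℓ A hA
  exact ⟨σ₀, hσ₀, W, h1, h2 σ₀ hσ₀, h3⟩

/-- Variant with a "reduction map" `red : JZero N →+ G` into an arbitrary additive group. -/
theorem specializationExists_of_red (N p : ℕ) [NeZero N]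
    (hcomm : HeckeOperatorsCommuteBar N)
    (H : ∀ ℓ : ℕ, (hℓ : ℓ.Prime) → ¬ ℓ ∣ N * p →
      ∀ A : ValuationSubring (AlgebraicClosure ℚ), A.LiesOverPrime ℓ →
        ∃ (G : Type) (_ : AddCommGroup G) (red : JZero N →+ G),
          (∀ τ ∈ A.inertiaSubgroupIn ℚ, ∀ x : JZero N, red (τ • x) = red x) ∧
          (∀ σ : GQ, A.IsFrobeniusAt σ ℓ → ∀ x : JZero N,
            red (σ • σ • x - heckeOperatorBar N ⟨ℓ, hℓ⟩ (σ • x) + ℓ • x) = 0) ∧
          (∀ x : JZero N, (∃ n : ℕ, p ^ n • x = 0) → red x = 0 → x = 0)) :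
    letI := heckeModuleBar N
    ∀ (_ : SMulCommClass GQ HeckeAlg (JZero N)),
      SpecializationExists (K := ℚ) (L := AlgebraicClosure ℚ) N p (JZero N) := by
  refine specializationExists_of_kernel' N p hcomm ?_
  intro ℓ hℓ hℓNp A hA
  obtain ⟨G, _, red, h1, h2, h3⟩ := H ℓ hℓ hℓNp A hA
  refine ⟨red.ker, ?_, ?_, ?_⟩
  · intro τ hτ x
    rw [AddMonoidHom.mem_ker, map_sub, h1 τ hτ x, sub_self]
  · intro σ hσ x
    exact AddMonoidHom.mem_ker.mpr (h2 σ hσ x)
  · intro x hx hp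
    exact h3 x hp (AddMonoidHom.mem_ker.mp hx)

end Fermat.Agent.S37.helper4699

end
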