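import Fermat.Agent.S37.helper4799_TrackBCharts
import Fermat.Agent.S37.helper37_TrackBTors
import Fermat.Agent.S37.helper3258_ChartTrackB
import Fermat.Agent.S18.helper8351_NFDescent

/-!
# S37, Track B: the node `NodeFrame` (helper4799)

`helper37.NodeFrame M ℓ` (see `helper37_TrackBTors`): at every number-field layer `K₀ ⊆ ℚ̄`, for
`O = A ∩ K₀` (a discrete valuation ring), `π` a uniformiser of `O`, and
`V = helper8991.gaussF O (residue) M` the Gauss valuation ring of the `K₀`-form `F_{M,K₀}`:

* `LayerFrame O π j V` : `O` is a DVR, `V ∩ K₀ = O`, every nonzero function is a power of `π`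
  times a unit of `V`, `j` is a unit of `V`, `K₀` is algebraically closed in the function field,
  and (H3);
* `ChartFrame O π j V`, `ChartFrame O π j⁻¹ V` : (H2) saturation, finiteness over `O[t]`, every
  function is a fraction of chart elements.

Main theorem: `nodeFrame (M ℓ) [NeZero M] (hℓ : ℓ.Prime) (hℓM : ¬ ℓ ∣ M) : helper37.NodeFrame M ℓ`.

Everything is an instance of the two-chart model of `helper4799_TrackBCharts`; the new inputs
are the value group of the Gauss valuation (`helper8991.exists_const_mul_unit_F`), the symmetric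
treatment of the chart at infinity (`K(j⁻¹) = K(j)`), and the dictionary between the `Subring`
vocabulary of `helper37_TrackB` and `Algebra.adjoin` (`helper3258_ChartTrackB`).
-/

set_option autoImplicit false
set_option linter.style.haveILetI false

noncomputable section

namespace Fermat.Agent.S37.helper4799

open ModularCurve Polynomial IntermediateField
open Fermat.Agent.Lib.helper28 Fermat.Agent.Lib.helper4714 Fermat.Agent.S18 Fermat.Agent.S29

/-! ## Generic lemmas -/

section GenericFrac

variable {O K F : Type*} [CommRing O] [Field K] [Algebra O K] [IsFractionRing O K]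
  [Field F] [Algebra K F] [Algebra O F] [IsScalarTower O K F]

/-- If `F` is finite over `K(x)` and `K = Frac O`, every element of `F` is algebraic over
`O[x]`. -/
theorem isAlgebraic_adjoin_of_finiteDimensional (x : F) [FiniteDimensional K⟮x⟯ F] (f : F) :
    IsAlgebraic (Algebra.adjoin O ({x} : Set F)) f := by
  classical
  set A : Subalgebra O F := Algebra.adjoin O ({x} : Set F) with hA
  haveI : FaithfulSMul A F := (faithfulSMul_iff_algebraMap_injective A F).mpr Subtype.val_injective
  letI : Algebra (FractionRing A) F := FractionRing.liftAlgebra A F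
  haveI : IsScalarTower A (FractionRing A) F := FractionRing.isScalarTower_liftAlgebra A F
  have hle : K⟮x⟯.toSubfield ≤ (algebraMap (FractionRing A) F).fieldRange := by
    rw [IntermediateField.adjoin_toSubfield, Subfield.closure_le]
    rintro y (⟨k, rfl⟩ | hy)
    · obtain ⟨a, b, -, rfl⟩ := IsFractionRing.div_surjective O k
      have h1 : ∀ c : O, algebraMap O F c ∈ (algebraMap (FractionRing A) F).fieldRange := by
        intro c
        refine ⟨algebraMap A (FractionRing A) (algebraMap O A c), ?_⟩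
        rw [← IsScalarTower.algebraMap_apply A (FractionRing A) F]
        rfl
      rw [map_div₀, ← IsScalarTower.algebraMap_apply O K F, ← IsScalarTower.algebraMap_apply O K F]
      exact div_mem (h1 a) (h1 b)
    · rw [Set.mem_singleton_iff] at hy
      subst hy
      refine ⟨algebraMap A (FractionRing A) ⟨y, Algebra.self_mem_adjoin_singleton O y⟩, ?_⟩
      rw [← IsScalarTower.algebraMap_apply A (FractionRing A) F]
      rfl
  haveI : FiniteDimensional (FractionRing A) F := by
    obtain ⟨s, hs⟩ := (Module.Finite.fg_top : (⊤ : Submodule K⟮x⟯ F).FG)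
    refine ⟨⟨s, ?_⟩⟩
    rw [eq_top_iff]
    rintro g -
    have hg : g ∈ Submodule.span K⟮x⟯ (s : Set F) := by rw [hs]; trivial
    induction hg using Submodule.span_induction with
    | mem v hv => exact Submodule.subset_span hv
    | zero => exact Submodule.zero_mem _
    | add v w _ _ ihv ihw => exact Submodule.add_mem _ ihv ihw
    | smul c v _ ih =>
      obtain ⟨c', hc'⟩ := hle c.2
      have : c • v = c' • v := by
        rw [Algebra.smul_def c' v, hc']
        rfl
      rw [this]
      exact Submodule.smul_mem _ _ ih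
  have halg : IsAlgebraic (FractionRing A) f := Algebra.IsAlgebraic.isAlgebraic f
  exact (IsFractionRing.isAlgebraic_iff A (FractionRing A) F).mpr halg

/-- `frac`, generic: if `F` is finite over `K(x)` and `K = Frac O`, every element of `F` has a
nonzero denominator in `O[x]` making it integral over `O[x]`. -/
theorem exists_adjoin_mul_isIntegral_of_finiteDimensional (x : F) [FiniteDimensional K⟮x⟯ F]
    (f : F) :
    ∃ d : F, d ∈ Algebra.adjoin O ({x} : Set F) ∧ d ≠ 0 ∧
      IsIntegral (Algebra.adjoin O ({x} : Set F)) (d * f) := by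
  obtain ⟨y, hy0, hint⟩ :=
    (isAlgebraic_adjoin_of_finiteDimensional (O := O) (K := K) x f).exists_integral_multiple
  exact ⟨y, y.2, fun h => hy0 (Subtype.ext h), hint⟩

end GenericFrac

section GenericField

variable {K F : Type*} [Field K] [Field F] [Algebra K F]

/-- `K(x⁻¹) = K(x)`. -/
theorem adjoin_simple_inv_eq (x : F) : K⟮x⁻¹⟯ = K⟮x⟯ := by
  apply le_antisymm
  · rw [IntermediateField.adjoin_simple_le_iff]
    exact inv_mem (IntermediateField.mem_adjoin_simple_self K x)
  · rw [IntermediateField.adjoin_simple_le_iff]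
    have h := inv_mem (IntermediateField.mem_adjoin_simple_self K x⁻¹)
    rwa [inv_inv] at h

/-- Finiteness over `K(x)` transfers to `K(x⁻¹)`. -/
theorem finiteDimensional_adjoin_simple_inv (x : F) [h : FiniteDimensional K⟮x⟯ F] :
    FiniteDimensional K⟮x⁻¹⟯ F := by
  rw [adjoin_simple_inv_eq]
  exact h

end GenericField

section GenericSpan

variable {R F : Type*} [CommRing R] [CommRing F] [Algebra R F]

/-- A span over a subalgebra is contained in the span over any subring containing it. -/
theorem mem_span_subring_of_mem_span_subalgebra (A : Subalgebra R F) (P : Subring F)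
    (h : ∀ a ∈ A, a ∈ P) (S : Set F) {b : F} (hb : b ∈ Submodule.span A S) :
    b ∈ Submodule.span P S := by
  induction hb using Submodule.span_induction with
  | mem v hv => exact Submodule.subset_span hv
  | zero => exact Submodule.zero_mem _
  | add v w _ _ ihv ihw => exact Submodule.add_mem _ ihv ihw
  | smul c v _ ih =>
    have h1 : c • v = (⟨(c : F), h c c.2⟩ : P) • v := rfl
    rw [h1]
    exact Submodule.smul_mem _ _ ih

end GenericSpan

/-! ## The modular frame -/

section Modular

variable {K : Type} [Field K] [Algebra ℚ K] (O : ValuationSubring K) (N : ℕ)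

set_option quotPrecheck false in
local notation "𝔽" => ↥(laurentBaseChange K (modularFunctionFieldFull N))

set_option quotPrecheck false in
local notation "𝕍" => helper8991.gaussF O (IsLocalRing.residue ↥O) N

set_option quotPrecheck false in
local notation "𝕩" => helper36.jL K N

/-- A unit of `O` has Gauss valuation one. -/
theorem valuation_algebraMap_unit (w : (↥O)ˣ) :
    (𝕍).valuation (algebraMap K 𝔽 ((w : ↥O) : K)) = 1 := by
  have hunit : IsUnit (⟨algebraMap K 𝔽 ((w : ↥O) : K), algebraMap_mem_gaussV O N w⟩ : ↥𝕍) := by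
    refine IsUnit.of_mul_eq_one
      (⟨algebraMap K 𝔽 (((w⁻¹ : (↥O)ˣ) : ↥O) : K), algebraMap_mem_gaussV O N _⟩ : ↥𝕍) ?_
    apply Subtype.ext
    show algebraMap K 𝔽 ((w : ↥O) : K) * algebraMap K 𝔽 (((w⁻¹ : (↥O)ˣ) : ↥O) : K) = 1
    rw [← map_mul]
    have h1 : ((w : ↥O) : K) * (((w⁻¹ : (↥O)ˣ) : ↥O) : K) = 1 :=
      congrArg Subtype.val (Units.mul_inv w)
    rw [h1, map_one]
  exact (ValuationSubring.valuation_eq_one_iff _ _).mp hunit

omit [Algebra ℚ K] in
/-- In the fraction field of a discrete valuation ring, every nonzero element is a unit times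
an integral power of the uniformiser. -/
theorem exists_zpow_mul_eq_unit [IsDiscreteValuationRing ↥O] {π : O} (hπ : Irreducible π)
    (c : K) (hc : c ≠ 0) :
    ∃ (n : ℤ) (w : (↥O)ˣ), c * (π : K) ^ n = ((w : ↥O) : K) := by
  have key : ∀ a : ↥O, a ≠ 0 → ∃ (m : ℕ) (w : (↥O)ˣ),
      (a : K) = ((w : ↥O) : K) * (π : K) ^ m := by
    intro a ha
    obtain ⟨m, w, h⟩ := IsDiscreteValuationRing.eq_unit_mul_pow_irreducible ha hπ
    exact ⟨m, w, by rw [h]; rfl⟩
  have hπ0 : (π : K) ≠ 0 := fun h => hπ.ne_zero (Subtype.ext h)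
  rcases O.mem_or_inv_mem c with h | h
  · obtain ⟨m, w, hw⟩ := key ⟨c, h⟩ (fun h0 => hc (congrArg Subtype.val h0))
    refine ⟨-(m : ℤ), w, ?_⟩
    have h1 : c = ((w : ↥O) : K) * (π : K) ^ m := hw
    rw [h1, zpow_neg, zpow_natCast, mul_assoc, mul_inv_cancel₀ (pow_ne_zero m hπ0), mul_one]
  · obtain ⟨m, w, hw⟩ := key ⟨c⁻¹, h⟩ (fun h0 => inv_ne_zero hc (congrArg Subtype.val h0))
    refine ⟨(m : ℤ), w⁻¹, ?_⟩
    have h1 : c⁻¹ = ((w : ↥O) : K) * (π : K) ^ m := hw
    have h2 : ((w : ↥O) : K) * (((w⁻¹ : (↥O)ˣ) : ↥O) : K) = 1 :=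
      congrArg Subtype.val (Units.mul_inv w)
    have hw0 : ((w : ↥O) : K) ≠ 0 := left_ne_zero_of_mul_eq_one h2
    have h3 : (((w⁻¹ : (↥O)ˣ) : ↥O) : K) = ((w : ↥O) : K)⁻¹ := eq_inv_of_mul_eq_one_right h2
    have h4 : c = (((w : ↥O) : K) * (π : K) ^ m)⁻¹ := by rw [← h1, inv_inv]
    rw [h3, h4, zpow_natCast, mul_inv, mul_assoc, inv_mul_cancel₀ (pow_ne_zero m hπ0), mul_one]

/-- **`unif`**: the value group of the Gauss valuation is generated by the value of the
uniformiser of `O`. -/
theorem exists_zpow_valuation_eq_one [IsDiscreteValuationRing ↥O] {π : O} (hπ : Irreducible π)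
    (y : 𝔽) (hy : y ≠ 0) :
    ∃ n : ℤ, (𝕍).valuation (y * algebraMap K 𝔽 (π : K) ^ n) = 1 := by
  obtain ⟨c, u, hc0, hu, hyc⟩ :=
    helper8991.exists_const_mul_unit_F O (IsLocalRing.residue ↥O) N y hy
  obtain ⟨n, w, hw⟩ := exists_zpow_mul_eq_unit O hπ c hc0
  refine ⟨n, ?_⟩
  have hu' : IsUnit u := (helper8991.isUnit_iff_gaussFRed_ne_zero O _ N u).mpr hu
  have h1 : y * algebraMap K 𝔽 (π : K) ^ n = algebraMap K 𝔽 ((w : ↥O) : K) * (u : 𝔽) := by
    rw [hyc, ← hw, map_mul, map_zpow₀]
    ring
  rw [h1, map_mul, valuation_algebraMap_unit, one_mul]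
  exact (ValuationSubring.valuation_eq_one_iff _ _).mp hu'

/-- **The layer frame** of the modular two-chart model at a discrete-valuation layer. -/
theorem layerFrame_modular [IsDiscreteValuationRing ↥O] {π : O} (hπ : Irreducible π) :
    helper37.LayerFrame O π 𝕩 𝕍 := by
  have hπmax : IsLocalRing.maximalIdeal ↥O = Ideal.span {π} := hπ.maximalIdeal_eq
  have hπm : π ∈ IsLocalRing.maximalIdeal ↥O := by
    rw [hπmax]
    exact Ideal.mem_span_singleton_self π
  refine
    { dvr := inferInstance
      irreducible := hπ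
      comap := ?_
      unif := exists_zpow_valuation_eq_one O N hπ
      x_mem := jL_mem_gaussV O N
      x_inv_mem := jL_inv_mem_gaussV O N
      x_ne_zero := jL_ne_zero' N
      const := ?_
      h3 := ?_ }
  · intro c
    exact helper8991.algebraMap_mem_gaussF_iff O (IsLocalRing.residue ↥O) N
      (fun a ha => (IsLocalRing.residue_eq_zero_iff a).mpr ha) c
  · intro y hy
    have hyK : IsAlgebraic K (y : LaurentSeries K) :=
      hy.isAlgebraic.algHom (laurentBaseChange K (modularFunctionFieldFull N)).val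
    obtain ⟨c, hc⟩ := laurent_eq_algebraMap_of_isAlgebraic _ hyK
    exact ⟨c, Subtype.ext hc⟩
  · rintro b hb b' hb' ⟨w, hw, hbw⟩
    rw [helper3258.mem_finChartOf_iff_adjoin O] at hb hb'
    have hnon : b - b' ∈ (𝕍).nonunits := by
      rw [hbw, mul_comm]
      exact helper1812.ktMulMemNonunits _ hw (algebraMap_mem_nonunits_gaussV O N hπm)
    obtain ⟨c, hc⟩ := exists_sub_algebraMap_mem_nonunits O N hb hb' hnon
    obtain ⟨w', hw', h'⟩ := exists_eq_mul_of_mem_nonunits O N hπmax _ hc
    refine ⟨c, w', hw', ?_⟩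
    have h'' : b - algebraMap K 𝔽 (c : K) = algebraMap K 𝔽 (π : K) * w' := h'
    rw [← h'']
    ring

/-- Element form of (FIN) for an arbitrary coordinate `t`, in the `Subring` vocabulary of
`helper37_TrackB`. -/
theorem chartFrame_fg [IsDiscreteValuationRing ↥O] (t : 𝔽) (ht : Transcendental K t)
    [FiniteDimensional K⟮t⟯ 𝔽] :
    ∃ S : Finset 𝔽, ∀ b ∈ helper37.finChartOf O t,
      b ∈ Submodule.span ↥(helper37.polyRing O t) (S : Set 𝔽) := by
  have : CharZero K := algebraRat.charZero K
  have : IsScalarTower ↥O K 𝔽 := IsScalarTower.of_algebraMap_eq' rfl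
  obtain ⟨S, hS⟩ := Fermat.Agent.S37.helper4314.chart_fg (O := ↥O) (K := K) t ht
  refine ⟨S, fun b hb => ?_⟩
  have hb' : b ∈ Submodule.span (Algebra.adjoin ↥O ({t} : Set 𝔽)) (S : Set 𝔽) := by
    rw [hS]
    exact (helper3258.mem_finChartOf_iff_adjoin O).mp hb
  exact mem_span_subring_of_mem_span_subalgebra _ _
    (fun a ha => (helper3258.mem_polyRing_iff_adjoin O).mpr ha) _ hb'

/-- Element form of `frac` for an arbitrary coordinate `t`, in the `Subring` vocabulary of
`helper37_TrackB`. -/
theorem chartFrame_frac (t : 𝔽) [FiniteDimensional K⟮t⟯ 𝔽] (f : 𝔽) :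
    ∃ d ∈ helper37.finChartOf O t, d ≠ 0 ∧ d * f ∈ helper37.finChartOf O t := by
  have : IsScalarTower ↥O K 𝔽 := IsScalarTower.of_algebraMap_eq' rfl
  obtain ⟨d, hd, hd0, hint⟩ :=
    exists_adjoin_mul_isIntegral_of_finiteDimensional (O := ↥O) (K := K) t f
  refine ⟨d, ?_, hd0, (helper3258.mem_finChartOf_iff_adjoin O).mpr hint⟩
  exact helper37.polyRing_le_finChartOf O t ((helper3258.mem_polyRing_iff_adjoin O).mpr hd)

variable [NeZero N]

/-- **The chart frame of the finite chart** `finChartOf O j`. -/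
theorem chartFrame_modular [IsDiscreteValuationRing ↥O] (hN : GoodLevel O N) {π : O}
    (hπ : Irreducible π) : helper37.ChartFrame O π 𝕩 𝕍 := by
  have : CharZero K := algebraRat.charZero K
  have : FiniteDimensional K⟮𝕩⟯ 𝔽 := helper36.finiteDimensional_jL K N
  refine
    { sat := ?_
      fg := chartFrame_fg O N 𝕩 (helper36.transcendental_jL K N)
      frac := chartFrame_frac O N 𝕩 }
  intro y hy h
  rw [helper3258.mem_finChartOf_iff_adjoin O] at h ⊢
  exact isIntegral_adjoin_jL_of_mul O N hN hπ.ne_zero hy h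

/-- **The chart frame of the chart at infinity** `finChartOf O j⁻¹`. -/
theorem chartFrame_inv_modular [IsDiscreteValuationRing ↥O] (hN : GoodLevel O N) {π : O}
    (hπ : Irreducible π) : helper37.ChartFrame O π (𝕩)⁻¹ 𝕍 := by
  have : CharZero K := algebraRat.charZero K
  have : FiniteDimensional K⟮𝕩⟯ 𝔽 := helper36.finiteDimensional_jL K N
  have : FiniteDimensional K⟮(𝕩)⁻¹⟯ 𝔽 := finiteDimensional_adjoin_simple_inv 𝕩
  refine
    { sat := ?_
      fg := chartFrame_fg O N (𝕩)⁻¹ (transcendental_inv (helper36.transcendental_jL K N))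
      frac := chartFrame_frac O N (𝕩)⁻¹ }
  intro y hy h
  rw [helper3258.mem_finChartOf_iff_adjoin O] at h ⊢
  exact isIntegral_adjoin_jL_inv_of_mul O N hN hπ.ne_zero hy h

end Modular

/-! ## The node -/

section Node

open Fermat.Agent.S24.helper24 (Kbar)

/-- **Node (FRAME)** of Track B, for every prime `ℓ` not dividing the level `M`. -/
theorem nodeFrame (M ℓ : ℕ) [NeZero M] (hℓ : ℓ.Prime) (hℓM : ¬ ℓ ∣ M) :
    helper37.NodeFrame M ℓ := by
  intro A hA
  refine ⟨⊥, inferInstance, ?_⟩
  intro K₀ _ hfin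
  haveI := hfin
  haveI hdvr : IsDiscreteValuationRing ↥(helper37.OL A K₀) :=
    helper8351.isDiscreteValuationRing_comap A K₀ hℓ hA
  obtain ⟨π, hπ⟩ := IsDiscreteValuationRing.exists_irreducible ↥(helper37.OL A K₀)
  have hN : GoodLevel (helper37.OL A K₀) M :=
    goodLevel_of_natCast_mem_nonunits (helper37.OL A K₀) M hℓ
      (helper8351.natCast_mem_nonunits_comap A K₀ hA) hℓM
  exact ⟨π, helper8991.gaussF (helper37.OL A K₀) (IsLocalRing.residue _) M,
    layerFrame_modular (helper37.OL A K₀) M hπ,
    chartFrame_modular (helper37.OL A K₀) M hN hπ,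
    chartFrame_inv_modular (helper37.OL A K₀) M hN hπ⟩

end Node

end Fermat.Agent.S37.helper4799

end
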