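import Fermat.Agent.S37.helper4799_TwoChartGeneric
import Fermat.Agent.Lib.helper28_IgusaModular
import Fermat.Agent.Lib.helper4714_IgusaIntegral
import Fermat.Agent.S29.helper36_FunctionFieldL
import Fermat.Agent.S37.helper4314_ChartFinite
import Fermat.Agent.S37.helper1812_KummerCharts

/-!
# S37-TB-CHARTS (helper4799): the two-chart model over a valuation-ring layer

Setting: `K` any field of characteristic zero (in the application a number field inside `ℚ̄`),
`O : ValuationSubring K` (in the application `O = A ∩ K`, a discrete valuation ring),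
`N` a level, `𝔽 = laurentBaseChange K (modularFunctionFieldFull N)` the function field of
`X₀(N)` over `K`, `x = jL K N` the `j`-function, `𝕍 = helper8991.gaussF O (residue O) N` the
Gauss valuation subring of `𝔽`.  The two charts are the integral closures of `O[x]` and of
`O[x⁻¹]` in `𝔽` (in the `IsIntegral (Algebra.adjoin O {x}) ·` form).

Every theorem below is stated in the exact shape of one hypothesis of the two-chart Kummer
theorem `kummer_trivial` (weight-one proof, Track B of S37):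

* `algebraMap_mem_gaussV`, `jL_mem_gaussV`, `jL_inv_mem_gaussV`, `jL_ne_zero'` : `hOV`, `hxV`,
  `hxV'`, `hx`;
* `algebraMap_mem_nonunits_gaussV`, `algebraMap_ne_zero'`, `exists_eq_mul_of_mem_nonunits` :
  `hπV`, `hπ0`, `hVmax` (maximal ideal of `𝕍` is `π 𝕍`);
* `mem_range_of_isIntegral` : `hOcl` (`O` is integrally closed in `𝔽`);
* `isIntegral_adjoin_jL_of_mul`, `isIntegral_adjoin_jL_inv_of_mul` : **(H2)** `hsat0`, `hsat1`;
* `exists_sub_algebraMap_mem_nonunits` : **(H3)** `hH3`;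
* `isIntegral_mem_gaussV`, `isIntegral_inv_mem_gaussV` : both charts lie in `𝕍`;
* `exists_adjoin_mul_isIntegral`, `isAlgebraic_adjoin_jL` : `hden`, `hUalg`;
* `chart_fg_jL`, `exists_finset_span_of_isIntegral` : **(FIN)** `hfg`, `hfin` (DVR layer);
* `goodLevel_of_natCast_mem_nonunits` : the level hypothesis from `ℓ ∤ N`;
* `kummer_trivial_modular` : the one-call instance of `helper1812.kummer_trivial_charts`
  (= `helper7942.kummer_w1_const`) at the modular layer, with only (LOC) left.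
-/

set_option autoImplicit false

noncomputable section

namespace Fermat.Agent.S37.helper4799

open ModularCurve Polynomial
open Fermat.Agent.Lib.helper28 Fermat.Agent.Lib.helper4714 Fermat.Agent.S18 Fermat.Agent.S29

/-! ## Integral over `R[h]`, polynomial form -/

section Bridge

variable {R E : Type*} [CommRing R] [CommRing E] [Algebra R E]

/-- Integral over the subalgebra `R[h]` implies integral for the ring hom `P ↦ P(h)`. -/
theorem isIntegralElem_aeval_of_isIntegral_adjoin {h y : E}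
    (hy : IsIntegral (Algebra.adjoin R ({h} : Set E)) y) :
    ((aeval h : R[X] →ₐ[R] E) : R[X] →+* E).IsIntegralElem y := by
  obtain ⟨p, hp, hroot⟩ := hy
  set φ : R[X] →+* ↥(Algebra.adjoin R ({h} : Set E)) :=
    (aeval (⟨h, Algebra.subset_adjoin rfl⟩ : ↥(Algebra.adjoin R ({h} : Set E)))).toRingHom
    with hφdef
  have hval : ∀ Q : R[X], ((φ Q : ↥(Algebra.adjoin R ({h} : Set E))) : E) = aeval h Q := fun Q =>
    (Polynomial.aeval_algHom_apply (Algebra.adjoin R ({h} : Set E)).val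
      (⟨h, Algebra.subset_adjoin rfl⟩ : ↥(Algebra.adjoin R ({h} : Set E))) Q).symm
  have hφ : Function.Surjective φ := by
    rintro ⟨z, hz⟩
    have hz' := hz
    rw [Algebra.adjoin_singleton_eq_range_aeval] at hz'
    obtain ⟨Q, hQ⟩ := hz'
    exact ⟨Q, Subtype.ext ((hval Q).trans hQ)⟩
  have hlift : p ∈ lifts φ := by
    rw [lifts_iff_coeff_lifts]
    intro i
    exact hφ _
  obtain ⟨P, hPp, -, hPmonic⟩ := lifts_and_natDegree_eq_and_monic hlift hp
  refine ⟨P, hPmonic, ?_⟩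
  have hcomp : (algebraMap ↥(Algebra.adjoin R ({h} : Set E)) E).comp φ
      = ((aeval h : R[X] →ₐ[R] E) : R[X] →+* E) :=
    RingHom.ext fun Q => hval Q
  rw [← hcomp, ← eval₂_map, hPp]
  exact hroot

/-- Integral for the ring hom `P ↦ P(h)` implies integral over the subalgebra `R[h]`. -/
theorem isIntegral_adjoin_of_isIntegralElem_aeval {h y : E}
    (hy : ((aeval h : R[X] →ₐ[R] E) : R[X] →+* E).IsIntegralElem y) :
    IsIntegral (Algebra.adjoin R ({h} : Set E)) y := by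
  obtain ⟨p, hp, hroot⟩ := hy
  set φ : R[X] →+* ↥(Algebra.adjoin R ({h} : Set E)) :=
    (aeval (⟨h, Algebra.subset_adjoin rfl⟩ : ↥(Algebra.adjoin R ({h} : Set E)))).toRingHom
    with hφdef
  have hval : ∀ Q : R[X], ((φ Q : ↥(Algebra.adjoin R ({h} : Set E))) : E) = aeval h Q := fun Q =>
    (Polynomial.aeval_algHom_apply (Algebra.adjoin R ({h} : Set E)).val
      (⟨h, Algebra.subset_adjoin rfl⟩ : ↥(Algebra.adjoin R ({h} : Set E))) Q).symm
  have hcomp : (algebraMap ↥(Algebra.adjoin R ({h} : Set E)) E).comp φ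
      = ((aeval h : R[X] →ₐ[R] E) : R[X] →+* E) :=
    RingHom.ext fun Q => hval Q
  refine ⟨p.map φ, hp.map _, ?_⟩
  rw [eval₂_map, hcomp]
  exact hroot

end Bridge

/-! ## Integral over `O[h]`: subalgebra form versus `evAt` form -/

section EvAt

variable {K : Type*} [Field K] (O : ValuationSubring K) {E E' : Type*} [Field E] [Field E']
  [Algebra K E] [Algebra K E']

theorem comp_aeval_eq_evAt (ι : E →ₐ[K] E') (h : E) :
    (ι : E →+* E').comp ((aeval h : (↥O)[X] →ₐ[↥O] E) : (↥O)[X] →+* E) = evAt O (ι h) := by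
  refine Polynomial.ringHom_ext (fun c => ?_) ?_
  · rw [RingHom.comp_apply, evAt_C]
    show ι (aeval h (C c)) = _
    rw [aeval_C]
    exact ι.commutes (c : K)
  · rw [RingHom.comp_apply, evAt_X]
    show ι (aeval h X) = _
    rw [aeval_X]

/-- **Dictionary**: `f` is integral over the subalgebra `O[h]` of `E` iff its image is integral
for `P ↦ P(ι h)`, `O[X] → E'`. -/
theorem isIntegral_adjoin_iff_evAt (ι : E →ₐ[K] E') (h f : E) :
    IsIntegral (Algebra.adjoin ↥O ({h} : Set E)) f ↔ (evAt O (ι h)).IsIntegralElem (ι f) := by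
  constructor
  · intro hf
    obtain ⟨P, hP, hroot⟩ := isIntegralElem_aeval_of_isIntegral_adjoin hf
    refine ⟨P, hP, ?_⟩
    rw [← comp_aeval_eq_evAt O ι h]
    have h0 := hom_eval₂ P ((aeval h : (↥O)[X] →ₐ[↥O] E) : (↥O)[X] →+* E) (ι : E →+* E') f
    rw [hroot, map_zero] at h0
    exact h0.symm
  · rintro ⟨P, hP, hroot⟩
    apply isIntegral_adjoin_of_isIntegralElem_aeval
    refine ⟨P, hP, ?_⟩
    rw [← comp_aeval_eq_evAt O ι h] at hroot
    have h0 := hom_eval₂ P ((aeval h : (↥O)[X] →ₐ[↥O] E) : (↥O)[X] →+* E) (ι : E →+* E') f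
    have h1 : (ι : E →+* E') (eval₂ ((aeval h : (↥O)[X] →ₐ[↥O] E) : (↥O)[X] →+* E) f P) = 0 :=
      h0.trans hroot
    exact (map_eq_zero_iff (ι : E →+* E') ι.injective).mp h1

end EvAt

/-! ## Valuation subrings are integrally closed (elementwise form) -/

section ValSub

variable {F : Type*} [Field F] (V : ValuationSubring F) {R : Type*} [CommRing R] [Algebra R F]

/-- An element integral over a ring mapping into `V` lies in `V`. -/
theorem mem_valuationSubring_of_isIntegral (hR : ∀ r : R, algebraMap R F r ∈ V) {f : F}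
    (hf : IsIntegral R f) : f ∈ V := by
  obtain ⟨p, hp, hroot⟩ := hf
  let ψ : R →+* ↥V := (algebraMap R F).codRestrict V hR
  have hcomp : (algebraMap ↥V F).comp ψ = algebraMap R F := RingHom.ext fun _ => rfl
  have hint : IsIntegral ↥V f := ⟨p.map ψ, hp.map ψ, by rw [eval₂_map, hcomp]; exact hroot⟩
  obtain ⟨y, hy⟩ := IsIntegrallyClosed.isIntegral_iff.mp hint
  rw [← hy]
  exact y.2

/-- `R[t] ⊆ V` as soon as `R` maps into `V` and `t ∈ V`. -/
theorem adjoin_singleton_le_valuationSubring (hR : ∀ r : R, algebraMap R F r ∈ V) {t : F}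
    (ht : t ∈ V) (r : Algebra.adjoin R ({t} : Set F)) :
    algebraMap (Algebra.adjoin R ({t} : Set F)) F r ∈ V := by
  let V' : Subalgebra R F := { V.toSubring.toSubsemiring with algebraMap_mem' := hR }
  have hle : Algebra.adjoin R ({t} : Set F) ≤ V' :=
    Algebra.adjoin_le (Set.singleton_subset_iff.mpr (show t ∈ V' from ht))
  exact hle r.2

/-- The integral closure of `R[t]` lies in `V` as soon as `R` maps into `V` and `t ∈ V`. -/
theorem mem_valuationSubring_of_isIntegral_adjoin (hR : ∀ r : R, algebraMap R F r ∈ V) {t : F}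
    (ht : t ∈ V) {f : F} (hf : IsIntegral (Algebra.adjoin R ({t} : Set F)) f) : f ∈ V :=
  mem_valuationSubring_of_isIntegral V (adjoin_singleton_le_valuationSubring V hR ht) hf

end ValSub

/-! ## The modular two-chart package -/

section Modular

variable {K : Type} [Field K] [Algebra ℚ K] (O : ValuationSubring K) (N : ℕ)

set_option quotPrecheck false in
local notation "𝔽" => ↥(laurentBaseChange K (modularFunctionFieldFull N))

set_option quotPrecheck false in
local notation "𝕍" => helper8991.gaussF O (IsLocalRing.residue ↥O) N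

set_option quotPrecheck false in
local notation "𝕩" => helper36.jL K N

set_option quotPrecheck false in
local notation "ρ𝕍" => helper8991.gaussFRed O (IsLocalRing.residue ↥O) N

/-- Membership in the Gauss valuation subring is membership of the `q`-expansion in the big
Gauss ring. -/
theorem mem_gaussV_iff (f : 𝔽) :
    f ∈ 𝕍 ↔ (f : LaurentSeries K) ∈ helper8991.gaussRing O (IsLocalRing.residue ↥O) := Iff.rfl

/-- `hOV`: the constants of `O` lie in the Gauss valuation subring. -/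
theorem algebraMap_mem_gaussV (c : O) : algebraMap ↥O 𝔽 c ∈ 𝕍 :=
  helper8991.algebraMap_mem_gaussSubring O _ _ _ c.2

/-- `hxV`: `j` lies in the Gauss valuation subring. -/
theorem jL_mem_gaussV : 𝕩 ∈ 𝕍 := by
  rw [mem_gaussV_iff, helper36.coe_jL]
  exact jqModC_mem_gaussRing O _

/-- `hxV'`: `1/j` lies in the Gauss valuation subring. -/
theorem jL_inv_mem_gaussV : (𝕩)⁻¹ ∈ 𝕍 := by
  rw [mem_gaussV_iff, IntermediateField.coe_inv, helper36.coe_jL]
  exact jqModC_inv_mem_gaussRing O _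

/-- `hx`: `j ≠ 0`. -/
theorem jL_ne_zero' : 𝕩 ≠ 0 := transcendental_ne_zero (helper36.transcendental_jL K N)

/-- The non-units of the Gauss valuation subring are the elements with zero reduction. -/
theorem mem_nonunits_gaussV_iff (f : 𝔽) :
    f ∈ (𝕍).nonunits ↔ ∃ hf : f ∈ 𝕍, ρ𝕍 ⟨f, hf⟩ = 0 := by
  rw [ValuationSubring.mem_nonunits_iff_exists_mem_maximalIdeal]
  exact exists_congr fun hf => (helper8991.gaussFRed_eq_zero_iff O _ N ⟨f, hf⟩).symm

/-- The reduction of a constant. -/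
theorem gaussFRed_algebraMap (c : O) :
    ρ𝕍 ⟨algebraMap ↥O 𝔽 c, algebraMap_mem_gaussV O N c⟩
      = HahnSeries.C (IsLocalRing.residue ↥O c) :=
  helper8991.gaussRed_algebraMap O _ _ _ c.2

/-- `hπV`: a non-unit of `O` is a non-unit of the Gauss valuation subring. -/
theorem algebraMap_mem_nonunits_gaussV {π : O} (hπ : π ∈ IsLocalRing.maximalIdeal ↥O) :
    algebraMap ↥O 𝔽 π ∈ (𝕍).nonunits := by
  rw [mem_nonunits_gaussV_iff]
  refine ⟨algebraMap_mem_gaussV O N π, ?_⟩
  rw [gaussFRed_algebraMap, (IsLocalRing.residue_eq_zero_iff π).mpr hπ, map_zero]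

/-- `hπ0`. -/
theorem algebraMap_ne_zero' {π : O} (hπ : π ≠ 0) : algebraMap ↥O 𝔽 π ≠ 0 := by
  intro h
  apply hπ
  have h1 : algebraMap K 𝔽 (π : K) = 0 := h
  exact Subtype.ext ((map_eq_zero _).mp h1)

/-- `hVmax`: if the maximal ideal of `O` is `(π)`, the maximal ideal of the Gauss valuation
subring is `π 𝕍`. -/
theorem exists_eq_mul_of_mem_nonunits {π : O}
    (hπmax : IsLocalRing.maximalIdeal ↥O = Ideal.span {π}) :
    ∀ y ∈ (𝕍).nonunits, ∃ w ∈ 𝕍, y = algebraMap ↥O 𝔽 π * w := by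
  intro y hy
  obtain ⟨hyV, hy0⟩ := (mem_nonunits_gaussV_iff O N y).mp hy
  obtain ⟨c, g, hc, hyg⟩ :=
    helper8991.exists_maximalIdeal_mul_of_gaussFRed_eq_zero O _ N ⟨y, hyV⟩ hy0
  rw [hπmax, Ideal.mem_span_singleton'] at hc
  obtain ⟨d, rfl⟩ := hc
  refine ⟨algebraMap ↥O 𝔽 d * g, mul_mem (algebraMap_mem_gaussV O N d) g.2, ?_⟩
  have h1 : algebraMap K 𝔽 ((d * π : ↥O) : K) = algebraMap ↥O 𝔽 π * algebraMap ↥O 𝔽 d := by
    rw [← map_mul, mul_comm π d]
    rfl
  have h2 : y = algebraMap K 𝔽 ((d * π : ↥O) : K) * (g : 𝔽) := hyg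
  rw [h2, h1, mul_assoc]

/-- `hOcl`: `O` is integrally closed in the function field (`K` is algebraically closed in
`K((q))` and `O` is integrally closed in `K`). -/
theorem mem_range_of_isIntegral (f : 𝔽) (hf : IsIntegral ↥O f) :
    f ∈ (algebraMap ↥O 𝔽).range := by
  obtain ⟨p, hp, hroot⟩ := hf
  have hcomp : (algebraMap K 𝔽).comp (algebraMap ↥O K) = algebraMap ↥O 𝔽 := rfl
  have hfK : IsIntegral K f :=
    ⟨p.map (algebraMap ↥O K), hp.map _, by rw [eval₂_map, hcomp]; exact hroot⟩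
  have hfK' : IsAlgebraic K (f : LaurentSeries K) :=
    hfK.isAlgebraic.algHom (laurentBaseChange K (modularFunctionFieldFull N)).val
  obtain ⟨c, hc⟩ := laurent_eq_algebraMap_of_isAlgebraic _ hfK'
  have hfc : f = algebraMap K 𝔽 c := Subtype.ext hc
  have hcO : IsIntegral ↥O c := by
    refine ⟨p, hp, ?_⟩
    have h0 := hom_eval₂ p (algebraMap ↥O K) (algebraMap K 𝔽) c
    rw [hcomp, ← hfc, hroot] at h0
    exact (map_eq_zero _).mp h0
  obtain ⟨c', hc'⟩ := IsIntegrallyClosed.isIntegral_iff.mp hcO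
  refine ⟨c', ?_⟩
  rw [hfc, ← hc']
  rfl

/-- The chart `O[j]`-integral elements lie in the Gauss valuation subring. -/
theorem isIntegral_mem_gaussV {f : 𝔽}
    (hf : IsIntegral (Algebra.adjoin ↥O ({𝕩} : Set 𝔽)) f) : f ∈ 𝕍 :=
  mem_valuationSubring_of_isIntegral_adjoin _ (algebraMap_mem_gaussV O N) (jL_mem_gaussV O N) hf

/-- The chart `O[1/j]`-integral elements lie in the Gauss valuation subring. -/
theorem isIntegral_inv_mem_gaussV {f : 𝔽}
    (hf : IsIntegral (Algebra.adjoin ↥O ({(𝕩)⁻¹} : Set 𝔽)) f) : f ∈ 𝕍 :=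
  mem_valuationSubring_of_isIntegral_adjoin _ (algebraMap_mem_gaussV O N)
    (jL_inv_mem_gaussV O N) hf

/-- Dictionary, chart `O[j]`. -/
theorem isIntegral_adjoin_jL_iff (f : 𝔽) :
    IsIntegral (Algebra.adjoin ↥O ({𝕩} : Set 𝔽)) f ↔
      (evAt O (jqModC K)).IsIntegralElem (f : LaurentSeries K) := by
  rw [isIntegral_adjoin_iff_evAt O (laurentBaseChange K (modularFunctionFieldFull N)).val]
  rfl

/-- Dictionary, chart `O[1/j]`. -/
theorem isIntegral_adjoin_jL_inv_iff (f : 𝔽) :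
    IsIntegral (Algebra.adjoin ↥O ({(𝕩)⁻¹} : Set 𝔽)) f ↔
      (evAt O (jqModC K)⁻¹).IsIntegralElem (f : LaurentSeries K) := by
  rw [isIntegral_adjoin_iff_evAt O (laurentBaseChange K (modularFunctionFieldFull N)).val,
    map_inv₀]
  rfl

/-- **(H3)** `hH3`: if `b` is integral over `O[j]`, `b'` is integral over `O[1/j]` and
`b ≡ b'` modulo the maximal ideal of the Gauss valuation subring, then `b` is congruent to a
constant of `O`. -/
theorem exists_sub_algebraMap_mem_nonunits {b b' : 𝔽}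
    (hb : IsIntegral (Algebra.adjoin ↥O ({𝕩} : Set 𝔽)) b)
    (hb' : IsIntegral (Algebra.adjoin ↥O ({(𝕩)⁻¹} : Set 𝔽)) b')
    (hbb' : b - b' ∈ (𝕍).nonunits) :
    ∃ c : O, b - algebraMap ↥O 𝔽 c ∈ (𝕍).nonunits := by
  have hbV : b ∈ 𝕍 := isIntegral_mem_gaussV O N hb
  have hb'V : b' ∈ 𝕍 := isIntegral_inv_mem_gaussV O N hb'
  have hρeq : ρ𝕍 ⟨b, hbV⟩ = ρ𝕍 ⟨b', hb'V⟩ := by
    obtain ⟨h1, h2⟩ := (mem_nonunits_gaussV_iff O N _).mp hbb'
    have h3 : (⟨b - b', h1⟩ : ↥𝕍) = ⟨b, hbV⟩ - ⟨b', hb'V⟩ := rfl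
    rw [h3, map_sub, sub_eq_zero] at h2
    exact h2
  have h0 : IsIntegral (Algebra.adjoin (IsLocalRing.ResidueField ↥O)
      ({jqModC (IsLocalRing.ResidueField ↥O)} : Set (LaurentSeries (IsLocalRing.ResidueField ↥O))))
      (ρ𝕍 ⟨b, hbV⟩) :=
    isIntegral_adjoin_of_isIntegralElem_evAtK
      (isIntegralElem_gaussRho_jq O (IsLocalRing.residue ↥O) hbV
        ((isIntegral_adjoin_jL_iff O N b).mp hb))
  have h1 : IsIntegral (Algebra.adjoin (IsLocalRing.ResidueField ↥O)
      ({(jqModC (IsLocalRing.ResidueField ↥O))⁻¹} :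
        Set (LaurentSeries (IsLocalRing.ResidueField ↥O))))
      (ρ𝕍 ⟨b, hbV⟩) := by
    rw [hρeq]
    exact isIntegral_adjoin_of_isIntegralElem_evAtK
      (isIntegralElem_gaussRho_jq_inv O (IsLocalRing.residue ↥O) hb'V
        ((isIntegral_adjoin_jL_inv_iff O N b').mp hb'))
  have htr : Transcendental (IsLocalRing.ResidueField ↥O)
      (jqModC (IsLocalRing.ResidueField ↥O)) :=
    transcendental_iff_injective.mpr
      (Fermat.Agent.S28.helper3292.aeval_jqModC_injective (IsLocalRing.ResidueField ↥O))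
  obtain ⟨cbar, hcbar⟩ := laurent_eq_C_of_isAlgebraic _
    (isAlgebraic_of_isIntegral_adjoin_of_isIntegral_adjoin_inv htr h0 h1)
  obtain ⟨c, rfl⟩ := IsLocalRing.residue_surjective cbar
  refine ⟨c, (mem_nonunits_gaussV_iff O N _).mpr
    ⟨sub_mem hbV (algebraMap_mem_gaussV O N c), ?_⟩⟩
  have h3 : (⟨b - algebraMap ↥O 𝔽 c, sub_mem hbV (algebraMap_mem_gaussV O N c)⟩ : ↥𝕍)
      = ⟨b, hbV⟩ - ⟨algebraMap ↥O 𝔽 c, algebraMap_mem_gaussV O N c⟩ := rfl
  rw [h3, map_sub, gaussFRed_algebraMap, hcbar, sub_self]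

variable [NeZero N]

/-- **(H2)**, chart `O[j]`, general constant: for `y` in the Gauss valuation subring and
`c ≠ 0` in `O`, if `c y` is integral over `O[j]` then so is `y`. -/
theorem isIntegral_adjoin_jL_of_mul (hN : GoodLevel O N) {c : O} (hc : c ≠ 0) {y : 𝔽}
    (hy : y ∈ 𝕍) (h : IsIntegral (Algebra.adjoin ↥O ({𝕩} : Set 𝔽)) (algebraMap ↥O 𝔽 c * y)) :
    IsIntegral (Algebra.adjoin ↥O ({𝕩} : Set 𝔽)) y := by
  rw [isIntegral_adjoin_jL_iff] at h ⊢
  exact klAt_jq_modular O N hN (y : LaurentSeries K) ⟨y.2, hy⟩ c hc h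

/-- **(H2)**, chart `O[1/j]`, general constant. -/
theorem isIntegral_adjoin_jL_inv_of_mul (hN : GoodLevel O N) {c : O} (hc : c ≠ 0) {y : 𝔽}
    (hy : y ∈ 𝕍)
    (h : IsIntegral (Algebra.adjoin ↥O ({(𝕩)⁻¹} : Set 𝔽)) (algebraMap ↥O 𝔽 c * y)) :
    IsIntegral (Algebra.adjoin ↥O ({(𝕩)⁻¹} : Set 𝔽)) y := by
  rw [isIntegral_adjoin_jL_inv_iff] at h ⊢
  exact klAt_jq_inv_modular O N hN (y : LaurentSeries K) ⟨y.2, hy⟩ c hc h

/-- `hden`: every element of the function field has a nonzero denominator in `O[j]` making it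
integral over `O[j]` (Igusa basis: `Q(j) f = ∑ Pᵢ(j) bᵢ` with `bᵢ` integral over `ℤ[j]`). -/
theorem exists_adjoin_mul_isIntegral (hN : GoodLevel O N) (f : 𝔽) :
    ∃ d : 𝔽, d ∈ Algebra.adjoin ↥O ({𝕩} : Set 𝔽) ∧ d ≠ 0 ∧
      IsIntegral (Algebra.adjoin ↥O ({𝕩} : Set 𝔽)) (d * f) := by
  obtain ⟨b, -, hbint, -, hrep⟩ := exists_igusaBasis O N hN
  obtain ⟨Q, P, hQ0, hrel, -⟩ := exists_normalRep (O := O) (hrep (f : LaurentSeries K) f.2)
  have hint := isIntegralElem_evK_mul hbint hrel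
  have hcoe : ((aeval 𝕩 Q : 𝔽) : LaurentSeries K) = evK O Q := by
    have h1 := RingHom.congr_fun
      (comp_aeval_eq_evAt O (laurentBaseChange K (modularFunctionFieldFull N)).val 𝕩) Q
    rw [evK_eq_evAt]
    exact h1
  refine ⟨aeval 𝕩 Q, ?_, ?_, ?_⟩
  · rw [Algebra.adjoin_singleton_eq_range_aeval]
    exact ⟨Q, rfl⟩
  · intro h0
    apply hQ0
    apply evK_injective O
    rw [← hcoe, h0, map_zero]
    rfl
  · rw [isIntegral_adjoin_jL_iff]
    have h2 : ((aeval 𝕩 Q * f : 𝔽) : LaurentSeries K) = evK O Q * (f : LaurentSeries K) := by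
      rw [← hcoe]
      rfl
    rw [h2, ← evK_eq_evAt]
    exact hint

/-- `hUalg`: every element of the function field is algebraic over `O[j]`. -/
theorem isAlgebraic_adjoin_jL (hN : GoodLevel O N) (f : 𝔽) :
    IsAlgebraic (Algebra.adjoin ↥O ({𝕩} : Set 𝔽)) f := by
  obtain ⟨d, hd, hd0, hint⟩ := exists_adjoin_mul_isIntegral O N hN f
  refine IsAlgebraic.of_smul_isIntegral (y := (⟨d, hd⟩ : Algebra.adjoin ↥O ({𝕩} : Set 𝔽))) ?_ ?_
  · rw [isNilpotent_iff_eq_zero]
    intro h0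
    exact hd0 (congrArg Subtype.val h0)
  · exact hint

omit [Algebra ℚ K] [NeZero N] in
/-- The level is good as soon as the residue characteristic `ℓ` does not divide it. -/
theorem goodLevel_of_natCast_mem_nonunits {ℓ : ℕ} (hℓ : ℓ.Prime) (hO : (ℓ : K) ∈ O.nonunits)
    (hℓN : ¬ ℓ ∣ N) : GoodLevel O N := by
  intro p hp hpN hp0
  have hne : p ≠ ℓ := fun h => hℓN (h ▸ hpN)
  have hcop : Nat.Coprime p ℓ := (Nat.coprime_primes hp hℓ).mpr hne
  have hℓ0 : ((ℓ : ℕ) : kO O) = 0 := by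
    obtain ⟨ha, hmem⟩ := ValuationSubring.mem_nonunits_iff_exists_mem_maximalIdeal.mp hO
    have h1 : ((ℓ : ℕ) : ↥O) = ⟨(ℓ : K), ha⟩ := Subtype.ext (by simp)
    have h2 := (IsLocalRing.residue_eq_zero_iff (⟨(ℓ : K), ha⟩ : ↥O)).mpr hmem
    rw [← h1, map_natCast] at h2
    exact h2
  obtain ⟨a, b, hab⟩ := Nat.isCoprime_iff_coprime.mpr hcop
  have h3 := congrArg (Int.cast : ℤ → kO O) hab
  push_cast at h3
  rw [hp0, hℓ0, mul_zero, mul_zero, add_zero] at h3
  exact zero_ne_one h3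

/-- **(FIN)** `hfg`: over a discrete valuation ring layer, the chart `B₀` (integral closure of
`O[j]` in the function field) is a finitely generated `O[j]`-module. -/
theorem chart_fg_jL [IsDiscreteValuationRing ↥O] :
    (integralClosure (Algebra.adjoin ↥O ({𝕩} : Set 𝔽)) 𝔽).toSubmodule.FG := by
  have : CharZero K := algebraRat.charZero K
  have : IsScalarTower ↥O K 𝔽 := IsScalarTower.of_algebraMap_eq' rfl
  have : FiniteDimensional (IntermediateField.adjoin K ({𝕩} : Set 𝔽)) 𝔽 :=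
    helper36.finiteDimensional_jL K N
  exact Fermat.Agent.S37.helper4314.chart_fg (O := ↥O) (K := K) 𝕩
    (helper36.transcendental_jL K N)

/-- **(FIN)**, element form (`hfin`). -/
theorem exists_finset_span_of_isIntegral [IsDiscreteValuationRing ↥O] :
    ∃ S : Finset 𝔽, ∀ b : 𝔽, IsIntegral (Algebra.adjoin ↥O ({𝕩} : Set 𝔽)) b →
      b ∈ Submodule.span (Algebra.adjoin ↥O ({𝕩} : Set 𝔽)) (S : Set 𝔽) := by
  obtain ⟨S, hS⟩ := chart_fg_jL O N
  refine ⟨S, fun b hb => ?_⟩
  rw [hS]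
  exact hb

/-- **The two-chart Kummer theorem at a discrete-valuation layer of `X₀(N)`**: the instance of
`helper1812.kummer_trivial_charts` (= `helper7942.kummer_w1_const`) for the function field
`𝔽 = F_{N,K}`, the coordinate `x = j`, the Gauss valuation subring `𝕍` and the charts
`B₀ = chart O j`, `B_∞ = chart O j⁻¹`.  Every structural hypothesis ((C0), (FIN), (H2), (H3),
constants, algebraicity) is discharged; only (LOC) is left:

* `hloc0` at every maximal ideal `z ∋ π` of `B₀`,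
* `hloci` at every maximal ideal `z ∋ π, j⁻¹` of `B_∞` (the cusp points).

Then every Gauss unit `U` is `κ f ^ m` with `κ ∈ O`, for every `m` invertible in `O`. -/
theorem kummer_trivial_modular [IsDiscreteValuationRing ↥O] (hN : GoodLevel O N) (π : O)
    (hπmax : IsLocalRing.maximalIdeal ↥O = Ideal.span {π})
    (m : ℕ) (hm : IsUnit (m : ↥O))
    (U : 𝔽) (hUV : U ∈ 𝕍) (hUV' : U⁻¹ ∈ 𝕍) (hU0 : U ≠ 0)
    (hloc0 : ∀ z : Ideal (helper4314.chart ↥O 𝕩), z.IsMaximal →
      algebraMap ↥O (helper4314.chart ↥O 𝕩) π ∈ z →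
      ∃ (g : 𝔽) (s : helper4314.chart ↥O 𝕩), s ∉ z ∧
        g ∈ helper7942.oneAdd (𝕍).toSubring (algebraMap ↥O 𝔽 π) ∧
        (s : 𝔽) * (g ^ m * U) ∈ helper4314.chart ↥O 𝕩)
    (hloci : ∀ z : Ideal (helper4314.chart ↥O (𝕩)⁻¹), z.IsMaximal →
      algebraMap ↥O (helper4314.chart ↥O (𝕩)⁻¹) π ∈ z →
      (⟨(𝕩)⁻¹, helper4314.self_mem_chart ↥O (𝕩)⁻¹⟩ : helper4314.chart ↥O (𝕩)⁻¹) ∈ z →
      ∃ (g : 𝔽) (s : helper4314.chart ↥O (𝕩)⁻¹), s ∉ z ∧
        g ∈ helper7942.oneAdd (𝕍).toSubring (algebraMap ↥O 𝔽 π) ∧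
        (s : 𝔽) * (g ^ m * U) ∈ helper4314.chart ↥O (𝕩)⁻¹) :
    ∃ (κ : O) (f : 𝔽), U = algebraMap ↥O 𝔽 κ * f ^ m := by
  have hπ0 : π ≠ 0 := by
    rintro rfl
    apply IsDiscreteValuationRing.not_a_field ↥O
    rw [hπmax]
    simp
  have hπm : π ∈ IsLocalRing.maximalIdeal ↥O := by
    rw [hπmax]
    exact Ideal.mem_span_singleton_self π
  have hO : ∀ κ : O, IsUnit κ ∨ ∃ κ' : O, κ = π * κ' := by
    intro κ
    by_cases hκ : IsUnit κ
    · exact Or.inl hκ
    · right
      have h1 : κ ∈ IsLocalRing.maximalIdeal ↥O := (IsLocalRing.mem_maximalIdeal κ).mpr hκ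
      rw [hπmax, Ideal.mem_span_singleton'] at h1
      obtain ⟨κ', h⟩ := h1
      exact ⟨κ', by rw [← h, mul_comm]⟩
  refine helper1812.kummer_trivial_charts π hO 𝕍 (algebraMap_ne_zero' O N hπ0)
    (algebraMap_mem_nonunits_gaussV O N hπm) (algebraMap_mem_gaussV O N)
    (mem_range_of_isIntegral O N) 𝕩 (jL_ne_zero' N) (jL_mem_gaussV O N) (jL_inv_mem_gaussV O N)
    m hm (chart_fg_jL O N) ?_ ?_ ?_ U hUV hUV' hU0 (isAlgebraic_adjoin_jL O N hN U) hloc0 hloci
  · intro y hy h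
    exact isIntegral_adjoin_jL_of_mul O N hN hπ0 hy h
  · intro y hy h
    exact isIntegral_adjoin_jL_inv_of_mul O N hN hπ0 hy h
  · rintro b hb b' hb' ⟨w, hw, hbw⟩
    have hnon : b - b' ∈ (𝕍).nonunits := by
      rw [hbw, mul_comm]
      exact helper1812.ktMulMemNonunits _ hw (algebraMap_mem_nonunits_gaussV O N hπm)
    obtain ⟨c, hc⟩ := exists_sub_algebraMap_mem_nonunits O N hb hb' hnon
    obtain ⟨w', hw', h'⟩ := exists_eq_mul_of_mem_nonunits O N hπmax _ hc
    exact ⟨c, w', hw', by rw [← h']; ring⟩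

end Modular

end Fermat.Agent.S37.helper4799
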