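import Mathlib

/-!
# Generic two-chart facts (helper4799, S37 Track B, node TB-CHARTS)

Mathlib-only bricks used by the two-chart model `B₀ = int. closure of O[j]`,
`B∞ = int. closure of O[1/j]`:

* `laurent_eq_algebraMap_of_isAlgebraic` : a Laurent series over a field `k` which is algebraic
  over `k` is a constant (`k` is algebraically closed in `k((q))`).
* `mem_range_algebraMap_of_aeval_eq_aeval_inv` : `k[x] ∩ k[x⁻¹] = k` for `x` transcendental.
* `isAlgebraic_of_isIntegral_adjoin_of_isIntegral_adjoin_inv` : an element integral over `k[x]`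
  and over `k[x⁻¹]` (`x` transcendental over the field `k`) is algebraic over `k`
  ("global functions on the two-chart curve are constants").
-/

set_option autoImplicit false

noncomputable section

namespace Fermat.Agent.S37.helper4799

open Polynomial

/-! ### Constants of `k((q))` -/

section Laurent

variable {k : Type*} [Field k]

theorem algebraMap_comp_powerSeries :
    (algebraMap (PowerSeries k) (LaurentSeries k)).comp (algebraMap k (PowerSeries k)) =
      algebraMap k (LaurentSeries k) := by
  refine RingHom.ext fun c => ?_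
  rw [RingHom.comp_apply, HahnSeries.algebraMap_apply']
  exact (HahnSeries.algebraMap_apply' (Γ := ℤ) (R := k) (S := k) (x := c)).symm

theorem algebraMap_powerSeries_C (c : k) :
    algebraMap (PowerSeries k) (LaurentSeries k) (PowerSeries.C c) =
      algebraMap k (LaurentSeries k) c := by
  rw [← algebraMap_comp_powerSeries, RingHom.comp_apply]
  rfl

/-- An element of `k((q))` algebraic over `k` is a power series. -/
theorem exists_powerSeries_of_isAlgebraic (g : LaurentSeries k) (hg : IsAlgebraic k g) :
    ∃ p : PowerSeries k, algebraMap (PowerSeries k) (LaurentSeries k) p = g := by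
  have h1 : IsIntegral (PowerSeries k) g := by
    obtain ⟨P, hP, h0⟩ := hg.isIntegral
    refine ⟨P.map (algebraMap k (PowerSeries k)), hP.map _, ?_⟩
    rw [Polynomial.eval₂_map, algebraMap_comp_powerSeries]
    exact h0
  exact IsIntegrallyClosed.isIntegral_iff.mp h1

/-- **`k` is algebraically closed in `k((q))`.** -/
theorem laurent_eq_algebraMap_of_isAlgebraic (f : LaurentSeries k) (hf : IsAlgebraic k f) :
    ∃ c : k, f = algebraMap k (LaurentSeries k) c := by
  obtain ⟨p, hp⟩ := exists_powerSeries_of_isAlgebraic f hf
  set c : k := PowerSeries.constantCoeff p with hc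
  refine ⟨c, ?_⟩
  by_contra hne
  set g : LaurentSeries k := f - algebraMap k (LaurentSeries k) c with hg
  have hg0 : g ≠ 0 := fun h => hne (sub_eq_zero.mp h)
  have hgalg : IsAlgebraic k g := hf.sub (isAlgebraic_algebraMap c)
  obtain ⟨r, hr⟩ := exists_powerSeries_of_isAlgebraic g⁻¹ hgalg.inv
  have hgp : algebraMap (PowerSeries k) (LaurentSeries k) (p - PowerSeries.C c) = g := by
    rw [map_sub, hp, hg, algebraMap_powerSeries_C]
  have hmul : (p - PowerSeries.C c) * r = 1 := by
    apply FaithfulSMul.algebraMap_injective (PowerSeries k) (LaurentSeries k)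
    rw [map_mul, hgp, hr, map_one, mul_inv_cancel₀ hg0]
  have hunit : IsUnit (p - PowerSeries.C c) := IsUnit.of_mul_eq_one _ hmul
  have h0 := PowerSeries.isUnit_iff_constantCoeff.mp hunit
  rw [map_sub, PowerSeries.constantCoeff_C, ← hc, sub_self] at h0
  exact not_isUnit_zero h0

theorem laurent_eq_C_of_isAlgebraic (f : LaurentSeries k) (hf : IsAlgebraic k f) :
    ∃ c : k, f = HahnSeries.C c := by
  obtain ⟨c, hc⟩ := laurent_eq_algebraMap_of_isAlgebraic f hf
  refine ⟨c, ?_⟩
  rw [hc, ← algebraMap_powerSeries_C, LaurentSeries.coe_algebraMap, HahnSeries.ofPowerSeries_C]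

end Laurent

/-! ### Functions regular on both charts are constants -/

section TwoChart

variable {k E : Type*} [Field k] [Field E] [Algebra k E]

theorem transcendental_ne_zero {x : E} (hx : Transcendental k x) : x ≠ 0 := by
  rintro rfl
  exact hx isAlgebraic_zero

theorem transcendental_inv {x : E} (hx : Transcendental k x) : Transcendental k x⁻¹ := by
  intro h
  apply hx
  have := h.inv
  rwa [inv_inv] at this

/-- `x ^ N * r(x⁻¹) = (reflect N r)(x)` for `N ≥ deg r`. -/
theorem aeval_reflect_eq {x : E} (hx0 : x ≠ 0) (r : k[X]) (N : ℕ) (hN : r.natDegree ≤ N) :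
    aeval x (reflect N r) = x ^ N * aeval x⁻¹ r := by
  let _ : Invertible x⁻¹ := invertibleOfNonzero (inv_ne_zero hx0)
  have h := eval₂_reflect_mul_pow (algebraMap k E) x⁻¹ N r hN
  have hinv : ⅟(x⁻¹) = x := by rw [invOf_eq_inv, inv_inv]
  rw [hinv] at h
  rw [aeval_def, aeval_def, ← h, mul_comm, mul_assoc, ← mul_pow, inv_mul_cancel₀ hx0, one_pow,
    mul_one]

/-- **`k[x] ∩ k[x⁻¹] = k`** for `x` transcendental over `k`. -/
theorem exists_algebraMap_eq_of_aeval_eq_aeval_inv {x : E} (hx : Transcendental k x)
    {p r : k[X]} (h : aeval x p = aeval x⁻¹ r) : ∃ a : k, aeval x p = algebraMap k E a := by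
  have hx0 : x ≠ 0 := transcendental_ne_zero hx
  have hinj : Function.Injective (aeval (R := k) x) := transcendental_iff_injective.mp hx
  by_cases hp : p = 0
  · exact ⟨0, by rw [hp, map_zero, map_zero]⟩
  set m := r.natDegree with hm
  have key : X ^ m * p = reflect m r := by
    apply hinj
    rw [aeval_reflect_eq hx0 r m le_rfl, ← h, map_mul, map_pow, aeval_X]
  have hdeg : (X ^ m * p).natDegree ≤ m := by
    rw [key]
    exact natDegree_reflect_le.trans (by rw [max_self])
  rw [natDegree_X_pow_mul m hp] at hdeg
  have hp0 : p.natDegree = 0 := by omega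
  refine ⟨p.coeff 0, ?_⟩
  conv_lhs => rw [eq_C_of_natDegree_eq_zero hp0]
  rw [aeval_C]

theorem isPrincipalIdealRing_adjoin_singleton (y : E) :
    IsPrincipalIdealRing (Algebra.adjoin k {y}) := by
  let g : Algebra.adjoin k {y} := ⟨y, Algebra.self_mem_adjoin_singleton k y⟩
  refine IsPrincipalIdealRing.of_surjective (Polynomial.aeval (R := k) g).toRingHom ?_
  intro a
  have h : (a : E) ∈ (Polynomial.aeval (R := k) y).range := by
    rw [← Algebra.adjoin_singleton_eq_range_aeval]
    exact a.2
  obtain ⟨q, hq⟩ := h
  refine ⟨q, Subtype.ext ?_⟩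
  show ((Polynomial.aeval g q : Algebra.adjoin k {y}) : E) = a
  rw [Polynomial.aeval_subalgebra_coe]
  exact hq

/-- If `β` is integral over `k[y]`, the coefficients of its minimal polynomial over `k(y)` lie in
`k[y]` (Gauss's lemma, in a form that is stable under replacing the presentation of the field
`k(y)`). -/
theorem coeff_minpoly_mem_adjoin (F : IntermediateField k E) {y : E}
    (hF : F = IntermediateField.adjoin k {y}) {β : E}
    (hβ : IsIntegral (Algebra.adjoin k {y}) β) (n : ℕ) :
    algebraMap F E ((minpoly F β).coeff n) ∈ Algebra.adjoin k {y} := by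
  subst hF
  have : IsPrincipalIdealRing (Algebra.adjoin k {y}) := isPrincipalIdealRing_adjoin_singleton y
  let _ : Algebra (Algebra.adjoin k {y}) (IntermediateField.adjoin k {y}) :=
    IntermediateField.algebraAdjoinAdjoin.instAlgebraSubtypeMemSubalgebraAdjoinAdjoin k {y}
  have : IsFractionRing (Algebra.adjoin k {y}) (IntermediateField.adjoin k {y}) :=
    IntermediateField.algebraAdjoinAdjoin.instIsFractionRingSubtypeMemSubalgebraAdjoinAdjoin k {y}
  have : IsScalarTower (Algebra.adjoin k {y}) (IntermediateField.adjoin k {y}) E :=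
    IsScalarTower.of_algebraMap_eq fun _ => rfl
  have h := minpoly.isIntegrallyClosed_eq_field_fractions (IntermediateField.adjoin k {y}) E hβ
  rw [Algebra.algebraMap_self, RingHom.id_apply] at h
  rw [h, coeff_map]
  exact ((minpoly (Algebra.adjoin k {y}) β).coeff n).2

/-- **Functions regular on both charts are constants**: an element of a field `E ⊇ k` which is
integral over `k[x]` and over `k[x⁻¹]`, `x` transcendental over `k`, is algebraic over `k`. -/
theorem isAlgebraic_of_isIntegral_adjoin_of_isIntegral_adjoin_inv {x : E}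
    (hx : Transcendental k x) {β : E} (h0 : IsIntegral (Algebra.adjoin k {x}) β)
    (h1 : IsIntegral (Algebra.adjoin k {x⁻¹}) β) : IsAlgebraic k β := by
  classical
  have hx0 : x ≠ 0 := transcendental_ne_zero hx
  set F : IntermediateField k E := IntermediateField.adjoin k {x} with hFdef
  have hF1 : F = IntermediateField.adjoin k {x⁻¹} := by
    apply le_antisymm
    · rw [hFdef, IntermediateField.adjoin_simple_le_iff]
      have : x⁻¹ ∈ IntermediateField.adjoin k {x⁻¹} := IntermediateField.mem_adjoin_simple_self k _
      simpa using inv_mem this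
    · rw [IntermediateField.adjoin_simple_le_iff]
      exact inv_mem (IntermediateField.mem_adjoin_simple_self k x)
  have c0 := fun n => coeff_minpoly_mem_adjoin F rfl h0 n
  have c1 := fun n => coeff_minpoly_mem_adjoin F hF1 h1 n
  have hconst : ∀ n, ∃ a : k, algebraMap F E ((minpoly F β).coeff n) = algebraMap k E a := by
    intro n
    have e0 := c0 n
    have e1 := c1 n
    rw [Algebra.adjoin_singleton_eq_range_aeval] at e0 e1
    obtain ⟨p, hp⟩ := e0
    obtain ⟨r, hr⟩ := e1
    obtain ⟨a, ha⟩ := exists_algebraMap_eq_of_aeval_eq_aeval_inv hx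
      (p := p) (r := r) (by
        have hp' : aeval x p = algebraMap F E ((minpoly F β).coeff n) := hp
        have hr' : aeval x⁻¹ r = algebraMap F E ((minpoly F β).coeff n) := hr
        rw [hp', hr'])
    refine ⟨a, ?_⟩
    have hp' : aeval x p = algebraMap F E ((minpoly F β).coeff n) := hp
    rw [← hp', ha]
  choose a ha using hconst
  have hβF : IsIntegral F β := by
    obtain ⟨P, hP, hP0⟩ := h0
    let ι : Algebra.adjoin k {x} →+* F :=
      (IntermediateField.algebraAdjoinAdjoin.instAlgebraSubtypeMemSubalgebraAdjoinAdjoin k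
        {x}).algebraMap
    refine ⟨P.map ι, hP.map _, ?_⟩
    rw [eval₂_map]
    exact hP0
  set μ := minpoly F β with hμ
  set d := μ.natDegree with hd
  set q : k[X] := ∑ n ∈ Finset.range (d + 1), monomial n (a n) with hq
  have hqmap : q.map (algebraMap k E) = μ.map (algebraMap F E) := by
    ext n
    rw [coeff_map, coeff_map, hq, finsetSum_coeff]
    simp only [coeff_monomial]
    by_cases hn : n < d + 1
    · rw [Finset.sum_eq_single n]
      · rw [if_pos rfl, ha]
      · intro b _ hbn
        rw [if_neg hbn]
      · intro hn'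
        exact absurd (Finset.mem_range.mpr hn) hn'
    · rw [Finset.sum_eq_zero, map_zero, coeff_eq_zero_of_natDegree_lt (by omega), map_zero]
      intro b hb
      have := Finset.mem_range.mp hb
      rw [if_neg (by omega)]
  have hq0 : q ≠ 0 := by
    intro h
    have hm : (μ.map (algebraMap F E)) = 0 := by rw [← hqmap, h, Polynomial.map_zero]
    have hmon : (μ.map (algebraMap F E)).Monic := (minpoly.monic hβF).map _
    exact hmon.ne_zero hm
  refine ⟨q, hq0, ?_⟩
  rw [aeval_def, ← eval_map, hqmap, eval_map, ← aeval_def]
  exact minpoly.aeval F β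

end TwoChart

end Fermat.Agent.S37.helper4799
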