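import Mathlib

/-!
# S37-SEP: a finite multiset of characters is determined by its values

Generic, Mathlib-only.  `R` is a commutative ring, `V` an `R`-module (in the application: a chart
algebra of integral functions), `k` an infinite field which is an `R`-algebra with
`algebraMap R k` surjective (in the application `R = A` is a valuation ring and `k` its residue
field).

* `exists_forall_apply_ne` : a linear form `φ` different from finitely many linear forms `ψ` is
  separated from all of them by ONE vector.
* `multiset_eq_of_forall_map_eq` (SEP-M) : two multisets of linear forms which have the same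
  multiset of values at every vector are equal.
* `exists_equiv_of_forall_map_eq` (SEP-I) : indexed form, with a matching `e : ι ≃ κ`.
* `multiset_algHom_eq_of_forall_map_eq`, `exists_equiv_algHom_of_forall_map_eq` (SEP-A) :
  the same for algebra homomorphisms `B →ₐ[R] k`.
* `..._of_forall_prod_eq` (SEP-P) : the hypothesis in polynomial form
  `∏ (X - C (φ f)) = ∏ (X - C (ψ f))`.

Consumer (point-level Kronecker step of S37): the per-function root-multiset equalities
"values of `h` on `T_ℓ(σ₀ P)`  =  roots of `(X - Fr⁻¹(h)^ℓ)(X^ℓ - Fr h)` at `P`" give ONE matching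
of the `ℓ + 1` places with `{σ₀² P, P, …, P}` under which matched places have the same residue
homomorphism.
-/

set_option autoImplicit false

namespace Fermat.Agent.S37.helper5121

open Polynomial

section Linear

variable {R V k : Type*} [CommRing R] [AddCommGroup V] [Module R V] [Field k] [Infinite k]
  [Algebra R k]

/-- A linear form `φ` which differs from each member of a finite multiset `t` of linear forms is
separated from all of them by a single vector. -/
theorem exists_forall_apply_ne (hR : Function.Surjective (algebraMap R k))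
    (φ : V →ₗ[R] k) (t : Multiset (V →ₗ[R] k)) (h : ∀ ψ ∈ t, ψ ≠ φ) :
    ∃ f : V, ∀ ψ ∈ t, ψ f ≠ φ f := by
  classical
  induction t using Multiset.induction_on with
  | empty => exact ⟨0, fun ψ hψ => absurd hψ (Multiset.notMem_zero ψ)⟩
  | cons ψ₀ t ih =>
    obtain ⟨f, hf⟩ := ih fun ψ hψ => h ψ (Multiset.mem_cons_of_mem hψ)
    have hψ₀ : ψ₀ ≠ φ := h ψ₀ (Multiset.mem_cons_self ψ₀ t)
    obtain ⟨g, hg⟩ : ∃ g : V, ψ₀ g ≠ φ g := by
      by_contra hcon
      push Not at hcon
      exact hψ₀ (LinearMap.ext hcon)
    -- the finitely many bad values of the parameter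
    set bad : Finset k :=
      (ψ₀ ::ₘ t).toFinset.image fun ψ => -(ψ f - φ f) / (ψ g - φ g) with hbad
    obtain ⟨cb, hcb⟩ := Infinite.exists_notMem_finset bad
    obtain ⟨c, rfl⟩ := hR cb
    refine ⟨f + c • g, fun ψ hψ heq => ?_⟩
    have hval : (ψ f - φ f) + algebraMap R k c * (ψ g - φ g) = 0 := by
      have h1 : ψ (f + c • g) = ψ f + algebraMap R k c * ψ g := by
        rw [map_add, map_smul, Algebra.smul_def]
      have h2 : φ (f + c • g) = φ f + algebraMap R k c * φ g := by
        rw [map_add, map_smul, Algebra.smul_def]
      rw [h1, h2] at heq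
      linear_combination heq
    by_cases hgψ : ψ g - φ g = 0
    · rw [hgψ, mul_zero, add_zero] at hval
      rcases Multiset.mem_cons.mp hψ with rfl | hψt
      · exact hg (sub_eq_zero.mp hgψ)
      · exact hf ψ hψt (sub_eq_zero.mp hval)
    · apply hcb
      rw [hbad, Finset.mem_image]
      refine ⟨ψ, Multiset.mem_toFinset.mpr hψ, ?_⟩
      field_simp
      linear_combination -hval

/-- **SEP-M.** Two finite multisets of linear forms `V →ₗ[R] k` which take the same multiset of
values at every vector are equal. -/
theorem multiset_eq_of_forall_map_eq (hR : Function.Surjective (algebraMap R k))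
    (s t : Multiset (V →ₗ[R] k))
    (h : ∀ f : V, s.map (fun φ => φ f) = t.map (fun ψ => ψ f)) : s = t := by
  classical
  induction s using Multiset.induction_on generalizing t with
  | empty =>
    have h0 := h 0
    rw [Multiset.map_zero] at h0
    exact (Multiset.map_eq_zero.mp h0.symm).symm
  | cons φ s ih =>
    have hφt : φ ∈ t := by
      by_contra hφ
      obtain ⟨f, hf⟩ := exists_forall_apply_ne hR φ t fun ψ hψ hψφ => hφ (hψφ ▸ hψ)
      have hmem : φ f ∈ t.map (fun ψ => ψ f) := by
        rw [← h f, Multiset.map_cons]
        exact Multiset.mem_cons_self _ _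
      obtain ⟨ψ, hψ, hψf⟩ := Multiset.mem_map.mp hmem
      exact hf ψ hψ hψf
    obtain ⟨t', rfl⟩ := Multiset.exists_cons_of_mem hφt
    congr 1
    refine ih t' fun f => ?_
    have := h f
    rw [Multiset.map_cons, Multiset.map_cons] at this
    exact (Multiset.cons_inj_right _).mp this

/-- SEP-M with the hypothesis in polynomial form. -/
theorem multiset_eq_of_forall_prod_eq (hR : Function.Surjective (algebraMap R k))
    (s t : Multiset (V →ₗ[R] k))
    (h : ∀ f : V, (s.map fun φ => (X - C (φ f) : k[X])).prod =
      (t.map fun ψ => (X - C (ψ f) : k[X])).prod) : s = t := by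
  refine multiset_eq_of_forall_map_eq hR s t fun f => ?_
  have h1 := Polynomial.roots_multiset_prod_X_sub_C (s.map fun φ => φ f)
  have h2 := Polynomial.roots_multiset_prod_X_sub_C (t.map fun ψ => ψ f)
  rw [Multiset.map_map] at h1 h2
  rw [← h1, ← h2]
  exact congrArg Polynomial.roots (h f)

end Linear

section Matching

/-- Two finite families with the same multiset of values are matched by a bijection of the
index types. -/
theorem exists_equiv_of_map_univ_eq {ι κ γ : Type*} [Fintype ι] [Fintype κ]
    (a : ι → γ) (b : κ → γ)
    (h : (Finset.univ : Finset ι).val.map a = (Finset.univ : Finset κ).val.map b) :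
    ∃ e : ι ≃ κ, ∀ i, a i = b (e i) := by
  classical
  have hcard : ∀ c : γ, Fintype.card {i // a i = c} = Fintype.card {j // b j = c} := by
    intro c
    have h1 := congrArg (Multiset.count c) h
    rw [Multiset.count_map, Multiset.count_map] at h1
    rw [Fintype.card_subtype, Fintype.card_subtype]
    have e1 : (Finset.univ.filter fun i => a i = c).card
        = Multiset.card (Multiset.filter (fun i => c = a i) (Finset.univ : Finset ι).val) := by
      rw [← Finset.filter_val, Finset.card_def]
      congr 2
      ext i
      simp [eq_comm]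
    have e2 : (Finset.univ.filter fun j => b j = c).card
        = Multiset.card (Multiset.filter (fun j => c = b j) (Finset.univ : Finset κ).val) := by
      rw [← Finset.filter_val, Finset.card_def]
      congr 2
      ext j
      simp [eq_comm]
    rw [e1, e2, h1]
  refine ⟨Equiv.ofFiberEquiv (f := a) (g := b) fun c => Fintype.equivOfCardEq (hcard c), fun i => ?_⟩
  exact (Equiv.ofFiberEquiv_map (f := a) (g := b)
    (fun c => Fintype.equivOfCardEq (hcard c)) i).symm

end Matching

section Indexed

variable {R V k : Type*} [CommRing R] [AddCommGroup V] [Module R V] [Field k] [Infinite k]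
  [Algebra R k]

/-- **SEP-I.** Indexed form: two finite families of linear forms with the same multiset of values
at every vector are matched by a bijection of the index types. -/
theorem exists_equiv_of_forall_map_eq (hR : Function.Surjective (algebraMap R k))
    {ι κ : Type*} [Fintype ι] [Fintype κ] (φ : ι → V →ₗ[R] k) (ψ : κ → V →ₗ[R] k)
    (h : ∀ f : V, (Finset.univ : Finset ι).val.map (fun i => φ i f) =
      (Finset.univ : Finset κ).val.map (fun j => ψ j f)) :
    ∃ e : ι ≃ κ, ∀ i, φ i = ψ (e i) := by
  refine exists_equiv_of_map_univ_eq φ ψ (multiset_eq_of_forall_map_eq hR _ _ fun f => ?_)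
  rw [Multiset.map_map, Multiset.map_map]
  exact h f

/-- SEP-I with the hypothesis in polynomial form. -/
theorem exists_equiv_of_forall_prod_eq (hR : Function.Surjective (algebraMap R k))
    {ι κ : Type*} [Fintype ι] [Fintype κ] (φ : ι → V →ₗ[R] k) (ψ : κ → V →ₗ[R] k)
    (h : ∀ f : V, ∏ i, (X - C (φ i f) : k[X]) = ∏ j, (X - C (ψ j f) : k[X])) :
    ∃ e : ι ≃ κ, ∀ i, φ i = ψ (e i) := by
  refine exists_equiv_of_map_univ_eq φ ψ (multiset_eq_of_forall_prod_eq hR _ _ fun f => ?_)
  rw [Multiset.map_map, Multiset.map_map]
  exact h f

end Indexed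

section AlgHom

variable {R B k : Type*} [CommRing R] [CommRing B] [Algebra R B] [Field k] [Infinite k]
  [Algebra R k]

/-- **SEP-A.** Two finite multisets of `R`-algebra homomorphisms `B →ₐ[R] k` which take the same
multiset of values at every element of `B` are equal. -/
theorem multiset_algHom_eq_of_forall_map_eq (hR : Function.Surjective (algebraMap R k))
    (s t : Multiset (B →ₐ[R] k))
    (h : ∀ f : B, s.map (fun φ => φ f) = t.map (fun ψ => ψ f)) : s = t := by
  have hinj : Function.Injective (AlgHom.toLinearMap : (B →ₐ[R] k) → B →ₗ[R] k) :=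
    AlgHom.toLinearMap_injective
  refine Multiset.map_injective hinj (multiset_eq_of_forall_map_eq hR _ _ fun f => ?_)
  rw [Multiset.map_map, Multiset.map_map]
  exact h f

/-- SEP-A, indexed form. -/
theorem exists_equiv_algHom_of_forall_map_eq (hR : Function.Surjective (algebraMap R k))
    {ι κ : Type*} [Fintype ι] [Fintype κ] (φ : ι → B →ₐ[R] k) (ψ : κ → B →ₐ[R] k)
    (h : ∀ f : B, (Finset.univ : Finset ι).val.map (fun i => φ i f) =
      (Finset.univ : Finset κ).val.map (fun j => ψ j f)) :
    ∃ e : ι ≃ κ, ∀ i, φ i = ψ (e i) := by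
  obtain ⟨e, he⟩ := exists_equiv_of_forall_map_eq hR (fun i => (φ i).toLinearMap)
    (fun j => (ψ j).toLinearMap) h
  exact ⟨e, fun i => AlgHom.toLinearMap_injective (he i)⟩

/-- SEP-A, indexed, polynomial form: if for every `f : B` the polynomials
`∏ (X - C (φ i f))` and `∏ (X - C (ψ j f))` coincide, the two families of points are matched. -/
theorem exists_equiv_algHom_of_forall_prod_eq (hR : Function.Surjective (algebraMap R k))
    {ι κ : Type*} [Fintype ι] [Fintype κ] (φ : ι → B →ₐ[R] k) (ψ : κ → B →ₐ[R] k)
    (h : ∀ f : B, ∏ i, (X - C (φ i f) : k[X]) = ∏ j, (X - C (ψ j f) : k[X])) :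
    ∃ e : ι ≃ κ, ∀ i, φ i = ψ (e i) := by
  obtain ⟨e, he⟩ := exists_equiv_of_forall_prod_eq hR (fun i => (φ i).toLinearMap)
    (fun j => (ψ j).toLinearMap) h
  exact ⟨e, fun i => AlgHom.toLinearMap_injective (he i)⟩

end AlgHom

end Fermat.Agent.S37.helper5121
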