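/-
S37/S18-KUMIDEM (helper5228).  Mathlib-only, spec-independent.

Kummer idempotents on a two-chart model (steps (a)-(b) of (N1) of the S37 route):

* `isIntegral_of_sat`   : saturation passes to integral closures (`R' ∩ π W' = π R'`);
* `exists_add_of_local` : ideal-of-denominators membership criterion (`x ∈ R' + π W'`);
* `kummerE` and its calculus: the elements `E_i = q⁻¹ ∑_{j<q} (ζ^i y)^j`;
* `exists_idem_rep`     : representatives of the Kummer idempotents in the integral closure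
                          of a chart, from the local factorisation hypothesis;
* `kummer_false`        : final contradiction from a Cech rigidity statement.
-/
import Mathlib

set_option autoImplicit false

namespace Fermat.Agent.S37.helper5228

open Polynomial

section Integrality

variable {O F F' : Type*} [CommRing O] [Field F] [Field F'] [Algebra O F] [Algebra F F']

/-- Integrality over a chart is monotone in the chart. -/
theorem isIntegral_mono {R W : Subalgebra O F} (h : R ≤ W) {x : F'} (hx : IsIntegral R x) :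
    IsIntegral W x := by
  obtain ⟨p, hp, hpx⟩ := hx
  refine ⟨p.map (Subalgebra.inclusion h).toRingHom, hp.map _, ?_⟩
  rw [Polynomial.eval₂_map]
  exact hpx

/-- Elements of a chart are integral over it (as elements of the big field). -/
theorem isIntegral_of_mem {R : Subalgebra O F} {a : F} (ha : a ∈ R) :
    IsIntegral R (algebraMap F F' a) :=
  isIntegral_algebraMap (R := R) (A := F') (x := ⟨a, ha⟩)

/-- An element integral over a chart is integral over the field. -/
theorem isIntegral_field {R : Subalgebra O F} {x : F'} (hx : IsIntegral R x) :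
    IsIntegral F x := by
  obtain ⟨p, hp, hpx⟩ := hx
  refine ⟨p.map (algebraMap R F), hp.map _, ?_⟩
  rw [Polynomial.eval₂_map]
  exact hpx

/-- The minimal polynomial over the field of an element integral over an integrally closed
chart has its coefficients in the chart. -/
theorem coeff_minpoly_mem {R : Subalgebra O F} (hRic : ∀ a : F, IsIntegral R a → a ∈ R)
    {x : F'} (hx : IsIntegral R x) (i : ℕ) : (minpoly F x).coeff i ∈ R := by
  obtain ⟨p, hp, hpx⟩ := hx
  have hxF : IsIntegral F x := isIntegral_field ⟨p, hp, hpx⟩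
  apply hRic
  refine Polynomial.isIntegral_coeff_of_dvd p (minpoly F x) hp (minpoly.monic hxF) ?_ i
  apply minpoly.dvd
  rw [Polynomial.aeval_def, Polynomial.eval₂_map]
  exact hpx

/-- Iterated saturation. -/
theorem sat_pow {R W : Subalgebra O F} {π : F} (hπW : π ∈ W)
    (hsat : ∀ a ∈ W, π * a ∈ R → a ∈ R) (n : ℕ) :
    ∀ a ∈ W, π ^ n * a ∈ R → a ∈ R := by
  induction n with
  | zero => intro a _ h; simpa using h
  | succ n ih =>
    intro a ha h
    apply ih a ha
    apply hsat _ (W.mul_mem (W.pow_mem hπW n) ha)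
    rw [← mul_assoc, ← pow_succ']
    exact h

/-- **Saturation passes to integral closures.**  `R ≤ W` integrally closed charts of `F`,
`R` is `π`-saturated in `W`.  If `x` is integral over `W` and `π x` is integral over `R`, then
`x` is integral over `R`.  (So `R' ∩ π W' = π R'` for the integral closures in `F'`.) -/
theorem isIntegral_of_sat {R W : Subalgebra O F}
    (hRic : ∀ a : F, IsIntegral R a → a ∈ R) (hWic : ∀ a : F, IsIntegral W a → a ∈ W)
    {π : F} (hπ0 : π ≠ 0) (hπW : π ∈ W) (hsat : ∀ a ∈ W, π * a ∈ R → a ∈ R)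
    {x : F'} (hxW : IsIntegral W x) (hxR : IsIntegral R (algebraMap F F' π * x)) :
    IsIntegral R x := by
  have hxF : IsIntegral F x := isIntegral_field hxW
  have hzF : IsIntegral F (algebraMap F F' π * x) := isIntegral_field hxR
  set μ := minpoly F x with hμ
  set ν := minpoly F (algebraMap F F' π * x) with hν
  have hμm : μ.Monic := minpoly.monic hxF
  have hνm : ν.Monic := minpoly.monic hzF
  -- `ν ∣ scaleRoots μ π`
  have h1 : ν ∣ scaleRoots μ π := by
    apply minpoly.dvd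
    exact scaleRoots_aeval_eq_zero (minpoly.aeval F x)
  -- `μ ∣ scaleRoots ν π⁻¹`
  have h2 : μ ∣ scaleRoots ν π⁻¹ := by
    apply minpoly.dvd
    have h := scaleRoots_aeval_eq_zero (r := π⁻¹) (minpoly.aeval F (algebraMap F F' π * x))
    rwa [← mul_assoc, ← map_mul, inv_mul_cancel₀ hπ0, map_one, one_mul] at h
  have hd2 : μ.natDegree ≤ ν.natDegree := by
    have := natDegree_le_of_dvd h2 (scaleRoots_ne_zero hνm.ne_zero π⁻¹)
    rwa [natDegree_scaleRoots] at this
  have hνeq : scaleRoots μ π = ν := by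
    refine eq_of_monic_of_dvd_of_natDegree_le hνm ((monic_scaleRoots_iff π).mpr hμm) h1 ?_
    rw [natDegree_scaleRoots]
    exact hd2
  -- coefficients of `μ` lie in `R`
  have hcoeff : ∀ i, μ.coeff i ∈ R := by
    intro i
    have hW : μ.coeff i ∈ W := coeff_minpoly_mem hWic hxW i
    have hR : ν.coeff i ∈ R := coeff_minpoly_mem hRic hxR i
    rw [← hνeq, coeff_scaleRoots, mul_comm] at hR
    exact sat_pow hπW hsat _ _ hW hR
  -- lift `μ` to a monic polynomial over `R`
  have hlift : μ ∈ Polynomial.lifts (algebraMap R F) := by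
    rw [Polynomial.lifts_iff_coeff_lifts]
    intro i
    exact ⟨⟨μ.coeff i, hcoeff i⟩, rfl⟩
  obtain ⟨p, hp, -, hpm⟩ := Polynomial.lifts_and_natDegree_eq_and_monic hlift hμm
  refine ⟨p, hpm, ?_⟩
  have h3 : Polynomial.eval₂ (algebraMap F F') x (p.map (algebraMap R F)) = 0 := by
    rw [hp, ← Polynomial.aeval_def]
    exact minpoly.aeval F x
  rw [Polynomial.eval₂_map] at h3
  exact h3

/-- **Ideal-of-denominators criterion.**  `R ≤ W` charts, `π ∈ R`, `x` integral over `W`.
If at every maximal ideal `𝔪 ∋ π` of `R` some multiple `b x`, `b ∉ 𝔪`, lies in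
`R' + π W'`, then `x ∈ R' + π W'` (`R'`, `W'` the integral closures in `F'`). -/
theorem exists_add_of_local {R W : Subalgebra O F} (hRW : R ≤ W) {π : F} (hπR : π ∈ R)
    {x : F'} (hxW : IsIntegral W x)
    (hloc : ∀ 𝔪 : Ideal R, 𝔪.IsMaximal → (⟨π, hπR⟩ : R) ∈ 𝔪 →
      ∃ b : R, b ∉ 𝔪 ∧ ∃ r w : F', IsIntegral R r ∧ IsIntegral W w ∧
        algebraMap F F' (b : F) * x = r + algebraMap F F' π * w) :
    ∃ r w : F', IsIntegral R r ∧ IsIntegral W w ∧ x = r + algebraMap F F' π * w := by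
  let I : Ideal R :=
    { carrier := {a | ∃ r w : F', IsIntegral R r ∧ IsIntegral W w ∧
        algebraMap F F' (a : F) * x = r + algebraMap F F' π * w}
      zero_mem' := ⟨0, 0, isIntegral_zero, isIntegral_zero, by simp⟩
      add_mem' := by
        rintro a b ⟨r, w, hr, hw, h⟩ ⟨r', w', hr', hw', h'⟩
        refine ⟨r + r', w + w', hr.add hr', hw.add hw', ?_⟩
        rw [Subalgebra.coe_add, map_add, add_mul, h, h']
        ring
      smul_mem' := by
        rintro c a ⟨r, w, hr, hw, h⟩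
        refine ⟨algebraMap F F' (c : F) * r, algebraMap F F' (c : F) * w,
          (isIntegral_of_mem c.2).mul hr, (isIntegral_of_mem (hRW c.2)).mul hw, ?_⟩
        rw [smul_eq_mul, Subalgebra.coe_mul, map_mul, mul_assoc, h]
        ring }
  have hπI : (⟨π, hπR⟩ : R) ∈ I := ⟨0, x, isIntegral_zero, hxW, by simp⟩
  have hI : I = ⊤ := by
    by_contra hne
    obtain ⟨𝔪, h𝔪, hle⟩ := Ideal.exists_le_maximal I hne
    obtain ⟨b, hb, r, w, hr, hw, h⟩ := hloc 𝔪 h𝔪 (hle hπI)
    exact hb (hle ⟨r, w, hr, hw, h⟩)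
  have h1 : (1 : R) ∈ I := by rw [hI]; trivial
  obtain ⟨r, w, hr, hw, h⟩ := h1
  exact ⟨r, w, hr, hw, by simpa using h⟩

end Integrality

section Calculus

variable {F' : Type*} [Field F']

/-- The Kummer element `E_i = q⁻¹ ∑_{j<q} (ζ^i y)^j`; modulo `y^q - 1` these are the `q`
orthogonal idempotents of `F'[y]/(y^q - 1)`. -/
noncomputable def kummerE (q : ℕ) (ζ y : F') (i : ℕ) : F' :=
  (q : F')⁻¹ * ∑ j ∈ Finset.range q, (ζ ^ i * y) ^ j

theorem kummerE_congr (q : ℕ) {ζ : F'} (y : F') {i k : ℕ} (h : ζ ^ i = ζ ^ k) :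
    kummerE q ζ y i = kummerE q ζ y k := by
  unfold kummerE
  rw [h]

theorem kummerE_mem (S : Subring F') {q : ℕ} {ζ y : F'} (hqS : (q : F')⁻¹ ∈ S) (hζS : ζ ∈ S)
    (hyS : y ∈ S) (i : ℕ) : kummerE q ζ y i ∈ S :=
  S.mul_mem hqS (S.sum_mem fun _ _ => S.pow_mem (S.mul_mem (S.pow_mem hζS i) hyS) _)

/-- `(ζ^i y - 1) E_i = q⁻¹ (y^q - 1)`. -/
theorem sub_one_mul_kummerE {q : ℕ} {ζ : F'} (hζ : ζ ^ q = 1) (y : F') (i : ℕ) :
    (ζ ^ i * y - 1) * kummerE q ζ y i = (q : F')⁻¹ * (y ^ q - 1) := by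
  have h := geom_sum_mul (ζ ^ i * y) q
  have h2 : (ζ ^ i * y) ^ q = y ^ q := by
    rw [mul_pow, ← pow_mul, mul_comm i q, pow_mul, hζ, one_pow, one_mul]
  rw [h2] at h
  unfold kummerE
  rw [← h]
  ring

/-- `(ζ^i y)^j E_i = E_i + (y^q - 1) * (q⁻¹ ∑_{l<j} (ζ^i y)^l)`. -/
theorem pow_mul_kummerE {q : ℕ} {ζ : F'} (hζ : ζ ^ q = 1) (y : F') (i j : ℕ) :
    (ζ ^ i * y) ^ j * kummerE q ζ y i =
      kummerE q ζ y i + (y ^ q - 1) * ((q : F')⁻¹ * ∑ l ∈ Finset.range j, (ζ ^ i * y) ^ l) := by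
  have h := geom_sum_mul (ζ ^ i * y) j
  have h1 := sub_one_mul_kummerE hζ y i
  have h3 : (ζ ^ i * y) ^ j * kummerE q ζ y i - kummerE q ζ y i
      = (∑ l ∈ Finset.range j, (ζ ^ i * y) ^ l) * ((ζ ^ i * y - 1) * kummerE q ζ y i) := by
    rw [← mul_assoc, h]
    ring
  rw [h1] at h3
  linear_combination h3

/-- Product formula: if `ζ^k = ω ζ^i` then
`E_k E_i = (q⁻¹ ∑_{j<q} ω^j) E_i + (y^q - 1) * (explicit element)`. -/
theorem kummerE_mul_kummerE {q : ℕ} {ζ : F'} (hζ : ζ ^ q = 1) (y : F') (i k : ℕ) {ω : F'}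
    (hω : ζ ^ k = ω * ζ ^ i) :
    kummerE q ζ y k * kummerE q ζ y i =
      ((q : F')⁻¹ * ∑ j ∈ Finset.range q, ω ^ j) * kummerE q ζ y i +
        (y ^ q - 1) * ((q : F')⁻¹ * ∑ j ∈ Finset.range q,
          ω ^ j * ((q : F')⁻¹ * ∑ l ∈ Finset.range j, (ζ ^ i * y) ^ l)) := by
  have h1 : kummerE q ζ y k * kummerE q ζ y i
      = (q : F')⁻¹ * ∑ j ∈ Finset.range q, ω ^ j * ((ζ ^ i * y) ^ j * kummerE q ζ y i) := by
    change ((q : F')⁻¹ * ∑ j ∈ Finset.range q, (ζ ^ k * y) ^ j) * kummerE q ζ y i = _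
    rw [mul_assoc, Finset.sum_mul]
    congr 1
    apply Finset.sum_congr rfl
    intro j _
    rw [hω]
    ring
  have h2 : ∀ j, ω ^ j * ((ζ ^ i * y) ^ j * kummerE q ζ y i)
      = ω ^ j * kummerE q ζ y i + (y ^ q - 1) *
        (ω ^ j * ((q : F')⁻¹ * ∑ l ∈ Finset.range j, (ζ ^ i * y) ^ l)) := by
    intro j
    rw [pow_mul_kummerE hζ y i j]
    ring
  rw [h1]
  simp_rw [h2]
  rw [Finset.sum_add_distrib, ← Finset.sum_mul, ← Finset.mul_sum]
  ring

theorem geom_sum_eq_zero_of_ne_one {q : ℕ} {ω : F'} (hω : ω ^ q = 1) (hne : ω ≠ 1) :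
    ∑ j ∈ Finset.range q, ω ^ j = 0 := by
  have h := geom_sum_mul ω q
  rw [hω, sub_self] at h
  rcases mul_eq_zero.mp h with h | h
  · exact h
  · exact absurd (sub_eq_zero.mp h) hne

/-- `E_i² - E_i ∈ (y^q - 1) S`. -/
theorem kummerE_idem (S : Subring F') {q : ℕ} {ζ y : F'} (hq : (q : F') ≠ 0) (hζ : ζ ^ q = 1)
    (hqS : (q : F')⁻¹ ∈ S) (hζS : ζ ∈ S) (hyS : y ∈ S) (i : ℕ) :
    ∃ c ∈ S, kummerE q ζ y i * kummerE q ζ y i - kummerE q ζ y i = (y ^ q - 1) * c := by
  have h := kummerE_mul_kummerE hζ y i i (ω := 1) (by rw [one_mul])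
  have hs : (q : F')⁻¹ * ∑ j ∈ Finset.range q, (1 : F') ^ j = 1 := by
    simp [hq]
  rw [hs, one_mul] at h
  refine ⟨(q : F')⁻¹ * ∑ j ∈ Finset.range q,
      (1 : F') ^ j * ((q : F')⁻¹ * ∑ l ∈ Finset.range j, (ζ ^ i * y) ^ l), ?_, ?_⟩
  · exact S.mul_mem hqS (S.sum_mem fun j _ => S.mul_mem (S.pow_mem S.one_mem _)
      (S.mul_mem hqS (S.sum_mem fun l _ => S.pow_mem (S.mul_mem (S.pow_mem hζS i) hyS) _)))
  · rw [h]
    ring

/-- `E_k E_i ∈ (y^q - 1) S` when `ζ^k ≠ ζ^i`. -/
theorem kummerE_orth (S : Subring F') {q : ℕ} (hq1 : 1 ≤ q) {ζ y : F'} (hζ : ζ ^ q = 1)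
    (hqS : (q : F')⁻¹ ∈ S) (hζS : ζ ∈ S) (hyS : y ∈ S) {i k : ℕ} (hne : ζ ^ k ≠ ζ ^ i) :
    ∃ c ∈ S, kummerE q ζ y k * kummerE q ζ y i = (y ^ q - 1) * c := by
  set ω : F' := ζ ^ k * ζ ^ ((q - 1) * i) with hωdef
  have hinv : ζ ^ ((q - 1) * i) * ζ ^ i = 1 := by
    rw [← pow_add, ← Nat.succ_mul, Nat.succ_eq_add_one, Nat.sub_add_cancel hq1, pow_mul, hζ,
      one_pow]
  have hω : ζ ^ k = ω * ζ ^ i := by
    rw [hωdef, mul_assoc, hinv, mul_one]
  have hωq : ω ^ q = 1 := by
    rw [hωdef, mul_pow, ← pow_mul, ← pow_mul, mul_comm k q, mul_comm ((q - 1) * i) q, pow_mul,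
      pow_mul ζ q, hζ, one_pow, one_pow, one_mul]
  have hω1 : ω ≠ 1 := by
    intro h1
    apply hne
    rw [hω, h1, one_mul]
  have hωS : ω ∈ S := S.mul_mem (S.pow_mem hζS _) (S.pow_mem hζS _)
  have h := kummerE_mul_kummerE hζ y i k hω
  rw [geom_sum_eq_zero_of_ne_one hωq hω1, mul_zero, zero_mul, zero_add] at h
  refine ⟨_, ?_, h⟩
  refine S.mul_mem hqS (S.sum_mem fun j _ => S.mul_mem (S.pow_mem hωS _)
    (S.mul_mem hqS (S.sum_mem fun l _ => S.pow_mem (S.mul_mem (S.pow_mem hζS i) hyS) _)))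

/-- `∑_{i<q} E_i = 1` for a primitive `q`-th root of unity `ζ`. -/
theorem kummerE_sum {q : ℕ} {ζ : F'} (hq : (q : F') ≠ 0) (hζ : IsPrimitiveRoot ζ q) (y : F') :
    ∑ i ∈ Finset.range q, kummerE q ζ y i = 1 := by
  unfold kummerE
  rw [← Finset.mul_sum, Finset.sum_comm]
  have h : ∀ j ∈ Finset.range q, ∑ i ∈ Finset.range q, (ζ ^ i * y) ^ j
      = if j = 0 then (q : F') else 0 := by
    intro j hj
    have hj' : j < q := Finset.mem_range.mp hj
    split_ifs with h0
    · subst h0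
      simp
    · have h1 : ∀ i, (ζ ^ i * y) ^ j = (ζ ^ j) ^ i * y ^ j := by
        intro i
        rw [mul_pow, ← pow_mul, ← pow_mul, mul_comm i j]
      simp_rw [h1]
      rw [← Finset.sum_mul]
      have hne : ζ ^ j ≠ 1 := hζ.pow_ne_one_of_pos_of_lt h0 hj'
      have hq' : (ζ ^ j) ^ q = 1 := by rw [← pow_mul, mul_comm, pow_mul, hζ.pow_eq_one, one_pow]
      rw [geom_sum_eq_zero_of_ne_one hq' hne, zero_mul]
  rw [Finset.sum_congr rfl h]
  have hq0 : 0 < q := Nat.pos_of_ne_zero (by rintro rfl; simp at hq)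
  rw [Finset.sum_ite_eq' (Finset.range q) 0 (fun _ => (q : F'))]
  simp [hq0, inv_mul_cancel₀ hq]

end Calculus

section Main

variable {O F F' : Type*} [CommRing O] [Field F] [Field F'] [Algebra O F] [Algebra F F']

/-- The subring of `F'` of elements integral over the chart `W`. -/
noncomputable def intSubring (W : Subalgebra O F) : Subring F' :=
  (integralClosure W F').toSubring

theorem mem_intSubring {W : Subalgebra O F} {x : F'} :
    x ∈ intSubring (F' := F') W ↔ IsIntegral W x := Iff.rfl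

variable [Algebra O F'] [IsScalarTower O F F']

/-- Elements of the base ring are integral over every chart. -/
theorem isIntegral_base (W : Subalgebra O F) (a : O) : IsIntegral W (algebraMap O F' a) := by
  rw [IsScalarTower.algebraMap_apply O F F']
  exact isIntegral_of_mem (W.algebraMap_mem a)

theorem natCast_inv_eq {q : ℕ} {u : O} (hu : (q : O) * u = 1) :
    ((q : F')⁻¹ : F') = algebraMap O F' u := by
  have h : (q : F') * algebraMap O F' u = 1 := by
    have := congrArg (algebraMap O F') hu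
    rwa [map_mul, map_natCast, map_one] at this
  exact (eq_inv_of_mul_eq_one_right h).symm

theorem natCast_ne_zero_of_unit {q : ℕ} {u : O} (hu : (q : O) * u = 1) : (q : F') ≠ 0 := by
  intro h0
  have h : (q : F') * algebraMap O F' u = 1 := by
    have := congrArg (algebraMap O F') hu
    rwa [map_mul, map_natCast, map_one] at this
  rw [h0, zero_mul] at h
  exact zero_ne_one h

/-- The Kummer elements are integral over the Gauss ring. -/
theorem isIntegral_kummerE (W : Subalgebra O F) {q : ℕ} {u : O} (hu : (q : O) * u = 1) (ζ : O)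
    {y : F'} (hyW : IsIntegral W y) (i : ℕ) :
    IsIntegral W (kummerE q (algebraMap O F' ζ) y i) := by
  refine kummerE_mem (intSubring W) ?_ (isIntegral_base W ζ) hyW i
  rw [natCast_inv_eq hu]
  exact isIntegral_base W u

/-- **Local representative.**  `R ≤ W` charts, `y^q = U`, `g ∈ 1 + π W` and `b ∈ R` with
`b U g^q ∈ R`.  Then `b^(q-1) E_i ∈ R' + π W'`. -/
theorem local_rep {R W : Subalgebra O F} (hRW : R ≤ W) {π : O} {q : ℕ} (hq1 : 1 ≤ q) {u : O}
    (hu : (q : O) * u = 1) (ζ : O) {U : F} (hUW : U ∈ W) {y : F'}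
    (hy : y ^ q = algebraMap F F' U) {g : F} (hgW : g ∈ W) {w₀ : F} (hw₀ : w₀ ∈ W)
    (hg : g - 1 = algebraMap O F π * w₀) {b : F} (hb : b ∈ R) (hbU : b * U * g ^ q ∈ R)
    (i : ℕ) :
    ∃ r w : F', IsIntegral R r ∧ IsIntegral W w ∧
      algebraMap F F' (b ^ (q - 1)) * kummerE q (algebraMap O F' ζ) y i
        = r + algebraMap F F' (algebraMap O F π) * w := by
  set ζ' : F' := algebraMap O F' ζ with hζ'
  set g' : F' := algebraMap F F' g with hg'
  set b' : F' := algebraMap F F' b with hb'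
  have hyW : IsIntegral W y := by
    refine IsIntegral.of_pow (Nat.lt_of_lt_of_le Nat.zero_lt_one hq1) ?_
    rw [hy]
    exact isIntegral_of_mem hUW
  have hqW : IsIntegral W ((q : F')⁻¹) := by
    rw [natCast_inv_eq hu]; exact isIntegral_base W u
  have hqR : IsIntegral R ((q : F')⁻¹) := by
    rw [natCast_inv_eq hu]; exact isIntegral_base R u
  have hζW : IsIntegral W ζ' := isIntegral_base W ζ
  have hζR : IsIntegral R ζ' := isIntegral_base R ζ
  have hg'W : IsIntegral W g' := isIntegral_of_mem hgW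
  have hb'R : IsIntegral R b' := isIntegral_of_mem hb
  have hb'W : IsIntegral W b' := isIntegral_of_mem (hRW hb)
  -- the key integral element
  have hkey : IsIntegral R (b' * (ζ' ^ i * (y * g'))) := by
    refine IsIntegral.of_pow (Nat.lt_of_lt_of_le Nat.zero_lt_one hq1) ?_
    have e : (b' * (ζ' ^ i * (y * g'))) ^ q
        = (b' ^ (q - 1) * (ζ' ^ i) ^ q) * algebraMap F F' (b * U * g ^ q) := by
      rw [map_mul, map_mul, map_pow, ← hy, ← hb', ← hg']
      have : b' ^ q = b' ^ (q - 1) * b' := by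
        rw [← pow_succ, Nat.sub_add_cancel hq1]
      rw [mul_pow, mul_pow, mul_pow, this]
      ring
    rw [e]
    exact ((hb'R.pow _).mul ((hζR.pow _).pow _)).mul (isIntegral_of_mem hbU)
  -- the local representative
  refine ⟨(q : F')⁻¹ * ∑ j ∈ Finset.range q,
      b' ^ (q - 1 - j) * (b' * (ζ' ^ i * (y * g'))) ^ j,
    b' ^ (q - 1) * ((q : F')⁻¹ * ∑ j ∈ Finset.range q,
      (ζ' ^ i * y) ^ j * (-(algebraMap F F' w₀) * ∑ l ∈ Finset.range j, g' ^ l)), ?_, ?_, ?_⟩
  · exact hqR.mul (IsIntegral.sum _ fun j _ => (hb'R.pow _).mul (hkey.pow _))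
  · exact (hb'W.pow _).mul (hqW.mul (IsIntegral.sum _ fun j _ =>
      ((hζW.pow _).mul hyW).pow _ |>.mul
        ((isIntegral_of_mem hw₀).neg.mul (IsIntegral.sum _ fun l _ => hg'W.pow _))))
  · -- the identity
    have hgeom : ∀ j : ℕ, 1 - g' ^ j
        = algebraMap F F' (algebraMap O F π) *
          (-(algebraMap F F' w₀) * ∑ l ∈ Finset.range j, g' ^ l) := by
      intro j
      have h1 := geom_sum_mul g' j
      have h2 : g' - 1 = algebraMap F F' (algebraMap O F π) * algebraMap F F' w₀ := by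
        rw [hg', ← map_one (algebraMap F F'), ← map_sub, hg, map_mul]
      rw [h2] at h1
      linear_combination h1
    have hterm : ∀ j ∈ Finset.range q,
        b' ^ (q - 1) * (ζ' ^ i * y) ^ j
          = b' ^ (q - 1 - j) * (b' * (ζ' ^ i * (y * g'))) ^ j
            + algebraMap F F' (algebraMap O F π) *
              (b' ^ (q - 1) * ((ζ' ^ i * y) ^ j *
                (-(algebraMap F F' w₀) * ∑ l ∈ Finset.range j, g' ^ l))) := by
      intro j hj
      have hj' : j ≤ q - 1 := Nat.le_sub_one_of_lt (Finset.mem_range.mp hj)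
      have hb1 : b' ^ (q - 1) = b' ^ (q - 1 - j) * b' ^ j := by
        rw [← pow_add, Nat.sub_add_cancel hj']
      have h3 : b' ^ (q - 1 - j) * (b' * (ζ' ^ i * (y * g'))) ^ j
          = b' ^ (q - 1) * (ζ' ^ i * y) ^ j * g' ^ j := by
        rw [hb1]; ring
      rw [h3]
      have h4 := hgeom j
      linear_combination (b' ^ (q - 1) * (ζ' ^ i * y) ^ j) * h4
    unfold kummerE
    calc algebraMap F F' (b ^ (q - 1)) * ((q : F')⁻¹ * ∑ j ∈ Finset.range q, (ζ' ^ i * y) ^ j)
        = (q : F')⁻¹ * ∑ j ∈ Finset.range q, b' ^ (q - 1) * (ζ' ^ i * y) ^ j := by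
          rw [map_pow, ← hb', Finset.mul_sum, Finset.mul_sum, Finset.mul_sum]
          apply Finset.sum_congr rfl
          intro j _
          ring
      _ = (q : F')⁻¹ * ∑ j ∈ Finset.range q,
            (b' ^ (q - 1 - j) * (b' * (ζ' ^ i * (y * g'))) ^ j
            + algebraMap F F' (algebraMap O F π) *
              (b' ^ (q - 1) * ((ζ' ^ i * y) ^ j *
                (-(algebraMap F F' w₀) * ∑ l ∈ Finset.range j, g' ^ l)))) := by
          rw [Finset.sum_congr rfl hterm]
      _ = _ := by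
          rw [Finset.sum_add_distrib, ← Finset.mul_sum, ← Finset.mul_sum]
          ring

omit [Algebra O F'] [IsScalarTower O F F'] in
/-- `y` is integral over the Gauss ring. -/
theorem isIntegral_root {W : Subalgebra O F} {q : ℕ} (hq1 : 1 ≤ q) {U : F} (hUW : U ∈ W)
    {y : F'} (hy : y ^ q = algebraMap F F' U) : IsIntegral W y := by
  refine IsIntegral.of_pow (Nat.lt_of_lt_of_le Nat.zero_lt_one hq1) ?_
  rw [hy]
  exact isIntegral_of_mem hUW

/-- **Kummer idempotents are represented in the integral closure of a chart** (K1).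
`R ≤ W` charts, `y^q = U ∈ W`, and the LOCAL FACTORISATION hypothesis at every maximal ideal
`𝔪 ∋ π` of `R`: some `g ∈ 1 + π W` and `b ∈ R ∖ 𝔪` with `b U g^q ∈ R`.  Then every Kummer
element `E_i` lies in `R' + π W'`. -/
theorem exists_rep {R W : Subalgebra O F} (hRW : R ≤ W) {π : O} {q : ℕ} (hq1 : 1 ≤ q) {u : O}
    (hu : (q : O) * u = 1) (ζ : O) {U : F} (hUW : U ∈ W) {y : F'}
    (hy : y ^ q = algebraMap F F' U)
    (hloc : ∀ 𝔪 : Ideal R, 𝔪.IsMaximal → algebraMap O R π ∈ 𝔪 →
      ∃ g ∈ W, (∃ w₀ ∈ W, g - 1 = algebraMap O F π * w₀) ∧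
        ∃ b : R, b ∉ 𝔪 ∧ (b : F) * U * g ^ q ∈ R)
    (i : ℕ) :
    ∃ r w : F', IsIntegral R r ∧ IsIntegral W w ∧
      kummerE q (algebraMap O F' ζ) y i = r + algebraMap F F' (algebraMap O F π) * w := by
  have hyW : IsIntegral W y := isIntegral_root hq1 hUW hy
  refine exists_add_of_local hRW (R.algebraMap_mem π) (isIntegral_kummerE W hu ζ hyW i) ?_
  intro 𝔪 h𝔪 hπ𝔪
  obtain ⟨g, hgW, ⟨w₀, hw₀, hg⟩, b, hb𝔪, hbU⟩ := hloc 𝔪 h𝔪 hπ𝔪
  refine ⟨b ^ (q - 1), fun h => hb𝔪 (h𝔪.isPrime.mem_of_pow_mem _ h), ?_⟩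
  have := local_rep hRW hq1 hu ζ hUW hy hgW hw₀ hg b.2 hbU i
  simpa using this

omit [Algebra O F'] [IsScalarTower O F F'] in
/-- `1 ∉ π W'` when `π` is not a unit of the (integrally closed) Gauss ring. -/
theorem not_one_eq {W : Subalgebra O F} (hWic : ∀ a : F, IsIntegral W a → a ∈ W) {π : O}
    (hπW : (algebraMap O F π)⁻¹ ∉ W) :
    ¬ ∃ w : F', IsIntegral W w ∧ (1 : F') = algebraMap F F' (algebraMap O F π) * w := by
  rintro ⟨w, hw, h⟩
  apply hπW
  apply hWic
  have hw' : w = algebraMap F F' (algebraMap O F π)⁻¹ := by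
    rw [map_inv₀]
    exact eq_inv_of_mul_eq_one_right h.symm
  rw [hw'] at hw
  exact (isIntegral_algebraMap_iff (algebraMap F F').injective).mp hw

/-- The Kummer automorphism shifts the Kummer elements. -/
theorem sigma_kummerE {q : ℕ} (ζ : O) {y : F'} (σ : F' ≃ₐ[F] F')
    (hσ : σ y = algebraMap O F' ζ * y) (i : ℕ) :
    σ (kummerE q (algebraMap O F' ζ) y i) = kummerE q (algebraMap O F' ζ) y (i + 1) := by
  have hζσ : σ (algebraMap O F' ζ) = algebraMap O F' ζ := by
    rw [IsScalarTower.algebraMap_apply O F F', σ.commutes]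
  unfold kummerE
  rw [map_mul, map_inv₀, map_natCast, map_sum]
  congr 1
  apply Finset.sum_congr rfl
  intro j _
  rw [map_pow, map_mul, map_pow, hζσ, hσ, pow_succ]
  ring

/-- **Non-vanishing of the Kummer idempotents** (uses the Kummer automorphism `σ`):
no `E_i` lies in `π W'`. -/
theorem kummerE_not_mem {W : Subalgebra O F} (hWic : ∀ a : F, IsIntegral W a → a ∈ W) {π : O}
    (hπW : (algebraMap O F π)⁻¹ ∉ W) {q : ℕ} (hq1 : 1 ≤ q) {u : O} (hu : (q : O) * u = 1)
    {ζ : O} (hζ : IsPrimitiveRoot (algebraMap O F' ζ) q) {y : F'} (σ : F' ≃ₐ[F] F')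
    (hσ : σ y = algebraMap O F' ζ * y) (i : ℕ) :
    ¬ ∃ w : F', IsIntegral W w ∧
      kummerE q (algebraMap O F' ζ) y i = algebraMap F F' (algebraMap O F π) * w := by
  intro hi
  -- all shifts
  have hshift : ∀ n : ℕ, ∃ w : F', IsIntegral W w ∧
      kummerE q (algebraMap O F' ζ) y (i + n) = algebraMap F F' (algebraMap O F π) * w := by
    intro n
    induction n with
    | zero => simpa using hi
    | succ n ih =>
      obtain ⟨w, hw, h⟩ := ih
      refine ⟨σ w, hw.map σ, ?_⟩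
      rw [← add_assoc, ← sigma_kummerE ζ σ hσ, h, map_mul, σ.commutes]
  have hall : ∀ k ∈ Finset.range q, ∃ w : F', IsIntegral W w ∧
      kummerE q (algebraMap O F' ζ) y k = algebraMap F F' (algebraMap O F π) * w := by
    intro k _
    obtain ⟨w, hw, h⟩ := hshift (k + (q - 1) * i)
    refine ⟨w, hw, ?_⟩
    rw [← h]
    apply kummerE_congr
    have e : i + (k + (q - 1) * i) = k + q * i := by
      have : q = (q - 1) + 1 := (Nat.sub_add_cancel hq1).symm
      conv_rhs => rw [this]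
      ring
    rw [e, pow_add, pow_mul, hζ.pow_eq_one, one_pow, mul_one]
  choose! w hw hE using hall
  apply not_one_eq hWic hπW (F' := F')
  refine ⟨∑ k ∈ Finset.range q, w k, IsIntegral.sum _ hw, ?_⟩
  rw [← kummerE_sum (natCast_ne_zero_of_unit hu) hζ y, Finset.mul_sum]
  exact Finset.sum_congr rfl hE

/-- `R` is a chart for the Gauss ring `W` and the uniformiser `π`: contained in `W`,
integrally closed in `F`, and `π`-saturated in `W`. -/
structure IsChart (R W : Subalgebra O F) (π : O) : Prop where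
  le : R ≤ W
  ic : ∀ a : F, IsIntegral R a → a ∈ R
  sat : ∀ a ∈ W, algebraMap O F π * a ∈ R → a ∈ R

/-- The LOCAL FACTORISATION hypothesis for the chart `R`: at every maximal ideal `𝔪 ∋ π`
of `R` there are `g ∈ 1 + π W` and `b ∈ R ∖ 𝔪` with `b U g^q ∈ R`. -/
def LocFact (R W : Subalgebra O F) (π : O) (q : ℕ) (U : F) : Prop :=
  ∀ 𝔪 : Ideal R, 𝔪.IsMaximal → algebraMap O R π ∈ 𝔪 →
    ∃ g ∈ W, (∃ w₀ ∈ W, g - 1 = algebraMap O F π * w₀) ∧
      ∃ b : R, b ∉ 𝔪 ∧ (b : F) * U * g ^ q ∈ R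

omit [Algebra O F'] [IsScalarTower O F F'] in
theorem pi_ne_zero {W : Subalgebra O F} {π : O} (hπW : (algebraMap O F π)⁻¹ ∉ W) :
    algebraMap O F π ≠ 0 := by
  intro h
  apply hπW
  rw [h, inv_zero]
  exact W.zero_mem

/-- Saturation in the form used below: `π' X` integral over the chart and `X` integral over
`W` imply `X` integral over the chart. -/
theorem IsChart.isIntegral_of_mul {R W : Subalgebra O F} {π : O} (hR : IsChart R W π)
    (hWic : ∀ a : F, IsIntegral W a → a ∈ W) (hπW : (algebraMap O F π)⁻¹ ∉ W) {X : F'}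
    (hXW : IsIntegral W X) (hX : IsIntegral R (algebraMap O F' π * X)) : IsIntegral R X := by
  rw [IsScalarTower.algebraMap_apply O F F'] at hX
  exact isIntegral_of_sat hR.ic hWic (pi_ne_zero hπW) (hR.le (R.algebraMap_mem π)) hR.sat hXW hX

/-- (K3a) A representative of a Kummer element is idempotent modulo `π R'`. -/
theorem rep_idem {R W : Subalgebra O F} {π : O} (hR : IsChart R W π)
    (hWic : ∀ a : F, IsIntegral W a → a ∈ W) (hπW : (algebraMap O F π)⁻¹ ∉ W)
    {q : ℕ} (hq1 : 1 ≤ q) {u : O} (hu : (q : O) * u = 1) {ζ : O}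
    (hζ : (algebraMap O F' ζ) ^ q = 1) {U : F} (hUW : U ∈ W)
    (hU1 : ∃ wU ∈ W, U - 1 = algebraMap O F π * wU) {y : F'}
    (hy : y ^ q = algebraMap F F' U) {i : ℕ} {r w : F'} (hr : IsIntegral R r)
    (hw : IsIntegral W w)
    (hE : kummerE q (algebraMap O F' ζ) y i = r + algebraMap O F' π * w) :
    ∃ c : F', IsIntegral R c ∧ r * r - r = algebraMap O F' π * c := by
  obtain ⟨wU, hwU, hU⟩ := hU1
  have hyW : IsIntegral W y := isIntegral_root hq1 hUW hy
  have hEW := isIntegral_kummerE W hu ζ hyW i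
  have hqS : (q : F')⁻¹ ∈ intSubring (F' := F') W := by
    rw [mem_intSubring, natCast_inv_eq hu]; exact isIntegral_base W u
  obtain ⟨c₀, hc₀, hc⟩ := kummerE_idem (intSubring W) (natCast_ne_zero_of_unit hu) hζ hqS
    (isIntegral_base W ζ) hyW i
  have hc₀' : IsIntegral W c₀ := hc₀
  have hyU : y ^ q - 1 = algebraMap O F' π * algebraMap F F' wU := by
    rw [hy, ← map_one (algebraMap F F'), ← map_sub, hU, map_mul,
      ← IsScalarTower.algebraMap_apply O F F']
  set E := kummerE q (algebraMap O F' ζ) y i with hEdef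
  set X : F' := algebraMap F F' wU * c₀ - (w * E + w * E) + algebraMap O F' π * w * w + w
    with hX
  have hXW : IsIntegral W X :=
    IsIntegral.add (IsIntegral.add (IsIntegral.sub ((isIntegral_of_mem hwU).mul hc₀')
      ((hw.mul hEW).add (hw.mul hEW))) (((isIntegral_base W π).mul hw).mul hw)) hw
  have hXeq : r * r - r = algebraMap O F' π * X := by
    have hr' : r = E - algebraMap O F' π * w := by rw [hE]; ring
    rw [hyU] at hc
    rw [hr', hX]
    linear_combination hc
  refine ⟨X, hR.isIntegral_of_mul hWic hπW hXW ?_, hXeq⟩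
  rw [← hXeq]
  exact (hr.mul hr).sub hr

/-- (K3b) Representatives of two different Kummer elements are orthogonal modulo `π R'`. -/
theorem rep_orth {R W : Subalgebra O F} {π : O} (hR : IsChart R W π)
    (hWic : ∀ a : F, IsIntegral W a → a ∈ W) (hπW : (algebraMap O F π)⁻¹ ∉ W)
    {q : ℕ} (hq1 : 1 ≤ q) {u : O} (hu : (q : O) * u = 1) {ζ : O}
    (hζ : (algebraMap O F' ζ) ^ q = 1) {U : F} (hUW : U ∈ W)
    (hU1 : ∃ wU ∈ W, U - 1 = algebraMap O F π * wU) {y : F'}
    (hy : y ^ q = algebraMap F F' U) {i k : ℕ}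
    (hne : (algebraMap O F' ζ) ^ k ≠ (algebraMap O F' ζ) ^ i)
    {r w r' w' : F'} (hr : IsIntegral R r) (hw : IsIntegral W w)
    (hE : kummerE q (algebraMap O F' ζ) y i = r + algebraMap O F' π * w)
    (hr' : IsIntegral R r') (hw' : IsIntegral W w')
    (hE' : kummerE q (algebraMap O F' ζ) y k = r' + algebraMap O F' π * w') :
    ∃ c : F', IsIntegral R c ∧ r' * r = algebraMap O F' π * c := by
  obtain ⟨wU, hwU, hU⟩ := hU1
  have hyW : IsIntegral W y := isIntegral_root hq1 hUW hy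
  have hEW := isIntegral_kummerE W hu ζ hyW i
  have hEW' := isIntegral_kummerE W hu ζ hyW k
  have hqS : (q : F')⁻¹ ∈ intSubring (F' := F') W := by
    rw [mem_intSubring, natCast_inv_eq hu]; exact isIntegral_base W u
  obtain ⟨c₀, hc₀, hc⟩ := kummerE_orth (intSubring W) hq1 hζ hqS (isIntegral_base W ζ) hyW hne
  have hc₀' : IsIntegral W c₀ := hc₀
  have hyU : y ^ q - 1 = algebraMap O F' π * algebraMap F F' wU := by
    rw [hy, ← map_one (algebraMap F F'), ← map_sub, hU, map_mul,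
      ← IsScalarTower.algebraMap_apply O F F']
  set E := kummerE q (algebraMap O F' ζ) y i with hEdef
  set E' := kummerE q (algebraMap O F' ζ) y k with hEdef'
  set X : F' := algebraMap F F' wU * c₀ - w' * E - w * E' + algebraMap O F' π * w' * w with hX
  have hXW : IsIntegral W X :=
    IsIntegral.add (IsIntegral.sub (IsIntegral.sub ((isIntegral_of_mem hwU).mul hc₀')
      (hw'.mul hEW)) (hw.mul hEW')) (((isIntegral_base W π).mul hw').mul hw)
  have hXeq : r' * r = algebraMap O F' π * X := by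
    have hr1 : r = E - algebraMap O F' π * w := by rw [hE]; ring
    have hr2 : r' = E' - algebraMap O F' π * w' := by rw [hE']; ring
    rw [hyU] at hc
    rw [hr1, hr2, hX]
    linear_combination hc
  refine ⟨X, hR.isIntegral_of_mul hWic hπW hXW ?_, hXeq⟩
  rw [← hXeq]
  exact hr'.mul hr

/-- (K3c) Representatives of the same Kummer element on two charts agree modulo `π R01'`
on the overlap. -/
theorem rep_compat {R0 R1 R01 W : Subalgebra O F} {π : O} (h01 : IsChart R01 W π)
    (h0le : R0 ≤ R01) (h1le : R1 ≤ R01)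
    (hWic : ∀ a : F, IsIntegral W a → a ∈ W) (hπW : (algebraMap O F π)⁻¹ ∉ W)
    {E r w r' w' : F'} (hr : IsIntegral R0 r) (hw : IsIntegral W w)
    (hE : E = r + algebraMap O F' π * w)
    (hr' : IsIntegral R1 r') (hw' : IsIntegral W w')
    (hE' : E = r' + algebraMap O F' π * w') :
    ∃ c : F', IsIntegral R01 c ∧ r - r' = algebraMap O F' π * c := by
  have hXeq : r - r' = algebraMap O F' π * (w' - w) := by
    have : r + algebraMap O F' π * w = r' + algebraMap O F' π * w' := by rw [← hE, ← hE']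
    linear_combination this
  refine ⟨w' - w, h01.isIntegral_of_mul hWic hπW (hw'.sub hw) ?_, hXeq⟩
  rw [← hXeq]
  exact (isIntegral_mono h0le hr).sub (isIntegral_mono h1le hr')

/-- (K3d) A representative of a Kummer element does not vanish modulo `π R'`. -/
theorem rep_ne {R W : Subalgebra O F} {π : O} (hRW : R ≤ W)
    (hWic : ∀ a : F, IsIntegral W a → a ∈ W) (hπW : (algebraMap O F π)⁻¹ ∉ W)
    {q : ℕ} (hq1 : 1 ≤ q) {u : O} (hu : (q : O) * u = 1) {ζ : O}
    (hζ : IsPrimitiveRoot (algebraMap O F' ζ) q) {y : F'} (σ : F' ≃ₐ[F] F')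
    (hσ : σ y = algebraMap O F' ζ * y) {i : ℕ} {r w : F'} (hw : IsIntegral W w)
    (hE : kummerE q (algebraMap O F' ζ) y i = r + algebraMap O F' π * w) :
    ¬ ∃ c : F', IsIntegral R c ∧ r = algebraMap O F' π * c := by
  rintro ⟨c, hc, hrc⟩
  apply kummerE_not_mem hWic hπW hq1 hu hζ σ hσ i
  refine ⟨c + w, (isIntegral_mono hRW hc).add hw, ?_⟩
  rw [hE, hrc, ← IsScalarTower.algebraMap_apply O F F']
  ring

/-- **Final contradiction (K4).**  Two charts `R0, R1 ≤ R01 ≤ W` of a Gauss ring `W` with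
non-unit `π`; Kummer data `y^q = U`, `U ≡ 1 mod π W`, with Kummer automorphism `σ`;
local factorisation on both charts; and Cech rigidity of idempotents for the integral
closures of the charts in `F'`.  Contradiction.  (So: under local factorisation and Cech
rigidity, `X^q - U` is reducible.) -/
theorem kummer_false {W R0 R1 R01 : Subalgebra O F} {π : O}
    (hWic : ∀ a : F, IsIntegral W a → a ∈ W) (hπW : (algebraMap O F π)⁻¹ ∉ W)
    (h0 : IsChart R0 W π) (h1 : IsChart R1 W π) (h01 : IsChart R01 W π)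
    (h0le : R0 ≤ R01) (h1le : R1 ≤ R01)
    {q : ℕ} (hq2 : 2 ≤ q) {u : O} (hu : (q : O) * u = 1) {ζ : O}
    (hζ : IsPrimitiveRoot (algebraMap O F' ζ) q) {U : F} (hUW : U ∈ W)
    (hU1 : ∃ wU ∈ W, U - 1 = algebraMap O F π * wU) {y : F'}
    (hy : y ^ q = algebraMap F F' U) (σ : F' ≃ₐ[F] F') (hσ : σ y = algebraMap O F' ζ * y)
    (hloc0 : LocFact R0 W π q U) (hloc1 : LocFact R1 W π q U)
    (hrig : ∀ a b : F', IsIntegral R0 a → IsIntegral R1 b →
      (∃ c, IsIntegral R0 c ∧ a * a - a = algebraMap O F' π * c) →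
      (∃ c, IsIntegral R1 c ∧ b * b - b = algebraMap O F' π * c) →
      (∃ c, IsIntegral R01 c ∧ a - b = algebraMap O F' π * c) →
      ((∃ c, IsIntegral R0 c ∧ a = algebraMap O F' π * c) ∧
        (∃ c, IsIntegral R1 c ∧ b = algebraMap O F' π * c)) ∨
      ((∃ c, IsIntegral R0 c ∧ a - 1 = algebraMap O F' π * c) ∧
        (∃ c, IsIntegral R1 c ∧ b - 1 = algebraMap O F' π * c))) : False := by
  have hq1 : 1 ≤ q := le_trans (by norm_num) hq2
  have hζq : (algebraMap O F' ζ) ^ q = 1 := hζ.pow_eq_one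
  -- representatives on both charts, for `i = 0` and `i = 1`
  have rep0 : ∀ i, ∃ r w : F', IsIntegral R0 r ∧ IsIntegral W w ∧
      kummerE q (algebraMap O F' ζ) y i = r + algebraMap O F' π * w := by
    intro i
    have := exists_rep h0.le hq1 hu ζ hUW hy hloc0 i
    simpa only [← IsScalarTower.algebraMap_apply O F F'] using this
  have rep1 : ∀ i, ∃ r w : F', IsIntegral R1 r ∧ IsIntegral W w ∧
      kummerE q (algebraMap O F' ζ) y i = r + algebraMap O F' π * w := by
    intro i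
    have := exists_rep h1.le hq1 hu ζ hUW hy hloc1 i
    simpa only [← IsScalarTower.algebraMap_apply O F F'] using this
  -- each representative on `R0` is `≡ 1`
  have key : ∀ i, ∀ r w : F', IsIntegral R0 r → IsIntegral W w →
      kummerE q (algebraMap O F' ζ) y i = r + algebraMap O F' π * w →
      ∃ c, IsIntegral R0 c ∧ r - 1 = algebraMap O F' π * c := by
    intro i r w hr hw hE
    obtain ⟨r', w', hr', hw', hE'⟩ := rep1 i
    rcases hrig r r' hr hr'
      (rep_idem h0 hWic hπW hq1 hu hζq hUW hU1 hy hr hw hE)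
      (rep_idem h1 hWic hπW hq1 hu hζq hUW hU1 hy hr' hw' hE')
      (rep_compat h01 h0le h1le hWic hπW hr hw hE hr' hw' hE') with h | h
    · exact absurd h.1 (rep_ne h0.le hWic hπW hq1 hu hζ σ hσ hw hE)
    · exact h.1
  obtain ⟨r, w, hr, hw, hE⟩ := rep0 0
  obtain ⟨r', w', hr', hw', hE'⟩ := rep0 1
  obtain ⟨c, hc, hrc⟩ := key 0 r w hr hw hE
  obtain ⟨c', hc', hrc'⟩ := key 1 r' w' hr' hw' hE'
  have hne : (algebraMap O F' ζ) ^ 1 ≠ (algebraMap O F' ζ) ^ 0 := by
    rw [pow_one, pow_zero]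
    exact hζ.ne_one (by omega)
  obtain ⟨d, hd, hrd⟩ := rep_orth h0 hWic hπW hq1 hu hζq hUW hU1 hy hne hr hw hE hr' hw' hE'
  apply not_one_eq hWic hπW (F' := F')
  refine ⟨d - c - c' - algebraMap O F' π * c * c', isIntegral_mono h0.le
    (((hd.sub hc).sub hc').sub (((isIntegral_base R0 π).mul hc).mul hc')), ?_⟩
  rw [← IsScalarTower.algebraMap_apply O F F']
  have e1 : r = 1 + algebraMap O F' π * c := by linear_combination hrc
  have e2 : r' = 1 + algebraMap O F' π * c' := by linear_combination hrc'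
  rw [e1, e2] at hrd
  linear_combination hrd

end Main

end Fermat.Agent.S37.helper5228
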