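/-
S37/S18-KUMIDEM, second file (helper5228).

* `kummer_false_cech` : `kummer_false` with the rigidity hypothesis discharged by
  `Fermat.Agent.S18.helper5122.idempotent_rigid` (two-chart Cech lemma): the consumer owes
  `H⁰ = O` and bounded `π`-torsion of `H¹` for the integral closures of the charts in the
  Kummer extension.
* `kummerData_adjoinRoot` : the Kummer data `(y, σ)` on `AdjoinRoot (X^q - C U)`.
-/
import Fermat.Agent.S37.helper5228_KummerIdem
import Fermat.Agent.S18.helper5122_Cech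

set_option autoImplicit false

namespace Fermat.Agent.S37.helper5228

open Polynomial

section Cech

variable {O F F' : Type*} [CommRing O] [Field F] [Field F'] [Algebra O F] [Algebra F F']
  [Algebra O F'] [IsScalarTower O F F']

/-- The integral closure of a chart in `F'`, as an `O`-subalgebra of `F'`. -/
noncomputable def intCl (R : Subalgebra O F) : Subalgebra O F' :=
  (integralClosure R F').restrictScalars O

theorem mem_intCl {R : Subalgebra O F} {x : F'} :
    x ∈ intCl (F' := F') R ↔ IsIntegral R x := Iff.rfl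

/-- **Kummer + Cech.**  Two charts `R0, R1 ≤ R01 ≤ W` of a Gauss ring `W` with non-unit
`π`; Kummer data `y^q = U`, `U ≡ 1 mod π W`, Kummer automorphism `σ`; local factorisation on
both charts; `H⁰ = O` and bounded `π`-power torsion of `H¹` for the integral closures of the
charts in `F'`; `O/π` has only trivial idempotents.  Contradiction. -/
theorem kummer_false_cech {W R0 R1 R01 : Subalgebra O F} {π : O}
    (hWic : ∀ a : F, IsIntegral W a → a ∈ W) (hπW : (algebraMap O F π)⁻¹ ∉ W)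
    (h0 : IsChart R0 W π) (h1 : IsChart R1 W π) (h01 : IsChart R01 W π)
    (h0le : R0 ≤ R01) (h1le : R1 ≤ R01)
    {q : ℕ} (hq2 : 2 ≤ q) {u : O} (hu : (q : O) * u = 1) {ζ : O}
    (hζ : IsPrimitiveRoot (algebraMap O F' ζ) q) {U : F} (hUW : U ∈ W)
    (hU1 : ∃ wU ∈ W, U - 1 = algebraMap O F π * wU) {y : F'}
    (hy : y ^ q = algebraMap F F' U) (σ : F' ≃ₐ[F] F') (hσ : σ y = algebraMap O F' ζ * y)
    (hloc0 : LocFact R0 W π q U) (hloc1 : LocFact R1 W π q U)
    (hinj : Function.Injective (algebraMap O F'))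
    (hH0 : ∀ x : F', IsIntegral R0 x → IsIntegral R1 x → ∃ α : O, algebraMap O F' α = x)
    (c : ℕ)
    (hc : ∀ (n : ℕ) (x : F'), IsIntegral R01 x →
      (∃ a, IsIntegral R0 a ∧ ∃ b, IsIntegral R1 b ∧ algebraMap O F' π ^ n * x = a + b) →
      ∃ a, IsIntegral R0 a ∧ ∃ b, IsIntegral R1 b ∧ algebraMap O F' π ^ c * x = a + b)
    (hA : ∀ α : O, π ∣ α * α - α → π ∣ α ∨ π ∣ α - 1) : False := by
  have hπ' : algebraMap O F' π ≠ 0 := by
    rw [IsScalarTower.algebraMap_apply O F F']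
    exact (map_ne_zero (algebraMap F F')).mpr (pi_ne_zero hπW)
  refine kummer_false hWic hπW h0 h1 h01 h0le h1le hq2 hu hζ hUW hU1 hy σ hσ hloc0 hloc1 ?_
  intro a b ha hb haa hbb hab
  have key := Fermat.Agent.S18.helper5122.idempotent_rigid (A := O) (E := F') π
    (intCl R0) (intCl R1) (intCl R01)
    (fun x hx => isIntegral_mono h0le hx) (fun x hx => isIntegral_mono h1le hx) hinj
    (fun x _ hx => (mul_eq_zero.mp hx).resolve_left hπ')
    hH0 c
    (fun n x hx ⟨a, ha, b, hb, h⟩ => by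
      obtain ⟨a', ha', b', hb', h'⟩ := hc n x hx ⟨a, ha, b, hb, h⟩
      exact ⟨a', ha', b', hb', h'⟩)
    hA (a := a) (b := b) ha hb
    (by obtain ⟨x, hx, h⟩ := haa; exact ⟨x, hx, h⟩)
    (by obtain ⟨x, hx, h⟩ := hbb; exact ⟨x, hx, h⟩)
    (by obtain ⟨x, hx, h⟩ := hab; exact ⟨x, hx, h⟩)
  rcases key with ⟨⟨x, hx, h⟩, ⟨x', hx', h'⟩⟩ | ⟨⟨x, hx, h⟩, ⟨x', hx', h'⟩⟩
  · exact Or.inl ⟨⟨x, hx, h⟩, ⟨x', hx', h'⟩⟩
  · exact Or.inr ⟨⟨x, hx, h⟩, ⟨x', hx', h'⟩⟩

end Cech

section AdjoinRootData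

variable {O F : Type*} [CommRing O] [Field F] [Algebra O F]

/-- **Kummer data on `AdjoinRoot (X^q - C U)`**: the root `y` with `y^q = U` and the
automorphism `σ` with `σ y = ζ y`.  (With `Fact (Irreducible (X^q - C U))` the ring
`AdjoinRoot (X^q - C U)` is a field and `kummer_false_cech` applies to it.) -/
theorem kummerData_adjoinRoot {q : ℕ} [NeZero q] (U : F) {ζ : O}
    (hζ : (algebraMap O F ζ) ^ q = 1) :
    ∃ (y : AdjoinRoot (X ^ q - C U : F[X]))
      (σ : AdjoinRoot (X ^ q - C U : F[X]) ≃ₐ[F] AdjoinRoot (X ^ q - C U : F[X])),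
      y ^ q = algebraMap F (AdjoinRoot (X ^ q - C U : F[X])) U ∧
        σ y = algebraMap O (AdjoinRoot (X ^ q - C U : F[X])) ζ * y := by
  refine ⟨AdjoinRoot.root _, autAdjoinRootXPowSubC q U (rootsOfUnity.mkOfPowEq _ hζ),
    root_X_pow_sub_C_pow q U, ?_⟩
  rw [autAdjoinRootXPowSubC_root, rootsOfUnity.coe_mkOfPowEq, Algebra.smul_def,
    ← IsScalarTower.algebraMap_apply]

/-- For a prime `q`, if `U` is not a `q`-th power then `X^q - C U` is irreducible, so the
Kummer data above lives on a field. -/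
theorem irreducible_of_not_pow {q : ℕ} (hq : q.Prime) {U : F} (hU : ∀ V : F, V ^ q ≠ U) :
    Irreducible (X ^ q - C U : F[X]) :=
  X_pow_sub_C_irreducible_of_prime hq hU

end AdjoinRootData

section Consumer

variable {O F : Type*} [CommRing O] [Field F] [Algebra O F]

/-- **Consumer form: `U` is a `q`-th power.**  `q` prime, invertible in `O`, with a
primitive `q`-th root of unity `ζ ∈ O`; `U ≡ 1 mod π W`; local factorisation on both charts;
and, IF `X^q - U` is irreducible, the two Cech inputs (`H⁰ = O`, bounded `π`-torsion of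
`H¹`) for the integral closures of the charts in `AdjoinRoot (X^q - C U)`.  Then `U = V^q`
for some `V ∈ F`. -/
theorem exists_pow_eq_of_cech {W R0 R1 R01 : Subalgebra O F} {π : O}
    (hWic : ∀ a : F, IsIntegral W a → a ∈ W) (hπW : (algebraMap O F π)⁻¹ ∉ W)
    (h0 : IsChart R0 W π) (h1 : IsChart R1 W π) (h01 : IsChart R01 W π)
    (h0le : R0 ≤ R01) (h1le : R1 ≤ R01)
    {q : ℕ} (hq : q.Prime) {u : O} (hu : (q : O) * u = 1) {ζ : O}
    (hζ : IsPrimitiveRoot (algebraMap O F ζ) q) {U : F} (hUW : U ∈ W)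
    (hU1 : ∃ wU ∈ W, U - 1 = algebraMap O F π * wU)
    (hloc0 : LocFact R0 W π q U) (hloc1 : LocFact R1 W π q U)
    (hA : ∀ α : O, π ∣ α * α - α → π ∣ α ∨ π ∣ α - 1)
    (hcech : Irreducible (X ^ q - C U : F[X]) →
      Function.Injective (algebraMap O (AdjoinRoot (X ^ q - C U : F[X]))) ∧
      (∀ x : AdjoinRoot (X ^ q - C U : F[X]), IsIntegral R0 x → IsIntegral R1 x →
        ∃ α : O, algebraMap O (AdjoinRoot (X ^ q - C U : F[X])) α = x) ∧
      ∃ c : ℕ, ∀ (n : ℕ) (x : AdjoinRoot (X ^ q - C U : F[X])), IsIntegral R01 x →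
        (∃ a, IsIntegral R0 a ∧ ∃ b, IsIntegral R1 b ∧
          algebraMap O (AdjoinRoot (X ^ q - C U : F[X])) π ^ n * x = a + b) →
        ∃ a, IsIntegral R0 a ∧ ∃ b, IsIntegral R1 b ∧
          algebraMap O (AdjoinRoot (X ^ q - C U : F[X])) π ^ c * x = a + b) :
    ∃ V : F, V ^ q = U := by
  by_contra hne
  have hne : ∀ V : F, V ^ q ≠ U := fun V hV => hne ⟨V, hV⟩
  have hirr := irreducible_of_not_pow hq hne
  have : Fact (Irreducible (X ^ q - C U : F[X])) := ⟨hirr⟩
  have : NeZero q := ⟨hq.ne_zero⟩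
  obtain ⟨hinj, hH0, c, hc⟩ := hcech hirr
  obtain ⟨y, σ, hy, hσ⟩ := kummerData_adjoinRoot (O := O) U hζ.pow_eq_one
  have hζ' : IsPrimitiveRoot (algebraMap O (AdjoinRoot (X ^ q - C U : F[X])) ζ) q := by
    rw [IsScalarTower.algebraMap_apply O F (AdjoinRoot (X ^ q - C U : F[X]))]
    exact hζ.map_of_injective (algebraMap F (AdjoinRoot (X ^ q - C U : F[X]))).injective
  exact kummer_false_cech (F' := AdjoinRoot (X ^ q - C U : F[X])) hWic hπW h0 h1 h01 h0le h1le
    hq.two_le hu hζ' hUW hU1 hy σ hσ hloc0 hloc1 hinj hH0 c hc hA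

end Consumer

end Fermat.Agent.S37.helper5228
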