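import Fermat.Agent.S37.helper4612_NormValue
import Fermat.Agent.S37.helper869_Xfer

/-!
# S37-B4 CPF (helper5259): the characteristic-polynomial fibre formula

`F'/F` a finite extension of fields with places over `K` (characteristic zero), `v` a place of
`F` such that every place `w` of `F'` over `v` has residue field `K`.  If `h : F'` has the value
`c w : K` at every place `w` over `v`, then every coefficient of the characteristic polynomial of
(the multiplication by) `h` over `F` has at `v` the value of the corresponding coefficient of

  `∏_{w ∣ v} (X - C (c w)) ^ e(w ∣ v)`.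

This is the hypothesis `hval` (`helper7465.CharpolyValueAt` / `helper7465.CharpolyValueAlong`) of
the landed transfer theorems (`helper7465_Transfer`, `helper869_Xfer`).

Proof.  The coefficients of the characteristic polynomial are integral at `v`
(`helper869.isIntegral_coeff_charpoly_mulLeft`).  For every constant `a : K`, the value of the
characteristic polynomial at `a` is the norm of `a - h`, whose value at `v` is
`∏ (a - c w) ^ e(w ∣ v)` by the landed norm form `helper4612.norm_sub_prod_mem_nonunits`.  So the
difference of the two polynomials, reduced to the residue field of `v`, vanishes at the infinitely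
many images of the constants: it is zero.
-/

set_option autoImplicit false
set_option linter.unusedSectionVars false
set_option linter.style.haveILetI false

open AlgebraicCurve Polynomial

namespace Fermat.Agent.S37.helper5259

open Fermat.Agent.S37.helper7465 (HasValueAt CharpolyValueAt CharpolyValueAlong)

section InstanceForm

variable {K F F' : Type*} [Field K] [Field F] [Field F'] [Algebra K F] [Algebra K F']
  [Algebra F F'] [IsScalarTower K F F'] [Module.Finite F F']

/-- The value at `t : F` of the characteristic polynomial of the multiplication by `h : F'` is
the norm of `t - h`. -/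
theorem eval_charpoly_mulLeft (h : F') (t : F) :
    (LinearMap.mulLeft F h).charpoly.eval t = Algebra.norm F (algebraMap F F' t - h) := by
  rw [LinearMap.eval_charpoly, Algebra.norm_apply]
  congr 1
  rw [map_sub, AlgHom.commutes]
  rfl

variable [CharZero F] [HasPrincipalDivisors K F']

attribute [local instance] Fermat.Agent.S37.helper8426.isScalarTower_valuationSubring

/-- **Fibre formula for the characteristic polynomial** (coefficient form). -/
theorem hasValueAt_coeff_charpoly_mulLeft (v : Place K F)
    (hres : ∀ w ∈ v.fiber F', Function.Surjective (algebraMap K w.ResidueField))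
    (h : F') (c : Place K F' → K) (hc : ∀ w ∈ v.fiber F', HasValueAt w h (c w)) (i : ℕ) :
    HasValueAt v ((LinearMap.mulLeft F h).charpoly.coeff i)
      ((∏ w ∈ v.fiber F', (X - C (c w)) ^ w.ramificationIndex F).coeff i) := by
  classical
  -- `h` is integral over `O_v`, hence so are the coefficients of its characteristic polynomial
  have hint : IsIntegral v.toValuationSubring h :=
    Fermat.Agent.S37.helper4612.mem_integralClosure_of_forall_mem v h (fun w hw => (hc w hw).mem)
  have hcoeff : ∀ n : ℕ, (LinearMap.mulLeft F h).charpoly.coeff n ∈
      Set.range (algebraMap v.toValuationSubring F) := fun n =>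
    IsIntegrallyClosed.isIntegral_iff.mp
      (Fermat.Agent.S37.helper869.isIntegral_coeff_charpoly_mulLeft
        (R := v.toValuationSubring) (F := F) (F' := F') hint n)
  obtain ⟨P₀, hP₀⟩ := (Polynomial.lifts_iff_coeff_lifts _).mpr hcoeff
  rw [Polynomial.coe_mapRingHom] at hP₀
  -- the polynomial of the values
  set Q : K[X] := ∏ w ∈ v.fiber F', (X - C (c w)) ^ w.ramificationIndex F with hQ
  set D : (v.toValuationSubring)[X] := P₀ - Q.map (algebraMap K v.toValuationSubring) with hD
  -- `D` takes values in the maximal ideal at all constants
  have hDval : ∀ a : K, D.eval (algebraMap K v.toValuationSubring a) ∈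
      IsLocalRing.maximalIdeal v.toValuationSubring := by
    intro a
    have h1 := Fermat.Agent.S37.helper4612.norm_sub_prod_mem_nonunits v hres
      (algebraMap K F' a - h) (fun w => a - c w) (fun w hw => by
        have h2 := hc w hw
        have h3 : algebraMap K F' a - h - algebraMap K F' (a - c w)
            = -(h - algebraMap K F' (c w)) := by
          rw [map_sub]; ring
        rw [h3]
        exact neg_mem ((ValuationSubring.mem_nonunits_iff _).mpr h2))
    rw [← ValuationSubring.coe_mem_nonunits_iff]
    have h4 : algebraMap v.toValuationSubring F (D.eval (algebraMap K v.toValuationSubring a))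
        = Algebra.norm F (algebraMap K F' a - h)
          - algebraMap K F (∏ w ∈ v.fiber F', (a - c w) ^ w.ramificationIndex F) := by
      have e1 : algebraMap v.toValuationSubring F (P₀.eval (algebraMap K v.toValuationSubring a))
          = (LinearMap.mulLeft F h).charpoly.eval (algebraMap K F a) := by
        rw [← hP₀, Polynomial.eval_map, IsScalarTower.algebraMap_apply K v.toValuationSubring F]
        exact (Polynomial.eval₂_at_apply (algebraMap v.toValuationSubring F) _).symm
      have e2 : (Q.map (algebraMap K v.toValuationSubring)).eval
          (algebraMap K v.toValuationSubring a) = algebraMap K v.toValuationSubring (Q.eval a) := by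
        rw [Polynomial.eval_map]
        exact Polynomial.eval₂_at_apply _ _
      have e3 : Q.eval a = ∏ w ∈ v.fiber F', (a - c w) ^ w.ramificationIndex F := by
        rw [hQ, Polynomial.eval_prod]
        refine Finset.prod_congr rfl fun w _ => ?_
        rw [Polynomial.eval_pow, Polynomial.eval_sub, Polynomial.eval_X, Polynomial.eval_C]
      rw [hD, Polynomial.eval_sub, map_sub, e1, e2, e3, eval_charpoly_mulLeft,
        ← IsScalarTower.algebraMap_apply K F F',
        ← IsScalarTower.algebraMap_apply K v.toValuationSubring F]
    have h4' : ((D.eval (algebraMap K v.toValuationSubring a) : v.toValuationSubring) : F)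
        = Algebra.norm F (algebraMap K F' a - h)
          - algebraMap K F (∏ w ∈ v.fiber F', (a - c w) ^ w.ramificationIndex F) := h4
    rw [h4']
    exact h1
  -- reduce to the residue field: infinitely many roots
  have hKinf : Infinite K := by
    haveI : CharZero K := (algebraMap K F).charZero
    infer_instance
  set ρ : K →+* IsLocalRing.ResidueField v.toValuationSubring :=
    (IsLocalRing.residue v.toValuationSubring).comp (algebraMap K v.toValuationSubring) with hρ
  have hroots : ∀ a : K, (D.map (IsLocalRing.residue v.toValuationSubring)).IsRoot (ρ a) := by
    intro a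
    rw [Polynomial.IsRoot.def, hρ, RingHom.comp_apply, Polynomial.eval_map,
      Polynomial.eval₂_at_apply, IsLocalRing.residue_eq_zero_iff]
    exact hDval a
  have hzero : D.map (IsLocalRing.residue v.toValuationSubring) = 0 := by
    apply Polynomial.eq_zero_of_infinite_isRoot
    refine Set.Infinite.mono ?_ (Set.infinite_range_of_injective ρ.injective)
    rintro _ ⟨a, rfl⟩
    exact hroots a
  -- conclude coefficientwise
  have hci : D.coeff i ∈ IsLocalRing.maximalIdeal v.toValuationSubring := by
    have h5 := congrArg (fun p => Polynomial.coeff p i) hzero
    simp only [Polynomial.coeff_map, Polynomial.coeff_zero] at h5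
    exact (IsLocalRing.residue_eq_zero_iff _).mp h5
  rw [← ValuationSubring.coe_mem_nonunits_iff, ValuationSubring.mem_nonunits_iff] at hci
  have h6 : algebraMap v.toValuationSubring F (D.coeff i)
      = (LinearMap.mulLeft F h).charpoly.coeff i - algebraMap K F (Q.coeff i) := by
    rw [hD, Polynomial.coeff_sub, Polynomial.coeff_map, map_sub, ← Polynomial.coeff_map, hP₀,
      ← IsScalarTower.algebraMap_apply K v.toValuationSubring F]
  have h6' : ((D.coeff i : v.toValuationSubring) : F)
      = (LinearMap.mulLeft F h).charpoly.coeff i - algebraMap K F (Q.coeff i) := h6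
  rw [h6'] at hci
  exact hci

/-- **B4 CPF, instance form**: `helper7465.CharpolyValueAt` for the characteristic polynomial of
the multiplication, on all of `F'`. -/
theorem charpolyValueAt_univ
    (hres : ∀ w : Place K F', Function.Surjective (algebraMap K w.ResidueField)) :
    CharpolyValueAt K (Set.univ : Set F') (fun h : F' => (LinearMap.mulLeft F h).charpoly) :=
  fun v h c _ hc i =>
    hasValueAt_coeff_charpoly_mulLeft v (fun w _ => hres w) h c hc i

/-- **B4 CPF, instance form, on any set of functions.** -/
theorem charpolyValueAt
    (hres : ∀ w : Place K F', Function.Surjective (algebraMap K w.ResidueField))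
    (S' : Set F') :
    CharpolyValueAt K S' (fun h : F' => (LinearMap.mulLeft F h).charpoly) :=
  fun v h c _ hc i =>
    hasValueAt_coeff_charpoly_mulLeft v (fun w _ => hres w) h c hc i

end InstanceForm

section AlongForm

variable {K F F' : Type*} [Field K] [Field F] [Field F'] [Algebra K F] [Algebra K F']
  [CharZero F] [HasPrincipalDivisors K F']

open Fermat.Agent.S37.helper869 (charpolyAlong)

/-- **B4 CPF, along form, coefficientwise**: for `φ : F →ₐ[K] F'` finite, a place `v` of `F` and
`h : F'` with values `c w` at the places `w` over `v` (all of residue field `K`), the coefficients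
of the characteristic polynomial of `h` along `φ` have at `v` the values of the coefficients of
`∏_{w ∣ v} (X - C (c w)) ^ e(w ∣ v)`. -/
theorem hasValueAt_coeff_charpolyAlong (φ : F →ₐ[K] F') (hφ : φ.toRingHom.IsIntegral)
    (hfin : FiniteAlong K φ) (v : Place K F)
    (hres : ∀ w ∈ Place.fiberAlong φ hφ v, Function.Surjective (algebraMap K w.ResidueField))
    (h : F') (c : Place K F' → K)
    (hc : ∀ w ∈ Place.fiberAlong φ hφ v, HasValueAt w h (c w)) (i : ℕ) :
    HasValueAt v ((charpolyAlong φ hfin h).coeff i)
      ((∏ w ∈ Place.fiberAlong φ hφ v,
        (X - C (c w)) ^ w.ramificationIndexAlong φ).coeff i) := by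
  letI := algebraAlong φ
  haveI := isScalarTower_along φ
  haveI : Module.Finite F F' := hfin
  exact hasValueAt_coeff_charpoly_mulLeft v hres h c hc i

/-- **B4 CPF, along form** = the hypothesis `hval` of `helper7465.map_pullbackAlong_ptKernel_le`
and of the transfer theorems of `helper869_Xfer`, on all of `F'`. -/
theorem charpolyValueAlong_univ (φ : F →ₐ[K] F') (hφ : φ.toRingHom.IsIntegral)
    (hfin : FiniteAlong K φ)
    (hres : ∀ w : Place K F', Function.Surjective (algebraMap K w.ResidueField)) :
    CharpolyValueAlong K φ hφ (Set.univ : Set F') (charpolyAlong φ hfin) :=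
  fun v h c _ hc i =>
    hasValueAt_coeff_charpolyAlong φ hφ hfin v (fun w _ => hres w) h c hc i

/-- **B4 CPF, along form, on any set of functions.** -/
theorem charpolyValueAlong (φ : F →ₐ[K] F') (hφ : φ.toRingHom.IsIntegral)
    (hfin : FiniteAlong K φ)
    (hres : ∀ w : Place K F', Function.Surjective (algebraMap K w.ResidueField))
    (S' : Set F') :
    CharpolyValueAlong K φ hφ S' (charpolyAlong φ hfin) :=
  fun v h c _ hc i =>
    hasValueAt_coeff_charpolyAlong φ hφ hfin v (fun w _ => hres w) h c hc i

end AlongForm

end Fermat.Agent.S37.helper5259
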