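/-
S37-KRON-POINT (helper5404): the point-level Kronecker relation and clause (R2) on the
chart kernel, in the LANDED vocabulary

* `helper7465` : `HasValueAt`, `IsRegAt`, `SameRes`, `resHom`, `ptKernel`, `CharpolyValueAlong`;
* `helper2025` : charts, `ChartRel`;  `helper869` : `chartDivKernel`.

Abstract setting (Prelude vocabulary, no modular forms): `K` a field, `F`, `F'` function fields
over `K`, `α β : F →ₐ[K] F'` integral, `T = Divisor.correspondence β α` (the shape of
`heckeDivBar`), `O` a valuation subring of `K` with residue field of characteristic `ℓ`, and a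
chart subring `B ≤ F`.

* `KronAt α β hβ O B ℓ v v₁ v₂` : the value-level Kronecker congruence at `v`:
    `∏_{w ∣ v} (X - (α b)(w)) ^ e(w) ≡ (X - b(v₁)) (X - b(v₂)) ^ ℓ`  modulo the maximal ideal
    of `O`, for all `b ∈ B`.
* `KronAt.mem_ptKernel`       : then `[v₁] + ℓ [v₂] - T [v] ∈ ptKernel O B`.
* `kronAt_of_galois`          : `KronAt` at `v` with `v₁ = g v`, `v₂ = g⁻¹ v` for a semilinear
    automorphism `g` of Frobenius type, from the fibre formula (`CharpolyValueAlong`) and the
    chart congruence `χ_{α b} ≡ (X - (g⁻¹ b)^ℓ)(X^ℓ - g b)` modulo `𝔪_O · B`.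
* `es_single_mem_ptKernel`, `es_single_mem_chartDivKernel` :
    `[g g u] - T [g u] + ℓ [u]` lies in the point kernel of the chart (family) = clause (R2)/(P2).
-/
import Mathlib
import Fermat.Prelude.Def_AlgebraicCurve_Correspondence
import Fermat.Agent.S37.helper4511_HomSep
import Fermat.Agent.S37.helper1232_KroneckerMatch
import Fermat.Agent.S37.helper869_Xfer

set_option autoImplicit false
set_option linter.style.haveILetI false

noncomputable section

namespace Fermat.Agent.S37.helper5404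

open AlgebraicCurve Polynomial
open Fermat.Agent.S37.helper7465 (HasValueAt IsRegAt SameRes resHom ptKernel CharpolyValueAlong)

/-! ## Values of polynomials, coefficientwise -/

section PolyVal

variable {K F : Type*} [Field K] [Field F] [Algebra K F]

theorem hasValueAt_pow {v : Place K F} {f : F} {a : K} (h : HasValueAt v f a) (n : ℕ) :
    HasValueAt v (f ^ n) (a ^ n) := by
  induction n with
  | zero => simpa using helper7465.hasValueAt_one v
  | succ n ih => rw [pow_succ, pow_succ]; exact ih.mul h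

theorem hasValueAt_sum {ι : Type*} (v : Place K F) (s : Finset ι) (f : ι → F) (a : ι → K)
    (h : ∀ i ∈ s, HasValueAt v (f i) (a i)) :
    HasValueAt v (∑ i ∈ s, f i) (∑ i ∈ s, a i) := by
  classical
  induction s using Finset.induction_on with
  | empty => simpa using helper7465.hasValueAt_zero v
  | insert i s hi ih =>
    rw [Finset.sum_insert hi, Finset.sum_insert hi]
    exact (h i (Finset.mem_insert_self i s)).add
      (ih fun j hj => h j (Finset.mem_insert_of_mem hj))

/-- The polynomial `p` over `F` has, coefficient by coefficient, the value `q` at `v`. -/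
def PolyVal (v : Place K F) (p : F[X]) (q : K[X]) : Prop :=
  ∀ i, HasValueAt v (p.coeff i) (q.coeff i)

theorem PolyVal.mul {v : Place K F} {p₁ p₂ : F[X]} {q₁ q₂ : K[X]} (h₁ : PolyVal v p₁ q₁)
    (h₂ : PolyVal v p₂ q₂) : PolyVal v (p₁ * p₂) (q₁ * q₂) := by
  intro n
  rw [Polynomial.coeff_mul, Polynomial.coeff_mul]
  exact hasValueAt_sum v _ _ _ fun x _ => (h₁ x.1).mul (h₂ x.2)

theorem PolyVal.sub {v : Place K F} {p₁ p₂ : F[X]} {q₁ q₂ : K[X]} (h₁ : PolyVal v p₁ q₁)
    (h₂ : PolyVal v p₂ q₂) : PolyVal v (p₁ - p₂) (q₁ - q₂) := by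
  intro n
  rw [Polynomial.coeff_sub, Polynomial.coeff_sub]
  exact (h₁ n).sub (h₂ n)

theorem polyVal_X (v : Place K F) : PolyVal v (X : F[X]) (X : K[X]) := by
  intro n
  rw [Polynomial.coeff_X, Polynomial.coeff_X]
  split_ifs
  · exact helper7465.hasValueAt_one v
  · exact helper7465.hasValueAt_zero v

theorem polyVal_X_pow (v : Place K F) (m : ℕ) : PolyVal v (X ^ m : F[X]) (X ^ m : K[X]) := by
  intro n
  rw [Polynomial.coeff_X_pow, Polynomial.coeff_X_pow]
  split_ifs
  · exact helper7465.hasValueAt_one v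
  · exact helper7465.hasValueAt_zero v

theorem polyVal_C {v : Place K F} {f : F} {a : K} (h : HasValueAt v f a) :
    PolyVal v (C f) (C a) := by
  intro n
  rw [Polynomial.coeff_C, Polynomial.coeff_C]
  split_ifs
  · exact h
  · exact helper7465.hasValueAt_zero v

end PolyVal

/-! ## Restriction of places along an algebra hom -/

section Restrict

variable {K F F' : Type*} [Field K] [Field F] [Field F'] [Algebra K F] [Algebra K F']

theorem comap_valuation_lt_one_iff (A : ValuationSubring F') (φ : F →+* F') (x : F) :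
    (A.comap φ).valuation x < 1 ↔ A.valuation (φ x) < 1 := by
  rw [← ValuationSubring.mem_nonunits_iff, ← ValuationSubring.mem_nonunits_iff,
    ValuationSubring.mem_nonunits_iff_or, ValuationSubring.mem_nonunits_iff_or,
    ValuationSubring.mem_comap, map_inv₀, map_eq_zero]

theorem restrictAlong_toValuationSubring (φ : F →ₐ[K] F') (hφ : φ.toRingHom.IsIntegral)
    (w : Place K F') :
    (w.restrictAlong φ hφ).toValuationSubring = w.toValuationSubring.comap φ.toRingHom := rfl

theorem mem_restrictAlong_iff (φ : F →ₐ[K] F') (hφ : φ.toRingHom.IsIntegral)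
    (w : Place K F') (f : F) :
    f ∈ (w.restrictAlong φ hφ).toValuationSubring ↔ φ f ∈ w.toValuationSubring := Iff.rfl

/-- The value of `f` at the restriction of `w` along `φ` is the value of `φ f` at `w`. -/
theorem hasValueAt_restrictAlong_iff (φ : F →ₐ[K] F') (hφ : φ.toRingHom.IsIntegral)
    (w : Place K F') (f : F) (a : K) :
    HasValueAt (w.restrictAlong φ hφ) f a ↔ HasValueAt w (φ f) a := by
  unfold helper7465.HasValueAt
  rw [restrictAlong_toValuationSubring, comap_valuation_lt_one_iff]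
  have h1 : φ.toRingHom (f - algebraMap K F a) = φ f - algebraMap K F' a := by
    show φ (f - algebraMap K F a) = _
    rw [map_sub, AlgHom.commutes]
  rw [h1]

end Restrict

/-! ## Generalities on the correspondence `pushforwardAlong α ∘ pullbackAlong β` -/

section Correspondence

variable {K F F' : Type*} [Field K] [Field F] [Field F'] [Algebra K F] [Algebra K F']

theorem deg_eq_one_of_surjective (v : Place K F)
    (hv : Function.Surjective (algebraMap K v.ResidueField)) : v.deg = 1 := by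
  have hb : Function.Bijective (Algebra.linearMap K v.ResidueField) :=
    ⟨(algebraMap K v.ResidueField).injective, hv⟩
  have e := LinearEquiv.ofBijective (Algebra.linearMap K v.ResidueField) hb
  show Module.finrank K v.ResidueField = 1
  rw [← e.finrank_eq, Module.finrank_self]

theorem ramificationIndexAlong_pos (φ : F →ₐ[K] F') (hφ : φ.toRingHom.IsIntegral)
    (w : Place K F') : 0 < w.ramificationIndexAlong φ := by
  letI := algebraAlong φ
  haveI := isScalarTower_along φ
  haveI := isIntegral_along φ hφ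
  exact w.ramificationIndex_pos

theorem inertiaDegAlong_eq_one (φ : F →ₐ[K] F') (hφ : φ.toRingHom.IsIntegral)
    (w : Place K F') (hw : w.deg = 1) : w.inertiaDegAlong φ hφ = 1 := by
  letI := algebraAlong φ
  haveI := isScalarTower_along φ
  haveI := isIntegral_along φ hφ
  have h := w.deg_restrict_mul_inertiaDeg (F := F)
  rw [hw] at h
  exact Nat.eq_one_of_mul_eq_one_left h

variable [HasPrincipalDivisors K F']

/-- The correspondence on a single place, when all places upstairs have degree one. -/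
theorem correspondence_single (α β : F →ₐ[K] F') (hα : α.toRingHom.IsIntegral)
    (hβ : β.toRingHom.IsIntegral) (hF' : ∀ w : Place K F', w.deg = 1) (v : Place K F) :
    Divisor.correspondence β α hβ hα (Finsupp.single v 1) =
      ∑ w ∈ Place.fiberAlong β hβ v,
        Finsupp.single (w.restrictAlong α hα) (w.ramificationIndexAlong β : ℤ) := by
  rw [Divisor.correspondence_apply, Divisor.pullbackAlong_single, map_sum]
  refine Finset.sum_congr rfl fun w _ => ?_
  rw [Divisor.pushforwardAlong_single, inertiaDegAlong_eq_one α hα w (hF' w)]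
  simp

theorem nsmul_single_one {P : Type*} (ℓ : ℕ) (v : P) :
    ℓ • (Finsupp.single v (1 : ℤ) : P →₀ ℤ) = Finsupp.single v (ℓ : ℤ) := by
  rw [Finsupp.smul_single, nsmul_eq_mul, mul_one]

end Correspondence

/-! ## The value-level Kronecker congruence and the point kernel -/

section Core

variable {K F F' : Type*} [Field K] [Field F] [Field F'] [Algebra K F] [Algebra K F']
  [HasPrincipalDivisors K F']
variable (α β : F →ₐ[K] F') (hβ : β.toRingHom.IsIntegral)
variable (O : ValuationSubring K) (B : Subring F) (ℓ : ℕ)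

/-- The fibre polynomial of a family of values `c` on the fibre of `β` over `v`. -/
def fibrePoly (v : Place K F) (c : Place K F' → K) : K[X] :=
  ∏ w ∈ Place.fiberAlong β hβ v, (X - C (c w)) ^ w.ramificationIndexAlong β

/-- **Value-level Kronecker congruence at `v`** for the chart `B`, with comparison places `v₁`
(multiplicity one) and `v₂` (multiplicity `ℓ`): for every `b ∈ B`, the fibre polynomial of the
values of `α b` on the fibre of `β` over `v` is congruent, modulo the maximal ideal of `O`, to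
`(X - b(v₁)) (X - b(v₂)) ^ ℓ`. -/
def KronAt (v v₁ v₂ : Place K F) : Prop :=
  ∀ b ∈ B, ∀ (c : Place K F' → K) (a₁ a₂ : K),
    (∀ w ∈ Place.fiberAlong β hβ v, HasValueAt w (α b) (c w)) →
    HasValueAt v₁ b a₁ → HasValueAt v₂ b a₂ →
    ∀ i, O.valuation ((fibrePoly β hβ v c).coeff i
      - ((X - C a₁) * (X - C a₂) ^ ℓ).coeff i) < 1

variable {α β hβ O B ℓ}

/-- Regularity upstairs: if `α b` is integral over `β(B)`, it is regular at every place above a
`B`-regular place. -/
theorem alpha_mem_of_isIntegralElem {b : F}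
    (hint : (β.toRingHom.comp B.subtype).IsIntegralElem (α b))
    {v : Place K F} (hv : IsRegAt O (B : Set F) v) {w : Place K F'}
    (hw : w ∈ Place.fiberAlong β hβ v) : α b ∈ w.toValuationSubring := by
  obtain ⟨p, hp, hpx⟩ := hint
  have hwv : w.restrictAlong β hβ = v := Place.mem_fiberAlong.mp hw
  refine helper7465.mem_of_monic_root w.toValuationSubring
    (p.map (β.toRingHom.comp B.subtype)) (hp.map _) (fun i => ?_) (α b) ?_
  · rw [Polynomial.coeff_map]
    obtain ⟨a, _, ha⟩ := hv _ (p.coeff i).2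
    have h1 := ha.mem
    rw [← hwv] at h1
    exact (mem_restrictAlong_iff β hβ w _).mp h1
  · rw [Polynomial.eval_map]
    exact hpx

/-- Values of `α b` on the fibre. -/
theorem exists_fibre_values
    (hF' : ∀ w : Place K F', Function.Surjective (algebraMap K w.ResidueField))
    {b : F} (hint : (β.toRingHom.comp B.subtype).IsIntegralElem (α b))
    {v : Place K F} (hv : IsRegAt O (B : Set F) v) :
    ∃ c : Place K F' → K, ∀ w ∈ Place.fiberAlong β hβ v, HasValueAt w (α b) (c w) := by
  classical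
  have h : ∀ w : Place K F', ∃ a : K, w ∈ Place.fiberAlong β hβ v → HasValueAt w (α b) a := by
    intro w
    by_cases hw : w ∈ Place.fiberAlong β hβ v
    · obtain ⟨a, ha⟩ := helper7465.exists_hasValueAt w (hF' w)
        (alpha_mem_of_isIntegralElem hint hv hw)
      exact ⟨a, fun _ => ha⟩
    · exact ⟨0, fun h => absurd h hw⟩
  choose c hc using h
  exact ⟨c, hc⟩

theorem kronRHS_eq_map {a₁ a₂ : K} (h₁ : a₁ ∈ O) (h₂ : a₂ ∈ O) (ℓ : ℕ) :
    ((X - C a₁) * (X - C a₂) ^ ℓ : K[X])
      = ((X - C (⟨a₁, h₁⟩ : O)) * (X - C (⟨a₂, h₂⟩ : O)) ^ ℓ : (↥O)[X]).map O.subtype := by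
  simp

theorem kronRHS_coeff_mem {a₁ a₂ : K} (h₁ : a₁ ∈ O) (h₂ : a₂ ∈ O) (ℓ : ℕ) (i : ℕ) :
    ((X - C a₁) * (X - C a₂) ^ ℓ : K[X]).coeff i ∈ O := by
  rw [kronRHS_eq_map h₁ h₂, Polynomial.coeff_map]
  exact Subtype.coe_prop _

/-- Under `KronAt`, the fibre polynomial has coefficients in `O`. -/
theorem KronAt.fibrePoly_coeff_mem {v v₁ v₂ : Place K F} (hk : KronAt α β hβ O B ℓ v v₁ v₂)
    (h₁ : IsRegAt O (B : Set F) v₁) (h₂ : IsRegAt O (B : Set F) v₂) {b : F} (hb : b ∈ B)
    (c : Place K F' → K) (hc : ∀ w ∈ Place.fiberAlong β hβ v, HasValueAt w (α b) (c w))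
    (i : ℕ) : (fibrePoly β hβ v c).coeff i ∈ O := by
  obtain ⟨a₁, ha₁O, ha₁⟩ := h₁ b hb
  obtain ⟨a₂, ha₂O, ha₂⟩ := h₂ b hb
  have hlt := hk b hb c a₁ a₂ hc ha₁ ha₂ i
  have hmem : (fibrePoly β hβ v c).coeff i - ((X - C a₁) * (X - C a₂) ^ ℓ).coeff i ∈ O :=
    (O.valuation_le_one_iff _).mp hlt.le
  have h3 := O.add_mem _ _ hmem (kronRHS_coeff_mem ha₁O ha₂O ℓ i)
  simpa using h3

/-- Under `KronAt`, the values of `α b` on the fibre lie in `O`. -/
theorem KronAt.values_mem {v v₁ v₂ : Place K F} (hk : KronAt α β hβ O B ℓ v v₁ v₂)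
    (h₁ : IsRegAt O (B : Set F) v₁) (h₂ : IsRegAt O (B : Set F) v₂) {b : F} (hb : b ∈ B)
    (c : Place K F' → K) (hc : ∀ w ∈ Place.fiberAlong β hβ v, HasValueAt w (α b) (c w))
    {w : Place K F'} (hw : w ∈ Place.fiberAlong β hβ v) : c w ∈ O := by
  refine helper7465.mem_of_monic_root O (fibrePoly β hβ v c) ?_
    (fun i => hk.fibrePoly_coeff_mem h₁ h₂ hb c hc i) (c w) ?_
  · exact Polynomial.monic_prod_of_monic _ _ fun u _ => (Polynomial.monic_X_sub_C _).pow _
  · unfold fibrePoly
    rw [Polynomial.eval_prod]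
    refine Finset.prod_eq_zero hw ?_
    rw [Polynomial.eval_pow, Polynomial.eval_sub, Polynomial.eval_X, Polynomial.eval_C, sub_self]
    exact zero_pow (ramificationIndexAlong_pos β hβ w).ne'

variable (hα : α.toRingHom.IsIntegral)

/-- Under `KronAt`, the points of `T(v)` are again `B`-regular. -/
theorem KronAt.isRegAt_restrictAlong
    (hF' : ∀ w : Place K F', Function.Surjective (algebraMap K w.ResidueField))
    (hint : ∀ b ∈ B, (β.toRingHom.comp B.subtype).IsIntegralElem (α b))
    {v v₁ v₂ : Place K F} (hk : KronAt α β hβ O B ℓ v v₁ v₂)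
    (hv : IsRegAt O (B : Set F) v)
    (h₁ : IsRegAt O (B : Set F) v₁) (h₂ : IsRegAt O (B : Set F) v₂) {w : Place K F'}
    (hw : w ∈ Place.fiberAlong β hβ v) : IsRegAt O (B : Set F) (w.restrictAlong α hα) := by
  intro f hf
  obtain ⟨c, hc⟩ := exists_fibre_values hF' (hint f hf) hv
  exact ⟨c w, hk.values_mem h₁ h₂ hf c hc hw,
    (hasValueAt_restrictAlong_iff α hα w f (c w)).mpr (hc w hw)⟩

/-- **(KP1)** Under `KronAt`, the residue homomorphisms of the points `w|_α` of `T(v)` (with
multiplicities `e(w ∣ v)`) are those of `v₁` (once) and of `v₂` (`ℓ` times). -/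
theorem KronAt.sum_single_resHom
    (hF' : ∀ w : Place K F', Function.Surjective (algebraMap K w.ResidueField))
    (hint : ∀ b ∈ B, (β.toRingHom.comp B.subtype).IsIntegralElem (α b))
    {v v₁ v₂ : Place K F} (hk : KronAt α β hβ O B ℓ v v₁ v₂)
    (hv : IsRegAt O (B : Set F) v)
    (h₁ : IsRegAt O (B : Set F) v₁) (h₂ : IsRegAt O (B : Set F) v₂) :
    ∑ w ∈ (Place.fiberAlong β hβ v).attach,
        Finsupp.single (resHom O B (w.1.restrictAlong α hα)
          (hk.isRegAt_restrictAlong hα hF' hint hv h₁ h₂ w.2))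
          (w.1.ramificationIndexAlong β : ℤ)
      = Finsupp.single (resHom O B v₁ h₁) (1 : ℤ) + Finsupp.single (resHom O B v₂ h₂) (ℓ : ℤ) := by
  refine helper4511.kronecker_finsupp_int (Place.fiberAlong β hβ v).attach
    (fun w => resHom O B (w.1.restrictAlong α hα)
      (hk.isRegAt_restrictAlong hα hF' hint hv h₁ h₂ w.2))
    (fun w => w.1.ramificationIndexAlong β) _ _ ℓ ?_
  intro b
  obtain ⟨c, hc⟩ := exists_fibre_values hF' (hint b b.2) hv
  have hcO : ∀ w ∈ Place.fiberAlong β hβ v, c w ∈ O :=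
    fun w hw => hk.values_mem h₁ h₂ b.2 c hc hw
  -- the lift of the fibre polynomial to `O[X]`
  set Q : (↥O)[X] := ∏ w ∈ (Place.fiberAlong β hβ v).attach,
    (X - C (⟨c w.1, hcO w.1 w.2⟩ : O)) ^ (w.1.ramificationIndexAlong β) with hQ
  have hQmap : Q.map O.subtype = fibrePoly β hβ v c := by
    rw [hQ, Polynomial.map_prod]
    unfold fibrePoly
    rw [← Finset.prod_attach (Place.fiberAlong β hβ v)
        (fun w => (X - C (c w)) ^ (w.ramificationIndexAlong β))]
    refine Finset.prod_congr rfl fun w _ => ?_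
    simp
  have hL : ∏ w ∈ (Place.fiberAlong β hβ v).attach,
        (X - C (resHom O B (w.1.restrictAlong α hα)
          (hk.isRegAt_restrictAlong hα hF' hint hv h₁ h₂ w.2) b))
          ^ (w.1.ramificationIndexAlong β)
      = Q.map (IsLocalRing.residue O) := by
    rw [hQ, Polynomial.map_prod]
    refine Finset.prod_congr rfl fun w _ => ?_
    rw [helper7465.resHom_eq_of_hasValueAt _ b (hcO w.1 w.2)
      ((hasValueAt_restrictAlong_iff α hα w.1 b (c w.1)).mpr (hc w.1 w.2))]
    simp
  rw [hL]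
  have hR : (X - C (resHom O B v₁ h₁ b)) * (X - C (resHom O B v₂ h₂ b)) ^ ℓ
      = ((X - C (helper7465.valAt O (B : Set F) v₁ h₁ b))
          * (X - C (helper7465.valAt O (B : Set F) v₂ h₂ b)) ^ ℓ : (↥O)[X]).map
            (IsLocalRing.residue O) := by
    simp [helper7465.resHom_apply]
  rw [hR]
  ext i
  rw [Polynomial.coeff_map, Polynomial.coeff_map, helper7465.residue_eq_iff_valuation_sub_lt]
  have hlt := hk b b.2 c _ _ hc (helper7465.hasValueAt_valAt h₁ b)
    (helper7465.hasValueAt_valAt h₂ b) i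
  have e1 : ((Q.coeff i : O) : K) = (fibrePoly β hβ v c).coeff i := by
    rw [← hQmap, Polynomial.coeff_map]
    rfl
  have e2 : ((((X - C (helper7465.valAt O (B : Set F) v₁ h₁ b))
          * (X - C (helper7465.valAt O (B : Set F) v₂ h₂ b)) ^ ℓ : (↥O)[X]).coeff i : O) : K)
      = ((X - C ((helper7465.valAt O (B : Set F) v₁ h₁ b : O) : K))
          * (X - C ((helper7465.valAt O (B : Set F) v₂ h₂ b : O) : K)) ^ ℓ : K[X]).coeff i := by
    rw [kronRHS_eq_map (helper7465.valAt O (B : Set F) v₁ h₁ b).2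
      (helper7465.valAt O (B : Set F) v₂ h₂ b).2, Polynomial.coeff_map]
    rfl
  rw [e1, e2]
  exact hlt

/-- **(KP2, core)** Under the value-level Kronecker congruence at `v` with comparison places
`v₁`, `v₂`, the divisor `[v₁] + ℓ [v₂] - T [v]` lies in the point kernel of the chart `B`. -/
theorem KronAt.mem_ptKernel
    (hF' : ∀ w : Place K F', Function.Surjective (algebraMap K w.ResidueField))
    (hint : ∀ b ∈ B, (β.toRingHom.comp B.subtype).IsIntegralElem (α b))
    {v v₁ v₂ : Place K F} (hk : KronAt α β hβ O B ℓ v v₁ v₂)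
    (hv : IsRegAt O (B : Set F) v)
    (h₁ : IsRegAt O (B : Set F) v₁) (h₂ : IsRegAt O (B : Set F) v₂) :
    (Finsupp.single v₁ 1 + ℓ • Finsupp.single v₂ 1
        - Divisor.correspondence β α hβ hα (Finsupp.single v 1) : Divisor K F)
      ∈ ptKernel O (B : Set F) := by
  classical
  let r : Place K F → (B →+* IsLocalRing.ResidueField O) ⊕ Place K F := fun p =>
    if h : IsRegAt O (B : Set F) p then Sum.inl (resHom O B p h) else Sum.inr p
  have hr : ∀ p (h : IsRegAt O (B : Set F) p), r p = Sum.inl (resHom O B p h) :=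
    fun p h => dif_pos h
  have hr' : ∀ p, ¬ IsRegAt O (B : Set F) p → r p = Sum.inr p := fun p h => dif_neg h
  have hdeg : ∀ w : Place K F', w.deg = 1 := fun w => deg_eq_one_of_surjective w (hF' w)
  have hsum := congrArg (Finsupp.mapDomain
      (Sum.inl : (B →+* IsLocalRing.ResidueField O) →
        (B →+* IsLocalRing.ResidueField O) ⊕ Place K F))
    (hk.sum_single_resHom hα hF' hint hv h₁ h₂)
  rw [Finsupp.mapDomain_finsetSum, Finsupp.mapDomain_add, Finsupp.mapDomain_single,
    Finsupp.mapDomain_single] at hsum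
  have hmap : Finsupp.mapDomain r
      (Finsupp.single v₁ 1 + ℓ • Finsupp.single v₂ 1
        - Divisor.correspondence β α hβ hα (Finsupp.single v 1) : Divisor K F) = 0 := by
    rw [correspondence_single α β hα hβ hdeg v, nsmul_single_one, Finsupp.mapDomain_sub,
      Finsupp.mapDomain_add, Finsupp.mapDomain_single, Finsupp.mapDomain_single,
      Finsupp.mapDomain_finsetSum, hr v₁ h₁, hr v₂ h₂, ← hsum, sub_eq_zero,
      ← Finset.sum_attach (Place.fiberAlong β hβ v)]
    refine Finset.sum_congr rfl fun w _ => ?_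
    rw [Finsupp.mapDomain_single, Finsupp.mapDomain_single,
      hr _ (hk.isRegAt_restrictAlong hα hF' hint hv h₁ h₂ w.2)]
  have hmem := helper1232.mem_closure_of_mapDomain_eq_zero r _ hmap
  refine (AddSubgroup.closure_le _).mpr ?_ hmem
  rintro _ ⟨p, p', hpp', rfl⟩
  by_cases hp : IsRegAt O (B : Set F) p
  · by_cases hp' : IsRegAt O (B : Set F) p'
    · rw [hr p hp, hr p' hp'] at hpp'
      exact helper7465.single_sub_single_mem_ptKernel
        ((helper7465.sameRes_iff_resHom_eq hp hp').mpr (Sum.inl.inj hpp'))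
    · rw [hr p hp, hr' p' hp'] at hpp'
      exact absurd hpp' (by simp)
  · by_cases hp' : IsRegAt O (B : Set F) p'
    · rw [hr' p hp, hr p' hp'] at hpp'
      exact absurd hpp' (by simp)
    · rw [hr' p hp, hr' p' hp'] at hpp'
      rw [Sum.inr.inj hpp', sub_self]
      exact zero_mem _

end Core

/-! ## The Galois form: `v₁ = g • v`, `v₂ = g⁻¹ • v` for `g` of Frobenius type -/

section Galois

variable {K F F' : Type*} [Field K] [Field F] [Field F'] [Algebra K F] [Algebra K F']
  [HasPrincipalDivisors K F']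
variable {α β : F →ₐ[K] F'} {hβ : β.toRingHom.IsIntegral}
variable {O : ValuationSubring K} {B : Subring F} {ℓ : ℕ}

/-- the value of `f` at `g • v` is the image under the base automorphism of the value of
`g⁻¹ • f` at `v` (`helper2025.HasValueAt.smul_of_inv` in the `helper7465` vocabulary). -/
theorem hasValueAt_smul_of_inv (g : SemilinearAut K F) {v : Place K F} {f : F} {a : K}
    (h : HasValueAt v (g⁻¹ • f) a) : HasValueAt (g • v) f (SemilinearAut.baseAut g a) :=
  helper2025.HasValueAt.smul_of_inv g h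

/-- a chart stable under `g⁻¹` is preserved by `g`, when the base automorphism preserves `O`. -/
theorem isRegAt_smul (g : SemilinearAut K F)
    (hgO : ∀ a ∈ O, SemilinearAut.baseAut g a ∈ O) (hst : ∀ f ∈ B, g⁻¹ • f ∈ B)
    {v : Place K F} (hv : IsRegAt O (B : Set F) v) : IsRegAt O (B : Set F) (g • v) := by
  intro f hf
  obtain ⟨a, ha, h⟩ := hv _ (hst f hf)
  exact ⟨_, hgO a ha, hasValueAt_smul_of_inv g h⟩

theorem isRegAt_inv_smul (g : SemilinearAut K F)
    (hgO' : ∀ a ∈ O, (SemilinearAut.baseAut g).symm a ∈ O) (hst : ∀ f ∈ B, g • f ∈ B)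
    {v : Place K F} (hv : IsRegAt O (B : Set F) v) : IsRegAt O (B : Set F) (g⁻¹ • v) := by
  refine isRegAt_smul g⁻¹ (fun a ha => hgO' a ha) (fun f hf => ?_) hv
  rw [inv_inv]
  exact hst f hf

/-- In characteristic `ℓ` the two Kronecker polynomials `(X - x^ℓ)(X^ℓ - y)` and
`(X - a₁)(X - a₂)^ℓ` agree modulo the maximal ideal when `a₁ ≡ x^ℓ` and `y ≡ a₂^ℓ`. -/
theorem kronecker_coeff_congr [Fact ℓ.Prime] [CharP (IsLocalRing.ResidueField O) ℓ]
    {x y a₁ a₂ : K} (hx : x ∈ O) (hy : y ∈ O) (ha₁ : a₁ ∈ O) (ha₂ : a₂ ∈ O)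
    (h₁ : O.valuation (a₁ - x ^ ℓ) < 1) (h₂ : O.valuation (y - a₂ ^ ℓ) < 1) (i : ℕ) :
    O.valuation (((X - C (x ^ ℓ)) * (X ^ ℓ - C y) : K[X]).coeff i
      - ((X - C a₁) * (X - C a₂) ^ ℓ : K[X]).coeff i) < 1 := by
  set p : (↥O)[X] := (X - C ((⟨x, hx⟩ : O) ^ ℓ)) * (X ^ ℓ - C (⟨y, hy⟩ : O)) with hp
  set q : (↥O)[X] := (X - C (⟨a₁, ha₁⟩ : O)) * (X - C (⟨a₂, ha₂⟩ : O)) ^ ℓ with hq
  have hpmap : p.map O.subtype = (X - C (x ^ ℓ)) * (X ^ ℓ - C y) := by
    rw [hp]
    simp
  have hqmap : q.map O.subtype = (X - C a₁) * (X - C a₂) ^ ℓ := by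
    rw [hq]
    simp
  have r₁ : IsLocalRing.residue O (⟨a₁, ha₁⟩ : O) = IsLocalRing.residue O ((⟨x, hx⟩ : O) ^ ℓ) := by
    rw [helper7465.residue_eq_iff_valuation_sub_lt]
    exact h₁
  have r₂ : IsLocalRing.residue O (⟨y, hy⟩ : O) = IsLocalRing.residue O ((⟨a₂, ha₂⟩ : O) ^ ℓ) := by
    rw [helper7465.residue_eq_iff_valuation_sub_lt]
    exact h₂
  have hres : p.map (IsLocalRing.residue O) = q.map (IsLocalRing.residue O) := by
    rw [hp, hq]
    simp only [Polynomial.map_mul, Polynomial.map_sub, Polynomial.map_pow, Polynomial.map_X,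
      Polynomial.map_C]
    rw [r₁, r₂, sub_pow_char, ← Polynomial.C_pow]
    simp only [map_pow]
  have hc : IsLocalRing.residue O (p.coeff i) = IsLocalRing.residue O (q.coeff i) := by
    rw [← Polynomial.coeff_map, ← Polynomial.coeff_map, hres]
  rw [helper7465.residue_eq_iff_valuation_sub_lt] at hc
  rw [← hpmap, ← hqmap, Polynomial.coeff_map, Polynomial.coeff_map]
  exact hc

/-- **Value-level Kronecker congruence from the function-level one.**  Let `g` be a semilinear
automorphism of `F` whose base automorphism preserves `O` and induces the `ℓ`-power Frobenius on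
its residue field, `B` a chart stable under `g` and `g⁻¹`, `χ` a family of polynomials satisfying
the fibre formula on `α(B)` (KRON-VAL; `χ h` = characteristic polynomial of `h` over `β(F)`), and
assume the chart congruence
`χ_{α b} ≡ (X - (g⁻¹ b)^ℓ) (X^ℓ - g b)` modulo `𝔪_O · B` (KRON-FF x KRON-SERIES x IGUSA-KL).
Then `KronAt` holds at every `B`-regular place `v` with comparison places `g • v`, `g⁻¹ • v`. -/
theorem kronAt_of_galois [Fact ℓ.Prime] [CharP (IsLocalRing.ResidueField O) ℓ]
    (g : SemilinearAut K F)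
    (hgO' : ∀ a ∈ O, (SemilinearAut.baseAut g).symm a ∈ O)
    (hfrob : ∀ a ∈ O, O.valuation (SemilinearAut.baseAut g a - a ^ ℓ) < 1)
    (hst : ∀ f ∈ B, g • f ∈ B) (hst' : ∀ f ∈ B, g⁻¹ • f ∈ B)
    (χ : F' → F[X])
    (hval : CharpolyValueAlong K β hβ (α '' (B : Set F)) χ)
    (hkron : ∀ b ∈ B, ∀ i, ∃ c : K, O.valuation c < 1 ∧ ∃ d ∈ B,
      (χ (α b)).coeff i - ((X - C ((g⁻¹ • b) ^ ℓ)) * (X ^ ℓ - C (g • b))).coeff i
        = algebraMap K F c * d)
    {v : Place K F} (hv : IsRegAt O (B : Set F) v) :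
    KronAt α β hβ O B ℓ v (g • v) (g⁻¹ • v) := by
  intro b hb c a₁ a₂ hc ha₁ ha₂ i
  -- values at `v` of `g⁻¹ • b` and `g • b`
  obtain ⟨x, hxO, hx⟩ := hv _ (hst' b hb)
  obtain ⟨y, hyO, hy⟩ := hv _ (hst b hb)
  have e₁ : a₁ = SemilinearAut.baseAut g x := ha₁.unique (hasValueAt_smul_of_inv g hx)
  have hy' : HasValueAt (g⁻¹ • v) b (SemilinearAut.baseAut g⁻¹ y) := by
    apply hasValueAt_smul_of_inv g⁻¹
    rw [inv_inv]
    exact hy
  have e₂ : a₂ = (SemilinearAut.baseAut g).symm y := ha₂.unique hy'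
  have ha₂O : a₂ ∈ O := e₂ ▸ hgO' y hyO
  have ey : y = SemilinearAut.baseAut g a₂ := by rw [e₂, RingEquiv.apply_symm_apply]
  have ha₁O : a₁ ∈ O := by
    have h1 := hfrob x hxO
    have h2 : SemilinearAut.baseAut g x - x ^ ℓ ∈ O := (O.valuation_le_one_iff _).mp h1.le
    have h3 := O.add_mem _ _ h2 (pow_mem hxO ℓ)
    rw [e₁]
    simpa using h3
  -- the value of the coefficient of `χ (α b)` at `v`
  have hP : HasValueAt v ((χ (α b)).coeff i) ((fibrePoly β hβ v c).coeff i) :=
    hval v (α b) c ⟨b, hb, rfl⟩ hc i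
  -- the value of the Kronecker coefficient at `v`
  have hK : PolyVal v ((X - C ((g⁻¹ • b) ^ ℓ)) * (X ^ ℓ - C (g • b)))
      ((X - C (x ^ ℓ)) * (X ^ ℓ - C y)) :=
    ((polyVal_X v).sub (polyVal_C (hasValueAt_pow hx ℓ))).mul
      ((polyVal_X_pow v ℓ).sub (polyVal_C hy))
  obtain ⟨c₀, hc₀, d, hd, hcd⟩ := hkron b hb i
  obtain ⟨δ, hδO, hδ⟩ := hv d hd
  have h3 : HasValueAt v (algebraMap K F c₀ * d) (c₀ * δ) :=
    (helper7465.hasValueAt_algebraMap v c₀).mul hδ
  have h4 : (fibrePoly β hβ v c).coeff i - ((X - C (x ^ ℓ)) * (X ^ ℓ - C y) : K[X]).coeff i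
      = c₀ * δ := by
    have h5 := hP.sub (hK i)
    rw [hcd] at h5
    exact h5.unique h3
  have h6 : O.valuation (c₀ * δ) < 1 := by
    rw [map_mul]
    exact mul_lt_one_of_nonneg_of_lt_one_left zero_le hc₀ ((O.valuation_le_one_iff δ).mpr hδO)
  have h7 := kronecker_coeff_congr (ℓ := ℓ) hxO hyO ha₁O ha₂O
    (by rw [e₁]; exact hfrob x hxO) (by rw [ey]; exact hfrob a₂ ha₂O) i
  have e : (fibrePoly β hβ v c).coeff i - ((X - C a₁) * (X - C a₂) ^ ℓ : K[X]).coeff i
      = c₀ * δ + (((X - C (x ^ ℓ)) * (X ^ ℓ - C y) : K[X]).coeff i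
          - ((X - C a₁) * (X - C a₂) ^ ℓ : K[X]).coeff i) := by
    rw [← h4]
    ring
  rw [e]
  exact lt_of_le_of_lt (Valuation.map_add _ _ _) (max_lt h6 h7)

variable (hα : α.toRingHom.IsIntegral)

/-- **Point-level Kronecker relation, Galois form:** `[g v] + ℓ [g⁻¹ v] - T [v]` lies in the
point kernel of the chart `B`, for every `B`-regular place `v`. -/
theorem kronecker_galois_mem_ptKernel [Fact ℓ.Prime] [CharP (IsLocalRing.ResidueField O) ℓ]
    (g : SemilinearAut K F)
    (hgO : ∀ a ∈ O, SemilinearAut.baseAut g a ∈ O)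
    (hgO' : ∀ a ∈ O, (SemilinearAut.baseAut g).symm a ∈ O)
    (hfrob : ∀ a ∈ O, O.valuation (SemilinearAut.baseAut g a - a ^ ℓ) < 1)
    (hst : ∀ f ∈ B, g • f ∈ B) (hst' : ∀ f ∈ B, g⁻¹ • f ∈ B)
    (χ : F' → F[X])
    (hF' : ∀ w : Place K F', Function.Surjective (algebraMap K w.ResidueField))
    (hint : ∀ b ∈ B, (β.toRingHom.comp B.subtype).IsIntegralElem (α b))
    (hval : CharpolyValueAlong K β hβ (α '' (B : Set F)) χ)
    (hkron : ∀ b ∈ B, ∀ i, ∃ c : K, O.valuation c < 1 ∧ ∃ d ∈ B,
      (χ (α b)).coeff i - ((X - C ((g⁻¹ • b) ^ ℓ)) * (X ^ ℓ - C (g • b))).coeff i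
        = algebraMap K F c * d)
    {v : Place K F} (hv : IsRegAt O (B : Set F) v) :
    (Finsupp.single (g • v) 1 + ℓ • Finsupp.single (g⁻¹ • v) 1
        - Divisor.correspondence β α hβ hα (Finsupp.single v 1) : Divisor K F)
      ∈ ptKernel O (B : Set F) :=
  (kronAt_of_galois g hgO' hfrob hst hst' χ hval hkron hv).mem_ptKernel hα hF' hint hv
    (isRegAt_smul g hgO hst' hv) (isRegAt_inv_smul g hgO' hst hv)

/-- **Clause (R2)/(P2) on one chart:** the crude Eichler–Shimura divisor
`[g g u] - T [g u] + ℓ [u]` of a `B`-regular place `u` lies in the point kernel of `B`. -/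
theorem es_single_mem_ptKernel [Fact ℓ.Prime] [CharP (IsLocalRing.ResidueField O) ℓ]
    (g : SemilinearAut K F)
    (hgO : ∀ a ∈ O, SemilinearAut.baseAut g a ∈ O)
    (hgO' : ∀ a ∈ O, (SemilinearAut.baseAut g).symm a ∈ O)
    (hfrob : ∀ a ∈ O, O.valuation (SemilinearAut.baseAut g a - a ^ ℓ) < 1)
    (hst : ∀ f ∈ B, g • f ∈ B) (hst' : ∀ f ∈ B, g⁻¹ • f ∈ B)
    (χ : F' → F[X])
    (hF' : ∀ w : Place K F', Function.Surjective (algebraMap K w.ResidueField))
    (hint : ∀ b ∈ B, (β.toRingHom.comp B.subtype).IsIntegralElem (α b))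
    (hval : CharpolyValueAlong K β hβ (α '' (B : Set F)) χ)
    (hkron : ∀ b ∈ B, ∀ i, ∃ c : K, O.valuation c < 1 ∧ ∃ d ∈ B,
      (χ (α b)).coeff i - ((X - C ((g⁻¹ • b) ^ ℓ)) * (X ^ ℓ - C (g • b))).coeff i
        = algebraMap K F c * d)
    {u : Place K F} (hu : IsRegAt O (B : Set F) u) :
    (Finsupp.single (g • g • u) 1
        - Divisor.correspondence β α hβ hα (Finsupp.single (g • u) 1)
        + ℓ • Finsupp.single u 1 : Divisor K F)
      ∈ ptKernel O (B : Set F) := by
  have h := kronecker_galois_mem_ptKernel hα g hgO hgO' hfrob hst hst' χ hF' hint hval hkron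
    (isRegAt_smul g hgO hst' hu)
  rw [inv_smul_smul] at h
  have e : (Finsupp.single (g • g • u) 1
        - Divisor.correspondence β α hβ hα (Finsupp.single (g • u) 1)
        + ℓ • Finsupp.single u 1 : Divisor K F)
      = Finsupp.single (g • g • u) 1 + ℓ • Finsupp.single u 1
        - Divisor.correspondence β α hβ hα (Finsupp.single (g • u) 1) := by
    abel
  rw [e]
  exact h

/-- **Clause (R2)/(P2) for a chart family:** if every place is regular on one chart of the
family `𝓑` and every chart satisfies the hypotheses of `es_single_mem_ptKernel`, then the crude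
Eichler–Shimura divisor of EVERY place lies in the divisor-level chart kernel
`helper869.chartDivKernel` (`= helper1138.relKernel (helper2025.ChartRel O _)`). -/
theorem es_single_mem_chartDivKernel [Fact ℓ.Prime] [CharP (IsLocalRing.ResidueField O) ℓ]
    (𝓑 : Set (Subring F)) (g : SemilinearAut K F)
    (hgO : ∀ a ∈ O, SemilinearAut.baseAut g a ∈ O)
    (hgO' : ∀ a ∈ O, (SemilinearAut.baseAut g).symm a ∈ O)
    (hfrob : ∀ a ∈ O, O.valuation (SemilinearAut.baseAut g a - a ^ ℓ) < 1)
    (χ : F' → F[X])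
    (hF' : ∀ w : Place K F', Function.Surjective (algebraMap K w.ResidueField))
    (hcov : ∀ u : Place K F, ∃ B ∈ 𝓑, IsRegAt O (B : Set F) u)
    (hst : ∀ B ∈ 𝓑, ∀ f ∈ B, g • f ∈ B) (hst' : ∀ B ∈ 𝓑, ∀ f ∈ B, g⁻¹ • f ∈ B)
    (hint : ∀ B ∈ 𝓑, ∀ b ∈ B, (β.toRingHom.comp B.subtype).IsIntegralElem (α b))
    (hval : ∀ B ∈ 𝓑, CharpolyValueAlong K β hβ (α '' (B : Set F)) χ)
    (hkron : ∀ B ∈ 𝓑, ∀ b ∈ B, ∀ i, ∃ c : K, O.valuation c < 1 ∧ ∃ d ∈ B,
      (χ (α b)).coeff i - ((X - C ((g⁻¹ • b) ^ ℓ)) * (X ^ ℓ - C (g • b))).coeff i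
        = algebraMap K F c * d)
    (u : Place K F) :
    (Finsupp.single (g • g • u) 1
        - Divisor.correspondence β α hβ hα (Finsupp.single (g • u) 1)
        + ℓ • Finsupp.single u 1 : Divisor K F)
      ∈ helper869.chartDivKernel O ((fun B : Subring F => (B : Set F)) '' 𝓑) := by
  obtain ⟨B, hB, hu⟩ := hcov u
  exact helper869.ptKernel_le_chartDivKernel (Set.mem_image_of_mem _ hB)
    (es_single_mem_ptKernel hα g hgO hgO' hfrob (hst B hB) (hst' B hB) χ hF' (hint B hB)
      (hval B hB) (hkron B hB) hu)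

end Galois

end Fermat.Agent.S37.helper5404
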