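/-
S37-KRON-POINT, modular adapter (helper5404): clause (P2) of `helper1138.Stmt_RelKernel`
(= clause (D2) of `helper1138.Stmt_DivKernel`) for the chart relation
`r := helper2025.ChartRel A (helper2025.stdCharts A t)` on `F_N`, from the three producer facts
on the two standard `A`-charts `finChart A t`, `infChart A t⁻¹`:

* (hint)  `α b` is integral over `β(chart)`                              [KRON-CHART]
* (hval)  the fibre formula for the polynomials `χ (α b)`                 [KRON-VAL]
* (hkron) `χ (α b) ≡ (X - (σ⁻¹ b)^ℓ)(X^ℓ - σ b)` modulo `𝔪_A · chart`     [KRON-FF/SERIES/IGUSA-KL]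

`α = heckeAlphaBar`, `β = heckeBetaBar`, `σ` a Frobenius element at `A`.
-/
import Mathlib
import Fermat.Agent.S37.helper5404_KronPoint
import Fermat.Agent.S37.helper1138_Assembly

set_option autoImplicit false

noncomputable section

namespace Fermat.Agent.S37.helper5404

open AlgebraicCurve ModularCurve Polynomial
open Fermat.Agent.S37.helper8353 (Qb GQ)
open Fermat.Agent.S37.helper1138 (FNb gal relKernel)
open Fermat.Agent.S37.helper2025 (finChart infChart finGen infGen stdCharts ChartRel IsRational)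
open Fermat.Agent.S37.helper869 (intSubring)

/-- The residue field of a valuation subring over `ℓ` has characteristic `ℓ`. -/
theorem charP_residueField_of_liesOverPrime {L : Type*} [Field L] (A : ValuationSubring L)
    {ℓ : ℕ} (hℓ : ℓ.Prime) (hA : A.LiesOverPrime ℓ) : CharP (IsLocalRing.ResidueField A) ℓ := by
  have h0 : ((ℓ : ℕ) : IsLocalRing.ResidueField A) = 0 := by
    obtain ⟨ha, hm⟩ := A.mem_nonunits_iff_exists_mem_maximalIdeal.mp hA
    have e : ((ℓ : ℕ) : IsLocalRing.ResidueField A) =
        IsLocalRing.residue A (⟨(ℓ : L), ha⟩ : A) := by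
      rw [← map_natCast (IsLocalRing.residue A) ℓ]
      congr 1
    rw [e, IsLocalRing.residue_eq_zero_iff]
    exact hm
  exact (CharP.charP_iff_prime_eq_zero hℓ).mpr h0

section Modular

variable {N : ℕ} [NeZero N] (ℓ : ℕ) [NeZero ℓ]
variable (hα : HeckeAlphaBarIntegral Qb N ℓ) (hβ : HeckeBetaBarIntegral Qb N ℓ)
variable [HasPrincipalDivisors Qb (laurentBaseChange Qb (modularFunctionFieldFull (N * ℓ)))]

/-- **Clause (P2) for the two standard `A`-charts.**  For `A` over `ℓ`, `σ` a Frobenius element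
at `A`, `t` a rational coordinate function on `F_N` (e.g. `j`), the crude Eichler–Shimura divisor
`[σσ v] - α_* β^* [σ v] + ℓ [v]` of every place `v` of `F_N` lies in
`relKernel (ChartRel A (stdCharts A t))`, given (hint), (hval), (hkron) on the two charts. -/
theorem es_single_mem_relKernel_stdCharts (hℓ : ℓ.Prime)
    (A : ValuationSubring Qb) (hA : A.LiesOverPrime ℓ) (σ : GQ) (hσ : A.IsFrobeniusAt σ ℓ)
    (t : FNb N) (ht : IsRational (modularFunctionFieldFull N) t)
    (hresN : ∀ v : Place Qb (FNb N), Function.Surjective (algebraMap Qb v.ResidueField))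
    (hresNℓ : ∀ w : Place Qb (FNb (N * ℓ)), Function.Surjective (algebraMap Qb w.ResidueField))
    (χ : FNb (N * ℓ) → (FNb N)[X])
    (hint₀ : ∀ b ∈ finChart A t,
      ((heckeBetaBar Qb N ℓ).toRingHom.comp (intSubring (finGen A t)).subtype).IsIntegralElem
        (heckeAlphaBar Qb N ℓ b))
    (hint₁ : ∀ b ∈ infChart A t⁻¹,
      ((heckeBetaBar Qb N ℓ).toRingHom.comp (intSubring (infGen A t⁻¹)).subtype).IsIntegralElem
        (heckeAlphaBar Qb N ℓ b))
    (hval₀ : helper7465.CharpolyValueAlong Qb (heckeBetaBar Qb N ℓ) hβ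
      (heckeAlphaBar Qb N ℓ '' finChart A t) χ)
    (hval₁ : helper7465.CharpolyValueAlong Qb (heckeBetaBar Qb N ℓ) hβ
      (heckeAlphaBar Qb N ℓ '' infChart A t⁻¹) χ)
    (hkron₀ : ∀ b ∈ finChart A t, ∀ i, ∃ c : Qb, A.valuation c < 1 ∧ ∃ d ∈ finChart A t,
      (χ (heckeAlphaBar Qb N ℓ b)).coeff i
        - ((X - C (((gal N σ)⁻¹ • b) ^ ℓ)) * (X ^ ℓ - C (gal N σ • b))).coeff i
        = algebraMap Qb (FNb N) c * d)
    (hkron₁ : ∀ b ∈ infChart A t⁻¹, ∀ i, ∃ c : Qb, A.valuation c < 1 ∧ ∃ d ∈ infChart A t⁻¹,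
      (χ (heckeAlphaBar Qb N ℓ b)).coeff i
        - ((X - C (((gal N σ)⁻¹ • b) ^ ℓ)) * (X ^ ℓ - C (gal N σ • b))).coeff i
        = algebraMap Qb (FNb N) c * d)
    (v : Place Qb (FNb N)) :
    Finsupp.single (gal N σ • gal N σ • v) (1 : ℤ)
        - heckeDivBar hα hβ (Finsupp.single (gal N σ • v) 1)
        + ℓ • Finsupp.single v (1 : ℤ)
      ∈ relKernel (ChartRel A (stdCharts A t)) := by
  have : Fact ℓ.Prime := ⟨hℓ⟩
  have : CharP (IsLocalRing.ResidueField A) ℓ := charP_residueField_of_liesOverPrime A hℓ hA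
  have hD := hσ.mem_decompositionSubgroup
  have hgO : ∀ a ∈ A, SemilinearAut.baseAut (gal N σ) a ∈ A :=
    fun a ha => (helper2025.apply_mem_of_mem_decomposition A hD).mpr ha
  have hgO' : ∀ a ∈ A, (SemilinearAut.baseAut (gal N σ)).symm a ∈ A := by
    intro a ha
    have h1 : σ ((SemilinearAut.baseAut (gal N σ)).symm a) = a :=
      (SemilinearAut.baseAut (gal N σ)).apply_symm_apply a
    have h2 : σ ((SemilinearAut.baseAut (gal N σ)).symm a) ∈ A := by
      rw [h1]
      exact ha
    exact (helper2025.apply_mem_of_mem_decomposition A hD).mp h2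
  have hfrob : ∀ a ∈ A, A.valuation (SemilinearAut.baseAut (gal N σ) a - a ^ ℓ) < 1 :=
    fun a ha => helper2025.frobenius_apply_sub A hσ ha
  -- the two charts as subrings
  set B₀ : Subring (FNb N) := intSubring (finGen A t) with hB₀
  set B₁ : Subring (FNb N) := intSubring (infGen A t⁻¹) with hB₁
  have key : ∀ u : Place Qb (FNb N),
      (Finsupp.single (gal N σ • gal N σ • u) 1
        - Divisor.correspondence (heckeBetaBar Qb N ℓ) (heckeAlphaBar Qb N ℓ) hβ hα
            (Finsupp.single (gal N σ • u) 1)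
        + ℓ • Finsupp.single u 1 : Divisor Qb (FNb N))
      ∈ helper869.chartDivKernel A
          ((fun B : Subring (FNb N) => (B : Set (FNb N))) '' {B₀, B₁}) := by
    intro u
    refine es_single_mem_chartDivKernel (ℓ := ℓ) hα {B₀, B₁} (gal N σ) hgO hgO' hfrob χ hresNℓ
      ?_ ?_ ?_ ?_ ?_ ?_ u
    · intro u
      rcases helper2025.finChart_or_infChart A u (hresN u) t with h | h
      · exact ⟨B₀, Or.inl rfl, h⟩
      · exact ⟨B₁, Or.inr rfl, h⟩
    · rintro B (rfl | rfl) f hf
      · exact helper2025.galois_smul_mem_finChart hD ht hf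
      · exact helper2025.galois_smul_mem_infChart hD ht.inv hf
    · rintro B (rfl | rfl) f hf
      · exact helper2025.inv_smul_mem_finChart hD ht hf
      · exact helper2025.inv_smul_mem_infChart hD ht.inv hf
    · rintro B (rfl | rfl) b hb
      · exact hint₀ b hb
      · exact hint₁ b hb
    · rintro B (rfl | rfl)
      · exact hval₀
      · exact hval₁
    · rintro B (rfl | rfl) b hb i
      · exact hkron₀ b hb i
      · exact hkron₁ b hb i
  have h := key v
  have himg : (fun B : Subring (FNb N) => (B : Set (FNb N))) '' {B₀, B₁}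
      = stdCharts A t := by
    rw [Set.image_pair]
    rfl
  rw [himg] at h
  exact h

end Modular

end Fermat.Agent.S37.helper5404
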