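/-
S37, Track B, node (R2) (helper5404): **`helper37.NodeR2pt N` is PROVED here, unconditionally**
(`nodeR2pt`), at every level `N`.

For `ℓ ∤ N` prime, `A` over `ℓ`, `σ` ANY Frobenius element at `A`,
`g := galN N σ = arithmeticGalois (modularFunctionFieldFull N) σ`, `α := heckeAlphaBar Kbar N ℓ`,
`β := heckeBetaBar Kbar N ℓ`, `χ := helper869.charpolyAlong β _`, and a chart
`B ∈ {helper37.finChart A N, helper37.cuspChart A N}`:

* (hint)  `α b` is integral over `β(B)` for `b ∈ B`;
* (hkron) `(χ (α b)).coeff i - ((X - (g⁻¹ b)^ℓ)(X^ℓ - g b)).coeff i ∈ 𝔪_A · B` for `b ∈ B`.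

`ChartKron N ℓ A σ B` bundles the two; `NodeKron N` asks them for both charts;
`nodeR2pt_of_nodeKron : NodeKron N → helper37.NodeR2pt N`.

Second half of the file (the producer facts):
* `mem_intSer_of_isIntegral` (INT): an element of `F_N` integral over a ring of series with
  coefficients in `A` has coefficients in `A`;
* `hkron_of_klSub`: (hkron) on any chart cut out by integrality over a ring `R` of `A`-integral
  series with the Igusa kernel lemma `KLSub A R (gaussFSet A N)` — from the integral Kronecker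
  congruence `helper6826.charpoly_alpha_over_beta_integral`, the action of `σ^{±1}` on
  coefficients and (RED) `helper28.exists_eq_smul_of_klSub`;
* `hint_finChart`, `hint_cuspChart`: (hint) from the chart stability of `helper4381_ModChart`;
* `chartKron_finChart`, `chartKron_cuspChart`, `nodeKron : NodeKron N`,
  **`nodeR2pt : helper37.NodeR2pt N`**.
-/
import Mathlib
import Fermat.Agent.S37.helper5404_KronPoint
import Fermat.Agent.S37.helper37_TrackBClose
import Fermat.Agent.S37.helper5259_FibreFormula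
import Fermat.Agent.Lib.helper54_Frobenius
import Fermat.Agent.S37.helper6826_KroneckerNorm
import Fermat.Agent.S37.helper4381_ModChart
import Fermat.Agent.S37.helper28_InertiaCharts
import Fermat.Agent.S37.helper2563_GaussGalois
import Fermat.Agent.S18.helper3784_LaurentCIC
import Fermat.Agent.Lib.helper6879_ResidueQbar

set_option autoImplicit false

noncomputable section

namespace Fermat.Agent.S37.helper5404

open AlgebraicCurve ModularCurve Polynomial
open Fermat.Agent.S24.helper24 (Kbar FN jBar)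
open Fermat.Agent.S37.helper37 (GQ finChart cuspChart charts divKernel esDiv NodeR2pt)

/-- The residue field of a valuation subring over `ℓ` has characteristic `ℓ`. -/
theorem charP_residueField_of_liesOver {L : Type*} [Field L] (A : ValuationSubring L)
    {ℓ : ℕ} (hℓ : ℓ.Prime) (hA : A.LiesOverPrime ℓ) : CharP (IsLocalRing.ResidueField A) ℓ := by
  have h0 : ((ℓ : ℕ) : IsLocalRing.ResidueField A) = 0 := by
    obtain ⟨ha, hm⟩ := A.mem_nonunits_iff_exists_mem_maximalIdeal.mp hA
    have e : ((ℓ : ℕ) : IsLocalRing.ResidueField A) =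
        IsLocalRing.residue A (⟨(ℓ : L), ha⟩ : A) := by
      rw [← map_natCast (IsLocalRing.residue A) ℓ]
      congr 1
    rw [e, IsLocalRing.residue_eq_zero_iff]
    exact hm
  exact (CharP.charP_iff_prime_eq_zero hℓ).mpr h0

section Node

variable (N : ℕ) [NeZero N]

/-- The coefficientwise semilinear automorphism of `F_N` attached to `σ ∈ Gal(ℚ̄/ℚ)`, with its
type written in terms of `FN N` (this keeps instance search fast). -/
abbrev galN (σ : GQ) : SemilinearAut Kbar (FN N) :=
  arithmeticGalois (modularFunctionFieldFull N) σ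

/-- **The two producer facts of (R2) on one chart `B` of `F_N`**, for a Frobenius element `σ` at
`A` over `ℓ`: (hint) `α(B)` is integral over `β(B)`; (hkron) the characteristic polynomial of
`α b` over `β(F_N)` is congruent to `(X - (σ⁻¹ b)^ℓ)(X^ℓ - σ b)` modulo `𝔪_A · B`. -/
def ChartKron (ℓ : ℕ) [NeZero ℓ] (A : ValuationSubring Kbar) (σ : GQ) (B : Subring (FN N)) :
    Prop :=
  (∀ b ∈ B, ((heckeBetaBar Kbar N ℓ).toRingHom.comp B.subtype).IsIntegralElem
      (heckeAlphaBar Kbar N ℓ b)) ∧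
  (∀ b ∈ B, ∀ i : ℕ, ∃ c : Kbar, A.valuation c < 1 ∧ ∃ d ∈ B,
      (helper869.charpolyAlong (heckeBetaBar Kbar N ℓ) (helper5162.finiteAlong_heckeBetaBar N ℓ)
          (heckeAlphaBar Kbar N ℓ b)).coeff i
        - ((X - C (((galN N σ)⁻¹ • b) ^ ℓ)) * (X ^ ℓ - C (galN N σ • b))).coeff i
        = algebraMap Kbar (FN N) c * d)

/-- **Node (KRON)**: the two producer facts on the two Track-B charts, for every Frobenius
element at every `A` over a prime `ℓ ∤ N`. -/
def NodeKron : Prop :=
  ∀ ℓ : ℕ, ∀ hℓ : ℓ.Prime, ¬ ℓ ∣ N → ∀ A : ValuationSubring Kbar, A.LiesOverPrime ℓ →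
    ∀ σ : GQ, A.IsFrobeniusAt σ ℓ →
      haveI : NeZero ℓ := ⟨hℓ.ne_zero⟩
      ChartKron N ℓ A σ (finChart A N) ∧ ChartKron N ℓ A σ (cuspChart A N)

variable {N}

/-- (R2) at one place, for one Frobenius element, from the producer facts on the two charts. -/
theorem esDiv_single_mem_divKernel {ℓ : ℕ} [NeZero ℓ] (hℓ : ℓ.Prime)
    {A : ValuationSubring Kbar} (hA : A.LiesOverPrime ℓ) {σ : GQ} (hσ : A.IsFrobeniusAt σ ℓ)
    (h₀ : ChartKron N ℓ A σ (finChart A N)) (h₁ : ChartKron N ℓ A σ (cuspChart A N))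
    (P : Place Kbar (FN N)) :
    esDiv N ℓ σ (Finsupp.single P 1) ∈ divKernel A N := by
  have : Fact ℓ.Prime := ⟨hℓ⟩
  have : CharP (IsLocalRing.ResidueField A) ℓ := charP_residueField_of_liesOver A hℓ hA
  set g : SemilinearAut Kbar (FN N) := galN N σ with hg
  have hD := hσ.mem_decompositionSubgroup
  have hgO : ∀ a ∈ A, SemilinearAut.baseAut g a ∈ A :=
    fun a ha => (helper2025.apply_mem_of_mem_decomposition A hD).mpr ha
  have hgO' : ∀ a ∈ A, (SemilinearAut.baseAut g).symm a ∈ A := by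
    intro a ha
    have h1 : σ ((SemilinearAut.baseAut g).symm a) = a :=
      (SemilinearAut.baseAut g).apply_symm_apply a
    have h2 : σ ((SemilinearAut.baseAut g).symm a) ∈ A := by
      rw [h1]
      exact ha
    exact (helper2025.apply_mem_of_mem_decomposition A hD).mp h2
  have hfrob : ∀ a ∈ A, A.valuation (SemilinearAut.baseAut g a - a ^ ℓ) < 1 :=
    fun a ha => helper2025.frobenius_apply_sub A hσ ha
  have ht : helper2025.IsRational (modularFunctionFieldFull N) (jBar N) := by
    rw [← helper37.jF_eq_jBar]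
    exact helper28.isRational_jF N
  have hres : ∀ w : Place Kbar (FN (N * ℓ)),
      Function.Surjective (algebraMap Kbar w.ResidueField) :=
    fun w => helper5162.residueField_surjective (N * ℓ) w
  have hmem₁ : ∀ f : FN N, f ∈ cuspChart A N ↔ f ∈ helper2025.infChart A (jBar N)⁻¹ := by
    intro f
    have e := helper37.coe_cuspChart A N
    exact ⟨fun h => e ▸ (show f ∈ (cuspChart A N : Set (FN N)) from h),
      fun h => show f ∈ (cuspChart A N : Set (FN N)) from e ▸ h⟩
  have key := es_single_mem_chartDivKernel (ℓ := ℓ) (O := A)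
    (helper5162.heckeAlphaBarIntegral N ℓ) (hβ := helper5162.heckeBetaBarIntegral N ℓ)
    {finChart A N, cuspChart A N} g hgO hgO' hfrob
    (helper869.charpolyAlong (heckeBetaBar Kbar N ℓ) (helper5162.finiteAlong_heckeBetaBar N ℓ))
    hres ?_ ?_ ?_ ?_ ?_ ?_ P
  · have himg : (fun B : Subring (FN N) => (B : Set (FN N))) '' {finChart A N, cuspChart A N}
        = charts A N := by
      rw [Set.image_pair]
      rfl
    rw [himg] at key
    rw [helper37.esDiv_apply, SemilinearAut.smul_single, SemilinearAut.smul_single]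
    exact key
  · intro u
    rcases helper37.inChart_finChart_or_cuspChart (A := A) u with h | h
    · exact ⟨finChart A N, Or.inl rfl, h⟩
    · exact ⟨cuspChart A N, Or.inr rfl, h⟩
  · rintro B (rfl | rfl) f hf
    · exact helper2025.galois_smul_mem_finChart hD ht hf
    · exact (hmem₁ _).mpr (helper2025.galois_smul_mem_infChart hD ht.inv ((hmem₁ f).mp hf))
  · rintro B (rfl | rfl) f hf
    · exact helper2025.inv_smul_mem_finChart hD ht hf
    · exact (hmem₁ _).mpr (helper2025.inv_smul_mem_infChart hD ht.inv ((hmem₁ f).mp hf))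
  · rintro B (rfl | rfl)
    · exact h₀.1
    · exact h₁.1
  · rintro B (rfl | rfl)
    · exact helper5259.charpolyValueAlong _ _ _ hres _
    · exact helper5259.charpolyValueAlong _ _ _ hres _
  · rintro B (rfl | rfl)
    · exact h₀.2
    · exact h₁.2

/-- **Node (R2), point form, from Node (KRON).** -/
theorem nodeR2pt_of_nodeKron (H : NodeKron N) : NodeR2pt N := by
  intro ℓ hℓ hℓN A hA
  obtain ⟨σ, hσ⟩ := Fermat.Agent.Lib.helper54.exists_isFrobeniusAt hℓ A hA
  refine ⟨σ, hσ, fun P => ?_⟩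
  have : NeZero ℓ := ⟨hℓ.ne_zero⟩
  obtain ⟨h₀, h₁⟩ := H ℓ hℓ hℓN A hA σ hσ
  exact esDiv_single_mem_divKernel hℓ hA hσ h₀ h₁ P

end Node

/-! ## The producer facts: Node (KRON) and Node (R2) -/

open Fermat.Agent.Lib.helper28 (KLSub gaussFSet GoodLevel finGenE infGenE iotaO redO)
open Fermat.Agent.S18

/-- Laurent series over `ℚ̄` all of whose coefficients lie in `A`. -/
abbrev intSer (A : ValuationSubring Kbar) : Subring (LaurentSeries Kbar) :=
  (coeffMap A.subtype : LaurentSeries A →+* LaurentSeries Kbar).range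

/-- **(INT)** an element of `F_N` integral over a ring of series with coefficients in `A` has
coefficients in `A` (`A` over a prime: rank one, hence completely integrally closed). -/
theorem mem_intSer_of_isIntegral {ℓ : ℕ} (hℓ : ℓ.Prime) {A : ValuationSubring Kbar}
    (hA : A.LiesOverPrime ℓ) (N : ℕ) {R : Subring (LaurentSeries Kbar)} (hRc : R ≤ intSer A)
    {y : LaurentSeries Kbar} (hy : y ∈ laurentBaseChange Kbar (modularFunctionFieldFull N))
    (hint : IsIntegral R y) : y ∈ intSer A := by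
  have : Fact ℓ.Prime := ⟨hℓ⟩
  have hiff : ∀ z : LaurentSeries Kbar, z ∈ intSer A ↔
      z ∈ helper3784.coeffSubring (Γ := ℤ) A.toSubring := fun z =>
    (helper3784.mem_coeffSubring_iff_exists_coeffMap A z).symm
  rcases eq_or_ne y 0 with rfl | hy0
  · exact zero_mem _
  obtain ⟨c', X₀, Y₀, hc', -, hY, -, -, hXY⟩ :=
    helper8991.exists_normal_form A (IsLocalRing.residue A) N hy hy0
  have hincY0 : helper8991.inc A Y₀ ≠ 0 := helper8991.inc_ne_zero A (IsLocalRing.residue A) hY
  have hincmem : ∀ Z : LaurentSeries A,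
      helper8991.inc A Z ∈ helper3784.coeffSubring (Γ := ℤ) A.toSubring :=
    fun Z => (helper3784.mem_coeffSubring_iff_exists_coeffMap A _).mpr ⟨Z, rfl⟩
  have hCmem : ∀ c : Kbar, c ∈ A →
      (HahnSeries.C c : LaurentSeries Kbar) ∈ helper3784.coeffSubring (Γ := ℤ) A.toSubring :=
    fun c hc => (helper3784.mem_coeffSubring_iff_exists_coeffMap A _).mpr
      ⟨HahnSeries.C ⟨c, hc⟩, helper8991.inc_C A ⟨c, hc⟩⟩
  obtain ⟨Q, hQ, hQ0, hQy⟩ : ∃ Q : LaurentSeries Kbar,
      Q ∈ helper3784.coeffSubring (Γ := ℤ) A.toSubring ∧ Q ≠ 0 ∧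
        Q * y ∈ helper3784.coeffSubring (Γ := ℤ) A.toSubring := by
    rcases A.mem_or_inv_mem c' with hcA' | hcA'
    · refine ⟨helper8991.inc A Y₀, hincmem Y₀, hincY0, ?_⟩
      rw [mul_comm, hXY]
      exact Subring.mul_mem _ (hCmem _ hcA') (hincmem X₀)
    · refine ⟨HahnSeries.C c'⁻¹ * helper8991.inc A Y₀,
        Subring.mul_mem _ (hCmem _ hcA') (hincmem Y₀), ?_, ?_⟩
      · refine mul_ne_zero ?_ hincY0
        intro h0
        have h1 := congrArg (fun s : LaurentSeries Kbar => s.coeff 0) h0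
        simp only [HahnSeries.C_apply, HahnSeries.coeff_single_same, HahnSeries.coeff_zero] at h1
        exact inv_ne_zero hc' h1
      · have h1 : HahnSeries.C c'⁻¹ * helper8991.inc A Y₀ * y = helper8991.inc A X₀ := by
          rw [mul_assoc, mul_comm (helper8991.inc A Y₀) y, hXY, helper8991.C_inv_mul_C_mul hc']
        rw [h1]
        exact hincmem X₀
  have hle : R ≤ helper3784.coeffSubring (Γ := ℤ) A.toSubring := fun r hr => (hiff r).mp (hRc hr)
  exact (hiff y).mpr (helper3784.mem_coeffSubring_of_isIntegral A.toSubring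
    (helper3784.harch_Qbar hA) hQ hQ0 hQy
    (Fermat.Agent.Lib.helper28.isIntegral_subring_mono hle hint))


/-- **(hkron) on any chart with the kernel lemma.** `R` a ring of series with coefficients in
`A` satisfying (KL), `B` the chart of `F_N` cut out by integrality over `R`, stable under
`σ^{±1}` and under the coefficients of the characteristic polynomial of `α b` over `β(F_N)`:
then Kronecker's congruence holds modulo `𝔪_A · B`. -/
theorem hkron_of_klSub {N : ℕ} [NeZero N] {ℓ : ℕ} [NeZero ℓ] (hℓ : ℓ.Prime) (hℓN : ¬ ℓ ∣ N)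
    {A : ValuationSubring Kbar} (hA : A.LiesOverPrime ℓ) {σ : GQ} (hσ : A.IsFrobeniusAt σ ℓ)
    {R : Subring (LaurentSeries Kbar)} (hRc : R ≤ intSer A)
    (hKL : KLSub A R (gaussFSet A N))
    (B : Subring (FN N)) (hB : ∀ f : FN N, f ∈ B ↔ IsIntegral R (f : LaurentSeries Kbar))
    (hχ : ∀ b ∈ B, ∀ i : ℕ, (helper869.charpolyAlong (heckeBetaBar Kbar N ℓ)
        (helper5162.finiteAlong_heckeBetaBar N ℓ) (heckeAlphaBar Kbar N ℓ b)).coeff i ∈ B)
    (hσB : ∀ b ∈ B, galN N σ • b ∈ B) (hσB' : ∀ b ∈ B, (galN N σ)⁻¹ • b ∈ B) :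
    ∀ b ∈ B, ∀ i : ℕ, ∃ c : Kbar, A.valuation c < 1 ∧ ∃ d ∈ B,
      (helper869.charpolyAlong (heckeBetaBar Kbar N ℓ) (helper5162.finiteAlong_heckeBetaBar N ℓ)
          (heckeAlphaBar Kbar N ℓ b)).coeff i
        - ((X - C (((galN N σ)⁻¹ • b) ^ ℓ)) * (X ^ ℓ - C (galN N σ • b))).coeff i
        = algebraMap Kbar (FN N) c * d := by
  intro b hb i
  have : Fact ℓ.Prime := ⟨hℓ⟩
  have : CharP (IsLocalRing.ResidueField A) ℓ := charP_residueField_of_liesOver A hℓ hA
  have hN : GoodLevel A N := helper28.goodLevel_of_liesOverPrime A hℓ hA N hℓN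
  have hcop : Nat.Coprime ℓ N := (Nat.Prime.coprime_iff_not_dvd hℓ).mpr hℓN
  -- the `A`-integral `q`-expansion of `b`
  obtain ⟨y, hy⟩ := mem_intSer_of_isIntegral hℓ hA N hRc b.2 ((hB b).mp hb)
  -- Kronecker's congruence for the integral expansion
  obtain ⟨h1, -, h3⟩ := helper6826.charpoly_alpha_over_beta_integral hcop
    (helper5162.finiteAlong_heckeBetaBar N ℓ) A.subtype (IsLocalRing.residue A) b y hy
  -- the action of `σ`, `σ⁻¹` on `A`
  have hD := hσ.mem_decompositionSubgroup
  have hs : ∀ a ∈ A, (σ : Kbar →+* Kbar) a ∈ A :=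
    fun a ha => Fermat.Agent.Lib.helper6879.IsFrobeniusAt_map_mem hσ ha
  have hs' : ∀ a ∈ A, ((σ⁻¹ : GQ) : Kbar →+* Kbar) a ∈ A :=
    fun a ha => Fermat.Agent.Lib.helper6879.map_mem_of_mem_decompositionSubgroup (inv_mem hD) ha
  set yσ : LaurentSeries A := coeffMap (helper2563.restrictA A (σ : Kbar →+* Kbar) hs) y with hyσ
  set yτ : LaurentSeries A :=
    coeffMap (helper2563.restrictA A ((σ⁻¹ : GQ) : Kbar →+* Kbar) hs') y with hyτ
  have e1 : coeffMap A.subtype yσ = ((galN N σ • b : FN N) : LaurentSeries Kbar) := by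
    have h := helper2563.coeffMap_inc A (σ : Kbar →+* Kbar) hs y
    rw [hyσ]
    refine h.symm.trans ?_
    show coeffMap (σ : Kbar →+* Kbar) (coeffMap A.subtype y) = _
    rw [hy]
    rfl
  have e2 : coeffMap A.subtype yτ = (((galN N σ)⁻¹ • b : FN N) : LaurentSeries Kbar) := by
    have h := helper2563.coeffMap_inc A ((σ⁻¹ : GQ) : Kbar →+* Kbar) hs' y
    rw [hyτ]
    refine h.symm.trans ?_
    show coeffMap ((σ⁻¹ : GQ) : Kbar →+* Kbar) (coeffMap A.subtype y) = _
    rw [hy, galN, ← map_inv]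
    rfl
  have r1 : coeffMap (IsLocalRing.residue A) yσ
      = coeffMap (frobenius (IsLocalRing.ResidueField A) ℓ) (coeffMap (IsLocalRing.residue A) y) :=
    helper2563.red_coeffMap_restrictA A (IsLocalRing.residue A) (σ : Kbar →+* Kbar) hs
      (frobenius (IsLocalRing.ResidueField A) ℓ)
      (fun a => Fermat.Agent.Lib.helper6879.IsFrobeniusAt_residue hσ a) y
  have r2 : coeffMap (frobenius (IsLocalRing.ResidueField A) ℓ)
      (coeffMap (IsLocalRing.residue A) yτ) = coeffMap (IsLocalRing.residue A) y := by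
    have h0 : coeffMap (helper2563.restrictA A (σ : Kbar →+* Kbar) hs) yτ = y := by
      rw [hyτ, coeffMap_coeffMap]
      conv_rhs => rw [← coeffMap_id y]
      refine coeffMap_congr (RingHom.ext fun a => Subtype.ext ?_) y
      show σ ((σ⁻¹ : GQ) (a : Kbar)) = (a : Kbar)
      exact σ.apply_symm_apply _
    have h := helper2563.red_coeffMap_restrictA A (IsLocalRing.residue A) (σ : Kbar →+* Kbar) hs
      (frobenius (IsLocalRing.ResidueField A) ℓ)
      (fun a => Fermat.Agent.Lib.helper6879.IsFrobeniusAt_residue hσ a) yτ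
    rw [h0] at h
    exact h.symm
  have r3 : qExpand (IsLocalRing.ResidueField A) ℓ (coeffMap (IsLocalRing.residue A) y)
      = coeffMap (IsLocalRing.residue A) yτ ^ ℓ := by
    rw [← r2]
    exact (helper6826.laurent_pow_char (IsLocalRing.ResidueField A) ℓ _).symm
  -- the Kronecker polynomial over `B`, over `F_N`, over `A((q))`
  set σb : FN N := galN N σ • b with hσb
  set τb : FN N := (galN N σ)⁻¹ • b with hτb
  let val : FN N →+* LaurentSeries Kbar := (modularFunctionFieldBar N).val.toRingHom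
  have hval : ∀ f : FN N, val f = (f : LaurentSeries Kbar) := fun _ => rfl
  let Kb : Polynomial B :=
    (X - C ((⟨τb, hσB' b hb⟩ : B) ^ ℓ)) * (X ^ ℓ - C (⟨σb, hσB b hb⟩ : B))
  have hKb : Kb.map B.subtype = (X - C (τb ^ ℓ)) * (X ^ ℓ - C σb) := by
    simp only [Kb, Polynomial.map_mul, Polynomial.map_sub, Polynomial.map_pow, Polynomial.map_X,
      Polynomial.map_C, map_pow, Subring.subtype_apply]
  have hK : ((X - C (τb ^ ℓ)) * (X ^ ℓ - C σb) : Polynomial (FN N)).coeff i ∈ B := by
    rw [← hKb, Polynomial.coeff_map]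
    exact (Kb.coeff i).2
  let K' : Polynomial (LaurentSeries A) := (X - C (yτ ^ ℓ)) * (X ^ ℓ - C yσ)
  have hK'1 : K'.map (coeffMap A.subtype)
      = ((X - C (τb ^ ℓ)) * (X ^ ℓ - C σb) : Polynomial (FN N)).map val := by
    simp only [K', Polynomial.map_mul, Polynomial.map_sub, Polynomial.map_pow, Polynomial.map_X,
      Polynomial.map_C, map_pow, e1, e2, hval]
  have hK'2 : K'.map (coeffMap (IsLocalRing.residue A))
      = (helper6826.heckePoly ℓ y).map (coeffMap (IsLocalRing.residue A)) := by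
    rw [h3]
    simp only [K', Polynomial.map_mul, Polynomial.map_sub, Polynomial.map_pow, Polynomial.map_X,
      Polynomial.map_C, map_pow, r1, r3]
  -- the difference
  set D : FN N := (helper869.charpolyAlong (heckeBetaBar Kbar N ℓ)
      (helper5162.finiteAlong_heckeBetaBar N ℓ) (heckeAlphaBar Kbar N ℓ b)).coeff i
    - ((X - C (τb ^ ℓ)) * (X ^ ℓ - C σb) : Polynomial (FN N)).coeff i with hDdef
  have hDB : D ∈ B := sub_mem (hχ b hb i) hK
  let Xs : LaurentSeries A := (helper6826.heckePoly ℓ y).coeff i - K'.coeff i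
  have hD1 : (D : LaurentSeries Kbar) = iotaO A Xs := by
    have h1' := congrArg (fun p : Polynomial (LaurentSeries Kbar) => p.coeff i) h1
    have h2' := congrArg (fun p : Polynomial (LaurentSeries Kbar) => p.coeff i) hK'1
    simp only [Polynomial.coeff_map] at h1' h2'
    show val D = coeffMap A.subtype Xs
    rw [hDdef, map_sub, map_sub]
    exact congrArg₂ (· - ·) h1' h2'.symm
  have hX0 : redO A Xs = 0 := by
    have h2' := congrArg (fun p : Polynomial (LaurentSeries (IsLocalRing.ResidueField A)) =>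
      p.coeff i) hK'2
    simp only [Polynomial.coeff_map] at h2'
    show coeffMap (IsLocalRing.residue A) Xs = 0
    rw [map_sub, h2', sub_self]
  have hY1 : redO A 1 ≠ 0 := by
    rw [map_one]
    exact one_ne_zero
  have hXY : (D : LaurentSeries Kbar) * iotaO A 1 = iotaO A Xs := by
    rw [map_one, mul_one, hD1]
  obtain ⟨c, g, hc, hyg, hg, hgint⟩ := Fermat.Agent.Lib.helper28.exists_eq_smul_of_klSub A N hN
    hKL D.2 ((hB D).mp hDB) hY1 hXY hX0
  refine ⟨(c : Kbar), (A.valuation_lt_one_iff c).mp hc, ⟨g, hg.1⟩, (hB _).mpr hgint, ?_⟩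
  apply Subtype.ext
  show (D : LaurentSeries Kbar) = algebraMap Kbar (LaurentSeries Kbar) (c : Kbar) * g
  exact hyg


/-! ### The two chart rings have coefficients in `A` -/

theorem closure_finGenE_jq_le_intSer (A : ValuationSubring Kbar) :
    Subring.closure (finGenE A (jqModC Kbar)) ≤ intSer A := by
  rw [Subring.closure_le]
  rintro x (⟨a, ha, rfl⟩ | hx)
  · exact ⟨HahnSeries.C ⟨a, ha⟩, (helper8991.inc_C A ⟨a, ha⟩).trans (helper8991.C_eq_algebraMap a)⟩
  · rw [Set.mem_singleton_iff] at hx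
    rw [hx]
    exact ⟨jqModC A, coeffMap_jqModC _⟩

theorem closure_infGenE_jq_inv_le_intSer (A : ValuationSubring Kbar) :
    Subring.closure (infGenE A (jqModC Kbar)⁻¹) ≤ intSer A := by
  let Ψ : PowerSeries A →+* LaurentSeries Kbar :=
    (coeffMap A.subtype).comp (HahnSeries.ofPowerSeries ℤ A)
  have hΨ : Ψ.range ≤ intSer A := by
    rintro _ ⟨p, rfl⟩
    exact ⟨_, rfl⟩
  set w : PowerSeries A := (jNum.map (Int.castRingHom A)).invOfUnit 1 with hw
  have hu : (jqModC Kbar)⁻¹ = Ψ (PowerSeries.X * w) := by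
    rw [Fermat.Agent.Lib.helper28.jqModC_inv_eq,
      ← Fermat.Agent.Lib.helper28.coeffMap_jInvSeries (A.subtype : A →+* Kbar)]
    show coeffMap A.subtype (Fermat.Agent.S28.helper3292.jInvSeries A) =
      coeffMap A.subtype (HahnSeries.ofPowerSeries ℤ A (PowerSeries.X * w))
    rw [map_mul, HahnSeries.ofPowerSeries_X]
    rfl
  have hfin : Subring.closure (finGenE A (jqModC Kbar)⁻¹) ≤ Ψ.range := by
    rw [Subring.closure_le]
    rintro x (⟨a, ha, rfl⟩ | hx)
    · refine ⟨PowerSeries.C ⟨a, ha⟩, ?_⟩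
      show coeffMap A.subtype (HahnSeries.ofPowerSeries ℤ A (PowerSeries.C ⟨a, ha⟩)) = _
      rw [HahnSeries.ofPowerSeries_C]
      exact (helper8991.inc_C A ⟨a, ha⟩).trans (helper8991.C_eq_algebraMap a)
    · rw [Set.mem_singleton_iff] at hx
      rw [hx, hu]
      exact ⟨_, rfl⟩
  rw [Subring.closure_le]
  rintro x (hx | ⟨c, hc, rfl⟩)
  · exact hΨ (hfin (Subring.subset_closure hx))
  · obtain ⟨p, rfl⟩ := hfin hc
    have hunit : IsUnit (1 + PowerSeries.X * w * p : PowerSeries A) := by
      rw [PowerSeries.isUnit_iff_constantCoeff]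
      simp
    obtain ⟨v, hv⟩ := hunit
    have h1 : (1 + (jqModC Kbar)⁻¹ * Ψ p) * Ψ ((v⁻¹ : (PowerSeries A)ˣ) : PowerSeries A) = 1 := by
      rw [hu, ← map_mul, ← map_one Ψ, ← map_add, ← map_mul, ← hv, Units.mul_inv]
    rw [inv_eq_of_mul_eq_one_right h1]
    exact hΨ ⟨_, rfl⟩

/-! ### (hint) on the two charts -/

/-- integrality over `φ '' G` upstairs gives integrality along `φ` over any subring containing
`G`. -/
theorem isIntegralElem_of_intOver_image {K F F' : Type*} [Field K] [Field F] [Field F']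
    [Algebra K F] [Algebra K F'] (φ : F →ₐ[K] F') (G : Set F) (S : Subring F)
    (hS : Subring.closure G ≤ S) {h : F'} (hh : helper4381.IntOver (φ '' G) h) :
    (φ.toRingHom.comp S.subtype).IsIntegralElem h := by
  obtain ⟨p, hp, hpe⟩ := helper869.isIntegralElem_of_mem_intChart φ G (φ '' G)
    (by rintro _ ⟨g, hg, rfl⟩; exact ⟨g, Subring.subset_closure hg, rfl⟩) hh
  refine ⟨p.map (Subring.inclusion hS), hp.map _, ?_⟩
  rw [Polynomial.eval₂_map]
  exact hpe

section Charts

variable {N : ℕ} [NeZero N] {ℓ : ℕ} [NeZero ℓ] (A : ValuationSubring Kbar)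

theorem hint_finChart : ∀ b ∈ finChart A N,
    ((heckeBetaBar Kbar N ℓ).toRingHom.comp (finChart A N).subtype).IsIntegralElem
      (heckeAlphaBar Kbar N ℓ b) := by
  intro b hb
  have h1 : heckeAlphaBar Kbar N ℓ b ∈ finChart A (N * ℓ) :=
    helper4381.heckeAlphaBar_mem_finChart A N ℓ hb
  rw [← helper4381.finChartOf_beta A N ℓ, helper4381.mem_finChartOf_iff] at h1
  refine isIntegralElem_of_intOver_image (heckeBetaBar Kbar N ℓ)
    (helper4381.constSet A (FN N) ∪ {jBar N}) _ ?_ ?_
  · intro f hf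
    exact (helper4381.mem_finChart_iff A N).mpr (helper4381.isIntegral_subring_of_mem hf)
  · rw [Set.image_union, Set.image_singleton, helper4381.image_constSet]
    exact h1

theorem hint_cuspChart : ∀ b ∈ cuspChart A N,
    ((heckeBetaBar Kbar N ℓ).toRingHom.comp (cuspChart A N).subtype).IsIntegralElem
      (heckeAlphaBar Kbar N ℓ b) := by
  intro b hb
  have h1 : heckeAlphaBar Kbar N ℓ b ∈ cuspChart A (N * ℓ) :=
    helper4381.heckeAlphaBar_mem_cuspChart A N ℓ hb
  rw [← helper4381.cuspChartOf_beta A N ℓ,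
    helper4381.mem_cuspChartOf_iff (helper4381.hne_beta_inv A N ℓ)] at h1
  refine isIntegralElem_of_intOver_image (heckeBetaBar Kbar N ℓ)
    (helper4381.cuspGen (helper4381.constSet A (FN N)) (jBar N)⁻¹) _ ?_ ?_
  · intro f hf
    exact (helper4381.mem_cuspChart_iff A N).mpr (helper4381.isIntegral_subring_of_mem hf)
  · have e := helper4381.image_cuspGen (heckeBetaBar Kbar N ℓ : FN N →+* FN (N * ℓ))
      (helper4381.constSet A (FN N)) (jBar N)⁻¹
    rw [map_inv₀] at e
    have e1 : ((heckeBetaBar Kbar N ℓ : FN N →+* FN (N * ℓ)) '' helper4381.constSet A (FN N))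
        = helper4381.constSet A (FN (N * ℓ)) := helper4381.image_constSet (heckeBetaBar Kbar N ℓ) A
    rw [e1] at e
    have e2 : (heckeBetaBar Kbar N ℓ) '' helper4381.cuspGen (helper4381.constSet A (FN N))
        (jBar N)⁻¹ = helper4381.cuspGen (helper4381.constSet A (FN (N * ℓ)))
          (heckeBetaBar Kbar N ℓ (jBar N))⁻¹ := e
    rw [e2]
    exact h1


variable {A}

/-- **(KRON) on the finite chart.** -/
theorem chartKron_finChart (hℓ : ℓ.Prime) (hℓN : ¬ ℓ ∣ N) (hA : A.LiesOverPrime ℓ) {σ : GQ}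
    (hσ : A.IsFrobeniusAt σ ℓ) : ChartKron N ℓ A σ (finChart A N) := by
  have hN : GoodLevel A N := helper28.goodLevel_of_liesOverPrime A hℓ hA N hℓN
  have hD := hσ.mem_decompositionSubgroup
  have ht : helper2025.IsRational (modularFunctionFieldFull N) (jBar N) := by
    rw [← helper37.jF_eq_jBar]
    exact helper28.isRational_jF N
  refine ⟨hint_finChart A, hkron_of_klSub hℓ hℓN hA hσ (closure_finGenE_jq_le_intSer A)
    (Fermat.Agent.Lib.helper28.klSub_finChart_jq A N hN) (finChart A N) ?_ ?_ ?_ ?_⟩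
  · intro f
    have h := helper28.mem_finChart_iff A (t := helper28.jF Kbar N) (f := f)
    rw [helper28.coe_jF, helper37.jF_eq_jBar] at h
    exact h
  · intro b hb i
    exact helper4381.coeff_charpolyAlong_beta_mem_finChart A N ℓ _
      (helper4381.heckeAlphaBar_mem_finChart A N ℓ hb) i
  · intro b hb
    exact helper2025.galois_smul_mem_finChart hD ht hb
  · intro b hb
    exact helper2025.inv_smul_mem_finChart hD ht hb

/-- **(KRON) on the cusp chart.** -/
theorem chartKron_cuspChart (hℓ : ℓ.Prime) (hℓN : ¬ ℓ ∣ N) (hA : A.LiesOverPrime ℓ) {σ : GQ}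
    (hσ : A.IsFrobeniusAt σ ℓ) : ChartKron N ℓ A σ (cuspChart A N) := by
  have hN : GoodLevel A N := helper28.goodLevel_of_liesOverPrime A hℓ hA N hℓN
  have hD := hσ.mem_decompositionSubgroup
  have ht : helper2025.IsRational (modularFunctionFieldFull N) (jBar N) := by
    rw [← helper37.jF_eq_jBar]
    exact helper28.isRational_jF N
  have hmem₁ : ∀ f : FN N, f ∈ cuspChart A N ↔ f ∈ helper2025.infChart A (jBar N)⁻¹ := by
    intro f
    have e := helper37.coe_cuspChart A N
    exact ⟨fun h => e ▸ (show f ∈ (cuspChart A N : Set (FN N)) from h),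
      fun h => show f ∈ (cuspChart A N : Set (FN N)) from e ▸ h⟩
  refine ⟨hint_cuspChart A, hkron_of_klSub hℓ hℓN hA hσ (closure_infGenE_jq_inv_le_intSer A)
    (Fermat.Agent.Lib.helper28.klSub_infChart_jq A N hN) (cuspChart A N) ?_ ?_ ?_ ?_⟩
  · intro f
    have h := helper28.mem_infChart_iff A (u := (helper28.jF Kbar N)⁻¹) (f := f)
    rw [helper28.coe_jF_inv, helper37.jF_eq_jBar] at h
    exact (hmem₁ f).trans h
  · intro b hb i
    exact helper4381.coeff_charpolyAlong_beta_mem_cuspChart A N ℓ _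
      (helper4381.heckeAlphaBar_mem_cuspChart A N ℓ hb) i
  · intro b hb
    exact (hmem₁ _).mpr (helper2025.galois_smul_mem_infChart hD ht.inv ((hmem₁ b).mp hb))
  · intro b hb
    exact (hmem₁ _).mpr (helper2025.inv_smul_mem_infChart hD ht.inv ((hmem₁ b).mp hb))

end Charts

/-- **Node (KRON) holds** at every level `N`. -/
theorem nodeKron (N : ℕ) [NeZero N] : NodeKron N := by
  intro ℓ hℓ hℓN A hA σ hσ
  have : NeZero ℓ := ⟨hℓ.ne_zero⟩
  exact ⟨chartKron_finChart hℓ hℓN hA hσ, chartKron_cuspChart hℓ hℓN hA hσ⟩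

/-- **Node (R2), point form, holds** at every level `N`: `helper37.NodeR2pt N`. -/
theorem nodeR2pt (N : ℕ) [NeZero N] : helper37.NodeR2pt N :=
  nodeR2pt_of_nodeKron (nodeKron N)

end Fermat.Agent.S37.helper5404
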