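/-
S37 (helper5413): the lattice hypotheses `LatHyp` for the Gauss pair and the Prelude structure
`ModularCurve.ReductionInputsModL A N`, UNCONDITIONALLY at every level divisible by `2` or by `3`
(and at any level for which the genus inequality `S18.helper1466.Stmt_GenusLe N ℓ` is known).

Pure wiring: `helper5413.latHyp_gauss` (one hypothesis: the genus inequality between the two
fibres) + `S18.helper1466.stmt_GenusLe_of_two_dvd / _three_dvd` (track A of S18, on main) +
`helper1268.reductionInputsModL_of_latHyp`.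
-/
import Fermat.Agent.S18.helper1466_GenusLine
import Fermat.Agent.S37.helper5413_LatticeModular
import Fermat.Agent.S37.helper1268_ConsMod

set_option autoImplicit false
set_option synthInstance.maxHeartbeats 400000

noncomputable section

namespace Fermat.Agent.S37.helper5413

open ModularCurve AlgebraicCurve Fermat.Agent.S18

local notation "Qb" => AlgebraicClosure ℚ

section Uncond

variable (N : ℕ) [NeZero N] (ℓ : ℕ) [Fact ℓ.Prime] (hℓN : ¬ ℓ ∣ N)
  (A : ValuationSubring Qb) (hA : A.LiesOverPrime ℓ)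

/-- `LatHyp` for the Gauss pair at level `N` from the genus inequality of S18 (track A). -/
theorem latHyp_gauss_of_genusLe (H : helper1466.Stmt_GenusLe N ℓ) :
    ∃ (c : ℤ) (E₀ : Divisor Qb ↥(modularFunctionFieldBar N))
      (E₀k : Divisor (IsLocalRing.ResidueField A)
        ↥(modularFunctionFieldFullC (IsLocalRing.ResidueField A) N)),
      helper6292.IsPoleDivisor (helper1733.gaussJ Qb N) E₀ ∧
      helper6292.IsPoleDivisor (helper9392.jbarC (IsLocalRing.ResidueField A) N) E₀k ∧
      LatHyp (helper508.gaussValuationSubring N ℓ hℓN A hA)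
        (helper508.gaussResidue N ℓ hℓN A hA)
        (helper981.riemannGenus (IsLocalRing.ResidueField A)
          ↥(modularFunctionFieldFullC (IsLocalRing.ResidueField A) N) : ℤ) c E₀ E₀k :=
  latHyp_gauss N ℓ hℓN A hA (H A hA)

/-- **`LatHyp` for the Gauss pair, unconditional, at the levels divisible by `2`.** -/
theorem latHyp_gauss_of_two_dvd (h2N : 2 ∣ N) :
    ∃ (c : ℤ) (E₀ : Divisor Qb ↥(modularFunctionFieldBar N))
      (E₀k : Divisor (IsLocalRing.ResidueField A)
        ↥(modularFunctionFieldFullC (IsLocalRing.ResidueField A) N)),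
      helper6292.IsPoleDivisor (helper1733.gaussJ Qb N) E₀ ∧
      helper6292.IsPoleDivisor (helper9392.jbarC (IsLocalRing.ResidueField A) N) E₀k ∧
      LatHyp (helper508.gaussValuationSubring N ℓ hℓN A hA)
        (helper508.gaussResidue N ℓ hℓN A hA)
        (helper981.riemannGenus (IsLocalRing.ResidueField A)
          ↥(modularFunctionFieldFullC (IsLocalRing.ResidueField A) N) : ℤ) c E₀ E₀k :=
  latHyp_gauss_of_genusLe N ℓ hℓN A hA
    (helper1466.stmt_GenusLe_of_two_dvd N ℓ Fact.out h2N hℓN)

/-- **`LatHyp` for the Gauss pair, unconditional, at the levels divisible by `3`.** -/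
theorem latHyp_gauss_of_three_dvd (h3N : 3 ∣ N) :
    ∃ (c : ℤ) (E₀ : Divisor Qb ↥(modularFunctionFieldBar N))
      (E₀k : Divisor (IsLocalRing.ResidueField A)
        ↥(modularFunctionFieldFullC (IsLocalRing.ResidueField A) N)),
      helper6292.IsPoleDivisor (helper1733.gaussJ Qb N) E₀ ∧
      helper6292.IsPoleDivisor (helper9392.jbarC (IsLocalRing.ResidueField A) N) E₀k ∧
      LatHyp (helper508.gaussValuationSubring N ℓ hℓN A hA)
        (helper508.gaussResidue N ℓ hℓN A hA)
        (helper981.riemannGenus (IsLocalRing.ResidueField A)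
          ↥(modularFunctionFieldFullC (IsLocalRing.ResidueField A) N) : ℤ) c E₀ E₀k :=
  latHyp_gauss_of_genusLe N ℓ hℓN A hA
    (helper1466.stmt_GenusLe_of_three_dvd N ℓ Fact.out h3N hℓN)

/-- The short existential form (the gate of S19 / the node (L) of the lattice track). -/
theorem exists_latHyp_gauss_of_genusLe (H : helper1466.Stmt_GenusLe N ℓ) :
    ∃ (g c : ℤ) (E₀ : Divisor Qb ↥(modularFunctionFieldBar N))
      (E₀k : Divisor (IsLocalRing.ResidueField A)
        ↥(modularFunctionFieldFullC (IsLocalRing.ResidueField A) N)),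
      LatHyp (helper508.gaussValuationSubring N ℓ hℓN A hA)
        (helper508.gaussResidue N ℓ hℓN A hA) g c E₀ E₀k := by
  obtain ⟨c, E₀, E₀k, -, -, h⟩ := latHyp_gauss_of_genusLe N ℓ hℓN A hA H
  exact ⟨_, c, E₀, E₀k, h⟩

theorem exists_latHyp_gauss_of_two_dvd (h2N : 2 ∣ N) :
    ∃ (g c : ℤ) (E₀ : Divisor Qb ↥(modularFunctionFieldBar N))
      (E₀k : Divisor (IsLocalRing.ResidueField A)
        ↥(modularFunctionFieldFullC (IsLocalRing.ResidueField A) N)),
      LatHyp (helper508.gaussValuationSubring N ℓ hℓN A hA)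
        (helper508.gaussResidue N ℓ hℓN A hA) g c E₀ E₀k :=
  exists_latHyp_gauss_of_genusLe N ℓ hℓN A hA
    (helper1466.stmt_GenusLe_of_two_dvd N ℓ Fact.out h2N hℓN)

theorem exists_latHyp_gauss_of_three_dvd (h3N : 3 ∣ N) :
    ∃ (g c : ℤ) (E₀ : Divisor Qb ↥(modularFunctionFieldBar N))
      (E₀k : Divisor (IsLocalRing.ResidueField A)
        ↥(modularFunctionFieldFullC (IsLocalRing.ResidueField A) N)),
      LatHyp (helper508.gaussValuationSubring N ℓ hℓN A hA)
        (helper508.gaussResidue N ℓ hℓN A hA) g c E₀ E₀k :=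
  exists_latHyp_gauss_of_genusLe N ℓ hℓN A hA
    (helper1466.stmt_GenusLe_of_three_dvd N ℓ Fact.out h3N hℓN)

/-- **(C1)** The Prelude reduction inputs at level `N` from the genus inequality. -/
theorem reductionInputsModL_of_genusLe (N : ℕ) [NeZero N] (ℓ : ℕ) [Fact ℓ.Prime]
    (hℓN : ¬ ℓ ∣ N) (A : ValuationSubring Qb) (hA : A.LiesOverPrime ℓ)
    (H : helper1466.Stmt_GenusLe N ℓ) :
    ReductionInputsModL A N := by
  have := hasPrincipalDivisors_bar N ℓ hℓN A hA
  obtain ⟨c, E₀, E₀k, -, -, h⟩ := latHyp_gauss_of_genusLe N ℓ hℓN A hA H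
  exact helper1268.reductionInputsModL_of_latHyp N ℓ hℓN A hA h

/-- **(C1), unconditional, at the levels divisible by `2`**: conservation of number
(`ModularCurve.ReductionInputsModL A N`, the hypothesis `h` of the frozen S18 statement). -/
theorem reductionInputsModL_of_two_dvd (N : ℕ) [NeZero N] (ℓ : ℕ) [Fact ℓ.Prime]
    (hℓN : ¬ ℓ ∣ N) (A : ValuationSubring Qb) (hA : A.LiesOverPrime ℓ) (h2N : 2 ∣ N) :
    ReductionInputsModL A N :=
  reductionInputsModL_of_genusLe N ℓ hℓN A hA
    (helper1466.stmt_GenusLe_of_two_dvd N ℓ Fact.out h2N hℓN)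

/-- **(C1), unconditional, at the levels divisible by `3`.** -/
theorem reductionInputsModL_of_three_dvd (N : ℕ) [NeZero N] (ℓ : ℕ) [Fact ℓ.Prime]
    (hℓN : ¬ ℓ ∣ N) (A : ValuationSubring Qb) (hA : A.LiesOverPrime ℓ) (h3N : 3 ∣ N) :
    ReductionInputsModL A N :=
  reductionInputsModL_of_genusLe N ℓ hℓN A hA
    (helper1466.stmt_GenusLe_of_three_dvd N ℓ Fact.out h3N hℓN)

end Uncond

end Fermat.Agent.S37.helper5413

end
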