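import Mathlib

/-!
# S37/S18-LOCFAC: local factorisation at a regular closed point of an arithmetic surface

Abstract commutative algebra (Mathlib only).  `R` is a noetherian local domain (think of the
local ring `B_z` of a normal model at a closed point `z` of the special fibre), `π : R` a prime
element (the uniformiser of the base) such that the maximal ideal is `(π, t)`.

* `IsSection π 𝔭`: `𝔭` is a prime with `π ∉ 𝔭` and `𝔭 + (π) = 𝔫` (the kernel of an integral
  point through `z`).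
* `IsSection.exists_generator`: sections are principal, `𝔭 = (f)`, and `𝔫 = (π, f)`.
* `dvd_of_forall_nonmaximal`: depth two by hand — a fraction which is integral at every
  non-maximal prime is integral.
* `exists_unit_of_forall_nonmaximal`: a fraction which is a unit at every non-maximal prime is a
  unit of `R`.
* `CongPi`, `UnitMod`: congruence modulo `π R_(π)` written with explicit denominators.
* `exists_loc`: the consumer form (hypothesis (LOC) of the Kummer idempotent lemma).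
-/

set_option autoImplicit false

namespace Fermat.Agent.S37.helper5604

open IsLocalRing

section Principal

variable {S : Type*} [CommRing S] [IsNoetherianRing S] [IsLocalRing S]

/-- In a noetherian local ring whose maximal ideal is principal, every nonzero element is a
unit times a power of the generator. -/
theorem exists_unit_mul_pow_of_maximalIdeal_eq_span {ϖ : S}
    (hϖ : maximalIdeal S = Ideal.span {ϖ}) {x : S} (hx : x ≠ 0) :
    ∃ (n : ℕ) (u : Sˣ), x = u * ϖ ^ n := by
  classical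
  have hinf := Ideal.iInf_pow_eq_bot_of_isLocalRing (maximalIdeal S) Ideal.IsPrime.ne_top'
  have hex : ∃ n, x ∉ maximalIdeal S ^ n := by
    by_contra hcon
    push Not at hcon
    apply hx
    have hmem : x ∈ (⨅ i : ℕ, maximalIdeal S ^ i) := Ideal.mem_iInf.mpr hcon
    rwa [hinf] at hmem
  have hn : x ∉ maximalIdeal S ^ Nat.find hex := Nat.find_spec hex
  have hn0 : Nat.find hex ≠ 0 := by
    intro h0
    rw [h0, pow_zero, Ideal.one_eq_top] at hn
    exact hn trivial
  obtain ⟨k, hk⟩ := Nat.exists_eq_succ_of_ne_zero hn0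
  have hk' : x ∈ maximalIdeal S ^ k := by
    by_contra hc
    exact Nat.find_min hex (by omega : k < Nat.find hex) hc
  rw [hϖ, Ideal.span_singleton_pow, Ideal.mem_span_singleton] at hk'
  obtain ⟨a, ha⟩ := hk'
  have hau : IsUnit a := by
    by_contra hna
    have hmem : a ∈ maximalIdeal S := (IsLocalRing.mem_maximalIdeal a).mpr hna
    rw [hϖ, Ideal.mem_span_singleton] at hmem
    obtain ⟨c, hc⟩ := hmem
    apply hn
    rw [hk, hϖ, Ideal.span_singleton_pow, Ideal.mem_span_singleton]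
    exact ⟨c, by rw [ha, hc, pow_succ]; ring⟩
  exact ⟨k, hau.unit, by rw [ha, IsUnit.unit_spec]; ring⟩

end Principal

section Local

variable {R : Type*} [CommRing R] [IsLocalRing R]

theorem isUnit_of_isUnit_mk {I : Ideal R} (hI : I ≤ maximalIdeal R) {v : R}
    (h : IsUnit (Ideal.Quotient.mk I v)) : IsUnit v := by
  by_contra hv
  have hvm : v ∈ maximalIdeal R := (IsLocalRing.mem_maximalIdeal v).mpr hv
  obtain ⟨y, hy⟩ := h.exists_right_inv
  obtain ⟨y', rfl⟩ := Ideal.Quotient.mk_surjective y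
  rw [← map_mul, ← map_one (Ideal.Quotient.mk I), Ideal.Quotient.eq] at hy
  have h1 : v * y' - 1 ∈ maximalIdeal R := hI hy
  have h2 : v * y' ∈ maximalIdeal R := Ideal.mul_mem_right _ _ hvm
  have h3 : (1 : R) ∈ maximalIdeal R := by
    have h4 := Ideal.sub_mem _ h2 h1
    rwa [sub_sub_cancel] at h4
  exact (Ideal.ne_top_iff_one _).mp Ideal.IsPrime.ne_top' h3

/-- A *section* through the closed point: a prime `𝔭` not containing `π` with
`𝔭 + (π) = 𝔫`. -/
structure IsSection (π : R) (𝔭 : Ideal R) : Prop where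
  isPrime : 𝔭.IsPrime
  notMem : π ∉ 𝔭
  sup_eq : 𝔭 ⊔ Ideal.span {π} = maximalIdeal R

theorem IsSection.le_maximalIdeal {π : R} {𝔭 : Ideal R} (h : IsSection π 𝔭) :
    𝔭 ≤ maximalIdeal R := by
  rw [← h.sup_eq]
  exact le_sup_left

theorem IsSection.ne_maximalIdeal {π : R} {𝔭 : Ideal R} (h : IsSection π 𝔭) :
    𝔭 ≠ maximalIdeal R := by
  intro he
  apply h.notMem
  rw [he, ← h.sup_eq]
  exact Ideal.mem_sup_right (Ideal.mem_span_singleton_self π)

variable [IsNoetherianRing R]

/-- **(LF1)** Sections through a regular closed point are principal: if `𝔫 = (π, t)` and `𝔭`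
is a section, then `𝔭 = (f)` with `𝔫 = (π, f)`. -/
theorem IsSection.exists_generator {π : R}
    (hreg : ∃ t : R, maximalIdeal R = Ideal.span {π, t}) {𝔭 : Ideal R} (h : IsSection π 𝔭) :
    ∃ f : R, 𝔭 = Ideal.span {f} ∧ maximalIdeal R = Ideal.span {π, f} := by
  obtain ⟨t, ht⟩ := hreg
  have htm : t ∈ 𝔭 ⊔ Ideal.span {π} := by
    rw [h.sup_eq, ht]
    exact Ideal.subset_span (by simp)
  obtain ⟨f, hf, y, hy, hfy⟩ := Submodule.mem_sup.mp htm
  obtain ⟨c, rfl⟩ := Ideal.mem_span_singleton'.mp hy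
  have hfm : f ∈ maximalIdeal R := h.le_maximalIdeal hf
  have hπm : π ∈ maximalIdeal R := by
    rw [← h.sup_eq]
    exact Ideal.mem_sup_right (Ideal.mem_span_singleton_self π)
  have hmax : maximalIdeal R = Ideal.span {π, f} := by
    apply le_antisymm
    · rw [ht, Ideal.span_le]
      rintro x (rfl | rfl)
      · exact Ideal.subset_span (by simp)
      · show x ∈ Ideal.span {π, f}
        rw [← hfy, Ideal.mem_span_pair]
        exact ⟨c, 1, by ring⟩
    · rw [Ideal.span_le]
      rintro x (rfl | rfl)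
      · exact hπm
      · exact hfm
  refine ⟨f, ?_, hmax⟩
  apply le_antisymm
  · -- the hard inclusion
    intro x hx
    by_contra hxf
    have hIle : Ideal.span {f} ≤ maximalIdeal R := by
      rw [Ideal.span_le]; rintro x rfl; exact hfm
    have hne : Ideal.span {f} ≠ ⊤ := fun htop =>
      (Ideal.ne_top_iff_one _).mp Ideal.IsPrime.ne_top' (hIle (htop ▸ trivial))
    have : Nontrivial (R ⧸ Ideal.span {f}) := Ideal.Quotient.nontrivial_iff.mpr hne
    have : IsLocalRing (R ⧸ Ideal.span {f}) :=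
      IsLocalRing.of_surjective' (Ideal.Quotient.mk (Ideal.span {f})) Ideal.Quotient.mk_surjective
    have hmaxS : maximalIdeal (R ⧸ Ideal.span {f}) =
        Ideal.span {Ideal.Quotient.mk (Ideal.span {f}) π} := by
      apply le_antisymm
      · intro y hy
        obtain ⟨y', rfl⟩ := Ideal.Quotient.mk_surjective y
        have hy' : y' ∈ maximalIdeal R := by
          rw [IsLocalRing.mem_maximalIdeal]
          intro hu
          exact (IsLocalRing.mem_maximalIdeal _).mp hy (hu.map _)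
        rw [hmax, Ideal.mem_span_pair] at hy'
        obtain ⟨a, b, hab⟩ := hy'
        rw [Ideal.mem_span_singleton]
        refine ⟨Ideal.Quotient.mk _ a, ?_⟩
        rw [← map_mul, Ideal.Quotient.eq, ← hab, Ideal.mem_span_singleton]
        exact ⟨b, by ring⟩
      · rw [Ideal.span_le]
        rintro y rfl
        show _ ∈ maximalIdeal _
        rw [IsLocalRing.mem_maximalIdeal]
        intro hu
        exact (IsLocalRing.mem_maximalIdeal _).mp hπm (isUnit_of_isUnit_mk hIle hu)
    have hx0 : Ideal.Quotient.mk (Ideal.span {f}) x ≠ 0 := by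
      rwa [Ne, Ideal.Quotient.eq_zero_iff_mem]
    obtain ⟨n, u, hu⟩ := exists_unit_mul_pow_of_maximalIdeal_eq_span hmaxS hx0
    obtain ⟨v, hv⟩ := Ideal.Quotient.mk_surjective (u : R ⧸ Ideal.span {f})
    have hvu : IsUnit v := isUnit_of_isUnit_mk hIle (hv ▸ u.isUnit)
    rw [← hv, ← map_pow, ← map_mul, Ideal.Quotient.eq] at hu
    have hfp : Ideal.span {f} ≤ 𝔭 := by
      rw [Ideal.span_le]; rintro x rfl; exact hf
    have h1 : v * π ^ n ∈ 𝔭 := by
      have := Ideal.sub_mem _ hx (hfp hu)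
      simpa using this
    rcases Ideal.IsPrime.mem_or_mem h.isPrime h1 with h2 | h2
    · exact (IsLocalRing.mem_maximalIdeal _).mp (h.le_maximalIdeal h2) hvu
    · exact h.notMem (Ideal.IsPrime.mem_of_pow_mem h.isPrime n h2)
  · rw [Ideal.span_le]; rintro x rfl; exact hf

end Local

section Depth

variable {R : Type*} [CommRing R] [IsDomain R] [IsLocalRing R] [IsNoetherianRing R]

/-- Core of "depth two by hand": `π` prime, `π ∤ b`, and `a / b` integral at every non-maximal
prime, then `b ∣ a`. -/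
theorem dvd_of_forall_nonmaximal_aux {π : R} (hπ : Prime π) {a b : R} (hπb : ¬ π ∣ b)
    (h : ∀ 𝔮 : Ideal R, 𝔮.IsPrime → 𝔮 ≠ maximalIdeal R → ∃ s, s ∉ 𝔮 ∧ b ∣ s * a) : b ∣ a := by
  by_contra hba
  let col : R → Ideal R := fun c =>
    { carrier := {r | b ∣ r * (c * a)}
      add_mem' := fun {x y} hx hy => by
        show b ∣ (x + y) * (c * a)
        rw [add_mul]; exact dvd_add hx hy
      zero_mem' := by show b ∣ 0 * (c * a); rw [zero_mul]; exact dvd_zero b
      smul_mem' := fun r x hx => by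
        show b ∣ (r • x) * (c * a)
        rw [smul_eq_mul, mul_assoc]; exact Dvd.dvd.mul_left hx r }
  have hcol : ∀ c r, r ∈ col c ↔ b ∣ r * (c * a) := fun c r => Iff.rfl
  let 𝒮 : Set (Ideal R) := {I | ∃ c, ¬ b ∣ c * a ∧ I = col c}
  have hne : 𝒮.Nonempty := ⟨col 1, 1, by simpa using hba, rfl⟩
  obtain ⟨I₀, ⟨c, hc, rfl⟩, hmax⟩ :=
    (set_has_maximal_iff_noetherian (R := R) (M := R)).mpr inferInstance 𝒮 hne
  have hprime : (col c).IsPrime := by
    refine ⟨?_, ?_⟩
    · intro htop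
      have h1 : (1 : R) ∈ col c := htop ▸ trivial
      rw [hcol, one_mul] at h1
      exact hc h1
    · intro r r' hrr'
      by_contra hcon
      push Not at hcon
      obtain ⟨hr, hr'⟩ := hcon
      have hr'c : ¬ b ∣ (r' * c) * a := by
        intro hd; apply hr'; rw [hcol]; rwa [mul_assoc] at hd
      have hle : col c ≤ col (r' * c) := by
        intro x hx
        rw [hcol] at hx ⊢
        have e : x * (r' * c * a) = r' * (x * (c * a)) := by ring
        rw [e]; exact Dvd.dvd.mul_left hx r'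
      have hnlt := hmax (col (r' * c)) ⟨r' * c, hr'c, rfl⟩
      have heq : col c = col (r' * c) := eq_of_le_of_not_lt hle hnlt
      apply hr
      rw [heq, hcol]
      rw [hcol] at hrr'
      have e : r * (r' * c * a) = r * r' * (c * a) := by ring
      rw [e]; exact hrr'
  by_cases hm : col c = maximalIdeal R
  · have hπm : π ∈ col c := by
      rw [hm, IsLocalRing.mem_maximalIdeal]; exact hπ.not_isUnit
    rw [hcol] at hπm
    obtain ⟨d, hd⟩ := hπm
    have hπd : π ∣ d := (hπ.dvd_or_dvd ⟨c * a, hd.symm⟩).resolve_left hπb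
    obtain ⟨d', rfl⟩ := hπd
    apply hc
    refine ⟨d', ?_⟩
    have e : π * (c * a) = π * (b * d') := by rw [hd]; ring
    exact mul_left_cancel₀ hπ.ne_zero e
  · obtain ⟨s, hs, hsa⟩ := h (col c) hprime hm
    apply hs
    rw [hcol]
    have e : s * (c * a) = c * (s * a) := by ring
    rw [e]; exact Dvd.dvd.mul_left hsa c

/-- **(LF2)** Depth two by hand.  `R` noetherian local domain, `π` a prime element with
`(π) ≠ 𝔫`.  If for every non-maximal prime `𝔮` there is `s ∉ 𝔮` with `b ∣ s * a`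
(i.e. `a / b ∈ R_𝔮`), then `b ∣ a`. -/
theorem dvd_of_forall_nonmaximal {π : R} (hπ : Prime π)
    (hne : Ideal.span {π} ≠ maximalIdeal R) {a b : R} (hb : b ≠ 0)
    (h : ∀ 𝔮 : Ideal R, 𝔮.IsPrime → 𝔮 ≠ maximalIdeal R → ∃ s, s ∉ 𝔮 ∧ b ∣ s * a) : b ∣ a := by
  obtain ⟨n, b', hb', rfl⟩ := WfDvdMonoid.max_power_factor hb hπ.irreducible
  obtain ⟨s, hs, hsa⟩ := h (Ideal.span {π}) ((Ideal.span_singleton_prime hπ.ne_zero).mpr hπ) hne
  rw [Ideal.mem_span_singleton] at hs
  have hπa : π ^ n ∣ a :=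
    hπ.pow_dvd_of_dvd_mul_left n hs (Dvd.dvd.trans (Dvd.intro _ rfl) hsa)
  obtain ⟨a', rfl⟩ := hπa
  have hpn : π ^ n ≠ 0 := pow_ne_zero n hπ.ne_zero
  rw [mul_dvd_mul_iff_left hpn]
  apply dvd_of_forall_nonmaximal_aux hπ hb'
  intro 𝔮 h𝔮 h𝔮m
  obtain ⟨s, hs, hsa⟩ := h 𝔮 h𝔮 h𝔮m
  refine ⟨s, hs, ?_⟩
  have e : s * (π ^ n * a') = π ^ n * (s * a') := by ring
  rw [e, mul_dvd_mul_iff_left hpn] at hsa
  exact hsa

variable {F : Type*} [Field F] [Algebra R F] [IsFractionRing R F]

/-- `x ∈ R_𝔮`, written with an explicit denominator. -/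
def IntegralAt (𝔮 : Ideal R) (x : F) : Prop :=
  ∃ s : R, s ∉ 𝔮 ∧ ∃ r : R, algebraMap R F s * x = algebraMap R F r

/-- A fraction which is integral at every non-maximal prime is integral. -/
theorem exists_eq_algebraMap_of_forall_nonmaximal {π : R} (hπ : Prime π)
    (hne : Ideal.span {π} ≠ maximalIdeal R) {x : F}
    (h : ∀ 𝔮 : Ideal R, 𝔮.IsPrime → 𝔮 ≠ maximalIdeal R → IntegralAt 𝔮 x) :
    ∃ r : R, x = algebraMap R F r := by
  obtain ⟨a, b, hb, rfl⟩ := IsFractionRing.div_surjective (A := R) x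
  have hb0 : b ≠ 0 := nonZeroDivisors.ne_zero hb
  have hbF : algebraMap R F b ≠ 0 := by
    rwa [Ne, map_eq_zero_iff _ (IsFractionRing.injective R F)]
  have hdvd : b ∣ a := by
    apply dvd_of_forall_nonmaximal hπ hne hb0
    intro 𝔮 h𝔮 h𝔮m
    obtain ⟨s, hs, r, hr⟩ := h 𝔮 h𝔮 h𝔮m
    refine ⟨s, hs, r, ?_⟩
    apply IsFractionRing.injective R F
    rw [map_mul, map_mul]
    field_simp at hr
    linear_combination hr
  obtain ⟨c, rfl⟩ := hdvd
  refine ⟨c, ?_⟩
  rw [map_mul]
  field_simp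

/-- **(LF3)** A fraction which is a unit at every non-maximal prime is a unit of `R`. -/
theorem exists_unit_of_forall_nonmaximal {π : R} (hπ : Prime π)
    (hne : Ideal.span {π} ≠ maximalIdeal R) {x : F} (hx : x ≠ 0)
    (h : ∀ 𝔮 : Ideal R, 𝔮.IsPrime → 𝔮 ≠ maximalIdeal R → IntegralAt 𝔮 x ∧ IntegralAt 𝔮 x⁻¹) :
    ∃ u : Rˣ, x = algebraMap R F u := by
  obtain ⟨r, hr⟩ := exists_eq_algebraMap_of_forall_nonmaximal hπ hne
    (fun 𝔮 h𝔮 h𝔮m => (h 𝔮 h𝔮 h𝔮m).1)
  obtain ⟨r', hr'⟩ := exists_eq_algebraMap_of_forall_nonmaximal hπ hne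
    (fun 𝔮 h𝔮 h𝔮m => (h 𝔮 h𝔮 h𝔮m).2)
  have hrr' : r * r' = 1 := by
    apply IsFractionRing.injective R F
    rw [map_mul, map_one, ← hr, ← hr', mul_inv_cancel₀ hx]
  exact ⟨⟨r, r', hrr', by rw [mul_comm]; exact hrr'⟩, hr⟩

end Depth

section Loc

variable {R : Type*} [CommRing R] [IsDomain R] [IsLocalRing R] [IsNoetherianRing R]

omit [IsDomain R] [IsNoetherianRing R] in
theorem not_dvd_of_maximalIdeal_eq_span_pair {π f : R}
    (hne : Ideal.span {π} ≠ maximalIdeal R) (hf : maximalIdeal R = Ideal.span {π, f}) :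
    ¬ π ∣ f := by
  intro hd
  apply hne
  rw [hf]
  apply le_antisymm
  · exact Ideal.span_mono (by simp)
  · rw [Ideal.span_le]
    rintro x (rfl | rfl)
    · exact Ideal.mem_span_singleton_self _
    · exact Ideal.mem_span_singleton.mpr hd

omit [IsDomain R] [IsNoetherianRing R] in
/-- Two elements completing `π` to a generating pair of the maximal ideal differ by a unit
modulo `π`. -/
theorem exists_unit_dvd_sub_of_span_pair {π f h : R} (hπ : Prime π)
    (hne : Ideal.span {π} ≠ maximalIdeal R)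
    (hf : maximalIdeal R = Ideal.span {π, f}) (hh : maximalIdeal R = Ideal.span {π, h}) :
    ∃ w : Rˣ, π ∣ f - w * h := by
  have hfm : f ∈ Ideal.span {π, h} := by
    rw [← hh, hf]; exact Ideal.subset_span (by simp)
  have hhm : h ∈ Ideal.span {π, f} := by
    rw [← hf, hh]; exact Ideal.subset_span (by simp)
  obtain ⟨b, a, hab⟩ := Ideal.mem_span_pair.mp hfm
  obtain ⟨b', a', hab'⟩ := Ideal.mem_span_pair.mp hhm
  have hπf : ¬ π ∣ f := not_dvd_of_maximalIdeal_eq_span_pair hne hf
  have h1 : π ∣ (1 - a * a') * f := ⟨b + a * b', by linear_combination -hab - a * hab'⟩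
  have h2 : π ∣ 1 - a * a' := (hπ.dvd_or_dvd h1).resolve_right hπf
  have hπm : π ∈ maximalIdeal R := (IsLocalRing.mem_maximalIdeal _).mpr hπ.not_isUnit
  have hau : IsUnit a := by
    by_contra hna
    have ham : a ∈ maximalIdeal R := (IsLocalRing.mem_maximalIdeal _).mpr hna
    have h3 : 1 - a * a' ∈ maximalIdeal R := by
      obtain ⟨c, hc⟩ := h2
      rw [hc]; exact Ideal.mul_mem_right _ _ hπm
    have h4 : (1 : R) ∈ maximalIdeal R := by
      have h5 := Ideal.add_mem _ h3 (Ideal.mul_mem_right a' _ ham)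
      rwa [sub_add_cancel] at h5
    exact (Ideal.ne_top_iff_one _).mp Ideal.IsPrime.ne_top' h4
  refine ⟨hau.unit, b, ?_⟩
  rw [IsUnit.unit_spec, ← hab]; ring

omit [IsDomain R] [IsLocalRing R] [IsNoetherianRing R] in
theorem exists_unit_dvd_prod_sub {ι : Type*} (s : Finset ι) {π : R} (f h : ι → R)
    (H : ∀ i ∈ s, ∃ w : Rˣ, π ∣ f i - w * h i) :
    ∃ w : Rˣ, π ∣ ∏ i ∈ s, f i - w * ∏ i ∈ s, h i := by
  classical
  induction s using Finset.induction_on with
  | empty => exact ⟨1, by simp⟩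
  | insert a s ha ih =>
    obtain ⟨w₁, c₁, hc₁⟩ := H a (Finset.mem_insert_self a s)
    obtain ⟨w₂, c₂, hc₂⟩ := ih (fun i hi => H i (Finset.mem_insert_of_mem hi))
    refine ⟨w₁ * w₂, c₁ * ∏ i ∈ s, f i + w₁ * h a * c₂, ?_⟩
    rw [Finset.prod_insert ha, Finset.prod_insert ha, Units.val_mul]
    linear_combination (∏ i ∈ s, f i) * hc₁ + (w₁ : R) * h a * hc₂

variable {F : Type*} [Field F] [Algebra R F] [IsFractionRing R F]

/-- `x ∈ π R_(π)`, written with an explicit denominator. -/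
def InPi (π : R) (x : F) : Prop :=
  ∃ s : R, ¬ π ∣ s ∧ ∃ r : R, algebraMap R F s * x = algebraMap R F (π * r)

/-- **(LF5), raw form.**  `R` noetherian local domain, `π` prime, `𝔫 = (π, t) ≠ (π)`
(a regular closed point of the special fibre).  `𝔭 i`, `𝔮 i` (`i : ι`) are sections through the
closed point (zeros resp. poles, with repetition; equal numbers).  If `U ∈ Frac R` is such that
for every choice of generators `f i` of `𝔭 i` and `h i` of `𝔮 i` the element
`U * (∏ h / ∏ f) ^ m` is a unit at every non-maximal prime, then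

* `U ≡ (unit of R)` modulo `π R_(π)` (the reduction of `U` has neither zero nor pole at the
  closed point), and
* if `U ≡ 1` modulo `π R_(π)`, there is `g ≡ 1` modulo `π R_(π)` with `U * g ^ m ≡ 1` modulo
  `π R` (hypothesis (LOC) of the Kummer idempotent lemma). -/
theorem exists_loc {π : R} (hπ : Prime π) (hne : Ideal.span {π} ≠ maximalIdeal R)
    (hreg : ∃ t : R, maximalIdeal R = Ideal.span {π, t})
    {ι : Type*} [Fintype ι] (𝔭 𝔮 : ι → Ideal R)
    (h𝔭 : ∀ i, IsSection π (𝔭 i)) (h𝔮 : ∀ i, IsSection π (𝔮 i))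
    (m : ℕ) (U : F) (hU : U ≠ 0)
    (H : ∀ f h : ι → R, (∀ i, 𝔭 i = Ideal.span {f i}) → (∀ i, 𝔮 i = Ideal.span {h i}) →
      ∀ 𝔯 : Ideal R, 𝔯.IsPrime → 𝔯 ≠ maximalIdeal R →
        IntegralAt 𝔯 (U * (algebraMap R F (∏ i, h i) / algebraMap R F (∏ i, f i)) ^ m) ∧
        IntegralAt 𝔯 (U⁻¹ * (algebraMap R F (∏ i, f i) / algebraMap R F (∏ i, h i)) ^ m)) :
    (∃ w : Rˣ, InPi π (U - algebraMap R F w)) ∧
      (InPi π (U - 1) →
        ∃ g : F, InPi π (g - 1) ∧ ∃ r : R, U * g ^ m - 1 = algebraMap R F (π * r)) := by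
  classical
  choose f hf hfm using fun i => (h𝔭 i).exists_generator hreg
  choose h hh hhm using fun i => (h𝔮 i).exists_generator hreg
  have hπf : ∀ i, ¬ π ∣ f i := fun i => not_dvd_of_maximalIdeal_eq_span_pair hne (hfm i)
  have hπh : ∀ i, ¬ π ∣ h i := fun i => not_dvd_of_maximalIdeal_eq_span_pair hne (hhm i)
  set N : R := ∏ i, f i with hN
  set D : R := ∏ i, h i with hD
  have hπN : ¬ π ∣ N := by
    intro hd
    obtain ⟨i, -, hi⟩ := hπ.exists_mem_finset_dvd hd
    exact hπf i hi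
  have hπD : ¬ π ∣ D := by
    intro hd
    obtain ⟨i, -, hi⟩ := hπ.exists_mem_finset_dvd hd
    exact hπh i hi
  have hN0 : N ≠ 0 := fun h0 => hπN (h0 ▸ dvd_zero π)
  have hD0 : D ≠ 0 := fun h0 => hπD (h0 ▸ dvd_zero π)
  have hinj := IsFractionRing.injective R F
  have hNF : algebraMap R F N ≠ 0 := by rwa [Ne, map_eq_zero_iff _ hinj]
  have hDF : algebraMap R F D ≠ 0 := by rwa [Ne, map_eq_zero_iff _ hinj]
  -- the unit
  have hV0 : U * (algebraMap R F D / algebraMap R F N) ^ m ≠ 0 :=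
    mul_ne_zero hU (pow_ne_zero _ (div_ne_zero hDF hNF))
  have hVinv : (U * (algebraMap R F D / algebraMap R F N) ^ m)⁻¹ =
      U⁻¹ * (algebraMap R F N / algebraMap R F D) ^ m := by
    rw [mul_inv, ← inv_pow, inv_div]
  obtain ⟨u, hu⟩ := exists_unit_of_forall_nonmaximal hπ hne hV0 (fun 𝔯 h𝔯 h𝔯m => by
    rw [hVinv]
    exact H f h hf hh 𝔯 h𝔯 h𝔯m)
  have hUD : U * algebraMap R F D ^ m = algebraMap R F u * algebraMap R F N ^ m := by
    rw [div_pow] at hu
    field_simp at hu
    linear_combination hu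
  -- the congruence N ≡ w D
  obtain ⟨w, c, hc⟩ := exists_unit_dvd_prod_sub Finset.univ f h
    (fun i _ => exists_unit_dvd_sub_of_span_pair hπ hne (hfm i) (hhm i))
  obtain ⟨c', hc'⟩ : π ∣ N ^ m - (w * D) ^ m :=
    Dvd.dvd.trans ⟨c, hc⟩ (sub_dvd_pow_sub_pow N (w * D) m)
  have hπDm : ¬ π ∣ D ^ m := fun hd => hπD (hπ.dvd_of_dvd_pow hd)
  have key : algebraMap R F (D ^ m) * (U - algebraMap R F (u * w ^ m)) =
      algebraMap R F (π * (u * c')) := by
    have e1 : algebraMap R F (π * (u * c')) = algebraMap R F u * algebraMap R F (N ^ m - (w * D) ^ m) := by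
      rw [hc']; simp only [map_mul]; ring
    rw [e1]
    simp only [map_mul, map_pow, map_sub]
    linear_combination hUD
  refine ⟨⟨u * w ^ m, ?_⟩, ?_⟩
  · refine ⟨D ^ m, hπDm, u * c', ?_⟩
    rw [← key]
    simp
  · rintro ⟨s₁, hs₁, r₁, hr₁⟩
    -- π ∣ u w^m - 1
    have hdvd : π ∣ D ^ m * s₁ * (u * w ^ m - 1) := by
      refine ⟨D ^ m * r₁ - s₁ * (u * c'), ?_⟩
      apply hinj
      have e2 : algebraMap R F (D ^ m * s₁ * (u * w ^ m - 1)) =
          algebraMap R F (D ^ m) * (algebraMap R F s₁ * (U - 1)) -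
            algebraMap R F s₁ * (algebraMap R F (D ^ m) * (U - algebraMap R F (u * w ^ m))) := by
        simp only [map_mul, map_pow, map_sub, map_one]; ring
      rw [e2, hr₁, key]
      simp only [map_mul, map_pow, map_sub]; ring
    have hdvd' : π ∣ (u : R) * w ^ m - 1 := by
      rcases hπ.dvd_or_dvd hdvd with h1 | h1
      · rcases hπ.dvd_or_dvd h1 with h2 | h2
        · exact absurd h2 hπDm
        · exact absurd h2 hs₁
      · exact h1
    obtain ⟨r₂, hr₂⟩ := hdvd'
    refine ⟨algebraMap R F (w * D) / algebraMap R F N, ⟨N, hπN, -c, ?_⟩, r₂, ?_⟩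
    · rw [mul_sub, mul_div_cancel₀ _ hNF, mul_one, ← map_sub]
      congr 1
      linear_combination -hc
    · rw [← hr₂, div_pow]
      simp only [map_mul, map_pow, map_sub, map_one]
      field_simp
      linear_combination (algebraMap R F (w : R)) ^ m * hUD

end Loc

end Fermat.Agent.S37.helper5604
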