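import Fermat.Agent.S37.helper1138_Assembly

/-!
# S37: degree-zero variants of the divisor-level assembly `helper1138` (helper6267)

`helper1138.relBar_le_classesOf` asks for the inertia and Eichler–Shimura divisors of every
single PLACE (a divisor of degree one) to lie in the divisor kernel `Kdiv`.  The rigidity
arguments (`helper6267_Bounded`, function-level rigidity) only produce these memberships for
divisors of DEGREE ZERO, which is all that the classes in `J₀(N) = Pic⁰(F_N)` ever need.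

* `relBar_le_classesOf_of_degZero` : the same conclusion from the degree-zero hypotheses
  `∀ D, degree D = 0 → inertiaDiv τ D ∈ Kdiv` and `∀ D, degree D = 0 → esDiv ℓ hα hβ σ D ∈ Kdiv`;
* `relBar_torsion_eq_zero_of_degZero` : the `p`-power torsion corollary;
* `Stmt_DivKernel0`, `stmt_Kernel_of_divKernel0`, `stmt_Core_of_divKernel0` : the global forms.
-/

set_option autoImplicit false

noncomputable section

open AlgebraicCurve ModularCurve

namespace Fermat.Agent.S37.helper6267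

open Fermat.Agent.S37.helper8353 (Qb GQ relBar esBar Stmt_Core Stmt_Kernel)
open Fermat.Agent.S37.helper1138

section Hecke

variable {N : ℕ} [NeZero N] (ℓ : ℕ) [NeZero ℓ]
variable (hα : HeckeAlphaBarIntegral Qb N ℓ) (hβ : HeckeBetaBarIntegral Qb N ℓ)
variable [HasPrincipalDivisors Qb (laurentBaseChange Qb (modularFunctionFieldFull (N * ℓ)))]

/-- **(R1) + (R2) from divisors of degree zero.**  If a subgroup `Kdiv` of the divisor group
contains `g_τ D - D` (`τ` in the inertia group of `A`) and the Eichler–Shimura divisor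
`g_σ g_σ D - α_* β^* (g_σ D) + ℓ D` for every divisor `D` of DEGREE ZERO, then the relation
subgroup `relBar N A ℓ σ` consists of classes of divisors of `Kdiv`. -/
theorem relBar_le_classesOf_of_degZero (hℓ : ℓ.Prime)
    (hFI : FundamentalIdentityAlong Qb (heckeBetaBar Qb N ℓ) hβ)
    (hfin : FiniteAlong Qb (heckeAlphaBar Qb N ℓ))
    (hN : NormFormulaAlong Qb (heckeAlphaBar Qb N ℓ) hfin)
    (A : ValuationSubring Qb) (σ : GQ) (Kdiv : AddSubgroup (Divisor Qb (FNb N)))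
    (hD1 : ∀ τ ∈ A.inertiaSubgroupIn ℚ, ∀ D : Divisor Qb (FNb N), Divisor.degree D = 0 →
      inertiaDiv (N := N) τ D ∈ Kdiv)
    (hD2 : ∀ D : Divisor Qb (FNb N), Divisor.degree D = 0 → esDiv ℓ hα hβ σ D ∈ Kdiv) :
    relBar N A ⟨ℓ, hℓ⟩ σ ≤ classesOf Kdiv := by
  unfold relBar
  rw [AddSubgroup.closure_le]
  rintro y (⟨τ, hτ, x, rfl⟩ | ⟨x, rfl⟩)
  · obtain ⟨D, rfl⟩ := Pic0.mk_surjective x
    rw [galois_smul_mk]
    refine ⟨SemilinearAut.degZeroSMulHom (gal N τ) D - D, ?_, rfl⟩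
    have h := hD1 τ hτ (D : Divisor Qb (FNb N)) (Divisor.mem_degZero.mp D.2)
    rw [inertiaDiv_apply] at h
    exact h
  · obtain ⟨D, rfl⟩ := Pic0.mk_surjective x
    show esBar N ⟨ℓ, hℓ⟩ σ (Pic0.mk D) ∈ classesOf Kdiv
    unfold esBar
    rw [galois_smul_mk, galois_smul_mk, heckeOperatorBar_mk ℓ hα hβ hℓ hFI hfin hN]
    refine ⟨SemilinearAut.degZeroSMulHom (gal N σ) (SemilinearAut.degZeroSMulHom (gal N σ) D)
      - Pic0.degZeroCorrespondence (heckeBetaBar Qb N ℓ) (heckeAlphaBar Qb N ℓ) hβ hα hFI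
          (SemilinearAut.degZeroSMulHom (gal N σ) D) + ℓ • D, ?_, rfl⟩
    have h := hD2 (D : Divisor Qb (FNb N)) (Divisor.mem_degZero.mp D.2)
    rw [esDiv_apply] at h
    exact h

/-- **Degree-zero assembly.**  (R1), (R2) on divisors of degree zero and (R3) on the divisor
kernel `Kdiv` imply that the relation subgroup has no `p`-power torsion. -/
theorem relBar_torsion_eq_zero_of_degZero (hℓ : ℓ.Prime)
    (hFI : FundamentalIdentityAlong Qb (heckeBetaBar Qb N ℓ) hβ)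
    (hfin : FiniteAlong Qb (heckeAlphaBar Qb N ℓ))
    (hN : NormFormulaAlong Qb (heckeAlphaBar Qb N ℓ) hfin)
    (A : ValuationSubring Qb) (σ : GQ) (Kdiv : AddSubgroup (Divisor Qb (FNb N)))
    (hD1 : ∀ τ ∈ A.inertiaSubgroupIn ℚ, ∀ D : Divisor Qb (FNb N), Divisor.degree D = 0 →
      inertiaDiv (N := N) τ D ∈ Kdiv)
    (hD2 : ∀ D : Divisor Qb (FNb N), Divisor.degree D = 0 → esDiv ℓ hα hβ σ D ∈ Kdiv)
    {p : ℕ}
    (hD3 : ∀ D : Divisor.degZero (K := Qb) (F := FNb N), (D : Divisor Qb (FNb N)) ∈ Kdiv →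
      (∃ n : ℕ, p ^ n • (Pic0.mk D : JZero N) = 0) → (Pic0.mk D : JZero N) = 0) :
    ∀ x ∈ relBar N A ⟨ℓ, hℓ⟩ σ, (∃ n : ℕ, p ^ n • x = 0) → x = 0 := by
  intro x hx htor
  obtain ⟨D, hD, rfl⟩ :=
    relBar_le_classesOf_of_degZero ℓ hα hβ hℓ hFI hfin hN A σ Kdiv hD1 hD2 hx
  exact hD3 D hD htor

end Hecke

section Global

variable (N : ℕ) [NeZero N]

/-- **Divisor-level package in degree zero**: the variant of `helper1138.Stmt_DivKernel` in
which (D1), (D2) are only asked for divisors of degree zero: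

* (D1) `g_τ D - D ∈ Kdiv` for `τ` in the inertia group of `A` and `degree D = 0`;
* (D2) `g_σ g_σ D - α_* β^* (g_σ D) + ℓ D ∈ Kdiv` for `degree D = 0`;
* (D3) a degree-zero divisor of `Kdiv` whose class is killed by a prime `q ≠ ℓ` is principal. -/
def Stmt_DivKernel0 : Prop :=
  ∀ ℓ : ℕ, ∀ hℓ : ℓ.Prime, ¬ ℓ ∣ N →
    ∀ A : ValuationSubring Qb, A.LiesOverPrime ℓ →
      ∃ σ : GQ, A.IsFrobeniusAt σ ℓ ∧ ∃ Kdiv : AddSubgroup (Divisor Qb (FNb N)),
        (∀ τ ∈ A.inertiaSubgroupIn ℚ, ∀ D : Divisor Qb (FNb N), Divisor.degree D = 0 →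
          inertiaDiv (N := N) τ D ∈ Kdiv) ∧
        (haveI : NeZero ℓ := ⟨hℓ.ne_zero⟩
          ∀ (hα : HeckeAlphaBarIntegral Qb N ℓ) (hβ : HeckeBetaBarIntegral Qb N ℓ)
            [HasPrincipalDivisors Qb (laurentBaseChange Qb (modularFunctionFieldFull (N * ℓ)))]
            (D : Divisor Qb (FNb N)), Divisor.degree D = 0 → esDiv ℓ hα hβ σ D ∈ Kdiv) ∧
        (∀ q : ℕ, q.Prime → q ≠ ℓ → ∀ D : Divisor.degZero (K := Qb) (F := FNb N),
          (D : Divisor Qb (FNb N)) ∈ Kdiv → q • (Pic0.mk D : JZero N) = 0 →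
            (Pic0.mk D : JZero N) = 0)

variable {N}

/-- The place-level package implies the degree-zero package (additivity). -/
theorem stmt_DivKernel0_of_divKernel (h : Stmt_DivKernel N) : Stmt_DivKernel0 N := by
  intro ℓ hℓ hℓN A hA
  obtain ⟨σ, hσ, Kdiv, h1, h2, h3⟩ := h ℓ hℓ hℓN A hA
  refine ⟨σ, hσ, Kdiv, ?_, ?_, h3⟩
  · intro τ hτ D _
    refine map_mem_of_single Kdiv (inertiaDiv (N := N) τ) (fun v => ?_) D
    rw [inertiaDiv_apply, SemilinearAut.smul_single]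
    exact h1 τ hτ v
  · intro hα hβ _ D _
    haveI : NeZero ℓ := ⟨hℓ.ne_zero⟩
    refine map_mem_of_single Kdiv (esDiv ℓ hα hβ σ) (fun v => ?_) D
    rw [esDiv_single]
    exact h2 hα hβ v

/-- `HeckeInputsAlong` at every prime level and the degree-zero divisor package give the kernel
form `helper8353.Stmt_Kernel N` of the core statement of S37. -/
theorem stmt_Kernel_of_divKernel0
    (hHI : ∀ (ℓ : ℕ) [NeZero ℓ], HeckeInputsAlong Qb N ℓ) (h : Stmt_DivKernel0 N) :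
    Stmt_Kernel N := by
  intro ℓ hℓ hℓN A hA
  obtain ⟨σ, hσ, Kdiv, h1, h2, h3⟩ := h ℓ hℓ hℓN A hA
  have : NeZero ℓ := ⟨hℓ.ne_zero⟩
  obtain ⟨hα, hβ, hP, hfin, hFI, hN⟩ := hHI ℓ
  have := hP
  have hle : relBar N A ⟨ℓ, hℓ⟩ σ ≤ classesOf Kdiv :=
    relBar_le_classesOf_of_degZero ℓ hα hβ hℓ hFI hfin hN A σ Kdiv h1 (h2 hα hβ)
  refine ⟨σ, hσ, classesOf Kdiv, ?_, ?_, ?_⟩
  · intro τ hτ x
    exact hle (AddSubgroup.subset_closure (Or.inl ⟨τ, hτ, x, rfl⟩))
  · intro x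
    exact hle (AddSubgroup.subset_closure (Or.inr ⟨x, rfl⟩))
  · rintro q hq hqℓ _ ⟨D, hD, rfl⟩ hqD
    exact h3 q hq hqℓ D hD hqD

/-- The core statement for every `p` from the degree-zero divisor package. -/
theorem stmt_Core_of_divKernel0
    (hHI : ∀ (ℓ : ℕ) [NeZero ℓ], HeckeInputsAlong Qb N ℓ) (h : Stmt_DivKernel0 N) (p : ℕ) :
    Stmt_Core N p :=
  Fermat.Agent.S37.helper8353.stmt_Core_of_kernel (stmt_Kernel_of_divKernel0 hHI h) p

end Global

end Fermat.Agent.S37.helper6267
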