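import Mathlib
import Fermat.Agent.S37.helper8353_TopKernel
import Fermat.Agent.S17.helper9541_WeakMW

/-!
# Hecke-free export of the S37 core (helper6270)

The back-end statements of S37 (`helper8353.Stmt_Core N p`, `Stmt_CoreHom N p`, `Stmt_Kernel N`)
mention neither `HeckeOperatorsCommuteBar N`, nor the Hecke module structure `heckeModuleBar N`,
nor `SMulCommClass` of the Galois and Hecke actions.  This file extracts from them, directly,
the two facts that the weak Mordell–Weil wiring of S17 (`helper9541`) consumes: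

* `inertia_smul_eq_of_nsmul_fixed` : for `ℓ ∤ N * p`, an element of the inertia group at a
  place over `ℓ` which fixes `p • y` fixes `y` (here `y` is an ARBITRARY class, not a torsion
  class: this is the Chevalley–Weil step, `hunr` of `helper9541.finiteIndex_nsmul_of_inputs`);
* `finiteIndex_nsmul_JZero_of_core` : weak Mordell–Weil for `JZero N` with the two hypotheses
  `hsc`, `hspec` of `helper9541.finiteIndex_nsmul_JZero_of_specializationExists` replaced by
  the single Hecke-free `Stmt_Core N p`.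
-/

set_option autoImplicit false

namespace Fermat.Agent.S37.helper6270

open ModularCurve Fermat.Agent.S37.helper8353

variable {N : ℕ} [NeZero N]

/-- **Chevalley–Weil step, from the Hecke-free S37 core.** If `ℓ ∤ N * p`, `A` lies over `ℓ`,
`τ` is in the inertia group of `A` and `τ` fixes `p • y`, then `τ` fixes `y`. -/
theorem inertia_smul_eq_of_nsmul_fixed {p : ℕ} (h : Stmt_Core N p) {ℓ : ℕ} (hℓ : ℓ.Prime)
    (hℓNp : ¬ ℓ ∣ N * p) {A : ValuationSubring Qb} (hA : A.LiesOverPrime ℓ) {τ : GQ}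
    (hτ : τ ∈ A.inertiaSubgroupIn ℚ) (y : JZero N) (hy : τ • (p • y) = p • y) :
    τ • y = y := by
  obtain ⟨σ₀, _, hcore⟩ := h ℓ hℓ hℓNp A hA
  have hmem : τ • y - y ∈ relBar N A ⟨ℓ, hℓ⟩ σ₀ :=
    AddSubgroup.subset_closure (Or.inl ⟨τ, hτ, y, rfl⟩)
  have hcomm : τ • (p • y) = p • (τ • y) :=
    map_nsmul (DistribSMul.toAddMonoidHom (JZero N) τ) p y
  have htor : p ^ 1 • (τ • y - y) = 0 := by
    rw [pow_one, nsmul_sub, ← hcomm, hy, sub_self]
  exact sub_eq_zero.mp (hcore _ hmem ⟨1, htor⟩)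

/-- The same from the reduction-map form `Stmt_CoreHom N p`. -/
theorem inertia_smul_eq_of_nsmul_fixed_of_coreHom {p : ℕ} (h : Stmt_CoreHom N p) {ℓ : ℕ}
    (hℓ : ℓ.Prime) (hℓNp : ¬ ℓ ∣ N * p) {A : ValuationSubring Qb} (hA : A.LiesOverPrime ℓ)
    {τ : GQ} (hτ : τ ∈ A.inertiaSubgroupIn ℚ) (y : JZero N) (hy : τ • (p • y) = p • y) :
    τ • y = y :=
  inertia_smul_eq_of_nsmul_fixed (stmt_Core_of_hom h) hℓ hℓNp hA hτ y hy

/-- The same from the `p`-free kernel form `Stmt_Kernel N`, for every `p`. -/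
theorem inertia_smul_eq_of_nsmul_fixed_of_kernel (h : Stmt_Kernel N) {p : ℕ} {ℓ : ℕ}
    (hℓ : ℓ.Prime) (hℓNp : ¬ ℓ ∣ N * p) {A : ValuationSubring Qb} (hA : A.LiesOverPrime ℓ)
    {τ : GQ} (hτ : τ ∈ A.inertiaSubgroupIn ℚ) (y : JZero N) (hy : τ • (p • y) = p • y) :
    τ • y = y :=
  inertia_smul_eq_of_nsmul_fixed (stmt_Core_of_kernel h p) hℓ hℓNp hA hτ y hy

/-- **`hunr` of `helper9541.finiteIndex_nsmul_of_inputs`** for `J = JZero N`, `M = N * p`, from
the Hecke-free S37 core. -/
theorem hunr_of_core {p : ℕ} (h : Stmt_Core N p) :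
    ∀ ℓ : ℕ, ℓ.Prime → ¬ ℓ ∣ N * p → ∀ A : ValuationSubring (AlgebraicClosure ℚ),
      A.LiesOverPrime ℓ → ∀ σ ∈ A.inertiaSubgroupIn ℚ, ∀ y : JZero N,
        (∀ τ : Fermat.Agent.S17.helper9541.Gal, τ • (p • y) = p • y) → σ • y = y :=
  fun _ hℓ hℓNp _ hA _ hσ y hy => inertia_smul_eq_of_nsmul_fixed h hℓ hℓNp hA hσ y (hy _)

variable (N)

/-- **Weak Mordell–Weil for `JZero N` from the Hecke-free S37 core** `Stmt_Core N p` and the
four remaining inputs, in the exact shapes of `helper9541`: `p`-divisibility of `JZero N`, open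
stabilisers, finiteness of the `p`-torsion, and `ExpUnramifiedBound p (N * p)`.  No hypothesis
on the Hecke operators (`HeckeOperatorsCommuteBar`, `SMulCommClass`) is needed. -/
theorem finiteIndex_nsmul_JZero_of_core (p : ℕ) (hcore : Stmt_Core N p)
    (hdiv : ∀ x : JZero N, ∃ y : JZero N, p • y = x)
    (hlevel : ∀ y : JZero N, ∃ L : IntermediateField ℚ (AlgebraicClosure ℚ),
      FiniteDimensional ℚ L ∧ ∀ σ ∈ L.fixingSubgroup, σ • y = y)
    (htors : Finite {t : JZero N // p • t = 0})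
    (hkum : Fermat.Agent.S17.helper9541.ExpUnramifiedBound p (N * p)) :
    (nsmulAddMonoidHom
      (α := ↥(FixedPoints.addSubgroup Fermat.Agent.S17.helper9541.Gal (JZero N))) p).range.FiniteIndex :=
  Fermat.Agent.S17.helper9541.finiteIndex_nsmul_of_inputs p (N * p) (hunr_of_core hcore)
    hdiv hlevel htors hkum

/-- Weak Mordell–Weil for `JZero N` from the `p`-free kernel form `Stmt_Kernel N`. -/
theorem finiteIndex_nsmul_JZero_of_kernel (p : ℕ) (hker : Stmt_Kernel N)
    (hdiv : ∀ x : JZero N, ∃ y : JZero N, p • y = x)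
    (hlevel : ∀ y : JZero N, ∃ L : IntermediateField ℚ (AlgebraicClosure ℚ),
      FiniteDimensional ℚ L ∧ ∀ σ ∈ L.fixingSubgroup, σ • y = y)
    (htors : Finite {t : JZero N // p • t = 0})
    (hkum : Fermat.Agent.S17.helper9541.ExpUnramifiedBound p (N * p)) :
    (nsmulAddMonoidHom
      (α := ↥(FixedPoints.addSubgroup Fermat.Agent.S17.helper9541.Gal (JZero N))) p).range.FiniteIndex :=
  finiteIndex_nsmul_JZero_of_core N p (stmt_Core_of_kernel hker p) hdiv hlevel htors hkum

end Fermat.Agent.S37.helper6270
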