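import Mathlib
import Fermat.Agent.S37.helper6807_FrigInst
import Fermat.Agent.S18.helper789_LineInst

/-!
# S37: hypothesis-free kernel statements for consumers (helper6807)

S18's Kummer field form is a theorem at every level (`helper2118.kf0_of_kfr` with
`helper789.stmt_KFr_two`, `helper789.stmt_KFr_three`), so the T-FRIG chain gives, without any
hypothesis, for every level `N`, every prime `ℓ ∤ N` and every valuation subring `A` of `ℚ̄` over
`ℓ`, ONE subgroup `goodKernel N A ≤ J₀(N)` (classes of the degree-zero "good" divisors) with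

* `inertia_sub_mem_goodKernel` : `τ • x - x ∈ goodKernel N A` for `τ` in the inertia group of `A`;
* `es_mem_goodKernel`          : `σ • σ • x - T_ℓ (σ • x) + ℓ • x ∈ goodKernel N A` for EVERY
  Frobenius element `σ` at `A`;
* `goodKernel_torsion_free`    : `goodKernel N A` has no `m`-torsion for `ℓ ∤ m`.

Packaged: `stmt_KernelAll N : helper8353.Stmt_KernelAll N`, `stmt_Kernel N`,
`stmt_KF0_all`, `stmt_KF_all`.
-/

set_option autoImplicit false

noncomputable section

open AlgebraicCurve ModularCurve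

namespace Fermat.Agent.S37.helper6807

open Fermat.Agent.S37.helper8353 (Qb GQ relBar Stmt_Kernel Stmt_KernelAll)
open Fermat.Agent.S37.helper1138 (FNb classesOf)
open Fermat.Agent.S18.helper3054 (Stmt_KF Stmt_KF0)

/-- **S18's Kummer field form (`c = 1`) at every level `N` and every prime `ℓ ∤ N`.** -/
theorem stmt_KF0_all (N : ℕ) [NeZero N] (ℓ : ℕ) (hℓ : ℓ.Prime) (hℓN : ¬ ℓ ∣ N) :
    Stmt_KF0 N ℓ :=
  Fermat.Agent.S18.helper2118.kf0_of_kfr Fermat.Agent.S18.helper789.stmt_KFr_two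
    Fermat.Agent.S18.helper789.stmt_KFr_three N ℓ hℓ hℓN

/-- **S18's Kummer field form at every level `N` and every prime `ℓ ∤ N`.** -/
theorem stmt_KF_all (N : ℕ) [NeZero N] (ℓ : ℕ) (hℓ : ℓ.Prime) (hℓN : ¬ ℓ ∣ N) :
    Stmt_KF N ℓ :=
  stmt_KF_of_KF0 (stmt_KF0_all N ℓ hℓ hℓN)

/-- The **good kernel**: classes of the degree-zero good divisors of `F_N` (w.r.t. `A`). -/
def goodKernel (N : ℕ) [NeZero N] (A : ValuationSubring Qb) : AddSubgroup (JZero N) :=
  classesOf
    (Fermat.Agent.S37.helper117.goodSubgroup (Fermat.Agent.S37.helper117.integralPairs A N))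

variable {N : ℕ} [NeZero N] {ℓ : ℕ}

/-- The relation subgroup of every Frobenius element lies in the good kernel. -/
theorem relBar_le_goodKernel (hℓ : ℓ.Prime) (hℓN : ¬ ℓ ∣ N) {A : ValuationSubring Qb}
    (hA : A.LiesOverPrime ℓ) {σ : GQ} (hσ : A.IsFrobeniusAt σ ℓ) :
    relBar N A ⟨ℓ, hℓ⟩ σ ≤ goodKernel N A := by
  haveI : NeZero ℓ := ⟨hℓ.ne_zero⟩
  obtain ⟨-, hD1, hD2⟩ := frigKernel_good N ℓ hℓ hℓN A hA σ hσ
  exact relBar_le_classesOf_degZero hℓ A σ _ hD1 hD2

/-- **(U)** Inertia acts trivially modulo the good kernel. -/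
theorem inertia_sub_mem_goodKernel (hℓ : ℓ.Prime) (hℓN : ¬ ℓ ∣ N) {A : ValuationSubring Qb}
    (hA : A.LiesOverPrime ℓ) {τ : GQ} (hτ : τ ∈ A.inertiaSubgroupIn ℚ) (x : JZero N) :
    τ • x - x ∈ goodKernel N A := by
  obtain ⟨σ, hσ⟩ := Fermat.Agent.Lib.helper54.exists_isFrobeniusAt hℓ A hA
  exact relBar_le_goodKernel hℓ hℓN hA hσ
    (AddSubgroup.subset_closure (Or.inl ⟨τ, hτ, x, rfl⟩))

/-- **(ES)** The Eichler–Shimura relation holds modulo the good kernel, for EVERY Frobenius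
element at `A`. -/
theorem es_mem_goodKernel (hℓ : ℓ.Prime) (hℓN : ¬ ℓ ∣ N) {A : ValuationSubring Qb}
    (hA : A.LiesOverPrime ℓ) {σ : GQ} (hσ : A.IsFrobeniusAt σ ℓ) (x : JZero N) :
    σ • σ • x - heckeOperatorBar N ⟨ℓ, hℓ⟩ (σ • x) + ℓ • x ∈ goodKernel N A :=
  relBar_le_goodKernel hℓ hℓN hA hσ (AddSubgroup.subset_closure (Or.inr ⟨x, rfl⟩))

/-- **(R3)** The good kernel has no prime-to-`ℓ` torsion. -/
theorem goodKernel_torsion_free (hℓ : ℓ.Prime) (hℓN : ¬ ℓ ∣ N) {A : ValuationSubring Qb}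
    (hA : A.LiesOverPrime ℓ) :
    ∀ m : ℕ, ¬ ℓ ∣ m → ∀ x ∈ goodKernel N A, m • x = 0 → x = 0 :=
  (Fermat.Agent.S37.helper872.r3_of_kf (stmt_KF_all N ℓ hℓ hℓN) hA _
    (Fermat.Agent.S37.helper872.normalForm_of_liesOverPrime hℓ hℓN hA)
    (Fermat.Agent.S37.helper117.locFormula_goodSubgroup A N) (goodKernel N A)
    (fun _ hx => hx)).1

variable (N)

/-- **The kernel statement for ALL Frobenius elements, without hypotheses.** -/
theorem stmt_KernelAll : Stmt_KernelAll N := by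
  intro ℓ hℓ hℓN A hA
  refine ⟨goodKernel N A, fun τ hτ x => inertia_sub_mem_goodKernel hℓ hℓN hA hτ x,
    fun σ hσ x => es_mem_goodKernel hℓ hℓN hA hσ x, fun q hq hqℓ x hx hqx => ?_⟩
  refine goodKernel_torsion_free hℓ hℓN hA q ?_ x hx hqx
  intro hdvd
  rcases (Nat.dvd_prime hq).mp hdvd with h1 | h1
  · exact hℓ.one_lt.ne' h1
  · exact hqℓ h1.symm

/-- **The kernel statement, without hypotheses.** -/
theorem stmt_Kernel : Stmt_Kernel N :=
  Fermat.Agent.S37.helper8353.stmt_Kernel_of_all (stmt_KernelAll N)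

end Fermat.Agent.S37.helper6807

end
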