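import Mathlib
import Fermat.Agent.S37.helper1138_Assembly
import Fermat.Agent.S37.helper8426_HeckeInputs
import Fermat.Agent.S37.helper37_TrackB

/-!
# S37 — captain's umbrella Spec (helper6807)

Single integration point of the S37 project.  Every track ends with ONE compiled theorem whose
conclusion is one of the Props below (all of them are on main, with their reductions):

* `helper8353.Stmt_Kernel N`      — the kernel statement (top reduction `helper8353.result_of_kernel`);
* `helper1138.Stmt_DivKernel N`   — its divisor-level form (assembly A2, `helper1138`);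
* `helper1138.Stmt_Csp N`         — the same for the kernel of an additive map `csp` on divisors
                                     (track T-CONS: `csp = (ρ')_* ∘ π^*`, conservation kernel);
* the four nodes of `helper37_TrackB` (track T-CHART).

This file only records the final wiring, with `HeckeInputsAlong` (landed, `helper8426`)
discharged, in the exact shape of `Fermat.Agent.S37.result`, so that `S37.lean` is one line.
-/

set_option autoImplicit false

noncomputable section

namespace Fermat.Agent.S37.helper6807

open ModularCurve AlgebraicCurve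

/-- The type of the frozen statement S37 at `(N, p)`. -/
abbrev Frozen (N p : ℕ) [NeZero N] : Prop :=
  ∀ (_ : HeckeOperatorsCommuteBar N),
    letI := heckeModuleBar N
    ∀ (_ : SMulCommClass (AlgebraicClosure ℚ ≃ₐ[ℚ] AlgebraicClosure ℚ) HeckeAlg (JZero N)),
      SpecializationExists (K := ℚ) (L := AlgebraicClosure ℚ) N p (JZero N)

/-- `HeckeInputsAlong` at every level, in the instance-argument form the assemblies consume. -/
theorem heckeInputs (N : ℕ) [NeZero N] :
    ∀ (ℓ : ℕ) [NeZero ℓ], HeckeInputsAlong (AlgebraicClosure ℚ) N ℓ :=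
  fun ℓ _ => Fermat.Agent.S37.helper8426.heckeInputsAlong N ℓ

/-- **Final wiring, kernel form.** -/
theorem frozen_of_kernel (N p : ℕ) [NeZero N] (h : Fermat.Agent.S37.helper8353.Stmt_Kernel N) :
    Frozen N p :=
  fun hcomm => Fermat.Agent.S37.helper8353.result_of_kernel p hcomm h

/-- **Final wiring, divisor-kernel form** (tracks T-CONS / LATASM / crude). -/
theorem frozen_of_divKernel (N p : ℕ) [NeZero N]
    (h : Fermat.Agent.S37.helper1138.Stmt_DivKernel N) : Frozen N p :=
  fun hcomm => Fermat.Agent.S37.helper1138.result_of_divKernel p hcomm (heckeInputs N) h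

/-- **Final wiring, `csp` form** (track T-CONS: kernel of `csp = (ρ')_* ∘ π^*`). -/
theorem frozen_of_csp (N p : ℕ) [NeZero N]
    (h : Fermat.Agent.S37.helper1138.Stmt_Csp N) : Frozen N p :=
  frozen_of_divKernel N p (Fermat.Agent.S37.helper1138.stmt_DivKernel_of_csp h)

/-- **Final wiring, relation form.** -/
theorem frozen_of_relKernel (N p : ℕ) [NeZero N]
    (h : Fermat.Agent.S37.helper1138.Stmt_RelKernel N) : Frozen N p :=
  frozen_of_divKernel N p (Fermat.Agent.S37.helper1138.stmt_DivKernel_of_relKernel h)

/-- **Final wiring, Track B (T-CHART)**: the four nodes of `helper37_TrackB`. -/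
theorem frozen_of_trackB (N p : ℕ) [NeZero N]
    (h1 : Fermat.Agent.S37.helper37.NodeR1 N) (h2 : Fermat.Agent.S37.helper37.NodeR2 N)
    (hodd : ∀ ℓ : ℕ, ℓ.Prime → ¬ ℓ ∣ N → ℓ ≠ 2 →
      Fermat.Agent.S37.helper37.NodeXfer N 4 ℓ ∧ Fermat.Agent.S37.helper37.NodeTors (N * 4) ℓ)
    (htwo : ¬ 2 ∣ N →
      Fermat.Agent.S37.helper37.NodeXfer N 9 2 ∧ Fermat.Agent.S37.helper37.NodeTors (N * 9) 2) :
    Frozen N p :=
  fun hcomm => Fermat.Agent.S37.helper37.result_of_nodes p hcomm h1 h2 hodd htwo

end Fermat.Agent.S37.helper6807

end
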