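/-
S37-LATASM (helper729, board #1538): SPEC + ASSEMBLY OF THE LATTICE TRACK.

For a prime `ℓ ∤ N` and a valuation subring `A` of `ℚ̄` over `ℓ`, fix ONE auxiliary level
`M = N * r` at which the lattice (Deuring) place reduction `ρ = helper5413.LatHyp.placeRed` of
`F_M` exists, and let `φ = heckeAlphaBar ℚ̄ N r : F_N → F_M` be the inclusion.  The crude
specialisation of the lattice track is the additive map

  `csp = ρ_* ∘ φ^* : Div(F_N) → Div(F_{M,k})`.

This file proves, against LANDED names only:

* `csp_smul_of_invariant`   (C1): `csp (γ • D) = csp D` when `γ` lifts to `F_M`, preserves the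
                             Gauss ring and acts trivially on reductions (inertia);
* `csp_hecke`               (C2): `csp (T (g₀ • D)) = csp (g₀ • g₀ • D) + ℓ • csp D` from
                             Hecke base change `N → M` and the Kronecker relation at level `M`
                             (`helper8523.mapDomain_correspondence`);
* `locFormula_of_latHyp`    (C3): the local formula `helper872.LocFormula` on `ker ρ_*`
                             (conservation `helper5413.mapDomain_placeRed_div` + constants);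
* `stmt_Csp_of_nodes`, `stmt_Kernel_of_nodes` : the global assembly
                             `Nodes N → helper1138.Stmt_Csp N → helper8353.Stmt_Kernel N`.

The remaining nodes are exactly the fields of `LatData` (+ the S18 Kummer field form at level
`N`, `helper3054.Stmt_KF N ℓ`).
-/
import Mathlib
import Fermat.Agent.S37.helper1138_Assembly
import Fermat.Agent.S37.helper5162_HeckeUnfold
import Fermat.Agent.S37.helper5413_LatticeReduction
import Fermat.Agent.S37.helper8523_KroneckerDiv
import Fermat.Agent.S37.helper872_TorsAssembly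
import Fermat.Agent.S37.helper137_KroneckerFF
import Fermat.Agent.S37.helper367_HeckeBC
import Fermat.Agent.S29.helper5500_GalHecke

set_option autoImplicit false
set_option synthInstance.maxHeartbeats 400000
set_option linter.style.haveILetI false

noncomputable section

open AlgebraicCurve ModularCurve

namespace Fermat.Agent.S37.helper729

open Fermat.Agent.S37

/-! ### Generic positivity lemmas -/

section Positivity

variable {K F F' : Type*} [Field K] [Field F] [Field F'] [Algebra K F] [Algebra K F']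

theorem pullbackAlong_nonneg [HasPrincipalDivisors K F'] (φ : F →ₐ[K] F')
    (hφ : φ.toRingHom.IsIntegral) {D : Divisor K F} (hD : 0 ≤ D) :
    0 ≤ Divisor.pullbackAlong φ hφ D := by
  rw [Finsupp.le_def]
  intro w
  rw [Divisor.pullbackAlong_apply]
  exact mul_nonneg (Int.natCast_nonneg _) (hD _)

theorem pushforwardAlong_nonneg (φ : F →ₐ[K] F') (hφ : φ.toRingHom.IsIntegral)
    {E : Divisor K F'} (hE : 0 ≤ E) : 0 ≤ Divisor.pushforwardAlong φ hφ E := by
  rw [← Finsupp.sum_single E, Finsupp.sum, map_sum]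
  refine Finset.sum_nonneg fun w _ => ?_
  rw [Divisor.pushforwardAlong_single, Finsupp.le_def]
  intro v
  classical
  rw [Finsupp.single_apply]
  split_ifs
  · exact mul_nonneg (hE w) (Int.natCast_nonneg _)
  · exact le_rfl

theorem correspondence_nonneg [HasPrincipalDivisors K F'] (φ ψ : F →ₐ[K] F')
    (hφ : φ.toRingHom.IsIntegral) (hψ : ψ.toRingHom.IsIntegral) {D : Divisor K F}
    (hD : 0 ≤ D) : 0 ≤ Divisor.correspondence φ ψ hφ hψ D := by
  rw [Divisor.correspondence_apply]
  exact pushforwardAlong_nonneg ψ hψ (pullbackAlong_nonneg φ hφ hD)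

end Positivity

/-! ### The norm realises the correspondence on functions -/

section NormRR

variable {K F F' : Type*} [Field K] [Field F] [Field F'] [Algebra K F] [Algebra K F']
variable [HasPrincipalDivisors K F] [HasPrincipalDivisors K F']

/-- (K1) If `f ∈ L(E)`, then `N_ψ (φ f) ∈ L(ψ_* φ^* E)`: the norm along `ψ` of `φ f`
realises the correspondence `ψ_* φ^*` on functions. -/
theorem normAlong_mem_riemannRochSpace (φ ψ : F →ₐ[K] F')
    (hφ : φ.toRingHom.IsIntegral) (hψ : ψ.toRingHom.IsIntegral)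
    (hfin : FiniteAlong K ψ) (hN : NormFormulaAlong K ψ hfin)
    {E : Divisor K F} {f : F} (hf : f ∈ riemannRochSpace E) (hf0 : f ≠ 0) :
    helper367.normAlong ψ (φ f) ∈ riemannRochSpace (Divisor.correspondence φ ψ hφ hψ E) := by
  obtain ⟨Df, hDf, -⟩ := HasPrincipalDivisors.exists_divisor (K := K) f hf0
  rw [helper5413.mem_rr_iff] at hf ⊢
  have hfE : ∀ v : Place K F, -E v ≤ v.ord f := hf.resolve_left hf0
  right
  intro v
  have hpos : 0 ≤ Df + E := by
    rw [Finsupp.le_def]
    intro P
    rw [Finsupp.add_apply, hDf P]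
    have := hfE P
    simp only [Finsupp.coe_zero, Pi.zero_apply]
    linarith
  have h1 := correspondence_nonneg φ ψ hφ hψ hpos
  rw [map_add, Finsupp.le_def] at h1
  have h2 := h1 v
  rw [Finsupp.add_apply] at h2
  simp only [Finsupp.coe_zero, Pi.zero_apply] at h2
  have hφf0 : φ f ≠ 0 := (map_ne_zero_iff φ φ.injective).mpr hf0
  have hD' : ∀ w : Place K F', Divisor.pullbackAlong φ hφ Df w = w.ord (φ f) := by
    intro w
    rw [Divisor.pullbackAlong_apply, hDf, Place.ord_restrictAlong φ hφ]
  have h3 : Divisor.correspondence φ ψ hφ hψ Df v = v.ord (helper367.normAlong ψ (φ f)) := by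
    rw [Divisor.correspondence_apply]
    exact hN (φ f) hφf0 _ hD' v
  rw [h3] at h2
  linarith

end NormRR

/-! ### The crude specialisation of the lattice track (generic) -/

section Generic

variable {K F F' k Fk : Type*} [Field K] [Field F] [Field F'] [Algebra K F] [Algebra K F']
  [Field k] [Field Fk] [Algebra k Fk] [HasPrincipalDivisors K F']
variable (φ : F →ₐ[K] F') (hφ : φ.toRingHom.IsIntegral)
variable {O : ValuationSubring F'} {red : O →+* Fk} {g c : ℤ} {E₀ : Divisor K F'}
  {E₀k : Divisor k Fk} (H : helper5413.LatHyp O red g c E₀ E₀k)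

omit [HasPrincipalDivisors K F'] in
/-- The place reduction of `helper5413` is a lattice reduction in the sense of `helper8523`. -/
theorem isLatticeReduction_placeRed :
    helper8523.IsLatticeReduction O.toSubring red H.placeRed (helper5413.LatHyp.thr g c) :=
  fun _ _ hc Q => H.isLatticeReduction hc Q

/-- **The crude specialisation of the lattice track**: pull back to the auxiliary function
field, then push forward along the lattice place reduction. -/
def csp : Divisor K F →+ Divisor k Fk :=
  (Finsupp.mapDomain.addMonoidHom H.placeRed).comp (Divisor.pullbackAlong φ hφ)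

theorem csp_apply (D : Divisor K F) :
    csp φ hφ H D = Finsupp.mapDomain H.placeRed (Divisor.pullbackAlong φ hφ D) := rfl

/-- **(C1)** Invariance of `csp` under a semilinear automorphism that lifts to the auxiliary
field, preserves the Gauss ring and acts trivially on reductions. -/
theorem csp_smul_of_invariant (γ : SemilinearAut K F) (γ' : SemilinearAut K F')
    (hint : SemilinearAut.IntertwinesAlong (φ : F →+* F') γ γ')
    (hO : ∀ f : F', f ∈ O → γ' • f ∈ O) (hO' : ∀ f : F', f ∈ O → γ'⁻¹ • f ∈ O)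
    (hred : ∀ (f : F') (hf : f ∈ O), red ⟨γ' • f, hO f hf⟩ = red ⟨f, hf⟩)
    (D : Divisor K F) : csp φ hφ H (γ • D) = csp φ hφ H D := by
  have hpl : ∀ P, H.placeRed (γ' • P) = (1 : SemilinearAut k Fk) • H.placeRed P :=
    helper8523.map_smul_place (isLatticeReduction_placeRed H) H.degL γ' 1 hO hO'
      (fun f hf => by rw [one_smul]; exact hred f hf)
  rw [csp_apply, csp_apply, S29.helper5500.pullbackAlong_smul φ hφ γ γ' hint,
    helper8523.mapDomain_smul hpl, one_smul]

/-- **(C2)** The Eichler–Shimura relation for `csp`: Hecke base change to the auxiliary level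
and the Kronecker relation there. -/
theorem csp_hecke (g₀ : SemilinearAut K F) (g₀' : SemilinearAut K F')
    (Φ : SemilinearAut k Fk)
    (hint : SemilinearAut.IntertwinesAlong (φ : F →+* F') g₀ g₀')
    (hO : ∀ f : F', f ∈ O → g₀' • f ∈ O) (hO' : ∀ f : F', f ∈ O → g₀'⁻¹ • f ∈ O)
    (hred : ∀ (f : F') (hf : f ∈ O), red ⟨g₀' • f, hO f hf⟩ = Φ • red ⟨f, hf⟩)
    (T : Divisor K F →+ Divisor K F) (T' : Divisor K F' →+ Divisor K F') (ℓ : ℕ)
    (hbc : ∀ D, Divisor.pullbackAlong φ hφ (T D) = T' (Divisor.pullbackAlong φ hφ D))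
    (ν : F' → F')
    (hTpos : ∀ E, 0 ≤ E → 0 ≤ T' E)
    (hTdeg : ∀ E, Divisor.degree (T' E) = (ℓ + 1) * Divisor.degree E)
    (hνL : ∀ E : Divisor K F', 0 ≤ E → ∀ f ∈ riemannRochSpace E, f ≠ 0 →
      ν f ∈ riemannRochSpace (T' E))
    (hνred : ∀ (f : F') (hf : f ∈ O), red ⟨f, hf⟩ ≠ 0 →
      ∃ hν : ν f ∈ O, red ⟨ν f, hν⟩ = (Φ • red ⟨f, hf⟩) * (Φ⁻¹ • red ⟨f, hf⟩) ^ ℓ)
    (D : Divisor K F) :
    csp φ hφ H (T (g₀ • D)) = csp φ hφ H (g₀ • g₀ • D) + ℓ • csp φ hφ H D := by
  have hρ := isLatticeReduction_placeRed H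
  have hpl : ∀ P, H.placeRed (g₀' • P) = Φ • H.placeRed P :=
    helper8523.map_smul_place hρ H.degL g₀' Φ hO hO' hred
  have hcorr : ∀ D' : Divisor K F', Finsupp.mapDomain H.placeRed (T' D')
      = Φ • Finsupp.mapDomain H.placeRed D' + ℓ • (Φ⁻¹ • Finsupp.mapDomain H.placeRed D') :=
    helper8523.mapDomain_correspondence T' ν ℓ Φ Φ⁻¹ hρ H.degL H.degk hTpos hTdeg hνL hνred
  rw [csp_apply, csp_apply, csp_apply, hbc,
    S29.helper5500.pullbackAlong_smul φ hφ g₀ g₀' hint,
    S29.helper5500.pullbackAlong_smul φ hφ g₀ g₀' hint,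
    S29.helper5500.pullbackAlong_smul φ hφ g₀ g₀' hint, hcorr,
    helper8523.mapDomain_smul hpl, helper8523.mapDomain_smul hpl,
    helper8523.mapDomain_smul hpl, inv_smul_smul]

end Generic

/-! ### Constants on the special fibre -/

section Constants

variable {L F k Fk : Type*} [Field L] [Field F] [Algebra L F] [Field k] [Field Fk] [Algebra k Fk]
variable {O : ValuationSubring F} {red : O →+* Fk} {g c : ℤ} {E₀ : Divisor L F}
  {E₀k : Divisor k Fk}

/-- A nonzero function of the special fibre without zeros and poles is a constant (from the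
bound `l(0) ≤ 1` contained in `LatHyp.rk`). -/
theorem exists_const_of_ord_eq_zero (H : helper5413.LatHyp O red g c E₀ E₀k) {y : Fk}
    (h : ∀ Q : Place k Fk, Q.ord y = 0) : ∃ κ : k, y = algebraMap k Fk κ := by
  by_contra hcon
  push Not at hcon
  have hli : LinearIndependent k ![(1 : Fk), y] := by
    rw [LinearIndependent.pair_iff]
    intro s t hst
    by_cases ht : t = 0
    · subst ht
      rw [zero_smul, add_zero, Algebra.smul_def, mul_one] at hst
      exact ⟨(map_eq_zero (algebraMap k Fk)).mp hst, rfl⟩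
    · exfalso
      apply hcon (-(s / t))
      have h1 : t • y = -(s • (1 : Fk)) := eq_neg_of_add_eq_zero_right hst
      have h2 : y = t⁻¹ • (t • y) := by rw [smul_smul, inv_mul_cancel₀ ht, one_smul]
      rw [h2, h1, smul_neg, smul_smul, Algebra.smul_def, mul_one, ← map_neg]
      congr 1
      field_simp
  have hmem : ∀ i, ![(1 : Fk), y] i ∈ riemannRochSpace (0 : Divisor k Fk) := by
    intro i
    rw [helper5413.mem_rr_iff]
    right
    intro Q
    fin_cases i
    · simp [Place.ord_one]
    · simp [h Q]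
  have := (H.rk 0 2 ![(1 : Fk), y] hli hmem).1
  simp at this

end Constants

/-! ### The modular instance -/

section Modular

open Fermat.Agent.S37.helper8353 (Qb GQ Stmt_Kernel)
open Fermat.Agent.S37.helper1138 (FNb gal)
open Fermat.Agent.S18.helper3054 (IntegralFn Stmt_KF)

/-- The residue field of `A`. -/
abbrev kA (A : ValuationSubring Qb) : Type := IsLocalRing.ResidueField A

/-- The function field of the special fibre of `X₀(M)` at `A`. -/
abbrev FkA (A : ValuationSubring Qb) (M : ℕ) : Type :=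
  ↥(modularFunctionFieldFullC (IsLocalRing.ResidueField A) M)

/-- **(C3), local formula.**  On the kernel of the lattice place reduction at level `M`, a
quotient of two integral functions has constant reduction: conservation
(`helper5413.mapDomain_placeRed_div`) + constants (`exists_const_of_ord_eq_zero`). -/
theorem locFormula_of_latHyp {M : ℕ} [NeZero M] (A : ValuationSubring Qb)
    {O : ValuationSubring (FNb M)} {red : O →+* FkA A M} {g c : ℤ}
    {E₀ : Divisor Qb (FNb M)} {E₀k : Divisor (kA A) (FkA A M)}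
    (H : helper5413.LatHyp O red g c E₀ E₀k)
    (hcompat : ∀ a : IntegralFn A M, ∃ h : a.gen ∈ O,
      ((red ⟨a.gen, h⟩ : FkA A M) : LaurentSeries (kA A)) = (a.red : LaurentSeries (kA A))) :
    helper872.LocFormula A M (Finsupp.mapDomain.addMonoidHom H.placeRed).ker := by
  intro a b E hE hEab
  obtain ⟨ha, hared⟩ := hcompat a
  obtain ⟨hb, hbred⟩ := hcompat b
  have hared' : red ⟨a.gen, ha⟩ = a.red := Subtype.ext hared
  have hbred' : red ⟨b.gen, hb⟩ = b.red := Subtype.ext hbred
  have hbne : red ⟨b.gen, hb⟩ ≠ 0 := by rw [hbred']; exact b.red_ne_zero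
  obtain ⟨u, hu⟩ := H.isUnit_of_red_ne_zero hbne
  set f : O := ⟨a.gen, ha⟩ * ((u⁻¹ : Oˣ) : O) with hf
  have hfb : f * ⟨b.gen, hb⟩ = ⟨a.gen, ha⟩ := by
    rw [hf, ← hu, mul_assoc, Units.inv_mul, mul_one]
  have hredf : red f * b.red = a.red := by
    rw [← hbred', ← hared', ← map_mul, hfb]
  have hfne : red f ≠ 0 := by
    intro h0
    rw [h0, zero_mul] at hredf
    exact a.red_ne_zero hredf.symm
  have hfF : (f : FNb M) * b.gen = a.gen := congrArg Subtype.val hfb
  have hf0 : (f : FNb M) ≠ 0 := helper5413.LatHyp.coe_ne_zero_of_red_ne_zero hfne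
  have hord : ∀ P : Place Qb (FNb M), E P = P.ord (f : FNb M) := by
    intro P
    have h1 := congrArg P.ord hfF
    rw [P.ord_mul hf0 b.gen_ne_zero] at h1
    rw [hEab P]
    linarith
  have hQ : ∀ Q : Place (kA A) (FkA A M), Q.ord (red f) = 0 := by
    intro Q
    have h := H.mapDomain_placeRed_div hfne hord Q
    have hE0 : Finsupp.mapDomain H.placeRed E = 0 := AddMonoidHom.mem_ker.mp hE
    rw [hE0] at h
    exact h.symm
  obtain ⟨κ, hκ⟩ := exists_const_of_ord_eq_zero H hQ
  refine ⟨κ, ?_, ?_⟩
  · rintro rfl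
    rw [map_zero] at hκ
    exact hfne hκ
  · rw [← hκ, hredf]

variable (N r ℓ : ℕ) [NeZero N] [NeZero r] [NeZero ℓ] (A : ValuationSubring Qb) (σ : GQ)

/-- **Node bundle of the lattice track** at the auxiliary level `M = N * r`, for a valuation
subring `A` of `ℚ̄` over `ℓ` and a Frobenius `σ` at `A`:

* `O`, `red` : the Gauss valuation ring of `F_M` and its reduction to the function field of the
  special fibre;  `lat` : node (L), the hypotheses of the lattice place reduction
  (`helper5413.LatHyp`; producer `helper3441.latHyp_of_supply`);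
* `compat` : node (COMPAT), `red` is the coefficientwise reduction on integral functions;
* `inertia`, `frob`, `frob_inv` : node (G) (GAUSSGAL), the Galois action on `(O, red)`:
  trivial for inertia, a semilinear automorphism `Φ` of the special fibre for `σ`;
* `kron` : node (K), the Kronecker congruence for the norm
  `ν f = N_α (β f)` at level `M`: `red (ν f) = Φ (red f) * (Φ⁻¹ (red f)) ^ ℓ`;
* `bc` : node (BC) (HECKEBC), the Hecke correspondence commutes with the pull-back `N → M`. -/
structure LatData where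
  /-- the Gauss valuation ring of `F_M` -/
  O : ValuationSubring (FNb (N * r))
  /-- the reduction map -/
  red : O →+* FkA A (N * r)
  /-- the genus -/
  g : ℤ
  /-- the Riemann bound on the special fibre -/
  c : ℤ
  /-- the anchor divisor on the generic fibre -/
  E₀ : Divisor Qb (FNb (N * r))
  /-- the anchor divisor on the special fibre -/
  E₀k : Divisor (kA A) (FkA A (N * r))
  /-- the Frobenius of the special fibre -/
  Φ : SemilinearAut (kA A) (FkA A (N * r))
  lat : helper5413.LatHyp O red g c E₀ E₀k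
  compat : ∀ a : IntegralFn A (N * r), ∃ h : a.gen ∈ O,
    ((red ⟨a.gen, h⟩ : FkA A (N * r)) : LaurentSeries (kA A)) = (a.red : LaurentSeries (kA A))
  inertia : ∀ τ ∈ A.inertiaSubgroupIn ℚ, ∀ (f : FNb (N * r)) (hf : f ∈ O),
    ∃ h : gal (N * r) τ • f ∈ O, red ⟨gal (N * r) τ • f, h⟩ = red ⟨f, hf⟩
  frob : ∀ (f : FNb (N * r)) (hf : f ∈ O),
    ∃ h : gal (N * r) σ • f ∈ O, red ⟨gal (N * r) σ • f, h⟩ = Φ • red ⟨f, hf⟩
  frob_inv : ∀ f : FNb (N * r), f ∈ O → (gal (N * r) σ)⁻¹ • f ∈ O
  kron : ∀ (f : FNb (N * r)) (hf : f ∈ O), red ⟨f, hf⟩ ≠ 0 →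
    ∃ hν : helper367.normAlong (heckeAlphaBar Qb (N * r) ℓ) (heckeBetaBar Qb (N * r) ℓ f) ∈ O,
      red ⟨helper367.normAlong (heckeAlphaBar Qb (N * r) ℓ) (heckeBetaBar Qb (N * r) ℓ f), hν⟩
        = (Φ • red ⟨f, hf⟩) * (Φ⁻¹ • red ⟨f, hf⟩) ^ ℓ
  bc : ∀ D : Divisor Qb (FNb N),
    Divisor.pullbackAlong (heckeAlphaBar Qb N r) (helper5162.heckeAlphaBarIntegral N r)
        (heckeDivBar (helper5162.heckeAlphaBarIntegral N ℓ)
          (helper5162.heckeBetaBarIntegral N ℓ) D)
      = heckeDivBar (helper5162.heckeAlphaBarIntegral (N * r) ℓ)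
          (helper5162.heckeBetaBarIntegral (N * r) ℓ)
          (Divisor.pullbackAlong (heckeAlphaBar Qb N r)
            (helper5162.heckeAlphaBarIntegral N r) D)

variable {N r ℓ A σ}

/-- The crude specialisation attached to a node bundle. -/
def LatData.csp (d : LatData N r ℓ A σ) :
    Divisor Qb (FNb N) →+ Divisor (kA A) (FkA A (N * r)) :=
  helper729.csp (heckeAlphaBar Qb N r) (helper5162.heckeAlphaBarIntegral N r) d.lat

/-- **(C1)** for a node bundle: inertia acts trivially through `csp`. -/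
theorem LatData.csp_inertia (d : LatData N r ℓ A σ) {τ : GQ} (hτ : τ ∈ A.inertiaSubgroupIn ℚ)
    (D : Divisor Qb (FNb N)) : d.csp (gal N τ • D) = d.csp D := by
  have hτ' : τ⁻¹ ∈ A.inertiaSubgroupIn ℚ := inv_mem hτ
  refine csp_smul_of_invariant (heckeAlphaBar Qb N r) (helper5162.heckeAlphaBarIntegral N r)
    d.lat (gal N τ) (gal (N * r) τ) (S29.helper5500.intertwines_heckeAlphaBar N r τ)
    (fun f hf => (d.inertia τ hτ f hf).1) (fun f hf => ?_)
    (fun f hf => (d.inertia τ hτ f hf).2) D
  have h := (d.inertia τ⁻¹ hτ' f hf).1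
  have h2 : gal (N * r) τ⁻¹ = (gal (N * r) τ)⁻¹ :=
    map_inv (arithmeticGalois (modularFunctionFieldFull (N * r))) τ
  rw [← h2]
  exact h

/-- **(C2)** for a node bundle: the Eichler–Shimura relation through `csp`. -/
theorem LatData.csp_hecke (d : LatData N r ℓ A σ) (hℓ : ℓ.Prime) (hℓM : ¬ ℓ ∣ N * r)
    (D : Divisor Qb (FNb N)) :
    d.csp (heckeDivBar (helper5162.heckeAlphaBarIntegral N ℓ)
        (helper5162.heckeBetaBarIntegral N ℓ) (gal N σ • D))
      = d.csp (gal N σ • gal N σ • D) + ℓ • d.csp D := by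
  refine helper729.csp_hecke (heckeAlphaBar Qb N r) (helper5162.heckeAlphaBarIntegral N r) d.lat
    (gal N σ) (gal (N * r) σ) d.Φ (S29.helper5500.intertwines_heckeAlphaBar N r σ)
    (fun f hf => (d.frob f hf).1) d.frob_inv (fun f hf => (d.frob f hf).2)
    (heckeDivBar (helper5162.heckeAlphaBarIntegral N ℓ) (helper5162.heckeBetaBarIntegral N ℓ))
    (heckeDivBar (helper5162.heckeAlphaBarIntegral (N * r) ℓ)
      (helper5162.heckeBetaBarIntegral (N * r) ℓ)) ℓ d.bc
    (fun f => helper367.normAlong (heckeAlphaBar Qb (N * r) ℓ) (heckeBetaBar Qb (N * r) ℓ f))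
    (fun E hE => correspondence_nonneg _ _ _ _ hE) (fun E => ?_) (fun E _ f hf hf0 => ?_)
    d.kron D
  · rw [helper5162.degree_heckeDivBar,
      helper137.finrankAlong_beta hℓ ((Nat.Prime.coprime_iff_not_dvd hℓ).mpr hℓM)]
    push_cast
    ring
  · exact normAlong_mem_riemannRochSpace (heckeBetaBar Qb (N * r) ℓ) (heckeAlphaBar Qb (N * r) ℓ)
      (helper5162.heckeBetaBarIntegral (N * r) ℓ) (helper5162.heckeAlphaBarIntegral (N * r) ℓ)
      (helper5162.finiteAlong_heckeAlphaBar (N * r) ℓ)
      (helper8426.normFormulaAlong_heckeAlphaBar (N * r) ℓ) hf hf0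

/-- **(C3)** for a node bundle: from the S18 Kummer field form at level `N`, `ker csp` has no
class of prime order `q ≠ ℓ`. -/
theorem LatData.csp_torsion (d : LatData N r ℓ A σ) (hℓ : ℓ.Prime) (hℓN : ¬ ℓ ∣ N)
    (hA : A.LiesOverPrime ℓ) (hKF : Stmt_KF N ℓ) (q : ℕ) (hq : q.Prime) (hqℓ : q ≠ ℓ)
    (D : Divisor.degZero (K := Qb) (F := FNb N)) (hD : d.csp (D : Divisor Qb (FNb N)) = 0)
    (hqD : q • (Pic0.mk D : JZero N) = 0) : (Pic0.mk D : JZero N) = 0 := by
  rw [helper872.nsmul_pic0_mk_eq_zero_iff] at hqD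
  rw [helper872.pic0_mk_eq_zero_iff]
  exact helper872.k3_of_kf_of_alpha N r hℓ hℓN hKF hA (helper5162.heckeAlphaBarIntegral N r)
    d.csp.ker (Finsupp.mapDomain.addMonoidHom d.lat.placeRed).ker
    (fun E hE => by
      have h : d.csp E = 0 := AddMonoidHom.mem_ker.mp hE
      exact AddMonoidHom.mem_ker.mpr h)
    (locFormula_of_latHyp A d.lat d.compat) q hq hqℓ (D : Divisor Qb (FNb N))
    (AddMonoidHom.mem_ker.mpr hD) hqD

variable (N)

/-- **The node statement of the lattice track.**  For every prime `ℓ ∤ N` and every `A` over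
`ℓ`: a Frobenius `σ` at `A`, an auxiliary multiplier `r` with `ℓ ∤ N * r`, and a node bundle
`LatData N r ℓ A σ` at the level `N * r`. -/
def Nodes : Prop :=
  ∀ ℓ : ℕ, ∀ hℓ : ℓ.Prime, ¬ ℓ ∣ N →
    ∀ A : ValuationSubring Qb, A.LiesOverPrime ℓ →
      ∃ σ : GQ, A.IsFrobeniusAt σ ℓ ∧ ∃ (r : ℕ) (_ : NeZero r), ¬ ℓ ∣ N * r ∧
        (haveI : NeZero ℓ := ⟨hℓ.ne_zero⟩
         Nonempty (LatData N r ℓ A σ))

variable {N}

/-- **Assembly of the lattice track, `csp` form.**  The nodes and the S18 Kummer field form at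
level `N` give the crude-specialisation package `helper1138.Stmt_Csp N`. -/
theorem stmt_Csp_of_nodes (hKF : ∀ ℓ : ℕ, ℓ.Prime → ¬ ℓ ∣ N → Stmt_KF N ℓ) (h : Nodes N) :
    helper1138.Stmt_Csp N := by
  intro ℓ hℓ hℓN A hA
  obtain ⟨σ, hσ, r, hr, hℓM, ⟨d⟩⟩ := h ℓ hℓ hℓN A hA
  have : NeZero ℓ := ⟨hℓ.ne_zero⟩
  refine ⟨σ, hσ, Divisor (kA A) (FkA A (N * r)), inferInstance, d.csp, ?_, ?_, ?_⟩
  · intro τ hτ v
    rw [← SemilinearAut.smul_single]
    exact d.csp_inertia hτ _
  · intro hα hβ _ v
    have h2 := d.csp_hecke hℓ hℓM (Finsupp.single v 1)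
    rw [SemilinearAut.smul_single, SemilinearAut.smul_single] at h2
    exact h2
  · intro q hq hqℓ D hD hqD
    exact d.csp_torsion hℓ hℓN hA (hKF ℓ hℓ hℓN) q hq hqℓ D hD hqD

/-- **Assembly of the lattice track.**  The nodes and the S18 Kummer field form at level `N`
give the kernel statement `helper8353.Stmt_Kernel N`, hence (with `helper8353.result_of_kernel`)
the frozen statement S37. -/
theorem stmt_Kernel_of_nodes (hKF : ∀ ℓ : ℕ, ℓ.Prime → ¬ ℓ ∣ N → Stmt_KF N ℓ) (h : Nodes N) :
    Stmt_Kernel N :=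
  helper1138.stmt_Kernel_of_divKernel (fun ℓ _ => helper8426.heckeInputsAlong N ℓ)
    (helper1138.stmt_DivKernel_of_csp (stmt_Csp_of_nodes hKF h))

end Modular

end Fermat.Agent.S37.helper729

end
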