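import Mathlib
import Fermat.Prelude.Def_ModularCurve_LaurentCoeff

/-!
# Gauss scaling of a linear relation between integral Laurent series (helper815; FRIG node W1)

`A` a valuation subring of a field `L`, `π : A →+* k` a ring hom into a field.  A nontrivial
`L`-linear relation between the images in `L((q))` of finitely many series `y i ∈ A((q))`
gives a nontrivial `k`-linear relation between their coefficientwise reductions: divide the
coefficient vector by a coefficient of maximal valuation.
-/

set_option autoImplicit false

noncomputable section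

namespace Fermat.Agent.S37.helper815gs

open ModularCurve HahnSeries

theorem coeffMap_C {R S : Type*} [CommRing R] [CommRing S] (f : R →+* S) (c : R) :
    coeffMap f (HahnSeries.C c : LaurentSeries R) = HahnSeries.C (f c) := by
  rw [HahnSeries.C_apply, coeffMap_single, HahnSeries.C_apply]

variable {L : Type*} [Field L] (A : ValuationSubring L) {k : Type*} [Field k] (π : A →+* k)

/-- **Gauss scaling (W1).** -/
theorem exists_reduced_relation {ι : Type*} [Fintype ι] (y : ι → LaurentSeries A) (c : ι → L)
    (hc : c ≠ 0)
    (h : ∑ i, HahnSeries.C (c i) * coeffMap A.subtype (y i) = 0) :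
    ∃ d : ι → k, d ≠ 0 ∧ ∑ i, HahnSeries.C (d i) * coeffMap π (y i) = 0 := by
  classical
  obtain ⟨p₀, hp₀⟩ : ∃ i, c i ≠ 0 := by
    by_contra hne
    push Not at hne
    exact hc (funext hne)
  obtain ⟨p₁, -, hmax⟩ := Finset.exists_max_image Finset.univ (fun p => A.valuation (c p))
    ⟨p₀, Finset.mem_univ _⟩
  have hc1 : c p₁ ≠ 0 := by
    intro h0
    have h1 := hmax p₀ (Finset.mem_univ _)
    rw [h0, map_zero] at h1
    exact hp₀ ((map_eq_zero _).mp (le_zero_iff.mp h1))
  have hv1 : A.valuation (c p₁) ≠ 0 := (map_ne_zero _).mpr hc1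
  have hmem : ∀ p, c p / c p₁ ∈ A := fun p => by
    rw [← A.valuation_le_one_iff, map_div₀]
    exact (div_le_one₀ (zero_lt_iff.mpr hv1)).mpr (hmax p (Finset.mem_univ _))
  set e : ι → A := fun p => ⟨c p / c p₁, hmem p⟩ with he
  have he1 : e p₁ = 1 := Subtype.ext (div_self hc1)
  have hinj : Function.Injective (coeffMap A.subtype) := by
    intro x z hxz
    ext n
    have := congrArg (fun s : LaurentSeries L => s.coeff n) hxz
    simp only [coeffMap_coeff] at this
    exact this
  set S : LaurentSeries A := ∑ p, HahnSeries.C (e p) * y p with hS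
  have hSinc : coeffMap A.subtype S = 0 := by
    have h1 : coeffMap A.subtype S = HahnSeries.C (c p₁)⁻¹ *
        ∑ p, HahnSeries.C (c p) * coeffMap A.subtype (y p) := by
      rw [hS, map_sum, Finset.mul_sum]
      refine Finset.sum_congr rfl fun p _ => ?_
      rw [map_mul, coeffMap_C]
      have : (A.subtype (e p) : L) = (c p₁)⁻¹ * c p := by
        simp only [he, ValuationSubring.subtype_apply]
        rw [div_eq_mul_inv, mul_comm]
      rw [this, map_mul, mul_assoc]
    rw [h1, h, mul_zero]
  have hS0 : S = 0 := hinj (by rw [hSinc, map_zero])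
  refine ⟨fun p => π (e p), ?_, ?_⟩
  · intro h0
    have := congrFun h0 p₁
    simp only [he1, map_one, Pi.zero_apply] at this
    exact one_ne_zero this
  · have h2 : coeffMap π S = ∑ p, HahnSeries.C (π (e p)) * coeffMap π (y p) := by
      rw [hS, map_sum]
      refine Finset.sum_congr rfl fun p _ => ?_
      rw [map_mul, coeffMap_C]
    rw [← h2, hS0, map_zero]

end Fermat.Agent.S37.helper815gs
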