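import Mathlib
import Fermat.Agent.S37.helper815_GaussScaling
import Fermat.Agent.S18.helper3054_Top

/-!
# Gauss scaling for `IntegralFn` (helper815; FRIG node W1, modular shape)

The `lin` field of `helper117.IntegralPairs` for the submonoid of pairs `(a.gen, a.red)`,
`a : IntegralFn A N`: a nontrivial `Qbar`-linear relation between the `a i .gen` gives a
nontrivial `k`-linear relation between the `a i .red`.
-/

set_option autoImplicit false
set_option synthInstance.maxHeartbeats 400000

noncomputable section

namespace Fermat.Agent.S37.helper815gs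

open ModularCurve HahnSeries Fermat.Agent.S18.helper3054

/-- The structure map of Laurent series is the constant embedding. -/
theorem algebraMap_eq_C {K : Type*} [Field K] (c : K) :
    algebraMap K (LaurentSeries K) c = HahnSeries.C c := by
  have h1 : algebraMap K (PowerSeries K) c = PowerSeries.C c := by simp
  rw [HahnSeries.algebraMap_apply', h1, HahnSeries.ofPowerSeries_C]

variable {A : ValuationSubring (AlgebraicClosure ℚ)} {N : ℕ}

/-- **Gauss scaling (W1) for integral functions.** -/
theorem integralFn_lin {ι : Type*} [Fintype ι] (a : ι → IntegralFn A N)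
    (c : ι → AlgebraicClosure ℚ) (hc : c ≠ 0) (h : ∑ i, c i • (a i).gen = 0) :
    ∃ d : ι → IsLocalRing.ResidueField A, d ≠ 0 ∧ ∑ i, d i • (a i).red = 0 := by
  have h1 : ∑ i, HahnSeries.C (c i) * coeffMap A.subtype ((a i).y) = 0 := by
    have h2 := congrArg (fun x : ↥(modularFunctionFieldBar N) =>
      (x : LaurentSeries (AlgebraicClosure ℚ))) h
    simp only [AddSubmonoidClass.coe_finsetSum, IntermediateField.coe_smul,
      IntegralFn.coe_gen, ZeroMemClass.coe_zero] at h2
    rw [← h2]
    refine Finset.sum_congr rfl fun i _ => ?_
    rw [Algebra.smul_def, algebraMap_eq_C]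
  obtain ⟨d, hd, hsum⟩ :=
    exists_reduced_relation A (IsLocalRing.residue A) (fun i => (a i).y) c hc h1
  refine ⟨d, hd, ?_⟩
  apply Subtype.ext
  simp only [AddSubmonoidClass.coe_finsetSum, IntermediateField.coe_smul,
    IntegralFn.coe_red, ZeroMemClass.coe_zero]
  rw [← hsum]
  refine Finset.sum_congr rfl fun i _ => ?_
  rw [Algebra.smul_def, algebraMap_eq_C]

/-- **(W2)** an algebraically closed field is algebraically closed in every extension field. -/
theorem exists_algebraMap_eq_of_isAlgebraic {k E : Type*} [Field k] [IsAlgClosed k] [Field E]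
    [Algebra k E] (x : E) (hx : IsAlgebraic k x) : ∃ c : k, x = algebraMap k E c := by
  have hi : IsIntegral k x := hx.isIntegral
  have h1 := IsAlgClosed.degree_eq_one_of_irreducible k (minpoly.irreducible hi)
  obtain ⟨c, hc⟩ := minpoly.mem_range_of_degree_eq_one k x h1
  exact ⟨c, hc.symm⟩

end Fermat.Agent.S37.helper815gs
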