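import Mathlib
import Fermat.Agent.S37.helper117_FunctionRigidity
import Fermat.Agent.S37.helper815_GaussScalingFn
import Fermat.Agent.S37.helper3298_FrigHalves
import Fermat.Agent.S37.helper872_TorsAssembly
import Fermat.Agent.S37.helper6267_RiemannModular
import Fermat.Agent.S37.helper6267_RelBarDegZero
import Fermat.Agent.S37.helper8426_HeckeInputs
import Fermat.Agent.Lib.helper6879_ResidueQbar
import Fermat.Agent.Lib.helper54_Frobenius

/-!
# S37-FRIG (W3): the modular instance of function-level rigidity (helper815)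

The abstract core `helper117_FunctionRigidity` (integral pairs, one-units, good divisors,
`exists_const_of_good`, `good_of_companion`) instantiated at

* `K = ℚ̄`, `F = F_N`, `k = ResidueField A`, `Fk = F_{N,k}`,
* `S A N` = the submonoid of pairs `(a.gen, a.red)`, `a : IntegralFn A N`.

Results (`Kd := goodSubgroup (integralPairs A N)`):

* `integralPairs`           : `IntegralPairs ℚ̄ k (S A N)`;
* `locFormula_good`         : `helper872.LocFormula A N Kd`;
* `inertiaDiv_mem_good`     : `(g_τ - 1) D ∈ Kd` for `τ` in inertia, `deg D = 0`;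
* `esDiv_mem_good`          : `esDiv D ∈ Kd` for every Frobenius `σ` at `A`, `deg D = 0`;
* `frig_locFormula`         : the package "∃ σ Frobenius, ∃ Kd, LocFormula ∧ (D1⁰) ∧ (D2⁰)";
* `stmt_DivKernel0_of_kf`, `stmt_Kernel_of_kf`, `stmt_Core_of_kf` : from the S18 Kummer field
  form at level `N`, the degree-zero divisor package and the kernel statements of
  `helper8353`.
-/

set_option autoImplicit false
set_option synthInstance.maxHeartbeats 400000

noncomputable section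

namespace Fermat.Agent.S37.helper815fi

open AlgebraicCurve ModularCurve
open Fermat.Agent.S37.helper8353 (Qb GQ)
open Fermat.Agent.S37.helper1138 (FNb gal inertiaDiv esDiv)
open Fermat.Agent.S18.helper3054 (IntegralFn)
open Fermat.Agent.S37.helper117

/-! ### The submonoid of integral pairs -/

/-- The submonoid of pairs (integral function, its reduction). -/
def S (A : ValuationSubring Qb) (N : ℕ) :
    Submonoid (FNb N × ↥(modularFunctionFieldFullC (IsLocalRing.ResidueField A) N)) where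
  carrier := {p | ∃ a : IntegralFn A N, (a.gen, a.red) = p}
  one_mem' := ⟨IntegralFn.one, by rw [IntegralFn.gen_one, IntegralFn.red_one]; rfl⟩
  mul_mem' := by
    rintro _ _ ⟨a, rfl⟩ ⟨b, rfl⟩
    exact ⟨a.mul b, by rw [IntegralFn.gen_mul, IntegralFn.red_mul]; rfl⟩

theorem mem_S {A : ValuationSubring Qb} {N : ℕ} (a : IntegralFn A N) : (a.gen, a.red) ∈ S A N :=
  ⟨a, rfl⟩

/-- The pairs `(a.gen, a.red)` satisfy the hypotheses of the abstract core. -/
theorem integralPairs (A : ValuationSubring Qb) (N : ℕ) :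
    IntegralPairs Qb (IsLocalRing.ResidueField A) (S A N) where
  ne_zero := by
    rintro _ ⟨a, rfl⟩
    exact ⟨a.gen_ne_zero, a.red_ne_zero⟩
  lin := by
    intro ι _ p hp c hc h
    choose a ha using hp
    have h' : ∑ i, c i • (a i).gen = 0 := by
      rw [← h]
      refine Finset.sum_congr rfl fun i _ => ?_
      rw [← ha i]
    obtain ⟨d, hd, hsum⟩ := Fermat.Agent.S37.helper815gs.integralFn_lin a c hc h'
    refine ⟨d, hd, ?_⟩
    rw [← hsum]
    refine Finset.sum_congr rfl fun i _ => ?_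
    rw [← ha i]
  alg := fun x hx => by
    have := Fermat.Agent.Lib.helper6879.isAlgClosed_residueField A
    exact Fermat.Agent.S37.helper815gs.exists_algebraMap_eq_of_isAlgebraic x hx

/-- The normal form: every nonzero function has the divisor of a quotient of integral
functions. -/
theorem hnf {A : ValuationSubring Qb} {N : ℕ} [NeZero N] {ℓ : ℕ} (hℓ : ℓ.Prime)
    (hℓN : ¬ ℓ ∣ N) (hA : A.LiesOverPrime ℓ) :
    ∀ f : FNb N, f ≠ 0 →
      ∃ p q : FNb N × ↥(modularFunctionFieldFullC (IsLocalRing.ResidueField A) N),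
        p ∈ S A N ∧ q ∈ S A N ∧ ∀ v : Place Qb (FNb N), v.ord f = v.ord p.1 - v.ord q.1 := by
  intro f hf
  obtain ⟨c, a, b, hc, hrel⟩ :=
    Fermat.Agent.S37.helper872.normalForm_of_liesOverPrime hℓ hℓN hA f hf
  refine ⟨(a.gen, a.red), (b.gen, b.red), mem_S a, mem_S b, fun v => ?_⟩
  have hc' : algebraMap Qb (FNb N) c ≠ 0 := by simpa using hc
  have h1 := congrArg v.ord hrel
  rw [v.ord_mul hf b.gen_ne_zero, v.ord_mul hc' a.gen_ne_zero,
    Fermat.Agent.S18.helper3054.ord_algebraMap_eq_zero v hc] at h1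
  show v.ord f = v.ord a.gen - v.ord b.gen
  linarith

/-! ### The two operators: bounded positive and negative parts -/

/-- There is a place of `F_N`. -/
theorem nonempty_place_FNb (N : ℕ) [NeZero N] : Nonempty (Place Qb (FNb N)) := by
  obtain ⟨B, -, hBdeg⟩ := Fermat.Agent.S37.helper6267.exists_poleDivisor_jBar N
  by_contra hne
  rw [not_nonempty_iff] at hne
  have h0 : B = 0 := Subsingleton.elim _ _
  rw [h0, map_zero] at hBdeg
  have hpos : 0 < Module.finrank
      (IntermediateField.adjoin Fermat.Agent.S24.helper24.Kbar {Fermat.Agent.S24.helper24.jBar N})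
      (Fermat.Agent.S24.helper24.FN N) := Module.finrank_pos
  omega

theorem inertiaDiv_bdd (N : ℕ) [NeZero N] (τ : GQ) :
    ∀ D : Divisor Qb (FNb N), 0 ≤ D → ∃ Bp Bn : Divisor Qb (FNb N), 0 ≤ Bp ∧ 0 ≤ Bn ∧
      inertiaDiv (N := N) τ D = Bp - Bn ∧ Divisor.degree Bp ≤ 1 * Divisor.degree D ∧
      Divisor.degree Bn ≤ 1 * Divisor.degree D := by
  intro D hD
  have hg := Fermat.Agent.S37.helper3298.isPosDeg_smul (gal N τ)
  refine ⟨gal N τ • D, D, hg.pos D hD, hD, rfl, ?_, ?_⟩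
  · exact (hg.deg D).le
  · rw [one_mul]

theorem esDiv_bdd (N ℓ : ℕ) [NeZero N] [NeZero ℓ] (hα : HeckeAlphaBarIntegral Qb N ℓ)
    (hβ : HeckeBetaBarIntegral Qb N ℓ)
    [HasPrincipalDivisors Qb (laurentBaseChange Qb (modularFunctionFieldFull (N * ℓ)))]
    (σ : GQ) :
    ∀ D : Divisor Qb (FNb N), 0 ≤ D → ∃ Bp Bn : Divisor Qb (FNb N), 0 ≤ Bp ∧ 0 ≤ Bn ∧
      esDiv ℓ hα hβ σ D = Bp - Bn ∧
      Divisor.degree Bp ≤
        ((ℓ : ℤ) + 1 + (finrankAlong Qb (heckeBetaBar Qb N ℓ) : ℤ)) * Divisor.degree D ∧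
      Divisor.degree Bn ≤
        ((ℓ : ℤ) + 1 + (finrankAlong Qb (heckeBetaBar Qb N ℓ) : ℤ)) * Divisor.degree D := by
  intro D hD
  have hdeg : ∀ v : Place Qb (FNb N), v.deg = 1 := Fermat.Agent.S37.helper5162.place_deg_eq_one N
  have hg := Fermat.Agent.S37.helper3298.isPosDeg_smul (gal N σ)
  have hT := Fermat.Agent.S37.helper3298.isPosDeg_correspondence (heckeBetaBar Qb N ℓ)
    (heckeAlphaBar Qb N ℓ) hβ hα
    (Fermat.Agent.S37.helper8426.fundamentalIdentityAlong_heckeBetaBar N ℓ)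
  have hD0 : 0 ≤ Divisor.degree D := Fermat.Agent.S18.helper981.degree_nonneg hdeg hD
  have hσD : 0 ≤ gal N σ • D := hg.pos D hD
  have hσσD : 0 ≤ gal N σ • gal N σ • D := hg.pos _ hσD
  have hd1 : Divisor.degree (gal N σ • D) = Divisor.degree D := by
    have := hg.deg D
    rwa [one_mul] at this
  have hd2 : Divisor.degree (gal N σ • gal N σ • D) = Divisor.degree D := by
    have := hg.deg (gal N σ • D)
    rw [one_mul] at this
    exact this.trans hd1
  have hf0 : (0 : ℤ) ≤ (finrankAlong Qb (heckeBetaBar Qb N ℓ) : ℤ) := Int.natCast_nonneg _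
  have hℓ0 : (0 : ℤ) ≤ (ℓ : ℤ) := Int.natCast_nonneg _
  refine ⟨gal N σ • gal N σ • D + ℓ • D, heckeDivBar hα hβ (gal N σ • D),
    add_nonneg hσσD (nsmul_nonneg hD ℓ), hT.pos _ hσD, ?_, ?_, ?_⟩
  · rw [Fermat.Agent.S37.helper1138.esDiv_apply]
    abel
  · rw [map_add, map_nsmul, hd2, nsmul_eq_mul]
    nlinarith
  · have h1 : Divisor.degree (heckeDivBar hα hβ (gal N σ • D)) =
        (finrankAlong Qb (heckeBetaBar Qb N ℓ) : ℤ) * Divisor.degree D := by
      have := hT.deg (gal N σ • D)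
      rw [hd1] at this
      exact this
    rw [h1]
    nlinarith

/-! ### The companions -/

theorem inertiaDiv_companion (N : ℕ) (A : ValuationSubring Qb) {τ : GQ}
    (hτ : τ ∈ A.inertiaSubgroupIn ℚ) :
    ∀ p q : FNb N × ↥(modularFunctionFieldFullC (IsLocalRing.ResidueField A) N),
      p ∈ S A N → q ∈ S A N → ∀ D : Divisor Qb (FNb N),
      (∀ v : Place Qb (FNb N), D v = v.ord p.1 - v.ord q.1) →
      ∃ H : FNb N, OneUnit (S A N) H ∧
        ∀ v : Place Qb (FNb N), inertiaDiv (N := N) τ D v = v.ord H := by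
  rintro _ _ ⟨a, rfl⟩ ⟨b, rfl⟩ D hD
  obtain ⟨X, Y, hr, ho⟩ := Fermat.Agent.S37.helper3298.frig_inertia_pair N A hτ a b D hD
  refine ⟨X.gen / Y.gen, ⟨X.gen, Y.gen, X.red, mem_S X, ?_, rfl⟩, fun v => ?_⟩
  · rw [hr]; exact mem_S Y
  · rw [ho v, div_eq_mul_inv, v.ord_mul X.gen_ne_zero (inv_ne_zero Y.gen_ne_zero), v.ord_inv]
    ring

theorem esDiv_companion (N ℓ : ℕ) [NeZero N] [NeZero ℓ] (hℓ : ℓ.Prime) (hℓN : ¬ ℓ ∣ N)
    (A : ValuationSubring Qb) (hA : A.LiesOverPrime ℓ) {σ : GQ} (hσ : A.IsFrobeniusAt σ ℓ)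
    (hα : HeckeAlphaBarIntegral Qb N ℓ) (hβ : HeckeBetaBarIntegral Qb N ℓ)
    [HasPrincipalDivisors Qb (laurentBaseChange Qb (modularFunctionFieldFull (N * ℓ)))] :
    ∀ p q : FNb N × ↥(modularFunctionFieldFullC (IsLocalRing.ResidueField A) N),
      p ∈ S A N → q ∈ S A N → ∀ D : Divisor Qb (FNb N),
      (∀ v : Place Qb (FNb N), D v = v.ord p.1 - v.ord q.1) →
      ∃ H : FNb N, OneUnit (S A N) H ∧
        ∀ v : Place Qb (FNb N), esDiv ℓ hα hβ σ D v = v.ord H := by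
  rintro _ _ ⟨a, rfl⟩ ⟨b, rfl⟩ D hD
  obtain ⟨X, Y, hr, ho⟩ :=
    Fermat.Agent.S37.helper3298.frig_es_pair_esDiv1138 N ℓ hℓ hℓN A hA hσ hα hβ a b D hD
  refine ⟨X.gen / Y.gen, ⟨X.gen, Y.gen, X.red, mem_S X, ?_, rfl⟩, fun v => ?_⟩
  · rw [hr]; exact mem_S Y
  · rw [ho v, div_eq_mul_inv, v.ord_mul X.gen_ne_zero (inv_ne_zero Y.gen_ne_zero), v.ord_inv]
    ring

/-! ### Membership in the good subgroup, and the local formula -/

/-- `(g_τ - 1) D` is good for `τ` in the inertia group and `deg D = 0`. -/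
theorem inertiaDiv_mem_good (N : ℕ) [NeZero N] {ℓ : ℕ} (hℓ : ℓ.Prime) (hℓN : ¬ ℓ ∣ N)
    (A : ValuationSubring Qb) (hA : A.LiesOverPrime ℓ) {τ : GQ}
    (hτ : τ ∈ A.inertiaSubgroupIn ℚ) (D : Divisor Qb (FNb N)) (hD : Divisor.degree D = 0) :
    inertiaDiv (N := N) τ D ∈ goodSubgroup (integralPairs A N) := by
  obtain ⟨D0, hRB⟩ := Fermat.Agent.S37.helper6267.exists_riemannBound_FN N
  exact good_of_companion (hnf hℓ hℓN hA) hRB (inertiaDiv (N := N) τ) 1 (inertiaDiv_bdd N τ)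
    (inertiaDiv_companion N A hτ) D hD

/-- `esDiv D` is good for every Frobenius `σ` at `A` and `deg D = 0`. -/
theorem esDiv_mem_good (N ℓ : ℕ) [NeZero N] [NeZero ℓ] (hℓ : ℓ.Prime) (hℓN : ¬ ℓ ∣ N)
    (A : ValuationSubring Qb) (hA : A.LiesOverPrime ℓ) {σ : GQ} (hσ : A.IsFrobeniusAt σ ℓ)
    (hα : HeckeAlphaBarIntegral Qb N ℓ) (hβ : HeckeBetaBarIntegral Qb N ℓ)
    [HasPrincipalDivisors Qb (laurentBaseChange Qb (modularFunctionFieldFull (N * ℓ)))]
    (D : Divisor Qb (FNb N)) (hD : Divisor.degree D = 0) :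
    esDiv ℓ hα hβ σ D ∈ goodSubgroup (integralPairs A N) := by
  obtain ⟨D0, hRB⟩ := Fermat.Agent.S37.helper6267.exists_riemannBound_FN N
  exact good_of_companion (hnf hℓ hℓN hA) hRB (esDiv ℓ hα hβ σ) _ (esDiv_bdd N ℓ hα hβ σ)
    (esDiv_companion N ℓ hℓ hℓN A hA hσ hα hβ) D hD

/-- **The local formula on the good subgroup** (function-level rigidity): a quotient of
integral functions whose divisor is good has constant reduction. -/
theorem locFormula_good (N : ℕ) [NeZero N] (A : ValuationSubring Qb) :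
    Fermat.Agent.S37.helper872.LocFormula A N (goodSubgroup (integralPairs A N)) := by
  intro a b E hE hdiv
  obtain ⟨P₀⟩ := nonempty_place_FNb N
  obtain ⟨c, hc⟩ := exists_const_of_good (Fermat.Agent.S37.helper5162.place_deg_eq_one N) P₀
    (integralPairs A N) hE (m := 1) one_pos (mem_S a) (mem_S b)
    (fun v => by rw [Nat.cast_one, one_mul]; exact hdiv v)
  have hc' : a.red = algebraMap (IsLocalRing.ResidueField A)
      ↥(modularFunctionFieldFullC (IsLocalRing.ResidueField A) N) c * b.red := hc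
  refine ⟨c, ?_, hc'⟩
  rintro rfl
  exact a.red_ne_zero (by rw [hc', map_zero, zero_mul])

/-! ### The packages -/

/-- **T-FRIG, the divisor-level package** for ONE valuation subring and EVERY Frobenius. -/
theorem frig_package (N : ℕ) [NeZero N] {ℓ : ℕ} (hℓ : ℓ.Prime) (hℓN : ¬ ℓ ∣ N)
    (A : ValuationSubring Qb) (hA : A.LiesOverPrime ℓ) {σ : GQ} (hσ : A.IsFrobeniusAt σ ℓ) :
    ∃ Kd : AddSubgroup (Divisor Qb (FNb N)),
      Fermat.Agent.S37.helper872.LocFormula A N Kd ∧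
      (∀ τ ∈ A.inertiaSubgroupIn ℚ, ∀ D : Divisor Qb (FNb N), Divisor.degree D = 0 →
        inertiaDiv (N := N) τ D ∈ Kd) ∧
      (haveI : NeZero ℓ := ⟨hℓ.ne_zero⟩
        ∀ (hα : HeckeAlphaBarIntegral Qb N ℓ) (hβ : HeckeBetaBarIntegral Qb N ℓ)
          [HasPrincipalDivisors Qb (laurentBaseChange Qb (modularFunctionFieldFull (N * ℓ)))]
          (D : Divisor Qb (FNb N)), Divisor.degree D = 0 → esDiv ℓ hα hβ σ D ∈ Kd) := by
  have : NeZero ℓ := ⟨hℓ.ne_zero⟩
  refine ⟨goodSubgroup (integralPairs A N), locFormula_good N A,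
    fun τ hτ D hD => inertiaDiv_mem_good N hℓ hℓN A hA hτ D hD, ?_⟩
  intro hα hβ _ D hD
  exact esDiv_mem_good N ℓ hℓ hℓN A hA hσ hα hβ D hD

/-- **T-FRIG**: for every prime `ℓ ∤ N` and every `A` over `ℓ` there are a Frobenius `σ` at `A`
and a subgroup `Kd` of divisors with the local formula and containing `(g_τ - 1) D`, `esDiv D`
for `deg D = 0`. -/
theorem frig_locFormula (N : ℕ) [NeZero N] :
    ∀ ℓ : ℕ, ∀ hℓ : ℓ.Prime, ¬ ℓ ∣ N → ∀ A : ValuationSubring Qb, A.LiesOverPrime ℓ →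
      ∃ σ : GQ, A.IsFrobeniusAt σ ℓ ∧ ∃ Kd : AddSubgroup (Divisor Qb (FNb N)),
        Fermat.Agent.S37.helper872.LocFormula A N Kd ∧
        (∀ τ ∈ A.inertiaSubgroupIn ℚ, ∀ D : Divisor Qb (FNb N), Divisor.degree D = 0 →
          inertiaDiv (N := N) τ D ∈ Kd) ∧
        (haveI : NeZero ℓ := ⟨hℓ.ne_zero⟩
          ∀ (hα : HeckeAlphaBarIntegral Qb N ℓ) (hβ : HeckeBetaBarIntegral Qb N ℓ)
            [HasPrincipalDivisors Qb (laurentBaseChange Qb (modularFunctionFieldFull (N * ℓ)))]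
            (D : Divisor Qb (FNb N)), Divisor.degree D = 0 → esDiv ℓ hα hβ σ D ∈ Kd) := by
  intro ℓ hℓ hℓN A hA
  obtain ⟨σ, hσ⟩ := Fermat.Agent.Lib.helper54.exists_isFrobeniusAt hℓ A hA
  exact ⟨σ, hσ, frig_package N hℓ hℓN A hA hσ⟩

/-- The degree-zero divisor package of `helper6267` from the S18 Kummer field form. -/
theorem stmt_DivKernel0_of_kf (N : ℕ) [NeZero N]
    (hKF : ∀ ℓ : ℕ, ℓ.Prime → ¬ ℓ ∣ N → Fermat.Agent.S18.helper3054.Stmt_KF N ℓ) :
    Fermat.Agent.S37.helper6267.Stmt_DivKernel0 N := by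
  intro ℓ hℓ hℓN A hA
  obtain ⟨σ, hσ, Kd, hLF, h1, h2⟩ := frig_locFormula N ℓ hℓ hℓN A hA
  refine ⟨σ, hσ, Kd, h1, h2, ?_⟩
  intro q hq hqℓ D hD hqD
  have hq' : ¬ ℓ ∣ q := by
    intro hdvd
    rcases (Nat.dvd_prime hq).mp hdvd with h | h
    · exact hℓ.one_lt.ne' h
    · exact hqℓ h.symm
  exact Fermat.Agent.S37.helper872.pic0_eq_zero_of_kf (hKF ℓ hℓ hℓN) hA Kd
    (Fermat.Agent.S37.helper872.normalForm_of_liesOverPrime hℓ hℓN hA) hLF D hD hq' hqD

/-- **S37 kernel statement from the S18 Kummer field form at level `N`** (T-FRIG chain). -/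
theorem stmt_Kernel_of_kf (N : ℕ) [NeZero N]
    (hKF : ∀ ℓ : ℕ, ℓ.Prime → ¬ ℓ ∣ N → Fermat.Agent.S18.helper3054.Stmt_KF N ℓ) :
    Fermat.Agent.S37.helper8353.Stmt_Kernel N :=
  Fermat.Agent.S37.helper6267.stmt_Kernel_of_divKernel0
    (fun ℓ _ => Fermat.Agent.S37.helper8426.heckeInputsAlong N ℓ) (stmt_DivKernel0_of_kf N hKF)

/-- The core statement of `helper8353` from the S18 Kummer field form at level `N`. -/
theorem stmt_Core_of_kf (N : ℕ) [NeZero N]
    (hKF : ∀ ℓ : ℕ, ℓ.Prime → ¬ ℓ ∣ N → Fermat.Agent.S18.helper3054.Stmt_KF N ℓ) (p : ℕ) :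
    Fermat.Agent.S37.helper8353.Stmt_Core N p :=
  Fermat.Agent.S37.helper6267.stmt_Core_of_divKernel0
    (fun ℓ _ => Fermat.Agent.S37.helper8426.heckeInputsAlong N ℓ) (stmt_DivKernel0_of_kf N hKF) p

end Fermat.Agent.S37.helper815fi
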