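import Mathlib

/-!
# The idempotent of the special fibre of a Kummer cover (abstract brick, Mathlib only)

Step (N1)(b) of the S37/S18 torsion-injectivity argument (board #1004).

`B` is an integrally closed domain with fraction field `F`, `π : B` a prime element, `p` a
natural number invertible in `B`, `F'/F` a field extension and `y : F'` with `y ^ p = U ∈ F`.
Write `B'` for the integral closure of `B` in `F'` and `B'_(π)` for its localisation at the
multiplicative set `B ∖ (π)`.

Hypotheses: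
* `(HU)`  `U ≡ 1` modulo `π B_(π)`;
* `(H_z)` for every maximal ideal `z ∋ π` of `B` there is `g ∈ F^×` with `g ≡ 1` modulo
  `π B_(π)` and `U / g ^ p ∈ B_z` (`LocalKummer`).

Conclusions, with `ε = (1/p) ∑_{i<p} y^i`:
* `(K1)` there is `e ∈ B'` with `e - ε ∈ π B'_(π)`;
* `(K2)` `e ^ 2 - e ∈ π B'`;
* `(K3)` if `y` generates a power basis of dimension `p ≥ 2`, then `e ∉ π B'`, `e - 1 ∉ π B'`;
* `(K4)` two charts `B₀`, `B_∞` inside a third one `B₀₁`: `e₀ - e_∞ ∈ π B'₀₁`.
-/

set_option linter.unusedSectionVars false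

namespace Fermat.Agent.S37.helper8173

open Polynomial

section LemmaX

/-- Normality in codimension two (this is `helper903.isIntegral_div_prime_pow`, restated here
so that the file only depends on Mathlib): over an integrally closed domain `B`, if `b` is
prime, `b ∤ a`, and `y`, `z` are integral with `a • y = b ^ m • z`, then `y = b ^ m • w` with
`w` integral. -/
theorem sat_prime_pow {B K : Type*} [CommRing B] [IsDomain B] [IsIntegrallyClosed B]
    [Field K] [Algebra B K] [FaithfulSMul B K] {a b : B} (hb : Prime b) (hab : ¬ b ∣ a) (m : ℕ)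
    {y z : K} (hy : IsIntegral B y) (hz : IsIntegral B z)
    (h : algebraMap B K a * y = algebraMap B K b ^ m * z) :
    ∃ w : K, IsIntegral B w ∧ y = algebraMap B K b ^ m * w := by
  have hinj : Function.Injective (algebraMap B K) := FaithfulSMul.algebraMap_injective B K
  have ha0 : a ≠ 0 := by
    rintro rfl
    exact hab (dvd_zero b)
  have hbm0 : b ^ m ≠ 0 := pow_ne_zero m hb.ne_zero
  have hscale : (minpoly B y).scaleRoots a = (minpoly B z).scaleRoots (b ^ m) := by
    rw [← IsIntegrallyClosed.minpoly_smul ha0 hy, ← IsIntegrallyClosed.minpoly_smul hbm0 hz]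
    congr 1
    rw [Algebra.smul_def, Algebra.smul_def, map_pow]
    exact h
  set f := minpoly B y with hf
  set g := minpoly B z with hg
  have hdeg : f.natDegree = g.natDegree := by
    have := congrArg natDegree hscale
    simpa [natDegree_scaleRoots] using this
  have hdiv : ∀ i, (b ^ m) ^ (f.natDegree - i) ∣ f.coeff i := by
    intro i
    have hc := congrArg (fun p => p.coeff i) hscale
    simp only [coeff_scaleRoots] at hc
    rw [← hdeg] at hc
    have h1 : b ^ (m * (f.natDegree - i)) ∣ a ^ (f.natDegree - i) * f.coeff i := by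
      rw [mul_comm (a ^ _), hc, pow_mul]
      exact dvd_mul_left _ _
    have h2 : ¬ b ∣ a ^ (f.natDegree - i) := fun hd => hab (hb.dvd_of_dvd_pow hd)
    have := hb.pow_dvd_of_dvd_mul_left _ h2 h1
    rwa [pow_mul] at this
  set u : K := algebraMap B K b ^ m with hu
  have hu0 : u ≠ 0 := by
    rw [hu, ← map_pow]
    exact fun h0 => hbm0 (hinj (h0.trans (map_zero _).symm))
  have hfm : f.Monic := minpoly.monic hy
  set fK : K[X] := f.map (algebraMap B K) with hfK
  have hfKm : fK.Monic := hfm.map _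
  set G : K[X] := fK.scaleRoots u⁻¹ with hG
  have hGm : G.Monic := (monic_scaleRoots_iff _).2 hfKm
  have hGroot : G.eval (u⁻¹ * y) = 0 := by
    have h0 : fK.eval y = 0 := by
      rw [hfK, eval_map, ← aeval_def]
      exact minpoly.aeval B y
    rw [hG, scaleRoots_eval_mul, h0, mul_zero]
  have hGlift : G ∈ lifts (algebraMap B K) := by
    rw [lifts_iff_coeff_lifts]
    intro i
    obtain ⟨q, hq⟩ := hdiv i
    refine ⟨q, ?_⟩
    rw [hG, coeff_scaleRoots, hfK, coeff_map, hfm.natDegree_map, hq, map_mul, map_pow, map_pow,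
      ← hu, inv_pow]
    field_simp
  obtain ⟨F, hFmap, -, hFm⟩ := lifts_and_natDegree_eq_and_monic hGlift hGm
  refine ⟨u⁻¹ * y, ⟨F, hFm, ?_⟩, ?_⟩
  · rw [← eval_map, hFmap]
    exact hGroot
  · rw [← mul_assoc, mul_inv_cancel₀ hu0, one_mul]

end LemmaX

section Predicates

variable {B : Type*} [CommRing B] {F' : Type*} [Field F'] [Algebra B F']

/-- `x` lies in the localisation `B'_(π)` of the integral closure `B'` of `B` in `F'`. -/
def GenInt (π : B) (x : F') : Prop :=
  ∃ s : B, ¬ π ∣ s ∧ IsIntegral B (algebraMap B F' s * x)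

/-- `x` lies in `π B'_(π)`. -/
def GenDiv (π : B) (x : F') : Prop :=
  ∃ x' : F', GenInt π x' ∧ x = algebraMap B F' π * x'

variable {π : B}

theorem GenInt.of_isIntegral (hπ : Prime π) {x : F'} (hx : IsIntegral B x) : GenInt π x :=
  ⟨1, hπ.not_dvd_one, by rwa [map_one, one_mul]⟩

theorem GenInt.of_base (hπ : Prime π) (b : B) : GenInt π (algebraMap B F' b) :=
  GenInt.of_isIntegral hπ isIntegral_algebraMap

theorem GenInt.zero (hπ : Prime π) : GenInt π (0 : F') :=
  GenInt.of_isIntegral hπ isIntegral_zero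

theorem GenInt.one (hπ : Prime π) : GenInt π (1 : F') :=
  GenInt.of_isIntegral hπ isIntegral_one

theorem GenInt.add (hπ : Prime π) {x y : F'} (hx : GenInt π x) (hy : GenInt π y) :
    GenInt π (x + y) := by
  obtain ⟨s, hs, hsx⟩ := hx
  obtain ⟨t, ht, hty⟩ := hy
  refine ⟨s * t, fun h => (hπ.dvd_or_dvd h).elim hs ht, ?_⟩
  have e : algebraMap B F' (s * t) * (x + y)
      = algebraMap B F' t * (algebraMap B F' s * x) + algebraMap B F' s * (algebraMap B F' t * y) := by
    rw [map_mul]; ring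
  rw [e]
  exact (isIntegral_algebraMap.mul hsx).add (isIntegral_algebraMap.mul hty)

theorem GenInt.mul (hπ : Prime π) {x y : F'} (hx : GenInt π x) (hy : GenInt π y) :
    GenInt π (x * y) := by
  obtain ⟨s, hs, hsx⟩ := hx
  obtain ⟨t, ht, hty⟩ := hy
  refine ⟨s * t, fun h => (hπ.dvd_or_dvd h).elim hs ht, ?_⟩
  have e : algebraMap B F' (s * t) * (x * y)
      = (algebraMap B F' s * x) * (algebraMap B F' t * y) := by
    rw [map_mul]; ring
  rw [e]
  exact hsx.mul hty

theorem GenInt.neg {x : F'} (hx : GenInt π x) : GenInt π (-x) := by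
  obtain ⟨s, hs, hsx⟩ := hx
  exact ⟨s, hs, by rw [mul_neg]; exact hsx.neg⟩

theorem GenInt.sub (hπ : Prime π) {x y : F'} (hx : GenInt π x) (hy : GenInt π y) :
    GenInt π (x - y) := by
  rw [sub_eq_add_neg]
  exact hx.add hπ hy.neg

theorem GenInt.pow (hπ : Prime π) {x : F'} (hx : GenInt π x) (n : ℕ) : GenInt π (x ^ n) := by
  induction n with
  | zero => rw [pow_zero]; exact GenInt.one hπ
  | succ n ih => rw [pow_succ]; exact ih.mul hπ hx

theorem GenInt.sum (hπ : Prime π) {ι : Type*} (s : Finset ι) (f : ι → F')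
    (h : ∀ i ∈ s, GenInt π (f i)) : GenInt π (∑ i ∈ s, f i) := by
  classical
  induction s using Finset.induction_on with
  | empty => rw [Finset.sum_empty]; exact GenInt.zero hπ
  | insert a s ha ih =>
    rw [Finset.sum_insert ha]
    exact (h a (Finset.mem_insert_self a s)).add hπ
      (ih fun i hi => h i (Finset.mem_insert_of_mem hi))

/-- If `s x ∈ B'_(π)` with `π ∤ s` then `x ∈ B'_(π)`. -/
theorem GenInt.of_mul (hπ : Prime π) {s : B} (hs : ¬ π ∣ s) {x : F'}
    (h : GenInt π (algebraMap B F' s * x)) : GenInt π x := by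
  obtain ⟨t, ht, htx⟩ := h
  refine ⟨t * s, fun h => (hπ.dvd_or_dvd h).elim ht hs, ?_⟩
  rw [map_mul, mul_assoc]
  exact htx

theorem GenDiv.zero (hπ : Prime π) : GenDiv π (0 : F') :=
  ⟨0, GenInt.zero hπ, by rw [mul_zero]⟩

theorem GenDiv.add (hπ : Prime π) {x y : F'} (hx : GenDiv π x) (hy : GenDiv π y) :
    GenDiv π (x + y) := by
  obtain ⟨x', hx', rfl⟩ := hx
  obtain ⟨y', hy', rfl⟩ := hy
  exact ⟨x' + y', hx'.add hπ hy', by ring⟩

theorem GenDiv.neg {x : F'} (hx : GenDiv π x) : GenDiv π (-x) := by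
  obtain ⟨x', hx', rfl⟩ := hx
  exact ⟨-x', hx'.neg, by ring⟩

theorem GenDiv.sub (hπ : Prime π) {x y : F'} (hx : GenDiv π x) (hy : GenDiv π y) :
    GenDiv π (x - y) := by
  rw [sub_eq_add_neg]
  exact hx.add hπ hy.neg

theorem GenDiv.mul_right (hπ : Prime π) {x r : F'} (hx : GenDiv π x) (hr : GenInt π r) :
    GenDiv π (x * r) := by
  obtain ⟨x', hx', rfl⟩ := hx
  exact ⟨x' * r, hx'.mul hπ hr, by ring⟩

theorem GenDiv.mul_left (hπ : Prime π) {x r : F'} (hr : GenInt π r) (hx : GenDiv π x) :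
    GenDiv π (r * x) := by
  rw [mul_comm]
  exact hx.mul_right hπ hr

theorem GenDiv.genInt (hπ : Prime π) {x : F'} (hx : GenDiv π x) : GenInt π x := by
  obtain ⟨x', hx', rfl⟩ := hx
  exact (GenInt.of_base hπ π).mul hπ hx'

theorem GenDiv.sum (hπ : Prime π) {ι : Type*} (s : Finset ι) (f : ι → F')
    (h : ∀ i ∈ s, GenDiv π (f i)) : GenDiv π (∑ i ∈ s, f i) := by
  classical
  induction s using Finset.induction_on with
  | empty => rw [Finset.sum_empty]; exact GenDiv.zero hπ
  | insert a s ha ih =>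
    rw [Finset.sum_insert ha]
    exact (h a (Finset.mem_insert_self a s)).add hπ
      (ih fun i hi => h i (Finset.mem_insert_of_mem hi))

theorem GenDiv.of_mul_pi {x : F'} (hx : GenInt π x) :
    GenDiv π (algebraMap B F' π * x) :=
  ⟨x, hx, rfl⟩

end Predicates

section OneChart

variable {B F F' : Type*} [CommRing B] [IsDomain B] [IsIntegrallyClosed B]
  [Field F] [Algebra B F] [IsFractionRing B F]
  [Field F'] [Algebra F F'] [Algebra B F'] [IsScalarTower B F F']

/-- `ε = (1/p) ∑_{i<p} y^i`, the idempotent of `k[Y]/(Y^p - 1)` cutting out the root `1`. -/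
noncomputable def kummerEps (p : ℕ) (y : F') : F' :=
  (p : F')⁻¹ * ∑ i ∈ Finset.range p, y ^ i

/-- `x ≡ 1` modulo `π B_(π)`, for `x` in the fraction field `F` of `B`. -/
def OneMod (π : B) (x : F) : Prop :=
  ∃ s b : B, ¬ π ∣ s ∧ algebraMap B F s * (x - 1) = algebraMap B F (π * b)

/-- The local Kummer hypothesis at an ideal `z`: `U = (element of B_z) * g ^ p` with `g ≡ 1`
modulo `π B_(π)`.  (When `U ≡ 1` modulo `π B_(π)` and `π ∈ z`, the element `U / g ^ p` of `B_z`
is automatically a unit of `B_z`.) -/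
def LocalKummer (π : B) (p : ℕ) (U : F) (z : Ideal B) : Prop :=
  ∃ g : F, g ≠ 0 ∧ OneMod π g ∧
    ∃ a c : B, c ∉ z ∧ algebraMap B F c * U = algebraMap B F a * g ^ p

omit [IsIntegrallyClosed B] in
include F in
theorem algebraMap_top_injective : Function.Injective (algebraMap B F') := by
  rw [IsScalarTower.algebraMap_eq B F F']
  exact (algebraMap F F').injective.comp (IsFractionRing.injective B F)

omit [IsIntegrallyClosed B] in
include F in
theorem algebraMap_top_ne_zero {s : B} (hs : s ≠ 0) : algebraMap B F' s ≠ 0 := fun h =>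
  hs (algebraMap_top_injective (F := F) (h.trans (map_zero _).symm))

omit [IsDomain B] [IsIntegrallyClosed B] [IsFractionRing B F] in
theorem algebraMap_top_apply (s : B) :
    algebraMap B F' s = algebraMap F F' (algebraMap B F s) :=
  IsScalarTower.algebraMap_apply B F F' s

variable {π : B} {p : ℕ}

omit [IsIntegrallyClosed B] in
/-- An element of `F` of the form `π b / s` with `π ∤ s` lies in `π B'_(π)`. -/
theorem genDiv_of_base (hπ : Prime π) {x : F}
    (h : ∃ s b : B, ¬ π ∣ s ∧ algebraMap B F s * x = algebraMap B F (π * b)) :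
    GenDiv π (algebraMap F F' x) := by
  obtain ⟨s, b, hs, hsb⟩ := h
  have hs0 : s ≠ 0 := fun h0 => hs (h0 ▸ dvd_zero π)
  have hsF : algebraMap B F' s ≠ 0 := algebraMap_top_ne_zero (F := F) hs0
  refine ⟨(algebraMap B F' s)⁻¹ * algebraMap B F' b, ⟨s, hs, ?_⟩, ?_⟩
  · rw [← mul_assoc, mul_inv_cancel₀ hsF, one_mul]
    exact isIntegral_algebraMap
  · have e : algebraMap B F' s * algebraMap F F' x = algebraMap B F' π * algebraMap B F' b := by
      rw [algebraMap_top_apply (F := F) s, ← map_mul, hsb, ← algebraMap_top_apply, map_mul]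
    field_simp
    linear_combination e

omit [IsIntegrallyClosed B] in
/-- `x ≡ 1` gives a denominator `d` prime to `π` with `d x ∈ B` prime to `π`. -/
theorem OneMod.exists_den {x : F} (hx : OneMod π x) :
    ∃ d u : B, ¬ π ∣ d ∧ ¬ π ∣ u ∧ algebraMap B F d * x = algebraMap B F u := by
  obtain ⟨s, b, hs, hsb⟩ := hx
  refine ⟨s, s + π * b, hs, fun h => hs ?_, ?_⟩
  · exact (dvd_add_left (dvd_mul_right π b)).mp h
  · rw [map_add, ← hsb]; ring

omit [IsIntegrallyClosed B] in
theorem OneMod.genDiv (hπ : Prime π) {x : F} (hx : OneMod π x) :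
    GenDiv π (algebraMap F F' (x - 1)) :=
  genDiv_of_base hπ hx

omit [IsIntegrallyClosed B] in
include F in
theorem natCast_top_ne_zero (hp : IsUnit (p : B)) : (p : F') ≠ 0 := by
  have h : (p : F') = algebraMap B F' (p : B) := (map_natCast (algebraMap B F') p).symm
  rw [h]
  exact algebraMap_top_ne_zero (F := F) hp.ne_zero

omit [IsIntegrallyClosed B] [Algebra B F'] in
theorem pos_of_isUnit_natCast (hp : IsUnit (p : B)) : 0 < p := by
  rcases Nat.eq_zero_or_pos p with h | h
  · subst h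
    exact absurd hp (by simp)
  · exact h

omit [IsDomain B] [IsIntegrallyClosed B] in
theorem genInt_natCast_inv (hπ : Prime π) (hp : IsUnit (p : B)) : GenInt π ((p : F')⁻¹) := by
  obtain ⟨q, hq⟩ := hp.exists_right_inv
  have h : (p : F')⁻¹ = algebraMap B F' q := by
    have h1 : (p : F') * algebraMap B F' q = 1 := by
      rw [← map_natCast (algebraMap B F') p, ← map_mul, hq, map_one]
    exact inv_eq_of_mul_eq_one_right h1
  rw [h]
  exact GenInt.of_base hπ q

omit [IsIntegrallyClosed B] in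
/-- `y` is integral over `B_(π)` as soon as `y ^ p = U ≡ 1`. -/
theorem genInt_root (hp : IsUnit (p : B)) {y : F'} {U : F}
    (hy : y ^ p = algebraMap F F' U) (hU : OneMod π U) : GenInt π y := by
  obtain ⟨d, u, hd, -, hdu⟩ := hU.exists_den
  refine ⟨d, hd, IsIntegral.of_pow (pos_of_isUnit_natCast hp) ?_⟩
  have e : (algebraMap B F' d * y) ^ p = algebraMap B F' (d ^ (p - 1) * u) := by
    have hp1 : p = (p - 1) + 1 := (Nat.succ_pred_eq_of_pos (pos_of_isUnit_natCast hp)).symm
    rw [mul_pow, hy, map_mul, algebraMap_top_apply (F := F) u, ← hdu, map_mul,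
      ← algebraMap_top_apply, map_pow]
    conv_lhs => rw [hp1, pow_succ]
    ring
  rw [e]
  exact isIntegral_algebraMap

omit [IsIntegrallyClosed B] in
theorem genInt_kummerEps (hπ : Prime π) (hp : IsUnit (p : B)) {y : F'} {U : F}
    (hy : y ^ p = algebraMap F F' U) (hU : OneMod π U) : GenInt π (kummerEps p y) :=
  (genInt_natCast_inv hπ hp).mul hπ
    (GenInt.sum hπ _ _ fun i _ => (genInt_root hp hy hU).pow hπ i)

/-- **Local step.** At a prime `z` where the local Kummer hypothesis holds, a multiple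
`s • ε` with `s ∉ z` is congruent modulo `π B'_(π)` to an element of `B'`. -/
theorem local_idem (hπ : Prime π) (hp : IsUnit (p : B)) {y : F'} {U : F}
    (hy : y ^ p = algebraMap F F' U) (hU : OneMod π U) {z : Ideal B} (hz : z.IsPrime)
    (hloc : LocalKummer π p U z) :
    ∃ s : B, s ∉ z ∧ ∃ b' : F', IsIntegral B b' ∧
      GenDiv π (algebraMap B F' s * kummerEps p y - b') := by
  obtain ⟨g, hg0, hg1, a, c, hc, hac⟩ := hloc
  have hp0 : 0 < p := pos_of_isUnit_natCast hp
  have hpF : (p : F') ≠ 0 := natCast_top_ne_zero (F := F) hp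
  set G : F' := algebraMap F F' g with hG
  have hG0 : G ≠ 0 := by
    rw [hG]
    exact (map_ne_zero (algebraMap F F')).mpr hg0
  -- `G⁻¹ ∈ B'_(π)`
  obtain ⟨d, u, hd, hu, hdu⟩ := hg1.exists_den
  have hu0 : u ≠ 0 := fun h0 => hu (h0 ▸ dvd_zero π)
  have hGinv : GenInt π G⁻¹ := by
    refine ⟨u, hu, ?_⟩
    have e : algebraMap B F' u * G⁻¹ = algebraMap B F' d := by
      rw [algebraMap_top_apply (F := F) u, ← hdu, map_mul, ← algebraMap_top_apply, ← hG,
        mul_assoc, mul_inv_cancel₀ hG0, mul_one]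
    rw [e]
    exact isIntegral_algebraMap
  -- `1 - G⁻¹ ∈ π B'_(π)`
  have hGdiv : GenDiv π (1 - G⁻¹) := by
    have h1 : GenDiv π (algebraMap F F' (g - 1)) := hg1.genDiv hπ
    have e : 1 - G⁻¹ = G⁻¹ * algebraMap F F' (g - 1) := by
      rw [map_sub, map_one, ← hG, mul_sub, inv_mul_cancel₀ hG0, mul_one]
    rw [e]
    exact h1.mul_left hπ hGinv
  have hGpow : ∀ i : ℕ, GenDiv π (1 - G⁻¹ ^ i) := by
    intro i
    rw [← mul_neg_geom_sum]
    exact hGdiv.mul_right hπ (GenInt.sum hπ _ _ fun j _ => hGinv.pow hπ j)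
  -- the local root `y / g`
  set yz : F' := y * G⁻¹ with hyz
  have hcy : IsIntegral B (algebraMap B F' c * yz) := by
    refine IsIntegral.of_pow hp0 ?_
    have e : (algebraMap B F' c * yz) ^ p = algebraMap B F' (c ^ (p - 1) * a) := by
      have hp1 : p = (p - 1) + 1 := (Nat.succ_pred_eq_of_pos hp0).symm
      have e1 : algebraMap B F' c * algebraMap F F' U = algebraMap B F' a * G ^ p := by
        rw [algebraMap_top_apply (F := F) c, ← map_mul, hac, map_mul, map_pow,
          ← algebraMap_top_apply]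
      have e2 : algebraMap B F' c * (y ^ p * (G⁻¹) ^ p) = algebraMap B F' a := by
        rw [hy, ← mul_assoc, e1, mul_assoc, ← mul_pow, mul_inv_cancel₀ hG0, one_pow, mul_one]
      rw [mul_pow, hyz, mul_pow, map_mul, map_pow]
      conv_lhs => rw [hp1, pow_succ, mul_assoc, ← hp1, e2]
    rw [e]
    exact isIntegral_algebraMap
  set b' : F' := ∑ i ∈ Finset.range p,
    algebraMap B F' (c ^ (p - 1 - i)) * (algebraMap B F' c * yz) ^ i with hb'
  have hb'int : IsIntegral B b' :=
    IsIntegral.sum _ fun i _ => isIntegral_algebraMap.mul (hcy.pow i)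
  have hb'eq : b' = algebraMap B F' (c ^ (p - 1)) * ∑ i ∈ Finset.range p, yz ^ i := by
    rw [hb', Finset.mul_sum]
    refine Finset.sum_congr rfl fun i hi => ?_
    have hi' : i ≤ p - 1 := Nat.le_pred_of_lt (Finset.mem_range.mp hi)
    have e : c ^ (p - 1) = c ^ (p - 1 - i) * c ^ i := by
      rw [← pow_add, Nat.sub_add_cancel hi']
    rw [e, map_mul, mul_pow, map_pow, map_pow]
    ring
  refine ⟨(p : B) * c ^ (p - 1), ?_, b', hb'int, ?_⟩
  · intro hmem
    rcases hz.mem_or_mem hmem with h | h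
    · exact hz.ne_top (Ideal.eq_top_of_isUnit_mem _ h hp)
    · exact hc (hz.mem_of_pow_mem _ h)
  · have e : algebraMap B F' ((p : B) * c ^ (p - 1)) * kummerEps p y - b'
        = algebraMap B F' (c ^ (p - 1)) *
          ∑ i ∈ Finset.range p, y ^ i * (1 - G⁻¹ ^ i) := by
      have e1 : ∀ i ∈ Finset.range p, y ^ i * (1 - G⁻¹ ^ i) = y ^ i - yz ^ i := by
        intro i _
        rw [hyz, mul_pow]; ring
      rw [Finset.sum_congr rfl e1, Finset.sum_sub_distrib, hb'eq, kummerEps, map_mul,
        map_natCast]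
      have e2 : (p : F') * algebraMap B F' (c ^ (p - 1)) * ((p : F')⁻¹ * ∑ i ∈ Finset.range p, y ^ i)
          = algebraMap B F' (c ^ (p - 1)) * ∑ i ∈ Finset.range p, y ^ i := by
        field_simp
      rw [e2, mul_sub]
    rw [e]
    refine GenDiv.mul_left hπ (GenInt.of_base hπ _) (GenDiv.sum hπ _ _ fun i _ => ?_)
    exact (hGpow i).mul_left hπ ((genInt_root hp hy hU).pow hπ i)

/-- **(K1)** Gluing: there is an element `e` of `B'` congruent to `ε` modulo `π B'_(π)`. -/
theorem exists_idem (hπ : Prime π) (hp : IsUnit (p : B)) {y : F'} {U : F}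
    (hy : y ^ p = algebraMap F F' U) (hU : OneMod π U)
    (H : ∀ z : Ideal B, z.IsMaximal → π ∈ z → LocalKummer π p U z) :
    ∃ e : F', IsIntegral B e ∧ GenDiv π (e - kummerEps p y) := by
  set ε : F' := kummerEps p y with hε
  have hεint : GenInt π ε := genInt_kummerEps hπ hp hy hU
  let I : Ideal B :=
    { carrier := {s | ∃ b' : F', IsIntegral B b' ∧ GenDiv π (algebraMap B F' s * ε - b')}
      zero_mem' := ⟨0, isIntegral_zero, by
        rw [map_zero, zero_mul, sub_zero]; exact GenDiv.zero hπ⟩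
      add_mem' := by
        rintro s t ⟨b1, hb1, h1⟩ ⟨b2, hb2, h2⟩
        refine ⟨b1 + b2, hb1.add hb2, ?_⟩
        have e : algebraMap B F' (s + t) * ε - (b1 + b2)
            = (algebraMap B F' s * ε - b1) + (algebraMap B F' t * ε - b2) := by
          rw [map_add]; ring
        rw [e]
        exact h1.add hπ h2
      smul_mem' := by
        rintro r s ⟨b1, hb1, h1⟩
        refine ⟨algebraMap B F' r * b1, isIntegral_algebraMap.mul hb1, ?_⟩
        have e : algebraMap B F' (r • s) * ε - algebraMap B F' r * b1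
            = algebraMap B F' r * (algebraMap B F' s * ε - b1) := by
          rw [smul_eq_mul, map_mul]; ring
        rw [e]
        exact h1.mul_left hπ (GenInt.of_base hπ r) }
  have hπI : π ∈ I := ⟨0, isIntegral_zero, by
    rw [sub_zero]; exact GenDiv.of_mul_pi hεint⟩
  have htop : I = ⊤ := by
    by_contra hne
    obtain ⟨z, hzmax, hIz⟩ := Ideal.exists_le_maximal I hne
    obtain ⟨s, hs, b', hb', hd⟩ := local_idem hπ hp hy hU hzmax.isPrime (H z hzmax (hIz hπI))
    exact hs (hIz ⟨b', hb', hd⟩)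
  have h1 : (1 : B) ∈ I := by rw [htop]; trivial
  obtain ⟨e, he, hd⟩ := h1
  refine ⟨e, he, ?_⟩
  have e' : e - ε = -(algebraMap B F' 1 * ε - e) := by rw [map_one]; ring
  rw [e']
  exact hd.neg

include F in
/-- **Saturation.** `B' ∩ π B'_(π) = π B'`. -/
theorem isIntegral_div_of_genDiv (hπ : Prime π) {v : F'} (hv : IsIntegral B v)
    (hd : GenDiv π v) : ∃ w : F', IsIntegral B w ∧ v = algebraMap B F' π * w := by
  obtain ⟨x', ⟨s, hs, hsx⟩, rfl⟩ := hd
  have : FaithfulSMul B F' :=
    (faithfulSMul_iff_algebraMap_injective B F').mpr (algebraMap_top_injective (F := F))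
  have h : algebraMap B F' s * (algebraMap B F' π * x')
      = algebraMap B F' π ^ 1 * (algebraMap B F' s * x') := by ring
  obtain ⟨w, hw, hvw⟩ := sat_prime_pow hπ hs 1 hv hsx h
  exact ⟨w, hw, by rw [hvw, pow_one]⟩

/-- `ε ^ 2 - ε ∈ π B'_(π)`. -/
theorem genDiv_kummerEps_sq (hπ : Prime π) (hp : IsUnit (p : B)) {y : F'} {U : F}
    (hy : y ^ p = algebraMap F F' U) (hU : OneMod π U) :
    GenDiv π (kummerEps p y ^ 2 - kummerEps p y) := by
  have hpF : (p : F') ≠ 0 := natCast_top_ne_zero (F := F) hp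
  have hyint : GenInt π y := genInt_root hp hy hU
  have hpinv : GenInt π ((p : F')⁻¹) := genInt_natCast_inv hπ hp
  set S : F' := ∑ i ∈ Finset.range p, y ^ i with hS
  set Q : F' := ∑ i ∈ Finset.range p, ∑ j ∈ Finset.range i, y ^ j with hQ
  have hSint : GenInt π S := GenInt.sum hπ _ _ fun i _ => hyint.pow hπ i
  have hQint : GenInt π Q :=
    GenInt.sum hπ _ _ fun i _ => GenInt.sum hπ _ _ fun j _ => hyint.pow hπ j
  -- `S - p = (y - 1) Q`
  have h1 : S - (p : F') = (y - 1) * Q := by
    rw [hS, hQ, Finset.mul_sum]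
    have e : ∀ i ∈ Finset.range p, (y - 1) * ∑ j ∈ Finset.range i, y ^ j = y ^ i - 1 :=
      fun i _ => mul_geom_sum y i
    rw [Finset.sum_congr rfl e, Finset.sum_sub_distrib]
    simp
  -- `(y - 1) S = U - 1`
  have h2 : (y - 1) * S = algebraMap F F' (U - 1) := by
    rw [hS, mul_geom_sum, hy, map_sub, map_one]
  have e : kummerEps p y ^ 2 - kummerEps p y
      = algebraMap F F' (U - 1) * ((p : F')⁻¹ * (p : F')⁻¹ * Q) := by
    rw [← h2, kummerEps, ← hS]
    have h3 : S = (p : F') + (y - 1) * Q := by rw [← h1]; ring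
    field_simp
    rw [h3]
    ring
  rw [e]
  exact (hU.genDiv hπ).mul_right hπ ((hpinv.mul hπ hpinv).mul hπ hQint)

/-- **(K2)** The glued element is idempotent modulo `π B'`. -/
theorem idem_sq (hπ : Prime π) (hp : IsUnit (p : B)) {y : F'} {U : F}
    (hy : y ^ p = algebraMap F F' U) (hU : OneMod π U) {e : F'} (he : IsIntegral B e)
    (hd : GenDiv π (e - kummerEps p y)) :
    ∃ w : F', IsIntegral B w ∧ e ^ 2 - e = algebraMap B F' π * w := by
  set ε : F' := kummerEps p y with hε
  have hεint : GenInt π ε := genInt_kummerEps hπ hp hy hU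
  have h1 : GenDiv π (ε ^ 2 - ε) := genDiv_kummerEps_sq hπ hp hy hU
  have e1 : e ^ 2 - e = (ε ^ 2 - ε) + (e - ε) * (e + ε - 1) := by ring
  have h2 : GenDiv π (e ^ 2 - e) := by
    rw [e1]
    exact h1.add hπ (hd.mul_right hπ
      (((GenInt.of_isIntegral hπ he).add hπ hεint).sub hπ (GenInt.one hπ)))
  exact isIntegral_div_of_genDiv (F := F) hπ ((he.pow 2).sub he) h2

end OneChart

section Trace

variable {F F' : Type*} [Field F] [Field F'] [Algebra F F']

/-- In a pure extension `F' = F(y)`, `y ^ n = U`, `n = [F' : F]`, the powers `y ^ m`,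
`0 < m < n`, have trace zero. -/
theorem trace_gen_pow_eq_zero (pb : PowerBasis F F') {U : F}
    (hgen : pb.gen ^ pb.dim = algebraMap F F' U) {m : ℕ} (hm0 : 0 < m) (hm : m < pb.dim) :
    Algebra.trace F F' (pb.gen ^ m) = 0 := by
  classical
  rw [Algebra.trace_eq_matrix_trace pb.basis, Matrix.trace]
  refine Finset.sum_eq_zero fun j _ => ?_
  rw [Matrix.diag_apply, Algebra.leftMulMatrix_eq_repr_mul, PowerBasis.coe_basis, ← pow_add]
  by_cases h : m + (j : ℕ) < pb.dim
  · have e : pb.gen ^ (m + (j : ℕ)) = pb.basis ⟨m + j, h⟩ := by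
      rw [PowerBasis.coe_basis]
    rw [e, Module.Basis.repr_self, Finsupp.single_apply, if_neg]
    intro hj
    have hj' : m + (j : ℕ) = (j : ℕ) := congrArg Fin.val hj
    omega
  · have hr : m + (j : ℕ) - pb.dim < pb.dim := by
      have := j.2
      omega
    have e : pb.gen ^ (m + (j : ℕ)) = U • pb.basis ⟨m + j - pb.dim, hr⟩ := by
      rw [PowerBasis.coe_basis, Algebra.smul_def, ← hgen, ← pow_add]
      congr 1
      show m + (j : ℕ) = pb.dim + (m + (j : ℕ) - pb.dim)
      omega
    rw [e, map_smul, Module.Basis.repr_self, Finsupp.smul_apply, Finsupp.single_apply, if_neg,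
      smul_zero]
    intro hj
    have hj' : m + (j : ℕ) - pb.dim = (j : ℕ) := congrArg Fin.val hj
    omega

/-- `∑_{i<n} Tr(y^i) = n` for `n ≤ [F' : F]`, `n ≥ 1`. -/
theorem sum_trace_gen_pow (pb : PowerBasis F F') {U : F}
    (hgen : pb.gen ^ pb.dim = algebraMap F F' U) {n : ℕ} (hn0 : 0 < n) (hn : n ≤ pb.dim) :
    ∑ i ∈ Finset.range n, Algebra.trace F F' (pb.gen ^ i) = (pb.dim : F) := by
  obtain ⟨k, rfl⟩ : ∃ k, n = k + 1 := ⟨n - 1, (Nat.succ_pred_eq_of_pos hn0).symm⟩
  rw [Finset.sum_range_succ', Finset.sum_eq_zero, zero_add, pow_zero]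
  · have h1 : (1 : F') = algebraMap F F' 1 := (map_one _).symm
    rw [h1, Algebra.trace_algebraMap, pb.finrank, nsmul_eq_mul, mul_one]
  · intro i hi
    have := Finset.mem_range.mp hi
    exact trace_gen_pow_eq_zero pb hgen (Nat.succ_pos i) (by omega)

theorem natCast_inv_top (p : ℕ) : (p : F')⁻¹ = algebraMap F F' ((p : F)⁻¹) := by
  rw [map_inv₀, map_natCast]

/-- `Tr(ε) = 1`. -/
theorem trace_kummerEps (pb : PowerBasis F F') {U : F}
    (hgen : pb.gen ^ pb.dim = algebraMap F F' U) (hp0 : (pb.dim : F) ≠ 0) :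
    Algebra.trace F F' (kummerEps pb.dim pb.gen) = 1 := by
  have hd : 0 < pb.dim := pb.dim_pos
  rw [kummerEps, natCast_inv_top (F := F), ← Algebra.smul_def, map_smul, map_sum,
    sum_trace_gen_pow pb hgen hd le_rfl, smul_eq_mul, inv_mul_cancel₀ hp0]

/-- `Tr((ε - 1) y^(p-1)) = U`. -/
theorem trace_kummerEps_sub_one_mul (pb : PowerBasis F F') {U : F}
    (hgen : pb.gen ^ pb.dim = algebraMap F F' U) (hp0 : (pb.dim : F) ≠ 0) (hp2 : 2 ≤ pb.dim) :
    Algebra.trace F F' ((kummerEps pb.dim pb.gen - 1) * pb.gen ^ (pb.dim - 1)) = U := by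
  obtain ⟨k, hk⟩ : ∃ k, pb.dim = k + 1 := ⟨pb.dim - 1, by omega⟩
  have hk1 : 1 ≤ k := by omega
  have e : (kummerEps pb.dim pb.gen - 1) * pb.gen ^ (pb.dim - 1)
      = ((pb.dim : F)⁻¹) • (pb.gen ^ k + U • ∑ i ∈ Finset.range k, pb.gen ^ i) - pb.gen ^ k := by
    rw [kummerEps, natCast_inv_top (F := F), ← Algebra.smul_def, sub_mul, one_mul, smul_mul_assoc]
    have h1 : pb.dim - 1 = k := by omega
    rw [h1]
    congr 2
    rw [hk, Finset.sum_range_succ', pow_zero, add_mul, one_mul, Finset.sum_mul, add_comm,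
      Finset.smul_sum]
    congr 1
    refine Finset.sum_congr rfl fun i _ => ?_
    rw [Algebra.smul_def, ← hgen, hk, ← pow_add, ← pow_add]
    congr 1
    omega
  have hz : Algebra.trace F F' (pb.gen ^ k) = 0 :=
    trace_gen_pow_eq_zero pb hgen (by omega) (by omega)
  rw [e, map_sub, map_smul, map_add, map_smul, map_sum, hz,
    sum_trace_gen_pow pb hgen (by omega) (by omega), zero_add, sub_zero, smul_eq_mul,
    smul_eq_mul]
  field_simp

end Trace

section Nontrivial

variable {B F F' : Type*} [CommRing B] [IsDomain B] [IsIntegrallyClosed B]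
  [Field F] [Algebra B F] [IsFractionRing B F]
  [Field F'] [Algebra F F'] [Algebra B F'] [IsScalarTower B F F']
variable {π : B}

/-- Traces of integral elements lie in `B`. -/
theorem trace_mem_base [FiniteDimensional F F'] {v : F'} (hv : IsIntegral B v) :
    ∃ t : B, Algebra.trace F F' v = algebraMap B F t := by
  obtain ⟨t, ht⟩ := IsIntegrallyClosed.isIntegral_iff.mp (Algebra.isIntegral_trace (L := F) hv)
  exact ⟨t, ht.symm⟩

omit [IsDomain B] [IsIntegrallyClosed B] [IsFractionRing B F] in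
theorem trace_base_mul (s : B) (x : F') :
    Algebra.trace F F' (algebraMap B F' s * x) = algebraMap B F s * Algebra.trace F F' x := by
  rw [algebraMap_top_apply (F := F) s, ← Algebra.smul_def, map_smul, smul_eq_mul]

/-- **(K3a)** The glued element is not `0` modulo `π B'`. -/
theorem idem_not_zero (hπ : Prime π) (pb : PowerBasis F F') {U : F}
    (hgen : pb.gen ^ pb.dim = algebraMap F F' U) (hp : IsUnit (pb.dim : B)) {e : F'}
    (hd : GenDiv π (e - kummerEps pb.dim pb.gen)) :
    ¬ ∃ w : F', IsIntegral B w ∧ e = algebraMap B F' π * w := by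
  rintro ⟨w, hw, rfl⟩
  have : FiniteDimensional F F' := pb.finite
  obtain ⟨x', ⟨s, hs, hsx⟩, hx⟩ := hd
  have hp0 : (pb.dim : F) ≠ 0 := by
    have h : (pb.dim : F) = algebraMap B F (pb.dim : B) := (map_natCast (algebraMap B F) _).symm
    rw [h]
    exact fun h0 => hp.ne_zero (IsFractionRing.injective B F (h0.trans (map_zero _).symm))
  -- `s ε = π (s w - s x')`
  have h1 : algebraMap B F' s * kummerEps pb.dim pb.gen
      = algebraMap B F' π * (algebraMap B F' s * w - algebraMap B F' s * x') := by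
    linear_combination (-(algebraMap B F' s)) * hx
  obtain ⟨t, ht⟩ := trace_mem_base (F := F) ((isIntegral_algebraMap.mul hw).sub hsx)
  have h2 := congrArg (Algebra.trace F F') h1
  rw [trace_base_mul, trace_base_mul, trace_kummerEps pb hgen hp0, mul_one, ht, ← map_mul] at h2
  exact hs ⟨t, IsFractionRing.injective B F h2⟩

/-- **(K3b)** The glued element is not `1` modulo `π B'`. -/
theorem idem_not_one (hπ : Prime π) (pb : PowerBasis F F') {U : F}
    (hgen : pb.gen ^ pb.dim = algebraMap F F' U) (hp : IsUnit (pb.dim : B)) (hp2 : 2 ≤ pb.dim)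
    (hU : OneMod π U) {e : F'} (hd : GenDiv π (e - kummerEps pb.dim pb.gen)) :
    ¬ ∃ w : F', IsIntegral B w ∧ e - 1 = algebraMap B F' π * w := by
  rintro ⟨w, hw, hew⟩
  have : FiniteDimensional F F' := pb.finite
  obtain ⟨x', ⟨s, hs, hsx⟩, hx⟩ := hd
  have hp0 : (pb.dim : F) ≠ 0 := by
    have h : (pb.dim : F) = algebraMap B F (pb.dim : B) := (map_natCast (algebraMap B F) _).symm
    rw [h]
    exact fun h0 => hp.ne_zero (IsFractionRing.injective B F (h0.trans (map_zero _).symm))
  obtain ⟨d, u, hd', hu, hdu⟩ := hU.exists_den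
  -- `d y` is integral
  have hdy : IsIntegral B (algebraMap B F' d * pb.gen) := by
    refine IsIntegral.of_pow pb.dim_pos ?_
    have e : (algebraMap B F' d * pb.gen) ^ pb.dim = algebraMap B F' (d ^ (pb.dim - 1) * u) := by
      have hp1 : pb.dim = (pb.dim - 1) + 1 := (Nat.succ_pred_eq_of_pos pb.dim_pos).symm
      rw [mul_pow, hgen, map_mul, algebraMap_top_apply (F := F) u, ← hdu, map_mul,
        ← algebraMap_top_apply, map_pow]
      conv_lhs => rw [hp1, pow_succ]
      ring
    rw [e]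
    exact isIntegral_algebraMap
  set k := pb.dim - 1 with hk
  -- `s d^k (ε - 1) y^k = π (s w - s x') (d y)^k`
  have h1 : algebraMap B F' (s * d ^ k) * ((kummerEps pb.dim pb.gen - 1) * pb.gen ^ k)
      = algebraMap B F' π *
        ((algebraMap B F' s * w - algebraMap B F' s * x') * (algebraMap B F' d * pb.gen) ^ k) := by
    have h0 : kummerEps pb.dim pb.gen - 1 = algebraMap B F' π * (w - x') := by
      linear_combination hew - hx
    rw [h0, map_mul, map_pow]
    ring
  obtain ⟨t, ht⟩ := trace_mem_base (F := F)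
    (((isIntegral_algebraMap.mul hw).sub hsx).mul (hdy.pow k))
  have h2 := congrArg (Algebra.trace F F') h1
  rw [trace_base_mul, trace_base_mul, trace_kummerEps_sub_one_mul pb hgen hp0 hp2, ht] at h2
  -- multiply by `d` and use `d U = u`
  have h3 : algebraMap B F (s * d ^ k * u) = algebraMap B F (π * t * d) := by
    rw [map_mul (algebraMap B F) (s * d ^ k) u, ← hdu, map_mul (algebraMap B F) (π * t) d,
      map_mul (algebraMap B F) π t]
    linear_combination algebraMap B F d * h2
  have h4 : π ∣ s * d ^ k * u := ⟨t * d, by rw [IsFractionRing.injective B F h3]; ring⟩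
  rcases hπ.dvd_or_dvd h4 with h5 | h5
  · rcases hπ.dvd_or_dvd h5 with h6 | h6
    · exact hs h6
    · exact hd' (hπ.dvd_of_dvd_pow h6)
  · exact hu h5

end Nontrivial

section Transfer

variable {B C : Type*} [CommRing B] [CommRing C] [Algebra B C]
  {F' : Type*} [Field F'] [Algebra B F'] [Algebra C F'] [IsScalarTower B C F']

/-- Transfer of `B'_(π)`-membership to a bigger chart `C ⊇ B` in which `B` is `π`-saturated. -/
theorem GenInt.map {π : B} (hsat : ∀ s : B, algebraMap B C π ∣ algebraMap B C s → π ∣ s)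
    {x : F'} (hx : GenInt π x) : GenInt (algebraMap B C π) x := by
  obtain ⟨s, hs, hsx⟩ := hx
  refine ⟨algebraMap B C s, fun h => hs (hsat s h), ?_⟩
  rw [← IsScalarTower.algebraMap_apply B C F']
  exact hsx.tower_top

theorem GenDiv.map {π : B} (hsat : ∀ s : B, algebraMap B C π ∣ algebraMap B C s → π ∣ s)
    {x : F'} (hx : GenDiv π x) : GenDiv (algebraMap B C π) x := by
  obtain ⟨x', hx', rfl⟩ := hx
  exact ⟨x', hx'.map hsat, by rw [← IsScalarTower.algebraMap_apply B C F']⟩

end Transfer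

section TwoCharts

variable {B₀ B₁ C F F' : Type*} [CommRing B₀] [CommRing B₁]
  [CommRing C] [IsDomain C] [IsIntegrallyClosed C]
  [Field F] [Algebra C F] [IsFractionRing C F]
  [Field F'] [Algebra F F'] [Algebra C F'] [IsScalarTower C F F']
  [Algebra B₀ C] [Algebra B₀ F'] [IsScalarTower B₀ C F']
  [Algebra B₁ C] [Algebra B₁ F'] [IsScalarTower B₁ C F']

include F in
/-- **(K4)** Two charts `B₀`, `B₁` inside a common chart `C` (e.g. `C = B₀[1/t] = B₁[t]`), both
`π`-saturated in `C`: elements `e₀ ∈ B₀'`, `e₁ ∈ B₁'` congruent to the same `ε` modulo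
`π B₀'_(π)` resp. `π B₁'_(π)` are congruent modulo `π C'`. -/
theorem idem_compat {π₀ : B₀} {π₁ : B₁} (hπ : algebraMap B₀ C π₀ = algebraMap B₁ C π₁)
    (hπC : Prime (algebraMap B₀ C π₀))
    (hsat₀ : ∀ s : B₀, algebraMap B₀ C π₀ ∣ algebraMap B₀ C s → π₀ ∣ s)
    (hsat₁ : ∀ s : B₁, algebraMap B₁ C π₁ ∣ algebraMap B₁ C s → π₁ ∣ s)
    {ε e₀ e₁ : F'} (he₀ : IsIntegral B₀ e₀) (he₁ : IsIntegral B₁ e₁)
    (hd₀ : GenDiv π₀ (e₀ - ε)) (hd₁ : GenDiv π₁ (e₁ - ε)) :
    ∃ w : F', IsIntegral C w ∧ e₀ - e₁ = algebraMap C F' (algebraMap B₀ C π₀) * w := by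
  have h₀ : GenDiv (algebraMap B₀ C π₀) (e₀ - ε) := hd₀.map hsat₀
  have h₁ : GenDiv (algebraMap B₀ C π₀) (e₁ - ε) := by
    rw [hπ]
    exact hd₁.map hsat₁
  have h : GenDiv (algebraMap B₀ C π₀) (e₀ - e₁) := by
    have e : e₀ - e₁ = (e₀ - ε) - (e₁ - ε) := by ring
    rw [e]
    exact h₀.sub hπC h₁
  exact isIntegral_div_of_genDiv (F := F) hπC (he₀.tower_top.sub he₁.tower_top) h

end TwoCharts

end Fermat.Agent.S37.helper8173
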