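import Fermat.Agent.S37.helper4706_IdemCech
import Fermat.Agent.S37.helper8173_KummerIdem

/-!
# Torsion injectivity core: the Kummer cover of a two-chart model is trivial

Assembly of (N1)(b) (`helper8173_KummerIdem`: the nontrivial compatible idempotent pair on the
special fibre of the Kummer cover) with (N1)(c)-(d) (`helper4706_IdemCech`: compatible
idempotents on two charts are trivial when the Cech `H¹` is finitely generated).

`kummer_cech_false`: let `O` be a noetherian local ring, `π : O`, and `B₀, B₁ ⊆ C` three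
integrally closed domains with fraction field `F` (two charts and their overlap), `π` prime in
each of them, `B₀` and `B₁` `π`-saturated in `C`.  Let `F' = F(y)` with `y ^ p = U`,
`p = [F' : F] ≥ 2` invertible in `O`.  Assume `U ≡ 1` at the generic point of the special
fibre, the local Kummer hypothesis at every closed point of the special fibre of both charts,
that the only elements of `F'` integral over both charts are the constants from `O`, and that
the integral closure of `C` in `F'` is spanned, modulo those of `B₀` and `B₁`, by a finitely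
generated `O`-module.  Then `False`.
-/

set_option linter.unusedSectionVars false

namespace Fermat.Agent.S37.helper8173

open Fermat.Agent.S37

theorem kummer_cech_false
    {O B₀ B₁ C F F' : Type*} [CommRing O] [IsLocalRing O] [IsNoetherianRing O]
    [CommRing B₀] [IsDomain B₀] [IsIntegrallyClosed B₀]
    [CommRing B₁] [IsDomain B₁] [IsIntegrallyClosed B₁]
    [CommRing C] [IsDomain C] [IsIntegrallyClosed C]
    [Field F] [Field F'] [Algebra F F']
    [Algebra B₀ F] [IsFractionRing B₀ F] [Algebra B₀ F'] [IsScalarTower B₀ F F']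
    [Algebra B₁ F] [IsFractionRing B₁ F] [Algebra B₁ F'] [IsScalarTower B₁ F F']
    [Algebra C F] [IsFractionRing C F] [Algebra C F'] [IsScalarTower C F F']
    [Algebra B₀ C] [IsScalarTower B₀ C F'] [Algebra B₁ C] [IsScalarTower B₁ C F']
    [Algebra O B₀] [Algebra O B₁] [Algebra O C] [Algebra O F']
    [IsScalarTower O B₀ F'] [IsScalarTower O B₁ F'] [IsScalarTower O C F']
    (π : O)
    (hπ₀ : Prime (algebraMap O B₀ π)) (hπ₁ : Prime (algebraMap O B₁ π))
    (hπC : Prime (algebraMap O C π))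
    (hsat₀ : ∀ s : B₀, algebraMap O C π ∣ algebraMap B₀ C s → algebraMap O B₀ π ∣ s)
    (hsat₁ : ∀ s : B₁, algebraMap O C π ∣ algebraMap B₁ C s → algebraMap O B₁ π ∣ s)
    (pb : PowerBasis F F') {U : F} (hgen : pb.gen ^ pb.dim = algebraMap F F' U)
    (hp2 : 2 ≤ pb.dim) (hp : IsUnit (pb.dim : O))
    (hU₀ : OneMod (algebraMap O B₀ π) U) (hU₁ : OneMod (algebraMap O B₁ π) U)
    (H₀ : ∀ z : Ideal B₀, z.IsMaximal → algebraMap O B₀ π ∈ z →
      LocalKummer (algebraMap O B₀ π) pb.dim U z)
    (H₁ : ∀ z : Ideal B₁, z.IsMaximal → algebraMap O B₁ π ∈ z →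
      LocalKummer (algebraMap O B₁ π) pb.dim U z)
    (hinter : ∀ x : F', IsIntegral B₀ x → IsIntegral B₁ x → ∃ o : O, x = algebraMap O F' o)
    (hfg : ∃ V : Submodule O F', V.FG ∧ ∀ x : F', IsIntegral C x →
      ∃ v ∈ V, ∃ a b : F', IsIntegral B₀ a ∧ IsIntegral B₁ b ∧ x = v + a + b) :
    False := by
  -- the two primes agree in `C`
  have hCinj : Function.Injective (algebraMap C F') := algebraMap_top_injective (F := F)
  have hπC₀ : algebraMap B₀ C (algebraMap O B₀ π) = algebraMap O C π := by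
    apply hCinj
    rw [← IsScalarTower.algebraMap_apply B₀ C F', ← IsScalarTower.algebraMap_apply O B₀ F',
      ← IsScalarTower.algebraMap_apply O C F']
  have hπC₁ : algebraMap B₁ C (algebraMap O B₁ π) = algebraMap O C π := by
    apply hCinj
    rw [← IsScalarTower.algebraMap_apply B₁ C F', ← IsScalarTower.algebraMap_apply O B₁ F',
      ← IsScalarTower.algebraMap_apply O C F']
  have hp₀ : IsUnit (pb.dim : B₀) := by
    have := hp.map (algebraMap O B₀)
    rwa [map_natCast] at this
  have hp₁ : IsUnit (pb.dim : B₁) := by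
    have := hp.map (algebraMap O B₁)
    rwa [map_natCast] at this
  -- (K1) on both charts
  obtain ⟨e₀, he₀, hd₀⟩ := exists_idem hπ₀ hp₀ hgen hU₀ H₀
  obtain ⟨e₁, he₁, hd₁⟩ := exists_idem hπ₁ hp₁ hgen hU₁ H₁
  -- (K2)
  obtain ⟨w₀, hw₀, hew₀⟩ := idem_sq hπ₀ hp₀ hgen hU₀ he₀ hd₀
  obtain ⟨w₁, hw₁, hew₁⟩ := idem_sq hπ₁ hp₁ hgen hU₁ he₁ hd₁
  -- (K4)
  obtain ⟨w, hw, hew⟩ := idem_compat (F := F) (C := C) (hπC₀.trans hπC₁.symm)
    (by rw [hπC₀]; exact hπC) (by rw [hπC₀]; exact hsat₀) (by rw [hπC₁]; exact hsat₁)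
    he₀ he₁ hd₀ hd₁
  -- the three rings as `O`-subalgebras of `F'`
  let R₀ : Subalgebra O F' := (integralClosure B₀ F').restrictScalars O
  let R₁ : Subalgebra O F' := (integralClosure B₁ F').restrictScalars O
  let R : Subalgebra O F' := (integralClosure C F').restrictScalars O
  have hR₀ : R₀ ≤ R := fun x hx => by
    have hx' : IsIntegral B₀ x := hx
    exact (hx'.tower_top : IsIntegral C x)
  have hR₁ : R₁ ≤ R := fun x hx => by
    have hx' : IsIntegral B₁ x := hx
    exact (hx'.tower_top : IsIntegral C x)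
  let f₀ : R₀ →ₐ[O] R := Subalgebra.inclusion hR₀
  let f₁ : R₁ →ₐ[O] R := Subalgebra.inclusion hR₁
  have hπF₀ : algebraMap B₀ F' (algebraMap O B₀ π) = algebraMap O F' π :=
    (IsScalarTower.algebraMap_apply O B₀ F' π).symm
  have hπF₁ : algebraMap B₁ F' (algebraMap O B₁ π) = algebraMap O F' π :=
    (IsScalarTower.algebraMap_apply O B₁ F' π).symm
  have hπFC : algebraMap C F' (algebraMap B₀ C (algebraMap O B₀ π)) = algebraMap O F' π := by
    rw [hπC₀]
    exact (IsScalarTower.algebraMap_apply O C F' π).symm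
  have key := helper4706.idem_trivial_of_fg f₀ f₁ π ?_ ?_ (⟨e₀, he₀⟩ : R₀) (⟨e₁, he₁⟩ : R₁)
    ?_ ?_ ?_
  · rcases key with ⟨h, -⟩ | ⟨h, -⟩
    · obtain ⟨a, ha⟩ := Ideal.mem_span_singleton'.mp h
      refine idem_not_zero hπ₀ pb hgen hp₀ hd₀ ⟨(a : F'), a.2, ?_⟩
      have := congrArg (Subtype.val) ha
      rw [hπF₀, mul_comm]
      exact this.symm
    · obtain ⟨a, ha⟩ := Ideal.mem_span_singleton'.mp h
      refine idem_not_one hπ₀ pb hgen hp₀ hp2 hU₀ hd₀ ⟨(a : F'), a.2, ?_⟩
      have := congrArg (Subtype.val) ha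
      rw [hπF₀, mul_comm]
      exact this.symm
  · -- hinter
    intro x y hxy
    have hxy' : (x : F') = (y : F') := congrArg (Subtype.val) hxy
    obtain ⟨o, ho⟩ := hinter (x : F') x.2 (hxy' ▸ y.2)
    exact ⟨o, Subtype.ext ho, Subtype.ext (hxy' ▸ ho)⟩
  · -- hfg
    obtain ⟨V, hV, hVx⟩ := hfg
    refine ⟨V.comap R.val.toLinearMap, ?_, ?_⟩
    · have hVn : IsNoetherian O V := isNoetherian_of_fg_of_noetherian V hV
      let g : (V.comap R.val.toLinearMap) →ₗ[O] V :=
        { toFun := fun x => ⟨((x : R) : F'), x.2⟩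
          map_add' := fun _ _ => rfl
          map_smul' := fun _ _ => rfl }
      have hg : Function.Injective g := by
        intro x y hxy
        have h1 : ((x : R) : F') = ((y : R) : F') := congrArg (fun v : V => (v : F')) hxy
        exact Subtype.ext (Subtype.ext h1)
      have : IsNoetherian O (V.comap R.val.toLinearMap) := isNoetherian_of_injective g hg
      exact Module.Finite.iff_fg.mp inferInstance
    · rw [eq_top_iff]
      rintro ⟨x, hx⟩ -
      obtain ⟨v, hv, a, b, ha, hb, hxab⟩ := hVx x hx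
      have haC : IsIntegral C a := ha.tower_top
      have hbC : IsIntegral C b := hb.tower_top
      have hvC : IsIntegral C v := by
        have e : v = x - a - b := by rw [hxab]; ring
        rw [e]
        exact ((show IsIntegral C x from hx).sub haC).sub hbC
      refine Submodule.mem_sup.mpr ⟨⟨v, hvC⟩, hv, ⟨a + b, haC.add hbC⟩, ?_, ?_⟩
      · exact Submodule.mem_sup.mpr ⟨⟨a, haC⟩, ⟨⟨a, ha⟩, rfl⟩, ⟨b, hbC⟩, ⟨⟨b, hb⟩, rfl⟩, rfl⟩
      · apply Subtype.ext
        show v + (a + b) = x
        rw [hxab, add_assoc]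
  · -- e₀ idempotent mod π
    refine Ideal.mem_span_singleton'.mpr ⟨⟨w₀, hw₀⟩, Subtype.ext ?_⟩
    show w₀ * algebraMap O F' π = e₀ ^ 2 - e₀
    rw [hew₀, hπF₀, mul_comm]
  · refine Ideal.mem_span_singleton'.mpr ⟨⟨w₁, hw₁⟩, Subtype.ext ?_⟩
    show w₁ * algebraMap O F' π = e₁ ^ 2 - e₁
    rw [hew₁, hπF₁, mul_comm]
  · refine Ideal.mem_span_singleton'.mpr ⟨⟨w, hw⟩, Subtype.ext ?_⟩
    show w * algebraMap O F' π = e₀ - e₁
    rw [hew, hπFC, mul_comm]

end Fermat.Agent.S37.helper8173
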