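/-
S37/S18-CUSPREG (board #1266): TAME DESCENT OF FIBRE-REGULARITY.

`R → R'` commutative rings, `G` a finite group acting on `R'` with invariants `R`
(`Algebra.IsInvariant R R' G`), `|G|` invertible in `R`, `π : R`.
If at ONE prime `n'` of `R'` over a prime `z` of `R` the fibre `(R'/π)_{n'}` is a valuation
domain (e.g. `R'_{n'}` is noetherian with maximal ideal `(π, s)` and `π` generates a prime
ideal: the output of purity upstairs, where everything is unramified), then `(R/π)_z` is a
valuation domain too; if `R` is noetherian, the maximal ideal of `R_z` is `(π, u)` for some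
`u : R` and `π` generates a prime ideal of `R_z`.

Application: `R' =` integral closure of `B[s]/(s^e - g)` (Abhyankar), `G = μ_e`, `R =` integral
closure of `B`; the conclusion is the regularity of the integral model at the closed points of
the special fibre lying over the branch locus (the cusps).
-/
import Mathlib

set_option autoImplicit false

namespace Fermat.Agent.S37.helper8338

open Pointwise

section Defs

variable {R : Type*} [CommRing R]

/-- Divisibility is total in `(R/π)_z` (elementwise form, no localisation type). -/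
def FibreTotal (π : R) (z : Ideal R) : Prop :=
  ∀ x y : R, ∃ c : R, c ∉ z ∧ ∃ w : R,
    (c * y - w * x ∈ Ideal.span {π} ∨ c * x - w * y ∈ Ideal.span {π})

/-- `(R/π)_z` has no zero divisors (elementwise form, no localisation type). -/
def FibreDomain (π : R) (z : Ideal R) : Prop :=
  ∀ x y : R, x * y ∈ Ideal.span {π} →
    ∃ c : R, c ∉ z ∧ (c * x ∈ Ideal.span {π} ∨ c * y ∈ Ideal.span {π})

end Defs

section Colon

variable {A : Type*} [CommRing A]

/-- The ideal `{d | d * y ∈ J}`. -/
def colonIdeal (J : Ideal A) (y : A) : Ideal A where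
  carrier := {d | d * y ∈ J}
  add_mem' := fun {a b} ha hb => by
    show (a + b) * y ∈ J
    rw [add_mul]
    exact J.add_mem ha hb
  zero_mem' := by
    show (0 : A) * y ∈ J
    rw [zero_mul]
    exact J.zero_mem
  smul_mem' := fun c d hd => by
    show c • d * y ∈ J
    rw [smul_eq_mul, mul_assoc]
    exact J.mul_mem_left c hd

theorem mem_colonIdeal {J : Ideal A} {y d : A} : d ∈ colonIdeal J y ↔ d * y ∈ J := Iff.rfl

end Colon

section Descent

variable {R R' : Type*} [CommRing R] [CommRing R'] [Algebra R R']
variable (G : Type*) [Group G] [Finite G] [MulSemiringAction G R'] [SMulCommClass G R R']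
  [Algebra.IsInvariant R R' G]

include G in
/-- A `G`-stable ideal of `R'` which avoids one prime over `z` meets `R` outside `z`. -/
theorem exists_notMem_of_stable (I : Ideal R')
    (hI : ∀ (g : G) (x : R'), x ∈ I → g • x ∈ I)
    (z : Ideal R) [z.IsPrime] (n' : Ideal R') [n'.IsPrime]
    (hn' : n'.comap (algebraMap R R') = z) (hIn : ¬ I ≤ n') :
    ∃ c : R, c ∉ z ∧ algebraMap R R' c ∈ I := by
  by_contra hcon
  have hle : I.comap (algebraMap R R') ≤ z := by
    intro c hc
    by_contra hcz
    exact hcon ⟨c, hcz, hc⟩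
  have hint : Algebra.IsIntegral R R' := Algebra.IsInvariant.isIntegral R R' G
  obtain ⟨Q, hIQ, hQp, hQ⟩ := Ideal.exists_ideal_over_prime_of_isIntegral z I hle
  obtain ⟨g, hg⟩ := Algebra.IsInvariant.exists_smul_of_under_eq R R' G n' Q
    (by rw [Ideal.under_def, Ideal.under_def, hn', hQ])
  apply hIn
  intro x hx
  have h1 : g • x ∈ Q := hIQ (hI g x hx)
  rw [hg] at h1
  exact Ideal.smul_mem_pointwise_smul_iff.mp h1

omit [Finite G] [SMulCommClass G R R'] in
include G in
/-- The sum over `G` of the translates of an element comes from `R`. -/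
theorem exists_algebraMap_eq_sum [Fintype G] (w : R') :
    ∃ a : R, algebraMap R R' a = ∑ g : G, g • w := by
  apply Algebra.IsInvariant.isInvariant (A := R) (G := G)
  intro g
  rw [Finset.smul_sum]
  exact Fintype.sum_equiv (Equiv.mulLeft g) (fun h => g • h • w) (fun h => h • w)
    (fun h => by simp [mul_smul])

include G in
/-- Averaging a relation `c * y = a * x + b * π` with `c, x, y, π` coming from `R`. -/
theorem descend_relation (hcard : IsUnit ((Nat.card G : ℕ) : R))
    (hinj : Function.Injective (algebraMap R R')) (c x y π : R) (a b : R')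
    (h : algebraMap R R' c * algebraMap R R' y
      = a * algebraMap R R' x + b * algebraMap R R' π) :
    ∃ a₀ b₀ : R, c * y = a₀ * x + b₀ * π := by
  classical
  cases nonempty_fintype G
  obtain ⟨A, hA⟩ := exists_algebraMap_eq_sum (R := R) G a
  obtain ⟨B, hB⟩ := exists_algebraMap_eq_sum (R := R) G b
  obtain ⟨v, hv⟩ := hcard.exists_left_inv
  have hsum : ∑ g : G, g • (algebraMap R R' c * algebraMap R R' y)
      = ∑ g : G, g • (a * algebraMap R R' x + b * algebraMap R R' π) := by rw [h]
  have hL : ∑ g : G, g • (algebraMap R R' c * algebraMap R R' y)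
      = algebraMap R R' (((Nat.card G : ℕ) : R) * (c * y)) := by
    simp only [smul_mul', smul_algebraMap, Finset.sum_const, Finset.card_univ, nsmul_eq_mul,
      map_mul, map_natCast, Nat.card_eq_fintype_card]
  have hR : ∑ g : G, g • (a * algebraMap R R' x + b * algebraMap R R' π)
      = algebraMap R R' (A * x + B * π) := by
    simp only [smul_add, smul_mul', smul_algebraMap, Finset.sum_add_distrib, ← Finset.sum_mul,
      map_add, map_mul, hA, hB]
  rw [hL, hR] at hsum
  have h2 := hinj hsum
  refine ⟨v * A, v * B, ?_⟩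
  calc c * y = (v * ((Nat.card G : ℕ) : R)) * (c * y) := by rw [hv, one_mul]
    _ = v * (((Nat.card G : ℕ) : R) * (c * y)) := by ring
    _ = v * (A * x + B * π) := by rw [h2]
    _ = v * A * x + v * B * π := by ring

include G in
/-- **Descent of total divisibility on the fibre.** -/
theorem fibreTotal_descent (π : R) (hcard : IsUnit ((Nat.card G : ℕ) : R))
    (hinj : Function.Injective (algebraMap R R'))
    (z : Ideal R) [z.IsPrime] (n' : Ideal R') [n'.IsPrime]
    (hn' : n'.comap (algebraMap R R') = z)
    (h : FibreTotal (algebraMap R R' π) n') : FibreTotal π z := by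
  have key : ∀ x y : R, (∃ c' : R', c' ∉ n' ∧ ∃ w' : R',
      c' * algebraMap R R' y - w' * algebraMap R R' x ∈ Ideal.span {algebraMap R R' π}) →
      ∃ c : R, c ∉ z ∧ ∃ w : R, c * y - w * x ∈ Ideal.span {π} := by
    rintro x y ⟨c', hc', w', hw'⟩
    let J : Ideal R' := Ideal.span {algebraMap R R' x, algebraMap R R' π}
    let I : Ideal R' := colonIdeal J (algebraMap R R' y)
    have hmem : ∀ d : R', d ∈ I ↔ d * algebraMap R R' y ∈ J := fun d => mem_colonIdeal
    have hJ : ∀ (g : G) (d : R'), d ∈ J → g • d ∈ J := by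
      intro g d hd
      obtain ⟨a, b, rfl⟩ := Ideal.mem_span_pair.mp hd
      rw [smul_add, smul_mul', smul_mul', smul_algebraMap, smul_algebraMap]
      exact Ideal.mem_span_pair.mpr ⟨g • a, g • b, rfl⟩
    have hI : ∀ (g : G) (d : R'), d ∈ I → g • d ∈ I := by
      intro g d hd
      rw [hmem] at hd ⊢
      have := hJ g _ hd
      rwa [smul_mul', smul_algebraMap] at this
    have hc'I : c' ∈ I := by
      rw [hmem]
      obtain ⟨b, hb⟩ := Ideal.mem_span_singleton'.mp hw'
      refine Ideal.mem_span_pair.mpr ⟨w', b, ?_⟩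
      rw [hb]; ring
    have hIn : ¬ I ≤ n' := fun hle => hc' (hle hc'I)
    obtain ⟨c, hcz, hcI⟩ := exists_notMem_of_stable G I hI z n' hn' hIn
    rw [hmem] at hcI
    obtain ⟨a, b, hab⟩ := Ideal.mem_span_pair.mp hcI
    obtain ⟨a₀, b₀, h0⟩ := descend_relation G hcard hinj c x y π a b hab.symm
    refine ⟨c, hcz, a₀, Ideal.mem_span_singleton'.mpr ⟨b₀, ?_⟩⟩
    rw [h0]; ring
  intro x y
  obtain ⟨c', hc', w', hw'⟩ := h (algebraMap R R' x) (algebraMap R R' y)
  rcases hw' with hw' | hw'
  · obtain ⟨c, hc, w, hw⟩ := key x y ⟨c', hc', w', hw'⟩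
    exact ⟨c, hc, w, Or.inl hw⟩
  · obtain ⟨c, hc, w, hw⟩ := key y x ⟨c', hc', w', hw'⟩
    exact ⟨c, hc, w, Or.inr hw⟩

include G in
/-- **Descent of the domain property of the fibre.** -/
theorem fibreDomain_descent (π : R) (hcard : IsUnit ((Nat.card G : ℕ) : R))
    (hinj : Function.Injective (algebraMap R R'))
    (z : Ideal R) [z.IsPrime] (n' : Ideal R') [n'.IsPrime]
    (hn' : n'.comap (algebraMap R R') = z)
    (h : FibreDomain (algebraMap R R' π) n') : FibreDomain π z := by
  have key : ∀ x : R, (∃ c' : R', c' ∉ n' ∧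
      c' * algebraMap R R' x ∈ Ideal.span {algebraMap R R' π}) →
      ∃ c : R, c ∉ z ∧ c * x ∈ Ideal.span {π} := by
    rintro x ⟨c', hc', hw'⟩
    let J : Ideal R' := Ideal.span {algebraMap R R' π}
    let I : Ideal R' := colonIdeal J (algebraMap R R' x)
    have hmem : ∀ d : R', d ∈ I ↔ d * algebraMap R R' x ∈ J := fun d => mem_colonIdeal
    have hJ : ∀ (g : G) (d : R'), d ∈ J → g • d ∈ J := by
      intro g d hd
      obtain ⟨a, rfl⟩ := Ideal.mem_span_singleton'.mp hd
      rw [smul_mul', smul_algebraMap]
      exact Ideal.mem_span_singleton'.mpr ⟨g • a, rfl⟩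
    have hI : ∀ (g : G) (d : R'), d ∈ I → g • d ∈ I := by
      intro g d hd
      rw [hmem] at hd ⊢
      have := hJ g _ hd
      rwa [smul_mul', smul_algebraMap] at this
    have hc'I : c' ∈ I := (hmem c').mpr hw'
    have hIn : ¬ I ≤ n' := fun hle => hc' (hle hc'I)
    obtain ⟨c, hcz, hcI⟩ := exists_notMem_of_stable G I hI z n' hn' hIn
    rw [hmem] at hcI
    obtain ⟨b, hb⟩ := Ideal.mem_span_singleton'.mp hcI
    obtain ⟨a₀, b₀, h0⟩ := descend_relation G hcard hinj c 0 x π 0 b
      (by rw [map_zero, mul_zero, zero_add, hb])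
    refine ⟨c, hcz, Ideal.mem_span_singleton'.mpr ⟨b₀, ?_⟩⟩
    rw [h0]; ring
  intro x y hxy
  have hxy' : algebraMap R R' x * algebraMap R R' y ∈ Ideal.span {algebraMap R R' π} := by
    obtain ⟨b, hb⟩ := Ideal.mem_span_singleton'.mp hxy
    exact Ideal.mem_span_singleton'.mpr ⟨algebraMap R R' b, by rw [← map_mul, ← map_mul, hb]⟩
  obtain ⟨c', hc', hw'⟩ := h _ _ hxy'
  rcases hw' with hw' | hw'
  · obtain ⟨c, hc, hw⟩ := key x ⟨c', hc', hw'⟩
    exact ⟨c, hc, Or.inl hw⟩
  · obtain ⟨c, hc, hw⟩ := key y ⟨c', hc', hw'⟩
    exact ⟨c, hc, Or.inr hw⟩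

end Descent

section Loc

variable {R : Type*} [CommRing R] (π : R) (z : Ideal R) [z.IsPrime]
variable (S : Type*) [CommRing S] [Algebra R S] [IsLocalization.AtPrime S z]

/-- Membership of an element of `R` in `π S`, `S = R_z`. -/
theorem algebraMap_mem_span_iff (r : R) :
    algebraMap R S r ∈ Ideal.span {algebraMap R S π} ↔
      ∃ c : R, c ∉ z ∧ c * r ∈ Ideal.span {π} := by
  constructor
  · intro h
    obtain ⟨a, ha⟩ := Ideal.mem_span_singleton'.mp h
    obtain ⟨m, s, rfl⟩ := IsLocalization.exists_mk'_eq z.primeCompl a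
    have h1 : algebraMap R S (m * π) = algebraMap R S (r * s) := by
      rw [map_mul, map_mul, ← ha, mul_comm (IsLocalization.mk' S m s) (algebraMap R S π),
        mul_assoc, IsLocalization.mk'_spec, mul_comm]
    obtain ⟨t, ht⟩ := (IsLocalization.eq_iff_exists z.primeCompl S).mp h1
    refine ⟨t * s, z.primeCompl.mul_mem t.2 s.2, Ideal.mem_span_singleton'.mpr ⟨t * m, ?_⟩⟩
    calc (t : R) * m * π = t * (m * π) := by ring
      _ = t * (r * s) := ht
      _ = t * s * r := by ring
  · rintro ⟨c, hc, hcr⟩
    have hu : IsUnit (algebraMap R S c) := IsLocalization.map_units S (⟨c, hc⟩ : z.primeCompl)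
    obtain ⟨a, ha⟩ := Ideal.mem_span_singleton'.mp hcr
    have h2 : algebraMap R S c * algebraMap R S r ∈ Ideal.span {algebraMap R S π} := by
      rw [← map_mul, ← ha, map_mul]
      exact Ideal.mem_span_singleton'.mpr ⟨algebraMap R S a, rfl⟩
    exact (Ideal.unit_mul_mem_iff_mem _ hu).mp h2

/-- From the elementwise domain property to primality of `π S`. -/
theorem span_isPrime_of_fibreDomain (hπ : π ∈ z) (h : FibreDomain π z) :
    (Ideal.span {algebraMap R S π}).IsPrime := by
  refine ⟨?_, ?_⟩
  · rw [Ne, Ideal.span_singleton_eq_top, IsLocalization.AtPrime.isUnit_to_map_iff S z]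
    exact fun hc => hc hπ
  · intro a b hab
    obtain ⟨x, s, rfl⟩ := IsLocalization.exists_mk'_eq z.primeCompl a
    obtain ⟨y, t, rfl⟩ := IsLocalization.exists_mk'_eq z.primeCompl b
    rw [← IsLocalization.mk'_mul, IsLocalization.mk'_mem_iff,
      algebraMap_mem_span_iff π z S] at hab
    obtain ⟨c₀, hc₀, hc₀xy⟩ := hab
    obtain ⟨c, hc, hcc⟩ := h (c₀ * x) y (by rwa [mul_assoc])
    rw [IsLocalization.mk'_mem_iff, IsLocalization.mk'_mem_iff, algebraMap_mem_span_iff π z S,
      algebraMap_mem_span_iff π z S]
    rcases hcc with hcc | hcc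
    · exact Or.inl ⟨c * c₀, fun hmem => (‹z.IsPrime›.mem_or_mem hmem).elim hc hc₀,
        by rwa [mul_assoc]⟩
    · exact Or.inr ⟨c, hc, hcc⟩

/-- From primality of `π S` to the elementwise domain property. -/
theorem fibreDomain_of_span_isPrime (h : (Ideal.span {algebraMap R S π}).IsPrime) :
    FibreDomain π z := by
  intro x y hxy
  have hxy' : algebraMap R S x * algebraMap R S y ∈ Ideal.span {algebraMap R S π} := by
    obtain ⟨b, hb⟩ := Ideal.mem_span_singleton'.mp hxy
    exact Ideal.mem_span_singleton'.mpr ⟨algebraMap R S b, by rw [← map_mul, ← map_mul, hb]⟩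
  rcases h.mem_or_mem hxy' with h1 | h1
  · obtain ⟨c, hc, hcx⟩ := (algebraMap_mem_span_iff π z S x).mp h1
    exact ⟨c, hc, Or.inl hcx⟩
  · obtain ⟨c, hc, hcy⟩ := (algebraMap_mem_span_iff π z S y).mp h1
    exact ⟨c, hc, Or.inr hcy⟩

/-- Total divisibility on the fibre, read in the localisation. -/
theorem mem_span_pair_or_of_fibreTotal (h : FibreTotal π z) (x y : R) :
    algebraMap R S y ∈ Ideal.span {algebraMap R S π, algebraMap R S x} ∨
      algebraMap R S x ∈ Ideal.span {algebraMap R S π, algebraMap R S y} := by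
  have key : ∀ x y c w : R, c ∉ z → c * y - w * x ∈ Ideal.span {π} →
      algebraMap R S y ∈ Ideal.span {algebraMap R S π, algebraMap R S x} := by
    intro x y c w hc hw
    have hu : IsUnit (algebraMap R S c) := IsLocalization.map_units S (⟨c, hc⟩ : z.primeCompl)
    obtain ⟨b, hb⟩ := Ideal.mem_span_singleton'.mp hw
    have h2 : algebraMap R S c * algebraMap R S y ∈
        Ideal.span {algebraMap R S π, algebraMap R S x} := by
      refine Ideal.mem_span_pair.mpr ⟨algebraMap R S b, algebraMap R S w, ?_⟩
      rw [← map_mul, ← map_mul, ← map_mul, ← map_add, hb]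
      congr 1; ring
    exact (Ideal.unit_mul_mem_iff_mem _ hu).mp h2
  obtain ⟨c, hc, w, hw⟩ := h x y
  rcases hw with hw | hw
  · exact Or.inl (key x y c w hc hw)
  · exact Or.inr (key y x c w hc hw)

/-- A finite nonempty set of elements of `R` has a least element for divisibility on the fibre. -/
theorem exists_least_of_fibreTotal (h : FibreTotal π z) (T : Finset R) (hT : T.Nonempty) :
    ∃ a ∈ T, ∀ b ∈ T, algebraMap R S b ∈ Ideal.span {algebraMap R S π, algebraMap R S a} := by
  classical
  induction hT using Finset.Nonempty.cons_induction with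
  | singleton a =>
    refine ⟨a, Finset.mem_singleton_self a, fun b hb => ?_⟩
    rw [Finset.mem_singleton.mp hb]
    exact Ideal.subset_span (by simp)
  | cons b T hb hT ih =>
    obtain ⟨a, haT, ha⟩ := ih
    rcases mem_span_pair_or_of_fibreTotal π z S h a b with hab | hba
    · refine ⟨a, Finset.mem_cons.mpr (Or.inr haT), fun c hc => ?_⟩
      rcases Finset.mem_cons.mp hc with rfl | hc
      · exact hab
      · exact ha c hc
    · refine ⟨b, Finset.mem_cons_self b T, fun c hc => ?_⟩
      rcases Finset.mem_cons.mp hc with rfl | hc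
      · exact Ideal.subset_span (by simp)
      · have hle2 : Ideal.span {algebraMap R S π, algebraMap R S a} ≤
            Ideal.span {algebraMap R S π, algebraMap R S b} := by
          rw [Ideal.span_le]
          rintro u (rfl | rfl)
          · exact Ideal.subset_span (by simp)
          · exact hba
        exact hle2 (ha c hc)

/-- **Two generators.** If `R` is noetherian and divisibility is total on the fibre at `z`,
then `z R_z = (π, u)` for some `u ∈ z`. -/
theorem exists_map_eq_span_pair [IsNoetherianRing R] (hπ : π ∈ z) (h : FibreTotal π z) :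
    ∃ u : R, u ∈ z ∧
      Ideal.map (algebraMap R S) z = Ideal.span {algebraMap R S π, algebraMap R S u} := by
  classical
  obtain ⟨T, hT⟩ : ∃ T : Finset R, Ideal.span (T : Set R) = z :=
    (isNoetherianRing_iff_ideal_fg R).mp inferInstance z
  rcases T.eq_empty_or_nonempty with hemp | hne
  · refine ⟨0, z.zero_mem, ?_⟩
    have hz : z = ⊥ := by rw [← hT, hemp]; simp
    have hπ0 : π = 0 := by rw [hz] at hπ; simpa using hπ
    rw [hz, hπ0, Ideal.map_bot]
    simp
  · obtain ⟨a, haT, ha⟩ := exists_least_of_fibreTotal π z S h T hne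
    have haz : a ∈ z := by rw [← hT]; exact Ideal.subset_span haT
    refine ⟨a, haz, le_antisymm ?_ ?_⟩
    · rw [← hT, Ideal.map_span, Ideal.span_le]
      rintro _ ⟨b, hb, rfl⟩
      exact ha b hb
    · rw [Ideal.span_le]
      rintro u (rfl | rfl)
      · exact Ideal.mem_map_of_mem _ hπ
      · exact Ideal.mem_map_of_mem _ haz

end Loc

section Upstairs

variable {R : Type*} [CommRing R] (π : R) (z : Ideal R) [z.IsPrime]
variable (S : Type*) [CommRing S] [Algebra R S] [IsLocalization.AtPrime S z]

/-- A divisibility relation modulo `π` in `R_z` between elements of `R`, read in `R`. -/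
theorem exists_of_mul_sub_mem (x y : R) (c₀ : S)
    (h : algebraMap R S x * c₀ - algebraMap R S y ∈ Ideal.span {algebraMap R S π}) :
    ∃ c : R, c ∉ z ∧ ∃ w : R, c * y - w * x ∈ Ideal.span {π} := by
  obtain ⟨w, t, rfl⟩ := IsLocalization.exists_mk'_eq z.primeCompl c₀
  have h1 : algebraMap R S (w * x - t * y) ∈ Ideal.span {algebraMap R S π} := by
    have h2 : algebraMap R S (w * x - t * y)
        = algebraMap R S t * (algebraMap R S x * IsLocalization.mk' S w t - algebraMap R S y) := by
      rw [mul_sub, mul_left_comm, IsLocalization.mk'_spec', map_sub, map_mul, map_mul]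
      ring
    rw [h2]
    exact Ideal.mul_mem_left _ _ h
  obtain ⟨c₁, hc₁, hc⟩ := (algebraMap_mem_span_iff π z S _).mp h1
  refine ⟨c₁ * t, z.primeCompl.mul_mem hc₁ t.2, c₁ * w, ?_⟩
  have h3 : c₁ * t * y - c₁ * w * x = -(c₁ * (w * x - t * y)) := by ring
  rw [h3]
  exact neg_mem hc

/-- **Purity output ⟹ fibre valuation.** If `R_z` is noetherian, `π R_z` is prime and
`z R_z = (π, s)`, then divisibility is total on the fibre `(R/π)_z`. -/
theorem fibreTotal_of_map_eq_span_pair [IsNoetherianRing S]
    (hprime : (Ideal.span {algebraMap R S π}).IsPrime) (s : S)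
    (hmax : Ideal.map (algebraMap R S) z = Ideal.span {algebraMap R S π, s}) :
    FibreTotal π z := by
  classical
  haveI : IsLocalRing S := IsLocalization.AtPrime.isLocalRing S z
  have hm : IsLocalRing.maximalIdeal S = Ideal.span {algebraMap R S π, s} := by
    rw [← hmax, IsLocalization.AtPrime.map_eq_maximalIdeal z S]
  let P : Ideal S := Ideal.span {algebraMap R S π}
  haveI hP : P.IsPrime := hprime
  have hsm : s ∈ IsLocalRing.maximalIdeal S := by
    rw [hm]; exact Ideal.subset_span (by simp)
  have hPm : P ≤ IsLocalRing.maximalIdeal S := by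
    rw [hm]
    exact Ideal.span_mono (by simp)
  haveI : IsLocalRing (S ⧸ P) :=
    IsLocalRing.of_surjective' (Ideal.Quotient.mk P) Ideal.Quotient.mk_surjective
  have hval : ∀ a b : S ⧸ P, ∃ c : S ⧸ P, a * c = b ∨ b * c = a := by
    by_cases hf : IsField (S ⧸ P)
    · intro a b
      by_cases ha : a = 0
      · exact ⟨0, Or.inr (by rw [ha, mul_zero])⟩
      · obtain ⟨a', ha'⟩ := hf.mul_inv_cancel ha
        exact ⟨a' * b, Or.inl (by rw [← mul_assoc, ha', one_mul])⟩
    · have hspan : Ideal.map (Ideal.Quotient.mk P) (IsLocalRing.maximalIdeal S)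
          = Ideal.span {Ideal.Quotient.mk P s} := by
        rw [hm, Ideal.map_span, Set.image_pair]
        have h0 : Ideal.Quotient.mk P (algebraMap R S π) = 0 :=
          Ideal.Quotient.eq_zero_iff_mem.mpr (Ideal.subset_span rfl)
        rw [h0]
        apply le_antisymm
        · rw [Ideal.span_le]
          rintro u (rfl | rfl)
          · exact Ideal.zero_mem _
          · exact Ideal.subset_span rfl
        · exact Ideal.span_mono (by simp)
      have hmaxD : IsLocalRing.maximalIdeal (S ⧸ P) = Ideal.span {Ideal.Quotient.mk P s} := by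
        rw [← hspan]
        symm
        apply IsLocalRing.eq_maximalIdeal
        rcases Ideal.map_eq_top_or_isMaximal_of_surjective (Ideal.Quotient.mk P)
          Ideal.Quotient.mk_surjective (IsLocalRing.maximalIdeal.isMaximal S) with htop | hmx
        · exfalso
          have h1 : (1 : S ⧸ P) ∈ Ideal.map (Ideal.Quotient.mk P) (IsLocalRing.maximalIdeal S) := by
            rw [htop]; trivial
          obtain ⟨t, ht, ht1⟩ := (Ideal.mem_map_iff_of_surjective (Ideal.Quotient.mk P)
            Ideal.Quotient.mk_surjective).mp h1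
          have h2 : t - 1 ∈ P := by
            rw [← Ideal.Quotient.eq_zero_iff_mem, map_sub, ht1, map_one, sub_self]
          have h3 : (1 : S) ∈ IsLocalRing.maximalIdeal S := by
            have := sub_mem ht (hPm h2)
            simpa using this
          exact (Ideal.ne_top_iff_one _).mp (IsLocalRing.maximalIdeal.isMaximal S).ne_top h3
        · exact hmx
      have hprinc : (IsLocalRing.maximalIdeal (S ⧸ P)).IsPrincipal := by
        rw [hmaxD]
        exact ⟨⟨_, rfl⟩⟩
      haveI : ValuationRing (S ⧸ P) :=
        ((IsDiscreteValuationRing.TFAE (S ⧸ P) hf).out 4 1).mp hprinc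
      intro a b
      exact ValuationRing.cond a b
  intro x y
  obtain ⟨c, hc⟩ := hval (Ideal.Quotient.mk P (algebraMap R S x))
    (Ideal.Quotient.mk P (algebraMap R S y))
  obtain ⟨c₀, rfl⟩ := Ideal.Quotient.mk_surjective c
  rcases hc with hc | hc
  · have h1 : algebraMap R S x * c₀ - algebraMap R S y ∈ Ideal.span {algebraMap R S π} := by
      rw [← map_mul] at hc
      exact Ideal.Quotient.eq.mp hc
    obtain ⟨c, hcz, w, hw⟩ := exists_of_mul_sub_mem π z S x y c₀ h1
    exact ⟨c, hcz, w, Or.inl hw⟩
  · have h1 : algebraMap R S y * c₀ - algebraMap R S x ∈ Ideal.span {algebraMap R S π} := by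
      rw [← map_mul] at hc
      exact Ideal.Quotient.eq.mp hc
    obtain ⟨c, hcz, w, hw⟩ := exists_of_mul_sub_mem π z S y x c₀ h1
    exact ⟨c, hcz, w, Or.inr hw⟩

end Upstairs

section Main

variable {R R' : Type*} [CommRing R] [CommRing R'] [Algebra R R'] [IsNoetherianRing R]
variable (G : Type*) [Group G] [Finite G] [MulSemiringAction G R'] [SMulCommClass G R R']
  [Algebra.IsInvariant R R' G]

include G in
/-- **Tame descent of fibre-regularity, elementwise hypothesis.** -/
theorem regular_of_fibre (π : R) (hcard : IsUnit ((Nat.card G : ℕ) : R))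
    (hinj : Function.Injective (algebraMap R R'))
    (z : Ideal R) [z.IsPrime] (hπz : π ∈ z)
    (n' : Ideal R') [n'.IsPrime] (hn' : n'.comap (algebraMap R R') = z)
    (htot : FibreTotal (algebraMap R R' π) n') (hdom : FibreDomain (algebraMap R R' π) n')
    (S : Type*) [CommRing S] [Algebra R S] [IsLocalization.AtPrime S z] :
    (Ideal.span {algebraMap R S π}).IsPrime ∧
      ∃ u : R, u ∈ z ∧
        Ideal.map (algebraMap R S) z = Ideal.span {algebraMap R S π, algebraMap R S u} :=
  ⟨span_isPrime_of_fibreDomain π z S hπz (fibreDomain_descent G π hcard hinj z n' hn' hdom),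
    exists_map_eq_span_pair π z S hπz (fibreTotal_descent G π hcard hinj z n' hn' htot)⟩

include G in
/-- **Tame descent of fibre-regularity.**  `R = (R')^G`, `|G|` invertible in `R`, `R` noetherian,
`z` a prime of `R` containing `π`, `n'` ONE prime of `R'` over `z` such that `R'_{n'}` is
noetherian, `π R'_{n'}` is prime and `n' R'_{n'} = (π, s)`.  Then `π R_z` is prime and
`z R_z = (π, u)` for some `u ∈ z`. -/
theorem tame_descent_regular (π : R) (hcard : IsUnit ((Nat.card G : ℕ) : R))
    (hinj : Function.Injective (algebraMap R R'))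
    (z : Ideal R) [z.IsPrime] (hπz : π ∈ z)
    (n' : Ideal R') [n'.IsPrime] (hn' : n'.comap (algebraMap R R') = z)
    (S' : Type*) [CommRing S'] [Algebra R' S'] [IsLocalization.AtPrime S' n']
    [IsNoetherianRing S']
    (hprime' : (Ideal.span {algebraMap R' S' (algebraMap R R' π)}).IsPrime) (s : S')
    (hmax' : Ideal.map (algebraMap R' S') n'
      = Ideal.span {algebraMap R' S' (algebraMap R R' π), s})
    (S : Type*) [CommRing S] [Algebra R S] [IsLocalization.AtPrime S z] :
    (Ideal.span {algebraMap R S π}).IsPrime ∧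
      ∃ u : R, u ∈ z ∧
        Ideal.map (algebraMap R S) z = Ideal.span {algebraMap R S π, algebraMap R S u} :=
  regular_of_fibre G π hcard hinj z hπz n' hn'
    (fibreTotal_of_map_eq_span_pair (algebraMap R R' π) n' S' hprime' s hmax')
    (fibreDomain_of_span_isPrime (algebraMap R R' π) n' S' hprime') S

include G in
/-- The same with `Localization.AtPrime` and `IsLocalRing.maximalIdeal` (the shape consumed by
the local-section / Kummer leaves). -/
theorem tame_descent_regular_localization [IsNoetherianRing R']
    (π : R) (hcard : IsUnit ((Nat.card G : ℕ) : R))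
    (hinj : Function.Injective (algebraMap R R'))
    (z : Ideal R) [z.IsPrime] (hπz : π ∈ z)
    (n' : Ideal R') [n'.IsPrime] (hn' : n'.comap (algebraMap R R') = z)
    (hprime' : (Ideal.span {algebraMap R' (Localization.AtPrime n')
      (algebraMap R R' π)}).IsPrime) (s : Localization.AtPrime n')
    (hmax' : IsLocalRing.maximalIdeal (Localization.AtPrime n')
      = Ideal.span {algebraMap R' (Localization.AtPrime n') (algebraMap R R' π), s}) :
    (Ideal.span {algebraMap R (Localization.AtPrime z) π}).IsPrime ∧
      ∃ u : R, u ∈ z ∧ IsLocalRing.maximalIdeal (Localization.AtPrime z)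
        = Ideal.span {algebraMap R (Localization.AtPrime z) π,
            algebraMap R (Localization.AtPrime z) u} := by
  have h := tame_descent_regular G π hcard hinj z hπz n' hn' (Localization.AtPrime n') hprime' s
    (by rw [IsLocalization.AtPrime.map_eq_maximalIdeal n' (Localization.AtPrime n'), hmax'])
    (Localization.AtPrime z)
  rw [IsLocalization.AtPrime.map_eq_maximalIdeal z (Localization.AtPrime z)] at h
  exact h

include G in
/-- Element form for a domain: `π` is a prime element of `R_z` and `m_z = (π, u)`. -/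
theorem tame_descent_regular_prime [IsDomain R] [IsNoetherianRing R']
    (π : R) (hπ0 : π ≠ 0) (hcard : IsUnit ((Nat.card G : ℕ) : R))
    (hinj : Function.Injective (algebraMap R R'))
    (z : Ideal R) [z.IsPrime] (hπz : π ∈ z)
    (n' : Ideal R') [n'.IsPrime] (hn' : n'.comap (algebraMap R R') = z)
    (hprime' : (Ideal.span {algebraMap R' (Localization.AtPrime n')
      (algebraMap R R' π)}).IsPrime) (s : Localization.AtPrime n')
    (hmax' : IsLocalRing.maximalIdeal (Localization.AtPrime n')
      = Ideal.span {algebraMap R' (Localization.AtPrime n') (algebraMap R R' π), s}) :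
    Prime (algebraMap R (Localization.AtPrime z) π) ∧
      ∃ u : R, u ∈ z ∧ IsLocalRing.maximalIdeal (Localization.AtPrime z)
        = Ideal.span {algebraMap R (Localization.AtPrime z) π,
            algebraMap R (Localization.AtPrime z) u} := by
  obtain ⟨h1, h2⟩ := tame_descent_regular_localization G π hcard hinj z hπz n' hn' hprime' s hmax'
  refine ⟨?_, h2⟩
  have hne : algebraMap R (Localization.AtPrime z) π ≠ 0 := by
    intro h0
    apply hπ0
    have hinj' : Function.Injective (algebraMap R (Localization.AtPrime z)) :=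
      IsLocalization.injective (Localization.AtPrime z) z.primeCompl_le_nonZeroDivisors
    exact hinj' (by rw [h0, map_zero])
  exact (Ideal.span_singleton_prime hne).mp h1

end Main

end Fermat.Agent.S37.helper8338
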