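import Fermat.Agent.S37.helper8426_RelNorm

/-!
# S37 (helper8426): dictionary between the places of `F'` over a place `v` of `F` and the
nonzero primes of the integral closure `B` of `O_v` in `F'`

Complements `helper8426_RelNorm` (which has `restrict_ofHeightOneSpectrum`,
`exists_ofHeightOneSpectrum_of_restrict`, `sum_fiber_eq`, `liesOver_maximalIdeal`, ...):

* `ramificationIndex_ofHeightOneSpectrum` : the Prelude ramification index of the place of `Q`
  is Mathlib's `Ideal.ramificationIdx`;
* `fiberEquiv` : `HeightOneSpectrum B ≃ {w // w ∈ v.fiber F'}`;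
* `mem_primesOver`, `exists_heightOneSpectrum_of_mem_primesOver` : the nonzero primes of `B` are
  exactly the primes over the maximal ideal of `O_v`;
* `isIntegral_iff_forall_mem` : `B = ⋂_{w | v} O_w`;
* `mem_asIdeal_iff_ord_pos`, `mem_ofHeightOneSpectrum_iff_exists` : ideal membership and the
  valuation ring of the place of `Q` as a localisation of `B`.
-/

set_option autoImplicit false
set_option linter.unusedSectionVars false
set_option linter.style.haveILetI false

open AlgebraicCurve IsDedekindDomain

namespace Fermat.Agent.S37.helper8426

noncomputable section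

section dict

variable {K F F' : Type*} [Field K] [Field F] [Field F'] [Algebra K F] [Algebra K F']
  [Algebra F F'] [IsScalarTower K F F'] [Module.Finite F F'] [CharZero F]

attribute [local instance] isScalarTower_valuationSubring isDedekindDomain_integralClosure
  isFractionRing_integralClosure finite_integralClosure isTorsionFree_integralClosure

variable (v : Place K F)

/-- The maximal ideal of `O_v` is not zero. -/
theorem maximalIdeal_ne_bot : IsLocalRing.maximalIdeal v.toValuationSubring ≠ ⊥ :=
  IsDiscreteValuationRing.not_a_field _

/-- The extension of the maximal ideal of `O_v` to the integral closure is not zero. -/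
theorem map_maximalIdeal_ne_bot :
    (IsLocalRing.maximalIdeal v.toValuationSubring).map
      (algebraMap v.toValuationSubring (integralClosure v.toValuationSubring F')) ≠ ⊥ :=
  Ideal.map_ne_bot_of_ne_bot (maximalIdeal_ne_bot v)

/-- **(D1)** The Prelude ramification index of the place of `Q` over `F` is the multiplicity of
`Q` in the extension of the maximal ideal of `O_v`. -/
theorem ramificationIndex_ofHeightOneSpectrum_eq_multiplicity
    (Q : HeightOneSpectrum (integralClosure v.toValuationSubring F')) :
    (Place.ofHeightOneSpectrum (K := K) (F := F') Q).ramificationIndex F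
      = multiplicity Q.asIdeal ((IsLocalRing.maximalIdeal v.toValuationSubring).map
          (algebraMap v.toValuationSubring (integralClosure v.toValuationSubring F'))) := by
  obtain ⟨π, hπ⟩ := IsDiscreteValuationRing.exists_irreducible v.toValuationSubring
  have hπ0 : algebraMap v.toValuationSubring (integralClosure v.toValuationSubring F') π ≠ 0 := by
    rw [Ne, map_eq_zero_iff _ (FaithfulSMul.algebraMap_injective _ _)]
    exact hπ.ne_zero
  have h1 := (Place.ofHeightOneSpectrum (K := K) (F := F') Q).ord_restrict (F := F) (π : F)
  rw [restrict_ofHeightOneSpectrum v Q, v.ord_coe_irreducible hπ, mul_one] at h1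
  have h2 := Fermat.Agent.S24.helper489.ofHeightOneSpectrum_ord_algebraMap (K := K) (F := F')
    Q hπ0
  have h3 : algebraMap (integralClosure v.toValuationSubring F') F'
      (algebraMap v.toValuationSubring (integralClosure v.toValuationSubring F') π)
      = algebraMap F F' (π : F) := rfl
  rw [h3, h1] at h2
  rw [hπ.maximalIdeal_eq, Ideal.map_span, Set.image_singleton]
  exact_mod_cast h2

/-- **(D1)** The Prelude ramification index of the place of `Q` over `F` is Mathlib's
ramification index of `Q` over `O_v`. -/
theorem ramificationIndex_ofHeightOneSpectrum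
    (Q : HeightOneSpectrum (integralClosure v.toValuationSubring F')) :
    (Place.ofHeightOneSpectrum (K := K) (F := F') Q).ramificationIndex F
      = Q.asIdeal.ramificationIdx v.toValuationSubring := by
  have hQ : Q.asIdeal.IsPrime := Q.isPrime
  have hlo := liesOver_maximalIdeal v Q
  rw [Ideal.IsDedekindDomain.ramificationIdx_eq_multiplicity
    (IsLocalRing.maximalIdeal v.toValuationSubring) Q.asIdeal (map_maximalIdeal_ne_bot v)]
  exact ramificationIndex_ofHeightOneSpectrum_eq_multiplicity v Q

/-- The nonzero primes of the integral closure lie over the maximal ideal of `O_v`. -/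
theorem mem_primesOver (Q : HeightOneSpectrum (integralClosure v.toValuationSubring F')) :
    Q.asIdeal ∈ (IsLocalRing.maximalIdeal v.toValuationSubring).primesOver
      (integralClosure v.toValuationSubring F') :=
  ⟨Q.isPrime, liesOver_maximalIdeal v Q⟩

/-- Every prime of the integral closure over the maximal ideal of `O_v` is a nonzero prime. -/
theorem exists_heightOneSpectrum_of_mem_primesOver
    {P : Ideal (integralClosure v.toValuationSubring F')}
    (hP : P ∈ (IsLocalRing.maximalIdeal v.toValuationSubring).primesOver
      (integralClosure v.toValuationSubring F')) :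
    ∃ Q : HeightOneSpectrum (integralClosure v.toValuationSubring F'), Q.asIdeal = P := by
  obtain ⟨hprime, hlo⟩ := hP
  refine ⟨⟨P, hprime, ?_⟩, rfl⟩
  rintro rfl
  have h := hlo.over
  rw [Ideal.under_def, Ideal.comap_bot_of_injective _ (FaithfulSMul.algebraMap_injective _ _)] at h
  exact maximalIdeal_ne_bot v h

/-- An element of the integral closure lies in `Q` iff it has positive order at the place
of `Q`. -/
theorem mem_asIdeal_iff_ord_pos
    (Q : HeightOneSpectrum (integralClosure v.toValuationSubring F'))
    {b : integralClosure v.toValuationSubring F'} (hb : b ≠ 0) :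
    b ∈ Q.asIdeal ↔ 0 < (Place.ofHeightOneSpectrum (K := K) (F := F') Q).ord
      (algebraMap (integralClosure v.toValuationSubring F') F' b) :=
  (Fermat.Agent.S24.helper489.ofHeightOneSpectrum_ord_pos_iff Q hb).symm

/-- The valuation ring of the place of `Q` is the localisation of the integral closure
at `Q`. -/
theorem mem_ofHeightOneSpectrum_iff_exists
    (Q : HeightOneSpectrum (integralClosure v.toValuationSubring F')) (f : F') :
    f ∈ (Place.ofHeightOneSpectrum (K := K) (F := F') Q).toValuationSubring ↔
      ∃ b s : integralClosure v.toValuationSubring F', s ∉ Q.asIdeal ∧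
        f * algebraMap (integralClosure v.toValuationSubring F') F' s
          = algebraMap (integralClosure v.toValuationSubring F') F' b := by
  rw [Fermat.Agent.S24.helper489.mem_ofHeightOneSpectrum_iff]
  constructor
  · intro hf
    obtain ⟨n, d, hnd⟩ := Q.exists_primeCompl_mul_eq_of_integer f hf
    exact ⟨n, d, d.2, hnd⟩
  · rintro ⟨b, s, hs, hfs⟩
    have hs1 : Q.valuation F' (algebraMap (integralClosure v.toValuationSubring F') F' s) = 1 := by
      refine le_antisymm (Q.valuation_le_one s) ?_
      by_contra hlt
      exact hs ((Q.valuation_lt_one_iff_mem s).mp (not_le.mp hlt))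
    have hb1 : Q.valuation F' (algebraMap (integralClosure v.toValuationSubring F') F' b) ≤ 1 :=
      Q.valuation_le_one (K := F') b
    rw [← hfs, map_mul, hs1, mul_one] at hb1
    exact hb1

/-- An element of `F'` integral over `O_v` lies in the valuation ring of every place
over `v`. -/
theorem mem_of_isIntegral {f : F'} (hf : IsIntegral v.toValuationSubring f)
    (w : Place K F') (hw : w.restrict F = v) : f ∈ w.toValuationSubring := by
  obtain ⟨Q, rfl⟩ := exists_ofHeightOneSpectrum_of_restrict v w hw
  rw [Fermat.Agent.S24.helper489.mem_ofHeightOneSpectrum_iff]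
  exact Q.valuation_le_one (⟨f, hf⟩ : integralClosure v.toValuationSubring F')

section fiber

variable [HasPrincipalDivisors K F']

/-- **(D4)** `B = ⋂_{w | v} O_w`: an element of `F'` lying in the valuation ring of every
place over `v` is integral over `O_v`. -/
theorem isIntegral_of_forall_mem {f : F'}
    (h : ∀ w ∈ v.fiber F', f ∈ w.toValuationSubring) : IsIntegral v.toValuationSubring f := by
  have hQ : ∀ Q : HeightOneSpectrum (integralClosure v.toValuationSubring F'),
      Q.valuation F' f ≤ 1 := fun Q =>
    (Fermat.Agent.S24.helper489.mem_ofHeightOneSpectrum_iff (K := K) Q f).mp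
      (h _ (Place.mem_fiber.mpr (restrict_ofHeightOneSpectrum v Q)))
  obtain ⟨b, hb⟩ := HeightOneSpectrum.mem_integers_of_valuation_le_one F' f hQ
  rw [← hb]
  exact b.2

/-- **(D4)** `B = ⋂_{w | v} O_w`. -/
theorem isIntegral_iff_forall_mem {f : F'} :
    IsIntegral v.toValuationSubring f ↔ ∀ w ∈ v.fiber F', f ∈ w.toValuationSubring :=
  ⟨fun hf w hw => mem_of_isIntegral v hf w (Place.mem_fiber.mp hw), isIntegral_of_forall_mem v⟩

/-- **(D2)** The nonzero primes of the integral closure of `O_v` are the places over `v`. -/
def fiberEquiv :
    HeightOneSpectrum (integralClosure v.toValuationSubring F') ≃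
      {w : Place K F' // w ∈ v.fiber F'} :=
  Equiv.ofBijective
    (fun Q => ⟨Place.ofHeightOneSpectrum (K := K) (F := F') Q,
      Place.mem_fiber.mpr (restrict_ofHeightOneSpectrum v Q)⟩)
    ⟨fun Q Q' h => Fermat.Agent.S24.helper489.ofHeightOneSpectrum_injective
        (congrArg Subtype.val h),
      fun w => by
        obtain ⟨Q, hQ⟩ := exists_ofHeightOneSpectrum_of_restrict v w.1 (Place.mem_fiber.mp w.2)
        exact ⟨Q, Subtype.ext hQ⟩⟩

@[simp]
theorem coe_fiberEquiv (Q : HeightOneSpectrum (integralClosure v.toValuationSubring F')) :
    ((fiberEquiv v Q : {w : Place K F' // w ∈ v.fiber F'}) : Place K F')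
      = Place.ofHeightOneSpectrum (K := K) (F := F') Q := rfl

/-- The sum of the ramification indices over a place, in Mathlib's vocabulary. -/
theorem sum_fiber_ramificationIndex
    [Fintype (HeightOneSpectrum (integralClosure v.toValuationSubring F'))] :
    ∑ w ∈ v.fiber F', (w.ramificationIndex F : ℤ)
      = ∑ Q : HeightOneSpectrum (integralClosure v.toValuationSubring F'),
          (Q.asIdeal.ramificationIdx v.toValuationSubring : ℤ) := by
  rw [sum_fiber_eq v]
  exact Finset.sum_congr rfl fun Q _ => by rw [ramificationIndex_ofHeightOneSpectrum v Q]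

end fiber

end dict

end

end Fermat.Agent.S37.helper8426
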