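import Mathlib
import Fermat.Agent.S37.helper37_TrackB
import Fermat.Agent.S37.helper530_RegFin
import Fermat.Agent.S37.helper530_RegFinChart
import Fermat.Agent.S37.helper1812_LocUnit
import Fermat.Agent.S37.helper37_TrackBLayer

/-!
# S37, Track B, node TB-REGFIN: the assembly (RF-ASM, helper8507)

Generic in a field `K0` (a number-field layer), a valuation subring `O` of `K0` (a DVR with
uniformiser `lam`), a field `F0` over `K0` (the function field of level `M` over `K0`) and a
coordinate `t : F0` transcendental over `K0` with `F0` finite over `K0(t)` (the Hauptmodul line).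

* `UnramAt O t f` : discriminant-form unramifiedness of `F0 / K0(t)` at the prime element `f` of
  `O[X]`, in an elementary, instance-free form (the interface of RF-V and RF-H);
* the frame: `A = O`, `P = O[X] → F0` by `X ↦ t`, `K = K0(t)`, `M = finChartOf O t`, with
  `IsFractionRing O[X] K0(t)` and `IsIntegralClosure (finChartOf O t) O[X] F0`;
* `locGen_tChart` : regular pair `(lam, g(t))` at the maximal ideals of the `t`-chart;
* `locGen_jChart` : the same at the maximal ideals of the `j`-chart `finChartOf O j`, when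
  `finChartOf O j` is the localisation of the `t`-chart at the cusp polynomial `D(t)`.
-/

set_option autoImplicit false
set_option linter.style.haveILetI false

noncomputable section

namespace Fermat.Agent.S37.helper8507

open Polynomial IntermediateField
open Fermat.Agent.S37.helper37 (polyRing finChartOf)

section Frame

variable {K0 F0 : Type*} [Field K0] [Field F0] [Algebra K0 F0]

/-- Discriminant-form unramifiedness of `F0 / K0(t)` at the prime element `f` of `O[X]`
(elementary form): some `[F0 : K0(t)]`-tuple of elements of the `t`-chart (integral over `O[t]`)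
has discriminant `d(t)`, `d ∈ O[X]`, with `f ∤ d`. -/
def UnramAt (O : ValuationSubring K0) (t : F0) (f : (↥O)[X]) : Prop :=
  ∃ (b : Fin (Module.finrank K0⟮t⟯ F0) → F0) (d : (↥O)[X]),
    (∀ i, b i ∈ finChartOf O t) ∧
    algebraMap K0⟮t⟯ F0 (Algebra.discr K0⟮t⟯ b) = Polynomial.aeval t (d.map (algebraMap (↥O) K0)) ∧
    ¬ f ∣ d

variable (O : ValuationSubring K0) (t : F0)

/-- The evaluation homomorphism `O[X] → F0`, `X ↦ t`. -/
def evalHom : (↥O)[X] →+* F0 := (Polynomial.aeval t : (↥O)[X] →ₐ[↥O] F0).toRingHom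

theorem evalHom_apply (p : (↥O)[X]) : evalHom O t p = Polynomial.aeval t p := rfl

theorem evalHom_eq_aeval_map (p : (↥O)[X]) :
    evalHom O t p = Polynomial.aeval t (p.map (algebraMap (↥O) K0)) := by
  rw [evalHom_apply, Polynomial.aeval_map_algebraMap]

theorem evalHom_C (a : ↥O) : evalHom O t (C a) = algebraMap K0 F0 a := by
  rw [evalHom_apply, Polynomial.aeval_C]
  rfl

theorem evalHom_X : evalHom O t X = t := by
  rw [evalHom_apply, Polynomial.aeval_X]

theorem evalHom_mem_polyRing (p : (↥O)[X]) : evalHom O t p ∈ polyRing O t := by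
  induction p using Polynomial.induction_on with
  | C a =>
      rw [evalHom_C]
      exact Fermat.Agent.S37.helper37.const_mem_polyRing O t a.2
  | add p q hp hq =>
      rw [map_add]
      exact add_mem hp hq
  | monomial n a h =>
      rw [map_mul, map_pow, evalHom_X, evalHom_C]
      exact mul_mem (Fermat.Agent.S37.helper37.const_mem_polyRing O t a.2)
        (pow_mem (Fermat.Agent.S37.helper37.self_mem_polyRing O t) _)

theorem range_evalHom : (evalHom O t).range = polyRing O t := by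
  apply le_antisymm
  · rintro _ ⟨p, rfl⟩
    exact evalHom_mem_polyRing O t p
  · unfold polyRing
    rw [Subring.closure_le]
    rintro x (⟨a, ha, rfl⟩ | hx)
    · exact ⟨C ⟨a, ha⟩, evalHom_C O t ⟨a, ha⟩⟩
    · rw [Set.mem_singleton_iff] at hx
      rw [hx]
      exact ⟨X, evalHom_X O t⟩

/-- `O[X] → polyRing O t` (surjective). -/
def polyHom : (↥O)[X] →+* ↥(polyRing O t) :=
  (evalHom O t).codRestrict (polyRing O t) (evalHom_mem_polyRing O t)

theorem coe_polyHom (p : (↥O)[X]) : ((polyHom O t p : ↥(polyRing O t)) : F0) = evalHom O t p := rfl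

theorem polyHom_surjective : Function.Surjective (polyHom O t) := by
  rintro ⟨x, hx⟩
  rw [← range_evalHom] at hx
  obtain ⟨p, rfl⟩ := hx
  exact ⟨p, rfl⟩

theorem algebraMap_polyRing_comp_polyHom :
    (algebraMap ↥(polyRing O t) F0).comp (polyHom O t) = evalHom O t :=
  RingHom.ext fun _ => rfl

/-- Integrality over `O[X]` (via `X ↦ t`) is membership in the `t`-chart. -/
theorem isIntegralElem_evalHom_iff (x : F0) :
    (evalHom O t).IsIntegralElem x ↔ x ∈ finChartOf O t := by
  rw [Fermat.Agent.S37.helper37.mem_finChartOf]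
  constructor
  · rintro ⟨p, hp, hx⟩
    refine ⟨p.map (polyHom O t), hp.map _, ?_⟩
    rw [Polynomial.eval₂_map, algebraMap_polyRing_comp_polyHom]
    exact hx
  · rintro ⟨q, hq, hx⟩
    obtain ⟨p, rfl, -, hp⟩ := Polynomial.lifts_and_natDegree_eq_and_monic
      (Polynomial.mem_lifts_of_surjective (polyHom_surjective O t) q) hq
    refine ⟨p, hp, ?_⟩
    rw [Polynomial.eval₂_map, algebraMap_polyRing_comp_polyHom] at hx
    exact hx

/-- `O[X] → finChartOf O t`. -/
def chartHom : (↥O)[X] →+* ↥(finChartOf O t) :=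
  (evalHom O t).codRestrict (finChartOf O t)
    (fun p => Fermat.Agent.S37.helper37.polyRing_le_finChartOf O t (evalHom_mem_polyRing O t p))

theorem coe_chartHom (p : (↥O)[X]) : ((chartHom O t p : ↥(finChartOf O t)) : F0) = evalHom O t p :=
  rfl

theorem evalHom_mem_adjoin (p : (↥O)[X]) : evalHom O t p ∈ K0⟮t⟯ := by
  rw [evalHom_eq_aeval_map]
  exact IntermediateField.algebra_adjoin_le_adjoin K0 {t}
    (Polynomial.aeval_mem_adjoin_singleton K0 t)

/-- `O[X] → K0(t)`. -/
def fieldHom : (↥O)[X] →+* ↥K0⟮t⟯ :=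
  (evalHom O t).codRestrict K0⟮t⟯ (evalHom_mem_adjoin O t)

theorem coe_fieldHom (p : (↥O)[X]) : ((fieldHom O t p : ↥K0⟮t⟯) : F0) = evalHom O t p := rfl

variable {O t}

theorem evalHom_injective (ht : Transcendental K0 t) : Function.Injective (evalHom O t) := by
  rw [injective_iff_map_eq_zero]
  intro p hp
  rw [evalHom_eq_aeval_map] at hp
  have h1 : p.map (algebraMap (↥O) K0) = 0 :=
    (injective_iff_map_eq_zero _).mp (transcendental_iff_injective.mp ht) _ hp
  exact (Polynomial.map_eq_zero_iff (FaithfulSMul.algebraMap_injective (↥O) K0)).mp h1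

theorem fieldHom_injective (ht : Transcendental K0 t) : Function.Injective (fieldHom O t) := by
  intro p q h
  apply evalHom_injective ht
  rw [← coe_fieldHom, ← coe_fieldHom, h]

theorem chartHom_injective (ht : Transcendental K0 t) : Function.Injective (chartHom O t) := by
  intro p q h
  apply evalHom_injective ht
  rw [← coe_chartHom, ← coe_chartHom, h]

/-- `K0(t)` is the fraction field of `O[X]` (via `X ↦ t`) when `t` is transcendental. -/
theorem isFractionRing_fieldHom (ht : Transcendental K0 t) :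
    @IsFractionRing (↥O)[X] _ ↥K0⟮t⟯ _ (fieldHom O t).toAlgebra := by
  letI : Algebra (↥O)[X] ↥K0⟮t⟯ := (fieldHom O t).toAlgebra
  haveI : FaithfulSMul (↥O)[X] ↥K0⟮t⟯ :=
    (faithfulSMul_iff_algebraMap_injective _ _).mpr (fieldHom_injective ht)
  refine IsFractionRing.of_field _ _ ?_
  intro z
  obtain ⟨r, hr, s, hs, hz⟩ := IntermediateField.mem_adjoin_iff_div.mp z.2
  rw [Algebra.adjoin_singleton_eq_range_aeval] at hr hs
  obtain ⟨p, rfl⟩ := hr
  obtain ⟨q, rfl⟩ := hs
  obtain ⟨bp, hbp, hp⟩ := IsLocalization.integerNormalization_spec (nonZeroDivisors (↥O)) p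
  obtain ⟨bq, hbq, hq⟩ := IsLocalization.integerNormalization_spec (nonZeroDivisors (↥O)) q
  have hbp0 : algebraMap K0 F0 (bp : K0) ≠ 0 := by
    rw [Ne, map_eq_zero]
    exact fun h => nonZeroDivisors.ne_zero hbp (Subtype.ext h)
  have hbq0 : algebraMap K0 F0 (bq : K0) ≠ 0 := by
    rw [Ne, map_eq_zero]
    exact fun h => nonZeroDivisors.ne_zero hbq (Subtype.ext h)
  refine ⟨C bq * IsLocalization.integerNormalization (nonZeroDivisors (↥O)) p,
    C bp * IsLocalization.integerNormalization (nonZeroDivisors (↥O)) q, ?_⟩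
  apply Subtype.ext
  rw [IntermediateField.coe_div]
  show (z : F0) = evalHom O t _ / evalHom O t _
  rw [map_mul, map_mul, evalHom_C, evalHom_C, evalHom_eq_aeval_map, evalHom_eq_aeval_map, hp, hq,
    hz, ← algebraMap_smul K0 bp p, ← algebraMap_smul K0 bq q, map_smul, map_smul,
    Algebra.smul_def, Algebra.smul_def]
  change Polynomial.aeval t p / Polynomial.aeval t q =
    algebraMap K0 F0 (bq : K0) * (algebraMap K0 F0 (bp : K0) * Polynomial.aeval t p) /
      (algebraMap K0 F0 (bp : K0) * (algebraMap K0 F0 (bq : K0) * Polynomial.aeval t q))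
  rw [← mul_assoc, ← mul_assoc, mul_comm (algebraMap K0 F0 (bp : K0)) (algebraMap K0 F0 (bq : K0)),
    mul_div_mul_left _ _ (mul_ne_zero hbq0 hbp0)]

variable (O t)

/-- The `t`-chart is the integral closure of `O[X]` in `F0` (via `X ↦ t`). -/
theorem isIntegralClosure_chart :
    @IsIntegralClosure ↥(finChartOf O t) (↥O)[X] F0 _ _ _ (evalHom O t).toAlgebra _ := by
  letI : Algebra (↥O)[X] F0 := (evalHom O t).toAlgebra
  refine ⟨Subtype.val_injective, ?_⟩
  intro x
  rw [show IsIntegral (↥O)[X] x ↔ (evalHom O t).IsIntegralElem x from Iff.rfl,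
    isIntegralElem_evalHom_iff]
  exact ⟨fun h => ⟨⟨x, h⟩, rfl⟩, by rintro ⟨y, rfl⟩; exact y.2⟩

/-- The structure map `O[X] → finChartOf O t` is integral. -/
theorem chartHom_isIntegral : (chartHom O t).IsIntegral := by
  intro b
  obtain ⟨p, hp, hx⟩ := (isIntegralElem_evalHom_iff O t (b : F0)).mpr b.2
  refine ⟨p, hp, Subtype.ext ?_⟩
  have h := Polynomial.hom_eval₂ p (chartHom O t) (finChartOf O t).subtype b
  rw [Subring.coe_subtype] at h
  rw [h]
  exact hx

end Frame

section TChart

variable {K0 F0 : Type*} [Field K0] [CharZero K0] [Field F0] [Algebra K0 F0]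
variable (O : ValuationSubring K0) [IsPrincipalIdealRing ↥O] (t : F0)

omit [CharZero K0] [IsPrincipalIdealRing ↥O] in
theorem prime_of_maximalIdeal_eq {lam : ↥O} (hlam0 : lam ≠ 0)
    (hlam : IsLocalRing.maximalIdeal ↥O = Ideal.span {lam}) : Prime lam := by
  have h : (Ideal.span {lam}).IsPrime := hlam ▸ (IsLocalRing.maximalIdeal.isMaximal ↥O).isPrime
  exact (Ideal.span_singleton_prime hlam0).mp h

omit [CharZero K0] [IsPrincipalIdealRing ↥O] in
theorem isMaximal_span_of_maximalIdeal_eq {lam : ↥O}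
    (hlam : IsLocalRing.maximalIdeal ↥O = Ideal.span {lam}) : (Ideal.span {lam}).IsMaximal :=
  hlam ▸ IsLocalRing.maximalIdeal.isMaximal ↥O

omit [CharZero K0] [IsPrincipalIdealRing ↥O] in
/-- `g(t) ∉ lam * (t-chart)` when `C lam ∤ g`. -/
theorem chartHom_notMem_span (lam : ↥O) (hlam0 : lam ≠ 0) (ht : Transcendental K0 t)
    (g : (↥O)[X]) (hg : ¬ C lam ∣ g) :
    chartHom O t g ∉ Ideal.span {chartHom O t (C lam)} := by
  letI algPK : Algebra (↥O)[X] ↥K0⟮t⟯ := (fieldHom O t).toAlgebra
  letI algPL : Algebra (↥O)[X] F0 := (evalHom O t).toAlgebra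
  letI algPM : Algebra (↥O)[X] ↥(finChartOf O t) := (chartHom O t).toAlgebra
  haveI : IsFractionRing (↥O)[X] ↥K0⟮t⟯ := isFractionRing_fieldHom ht
  haveI : IsScalarTower (↥O)[X] ↥K0⟮t⟯ F0 := IsScalarTower.of_algebraMap_eq (fun x => rfl)
  haveI : IsScalarTower (↥O)[X] ↥(finChartOf O t) F0 :=
    IsScalarTower.of_algebraMap_eq (fun x => rfl)
  haveI : IsIntegralClosure ↥(finChartOf O t) (↥O)[X] F0 := isIntegralClosure_chart O t
  exact Fermat.Agent.S37.helper530.not_mem_span_of_not_dvd lam hlam0 ↥K0⟮t⟯ F0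
    ↥(finChartOf O t) g hg

/-- **TB-REGFIN on the `t`-chart, at a prime over a closed point `𝔪 = (lam, g)`.** -/
theorem locGen_tChart_aux (lam : ↥O) (hlam0 : lam ≠ 0)
    (hlam : IsLocalRing.maximalIdeal ↥O = Ideal.span {lam})
    (ht : Transcendental K0 t) [FiniteDimensional K0⟮t⟯ F0]
    (hV : UnramAt O t (C lam))
    (z : Ideal ↥(finChartOf O t)) [z.IsPrime]
    (𝔪 : Ideal (↥O)[X]) [𝔪.IsMaximal] (g : (↥O)[X]) (hg : ¬ C lam ∣ g)
    (h𝔪 : 𝔪 = Ideal.span {C lam, g})
    (hz : z.comap (chartHom O t) = 𝔪)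
    (hH : ∀ f : (↥O)[X], Prime f → f ∈ 𝔪 → ¬ C lam ∣ f → UnramAt O t f) :
    ∀ a ∈ z, ∃ σ, σ ∉ z ∧ σ * a ∈ Ideal.span {chartHom O t (C lam), chartHom O t g} := by
  letI algPK : Algebra (↥O)[X] ↥K0⟮t⟯ := (fieldHom O t).toAlgebra
  letI algPL : Algebra (↥O)[X] F0 := (evalHom O t).toAlgebra
  letI algPM : Algebra (↥O)[X] ↥(finChartOf O t) := (chartHom O t).toAlgebra
  haveI : IsFractionRing (↥O)[X] ↥K0⟮t⟯ := isFractionRing_fieldHom ht
  haveI : IsScalarTower (↥O)[X] ↥K0⟮t⟯ F0 := IsScalarTower.of_algebraMap_eq (fun x => rfl)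
  haveI : IsScalarTower (↥O)[X] ↥(finChartOf O t) F0 :=
    IsScalarTower.of_algebraMap_eq (fun x => rfl)
  haveI : IsIntegralClosure ↥(finChartOf O t) (↥O)[X] F0 := isIntegralClosure_chart O t
  haveI : Algebra.IsSeparable ↥K0⟮t⟯ F0 := inferInstance
  have conv : ∀ f : (↥O)[X], UnramAt O t f →
      Fermat.Agent.S18.helper403.UnramifiedAt ↥K0⟮t⟯ F0 ↥(finChartOf O t) (Ideal.span {f}) := by
    rintro f ⟨b, d, hb, hd, hfd⟩
    refine ⟨fun i => ⟨b i, hb i⟩, d, ?_, fun h => hfd (Ideal.mem_span_singleton.mp h)⟩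
    apply Subtype.ext
    have e1 : ((algebraMap (↥O)[X] ↥K0⟮t⟯ d : ↥K0⟮t⟯) : F0) = evalHom O t d := rfl
    rw [e1, evalHom_eq_aeval_map, ← hd]
    rfl
  exact Fermat.Agent.S37.helper530.locGen_of_vertical_horizontal lam
    (prime_of_maximalIdeal_eq O hlam0 hlam) (isMaximal_span_of_maximalIdeal_eq O hlam)
    ↥K0⟮t⟯ F0 ↥(finChartOf O t) 𝔪 g hg h𝔪 (conv _ hV)
    (fun f hf hfm hfl => conv f (hH f hf hfm hfl)) z hz

omit [CharZero K0] [IsPrincipalIdealRing ↥O] in
/-- A monic polynomial is not divisible by a non-unit constant. -/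
theorem not_C_dvd_of_monic {lam : ↥O} (hlam : ¬ IsUnit lam) {g : (↥O)[X]} (hg : g.Monic) :
    ¬ C lam ∣ g := by
  intro h
  rw [Polynomial.C_dvd_iff_dvd_coeff] at h
  have h1 := h g.natDegree
  rw [Polynomial.coeff_natDegree, hg.leadingCoeff] at h1
  exact hlam (isUnit_of_dvd_one h1)

/-- **TB-REGFIN on the `t`-chart.** `z` a prime of the `t`-chart over a closed point of the special
fibre of `Spec O[X]` (automatic for maximal `z ∋ lam`, see `locGen_tChart_of_isMaximal`). If
`F0 / K0(t)` is unramified (discriminant form) at the vertical prime `(lam)` and at the horizontal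
primes `f` with `f(t) ∈ z`, then there is a monic `g ∈ O[X]` with `z (chart)_z = (lam, g(t))`
(elementwise form `helper1812.LocGen`). -/
theorem locGen_tChart (lam : ↥O) (hlam0 : lam ≠ 0)
    (hlam : IsLocalRing.maximalIdeal ↥O = Ideal.span {lam})
    (ht : Transcendental K0 t) [FiniteDimensional K0⟮t⟯ F0]
    (hV : UnramAt O t (C lam))
    (z : Ideal ↥(finChartOf O t)) [z.IsPrime]
    (hmax : (z.comap (chartHom O t)).IsMaximal) (hz : chartHom O t (C lam) ∈ z)
    (hH : ∀ f : (↥O)[X], Prime f → chartHom O t f ∈ z → ¬ C lam ∣ f → UnramAt O t f) :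
    ∃ g : (↥O)[X], g.Monic ∧ ¬ C lam ∣ g ∧ chartHom O t g ∈ z ∧
      chartHom O t g ∉ Ideal.span {chartHom O t (C lam)} ∧
      Fermat.Agent.S37.helper1812.LocGen z (chartHom O t (C lam)) (chartHom O t g) := by
  have hlamP := prime_of_maximalIdeal_eq O hlam0 hlam
  obtain ⟨g, hgm, -, h𝔪⟩ := Fermat.Agent.S18.helper403.exists_monic_span_pair lam
    (isMaximal_span_of_maximalIdeal_eq O hlam) (z.comap (chartHom O t)) hmax hz
  have hg : ¬ C lam ∣ g := not_C_dvd_of_monic O hlamP.not_isUnit hgm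
  have hgz : chartHom O t g ∈ z := by
    have : g ∈ z.comap (chartHom O t) := by
      rw [h𝔪]
      exact Ideal.subset_span (Set.mem_insert_of_mem _ rfl)
    exact this
  refine ⟨g, hgm, hg, hgz, chartHom_notMem_span O t lam hlam0 ht g hg, ?_⟩
  haveI := hmax
  exact locGen_tChart_aux O t lam hlam0 hlam ht hV z (z.comap (chartHom O t)) g hg h𝔪 rfl
    (fun f hf hfm hfl => hH f hf hfm hfl)

/-- `locGen_tChart` at a maximal ideal of the `t`-chart containing `lam`. -/
theorem locGen_tChart_of_isMaximal (lam : ↥O) (hlam0 : lam ≠ 0)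
    (hlam : IsLocalRing.maximalIdeal ↥O = Ideal.span {lam})
    (ht : Transcendental K0 t) [FiniteDimensional K0⟮t⟯ F0]
    (hV : UnramAt O t (C lam))
    (z : Ideal ↥(finChartOf O t)) [z.IsMaximal] (hz : chartHom O t (C lam) ∈ z)
    (hH : ∀ f : (↥O)[X], Prime f → chartHom O t f ∈ z → ¬ C lam ∣ f → UnramAt O t f) :
    ∃ g : (↥O)[X], g.Monic ∧ ¬ C lam ∣ g ∧ chartHom O t g ∈ z ∧
      chartHom O t g ∉ Ideal.span {chartHom O t (C lam)} ∧
      Fermat.Agent.S37.helper1812.LocGen z (chartHom O t (C lam)) (chartHom O t g) :=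
  locGen_tChart O t lam hlam0 hlam ht hV z
    (Ideal.isMaximal_comap_of_isIntegral_of_isMaximal' (chartHom O t) (chartHom_isIntegral O t) z)
    hz hH

end TChart

section Abstract

variable {A B : Type*} [CommRing A] [CommRing B]

/-- If a monic polynomial lies in the ideal `I` of `A[X]`, then `A[X] ⧸ I` is integral over `A`. -/
theorem isIntegral_mk_comp_C (I : Ideal A[X]) (h : A[X]) (hm : h.Monic) (hh : h ∈ I) :
    ((Ideal.Quotient.mk I).comp C).IsIntegral := by
  have hX : ((Ideal.Quotient.mk I).comp C).IsIntegralElem (Ideal.Quotient.mk I X) := by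
    refine ⟨h, hm, ?_⟩
    have e := Polynomial.hom_eval₂ h C (Ideal.Quotient.mk I) X
    rw [Polynomial.eval₂_C_X] at e
    rw [← e]
    exact Ideal.Quotient.eq_zero_iff_mem.mpr hh
  intro y
  obtain ⟨p, rfl⟩ := Ideal.Quotient.mk_surjective y
  induction p using Polynomial.induction_on with
  | C a => exact ((Ideal.Quotient.mk I).comp C).isIntegralElem_map (x := a)
  | add p q hp hq =>
      rw [map_add]
      exact hp.add _ hq
  | monomial n a ih =>
      rw [pow_succ, ← mul_assoc, map_mul]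
      exact ih.mul _ hX

/-- Two structure maps `f, ι : A[X] → B` which agree on the constants, `f` integral, `lam : A`
with `A / lam` a field: a maximal ideal of `B` containing `lam` contracts to a maximal ideal of
`A[X]` along `ι` (the residue field is algebraic over `A / lam`). -/
theorem isMaximal_comap_of_two_structures (lam : A) (hmax : (Ideal.span {lam}).IsMaximal)
    (f ι : A[X] →+* B) (hf : f.IsIntegral) (hC : ∀ a, ι (C a) = f (C a))
    (z : Ideal B) [z.IsMaximal] (hz : f (C lam) ∈ z) : (z.comap ι).IsMaximal := by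
  have hquot := RingHom.IsIntegral.quotient (I := z) f hf
  haveI h𝔫 : (z.comap f).IsMaximal := Ideal.isMaximal_comap_of_isIntegral_of_isMaximal' f hf z
  obtain ⟨h, hm, -, h𝔫eq⟩ := Fermat.Agent.S18.helper403.exists_monic_span_pair lam hmax
    (z.comap f) h𝔫 hz
  have hh : h ∈ z.comap f := by
    rw [h𝔫eq]
    exact Ideal.subset_span (Set.mem_insert_of_mem _ rfl)
  have hg0int := isIntegral_mk_comp_C (z.comap f) h hm hh
  have hcomp := RingHom.IsIntegral.trans _ _ hg0int hquot
  have hΦC : ((Ideal.Quotient.mk z).comp ι).comp C =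
      (Ideal.quotientMap z f le_rfl).comp ((Ideal.Quotient.mk (z.comap f)).comp C) := by
    ext a
    simp only [RingHom.comp_apply, Ideal.quotientMap_mk, hC]
  have hΦ : ((Ideal.Quotient.mk z).comp ι).IsIntegral :=
    RingHom.IsIntegral.tower_top C _ (hΦC ▸ hcomp)
  letI := Ideal.Quotient.field z
  have hmax' := Ideal.isMaximal_comap_of_isIntegral_of_isMaximal' ((Ideal.Quotient.mk z).comp ι) hΦ ⊥
  have e : (⊥ : Ideal (B ⧸ z)).comap ((Ideal.Quotient.mk z).comp ι) = z.comap ι := by
    rw [← Ideal.comap_comap, ← RingHom.ker_eq_comap_bot, Ideal.mk_ker]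
  rwa [e] at hmax'

end Abstract

section JChart

variable {K0 F0 : Type*} [Field K0] [CharZero K0] [Field F0] [Algebra K0 F0]
variable (O : ValuationSubring K0) [IsPrincipalIdealRing ↥O] (t j : F0)

omit [CharZero K0] [IsPrincipalIdealRing ↥O] [Algebra K0 F0] in
theorem isIntegral_subring_mono {S S' : Subring F0} (h : S ≤ S') {x : F0}
    (hx : IsIntegral ↥S x) : IsIntegral ↥S' x := by
  obtain ⟨p, hp, hx⟩ := hx
  refine ⟨p.map (Subring.inclusion h), hp.map _, ?_⟩
  rw [Polynomial.eval₂_map]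
  exact hx

omit [CharZero K0] [IsPrincipalIdealRing ↥O] in
/-- The chart is integrally closed in `F0`. -/
theorem mem_finChartOf_of_isIntegral {x : F0} (hx : IsIntegral ↥(finChartOf O j) x) :
    x ∈ finChartOf O j := by
  rw [Fermat.Agent.S37.helper37.mem_finChartOf]
  have hx' : IsIntegral ↥(integralClosure ↥(polyRing O j) F0) x := hx
  exact isIntegral_trans x hx'

omit [CharZero K0] [IsPrincipalIdealRing ↥O] in
/-- If `t` is integral over `O[j]` then the `t`-chart is contained in the `j`-chart. -/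
theorem finChartOf_le_of_mem (htj : t ∈ finChartOf O j) : finChartOf O t ≤ finChartOf O j := by
  intro x hx
  apply mem_finChartOf_of_isIntegral
  refine isIntegral_subring_mono ?_ (Fermat.Agent.S37.helper37.mem_finChartOf.mp hx)
  unfold polyRing
  rw [Subring.closure_le]
  rintro y (⟨a, ha, rfl⟩ | hy)
  · exact Fermat.Agent.S37.helper37.polyRing_le_finChartOf O j
      (Fermat.Agent.S37.helper37.const_mem_polyRing O j ha)
  · rw [Set.mem_singleton_iff] at hy
    rw [hy]
    exact htj

/-- `O[X] → finChartOf O j`, `X ↦ t` (for `t` integral over `O[j]`). -/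
def crossHom (htj : t ∈ finChartOf O j) : (↥O)[X] →+* ↥(finChartOf O j) :=
  (Subring.inclusion (finChartOf_le_of_mem O t j htj)).comp (chartHom O t)

omit [CharZero K0] [IsPrincipalIdealRing ↥O] in
theorem coe_crossHom (htj : t ∈ finChartOf O j) (p : (↥O)[X]) :
    ((crossHom O t j htj p : ↥(finChartOf O j)) : F0) = evalHom O t p := rfl

omit [CharZero K0] [IsPrincipalIdealRing ↥O] in
theorem coe_inclusion_chartHom (hle : finChartOf O t ≤ finChartOf O j) (p : (↥O)[X]) :
    ((Subring.inclusion hle (chartHom O t p) : ↥(finChartOf O j)) : F0) = evalHom O t p := rfl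

omit [CharZero K0] [IsPrincipalIdealRing ↥O] in
/-- A maximal ideal of the `j`-chart containing `lam` lies over a closed point of the `t`-line:
its residue field is algebraic over the residue field of `O`. -/
theorem isMaximal_comap_crossHom (lam : ↥O)
    (hlam : IsLocalRing.maximalIdeal ↥O = Ideal.span {lam}) (htj : t ∈ finChartOf O j)
    (z : Ideal ↥(finChartOf O j)) [z.IsMaximal] (hz : chartHom O j (C lam) ∈ z) :
    (z.comap (crossHom O t j htj)).IsMaximal := by
  refine isMaximal_comap_of_two_structures lam (isMaximal_span_of_maximalIdeal_eq O hlam)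
    (chartHom O j) (crossHom O t j htj) (chartHom_isIntegral O j) ?_ z hz
  intro a
  apply Subtype.ext
  rw [coe_crossHom, coe_chartHom, evalHom_C, evalHom_C]

/-- **TB-REGFIN, chart form.** `O` a DVR (`lam` a uniformiser) of the field `K0` of characteristic
zero, `F0 / K0(t)` finite, `j : F0` with `t` integral over `O[j]` and the `j`-chart equal to the
`t`-chart localised at `D(t)` (`D` the cusp polynomial of the Hauptmodul `t`). If `F0 / K0(t)` is
unramified (discriminant form, `UnramAt`) at the vertical prime `(lam)` [RF-V] and at every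
horizontal prime through a closed point of the special fibre off `D = 0` [RF-H], then every
maximal ideal `z ∋ lam` of the `j`-chart is generated, locally at `z`, by `lam` and `g(t)` for a
monic `g ∈ O[X]`: the hypothesis `LocGen z π G` of `helper1812.exists_loc`. -/
theorem locGen_jChart (lam : ↥O) (hlam0 : lam ≠ 0)
    (hlam : IsLocalRing.maximalIdeal ↥O = Ideal.span {lam})
    (ht : Transcendental K0 t) [FiniteDimensional K0⟮t⟯ F0]
    (D : (↥O)[X]) (htj : t ∈ finChartOf O j)
    (hD0 : Polynomial.aeval t D ≠ 0) (hDinv : (Polynomial.aeval t D)⁻¹ ∈ finChartOf O j)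
    (hloc : ∀ x ∈ finChartOf O j, ∃ n : ℕ, Polynomial.aeval t D ^ n * x ∈ finChartOf O t)
    (hV : UnramAt O t (C lam))
    (hH : ∀ 𝔪 : Ideal (↥O)[X], 𝔪.IsMaximal → C lam ∈ 𝔪 → D ∉ 𝔪 →
      ∀ f : (↥O)[X], Prime f → f ∈ 𝔪 → ¬ C lam ∣ f → UnramAt O t f)
    (z : Ideal ↥(finChartOf O j)) [hzmax : z.IsMaximal] (π : ↥(finChartOf O j))
    (hπ : (π : F0) = algebraMap K0 F0 lam) (hz : π ∈ z) :
    ∃ g : (↥O)[X], g.Monic ∧ ¬ C lam ∣ g ∧ ∃ G : ↥(finChartOf O j),
      (G : F0) = Polynomial.aeval t g ∧ G ∈ z ∧ G ∉ Ideal.span {π} ∧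
      Fermat.Agent.S37.helper1812.LocGen z π G := by
  have hle := finChartOf_le_of_mem O t j htj
  have hπeq : chartHom O j (C lam) = π := Subtype.ext (by rw [coe_chartHom, evalHom_C, hπ])
  have hπeq' : Subring.inclusion hle (chartHom O t (C lam)) = π :=
    Subtype.ext (by rw [coe_inclusion_chartHom, evalHom_C, hπ])
  have hmax : ((z.comap (Subring.inclusion hle)).comap (chartHom O t)).IsMaximal := by
    have h1 := isMaximal_comap_crossHom O t j lam hlam htj z (by rw [hπeq]; exact hz)
    rwa [crossHom, ← Ideal.comap_comap] at h1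
  have hz' : chartHom O t (C lam) ∈ z.comap (Subring.inclusion hle) := by
    rw [Ideal.mem_comap, hπeq']
    exact hz
  have hDunit : IsUnit (Subring.inclusion hle (chartHom O t D)) := by
    refine IsUnit.of_mul_eq_one ⟨(Polynomial.aeval t D)⁻¹, hDinv⟩ (Subtype.ext ?_)
    rw [Subring.coe_mul, Subring.coe_one, coe_inclusion_chartHom, evalHom_apply]
    exact mul_inv_cancel₀ hD0
  have hDz : Subring.inclusion hle (chartHom O t D) ∉ z := fun h =>
    hzmax.ne_top (Ideal.eq_top_of_isUnit_mem _ h hDunit)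
  have hD𝔪 : D ∉ (z.comap (Subring.inclusion hle)).comap (chartHom O t) := by
    rw [Ideal.mem_comap, Ideal.mem_comap]
    exact hDz
  obtain ⟨g, hgm, hg, hgz, -, hloc'⟩ := locGen_tChart O t lam hlam0 hlam ht hV
    (z.comap (Subring.inclusion hle)) hmax hz'
    (fun f hf hfz hfl => hH _ hmax (Ideal.mem_comap.mpr hz') hD𝔪 f hf (Ideal.mem_comap.mpr hfz) hfl)
  have hlamP := prime_of_maximalIdeal_eq O hlam0 hlam
  refine ⟨g, hgm, hg, Subring.inclusion hle (chartHom O t g),
    by rw [coe_inclusion_chartHom, evalHom_apply], Ideal.mem_comap.mp hgz, ?_, ?_⟩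
  · -- `g(t) ∉ lam * (j-chart)`
    intro hmem
    obtain ⟨b, hb⟩ := Ideal.mem_span_singleton.mp hmem
    obtain ⟨n, hn⟩ := hloc b b.2
    have hdvd : ¬ C lam ∣ D ^ n * g := by
      intro h
      have hP : Prime (C lam : (↥O)[X]) := Polynomial.prime_C_iff.mpr hlamP
      rcases hP.dvd_or_dvd h with h1 | h1
      · have h2 := hP.dvd_of_dvd_pow h1
        apply hD𝔪
        obtain ⟨c, hc⟩ := h2
        rw [hc]
        exact Ideal.mul_mem_right _ _ (Ideal.mem_comap.mpr hz')
      · exact hg h1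
    apply chartHom_notMem_span O t lam hlam0 ht (D ^ n * g) hdvd
    rw [Ideal.mem_span_singleton]
    refine ⟨⟨Polynomial.aeval t D ^ n * b, hn⟩, Subtype.ext ?_⟩
    have h1 := congrArg Subtype.val hb
    rw [Subring.coe_mul, hπ, coe_inclusion_chartHom] at h1
    rw [Subring.coe_mul, coe_chartHom, coe_chartHom, map_mul, map_pow, h1, evalHom_C,
      evalHom_apply]
    ring
  · -- the regular pair
    intro a ha
    obtain ⟨n, hn⟩ := hloc a a.2
    have hincl : Subring.inclusion hle ⟨Polynomial.aeval t D ^ n * (a : F0), hn⟩ =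
        Subring.inclusion hle (chartHom O t D) ^ n * a :=
      Subtype.ext (by
        rw [Subring.coe_mul, SubmonoidClass.coe_pow, coe_inclusion_chartHom, evalHom_apply]
        rfl)
    have ha' : (⟨Polynomial.aeval t D ^ n * (a : F0), hn⟩ : ↥(finChartOf O t)) ∈
        z.comap (Subring.inclusion hle) := by
      rw [Ideal.mem_comap, hincl]
      exact z.mul_mem_left _ ha
    obtain ⟨σ, hσ, hσa⟩ := hloc' _ ha'
    refine ⟨Subring.inclusion hle σ * Subring.inclusion hle (chartHom O t D) ^ n, ?_, ?_⟩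
    · intro h
      rcases hzmax.isPrime.mem_or_mem h with h1 | h1
      · exact hσ (Ideal.mem_comap.mpr h1)
      · exact hDz (hzmax.isPrime.mem_of_pow_mem n h1)
    · have h1 := Ideal.mem_map_of_mem (Subring.inclusion hle) hσa
      rw [Ideal.map_span, Set.image_pair, map_mul, hincl, hπeq', ← mul_assoc] at h1
      exact h1

end JChart

/-! ## Bridges to `helper530_RegFinChart` (`evO`, `ChartUnrAt`) -/

section Bridge

variable {K0 F0 : Type*} [Field K0] [Field F0] [Algebra K0 F0]
variable (O : ValuationSubring K0) (t : F0)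

theorem evO_eq_evalHom : Fermat.Agent.S37.helper530.evO O t = evalHom O t := by
  refine RingHom.ext fun p => ?_
  rw [Fermat.Agent.S37.helper530.evO_eq_aeval, evalHom_eq_aeval_map]
  rfl

/-- The chart hypothesis `hBh` of `helper530_RegFinChart` for `Bh = finChartOf O t`. -/
theorem mem_finChartOf_iff_isIntegralElem_evO (x : F0) :
    x ∈ finChartOf O t ↔ (Fermat.Agent.S37.helper530.evO O t).IsIntegralElem x := by
  rw [evO_eq_evalHom, isIntegralElem_evalHom_iff]

/-- `UnramAt` is `helper530.ChartUnrAt`. -/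
theorem unramAt_iff_chartUnrAt (f : (↥O)[X]) :
    UnramAt O t f ↔ Fermat.Agent.S37.helper530.ChartUnrAt O t f := by
  constructor
  · rintro ⟨b, d, hb, hd, hfd⟩
    refine ⟨b, d, fun i => (mem_finChartOf_iff_isIntegralElem_evO O t _).mp (hb i), ?_, hfd⟩
    rw [evO_eq_evalHom, evalHom_eq_aeval_map, hd]
  · rintro ⟨b, d, hb, hd, hfd⟩
    refine ⟨b, d, fun i => (mem_finChartOf_iff_isIntegralElem_evO O t _).mpr (hb i), ?_, hfd⟩
    rw [← hd, evO_eq_evalHom, evalHom_eq_aeval_map]

end Bridge

section Final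

variable {K0 F0 : Type*} [Field K0] [CharZero K0] [Field F0] [Algebra K0 F0]
variable (O : ValuationSubring K0) [IsPrincipalIdealRing ↥O] (t j : F0)

/-- **TB-REGFIN, chart form, with the hypotheses in the shapes of `helper530_RegFinChart`**:
RF-V is `ChartUnrAt O t (C lam)` (`helper530.chartUnrAt_vertical_modular`), RF-H is
`∀ f prime, lam ∤ f, f ∤ D → ChartUnrAt O t f` (`D` the cusp polynomial). Conclusion: at EVERY
maximal ideal `z ∋ lam` of the `j`-chart `finChartOf O j` there is a monic `g ∈ O[X]` with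
`g(t) ∈ z`, `g(t) ∉ lam * chart` and `z (chart)_z = (lam, g(t))` (`helper1812.LocGen`). -/
theorem locGen_jChart' (lam : ↥O) (hlam0 : lam ≠ 0)
    (hlam : IsLocalRing.maximalIdeal ↥O = Ideal.span {lam})
    (ht : Transcendental K0 t) [FiniteDimensional K0⟮t⟯ F0]
    (D : (↥O)[X]) (htj : t ∈ finChartOf O j)
    (hD0 : Polynomial.aeval t D ≠ 0) (hDinv : (Polynomial.aeval t D)⁻¹ ∈ finChartOf O j)
    (hloc : ∀ x ∈ finChartOf O j, ∃ n : ℕ, Polynomial.aeval t D ^ n * x ∈ finChartOf O t)
    (hV : Fermat.Agent.S37.helper530.ChartUnrAt O t (C lam))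
    (hH : ∀ f : (↥O)[X], Prime f → ¬ C lam ∣ f → ¬ f ∣ D →
      Fermat.Agent.S37.helper530.ChartUnrAt O t f)
    (z : Ideal ↥(finChartOf O j)) [hzmax : z.IsMaximal] (π : ↥(finChartOf O j))
    (hπ : (π : F0) = algebraMap K0 F0 lam) (hz : π ∈ z) :
    ∃ g : (↥O)[X], g.Monic ∧ ¬ C lam ∣ g ∧ ∃ G : ↥(finChartOf O j),
      (G : F0) = Polynomial.aeval t g ∧ G ∈ z ∧ G ∉ Ideal.span {π} ∧
      Fermat.Agent.S37.helper1812.LocGen z π G := by
  refine locGen_jChart O t j lam hlam0 hlam ht D htj hD0 hDinv hloc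
    ((unramAt_iff_chartUnrAt O t _).mpr hV) ?_ z π hπ hz
  intro 𝔪 _ _ hD𝔪 f hf hf𝔪 hfl
  refine (unramAt_iff_chartUnrAt O t f).mpr (hH f hf hfl ?_)
  rintro ⟨c, rfl⟩
  exact hD𝔪 (Ideal.mul_mem_right _ _ hf𝔪)

/-- The same, forgetting the polynomial: the input of `helper1812.exists_loc` at every closed
point of the special fibre of the `j`-chart. -/
theorem exists_locGen_jChart (lam : ↥O) (hlam0 : lam ≠ 0)
    (hlam : IsLocalRing.maximalIdeal ↥O = Ideal.span {lam})
    (ht : Transcendental K0 t) [FiniteDimensional K0⟮t⟯ F0]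
    (D : (↥O)[X]) (htj : t ∈ finChartOf O j)
    (hD0 : Polynomial.aeval t D ≠ 0) (hDinv : (Polynomial.aeval t D)⁻¹ ∈ finChartOf O j)
    (hloc : ∀ x ∈ finChartOf O j, ∃ n : ℕ, Polynomial.aeval t D ^ n * x ∈ finChartOf O t)
    (hV : Fermat.Agent.S37.helper530.ChartUnrAt O t (C lam))
    (hH : ∀ f : (↥O)[X], Prime f → ¬ C lam ∣ f → ¬ f ∣ D →
      Fermat.Agent.S37.helper530.ChartUnrAt O t f)
    (π : ↥(finChartOf O j)) (hπ : (π : F0) = algebraMap K0 F0 lam) :
    ∀ z : Ideal ↥(finChartOf O j), z.IsMaximal → π ∈ z →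
      ∃ G ∈ z, G ∉ Ideal.span {π} ∧ Fermat.Agent.S37.helper1812.LocGen z π G := by
  intro z hzmax hz
  obtain ⟨g, -, -, G, -, hGz, hGπ, hG⟩ := locGen_jChart' O t j lam hlam0 hlam ht D htj hD0 hDinv
    hloc hV hH z π hπ hz
  exact ⟨G, hGz, hGπ, hG⟩

/-- **TB-REGFIN in the shape of `helper37.NodeReg` (finite half), generic layer form**:
`helper37.RegAt O j lam z` at every maximal ideal `z ∋ lam` of `finChartOf O j`. -/
theorem regAt_jChart (lam : ↥O) (hlam0 : lam ≠ 0)
    (hlam : IsLocalRing.maximalIdeal ↥O = Ideal.span {lam})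
    (ht : Transcendental K0 t) [FiniteDimensional K0⟮t⟯ F0]
    (D : (↥O)[X]) (htj : t ∈ finChartOf O j)
    (hD0 : Polynomial.aeval t D ≠ 0) (hDinv : (Polynomial.aeval t D)⁻¹ ∈ finChartOf O j)
    (hloc : ∀ x ∈ finChartOf O j, ∃ n : ℕ, Polynomial.aeval t D ^ n * x ∈ finChartOf O t)
    (hV : Fermat.Agent.S37.helper530.ChartUnrAt O t (C lam))
    (hH : ∀ f : (↥O)[X], Prime f → ¬ C lam ∣ f → ¬ f ∣ D →
      Fermat.Agent.S37.helper530.ChartUnrAt O t f) :
    ∀ z : Ideal ↥(finChartOf O j), z.IsMaximal →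
      Fermat.Agent.S37.helper37.chartConst O j lam ∈ z →
      Fermat.Agent.S37.helper37.RegAt O j lam z :=
  exists_locGen_jChart O t j lam hlam0 hlam ht D htj hD0 hDinv hloc hV hH
    (Fermat.Agent.S37.helper37.chartConst O j lam) rfl

end Final

section FinalDVR

variable {K0 F0 : Type*} [Field K0] [CharZero K0] [Field F0] [Algebra K0 F0]
variable (O : ValuationSubring K0) [IsDiscreteValuationRing ↥O] (t j : F0)

/-- `regAt_jChart` for a discrete valuation ring `O` and an irreducible element `π`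
(the binders of `helper37.NodeReg`). -/
theorem regAt_jChart_of_irreducible (π : ↥O) (hπ : Irreducible π)
    (ht : Transcendental K0 t) [FiniteDimensional K0⟮t⟯ F0]
    (D : (↥O)[X]) (htj : t ∈ finChartOf O j)
    (hD0 : Polynomial.aeval t D ≠ 0) (hDinv : (Polynomial.aeval t D)⁻¹ ∈ finChartOf O j)
    (hloc : ∀ x ∈ finChartOf O j, ∃ n : ℕ, Polynomial.aeval t D ^ n * x ∈ finChartOf O t)
    (hV : Fermat.Agent.S37.helper530.ChartUnrAt O t (C π))
    (hH : ∀ f : (↥O)[X], Prime f → ¬ C π ∣ f → ¬ f ∣ D →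
      Fermat.Agent.S37.helper530.ChartUnrAt O t f) :
    ∀ z : Ideal ↥(finChartOf O j), z.IsMaximal →
      Fermat.Agent.S37.helper37.chartConst O j π ∈ z →
      Fermat.Agent.S37.helper37.RegAt O j π z :=
  regAt_jChart O t j π hπ.ne_zero hπ.maximalIdeal_eq ht D htj hD0 hDinv hloc hV hH

end FinalDVR

end Fermat.Agent.S37.helper8507
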