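import Fermat.Agent.S37.helper37_TrackB
import Fermat.Agent.S37.helper4612_XferAdapter
import Fermat.Agent.S37.helper9343_JIntegral
import Fermat.Agent.S37.helper4381_HeckeChart
import Fermat.Agent.S37.helper5162_HeckeInputsModular

/-!
# S37, Track B, node XFER (helper8671)

`helper37.NodeXfer N m ℓ` for `m = p` or `m = p * p`, `p` prime (in particular `m = 4` and
`m = 9`, the two cases consumed by `helper37.stmt_Kernel_of_nodes`): the pull-back of divisors
along `β_m : F_N → F_{N m}`, `q ↦ q^m`, maps the Track-B divisor kernel of level `N` into the one
of level `N * m`, for every valuation subring `A` of `ℚ̄`.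

Ingredients (all landed):

* E1 XFER without `hval` (`helper4612_XferAdapter`, on top of `helper869_Xfer` and
  `helper7465_Transfer`): `β_m^*` maps the point kernel of the chart with coordinate `t` into the
  point kernel of the chart with coordinate `β_m t`;
* mutual integrality of `j` and `β_m j = j(q^m)` (`helper9343_JIntegral`), which compares the
  charts with coordinates `j(q^m)` and `j` at level `N * m`;
* the valuative criterion and the cusp-chart calculus of `helper4381_HeckeChart`
  (`cuspGen_subset_of_isIntegral`, `isIntegral_closure_cuspGen_iff`).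

Generic dictionary proved here (`K F` fields, `A : ValuationSubring K`):

* `coe_finChartOf`  : `(helper37.finChartOf A t : Set F) = helper2025.finChart A t`;
* `coe_cuspChartOf` : `(helper37.cuspChartOf A u : Set F) = helper2025.infChart A u` as soon as
  no `1 + u * a`, `a ∈ A[u]`, vanishes (e.g. `u` transcendental over `K`);
* `finChart_subset_of_isIntegral`, `infChart_subset_of_isIntegral` : change of coordinate.
-/

set_option autoImplicit false

noncomputable section

namespace Fermat.Agent.S37.helper8671

open ModularCurve AlgebraicCurve Polynomial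
open Fermat.Agent.S24.helper24 (Kbar FN jBar)
open Fermat.Agent.S37.helper37 (polyRing finChartOf cuspChartOf)

/-! ## Generic dictionary between the Track-B charts and the charts of `helper2025` -/

section Generic

variable {K F : Type*} [Field K] [Field F] [Algebra K F]

/-- The Track-B finite chart is the finite chart of `helper2025`. -/
theorem coe_finChartOf (A : ValuationSubring K) (t : F) :
    (finChartOf A t : Set F) = helper2025.finChart A t := rfl

/-- The generators of the chart at infinity of `helper2025` are the cusp generators of
`helper4381`. -/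
theorem infGen_eq_cuspGen (A : ValuationSubring K) (u : F) :
    helper2025.infGen A u = helper4381.cuspGen (algebraMap K F '' (A : Set K)) u := rfl

/-- The Track-B cusp chart (saturation form) is the chart at infinity of `helper2025`
(generator form), as soon as no `1 + u * a`, `a ∈ A[u]`, vanishes. -/
theorem coe_cuspChartOf (A : ValuationSubring K) (u : F)
    (hne : ∀ a ∈ polyRing A u, 1 + u * a ≠ 0) :
    (cuspChartOf A u : Set F) = helper2025.infChart A u := by
  ext f
  exact (helper4381.isIntegral_closure_cuspGen_iff _ u hne f).symm

/-- The non-vanishing hypothesis of the cusp chart holds for a transcendental coordinate. -/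
theorem one_add_mul_ne_zero_of_transcendental (A : ValuationSubring K) {u : F}
    (hu : Transcendental K u) : ∀ a ∈ polyRing A u, 1 + u * a ≠ 0 := by
  intro a ha h0
  have hle : polyRing A u ≤ (Algebra.adjoin K {u}).toSubring := by
    refine Subring.closure_le.mpr ?_
    rintro g (⟨c, -, rfl⟩ | hg)
    · exact Subalgebra.algebraMap_mem _ c
    · rw [Set.mem_singleton_iff] at hg
      rw [hg]
      exact Algebra.self_mem_adjoin_singleton K u
  have ha' : a ∈ Algebra.adjoin K {u} := hle ha
  rw [Algebra.adjoin_singleton_eq_range_aeval] at ha'
  obtain ⟨P, rfl⟩ := ha'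
  have h1 : aeval u (1 + X * P : K[X]) = 0 := by
    simpa using h0
  have h2 : (1 + X * P : K[X]) = 0 := by
    by_contra hP
    exact hu ⟨_, hP, h1⟩
  have h3 := congrArg (fun Q : K[X] => Q.coeff 0) h2
  simp at h3

/-- The inverse of a transcendental element is transcendental. -/
theorem transcendental_inv' {u : F} (hu : Transcendental K u) : Transcendental K u⁻¹ := by
  intro h
  exact hu (by simpa using h.inv)

/-- Change of coordinate on the finite chart: if `y` is integral over `A[x]`, then the finite
chart with coordinate `y` is contained in the finite chart with coordinate `x`. -/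
theorem finChart_subset_of_isIntegral (A : ValuationSubring K) {x y : F}
    (h : IsIntegral (polyRing A x) y) :
    helper2025.finChart A y ⊆ helper2025.finChart A x := by
  intro f hf
  refine helper4381.isIntegral_closure_trans ?_ hf
  rintro g (hg | hg)
  · exact helper4381.isIntegral_closure_of_mem (Or.inl hg)
  · rw [Set.mem_singleton_iff] at hg
    rw [hg]
    exact h

/-- Change of coordinate on the chart at infinity: if `x` is integral over `A[y]`, then the chart
at infinity with coordinate `1/y` is contained in the chart at infinity with coordinate `1/x`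
(every "cuspidal disc" for `x` is a cuspidal disc for `y`). -/
theorem infChart_subset_of_isIntegral (A : ValuationSubring K) {x y : F} (hx0 : x ≠ 0)
    (h : IsIntegral (polyRing A y) x)
    (hne : ∀ g ∈ polyRing A x⁻¹, 1 + x⁻¹ * g ≠ 0) :
    helper2025.infChart A y⁻¹ ⊆ helper2025.infChart A x⁻¹ := by
  intro f hf
  change IsIntegral (Subring.closure (helper4381.cuspGen _ y⁻¹)) f at hf
  change IsIntegral (Subring.closure (helper4381.cuspGen _ x⁻¹)) f
  rw [helper4381.isIntegral_closure_iff] at hf ⊢
  intro W hW
  exact hf W (helper4381.cuspGen_subset_of_isIntegral W _ hx0 h hne hW)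

end Generic

/-! ## The modular instance -/

section Modular

/-- The Track-B divisor kernel is the chart divisor kernel of `helper869` for the Track-B
charts. -/
theorem divKernel_eq_chartDivKernel (A : ValuationSubring Kbar) (M : ℕ) [NeZero M] :
    helper37.divKernel A M = helper869.chartDivKernel A (helper37.charts A M) := rfl

variable (N m : ℕ) [NeZero N] [NeZero m]

/-- **Node XFER** for `m = p` or `m = p * p`, `p` prime: `β_m^*` maps the Track-B divisor kernel
of level `N` into the Track-B divisor kernel of level `N * m`. -/
theorem nodeXfer_of_prime_or_sq (ℓ p : ℕ) (hp : p.Prime) (hm : m = p ∨ m = p * p) :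
    helper37.NodeXfer N m ℓ := by
  intro A _
  have hβi := helper5162.heckeBetaBarIntegral N m
  have hfin := helper5162.finiteAlong_heckeBetaBar N m
  have hres := helper5162.residueField_surjective (N * m)
  have htrN : Transcendental Kbar (jBar N) := Fermat.Agent.S24.helper3176.transcendental_jBar N
  have htrM : Transcendental Kbar (jBar (N * m)) :=
    Fermat.Agent.S24.helper3176.transcendental_jBar (N * m)
  have htrβ : Transcendental Kbar (heckeBetaBar Kbar N m (jBar N)) :=
    helper5162.transcendental_heckeBetaBar_jBar N m
  have hx0 : heckeBetaBar Kbar N m (jBar N) ≠ 0 := fun h0 =>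
    htrβ (h0 ▸ (isAlgebraic_zero))
  have hI1 := helper9343.isIntegral_jBar_of_heckeBetaBar_mem_subring N m p hp hm
    (polyRing A (heckeBetaBar Kbar N m (jBar N) : FN (N * m))) (helper37.self_mem_polyRing A _)
  have hI2 := helper9343.isIntegral_heckeBetaBar_jBar_of_mem_subring N m p hp hm
    (polyRing A (jBar (N * m))) (helper37.self_mem_polyRing A _)
  rw [divKernel_eq_chartDivKernel, divKernel_eq_chartDivKernel]
  refine helper869.map_pullbackAlong_chartDivKernel_le (heckeBetaBar Kbar N m) hβi A _ _ ?_
  rintro R (rfl | rfl)
  · refine ⟨_, Or.inl rfl, ?_⟩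
    have h1 := helper4612.map_pullbackAlong_ptKernel_finChart_le (heckeBetaBar Kbar N m) hβi hfin
      A (jBar N) hres
    exact h1.trans (helper7465.ptKernel_mono (finChart_subset_of_isIntegral A hI1))
  · refine ⟨_, Or.inr rfl, ?_⟩
    have h1 := helper4612.map_pullbackAlong_ptKernel_infChart_le (heckeBetaBar Kbar N m) hβi hfin
      A (jBar N)⁻¹ hres
    rw [map_inv₀] at h1
    have e1 : (helper37.cuspChart A N : Set (FN N)) = helper2025.infChart A (jBar N)⁻¹ :=
      coe_cuspChartOf A _ (one_add_mul_ne_zero_of_transcendental A (transcendental_inv' htrN))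
    have e2 : (helper37.cuspChart A (N * m) : Set (FN (N * m)))
        = helper2025.infChart A (jBar (N * m))⁻¹ :=
      coe_cuspChartOf A _ (one_add_mul_ne_zero_of_transcendental A (transcendental_inv' htrM))
    rw [e1, e2]
    exact h1.trans (helper7465.ptKernel_mono (infChart_subset_of_isIntegral A hx0 hI2
      (one_add_mul_ne_zero_of_transcendental A (transcendental_inv' htrβ))))

/-- **Node XFER at `m = 4`** (used for `ℓ` odd). -/
theorem nodeXfer_four (ℓ : ℕ) : helper37.NodeXfer N 4 ℓ :=
  nodeXfer_of_prime_or_sq N 4 ℓ 2 Nat.prime_two (Or.inr rfl)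

/-- **Node XFER at `m = 9`** (used for `ℓ = 2`). -/
theorem nodeXfer_nine (ℓ : ℕ) : helper37.NodeXfer N 9 ℓ :=
  nodeXfer_of_prime_or_sq N 9 ℓ 3 Nat.prime_three (Or.inr rfl)

end Modular

end Fermat.Agent.S37.helper8671
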