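import Fermat.Agent.S37.helper869_Xfer
import Fermat.Agent.S37.helper5162_HeckeInputsModular

/-!
# S37-E1 XFER, modular instance (helper869)

The instance of `helper869_Xfer` for the level-raising inclusion
`heckeAlphaBar ℚ̄ N r : F_N → F_{N r}` of modular function fields and the two standard `A`-charts
`helper2025.stdCharts A j` with coordinate `j`:

the pull-back of divisors maps the divisor-level specialisation kernel of level `N` into the one
of level `N * r`, for EVERY valuation subring `A` of `ℚ̄` and all `N`, `r` (no primality or
coprimality hypothesis).  The only hypothesis left is the fibre formula `Stmt_FibreFormula N r`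
(plan module B4 CPF / KRON-VAL (c)) for the extension `F_{N r} / F_N`.
-/

set_option autoImplicit false

noncomputable section

namespace Fermat.Agent.S37.helper869

open ModularCurve AlgebraicCurve
open Fermat.Agent.S24.helper24
open Fermat.Agent.S37.helper2025 (finChart infChart ChartRel relSubgroup stdCharts specKernel)
open Fermat.Agent.S37.helper7465 (CharpolyValueAlong)
open Fermat.Agent.S37.helper5162

variable (N r : ℕ) [NeZero N] [NeZero r]

/-- The fibre formula (plan module B4 CPF / KRON-VAL (c)) for the extension `F_{N r} / F_N`
along the inclusion `heckeAlphaBar`: the coefficients of the characteristic polynomial of a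
function `h` of `F_{N r}` take at a place `v` of `F_N` the values of the coefficients of
`∏_{w ∣ v} (X - h(w)) ^ e(w ∣ v)`. -/
def Stmt_FibreFormula : Prop :=
  CharpolyValueAlong Kbar (heckeAlphaBar Kbar N r) (heckeAlphaBarIntegral N r) Set.univ
    (charpolyAlong (heckeAlphaBar Kbar N r) (finiteAlong_heckeAlphaBar N r))

/-- **E1 at the modular level, divisor form.**  The pull-back along `F_N → F_{N r}` maps the
divisor-level specialisation kernel of the standard charts of level `N` into the one of level
`N * r`. -/
theorem map_pullbackAlong_chartDivKernel_level (A : ValuationSubring Kbar)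
    (hval : Stmt_FibreFormula N r) :
    (chartDivKernel A (stdCharts A (jBar N))).map
        (Divisor.pullbackAlong (heckeAlphaBar Kbar N r) (heckeAlphaBarIntegral N r))
      ≤ chartDivKernel A (stdCharts A (jBar (N * r))) := by
  have h := map_pullbackAlong_chartDivKernel_stdCharts_le' (heckeAlphaBar Kbar N r)
    (heckeAlphaBarIntegral N r) (finiteAlong_heckeAlphaBar N r) A (jBar N) hval
    (residueField_surjective (N * r))
  rw [heckeAlphaBar_jBar] at h
  exact h

/-- **E1 at the modular level, `mapDomain` form**: crude specialisation zero at level `N`
implies crude specialisation zero of the pull-back at level `N * r`. -/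
theorem mapDomain_pullbackAlong_level (A : ValuationSubring Kbar) (hval : Stmt_FibreFormula N r)
    {D : Divisor Kbar (FN N)}
    (hD : Finsupp.mapDomain (Quot.mk (ChartRel A (stdCharts A (jBar N)))) D = 0) :
    Finsupp.mapDomain (Quot.mk (ChartRel A (stdCharts A (jBar (N * r)))))
      (Divisor.pullbackAlong (heckeAlphaBar Kbar N r) (heckeAlphaBarIntegral N r) D) = 0 :=
  mapDomain_pullbackAlong_eq_zero _ _ A _ _ (map_pullbackAlong_chartDivKernel_level N r A hval) hD

/-- **E1 at the modular level, class form**: every class `x` of the specialisation kernel of the
standard charts of `J₀(N)` is represented by a divisor `D` of degree zero of the divisor-level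
kernel whose pull-back to level `N * r` lies in the divisor-level kernel of level `N * r`. -/
theorem exists_rep_pullbackAlong_mem (A : ValuationSubring Kbar) (hval : Stmt_FibreFormula N r)
    {x : JZero N} (hx : x ∈ specKernel A (stdCharts A (jBar N))) :
    ∃ D : Divisor.degZero (K := Kbar) (F := FN N), Pic0.mk D = x ∧
      (D : Divisor Kbar (FN N)) ∈ chartDivKernel A (stdCharts A (jBar N)) ∧
      Divisor.pullbackAlong (heckeAlphaBar Kbar N r) (heckeAlphaBarIntegral N r)
        (D : Divisor Kbar (FN N)) ∈ chartDivKernel A (stdCharts A (jBar (N * r))) := by
  obtain ⟨D, hD, rfl⟩ := exists_rep_mem_chartDivKernel hx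
  exact ⟨D, rfl, hD, map_pullbackAlong_chartDivKernel_level N r A hval
    (AddSubgroup.mem_map_of_mem _ hD)⟩

end Fermat.Agent.S37.helper869
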