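import Mathlib
import Fermat.Agent.S37.helper729_LatticeAssembly
import Fermat.Agent.S37.helper6887_Fricke
import Fermat.Agent.S37.helper9304_PicInj
import Fermat.Agent.S37.helper9343_BetaAdapter
import Fermat.Agent.S37.helper8426_HeckeInputs
import Fermat.Agent.S37.helper126_TorsionGlue
import Fermat.Agent.S18.helper4307_PlacesFullC
import Fermat.Agent.S18.helper8991_GaussInst
import Fermat.Agent.S18.helper508_GaussMod
import Fermat.Agent.Lib.helper6879_ResidueQbar

/-!
# S37, lattice track WITHOUT the S18 Kummer statement (helper86)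

Complement of `helper729_LatticeAssembly` (board rows 1538 / 1583).  There the torsion clause
(R3) of the lattice track is taken from the S18 Kummer field form `helper3054.Stmt_KF N ℓ` at
level `N`.  Here it is obtained from the lattice bundle at the auxiliary level `N r` ALONE:

* `zeroPlace M` : the cusp `0` of level `M` (the `q`-adic place twisted by the Fricke involution);
  `ramificationIndexAlong_heckeAlphaBar_zeroPlace` : it has ramification index `r` along the
  inclusion `α_r : F_N ⊆ F_{N r}`;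
* `isPrincipal_of_pullback_alpha` (α-PICINJ) : if `[F_{N r} : F_N] < 2 r` (e.g. `r = p^(κ+1)`,
  `finrankAlong_heckeAlphaBar_prime_pow_lt`), a divisor of `F_N` whose pull-back to `F_{N r}` is
  principal is principal;
* `red_surjective_of_compat`, `ksurj_of_compat`, `vg_of_compat` : the three "Gauss trivia" of
  `helper126.isPrincipal_of_latHyp'` follow from the field `compat` of `helper729.LatData`;
* `csp_torsion_of_lat` : (R3) for `ker csp` from `helper126.isPrincipal_of_latHyp'` at
  level `N r` and α-PICINJ;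
* `NodesPP N`, `stmt_Csp_of_nodesPP`, `stmt_Kernel_of_nodesPP` : the assembly
  `NodesPP N → helper8353.Stmt_Kernel N` with NO hypothesis from S18's Kummer theory.
-/

set_option autoImplicit false
set_option synthInstance.maxHeartbeats 400000

noncomputable section

namespace Fermat.Agent.S37.helper86

open ModularCurve AlgebraicCurve
open Fermat.Agent.S24.helper24
open Fermat.Agent.S37 Fermat.Agent.S18

/-! ### Restriction of places along surjective homs -/

section Generic

variable {K F F' : Type*} [Field K] [Field F] [Field F'] [Algebra K F] [Algebra K F']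

/-- The ramification index along a surjective algebra hom is one. -/
theorem ramificationIndexAlong_of_surjective (φ : F →ₐ[K] F') (hφ : φ.toRingHom.IsIntegral)
    (hsurj : Function.Surjective φ) (w : Place K F') : w.ramificationIndexAlong φ = 1 := by
  obtain ⟨π, -, hπ⟩ := helper9304.exists_uniformizer w
  obtain ⟨f, rfl⟩ := hsurj π
  have h := Place.ord_restrictAlong φ hφ w f
  rw [hπ] at h
  have h1 : ((w.ramificationIndexAlong φ : ℕ) : ℤ) ∣ 1 := ⟨_, h⟩
  exact Nat.eq_one_of_dvd_one (Int.natCast_dvd_natCast.mp (by exact_mod_cast h1))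

/-- Orders at the restriction of a place along a surjective algebra hom. -/
theorem ord_restrictAlong_of_surjective (φ : F →ₐ[K] F') (hφ : φ.toRingHom.IsIntegral)
    (hsurj : Function.Surjective φ) (w : Place K F') (f : F) :
    (w.restrictAlong φ hφ).ord f = w.ord (φ f) := by
  rw [Place.ord_restrictAlong φ hφ w f, ramificationIndexAlong_of_surjective φ hφ hsurj,
    Nat.cast_one, one_mul]

end Generic

/-! ### The cusp `0` and α-PICINJ -/

section Zero

variable (M : ℕ) [NeZero M]

theorem frickeBar_isIntegral :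
    ((helper6887.frickeBar M : FN M ≃ₐ[Kbar] FN M) : FN M →ₐ[Kbar] FN M).toRingHom.IsIntegral :=
  RingHom.isIntegral_of_surjective _ (helper6887.frickeBar M).surjective

/-- The cusp `0` of level `M`: the `q`-adic place twisted by the Fricke involution. -/
def zeroPlace : Place Kbar (FN M) :=
  (helper9343.qPlace M).restrictAlong
    ((helper6887.frickeBar M : FN M ≃ₐ[Kbar] FN M) : FN M →ₐ[Kbar] FN M) (frickeBar_isIntegral M)

theorem zeroPlace_ord (f : FN M) :
    (zeroPlace M).ord f = (helper9343.qPlace M).ord (helper6887.frickeBar M f) :=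
  ord_restrictAlong_of_surjective _ (frickeBar_isIntegral M) (helper6887.frickeBar M).surjective
    _ f

end Zero

section Alpha

variable (N r : ℕ) [NeZero N] [NeZero r]

/-- `W ∘ α = β ∘ W`. -/
theorem frickeBar_heckeAlphaBar (f : FN N) :
    helper6887.frickeBar (N * r) (heckeAlphaBar Kbar N r f)
      = heckeBetaBar Kbar N r (helper6887.frickeBar N f) := by
  rw [helper6887.heckeBetaBar_eq_fricke]
  show _ = helper6887.frickeBar (N * r)
    (heckeAlphaBar Kbar N r (helper6887.frickeBar N (helper6887.frickeBar N f)))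
  rw [helper6887.frickeBar_frickeBar]

theorem zeroPlace_ord_heckeAlphaBar {f : FN N} (hf : f ≠ 0) :
    (zeroPlace (N * r)).ord (heckeAlphaBar Kbar N r f) = (r : ℤ) * (zeroPlace N).ord f := by
  rw [zeroPlace_ord, zeroPlace_ord, frickeBar_heckeAlphaBar,
    helper9343.qPlace_ord_heckeBetaBar N r
      ((map_ne_zero_iff _ (helper6887.frickeBar N).injective).mpr hf)]

/-- **The cusp `0` is totally ramified along the inclusion `α_r : F_N ⊆ F_{N r}`.** -/
theorem ramificationIndexAlong_heckeAlphaBar_zeroPlace :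
    (zeroPlace (N * r)).ramificationIndexAlong (heckeAlphaBar Kbar N r) = r := by
  have hα := helper5162.heckeAlphaBarIntegral N r
  set e := (zeroPlace (N * r)).ramificationIndexAlong (heckeAlphaBar Kbar N r) with he
  have key : ∀ f : FN N, f ≠ 0 →
      (r : ℤ) * (zeroPlace N).ord f
        = (e : ℤ) * ((zeroPlace (N * r)).restrictAlong (heckeAlphaBar Kbar N r) hα).ord f := by
    intro f hf
    rw [← zeroPlace_ord_heckeAlphaBar N r hf]
    exact Place.ord_restrictAlong (heckeAlphaBar Kbar N r) hα (zeroPlace (N * r)) f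
  have h1 : e ∣ r := by
    obtain ⟨π, hπ0, hπ⟩ := helper9304.exists_uniformizer (zeroPlace N)
    have h := key π hπ0
    rw [hπ, mul_one] at h
    exact Int.natCast_dvd_natCast.mp ⟨_, h⟩
  have h2 : r ∣ e := by
    obtain ⟨π, hπ0, hπ⟩ := helper9304.exists_uniformizer
      ((zeroPlace (N * r)).restrictAlong (heckeAlphaBar Kbar N r) hα)
    have h := key π hπ0
    rw [hπ, mul_one] at h
    exact Int.natCast_dvd_natCast.mp ⟨_, h.symm⟩
  exact Nat.dvd_antisymm h1 h2

/-- **α-PICINJ**: if `[F_{N r} : F_N] < 2 r`, a divisor of `F_N` whose pull-back to level `N r`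
(along the inclusion) is principal is principal.  (The cusp `0` of `X₀(N r)` has ramification
index `r > [F_{N r} : F_N] / 2`, so there is no unramified subcover; `helper9304`.) -/
theorem isPrincipal_of_pullback_alpha
    (hlt : finrankAlong Kbar (heckeAlphaBar Kbar N r) < 2 * r)
    (D : Divisor Kbar (FN N))
    (hD : (Divisor.pullbackAlong (heckeAlphaBar Kbar N r)
      (helper5162.heckeAlphaBarIntegral N r) D).IsPrincipal) : D.IsPrincipal := by
  refine helper9304.isPrincipal_of_isPrincipal_pullbackAlong_functionField (jBar N)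
    (Fermat.Agent.S24.helper3176.transcendental_jBar N) (jBar (N * r))
    (Fermat.Agent.S24.helper3176.transcendental_jBar (N * r)) (heckeAlphaBar Kbar N r)
    (helper5162.heckeAlphaBarIntegral N r) (helper5162.finiteAlong_heckeAlphaBar N r)
    (helper8426.fundamentalIdentityAlong_heckeAlphaBar N r)
    (helper8426.normFormulaAlong_heckeAlphaBar N r) (zeroPlace (N * r)) ?_ D hD
  rw [ramificationIndexAlong_heckeAlphaBar_zeroPlace]
  exact hlt

end Alpha

/-- `[F_{N p^(κ+1)} : F_N] < 2 p^(κ+1)`: the degree hypothesis of α-PICINJ at a prime-power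
auxiliary factor. -/
theorem finrankAlong_heckeAlphaBar_prime_pow_lt (N r p κ : ℕ) [NeZero N] [NeZero r]
    (hp : p.Prime) (hr : r = p ^ (κ + 1)) :
    finrankAlong Kbar (heckeAlphaBar Kbar N r) < 2 * r := by
  subst hr
  rw [← helper6887.finrankAlong_heckeBetaBar_eq]
  exact helper6887.finrankAlong_heckeBetaBar_prime_pow_lt N p κ hp

/-- `[F_{N·1} : F_N] = 1 < 2`: the degree hypothesis of α-PICINJ without auxiliary factor. -/
theorem finrankAlong_heckeAlphaBar_one_lt (N : ℕ) [NeZero N] :
    finrankAlong Kbar (heckeAlphaBar Kbar N 1) < 2 * 1 := by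
  have h := helper6887.finrankAlong_heckeAlphaBar N 1
  have h' : dedekindPsi (N * 1) = dedekindPsi N := by rw [mul_one]
  rw [h'] at h
  have hpos := helper6887.dedekindPsi_pos (NeZero.ne N)
  have h1 : finrankAlong Kbar (heckeAlphaBar Kbar N 1) = 1 := by
    have h2 : dedekindPsi N * finrankAlong Kbar (heckeAlphaBar Kbar N 1) = dedekindPsi N * 1 :=
      h.trans (Nat.mul_one _).symm
    exact Nat.eq_of_mul_eq_mul_left hpos h2
  omega

/-! ### The Gauss trivia from `compat` -/

section Trivia

open Fermat.Agent.S37.helper8353 (Qb GQ Stmt_Kernel)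
open Fermat.Agent.S37.helper1138 (FNb gal)
open Fermat.Agent.S18.helper3054 (IntegralFn)
open Fermat.Agent.S37.helper729 (kA FkA LatData)

/-- Gauss normal form: every nonzero function of level `M` is a constant times a quotient of
two integral functions. -/
theorem exists_integralFn_quot (M : ℕ) [NeZero M] (ℓ : ℕ) [Fact ℓ.Prime] (hℓM : ¬ ℓ ∣ M)
    (A : ValuationSubring Qb) (hA : A.LiesOverPrime ℓ) (u : FNb M) (hu : u ≠ 0) :
    ∃ (c : Qb) (a b : IntegralFn A M), c ≠ 0 ∧
      u * b.gen = algebraMap Qb (FNb M) c * a.gen := by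
  have hu' : (u : LaurentSeries Qb) ≠ 0 := fun h => hu (Subtype.ext h)
  obtain ⟨c, X, Y, hc, hX, hY, hXm, hYm, h⟩ :=
    helper8991.exists_normal_form A (IsLocalRing.residue A) M u.2 hu'
  refine ⟨c, ⟨X, hXm, helper508.coeffMap_residue_mem_fullC M ℓ hℓM A hA X hXm, hX⟩,
    ⟨Y, hYm, helper508.coeffMap_residue_mem_fullC M ℓ hℓM A hA Y hYm, hY⟩, hc, ?_⟩
  apply Subtype.ext
  rw [helper8991.C_eq_algebraMap] at h
  exact h

variable {M : ℕ} [NeZero M] {ℓ : ℕ} (hℓ : ℓ.Prime) (hℓM : ¬ ℓ ∣ M) (A : ValuationSubring Qb)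
  (hA : A.LiesOverPrime ℓ) {O : ValuationSubring (FNb M)} {red : O →+* FkA A M}
  (hcompat : ∀ a : IntegralFn A M, ∃ h : a.gen ∈ O,
    ((red ⟨a.gen, h⟩ : FkA A M) : LaurentSeries (kA A)) = (a.red : LaurentSeries (kA A)))

include hℓ hℓM hA hcompat in
/-- (T1) `red` is onto the function field of the special fibre. -/
theorem red_surjective_of_compat : Function.Surjective red := by
  intro z
  by_cases hz : z = 0
  · exact ⟨0, by rw [hz, map_zero]⟩
  · have : Fact ℓ.Prime := ⟨hℓ⟩
    obtain ⟨y, hy, hyz⟩ := helper508.exists_coeffMap_residue_eq M ℓ hℓM A hA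
      (z : LaurentSeries (kA A)) z.2
    let a : IntegralFn A M := ⟨y, hy, by rw [hyz]; exact z.2,
      by rw [hyz]; exact fun h => hz (Subtype.ext h)⟩
    obtain ⟨h, hh⟩ := hcompat a
    exact ⟨⟨a.gen, h⟩, Subtype.ext (hh.trans hyz)⟩

omit [NeZero M] in
include hcompat in
/-- (T2) every constant of the special fibre is the reduction of a constant. -/
theorem ksurj_of_compat (b : kA A) :
    ∃ (a : Qb) (h : algebraMap Qb (FNb M) a ∈ O),
      red ⟨algebraMap Qb (FNb M) a, h⟩ = algebraMap (kA A) (FkA A M) b := by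
  by_cases hb : b = 0
  · have h0 : algebraMap Qb (FNb M) 0 ∈ O := by rw [map_zero]; exact O.zero_mem
    refine ⟨0, h0, ?_⟩
    have : (⟨algebraMap Qb (FNb M) 0, h0⟩ : O) = 0 := Subtype.ext (map_zero _)
    rw [this, map_zero, hb, map_zero]
  · obtain ⟨a', rfl⟩ := IsLocalRing.residue_surjective b
    have hmem : coeffMap A.subtype (HahnSeries.single 0 a' : LaurentSeries A)
        ∈ modularFunctionFieldBar M := by
      rw [coeffMap_single, ← algebraMap_laurentSeries_eq_single]
      exact IntermediateField.algebraMap_mem _ _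
    have hmemk : coeffMap (IsLocalRing.residue A) (HahnSeries.single 0 a' : LaurentSeries A)
        ∈ modularFunctionFieldFullC (IsLocalRing.ResidueField A) M := by
      rw [coeffMap_single, ← algebraMap_laurentSeries_eq_single]
      exact IntermediateField.algebraMap_mem _ _
    have hne : coeffMap (IsLocalRing.residue A) (HahnSeries.single 0 a' : LaurentSeries A) ≠ 0 := by
      rw [coeffMap_single]
      exact HahnSeries.single_ne_zero hb
    let x : IntegralFn A M := ⟨HahnSeries.single 0 a', hmem, hmemk, hne⟩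
    obtain ⟨h, hh⟩ := hcompat x
    have hgen : x.gen = algebraMap Qb (FNb M) (a' : Qb) := by
      apply Subtype.ext
      show coeffMap A.subtype (HahnSeries.single 0 a' : LaurentSeries A) = _
      rw [coeffMap_single, ← algebraMap_laurentSeries_eq_single]
      rfl
    have h' : algebraMap Qb (FNb M) (a' : Qb) ∈ O := hgen ▸ h
    refine ⟨(a' : Qb), h', Subtype.ext ?_⟩
    have heq : (⟨algebraMap Qb (FNb M) (a' : Qb), h'⟩ : O) = ⟨x.gen, h⟩ := Subtype.ext hgen.symm
    rw [heq, hh]
    show coeffMap (IsLocalRing.residue A) (HahnSeries.single 0 a' : LaurentSeries A) = _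
    rw [coeffMap_single, ← algebraMap_laurentSeries_eq_single]
    rfl

include hℓ hℓM hA hcompat in
/-- (T3) the value group of `O` is that of the constants. -/
theorem vg_of_compat (hunit : ∀ x : O, red x ≠ 0 → IsUnit x) (f : FNb M) (hf : f ≠ 0) :
    ∃ c : Qb, O.valuation (algebraMap Qb (FNb M) c) = O.valuation f := by
  have : Fact ℓ.Prime := ⟨hℓ⟩
  obtain ⟨cst, a, b, -, hab⟩ := exists_integralFn_quot M ℓ hℓM A hA f hf
  have key : ∀ x : IntegralFn A M, O.valuation x.gen = 1 := by
    intro x
    obtain ⟨hx, hxred⟩ := hcompat x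
    have hne : red ⟨x.gen, hx⟩ ≠ 0 := by
      intro h0
      apply x.red_ne_zero
      apply Subtype.ext
      rw [← hxred, h0]
    obtain ⟨u, hu⟩ := hunit _ hne
    have h1 := O.valuation_unit u
    rw [hu] at h1
    exact h1
  refine ⟨cst, ?_⟩
  have h := congrArg O.valuation hab
  rw [map_mul, map_mul, key a, key b, mul_one, mul_one] at h
  exact h.symm

end Trivia

/-! ### The torsion clause from the lattice bundle alone -/

section Torsion

open Fermat.Agent.S37.helper8353 (Qb GQ Stmt_Kernel)
open Fermat.Agent.S37.helper1138 (FNb gal)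
open Fermat.Agent.S18.helper3054 (IntegralFn)
open Fermat.Agent.S37.helper729 (kA FkA LatData Nodes)

/-- `helper126.isPrincipal_of_latHyp'` with an integer genus parameter. -/
theorem isPrincipal_of_latHyp_int {L F k Fk : Type*} [Field L] [Field F] [Algebra L F]
    [Field k] [Field Fk] [Algebra k Fk] [HasPrincipalDivisors L F] [HasPrincipalDivisors k Fk]
    [Infinite k] {O : ValuationSubring F} {red : O →+* Fk} {g c : ℤ} {E₀ : Divisor L F}
    {E₀k : Divisor k Fk} (hg : 0 ≤ g) (H : helper5413.LatHyp O red g c E₀ E₀k)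
    (hsurj : Function.Surjective red)
    (hksurj : ∀ b : k, ∃ (a : L) (h : algebraMap L F a ∈ O),
      red ⟨algebraMap L F a, h⟩ = algebraMap k Fk b)
    (hVG : ∀ f : F, f ≠ 0 → ∃ c : L, O.valuation (algebraMap L F c) = O.valuation f)
    (m : ℕ) (hm : (m : Fk) ≠ 0) (D : Divisor L F) (hdeg : Divisor.degree D = 0)
    (hsp : Finsupp.mapDomain H.placeRed D = 0) (hmD : (m • D).IsPrincipal) :
    D.IsPrincipal := by
  lift g to ℕ using hg
  exact helper126.isPrincipal_of_latHyp' H hsurj hksurj hVG m hm D hdeg hsp hmD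

variable {N r ℓ : ℕ} [NeZero N] [NeZero r] [NeZero ℓ] {A : ValuationSubring Qb} {σ : GQ}

/-- **(C3) without S18.**  For a node bundle at the auxiliary level `N r` with `0 ≤ g` and
`[F_{N r} : F_N] < 2 r`, `ker csp` has no class of prime order `q ≠ ℓ`:
`helper126.isPrincipal_of_latHyp'` at level `N r` (the Gauss trivia come from `compat`), then
α-PICINJ down to level `N`. -/
theorem csp_torsion_of_lat (d : LatData N r ℓ A σ) (hℓ : ℓ.Prime) (hℓM : ¬ ℓ ∣ N * r)
    (hA : A.LiesOverPrime ℓ) (hg : 0 ≤ d.g)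
    (hlt : finrankAlong Qb (heckeAlphaBar Qb N r) < 2 * r)
    (q : ℕ) (hq : q.Prime) (hqℓ : q ≠ ℓ)
    (D : Divisor.degZero (K := Qb) (F := FNb N)) (hD : d.csp (D : Divisor Qb (FNb N)) = 0)
    (hqD : q • (Pic0.mk D : JZero N) = 0) : (Pic0.mk D : JZero N) = 0 := by
  rw [helper872.nsmul_pic0_mk_eq_zero_iff] at hqD
  rw [helper872.pic0_mk_eq_zero_iff]
  have : IsAlgClosed (kA A) := Fermat.Agent.Lib.helper6879.isAlgClosed_residueField A
  have : CharP (kA A) ℓ := Fermat.Agent.Lib.helper6879.charP_residueField hℓ A hA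
  have : HasPrincipalDivisors (kA A) (FkA A (N * r)) :=
    helper4307.hasPrincipalDivisors_fullC (kA A) (N * r)
      (helper4307.natCast_ne_zero_residue (N * r) hℓ hℓM A hA)
  have hqk : (q : kA A) ≠ 0 := by
    intro h0
    have hdvd : ℓ ∣ q := (CharP.cast_eq_zero_iff (kA A) ℓ q).mp h0
    exact hqℓ ((Nat.prime_dvd_prime_iff_eq hℓ hq).mp hdvd).symm
  have hqF : (q : FkA A (N * r)) ≠ 0 := by
    intro h0
    apply hqk
    have h1 : algebraMap (kA A) (FkA A (N * r)) (q : kA A) = 0 := by rw [map_natCast]; exact h0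
    exact (map_eq_zero _).mp h1
  refine isPrincipal_of_pullback_alpha N r hlt (D : Divisor Qb (FNb N)) ?_
  refine isPrincipal_of_latHyp_int hg d.lat
    (red_surjective_of_compat hℓ hℓM A hA d.compat) (ksurj_of_compat A d.compat)
    (vg_of_compat hℓ hℓM A hA d.compat (fun x hx => d.lat.isUnit_of_red_ne_zero hx))
    q hqF _ ?_ hD ?_
  · rw [Divisor.degree_pullbackAlong _ _ (helper8426.fundamentalIdentityAlong_heckeAlphaBar N r),
      Divisor.mem_degZero.mp D.2, mul_zero]
  · rw [← map_nsmul]
    exact Divisor.isPrincipal_pullbackAlong _ _ hqD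

variable (N)

/-- **The node statement of the lattice track, S18-free form.**  As `helper729.Nodes N`, with
two harmless side conditions on the auxiliary factor `r` and the genus parameter:
`[F_{N r} : F_N] < 2 r` (true for `r = p^(κ+1)` and `r = 1`) and `0 ≤ g`. -/
def NodesPP : Prop :=
  ∀ ℓ : ℕ, ∀ hℓ : ℓ.Prime, ¬ ℓ ∣ N →
    ∀ A : ValuationSubring Qb, A.LiesOverPrime ℓ →
      ∃ σ : GQ, A.IsFrobeniusAt σ ℓ ∧ ∃ (r : ℕ) (_ : NeZero r), ¬ ℓ ∣ N * r ∧
        finrankAlong Qb (heckeAlphaBar Qb N r) < 2 * r ∧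
        (haveI : NeZero ℓ := ⟨hℓ.ne_zero⟩
         ∃ d : LatData N r ℓ A σ, 0 ≤ d.g)

variable {N}

theorem nodes_of_nodesPP (h : NodesPP N) : Nodes N := by
  intro ℓ hℓ hℓN A hA
  obtain ⟨σ, hσ, r, hr, hℓM, -, d, -⟩ := h ℓ hℓ hℓN A hA
  exact ⟨σ, hσ, r, hr, hℓM, ⟨d⟩⟩

/-- **Assembly of the lattice track without S18, `csp` form.** -/
theorem stmt_Csp_of_nodesPP (h : NodesPP N) : helper1138.Stmt_Csp N := by
  intro ℓ hℓ hℓN A hA
  obtain ⟨σ, hσ, r, hr, hℓM, hlt, d, hg⟩ := h ℓ hℓ hℓN A hA
  have : NeZero ℓ := ⟨hℓ.ne_zero⟩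
  refine ⟨σ, hσ, Divisor (kA A) (FkA A (N * r)), inferInstance, d.csp, ?_, ?_, ?_⟩
  · intro τ hτ v
    rw [← SemilinearAut.smul_single]
    exact d.csp_inertia hτ _
  · intro hα hβ _ v
    have h2 := d.csp_hecke hℓ hℓM (Finsupp.single v 1)
    rw [SemilinearAut.smul_single, SemilinearAut.smul_single] at h2
    exact h2
  · intro q hq hqℓ D hD hqD
    exact csp_torsion_of_lat d hℓ hℓM hA hg hlt q hq hqℓ D hD hqD

/-- **Assembly of the lattice track without S18.**  The nodes (L), (COMPAT), (G), (K), (BC) at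
ONE auxiliary level `N r` per prime `ℓ ∤ N` give the kernel statement
`helper8353.Stmt_Kernel N`, hence (with `helper8353.result_of_kernel`) the frozen statement S37.
No Kummer statement of S18 is used. -/
theorem stmt_Kernel_of_nodesPP (h : NodesPP N) : Stmt_Kernel N :=
  helper1138.stmt_Kernel_of_divKernel (fun ℓ _ => helper8426.heckeInputsAlong N ℓ)
    (helper1138.stmt_DivKernel_of_csp (stmt_Csp_of_nodesPP h))

end Torsion

end Fermat.Agent.S37.helper86

end
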