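import Mathlib
import Fermat.Agent.S37.helper872_TorsAssembly
import Fermat.Agent.S37.helper869_Xfer
import Fermat.Agent.S37.helper5162_HeckeInputsModular

/-!
# S37, Track A: the torsion clause (R3) for the chart-type specialisation kernel

Instance of `helper872_TorsAssembly` (plan module E6) for the kernel of the architect's ruling:
`W = helper2025.specKernel A (stdCharts A t)` (classes of `[v] - [w]`, `v`, `w` with the same
residue map on one of the two standard `A`-charts of a coordinate `t`), with divisor-level kernel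
`helper869.chartDivKernel A {finChart A t, infChart A t⁻¹}`.

* `locFormula_of_gauss_const` : adapter for the local formula (E2) in the shape
  "a Gauss unit `U` with `div U ∈ Kd` is congruent to a constant of `A` modulo the maximal ideal
  of the Gauss ring `helper8991.gaussF`"  ⟹  `LocFormula A N Kd`.
* `d3_stdCharts`, `r3_stdCharts` : clause (D3) of `helper1138.Stmt_DivKernel` / clause (R3) of
  `helper8353.Stmt_Kernel` for the standard charts at level `N`, from
  (i) the S18 Kummer field form `Stmt_KF N ℓ` at level `N`,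
  (ii) the fibre formula (B4 CPF) along `F_N ⊆ F_{N r}` on the two charts (the hypotheses of the
       landed transfer E1, `helper869`),
  (iii) the local formula (E2) for the standard charts at the auxiliary level `N r`.
* `r3_stdCharts_jBar`, `d3_stdCharts_jBar` : the same for the coordinate `t = j` (`jBar N` of
  the S24 vocabulary), with integrality / finiteness of `F_N ⊆ F_{N r}`, `HasPrincipalDivisors`
  and "residue fields are `ℚ̄`" discharged from the landed S24 / HI-MOD files.
-/

set_option autoImplicit false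

noncomputable section

namespace Fermat.Agent.S37.helper872

open ModularCurve AlgebraicCurve HahnSeries
open Fermat.Agent.S18.helper3054
open Fermat.Agent.S37.helper2025 (finChart infChart ChartRel relSubgroup)
open Fermat.Agent.S37.helper869 (chartDivKernel charpolyAlong)
open Fermat.Agent.S37.helper7465 (CharpolyValueAlong)

section GaussAdapter

variable {A : ValuationSubring (AlgebraicClosure ℚ)} {N : ℕ}

/-- The quotient of two integral functions is a unit of the Gauss ring `helper8991.gaussF`, and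
its reduction is the quotient of the reductions. -/
theorem gaussFRed_div_integralFn (a b : IntegralFn A N) :
    ∃ h : a.gen * b.gen⁻¹ ∈
        Fermat.Agent.S18.helper8991.gaussF A (IsLocalRing.residue A) N,
      Fermat.Agent.S18.helper8991.gaussFRed A (IsLocalRing.residue A) N ⟨a.gen * b.gen⁻¹, h⟩
          * coeffMap (IsLocalRing.residue A) b.y = coeffMap (IsLocalRing.residue A) a.y := by
  have hb0 : (coeffMap A.subtype b.y : LaurentSeries (AlgebraicClosure ℚ)) ≠ 0 := fun h0 =>
    b.gen_ne_zero (Subtype.ext h0)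
  have hrel : ((a.gen * b.gen⁻¹ : modularFunctionFieldBar N) :
      LaurentSeries (AlgebraicClosure ℚ)) * coeffMap A.subtype b.y = coeffMap A.subtype a.y := by
    show (coeffMap A.subtype a.y * (coeffMap A.subtype b.y)⁻¹) * coeffMap A.subtype b.y
      = coeffMap A.subtype a.y
    rw [inv_mul_cancel_right₀ hb0]
  have hmem : a.gen * b.gen⁻¹ ∈
      Fermat.Agent.S18.helper8991.gaussF A (IsLocalRing.residue A) N :=
    (Fermat.Agent.S18.helper8991.mem_gaussF_iff A (IsLocalRing.residue A) N _).mpr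
      ⟨a.y, b.y, b.ne, hrel⟩
  refine ⟨hmem, ?_⟩
  rw [Fermat.Agent.S18.helper8991.gaussFRed_eq A (IsLocalRing.residue A) N ⟨_, hmem⟩ b.ne hrel,
    div_mul_cancel₀ _ b.ne]

/-- **Adapter for E2.**  If every unit `U` of the Gauss ring whose divisor lies in `Kd` is
congruent to a constant of `A` modulo the maximal ideal of the Gauss ring, then the local formula
`LocFormula A N Kd` holds. -/
theorem locFormula_of_gauss_const
    (Kd : AddSubgroup (Divisor (AlgebraicClosure ℚ) (modularFunctionFieldBar N)))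
    (h : ∀ U : modularFunctionFieldBar N, U ≠ 0 →
      (Fermat.Agent.S18.helper8991.gaussF A (IsLocalRing.residue A) N).valuation U = 1 →
      ∀ E ∈ Kd, (∀ P, E P = P.ord U) →
      ∃ c ∈ A, (Fermat.Agent.S18.helper8991.gaussF A (IsLocalRing.residue A) N).valuation
        (U - algebraMap (AlgebraicClosure ℚ) (modularFunctionFieldBar N) c) < 1) :
    LocFormula A N Kd := by
  intro a b E hE hEab
  set W := Fermat.Agent.S18.helper8991.gaussF A (IsLocalRing.residue A) N with hW
  obtain ⟨hmem, hredU⟩ := gaussFRed_div_integralFn a b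
  have hU0 : a.gen * b.gen⁻¹ ≠ 0 := mul_ne_zero a.gen_ne_zero (inv_ne_zero b.gen_ne_zero)
  have hredU0 : Fermat.Agent.S18.helper8991.gaussFRed A (IsLocalRing.residue A) N
      ⟨a.gen * b.gen⁻¹, hmem⟩ ≠ 0 := by
    intro h0
    rw [h0, zero_mul] at hredU
    exact a.ne hredU.symm
  have hunit : IsUnit (⟨a.gen * b.gen⁻¹, hmem⟩ : W) :=
    (Fermat.Agent.S18.helper8991.isUnit_iff_gaussFRed_ne_zero A (IsLocalRing.residue A) N _).mpr
      hredU0
  have hval : W.valuation (a.gen * b.gen⁻¹) = 1 :=
    (ValuationSubring.valuation_eq_one_iff W ⟨_, hmem⟩).mp hunit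
  have hord : ∀ P : Place (AlgebraicClosure ℚ) (modularFunctionFieldBar N),
      E P = P.ord (a.gen * b.gen⁻¹) := by
    intro P
    rw [hEab P, P.ord_mul a.gen_ne_zero (inv_ne_zero b.gen_ne_zero), P.ord_inv]
    ring
  obtain ⟨c, hc, hlt⟩ := h _ hU0 hval E hE hord
  have hcmem : algebraMap (AlgebraicClosure ℚ) (modularFunctionFieldBar N) c ∈ W :=
    Fermat.Agent.S18.helper8991.algebraMap_mem_gaussSubring A (IsLocalRing.residue A) _ _ hc
  have hdmem : a.gen * b.gen⁻¹ - algebraMap (AlgebraicClosure ℚ) (modularFunctionFieldBar N) c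
      ∈ W := sub_mem hmem hcmem
  have hmax : (⟨_, hdmem⟩ : W) ∈ IsLocalRing.maximalIdeal W :=
    (ValuationSubring.valuation_lt_one_iff W ⟨_, hdmem⟩).mpr hlt
  have hzero := (Fermat.Agent.S18.helper8991.gaussFRed_eq_zero_iff A (IsLocalRing.residue A) N
    ⟨_, hdmem⟩).mpr hmax
  have hsplit : (⟨_, hdmem⟩ : W) = ⟨a.gen * b.gen⁻¹, hmem⟩ - ⟨_, hcmem⟩ := rfl
  rw [hsplit, map_sub, sub_eq_zero] at hzero
  have hconst : Fermat.Agent.S18.helper8991.gaussFRed A (IsLocalRing.residue A) N ⟨_, hcmem⟩
      = HahnSeries.C (IsLocalRing.residue A ⟨c, hc⟩) :=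
    Fermat.Agent.S18.helper8991.gaussRed_algebraMap A (IsLocalRing.residue A) _ _ hc
  rw [hzero, hconst] at hredU hredU0
  refine ⟨IsLocalRing.residue A ⟨c, hc⟩, ?_, Subtype.ext ?_⟩
  · intro h0
    rw [h0, map_zero] at hredU0
    exact hredU0 rfl
  · show coeffMap (IsLocalRing.residue A) a.y
      = algebraMap (IsLocalRing.ResidueField A)
          (LaurentSeries (IsLocalRing.ResidueField A)) (IsLocalRing.residue A ⟨c, hc⟩)
        * coeffMap (IsLocalRing.residue A) b.y
    rw [← Fermat.Agent.S18.helper8991.C_eq_algebraMap]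
    exact hredU.symm

end GaussAdapter

section StdCharts

variable {A : ValuationSubring (AlgebraicClosure ℚ)}

/-- **(D3) for the standard charts** (clause (D3) of `helper1138.Stmt_DivKernel` with
`Kdiv = chartDivKernel A {finChart A t, infChart A t⁻¹}`), divisor form: a divisor of the
chart kernel at level `N` with `q • D` principal (`q ≠ ℓ` prime) is principal. -/
theorem k3_stdCharts (N r : ℕ) [NeZero N] [NeZero r] {ℓ : ℕ} (hℓ : ℓ.Prime) (hℓN : ¬ ℓ ∣ N)
    (hKF : Stmt_KF N ℓ) (hA : A.LiesOverPrime ℓ)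
    [HasPrincipalDivisors (AlgebraicClosure ℚ) (modularFunctionFieldBar (N * r))]
    (hα : (heckeAlphaBar (AlgebraicClosure ℚ) N r).toRingHom.IsIntegral)
    (hfin : FiniteAlong (AlgebraicClosure ℚ) (heckeAlphaBar (AlgebraicClosure ℚ) N r))
    (t : modularFunctionFieldBar N)
    (hval₀ : CharpolyValueAlong (AlgebraicClosure ℚ) (heckeAlphaBar (AlgebraicClosure ℚ) N r) hα
      (finChart A (heckeAlphaBar (AlgebraicClosure ℚ) N r t))
      (charpolyAlong (heckeAlphaBar (AlgebraicClosure ℚ) N r) hfin))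
    (hval₁ : CharpolyValueAlong (AlgebraicClosure ℚ) (heckeAlphaBar (AlgebraicClosure ℚ) N r) hα
      (infChart A (heckeAlphaBar (AlgebraicClosure ℚ) N r t)⁻¹)
      (charpolyAlong (heckeAlphaBar (AlgebraicClosure ℚ) N r) hfin))
    (hres : ∀ w : Place (AlgebraicClosure ℚ) (modularFunctionFieldBar (N * r)),
      Function.Surjective (algebraMap (AlgebraicClosure ℚ) w.ResidueField))
    (hLF' : LocFormula A (N * r)
      (chartDivKernel A {finChart A (heckeAlphaBar (AlgebraicClosure ℚ) N r t),
        infChart A (heckeAlphaBar (AlgebraicClosure ℚ) N r t)⁻¹})) :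
    ∀ q : ℕ, q.Prime → q ≠ ℓ →
      ∀ D ∈ chartDivKernel A {finChart A t, infChart A t⁻¹}, (q • D).IsPrincipal →
        D.IsPrincipal :=
  k3_of_kf_of_alpha N r hℓ hℓN hKF hA hα _ _
    (fun _ hD => Fermat.Agent.S37.helper869.map_pullbackAlong_chartDivKernel_stdCharts_le
      (heckeAlphaBar (AlgebraicClosure ℚ) N r) hα hfin A t hval₀ hval₁ hres
      (AddSubgroup.mem_map_of_mem _ hD))
    hLF'

/-- **(D3) for the standard charts**, in the exact shape of clause (D3) of
`helper1138.Stmt_DivKernel`. -/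
theorem d3_stdCharts (N r : ℕ) [NeZero N] [NeZero r] {ℓ : ℕ} (hℓ : ℓ.Prime) (hℓN : ¬ ℓ ∣ N)
    (hKF : Stmt_KF N ℓ) (hA : A.LiesOverPrime ℓ)
    [HasPrincipalDivisors (AlgebraicClosure ℚ) (modularFunctionFieldBar (N * r))]
    (hα : (heckeAlphaBar (AlgebraicClosure ℚ) N r).toRingHom.IsIntegral)
    (hfin : FiniteAlong (AlgebraicClosure ℚ) (heckeAlphaBar (AlgebraicClosure ℚ) N r))
    (t : modularFunctionFieldBar N)
    (hval₀ : CharpolyValueAlong (AlgebraicClosure ℚ) (heckeAlphaBar (AlgebraicClosure ℚ) N r) hα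
      (finChart A (heckeAlphaBar (AlgebraicClosure ℚ) N r t))
      (charpolyAlong (heckeAlphaBar (AlgebraicClosure ℚ) N r) hfin))
    (hval₁ : CharpolyValueAlong (AlgebraicClosure ℚ) (heckeAlphaBar (AlgebraicClosure ℚ) N r) hα
      (infChart A (heckeAlphaBar (AlgebraicClosure ℚ) N r t)⁻¹)
      (charpolyAlong (heckeAlphaBar (AlgebraicClosure ℚ) N r) hfin))
    (hres : ∀ w : Place (AlgebraicClosure ℚ) (modularFunctionFieldBar (N * r)),
      Function.Surjective (algebraMap (AlgebraicClosure ℚ) w.ResidueField))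
    (hLF' : LocFormula A (N * r)
      (chartDivKernel A {finChart A (heckeAlphaBar (AlgebraicClosure ℚ) N r t),
        infChart A (heckeAlphaBar (AlgebraicClosure ℚ) N r t)⁻¹})) :
    ∀ q : ℕ, q.Prime → q ≠ ℓ →
      ∀ D : Divisor.degZero (K := AlgebraicClosure ℚ) (F := modularFunctionFieldBar N),
        (D : Divisor (AlgebraicClosure ℚ) (modularFunctionFieldBar N))
          ∈ chartDivKernel A {finChart A t, infChart A t⁻¹} →
        q • (Pic0.mk D : JZero N) = 0 → (Pic0.mk D : JZero N) = 0 := by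
  intro q hq hqℓ D hD hqD
  rw [nsmul_pic0_mk_eq_zero_iff] at hqD
  exact (pic0_mk_eq_zero_iff D).mpr
    (k3_stdCharts N r hℓ hℓN hKF hA hα hfin t hval₀ hval₁ hres hLF' q hq hqℓ _ hD hqD)

/-- **(R3) for the standard charts**: the specialisation kernel
`relSubgroup (ChartRel A {finChart A t, infChart A t⁻¹})` (`= helper2025.specKernel A
(stdCharts A t)`) of level `N` has no `q`-torsion for the primes `q ≠ ℓ` — clause (R3) of
`helper8353.Stmt_Kernel` for `W` the chart-type kernel. -/
theorem r3_stdCharts (N r : ℕ) [NeZero N] [NeZero r] {ℓ : ℕ} (hℓ : ℓ.Prime) (hℓN : ¬ ℓ ∣ N)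
    (hKF : Stmt_KF N ℓ) (hA : A.LiesOverPrime ℓ)
    [HasPrincipalDivisors (AlgebraicClosure ℚ) (modularFunctionFieldBar (N * r))]
    (hα : (heckeAlphaBar (AlgebraicClosure ℚ) N r).toRingHom.IsIntegral)
    (hfin : FiniteAlong (AlgebraicClosure ℚ) (heckeAlphaBar (AlgebraicClosure ℚ) N r))
    (t : modularFunctionFieldBar N)
    (hval₀ : CharpolyValueAlong (AlgebraicClosure ℚ) (heckeAlphaBar (AlgebraicClosure ℚ) N r) hα
      (finChart A (heckeAlphaBar (AlgebraicClosure ℚ) N r t))
      (charpolyAlong (heckeAlphaBar (AlgebraicClosure ℚ) N r) hfin))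
    (hval₁ : CharpolyValueAlong (AlgebraicClosure ℚ) (heckeAlphaBar (AlgebraicClosure ℚ) N r) hα
      (infChart A (heckeAlphaBar (AlgebraicClosure ℚ) N r t)⁻¹)
      (charpolyAlong (heckeAlphaBar (AlgebraicClosure ℚ) N r) hfin))
    (hres : ∀ w : Place (AlgebraicClosure ℚ) (modularFunctionFieldBar (N * r)),
      Function.Surjective (algebraMap (AlgebraicClosure ℚ) w.ResidueField))
    (hLF' : LocFormula A (N * r)
      (chartDivKernel A {finChart A (heckeAlphaBar (AlgebraicClosure ℚ) N r t),
        infChart A (heckeAlphaBar (AlgebraicClosure ℚ) N r t)⁻¹})) :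
    ∀ q : ℕ, q.Prime → q ≠ ℓ →
      ∀ x ∈ (relSubgroup (ChartRel A {finChart A t, infChart A t⁻¹}) : AddSubgroup (JZero N)),
        q • x = 0 → x = 0 := by
  intro q hq hqℓ x hx hqx
  obtain ⟨D, hD, rfl⟩ := Fermat.Agent.S37.helper869.exists_rep_mem_chartDivKernel hx
  exact d3_stdCharts N r hℓ hℓN hKF hA hα hfin t hval₀ hval₁ hres hLF' q hq hqℓ D hD hqx

end StdCharts

/-! ### The coordinate `t = j`: everything but (i), (ii), (iii) discharged -/

section Modular

open Fermat.Agent.S24.helper24 (Kbar FN jBar)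

variable {A : ValuationSubring (AlgebraicClosure ℚ)}

/-- **(D3) of `helper1138.Stmt_DivKernel` for the two standard `A`-charts of the `j`-line at
level `N`**, from: the S18 Kummer field form at level `N`; the fibre formula (CPF) along
`F_N ⊆ F_{N r}` on the two charts of level `N r`; the local formula (E2) for the two standard
charts at level `N r`. -/
theorem d3_stdCharts_jBar (N r : ℕ) [NeZero N] [NeZero r] {ℓ : ℕ} (hℓ : ℓ.Prime)
    (hℓN : ¬ ℓ ∣ N) (hKF : Stmt_KF N ℓ) (hA : A.LiesOverPrime ℓ)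
    (hval₀ : CharpolyValueAlong Kbar (heckeAlphaBar Kbar N r)
      (Fermat.Agent.S37.helper5162.heckeAlphaBarIntegral N r) (finChart A (jBar (N * r)))
      (charpolyAlong (heckeAlphaBar Kbar N r)
        (Fermat.Agent.S37.helper5162.finiteAlong_heckeAlphaBar N r)))
    (hval₁ : CharpolyValueAlong Kbar (heckeAlphaBar Kbar N r)
      (Fermat.Agent.S37.helper5162.heckeAlphaBarIntegral N r) (infChart A (jBar (N * r))⁻¹)
      (charpolyAlong (heckeAlphaBar Kbar N r)
        (Fermat.Agent.S37.helper5162.finiteAlong_heckeAlphaBar N r)))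
    (hLF' : LocFormula A (N * r)
      (chartDivKernel A {finChart A (jBar (N * r)), infChart A (jBar (N * r))⁻¹})) :
    ∀ q : ℕ, q.Prime → q ≠ ℓ →
      ∀ D : Divisor.degZero (K := Kbar) (F := FN N),
        (D : Divisor Kbar (FN N)) ∈ chartDivKernel A {finChart A (jBar N), infChart A (jBar N)⁻¹} →
        q • (Pic0.mk D : JZero N) = 0 → (Pic0.mk D : JZero N) = 0 := by
  have e := Fermat.Agent.S37.helper5162.heckeAlphaBar_jBar N r
  rw [← e] at hval₀ hval₁ hLF'
  exact d3_stdCharts N r hℓ hℓN hKF hA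
    (Fermat.Agent.S37.helper5162.heckeAlphaBarIntegral N r)
    (Fermat.Agent.S37.helper5162.finiteAlong_heckeAlphaBar N r) (jBar N) hval₀ hval₁
    (Fermat.Agent.S37.helper5162.residueField_surjective (N * r)) hLF'

/-- **(R3) of `helper8353.Stmt_Kernel` for `W = specKernel A (stdCharts A j)` at level `N`**
(`helper2025` vocabulary), same inputs. -/
theorem r3_stdCharts_jBar (N r : ℕ) [NeZero N] [NeZero r] {ℓ : ℕ} (hℓ : ℓ.Prime)
    (hℓN : ¬ ℓ ∣ N) (hKF : Stmt_KF N ℓ) (hA : A.LiesOverPrime ℓ)
    (hval₀ : CharpolyValueAlong Kbar (heckeAlphaBar Kbar N r)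
      (Fermat.Agent.S37.helper5162.heckeAlphaBarIntegral N r) (finChart A (jBar (N * r)))
      (charpolyAlong (heckeAlphaBar Kbar N r)
        (Fermat.Agent.S37.helper5162.finiteAlong_heckeAlphaBar N r)))
    (hval₁ : CharpolyValueAlong Kbar (heckeAlphaBar Kbar N r)
      (Fermat.Agent.S37.helper5162.heckeAlphaBarIntegral N r) (infChart A (jBar (N * r))⁻¹)
      (charpolyAlong (heckeAlphaBar Kbar N r)
        (Fermat.Agent.S37.helper5162.finiteAlong_heckeAlphaBar N r)))
    (hLF' : LocFormula A (N * r)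
      (chartDivKernel A {finChart A (jBar (N * r)), infChart A (jBar (N * r))⁻¹})) :
    ∀ q : ℕ, q.Prime → q ≠ ℓ →
      ∀ x ∈ Fermat.Agent.S37.helper2025.specKernel A
          (Fermat.Agent.S37.helper2025.stdCharts A (jBar N)),
        q • x = 0 → x = 0 := by
  intro q hq hqℓ x hx hqx
  obtain ⟨D, hD, rfl⟩ := Fermat.Agent.S37.helper869.exists_rep_mem_chartDivKernel hx
  exact d3_stdCharts_jBar N r hℓ hℓN hKF hA hval₀ hval₁ hLF' q hq hqℓ D hD hqx

end Modular

end Fermat.Agent.S37.helper872

end
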