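import Mathlib
import Fermat.Agent.S37.helper872_TorsAssembly
import Fermat.Agent.S18.helper888_TopInputs
import Fermat.Agent.S37.helper5162_HeckeInputsModular

/-!
# S37, track T-CONS: the torsion clause (R3)/(C3) for the kernel of a place reduction

Plan v2 of S37 (`team_s37_chat` #316), track T-CONS: the kernel is
`ker Φ`, `Φ = (ρ')_* ∘ π^*`, `π : F_N ⊆ F_{N r}` the inclusion (`heckeAlphaBar`) and `ρ'` the
place reduction of a Prelude datum `ReductionInputsModL A (N r)`.

* `locFormula_of_isPlaceReduction` : conservation of number for integral functions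
  (`IsPlaceReductionModL A N ρ`) and the constants lemma of the special fibre give the local
  formula `LocFormula A N (ker ρ_*)` of `helper872_TorsAssembly`.
* `locFormula_of_reductionInputs` : the same from `h : ReductionInputsModL A N` alone (the
  constants lemma is the landed `S18.helper888.constL_of_inputs`).
* `c3_of_kf_of_cons` : **clause (C3) of `helper1138.Stmt_Csp`** for
  `csp = (ρ')_* ∘ π^* : Div(F_N) →+ Div(F_{k, N r})`:
  inputs `Stmt_KF N ℓ` (S18, level `N`) and `ReductionInputsModL A (N r)`; nothing else.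
* `c3_of_kf_of_cons_self` : the case `r = 1` (`csp = ρ_*` at level `N` itself).
-/

set_option autoImplicit false
set_option synthInstance.maxHeartbeats 400000

noncomputable section

namespace Fermat.Agent.S37.helper872

open ModularCurve AlgebraicCurve HahnSeries
open Fermat.Agent.S18.helper3054

section Cons

variable {A : ValuationSubring (AlgebraicClosure ℚ)}

/-- **The local formula from conservation of number.**  `ρ` a place reduction at level `N`
(Prelude `IsPlaceReductionModL`: `ρ_* (div y) = div (ȳ)` for integral `y`), and the constants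
lemma of the special fibre.  Then a quotient of integral functions whose divisor is killed by
`ρ_*` has constant reduction. -/
theorem locFormula_of_isPlaceReduction {N : ℕ}
    [HasPrincipalDivisors (AlgebraicClosure ℚ) (modularFunctionFieldBar N)]
    {ρ : Place (AlgebraicClosure ℚ) (modularFunctionFieldBar N) →
      Place (IsLocalRing.ResidueField A)
        (modularFunctionFieldFullC (IsLocalRing.ResidueField A) N)}
    (hρ : IsPlaceReductionModL A N ρ)
    (hconst : ∀ f : modularFunctionFieldFullC (IsLocalRing.ResidueField A) N,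
      (∀ Q : Place (IsLocalRing.ResidueField A)
        (modularFunctionFieldFullC (IsLocalRing.ResidueField A) N), Q.ord f = 0) →
      ∃ c : IsLocalRing.ResidueField A,
        f = algebraMap (IsLocalRing.ResidueField A)
          (modularFunctionFieldFullC (IsLocalRing.ResidueField A) N) c) :
    LocFormula A N (reductionDivAlong ρ).ker := by
  intro a b E hE hEab
  obtain ⟨Da, hDa, -⟩ := HasPrincipalDivisors.exists_divisor (K := AlgebraicClosure ℚ)
    a.gen a.gen_ne_zero
  obtain ⟨Db, hDb, -⟩ := HasPrincipalDivisors.exists_divisor (K := AlgebraicClosure ℚ)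
    b.gen b.gen_ne_zero
  have hEeq : E = Da - Db := by
    ext P
    rw [Finsupp.sub_apply, hDa, hDb, hEab]
  have ha : ∀ Q, Finsupp.mapDomain ρ Da Q = Q.ord a.red :=
    hρ.2 a.y a.mem a.memk a.ne Da hDa
  have hb : ∀ Q, Finsupp.mapDomain ρ Db Q = Q.ord b.red :=
    hρ.2 b.y b.mem b.memk b.ne Db hDb
  have hE0 : Finsupp.mapDomain ρ E = 0 := by
    have := AddMonoidHom.mem_ker.mp hE
    rwa [reductionDivAlong_apply] at this
  have hord : ∀ Q : Place (IsLocalRing.ResidueField A)
      (modularFunctionFieldFullC (IsLocalRing.ResidueField A) N),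
      Q.ord (a.red * b.red⁻¹) = 0 := by
    intro Q
    rw [Q.ord_mul a.red_ne_zero (inv_ne_zero b.red_ne_zero), Q.ord_inv, ← ha Q, ← hb Q]
    have h1 : Finsupp.mapDomain ρ E Q = Finsupp.mapDomain ρ Da Q - Finsupp.mapDomain ρ Db Q := by
      rw [hEeq, ← Finsupp.mapDomain.addMonoidHom_apply, map_sub,
        Finsupp.mapDomain.addMonoidHom_apply, Finsupp.mapDomain.addMonoidHom_apply,
        Finsupp.sub_apply]
    rw [hE0, Finsupp.zero_apply] at h1
    linarith
  obtain ⟨c, hc⟩ := hconst _ hord
  refine ⟨c, ?_, ?_⟩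
  · rintro rfl
    rw [map_zero] at hc
    exact mul_ne_zero a.red_ne_zero (inv_ne_zero b.red_ne_zero) hc
  · rw [← hc, inv_mul_cancel_right₀ b.red_ne_zero]

/-- The local formula for the kernel of the Prelude place reduction of a datum
`ReductionInputsModL A N`. -/
theorem locFormula_of_reductionInputs (N : ℕ) [NeZero N] (h : ReductionInputsModL A N) :
    LocFormula A N (reductionDivAlong (placeReductionModL h)).ker :=
  locFormula_of_isPlaceReduction (isPlaceReductionModL_placeReductionModL h)
    (fun f hf => Fermat.Agent.S18.helper888.constL_of_inputs N h f hf)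

open Fermat.Agent.S24.helper24 (Kbar FN jBar)

/-- The crude specialisation of track T-CONS: `Φ = (ρ')_* ∘ π^*`, `π = heckeAlphaBar ℚ̄ N r`,
`ρ'` the place reduction of `h' : ReductionInputsModL A (N r)`. -/
def consCsp (N r : ℕ) [NeZero N] [NeZero r] (h' : ReductionInputsModL A (N * r)) :
    Divisor Kbar (FN N) →+
      Divisor (IsLocalRing.ResidueField A)
        (modularFunctionFieldFullC (IsLocalRing.ResidueField A) (N * r)) :=
  (reductionDivAlong (placeReductionModL h')).comp
    (Divisor.pullbackAlong (heckeAlphaBar Kbar N r)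
      (Fermat.Agent.S37.helper5162.heckeAlphaBarIntegral N r))

theorem consCsp_apply (N r : ℕ) [NeZero N] [NeZero r] (h' : ReductionInputsModL A (N * r))
    (D : Divisor Kbar (FN N)) :
    consCsp N r h' D = Finsupp.mapDomain (placeReductionModL h')
      (Divisor.pullbackAlong (heckeAlphaBar Kbar N r)
        (Fermat.Agent.S37.helper5162.heckeAlphaBarIntegral N r) D) :=
  rfl

/-- **(K3), track T-CONS, divisor form.**  A divisor of `F_N` in the kernel of
`Φ = (ρ')_* ∘ π^*` some multiple `m • D` (`ℓ ∤ m`) of which is principal is principal.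
Inputs: `Stmt_KF N ℓ` and `ReductionInputsModL A (N r)`. -/
theorem isPrincipal_of_kf_of_cons (N r : ℕ) [NeZero N] [NeZero r] {ℓ : ℕ} (hℓ : ℓ.Prime)
    (hℓN : ¬ ℓ ∣ N) (hKF : Stmt_KF N ℓ) (hA : A.LiesOverPrime ℓ)
    (h' : ReductionInputsModL A (N * r))
    {D : Divisor Kbar (FN N)} (hD : consCsp N r h' D = 0) {m : ℕ} (hm : ¬ ℓ ∣ m)
    (hmD : (m • D).IsPrincipal) : D.IsPrincipal :=
  isPrincipal_of_kf hKF hA (consCsp N r h').ker (normalForm_of_liesOverPrime hℓ hℓN hA)
    (locFormula_of_alpha N r (Fermat.Agent.S37.helper5162.heckeAlphaBarIntegral N r)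
      (consCsp N r h').ker (reductionDivAlong (placeReductionModL h')).ker
      (fun _ hE => hE) (locFormula_of_reductionInputs (N * r) h'))
    (AddMonoidHom.mem_ker.mpr hD) hm hmD

/-- **Clause (C3) of `helper1138.Stmt_Csp` for `csp = consCsp N r h'`** (track T-CONS):
`csp D = 0`, `q • [D] = 0` (`q ≠ ℓ` prime) ⟹ `[D] = 0`. -/
theorem c3_of_kf_of_cons (N r : ℕ) [NeZero N] [NeZero r] {ℓ : ℕ} (hℓ : ℓ.Prime)
    (hℓN : ¬ ℓ ∣ N) (hKF : Stmt_KF N ℓ) (hA : A.LiesOverPrime ℓ)
    (h' : ReductionInputsModL A (N * r)) :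
    ∀ q : ℕ, q.Prime → q ≠ ℓ → ∀ D : Divisor.degZero (K := Kbar) (F := FN N),
      consCsp N r h' (D : Divisor Kbar (FN N)) = 0 → q • (Pic0.mk D : JZero N) = 0 →
        (Pic0.mk D : JZero N) = 0 := by
  intro q hq hqℓ D hD hqD
  rw [nsmul_pic0_mk_eq_zero_iff] at hqD
  refine (pic0_mk_eq_zero_iff D).mpr
    (isPrincipal_of_kf_of_cons N r hℓ hℓN hKF hA h' hD ?_ hqD)
  intro hdvd
  rcases (Nat.dvd_prime hq).mp hdvd with h | h
  · exact hℓ.one_lt.ne' h
  · exact hqℓ h.symm

/-- The case `r = 1`: clause (C3) for `csp = ρ_*` at level `N` itself, from `Stmt_KF N ℓ` and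
`ReductionInputsModL A N`. -/
theorem c3_of_kf_of_cons_self (N : ℕ) [NeZero N] {ℓ : ℕ} (hℓ : ℓ.Prime)
    (hℓN : ¬ ℓ ∣ N) (hKF : Stmt_KF N ℓ) (hA : A.LiesOverPrime ℓ)
    (h : ReductionInputsModL A N) :
    ∀ q : ℕ, q.Prime → q ≠ ℓ → ∀ D : Divisor.degZero (K := Kbar) (F := FN N),
      reductionDivAlong (placeReductionModL h) (D : Divisor Kbar (FN N)) = 0 →
        q • (Pic0.mk D : JZero N) = 0 → (Pic0.mk D : JZero N) = 0 := by
  intro q hq hqℓ D hD hqD
  rw [nsmul_pic0_mk_eq_zero_iff] at hqD
  refine (pic0_mk_eq_zero_iff D).mpr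
    (k3_of_kf hℓ hℓN hKF hA _ (locFormula_of_reductionInputs N h) q hq hqℓ _
      (AddMonoidHom.mem_ker.mpr hD) hqD)

end Cons

end Fermat.Agent.S37.helper872

end
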