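import Fermat.Agent.S37.helper2025_GaloisCharts
import Fermat.Agent.Lib.helper28_IgusaModular

/-!
# S37-HCONG0: the congruence `hcong₀` of GALPT2 on the finite chart

For a valuation subring `A` of a characteristic zero field `L`, a level `N` whose prime divisors
are invertible in the residue field of `A`, and `τ` in the inertia group of `A`:
every function `f` integral over `A[j]` satisfies `τ⁻¹ f - f = c * h` with `c` in the maximal
ideal of `A` and `h` integral over `A[j]`.

This is the hypothesis `hcong₀` of
`helper2025.inertia_smul_sub_mem_specKernel_stdCharts` for the coordinate function `t = j`.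
It is pure glue on landed names: the dictionary between `helper2025.finChart A j` and
`(helper28.evAt A (jqModC L)).IsIntegralElem`, the Gauss integrality (GI) and the reduction
lemma (RED) of `Lib/helper28_IgusaModular`, and the coefficientwise action of inertia.
-/

set_option autoImplicit false

noncomputable section

namespace Fermat.Agent.S37.helper885

open ModularCurve Polynomial AlgebraicCurve
open Fermat.Agent.Lib.helper28 Fermat.Agent.S37.helper2025

section Dictionary

variable {K E : Type*} [Field K] [Field E] [Algebra K E] (A : ValuationSubring K)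
  {F : IntermediateField K E}

/-- the ring generated by `A` and `t` inside an intermediate field `F` consists of polynomials
in `t` with coefficients in `A`. -/
theorem coe_mem_range_evAt_of_mem_closure {t x : F}
    (hx : x ∈ Subring.closure (finGen A t)) : (x : E) ∈ (evAt A (t : E)).range := by
  induction hx using Subring.closure_induction with
  | mem x hx =>
    rcases hx with ⟨a, ha, rfl⟩ | hx
    · exact ⟨C ⟨a, ha⟩, by rw [evAt_C]; rfl⟩
    · rw [Set.mem_singleton_iff] at hx
      subst hx
      exact ⟨X, by rw [evAt_X]⟩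
  | zero => exact Subring.zero_mem _
  | one => exact Subring.one_mem _
  | add x y _ _ hx hy => exact Subring.add_mem _ hx hy
  | neg x _ hx => exact Subring.neg_mem _ hx
  | mul x y _ _ hx hy => exact Subring.mul_mem _ hx hy

/-- **Dictionary, direction 1** (any coordinate function `t`): a function integral over the ring
`A[t] = Subring.closure (finGen A t)` (`= helper37.polyRing A t`) is integral over `A[t]` in the
vocabulary of `Lib/helper28_IgusaCharts`. -/
theorem isIntegralElem_of_isIntegral_closure {t f : F}
    (hf : IsIntegral (Subring.closure (finGen A t)) f) :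
    (evAt A (t : E)).IsIntegralElem (f : E) := by
  obtain ⟨p, hp, hpx⟩ := hf
  let ψ : Subring.closure (finGen A t) →+* E :=
    (F.val : F →+* E).comp (Subring.closure (finGen A t)).subtype
  have hlift : p.map ψ ∈ Polynomial.lifts (evAt A (t : E)) := by
    rw [Polynomial.lifts_iff_coeff_lifts]
    intro n
    rw [Polynomial.coeff_map]
    exact coe_mem_range_evAt_of_mem_closure A (p.coeff n).2
  obtain ⟨q, hq, -, hqm⟩ :=
    Polynomial.lifts_and_degree_eq_and_monic hlift (hp.map ψ)
  refine ⟨q, hqm, ?_⟩
  rw [← Polynomial.eval_map, hq, Polynomial.eval_map]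
  have h2 := Polynomial.hom_eval₂ p (algebraMap (Subring.closure (finGen A t)) F)
    (F.val : F →+* E) f
  rw [hpx, map_zero] at h2
  exact h2.symm

/-- **Dictionary, direction 2** (any coordinate function `t`): an element of `F` which is
integral over `A[t]` in the vocabulary of `Lib/helper28_IgusaCharts` is integral over the ring
`Subring.closure (finGen A t)` (`= helper37.polyRing A t`). -/
theorem isIntegral_closure_of_isIntegralElem {t : F} {g : E} (hg : g ∈ F)
    (hint : (evAt A (t : E)).IsIntegralElem g) :
    IsIntegral (Subring.closure (finGen A t)) (⟨g, hg⟩ : F) := by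
  obtain ⟨q, hq, hqx⟩ := hint
  let S : Subring F := Subring.closure (finGen A t)
  let ι : A →+* S :=
    ((algebraMap K F).comp A.subtype).codRestrict S
      (fun a => Subring.subset_closure (Or.inl ⟨a, a.2, rfl⟩))
  let jS : S := ⟨t, Subring.subset_closure (Or.inr rfl)⟩
  let θ : (↥A)[X] →+* S := Polynomial.eval₂RingHom ι jS
  have hθ : ((F.val : F →+* E).comp ((algebraMap S F).comp θ)) = evAt A (t : E) := by
    refine Polynomial.ringHom_ext (fun a => ?_) ?_
    · simp only [RingHom.comp_apply, θ, Polynomial.coe_eval₂RingHom, Polynomial.eval₂_C, evAt_C]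
      rfl
    · simp only [RingHom.comp_apply, θ, Polynomial.coe_eval₂RingHom, Polynomial.eval₂_X, evAt_X]
      rfl
  refine ⟨q.map θ, hq.map θ, ?_⟩
  rw [Polynomial.eval₂_map]
  apply Subtype.val_injective
  have h2 := Polynomial.hom_eval₂ q ((algebraMap S F).comp θ) (F.val : F →+* E) ⟨g, hg⟩
  rw [hθ] at h2
  exact h2.trans hqx

/-- the two vocabularies agree: `f ∈ finChart A t` iff `f` is integral over `A[t]` in the sense
of `Lib/helper28_IgusaCharts`. -/
theorem mem_finChart_iff_isIntegralElem {t f : F} :
    f ∈ finChart A t ↔ (evAt A (t : E)).IsIntegralElem (f : E) :=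
  ⟨isIntegralElem_of_isIntegral_closure A, fun h => isIntegral_closure_of_isIntegralElem A f.2 h⟩

end Dictionary

section ModularDictionary

variable (L : Type) [Field L] [Algebra ℚ L] (N : ℕ)

/-- the `j`-function as an element of the function field of level `N` over `L`. -/
def jF : laurentBaseChange L (modularFunctionFieldFull N) :=
  ⟨jqModC L, (jqModC_mem_gaussFSet (⊤ : ValuationSubring L) N).1⟩

@[simp] theorem coe_jF : ((jF L N : laurentBaseChange L (modularFunctionFieldFull N)) :
    LaurentSeries L) = jqModC L := rfl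

variable {L N} (A : ValuationSubring L)

/-- a function of the finite chart `finChart A j` of GALPT2 is integral over `A[j]` in the
vocabulary of `Lib/helper28_IgusaCharts`. -/
theorem isIntegralElem_of_mem_finChart {f : laurentBaseChange L (modularFunctionFieldFull N)}
    (hf : f ∈ finChart A (jF L N)) :
    (evAt A (jqModC L)).IsIntegralElem (f : LaurentSeries L) :=
  isIntegralElem_of_isIntegral_closure A hf

/-- an element of the function field which is integral over `A[j]` lies in the finite chart
`finChart A j` of GALPT2. -/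
theorem mem_finChart_of_isIntegralElem {g : LaurentSeries L}
    (hg : g ∈ laurentBaseChange L (modularFunctionFieldFull N))
    (hint : (evAt A (jqModC L)).IsIntegralElem g) :
    (⟨g, hg⟩ : laurentBaseChange L (modularFunctionFieldFull N)) ∈ finChart A (jF L N) :=
  isIntegral_closure_of_isIntegralElem A (t := jF L N) hg hint

end ModularDictionary

section Inertia

variable {L : Type} [Field L] [Algebra ℚ L] (A : ValuationSubring L)

/-- the restriction to `A` of an element of the decomposition group of `A`. -/
def decompRingHom {σ : L ≃ₐ[ℚ] L} (hσ : σ ∈ A.decompositionSubgroup ℚ) : A →+* A :=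
  (((σ : L ≃+* L) : L →+* L).comp A.subtype).codRestrict A
    (fun a => (apply_mem_of_mem_decomposition A hσ).mpr a.2)

theorem coe_decompRingHom {σ : L ≃ₐ[ℚ] L} (hσ : σ ∈ A.decompositionSubgroup ℚ) (a : A) :
    ((decompRingHom A hσ a : A) : L) = σ a := rfl

/-- the coefficientwise action of the decomposition group on `A((q))` is compatible with the
coefficientwise action on `L((q))`. -/
theorem iotaO_coeffMap_decompRingHom {σ : L ≃ₐ[ℚ] L} (hσ : σ ∈ A.decompositionSubgroup ℚ)
    (Z : LaurentSeries A) :
    iotaO A (coeffMap (decompRingHom A hσ) Z) = coeffMap (σ : L →+* L) (iotaO A Z) := by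
  rw [iotaO, coeffMap_coeffMap, coeffMap_coeffMap]
  exact coeffMap_congr (RingHom.ext fun _ => rfl) Z

/-- inertia acts trivially on the coefficientwise reduction. -/
theorem redO_coeffMap_decompRingHom {τ : L ≃ₐ[ℚ] L} (hτ : τ ∈ A.inertiaSubgroupIn ℚ)
    (Z : LaurentSeries A) :
    redO A (coeffMap (decompRingHom A (mem_decomposition_of_mem_inertiaSubgroupIn A hτ)) Z)
      = redO A Z := by
  rw [redO, coeffMap_coeffMap]
  refine coeffMap_congr (RingHom.ext fun a => ?_) Z
  rw [RingHom.comp_apply, ← sub_eq_zero, ← map_sub, IsLocalRing.residue_eq_zero_iff,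
    ValuationSubring.valuation_lt_one_iff]
  exact inertia_apply_sub A hτ a.2

end Inertia

section Main

variable {L : Type} [Field L] [Algebra ℚ L] (A : ValuationSubring L) (N : ℕ) [NeZero N]

omit [NeZero N] in
/-- the `j`-function is rational (its `q`-expansion has rational coefficients). -/
theorem isRational_jF : IsRational (modularFunctionFieldFull N) (jF L N) :=
  ⟨jqModC ℚ, coeffMap_jqModC _⟩

/-- **hcong₀ on the finite chart, series form.**  `τ` in the inertia group of `A`, `f` in the
function field of level `N` integral over `A[j]`: then `τ f - f = c * g` with `c` in the maximal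
ideal of `A` and `g` in the function field, integral over `A[j]`. -/
theorem exists_eq_smul_of_inertia (hN : GoodLevel A N) {τ : L ≃ₐ[ℚ] L}
    (hτ : τ ∈ A.inertiaSubgroupIn ℚ) {f : LaurentSeries L}
    (hf : f ∈ laurentBaseChange L (modularFunctionFieldFull N))
    (hint : (evAt A (jqModC L)).IsIntegralElem f)
    (hint' : (evAt A (jqModC L)).IsIntegralElem (coeffMap (τ : L →+* L) f)) :
    ∃ (c : A) (g : LaurentSeries L), c ∈ IsLocalRing.maximalIdeal A ∧
      coeffMap (τ : L →+* L) f - f = algebraMap L (LaurentSeries L) (c : L) * g ∧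
      g ∈ laurentBaseChange L (modularFunctionFieldFull N) ∧
      (evAt A (jqModC L)).IsIntegralElem g := by
  have hD := mem_decomposition_of_mem_inertiaSubgroupIn A hτ
  obtain ⟨X, Y, hY, hXY⟩ := mem_gaussRing_of_isIntegralElem A N hN hf hint
  replace hY : redO A Y ≠ 0 := hY
  replace hXY : f * iotaO A Y = iotaO A X := hXY
  set X' := coeffMap (decompRingHom A hD) X with hX'
  set Y' := coeffMap (decompRingHom A hD) Y with hY'
  have hXY' : coeffMap (τ : L →+* L) f * iotaO A Y' = iotaO A X' := by
    rw [hX', hY', iotaO_coeffMap_decompRingHom, iotaO_coeffMap_decompRingHom, ← map_mul, hXY]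
  have hrY' : redO A Y' = redO A Y := redO_coeffMap_decompRingHom A hτ Y
  have hrX' : redO A X' = redO A X := redO_coeffMap_decompRingHom A hτ X
  have hf' : coeffMap (τ : L →+* L) f ∈ laurentBaseChange L (modularFunctionFieldFull N) :=
    coeffMap_mem_laurentBaseChange τ hf
  have hrel : (coeffMap (τ : L →+* L) f - f) * iotaO A (Y * Y') = iotaO A (X' * Y - X * Y') := by
    rw [map_mul, map_sub, map_mul, map_mul, ← hXY', ← hXY]
    ring
  have hred0 : redO A (X' * Y - X * Y') = 0 := by
    rw [map_sub, map_mul, map_mul, hrX', hrY', sub_self]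
  have hYY : redO A (Y * Y') ≠ 0 := by
    rw [map_mul, hrY']
    exact mul_ne_zero hY hY
  obtain ⟨c, g, hc, hyg, hgG, hgint⟩ :=
    exists_eq_smul_of_red_eq_zero A N hN (sub_mem hf' hf)
      (RingHom.IsIntegralElem.sub _ hint' hint) hYY hrel hred0
  exact ⟨c, g, hc, hyg, hgG.1, hgint⟩

/-- **hcong₀ of GALPT2** (`helper2025.inertia_smul_sub_mem_specKernel_stdCharts`, coordinate
function `t = j`): for `τ` in the inertia group of `A` and a level `N` whose prime divisors are
invertible in the residue field, every `f` of the finite chart `finChart A j` satisfies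
`τ⁻¹ f - f = c * h` with `c` in the maximal ideal of `A` and `h` in the finite chart. -/
theorem hcong_finChart (hN : GoodLevel A N) {τ : L ≃ₐ[ℚ] L} (hτ : τ ∈ A.inertiaSubgroupIn ℚ) :
    ∀ f ∈ finChart A (jF L N), ∃ c : L, A.valuation c < 1 ∧ ∃ h ∈ finChart A (jF L N),
      (arithmeticGalois (modularFunctionFieldFull N) τ)⁻¹ • f - f
        = algebraMap L (laurentBaseChange L (modularFunctionFieldFull N)) c * h := by
  intro f hf
  have hτ' : τ⁻¹ ∈ A.inertiaSubgroupIn ℚ := inv_mem hτ
  have hD := mem_decomposition_of_mem_inertiaSubgroupIn A hτ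
  have hf' := inv_smul_mem_finChart hD (isRational_jF N) hf
  have hint := isIntegralElem_of_mem_finChart A hf
  have hint' := isIntegralElem_of_mem_finChart A hf'
  rw [← map_inv] at hint' ⊢
  obtain ⟨c, g, hc, hyg, hgF, hgint⟩ :=
    exists_eq_smul_of_inertia A N hN hτ' f.2 hint hint'
  refine ⟨(c : L), (ValuationSubring.valuation_lt_one_iff A c).mp hc, ⟨g, hgF⟩,
    mem_finChart_of_isIntegralElem A hgF hgint, ?_⟩
  apply Subtype.val_injective
  exact hyg

omit [Algebra ℚ L] [NeZero N] in
/-- a valuation subring over the prime `ℓ` has good level `N` as soon as `ℓ ∤ N`. -/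
theorem goodLevel_of_liesOverPrime {ℓ : ℕ} (hℓ : ℓ.Prime) (hA : A.LiesOverPrime ℓ)
    (hℓN : ¬ ℓ ∣ N) : GoodLevel A N := by
  intro p hp hpN hp0
  have hℓ0 : ((ℓ : ℕ) : kO A) = 0 := by
    obtain ⟨ha, hmem⟩ := (ValuationSubring.mem_nonunits_iff_exists_mem_maximalIdeal).mp hA
    have h1 : IsLocalRing.residue A ⟨(ℓ : L), ha⟩ = 0 :=
      (IsLocalRing.residue_eq_zero_iff _).mpr hmem
    have h2 : (⟨(ℓ : L), ha⟩ : A) = ((ℓ : ℕ) : A) := Subtype.ext (by simp)
    rw [h2, map_natCast] at h1
    exact h1
  have hne : p ≠ ℓ := fun h => hℓN (h ▸ hpN)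
  have hcop : Nat.Coprime p ℓ := (Nat.coprime_primes hp hℓ).mpr hne
  obtain ⟨a, b, hab⟩ := Nat.isCoprime_iff_coprime.mpr hcop
  have h3 := congrArg (Int.cast : ℤ → kO A) hab
  simp only [Int.cast_add, Int.cast_mul, Int.cast_natCast, Int.cast_one, hp0, hℓ0, mul_zero,
    add_zero] at h3
  exact zero_ne_one h3

/-- `hcong₀` of GALPT2 for a valuation subring over a prime `ℓ ∤ N`. -/
theorem hcong_finChart_of_liesOverPrime {ℓ : ℕ} (hℓ : ℓ.Prime) (hA : A.LiesOverPrime ℓ)
    (hℓN : ¬ ℓ ∣ N) {τ : L ≃ₐ[ℚ] L} (hτ : τ ∈ A.inertiaSubgroupIn ℚ) :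
    ∀ f ∈ finChart A (jF L N), ∃ c : L, A.valuation c < 1 ∧ ∃ h ∈ finChart A (jF L N),
      (arithmeticGalois (modularFunctionFieldFull N) τ)⁻¹ • f - f
        = algebraMap L (laurentBaseChange L (modularFunctionFieldFull N)) c * h :=
  hcong_finChart A N (goodLevel_of_liesOverPrime A N hℓ hA hℓN) hτ

/-- **(R1) for the two standard charts of the `j`-line, with only the congruence at infinity left
as a hypothesis**: `helper2025.inertia_smul_sub_mem_specKernel_stdCharts` with `hcong₀`
discharged. -/
theorem inertia_smul_sub_mem_specKernel_of_hcong₁ {ℓ : ℕ} (hℓ : ℓ.Prime)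
    (hA : A.LiesOverPrime ℓ) (hℓN : ¬ ℓ ∣ N)
    (hres : ∀ v : Place L (laurentBaseChange L (modularFunctionFieldFull N)),
      Function.Surjective (algebraMap L v.ResidueField))
    {τ : L ≃ₐ[ℚ] L} (hτ : τ ∈ A.inertiaSubgroupIn ℚ)
    (hcong₁ : ∀ f ∈ infChart A (jF L N)⁻¹, ∃ c : L, A.valuation c < 1 ∧
      ∃ h ∈ infChart A (jF L N)⁻¹,
        (arithmeticGalois (modularFunctionFieldFull N) τ)⁻¹ • f - f
          = algebraMap L (laurentBaseChange L (modularFunctionFieldFull N)) c * h)
    (x : Pic0 L (laurentBaseChange L (modularFunctionFieldFull N))) :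
    τ • x - x ∈ specKernel A (stdCharts A (jF L N)) :=
  inertia_smul_sub_mem_specKernel_stdCharts hres (isRational_jF N) hτ
    (hcong_finChart_of_liesOverPrime A N hℓ hA hℓN hτ) hcong₁ x

end Main

end Fermat.Agent.S37.helper885
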