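import Fermat.Prelude.Def_ModularCurve_HeckeModule
import Fermat.Agent.Lib.helper54_Frobenius

/-!
# S37 front end (helper9688): `SpecializationExists` from an additive reduction homomorphism

Pure algebra on the prelude definitions.  For a prime `ℓ ∤ N p` and a valuation subring `A` of
`ℚ̄` over `ℓ`, the frozen statement S37 asks for a Hecke module `J'`, a map `sp : J →+ J'` and
`F : J' →+ J'` with `IsSpecialization` and `SpecialFibreRelation`.  We show that it is enough to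
give ONE additive map `r : J →+ G` into ANY abelian group `G` such that

* (R1) `r (τ • x) = r x` for `τ` in the inertia group of `A`,
* (R2) `r (σ₀ • σ₀ • x - T_ℓ (σ₀ • x) + ℓ • x) = 0` for ONE Frobenius element `σ₀` at `A`,
* (R3) `r` is injective on `p`-power torsion.

No Hecke-linearity of `r`, no Galois action on `G` and no Frobenius on `G` are needed:
`J' := J ⧸ M` with `M` the Hecke-span of the elements `τ • x - x` and
`σ₀ • σ₀ • x - T_ℓ (σ₀ • x) + ℓ • x`.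
-/

set_option autoImplicit false

noncomputable section

namespace Fermat.Agent.S37.helper9688

open ModularCurve

section Abstract

variable {K L : Type*} [Field K] [Field L] [Algebra K L]

/-- Two Frobenius elements at `A` differ by an element of the inertia group. -/
theorem mul_inv_mem_inertiaSubgroupIn (A : ValuationSubring L) {σ σ₀ : L ≃ₐ[K] L} {ℓ : ℕ}
    (h : A.IsFrobeniusAt σ ℓ) (h₀ : A.IsFrobeniusAt σ₀ ℓ) :
    σ * σ₀⁻¹ ∈ A.inertiaSubgroupIn K := by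
  obtain ⟨hσ, hf⟩ := h
  obtain ⟨hσ₀, hf₀⟩ := h₀
  refine ⟨(⟨σ, hσ⟩ : A.decompositionSubgroup K) * (⟨σ₀, hσ₀⟩ : A.decompositionSubgroup K)⁻¹,
    ?_, rfl⟩
  show _ ∈ A.inertiaSubgroup K
  rw [ValuationSubring.inertiaSubgroup, MonoidHom.mem_ker]
  refine RingEquiv.ext fun x => ?_
  show ((⟨σ, hσ⟩ : A.decompositionSubgroup K) * (⟨σ₀, hσ₀⟩ : A.decompositionSubgroup K)⁻¹) • x
    = x
  rw [mul_smul]
  have h1 := hf ((⟨σ₀, hσ₀⟩ : A.decompositionSubgroup K)⁻¹ • x)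
  have h2 := hf₀ ((⟨σ₀, hσ₀⟩ : A.decompositionSubgroup K)⁻¹ • x)
  rw [smul_inv_smul] at h2
  rw [h1, ← h2]

/-- The inertia group of `A` is normalised by the decomposition group. -/
theorem conj_mem_inertiaSubgroupIn (A : ValuationSubring L) {σ₀ τ : L ≃ₐ[K] L}
    (hσ₀ : σ₀ ∈ A.decompositionSubgroup K) (hτ : τ ∈ A.inertiaSubgroupIn K) :
    σ₀ * τ * σ₀⁻¹ ∈ A.inertiaSubgroupIn K := by
  obtain ⟨t, ht, rfl⟩ := hτ
  have hn : (A.inertiaSubgroup K).Normal := by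
    rw [ValuationSubring.inertiaSubgroup]
    exact MonoidHom.normal_ker _
  exact ⟨(⟨σ₀, hσ₀⟩ : A.decompositionSubgroup K) * t *
    (⟨σ₀, hσ₀⟩ : A.decompositionSubgroup K)⁻¹, hn.conj_mem t ht _, rfl⟩

variable (p ℓ : ℕ) (hℓ : ℓ.Prime) (J : Type) [AddCommGroup J] [Module HeckeAlg J]
  [DistribMulAction (L ≃ₐ[K] L) J] [SMulCommClass (L ≃ₐ[K] L) HeckeAlg J]

/-- The Eichler–Shimura element `σ₀² - T_ℓ σ₀ + ℓ` applied to `x`. -/
def esElt (σ₀ : L ≃ₐ[K] L) (x : J) : J :=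
  σ₀ • σ₀ • x - heckeGen ⟨ℓ, hℓ⟩ • (σ₀ • x) + ℓ • x

/-- Generators of the submodule we divide by. -/
def genSet (A : ValuationSubring L) (σ₀ : L ≃ₐ[K] L) : Set J :=
  {y | ∃ τ ∈ A.inertiaSubgroupIn K, ∃ x : J, y = τ • x - x} ∪
    {y | ∃ x : J, y = esElt ℓ hℓ J σ₀ x}

/-- The Hecke submodule generated by `(I_A - 1) J` and `(σ₀² - T_ℓ σ₀ + ℓ) J`. -/
def relSubmodule (A : ValuationSubring L) (σ₀ : L ≃ₐ[K] L) : Submodule HeckeAlg J :=
  Submodule.span HeckeAlg (genSet ℓ hℓ J A σ₀)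

variable {J}

theorem galois_nsmul (σ : L ≃ₐ[K] L) (n : ℕ) (x : J) : σ • (n • x) = n • (σ • x) :=
  smul_comm σ n x

theorem hecke_nsmul (t : HeckeAlg) (n : ℕ) (x : J) : t • (n • x) = n • (t • x) :=
  smul_comm t n x

theorem hecke_galois_smul (t : HeckeAlg) (σ : L ≃ₐ[K] L) (x : J) :
    t • (σ • x) = σ • (t • x) :=
  (smul_comm σ t x).symm

theorem hecke_hecke_smul (t s : HeckeAlg) (x : J) : t • (s • x) = s • (t • x) := by
  rw [smul_smul, smul_smul, mul_comm]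

theorem hecke_smul_esElt (σ₀ : L ≃ₐ[K] L) (t : HeckeAlg) (x : J) :
    t • esElt ℓ hℓ J σ₀ x = esElt ℓ hℓ J σ₀ (t • x) := by
  unfold esElt
  rw [smul_add, smul_sub, hecke_nsmul, hecke_galois_smul t σ₀ (σ₀ • x),
    hecke_galois_smul t σ₀ x, hecke_hecke_smul t (heckeGen ⟨ℓ, hℓ⟩) (σ₀ • x),
    hecke_galois_smul t σ₀ x]

theorem galois_smul_esElt (σ₀ : L ≃ₐ[K] L) (x : J) :
    σ₀ • esElt ℓ hℓ J σ₀ x = esElt ℓ hℓ J σ₀ (σ₀ • x) := by
  unfold esElt
  rw [smul_add, smul_sub, galois_nsmul, smul_comm σ₀ (heckeGen ⟨ℓ, hℓ⟩) (σ₀ • x)]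

/-- An additive map killing the generators (in a Hecke-stable way) kills the whole submodule. -/
theorem map_eq_zero_of_mem_relSubmodule (A : ValuationSubring L) (σ₀ : L ≃ₐ[K] L)
    {G : Type*} [AddCommGroup G] (r : J →+ G)
    (h1 : ∀ σ ∈ A.inertiaSubgroupIn K, ∀ x : J, r (σ • x) = r x)
    (h2 : ∀ x : J, r (esElt ℓ hℓ J σ₀ x) = 0) {y : J}
    (hy : y ∈ relSubmodule ℓ hℓ J A σ₀) : r y = 0 := by
  have key : ∀ t : HeckeAlg, r (t • y) = 0 := by
    unfold relSubmodule at hy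
    induction hy using Submodule.span_induction with
    | mem y hy =>
      intro t
      rcases hy with ⟨τ, hτ, x, rfl⟩ | ⟨x, rfl⟩
      · rw [smul_sub, hecke_galois_smul t τ x, map_sub, h1 τ hτ, sub_self]
      · rw [hecke_smul_esElt]
        exact h2 _
    | zero => intro t; rw [smul_zero, map_zero]
    | add y z _ _ hy hz => intro t; rw [smul_add, map_add, hy t, hz t, add_zero]
    | smul a y _ hy => intro t; rw [smul_smul]; exact hy _
  have := key 1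
  rwa [one_smul] at this

/-- The submodule is stable under the Frobenius `σ₀`. -/
theorem galois_smul_mem_relSubmodule (A : ValuationSubring L) (σ₀ : L ≃ₐ[K] L)
    (hσ₀ : σ₀ ∈ A.decompositionSubgroup K) {y : J}
    (hy : y ∈ relSubmodule ℓ hℓ J A σ₀) : σ₀ • y ∈ relSubmodule ℓ hℓ J A σ₀ := by
  unfold relSubmodule at hy ⊢
  induction hy using Submodule.span_induction with
  | mem y hy =>
    refine Submodule.subset_span ?_
    rcases hy with ⟨τ, hτ, x, rfl⟩ | ⟨x, rfl⟩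
    · refine Or.inl ⟨σ₀ * τ * σ₀⁻¹, conj_mem_inertiaSubgroupIn A hσ₀ hτ, σ₀ • x, ?_⟩
      rw [smul_sub, mul_smul, mul_smul, inv_smul_smul]
    · exact Or.inr ⟨σ₀ • x, galois_smul_esElt ℓ hℓ σ₀ x⟩
  | zero => rw [smul_zero]; exact Submodule.zero_mem _
  | add y z _ _ hy hz => rw [smul_add]; exact Submodule.add_mem _ hy hz
  | smul a y _ hy => rw [smul_comm σ₀ a y]; exact Submodule.smul_mem _ a hy

variable (J)

/-- The Frobenius `σ₀` as a Hecke-linear endomorphism of `J`. -/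
def galoisLinear (σ₀ : L ≃ₐ[K] L) : J →ₗ[HeckeAlg] J where
  toFun x := σ₀ • x
  map_add' := smul_add σ₀
  map_smul' t x := smul_comm σ₀ t x

variable {J}

/-- **Abstract front end.**  An additive map `r` with (R1), (R2), (R3) yields the specialization
datum required by `SpecializationExists` at `(ℓ, A)`. -/
theorem exists_specialization_of_hom (A : ValuationSubring L) {G : Type*} [AddCommGroup G]
    (r : J →+ G) (σ₀ : L ≃ₐ[K] L) (hσ₀ : A.IsFrobeniusAt σ₀ ℓ)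
    (h1 : ∀ σ ∈ A.inertiaSubgroupIn K, ∀ x : J, r (σ • x) = r x)
    (h2 : ∀ x : J, r (σ₀ • σ₀ • x - heckeGen ⟨ℓ, hℓ⟩ • (σ₀ • x) + ℓ • x) = 0)
    (h3 : ∀ x : J, (∃ n : ℕ, p ^ n • x = 0) → r x = 0 → x = 0) :
    ∃ (J' : Type) (_ : AddCommGroup J') (_ : Module HeckeAlg J') (sp : J →+ J')
      (F : J' →+ J'),
      IsSpecialization (K := K) p J J' A ℓ sp F ∧ SpecialFibreRelation J' ℓ hℓ F := by
  classical
  set M : Submodule HeckeAlg J := relSubmodule ℓ hℓ J A σ₀ with hM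
  have hσ₀D : σ₀ ∈ A.decompositionSubgroup K := hσ₀.mem_decompositionSubgroup
  have hstab : M ≤ M.comap (galoisLinear J σ₀) := fun y hy =>
    galois_smul_mem_relSubmodule ℓ hℓ A σ₀ hσ₀D hy
  refine ⟨J ⧸ M, inferInstance, inferInstance, M.mkQ.toAddMonoidHom,
    (M.mapQ M (galoisLinear J σ₀) hstab).toAddMonoidHom, ⟨?_, ?_, ?_, ?_⟩, ?_⟩
  · -- hecke_comm
    intro T x
    rfl
  · -- inertia_comm
    intro σ hσ x
    show M.mkQ (σ • x) = M.mkQ x
    rw [Submodule.mkQ_apply, Submodule.mkQ_apply, Submodule.Quotient.eq]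
    exact Submodule.subset_span (Or.inl ⟨σ, hσ, x, rfl⟩)
  · -- frobenius_comm
    intro σ hσ x
    show M.mkQ (σ • x) = M.mkQ (σ₀ • x)
    rw [Submodule.mkQ_apply, Submodule.mkQ_apply, Submodule.Quotient.eq]
    refine Submodule.subset_span (Or.inl ⟨σ * σ₀⁻¹,
      mul_inv_mem_inertiaSubgroupIn A hσ hσ₀, σ₀ • x, ?_⟩)
    rw [mul_smul, inv_smul_smul]
  · -- injective_torsion
    intro x hx hsp
    have hxM : x ∈ M := by
      have : M.mkQ x = 0 := hsp
      rwa [Submodule.mkQ_apply, Submodule.Quotient.mk_eq_zero] at this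
    exact h3 x hx (map_eq_zero_of_mem_relSubmodule ℓ hℓ A σ₀ r h1 h2 hxM)
  · -- SpecialFibreRelation
    intro y
    obtain ⟨x, rfl⟩ := M.mkQ_surjective y
    show M.mkQ (σ₀ • σ₀ • x) - heckeGen ⟨ℓ, hℓ⟩ • M.mkQ (σ₀ • x) + ℓ • M.mkQ x = 0
    have : M.mkQ (esElt ℓ hℓ J σ₀ x) = 0 := by
      rw [Submodule.mkQ_apply, Submodule.Quotient.mk_eq_zero]
      exact Submodule.subset_span (Or.inr ⟨x, rfl⟩)
    rw [← this]
    unfold esElt
    rw [map_add, map_sub, LinearMap.map_smul, map_nsmul]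

end Abstract

/-! ### The modular instance -/

section Modular

local notation "Qb" => AlgebraicClosure ℚ
local notation "GQ" => (AlgebraicClosure ℚ ≃ₐ[ℚ] AlgebraicClosure ℚ)

/-- **Back-end obligation at `(ℓ, A)`**: an additive map `r` out of `J₀(N)(ℚ̄)` into some abelian
group which (R1) is inertia-invariant, (R2) kills `(σ₀² - T_ℓ σ₀ + ℓ) J` for one Frobenius `σ₀`
at `A`, (R3) is injective on `p`-power torsion.  `T_ℓ` is the prelude operator
`heckeOperatorBar N ℓ`. -/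
def ReductionHomAt (N p ℓ : ℕ) [NeZero N] (hℓ : ℓ.Prime) (A : ValuationSubring Qb) : Prop :=
  ∃ (G : Type) (_ : AddCommGroup G) (r : JZero N →+ G),
    (∀ σ ∈ A.inertiaSubgroupIn ℚ, ∀ x : JZero N, r (σ • x) = r x) ∧
    (∃ σ₀ : GQ, A.IsFrobeniusAt σ₀ ℓ ∧
      ∀ x : JZero N, r (σ₀ • σ₀ • x - heckeOperatorBar N ⟨ℓ, hℓ⟩ (σ₀ • x) + ℓ • x) = 0) ∧
    (∀ x : JZero N, (∃ n : ℕ, p ^ n • x = 0) → r x = 0 → x = 0)

/-- Variant of the obligation with (R2) for ALL Frobenius elements at `A`. -/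
def ReductionHomAtAll (N p ℓ : ℕ) [NeZero N] (hℓ : ℓ.Prime) (A : ValuationSubring Qb) : Prop :=
  ∃ (G : Type) (_ : AddCommGroup G) (r : JZero N →+ G),
    (∀ σ ∈ A.inertiaSubgroupIn ℚ, ∀ x : JZero N, r (σ • x) = r x) ∧
    (∀ σ₀ : GQ, A.IsFrobeniusAt σ₀ ℓ →
      ∀ x : JZero N, r (σ₀ • σ₀ • x - heckeOperatorBar N ⟨ℓ, hℓ⟩ (σ₀ • x) + ℓ • x) = 0) ∧
    (∀ x : JZero N, (∃ n : ℕ, p ^ n • x = 0) → r x = 0 → x = 0)

theorem ReductionHomAtAll.reductionHomAt {N p ℓ : ℕ} [NeZero N] {hℓ : ℓ.Prime}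
    {A : ValuationSubring Qb} (hA : A.LiesOverPrime ℓ) (h : ReductionHomAtAll N p ℓ hℓ A) :
    ReductionHomAt N p ℓ hℓ A := by
  obtain ⟨G, iG, r, h1, h2, h3⟩ := h
  obtain ⟨σ₀, hσ₀⟩ := Fermat.Agent.Lib.helper54.exists_isFrobeniusAt hℓ A hA
  exact ⟨G, iG, r, h1, ⟨σ₀, hσ₀, h2 σ₀ hσ₀⟩, h3⟩

/-- **S37 front end.**  If every `(ℓ, A)` with `ℓ ∤ N p` admits a reduction homomorphism, the
frozen conclusion of S37 holds. -/
theorem specializationExists_of_reductionHom (N p : ℕ) [NeZero N]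
    (hcomm : ModularCurve.HeckeOperatorsCommuteBar N)
    (h : ∀ ℓ : ℕ, (hℓ : ℓ.Prime) → ¬ ℓ ∣ N * p →
      ∀ A : ValuationSubring Qb, A.LiesOverPrime ℓ → ReductionHomAt N p ℓ hℓ A) :
    letI := ModularCurve.heckeModuleBar N
    ∀ (_ : SMulCommClass GQ ModularCurve.HeckeAlg (ModularCurve.JZero N)),
      ModularCurve.SpecializationExists (K := ℚ) (L := Qb) N p (ModularCurve.JZero N) := by
  letI := ModularCurve.heckeModuleBar N
  intro inst ℓ hℓ hℓNp A hA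
  obtain ⟨G, iG, r, h1, ⟨σ₀, hσ₀, h2⟩, h3⟩ := h ℓ hℓ hℓNp A hA
  refine exists_specialization_of_hom p ℓ hℓ A r σ₀ hσ₀ h1 ?_ h3
  intro x
  rw [heckeModuleBar_heckeGen_smul hcomm]
  exact h2 x

/-- Same with the `∀ Frobenius` form of the obligation. -/
theorem specializationExists_of_reductionHomAll (N p : ℕ) [NeZero N]
    (hcomm : ModularCurve.HeckeOperatorsCommuteBar N)
    (h : ∀ ℓ : ℕ, (hℓ : ℓ.Prime) → ¬ ℓ ∣ N * p →
      ∀ A : ValuationSubring Qb, A.LiesOverPrime ℓ → ReductionHomAtAll N p ℓ hℓ A) :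
    letI := ModularCurve.heckeModuleBar N
    ∀ (_ : SMulCommClass GQ ModularCurve.HeckeAlg (ModularCurve.JZero N)),
      ModularCurve.SpecializationExists (K := ℚ) (L := Qb) N p (ModularCurve.JZero N) :=
  specializationExists_of_reductionHom N p hcomm fun ℓ hℓ hℓNp A hA =>
    (h ℓ hℓ hℓNp A hA).reductionHomAt hA

end Modular

end Fermat.Agent.S37.helper9688

end
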