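/-
S37/S18-LOCSECT (board #1077), helper9790.

Local algebra at a regular closed point `z` of a two-dimensional model:
`R` a noetherian local domain with `maximalIdeal R = span {π, t0}`, `π` prime
(the output of the purity step at `z`).

* (S1) sections through `z` are principal, with a generator congruent to `t0` mod `π`;
* (S2) a horizontal valuation ring through a section is the localisation at its generator;
* (S3) unit criterion;
* (S4) producer of the local hypothesis of the Kummer idempotent step.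

Mathlib only.
-/
import Mathlib

namespace Fermat.Agent.S37.helper9790

open IsLocalRing

section Core

variable {R : Type*} [CommRing R] [IsLocalRing R] [IsNoetherianRing R]

/-- Krull intersection, element form: if `x ∈ (t) + π^n R` for all `n`, with `π, t`
non-units, then `x ∈ (t)`. -/
theorem mem_span_of_forall_pow {π t x : R} (hπ : π ∈ maximalIdeal R)
    (h : ∀ n : ℕ, ∃ y : R, x - π ^ n * y ∈ Ideal.span {t}) : x ∈ Ideal.span {t} := by
  have hne : maximalIdeal R ≠ ⊤ := (maximalIdeal.isMaximal R).ne_top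
  have key := Ideal.iInf_pow_smul_eq_bot_of_isLocalRing (R := R)
    (M := R ⧸ Ideal.span {t}) (I := maximalIdeal R) hne
  have hx : (Ideal.Quotient.mk (Ideal.span {t}) x) ∈
      (⨅ i : ℕ, maximalIdeal R ^ i • ⊤ : Submodule R (R ⧸ Ideal.span {t})) := by
    rw [Submodule.mem_iInf]
    intro n
    obtain ⟨y, hy⟩ := h n
    have e : Ideal.Quotient.mk (Ideal.span {t}) x =
        (π ^ n) • (Ideal.Quotient.mk (Ideal.span {t}) y) := by
      rw [Algebra.smul_def, Ideal.Quotient.algebraMap_eq, ← map_mul]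
      exact Ideal.Quotient.eq.mpr hy
    rw [e]
    exact Submodule.smul_mem_smul (Ideal.pow_mem_pow hπ n) Submodule.mem_top
  rw [key] at hx
  exact Ideal.Quotient.eq_zero_iff_mem.mp ((Submodule.mem_bot R).mp hx)

/-- Core lemma: an ideal `J ≤ (π, t)` containing `t`, on which `π` is a non-zero-divisor
modulo `J` (`π a ∈ J → a ∈ J`), equals `(t)`. -/
theorem ideal_eq_span_of_saturated {π t : R} (hπ : π ∈ maximalIdeal R)
    (J : Ideal R) (hJle : J ≤ Ideal.span {π, t}) (htJ : t ∈ J)
    (hsat : ∀ a : R, π * a ∈ J → a ∈ J) : J = Ideal.span {t} := by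
  apply le_antisymm
  · intro x hx
    apply mem_span_of_forall_pow hπ
    intro n
    induction n with
    | zero => exact ⟨x, by simp⟩
    | succ n ih =>
      obtain ⟨y, hy⟩ := ih
      -- first show y ∈ J
      have hyJ : y ∈ J := by
        have h1 : π ^ n * y ∈ J := by
          have : π ^ n * y = x - (x - π ^ n * y) := by ring
          rw [this]
          exact J.sub_mem hx ((Ideal.span_singleton_le_iff_mem J).mpr htJ hy)
        clear hy
        induction n with
        | zero => simpa using h1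
        | succ m ihm =>
          apply ihm
          apply hsat
          rw [← mul_assoc, ← pow_succ']
          exact h1
      obtain ⟨a, b, hab⟩ := Ideal.mem_span_pair.mp (hJle hyJ)
      have haJ : a ∈ J := by
        apply hsat
        have : π * a = y - b * t := by rw [← hab]; ring
        rw [this]
        exact J.sub_mem hyJ (J.mul_mem_left b htJ)
      refine ⟨a, ?_⟩
      have : x - π ^ (n + 1) * a = (x - π ^ n * y) + (π ^ n * b) * t := by
        rw [← hab]; ring
      rw [this]
      exact Ideal.add_mem _ hy (Ideal.mul_mem_left _ _ (Ideal.mem_span_singleton_self t))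
  · exact (Ideal.span_singleton_le_iff_mem J).mpr htJ

/-- (S1) **Sections through a regular closed point are principal.**
`R` noetherian local with `maximalIdeal R = span {π, t0}`; `ev : R →+* O` into a domain with
`ev π ≠ 0` and `maximalIdeal R ≤ ker ev ⊔ span {π}`.  Then `ker ev` is generated by one
element `t`, congruent to `t0` modulo `π`, and `(π, t)` is the maximal ideal. -/
theorem exists_section_generator {O : Type*} [CommRing O] [IsDomain O]
    {π t0 : R} (hmax : maximalIdeal R = Ideal.span {π, t0})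
    (ev : R →+* O) (hπ : ev π ≠ 0)
    (hsec : maximalIdeal R ≤ RingHom.ker ev ⊔ Ideal.span {π}) :
    ∃ t : R, RingHom.ker ev = Ideal.span {t} ∧ t - t0 ∈ Ideal.span {π} ∧
      maximalIdeal R = Ideal.span {π, t} := by
  have hπm : π ∈ maximalIdeal R := by
    rw [hmax]; exact Ideal.subset_span (by simp)
  have ht0m : t0 ∈ maximalIdeal R := by
    rw [hmax]; exact Ideal.subset_span (by simp)
  obtain ⟨t, htker, c, hc, htc⟩ := Submodule.mem_sup.mp (hsec ht0m)
  obtain ⟨d, rfl⟩ := Ideal.mem_span_singleton'.mp hc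
  have hspan : Ideal.span {π, t} = Ideal.span {π, t0} := by
    apply le_antisymm
    · rw [Ideal.span_le]
      rintro x (rfl | rfl)
      · exact Ideal.subset_span (by simp)
      · have : x = (-d) * π + 1 * t0 := by rw [← htc]; ring
        rw [this]
        exact Ideal.mem_span_pair.mpr ⟨-d, 1, rfl⟩
    · rw [Ideal.span_le]
      rintro x (rfl | rfl)
      · exact Ideal.subset_span (by simp)
      · rw [← htc]
        exact Ideal.mem_span_pair.mpr ⟨d, 1, by ring⟩
  have hmax' : maximalIdeal R = Ideal.span {π, t} := by rw [hmax, hspan]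
  have hkerle : RingHom.ker ev ≤ Ideal.span {π, t} := by
    rw [← hmax']
    apply IsLocalRing.le_maximalIdeal
    intro h
    have : (1 : R) ∈ RingHom.ker ev := by rw [h]; trivial
    rw [RingHom.mem_ker, map_one] at this
    exact one_ne_zero this
  refine ⟨t, ?_, ?_, hmax'⟩
  · apply ideal_eq_span_of_saturated hπm _ hkerle htker
    intro a ha
    rw [RingHom.mem_ker, map_mul] at ha
    rw [RingHom.mem_ker]
    exact (mul_eq_zero.mp ha).resolve_left hπ
  · rw [Ideal.mem_span_singleton']
    exact ⟨-d, by rw [← htc]; ring⟩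

/-- (S1') A prime of `R` containing `t` and not `π` equals `(t)`, when
`maximalIdeal R = span {π, t}`. -/
theorem prime_eq_span_of_mem {π t : R} (hmax : maximalIdeal R = Ideal.span {π, t})
    (P : Ideal R) [P.IsPrime] (htP : t ∈ P) (hπP : π ∉ P) : P = Ideal.span {t} := by
  have hπm : π ∈ maximalIdeal R := by
    rw [hmax]; exact Ideal.subset_span (by simp)
  apply ideal_eq_span_of_saturated hπm P _ htP
  · intro a ha
    exact (Ideal.IsPrime.mem_or_mem ‹P.IsPrime› ha).resolve_left hπP
  · rw [← hmax]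
    exact IsLocalRing.le_maximalIdeal (Ideal.IsPrime.ne_top ‹P.IsPrime›)

omit [IsNoetherianRing R] in
/-- Two generators `t₁ ≡ t₂ mod π`: in particular `t₁ = u t₂ + π c` with `u = 1`.  For
sections with generators only known up to `(π, t)`-equality: the ratio is a unit mod `π`. -/
theorem exists_unit_of_span_pair_eq {π t₁ t₂ : R} (hπ : Prime π)
    (h₁ : maximalIdeal R = Ideal.span {π, t₁}) (h₂ : maximalIdeal R = Ideal.span {π, t₂})
    (hnot : ¬ π ∣ t₁) : ∃ (u : Rˣ) (c : R), t₁ = u * t₂ + π * c := by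
  have ht₁ : t₁ ∈ Ideal.span {π, t₂} := by
    rw [← h₂, h₁]; exact Ideal.subset_span (by simp)
  have ht₂ : t₂ ∈ Ideal.span {π, t₁} := by
    rw [← h₁, h₂]; exact Ideal.subset_span (by simp)
  obtain ⟨a, u, hau⟩ := Ideal.mem_span_pair.mp ht₁
  obtain ⟨b, w, hbw⟩ := Ideal.mem_span_pair.mp ht₂
  have hπm : π ∈ maximalIdeal R := by
    rw [h₁]; exact Ideal.subset_span (by simp)
  -- (1 - u w) t₁ ∈ (π)
  have hdiv : π ∣ (1 - u * w) * t₁ := by
    refine ⟨a + u * b, ?_⟩
    have e1 : t₁ = a * π + u * (b * π + w * t₁) := by rw [hbw]; exact hau.symm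
    linear_combination e1
  have h1 : π ∣ 1 - u * w := (hπ.dvd_or_dvd hdiv).resolve_right hnot
  have huw : IsUnit (u * w) := by
    by_contra hnu
    have hm : u * w ∈ maximalIdeal R := (IsLocalRing.mem_maximalIdeal _).mpr hnu
    obtain ⟨e, he⟩ := h1
    have : (1 : R) ∈ maximalIdeal R := by
      have : (1 : R) = π * e + u * w := by rw [← he]; ring
      rw [this]
      exact Ideal.add_mem _ (Ideal.mul_mem_right _ _ hπm) hm
    exact (Ideal.ne_top_iff_one _).mp (maximalIdeal.isMaximal R).ne_top this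
  have hu : IsUnit u := isUnit_of_mul_isUnit_left huw
  exact ⟨hu.unit, a, by rw [IsUnit.unit_spec, ← hau]; ring⟩

end Core

section Frac

variable {R : Type*} [CommRing R] [IsDomain R] [IsLocalRing R] [IsNoetherianRing R]
variable {F : Type*} [Field F] [Algebra R F] [IsFractionRing R F]

/-- The centre on `R` of a valuation ring `V ⊇ R` of the fraction field. -/
def centre (V : ValuationSubring F) (hRV : ∀ r : R, algebraMap R F r ∈ V) : Ideal R where
  carrier := {r | V.valuation (algebraMap R F r) < 1}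
  add_mem' := by
    intro a b ha hb
    simp only [Set.mem_ofPred_eq, map_add] at *
    exact lt_of_le_of_lt (V.valuation.map_add _ _) (max_lt ha hb)
  zero_mem' := by simp
  smul_mem' := by
    intro c x hx
    simp only [Set.mem_ofPred_eq, smul_eq_mul, map_mul] at *
    have hc : V.valuation (algebraMap R F c) ≤ 1 := (V.valuation_le_one_iff _).mpr (hRV c)
    calc V.valuation (algebraMap R F c) * V.valuation (algebraMap R F x)
        ≤ 1 * V.valuation (algebraMap R F x) := mul_le_mul' hc le_rfl
      _ = V.valuation (algebraMap R F x) := one_mul _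
      _ < 1 := hx

omit [IsDomain R] [IsLocalRing R] [IsNoetherianRing R] [IsFractionRing R F] in
theorem mem_centre {V : ValuationSubring F} {hRV : ∀ r : R, algebraMap R F r ∈ V} {r : R} :
    r ∈ centre V hRV ↔ V.valuation (algebraMap R F r) < 1 := Iff.rfl

omit [IsDomain R] [IsLocalRing R] [IsNoetherianRing R] [IsFractionRing R F] in
theorem centre_isPrime (V : ValuationSubring F) (hRV : ∀ r : R, algebraMap R F r ∈ V) :
    (centre V hRV).IsPrime := by
  constructor
  · rw [Ideal.ne_top_iff_one, mem_centre, map_one, map_one]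
    exact lt_irrefl _
  · intro a b hab
    rw [mem_centre, map_mul, map_mul] at hab
    by_contra hcon
    rw [not_or] at hcon
    have ha : V.valuation (algebraMap R F a) = 1 :=
      le_antisymm ((V.valuation_le_one_iff _).mpr (hRV a)) (not_lt.mp hcon.1)
    have hb : V.valuation (algebraMap R F b) = 1 :=
      le_antisymm ((V.valuation_le_one_iff _).mpr (hRV b)) (not_lt.mp hcon.2)
    rw [ha, hb, one_mul] at hab
    exact lt_irrefl _ hab

omit [IsDomain R] [IsFractionRing R F] in
/-- (S2a) For a valuation ring `V ⊇ R` in which `π` is a unit and `t` is not, an element of `R`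
is a non-unit of `V` iff it is divisible by `t`. -/
theorem valuation_lt_one_iff_dvd (V : ValuationSubring F)
    (hRV : ∀ r : R, algebraMap R F r ∈ V) {π t : R}
    (hmax : maximalIdeal R = Ideal.span {π, t})
    (hπV : V.valuation (algebraMap R F π) = 1) (htV : V.valuation (algebraMap R F t) < 1)
    (r : R) : V.valuation (algebraMap R F r) < 1 ↔ t ∣ r := by
  have := centre_isPrime V hRV
  have h := prime_eq_span_of_mem hmax (centre V hRV) (mem_centre.mpr htV)
    (fun h => by rw [mem_centre, hπV] at h; exact lt_irrefl _ h)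
  rw [← mem_centre (hRV := hRV), h, Ideal.mem_span_singleton]

omit [IsDomain R] [IsFractionRing R F] in
theorem valuation_eq_one_of_not_dvd (V : ValuationSubring F)
    (hRV : ∀ r : R, algebraMap R F r ∈ V) {π t : R}
    (hmax : maximalIdeal R = Ideal.span {π, t})
    (hπV : V.valuation (algebraMap R F π) = 1) (htV : V.valuation (algebraMap R F t) < 1)
    {r : R} (hr : ¬ t ∣ r) : V.valuation (algebraMap R F r) = 1 := by
  refine le_antisymm ((V.valuation_le_one_iff _).mpr (hRV r)) (not_lt.mp fun h => hr ?_)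
  exact (valuation_lt_one_iff_dvd V hRV hmax hπV htV r).mp h

omit [IsLocalRing R] in
/-- (S2b) `t`-adic decomposition in the fraction field, in terms of `R` only. -/
theorem exists_zpow_decomp {t : R} (ht : ¬ IsUnit t) (ht0 : t ≠ 0) (x : F) (hx : x ≠ 0) :
    ∃ (n : ℤ) (a b : R), ¬ t ∣ a ∧ ¬ t ∣ b ∧
      x = algebraMap R F t ^ n * (algebraMap R F a / algebraMap R F b) := by
  obtain ⟨a0, b0, hb0, rfl⟩ := IsFractionRing.div_surjective (A := R) x
  have hb0' : b0 ≠ 0 := nonZeroDivisors.ne_zero hb0
  have ha0 : a0 ≠ 0 := by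
    rintro rfl
    simp at hx
  obtain ⟨n, a, hna, rfl⟩ := WfDvdMonoid.max_power_factor' ha0 ht
  obtain ⟨k, b, hkb, rfl⟩ := WfDvdMonoid.max_power_factor' hb0' ht
  have htF : algebraMap R F t ≠ 0 := by
    simpa using (IsFractionRing.injective R F).ne ht0
  have hbF : algebraMap R F b ≠ 0 := by
    have : b ≠ 0 := right_ne_zero_of_mul hb0'
    simpa using (IsFractionRing.injective R F).ne this
  refine ⟨(n : ℤ) - k, a, b, hna, hkb, ?_⟩
  rw [zpow_sub₀ htF, zpow_natCast, zpow_natCast, map_mul, map_mul, map_pow, map_pow]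
  field_simp

omit [IsDomain R] [IsFractionRing R F] in
/-- (S2c) valuation of a `t`-adically decomposed element. -/
theorem valuation_eq_zpow (V : ValuationSubring F)
    (hRV : ∀ r : R, algebraMap R F r ∈ V) {π t : R}
    (hmax : maximalIdeal R = Ideal.span {π, t})
    (hπV : V.valuation (algebraMap R F π) = 1) (htV : V.valuation (algebraMap R F t) < 1)
    {a b : R} (ha : ¬ t ∣ a) (hb : ¬ t ∣ b) (n : ℤ) :
    V.valuation (algebraMap R F t ^ n * (algebraMap R F a / algebraMap R F b)) =
      V.valuation (algebraMap R F t) ^ n := by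
  rw [map_mul, map_div₀, map_zpow₀,
    valuation_eq_one_of_not_dvd V hRV hmax hπV htV ha,
    valuation_eq_one_of_not_dvd V hRV hmax hπV htV hb, div_one, mul_one]

/-- (S2d) **Uniqueness of the horizontal place through a section**: two valuation rings
containing `R` in which `π` is a unit and `t` a non-unit coincide. -/
theorem valuationSubring_unique (V V' : ValuationSubring F)
    (hRV : ∀ r : R, algebraMap R F r ∈ V) (hRV' : ∀ r : R, algebraMap R F r ∈ V') {π t : R}
    (hmax : maximalIdeal R = Ideal.span {π, t}) (ht0 : t ≠ 0)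
    (hπV : V.valuation (algebraMap R F π) = 1) (htV : V.valuation (algebraMap R F t) < 1)
    (hπV' : V'.valuation (algebraMap R F π) = 1) (htV' : V'.valuation (algebraMap R F t) < 1) :
    V = V' := by
  have htm : ¬ IsUnit t := by
    have : t ∈ maximalIdeal R := by rw [hmax]; exact Ideal.subset_span (by simp)
    exact (IsLocalRing.mem_maximalIdeal _).mp this
  have htF : algebraMap R F t ≠ 0 := by
    simpa using (IsFractionRing.injective R F).ne ht0
  have key : ∀ (W : ValuationSubring F) (hRW : ∀ r : R, algebraMap R F r ∈ W)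
      (hπW : W.valuation (algebraMap R F π) = 1) (htW : W.valuation (algebraMap R F t) < 1)
      (n : ℤ) (a b : R), ¬ t ∣ a → ¬ t ∣ b →
      (algebraMap R F t ^ n * (algebraMap R F a / algebraMap R F b) ∈ W ↔ 0 ≤ n) := by
    intro W hRW hπW htW n a b ha hb
    rw [← W.valuation_le_one_iff, valuation_eq_zpow W hRW hmax hπW htW ha hb n]
    have hpos : 0 < W.valuation (algebraMap R F t) :=
      zero_lt_iff.mpr ((W.valuation.ne_zero_iff).mpr htF)
    exact zpow_le_one_iff_right_of_lt_one₀ hpos htW
  ext x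
  by_cases hx : x = 0
  · subst hx; simp
  obtain ⟨n, a, b, ha, hb, rfl⟩ := exists_zpow_decomp (F := F) htm ht0 x hx
  rw [key V hRV hπV htV n a b ha hb, key V' hRV' hπV' htV' n a b ha hb]

/-- (S2e) `t` is a uniformiser of the horizontal place through the section. -/
theorem exists_eq_mul_of_valuation_lt_one (V : ValuationSubring F)
    (hRV : ∀ r : R, algebraMap R F r ∈ V) {π t : R}
    (hmax : maximalIdeal R = Ideal.span {π, t}) (ht0 : t ≠ 0)
    (hπV : V.valuation (algebraMap R F π) = 1) (htV : V.valuation (algebraMap R F t) < 1)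
    {x : F} (hx : V.valuation x < 1) : ∃ y ∈ V, x = algebraMap R F t * y := by
  have htm : ¬ IsUnit t := by
    have : t ∈ maximalIdeal R := by rw [hmax]; exact Ideal.subset_span (by simp)
    exact (IsLocalRing.mem_maximalIdeal _).mp this
  have htF : algebraMap R F t ≠ 0 := by
    simpa using (IsFractionRing.injective R F).ne ht0
  by_cases hx0 : x = 0
  · exact ⟨0, V.zero_mem, by simp [hx0]⟩
  obtain ⟨n, a, b, ha, hb, rfl⟩ := exists_zpow_decomp (F := F) htm ht0 x hx0
  rw [valuation_eq_zpow V hRV hmax hπV htV ha hb n] at hx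
  have hpos : 0 < V.valuation (algebraMap R F t) :=
    zero_lt_iff.mpr ((V.valuation.ne_zero_iff).mpr htF)
  have hn : 0 < n := (zpow_lt_one_iff_right_of_lt_one₀ hpos htV).mp hx
  refine ⟨algebraMap R F t ^ (n - 1) * (algebraMap R F a / algebraMap R F b), ?_, ?_⟩
  · rw [← V.valuation_le_one_iff, valuation_eq_zpow V hRV hmax hπV htV ha hb (n - 1)]
    exact (zpow_le_one_iff_right_of_lt_one₀ hpos htV).mpr (by omega)
  · rw [← mul_assoc, ← zpow_one_add₀ htF]
    congr 2
    ring

end Frac

section UnitCriterion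

variable {R : Type*} [CommRing R] [IsDomain R] [IsIntegrallyClosed R]
variable {F : Type*} [Field F] [Algebra R F] [IsFractionRing R F]

/-- (S3a) An element of the fraction field that is integral at the prime `π` and lies in every
valuation ring containing `R[1/π]` lies in `R`. -/
theorem exists_algebraMap_eq_of_horizontal {π : R} (hπ : Prime π) (W : F)
    (hW1 : ∃ a b : R, ¬ π ∣ b ∧ W * algebraMap R F b = algebraMap R F a)
    (hW2 : ∀ V : ValuationSubring F, (∀ r : R, algebraMap R F r ∈ V) →
        (algebraMap R F π)⁻¹ ∈ V → W ∈ V) :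
    ∃ c : R, algebraMap R F c = W := by
  have hS : Submonoid.powers π ≤ nonZeroDivisors R :=
    Submonoid.powers_le.mpr (mem_nonZeroDivisors_of_ne_zero hπ.ne_zero)
  let B := Localization.subalgebra.ofField F (Submonoid.powers π) hS
  have hBic : IsIntegrallyClosed B :=
    isIntegrallyClosed_of_isLocalization B (Submonoid.powers π) hS
  have hBin : IsIntegrallyClosedIn B F := (isIntegrallyClosed_iff_isIntegrallyClosedIn F).mp hBic
  have hBin' : IsIntegrallyClosedIn B.toSubring F := inferInstanceAs (IsIntegrallyClosedIn B F)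
  have hπB : (algebraMap R F π)⁻¹ ∈ B := by
    show _ ∈ {x | ∃ (a s : R) (_ : s ∈ Submonoid.powers π),
      x = algebraMap R F a * (algebraMap R F s)⁻¹}
    exact ⟨1, π, ⟨1, pow_one π⟩, by simp⟩
  have hWB : W ∈ B := by
    by_contra hWB
    obtain ⟨V, hV, hWV⟩ :=
      Subring.exists_le_valuationSubring_of_isIntegrallyClosedIn (R := B.toSubring) hWB
    exact hWV (hW2 V (fun r => hV (B.algebraMap_mem r)) (hV hπB))
  have hWB' : ∃ (a s : R) (_ : s ∈ Submonoid.powers π),
      W = algebraMap R F a * (algebraMap R F s)⁻¹ := hWB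
  obtain ⟨c, s, ⟨n, rfl⟩, hWc⟩ := hWB'
  obtain ⟨a, b, hb, hab⟩ := hW1
  have hπF : algebraMap R F (π ^ n) ≠ 0 := by
    simpa using (IsFractionRing.injective R F).ne (pow_ne_zero n hπ.ne_zero)
  have hcb : c * b = a * π ^ n := by
    apply IsFractionRing.injective R F
    rw [map_mul, map_mul, ← hab, hWc]
    field_simp
  have hdvd : π ^ n ∣ c := hπ.pow_dvd_of_dvd_mul_right n hb ⟨a, by rw [hcb]; ring⟩
  obtain ⟨c', rfl⟩ := hdvd
  refine ⟨c', ?_⟩
  rw [hWc, map_mul]
  field_simp

/-- (S3) **Unit criterion.**  `R` integrally closed domain, `π` prime.  If `W = a/b` with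
`π ∤ a`, `π ∤ b` and `W` is a unit of every valuation ring of the fraction field containing
`R[1/π]`, then `W` is (the image of) a unit of `R`. -/
theorem exists_unit_of_horizontal {π : R} (hπ : Prime π) (W : F)
    (hW1 : ∃ a b : R, ¬ π ∣ a ∧ ¬ π ∣ b ∧ W * algebraMap R F b = algebraMap R F a)
    (hW2 : ∀ V : ValuationSubring F, (∀ r : R, algebraMap R F r ∈ V) →
        (algebraMap R F π)⁻¹ ∈ V → V.valuation W = 1) :
    ∃ u : Rˣ, algebraMap R F u = W := by
  obtain ⟨a, b, ha, hb, hab⟩ := hW1
  have ha0 : a ≠ 0 := fun h => ha (h ▸ dvd_zero π)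
  have hb0 : b ≠ 0 := fun h => hb (h ▸ dvd_zero π)
  have haF : algebraMap R F a ≠ 0 := by simpa using (IsFractionRing.injective R F).ne ha0
  have hbF : algebraMap R F b ≠ 0 := by simpa using (IsFractionRing.injective R F).ne hb0
  have hW0 : W ≠ 0 := by
    rintro rfl
    rw [zero_mul] at hab
    exact haF hab.symm
  obtain ⟨c, hc⟩ := exists_algebraMap_eq_of_horizontal hπ W ⟨a, b, hb, hab⟩
    (fun V hV hπV => (V.valuation_le_one_iff W).mp (hW2 V hV hπV).le)
  obtain ⟨c', hc'⟩ := exists_algebraMap_eq_of_horizontal hπ W⁻¹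
    ⟨b, a, ha, by rw [← hab]; field_simp⟩
    (fun V hV hπV => (V.valuation_le_one_iff W⁻¹).mp (by rw [map_inv₀, hW2 V hV hπV, inv_one]))
  have hcc : c * c' = 1 := by
    apply IsFractionRing.injective R F
    rw [map_mul, hc, hc', map_one, mul_inv_cancel₀ hW0]
  exact ⟨⟨c, c', hcc, by rw [mul_comm]; exact hcc⟩, hc⟩

end UnitCriterion

section Producer

variable {R : Type*} [CommRing R] [IsDomain R] [IsIntegrallyClosed R]
variable {F : Type*} [Field F] [Algebra R F] [IsFractionRing R F]

omit [IsDomain R] [IsIntegrallyClosed R] [Algebra R F] [IsFractionRing R F] in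
theorem zpow_eq_pow_toNat_div (x : F) (d : ℤ) :
    x ^ d = x ^ d.toNat / x ^ (-d).toNat := by
  rcases le_total 0 d with h | h
  · have h0 : (-d).toNat = 0 := by omega
    rw [h0, pow_zero, div_one, ← zpow_natCast, Int.toNat_of_nonneg h]
  · have h0 : d.toNat = 0 := by omega
    have h1 : ((-d).toNat : ℤ) = -d := Int.toNat_of_nonneg (by omega)
    rw [h0, pow_zero, one_div, ← zpow_natCast, h1, zpow_neg, inv_inv]

/-- (S4) **Producer of the local Kummer hypothesis at a regular closed point.**
`t i` are local equations of the sections through the closed point, all congruent to `t0`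
modulo `π`; `D i` are the multiplicities, with total `0` on the residue class; `U` is a Gauss
unit whose divisor on the generic fibre of `Spec R` is `p • ∑ D i • (t i)`.  Then
`g := ∏ (t i) ^ (D i)` is congruent to `1` at the generic point of the special fibre and
`U = u * g ^ p` with `u` a unit of `R`. -/
theorem exists_unit_mul_pow {ι : Type*} (s : Finset ι) (t : ι → R) (D : ι → ℤ) (p : ℕ)
    {π t0 : R} (hπ : Prime π) (ht0 : ¬ π ∣ t0)
    (ht : ∀ i ∈ s, t i - t0 ∈ Ideal.span {π})
    (hsum : ∑ i ∈ s, D i = 0) (U : F)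
    (hU1 : ∃ a b : R, ¬ π ∣ a ∧ ¬ π ∣ b ∧ U * algebraMap R F b = algebraMap R F a)
    (hU2 : ∀ V : ValuationSubring F, (∀ r : R, algebraMap R F r ∈ V) →
        (algebraMap R F π)⁻¹ ∈ V →
        V.valuation (U * ∏ i ∈ s, algebraMap R F (t i) ^ (-(p : ℤ) * D i)) = 1) :
    ∃ (g : F) (u : Rˣ), g = ∏ i ∈ s, algebraMap R F (t i) ^ D i ∧
      (∃ m c : R, ¬ π ∣ m ∧ algebraMap R F m * (g - 1) = algebraMap R F (π * c)) ∧
      U = algebraMap R F u * g ^ p := by
  classical
  have hti : ∀ i ∈ s, ¬ π ∣ t i := by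
    intro i hi hdiv
    obtain ⟨c, hc⟩ := Ideal.mem_span_singleton.mp (ht i hi)
    obtain ⟨d, hd⟩ := hdiv
    exact ht0 ⟨d - c, by linear_combination hd - hc⟩
  have hne : ∀ i ∈ s, algebraMap R F (t i) ≠ 0 := by
    intro i hi
    have : t i ≠ 0 := fun h => hti i hi (h ▸ dvd_zero π)
    simpa using (IsFractionRing.injective R F).ne this
  set N : R := ∏ i ∈ s, t i ^ (D i).toNat with hNdef
  set M : R := ∏ i ∈ s, t i ^ (-D i).toNat with hMdef
  have hN : ¬ π ∣ N := by
    intro h
    obtain ⟨i, hi, hdiv⟩ := (hπ.dvd_finsetProd_iff _).mp h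
    exact hti i hi (hπ.dvd_of_dvd_pow hdiv)
  have hM : ¬ π ∣ M := by
    intro h
    obtain ⟨i, hi, hdiv⟩ := (hπ.dvd_finsetProd_iff _).mp h
    exact hti i hi (hπ.dvd_of_dvd_pow hdiv)
  have hN0 : algebraMap R F N ≠ 0 := by
    have : N ≠ 0 := fun h => hN (h ▸ dvd_zero π)
    simpa using (IsFractionRing.injective R F).ne this
  have hM0 : algebraMap R F M ≠ 0 := by
    have : M ≠ 0 := fun h => hM (h ▸ dvd_zero π)
    simpa using (IsFractionRing.injective R F).ne this
  have hexp : ∑ i ∈ s, (D i).toNat = ∑ i ∈ s, (-D i).toNat := by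
    have h : ((∑ i ∈ s, (D i).toNat : ℕ) : ℤ) = ((∑ i ∈ s, (-D i).toNat : ℕ) : ℤ) := by
      push_cast
      rw [← sub_eq_zero, ← Finset.sum_sub_distrib, ← hsum]
      apply Finset.sum_congr rfl
      intro i _
      omega
    exact_mod_cast h
  have hNM : N - M ∈ Ideal.span {π} := by
    rw [← Ideal.Quotient.eq, hNdef, hMdef, map_prod, map_prod]
    have h1 : ∀ i ∈ s, Ideal.Quotient.mk (Ideal.span {π}) (t i ^ (D i).toNat) =
        Ideal.Quotient.mk (Ideal.span {π}) t0 ^ (D i).toNat := by
      intro i hi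
      rw [map_pow, Ideal.Quotient.eq.mpr (ht i hi)]
    have h2 : ∀ i ∈ s, Ideal.Quotient.mk (Ideal.span {π}) (t i ^ (-D i).toNat) =
        Ideal.Quotient.mk (Ideal.span {π}) t0 ^ (-D i).toNat := by
      intro i hi
      rw [map_pow, Ideal.Quotient.eq.mpr (ht i hi)]
    rw [Finset.prod_congr rfl h1, Finset.prod_congr rfl h2, Finset.prod_pow_eq_pow_sum,
      Finset.prod_pow_eq_pow_sum, hexp]
  obtain ⟨c, hc⟩ := Ideal.mem_span_singleton.mp hNM
  set g : F := ∏ i ∈ s, algebraMap R F (t i) ^ D i with hgdef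
  have hg : g = algebraMap R F N / algebraMap R F M := by
    rw [hgdef, hNdef, hMdef, map_prod, map_prod, ← Finset.prod_div_distrib]
    apply Finset.prod_congr rfl
    intro i hi
    rw [map_pow, map_pow]
    exact zpow_eq_pow_toNat_div _ _
  have hg0 : g ≠ 0 := by
    rw [hg]; exact div_ne_zero hN0 hM0
  have hprod : ∏ i ∈ s, algebraMap R F (t i) ^ (-(p : ℤ) * D i) = (g ^ p)⁻¹ := by
    rw [hgdef, ← zpow_natCast, ← zpow_neg, ← Finset.prod_zpow]
    apply Finset.prod_congr rfl
    intro i _
    rw [← zpow_mul, mul_comm]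
  obtain ⟨a, b, ha, hb, hab⟩ := hU1
  have hW1 : ∃ a' b' : R, ¬ π ∣ a' ∧ ¬ π ∣ b' ∧
      (U * ∏ i ∈ s, algebraMap R F (t i) ^ (-(p : ℤ) * D i)) * algebraMap R F b' =
        algebraMap R F a' := by
    refine ⟨a * M ^ p, b * N ^ p, ?_, ?_, ?_⟩
    · intro h
      rcases hπ.dvd_or_dvd h with h | h
      · exact ha h
      · exact hM (hπ.dvd_of_dvd_pow h)
    · intro h
      rcases hπ.dvd_or_dvd h with h | h
      · exact hb h
      · exact hN (hπ.dvd_of_dvd_pow h)
    · rw [hprod, hg, div_pow, inv_div, map_mul, map_mul, map_pow, map_pow, ← hab]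
      field_simp
  obtain ⟨u, hu⟩ := exists_unit_of_horizontal hπ _ hW1 hU2
  refine ⟨g, u, rfl, ⟨M, c, hM, ?_⟩, ?_⟩
  · rw [hg, ← hc, map_sub]
    field_simp
  · rw [hu, hprod]
    field_simp

/-- (S4') The case of no section through the closed point: a Gauss unit without zeros or poles
on the generic fibre of `Spec R` is a unit of `R`. -/
theorem exists_unit_of_no_section {π : R} (hπ : Prime π) (U : F)
    (hU1 : ∃ a b : R, ¬ π ∣ a ∧ ¬ π ∣ b ∧ U * algebraMap R F b = algebraMap R F a)
    (hU2 : ∀ V : ValuationSubring F, (∀ r : R, algebraMap R F r ∈ V) →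
        (algebraMap R F π)⁻¹ ∈ V → V.valuation U = 1) :
    ∃ u : Rˣ, U = algebraMap R F u := by
  obtain ⟨u, hu⟩ := exists_unit_of_horizontal hπ U hU1 hU2
  exact ⟨u, hu.symm⟩

end Producer

/-! ### Discrete valuation rings of prime elements, and the DVR-only forms -/

section PrimeVal

variable {R : Type*} [CommRing R] [IsDomain R] [IsNoetherianRing R]
variable {F : Type*} [Field F] [Algebra R F] [IsFractionRing R F]

/-- The localisation of `R` at the prime element `f`, as a valuation subring of the fraction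
field: `{x | ∃ r s, f ∤ s ∧ x * s = r}`. -/
def primeVal (F : Type*) [Field F] [Algebra R F] [IsFractionRing R F] {f : R} (hf : Prime f) :
    ValuationSubring F where
  carrier := {x | ∃ r s : R, ¬ f ∣ s ∧ x * algebraMap R F s = algebraMap R F r}
  mul_mem' := by
    rintro x y ⟨r₁, s₁, h₁, e₁⟩ ⟨r₂, s₂, h₂, e₂⟩
    refine ⟨r₁ * r₂, s₁ * s₂, fun h => (hf.dvd_or_dvd h).elim h₁ h₂, ?_⟩
    rw [map_mul, map_mul, ← e₁, ← e₂]; ring
  one_mem' := ⟨1, 1, hf.not_dvd_one, by simp⟩
  add_mem' := by
    rintro x y ⟨r₁, s₁, h₁, e₁⟩ ⟨r₂, s₂, h₂, e₂⟩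
    refine ⟨r₁ * s₂ + r₂ * s₁, s₁ * s₂, fun h => (hf.dvd_or_dvd h).elim h₁ h₂, ?_⟩
    rw [map_add, map_mul, map_mul, map_mul, ← e₁, ← e₂]; ring
  zero_mem' := ⟨0, 1, hf.not_dvd_one, by simp⟩
  neg_mem' := by
    rintro x ⟨r, s, h, e⟩
    exact ⟨-r, s, h, by rw [map_neg, ← e]; ring⟩
  mem_or_inv_mem' := by
    intro x
    by_cases hx : x = 0
    · left
      exact ⟨0, 1, hf.not_dvd_one, by simp [hx]⟩
    obtain ⟨n, a, b, ha, hb, rfl⟩ :=
      exists_zpow_decomp (F := F) hf.not_isUnit hf.ne_zero x hx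
    have ha0 : algebraMap R F a ≠ 0 := by
      have : a ≠ 0 := fun h => ha (h ▸ dvd_zero f)
      simpa using (IsFractionRing.injective R F).ne this
    have hb0 : algebraMap R F b ≠ 0 := by
      have : b ≠ 0 := fun h => hb (h ▸ dvd_zero f)
      simpa using (IsFractionRing.injective R F).ne this
    have hf0 : algebraMap R F f ≠ 0 := by
      simpa using (IsFractionRing.injective R F).ne hf.ne_zero
    rcases le_total 0 n with hn | hn
    · left
      refine ⟨f ^ n.toNat * a, b, hb, ?_⟩
      rw [map_mul, map_pow, ← zpow_natCast, Int.toNat_of_nonneg hn]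
      field_simp
    · right
      refine ⟨f ^ (-n).toNat * b, a, ha, ?_⟩
      rw [map_mul, map_pow, ← zpow_natCast, Int.toNat_of_nonneg (by omega), zpow_neg, mul_inv,
        inv_div]
      field_simp

theorem mem_primeVal {f : R} (hf : Prime f) {x : F} :
    x ∈ primeVal F hf ↔ ∃ r s : R, ¬ f ∣ s ∧ x * algebraMap R F s = algebraMap R F r :=
  Iff.rfl

theorem algebraMap_mem_primeVal {f : R} (hf : Prime f) (r : R) :
    algebraMap R F r ∈ primeVal F hf :=
  ⟨r, 1, hf.not_dvd_one, by simp⟩

theorem inv_algebraMap_mem_primeVal {f : R} (hf : Prime f) {a : R} (ha : ¬ f ∣ a) :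
    (algebraMap R F a)⁻¹ ∈ primeVal F hf := by
  have ha0 : algebraMap R F a ≠ 0 := by
    have : a ≠ 0 := fun h => ha (h ▸ dvd_zero f)
    simpa using (IsFractionRing.injective R F).ne this
  exact ⟨1, a, ha, by rw [map_one, inv_mul_cancel₀ ha0]⟩

theorem inv_pow_notMem_primeVal {f : R} (hf : Prime f) {k : ℕ} (hk : k ≠ 0) :
    (algebraMap R F f ^ k)⁻¹ ∉ primeVal F hf := by
  rintro ⟨r, s, hs, e⟩
  have hf0 : algebraMap R F f ≠ 0 := by
    simpa using (IsFractionRing.injective R F).ne hf.ne_zero
  apply hs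
  have h1 : s = f ^ k * r := by
    apply IsFractionRing.injective R F
    rw [map_mul, map_pow, ← e]
    field_simp
  rw [h1]
  exact Dvd.dvd.mul_right (dvd_pow_self f hk) r

/-- Every nonzero element of `primeVal F hf` is `f ^ n` times a unit. -/
theorem exists_pow_mul_unit_of_mem_primeVal {f : R} (hf : Prime f) {x : F}
    (hx : x ∈ primeVal F hf) (hx0 : x ≠ 0) :
    ∃ (n : ℕ) (u : F), u ∈ primeVal F hf ∧ u⁻¹ ∈ primeVal F hf ∧ u ≠ 0 ∧
      x = algebraMap R F f ^ n * u := by
  obtain ⟨n, a, b, ha, hb, rfl⟩ :=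
    exists_zpow_decomp (F := F) hf.not_isUnit hf.ne_zero x hx0
  have ha0 : algebraMap R F a ≠ 0 := by
    have : a ≠ 0 := fun h => ha (h ▸ dvd_zero f)
    simpa using (IsFractionRing.injective R F).ne this
  have hb0 : algebraMap R F b ≠ 0 := by
    have : b ≠ 0 := fun h => hb (h ▸ dvd_zero f)
    simpa using (IsFractionRing.injective R F).ne this
  have hf0 : algebraMap R F f ≠ 0 := by
    simpa using (IsFractionRing.injective R F).ne hf.ne_zero
  have hu : algebraMap R F a / algebraMap R F b ∈ primeVal F hf :=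
    ⟨a, b, hb, by field_simp⟩
  have hu' : (algebraMap R F a / algebraMap R F b)⁻¹ ∈ primeVal F hf :=
    ⟨b, a, ha, by field_simp⟩
  have hn : 0 ≤ n := by
    by_contra hneg
    have hneg' : n < 0 := not_le.mp hneg
    have h1 : (algebraMap R F f ^ (-n).toNat)⁻¹ ∈ primeVal F hf := by
      have : (algebraMap R F f ^ (-n).toNat)⁻¹ =
          (algebraMap R F f ^ n * (algebraMap R F a / algebraMap R F b)) *
            (algebraMap R F a / algebraMap R F b)⁻¹ := by
        rw [← zpow_natCast, Int.toNat_of_nonneg (by omega), zpow_neg, inv_inv]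
        field_simp
      rw [this]
      exact (primeVal F hf).mul_mem _ _ hx hu'
    exact inv_pow_notMem_primeVal hf (by omega) h1
  refine ⟨n.toNat, _, hu, hu', div_ne_zero ha0 hb0, ?_⟩
  rw [← zpow_natCast, Int.toNat_of_nonneg hn]

/-- `primeVal F hf` is a discrete valuation ring. -/
theorem isDiscreteValuationRing_primeVal {f : R} (hf : Prime f) :
    IsDiscreteValuationRing (primeVal F hf) := by
  have hf0 : algebraMap R F f ≠ 0 := by
    simpa using (IsFractionRing.injective R F).ne hf.ne_zero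
  have hunit : ∀ (u : F) (hu : u ∈ primeVal F hf), u⁻¹ ∈ primeVal F hf → u ≠ 0 →
      IsUnit (⟨u, hu⟩ : primeVal F hf) := by
    intro u hu hu' hu0
    exact IsUnit.of_mul_eq_one (⟨u⁻¹, hu'⟩ : primeVal F hf)
      (Subtype.ext (mul_inv_cancel₀ hu0))
  apply IsDiscreteValuationRing.ofHasUnitMulPowIrreducibleFactorization
  refine ⟨⟨algebraMap R F f, algebraMap_mem_primeVal hf f⟩, ?_, ?_⟩
  · rw [irreducible_iff]
    constructor
    · intro hu
      obtain ⟨⟨y, hy⟩, hxy⟩ := isUnit_iff_exists_inv.mp hu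
      have h1 : algebraMap R F f * y = 1 := congrArg Subtype.val hxy
      have h2 : y = (algebraMap R F f ^ 1)⁻¹ := by
        rw [pow_one]; exact eq_inv_of_mul_eq_one_right h1
      exact inv_pow_notMem_primeVal hf one_ne_zero (h2 ▸ hy)
    · rintro ⟨a, ha⟩ ⟨b, hb⟩ hab
      have hab' : algebraMap R F f = a * b := congrArg Subtype.val hab
      have ha0 : a ≠ 0 := by rintro rfl; rw [zero_mul] at hab'; exact hf0 hab'
      have hb0 : b ≠ 0 := by rintro rfl; rw [mul_zero] at hab'; exact hf0 hab'
      obtain ⟨n, u, hu, hu', hu0, rfl⟩ := exists_pow_mul_unit_of_mem_primeVal hf ha ha0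
      obtain ⟨m, w, hw, hw', hw0, rfl⟩ := exists_pow_mul_unit_of_mem_primeVal hf hb hb0
      rcases Nat.eq_zero_or_pos n with hn | hn
      · left
        subst hn
        simp only [pow_zero, one_mul]
        exact hunit u hu hu' hu0
      rcases Nat.eq_zero_or_pos m with hm | hm
      · right
        subst hm
        simp only [pow_zero, one_mul]
        exact hunit w hw hw' hw0
      exfalso
      have h1 : (algebraMap R F f ^ (n + m - 1))⁻¹ = u * w := by
        have h2 : algebraMap R F f ^ (n + m - 1) * (u * w) = 1 := by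
          have e : algebraMap R F f ^ (n + m) =
              algebraMap R F f * algebraMap R F f ^ (n + m - 1) := by
            rw [← pow_succ', Nat.sub_add_cancel (by omega)]
          have h3 : algebraMap R F f * (algebraMap R F f ^ (n + m - 1) * (u * w)) =
              algebraMap R F f * 1 := by
            calc algebraMap R F f * (algebraMap R F f ^ (n + m - 1) * (u * w))
                = algebraMap R F f ^ (n + m) * (u * w) := by rw [e]; ring
              _ = algebraMap R F f ^ n * u * (algebraMap R F f ^ m * w) := by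
                  rw [pow_add]; ring
              _ = algebraMap R F f := hab'.symm
              _ = algebraMap R F f * 1 := (mul_one _).symm
          exact mul_left_cancel₀ hf0 h3
        exact (eq_inv_of_mul_eq_one_right h2).symm
      exact inv_pow_notMem_primeVal hf (by omega : n + m - 1 ≠ 0)
        (h1 ▸ (primeVal F hf).mul_mem _ _ hu hw)
  · rintro ⟨x, hx⟩ hx0
    have hx0' : x ≠ 0 := fun h => hx0 (Subtype.ext h)
    obtain ⟨n, u, hu, hu', hu0, rfl⟩ := exists_pow_mul_unit_of_mem_primeVal hf hx hx0'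
    refine ⟨n, (hunit u hu hu' hu0).unit, ?_⟩
    apply Subtype.ext
    simp

end PrimeVal

section DVRForms

variable {R : Type*} [CommRing R] [IsDomain R] [IsLocalRing R] [IsNoetherianRing R]
variable {F : Type*} [Field F] [Algebra R F] [IsFractionRing R F]

omit [IsDomain R] in
/-- Modulo `π`, every element not divisible by `π` is a unit times a power of `t0`
(`R/π` is a discrete valuation ring with uniformiser `t0`). -/
theorem exists_unit_mul_pow_add_of_not_dvd {π t0 : R}
    (hmax : maximalIdeal R = Ideal.span {π, t0}) {x : R} (hx : ¬ π ∣ x) :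
    ∃ (k : ℕ) (u c : R), IsUnit u ∧ x = u * t0 ^ k + π * c := by
  by_contra hcon
  have ht0m : t0 ∈ maximalIdeal R := by
    rw [hmax]; exact Ideal.subset_span (by simp)
  have key : ∀ k : ℕ, ∃ y : R, x - t0 ^ k * y ∈ Ideal.span {π} := by
    intro k
    induction k with
    | zero => exact ⟨x, by simp⟩
    | succ k ih =>
      obtain ⟨y, hy⟩ := ih
      obtain ⟨c, hc⟩ := Ideal.mem_span_singleton'.mp hy
      have hyn : ¬ IsUnit y := fun hu =>
        hcon ⟨k, y, c, hu, by linear_combination (-1 : R) * hc⟩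
      have hym : y ∈ maximalIdeal R := (IsLocalRing.mem_maximalIdeal y).mpr hyn
      rw [hmax] at hym
      obtain ⟨a, b, hab⟩ := Ideal.mem_span_pair.mp hym
      refine ⟨b, Ideal.mem_span_singleton'.mpr ⟨c + t0 ^ k * a, ?_⟩⟩
      linear_combination hc + t0 ^ k * hab
  exact hx (Ideal.mem_span_singleton.mp (mem_span_of_forall_pow ht0m key))

omit [IsDomain R] in
/-- **Horizontal primes are principal**: a nonzero prime of `R` not containing `π` is
generated by one element, when `maximalIdeal R = span {π, t0}`. -/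
theorem exists_generator_of_horizontal_prime {π t0 : R}
    (hmax : maximalIdeal R = Ideal.span {π, t0})
    (Q : Ideal R) [hQp : Q.IsPrime] (hπQ : π ∉ Q) (hQ : Q ≠ ⊥) :
    ∃ f : R, Q = Ideal.span {f} := by
  classical
  have hπm : π ∈ maximalIdeal R := by
    rw [hmax]; exact Ideal.subset_span (by simp)
  have hB : ∃ x ∈ Q, ¬ π ∣ x := by
    by_contra hcon
    apply hQ
    rw [eq_bot_iff]
    intro x hx
    have h1 : ∀ n : ℕ, ∃ y ∈ Q, x = π ^ n * y := by
      intro n
      induction n with
      | zero => exact ⟨x, hx, by simp⟩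
      | succ n ih =>
        obtain ⟨y, hyQ, hy⟩ := ih
        have hdy : π ∣ y := by
          by_contra hnd
          exact hcon ⟨y, hyQ, hnd⟩
        obtain ⟨z, hz⟩ := hdy
        have hzQ : z ∈ Q := (hQp.mem_or_mem (hz ▸ hyQ)).resolve_left hπQ
        exact ⟨z, hzQ, by rw [hy, hz]; ring⟩
    have h2 : x ∈ Ideal.span {(0 : R)} := by
      apply mem_span_of_forall_pow hπm
      intro n
      obtain ⟨y, _, hy⟩ := h1 n
      exact ⟨y, by rw [hy]; simp⟩
    simpa using h2
  have hS : ∃ k : ℕ, ∃ x ∈ Q, ∃ u c : R, IsUnit u ∧ x = u * t0 ^ k + π * c := by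
    obtain ⟨x, hxQ, hx⟩ := hB
    obtain ⟨k, u, c, hu, hxe⟩ := exists_unit_mul_pow_add_of_not_dvd hmax hx
    exact ⟨k, x, hxQ, u, c, hu, hxe⟩
  obtain ⟨x0, hx0Q, u0, c0, hu0, hx0⟩ := Nat.find_spec hS
  obtain ⟨w0, hw0⟩ := hu0.exists_left_inv
  have hfQ : w0 * x0 ∈ Q := Q.mul_mem_left _ hx0Q
  have hf : w0 * x0 = t0 ^ Nat.find hS + π * (w0 * c0) := by
    rw [hx0]
    linear_combination t0 ^ Nat.find hS * hw0
  refine ⟨w0 * x0, le_antisymm ?_ ((Ideal.span_singleton_le_iff_mem Q).mpr hfQ)⟩
  have hstep : ∀ y ∈ Q, ∃ g : R, ∃ y' ∈ Q, y = g * (w0 * x0) + π * y' := by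
    intro y hyQ
    by_cases hdy : π ∣ y
    · obtain ⟨z, hz⟩ := hdy
      exact ⟨0, z, (hQp.mem_or_mem (hz ▸ hyQ)).resolve_left hπQ, by rw [hz]; ring⟩
    · obtain ⟨k, u, c, hu, hye⟩ := exists_unit_mul_pow_add_of_not_dvd hmax hdy
      have hnk : Nat.find hS ≤ k := Nat.find_min' hS ⟨y, hyQ, u, c, hu, hye⟩
      have hpow : t0 ^ k = t0 ^ (k - Nat.find hS) * t0 ^ Nat.find hS := by
        rw [← pow_add, Nat.sub_add_cancel hnk]
      have hy' : y = (u * t0 ^ (k - Nat.find hS)) * (w0 * x0) +
          π * (c - u * t0 ^ (k - Nat.find hS) * (w0 * c0)) := by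
        rw [hf, hye, hpow]; ring
      have hπy' : π * (c - u * t0 ^ (k - Nat.find hS) * (w0 * c0)) ∈ Q := by
        have e : π * (c - u * t0 ^ (k - Nat.find hS) * (w0 * c0)) =
            y - (u * t0 ^ (k - Nat.find hS)) * (w0 * x0) := by
          linear_combination (-1 : R) * hy'
        rw [e]
        exact Q.sub_mem hyQ (Q.mul_mem_left _ hfQ)
      exact ⟨u * t0 ^ (k - Nat.find hS), _, (hQp.mem_or_mem hπy').resolve_left hπQ, hy'⟩
  intro y hyQ
  apply mem_span_of_forall_pow hπm
  have hall : ∀ j : ℕ, ∃ z ∈ Q, y - π ^ j * z ∈ Ideal.span {w0 * x0} := by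
    intro j
    induction j with
    | zero => exact ⟨y, hyQ, by simp⟩
    | succ j ih =>
      obtain ⟨z, hzQ, hz⟩ := ih
      obtain ⟨g, z', hz'Q, hzz⟩ := hstep z hzQ
      refine ⟨z', hz'Q, ?_⟩
      have e : y - π ^ (j + 1) * z' = (y - π ^ j * z) + (π ^ j * g) * (w0 * x0) := by
        rw [hzz]; ring
      rw [e]
      exact Ideal.add_mem _ hz (Ideal.mul_mem_left _ _ (Ideal.mem_span_singleton_self _))
  intro j
  obtain ⟨z, _, hz⟩ := hall j
  exact ⟨z, hz⟩

/-- **Reduction to discrete valuation rings.**  If `W ≠ 0` is a unit of every DISCRETE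
valuation ring of the fraction field containing `R[1/π]`, then it is a unit of every
valuation ring containing `R[1/π]`. -/
theorem valuation_eq_one_of_forall_dvr {π t0 : R}
    (hmax : maximalIdeal R = Ideal.span {π, t0}) (hπ0 : π ≠ 0) (W : F) (hW0 : W ≠ 0)
    (h : ∀ V : ValuationSubring F, IsDiscreteValuationRing V →
      (∀ r : R, algebraMap R F r ∈ V) → (algebraMap R F π)⁻¹ ∈ V → V.valuation W = 1) :
    ∀ V : ValuationSubring F, (∀ r : R, algebraMap R F r ∈ V) →
      (algebraMap R F π)⁻¹ ∈ V → V.valuation W = 1 := by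
  intro V hRV hπV
  have hval1 : ∀ r : R, r ∉ centre V hRV → V.valuation (algebraMap R F r) = 1 := by
    intro r hr
    exact le_antisymm ((V.valuation_le_one_iff _).mpr (hRV r))
      (not_lt.mp fun hlt => hr (mem_centre.mpr hlt))
  have hπc : π ∉ centre V hRV := by
    intro hmem
    have h1 : V.valuation (algebraMap R F π) < 1 := mem_centre.mp hmem
    have h2 : V.valuation (algebraMap R F π)⁻¹ ≤ 1 := (V.valuation_le_one_iff _).mpr hπV
    have hπF : algebraMap R F π ≠ 0 := by
      simpa using (IsFractionRing.injective R F).ne hπ0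
    have h3 : V.valuation (algebraMap R F π * (algebraMap R F π)⁻¹) < 1 := by
      rw [map_mul]
      calc V.valuation (algebraMap R F π) * V.valuation (algebraMap R F π)⁻¹
          ≤ V.valuation (algebraMap R F π) * 1 := mul_le_mul' le_rfl h2
        _ = V.valuation (algebraMap R F π) := mul_one _
        _ < 1 := h1
    rw [mul_inv_cancel₀ hπF, map_one] at h3
    exact lt_irrefl _ h3
  have hprime := centre_isPrime V hRV
  by_cases hbot : centre V hRV = ⊥
  · -- the trivial valuation on the image of `R`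
    obtain ⟨a, b, hb, rfl⟩ := IsFractionRing.div_surjective (A := R) W
    have hb0 : b ≠ 0 := nonZeroDivisors.ne_zero hb
    have ha0 : a ≠ 0 := by
      rintro rfl
      simp at hW0
    have ha : a ∉ centre V hRV := by rw [hbot]; simpa using ha0
    have hb' : b ∉ centre V hRV := by rw [hbot]; simpa using hb0
    rw [map_div₀, hval1 a ha, hval1 b hb', div_one]
  · obtain ⟨f, hf⟩ := exists_generator_of_horizontal_prime hmax (centre V hRV) hπc hbot
    have hf0 : f ≠ 0 := by
      rintro rfl
      apply hbot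
      rw [hf]; simp
    have hfp : Prime f := (Ideal.span_singleton_prime hf0).mp (hf ▸ hprime)
    have hπf : ¬ f ∣ π := by
      intro hd
      exact hπc (by rw [hf]; exact Ideal.mem_span_singleton.mpr hd)
    have hW' := h (primeVal F hfp) (isDiscreteValuationRing_primeVal hfp)
      (algebraMap_mem_primeVal hfp) (inv_algebraMap_mem_primeVal hfp hπf)
    have hle : ∀ x : F, x ∈ primeVal F hfp → x ∈ V := by
      rintro x ⟨r, s, hs, e⟩
      have hsc : s ∉ centre V hRV := by
        rw [hf]; exact fun hmem => hs (Ideal.mem_span_singleton.mp hmem)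
      have hs1 := hval1 s hsc
      rw [← V.valuation_le_one_iff]
      have : V.valuation x = V.valuation (algebraMap R F r) := by
        rw [← e, map_mul, hs1, mul_one]
      rw [this]
      exact (V.valuation_le_one_iff _).mpr (hRV r)
    have hWV : W ∈ V := hle W ((ValuationSubring.valuation_le_one_iff _ W).mp hW'.le)
    have hWV' : W⁻¹ ∈ V := hle W⁻¹ ((ValuationSubring.valuation_le_one_iff _ W⁻¹).mp
      (by rw [map_inv₀, hW', inv_one]))
    have h1 : V.valuation W ≤ 1 := (V.valuation_le_one_iff W).mpr hWV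
    have h2 : V.valuation W⁻¹ ≤ 1 := (V.valuation_le_one_iff W⁻¹).mpr hWV'
    have hv0 : V.valuation W ≠ 0 := (V.valuation.ne_zero_iff).mpr hW0
    refine le_antisymm h1 ?_
    rw [map_inv₀] at h2
    exact (inv_le_one₀ (zero_lt_iff.mpr hv0)).mp h2

/-- (S3') **Unit criterion, DVR form.**  `R` noetherian local integrally closed domain with
`maximalIdeal R = span {π, t0}`, `π` prime.  If `W = a/b` with `π ∤ a, b` and `W` is a unit of
every discrete valuation ring `V ⊇ R` of the fraction field in which `π` is a unit, then `W`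
is a unit of `R`. -/
theorem exists_unit_of_dvr_horizontal [IsIntegrallyClosed R] {π t0 : R}
    (hmax : maximalIdeal R = Ideal.span {π, t0}) (hπ : Prime π) (W : F)
    (hW1 : ∃ a b : R, ¬ π ∣ a ∧ ¬ π ∣ b ∧ W * algebraMap R F b = algebraMap R F a)
    (hW2 : ∀ V : ValuationSubring F, IsDiscreteValuationRing V →
      (∀ r : R, algebraMap R F r ∈ V) → (algebraMap R F π)⁻¹ ∈ V → V.valuation W = 1) :
    ∃ u : Rˣ, algebraMap R F u = W := by
  have hW0 : W ≠ 0 := by
    obtain ⟨a, b, ha, -, hab⟩ := hW1
    rintro rfl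
    rw [zero_mul] at hab
    have ha0 : a ≠ 0 := fun h => ha (h ▸ dvd_zero π)
    exact ha0 ((IsFractionRing.injective R F) (by rw [← hab, map_zero]))
  exact exists_unit_of_horizontal hπ W hW1
    (valuation_eq_one_of_forall_dvr hmax hπ.ne_zero W hW0 hW2)

/-- (S4') **Producer of the local Kummer hypothesis, DVR form**: as `exists_unit_mul_pow`,
with the divisor hypothesis required only at the discrete valuation rings `V ⊇ R[1/π]`
(the places of the function field centred at the closed point). -/
theorem exists_unit_mul_pow_dvr [IsIntegrallyClosed R] {ι : Type*} (s : Finset ι) (t : ι → R)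
    (D : ι → ℤ) (p : ℕ) {π t0 : R} (hmax : maximalIdeal R = Ideal.span {π, t0})
    (hπ : Prime π) (ht0 : ¬ π ∣ t0)
    (ht : ∀ i ∈ s, t i - t0 ∈ Ideal.span {π})
    (hsum : ∑ i ∈ s, D i = 0) (U : F)
    (hU1 : ∃ a b : R, ¬ π ∣ a ∧ ¬ π ∣ b ∧ U * algebraMap R F b = algebraMap R F a)
    (hU2 : ∀ V : ValuationSubring F, IsDiscreteValuationRing V →
        (∀ r : R, algebraMap R F r ∈ V) → (algebraMap R F π)⁻¹ ∈ V →
        V.valuation (U * ∏ i ∈ s, algebraMap R F (t i) ^ (-(p : ℤ) * D i)) = 1) :
    ∃ (g : F) (u : Rˣ), g = ∏ i ∈ s, algebraMap R F (t i) ^ D i ∧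
      (∃ m c : R, ¬ π ∣ m ∧ algebraMap R F m * (g - 1) = algebraMap R F (π * c)) ∧
      U = algebraMap R F u * g ^ p := by
  have hU0 : U ≠ 0 := by
    obtain ⟨a, b, ha, -, hab⟩ := hU1
    rintro rfl
    rw [zero_mul] at hab
    have ha0 : a ≠ 0 := fun h => ha (h ▸ dvd_zero π)
    exact ha0 ((IsFractionRing.injective R F) (by rw [← hab, map_zero]))
  have hne : ∀ i ∈ s, algebraMap R F (t i) ≠ 0 := by
    intro i hi
    have hti : ¬ π ∣ t i := by
      intro hdiv
      obtain ⟨c, hc⟩ := Ideal.mem_span_singleton.mp (ht i hi)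
      obtain ⟨d, hd⟩ := hdiv
      exact ht0 ⟨d - c, by linear_combination hd - hc⟩
    have : t i ≠ 0 := fun h => hti (h ▸ dvd_zero π)
    simpa using (IsFractionRing.injective R F).ne this
  have hW0 : U * ∏ i ∈ s, algebraMap R F (t i) ^ (-(p : ℤ) * D i) ≠ 0 := by
    refine mul_ne_zero hU0 (Finset.prod_ne_zero_iff.mpr fun i hi => ?_)
    exact zpow_ne_zero _ (hne i hi)
  exact exists_unit_mul_pow s t D p hπ ht0 ht hsum U hU1
    (valuation_eq_one_of_forall_dvr hmax hπ.ne_zero _ hW0 hU2)

end DVRForms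

end Fermat.Agent.S37.helper9790
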