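/-
S37, leaf KRON-FF (backup copy, helper9793): the Atkin–Lehner swap at a prime `ℓ ∤ N`.

For `ℓ` prime, `ℓ ∤ N`, `F_M = modularFunctionFieldBar M = ℚ̄(j(q^d) : d ∣ M)`:

* `swapBar hℓ hℓN : F_{Nℓ} ≃ₐ[ℚ̄] F_{Nℓ}` with `j(q^d) ↦ j(q^{ℓd})`, `j(q^{ℓd}) ↦ j(q^d)` (`d ∣ N`);
* `swapBar_heckeAlphaBar : swapBar (α h) = β h`, `swapBar_heckeBetaBar : swapBar (β h) = α h`
  (`α = heckeAlphaBar`, the inclusion; `β = heckeBetaBar`, `q ↦ q^ℓ`);
* `swapEmb hℓ hℓN : F_{Nℓ} →ₐ[ℚ̄] ℚ̄((q))` with `swapEmb (α h) = h(q^{ℓ²})`,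
  `swapEmb (β h) = h(q^ℓ)`: the `(ℓ+1)`-st embedding of `F_{Nℓ}` over `β(F_N)`.

Proof: analytic dictionary of S24 (`HasQExp`) and the substitution `τ ↦ W τ`,
`W = [[ℓx, y], [Nℓ, ℓ]]`, `ℓx - Ny = 1`, under which `j(d·Wτ) = j(ℓdτ)`, `j(ℓd·Wτ) = j(dτ)`.
-/
import Fermat.Agent.S24.helper3176_Dictionary
import Fermat.Agent.S24.helper3176_FieldAlg
import Fermat.Prelude.Def_ModularCurve_HeckeOperator

set_option autoImplicit false

open ModularCurve UpperHalfPlane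
open scoped MatrixGroups

namespace Fermat.Agent.S37.helper9793

noncomputable section

open Fermat.Agent.S24 Fermat.Agent.S24.helper24 Fermat.Agent.S24.helper3176

/-! ## Part A: polynomial relations between convergent series -/

/-- Evaluation of a polynomial in functions with `q`-expansions. -/
theorem hasQExp_eval {ι : Type*} {h : ℝ} (f : ι → ℍ → ℂ) (E : ι → LaurentSeries ℂ)
    (hfE : ∀ i, HasQExp h (f i) (E i)) (P : MvPolynomial ι ℂ) :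
    HasQExp h (fun τ => MvPolynomial.eval (fun i => f i τ) P) (MvPolynomial.aeval E P) := by
  induction P using MvPolynomial.induction_on with
  | C c =>
      have h1 : MvPolynomial.aeval E (MvPolynomial.C c : MvPolynomial ι ℂ) = HahnSeries.C c := by
        rw [MvPolynomial.aeval_C, algebraMap_laurentSeries_eq_single]
        rfl
      rw [h1]
      exact (hasQExp_const h c).congr_left fun τ => by simp
  | add p q hp hq =>
      rw [map_add]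
      exact (hp.add hq).congr_left fun τ => by simp
  | mul_X p i hp =>
      rw [map_mul, MvPolynomial.aeval_X]
      exact (hp.mul (hfE i)).congr_left fun τ => by simp

/-- Transfer of polynomial relations along a substitution `T` of the upper half plane. -/
theorem aeval_eq_zero_transfer {ι : Type*} (f f' : ι → ℍ → ℂ) (E E' : ι → LaurentSeries ℂ)
    (hfE : ∀ i, HasQExp 1 (f i) (E i)) (hfE' : ∀ i, HasQExp 1 (f' i) (E' i))
    (T : ℍ → ℍ) (hT : ∀ i τ, f i (T τ) = f' i τ) (P : MvPolynomial ι ℂ)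
    (hP : MvPolynomial.aeval E P = 0) : MvPolynomial.aeval E' P = 0 := by
  have h1 := hasQExp_eval f E hfE P
  rw [hP] at h1
  have h2 := h1.eq_zero_of_series_eq_zero
  have h3 := hasQExp_eval f' E' hfE' P
  have h4 : (fun τ => MvPolynomial.eval (fun i => f' i τ) P) = 0 := by
    funext τ
    have h5 := congrFun h2 (T τ)
    simp only [hT] at h5
    exact h5
  rw [h4] at h3
  exact h3.series_eq_zero one_pos

/-! ## Part B: the Möbius substitution -/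

/-- An element of `SL(2, ℤ)` given by its entries. -/
def mkSL (a b c e : ℤ) (h : a * e - b * c = 1) : SL(2, ℤ) :=
  ⟨!![a, b; c, e], by rw [Matrix.det_fin_two_of]; exact h⟩

theorem coe_mkSL_smul (a b c e : ℤ) (h : a * e - b * c = 1) (τ : ℍ) :
    ((mkSL a b c e h • τ : ℍ) : ℂ) = ((a : ℂ) * τ + b) / ((c : ℂ) * τ + e) := by
  rw [coe_specialLinearGroup_apply]
  simp [mkSL]

/-- The point `d τ` of the upper half plane. -/
def scaleH (d : ℕ) (τ : ℍ) : ℍ := ofComplex ((d : ℂ) * (τ : ℂ))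

theorem coe_scaleH (d : ℕ) [NeZero d] (τ : ℍ) : ((scaleH d τ : ℍ) : ℂ) = (d : ℂ) * (τ : ℂ) :=
  coe_ofComplex_natCast_mul d τ

theorem lin_ne_zero (c : ℕ) (hc : c ≠ 0) (τ : ℍ) : (c : ℂ) * (τ : ℂ) + 1 ≠ 0 := by
  intro h
  have h1 := congrArg Complex.im h
  simp at h1
  rcases h1 with h1 | h1
  · exact hc h1
  · exact τ.im_ne_zero h1

/-- The analytic function `τ ↦ j(e τ)`. -/
def jFunD (e : ℕ) (τ : ℍ) : ℂ := helper1644.jFun (scaleH e τ)

section Moebius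

variable (N ℓ : ℕ) [NeZero N] [NeZero ℓ] (x y : ℤ) (hxy : (x : ℤ) * ℓ - y * N = 1)

/-- The substitution `τ ↦ W τ`, `W = [[ℓx, y], [Nℓ, ℓ]]`. -/
def swapPt (τ : ℍ) : ℍ := mkSL x y N ℓ hxy • scaleH ℓ τ

omit [NeZero N] in
theorem coe_swapPt (τ : ℍ) :
    ((swapPt N ℓ x y hxy τ : ℍ) : ℂ)
      = ((x : ℂ) * ((ℓ : ℂ) * τ) + y) / ((ℓ : ℂ) * ((N : ℂ) * τ + 1)) := by
  rw [swapPt, coe_mkSL_smul, coe_scaleH]
  push_cast
  congr 1
  ring

theorem jFunD_swapPt_of_dvd (d d' : ℕ) [NeZero d] (hd : N = d * d') (τ : ℍ) :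
    jFunD d (swapPt N ℓ x y hxy τ) = jFunD (ℓ * d) τ := by
  have hd'0 : d' ≠ 0 := by
    rintro rfl
    exact NeZero.ne N (by rw [hd, mul_zero])
  have : NeZero (ℓ * d) := ⟨Nat.mul_ne_zero (NeZero.ne ℓ) (NeZero.ne d)⟩
  have hdet : (x : ℤ) * ℓ - (d * y) * d' = 1 := by
    have h := hxy
    rw [hd] at h
    push_cast at h
    linear_combination h
  have key : scaleH d (swapPt N ℓ x y hxy τ) = mkSL x (d * y) d' ℓ hdet • scaleH (ℓ * d) τ := by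
    apply UpperHalfPlane.ext
    rw [coe_scaleH, coe_swapPt, coe_mkSL_smul, coe_scaleH]
    have h1 := lin_ne_zero N (NeZero.ne N) τ
    have hℓ : (ℓ : ℂ) ≠ 0 := by exact_mod_cast NeZero.ne ℓ
    have h2 : ((d' : ℤ) : ℂ) * (((ℓ * d : ℕ) : ℂ) * (τ : ℂ)) + ((ℓ : ℤ) : ℂ)
        = (ℓ : ℂ) * ((N : ℂ) * τ + 1) := by
      rw [hd]; push_cast; ring
    rw [h2]
    push_cast
    field_simp
  rw [jFunD, key, helper1644.jFun_smul, jFunD]

theorem jFunD_swapPt_of_mul (d d' : ℕ) [NeZero d] (hd : N = d * d') (τ : ℍ) :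
    jFunD (ℓ * d) (swapPt N ℓ x y hxy τ) = jFunD d τ := by
  have hd'0 : d' ≠ 0 := by
    rintro rfl
    exact NeZero.ne N (by rw [hd, mul_zero])
  have : NeZero (ℓ * d) := ⟨Nat.mul_ne_zero (NeZero.ne ℓ) (NeZero.ne d)⟩
  have hdet : ((ℓ : ℤ) * x) * 1 - (d * y) * d' = 1 := by
    have h := hxy
    rw [hd] at h
    push_cast at h
    linear_combination h
  have key : scaleH (ℓ * d) (swapPt N ℓ x y hxy τ)
      = mkSL (ℓ * x) (d * y) d' 1 hdet • scaleH d τ := by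
    apply UpperHalfPlane.ext
    rw [coe_scaleH, coe_swapPt, coe_mkSL_smul, coe_scaleH]
    have h1 := lin_ne_zero N (NeZero.ne N) τ
    have hℓ : (ℓ : ℂ) ≠ 0 := by exact_mod_cast NeZero.ne ℓ
    have h2 : ((d' : ℤ) : ℂ) * ((d : ℂ) * (τ : ℂ)) + ((1 : ℤ) : ℂ) = (N : ℂ) * τ + 1 := by
      rw [hd]; push_cast; ring
    rw [h2]
    push_cast
    field_simp
  rw [jFunD, key, helper1644.jFun_smul, jFunD]

end Moebius

/-! ## Part C: the swap of indices and the series `j(q^e)` -/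

/-- The swap `d ↔ ℓ d` on the divisors of `N ℓ`. -/
def swapIdx (ℓ e : ℕ) : ℕ := if ℓ ∣ e then e / ℓ else ℓ * e

theorem swapIdx_of_not_dvd {ℓ e : ℕ} (h : ¬ ℓ ∣ e) : swapIdx ℓ e = ℓ * e := if_neg h

theorem swapIdx_mul {ℓ : ℕ} (hℓ : 0 < ℓ) (d : ℕ) : swapIdx ℓ (ℓ * d) = d := by
  rw [swapIdx, if_pos (dvd_mul_right ℓ d), Nat.mul_div_cancel_left d hℓ]

theorem dvd_of_dvd_mul_prime {N ℓ e : ℕ} (hℓ : ℓ.Prime) (he : e ∣ N * ℓ) (h : ¬ ℓ ∣ e) :
    e ∣ N :=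
  Nat.Coprime.dvd_of_dvd_mul_right ((Nat.Prime.coprime_iff_not_dvd hℓ).mpr h).symm he

theorem swapIdx_dvd {N ℓ e : ℕ} (hℓ : ℓ.Prime) (he : e ∣ N * ℓ) : swapIdx ℓ e ∣ N * ℓ := by
  by_cases h : ℓ ∣ e
  · obtain ⟨d, rfl⟩ := h
    rw [swapIdx_mul hℓ.pos]
    exact (dvd_mul_left d ℓ).trans he
  · rw [swapIdx_of_not_dvd h, mul_comm N ℓ]
    exact Nat.mul_dvd_mul_left ℓ (dvd_of_dvd_mul_prime hℓ he h)

theorem swapIdx_swapIdx {N ℓ e : ℕ} (hℓ : ℓ.Prime) (hℓN : ¬ ℓ ∣ N) (he : e ∣ N * ℓ) :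
    swapIdx ℓ (swapIdx ℓ e) = e := by
  by_cases h : ℓ ∣ e
  · obtain ⟨d, rfl⟩ := h
    rw [swapIdx_mul hℓ.pos]
    have hd : d ∣ N := by
      rw [mul_comm N ℓ] at he
      exact (Nat.mul_dvd_mul_iff_left hℓ.pos).mp he
    exact swapIdx_of_not_dvd fun h' => hℓN (h'.trans hd)
  · rw [swapIdx_of_not_dvd h, swapIdx_mul hℓ.pos]

/-- The series `j(q^e)` with coefficients in `L` (junk value `0` for `e = 0`). -/
def jSer (L : Type*) [Field L] [Algebra ℚ L] (e : ℕ) : LaurentSeries L :=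
  if h : e = 0 then 0 else haveI : NeZero e := ⟨h⟩; coeffEmb L (qExpand ℚ e jq)

theorem jSer_eq (L : Type*) [Field L] [Algebra ℚ L] (e : ℕ) [NeZero e] :
    jSer L e = coeffEmb L (qExpand ℚ e jq) := by
  unfold jSer
  rw [dif_neg (NeZero.ne e)]

theorem jSer_eq_jSeries (e : ℕ) [NeZero e] : jSer Kbar e = jSeries e := jSer_eq Kbar e

theorem hasQExp_jFunD (e : ℕ) (he : e ≠ 0) : HasQExp 1 (jFunD e) (jSer ℂ e) := by
  have : NeZero e := ⟨he⟩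
  rw [jSer_eq, coeffEmb_qExpand]
  exact hasQExp_jFun_scale e

theorem coeffMap_jSer {L : Type*} [Field L] [Algebra ℚ L] (φ : L →+* ℂ) (e : ℕ) :
    coeffMap φ (jSer L e) = jSer ℂ e := by
  by_cases he : e = 0
  · subst he
    simp [jSer]
  · have : NeZero e := ⟨he⟩
    rw [jSer_eq, jSer_eq, coeffEmb, coeffEmb, coeffMap_coeffMap]
    exact coeffMap_congr (Subsingleton.elim _ _) _

/-- The analytic core: a polynomial relation between the series `j(q^e)`, `e ∣ N ℓ`, with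
complex coefficients is preserved by the swap `d ↔ ℓ d`. -/
theorem aeval_jSer_swap_complex (N ℓ : ℕ) [NeZero N] (hℓ : ℓ.Prime) (hℓN : ¬ ℓ ∣ N)
    {ι : Type*} (idx : ι → ℕ) (hidx : ∀ i, idx i ∣ N * ℓ) (P : MvPolynomial ι ℂ)
    (hP : MvPolynomial.aeval (fun i => jSer ℂ (idx i)) P = 0) :
    MvPolynomial.aeval (fun i => jSer ℂ (swapIdx ℓ (idx i))) P = 0 := by
  have : NeZero ℓ := ⟨hℓ.ne_zero⟩
  have hNℓ : N * ℓ ≠ 0 := Nat.mul_ne_zero (NeZero.ne N) hℓ.ne_zero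
  have hcop : Nat.Coprime ℓ N := (Nat.Prime.coprime_iff_not_dvd hℓ).mpr hℓN
  -- Bezout: `x ℓ - y N = 1`
  obtain ⟨x, y, hxy⟩ : ∃ x y : ℤ, x * ℓ - y * N = 1 := by
    have h := Nat.gcd_eq_gcd_ab ℓ N
    rw [hcop] at h
    refine ⟨Nat.gcdA ℓ N, -Nat.gcdB ℓ N, ?_⟩
    push_cast at h
    linear_combination -h
  refine aeval_eq_zero_transfer (fun i => jFunD (idx i)) (fun i => jFunD (swapIdx ℓ (idx i)))
    _ _ (fun i => hasQExp_jFunD _ (ne_zero_of_dvd_ne_zero hNℓ (hidx i)))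
    (fun i => hasQExp_jFunD _ (ne_zero_of_dvd_ne_zero hNℓ (swapIdx_dvd hℓ (hidx i))))
    (swapPt N ℓ x y hxy) ?_ P hP
  intro i τ
  show jFunD (idx i) (swapPt N ℓ x y hxy τ) = jFunD (swapIdx ℓ (idx i)) τ
  by_cases h : ℓ ∣ idx i
  · obtain ⟨d, hd⟩ := h
    have hdN : d ∣ N := by
      have h1 := hidx i
      rw [hd, mul_comm N ℓ] at h1
      exact (Nat.mul_dvd_mul_iff_left hℓ.pos).mp h1
    obtain ⟨d', hd'⟩ := hdN
    have : NeZero d := ⟨by rintro rfl; exact NeZero.ne N (by rw [hd', zero_mul])⟩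
    rw [hd, swapIdx_mul hℓ.pos]
    exact jFunD_swapPt_of_mul N ℓ x y hxy d d' hd' τ
  · obtain ⟨d', hd'⟩ := dvd_of_dvd_mul_prime hℓ (hidx i) h
    have : NeZero (idx i) := ⟨by intro h0; exact NeZero.ne N (by rw [hd', h0, zero_mul])⟩
    rw [swapIdx_of_not_dvd h]
    exact jFunD_swapPt_of_dvd N ℓ x y hxy (idx i) d' hd' τ

theorem coeffMap_injective {L L' : Type*} [Field L] [Field L'] (φ : L →+* L') :
    Function.Injective (coeffMap φ) := by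
  intro a b hab
  ext k
  have h := congrArg (fun z => z.coeff k) hab
  simp only [coeffMap_coeff] at h
  exact φ.injective h

theorem coeffMap_aeval {L : Type*} [Field L] (φ : L →+* ℂ) {ι : Type*}
    (X : ι → LaurentSeries L) (P : MvPolynomial ι L) :
    coeffMap φ (MvPolynomial.aeval X P)
      = MvPolynomial.aeval (fun i => coeffMap φ (X i)) (MvPolynomial.map φ P) := by
  rw [MvPolynomial.map_aeval, MvPolynomial.aeval_def, MvPolynomial.eval₂_map]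
  have h : (coeffMap φ).comp (algebraMap L (LaurentSeries L))
      = (algebraMap ℂ (LaurentSeries ℂ)).comp φ := by
    ext c : 1
    show coeffMap φ (algebraMap L (LaurentSeries L) c) = algebraMap ℂ (LaurentSeries ℂ) (φ c)
    rw [algebraMap_laurentSeries_eq_single, algebraMap_laurentSeries_eq_single, coeffMap_single]
  rw [h]
  rfl

/-- The swap preserves polynomial relations between the `j(q^e)`, `e ∣ N ℓ`, over any field
`L` that embeds into `ℂ`. -/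
theorem aeval_jSer_swap {L : Type*} [Field L] [Algebra ℚ L] (φ : L →+* ℂ)
    (N ℓ : ℕ) [NeZero N] (hℓ : ℓ.Prime) (hℓN : ¬ ℓ ∣ N)
    {ι : Type*} (idx : ι → ℕ) (hidx : ∀ i, idx i ∣ N * ℓ) (P : MvPolynomial ι L)
    (hP : MvPolynomial.aeval (fun i => jSer L (idx i)) P = 0) :
    MvPolynomial.aeval (fun i => jSer L (swapIdx ℓ (idx i))) P = 0 := by
  apply coeffMap_injective φ
  rw [map_zero, coeffMap_aeval]
  have h1 := congrArg (coeffMap φ) hP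
  rw [map_zero, coeffMap_aeval] at h1
  simp only [coeffMap_jSer] at h1 ⊢
  exact aeval_jSer_swap_complex N ℓ hℓ hℓN idx hidx _ h1

/-! ## Part D: algebra homs from equality of kernels -/

/-- If two families satisfy the same polynomial relations, there is an injective algebra hom
between the generated algebras matching them. -/
theorem exists_algHom_of_ker_eq {L Ω Ω' ι : Type*} [Field L] [CommRing Ω] [Algebra L Ω]
    [CommRing Ω'] [Algebra L Ω'] (x : ι → Ω) (y : ι → Ω')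
    (h : ∀ P : MvPolynomial ι L, MvPolynomial.aeval x P = 0 ↔ MvPolynomial.aeval y P = 0) :
    ∃ g : Algebra.adjoin L (Set.range x) →ₐ[L] Ω', Function.Injective g ∧
      ∀ i, g ⟨x i, Algebra.subset_adjoin ⟨i, rfl⟩⟩ = y i := by
  have hA : ∀ P : MvPolynomial ι L,
      MvPolynomial.aeval x P ∈ Algebra.adjoin L (Set.range x) := fun P => by
    rw [Algebra.adjoin_range_eq_range_aeval]
    exact ⟨P, rfl⟩
  let p : MvPolynomial ι L →ₐ[L] Algebra.adjoin L (Set.range x) :=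
    (MvPolynomial.aeval x).codRestrict _ hA
  have hpval : ∀ P, ((p P : Algebra.adjoin L (Set.range x)) : Ω) = MvPolynomial.aeval x P :=
    fun P => rfl
  have hp : Function.Surjective p := by
    rintro ⟨a, ha⟩
    have ha' : a ∈ (MvPolynomial.aeval x : MvPolynomial ι L →ₐ[L] Ω).range := by
      rw [← Algebra.adjoin_range_eq_range_aeval]
      exact ha
    obtain ⟨P, rfl⟩ := ha'
    exact ⟨P, Subtype.ext rfl⟩
  have hker : ∀ P, p P = 0 ↔ MvPolynomial.aeval x P = 0 := fun P => by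
    constructor
    · intro h0
      rw [← hpval, h0]
      rfl
    · intro h0
      exact Subtype.ext ((hpval P).trans h0)
  have H : RingHom.ker p.toRingHom ≤ RingHom.ker (MvPolynomial.aeval y : MvPolynomial ι L →ₐ[L] Ω').toRingHom := by
    intro P hP
    rw [RingHom.mem_ker] at hP ⊢
    exact (h P).mp ((hker P).mp hP)
  refine ⟨AlgHom.liftOfSurjective p hp (MvPolynomial.aeval y) H, ?_, ?_⟩
  · rw [injective_iff_map_eq_zero]
    intro a ha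
    obtain ⟨P, rfl⟩ := hp a
    rw [AlgHom.liftOfSurjective_apply] at ha
    exact (hker P).mpr ((h P).mpr ha)
  · intro i
    have h1 : (⟨x i, Algebra.subset_adjoin ⟨i, rfl⟩⟩ : Algebra.adjoin L (Set.range x))
        = p (MvPolynomial.X i) := by
      apply Subtype.ext
      rw [hpval, MvPolynomial.aeval_X]
    rw [h1, AlgHom.liftOfSurjective_apply, MvPolynomial.aeval_X]

/-! ## Part E: the swap automorphism of `F_{Nℓ}` -/

theorem jSer_mem {M e : ℕ} (hM : M ≠ 0) (he : e ∣ M) : jSer Kbar e ∈ modularFunctionFieldBar M := by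
  have : NeZero e := ⟨ne_zero_of_dvd_ne_zero hM he⟩
  rw [jSer_eq_jSeries]
  exact jSeries_mem M e he

/-- The generators `j(q^e)`, `e ∣ M`, of the function field of level `M`. -/
def jGen (M : ℕ) [NeZero M] (e : {e : ℕ // e ∣ M}) : FN M :=
  ⟨jSer Kbar e.1, jSer_mem (NeZero.ne M) e.2⟩

theorem coe_jGen (M : ℕ) [NeZero M] (e : {e : ℕ // e ∣ M}) :
    ((jGen M e : FN M) : LaurentSeries Kbar) = jSer Kbar e.1 := rfl

theorem jGen_eq_jBarD (M : ℕ) [NeZero M] (d : ℕ) [NeZero d] (hd : d ∣ M) :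
    jGen M ⟨d, hd⟩ = jBarD M d hd :=
  Subtype.ext (jSer_eq_jSeries d)

theorem range_jGen (M : ℕ) [NeZero M] : Set.range (jGen M) = genSetF M := by
  ext z
  constructor
  · rintro ⟨⟨e, he⟩, rfl⟩
    have : NeZero e := ⟨ne_zero_of_dvd_ne_zero (NeZero.ne M) he⟩
    exact ⟨e, inferInstance, he, jGen_eq_jBarD M e he⟩
  · rintro ⟨d, hd0, hd, rfl⟩
    exact ⟨⟨d, hd⟩, jGen_eq_jBarD M d hd⟩

/-- The swap on the divisors of `N ℓ`. -/
def swapSub {N ℓ : ℕ} (hℓ : ℓ.Prime) (e : {e : ℕ // e ∣ N * ℓ}) : {e : ℕ // e ∣ N * ℓ} :=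
  ⟨swapIdx ℓ e.1, swapIdx_dvd hℓ e.2⟩

theorem swapSub_swapSub {N ℓ : ℕ} (hℓ : ℓ.Prime) (hℓN : ¬ ℓ ∣ N) (e : {e : ℕ // e ∣ N * ℓ}) :
    swapSub hℓ (swapSub hℓ e) = e :=
  Subtype.ext (swapIdx_swapIdx hℓ hℓN e.2)

/-- Some embedding of `ℚ̄` into `ℂ`. -/
def embC : Kbar →+* ℂ :=
  haveI : Algebra.IsAlgebraic ℚ (AlgebraicClosure ℚ) := AlgebraicClosure.isAlgebraic ℚ
  ((IsAlgClosed.lift : AlgebraicClosure ℚ →ₐ[ℚ] ℂ) : AlgebraicClosure ℚ →+* ℂ)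

section Swap

variable (N ℓ : ℕ) [NeZero N] [NeZero ℓ]

theorem aeval_jGen_swap (hℓ : ℓ.Prime) (hℓN : ¬ ℓ ∣ N)
    (P : MvPolynomial {e : ℕ // e ∣ N * ℓ} Kbar)
    (hP : MvPolynomial.aeval (jGen (N * ℓ)) P = 0) :
    MvPolynomial.aeval (fun e => jGen (N * ℓ) (swapSub hℓ e)) P = 0 := by
  have h1 := congrArg (modularFunctionFieldBar (N * ℓ)).val hP
  rw [MvPolynomial.comp_aeval_apply, map_zero] at h1
  have h2 := aeval_jSer_swap embC N ℓ hℓ hℓN (fun e : {e : ℕ // e ∣ N * ℓ} => e.1)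
    (fun e => e.2) P h1
  have h3 : (modularFunctionFieldBar (N * ℓ)).val
      (MvPolynomial.aeval (fun e => jGen (N * ℓ) (swapSub hℓ e)) P) = 0 := by
    rw [MvPolynomial.comp_aeval_apply]
    exact h2
  exact Subtype.ext h3

theorem aeval_jGen_swap_iff (hℓ : ℓ.Prime) (hℓN : ¬ ℓ ∣ N)
    (P : MvPolynomial {e : ℕ // e ∣ N * ℓ} Kbar) :
    MvPolynomial.aeval (jGen (N * ℓ)) P = 0 ↔
      MvPolynomial.aeval (fun e => jGen (N * ℓ) (swapSub hℓ e)) P = 0 := by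
  refine ⟨aeval_jGen_swap N ℓ hℓ hℓN P, fun h => ?_⟩
  have h1 : MvPolynomial.aeval (jGen (N * ℓ)) (MvPolynomial.rename (swapSub hℓ) P) = 0 := by
    rw [MvPolynomial.aeval_rename]
    exact h
  have h2 := aeval_jGen_swap N ℓ hℓ hℓN _ h1
  rw [MvPolynomial.aeval_rename] at h2
  have h3 : ((fun e => jGen (N * ℓ) (swapSub hℓ e)) ∘ swapSub hℓ) = jGen (N * ℓ) := by
    funext e
    show jGen (N * ℓ) (swapSub hℓ (swapSub hℓ e)) = jGen (N * ℓ) e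
    rw [swapSub_swapSub hℓ hℓN]
  rwa [h3] at h2

theorem exists_swap (hℓ : ℓ.Prime) (hℓN : ¬ ℓ ∣ N) :
    ∃ s : FN (N * ℓ) →ₐ[Kbar] FN (N * ℓ),
      ∀ e, s (jGen (N * ℓ) e) = jGen (N * ℓ) (swapSub hℓ e) := by
  obtain ⟨g, hg, hgx⟩ := exists_algHom_of_ker_eq _ _ (aeval_jGen_swap_iff N ℓ hℓ hℓN)
  have hAN : AN (N * ℓ) = Algebra.adjoin Kbar (Set.range (jGen (N * ℓ))) := by
    rw [range_jGen]
    rfl
  let g' : AN (N * ℓ) →ₐ[Kbar] FN (N * ℓ) := g.comp (Subalgebra.inclusion hAN.le)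
  have hg' : Function.Injective g' := hg.comp (Subalgebra.inclusion_injective hAN.le)
  obtain ⟨s, hs⟩ := exists_algHom_extension (N * ℓ) g' hg'
  refine ⟨s, fun e => ?_⟩
  have hmem : jGen (N * ℓ) e ∈ AN (N * ℓ) := by
    rw [hAN]
    exact Algebra.subset_adjoin ⟨e, rfl⟩
  have h1 := hs ⟨jGen (N * ℓ) e, hmem⟩
  rw [h1]
  exact hgx e

/-- The swap endomorphism of `F_{Nℓ}`. -/
def swapHom (hℓ : ℓ.Prime) (hℓN : ¬ ℓ ∣ N) : FN (N * ℓ) →ₐ[Kbar] FN (N * ℓ) :=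
  Classical.choose (exists_swap N ℓ hℓ hℓN)

theorem swapHom_jGen (hℓ : ℓ.Prime) (hℓN : ¬ ℓ ∣ N) (e : {e : ℕ // e ∣ N * ℓ}) :
    swapHom N ℓ hℓ hℓN (jGen (N * ℓ) e) = jGen (N * ℓ) (swapSub hℓ e) :=
  Classical.choose_spec (exists_swap N ℓ hℓ hℓN) e

theorem swapHom_swapHom (hℓ : ℓ.Prime) (hℓN : ¬ ℓ ∣ N) (z : FN (N * ℓ)) :
    swapHom N ℓ hℓ hℓN (swapHom N ℓ hℓ hℓN z) = z := by
  have h : ((swapHom N ℓ hℓ hℓN).comp (swapHom N ℓ hℓ hℓN)).toRingHom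
      = RingHom.id (FN (N * ℓ)) := by
    apply ringHom_ext_of_gen
    · intro c
      show swapHom N ℓ hℓ hℓN (swapHom N ℓ hℓ hℓN (algebraMap Kbar _ c)) = algebraMap Kbar _ c
      rw [AlgHom.commutes, AlgHom.commutes]
    · intro d _ hd
      show swapHom N ℓ hℓ hℓN (swapHom N ℓ hℓ hℓN (jBarD (N * ℓ) d hd)) = jBarD (N * ℓ) d hd
      rw [← jGen_eq_jBarD, swapHom_jGen, swapHom_jGen, swapSub_swapSub hℓ hℓN]
  exact congrArg (fun f : FN (N * ℓ) →+* FN (N * ℓ) => f z) h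

/-- **The Atkin–Lehner swap** at `ℓ` on the function field of level `N ℓ`
(`ℓ` prime, `ℓ ∤ N`): the automorphism with `j(q^d) ↔ j(q^{ℓ d})`, `d ∣ N`. -/
def swapBar (hℓ : ℓ.Prime) (hℓN : ¬ ℓ ∣ N) : FN (N * ℓ) ≃ₐ[Kbar] FN (N * ℓ) :=
  AlgEquiv.ofAlgHom (swapHom N ℓ hℓ hℓN) (swapHom N ℓ hℓ hℓN)
    (AlgHom.ext (swapHom_swapHom N ℓ hℓ hℓN)) (AlgHom.ext (swapHom_swapHom N ℓ hℓ hℓN))

theorem swapBar_apply (hℓ : ℓ.Prime) (hℓN : ¬ ℓ ∣ N) (z : FN (N * ℓ)) :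
    swapBar N ℓ hℓ hℓN z = swapHom N ℓ hℓ hℓN z := rfl

theorem swapBar_swapBar (hℓ : ℓ.Prime) (hℓN : ¬ ℓ ∣ N) (z : FN (N * ℓ)) :
    swapBar N ℓ hℓ hℓN (swapBar N ℓ hℓ hℓN z) = z :=
  swapHom_swapHom N ℓ hℓ hℓN z

theorem swapBar_symm (hℓ : ℓ.Prime) (hℓN : ¬ ℓ ∣ N) :
    (swapBar N ℓ hℓ hℓN).symm = swapBar N ℓ hℓ hℓN := by
  refine AlgEquiv.ext fun z => ?_
  rw [AlgEquiv.symm_apply_eq, swapBar_swapBar]

/-- `swap (j(q^d)) = j(q^{ℓ d})` for `d ∣ N`. -/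
theorem swapBar_jBarD (hℓ : ℓ.Prime) (hℓN : ¬ ℓ ∣ N) (d : ℕ) [NeZero d] (hd : d ∣ N) :
    swapBar N ℓ hℓ hℓN (jBarD (N * ℓ) d (hd.mul_right ℓ))
      = jBarD (N * ℓ) (ℓ * d) (mul_comm N ℓ ▸ Nat.mul_dvd_mul_left ℓ hd) := by
  rw [swapBar_apply, ← jGen_eq_jBarD, swapHom_jGen, ← jGen_eq_jBarD]
  congr 1
  apply Subtype.ext
  show swapIdx ℓ d = ℓ * d
  exact swapIdx_of_not_dvd fun h => hℓN (h.trans hd)

/-- `swap (j(q^{ℓ d})) = j(q^d)` for `d ∣ N`. -/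
theorem swapBar_jBarD_mul (hℓ : ℓ.Prime) (hℓN : ¬ ℓ ∣ N) (d : ℕ) [NeZero d] (hd : d ∣ N) :
    swapBar N ℓ hℓ hℓN (jBarD (N * ℓ) (ℓ * d) (mul_comm N ℓ ▸ Nat.mul_dvd_mul_left ℓ hd))
      = jBarD (N * ℓ) d (hd.mul_right ℓ) := by
  rw [← swapBar_jBarD N ℓ hℓ hℓN d hd, swapBar_swapBar]

/-- The swap exchanges the two degeneracy maps: `swap ∘ α = β`. -/
theorem swapBar_heckeAlphaBar (hℓ : ℓ.Prime) (hℓN : ¬ ℓ ∣ N) (h : FN N) :
    swapBar N ℓ hℓ hℓN (heckeAlphaBar Kbar N ℓ h) = heckeBetaBar Kbar N ℓ h := by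
  have key : ((swapBar N ℓ hℓ hℓN : FN (N * ℓ) →ₐ[Kbar] FN (N * ℓ)).comp
      (heckeAlphaBar Kbar N ℓ)).toRingHom = (heckeBetaBar Kbar N ℓ).toRingHom := by
    apply ringHom_ext_of_gen
    · intro c
      show swapBar N ℓ hℓ hℓN (heckeAlphaBar Kbar N ℓ (algebraMap Kbar _ c))
        = heckeBetaBar Kbar N ℓ (algebraMap Kbar _ c)
      rw [AlgHom.commutes, AlgHom.commutes, AlgEquiv.commutes]
    · intro d _ hd
      show swapBar N ℓ hℓ hℓN (heckeAlphaBar Kbar N ℓ (jBarD N d hd))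
        = heckeBetaBar Kbar N ℓ (jBarD N d hd)
      have h1 : heckeAlphaBar Kbar N ℓ (jBarD N d hd) = jBarD (N * ℓ) d (hd.mul_right ℓ) := by
        apply Subtype.ext
        rw [coe_heckeAlphaBar]
        rfl
      have : NeZero (ℓ * d) := ⟨Nat.mul_ne_zero (NeZero.ne ℓ) (NeZero.ne d)⟩
      have h2 : heckeBetaBar Kbar N ℓ (jBarD N d hd)
          = jBarD (N * ℓ) (ℓ * d) (mul_comm N ℓ ▸ Nat.mul_dvd_mul_left ℓ hd) := by
        apply Subtype.ext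
        rw [coe_heckeBetaBar, coe_jBarD, coe_jBarD, jSeries, jSeries, ← coeffEmb_qExpand,
          qExpand_qExpand]
      rw [h1, h2, swapBar_jBarD N ℓ hℓ hℓN d hd]
  exact congrArg (fun f : FN N →+* FN (N * ℓ) => f h) key

/-- `swap ∘ β = α`. -/
theorem swapBar_heckeBetaBar (hℓ : ℓ.Prime) (hℓN : ¬ ℓ ∣ N) (h : FN N) :
    swapBar N ℓ hℓ hℓN (heckeBetaBar Kbar N ℓ h) = heckeAlphaBar Kbar N ℓ h := by
  rw [← swapBar_heckeAlphaBar N ℓ hℓ hℓN, swapBar_swapBar]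

/-- `q ↦ q^ℓ` as an algebra endomorphism of `L((q))`. -/
def qExpandAlgHom (L : Type*) [Field L] (ℓ : ℕ) [NeZero ℓ] :
    LaurentSeries L →ₐ[L] LaurentSeries L :=
  { qExpand L ℓ with
    commutes' := fun a => by
      show qExpand L ℓ (algebraMap L (LaurentSeries L) a) = algebraMap L (LaurentSeries L) a
      rw [algebraMap_laurentSeries_eq_single, qExpand_single, mul_zero] }

theorem qExpandAlgHom_apply (L : Type*) [Field L] (ℓ : ℕ) [NeZero ℓ] (z : LaurentSeries L) :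
    qExpandAlgHom L ℓ z = qExpand L ℓ z := rfl

/-- **The swap embedding** `w : F_{Nℓ} →ₐ[ℚ̄] ℚ̄((q))`, `w = (q ↦ q^ℓ) ∘ swap`: the embedding of
`F_{Nℓ}` over `β(F_N)` that is not a substitution `q ↦ ζ q`. -/
def swapEmb (hℓ : ℓ.Prime) (hℓN : ¬ ℓ ∣ N) : FN (N * ℓ) →ₐ[Kbar] LaurentSeries Kbar :=
  ((qExpandAlgHom Kbar ℓ).comp (modularFunctionFieldBar (N * ℓ)).val).comp
    (swapBar N ℓ hℓ hℓN : FN (N * ℓ) →ₐ[Kbar] FN (N * ℓ))

theorem swapEmb_apply (hℓ : ℓ.Prime) (hℓN : ¬ ℓ ∣ N) (z : FN (N * ℓ)) :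
    swapEmb N ℓ hℓ hℓN z
      = qExpand Kbar ℓ ((swapBar N ℓ hℓ hℓN z : FN (N * ℓ)) : LaurentSeries Kbar) := rfl

/-- `w (α h) = h(q^{ℓ²})`. -/
theorem swapEmb_heckeAlphaBar (hℓ : ℓ.Prime) (hℓN : ¬ ℓ ∣ N) (h : FN N) :
    swapEmb N ℓ hℓ hℓN (heckeAlphaBar Kbar N ℓ h) = qExpand Kbar (ℓ * ℓ) (h : LaurentSeries Kbar) := by
  rw [swapEmb_apply, swapBar_heckeAlphaBar, coe_heckeBetaBar, qExpand_qExpand]

/-- `w (β h) = h(q^ℓ)`. -/
theorem swapEmb_heckeBetaBar (hℓ : ℓ.Prime) (hℓN : ¬ ℓ ∣ N) (h : FN N) :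
    swapEmb N ℓ hℓ hℓN (heckeBetaBar Kbar N ℓ h) = qExpand Kbar ℓ (h : LaurentSeries Kbar) := by
  rw [swapEmb_apply, swapBar_heckeBetaBar, coe_heckeAlphaBar]

end Swap

end

end Fermat.Agent.S37.helper9793
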