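/-
S37, leaf KRON-FF (backup copy, helper9793): degree and conjugates of the Hecke correspondence.

For `ℓ` prime, `ℓ ∤ N`, `α = heckeAlphaBar ℚ̄ N ℓ` (inclusion), `β = heckeBetaBar ℚ̄ N ℓ`
(`q ↦ q^ℓ`):

* `finrankAlong_heckeAlphaBar`, `finrankAlong_heckeBetaBar` : `[F_{Nℓ} : α F_N] = [F_{Nℓ} : β F_N]
  = ℓ + 1`;
* `charpoly_heckeAlphaBar` : the characteristic polynomial of `α h` over `β F_N`, expanded in
  `q`, is the Hecke polynomial `(T - h(q^ℓ)) ∏_{b<ℓ} (T - h(ζ^b q^{1/ℓ}))` of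
  `helper5666_KroneckerSeries` (`heckePoly ζ ℓ h`);
* `norm_heckeAlphaBar` : the norm form.
-/
import Fermat.Agent.S37.helper9793_Swap
import Fermat.Agent.S37.helper5162_HeckeInputsModular
import Fermat.Agent.S24.helper34_StmtIndex
import Fermat.Agent.S37.helper5666_KroneckerSeries

set_option autoImplicit false

open ModularCurve AlgebraicCurve IntermediateField Polynomial

namespace Fermat.Agent.S37.helper9793

noncomputable section

open Fermat.Agent.S24 Fermat.Agent.S24.helper24 Fermat.Agent.S24.helper3176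

/-! ## Degrees -/

/-- `[F_N : ℚ̄(j)] = ψ(N)`. -/
theorem finrank_jBar (N : ℕ) [NeZero N] :
    Module.finrank Kbar⟮jBar N⟯ (FN N) = dedekindPsi N := by
  rw [(Fermat.Agent.S37.helper5162.stmt_JFinrank N).2, Fermat.Agent.S24.helper34.stmt_Index N]

/-- Tower law along an algebra hom: `[F : K(x)] · [F' : φ F] = [F' : K(φ x)]`. -/
theorem finrank_mul_finrankAlong {K F F' : Type*} [Field K] [Field F] [Field F'] [Algebra K F]
    [Algebra K F'] (φ : F →ₐ[K] F') (x : F) :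
    Module.finrank K⟮x⟯ F * finrankAlong K φ = Module.finrank K⟮φ x⟯ F' := by
  let _ := algebraAlong φ
  let alg2 : Algebra K⟮x⟯ F' := ((algebraMap F F').comp (algebraMap K⟮x⟯ F)).toAlgebra
  have : IsScalarTower K⟮x⟯ F F' := IsScalarTower.of_algebraMap_eq fun _ => rfl
  have h1 : Module.finrank K⟮x⟯ F * Module.finrank F F' = Module.finrank K⟮x⟯ F' :=
    Module.finrank_mul_finrank K⟮x⟯ F F'
  have hmap : K⟮x⟯.map φ = K⟮φ x⟯ := by
    rw [adjoin_map, Set.image_singleton]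
  let e : K⟮x⟯ ≃+* K⟮φ x⟯ :=
    ((equivMap K⟮x⟯ φ).trans (equivOfEq hmap)).toRingEquiv
  have h2 : Module.finrank K⟮x⟯ F' = Module.finrank K⟮φ x⟯ F' := by
    refine Algebra.finrank_eq_of_equiv_equiv e (RingEquiv.refl F') ?_
    ext y
    rfl
  show Module.finrank K⟮x⟯ F * Module.finrank F F' = _
  rw [h1, h2]

section Degree

variable (N ℓ : ℕ) [NeZero N] [NeZero ℓ]

/-- `[F_{Nℓ} : α F_N] = ℓ + 1` for `ℓ` prime, `ℓ ∤ N`. -/
theorem finrankAlong_heckeAlphaBar (hℓ : ℓ.Prime) (hℓN : ¬ ℓ ∣ N) :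
    finrankAlong Kbar (heckeAlphaBar Kbar N ℓ) = ℓ + 1 := by
  have h1 := finrank_mul_finrankAlong (heckeAlphaBar Kbar N ℓ) (jBar N)
  have hψ : dedekindPsi (N * ℓ) = (ℓ + 1) * dedekindPsi N := by
    rw [mul_comm N ℓ]
    exact Fermat.Agent.S20.helper34.dedekindPsi_prime_mul_of_not_dvd (NeZero.ne N) hℓ hℓN
  rw [Fermat.Agent.S37.helper5162.heckeAlphaBar_jBar, finrank_jBar, finrank_jBar, hψ] at h1
  have hpos : 0 < dedekindPsi N := by
    rw [← finrank_jBar]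
    exact Module.finrank_pos
  exact Nat.eq_of_mul_eq_mul_left hpos (h1.trans (mul_comm _ _))

/-- `[F_{Nℓ} : β F_N] = [F_{Nℓ} : α F_N]`, by the Atkin–Lehner swap. -/
theorem finrankAlong_heckeBetaBar_eq (hℓ : ℓ.Prime) (hℓN : ¬ ℓ ∣ N) :
    finrankAlong Kbar (heckeBetaBar Kbar N ℓ) = finrankAlong Kbar (heckeAlphaBar Kbar N ℓ) := by
  symm
  refine @Algebra.finrank_eq_of_equiv_equiv (FN N) (FN (N * ℓ)) _ _
    (algebraAlong (heckeAlphaBar Kbar N ℓ)) (FN N) (FN (N * ℓ)) _ _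
    (algebraAlong (heckeBetaBar Kbar N ℓ)) (RingEquiv.refl (FN N))
    (swapBar N ℓ hℓ hℓN).toRingEquiv ?_
  ext h : 1
  exact (swapBar_heckeAlphaBar N ℓ hℓ hℓN h).symm

/-- `[F_{Nℓ} : β F_N] = ℓ + 1` for `ℓ` prime, `ℓ ∤ N`. -/
theorem finrankAlong_heckeBetaBar (hℓ : ℓ.Prime) (hℓN : ¬ ℓ ∣ N) :
    finrankAlong Kbar (heckeBetaBar Kbar N ℓ) = ℓ + 1 := by
  rw [finrankAlong_heckeBetaBar_eq N ℓ hℓ hℓN, finrankAlong_heckeAlphaBar N ℓ hℓ hℓN]

end Degree

/-! ## Norm and characteristic polynomial from a full set of embeddings -/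

/-- Let `L/K` be finite (char. 0) of degree `#I`, and `e i : L → Ω` pairwise distinct embeddings
that all restrict to `ι₀` on `K`. Then the norm (resp. characteristic polynomial) of `x : L`,
mapped by `ι₀`, is the product of the `e i x` (resp. of the `T - e i x`). -/
theorem norm_charpoly_of_embeddings {K L Ω I : Type*} [Field K] [Field L] [Field Ω] [CharZero K]
    [Fintype I] (φ : K →+* L) (ι₀ : K →+* Ω) (e : I → (L →+* Ω))
    (he : ∀ i f, e i (φ f) = ι₀ f) (hinj : Function.Injective e) :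
    letI := φ.toAlgebra
    ∀ [Module.Finite K L], Module.finrank K L = Fintype.card I → ∀ x : L,
      ι₀ (Algebra.norm K x) = ∏ i, e i x ∧
      ((LinearMap.mulLeft K x).charpoly).map ι₀ = ∏ i, (X - C (e i x)) := by
  let _ := φ.toAlgebra
  intro hfin hrank x
  let algE : Algebra K (AlgebraicClosure Ω) :=
    ((algebraMap Ω (AlgebraicClosure Ω)).comp ι₀).toAlgebra
  have halgE : ∀ c : K, algebraMap K (AlgebraicClosure Ω) c
      = algebraMap Ω (AlgebraicClosure Ω) (ι₀ c) := fun c => rfl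
  have hφ : ∀ c : K, algebraMap K L c = φ c := fun c => rfl
  let σ : I → (L →ₐ[K] AlgebraicClosure Ω) := fun i =>
    { toRingHom := (algebraMap Ω (AlgebraicClosure Ω)).comp (e i)
      commutes' := fun f => by
        show algebraMap Ω (AlgebraicClosure Ω) (e i (φ f))
          = algebraMap Ω (AlgebraicClosure Ω) (ι₀ f)
        rw [he] }
  have hσ : ∀ i y, σ i y = algebraMap Ω (AlgebraicClosure Ω) (e i y) := fun i y => rfl
  have hσinj : Function.Injective σ := by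
    intro i i' h
    apply hinj
    ext y
    have h1 := congrArg (fun s : L →ₐ[K] AlgebraicClosure Ω => s y) h
    exact (algebraMap Ω (AlgebraicClosure Ω)).injective h1
  have hσbij : Function.Bijective σ := by
    rw [Fintype.bijective_iff_injective_and_card]
    exact ⟨hσinj, by rw [AlgHom.card, hrank]⟩
  have hnorm : ∀ y : L, algebraMap Ω (AlgebraicClosure Ω) (ι₀ (Algebra.norm K y))
      = ∏ i, algebraMap Ω (AlgebraicClosure Ω) (e i y) := by
    intro y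
    have h1 := Algebra.norm_eq_prod_embeddings K (AlgebraicClosure Ω) y
    rw [← Fintype.prod_bijective σ hσbij (fun i => σ i y) (fun s => s y) (fun _ => rfl)] at h1
    exact h1
  refine ⟨?_, ?_⟩
  · apply (algebraMap Ω (AlgebraicClosure Ω)).injective
    rw [hnorm, map_prod]
  · apply Polynomial.map_injective _ (algebraMap Ω (AlgebraicClosure Ω)).injective
    apply Polynomial.eq_of_infinite_eval_eq
    refine Set.infinite_of_injective_forall_mem
      (f := fun c : K => algebraMap K (AlgebraicClosure Ω) c)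
      (algebraMap K (AlgebraicClosure Ω)).injective fun c => ?_
    show Polynomial.eval _ _ = Polynomial.eval _ _
    have hdet : (LinearMap.mulLeft K x).charpoly.eval c = Algebra.norm K (algebraMap K L c - x) := by
      rw [LinearMap.eval_charpoly, Algebra.norm_apply]
      congr 1
      ext y
      simp [Algebra.smul_def]
    rw [Polynomial.map_map, Polynomial.eval_map, halgE,
      show (algebraMap Ω (AlgebraicClosure Ω)).comp ι₀ = algebraMap K (AlgebraicClosure Ω) from rfl,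
      ← halgE, Polynomial.eval₂_at_apply, hdet, halgE, hnorm, Polynomial.map_prod,
      Polynomial.eval_prod]
    refine Finset.prod_congr rfl fun i _ => ?_
    rw [Polynomial.map_sub, Polynomial.map_X, Polynomial.map_C, Polynomial.eval_sub,
      Polynomial.eval_X, Polynomial.eval_C, map_sub, map_sub, hφ, he, halgE]

/-! ## The `ℓ + 1` embeddings of `F_{Nℓ}` over `β(F_N)` and over `α(F_N)` -/

open Fermat.Agent.S37.helper5666

section Embeddings

variable (N ℓ : ℕ) [NeZero N] [NeZero ℓ]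

/-- The base embedding `f ↦ f(q^ℓ)` of `F_N` into `ℚ̄((q))`. -/
def vEmb : FN N →+* LaurentSeries Kbar :=
  (qExpand Kbar ℓ).comp ((modularFunctionFieldBar N).val : FN N →+* LaurentSeries Kbar)

omit [NeZero N] in
theorem vEmb_apply (f : FN N) : vEmb N ℓ f = qExpand Kbar ℓ (f : LaurentSeries Kbar) := rfl

/-- The `ℓ + 1` embeddings of `F_{Nℓ}` into `ℚ̄((q))` restricting to `f ↦ f(q^ℓ)` on `β(F_N)`:
the swap embedding and the `ℓ` rotations `q ↦ ζ^b q`. -/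
def betaEmb (hℓ : ℓ.Prime) (hℓN : ¬ ℓ ∣ N) (ζ : Kbarˣ) :
    Option (Fin ℓ) → (FN (N * ℓ) →+* LaurentSeries Kbar)
  | none => (swapEmb N ℓ hℓ hℓN : FN (N * ℓ) →+* LaurentSeries Kbar)
  | some b => (rot (ζ ^ (b : ℕ))).comp
      ((modularFunctionFieldBar (N * ℓ)).val : FN (N * ℓ) →+* LaurentSeries Kbar)

theorem betaEmb_none (hℓ : ℓ.Prime) (hℓN : ¬ ℓ ∣ N) (ζ : Kbarˣ) (x : FN (N * ℓ)) :
    betaEmb N ℓ hℓ hℓN ζ none x = swapEmb N ℓ hℓ hℓN x := rfl

theorem betaEmb_some (hℓ : ℓ.Prime) (hℓN : ¬ ℓ ∣ N) (ζ : Kbarˣ) (b : Fin ℓ) (x : FN (N * ℓ)) :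
    betaEmb N ℓ hℓ hℓN ζ (some b) x = rot (ζ ^ (b : ℕ)) (x : LaurentSeries Kbar) := rfl

theorem betaEmb_heckeBetaBar (hℓ : ℓ.Prime) (hℓN : ¬ ℓ ∣ N) (ζ : Kbarˣ) (hζ : ζ ^ ℓ = 1)
    (o : Option (Fin ℓ)) (f : FN N) :
    betaEmb N ℓ hℓ hℓN ζ o (heckeBetaBar Kbar N ℓ f) = vEmb N ℓ f := by
  cases o with
  | none => rw [betaEmb_none, swapEmb_heckeBetaBar, vEmb_apply]
  | some b =>
      rw [betaEmb_some, coe_heckeBetaBar, vEmb_apply]
      exact rot_qExpand_of_pow_eq_one ℓ (ζ ^ (b : ℕ))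
        (by rw [← pow_mul, mul_comm, pow_mul, hζ, one_pow]) _

theorem betaEmb_none_jBar (hℓ : ℓ.Prime) (hℓN : ¬ ℓ ∣ N) (ζ : Kbarˣ) :
    betaEmb N ℓ hℓ hℓN ζ none (jBar (N * ℓ)) = qExpand Kbar (ℓ * ℓ) (coeffEmb Kbar jq) := by
  rw [betaEmb_none, ← Fermat.Agent.S37.helper5162.heckeAlphaBar_jBar, swapEmb_heckeAlphaBar,
    coe_jBar]

theorem betaEmb_some_jBar (hℓ : ℓ.Prime) (hℓN : ¬ ℓ ∣ N) (ζ : Kbarˣ) (b : Fin ℓ) :
    betaEmb N ℓ hℓ hℓN ζ (some b) (jBar (N * ℓ)) = rot (ζ ^ (b : ℕ)) (coeffEmb Kbar jq) := by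
  rw [betaEmb_some, coe_jBar]

theorem coeff_rot_jq (u : Kbarˣ) :
    (rot u (coeffEmb Kbar jq)).coeff (-1) = ((u ^ (-1 : ℤ) : Kbarˣ) : Kbar) := by
  rw [rot_coeff, coeffEmb_coeff, coeff_jq_neg_one, map_one, mul_one]

theorem coeff_qExpand_sq_jq (hℓ : ℓ.Prime) :
    (qExpand Kbar (ℓ * ℓ) (coeffEmb Kbar jq)).coeff (-1) = 0 := by
  refine qExpand_coeff_of_not_dvd (ℓ * ℓ) _ ?_
  intro h
  have h1 : ((ℓ * ℓ : ℕ) : ℤ) ∣ 1 := (dvd_neg.mp h)
  have h2 : ℓ * ℓ ∣ 1 := by exact_mod_cast h1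
  have h3 : ℓ * ℓ = 1 := Nat.dvd_one.mp h2
  have h4 := hℓ.two_le
  nlinarith

theorem betaEmb_injective (hℓ : ℓ.Prime) (hℓN : ¬ ℓ ∣ N) (ζ : Kbarˣ) (hζ : IsPrimitiveRoot ζ ℓ) :
    Function.Injective (betaEmb N ℓ hℓ hℓN ζ) := by
  intro o o' h
  have key := congrArg
    (fun g : FN (N * ℓ) →+* LaurentSeries Kbar => (g (jBar (N * ℓ))).coeff (-1)) h
  beta_reduce at key
  cases o with
  | none =>
      cases o' with
      | none => rfl
      | some b' =>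
          rw [betaEmb_none_jBar, betaEmb_some_jBar, coeff_qExpand_sq_jq ℓ hℓ, coeff_rot_jq] at key
          exact absurd key.symm (Units.ne_zero _)
  | some b =>
      cases o' with
      | none =>
          rw [betaEmb_none_jBar, betaEmb_some_jBar, coeff_qExpand_sq_jq ℓ hℓ, coeff_rot_jq] at key
          exact absurd key (Units.ne_zero _)
      | some b' =>
          rw [betaEmb_some_jBar, betaEmb_some_jBar, coeff_rot_jq, coeff_rot_jq] at key
          have h1 : (ζ ^ (b : ℕ)) ^ (-1 : ℤ) = (ζ ^ (b' : ℕ)) ^ (-1 : ℤ) := Units.ext key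
          rw [zpow_neg_one, zpow_neg_one, inv_inj] at h1
          exact congrArg some (Fin.ext (hζ.pow_inj b.2 b'.2 h1))

/-- The `ℓ + 1` embeddings of `F_{Nℓ}` into `ℚ̄((q))` restricting to `f ↦ f(q^ℓ)` on `α(F_N)`. -/
def alphaEmb (hℓ : ℓ.Prime) (hℓN : ¬ ℓ ∣ N) (ζ : Kbarˣ) (o : Option (Fin ℓ)) :
    FN (N * ℓ) →+* LaurentSeries Kbar :=
  (betaEmb N ℓ hℓ hℓN ζ o).comp (swapBar N ℓ hℓ hℓN : FN (N * ℓ) →+* FN (N * ℓ))

theorem alphaEmb_apply (hℓ : ℓ.Prime) (hℓN : ¬ ℓ ∣ N) (ζ : Kbarˣ) (o : Option (Fin ℓ))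
    (x : FN (N * ℓ)) :
    alphaEmb N ℓ hℓ hℓN ζ o x = betaEmb N ℓ hℓ hℓN ζ o (swapBar N ℓ hℓ hℓN x) := rfl

theorem alphaEmb_heckeAlphaBar (hℓ : ℓ.Prime) (hℓN : ¬ ℓ ∣ N) (ζ : Kbarˣ) (hζ : ζ ^ ℓ = 1)
    (o : Option (Fin ℓ)) (f : FN N) :
    alphaEmb N ℓ hℓ hℓN ζ o (heckeAlphaBar Kbar N ℓ f) = vEmb N ℓ f := by
  rw [alphaEmb_apply, swapBar_heckeAlphaBar, betaEmb_heckeBetaBar N ℓ hℓ hℓN ζ hζ]

theorem alphaEmb_heckeBetaBar (hℓ : ℓ.Prime) (hℓN : ¬ ℓ ∣ N) (ζ : Kbarˣ)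
    (o : Option (Fin ℓ)) (f : FN N) :
    alphaEmb N ℓ hℓ hℓN ζ o (heckeBetaBar Kbar N ℓ f)
      = betaEmb N ℓ hℓ hℓN ζ o (heckeAlphaBar Kbar N ℓ f) := by
  rw [alphaEmb_apply, swapBar_heckeBetaBar]

theorem alphaEmb_injective (hℓ : ℓ.Prime) (hℓN : ¬ ℓ ∣ N) (ζ : Kbarˣ) (hζ : IsPrimitiveRoot ζ ℓ) :
    Function.Injective (alphaEmb N ℓ hℓ hℓN ζ) := by
  intro o o' h
  apply betaEmb_injective N ℓ hℓ hℓN ζ hζ
  ext x
  have h1 := congrArg (fun g : FN (N * ℓ) →+* LaurentSeries Kbar => g (swapBar N ℓ hℓ hℓN x)) h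
  simp only [alphaEmb_apply, swapBar_swapBar] at h1
  rw [h1]

/-- The product of the conjugates of `α h` over `β(F_N)`. -/
theorem prod_betaEmb_heckeAlphaBar (hℓ : ℓ.Prime) (hℓN : ¬ ℓ ∣ N) (ζ : Kbarˣ) (h : FN N) :
    ∏ o, betaEmb N ℓ hℓ hℓN ζ o (heckeAlphaBar Kbar N ℓ h)
      = qExpand Kbar ℓ (qExpand Kbar ℓ (h : LaurentSeries Kbar))
        * kronProd ζ ℓ (h : LaurentSeries Kbar) := by
  rw [Fintype.prod_option, betaEmb_none, swapEmb_heckeAlphaBar, qExpand_qExpand, kronProd,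
    ← Fin.prod_univ_eq_prod_range (fun b => rot (ζ ^ b) (h : LaurentSeries Kbar)) ℓ]
  refine congrArg (fun z => qExpand Kbar (ℓ * ℓ) (h : LaurentSeries Kbar) * z) ?_
  refine Finset.prod_congr rfl fun b _ => ?_
  rw [betaEmb_some, coe_heckeAlphaBar]

theorem prod_X_sub_betaEmb_heckeAlphaBar (hℓ : ℓ.Prime) (hℓN : ¬ ℓ ∣ N) (ζ : Kbarˣ) (h : FN N) :
    ∏ o, (X - C (betaEmb N ℓ hℓ hℓN ζ o (heckeAlphaBar Kbar N ℓ h)))
      = (X - C (qExpand Kbar ℓ (qExpand Kbar ℓ (h : LaurentSeries Kbar))))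
        * ∏ b ∈ Finset.range ℓ, (X - C (rot (ζ ^ b) (h : LaurentSeries Kbar))) := by
  rw [Fintype.prod_option, betaEmb_none, swapEmb_heckeAlphaBar, qExpand_qExpand,
    ← Fin.prod_univ_eq_prod_range (fun b => X - C (rot (ζ ^ b) (h : LaurentSeries Kbar))) ℓ]
  refine congrArg (fun z => (X - C (qExpand Kbar (ℓ * ℓ) (h : LaurentSeries Kbar))) * z) ?_
  refine Finset.prod_congr rfl fun b _ => ?_
  rw [betaEmb_some, coe_heckeAlphaBar]

end Embeddings

/-! ## Norm and characteristic polynomial along an algebra hom -/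

section AlongDefs

variable {K F F' : Type*} [Field K] [Field F] [Field F'] [Algebra K F] [Algebra K F']

/-- The norm `F' → F` for the `F`-algebra structure on `F'` given by `φ`
(the function underlying `helper367.normAlong`). -/
def normAlong (φ : F →ₐ[K] F') (x : F') : F :=
  letI := algebraAlong φ
  Algebra.norm F x

theorem normAlong_def (φ : F →ₐ[K] F') (x : F') :
    normAlong φ x = @Algebra.norm F F' _ _ (algebraAlong φ) x := rfl

/-- The characteristic polynomial over `F` of the multiplication by `x` on `F'`, for the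
`F`-algebra structure on `F'` given by `φ` (same definition as `helper869.charpolyAlong`). -/
def charpolyAlong (φ : F →ₐ[K] F') (hfin : FiniteAlong K φ) (x : F') : F[X] :=
  letI := algebraAlong φ
  haveI : Module.Finite F F' := hfin
  (LinearMap.mulLeft F x).charpoly

/-- Norm and characteristic polynomial along `φ` from a full set of embeddings. -/
theorem normAlong_charpolyAlong_of_embeddings [CharZero F] {Ω I : Type*} [Field Ω] [Fintype I]
    (φ : F →ₐ[K] F') (hfin : FiniteAlong K φ) (ι₀ : F →+* Ω) (e : I → (F' →+* Ω))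
    (he : ∀ i f, e i (φ f) = ι₀ f) (hinj : Function.Injective e)
    (hrank : finrankAlong K φ = Fintype.card I) (x : F') :
    ι₀ (normAlong φ x) = ∏ i, e i x ∧
      (charpolyAlong φ hfin x).map ι₀ = ∏ i, (X - C (e i x)) := by
  let := algebraAlong φ
  have : Module.Finite F F' := hfin
  exact norm_charpoly_of_embeddings φ.toRingHom ι₀ e he hinj hrank x

end AlongDefs

/-! ## Norm and characteristic polynomial of the Hecke correspondence -/

section Main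

variable (N ℓ : ℕ) [NeZero N] [NeZero ℓ]

theorem charZero_FN (M : ℕ) : CharZero (FN M) :=
  charZero_of_injective_algebraMap (algebraMap Kbar (FN M)).injective

/-- **Conjugates over `β(F_N)`.** For every `x : F_{Nℓ}`, the norm and the characteristic
polynomial of `x` over `β(F_N)`, expanded in `q^ℓ`, are the products over the `ℓ + 1` embeddings
`betaEmb`. -/
theorem norm_charpoly_along_beta (hℓ : ℓ.Prime) (hℓN : ¬ ℓ ∣ N) (ζ : Kbarˣ)
    (hζ : IsPrimitiveRoot ζ ℓ) (x : FN (N * ℓ)) :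
    vEmb N ℓ (normAlong (heckeBetaBar Kbar N ℓ) x) = ∏ o, betaEmb N ℓ hℓ hℓN ζ o x ∧
      (charpolyAlong (heckeBetaBar Kbar N ℓ)
          (Fermat.Agent.S37.helper5162.finiteAlong_heckeBetaBar N ℓ) x).map (vEmb N ℓ)
        = ∏ o, (X - C (betaEmb N ℓ hℓ hℓN ζ o x)) := by
  have := charZero_FN N
  exact normAlong_charpolyAlong_of_embeddings (heckeBetaBar Kbar N ℓ) _ (vEmb N ℓ)
    (betaEmb N ℓ hℓ hℓN ζ) (fun o f => betaEmb_heckeBetaBar N ℓ hℓ hℓN ζ hζ.pow_eq_one o f)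
    (betaEmb_injective N ℓ hℓ hℓN ζ hζ)
    (by rw [Fintype.card_option, Fintype.card_fin]; exact finrankAlong_heckeBetaBar N ℓ hℓ hℓN) x

/-- **Conjugates over `α(F_N)`.** -/
theorem norm_charpoly_along_alpha (hℓ : ℓ.Prime) (hℓN : ¬ ℓ ∣ N) (ζ : Kbarˣ)
    (hζ : IsPrimitiveRoot ζ ℓ) (x : FN (N * ℓ)) :
    vEmb N ℓ (normAlong (heckeAlphaBar Kbar N ℓ) x) = ∏ o, alphaEmb N ℓ hℓ hℓN ζ o x ∧
      (charpolyAlong (heckeAlphaBar Kbar N ℓ)
          (Fermat.Agent.S37.helper5162.finiteAlong_heckeAlphaBar N ℓ) x).map (vEmb N ℓ)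
        = ∏ o, (X - C (alphaEmb N ℓ hℓ hℓN ζ o x)) := by
  have := charZero_FN N
  exact normAlong_charpolyAlong_of_embeddings (heckeAlphaBar Kbar N ℓ) _ (vEmb N ℓ)
    (alphaEmb N ℓ hℓ hℓN ζ) (fun o f => alphaEmb_heckeAlphaBar N ℓ hℓ hℓN ζ hζ.pow_eq_one o f)
    (alphaEmb_injective N ℓ hℓ hℓN ζ hζ)
    (by rw [Fintype.card_option, Fintype.card_fin]; exact finrankAlong_heckeAlphaBar N ℓ hℓ hℓN) x

/-- **(F3b, norm)** `N_{F_{Nℓ}/β F_N}(α h) = h(q^ℓ) · kronNorm ζ ℓ h` as `q`-series, i.e. after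
`q ↦ q^ℓ` it is `h(q^{ℓ²}) ∏_{b<ℓ} h(ζ^b q)`. -/
theorem norm_heckeAlphaBar_along_beta (hℓ : ℓ.Prime) (hℓN : ¬ ℓ ∣ N) (ζ : Kbarˣ)
    (hζ : IsPrimitiveRoot ζ ℓ) (h : FN N) :
    ((normAlong (heckeBetaBar Kbar N ℓ) (heckeAlphaBar Kbar N ℓ h) : FN N) : LaurentSeries Kbar)
      = qExpand Kbar ℓ (h : LaurentSeries Kbar) * kronNorm ζ ℓ (h : LaurentSeries Kbar) := by
  apply qExpand_injective (R := Kbar) ℓ
  rw [map_mul, qExpand_kronNorm ζ ℓ hζ.pow_eq_one (hreg_of_isPrimitiveRoot ℓ ζ hζ),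
    ← prod_betaEmb_heckeAlphaBar N ℓ hℓ hℓN ζ h]
  exact (norm_charpoly_along_beta N ℓ hℓ hℓN ζ hζ (heckeAlphaBar Kbar N ℓ h)).1

/-- **(F3b, characteristic polynomial)** the characteristic polynomial of `α h` over `β(F_N)`,
as a polynomial over `q`-series, is the Hecke polynomial `heckePoly ζ ℓ h` of
`helper5666_KroneckerSeries`. -/
theorem charpoly_heckeAlphaBar_along_beta (hℓ : ℓ.Prime) (hℓN : ¬ ℓ ∣ N) (ζ : Kbarˣ)
    (hζ : IsPrimitiveRoot ζ ℓ) (h : FN N) :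
    (charpolyAlong (heckeBetaBar Kbar N ℓ)
        (Fermat.Agent.S37.helper5162.finiteAlong_heckeBetaBar N ℓ)
        (heckeAlphaBar Kbar N ℓ h)).map
        ((modularFunctionFieldBar N).val : FN N →+* LaurentSeries Kbar)
      = heckePoly ζ ℓ (h : LaurentSeries Kbar) := by
  apply Polynomial.map_injective (qExpand Kbar ℓ) (qExpand_injective (R := Kbar) ℓ)
  rw [Polynomial.map_map,
    map_qExpand_heckePoly ζ ℓ hζ.pow_eq_one (hreg_of_isPrimitiveRoot ℓ ζ hζ),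
    ← prod_X_sub_betaEmb_heckeAlphaBar N ℓ hℓ hℓN ζ h]
  exact (norm_charpoly_along_beta N ℓ hℓ hℓN ζ hζ (heckeAlphaBar Kbar N ℓ h)).2

/-- **(F3a, norm)** the norm that computes `T_ℓ = α_* β^*` on principal divisors:
`N_{F_{Nℓ}/α F_N}(β h) = h(q^ℓ) · kronNorm ζ ℓ h` as `q`-series. -/
theorem norm_heckeBetaBar_along_alpha (hℓ : ℓ.Prime) (hℓN : ¬ ℓ ∣ N) (ζ : Kbarˣ)
    (hζ : IsPrimitiveRoot ζ ℓ) (h : FN N) :
    ((normAlong (heckeAlphaBar Kbar N ℓ) (heckeBetaBar Kbar N ℓ h) : FN N) : LaurentSeries Kbar)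
      = qExpand Kbar ℓ (h : LaurentSeries Kbar) * kronNorm ζ ℓ (h : LaurentSeries Kbar) := by
  apply qExpand_injective (R := Kbar) ℓ
  rw [map_mul, qExpand_kronNorm ζ ℓ hζ.pow_eq_one (hreg_of_isPrimitiveRoot ℓ ζ hζ),
    ← prod_betaEmb_heckeAlphaBar N ℓ hℓ hℓN ζ h]
  have h1 := (norm_charpoly_along_alpha N ℓ hℓ hℓN ζ hζ (heckeBetaBar Kbar N ℓ h)).1
  simp only [alphaEmb_heckeBetaBar] at h1
  exact h1

/-- **(F3a, characteristic polynomial)** the characteristic polynomial of `β h` over `α(F_N)`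
is the same Hecke polynomial. -/
theorem charpoly_heckeBetaBar_along_alpha (hℓ : ℓ.Prime) (hℓN : ¬ ℓ ∣ N) (ζ : Kbarˣ)
    (hζ : IsPrimitiveRoot ζ ℓ) (h : FN N) :
    (charpolyAlong (heckeAlphaBar Kbar N ℓ)
        (Fermat.Agent.S37.helper5162.finiteAlong_heckeAlphaBar N ℓ)
        (heckeBetaBar Kbar N ℓ h)).map
        ((modularFunctionFieldBar N).val : FN N →+* LaurentSeries Kbar)
      = heckePoly ζ ℓ (h : LaurentSeries Kbar) := by
  apply Polynomial.map_injective (qExpand Kbar ℓ) (qExpand_injective (R := Kbar) ℓ)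
  rw [Polynomial.map_map,
    map_qExpand_heckePoly ζ ℓ hζ.pow_eq_one (hreg_of_isPrimitiveRoot ℓ ζ hζ),
    ← prod_X_sub_betaEmb_heckeAlphaBar N ℓ hℓ hℓN ζ h]
  have h1 := (norm_charpoly_along_alpha N ℓ hℓ hℓN ζ hζ (heckeBetaBar Kbar N ℓ h)).2
  simp only [alphaEmb_heckeBetaBar] at h1
  exact h1

/-- A primitive `ℓ`-th root of unity in `ℚ̄`, as a unit. -/
theorem exists_primitiveRoot_unit (ℓ : ℕ) [NeZero ℓ] : ∃ ζ : Kbarˣ, IsPrimitiveRoot ζ ℓ := by
  obtain ⟨z, hz⟩ := HasEnoughRootsOfUnity.exists_primitiveRoot Kbar ℓ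
  exact ⟨(hz.isUnit (NeZero.ne ℓ)).unit, IsPrimitiveRoot.coe_units_iff.mp hz⟩

/-- The two norms agree: `N_α(β h) = N_β(α h)` in `F_N`. -/
theorem normAlong_alpha_eq_normAlong_beta (hℓ : ℓ.Prime) (hℓN : ¬ ℓ ∣ N) (h : FN N) :
    normAlong (heckeAlphaBar Kbar N ℓ) (heckeBetaBar Kbar N ℓ h)
      = normAlong (heckeBetaBar Kbar N ℓ) (heckeAlphaBar Kbar N ℓ h) := by
  obtain ⟨ζ, hζ⟩ := exists_primitiveRoot_unit ℓ
  apply Subtype.ext
  rw [norm_heckeBetaBar_along_alpha N ℓ hℓ hℓN ζ hζ h,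
    norm_heckeAlphaBar_along_beta N ℓ hℓ hℓN ζ hζ h]

end Main

end

end Fermat.Agent.S37.helper9793
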