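import Fermat.Agent.S37.helper4136_HeckeInputsMod
import Fermat.Agent.S24.helper324_LocSpec

/-!
# S37/S18-UNRAM-FIN (helper987): levels without elliptic points are unramified at finite places

Vocabulary of the S24 specification: `Kbar = AlgebraicClosure ℚ`, `FN M = ↥(modularFunctionFieldBar M)`,
`jBar M`, Prelude `Place`, `ord`, `ramificationIndexAlong`.

* (U0) `exists_embedding_of_zero` : in the setting of `Stmt_LOC` (only the embeddings are used, no
  automorphism), every zero `v` of `y` is induced by one of the embeddings, with an explicit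
  proportionality constant `κ`, and `m = κ * ord_v y`;
* (U1) `ord_dvd_of_localDatum` : `LocalDatum M y m g → 0 < v.ord y → v.ord y ∣ m`;
  `ord_jBar_sub_dvd_two`, `ord_jBar_dvd_three`, `ord_jBar_inv_dvd_level` : its three instances;
* (U2) `ord_jBar_sub_eq_one`, `ord_jBar_sub_eq_two`, `ord_jBar_eq_three` : exact orders at a level
  without elliptic points of order 2 (resp. 3);
* (U3) `ramificationIndexAlong_eq_one` : if the LOWER level `M` has no elliptic points, a place of
  `FN M'` at which `j` is finite is unramified along any `φ : FN M →ₐ FN M'` with `φ j = j`;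
* (U4) `nuTwo_eq_zero_of_four_dvd`, `nuTwo_eq_zero_of_three_dvd`, `nuThree_eq_zero_of_two_dvd`,
  `nuThree_eq_zero_of_nine_dvd`, and the instance `ramificationIndexAlong_heckeAlphaBar`
  for `4 ∣ m` or `9 ∣ m`.
-/

set_option autoImplicit false
set_option linter.style.haveILetI false

open ModularCurve AlgebraicCurve IntermediateField CongruenceSubgroup
open scoped MatrixGroups
open Fermat.Agent.S24 Fermat.Agent.S24.helper24

namespace Fermat.Agent.S37.helper987

/-! ## (U0) every zero is induced by an embedding -/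

section Generic

variable {K F : Type} [Field K] [Field F] [Algebra K F] [IsAlgClosed K] [CharZero K]

/-- **(U0)** In the setting of `Stmt_LOC` (no automorphism needed): every zero `v` of `y` is the
place induced by one of the `n = [F : K(y)]` embeddings `ι i`, i.e. `w ∘ ι i = κ * ord_v` for a
positive integer `κ`; in particular `m = κ * ord_v y`. -/
theorem exists_embedding_of_zero {Ω : Type} [Field Ω] [Algebra K Ω] (y : F)
    (hy : Transcendental K y) [FiniteDimensional K⟮y⟯ F] (w : AddValuation Ω (WithTop ℤ))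
    (hwK : ∀ a : K, a ≠ 0 → w (algebraMap K Ω a) = 0)
    {X : Type} [Fintype X] (hcard : Fintype.card X = Module.finrank K⟮y⟯ F)
    (ι : X → (F →ₐ[K] Ω)) (hι : Function.Injective ι)
    (ξ : Ω) (hξ : ∀ i, ι i y = ξ) (m : ℕ) (hm : 0 < m) (hwξ : w ξ = ((m : ℤ) : WithTop ℤ))
    (v : Place K F) (hv : 0 < v.ord y) :
    ∃ (i : X) (κ : ℤ), 0 < κ ∧
      (∀ f : F, f ≠ 0 → w (ι i f) = ((κ * v.ord f : ℤ) : WithTop ℤ)) ∧
      (m : ℤ) = κ * v.ord y := by
  classical
  obtain ⟨s, hs, hsum⟩ := leaf_FundId K F y hy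
  have hres : ∀ v : Place K F, ∀ u ∈ v.toValuationSubring,
      ∃ a : K, u = algebraMap K F a ∨ 0 < v.ord (u - algebraMap K F a) :=
    fun v => helper324.hres_of_residue_surjective v (leaf_ResidueK K F y hy v)
  -- the integer-valued order function
  let w' : Ω → ℤ := fun z => (w z).untopD 0
  have hw' : ∀ z : Ω, z ≠ 0 → w z = ((w' z : ℤ) : WithTop ℤ) := by
    intro z hz
    have hne : w z ≠ ⊤ := fun h => hz ((AddValuation.top_iff w).mp h)
    obtain ⟨b, hb⟩ := WithTop.ne_top_iff_exists.mp hne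
    show w z = (((w z).untopD 0 : ℤ) : WithTop ℤ)
    rw [← hb]
    rfl
  have hw_mul : ∀ a b : Ω, a ≠ 0 → b ≠ 0 → w' (a * b) = w' a + w' b := by
    intro a b ha hb
    have h := AddValuation.map_mul w a b
    rw [hw' a ha, hw' b hb, hw' (a * b) (mul_ne_zero ha hb)] at h
    exact_mod_cast h
  have hw_add : ∀ a b : Ω, a ≠ 0 → b ≠ 0 → a + b ≠ 0 → min (w' a) (w' b) ≤ w' (a + b) := by
    intro a b ha hb hab
    have h := AddValuation.map_add w a b
    rw [hw' a ha, hw' b hb, hw' (a + b) hab] at h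
    exact_mod_cast h
  have hw_K : ∀ c : K, c ≠ 0 → w' (algebraMap K Ω c) = 0 := by
    intro c hc
    show (w (algebraMap K Ω c)).untopD 0 = 0
    rw [hwK c hc]
    rfl
  have hsum' : ∑ v ∈ s, v.ord y = (Fintype.card X : ℤ) := by rw [hsum, hcard]
  have hyy : ∀ i j, ι i y = ι j y := fun i j => (hξ i).trans (hξ j).symm
  have hwy : ∀ i, w' (ι i y) = (m : ℤ) := by
    intro i
    show (w (ι i y)).untopD 0 = (m : ℤ)
    rw [hξ i, hwξ]
    rfl
  have hy0 : y ≠ 0 := fun h => hy (h ▸ isAlgebraic_zero)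
  have hm' : (0 : ℤ) < (m : ℤ) := by exact_mod_cast hm
  have hyi : ∀ i, 0 < w' (ι i y) := fun i => by rw [hwy]; exact hm'
  let pl : X → Place K F := fun i => helper324.placeOf w' hw_mul hw_add hw_K (ι i) y hy0 (hyi i)
  have hκ : ∀ i, ∃ κ : ℤ, 0 < κ ∧ (m : ℤ) = κ * (pl i).ord y ∧
      ∀ f : F, f ≠ 0 → w' (ι i f) = κ * (pl i).ord f := by
    intro i
    obtain ⟨κ, hκ, hκf⟩ := helper324.exists_kappa w' hw_mul hw_add hw_K (ι i) y hy0 (hyi i)
    exact ⟨κ, hκ, by rw [← hwy i]; exact hκf y hy0, hκf⟩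
  have hpos : ∀ i, 0 < (pl i).ord y := by
    intro i
    obtain ⟨κ, hκ, hmκ, -⟩ := hκ i
    have h : 0 < κ * (pl i).ord y := by rw [← hmκ]; exact hm'
    exact pos_of_mul_pos_right h hκ.le
  have hmem : ∀ i, pl i ∈ s := fun i => (hs _).mpr (hpos i)
  -- the fibres of `pl` partition `X`
  have hcardX : (Finset.univ : Finset X).card
      = ∑ v ∈ s, (Finset.univ.filter (fun i => pl i = v)).card :=
    Finset.card_eq_sum_card_fiberwise (fun i _ => hmem i)
  -- each fibre has at most `ord_v y` elements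
  have hle : ∀ v ∈ s, ((Finset.univ.filter (fun i => pl i = v)).card : ℤ) ≤ v.ord y := by
    intro v hv
    rcases (Finset.univ.filter (fun i => pl i = v)).eq_empty_or_nonempty with h | ⟨i₀, hi₀⟩
    · rw [h]; simpa using ((hs v).mp hv).le
    · have hi₀' : pl i₀ = v := (Finset.mem_filter.mp hi₀).2
      subst hi₀'
      refine helper324.fibre_card_le w' hw_mul hw_add hw_K (ι i₀) y hy0 (hyi i₀) (hres (pl i₀)) ι hι
        (fun j => hyy j i₀) _ ?_
      intro j hj
      exact congrArg Place.toValuationSubring (Finset.mem_filter.mp hj).2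
  -- hence exactly `ord_v y`
  have heq : ∀ v ∈ s, ((Finset.univ.filter (fun i => pl i = v)).card : ℤ) = v.ord y := by
    have hsum'' : ∑ v ∈ s, ((Finset.univ.filter (fun i => pl i = v)).card : ℤ)
        = ∑ v ∈ s, v.ord y := by
      rw [hsum', ← Finset.card_univ, hcardX]; push_cast; rfl
    exact (Finset.sum_eq_sum_iff_of_le hle).mp hsum''
  -- the zero `v` is hit
  have hvs : v ∈ s := (hs v).mpr hv
  have h3 : 0 < (Finset.univ.filter (fun i => pl i = v)).card := by
    have h4 : (0 : ℤ) < ((Finset.univ.filter (fun i => pl i = v)).card : ℤ) := by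
      rw [heq v hvs]; exact hv
    exact_mod_cast h4
  obtain ⟨i, hi⟩ := Finset.card_pos.mp h3
  have hi' : pl i = v := (Finset.mem_filter.mp hi).2
  obtain ⟨κ, hκpos, hmκ, hκf⟩ := hκ i
  rw [hi'] at hmκ
  refine ⟨i, κ, hκpos, ?_, hmκ⟩
  intro f hf
  rw [hw' _ ((map_ne_zero (ι i)).mpr hf), hκf f hf, hi']

end Generic

/-! ## The landed S24 leaves in the shape used here -/

theorem stmt_JFinrank : Stmt_JFinrank :=
  helper167.stmt_JFinrank_of (fun N _ => helper6180.evDatum N) helper1200.stmt_LocalInf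

theorem stmt_LocalFinite : Stmt_LocalGeneric ∧ Stmt_Local1728 ∧ Stmt_LocalZero :=
  helper2064.local_of_merPackage helper1200.stmt_MerPackage

theorem stmt_Places : Stmt_Places :=
  helper1635.stmt_Places_of leaf_LOC leaf_FundId leaf_JTranscendental stmt_JFinrank
    stmt_LocalFinite.1 stmt_LocalFinite.2.1 stmt_LocalFinite.2.2 helper1200.stmt_LocalInf
    leaf_OrbitsT leaf_OrbitsS leaf_OrbitsST

/-- `j - c` is transcendental, `F_N` is finite over `ℚ̄(j - c)`, of degree `[SL₂(ℤ) : Γ₀(N)]`. -/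
theorem shift_data (N : ℕ) [NeZero N] (c : Kbar) :
    Transcendental Kbar (jBar N - algebraMap Kbar (FN N) c) ∧
    FiniteDimensional Kbar⟮jBar N - algebraMap Kbar (FN N) c⟯ (FN N) ∧
    Nat.card (XN N) = Module.finrank Kbar⟮jBar N - algebraMap Kbar (FN N) c⟯ (FN N) := by
  haveI : FiniteDimensional Kbar⟮jBar N⟯ (FN N) := (stmt_JFinrank N).1
  have hn : Module.finrank Kbar⟮jBar N⟯ (FN N) = Nat.card (XN N) := (stmt_JFinrank N).2
  have he := helper1635.adjoin_sub_algebraMap (K := Kbar) (jBar N) c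
  exact ⟨helper1635.transcendental_sub_algebraMap (leaf_JTranscendental N) c,
    helper1635.finiteDimensional_of_eq he.symm, by rw [helper1635.finrank_of_eq he, hn]⟩

/-! ## (U1) orders of zeros divide the local ramification index -/

/-- **(U1)** If `y` carries a local datum of index `m`, the order of every zero of `y`
divides `m`. -/
theorem ord_dvd_of_localDatum (N : ℕ) [NeZero N] (y : FN N) (m : ℕ) (g : SL(2, ℤ))
    (hy : Transcendental Kbar y) [FiniteDimensional Kbar⟮y⟯ (FN N)]
    (hcard : Nat.card (XN N) = Module.finrank Kbar⟮y⟯ (FN N))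
    (hdat : LocalDatum N y m g) (v : Place Kbar (FN N)) (hv : 0 < v.ord y) :
    v.ord y ∣ (m : ℤ) := by
  obtain ⟨Ω, _, _, w, ι, σ, ξ, hwK, hι, hξ, hm, hwξ, -, -, -⟩ := hdat
  have hpos : 0 < Module.finrank Kbar⟮y⟯ (FN N) := Module.finrank_pos
  haveI : Finite (XN N) := Nat.finite_of_card_ne_zero (by omega)
  letI : Fintype (XN N) := Fintype.ofFinite _
  have hcard' : Fintype.card (XN N) = Module.finrank Kbar⟮y⟯ (FN N) := by
    rw [← Nat.card_eq_fintype_card]; exact hcard
  obtain ⟨i, κ, -, -, hmκ⟩ :=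
    exists_embedding_of_zero y hy w hwK hcard' ι hι ξ hξ m hm hwξ v hv
  exact Dvd.intro_left κ hmκ.symm

/-- Every zero of `j - 1728` has order dividing `2` (any level). -/
theorem ord_jBar_sub_dvd_two (N : ℕ) [NeZero N] (v : Place Kbar (FN N))
    (hv : 0 < v.ord (jBar N - algebraMap Kbar (FN N) 1728)) :
    v.ord (jBar N - algebraMap Kbar (FN N) 1728) ∣ 2 := by
  obtain ⟨htr, hfd, hcard⟩ := shift_data N 1728
  haveI := hfd
  exact_mod_cast ord_dvd_of_localDatum N _ 2 ModularGroup.S htr hcard (stmt_LocalFinite.2.1 N) v hv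

/-- Every zero of `j` has order dividing `3` (any level). -/
theorem ord_jBar_dvd_three (N : ℕ) [NeZero N] (v : Place Kbar (FN N))
    (hv : 0 < v.ord (jBar N)) : v.ord (jBar N) ∣ 3 := by
  haveI : FiniteDimensional Kbar⟮jBar N⟯ (FN N) := (stmt_JFinrank N).1
  exact_mod_cast ord_dvd_of_localDatum N _ 3 (ModularGroup.S * ModularGroup.T)
    (leaf_JTranscendental N) (stmt_JFinrank N).2.symm (stmt_LocalFinite.2.2 N) v hv

/-- Every pole of `j` has order dividing the level (cusp widths divide `N`). -/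
theorem ord_jBar_inv_dvd_level (N : ℕ) [NeZero N] (v : Place Kbar (FN N))
    (hv : 0 < v.ord (jBar N)⁻¹) : v.ord (jBar N)⁻¹ ∣ (N : ℤ) := by
  haveI : FiniteDimensional Kbar⟮jBar N⟯ (FN N) := (stmt_JFinrank N).1
  have he := helper1635.adjoin_inv (K := Kbar) (jBar N)
  haveI : FiniteDimensional Kbar⟮(jBar N)⁻¹⟯ (FN N) := helper1635.finiteDimensional_of_eq he.symm
  exact ord_dvd_of_localDatum N _ N ModularGroup.T
    (helper1635.transcendental_inv (leaf_JTranscendental N))
    (by rw [helper1635.finrank_of_eq he, (stmt_JFinrank N).2]) (helper1200.stmt_LocalInf N) v hv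

/-! ## (U2) exact orders -/

/-- Over `c ∉ {0, 1728}` every zero of `j - c` is simple (any level). -/
theorem ord_jBar_sub_eq_one (N : ℕ) [NeZero N] (c : Kbar) (hc0 : c ≠ 0) (hc1728 : c ≠ 1728)
    (v : Place Kbar (FN N)) (hv : 0 < v.ord (jBar N - algebraMap Kbar (FN N) c)) :
    v.ord (jBar N - algebraMap Kbar (FN N) c) = 1 :=
  (stmt_Places N).1 c hc0 hc1728 v hv

/-- A counting lemma: positive integers `a v ≤ m` on a finite set `s` with `∑ a = m * |s|` are
all equal to `m`. -/
theorem eq_of_sum_eq_mul_card {α : Type} (s : Finset α) (a : α → ℤ) (m : ℤ)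
    (hle : ∀ v ∈ s, a v ≤ m) (hsum : ∑ v ∈ s, a v = m * s.card) : ∀ v ∈ s, a v = m := by
  have h : ∑ v ∈ s, a v = ∑ _v ∈ s, m := by
    rw [hsum, Finset.sum_const, nsmul_eq_mul, mul_comm]
  exact (Finset.sum_eq_sum_iff_of_le hle).mp h

/-- **(U2), order 2.** At a level without elliptic points of order `2`, every zero of
`j - 1728` has order exactly `2`. -/
theorem ord_jBar_sub_eq_two (N : ℕ) [NeZero N] (h2 : nuTwo N = 0) (v : Place Kbar (FN N))
    (hv : 0 < v.ord (jBar N - algebraMap Kbar (FN N) 1728)) :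
    v.ord (jBar N - algebraMap Kbar (FN N) 1728) = 2 := by
  classical
  obtain ⟨htr, hfd, hcard⟩ := shift_data N 1728
  haveI := hfd
  obtain ⟨s, hs, hsum⟩ := leaf_FundId Kbar (FN N) _ htr
  have hcount := (stmt_Places N).2.1
  rw [Nat.subtype_card s hs, h2, add_zero, ← leaf_Index N, hcard] at hcount
  refine eq_of_sum_eq_mul_card s (fun v => v.ord (jBar N - algebraMap Kbar (FN N) 1728)) 2
    (fun u hu => ?_) ?_ v ((hs v).mpr hv)
  · exact Int.le_of_dvd (by norm_num) (ord_jBar_sub_dvd_two N u ((hs u).mp hu))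
  · rw [hsum, ← hcount]; push_cast; ring

/-- **(U2), order 3.** At a level without elliptic points of order `3`, every zero of `j` has
order exactly `3`. -/
theorem ord_jBar_eq_three (N : ℕ) [NeZero N] (h3 : nuThree N = 0) (v : Place Kbar (FN N))
    (hv : 0 < v.ord (jBar N)) : v.ord (jBar N) = 3 := by
  classical
  haveI : FiniteDimensional Kbar⟮jBar N⟯ (FN N) := (stmt_JFinrank N).1
  obtain ⟨s, hs, hsum⟩ := leaf_FundId Kbar (FN N) _ (leaf_JTranscendental N)
  have hcount := (stmt_Places N).2.2.1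
  have hj0 : jBar N - algebraMap Kbar (FN N) 0 = jBar N := by rw [map_zero, sub_zero]
  rw [hj0, Nat.subtype_card s hs, h3, mul_zero, add_zero, ← leaf_Index N,
    ← (stmt_JFinrank N).2] at hcount
  refine eq_of_sum_eq_mul_card s (fun v => v.ord (jBar N)) 3 (fun u hu => ?_) ?_ v
    ((hs v).mpr hv)
  · exact Int.le_of_dvd (by norm_num) (ord_jBar_dvd_three N u ((hs u).mp hu))
  · rw [hsum, ← hcount]; push_cast; ring

/-! ## (U3) unramified at the finite places -/

/-- **(U3)** Let `M` be a level without elliptic points and `φ : F_M → F_M'` an integral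
`ℚ̄`-embedding with `φ j = j`. Every place of `F_M'` at which `j` is finite is unramified
over `F_M`. (No hypothesis on `M'`.) -/
theorem ramificationIndexAlong_eq_one (M M' : ℕ) [NeZero M] [NeZero M']
    (h2 : nuTwo M = 0) (h3 : nuThree M = 0)
    (φ : FN M →ₐ[Kbar] FN M') (hφ : φ.toRingHom.IsIntegral) (hj : φ (jBar M) = jBar M')
    (v : Place Kbar (FN M')) (hv : 0 ≤ v.ord (jBar M')) :
    v.ramificationIndexAlong φ = 1 := by
  haveI : FiniteDimensional Kbar⟮jBar M'⟯ (FN M') := (stmt_JFinrank M').1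
  rcases leaf_Center Kbar (FN M') (jBar M') (leaf_JTranscendental M') v with hneg | ⟨c, hc⟩
  · omega
  have hφc : φ (jBar M - algebraMap Kbar (FN M) c) = jBar M' - algebraMap Kbar (FN M') c := by
    rw [map_sub, hj, AlgHom.commutes]
  have key := Place.ord_restrictAlong φ hφ v (jBar M - algebraMap Kbar (FN M) c)
  rw [hφc] at key
  set e : ℕ := v.ramificationIndexAlong φ with he
  set v₀ : Place Kbar (FN M) := v.restrictAlong φ hφ with hv₀
  have hpos₀ : 0 < v₀.ord (jBar M - algebraMap Kbar (FN M) c) := by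
    have h : 0 < (e : ℤ) * v₀.ord (jBar M - algebraMap Kbar (FN M) c) := by rw [← key]; exact hc
    exact pos_of_mul_pos_right h (Int.natCast_nonneg e)
  have hepos : 0 < (e : ℤ) := by
    have h : 0 < (e : ℤ) * v₀.ord (jBar M - algebraMap Kbar (FN M) c) := by rw [← key]; exact hc
    exact pos_of_mul_pos_left h hpos₀.le
  have hfinal : (e : ℤ) = 1 := by
    by_cases hc1728 : c = 1728
    · subst hc1728
      have h₀ := ord_jBar_sub_eq_two M h2 v₀ hpos₀
      have h₁ := ord_jBar_sub_dvd_two M' v hc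
      rw [key, h₀] at h₁
      have := Int.le_of_dvd (by norm_num) h₁
      omega
    by_cases hc0 : c = 0
    · subst hc0
      have hj0 : jBar M - algebraMap Kbar (FN M) 0 = jBar M := by rw [map_zero, sub_zero]
      have hj0' : jBar M' - algebraMap Kbar (FN M') 0 = jBar M' := by rw [map_zero, sub_zero]
      rw [hj0] at hpos₀
      rw [hj0, hj0'] at key
      rw [hj0'] at hc
      have h₀ := ord_jBar_eq_three M h3 v₀ hpos₀
      have h₁ := ord_jBar_dvd_three M' v hc
      rw [key, h₀] at h₁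
      have := Int.le_of_dvd (by norm_num) h₁
      omega
    · have h₁ := ord_jBar_sub_eq_one M' c hc0 hc1728 v hc
      rw [key] at h₁
      exact Int.eq_one_of_mul_eq_one_right hepos.le h₁
  exact_mod_cast hfinal

/-! ## (U4) levels divisible by `4` or `9` have no elliptic points -/

theorem nuTwo_eq_zero_of_four_dvd {N : ℕ} (h : 4 ∣ N) : nuTwo N = 0 := by
  unfold nuTwo
  rw [Nat.card_eq_zero]
  left
  refine ⟨fun x => ?_⟩
  have hx := congrArg (ZMod.castHom h (ZMod 4)) x.2
  rw [map_add, map_pow, map_one, map_zero] at hx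
  revert hx
  generalize ZMod.castHom h (ZMod 4) x.1 = y
  revert y
  decide

theorem nuTwo_eq_zero_of_three_dvd {N : ℕ} (h : 3 ∣ N) : nuTwo N = 0 := by
  unfold nuTwo
  rw [Nat.card_eq_zero]
  left
  refine ⟨fun x => ?_⟩
  have hx := congrArg (ZMod.castHom h (ZMod 3)) x.2
  rw [map_add, map_pow, map_one, map_zero] at hx
  revert hx
  generalize ZMod.castHom h (ZMod 3) x.1 = y
  revert y
  decide

theorem nuThree_eq_zero_of_two_dvd {N : ℕ} (h : 2 ∣ N) : nuThree N = 0 := by
  unfold nuThree
  rw [Nat.card_eq_zero]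
  left
  refine ⟨fun x => ?_⟩
  have hx := congrArg (ZMod.castHom h (ZMod 2)) x.2
  rw [map_add, map_add, map_pow, map_one, map_zero] at hx
  revert hx
  generalize ZMod.castHom h (ZMod 2) x.1 = y
  revert y
  decide

theorem nuThree_eq_zero_of_nine_dvd {N : ℕ} (h : 9 ∣ N) : nuThree N = 0 := by
  unfold nuThree
  rw [Nat.card_eq_zero]
  left
  refine ⟨fun x => ?_⟩
  have hx := congrArg (ZMod.castHom h (ZMod 9)) x.2
  rw [map_add, map_add, map_pow, map_one, map_zero] at hx
  revert hx
  generalize ZMod.castHom h (ZMod 9) x.1 = y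
  revert y
  decide

/-- A level divisible by `4` or by `9` has no elliptic points. -/
theorem no_elliptic_of_dvd {m : ℕ} (hm : 4 ∣ m ∨ 9 ∣ m) : nuTwo m = 0 ∧ nuThree m = 0 := by
  rcases hm with hm | hm
  · exact ⟨nuTwo_eq_zero_of_four_dvd hm,
      nuThree_eq_zero_of_two_dvd (dvd_trans (by norm_num) hm)⟩
  · exact ⟨nuTwo_eq_zero_of_three_dvd (dvd_trans (by norm_num) hm),
      nuThree_eq_zero_of_nine_dvd hm⟩

/-- **(U4)** For `4 ∣ m` or `9 ∣ m`: every place of `F_{mN}` at which `j` is finite is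
unramified over `F_m` (along the inclusion `heckeAlphaBar`). -/
theorem ramificationIndexAlong_heckeAlphaBar (m N : ℕ) [NeZero m] [NeZero N]
    (hm : 4 ∣ m ∨ 9 ∣ m) (v : Place Kbar (FN (m * N))) (hv : 0 ≤ v.ord (jBar (m * N))) :
    v.ramificationIndexAlong (heckeAlphaBar Kbar m N) = 1 :=
  ramificationIndexAlong_eq_one m (m * N) (no_elliptic_of_dvd hm).1 (no_elliptic_of_dvd hm).2
    (heckeAlphaBar Kbar m N) (helper4136.heckeAlphaBar_integral m N)
    (helper4136.heckeAlphaBar_jBar m N) v hv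

end Fermat.Agent.S37.helper987
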